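/-
PROJECT V (S36), Stage-0 design-independent slice (helper18): DESCENT TO THE INERTIA FIELD.

Abstract setting: `F / K` a function field in the prelude's language (`Place`, `Divisor`, `Pic0`),
Riemann's theorem as a hypothesis (`S18.NonSpecial.RiemannHyp`), principal divisors, and a subgroup
`H` of the semilinear automorphisms of `F / K` fixing a place `P` (a rational cusp).

* `exists_invariant_divisor` : every `H`-invariant class `y : Pic0 K F` is the class of an
  `H`-invariant divisor of degree zero (canonical effective representative of `y + m [P]` for the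
  least `m` with `ℓ ≥ 1`; rigidity `ℓ = 1`).
* `exists_invariant_kummer` : if moreover `n • y = 0` and there is a *leading coefficient*
  `lc : F → K` (multiplicative on constants, `H`-equivariant, nonzero on nonzero functions), then
  `y = [D]` with `D` `H`-invariant and `n • D = div f` for a function `f` FIXED by `H`.
  No Hilbert 90 and no continuity is needed: `f` is normalised by `lc f = 1`.
-/
import Mathlib
import Fermat.Prelude.Def_AlgebraicCurve_BaseChangeGalois
import Fermat.Prelude.Def_AlgebraicCurve_Repartitions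
import Fermat.Agent.S18.NonSpecial

set_option autoImplicit false

noncomputable section

namespace Fermat.Agent.S36.K0Descent

open AlgebraicCurve Fermat.Agent.S18.NonSpecial

variable {K F : Type*} [Field K] [Field F] [Algebra K F]

/-! ### elementary Riemann-Roch facts (local copies, prelude language only) -/

theorem mem_rr_iff_of_ne_zero {D : Divisor K F} {f : F} (hf : f ≠ 0) :
    f ∈ riemannRochSpace D ↔ ∀ v : Place K F, -D v ≤ v.ord f := by
  rw [mem_riemannRochSpace_iff]
  exact forall_congr' fun v => or_iff_right hf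

theorem degree_nonneg_of_nonneg {D : Divisor K F} (hD : 0 ≤ D) : 0 ≤ Divisor.degree D := by
  have h1 : Divisor.degree D = D.sum fun v n => n * (v.deg : ℤ) := by
    simp [Divisor.degree, Finsupp.liftAddHom_apply]
  rw [h1]
  exact Finsupp.sum_nonneg fun v _ => mul_nonneg (Finsupp.le_def.mp hD v) (Int.natCast_nonneg _)

/-- `L(D) = 0` for `deg D < 0` -/
theorem ell_eq_zero_of_degree_neg [HasPrincipalDivisors K F] {D : Divisor K F}
    (hD : Divisor.degree D < 0) : ell D = 0 := by
  have hbot : riemannRochSpace D = ⊥ := by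
    rw [Submodule.eq_bot_iff]
    intro f hf
    by_contra hf0
    obtain ⟨E, hE, hE0⟩ := HasPrincipalDivisors.exists_divisor (K := K) f hf0
    have hpos : 0 ≤ D + E := by
      rw [Finsupp.le_def]
      intro w
      have := (mem_rr_iff_of_ne_zero hf0).mp hf w
      rw [Finsupp.add_apply, hE w]
      simp only [Finsupp.coe_zero, Pi.zero_apply]
      omega
    have := degree_nonneg_of_nonneg hpos
    rw [map_add, hE0] at this
    omega
  unfold ell
  rw [hbot, finrank_bot]

theorem mul_mem_rr_iff {D E : Divisor K F} {f : F} (hf : f ≠ 0) (hE : ∀ v, E v = v.ord f)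
    (g : F) : g ∈ riemannRochSpace (D + E) ↔ f * g ∈ riemannRochSpace D := by
  rcases eq_or_ne g 0 with rfl | hg
  · simp
  rw [mem_rr_iff_of_ne_zero hg, mem_rr_iff_of_ne_zero (mul_ne_zero hf hg)]
  refine forall_congr' fun v => ?_
  rw [v.ord_mul hf hg, Finsupp.add_apply, hE v]
  constructor <;> intro h <;> linarith

/-- `ℓ(D + div f) = ℓ(D)` -/
theorem ell_add_div {D E : Divisor K F} {f : F} (hf : f ≠ 0) (hE : ∀ v, E v = v.ord f) :
    ell (D + E) = ell D := by
  let φ : riemannRochSpace (D + E) →ₗ[K] riemannRochSpace D :=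
    { toFun := fun g => ⟨f * g, (mul_mem_rr_iff hf hE g).mp g.2⟩
      map_add' := fun a b => Subtype.ext (by simp [mul_add])
      map_smul' := fun c a => Subtype.ext (by simp) }
  have hbij : Function.Bijective φ := by
    constructor
    · intro a b hab
      have h1 : f * (a : F) = f * (b : F) := congrArg Subtype.val hab
      exact Subtype.ext (mul_left_cancel₀ hf h1)
    · intro b
      have hb : f⁻¹ * (b : F) ∈ riemannRochSpace (D + E) := by
        rw [mul_mem_rr_iff hf hE, ← mul_assoc, mul_inv_cancel₀ hf, one_mul]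
        exact b.2
      exact ⟨⟨f⁻¹ * b, hb⟩, Subtype.ext (show f * (f⁻¹ * (b : F)) = b by
        rw [← mul_assoc, mul_inv_cancel₀ hf, one_mul])⟩
  exact (LinearEquiv.ofBijective φ hbij).finrank_eq

/-! ### semilinear automorphisms and effective divisors -/

theorem smul_nonneg (g : SemilinearAut K F) {D : Divisor K F} (hD : 0 ≤ D) : 0 ≤ g • D := by
  rw [Finsupp.le_def]
  intro w
  rw [SemilinearAut.divisor_smul_apply]
  exact Finsupp.le_def.mp hD _

/-! ### the invariant representative -/

/-- **Invariant classes are classes of invariant divisors** (in the presence of a fixed place). -/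
theorem exists_invariant_divisor {g : ℕ} (HR : RiemannHyp K F g) [HasPrincipalDivisors K F]
    (H : Subgroup (SemilinearAut K F)) (P : Place K F) (hP : ∀ h ∈ H, h • P = P)
    (y : Pic0 K F) (hy : ∀ h ∈ H, h • y = y) :
    ∃ D : Divisor.degZero (K := K) (F := F), Pic0.mk D = y ∧
      ∀ h ∈ H, h • (D : Divisor K F) = (D : Divisor K F) := by
  classical
  obtain ⟨D0, rfl⟩ := Pic0.mk_surjective y
  have hD0 : Divisor.degree (D0 : Divisor K F) = 0 := D0.2
  have hdegP : (P.deg : ℤ) = 1 := by rw [HR.deg_one P]; rfl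
  -- the divisors `D0 + m P`
  let Dm : ℕ → Divisor K F := fun m => (D0 : Divisor K F) + Finsupp.single P (m : ℤ)
  have hdegDm : ∀ m, Divisor.degree (Dm m) = m := fun m => by
    show Divisor.degree ((D0 : Divisor K F) + Finsupp.single P (m : ℤ)) = m
    rw [map_add, hD0, Divisor.degree_single, hdegP]; ring
  have hex : ∃ m, 1 ≤ ell (Dm m) := by
    refine ⟨g, ?_⟩
    have := riemann_ineq HR (Dm g)
    rw [hdegDm] at this
    omega
  obtain ⟨m0, h1le, hmin0⟩ : ∃ m0, 1 ≤ ell (Dm m0) ∧ ∀ k < m0, ¬ 1 ≤ ell (Dm k) :=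
    ⟨Nat.find hex, Nat.find_spec hex, fun k hk => Nat.find_min hex hk⟩
  -- the divisor one step below has no sections
  have hbelow : ell (Dm m0 - Finsupp.single P 1) = 0 := by
    rcases Nat.eq_zero_or_pos m0 with h0 | hpos
    · apply ell_eq_zero_of_degree_neg
      rw [map_sub, hdegDm, Divisor.degree_single, hdegP, h0]; norm_num
    · have hk : m0 - 1 < m0 := Nat.sub_lt hpos one_pos
      have hmin := hmin0 _ hk
      have heq : Dm m0 - Finsupp.single P 1 = Dm (m0 - 1) := by
        show (D0 : Divisor K F) + Finsupp.single P (m0 : ℤ) - Finsupp.single P 1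
          = (D0 : Divisor K F) + Finsupp.single P ((m0 - 1 : ℕ) : ℤ)
        rw [add_sub_assoc, ← Finsupp.single_sub]
        congr 2
        omega
      rw [heq]
      omega
  have hle1 : ell (Dm m0) ≤ 1 := by
    have h := ell_add_single_le HR.finite (Dm m0 - Finsupp.single P 1) (HR.deg_one P)
    rw [sub_add_cancel, hbelow] at h
    exact h
  have hell1 : ell (Dm m0) = 1 := le_antisymm hle1 h1le
  -- a nonzero section and its divisor
  have := HR.finite (Dm m0)
  have hnt : Nontrivial (riemannRochSpace (Dm m0)) :=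
    Module.nontrivial_of_finrank_pos (R := K) (Nat.lt_of_lt_of_le one_pos h1le)
  obtain ⟨f, hf⟩ := exists_ne (0 : riemannRochSpace (Dm m0))
  have hf0 : (f : F) ≠ 0 := fun h0 => hf (Subtype.ext h0)
  obtain ⟨Df, hDf, hDfdeg⟩ := HasPrincipalDivisors.exists_divisor (K := K) (f : F) hf0
  -- the canonical effective divisor
  set E : Divisor K F := Dm m0 + Df with hE
  have hEpos : 0 ≤ E := by
    rw [Finsupp.le_def]
    intro v
    have h1 := (mem_rr_iff_of_ne_zero hf0).mp f.2 v
    rw [hE, Finsupp.add_apply, hDf v]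
    simp only [Finsupp.coe_zero, Pi.zero_apply]
    omega
  have hEell : ell E = 1 := by rw [hE, ell_add_div hf0 hDf, hell1]
  -- the representative
  set D : Divisor K F := (D0 : Divisor K F) + Df with hD
  have hDdeg : Divisor.degree D = 0 := by rw [hD, map_add, hD0, hDfdeg, add_zero]
  have hED : E = D + Finsupp.single P (m0 : ℤ) := by
    rw [hE, hD]
    show (D0 : Divisor K F) + Finsupp.single P (m0 : ℤ) + Df
      = (D0 : Divisor K F) + Df + Finsupp.single P (m0 : ℤ)
    abel
  have hmk : Pic0.mk ⟨D, hDdeg⟩ = Pic0.mk D0 := by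
    refine (QuotientAddGroup.eq).mpr ?_
    rw [AddSubgroup.mem_addSubgroupOf]
    refine ⟨(f : F)⁻¹, inv_ne_zero hf0, fun v => ?_⟩
    have : ((-(⟨D, hDdeg⟩ : Divisor.degZero (K := K) (F := F)) + D0 :
        Divisor.degZero (K := K) (F := F)) : Divisor K F) = -Df := by
      show -D + (D0 : Divisor K F) = -Df
      rw [hD]; abel
    rw [this, Finsupp.neg_apply, hDf v, Place.ord_inv]
  refine ⟨⟨D, hDdeg⟩, hmk, fun h hh => ?_⟩
  show h • D = D
  -- `h • D - D` is principal because the class is invariant
  have hcls : h • Pic0.mk (⟨D, hDdeg⟩ : Divisor.degZero (K := K) (F := F))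
      = Pic0.mk ⟨D, hDdeg⟩ := by rw [hmk]; exact hy h hh
  rw [SemilinearAut.pic0_smul_mk] at hcls
  have hprin : Divisor.IsPrincipal (h • D - D) := by
    have h1 := (QuotientAddGroup.eq).mp hcls.symm
    rw [AddSubgroup.mem_addSubgroupOf] at h1
    have h2 : ((-(⟨D, hDdeg⟩ : Divisor.degZero (K := K) (F := F)) +
        SemilinearAut.degZeroSMulHom h ⟨D, hDdeg⟩ :
        Divisor.degZero (K := K) (F := F)) : Divisor K F) = h • D - D := by
      show -D + ((SemilinearAut.degZeroSMulHom h ⟨D, hDdeg⟩ :
        Divisor.degZero (K := K) (F := F)) : Divisor K F) = h • D - D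
      rw [SemilinearAut.coe_degZeroSMulHom]; abel
    rw [h2] at h1
    exact h1
  -- rigidity of `E`
  have hhE : h • E = h • D + Finsupp.single P (m0 : ℤ) := by
    rw [hED, smul_add, SemilinearAut.smul_single, hP h hh]
  have hprinE : Divisor.IsPrincipal (h • E - E) := by
    have : h • E - E = h • D - D := by rw [hhE, hED]; abel
    rw [this]; exact hprin
  have hrig := eq_of_effective_of_isPrincipal_sub hEpos hEell (smul_nonneg h hEpos) hprinE
  have : h • D + Finsupp.single P (m0 : ℤ) = D + Finsupp.single P (m0 : ℤ) := by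
    rw [← hhE, hrig, hED]
  exact add_right_cancel this

/-! ### functions without zeros and poles are constants -/

theorem exists_const_of_ord_eq_zero {g : ℕ} (HR : RiemannHyp K F g) {u : F} (hu : u ≠ 0)
    (h : ∀ w : Place K F, w.ord u = 0) : ∃ c : K, c ≠ 0 ∧ u = algebraMap K F c := by
  have humem : u ∈ riemannRochSpace (0 : Divisor K F) := by
    rw [mem_rr_iff_of_ne_zero hu]
    intro w
    rw [h w]; simp
  have h1mem : (1 : F) ∈ riemannRochSpace (0 : Divisor K F) := one_mem_riemannRochSpace le_rfl
  have hne : (⟨1, h1mem⟩ : riemannRochSpace (0 : Divisor K F)) ≠ 0 := by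
    intro h0
    have := congrArg Subtype.val h0
    simp at this
  obtain ⟨c, hc⟩ := (finrank_eq_one_iff_of_nonzero' (⟨1, h1mem⟩ :
    riemannRochSpace (0 : Divisor K F)) hne).mp HR.ell_zero ⟨u, humem⟩
  have hcu : u = algebraMap K F c := by
    have := congrArg Subtype.val hc
    simp only [Submodule.coe_smul] at this
    rw [← this, Algebra.smul_def, mul_one]
  refine ⟨c, fun hc0 => hu ?_, hcu⟩
  rw [hcu, hc0, map_zero]

/-! ### the invariant Kummer function -/

/-- A *leading coefficient* for the action of `H`: a map `lc : F → K`, nonzero on nonzero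
functions, homogeneous for constants and `H`-equivariant. -/
structure LeadingCoeff (H : Subgroup (SemilinearAut K F)) (lc : F → K) : Prop where
  ne_zero : ∀ f : F, f ≠ 0 → lc f ≠ 0
  const_mul : ∀ (c : K) (f : F), lc (algebraMap K F c * f) = c * lc f
  equivariant : ∀ h ∈ H, ∀ f : F, lc (h • f) = SemilinearAut.baseAut h (lc f)

/-- **Invariant torsion classes are invariant Kummer classes.**  If `y` is `H`-invariant and
`n • y = 0`, then `y = [D]` with `D` invariant and `n D = div f`, `f` FIXED by `H`. -/
theorem exists_invariant_kummer {g : ℕ} (HR : RiemannHyp K F g) [HasPrincipalDivisors K F]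
    (H : Subgroup (SemilinearAut K F)) (P : Place K F) (hP : ∀ h ∈ H, h • P = P)
    {lc : F → K} (hlc : LeadingCoeff H lc) {n : ℕ}
    (y : Pic0 K F) (hy : ∀ h ∈ H, h • y = y) (hny : (n : ℤ) • y = 0) :
    ∃ (D : Divisor.degZero (K := K) (F := F)) (f : F), Pic0.mk D = y ∧ f ≠ 0 ∧
      (∀ w : Place K F, w.ord f = n * (D : Divisor K F) w) ∧
      (∀ h ∈ H, h • (D : Divisor K F) = (D : Divisor K F)) ∧ (∀ h ∈ H, h • f = f) ∧
      lc f = 1 := by
  obtain ⟨D, rfl, hDinv⟩ := exists_invariant_divisor HR H P hP y hy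
  -- `n D` is principal
  have h1 : Pic0.mk ((n : ℤ) • D) = 0 := hny
  have h2 : (n : ℤ) • D ∈ (Divisor.principal (K := K) (F := F)).addSubgroupOf
      (Divisor.degZero (K := K) (F := F)) := (QuotientAddGroup.eq_zero_iff _).mp h1
  rw [AddSubgroup.mem_addSubgroupOf] at h2
  obtain ⟨f0, hf0, hf0D⟩ := h2
  have hordf0 : ∀ w : Place K F, w.ord f0 = n * (D : Divisor K F) w := fun w => by
    rw [← hf0D w]; simp
  -- normalise
  have hc0 : lc f0 ≠ 0 := hlc.ne_zero f0 hf0
  set f : F := algebraMap K F (lc f0)⁻¹ * f0 with hf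
  have hcF : algebraMap K F (lc f0)⁻¹ ≠ 0 := by
    rw [Ne, map_eq_zero]; exact inv_ne_zero hc0
  have hfne : f ≠ 0 := mul_ne_zero hcF hf0
  have hlcf : lc f = 1 := by rw [hf, hlc.const_mul, inv_mul_cancel₀ hc0]
  have hordf : ∀ w : Place K F, w.ord f = n * (D : Divisor K F) w := fun w => by
    rw [hf, w.ord_mul hcF hf0, hordf0 w]
    have : w.ord (algebraMap K F (lc f0)⁻¹) = 0 := by
      have hmem : algebraMap K F (lc f0)⁻¹ ∈ w.toValuationSubring := w.algebraMap_mem' _
      have hmem' : algebraMap K F (lc f0) ∈ w.toValuationSubring := w.algebraMap_mem' _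
      have e1 : algebraMap K F (lc f0)⁻¹ * algebraMap K F (lc f0) = 1 := by
        rw [← map_mul, inv_mul_cancel₀ hc0, map_one]
      have e2 : algebraMap K F (lc f0) * algebraMap K F (lc f0)⁻¹ = 1 := by
        rw [mul_comm]; exact e1
      let u : w.toValuationSubringˣ :=
        ⟨⟨_, hmem⟩, ⟨_, hmem'⟩, Subtype.ext e1, Subtype.ext e2⟩
      exact w.ord_coe_unit u
    rw [this, zero_add]
  refine ⟨D, f, rfl, hfne, hordf, hDinv, fun h hh => ?_, hlcf⟩
  -- `h • f / f` has trivial divisor
  have hhf : h • f ≠ 0 := by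
    rw [Ne, smul_eq_zero_iff_eq]; exact hfne
  have hord : ∀ w : Place K F, w.ord (h • f * f⁻¹) = 0 := fun w => by
    rw [w.ord_mul hhf (inv_ne_zero hfne), w.ord_inv, hordf w]
    have e1 : w.ord (h • f) = (h⁻¹ • w).ord f := by
      have e := SemilinearAut.ord_smul h (h⁻¹ • w) f
      rwa [smul_inv_smul] at e
    rw [e1, hordf (h⁻¹ • w)]
    have e2 : (D : Divisor K F) (h⁻¹ • w) = (D : Divisor K F) w := by
      have e := SemilinearAut.divisor_smul_apply h (D : Divisor K F) w
      rw [hDinv h hh] at e
      exact e.symm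
    rw [e2]; ring
  obtain ⟨c, hc, hcu⟩ := exists_const_of_ord_eq_zero HR (mul_ne_zero hhf (inv_ne_zero hfne)) hord
  have hhfc : h • f = algebraMap K F c * f := by
    rw [← hcu, mul_assoc, inv_mul_cancel₀ hfne, mul_one]
  have hc1 : c = 1 := by
    have e1 : lc (h • f) = 1 := by rw [hlc.equivariant h hh, hlcf, map_one]
    rw [hhfc, hlc.const_mul, hlcf, mul_one] at e1
    exact e1
  rw [hhfc, hc1, map_one, one_mul]

end Fermat.Agent.S36.K0Descent
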