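/-
PROJECT V (S36), Stage-0 design-independent slice (helper18): DESCENT TO THE INERTIA FIELD,
the Laurent model.

`F = laurentBaseChange L F₀` (`L / ℚ` any field extension, `F₀ ⊆ ℚ((q))`), with the coefficientwise
Galois action `arithmeticGalois F₀`.

* `cuspPlace` : the place of `F / L` given by the order of the `q`-expansion (the cusp `∞`); it is
  fixed by the whole arithmetic Galois group (`arithmeticGalois_smul_cuspPlace`).
* `qLead` : the leading coefficient of the `q`-expansion, a `LeadingCoeff` for every subgroup of the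
  arithmetic Galois group (`leadingCoeff_qLead`).
* `exists_invariant_kummer_laurent` : for a subgroup `I` of `Gal(L/ℚ)`, every `I`-invariant class
  `y` of `Pic0 L F` with `n • y = 0` is `[D]` with `D` `I`-invariant, `n D = div f`, and `f` fixed
  by `I` (so `f` and `D` are rational over the fixed field of `I`).
* `exists_invariant_kummer_X0` : the same for `JZero N`, with no hypothesis.
-/
import Mathlib
import Fermat.Prelude.Def_ModularCurve_ArithmeticGalois
import Fermat.Agent.S36.K0Descent

set_option autoImplicit false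

noncomputable section

namespace Fermat.Agent.S36.K0DescentLaurent

open AlgebraicCurve ModularCurve HahnSeries
open scoped Pointwise

/-! ### a valuation subring cut out by an integer valued order is a PID -/

theorem isPrincipalIdealRing_of_order {F : Type*} [Field F] (A : ValuationSubring F) (o : F → ℤ)
    (hmem : ∀ x : F, x ≠ 0 → (x ∈ A ↔ 0 ≤ o x))
    (hmul : ∀ x y : F, x ≠ 0 → y ≠ 0 → o (x * y) = o x + o y) (hone : o 1 = 0) :
    IsPrincipalIdealRing A := by
  classical
  have hinv : ∀ x : F, x ≠ 0 → o x⁻¹ = -o x := fun x hx => by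
    have h := hmul x x⁻¹ hx (inv_ne_zero hx)
    rw [mul_inv_cancel₀ hx, hone] at h
    omega
  refine ⟨fun I => ?_⟩
  by_cases hI : I = ⊥
  · subst hI
    exact ⟨⟨0, by simp⟩⟩
  · obtain ⟨g₁, hg₁I, hg₁0⟩ := Submodule.exists_mem_ne_zero_of_ne_bot hI
    have hS : ∃ n : ℕ, ∃ g : A, g ∈ I ∧ g ≠ 0 ∧ (o (g : F)).toNat = n :=
      ⟨_, g₁, hg₁I, hg₁0, rfl⟩
    obtain ⟨g, hgI, hg0, hgn⟩ := Nat.find_spec hS
    refine ⟨⟨g, le_antisymm (fun h hh => ?_) ?_⟩⟩
    · rw [Submodule.mem_span_singleton]
      rcases eq_or_ne h 0 with rfl | hh0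
      · exact ⟨0, by simp⟩
      · have hmin : Nat.find hS ≤ (o (h : F)).toNat := Nat.find_min' hS ⟨h, hh, hh0, rfl⟩
        have hgF : (g : F) ≠ 0 := fun h0 => hg0 (Subtype.ext h0)
        have hhF : (h : F) ≠ 0 := fun h0 => hh0 (Subtype.ext h0)
        have hgn0 : 0 ≤ o (g : F) := (hmem _ hgF).mp g.2
        have hhn0 : 0 ≤ o (h : F) := (hmem _ hhF).mp h.2
        have hle : o (g : F) ≤ o (h : F) := by
          rw [← hgn] at hmin
          omega
        have hq : (h : F) / (g : F) ∈ A := by
          rw [hmem _ (div_ne_zero hhF hgF), div_eq_mul_inv, hmul _ _ hhF (inv_ne_zero hgF),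
            hinv _ hgF]
          omega
        refine ⟨⟨_, hq⟩, Subtype.ext ?_⟩
        show (h : F) / (g : F) * (g : F) = (h : F)
        field_simp
    · rw [Submodule.span_le, Set.singleton_subset_iff]
      exact hgI

/-! ### orders of Laurent series -/

section Order

variable {R S : Type*} [Field R] [Field S]

theorem order_coeffMap (φ : R →+* S) (x : LaurentSeries R) :
    (coeffMap φ x).order = x.order := by
  rcases eq_or_ne x 0 with rfl | hx
  · simp
  have hne : coeffMap φ x ≠ 0 := (map_ne_zero_iff _ (coeffMap φ).injective).mpr hx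
  refine le_antisymm ?_ ?_
  · refine order_le_of_coeff_ne_zero ?_
    rw [coeffMap_coeff]
    exact (map_ne_zero_iff _ φ.injective).mpr (fun h => hx (coeff_order_eq_zero.mp h))
  · rw [le_order_iff_forall hne]
    intro i hi
    rw [coeffMap_coeff, coeff_eq_zero_of_lt_order hi, map_zero]

theorem order_inv_eq (x : LaurentSeries R) (hx : x ≠ 0) : x⁻¹.order = -x.order := by
  have h := HahnSeries.order_mul hx (inv_ne_zero hx)
  rw [mul_inv_cancel₀ hx, order_one] at h
  omega

theorem order_algebraMap_eq_zero (c : R) : (algebraMap R (LaurentSeries R) c).order = 0 := by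
  rw [algebraMap_laurentSeries_eq_single]
  rcases eq_or_ne c 0 with rfl | hc
  · simp
  · exact order_single hc

end Order

/-! ### the cusp `∞` of the Laurent model -/

section Cusp

variable {L : Type*} [Field L] [Algebra ℚ L]
variable (F₀ : IntermediateField ℚ (LaurentSeries ℚ))

/-- the order of the `q`-expansion -/
def qOrd (x : laurentBaseChange L F₀) : ℤ := (x : LaurentSeries L).order

theorem qOrd_mul (x y : laurentBaseChange L F₀) (hx : x ≠ 0) (hy : y ≠ 0) :
    qOrd F₀ (x * y) = qOrd F₀ x + qOrd F₀ y := by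
  have hx' : (x : LaurentSeries L) ≠ 0 := fun h => hx (Subtype.ext h)
  have hy' : (y : LaurentSeries L) ≠ 0 := fun h => hy (Subtype.ext h)
  exact HahnSeries.order_mul hx' hy'

theorem qOrd_one : qOrd F₀ (1 : laurentBaseChange L F₀) = 0 := by
  show ((1 : laurentBaseChange L F₀) : LaurentSeries L).order = 0
  exact order_one

theorem qOrd_inv (x : laurentBaseChange L F₀) (hx : x ≠ 0) : qOrd F₀ x⁻¹ = -qOrd F₀ x := by
  have hx' : (x : LaurentSeries L) ≠ 0 := fun h => hx (Subtype.ext h)
  exact order_inv_eq _ hx'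

/-- the ring of functions regular at the cusp `∞` -/
def cuspRing : ValuationSubring (laurentBaseChange L F₀) where
  carrier := {x | 0 ≤ qOrd F₀ x}
  mul_mem' := by
    intro x y hx hy
    rcases eq_or_ne x 0 with rfl | hx0
    · simp [qOrd]
    rcases eq_or_ne y 0 with rfl | hy0
    · simp [qOrd]
    show 0 ≤ qOrd F₀ (x * y)
    rw [qOrd_mul F₀ x y hx0 hy0]
    exact add_nonneg hx hy
  one_mem' := by
    show 0 ≤ qOrd F₀ 1
    rw [qOrd_one]
  add_mem' := by
    intro x y hx hy
    show 0 ≤ ((x + y : laurentBaseChange L F₀) : LaurentSeries L).order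
    by_cases hxy : (x : LaurentSeries L) + (y : LaurentSeries L) = 0
    · have : ((x + y : laurentBaseChange L F₀) : LaurentSeries L) = 0 := hxy
      rw [this, order_zero]
    · exact le_trans (le_min hx hy) (min_order_le_order_add hxy)
  zero_mem' := by
    show 0 ≤ ((0 : laurentBaseChange L F₀) : LaurentSeries L).order
    simp
  neg_mem' := by
    intro x hx
    show 0 ≤ ((-x : laurentBaseChange L F₀) : LaurentSeries L).order
    have : ((-x : laurentBaseChange L F₀) : LaurentSeries L) = -(x : LaurentSeries L) := rfl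
    rw [this, order_neg]
    exact hx
  mem_or_inv_mem' := by
    intro x
    rcases eq_or_ne x 0 with rfl | hx0
    · left; show 0 ≤ qOrd F₀ 0; simp [qOrd]
    by_cases h : 0 ≤ qOrd F₀ x
    · exact Or.inl h
    · right
      show 0 ≤ qOrd F₀ x⁻¹
      rw [qOrd_inv F₀ x hx0]
      omega

theorem mem_cuspRing (x : laurentBaseChange L F₀) : x ∈ cuspRing F₀ ↔ 0 ≤ qOrd F₀ x := Iff.rfl

/-- **The cusp `∞`**, as a place of the Laurent model (it needs a function with a pole there). -/
def cuspPlace (hpole : ∃ x : laurentBaseChange L F₀, qOrd F₀ x < 0) :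
    Place L (laurentBaseChange L F₀) where
  toValuationSubring := cuspRing F₀
  algebraMap_mem' a := by
    rw [mem_cuspRing]
    show 0 ≤ ((algebraMap L (laurentBaseChange L F₀) a : laurentBaseChange L F₀) :
      LaurentSeries L).order
    have : ((algebraMap L (laurentBaseChange L F₀) a : laurentBaseChange L F₀) :
      LaurentSeries L) = algebraMap L (LaurentSeries L) a := rfl
    rw [this, order_algebraMap_eq_zero]
  ne_top' := by
    obtain ⟨x, hx⟩ := hpole
    intro h
    have hmem : x ∈ cuspRing F₀ := h ▸ ValuationSubring.mem_top x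
    rw [mem_cuspRing] at hmem
    omega
  isPrincipalIdealRing' :=
    isPrincipalIdealRing_of_order (cuspRing F₀) (qOrd F₀) (fun x _ => mem_cuspRing F₀ x)
      (fun x y hx hy => qOrd_mul F₀ x y hx hy) (qOrd_one F₀)

theorem qOrd_arithmeticGalois_smul (σ : L ≃ₐ[ℚ] L) (x : laurentBaseChange L F₀) :
    qOrd F₀ (arithmeticGalois F₀ σ • x) = qOrd F₀ x := by
  show ((arithmeticGalois F₀ σ • x : laurentBaseChange L F₀) : LaurentSeries L).order = _
  rw [coe_arithmeticGalois_smul, order_coeffMap]
  rfl

/-- the cusp `∞` is fixed by the arithmetic Galois action -/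
theorem arithmeticGalois_smul_cuspPlace (hpole : ∃ x : laurentBaseChange L F₀, qOrd F₀ x < 0)
    (σ : L ≃ₐ[ℚ] L) : arithmeticGalois F₀ σ • cuspPlace F₀ hpole = cuspPlace F₀ hpole := by
  apply Place.ext
  rw [SemilinearAut.smul_toValuationSubring]
  ext x
  rw [ValuationSubring.mem_pointwise_smul_iff_inv_smul_mem]
  show (arithmeticGalois F₀ σ)⁻¹ • x ∈ cuspRing F₀ ↔ x ∈ cuspRing F₀
  rw [mem_cuspRing, mem_cuspRing, ← map_inv, qOrd_arithmeticGalois_smul]

/-! ### the leading coefficient -/

/-- the leading coefficient of the `q`-expansion -/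
def qLead (x : laurentBaseChange L F₀) : L := (x : LaurentSeries L).leadingCoeff

theorem qLead_ne_zero (x : laurentBaseChange L F₀) (hx : x ≠ 0) : qLead F₀ x ≠ 0 := by
  have hx' : (x : LaurentSeries L) ≠ 0 := fun h => hx (Subtype.ext h)
  exact leadingCoeff_ne_zero.mpr hx'

theorem qLead_const_mul (c : L) (x : laurentBaseChange L F₀) :
    qLead F₀ (algebraMap L (laurentBaseChange L F₀) c * x) = c * qLead F₀ x := by
  show ((algebraMap L (laurentBaseChange L F₀) c * x : laurentBaseChange L F₀) :
    LaurentSeries L).leadingCoeff = c * (x : LaurentSeries L).leadingCoeff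
  have : ((algebraMap L (laurentBaseChange L F₀) c * x : laurentBaseChange L F₀) :
      LaurentSeries L) = algebraMap L (LaurentSeries L) c * (x : LaurentSeries L) := rfl
  rw [this, leadingCoeff_mul, algebraMap_laurentSeries_eq_single, leadingCoeff_of_single]

theorem leadingCoeff_coeffMap {R S : Type*} [Field R] [Field S] (φ : R →+* S)
    (x : LaurentSeries R) : (coeffMap φ x).leadingCoeff = φ x.leadingCoeff := by
  rw [leadingCoeff_eq, leadingCoeff_eq, order_coeffMap, coeffMap_coeff]

theorem qLead_arithmeticGalois_smul (σ : L ≃ₐ[ℚ] L) (x : laurentBaseChange L F₀) :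
    qLead F₀ (arithmeticGalois F₀ σ • x) = σ (qLead F₀ x) := by
  show ((arithmeticGalois F₀ σ • x : laurentBaseChange L F₀) : LaurentSeries L).leadingCoeff = _
  rw [coe_arithmeticGalois_smul, leadingCoeff_coeffMap]
  rfl

/-- `qLead` is a leading coefficient for the image of any subgroup of `Gal(L/ℚ)` -/
theorem leadingCoeff_qLead (I : Subgroup (L ≃ₐ[ℚ] L)) :
    K0Descent.LeadingCoeff (I.map (arithmeticGalois F₀)) (qLead F₀) where
  ne_zero := qLead_ne_zero F₀
  const_mul := qLead_const_mul F₀
  equivariant := by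
    rintro h ⟨σ, -, rfl⟩ f
    rw [qLead_arithmeticGalois_smul, baseAut_arithmeticGalois]
    rfl

/-! ### descent -/

open Fermat.Agent.S18.NonSpecial in
/-- **Descent to the fixed field of `I`** in the Laurent model. -/
theorem exists_invariant_kummer_laurent {g : ℕ}
    (HR : RiemannHyp L (laurentBaseChange L F₀) g)
    [HasPrincipalDivisors L (laurentBaseChange L F₀)]
    (hpole : ∃ x : laurentBaseChange L F₀, qOrd F₀ x < 0)
    (I : Subgroup (L ≃ₐ[ℚ] L)) {n : ℕ} (y : Pic0 L (laurentBaseChange L F₀))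
    (hy : ∀ σ ∈ I, σ • y = y) (hny : (n : ℤ) • y = 0) :
    ∃ (D : Divisor.degZero (K := L) (F := laurentBaseChange L F₀))
      (f : laurentBaseChange L F₀), Pic0.mk D = y ∧ f ≠ 0 ∧
      (∀ w : Place L (laurentBaseChange L F₀),
        w.ord f = n * (D : Divisor L (laurentBaseChange L F₀)) w) ∧
      (∀ σ ∈ I, arithmeticGalois F₀ σ • (D : Divisor L (laurentBaseChange L F₀))
        = (D : Divisor L (laurentBaseChange L F₀))) ∧
      (∀ σ ∈ I, arithmeticGalois F₀ σ • f = f) ∧ qLead F₀ f = 1 := by
  obtain ⟨D, f, hD, hf, hord, hDinv, hfinv, hlc⟩ :=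
    K0Descent.exists_invariant_kummer HR (I.map (arithmeticGalois F₀)) (cuspPlace F₀ hpole)
      (by rintro h ⟨σ, -, rfl⟩; exact arithmeticGalois_smul_cuspPlace F₀ hpole σ)
      (leadingCoeff_qLead F₀ I) y
      (by rintro h ⟨σ, hσ, rfl⟩; exact hy σ hσ) hny
  exact ⟨D, f, hD, hf, hord, fun σ hσ => hDinv _ ⟨σ, hσ, rfl⟩,
    fun σ hσ => hfinv _ ⟨σ, hσ, rfl⟩, hlc⟩

end Cusp

end Fermat.Agent.S36.K0DescentLaurent
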