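/-
PROJECT V (S36), Stage-0 design-independent slice (helper18): DESCENT TO THE INERTIA FIELD at
`X₀(N)`, with no hypothesis.

`exists_invariant_kummer_X0` : for a subgroup `I` of `Gal(ℚ̄/ℚ)` (an inertia group), every
`I`-invariant `y : JZero N` with `n • y = 0` is the class of an `I`-invariant divisor `D` of degree
zero with `n D = div f` for a function `f` of `ℚ̄(X₀(N))` FIXED by `I` (coefficientwise), normalised
by `qLead f = 1`.
-/
import Mathlib
import Fermat.Agent.S36.K0DescentLaurent
import Fermat.Agent.S18.A.RiemannFk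
import Fermat.Agent.S18.A.Instances

set_option autoImplicit false
set_option linter.unusedSectionVars false
set_option linter.style.haveILetI false

noncomputable section

namespace Fermat.Agent.S36.K0DescentX0

open AlgebraicCurve ModularCurve HahnSeries
open Fermat.Agent.S36.K0DescentLaurent

local notation "Kb" => AlgebraicClosure ℚ

variable (N : ℕ) [NeZero N]

/-- `j` has a pole at the cusp `∞` -/
theorem exists_pole :
    ∃ x : laurentBaseChange Kb (modularFunctionFieldFull N),
      qOrd (modularFunctionFieldFull N) x < 0 := by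
  have hmem : jq ∈ modularFunctionFieldFull N := by
    have h := jqd_mem_full N (one_dvd N)
    rwa [qExpand_one_apply] at h
  refine ⟨⟨coeffEmb Kb jq, coeffEmb_mem_laurentBaseChange Kb hmem⟩, ?_⟩
  show (coeffEmb Kb jq).order < 0
  have h1 : (coeffEmb Kb jq).order = jq.order := order_coeffMap _ _
  rw [h1]
  have h2 : jq.order ≤ -1 := order_le_of_coeff_ne_zero (by rw [coeff_jq_neg_one]; exact one_ne_zero)
  omega

/-- **Descent to the inertia field at `X₀(N)`.** -/
theorem exists_invariant_kummer_X0 (I : Subgroup (Kb ≃ₐ[ℚ] Kb)) {n : ℕ} (y : JZero N)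
    (hy : ∀ σ ∈ I, σ • y = y) (hny : (n : ℤ) • y = 0) :
    ∃ (D : Divisor.degZero (K := Kb) (F := modularFunctionFieldBar N))
      (f : modularFunctionFieldBar N), Pic0.mk D = y ∧ f ≠ 0 ∧
      (∀ w : Place Kb (modularFunctionFieldBar N),
        w.ord f = n * (D : Divisor Kb (modularFunctionFieldBar N)) w) ∧
      (∀ σ ∈ I, arithmeticGalois (modularFunctionFieldFull N) σ •
        (D : Divisor Kb (modularFunctionFieldBar N)) = (D : Divisor Kb (modularFunctionFieldBar N))) ∧
      (∀ σ ∈ I, arithmeticGalois (modularFunctionFieldFull N) σ • f = f) ∧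
      qLead (modularFunctionFieldFull N) f = 1 := by
  obtain ⟨g, HR⟩ := Fermat.Agent.S18.A.RiemannFk.exists_riemannHyp_FL N
  haveI : HasPrincipalDivisors Kb (modularFunctionFieldBar N) :=
    Fermat.Agent.S18.A.Instances.hasPrincipalDivisors_bar N
  exact exists_invariant_kummer_laurent (modularFunctionFieldFull N) HR (exists_pole N) I y hy hny

end Fermat.Agent.S36.K0DescentX0
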