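/-
PROJECT V (S36), slice V-ChartOverlap (helper12), chain #2528 (D6): **the overlap of the two charts.**

`O[φ, φ⁻¹] = Algebra.adjoin O {φ, φ⁻¹}` is the localisation of `O[φ]` away from `φ`, and the
overlap ring `overlap O φ := integralClosure O[φ, φ⁻¹] F` is `A_φ[1/φ] = A_{1/φ}[φ]`:

* `exists_pow_mul_mem_adjoin` : `c ∈ O[φ, φ⁻¹] → ∃ n, φ ^ n * c ∈ O[φ]`;
* `isLocalization_away` : `O[φ, φ⁻¹]` is `IsLocalization.Away φ` of `O[φ]`;
* `mem_overlap_iff` : `x ∈ overlap O φ ↔ ∃ n, φ ^ n * x ∈ chart O φ`;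
  `mem_overlap_iff_inv` : `x ∈ overlap O φ ↔ ∃ n, φ⁻¹ ^ n * x ∈ chart O φ⁻¹`
  (the hypotheses `hMA`, `hMB` of `FormalLift.FGPoly.finite_quotient_of_span`);
  `chart_le_overlap`, `chart_inv_le_overlap`;
* `overlap_props` : noetherian, integrally closed, fraction field `F`;
* `mem_overlap_of_gauss_places` : valuation criterion (vertical: as for the charts; horizontal:
  the valuation subrings containing `K` in which `φ` is a unit).
-/
import Mathlib
import Fermat.Agent.S36.ChartRing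

set_option autoImplicit false
set_option linter.unusedSectionVars false
set_option linter.style.haveILetI false
set_option linter.unusedVariables false

namespace Fermat.Agent.S36.ChartOverlap

open Polynomial IntermediateField Fermat.Agent.S36.ChartRing

section Basic

variable {O : Type*} [CommRing O] {F : Type*} [Field F] [Algebra O F]

theorem adjoin_le_adjoin_pair (φ : F) :
    Algebra.adjoin O ({φ} : Set F) ≤ Algebra.adjoin O ({φ, φ⁻¹} : Set F) :=
  Algebra.adjoin_mono (by simp)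

theorem adjoin_inv_le_adjoin_pair (φ : F) :
    Algebra.adjoin O ({φ⁻¹} : Set F) ≤ Algebra.adjoin O ({φ, φ⁻¹} : Set F) :=
  Algebra.adjoin_mono (by simp)

theorem pair_comm (φ : F) : ({φ⁻¹, φ⁻¹⁻¹} : Set F) = {φ, φ⁻¹} := by
  rw [inv_inv, Set.pair_comm]

/-- `O[φ, φ⁻¹] = O[φ][1/φ]`, elementwise. -/
theorem exists_pow_mul_mem_adjoin (φ : F) {c : F}
    (hc : c ∈ Algebra.adjoin O ({φ, φ⁻¹} : Set F)) :
    ∃ n : ℕ, φ ^ n * c ∈ Algebra.adjoin O ({φ} : Set F) := by
  induction hc using Algebra.adjoin_induction with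
  | mem x hx =>
    rcases hx with rfl | hx
    · exact ⟨0, by rw [pow_zero, one_mul]; exact Algebra.self_mem_adjoin_singleton O _⟩
    · rw [Set.mem_singleton_iff] at hx
      subst hx
      refine ⟨1, ?_⟩
      by_cases h0 : φ = 0
      · rw [h0, inv_zero, mul_zero]; exact Subalgebra.zero_mem _
      · rw [pow_one, mul_inv_cancel₀ h0]; exact Subalgebra.one_mem _
  | algebraMap r => exact ⟨0, by rw [pow_zero, one_mul]; exact Subalgebra.algebraMap_mem _ r⟩
  | add x y _ _ hx hy =>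
    obtain ⟨n, hn⟩ := hx
    obtain ⟨m, hm⟩ := hy
    refine ⟨n + m, ?_⟩
    have : φ ^ (n + m) * (x + y) = φ ^ m * (φ ^ n * x) + φ ^ n * (φ ^ m * y) := by
      rw [pow_add]; ring
    rw [this]
    have hφ : φ ∈ Algebra.adjoin O ({φ} : Set F) := Algebra.self_mem_adjoin_singleton O φ
    exact Subalgebra.add_mem _ (Subalgebra.mul_mem _ (Subalgebra.pow_mem _ hφ m) hn)
      (Subalgebra.mul_mem _ (Subalgebra.pow_mem _ hφ n) hm)
  | mul x y _ _ hx hy =>
    obtain ⟨n, hn⟩ := hx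
    obtain ⟨m, hm⟩ := hy
    refine ⟨n + m, ?_⟩
    have : φ ^ (n + m) * (x * y) = (φ ^ n * x) * (φ ^ m * y) := by
      rw [pow_add]; ring
    rw [this]
    exact Subalgebra.mul_mem _ hn hm

/-- the inclusion `O[φ] → O[φ, φ⁻¹]` -/
noncomputable def inclPair (φ : F) :
    Algebra.adjoin O ({φ} : Set F) →ₐ[O] Algebra.adjoin O ({φ, φ⁻¹} : Set F) :=
  Subalgebra.inclusion (adjoin_le_adjoin_pair φ)

/-- `φ` as an element of `O[φ]` -/
def gen (O : Type*) [CommRing O] {F : Type*} [Field F] [Algebra O F] (φ : F) :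
    Algebra.adjoin O ({φ} : Set F) := ⟨φ, Algebra.self_mem_adjoin_singleton O φ⟩

theorem coe_gen (φ : F) : ((gen O φ : Algebra.adjoin O ({φ} : Set F)) : F) = φ := rfl

theorem coe_inclPair (φ : F) (b : Algebra.adjoin O ({φ} : Set F)) :
    ((inclPair (O := O) φ b : Algebra.adjoin O ({φ, φ⁻¹} : Set F)) : F) = (b : F) :=
  Subalgebra.coe_inclusion _ b

theorem inclPair_injective (φ : F) : Function.Injective (inclPair (O := O) φ) :=
  Subalgebra.inclusion_injective _

theorem isUnit_inclPair_gen_pow {φ : F} (hφ0 : φ ≠ 0) (n : ℕ) :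
    IsUnit (inclPair (O := O) φ (gen O φ ^ n)) := by
  have hinv : φ⁻¹ ∈ Algebra.adjoin O ({φ, φ⁻¹} : Set F) := Algebra.subset_adjoin (by simp)
  refine IsUnit.of_mul_eq_one (⟨φ⁻¹, hinv⟩ ^ n) ?_
  apply Subtype.ext
  rw [Subalgebra.coe_mul, coe_inclPair, Subalgebra.coe_pow, Subalgebra.coe_pow, coe_gen,
    Subalgebra.coe_one, ← mul_pow, mul_inv_cancel₀ hφ0, one_pow]

theorem exists_mul_inclPair_eq (φ : F) (z : Algebra.adjoin O ({φ, φ⁻¹} : Set F)) :
    ∃ (b : Algebra.adjoin O ({φ} : Set F)) (n : ℕ),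
      z * inclPair (O := O) φ (gen O φ ^ n) = inclPair (O := O) φ b := by
  obtain ⟨n, hn⟩ := exists_pow_mul_mem_adjoin (O := O) φ z.2
  refine ⟨⟨φ ^ n * (z : F), hn⟩, n, ?_⟩
  apply Subtype.ext
  rw [Subalgebra.coe_mul, coe_inclPair, coe_inclPair, Subalgebra.coe_pow, coe_gen, mul_comm]

theorem isLocalization_away {φ : F} (hφ0 : φ ≠ 0) :
    letI : Algebra (Algebra.adjoin O ({φ} : Set F)) (Algebra.adjoin O ({φ, φ⁻¹} : Set F)) :=
      (inclPair (O := O) φ).toRingHom.toAlgebra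
    IsLocalization.Away (gen O φ) (Algebra.adjoin O ({φ, φ⁻¹} : Set F)) := by
  letI : Algebra (Algebra.adjoin O ({φ} : Set F)) (Algebra.adjoin O ({φ, φ⁻¹} : Set F)) :=
    (inclPair (O := O) φ).toRingHom.toAlgebra
  have hmap : ∀ b : Algebra.adjoin O ({φ} : Set F),
      algebraMap (Algebra.adjoin O ({φ} : Set F)) (Algebra.adjoin O ({φ, φ⁻¹} : Set F)) b =
        inclPair (O := O) φ b := fun b => rfl
  refine (isLocalization_iff _ _).2 ⟨?_, ?_, ?_⟩
  · intro y
    obtain ⟨n, hn⟩ := y.2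
    rw [hmap, ← hn]
    exact isUnit_inclPair_gen_pow hφ0 n
  · intro z
    obtain ⟨b, n, h⟩ := exists_mul_inclPair_eq (O := O) φ z
    exact ⟨(b, ⟨gen O φ ^ n, n, rfl⟩), by rw [hmap, hmap]; exact h⟩
  · intro x y hxy
    rw [hmap, hmap] at hxy
    exact ⟨1, by rw [inclPair_injective φ hxy]⟩

end Basic

/-! ### the overlap ring -/

section Overlap

variable {O : Type*} [CommRing O] {F : Type*} [Field F] [Algebra O F]

/-- the overlap ring `A_φ[1/φ] = A_{1/φ}[φ]`: the integral closure of `O[φ, φ⁻¹]` in `F` -/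
abbrev overlap (O : Type*) [CommRing O] {F : Type*} [Field F] [Algebra O F] (φ : F) :
    Subalgebra (Algebra.adjoin O ({φ, φ⁻¹} : Set F)) F :=
  integralClosure (Algebra.adjoin O ({φ, φ⁻¹} : Set F)) F

theorem isIntegral_pair_of_isIntegral (φ : F) {x : F}
    (hx : IsIntegral (Algebra.adjoin O ({φ} : Set F)) x) :
    IsIntegral (Algebra.adjoin O ({φ, φ⁻¹} : Set F)) x := by
  obtain ⟨p, hp, hpx⟩ := hx
  refine ⟨p.map (inclPair (O := O) φ).toRingHom, hp.map _, ?_⟩
  rw [eval₂_map]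
  have : (algebraMap (Algebra.adjoin O ({φ, φ⁻¹} : Set F)) F).comp
      (inclPair (O := O) φ).toRingHom = algebraMap (Algebra.adjoin O ({φ} : Set F)) F := by
    ext b
    exact coe_inclPair φ b
  rw [this]
  exact hpx

theorem chart_le_overlap (φ : F) {x : F} (hx : x ∈ chart O φ) : x ∈ overlap O φ :=
  isIntegral_pair_of_isIntegral φ hx

theorem mem_overlap_iff {φ : F} (hφ0 : φ ≠ 0) (x : F) :
    x ∈ overlap O φ ↔ ∃ n : ℕ, φ ^ n * x ∈ chart O φ := by
  letI : Algebra (Algebra.adjoin O ({φ} : Set F)) (Algebra.adjoin O ({φ, φ⁻¹} : Set F)) :=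
    (inclPair (O := O) φ).toRingHom.toAlgebra
  haveI : IsLocalization.Away (gen O φ) (Algebra.adjoin O ({φ, φ⁻¹} : Set F)) :=
    isLocalization_away hφ0
  haveI : IsScalarTower (Algebra.adjoin O ({φ} : Set F)) (Algebra.adjoin O ({φ, φ⁻¹} : Set F)) F :=
    IsScalarTower.of_algebraMap_eq fun b => (coe_inclPair φ b).symm
  constructor
  · intro hx
    obtain ⟨⟨m, n, hn⟩, hm⟩ := IsIntegral.exists_multiple_integral_of_isLocalization
      (Submonoid.powers (gen O φ)) x hx
    refine ⟨n, ?_⟩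
    have h1 : (⟨m, n, hn⟩ : Submonoid.powers (gen O φ)) • x = φ ^ n * x := by
      rw [Submonoid.smul_def, Algebra.smul_def]
      change ((m : Algebra.adjoin O ({φ} : Set F)) : F) * x = _
      rw [← hn]
      change ((gen O φ ^ n : Algebra.adjoin O ({φ} : Set F)) : F) * x = _
      rw [Subalgebra.coe_pow, coe_gen]
    rw [h1] at hm
    exact hm
  · rintro ⟨n, hn⟩
    have h1 : IsIntegral (Algebra.adjoin O ({φ, φ⁻¹} : Set F)) (φ ^ n * x) :=
      isIntegral_pair_of_isIntegral φ hn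
    have hinv : φ⁻¹ ∈ Algebra.adjoin O ({φ, φ⁻¹} : Set F) := Algebra.subset_adjoin (by simp)
    have h2 : IsIntegral (Algebra.adjoin O ({φ, φ⁻¹} : Set F)) (φ⁻¹ ^ n) :=
      (isIntegral_algebraMap (x := (⟨φ⁻¹, hinv⟩ : Algebra.adjoin O ({φ, φ⁻¹} : Set F)))).pow n
    have h3 : x = φ⁻¹ ^ n * (φ ^ n * x) := by
      rw [← mul_assoc, ← mul_pow, inv_mul_cancel₀ hφ0, one_pow, one_mul]
    rw [h3]
    exact h2.mul h1

theorem mem_overlap_iff_inv {φ : F} (hφ0 : φ ≠ 0) (x : F) :
    x ∈ overlap O φ ↔ ∃ n : ℕ, φ⁻¹ ^ n * x ∈ chart O φ⁻¹ := by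
  rw [← mem_overlap_iff (O := O) (inv_ne_zero hφ0) x]
  change IsIntegral _ x ↔ IsIntegral _ x
  rw [pair_comm]

theorem chart_inv_le_overlap {φ : F} (hφ0 : φ ≠ 0) {x : F} (hx : x ∈ chart O φ⁻¹) :
    x ∈ overlap O φ :=
  (mem_overlap_iff_inv hφ0 x).2 ⟨0, by rw [pow_zero, one_mul]; exact hx⟩

end Overlap

/-! ### structure of `O[φ, φ⁻¹]` and of the overlap ring; valuation criterion -/

section Props

variable {O : Type*} [CommRing O] [IsDomain O] [IsDiscreteValuationRing O] {K : Type*} [Field K]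
  [Algebra O K] [IsFractionRing O K] {F : Type*} [Field F] [Algebra K F] [Algebra O F]
  [IsScalarTower O K F]

theorem adjoin_pair_le_adjoin (φ : F) :
    Algebra.adjoin O ({φ, φ⁻¹} : Set F) ≤ (K⟮φ⟯.toSubalgebra.restrictScalars O) :=
  Algebra.adjoin_le (by
    rintro x (rfl | hx)
    · exact mem_adjoin_simple_self K _
    · rw [Set.mem_singleton_iff] at hx
      subst hx
      exact K⟮φ⟯.inv_mem (mem_adjoin_simple_self K φ))

/-- the inclusion `O[φ, φ⁻¹] → K(φ)` -/
noncomputable def pairIncl (φ : F) : Algebra.adjoin O ({φ, φ⁻¹} : Set F) →+* K⟮φ⟯ :=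
  (Subalgebra.inclusion (adjoin_pair_le_adjoin (O := O) (K := K) φ)).toRingHom

theorem coe_pairIncl (φ : F) (b : Algebra.adjoin O ({φ, φ⁻¹} : Set F)) :
    ((pairIncl (K := K) φ b : K⟮φ⟯) : F) = (b : F) :=
  Subalgebra.coe_inclusion _ b

/-- all the structure on `O[φ, φ⁻¹]` at once -/
theorem pair_props {φ : F} (hφ : Transcendental K φ) :
    letI : Algebra (Algebra.adjoin O ({φ, φ⁻¹} : Set F)) K⟮φ⟯ := (pairIncl (K := K) φ).toAlgebra
    IsNoetherianRing (Algebra.adjoin O ({φ, φ⁻¹} : Set F)) ∧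
      IsIntegrallyClosed (Algebra.adjoin O ({φ, φ⁻¹} : Set F)) ∧
      IsFractionRing (Algebra.adjoin O ({φ, φ⁻¹} : Set F)) K⟮φ⟯ := by
  letI a1 : Algebra (Algebra.adjoin O ({φ, φ⁻¹} : Set F)) K⟮φ⟯ := (pairIncl (K := K) φ).toAlgebra
  letI a2 : Algebra (Algebra.adjoin O ({φ} : Set F)) (Algebra.adjoin O ({φ, φ⁻¹} : Set F)) :=
    (inclPair (O := O) φ).toRingHom.toAlgebra
  letI a3 : Algebra (Algebra.adjoin O ({φ} : Set F)) K⟮φ⟯ := (adjoinIncl (K := K) φ).toAlgebra
  have hφ0 : φ ≠ 0 := fun h => hφ (h ▸ isAlgebraic_zero)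
  haveI : IsLocalization.Away (gen O φ) (Algebra.adjoin O ({φ, φ⁻¹} : Set F)) :=
    isLocalization_away hφ0
  haveI : IsFractionRing (Algebra.adjoin O ({φ} : Set F)) K⟮φ⟯ := isFractionRing_adjoinIncl hφ
  haveI : IsScalarTower (Algebra.adjoin O ({φ} : Set F)) (Algebra.adjoin O ({φ, φ⁻¹} : Set F))
      K⟮φ⟯ := IsScalarTower.of_algebraMap_eq fun b => by
    apply Subtype.ext
    change (b : F) = ((pairIncl (K := K) φ (inclPair (O := O) φ b) : K⟮φ⟯) : F)
    rw [coe_pairIncl, coe_inclPair]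
  haveI := adjoin_isNoetherianRing (O := O) hφ
  haveI := adjoin_isIntegrallyClosed (O := O) hφ
  have hM : Submonoid.powers (gen O φ) ≤ nonZeroDivisors (Algebra.adjoin O ({φ} : Set F)) := by
    apply powers_le_nonZeroDivisors_of_noZeroDivisors
    intro h
    apply hφ0
    have := congrArg (fun b : Algebra.adjoin O ({φ} : Set F) => (b : F)) h
    simpa [coe_gen] using this
  refine ⟨IsLocalization.isNoetherianRing (Submonoid.powers (gen O φ)) _ inferInstance,
    isIntegrallyClosed_of_isLocalization _ (Submonoid.powers (gen O φ)) hM,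
    IsFractionRing.isFractionRing_of_isDomain_of_isLocalization (Submonoid.powers (gen O φ)) _ _⟩

variable [CharZero K]

theorem overlap_props {φ : F} (hφ : Transcendental K φ) [FiniteDimensional K⟮φ⟯ F] :
    IsNoetherianRing (overlap O φ) ∧ IsIntegrallyClosed (overlap O φ) ∧
      IsFractionRing (overlap O φ) F ∧
      Module.Finite (Algebra.adjoin O ({φ, φ⁻¹} : Set F)) (overlap O φ) := by
  letI a1 : Algebra (Algebra.adjoin O ({φ, φ⁻¹} : Set F)) K⟮φ⟯ := (pairIncl (K := K) φ).toAlgebra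
  obtain ⟨h1, h2, h3⟩ := pair_props (O := O) hφ
  haveI := h1
  haveI := h2
  haveI := h3
  haveI : IsScalarTower (Algebra.adjoin O ({φ, φ⁻¹} : Set F)) K⟮φ⟯ F :=
    IsScalarTower.of_algebraMap_eq fun b => (coe_pairIncl (O := O) (K := K) φ b).symm
  haveI : CharZero K⟮φ⟯ := charZero_of_injective_algebraMap (algebraMap K K⟮φ⟯).injective
  haveI : Algebra.IsSeparable K⟮φ⟯ F := inferInstance
  exact ⟨isNoetherianRing _ K⟮φ⟯ F, isIntegrallyClosed _ K⟮φ⟯ F, isFractionRing _ K⟮φ⟯ F,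
    finite _ K⟮φ⟯ F⟩

/-- `(π)` is a prime ideal of `O[φ]` -/
theorem isPrime_span_adjoin {π : O} (hπ : Irreducible π) {φ : F} (hφ : Transcendental K φ) :
    (Ideal.span {algebraMap O (Algebra.adjoin O ({φ} : Set F)) π}).IsPrime := by
  let e := Polynomial.algEquivOfTranscendental O φ (transcendental_base (K := K) hφ)
  have h1 : (Ideal.span {algebraMap O (Algebra.adjoin O ({φ} : Set F)) π}) =
      Ideal.map (e : O[X] →+* Algebra.adjoin O ({φ} : Set F)) (Ideal.span {C π}) := by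
    rw [Ideal.map_span, Set.image_singleton]
    congr 2
    exact (e.commutes π).symm
  rw [h1]
  haveI := isPrime_span_C hπ
  exact Ideal.map_isPrime_of_equiv e.toRingEquiv

/-- a polynomial `p` with `p(φ) ∈ π O[φ]` lies in `(π)` -/
theorem mem_span_C_of_aeval_mem {π : O} {φ : F} (hφ : Transcendental K φ) {p : O[X]}
    {b : Algebra.adjoin O ({φ} : Set F)}
    (h : aeval φ p = algebraMap O F π * (b : F)) : p ∈ Ideal.span {C π} := by
  let e := Polynomial.algEquivOfTranscendental O φ (transcendental_base (K := K) hφ)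
  have hcoe : ∀ r : O[X], ((e r : Algebra.adjoin O ({φ} : Set F)) : F) = aeval φ r := by
    intro r
    rw [Polynomial.algEquivOfTranscendental_apply]
    exact (Polynomial.aeval_algHom_apply (Algebra.adjoin O ({φ} : Set F)).val _ r).symm
  have h2 : p = C π * e.symm b := by
    apply e.injective
    apply Subtype.ext
    rw [map_mul, e.apply_symm_apply, Subalgebra.coe_mul, hcoe, hcoe, aeval_C, h]
  rw [h2]
  exact Ideal.mul_mem_right _ _ (Ideal.mem_span_singleton_self _)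

/-- **Valuation criterion for the overlap.** -/
theorem mem_overlap_of_gauss_places {π : O} (hπ : Irreducible π) {φ : F}
    (hφ : Transcendental K φ) [FiniteDimensional K⟮φ⟯ F] (x : F)
    (hvert : ∀ W : ValuationSubring F, (∀ c : O, algebraMap O F c ∈ W) → φ ∈ W →
      (algebraMap O F π)⁻¹ ∉ W →
      (∀ s : O[X], (∃ i, IsUnit (s.coeff i)) → (aeval φ s)⁻¹ ∈ W) → x ∈ W)
    (hhor : ∀ W : ValuationSubring F, (∀ c : K, algebraMap K F c ∈ W) → φ ∈ W → φ⁻¹ ∈ W →
      x ∈ W) :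
    x ∈ overlap O φ := by
  letI a1 : Algebra (Algebra.adjoin O ({φ, φ⁻¹} : Set F)) K⟮φ⟯ := (pairIncl (K := K) φ).toAlgebra
  letI a2 : Algebra (Algebra.adjoin O ({φ} : Set F)) (Algebra.adjoin O ({φ, φ⁻¹} : Set F)) :=
    (inclPair (O := O) φ).toRingHom.toAlgebra
  have hφ0 : φ ≠ 0 := fun h => hφ (h ▸ isAlgebraic_zero)
  haveI : IsLocalization.Away (gen O φ) (Algebra.adjoin O ({φ, φ⁻¹} : Set F)) :=
    isLocalization_away hφ0
  obtain ⟨h1, h2, h3⟩ := pair_props (O := O) hφ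
  haveI := h1
  haveI := h2
  haveI := h3
  haveI : IsScalarTower (Algebra.adjoin O ({φ, φ⁻¹} : Set F)) K⟮φ⟯ F :=
    IsScalarTower.of_algebraMap_eq fun b => (coe_pairIncl (O := O) (K := K) φ b).symm
  haveI : CharZero K⟮φ⟯ := charZero_of_injective_algebraMap (algebraMap K K⟮φ⟯).injective
  haveI : Algebra.IsSeparable K⟮φ⟯ F := inferInstance
  -- the prime element
  set πB : Algebra.adjoin O ({φ} : Set F) := algebraMap O _ π with hπB
  set πB' : Algebra.adjoin O ({φ, φ⁻¹} : Set F) := algebraMap O _ π with hπB'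
  have hπF : algebraMap O F π ≠ 0 := algebraMap_ne_zero_of_ne_zero (K := K) hπ.ne_zero
  have hπB'0 : πB' ≠ 0 := by
    intro h
    apply hπF
    have := congrArg (fun b : Algebra.adjoin O ({φ, φ⁻¹} : Set F) => (b : F)) h
    simpa [hπB'] using this
  have hmapπ : algebraMap (Algebra.adjoin O ({φ} : Set F))
      (Algebra.adjoin O ({φ, φ⁻¹} : Set F)) πB = πB' := (inclPair (O := O) φ).commutes π
  have hP : (Ideal.span {πB}).IsPrime := isPrime_span_adjoin (K := K) hπ hφ
  -- disjointness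
  have hdisj : Disjoint (Submonoid.powers (gen O φ) : Set (Algebra.adjoin O ({φ} : Set F)))
      (Ideal.span {πB} : Set (Algebra.adjoin O ({φ} : Set F))) := by
    rw [Set.disjoint_left]
    rintro y ⟨n, rfl⟩ hy
    rw [SetLike.mem_coe, Ideal.mem_span_singleton'] at hy
    obtain ⟨b, hb⟩ := hy
    have h4 : aeval φ (X ^ n : O[X]) = algebraMap O F π * (b : F) := by
      rw [map_pow, aeval_X]
      have := congrArg (fun z : Algebra.adjoin O ({φ} : Set F) => (z : F)) hb
      simp only [Subalgebra.coe_mul, Subalgebra.coe_pow, coe_gen] at this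
      rw [← this, mul_comm]
      rfl
    have h5 := mem_span_C_of_aeval_mem (K := K) hφ h4
    have h6 : (X ^ n : O[X]) ∉ Ideal.span {C π} :=
      (not_mem_span_C_iff hπ _).2 ⟨n, by rw [coeff_X_pow, if_pos rfl]; exact isUnit_one⟩
    exact h6 h5
  have hprime : (Ideal.span {πB'}).IsPrime := by
    have := IsLocalization.isPrime_of_isPrime_disjoint (Submonoid.powers (gen O φ))
      (Algebra.adjoin O ({φ, φ⁻¹} : Set F)) (Ideal.span {πB}) hP hdisj
    rwa [Ideal.map_span, Set.image_singleton, hmapπ] at this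
  have hcoeB' : ∀ b : Algebra.adjoin O ({φ, φ⁻¹} : Set F),
      algebraMap (Algebra.adjoin O ({φ, φ⁻¹} : Set F)) F b = (b : F) := fun b => rfl
  have hπB'F : algebraMap (Algebra.adjoin O ({φ, φ⁻¹} : Set F)) F πB' = algebraMap O F π := rfl
  refine isIntegral_of_vertical_horizontal (Algebra.adjoin O ({φ, φ⁻¹} : Set F)) K⟮φ⟯ F
    hπB'0 hprime x ?_ ?_
  · intro W hW hπW hs
    have hOW : ∀ c : O, algebraMap O F c ∈ W := fun c => hW (algebraMap O _ c)
    have hφW : φ ∈ W := hW ⟨φ, Algebra.subset_adjoin (by simp)⟩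
    refine hvert W hOW hφW (by rwa [hπB'F] at hπW) fun s hsprim => ?_
    -- `s(φ)` as an element of `O[φ, φ⁻¹]`, not in `(π)`
    have hsmem : aeval φ s ∈ Algebra.adjoin O ({φ, φ⁻¹} : Set F) :=
      adjoin_le_adjoin_pair φ (by
        rw [Algebra.adjoin_singleton_eq_range_aeval]
        exact ⟨s, rfl⟩)
    have := hs ⟨aeval φ s, hsmem⟩ ?_
    · exact this
    · intro hmem
      rw [Ideal.mem_span_singleton'] at hmem
      obtain ⟨b', hb'⟩ := hmem
      obtain ⟨n, hn⟩ := exists_pow_mul_mem_adjoin (O := O) φ b'.2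
      have h7 : aeval φ (X ^ n * s : O[X]) =
          algebraMap O F π * ((⟨φ ^ n * (b' : F), hn⟩ : Algebra.adjoin O ({φ} : Set F)) : F) := by
        have := congrArg (fun z : Algebra.adjoin O ({φ, φ⁻¹} : Set F) => (z : F)) hb'
        simp only [Subalgebra.coe_mul] at this
        rw [map_mul, map_pow, aeval_X, ← this]
        change φ ^ n * (b' * algebraMap O F π) = algebraMap O F π * (φ ^ n * (b' : F))
        ring
      have h8 := mem_span_C_of_aeval_mem (K := K) hφ h7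
      have h9 : (X ^ n * s : O[X]) ∉ Ideal.span {C π} := by
        haveI := isPrime_span_C hπ
        intro h
        rcases Ideal.IsPrime.mem_or_mem inferInstance h with h | h
        · exact (not_mem_span_C_iff hπ _).2
            ⟨n, by rw [coeff_X_pow, if_pos rfl]; exact isUnit_one⟩ h
        · exact (not_mem_span_C_iff hπ s).2 hsprim h
      exact h9 h8
  · intro W hW hπW
    have hOW : ∀ c : O, algebraMap O F c ∈ W := fun c => hW (algebraMap O _ c)
    have hφW : φ ∈ W := hW ⟨φ, Algebra.subset_adjoin (by simp)⟩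
    have hφW' : φ⁻¹ ∈ W := hW ⟨φ⁻¹, Algebra.subset_adjoin (by simp)⟩
    rw [hπB'F] at hπW
    refine hhor W (fun c => ?_) hφW hφW'
    obtain ⟨a, n, rfl⟩ := exists_eq_div_pow hπ c
    rw [map_div₀, map_pow, ← IsScalarTower.algebraMap_apply O K F,
      ← IsScalarTower.algebraMap_apply O K F, div_eq_mul_inv, ← inv_pow]
    exact W.mul_mem _ _ (hOW a) (pow_mem hπW n)

end Props


end Fermat.Agent.S36.ChartOverlap
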