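/-
PROJECT V (S36), slice V-ChartPlaces (helper12): **bridge between the chart rings and the prelude
language of places.**

`K` a field of characteristic zero, `F ⊇ K` a field, `φ : F` transcendental over `K` with `F`
finite over `K(φ)` (a function field of one variable).

* `isPrincipalIdealRing_of_ne_top` : every valuation subring `W ≠ ⊤` of `F` containing `K` is a
  principal ideal ring; `placeOf` : it is a `Place K F`.
* `mem_chart_of_places`, `mem_overlap_of_places` : the membership criteria of `ChartRing`,
  `ChartOverlap` with the horizontal hypothesis quantified over `Place K F`.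
-/
import Mathlib
import Fermat.Prelude.Def_AlgebraicCurve_DivisorClassGroup
import Fermat.Agent.S24.AllPlaces
import Fermat.Agent.S36.ChartOverlap

set_option autoImplicit false
set_option linter.unusedSectionVars false
set_option linter.style.haveILetI false
set_option linter.unusedVariables false

namespace Fermat.Agent.S36.ChartPlaces

open Polynomial IntermediateField AlgebraicCurve IsDedekindDomain
open Fermat.Agent.S36.ChartRing Fermat.Agent.S36.ChartOverlap
open scoped IntermediateField.algebraAdjoinAdjoin

section Discrete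

variable {K F : Type*} [Field K] [CharZero K] [Field F] [Algebra K F]

/-- a valuation subring `≠ ⊤` containing `K` and `φ` is principal -/
theorem isPrincipalIdealRing_of_mem {φ : F} (hφ : Transcendental K φ) [FiniteDimensional K⟮φ⟯ F]
    (W : ValuationSubring F) (hK : ∀ c : K, algebraMap K F c ∈ W) (hW : W ≠ ⊤) (hφW : φ ∈ W) :
    IsPrincipalIdealRing W := by
  haveI : IsDedekindDomain (Algebra.adjoin K ({φ} : Set F)) :=
    Fermat.Agent.S24.AllPlaces.isDedekindDomain_adjoin hφ
  haveI : CharZero K⟮φ⟯ := charZero_of_injective_algebraMap (algebraMap K K⟮φ⟯).injective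
  haveI : Algebra.IsSeparable K⟮φ⟯ F := inferInstance
  haveI : IsDedekindDomain (integralClosure (Algebra.adjoin K ({φ} : Set F)) F) :=
    IsIntegralClosure.isDedekindDomain (Algebra.adjoin K ({φ} : Set F)) K⟮φ⟯ F _
  haveI : IsFractionRing (integralClosure (Algebra.adjoin K ({φ} : Set F)) F) F :=
    integralClosure.isFractionRing_of_finite_extension K⟮φ⟯ F
  have hBW : ∀ b : integralClosure (Algebra.adjoin K ({φ} : Set F)) F,
      algebraMap (integralClosure (Algebra.adjoin K ({φ} : Set F)) F) F b ∈ W := by
    intro b
    refine mem_of_isIntegral W (fun r => ?_) b.2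
    exact Fermat.Agent.S24.AllPlaces.adjoin_mem W (RingHom.id F) hK hφW r
  obtain ⟨w, hw, -⟩ := Fermat.Agent.S24.AllPlaces.exists_eq_valuationSubringAtPrime W hBW hW
  rw [hw]
  infer_instance

theorem transcendental_inv {φ : F} (hφ : Transcendental K φ) : Transcendental K φ⁻¹ := by
  intro h
  exact hφ (by simpa using h.inv)

/-- **every valuation subring `≠ ⊤` of `F` containing `K` is a principal ideal ring** -/
theorem isPrincipalIdealRing_of_ne_top {φ : F} (hφ : Transcendental K φ)
    [FiniteDimensional K⟮φ⟯ F] (W : ValuationSubring F) (hK : ∀ c : K, algebraMap K F c ∈ W)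
    (hW : W ≠ ⊤) : IsPrincipalIdealRing W := by
  rcases W.mem_or_inv_mem φ with h | h
  · exact isPrincipalIdealRing_of_mem hφ W hK hW h
  · haveI : FiniteDimensional K⟮φ⁻¹⟯ F :=
      finiteDimensional_of_transcendental φ φ⁻¹ (transcendental_inv hφ)
    exact isPrincipalIdealRing_of_mem (transcendental_inv hφ) W hK hW h

/-- a valuation subring `≠ ⊤` of `F` containing `K`, as a place -/
def placeOf {φ : F} (hφ : Transcendental K φ) [FiniteDimensional K⟮φ⟯ F]
    (W : ValuationSubring F) (hK : ∀ c : K, algebraMap K F c ∈ W) (hW : W ≠ ⊤) : Place K F where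
  toValuationSubring := W
  algebraMap_mem' := hK
  ne_top' := hW
  isPrincipalIdealRing' := isPrincipalIdealRing_of_ne_top hφ W hK hW

@[simp] theorem placeOf_toValuationSubring {φ : F} (hφ : Transcendental K φ)
    [FiniteDimensional K⟮φ⟯ F] (W : ValuationSubring F) (hK : ∀ c : K, algebraMap K F c ∈ W)
    (hW : W ≠ ⊤) : (placeOf hφ W hK hW).toValuationSubring = W := rfl

end Discrete

/-! ### the membership criteria in place form -/

section Criteria

variable {O : Type*} [CommRing O] [IsDomain O] [IsDiscreteValuationRing O] {K : Type*} [Field K]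
  [Algebra O K] [IsFractionRing O K] [CharZero K] {F : Type*} [Field F] [Algebra K F]
  [Algebra O F] [IsScalarTower O K F]

/-- **Chart criterion, place form.** -/
theorem mem_chart_of_places {π : O} (hπ : Irreducible π) {φ : F} (hφ : Transcendental K φ)
    [FiniteDimensional K⟮φ⟯ F] (x : F)
    (hvert : ∀ W : ValuationSubring F, (∀ c : O, algebraMap O F c ∈ W) → φ ∈ W →
      (algebraMap O F π)⁻¹ ∉ W →
      (∀ s : O[X], (∃ i, IsUnit (s.coeff i)) → (aeval φ s)⁻¹ ∈ W) → x ∈ W)
    (hhor : ∀ v : Place K F, φ ∈ v.toValuationSubring → x ∈ v.toValuationSubring) :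
    x ∈ chart O φ := by
  refine mem_chart_of_gauss_places hπ hφ x hvert fun W hK hφW => ?_
  by_cases hW : W = ⊤
  · rw [hW]; exact ValuationSubring.mem_top x
  · exact hhor (placeOf hφ W hK hW) hφW

/-- **Overlap criterion, place form.** -/
theorem mem_overlap_of_places {π : O} (hπ : Irreducible π) {φ : F} (hφ : Transcendental K φ)
    [FiniteDimensional K⟮φ⟯ F] (x : F)
    (hvert : ∀ W : ValuationSubring F, (∀ c : O, algebraMap O F c ∈ W) → φ ∈ W →
      (algebraMap O F π)⁻¹ ∉ W →
      (∀ s : O[X], (∃ i, IsUnit (s.coeff i)) → (aeval φ s)⁻¹ ∈ W) → x ∈ W)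
    (hhor : ∀ v : Place K F, φ ∈ v.toValuationSubring → φ⁻¹ ∈ v.toValuationSubring →
      x ∈ v.toValuationSubring) :
    x ∈ overlap O φ := by
  refine mem_overlap_of_gauss_places hπ hφ x hvert fun W hK hφW hφW' => ?_
  by_cases hW : W = ⊤
  · rw [hW]; exact ValuationSubring.mem_top x
  · exact hhor (placeOf hφ W hK hW) hφW hφW'

/-- elements of the chart ring are regular at every place finite at `φ` -/
theorem mem_place_of_mem_chart {φ : F} {x : F} (hx : x ∈ chart O φ) (v : Place K F)
    (hφv : φ ∈ v.toValuationSubring) : x ∈ v.toValuationSubring :=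
  mem_of_mem_chart hx v.toValuationSubring
    (fun c => by
      rw [IsScalarTower.algebraMap_apply O K F]
      exact v.algebraMap_mem' _) hφv

end Criteria

end Fermat.Agent.S36.ChartPlaces
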