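/-
S36 (exploration, helper19), leaf 1: Kolchin's theorem in rank two, Mathlib only.

`R` a domain, `V` free of rank two over `R`, `ρ : G →* End_R V` and `I ≤ G` a subgroup all of whose
elements act with characteristic polynomial `(X - 1)²`.  Then `I` has a common nonzero fixed vector.

* `Mat.unipotent_iff` : a `2 × 2` matrix has characteristic polynomial `(X - 1)²` iff
  `tr = 2` and `det = 1`;
* `Mat.mulVec_eq_zero_of_trace_mul` : two trace-zero, determinant-zero matrices `N₀`, `N` with
  `tr (N N₀) = 0` over a reduced ring: `N` kills the two canonical kernel vectors of `N₀`;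
* `exists_common_fixed` : the statement above.
-/
import Mathlib

set_option autoImplicit false

noncomputable section

namespace Fermat.Agent.S36.Kolchin

open Polynomial Matrix

variable {R : Type*} [CommRing R]

namespace Mat

/-- characteristic polynomial `(X - 1)²` in terms of trace and determinant -/
theorem trace_det_of_charpoly [Nontrivial R] (M : Matrix (Fin 2) (Fin 2) R)
    (h : M.charpoly = (X - 1) ^ 2) : M.trace = 2 ∧ M.det = 1 := by
  rw [Matrix.charpoly_fin_two] at h
  have h1 := congrArg (fun P : R[X] => P.coeff 1) h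
  have h0 := congrArg (fun P : R[X] => P.coeff 0) h
  have e : ((X : R[X]) - 1) ^ 2 = X ^ 2 - C 2 * X + C 1 := by
    simp only [map_ofNat, map_one]; ring
  simp only [e] at h1 h0
  simp [coeff_X, coeff_one, coeff_C] at h1 h0
  exact ⟨by simpa using h1, by simpa using h0⟩

/-- entries of a trace-zero determinant-zero matrix -/
theorem entries_of_trace_det_zero (N : Matrix (Fin 2) (Fin 2) R) (ht : N.trace = 0)
    (hd : N.det = 0) : N 1 1 = - N 0 0 ∧ N 0 0 * N 0 0 + N 0 1 * N 1 0 = 0 := by
  rw [Matrix.trace_fin_two] at ht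
  rw [Matrix.det_fin_two] at hd
  have h11 : N 1 1 = - N 0 0 := by linear_combination ht
  refine ⟨h11, ?_⟩
  rw [h11] at hd
  linear_combination -hd

variable [IsReduced R]

/-- **Key identity.**  `N₀`, `N` trace-zero and determinant-zero with `tr (N N₀) = 0`: then `N`
kills `(N₀ 0 1, - N₀ 0 0)` and `(N₀ 0 0, N₀ 1 0)` (the two canonical vectors of `ker N₀`). -/
theorem mulVec_eq_zero_of_trace_mul (N₀ N : Matrix (Fin 2) (Fin 2) R)
    (ht₀ : N₀.trace = 0) (hd₀ : N₀.det = 0) (ht : N.trace = 0) (hd : N.det = 0)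
    (htr : (N * N₀).trace = 0) :
    N.mulVec ![N₀ 0 1, - N₀ 0 0] = 0 ∧ N.mulVec ![N₀ 0 0, N₀ 1 0] = 0 := by
  obtain ⟨h11₀, hx⟩ := entries_of_trace_det_zero N₀ ht₀ hd₀
  obtain ⟨h11, ha⟩ := entries_of_trace_det_zero N ht hd
  rw [Matrix.trace_fin_two, Matrix.mul_apply, Matrix.mul_apply, Fin.sum_univ_two,
    Fin.sum_univ_two, h11₀, h11] at htr
  set x := N₀ 0 0
  set y := N₀ 0 1
  set z := N₀ 1 0
  set a := N 0 0
  set b := N 0 1
  set c := N 1 0
  have hT : 2 * a * x + b * z + c * y = 0 := by linear_combination htr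
  have e1 : a * y - b * x = 0 := by
    apply pow_eq_zero_iff (two_ne_zero) |>.1
    linear_combination (y ^ 2) * ha - (b * y) * hT + (b ^ 2) * hx
  have e2 : c * y + a * x = 0 := by
    apply pow_eq_zero_iff (two_ne_zero) |>.1
    linear_combination (x ^ 2) * ha + (c * y) * hT - (b * c) * hx
  have e3 : a * x + b * z = 0 := by
    apply pow_eq_zero_iff (two_ne_zero) |>.1
    linear_combination (x ^ 2) * ha + (b * z) * hT - (b * c) * hx
  have e4 : c * x - a * z = 0 := by
    apply pow_eq_zero_iff (two_ne_zero) |>.1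
    linear_combination (z ^ 2) * ha - (c * z) * hT + (c ^ 2) * hx
  constructor
  · funext i
    fin_cases i
    · simp only [Matrix.mulVec, dotProduct, Fin.sum_univ_two, Fin.zero_eta, Fin.isValue,
        Matrix.cons_val_zero, Matrix.cons_val_one, Pi.zero_apply]
      linear_combination e1
    · simp only [Matrix.mulVec, dotProduct, Fin.sum_univ_two, Fin.mk_one, Fin.isValue,
        Matrix.cons_val_zero, Matrix.cons_val_one, Pi.zero_apply, h11]
      linear_combination e2
  · funext i
    fin_cases i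
    · simp only [Matrix.mulVec, dotProduct, Fin.sum_univ_two, Fin.zero_eta, Fin.isValue,
        Matrix.cons_val_zero, Matrix.cons_val_one, Pi.zero_apply]
      linear_combination e3
    · simp only [Matrix.mulVec, dotProduct, Fin.sum_univ_two, Fin.mk_one, Fin.isValue,
        Matrix.cons_val_zero, Matrix.cons_val_one, Pi.zero_apply, h11]
      linear_combination e4

omit [IsReduced R] in
/-- `det (A - 1) = det A - tr A + 1` for `2 × 2` matrices -/
theorem det_sub_one (A : Matrix (Fin 2) (Fin 2) R) :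
    (A - 1).det = A.det - A.trace + 1 := by
  rw [Matrix.det_fin_two, Matrix.det_fin_two, Matrix.trace_fin_two]
  simp only [Matrix.sub_apply, Matrix.one_apply_eq, Matrix.one_apply_ne, ne_eq, Fin.isValue,
    zero_ne_one, one_ne_zero, not_false_eq_true, sub_zero]
  ring

/-- **Kolchin for `2 × 2` matrices over a domain**: a multiplicatively closed set of matrices with
trace `2` and determinant `1` has a common nonzero fixed vector. -/
theorem exists_common_fixed [IsDomain R] (𝒮 : Set (Matrix (Fin 2) (Fin 2) R))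
    (hmul : ∀ A ∈ 𝒮, ∀ B ∈ 𝒮, A * B ∈ 𝒮)
    (h𝒮 : ∀ A ∈ 𝒮, A.trace = 2 ∧ A.det = 1) :
    ∃ v : Fin 2 → R, v ≠ 0 ∧ ∀ A ∈ 𝒮, A.mulVec v = v := by
  by_cases hall : ∀ A ∈ 𝒮, A = 1
  · refine ⟨![1, 0], ?_, fun A hA => ?_⟩
    · intro h
      have := congrFun h 0
      simp at this
    · rw [hall A hA, Matrix.one_mulVec]
  · push Not at hall
    obtain ⟨A₀, hA₀, hne⟩ := hall
    set N₀ := A₀ - 1 with hN₀
    have hN₀ne : N₀ ≠ 0 := sub_ne_zero.2 hne
    have ht₀ : N₀.trace = 0 := by
      rw [hN₀, Matrix.trace_sub, (h𝒮 A₀ hA₀).1, Matrix.trace_one]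
      simp
    have hd₀ : N₀.det = 0 := by
      rw [hN₀, det_sub_one, (h𝒮 A₀ hA₀).1, (h𝒮 A₀ hA₀).2]
      ring
    have key : ∀ A ∈ 𝒮, (A - 1).mulVec ![N₀ 0 1, - N₀ 0 0] = 0 ∧
        (A - 1).mulVec ![N₀ 0 0, N₀ 1 0] = 0 := by
      intro A hA
      have ht : (A - 1).trace = 0 := by
        rw [Matrix.trace_sub, (h𝒮 A hA).1, Matrix.trace_one]
        simp
      have hd : (A - 1).det = 0 := by
        rw [det_sub_one, (h𝒮 A hA).1, (h𝒮 A hA).2]
        ring
      have htr : ((A - 1) * N₀).trace = 0 := by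
        have e : (A - 1) * N₀ = A * A₀ - A - A₀ + 1 := by
          rw [hN₀]; noncomm_ring
        rw [e, Matrix.trace_add, Matrix.trace_sub, Matrix.trace_sub,
          (h𝒮 _ (hmul A hA A₀ hA₀)).1, (h𝒮 A hA).1, (h𝒮 A₀ hA₀).1, Matrix.trace_one]
        simp
      exact mulVec_eq_zero_of_trace_mul N₀ (A - 1) ht₀ hd₀ ht hd htr
    have fix : ∀ (v : Fin 2 → R) (A : Matrix (Fin 2) (Fin 2) R),
        (A - 1).mulVec v = 0 → A.mulVec v = v := by
      intro v A h
      rw [Matrix.sub_mulVec, Matrix.one_mulVec, sub_eq_zero] at h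
      exact h
    by_cases hv : (![N₀ 0 1, - N₀ 0 0] : Fin 2 → R) = 0
    · refine ⟨![N₀ 0 0, N₀ 1 0], ?_, fun A hA => fix _ A (key A hA).2⟩
      intro hv'
      apply hN₀ne
      have h01 : N₀ 0 1 = 0 := by simpa using congrFun hv 0
      have h00 : N₀ 0 0 = 0 := by simpa using congrFun hv' 0
      have h10 : N₀ 1 0 = 0 := by simpa using congrFun hv' 1
      have h11 : N₀ 1 1 = 0 := by
        rw [(entries_of_trace_det_zero N₀ ht₀ hd₀).1, h00, neg_zero]
      ext i j
      fin_cases i <;> fin_cases j <;> simp [h00, h01, h10, h11]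
    · exact ⟨_, hv, fun A hA => fix _ A (key A hA).1⟩

end Mat

section EndVersion

variable [IsDomain R] {V : Type*} [AddCommGroup V] [Module R V] [Module.Free R V]
  [Module.Finite R V]

/-- **Kolchin in rank two.**  A subgroup acting on a free module of rank two over a domain through
endomorphisms with characteristic polynomial `(X - 1)²` has a common nonzero fixed vector. -/
theorem exists_common_fixed {G : Type*} [Group G] (b : Module.Basis (Fin 2) R V)
    (ρ : G →* Module.End R V) (I : Subgroup G)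
    (h : ∀ s ∈ I, LinearMap.charpoly (ρ s) = (X - 1) ^ 2) :
    ∃ v : V, v ≠ 0 ∧ ∀ s ∈ I, ρ s v = v := by
  obtain ⟨w, hw, hfix⟩ := Mat.exists_common_fixed
    {A | ∃ s ∈ I, A = LinearMap.toMatrix b b (ρ s)}
    (by
      rintro A ⟨s, hs, rfl⟩ B ⟨t, ht, rfl⟩
      exact ⟨s * t, I.mul_mem hs ht, by rw [map_mul, Module.End.mul_eq_comp, LinearMap.toMatrix_comp b b b]⟩)
    (by
      rintro A ⟨s, hs, rfl⟩
      apply Mat.trace_det_of_charpoly
      rw [LinearMap.charpoly_toMatrix]
      exact h s hs)
  refine ⟨b.equivFun.symm w, ?_, fun s hs => ?_⟩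
  · intro h0
    apply hw
    have := congrArg b.equivFun h0
    rwa [LinearEquiv.apply_symm_apply, map_zero] at this
  · have h1 := hfix _ ⟨s, hs, rfl⟩
    apply b.equivFun.injective
    rw [LinearEquiv.apply_symm_apply]
    have h2 := LinearMap.toMatrix_mulVec_repr b b (ρ s) (b.equivFun.symm w)
    have h3 : (b.repr (b.equivFun.symm w) : Fin 2 → R) = w := by
      have := b.equivFun.apply_symm_apply w
      simpa [Module.Basis.equivFun_apply] using this
    rw [h3, h1] at h2
    funext i
    have := congrFun h2 i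
    simpa [Module.Basis.equivFun_apply] using this.symm

end EndVersion

end Fermat.Agent.S36.Kolchin
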