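/-
S36 (exploration, helper19): **the level maps `E N → E (N ℓ)` for a prime `ℓ ∣ N`**
(`E N = ℚ̄(X₀(N))`), the analogue of `S35/LevelMaps` (which treats `ℓ ∤ N`).

* `finrankAlong_alpha_of_dvd`, `finrankAlong_beta_of_dvd` : both degeneracy maps have degree `ℓ`;
* `le_relfinrank_of_embeddings` : Dedekind-Artin count inside a big field;
* `jq2_not_mem_bar` : `j(t^(q²)) ∉ ℚ̄(X₀(N0 q))` for a prime `q ∤ N0` (the `q` substitutions
  `t ↦ ζ^b t` fix `V_q ℚ̄(X₀(N0))` and `j(t^(q²))`, so `[ℚ̄(X₀(N0 q)) : V_q ℚ̄(X₀(N0))(j(t^(q²)))] ≥ q`,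
  while `[ℚ̄(X₀(N0 q)) : V_q ℚ̄(X₀(N0))] = q + 1`);
* `exists_basis_pow_of_isIncl_dvd` : for `N = N0 ℓ`, `ℓ ∤ N0`: the powers `1, y, …, y^(ℓ-1)` of
  `y = j(t^(ℓ²))` are a basis of `E (N ℓ)` over `E N` along an inclusion;
* `exists_basis_pow_of_isDil_dvd` : for `ℓ ∣ N`: the powers `1, j, …, j^(ℓ-1)` are a basis of `E (N ℓ)`
  over `E N` along a dilation by `ℓ`.
-/
import Mathlib
import Fermat.Agent.S35.DegeneracyHecke

set_option autoImplicit false
set_option linter.unusedSectionVars false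
set_option linter.style.haveILetI false

noncomputable section

namespace Fermat.Agent.S36.LevelDvd

open Polynomial ModularCurve AlgebraicCurve IntermediateField
open Fermat.Agent.S24.DegreeAlg Fermat.Agent.S24.FF Fermat.Agent.S18.A.Instances
open Fermat.Agent.S37.Hecke.Integral Fermat.Agent.S35.LevelMaps
open Fermat.Agent.S37.ES.DegreeBeta Fermat.Agent.S28.StepDeg Fermat.Agent.S28.LaurentRescale

local notation "Kb" => AlgebraicClosure ℚ

section Degrees

variable (N : ℕ) {ℓ : ℕ} [NeZero N] [NeZero ℓ]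

theorem dedekindPsi_mul_prime_of_dvd (hℓ : ℓ.Prime) (hℓN : ℓ ∣ N) :
    dedekindPsi (N * ℓ) = dedekindPsi N * ℓ := by
  rw [Fermat.Agent.S28.PsiRec.dedekindPsi_mul_prime (NeZero.ne N) hℓ, if_pos hℓN]

/-- **`[ℚ̄(X₀(N ℓ)) : ℚ̄(X₀(N))] = ℓ`** inside `ℚ̄((q))`, `ℓ ∣ N`. -/
theorem relfinrank_bar_of_dvd (hℓ : ℓ.Prime) (hℓN : ℓ ∣ N) :
    IntermediateField.relfinrank (modularFunctionFieldBar N) (modularFunctionFieldBar (N * ℓ))
      = ℓ := by
  have h := IntermediateField.relfinrank_mul_relfinrank (kJ_le_bar N) (bar_le_bar N ℓ)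
  rw [relfinrank_kJ_bar, relfinrank_kJ_bar, dedekindPsi_mul_prime_of_dvd N hℓ hℓN] at h
  exact Nat.eq_of_mul_eq_mul_left (dedekindPsi_pos N) h

/-- **`[ℚ̄(X₀(N ℓ)) : V_ℓ ℚ̄(X₀(N))] = ℓ`** inside `ℚ̄((q))`, `ℓ ∣ N`. -/
theorem relfinrank_map_bar_of_dvd (hℓ : ℓ.Prime) (hℓN : ℓ ∣ N) :
    IntermediateField.relfinrank ((modularFunctionFieldBar N).map (qExpandAlgHomC Kb ℓ))
      (modularFunctionFieldBar (N * ℓ)) = ℓ := by
  haveI : NeZero (ℓ * ℓ) := ⟨Nat.mul_ne_zero hℓ.ne_zero hℓ.ne_zero⟩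
  obtain ⟨PL⟩ := nonempty_primeLevel hℓ
  have h := relfinrank_mul_relfinrank_map PL hℓ.two_le (modularFunctionFieldBar N)
    (modularFunctionFieldBar (N * ℓ)) (kJ_le_bar N) (kJ_le_bar (N * ℓ)) (map_bar_le_bar N ℓ)
  rw [relfinrank_kJ_bar, relfinrank_kJ_bar, dedekindPsi_mul_prime_of_dvd N hℓ hℓN] at h
  exact Nat.eq_of_mul_eq_mul_left (dedekindPsi_pos N) h

theorem finrankAlong_alpha_of_dvd (hℓ : ℓ.Prime) (hℓN : ℓ ∣ N) :
    finrankAlong Kb (heckeAlphaBar Kb N ℓ) = ℓ := by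
  rw [finrankAlong_eq_relfinrank (AlgHom.id Kb (LaurentSeries Kb)) (heckeAlphaBar Kb N ℓ)
    (fun x => coe_heckeAlphaBar N ℓ x)]
  have : (modularFunctionFieldBar N).map (AlgHom.id Kb (LaurentSeries Kb))
      = modularFunctionFieldBar N := IntermediateField.map_id _
  rw [this]
  exact relfinrank_bar_of_dvd N hℓ hℓN

theorem finrankAlong_beta_of_dvd (hℓ : ℓ.Prime) (hℓN : ℓ ∣ N) :
    finrankAlong Kb (heckeBetaBar Kb N ℓ) = ℓ := by
  rw [finrankAlong_eq_relfinrank (qExpandAlgHomC Kb ℓ) (heckeBetaBar Kb N ℓ)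
    (fun x => coe_heckeBetaBar N ℓ x)]
  exact relfinrank_map_bar_of_dvd N hℓ hℓN

end Degrees

section Count

variable {K Ω : Type*} [Field K] [Field Ω] [Algebra K Ω]

/-- **Dedekind-Artin count.** `m` ring endomorphisms of `Ω` fixing `L` pointwise and pairwise
distinct at a point of `B ⊇ L` force `m ≤ [B : L]` (when this degree is finite). -/
theorem le_relfinrank_of_embeddings {L B : IntermediateField K Ω} (hLB : L ≤ B)
    (hfin : IntermediateField.relfinrank L B ≠ 0) {m : ℕ} (τ : Fin m → (Ω →+* Ω))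
    (hτ : ∀ b, ∀ a ∈ L, τ b a = a) (x : Ω) (hx : x ∈ B)
    (hinj : Function.Injective fun b => τ b x) :
    m ≤ IntermediateField.relfinrank L B := by
  rw [IntermediateField.relfinrank_eq_finrank_of_le hLB] at hfin ⊢
  haveI : FiniteDimensional ↥L ↥(IntermediateField.extendScalars hLB) :=
    FiniteDimensional.of_finrank_pos (Nat.pos_of_ne_zero hfin)
  let f : Fin m → (↥(IntermediateField.extendScalars hLB) →ₐ[↥L] Ω) := fun b =>
    { toRingHom := (τ b).comp (algebraMap ↥(IntermediateField.extendScalars hLB) Ω)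
      commutes' := fun a => hτ b a a.2 }
  have hf : Function.Injective f := by
    intro b b' h
    apply hinj
    have := DFunLike.congr_fun h (⟨x, hx⟩ : ↥(IntermediateField.extendScalars hLB))
    exact this
  haveI : Module.Free ↥L ↥(IntermediateField.extendScalars hLB) :=
    Module.Free.of_divisionRing _ _
  calc m = Nat.card (Fin m) := by simp
    _ ≤ Nat.card (↥(IntermediateField.extendScalars hLB) →ₐ[↥L] Ω) :=
        Nat.card_le_card_of_injective f hf
    _ ≤ _ := card_algHom_le_finrank _ _ _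

end Count

section NotMem

variable {N0 q : ℕ} [NeZero N0] [NeZero q]

/-- `j(t^q) ∉ ℚ̄(X₀(N0))` for a prime `q ∤ N0`. -/
theorem jq_not_mem_bar (hq : q.Prime) (hqN : ¬ q ∣ N0) :
    qExpand Kb q (jqModC Kb) ∉ modularFunctionFieldBar N0 := by
  intro hmem
  letI := algebraAlong (heckeAlphaBar Kb N0 q)
  have h1 : Fermat.Agent.S34.PowerBasisX0.jl N0 q =
      algebraMap ↥(modularFunctionFieldBar N0) ↥(modularFunctionFieldBar (N0 * q))
        ⟨qExpand Kb q (jqModC Kb), hmem⟩ := by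
    apply Subtype.ext
    rw [Fermat.Agent.S34.PowerBasisX0.coe_jl]
    exact (coe_heckeAlphaBar (L := Kb) N0 q
      (⟨qExpand Kb q (jqModC Kb), hmem⟩ : ↥(modularFunctionFieldBar N0))).symm
  have h2 := Fermat.Agent.S34.PowerBasisX0.natDegree_minpoly_jl (N := N0) hq hqN
  rw [h1, minpoly.eq_X_sub_C, natDegree_X_sub_C] at h2
  have := hq.pos
  omega

/-- **`j(t^(q²)) ∉ ℚ̄(X₀(N0 q))`** for a prime `q ∤ N0`. -/
theorem jq2_not_mem_bar (hq : q.Prime) (hqN : ¬ q ∣ N0) :
    qExpand Kb q (qExpand Kb q (jqModC Kb)) ∉ modularFunctionFieldBar (N0 * q) := by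
  intro hz
  set z : LaurentSeries Kb := qExpand Kb q (qExpand Kb q (jqModC Kb)) with hzdef
  set A : IntermediateField Kb (LaurentSeries Kb) :=
    (modularFunctionFieldBar N0).map (qExpandAlgHomC Kb q) with hA
  set B : IntermediateField Kb (LaurentSeries Kb) := modularFunctionFieldBar (N0 * q) with hB
  have hAB : A ≤ B := map_bar_le_bar N0 q
  have hdeg : IntermediateField.relfinrank A B = q + 1 := relfinrank_map_bar N0 hq hqN
  set L : IntermediateField Kb (LaurentSeries Kb) :=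
    IntermediateField.adjoin Kb ((A : Set (LaurentSeries Kb)) ∪ {z}) with hL
  have hAL : A ≤ L := fun a ha => IntermediateField.subset_adjoin _ _ (Or.inl ha)
  have hzL : z ∈ L := IntermediateField.subset_adjoin _ _ (Or.inr rfl)
  have hLB : L ≤ B := by
    rw [hL, IntermediateField.adjoin_le_iff]
    rintro a (ha | ha)
    · exact hAB ha
    · rw [Set.mem_singleton_iff] at ha
      rw [ha]; exact hz
  -- the `q` substitutions `t ↦ ζ^b t`
  have hqk : ((q : ℕ) : Kb) ≠ 0 := Nat.cast_ne_zero.mpr hq.ne_zero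
  obtain ⟨ζ, hζ⟩ := exists_isPrimitiveRoot_units (k := Kb) (p := q) hqk
  have hpow : ∀ b : ℕ, (ζ ^ b) ^ q = 1 := fun b => by
    rw [← pow_mul, mul_comm, pow_mul, hζ.pow_eq_one, one_pow]
  let τ : Fin q → (LaurentSeries Kb →+* LaurentSeries Kb) := fun b =>
    ((rescaleU (ζ ^ (b : ℕ)) : LaurentSeries Kb ≃+* LaurentSeries Kb) :
      LaurentSeries Kb →+* LaurentSeries Kb)
  have hτL : ∀ b, ∀ a ∈ L, τ b a = a := by
    intro b a ha
    rw [hL] at ha
    induction ha using IntermediateField.adjoin_induction with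
    | mem a ha =>
      rcases ha with ha | ha
      · obtain ⟨g, -, rfl⟩ := ha
        show rescaleU (ζ ^ (b : ℕ)) (qExpand Kb q g) = _
        exact rescaleU_qExpand_of_pow_eq_one q (hpow b) g
      · rw [Set.mem_singleton_iff] at ha
        rw [ha]
        show rescaleU (ζ ^ (b : ℕ)) (qExpand Kb q (qExpand Kb q (jqModC Kb))) = _
        exact rescaleU_qExpand_of_pow_eq_one q (hpow b) _
    | algebraMap c =>
      show rescaleU (ζ ^ (b : ℕ)) (algebraMap Kb (LaurentSeries Kb) c) = _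
      rw [Fermat.Agent.S18.B.Basic.algebraMap_eq_C]
      exact rescaleU_C _ c
    | add x y _ _ ihx ihy => rw [map_add, ihx, ihy]
    | inv x _ ihx => rw [map_inv₀, ihx]
    | mul x y _ _ ihx ihy => rw [map_mul, ihx, ihy]
  have hjB : jqModC Kb ∈ B := by
    have := (jgen (N0 * q)).2
    rwa [Fermat.Agent.S18.B.Basic.coe_jgen_eq] at this
  have hinj : Function.Injective fun b => τ b (jqModC Kb) := by
    intro b b' h
    have h1 : ζ ^ (b : ℕ) = ζ ^ (b' : ℕ) :=
      eq_of_rescaleU_eq (by rw [Fermat.Agent.S37.ES.HeckeRho.coeff_neg_one_jqModC]; exact one_ne_zero) h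
    exact Fin.ext (hζ.pow_inj b.2 b'.2 h1)
  have hmul := IntermediateField.relfinrank_mul_relfinrank hAL hLB
  rw [hdeg] at hmul
  have hLBne : IntermediateField.relfinrank L B ≠ 0 := by
    intro h0
    rw [h0, mul_zero] at hmul
    omega
  have hge := le_relfinrank_of_embeddings hLB hLBne τ hτL (jqModC Kb) hjB hinj
  have hq2 := hq.two_le
  have hone : IntermediateField.relfinrank A L = 1 := by
    rcases Nat.lt_or_ge (IntermediateField.relfinrank A L) 2 with h | h
    · interval_cases (IntermediateField.relfinrank A L)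
      · rw [zero_mul] at hmul; omega
      · rfl
    · exfalso
      have : 2 * q ≤ IntermediateField.relfinrank A L * IntermediateField.relfinrank L B :=
        Nat.mul_le_mul h hge
      omega
  have hLA : L ≤ A := IntermediateField.relfinrank_eq_one_iff.1 hone
  obtain ⟨g, hg, hgz⟩ := hLA hzL
  have : g = qExpand Kb q (jqModC Kb) := qExpand_injective q hgz
  exact jq_not_mem_bar hq hqN (this ▸ hg)

end NotMem

/-! ### Power bases in prime degree -/

section PowerBasis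

/-- In an extension of prime degree `q`, the powers `1, y, …, y^(q-1)` of any `y` outside the
base field are a basis. -/
theorem exists_basis_pow_of_prime {F E' : Type*} [Field F] [Field E'] [Algebra F E'] {q : ℕ}
    (hq : q.Prime) (hfr : Module.finrank F E' = q) (y : E')
    (hy : y ∉ Set.range (algebraMap F E')) :
    ∃ b : Module.Basis (Fin q) F E', ∀ i, b i = y ^ (i : ℕ) := by
  haveI : FiniteDimensional F E' := FiniteDimensional.of_finrank_pos (by rw [hfr]; exact hq.pos)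
  have hint : IsIntegral F y := IsIntegral.of_finite F y
  have hdvd : Module.finrank F ↥F⟮y⟯ ∣ q := by
    rw [← hfr]
    exact ⟨_, (Module.finrank_mul_finrank F ↥F⟮y⟯ E').symm⟩
  have hne1 : Module.finrank F ↥F⟮y⟯ ≠ 1 := by
    intro h1
    rw [IntermediateField.finrank_eq_one_iff] at h1
    have hy' : y ∈ (⊥ : IntermediateField F E') := by
      rw [← h1]; exact IntermediateField.mem_adjoin_simple_self F y
    exact hy (IntermediateField.mem_bot.1 hy')
  have hfq : Module.finrank F ↥F⟮y⟯ = q := by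
    rcases (Nat.dvd_prime hq).1 hdvd with h | h
    · exact absurd h hne1
    · exact h
  have hdeg : (minpoly F y).natDegree = q := by
    rw [← IntermediateField.adjoin.finrank hint]; exact hfq
  have hli := linearIndependent_pow_of_natDegree y q hdeg
  haveI : Nonempty (Fin q) := ⟨⟨0, hq.pos⟩⟩
  refine ⟨basisOfLinearIndependentOfCardEqFinrank hli (by simp [hfr]), fun i => ?_⟩
  rw [coe_basisOfLinearIndependentOfCardEqFinrank]

variable {N N' : ℕ} [NeZero N] [NeZero N']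

/-- Along an inclusion `E N → E N'`, `N' = N ℓ`, `N = N0 ℓ`, `ℓ ∤ N0`: the powers of
`y = j(t^(ℓ²))` form a basis (of length `ℓ`). -/
theorem exists_basis_pow_of_isIncl_dvd {ℓ N0 : ℕ} [NeZero ℓ] [NeZero N0] (hℓ : ℓ.Prime)
    (hN : N = N0 * ℓ) (hℓN0 : ¬ ℓ ∣ N0) (hN' : N' = N * ℓ) (φ : E N →ₐ[Kb] E N')
    (hφ : IsIncl φ) (y : E N')
    (hy : (y : LaurentSeries Kb) = qExpand Kb ℓ (qExpand Kb ℓ (jqModC Kb))) :
    letI := algebraAlong φ
    ∃ b : Module.Basis (Fin ℓ) (E N) (E N'), ∀ i, b i = y ^ (i : ℕ) := by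
  subst hN'
  obtain rfl : φ = heckeAlphaBar Kb N ℓ := algHom_ext_coe fun x => by
    rw [hφ x, coe_heckeAlphaBar]
  letI := algebraAlong (heckeAlphaBar Kb N ℓ)
  refine exists_basis_pow_of_prime hℓ
    (finrankAlong_alpha_of_dvd N hℓ (hN ▸ Dvd.intro_left N0 rfl)) y ?_
  rintro ⟨g, hg⟩
  have h1 : (g : LaurentSeries Kb) = qExpand Kb ℓ (qExpand Kb ℓ (jqModC Kb)) := by
    rw [← hy, ← hg]
    exact (coe_heckeAlphaBar (L := Kb) N ℓ g).symm
  have h2 : (g : LaurentSeries Kb) ∈ modularFunctionFieldBar (N0 * ℓ) := hN ▸ g.2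
  rw [h1] at h2
  exact jq2_not_mem_bar hℓ hℓN0 h2

/-- Along a dilation `E N → E N'` by `ℓ`, `N' = N ℓ`, `ℓ ∣ N`: the powers of `y = j` form a basis
(of length `ℓ`). -/
theorem exists_basis_pow_of_isDil_dvd {ℓ : ℕ} [NeZero ℓ] (hℓ : ℓ.Prime) (hℓN : ℓ ∣ N)
    (hN' : N' = N * ℓ) (φ : E N →ₐ[Kb] E N') (hφ : IsDil ℓ φ) (y : E N')
    (hy : (y : LaurentSeries Kb) = jqModC Kb) :
    letI := algebraAlong φ
    ∃ b : Module.Basis (Fin ℓ) (E N) (E N'), ∀ i, b i = y ^ (i : ℕ) := by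
  subst hN'
  obtain rfl : φ = heckeBetaBar Kb N ℓ := algHom_ext_coe fun x => by
    rw [hφ x, coe_heckeBetaBar]
  letI := algebraAlong (heckeBetaBar Kb N ℓ)
  refine exists_basis_pow_of_prime hℓ (finrankAlong_beta_of_dvd N hℓ hℓN) y ?_
  rintro ⟨g, hg⟩
  have h1 : jqModC Kb = qExpand Kb ℓ (g : LaurentSeries Kb) := by
    rw [← hy, ← hg]
    exact coe_heckeBetaBar (L := Kb) N ℓ g
  have hℓ1 : ¬ ℓ ∣ 1 := fun h => hℓ.one_lt.ne' (Nat.dvd_one.1 h)
  have := Fermat.Agent.S37.ES.HeckeRho.qExpand_rescaleU_jqModC_not_mem (k := Kb) (ℓ := ℓ) (d := 1)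
    hℓ1 1
  rw [rescaleU_one, qExpand_one_apply] at this
  exact this ⟨_, h1.symm⟩

end PowerBasis

end Fermat.Agent.S36.LevelDvd
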