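/-
S36 (exploration, helper19), leaf 2: transfer of "no inertia invariants" from torsion points to the
base-changed Tate module.

`J`, `J'` abelian groups, `G` acting on `J`, `φ : J → J'`, `I ⊆ G` any set, `c ≠ 0` a natural number.
Hypothesis (torsion form): every `p`-power torsion `y ∈ ker φ` fixed by all `s ∈ I` has `c • y = 0`.

* `tp_eq_zero_of_fixed` : then `w ∈ Tp J`, `Tp φ w = 0`, `s w = w` for all `s ∈ I` implies `w = 0`;
* `tensor_eq_zero_of_fixed` : the same for `v ∈ R ⊗ Tp J`, `R` any flat `ℤ_p`-algebra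
  (`(R ⊗ Tp φ) v = 0`, `ρ_V(s) v = v` for all `s ∈ I` implies `v = 0`).

The second step writes `v` in a finitely generated (hence free) `ℤ_p`-submodule `R₀ ⊗ Tp J` and
reads the conditions coordinatewise; no finiteness of `I` is needed.
-/
import Fermat.Agent.S35.Chain

set_option autoImplicit false
set_option linter.unusedSectionVars false

noncomputable section

namespace Fermat.Agent.S36.InvTransfer

open TensorProduct
open Fermat.Agent.S30.Padic.TateModule Fermat.Agent.S30.Padic.Assembly

variable (p : ℕ) [hp : Fact p.Prime]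
variable {J : Type*} [AddCommGroup J] {G : Type*} [Group G] [DistribMulAction G J]
  {J' : Type*} [AddCommGroup J']

/-- **Tate-module form.** -/
theorem tp_eq_zero_of_fixed (φ : J →+ J') (I : Set G) {c : ℕ} (hc : c ≠ 0)
    (hgeo : ∀ y : J, (∃ n : ℕ, p ^ n • y = 0) → φ y = 0 → (∀ s ∈ I, s • y = y) → c • y = 0)
    (w : Tp p J) (hφ : Tp.map (p := p) φ w = 0)
    (hfix : ∀ s ∈ I, Tp.galoisHom (p := p) G s w = w) : w = 0 := by
  have h0 : (c : ℤ_[p]) • w = 0 := by
    apply Tp.ext
    intro k
    rw [Tp.coe_natCast_smul_apply]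
    have h1 : φ (w.1 k) = 0 := by
      have := congrArg (fun x : Tp p J' => x.1 k) hφ
      simpa using this
    have h2 : ∀ s ∈ I, s • w.1 k = w.1 k := by
      intro s hs
      have := congrArg (fun x : Tp p J => x.1 k) (hfix s hs)
      simpa using this
    exact hgeo _ (Tp.isTorsion_apply w k) h1 h2
  have hc' : (c : ℤ_[p]) ≠ 0 := Nat.cast_ne_zero.2 hc
  exact (smul_eq_zero.1 h0).resolve_left hc'

/-- coordinates of `(1 ⊗ f) x` with respect to a basis of the left factor -/
theorem coord_lTensor {A : Type*} [CommRing A] {M : Type*} [AddCommGroup M] [Module A M]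
    {ι : Type*} [DecidableEq ι] (b : Module.Basis ι A M)
    {N N' : Type*} [AddCommGroup N] [Module A N] [AddCommGroup N'] [Module A N']
    (f : N →ₗ[A] N') (x : M ⊗[A] N) (i : ι) :
    TensorProduct.equivFinsuppOfBasisLeft b (f.lTensor M x) i =
      f (TensorProduct.equivFinsuppOfBasisLeft b x i) := by
  induction x using TensorProduct.induction_on with
  | zero => simp
  | tmul r y =>
    rw [LinearMap.lTensor_tmul, TensorProduct.equivFinsuppOfBasisLeft_apply_tmul_apply,
      TensorProduct.equivFinsuppOfBasisLeft_apply_tmul_apply, map_smul]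
  | add x y hx hy =>
    rw [map_add, map_add, Finsupp.add_apply, hx, hy, map_add, Finsupp.add_apply, map_add]

variable (R : Type*) [CommRing R] [Algebra ℤ_[p] R] [Module.Flat ℤ_[p] R]

set_option maxHeartbeats 400000 in
/-- **Base-changed form.** -/
theorem tensor_eq_zero_of_fixed (φ : J →+ J') (I : Set G)
    (hW : ∀ w : Tp p J, Tp.map (p := p) φ w = 0 →
      (∀ s ∈ I, Tp.galoisHom (p := p) G s w = w) → w = 0)
    (v : R ⊗[ℤ_[p]] Tp p J) (hv : (Tp.map (p := p) φ).baseChange R v = 0)
    (hfix : ∀ s ∈ I, rhoV p R J s v = v) : v = 0 := by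
  classical
  obtain ⟨R₀, hfin, hsub⟩ :=
    TensorProduct.exists_finite_submodule_left_of_setFinite ({v} : Set (R ⊗[ℤ_[p]] Tp p J))
      (Set.finite_singleton v)
  obtain ⟨v₀, rfl⟩ := hsub (Set.mem_singleton v)
  have := hfin
  obtain ⟨n, b⟩ := Module.basisOfFiniteTypeTorsionFree' (R := ℤ_[p]) (M := R₀)
  have hinj : Function.Injective (R₀.subtype.rTensor (Tp p J)) :=
    Module.Flat.rTensor_preserves_injective_linearMap _ (Submodule.injective_subtype R₀)
  have hinj' : Function.Injective (R₀.subtype.rTensor (Tp p J')) :=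
    Module.Flat.rTensor_preserves_injective_linearMap _ (Submodule.injective_subtype R₀)
  -- the conditions, upstairs
  have hv₀ : (Tp.map (p := p) φ).lTensor R₀ v₀ = 0 := by
    apply hinj'
    rw [map_zero, ← LinearMap.comp_apply, LinearMap.rTensor_comp_lTensor,
      ← LinearMap.lTensor_comp_rTensor, LinearMap.comp_apply]
    exact hv
  have hfix₀ : ∀ s ∈ I, (Tp.galoisHom (p := p) G s).lTensor R₀ v₀ = v₀ := by
    intro s hs
    apply hinj
    rw [← LinearMap.comp_apply, LinearMap.rTensor_comp_lTensor,
      ← LinearMap.lTensor_comp_rTensor, LinearMap.comp_apply]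
    exact hfix s hs
  -- coordinates
  have hzero : TensorProduct.equivFinsuppOfBasisLeft b v₀ = 0 := by
    ext i : 1
    rw [Finsupp.zero_apply]
    apply hW
    · rw [← coord_lTensor, hv₀, map_zero, Finsupp.zero_apply]
    · intro s hs
      rw [← coord_lTensor, hfix₀ s hs]
  rw [(TensorProduct.equivFinsuppOfBasisLeft b).map_eq_zero_iff.1 hzero, map_zero]

end Fermat.Agent.S36.InvTransfer
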