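/-
S36 (exploration, helper19): the chain.  Same construction as `S35/ChainGood.s35_of_eigen`
(eigen-lattice of `𝒪'' ⊗ Tp J₀(N)`, scalar / non-scalar alternative), with the second clause
replaced by NON-unipotence of inertia at the primes `q` with `v_q(N) = 2`, deduced from
"no nonzero inertia-fixed vector in the eigen-lattice" (`Kolchin.exists_common_fixed`).

* `s36_of_eigen` : abstract form;
* `s36_of_inputs` : from `(φ, t')` intertwining at the primes outside `S`, `(E0)` for the primes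
  outside `S`, and `(NEW-I)`: a nonzero constant kills every inertia-invariant `p`-power torsion
  point of `ker φ`.
-/
import Fermat.Prelude.Def_GaloisRep_LocalConditions
import Fermat.Agent.S35.ChainGood
import Fermat.Agent.S36.Kolchin
import Fermat.Agent.S36.InvTransfer

set_option autoImplicit false
set_option linter.unusedSectionVars false

noncomputable section

namespace Fermat.Agent.S36.Chain

open IsLocalRing TensorProduct Polynomial
open Fermat.Agent.S30.Padic.TateModule Fermat.Agent.S30.Padic.EigenLattice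
open Fermat.Agent.S30.Padic Fermat.Agent.S30.Padic.Assembly
open Fermat.Agent.S35.Chain Fermat.Agent.S35.ChainGood

local notation "GQ" => (AlgebraicClosure ℚ ≃ₐ[ℚ] AlgebraicClosure ℚ)

section Main

open Fermat.Agent.S30.Arith Fermat.Agent.S30.Algebra Fermat.Agent.S30.Final.Chain
open Fermat.Agent.S30 ModularCurve
open Fermat.Agent.S35.LinAlg

set_option linter.style.haveILetI false

set_option maxHeartbeats 400000 in
/-- **The S36 chain, abstract form.**  The conclusion of the frozen statement S36 (for `M = N`,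
`lam = p` and a ring homomorphism `χ` of the Hecke algebra into `𝒪'`) from the inputs `(H1)`–`(H4)`
of the S30 chain and the hypothesis that, for every prime `q` with `v_q(N) = 2`, `q ≠ p`, there is
a valuation ring `A` over `q` whose inertia group has no nonzero fixed vector in the
`χ`-eigen-lattice of `R ⊗ Tp J₀(N)`, for every coefficient ring `R`. -/
theorem s36_of_eigen (p : ℕ) [Fact p.Prime] (N : ℕ) [NeZero N] (S : Finset ℕ)
    (hpS : p ∈ S) (hNS : ∀ q : ℕ, q.Prime → q ∣ N → q ∈ S)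
    (𝒪' : Type) [CommRing 𝒪'] [IsDomain 𝒪'] [IsDiscreteValuationRing 𝒪']
    [IsAdicComplete (IsLocalRing.maximalIdeal 𝒪') 𝒪'] [Finite (IsLocalRing.ResidueField 𝒪')]
    [CharZero 𝒪'] (hp𝒪' : (p : 𝒪') ∈ IsLocalRing.maximalIdeal 𝒪')
    (χ : CuspForm.heckeAlgebra N 2 (↑S : Set ℕ) →+* 𝒪')
    (H1 : Torsion.HasReductionAll N p)
    (H2 : {y : JZero N | p • y = 0}.Finite)
    (M : Type) [AddCommGroup M] (τ : Nat.Primes → Module.End ℤ M)
    (e : Tp p (JZero N) ≃ₗ[ℤ_[p]] ℤ_[p] ⊗[ℤ] M)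
    (H3 : ∀ (r : Nat.Primes) (x : Tp p (JZero N)),
      e (Tp.mapEnd (heckeEnd N r) x) = (τ r).baseChange ℤ_[p] (e x))
    (H4 : ∃ (L : Type) (_ : Field L) (_ : Algebra (FractionRing 𝒪') L) (_ : Algebra 𝒪' L)
      (_ : IsScalarTower 𝒪' (FractionRing 𝒪') L) (_ : FiniteDimensional (FractionRing 𝒪') L)
      (c : Nat.Primes → L), (∀ r, IsIntegral 𝒪' (c r)) ∧
      (∀ (ℓ : ℕ) (hℓ : ℓ.Prime) (hℓN : ¬ ℓ ∣ N) (hℓS : ℓ ∉ (↑S : Set ℕ)),
        c ⟨ℓ, hℓ⟩ = algebraMap 𝒪' L (χ (CuspForm.heckeAlgebra.T hℓ hℓN hℓS))) ∧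
      Module.finrank L (eigenLattice (fun r => (τ r).baseChange L) c) = 2)
    (Hinv : ∀ q : ℕ, q.Prime → q ≠ p → N.factorization q = 2 →
      ∃ A : ValuationSubring (AlgebraicClosure ℚ), A.LiesOverPrime q ∧
        ∀ (R : Type) [CommRing R] [IsDomain R] [CharZero R] [Algebra ℤ_[p] R] [Algebra 𝒪' R],
          Function.Injective (algebraMap 𝒪' R) → ∀ (c : Nat.Primes → R),
          (∀ (ℓ : ℕ) (hℓ : ℓ.Prime) (hℓN : ¬ ℓ ∣ N) (hℓS : ℓ ∉ (↑S : Set ℕ)),
            c ⟨ℓ, hℓ⟩ = algebraMap 𝒪' R (χ (CuspForm.heckeAlgebra.T hℓ hℓN hℓS))) →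
          ∀ v ∈ eigenLattice (fun r => opVHom p R (JZero N) (heckeEnd N r)) c,
            (∀ s ∈ A.inertiaSubgroupIn ℚ, rhoV p R (JZero N) s v = v) → v = 0) :
    ∃ (𝒪'' : Type) (_ : CommRing 𝒪'') (_ : IsDomain 𝒪'') (_ : IsDiscreteValuationRing 𝒪'')
      (_ : IsAdicComplete (IsLocalRing.maximalIdeal 𝒪'') 𝒪'')
      (_ : Finite (IsLocalRing.ResidueField 𝒪'')) (_ : CharZero 𝒪'')
      (_ : Algebra 𝒪' 𝒪'') (_ : Module.Finite 𝒪' 𝒪'') (_ : IsLocalHom (algebraMap 𝒪' 𝒪'')),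
      Function.Injective (algebraMap 𝒪' 𝒪'') ∧
      ∃ ρ : GaloisRepAdic 𝒪'',
        (∀ (ℓ : ℕ) (hℓ : ℓ.Prime) (hℓN : ¬ ℓ ∣ N) (hℓS : ℓ ∉ (↑S : Set ℕ)),
          ∀ A : ValuationSubring (AlgebraicClosure ℚ), A.LiesOverPrime ℓ →
            ∀ σ : AlgebraicClosure ℚ ≃ₐ[ℚ] AlgebraicClosure ℚ, A.IsFrobeniusAt σ ℓ →
              LinearMap.charpoly (ρ.ρ σ) =
                X ^ 2 - C (algebraMap 𝒪' 𝒪'' (χ (CuspForm.heckeAlgebra.T hℓ hℓN hℓS))) * X
                  + C ((ℓ : 𝒪''))) ∧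
        (∀ q : ℕ, q.Prime → q ≠ p → N.factorization q = 2 → ¬ ρ.IsUnipotentOnInertiaAt q) := by
  classical
  have hp : p.Prime := Fact.out
  obtain ⟨L, _, _, _, _, _, c, hcint, hcχ, hdim⟩ := H4
  obtain ⟨𝒪'', _, _, _, _, _, _, _, _, _, _, _, _, hinj, hlift⟩ :=
    CompleteDVRExt.exists_completeDVR_ext 𝒪' (FractionRing 𝒪') L
  refine ⟨𝒪'', inferInstance, inferInstance, inferInstance, inferInstance, inferInstance,
    inferInstance, inferInstance, inferInstance, inferInstance, hinj, ?_⟩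
  -- integral eigenvalues
  choose c'' hc'' using fun r => hlift (c r) (hcint r)
  have hinjL : Function.Injective (algebraMap 𝒪'' L) := IsFractionRing.injective 𝒪'' L
  -- `p` is in the maximal ideal of `𝒪''`
  have hp'' : (p : 𝒪'') ∈ maximalIdeal 𝒪'' := by
    rw [mem_maximalIdeal, mem_nonunits_iff] at hp𝒪' ⊢
    intro hu
    apply hp𝒪'
    have : IsUnit (algebraMap 𝒪' 𝒪'' (p : 𝒪')) := by rwa [map_natCast]
    exact (isUnit_map_iff (algebraMap 𝒪' 𝒪'') _).1 this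
  letI : Algebra ℤ_[p] 𝒪'' := ZpAlgebra.zpAlgebra p (maximalIdeal 𝒪'') hp''
  haveI : Module.Flat ℤ_[p] 𝒪'' := flat_padicInt p 𝒪''
  -- the Tate module
  haveI : Module.Finite ℤ_[p] (Tp p (JZero N)) := Tp.finite_of_finite H2
  haveI : Module.Free ℤ_[p] (Tp p (JZero N)) := Tp.free_of_finite H2
  -- the rank of the eigen-lattice
  have h2 : Module.finrank 𝒪'' (eigenLattice
      (fun r => Assembly.opVHom p 𝒪'' (JZero N) (heckeEnd N r)) c'') = 2 := by
    refine (EigenCompare.finrank_eigenLattice_of_equiv (L := L)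
      (fun r => Assembly.opVHom p 𝒪'' (JZero N) (heckeEnd N r)) c'' τ (compareEquiv p 𝒪'' e)
      (fun r v => compareEquiv_intertwines p 𝒪'' e _ (τ r) (H3 r) v)).trans ?_
    have : (fun r => algebraMap 𝒪'' L (c'' r)) = c := funext hc''
    rw [this]
    exact hdim
  -- open stabilisers
  have hC : ∀ n : ℕ, ∃ E : IntermediateField ℚ (AlgebraicClosure ℚ), FiniteDimensional ℚ E ∧
      ∀ σ : GQ, (∀ x ∈ E, σ x = x) → ∀ y : JZero N, p ^ n • y = 0 → σ • y = y := fun n =>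
    Smooth.exists_finite_fixing_torsion N (p ^ n) (finite_torsion_pow p H2 n)
  -- the representation on the eigen-lattice, explicitly
  have hcomm : ∀ (σ : GQ) (r : Nat.Primes), Commute (rhoV p 𝒪'' (JZero N) σ)
      (opVHom p 𝒪'' (JZero N) (heckeEnd N r)) := fun σ r =>
    commute_rhoV_opVHom p 𝒪'' σ (heckeEnd N r)
      (fun y => HeckeGalois.heckeOperatorBar_smul N r σ y)
  have hcont := isAdicContinuous_rhoV p (R := 𝒪'') (J := JZero N) hp'' hC
  let ρ : GaloisRepAdic 𝒪'' :=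
    galoisRep (fun r => opVHom p 𝒪'' (JZero N) (heckeEnd N r)) c''
      (rhoV p 𝒪'' (JZero N)) hcomm hcont h2
  have hρq : ∀ (σ : GQ) (r : Nat.Primes) (b : ℤ),
      (∀ y : JZero N, (∃ n : ℕ, p ^ n • y = 0) →
        σ • σ • y - heckeEnd N r (σ • y) + b • y = 0) →
      ρ.ρ σ * ρ.ρ σ - c'' r • ρ.ρ σ + (b : 𝒪'') • (1 : Module.End 𝒪'' ρ.V) = 0 := by
    intro σ r b h
    exact galoisRep_quadratic (t := fun r => opVHom p 𝒪'' (JZero N) (heckeEnd N r)) r (b : 𝒪'')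
      (rhoV_quadratic p 𝒪'' σ (heckeEnd N r) b h)
  have hρ1 : ∀ σ : GQ, (∀ y : JZero N, (∃ n : ℕ, p ^ n • y = 0) → σ • y = y) → ρ.ρ σ = 1 := by
    intro σ h
    exact galoisRep_eq_one (rhoV_eq_one p 𝒪'' σ h)
  -- eigenvalues at the good primes
  have hc''χ : ∀ (ℓ : ℕ) (hℓ : ℓ.Prime) (hℓN : ¬ ℓ ∣ N) (hℓS : ℓ ∉ (↑S : Set ℕ)),
      c'' ⟨ℓ, hℓ⟩ = algebraMap 𝒪' 𝒪'' (χ (CuspForm.heckeAlgebra.T hℓ hℓN hℓS)) := by
    intro ℓ hℓ hℓN hℓS
    apply hinjL
    exact (hc'' ⟨ℓ, hℓ⟩).trans ((hcχ ℓ hℓ hℓN hℓS).trans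
      (IsScalarTower.algebraMap_apply 𝒪' 𝒪'' L _))
  -- NEW: no inertia invariants in the eigen-lattice at the primes with `v_q(N) = 2`
  have hE0 : ∀ q : ℕ, q.Prime → q ≠ p → N.factorization q = 2 →
      ∃ A : ValuationSubring (AlgebraicClosure ℚ), A.LiesOverPrime q ∧
        ∀ v ∈ eigenLattice (fun r => opVHom p 𝒪'' (JZero N) (heckeEnd N r)) c'',
          (∀ s ∈ A.inertiaSubgroupIn ℚ, rhoV p 𝒪'' (JZero N) s v = v) → v = 0 := by
    intro q hq hqp hq2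
    obtain ⟨A, hA, h⟩ := Hinv q hq hqp hq2
    exact ⟨A, hA, h 𝒪'' hinj c'' hc''χ⟩
  -- the Frobenius relation and unramifiedness
  let a : ℕ → 𝒪'' := fun ℓ => if h : ℓ.Prime then c'' ⟨ℓ, h⟩ else 0
  have hNS' : ∀ ℓ : ℕ, ℓ.Prime → ℓ ∉ S → ¬ ℓ ∣ N := fun ℓ hℓ hℓS hdvd => hℓS (hNS ℓ hℓ hdvd)
  have hrel : DetGalois.FrobRelation ρ S a := by
    intro ℓ hℓ hℓS A hA σ hσ
    have hℓp : ℓ ≠ p := fun h => hℓS (h ▸ hpS)
    have h := hρq σ ⟨ℓ, hℓ⟩ (ℓ : ℤ) (fun y hy => by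
      rw [natCast_zsmul]
      exact Torsion.frobenius_relation H1 hp hℓ (hNS' ℓ hℓ hℓS) hℓp A hA hσ hy)
    simp only [a, dif_pos hℓ]
    rw [Int.cast_natCast] at h
    exact h
  have hdens : DetGalois.Density S := fun E hE σ =>
    haveI := hE
    Density.Bridge.frobenius_density_final E σ S
  have ha : ∀ (ℓ : ℕ) (hℓ : ℓ.Prime) (hℓN : ¬ ℓ ∣ N) (hℓS : ℓ ∉ (↑S : Set ℕ)),
      a ℓ = algebraMap 𝒪' 𝒪'' (χ (CuspForm.heckeAlgebra.T hℓ hℓN hℓS)) := by
    intro ℓ hℓ hℓN hℓS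
    simp only [a, dif_pos hℓ]
    exact hc''χ ℓ hℓ hℓN hℓS
  -- the scalar / non-scalar alternative of `DetGalois.exists_rep_charpoly`, with the new output
  obtain ⟨ι⟩ := Cyclotomic.exists_ringHom p (maximalIdeal 𝒪'') hp''
  let b := Module.finBasisOfFinrankEq 𝒪'' ρ.V ρ.finrank_eq
  by_cases hsc : ∀ σ : GQ, DetLemma.End.IsScalar (ρ.ρ σ)
  · -- the scalar-valued case
    choose θf hθf using hsc
    have inj : ∀ {x x' : 𝒪''}, x • (1 : Module.End 𝒪'' ρ.V) = x' • (1 : Module.End 𝒪'' ρ.V) →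
        x = x' := fun h => DetGalois.smul_one_injective ρ.V b h
    let θ : GQ →* 𝒪'' :=
      { toFun := θf
        map_one' := inj (by rw [← hθf 1, map_one, one_smul])
        map_mul' := fun σ τ => inj (by
          rw [← hθf (σ * τ), map_mul, hθf σ, hθf τ, smul_mul_smul_comm, mul_one]) }
    have hθ : ∀ σ, ρ.ρ σ = θ σ • (1 : Module.End 𝒪'' ρ.V) := hθf
    have hθc : CharSum.IsAdicContinuousChar 𝒪'' θ := by
      intro n
      obtain ⟨E, hE, h⟩ := ρ.isAdicContinuous n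
      refine ⟨E, hE, fun σ hσ => ?_⟩
      have h1 := DetLemma.End.repr_mem_of_mem_smul_top b _ _ (h σ hσ (b 0)) 0
      rw [hθ σ] at h1
      simpa [sub_mul] using h1
    have hεc : CharSum.IsAdicContinuousChar 𝒪'' (Cyclotomic.cycChar p ι) :=
      Cyclotomic.cycChar_continuous p ι (maximalIdeal 𝒪'') hp''
    have h2c : CharSum.IsAdicContinuousChar 𝒪'' (Cyclotomic.cycChar p ι * CharSum.invChar θ) :=
      hεc.mul hθc.inv
    refine ⟨CharSum.ofChars θ (Cyclotomic.cycChar p ι * CharSum.invChar θ) hθc h2c, ?_, ?_⟩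
    · intro ℓ hℓ hℓN hℓS A hA τ' hτ'
      have hℓS' : ℓ ∉ S := fun h => hℓS (Finset.mem_coe.2 h)
      have hℓp : ℓ ≠ p := fun h => hℓS' (h ▸ hpS)
      have hετ := Cyclotomic.cycChar_isFrobeniusAt p ι hℓ hℓp A hA τ' hτ'
      have hr := hrel ℓ hℓ hℓS' A hA τ' hτ'
      rw [hθ τ', smul_mul_smul_comm, mul_one, smul_smul, ← sub_smul, ← add_smul] at hr
      have hr' : θ τ' * θ τ' - a ℓ * θ τ' + (ℓ : 𝒪'') = 0 :=
        inj (by rw [hr, zero_smul])
      have hu : CharSum.invChar θ τ' * θ τ' = 1 := CharSum.invChar_mul_self θ τ'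
      rw [CharSum.ofChars_charpoly, MonoidHom.mul_apply, hετ, ← ha ℓ hℓ hℓN hℓS]
      have e1 : θ τ' + (ℓ : 𝒪'') * CharSum.invChar θ τ' = a ℓ := by
        linear_combination (CharSum.invChar θ τ') * hr' + (a ℓ - θ τ') * hu
      have e2 : θ τ' * ((ℓ : 𝒪'') * CharSum.invChar θ τ') = (ℓ : 𝒪'') := by
        linear_combination (ℓ : 𝒪'') * hu
      rw [e1, e2]
    · intro q hq hqp hq2 huni
      obtain ⟨A, hA, hinv⟩ := hE0 q hq hqp hq2
      -- `θ` is trivial on the inertia group of `A`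
      have hθ1 : ∀ s ∈ A.inertiaSubgroupIn ℚ, θ s = 1 := by
        intro s hs
        have hch := huni A hA s hs
        rw [CharSum.ofChars_charpoly, MonoidHom.mul_apply,
          Cyclotomic.cycChar_inertia p ι hq hqp A hA s hs, one_mul] at hch
        have hu : CharSum.invChar θ s * θ s = 1 := CharSum.invChar_mul_self θ s
        obtain ⟨u, hu_def⟩ : ∃ u : 𝒪'', u = CharSum.invChar θ s := ⟨_, rfl⟩
        obtain ⟨a, ha_def⟩ : ∃ a : 𝒪'', a = θ s := ⟨_, rfl⟩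
        rw [← hu_def, ← ha_def] at hch hu
        have h1 := congrArg (fun P : 𝒪''[X] => P.coeff 1) hch
        have e : ((X : 𝒪''[X]) - 1) ^ 2 = X ^ 2 - C 2 * X + C 1 := by
          simp only [map_ofNat, map_one]; ring
        simp only [e] at h1
        simp [coeff_one, coeff_C] at h1
        have h2 : a + u = 2 := by linear_combination -h1
        have h3 : (θ s - 1) ^ 2 = 0 := by
          rw [← ha_def]
          linear_combination a * h2 - hu
        exact sub_eq_zero.1 (pow_eq_zero_iff two_ne_zero |>.1 h3)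
      -- hence every vector of the eigen-lattice is fixed
      have hzero : ∀ v : ρ.V, v = 0 := by
        intro v
        apply Subtype.ext
        refine hinv v.1 v.2 (fun s hs => ?_)
        have h4 : (ρ.ρ s v : ρ.V) = v := by
          rw [hθ s, hθ1 s hs, one_smul, Module.End.one_apply]
        exact congrArg Subtype.val h4
      have hb0 : b 0 = 0 := hzero _
      exact b.ne_zero 0 hb0
  · -- the non-scalar case
    push Not at hsc
    refine ⟨ρ, ?_, ?_⟩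
    · intro ℓ hℓ hℓN hℓS A hA τ' hτ'
      have hℓS' : ℓ ∉ S := fun h => hℓS (Finset.mem_coe.2 h)
      have hℓp : ℓ ≠ p := fun h => hℓS' (h ▸ hpS)
      have hdet : LinearMap.det (ρ.ρ τ') = (ℓ : 𝒪'') := by
        rw [DetGalois.det_eq_cycChar p hp'' ι S hpS a ρ hrel hdens hsc τ',
          Cyclotomic.cycChar_isFrobeniusAt p ι hℓ hℓp A hA τ' hτ']
      rw [← ha ℓ hℓ hℓN hℓS]
      exact DetLemma.End.charpoly_of_relation_of_det b (ρ.ρ τ') (a ℓ) ℓ
        (hrel ℓ hℓ hℓS' A hA τ' hτ') hdet (Nat.cast_ne_zero.2 hℓ.ne_zero)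
    · intro q hq hqp hq2 huni
      obtain ⟨A, hA, hinv⟩ := hE0 q hq hqp hq2
      obtain ⟨v, hv0, hvfix⟩ := Fermat.Agent.S36.Kolchin.exists_common_fixed b ρ.ρ
        (A.inertiaSubgroupIn ℚ) (fun s hs => huni A hA s hs)
      apply hv0
      apply Subtype.ext
      exact hinv v.1 v.2 (fun s hs => congrArg Subtype.val (hvfix s hs))

set_option maxHeartbeats 400000 in
/-- **The S36 chain, good primes only.**  The conclusion of the frozen statement S36 from the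
inputs `(H1)`–`(H4)` of the S30 chain and, for every prime `q` with `v_q(N) = 2`, `q ≠ p`, a
homomorphism `φ : J₀(N) → J'` intertwining the Hecke operators at the primes outside `S` such that
`(E0)` the `χ`-eigen-lattice of `J'` (for the primes outside `S`) vanishes and `(NEW-I)` for some
valuation ring `A` over `q` a nonzero constant kills every `p`-power torsion point of `ker φ` fixed
by the inertia group of `A`. -/
theorem s36_of_inputs (p : ℕ) [Fact p.Prime] (N : ℕ) [NeZero N] (S : Finset ℕ)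
    (hpS : p ∈ S) (hNS : ∀ q : ℕ, q.Prime → q ∣ N → q ∈ S)
    (𝒪' : Type) [CommRing 𝒪'] [IsDomain 𝒪'] [IsDiscreteValuationRing 𝒪']
    [IsAdicComplete (IsLocalRing.maximalIdeal 𝒪') 𝒪'] [Finite (IsLocalRing.ResidueField 𝒪')]
    [CharZero 𝒪'] (hp𝒪' : (p : 𝒪') ∈ IsLocalRing.maximalIdeal 𝒪')
    (χ : CuspForm.heckeAlgebra N 2 (↑S : Set ℕ) →+* 𝒪')
    (H1 : Torsion.HasReductionAll N p)
    (H2 : {y : JZero N | p • y = 0}.Finite)
    (M : Type) [AddCommGroup M] (τ : Nat.Primes → Module.End ℤ M)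
    (e : Tp p (JZero N) ≃ₗ[ℤ_[p]] ℤ_[p] ⊗[ℤ] M)
    (H3 : ∀ (r : Nat.Primes) (x : Tp p (JZero N)),
      e (Tp.mapEnd (heckeEnd N r) x) = (τ r).baseChange ℤ_[p] (e x))
    (H4 : ∃ (L : Type) (_ : Field L) (_ : Algebra (FractionRing 𝒪') L) (_ : Algebra 𝒪' L)
      (_ : IsScalarTower 𝒪' (FractionRing 𝒪') L) (_ : FiniteDimensional (FractionRing 𝒪') L)
      (c : Nat.Primes → L), (∀ r, IsIntegral 𝒪' (c r)) ∧
      (∀ (ℓ : ℕ) (hℓ : ℓ.Prime) (hℓN : ¬ ℓ ∣ N) (hℓS : ℓ ∉ (↑S : Set ℕ)),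
        c ⟨ℓ, hℓ⟩ = algebraMap 𝒪' L (χ (CuspForm.heckeAlgebra.T hℓ hℓN hℓS))) ∧
      Module.finrank L (eigenLattice (fun r => (τ r).baseChange L) c) = 2)
    (Hnew : ∀ q : ℕ, q.Prime → q ≠ p → N.factorization q = 2 →
      ∃ (J' : Type) (_ : AddCommGroup J') (φ : JZero N →+ J')
        (t' : Nat.Primes → AddMonoid.End J'),
        (∀ (r : Nat.Primes), (r : ℕ) ∉ S → ∀ y : JZero N, φ (heckeEnd N r y) = t' r (φ y)) ∧
        (∀ (R : Type) [CommRing R] [IsDomain R] [CharZero R] [Algebra ℤ_[p] R] [Algebra 𝒪' R],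
          Function.Injective (algebraMap 𝒪' R) → ∀ (c : Nat.Primes → R),
          (∀ (ℓ : ℕ) (hℓ : ℓ.Prime) (hℓN : ¬ ℓ ∣ N) (hℓS : ℓ ∉ (↑S : Set ℕ)),
            c ⟨ℓ, hℓ⟩ = algebraMap 𝒪' R (χ (CuspForm.heckeAlgebra.T hℓ hℓN hℓS))) →
          eigenLattice (fun r : {r : Nat.Primes // (r : ℕ) ∉ S} => opVHom p R J' (t' r.1))
            (fun r => c r.1) = ⊥) ∧
        ∃ A : ValuationSubring (AlgebraicClosure ℚ), A.LiesOverPrime q ∧
          ∃ k : ℕ, k ≠ 0 ∧ ∀ y : JZero N, (∃ n : ℕ, p ^ n • y = 0) → φ y = 0 →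
            (∀ s ∈ A.inertiaSubgroupIn ℚ, s • y = y) → k • y = 0) :
    ∃ (𝒪'' : Type) (_ : CommRing 𝒪'') (_ : IsDomain 𝒪'') (_ : IsDiscreteValuationRing 𝒪'')
      (_ : IsAdicComplete (IsLocalRing.maximalIdeal 𝒪'') 𝒪'')
      (_ : Finite (IsLocalRing.ResidueField 𝒪'')) (_ : CharZero 𝒪'')
      (_ : Algebra 𝒪' 𝒪'') (_ : Module.Finite 𝒪' 𝒪'') (_ : IsLocalHom (algebraMap 𝒪' 𝒪'')),
      Function.Injective (algebraMap 𝒪' 𝒪'') ∧
      ∃ ρ : GaloisRepAdic 𝒪'',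
        (∀ (ℓ : ℕ) (hℓ : ℓ.Prime) (hℓN : ¬ ℓ ∣ N) (hℓS : ℓ ∉ (↑S : Set ℕ)),
          ∀ A : ValuationSubring (AlgebraicClosure ℚ), A.LiesOverPrime ℓ →
            ∀ σ : AlgebraicClosure ℚ ≃ₐ[ℚ] AlgebraicClosure ℚ, A.IsFrobeniusAt σ ℓ →
              LinearMap.charpoly (ρ.ρ σ) =
                X ^ 2 - C (algebraMap 𝒪' 𝒪'' (χ (CuspForm.heckeAlgebra.T hℓ hℓN hℓS))) * X
                  + C ((ℓ : 𝒪''))) ∧
        (∀ q : ℕ, q.Prime → q ≠ p → N.factorization q = 2 → ¬ ρ.IsUnipotentOnInertiaAt q) := by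
  refine s36_of_eigen p N S hpS hNS 𝒪' hp𝒪' χ H1 H2 M τ e H3 H4 ?_
  intro q hq hqp hq2
  obtain ⟨J', _, φ, t', hφ, hE0, A, hA, k, hk, hgeo⟩ := Hnew q hq hqp hq2
  refine ⟨A, hA, ?_⟩
  intro R _ _ _ _ _ hinj c hc v hv hfix
  haveI : Module.Flat ℤ_[p] R := flat_padicInt p R
  have hv0 : v ∈ eigenLattice (fun r : {r : Nat.Primes // (r : ℕ) ∉ S} =>
      opVHom p R (JZero N) (heckeEnd N r.1)) (fun r => c r.1) := by
    rw [mem_eigenLattice] at hv ⊢
    exact fun r => hv r.1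
  have hv1 : (Tp.map (p := p) φ).baseChange R v = 0 := by
    have := baseChange_map_mem_eigenLattice p R φ
      (fun r : {r : Nat.Primes // (r : ℕ) ∉ S} => heckeEnd N r.1) (fun r => t' r.1)
      (fun r y => hφ r.1 r.2 y) (fun r => c r.1) hv0
    rw [hE0 R hinj c hc] at this
    exact (Submodule.mem_bot R).1 this
  exact Fermat.Agent.S36.InvTransfer.tensor_eq_zero_of_fixed p R φ
    (A.inertiaSubgroupIn ℚ : Set GQ)
    (fun w hw hwfix => Fermat.Agent.S36.InvTransfer.tp_eq_zero_of_fixed p φ _ hk hgeo w hw hwfix)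
    v hv1 hfix

end Main

end Fermat.Agent.S36.Chain
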