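/-
S36 (exploration, helper19): **the frozen statement S36 from two geometric inputs at level
`M' q`, `q ∣ M'`, `q² ∤ M'`** (so `v_q(M' q) = 2`):

* `DegHeckeHyp M' q S` : the two degeneracy maps `α_*, β_* : J₀(M' q) → J₀(M')`
  (`DegeneracyHecke.alphaPush`, `betaPush`) commute with the Hecke operators `T_r`, `r ∉ S`
  (on main this is proved for `q ∤ M'` only: `alphaPush_hecke`, `betaPush_hecke`);
* `NewInertiaHyp M' q p` : **(NEW-I)** for some valuation ring `A` over `q`, a nonzero constant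
  kills every `p`-power torsion point of `ker α_* ∩ ker β_*` fixed by the inertia group of `A`
  ("the `q`-new part of `J₀(q² M'')` has no inertia invariants at `q`", Carayol).

`s36_of_newInertia` : the frozen statement S36 (verbatim) from these two at all levels.  The
hypotheses `hlam2`, `hres` of the frozen statement are not used.

Everything else is discharged as in `S35/OfDict`.
-/
import Fermat.Agent.S36.Chain
import Fermat.Agent.S35.OfDict

set_option autoImplicit false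
set_option linter.unusedSectionVars false
set_option linter.style.haveILetI false

noncomputable section

namespace Fermat.Agent.S36.OfNewInertia

open Polynomial CuspForm CongruenceSubgroup ModularCurve TensorProduct
open Fermat.Agent.S30.Padic.TateModule Fermat.Agent.S30.Padic.EigenLattice
open Fermat.Agent.S30.Padic Fermat.Agent.S30.Padic.Assembly
open Fermat.Agent.S30.Final.Chain Fermat.Agent.S30.Spec
open Fermat.Agent.S35.Chain Fermat.Agent.S35.ChainGood Fermat.Agent.S35.DegeneracyHecke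
open Fermat.Agent.S35.OfDict

local notation "GQ" => (AlgebraicClosure ℚ ≃ₐ[ℚ] AlgebraicClosure ℚ)

/-- the degeneracy maps `α_*, β_* : J₀(M' q) → J₀(M')` commute with `T_r` for `r ∉ S` -/
def DegHeckeHyp (M' q : ℕ) [NeZero M'] [NeZero q] [NeZero (M' * q)] (S : Finset ℕ) : Prop :=
  ∀ r : Nat.Primes, (r : ℕ) ∉ S → ∀ y : JZero (M' * q),
    alphaPush M' q (heckeEnd (M' * q) r y) = heckeEnd M' r (alphaPush M' q y) ∧
    betaPush M' q (heckeEnd (M' * q) r y) = heckeEnd M' r (betaPush M' q y)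

/-- **(NEW-I) at level `M' q`**: for some valuation ring `A` over `q`, a nonzero constant kills
every `p`-power torsion point of `ker α_* ∩ ker β_*` fixed by the inertia group of `A`. -/
def NewInertiaHyp (M' q p : ℕ) [NeZero M'] [NeZero q] [NeZero (M' * q)] : Prop :=
  ∃ A : ValuationSubring (AlgebraicClosure ℚ), A.LiesOverPrime q ∧
    ∃ k : ℕ, k ≠ 0 ∧ ∀ y : JZero (M' * q), (∃ n : ℕ, p ^ n • y = 0) →
      alphaPush M' q y = 0 → betaPush M' q y = 0 →
      (∀ s ∈ A.inertiaSubgroupIn ℚ, s • y = y) → k • y = 0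

set_option maxHeartbeats 400000 in
/-- **The frozen statement S36 from `(NEW-I)` and the Hecke-equivariance of the degeneracy maps.** -/
theorem s36_of_newInertia
    (HD : ∀ (M' q : ℕ) [NeZero M'] [NeZero q] [NeZero (M' * q)] (S : Finset ℕ), q.Prime →
      q ∣ M' → ¬ q ^ 2 ∣ M' → (∀ ℓ : ℕ, ℓ.Prime → ℓ ∣ M' * q → ℓ ∈ S) → DegHeckeHyp M' q S)
    (HI : ∀ (M' q p : ℕ) [NeZero M'] [NeZero q] [NeZero (M' * q)], q.Prime → p.Prime →
      q ∣ M' → ¬ q ^ 2 ∣ M' → q ≠ p → NewInertiaHyp M' q p)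

    {M : ℕ} [NeZero M] {g : CuspForm (CongruenceSubgroup.Gamma0 M) 2} (hg : g.IsNewform)
    (lam : ℕ) [Fact lam.Prime]
    (S : Finset ℕ)
    (O' : Type) [CommRing O'] [IsDomain O'] [IsDiscreteValuationRing O']
    [IsAdicComplete (IsLocalRing.maximalIdeal O') O'] [Finite (IsLocalRing.ResidueField O')]
    [CharZero O'] (hlamO' : (lam : O') ∈ IsLocalRing.maximalIdeal O')
    (hlam2 : lam ≠ 2)
    (chig : CuspForm.heckeAlgebra M 2 (↑S : Set ℕ) →+* ℂ)
    (hchig : ∀ (ℓ : ℕ) (hℓ : ℓ.Prime) (hℓM : ¬ ℓ ∣ M) (hℓS : ℓ ∉ (↑S : Set ℕ)),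
      chig (CuspForm.heckeAlgebra.T hℓ hℓM hℓS) = ModularFormClass.qCoeff g ℓ)
    (iota : chig.range →+* O')
    (hlamS : lam ∈ S) (hMS : ∀ q : ℕ, q.Prime → q ∣ M → q ∈ S)
    (hres : ∀ (O'' : Type) [CommRing O''] [IsDomain O''] [IsDiscreteValuationRing O'']
      [IsAdicComplete (IsLocalRing.maximalIdeal O'') O''] [Finite (IsLocalRing.ResidueField O'')] [CharZero O'']
      [Algebra O' O''] [Module.Finite O' O''] [IsLocalHom (algebraMap O' O'')],
      Function.Injective (algebraMap O' O'') → ∀ (ρ : GaloisRepAdic O''),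
      (∀ (ℓ : ℕ) (hℓ : ℓ.Prime) (hℓlam : ℓ ≠ lam) (hℓM : ¬ ℓ ∣ M) (hℓS : ℓ ∉ (↑S : Set ℕ)),
        ∀ A : ValuationSubring (AlgebraicClosure ℚ), A.LiesOverPrime ℓ →
          ∀ σ : AlgebraicClosure ℚ ≃ₐ[ℚ] AlgebraicClosure ℚ, A.IsFrobeniusAt σ ℓ →
            LinearMap.charpoly (ρ.ρ σ) =
              X ^ 2 - C (algebraMap O' O'' ((iota.comp chig.rangeRestrict) (CuspForm.heckeAlgebra.T hℓ hℓM hℓS))) * X
                + C ((ℓ : O'')))
      → ρ.residual.IsAbsolutelyIrreducible ∧ ρ.residual.IsOdd)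
    :
    ∃ (O'' : Type) (_ : CommRing O'') (_ : IsDomain O'') (_ : IsDiscreteValuationRing O'')
      (_ : IsAdicComplete (IsLocalRing.maximalIdeal O'') O'') (_ : Finite (IsLocalRing.ResidueField O''))
      (_ : CharZero O'') (_ : Algebra O' O'') (_ : Module.Finite O' O'') (_ : IsLocalHom (algebraMap O' O'')),
      Function.Injective (algebraMap O' O'') ∧
      ∃ ρ : GaloisRepAdic O'',
        (∀ (ℓ : ℕ) (hℓ : ℓ.Prime) (hℓM : ¬ ℓ ∣ M) (hℓS : ℓ ∉ (↑S : Set ℕ)),
          ∀ A : ValuationSubring (AlgebraicClosure ℚ), A.LiesOverPrime ℓ →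
            ∀ σ : AlgebraicClosure ℚ ≃ₐ[ℚ] AlgebraicClosure ℚ, A.IsFrobeniusAt σ ℓ →
              LinearMap.charpoly (ρ.ρ σ) =
                X ^ 2 - C (algebraMap O' O'' ((iota.comp chig.rangeRestrict) (CuspForm.heckeAlgebra.T hℓ hℓM hℓS))) * X
                  + C ((ℓ : O''))) ∧
        (∀ q : ℕ, q.Prime → q ≠ lam → M.factorization q = 2 → ¬ ρ.IsUnipotentOnInertiaAt q) := by
  have hlam : lam.Prime := Fact.out
  obtain ⟨ι⟩ := Fermat.Agent.S30.Descent.PhiDictThm.nonempty_ringHom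
  have hdict : PhiDict M ι := Fermat.Agent.S30.Descent.PhiDictThm.phiDict M ι
  obtain ⟨e, he⟩ := Fermat.Agent.S35.E0.exists_tateLattice M lam
  refine Fermat.Agent.S36.Chain.s36_of_inputs lam M S hlamS hMS O' hlamO'
    (iota.comp chig.rangeRestrict)
    (Fermat.Agent.S30.Final.H1.hasReductionAll M lam)
    (Fermat.Agent.S30.Final.PhiMap.finite_torsion hdict hlam.ne_zero)
    _ (fun r => Fermat.Agent.S30.Hecke.Parabolic.tauPar ℤ ℤ M r r.2) e he
    (Fermat.Agent.S30.Eigen.H4Final.h4 M S O' (iota.comp chig.rangeRestrict)) ?_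
  -- the new input at `v_q(M) = 2`
  intro q hq hqlam hq2
  have hqM : q ∣ M := by
    by_contra hnd
    rw [Nat.factorization_eq_zero_of_not_dvd hnd] at hq2
    exact absurd hq2 (by norm_num)
  obtain ⟨M', rfl⟩ : ∃ M', M = M' * q := ⟨M / q, (Nat.div_mul_cancel hqM).symm⟩
  have hM'0 : M' ≠ 0 := fun h => NeZero.ne (M' * q) (by rw [h, zero_mul])
  haveI : NeZero M' := ⟨hM'0⟩
  haveI : NeZero q := ⟨hq.ne_zero⟩
  -- `v_q(M') = 1`
  have hfM' : M'.factorization q = 1 := by
    have h := Nat.factorization_mul hM'0 hq.ne_zero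
    have h1 := congrArg (fun f => f q) h
    simp only [Finsupp.add_apply, hq.factorization_self] at h1
    omega
  have hqM' : q ∣ M' := by
    by_contra hnd
    rw [Nat.factorization_eq_zero_of_not_dvd hnd] at hfM'
    exact absurd hfM' (by norm_num)
  have hq2M' : ¬ q ^ 2 ∣ M' := by
    intro hd
    have := (hq.pow_dvd_iff_le_factorization hM'0).1 hd
    omega
  have hM'dvd : M' ∣ M' * q := Dvd.intro _ rfl
  have hM'ne : M' ≠ M' * q := by
    intro h
    have h1 : M' * 1 = M' * q := by rw [mul_one]; exact h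
    exact hq.one_lt.ne (Nat.eq_of_mul_eq_mul_left (Nat.pos_of_ne_zero hM'0) h1)
  obtain ⟨A, hA, k, hk, hgeo⟩ := HI M' q lam hq hlam hqM' hq2M' hqlam
  have hdeg := HD M' q S hq hqM' hq2M' hMS
  refine ⟨JZero M' × JZero M', inferInstance, degPair M' q, heckePair M', ?_, ?_, A, hA, k, hk, ?_⟩
  · -- intertwining at the primes outside `S`
    intro r hrS y
    rw [degPair_apply, heckePair_apply, degPair_apply]
    exact Prod.ext (hdeg r hrS y).1 (hdeg r hrS y).2
  · -- (E0)
    intro R _ _ _ _ _ _ c hc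
    have hbot := Fermat.Agent.S35.E0.eigenLattice_JZero_eq_bot (M' := M') hg hM'dvd hM'ne lam S hMS
      chig hchig R ((algebraMap O' R).comp iota)
    have hc' : (fun r : {r : Nat.Primes // (r : ℕ) ∉ S} =>
        ((algebraMap O' R).comp iota) (Fermat.Agent.S35.E0.aGood hMS chig r)) = fun r => c r.1 := by
      funext r
      obtain ⟨⟨ℓ, hℓ⟩, hℓS⟩ := r
      exact (hc ℓ hℓ (fun hdvd => hℓS (hMS _ hℓ hdvd)) (by simpa using hℓS)).symm
    rw [hc'] at hbot
    exact Fermat.Agent.S35.E0.eigenLattice_prod_eq_bot_abs lam R (JZero M')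
      (fun r : {r : Nat.Primes // (r : ℕ) ∉ S} => heckeEnd M' r.1)
      (fun r => heckePair M' r.1) (fun r y => heckePair_apply M' r.1 y) (fun r => c r.1) hbot
  · -- (NEW-I)
    intro y hy hφ hfix
    rw [degPair_apply, Prod.mk_eq_zero] at hφ
    exact hgeo y hy hφ.1 hφ.2 hfix

end Fermat.Agent.S36.OfNewInertia
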