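/-
S36 (exploration, helper19): **the degeneracy push-forwards `α_*, β_* : J₀(M q) → J₀(M)` commute
with the Hecke operators `T_r`, for a prime `q ‖ M`** (`r` a prime not dividing `M q`).

This is `S35/DegeneracyHecke` (which treats `q ∤ M`) with the degree-`q` power bases of
`S36/LevelDvd` in the two base change squares `(α_r, α_q)`, `(α_r, β_q)`.  Consequence:
`degHeckeHyp` (the hypothesis `HD` of `S36/OfNewInertia`) holds, and the frozen statement S36
follows from `(NEW-I)` alone: `s36_of_newInertia'`.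
-/
import Mathlib
import Fermat.Agent.S36.LevelDvd
import Fermat.Agent.S36.OfNewInertia

set_option autoImplicit false
set_option linter.unusedSectionVars false
set_option linter.style.haveILetI false

noncomputable section

namespace Fermat.Agent.S36.DegHecke

open ModularCurve AlgebraicCurve
open Fermat.Agent.S24.DegreeAlg Fermat.Agent.S24.FF Fermat.Agent.S18.A.Instances
open Fermat.Agent.S37.Hecke.Integral Fermat.Agent.S35.LevelMaps Fermat.Agent.S35.BaseChangeAlong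
open Fermat.Agent.S35.DegeneracyHecke Fermat.Agent.S36.LevelDvd

local notation "Kb" => AlgebraicClosure ℚ

section Squares

variable {M : ℕ} [NeZero M] {q r : ℕ} [NeZero q] [NeZero r]
  [NeZero (M * q)] [NeZero (M * r)] [NeZero (M * q * r)]

/-- `j(t^(q²))` as an element of `E (M q)`, `q ∣ M`. -/
theorem exists_jq2 (hqM : q ∣ M) :
    ∃ y : E (M * q), (y : LaurentSeries Kb) = qExpand Kb q (qExpand Kb q (jqModC Kb)) := by
  obtain ⟨N0, rfl⟩ := hqM
  haveI : NeZero (q * q) := ⟨Nat.mul_ne_zero (NeZero.ne q) (NeZero.ne q)⟩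
  have hd : q * q ∣ q * N0 * q := ⟨N0, by ring⟩
  refine ⟨jdivF (q * N0 * q) ⟨q * q, hd⟩, ?_⟩
  rw [Fermat.Agent.S37.ES.HeckeRho.coe_jdivF, qExpand_qExpand]

/-- **Base change in the square `(α_r, α_q)`**, `q ‖ M`. -/
theorem pull_alpha_push_alpha_dvd (hq : q.Prime) (hqM : q ∣ M) (hq2 : ¬ q ^ 2 ∣ M) (hqr : q ≠ r)
    (hr : r.Prime) (D : Divisor Kb (E (M * q))) :
    pull (heckeAlphaBar Kb M r) (push (heckeAlphaBar Kb M q) D)
      = push (inclR M q r) (pull (heckeAlphaBar Kb (M * q) r) D) := by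
  haveI := hasPrincipalDivisors_bar (M * r)
  haveI := hasPrincipalDivisors_bar (M * q)
  haveI := hasPrincipalDivisors_bar (M * q * r)
  obtain ⟨N0, hN0⟩ : ∃ N0, M = N0 * q := ⟨M / q, (Nat.div_mul_cancel hqM).symm⟩
  have hN00 : N0 ≠ 0 := fun h => NeZero.ne M (by rw [hN0, h, zero_mul])
  haveI : NeZero N0 := ⟨hN00⟩
  haveI : NeZero (N0 * r) := ⟨Nat.mul_ne_zero hN00 (NeZero.ne r)⟩
  have hqN0 : ¬ q ∣ N0 := fun h => hq2 (by
    rw [hN0, pow_two]; exact Nat.mul_dvd_mul_right h q)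
  have hqN0r : ¬ q ∣ N0 * r := fun h => by
    rcases (Nat.Prime.dvd_mul hq).mp h with h | h
    · exact hqN0 h
    · exact hqr ((Nat.prime_dvd_prime_iff_eq hq hr).mp h)
  obtain ⟨y, hy⟩ := exists_jq2 (M := M) (q := q) hqM
  obtain ⟨b, hb⟩ := exists_basis_pow_of_isIncl_dvd hq hN0 hqN0 rfl (heckeAlphaBar Kb M q)
    (isIncl_alpha M q) y hy
  obtain ⟨b', hb'⟩ := exists_basis_pow_of_isIncl_dvd (N := M * r) (N' := M * q * r) (N0 := N0 * r)
    hq (by rw [hN0]; ring) hqN0r (by ring) (inclR M q r) (isIncl_incl _)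
    (heckeAlphaBar Kb (M * q) r y) (by rw [coe_heckeAlphaBar, hy])
  exact pullbackAlong_pushforwardAlong_eq (heckeAlphaBar Kb M r) (heckeAlphaBar Kb M q)
    (inclR M q r) (heckeAlphaBar Kb (M * q) r)
    (fun x => Subtype.ext (by rw [coe_inclR, coe_heckeAlphaBar, coe_heckeAlphaBar,
      coe_heckeAlphaBar]))
    (isIntegral_hom _) (isIntegral_hom _) (isIntegral_hom _) (isIntegral_hom _)
    (finiteAlong_hom _) (finiteAlong_hom _)
    (isFF_jgen M) (isFF_jgen (M * r)) (isFF_jgen (M * q)) (isFF_jgen (M * q * r))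
    b b' (fun i => by rw [hb', hb, map_pow]) D

/-- **Base change in the square `(α_r, β_q)`**, `q ∣ M`. -/
theorem pull_alpha_push_beta_dvd (hq : q.Prime) (hqM : q ∣ M)
    (D : Divisor Kb (E (M * q))) :
    pull (heckeAlphaBar Kb M r) (push (heckeBetaBar Kb M q) D)
      = push (dilR M q r) (pull (heckeAlphaBar Kb (M * q) r) D) := by
  haveI := hasPrincipalDivisors_bar (M * r)
  haveI := hasPrincipalDivisors_bar (M * q)
  haveI := hasPrincipalDivisors_bar (M * q * r)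
  obtain ⟨b, hb⟩ := exists_basis_pow_of_isDil_dvd hq hqM rfl (heckeBetaBar Kb M q)
    (isDil_beta M q) (jgen (M * q)) (Fermat.Agent.S18.B.Basic.coe_jgen_eq (M * q))
  obtain ⟨b', hb'⟩ := exists_basis_pow_of_isDil_dvd (N := M * r) (N' := M * q * r) hq
    (hqM.trans (Dvd.intro r rfl)) (by ring) (dilR M q r) (isDil_dil q _)
    (heckeAlphaBar Kb (M * q) r (jgen (M * q)))
    (by rw [coe_heckeAlphaBar, Fermat.Agent.S18.B.Basic.coe_jgen_eq])
  exact pullbackAlong_pushforwardAlong_eq (heckeAlphaBar Kb M r) (heckeBetaBar Kb M q)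
    (dilR M q r) (heckeAlphaBar Kb (M * q) r)
    (fun x => Subtype.ext (by rw [coe_dilR, coe_heckeAlphaBar, coe_heckeAlphaBar,
      coe_heckeBetaBar]))
    (isIntegral_hom _) (isIntegral_hom _) (isIntegral_hom _) (isIntegral_hom _)
    (finiteAlong_hom _) (finiteAlong_hom _)
    (isFF_jgen M) (isFF_jgen (M * r)) (isFF_jgen (M * q)) (isFF_jgen (M * q * r))
    b b' (fun i => by rw [hb', hb, map_pow]) D

/-- **`(α_q)_* ∘ T_r = T_r ∘ (α_q)_*`** on divisors, `q ‖ M`. -/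
theorem push_alpha_heckeDiv_dvd (hq : q.Prime) (hqM : q ∣ M) (hq2 : ¬ q ^ 2 ∣ M) (hqr : q ≠ r)
    (hr : r.Prime) (hrM : ¬ r ∣ M) (D : Divisor Kb (E (M * q))) :
    push (heckeAlphaBar Kb M q) (heckeDiv (M * q) r D)
      = heckeDiv M r (push (heckeAlphaBar Kb M q) D) := by
  have hrMq : ¬ r ∣ M * q := fun h => by
    rcases (Nat.Prime.dvd_mul hr).mp h with h | h
    · exact hrM h
    · exact hqr ((Nat.prime_dvd_prime_iff_eq hr hq).mp h).symm
  rw [heckeDiv_eq_transpose (M * q) r hr hrMq, heckeDiv_eq_transpose M r hr hrM,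
    pull_alpha_push_alpha_dvd hq hqM hq2 hqr hr,
    push_push (heckeAlphaBar Kb M q) (heckeBetaBar Kb (M * q) r)
      ((heckeBetaBar Kb (M * q) r).comp (heckeAlphaBar Kb M q)) (fun _ => rfl),
    push_push (heckeBetaBar Kb M r) (inclR M q r)
      ((heckeBetaBar Kb (M * q) r).comp (heckeAlphaBar Kb M q))
      (fun x => Subtype.ext (by
        rw [AlgHom.comp_apply, coe_heckeBetaBar, coe_heckeAlphaBar, coe_inclR,
          coe_heckeBetaBar]))]

/-- **`(β_q)_* ∘ T_r = T_r ∘ (β_q)_*`** on divisors, `q ∣ M`. -/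
theorem push_beta_heckeDiv_dvd (hq : q.Prime) (hqM : q ∣ M) (hqr : q ≠ r) (hr : r.Prime)
    (hrM : ¬ r ∣ M) (D : Divisor Kb (E (M * q))) :
    push (heckeBetaBar Kb M q) (heckeDiv (M * q) r D)
      = heckeDiv M r (push (heckeBetaBar Kb M q) D) := by
  have hrMq : ¬ r ∣ M * q := fun h => by
    rcases (Nat.Prime.dvd_mul hr).mp h with h | h
    · exact hrM h
    · exact hqr ((Nat.prime_dvd_prime_iff_eq hr hq).mp h).symm
  rw [heckeDiv_eq_transpose (M * q) r hr hrMq, heckeDiv_eq_transpose M r hr hrM,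
    pull_alpha_push_beta_dvd hq hqM,
    push_push (heckeBetaBar Kb M q) (heckeBetaBar Kb (M * q) r)
      ((heckeBetaBar Kb (M * q) r).comp (heckeBetaBar Kb M q)) (fun _ => rfl),
    push_push (heckeBetaBar Kb M r) (dilR M q r)
      ((heckeBetaBar Kb (M * q) r).comp (heckeBetaBar Kb M q))
      (fun x => Subtype.ext (by
        rw [AlgHom.comp_apply, coe_heckeBetaBar, coe_heckeBetaBar, coe_dilR,
          coe_heckeBetaBar, qExpand_qExpand, qExpand_qExpand]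
        exact qExpand_congr (mul_comm r q) _))]

end Squares

section Main

variable {M : ℕ} [NeZero M] {q : ℕ} [NeZero q] [NeZero (M * q)]

/-- **`(α_q)_*` commutes with `T_r`**, `q ‖ M`, `r ∤ M q`. -/
theorem alphaPush_hecke_dvd (hq : q.Prime) (hqM : q ∣ M) (hq2 : ¬ q ^ 2 ∣ M) (r : Nat.Primes)
    (hqr : q ≠ r) (hrM : ¬ (r : ℕ) ∣ M) (y : JZero (M * q)) :
    alphaPush M q (heckeOperatorBar (M * q) r y) = heckeOperatorBar M r (alphaPush M q y) := by
  haveI : NeZero (r : ℕ) := ⟨r.2.ne_zero⟩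
  haveI : NeZero (M * r) := ⟨Nat.mul_ne_zero (NeZero.ne M) (NeZero.ne (r : ℕ))⟩
  haveI : NeZero (M * q * r) := ⟨Nat.mul_ne_zero (NeZero.ne (M * q)) (NeZero.ne (r : ℕ))⟩
  obtain ⟨D, rfl⟩ := Pic0.mk_surjective y
  obtain ⟨D1, h1, h1'⟩ := coe_degZero_of_hecke_mk (N := M * q) r D
  obtain ⟨D2, h2, h2'⟩ := coe_degZero_of_pushJ_mk (heckeAlphaBar Kb M q) D1
  obtain ⟨D3, h3, h3'⟩ := coe_degZero_of_pushJ_mk (heckeAlphaBar Kb M q) D
  obtain ⟨D4, h4, h4'⟩ := coe_degZero_of_hecke_mk (N := M) r D3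
  rw [alphaPush, h1, h2, h3, h4]
  congr 1
  apply Subtype.ext
  rw [h2', h1', h4', h3']
  exact push_alpha_heckeDiv_dvd hq hqM hq2 hqr r.2 hrM _

/-- **`(β_q)_*` commutes with `T_r`**, `q ∣ M`, `r ∤ M q`. -/
theorem betaPush_hecke_dvd (hq : q.Prime) (hqM : q ∣ M) (r : Nat.Primes) (hqr : q ≠ r)
    (hrM : ¬ (r : ℕ) ∣ M) (y : JZero (M * q)) :
    betaPush M q (heckeOperatorBar (M * q) r y) = heckeOperatorBar M r (betaPush M q y) := by
  haveI : NeZero (r : ℕ) := ⟨r.2.ne_zero⟩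
  haveI : NeZero (M * r) := ⟨Nat.mul_ne_zero (NeZero.ne M) (NeZero.ne (r : ℕ))⟩
  haveI : NeZero (M * q * r) := ⟨Nat.mul_ne_zero (NeZero.ne (M * q)) (NeZero.ne (r : ℕ))⟩
  obtain ⟨D, rfl⟩ := Pic0.mk_surjective y
  obtain ⟨D1, h1, h1'⟩ := coe_degZero_of_hecke_mk (N := M * q) r D
  obtain ⟨D2, h2, h2'⟩ := coe_degZero_of_pushJ_mk (heckeBetaBar Kb M q) D1
  obtain ⟨D3, h3, h3'⟩ := coe_degZero_of_pushJ_mk (heckeBetaBar Kb M q) D
  obtain ⟨D4, h4, h4'⟩ := coe_degZero_of_hecke_mk (N := M) r D3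
  rw [betaPush, h1, h2, h3, h4]
  congr 1
  apply Subtype.ext
  rw [h2', h1', h4', h3']
  exact push_beta_heckeDiv_dvd hq hqM hqr r.2 hrM _

end Main

section Final

open Polynomial CuspForm CongruenceSubgroup TensorProduct
open Fermat.Agent.S36.OfNewInertia

/-- **`HD` of `S36/OfNewInertia` holds**: for a prime `q ‖ M'` the degeneracy push-forwards
`J₀(M' q) → J₀(M')` commute with `T_r`, `r ∉ S`. -/
theorem degHeckeHyp (M' q : ℕ) [NeZero M'] [NeZero q] [NeZero (M' * q)] (S : Finset ℕ)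
    (hq : q.Prime) (hqM : q ∣ M') (hq2 : ¬ q ^ 2 ∣ M')
    (hS : ∀ ℓ : ℕ, ℓ.Prime → ℓ ∣ M' * q → ℓ ∈ S) : DegHeckeHyp M' q S := by
  intro r hrS y
  have hqr : q ≠ (r : ℕ) := by
    rintro rfl
    exact hrS (hS _ hq (Dvd.intro_left _ rfl))
  have hrM : ¬ (r : ℕ) ∣ M' := fun hd => hrS (hS _ r.2 (hd.trans (Dvd.intro _ rfl)))
  exact ⟨alphaPush_hecke_dvd hq hqM hq2 r hqr hrM y, betaPush_hecke_dvd hq hqM r hqr hrM y⟩

/-- **The frozen statement S36 from `(NEW-I)` alone.** -/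
theorem s36_of_newInertia'
    (HI : ∀ (M' q p : ℕ) [NeZero M'] [NeZero q] [NeZero (M' * q)], q.Prime → p.Prime →
      q ∣ M' → ¬ q ^ 2 ∣ M' → q ≠ p → NewInertiaHyp M' q p)
    {M : ℕ} [NeZero M] {g : CuspForm (CongruenceSubgroup.Gamma0 M) 2} (hg : g.IsNewform)
    (lam : ℕ) [Fact lam.Prime]
    (S : Finset ℕ)
    (O' : Type) [CommRing O'] [IsDomain O'] [IsDiscreteValuationRing O']
    [IsAdicComplete (IsLocalRing.maximalIdeal O') O'] [Finite (IsLocalRing.ResidueField O')]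
    [CharZero O'] (hlamO' : (lam : O') ∈ IsLocalRing.maximalIdeal O')
    (hlam2 : lam ≠ 2)
    (chig : CuspForm.heckeAlgebra M 2 (↑S : Set ℕ) →+* ℂ)
    (hchig : ∀ (ℓ : ℕ) (hℓ : ℓ.Prime) (hℓM : ¬ ℓ ∣ M) (hℓS : ℓ ∉ (↑S : Set ℕ)),
      chig (CuspForm.heckeAlgebra.T hℓ hℓM hℓS) = ModularFormClass.qCoeff g ℓ)
    (iota : chig.range →+* O')
    (hlamS : lam ∈ S) (hMS : ∀ q : ℕ, q.Prime → q ∣ M → q ∈ S)
    (hres : ∀ (O'' : Type) [CommRing O''] [IsDomain O''] [IsDiscreteValuationRing O'']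
      [IsAdicComplete (IsLocalRing.maximalIdeal O'') O''] [Finite (IsLocalRing.ResidueField O'')] [CharZero O'']
      [Algebra O' O''] [Module.Finite O' O''] [IsLocalHom (algebraMap O' O'')],
      Function.Injective (algebraMap O' O'') → ∀ (ρ : GaloisRepAdic O''),
      (∀ (ℓ : ℕ) (hℓ : ℓ.Prime) (hℓlam : ℓ ≠ lam) (hℓM : ¬ ℓ ∣ M) (hℓS : ℓ ∉ (↑S : Set ℕ)),
        ∀ A : ValuationSubring (AlgebraicClosure ℚ), A.LiesOverPrime ℓ →
          ∀ σ : AlgebraicClosure ℚ ≃ₐ[ℚ] AlgebraicClosure ℚ, A.IsFrobeniusAt σ ℓ →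
            LinearMap.charpoly (ρ.ρ σ) =
              X ^ 2 - C (algebraMap O' O'' ((iota.comp chig.rangeRestrict) (CuspForm.heckeAlgebra.T hℓ hℓM hℓS))) * X
                + C ((ℓ : O'')))
      → ρ.residual.IsAbsolutelyIrreducible ∧ ρ.residual.IsOdd)
    :
    ∃ (O'' : Type) (_ : CommRing O'') (_ : IsDomain O'') (_ : IsDiscreteValuationRing O'')
      (_ : IsAdicComplete (IsLocalRing.maximalIdeal O'') O'') (_ : Finite (IsLocalRing.ResidueField O''))
      (_ : CharZero O'') (_ : Algebra O' O'') (_ : Module.Finite O' O'') (_ : IsLocalHom (algebraMap O' O'')),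
      Function.Injective (algebraMap O' O'') ∧
      ∃ ρ : GaloisRepAdic O'',
        (∀ (ℓ : ℕ) (hℓ : ℓ.Prime) (hℓM : ¬ ℓ ∣ M) (hℓS : ℓ ∉ (↑S : Set ℕ)),
          ∀ A : ValuationSubring (AlgebraicClosure ℚ), A.LiesOverPrime ℓ →
            ∀ σ : AlgebraicClosure ℚ ≃ₐ[ℚ] AlgebraicClosure ℚ, A.IsFrobeniusAt σ ℓ →
              LinearMap.charpoly (ρ.ρ σ) =
                X ^ 2 - C (algebraMap O' O'' ((iota.comp chig.rangeRestrict) (CuspForm.heckeAlgebra.T hℓ hℓM hℓS))) * X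
                  + C ((ℓ : O''))) ∧
        (∀ q : ℕ, q.Prime → q ≠ lam → M.factorization q = 2 → ¬ ρ.IsUnipotentOnInertiaAt q) :=
  s36_of_newInertia (fun M' q _ _ _ S hq hqM hq2 hS => degHeckeHyp M' q S hq hqM hq2 hS) HI
    hg lam S O' hlamO' hlam2 chig hchig iota hlamS hMS hres

end Final

end Fermat.Agent.S36.DegHecke
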