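import Mathlib
import Fermat.Agent.S36.ZC.Branch

/-!
# S36 / chain (V9), abstract core: the branch structure of the level-`q²` fibre

Pure ring language.  One chart at a time (`Afin` or `Ainf`).

* `A₁` : the chart ring of the level-`q M''` model (integrally closed domain),
* `A`  : the chart ring of the level-`q² M''` model (domain),
* `B`  : the coordinate ring of the chart of the component curve (`Bfin` or `Binf`); its maximal
  ideals are the points `n` of the component on the chart,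
* `α β : A₁ →+* A` the two degeneracy maps (`π₁^*`, `π₂^*`),
* `red1 red2 : A₁ →+* B`, `r20 r11 r02 : A →+* B` the five reductions, all SURJECTIVE (chain (V8):
  every component is a smooth curve in the model),
* `φ : B →+* B` the `k`-linear Frobenius pull-back, `fr n := n.comap φ`,
* the six compatibilities of (D5), the level-`q` node description in U's orientation
  (`y₁(n') = y₂(n) ↔ n ∈ S ∧ n' = fr n`), the uniqueness of the prime of `A` over `ker red2`
  along `α` (`W₀₂` is the only extension of `V₂`), and `ker r20 ⊓ ker r11 ⊓ ker r02 = rad(ϖ)`.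

Output, with `x_W(n) := n.comap r_W`:

* `x20_eq_x02`, `x11_eq_x02`, `x20_eq_x11` : for `n ∈ S` the three points coincide (going-down, once).
* `eq_of_x20_eq_x02`, `eq_of_x20_eq_x11`, `eq_of_x11_eq_x02` : two different branches through one
  point: same place `n`, and `n ∈ S`.
* `exists_eq_comap` : every maximal ideal containing `ϖ` is some `x_W(n)`.
* `all_le_of_two_le` : `Br(x)` is a singleton or everything.
* `comap_α_x20` … : the images in the level-`q` fibre (`π₁(x_n) = e_(fr n)`, `π₂(x_n) = e_n`).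
-/

set_option autoImplicit false

namespace Fermat.Agent.S36.BranchCore

open Polynomial

/-- the hypotheses of chain (V9), one chart -/
structure Datum (A₁ A B : Type*) [CommRing A₁] [CommRing A] [CommRing B] where
  α : A₁ →+* A
  β : A₁ →+* A
  red1 : A₁ →+* B
  red2 : A₁ →+* B
  r20 : A →+* B
  r11 : A →+* B
  r02 : A →+* B
  φ : B →+* B
  q : ℕ
  ϖ : A
  S : Set (Ideal B)
  red1_surj : Function.Surjective red1
  red2_surj : Function.Surjective red2
  r20_surj : Function.Surjective r20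
  r11_surj : Function.Surjective r11
  r02_surj : Function.Surjective r02
  q_pos : 0 < q
  φ_pow : ∀ z : B, ∃ c : B, φ c = z ^ q
  r20_α : ∀ g, r20 (α g) = red1 g
  r11_α : ∀ g, r11 (α g) = red1 g
  r02_α : ∀ g, r02 (α g) = φ (red2 g)
  r20_β : ∀ g, r20 (β g) = φ (red1 g)
  r11_β : ∀ g, r11 (β g) = red2 g
  r02_β : ∀ g, r02 (β g) = red2 g
  /-- U's description of the level-`q` fibre: the node `e_n = (fr n on V₁, n on V₂)` -/
  node : ∀ n' n : Ideal B, n'.IsMaximal → n.IsMaximal →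
    (n'.comap red1 = n.comap red2 ↔ n ∈ S ∧ n' = n.comap φ)
  S_fr : ∀ n ∈ S, n.comap φ ∈ S
  fr_fr : ∀ n ∈ S, (n.comap φ).comap φ = n
  α_inj : Function.Injective α
  α_int : α.IsIntegral
  /-- `W₀₂` is the only extension of `V₂` along `α` -/
  unique02 : ∀ Q : Ideal A, Q.IsPrime → Q.comap α = RingHom.ker red2 → Q = RingHom.ker r02
  ker_inf : RingHom.ker r20 ⊓ RingHom.ker r11 ⊓ RingHom.ker r02 = (Ideal.span {ϖ}).radical

namespace Datum

variable {A₁ A B : Type*} [CommRing A₁] [CommRing A] [CommRing B] (D : Datum A₁ A B)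

/-- Frobenius on points -/
def fr (n : Ideal B) : Ideal B := n.comap D.φ

/-- the point of the level-`q²` chart on `C₂₀` at the place `n` -/
def x20 (n : Ideal B) : Ideal A := n.comap D.r20
/-- the point on `C₁₁` at the place `n` -/
def x11 (n : Ideal B) : Ideal A := n.comap D.r11
/-- the point on `C₀₂` at the place `n` -/
def x02 (n : Ideal B) : Ideal A := n.comap D.r02
/-- the point of the level-`q` chart on `C₁` at the place `n` -/
def y1 (n : Ideal B) : Ideal A₁ := n.comap D.red1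
/-- the point of the level-`q` chart on `C₂` at the place `n` -/
def y2 (n : Ideal B) : Ideal A₁ := n.comap D.red2

/-! ### Frobenius on points -/

theorem φ_isIntegral : D.φ.IsIntegral := by
  intro z
  obtain ⟨c, hc⟩ := D.φ_pow z
  refine ⟨X ^ D.q - C c, monic_X_pow_sub_C c (Nat.pos_iff_ne_zero.mp D.q_pos), ?_⟩
  simp [hc]

theorem fr_isMaximal {n : Ideal B} (hn : n.IsMaximal) : (D.fr n).IsMaximal :=
  Ideal.isMaximal_comap_of_isIntegral_of_isMaximal' D.φ D.φ_isIntegral n

theorem fr_injective {n n' : Ideal B} (hn : n.IsPrime) (hn' : n'.IsPrime)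
    (h : D.fr n = D.fr n') : n = n' := by
  have key : ∀ {m m' : Ideal B}, m'.IsPrime → D.fr m = D.fr m' → m ≤ m' := by
    intro m m' hm' hmm z hz
    obtain ⟨c, hc⟩ := D.φ_pow z
    have h1 : c ∈ D.fr m := by
      change D.φ c ∈ m
      rw [hc]
      exact Ideal.pow_mem_of_mem _ hz _ D.q_pos
    rw [hmm] at h1
    have h2 : z ^ D.q ∈ m' := by
      rw [← hc]
      exact h1
    exact hm'.mem_of_pow_mem _ h2
  exact le_antisymm (key hn' h) (key hn h.symm)

/-! ### The images in the level-`q` fibre -/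

theorem comap_α_x20 (n : Ideal B) : (D.x20 n).comap D.α = D.y1 n := by
  ext g
  simp only [x20, y1, Ideal.mem_comap, D.r20_α]

theorem comap_α_x11 (n : Ideal B) : (D.x11 n).comap D.α = D.y1 n := by
  ext g
  simp only [x11, y1, Ideal.mem_comap, D.r11_α]

theorem comap_α_x02 (n : Ideal B) : (D.x02 n).comap D.α = D.y2 (D.fr n) := by
  ext g
  simp only [x02, y2, fr, Ideal.mem_comap, D.r02_α]

theorem comap_β_x20 (n : Ideal B) : (D.x20 n).comap D.β = D.y1 (D.fr n) := by
  ext g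
  simp only [x20, y1, fr, Ideal.mem_comap, D.r20_β]

theorem comap_β_x11 (n : Ideal B) : (D.x11 n).comap D.β = D.y2 n := by
  ext g
  simp only [x11, y2, Ideal.mem_comap, D.r11_β]

theorem comap_β_x02 (n : Ideal B) : (D.x02 n).comap D.β = D.y2 n := by
  ext g
  simp only [x02, y2, Ideal.mem_comap, D.r02_β]

theorem y1_injective {n n' : Ideal B} (h : D.y1 n = D.y1 n') : n = n' :=
  Ideal.comap_injective_of_surjective D.red1 D.red1_surj h

theorem y2_injective {n n' : Ideal B} (h : D.y2 n = D.y2 n') : n = n' :=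
  Ideal.comap_injective_of_surjective D.red2 D.red2_surj h

theorem x20_injective {n n' : Ideal B} (h : D.x20 n = D.x20 n') : n = n' :=
  Ideal.comap_injective_of_surjective D.r20 D.r20_surj h

theorem x11_injective {n n' : Ideal B} (h : D.x11 n = D.x11 n') : n = n' :=
  Ideal.comap_injective_of_surjective D.r11 D.r11_surj h

theorem x02_injective {n n' : Ideal B} (h : D.x02 n = D.x02 n') : n = n' :=
  Ideal.comap_injective_of_surjective D.r02 D.r02_surj h

theorem x20_isMaximal {n : Ideal B} (hn : n.IsMaximal) : (D.x20 n).IsMaximal :=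
  Ideal.comap_isMaximal_of_surjective D.r20 D.r20_surj

theorem x11_isMaximal {n : Ideal B} (hn : n.IsMaximal) : (D.x11 n).IsMaximal :=
  Ideal.comap_isMaximal_of_surjective D.r11 D.r11_surj

theorem x02_isMaximal {n : Ideal B} (hn : n.IsMaximal) : (D.x02 n).IsMaximal :=
  Ideal.comap_isMaximal_of_surjective D.r02 D.r02_surj

theorem ker_r20_le_x20 (n : Ideal B) : RingHom.ker D.r20 ≤ D.x20 n := by
  intro a ha
  change D.r20 a ∈ n
  rw [(RingHom.mem_ker).mp ha]
  exact n.zero_mem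

theorem ker_r11_le_x11 (n : Ideal B) : RingHom.ker D.r11 ≤ D.x11 n := by
  intro a ha
  change D.r11 a ∈ n
  rw [(RingHom.mem_ker).mp ha]
  exact n.zero_mem

theorem ker_r02_le_x02 (n : Ideal B) : RingHom.ker D.r02 ≤ D.x02 n := by
  intro a ha
  change D.r02 a ∈ n
  rw [(RingHom.mem_ker).mp ha]
  exact n.zero_mem

/-- a maximal ideal containing the kernel of a surjection is the comap of a maximal ideal -/
theorem exists_comap_eq_of_ker_le {R T : Type*} [CommRing R] [CommRing T] (f : R →+* T)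
    (hf : Function.Surjective f) (x : Ideal R) (hx : x.IsMaximal) (hker : RingHom.ker f ≤ x) :
    ∃ n : Ideal T, n.IsMaximal ∧ x = n.comap f := by
  have hcomap : (x.map f).comap f = x := by
    rw [Ideal.comap_map_of_surjective f hf, sup_eq_left]
    exact hker
  refine ⟨x.map f, ?_, hcomap.symm⟩
  rcases Ideal.map_eq_top_or_isMaximal_of_surjective f hf hx with htop | hmax
  · exfalso
    rw [htop, Ideal.comap_top] at hcomap
    exact hx.ne_top hcomap.symm
  · exact hmax

/-! ### Two different branches through one point -/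

/-- `C₂₀` and `C₀₂` meet only at the points of `S`, at the same place. -/
theorem eq_of_x20_eq_x02 {n n' : Ideal B} (hn : n.IsMaximal) (hn' : n'.IsMaximal)
    (h : D.x20 n = D.x02 n') : n = n' ∧ n ∈ D.S := by
  have h1 : D.y1 n = D.y2 (D.fr n') := by
    rw [← D.comap_α_x20, ← D.comap_α_x02, h]
  obtain ⟨hS, hfr⟩ := (D.node n (D.fr n') hn (D.fr_isMaximal hn')).mp h1
  -- `fr n' ∈ S`, `n = fr (fr n')`
  have h2 : D.fr (D.fr (D.fr n')) = D.fr n' := D.fr_fr _ hS
  have h3 : D.fr (D.fr n') = n' :=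
    D.fr_injective (D.fr_isMaximal (D.fr_isMaximal hn')).isPrime hn'.isPrime h2
  have h4 : n = n' := by
    rw [hfr]
    exact h3
  refine ⟨h4, ?_⟩
  rw [h4, ← h3]
  exact D.S_fr _ hS

/-- `C₂₀` and `C₁₁` meet only at the points of `S`, at the same place. -/
theorem eq_of_x20_eq_x11 {n n' : Ideal B} (hn : n.IsMaximal) (_hn' : n'.IsMaximal)
    (h : D.x20 n = D.x11 n') : n = n' ∧ n ∈ D.S := by
  have h1 : D.y1 n = D.y1 n' := by
    rw [← D.comap_α_x20, ← D.comap_α_x11, h]
  have h2 : n = n' := D.y1_injective h1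
  have h3 : D.y1 (D.fr n) = D.y2 n' := by
    rw [← D.comap_β_x20, ← D.comap_β_x11, h]
  rw [← h2] at h3
  exact ⟨h2, ((D.node (D.fr n) n (D.fr_isMaximal hn) hn).mp h3).1⟩

/-- `C₁₁` and `C₀₂` meet only at the points of `S`, at the same place. -/
theorem eq_of_x11_eq_x02 {n n' : Ideal B} (hn : n.IsMaximal) (_hn' : n'.IsMaximal)
    (h : D.x11 n = D.x02 n') : n = n' ∧ n ∈ D.S := by
  have h1 : D.y2 n = D.y2 n' := by
    rw [← D.comap_β_x11, ← D.comap_β_x02, h]
  have h2 : n = n' := D.y2_injective h1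
  have h3 : D.y1 n = D.y2 (D.fr n') := by
    rw [← D.comap_α_x11, ← D.comap_α_x02, h]
  rw [← h2] at h3
  obtain ⟨hS, hfr⟩ := (D.node n (D.fr n) hn (D.fr_isMaximal hn)).mp h3
  refine ⟨h2, ?_⟩
  have := D.S_fr _ hS
  rwa [← hfr] at this

theorem ker_red2_le_y2 (n : Ideal B) : RingHom.ker D.red2 ≤ D.y2 n := by
  intro a ha
  change D.red2 a ∈ n
  rw [(RingHom.mem_ker).mp ha]
  exact n.zero_mem

/-- every closed point of the fibre lies on a component -/
theorem exists_eq_comap (x : Ideal A) (hx : x.IsMaximal) (hϖ : D.ϖ ∈ x) :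
    ∃ n : Ideal B, n.IsMaximal ∧ (x = D.x20 n ∨ x = D.x11 n ∨ x = D.x02 n) := by
  have hrad : (Ideal.span {D.ϖ}).radical ≤ x := by
    rw [hx.isPrime.radical_le_iff, Ideal.span_singleton_le_iff_mem]
    exact hϖ
  rw [← D.ker_inf] at hrad
  rcases (hx.isPrime.inf_le).mp hrad with h | h
  · rcases (hx.isPrime.inf_le).mp h with h | h
    · obtain ⟨n, hn, hxn⟩ := exists_comap_eq_of_ker_le D.r20 D.r20_surj x hx h
      exact ⟨n, hn, Or.inl hxn⟩
    · obtain ⟨n, hn, hxn⟩ := exists_comap_eq_of_ker_le D.r11 D.r11_surj x hx h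
      exact ⟨n, hn, Or.inr (Or.inl hxn)⟩
  · obtain ⟨n, hn, hxn⟩ := exists_comap_eq_of_ker_le D.r02 D.r02_surj x hx h
    exact ⟨n, hn, Or.inr (Or.inr hxn)⟩

/-! ### The three branches at a point of `S` (going-down) -/

section GoingDown

variable [IsDomain A] [IsDomain B] [IsIntegrallyClosed A₁]

/-- going-down along `α`: a prime of `A` whose image in the level-`q` fibre lies on `C₂` lies on
`C₀₂`. -/
theorem ker_r02_le_of_ker_red2_le (x : Ideal A) [x.IsPrime]
    (h : RingHom.ker D.red2 ≤ x.comap D.α) : RingHom.ker D.r02 ≤ x := by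
  let _ : Algebra A₁ A := D.α.toAlgebra
  have : FaithfulSMul A₁ A := (faithfulSMul_iff_algebraMap_injective A₁ A).mpr D.α_inj
  have : Algebra.IsIntegral A₁ A := ⟨D.α_int⟩
  have : (RingHom.ker D.red2).IsPrime := RingHom.ker_isPrime D.red2
  have : (x.comap D.α).IsPrime := Ideal.comap_isPrime _ _
  exact ZC.le_of_unique_over (RingHom.ker D.red2) (x.comap D.α) h (RingHom.ker D.r02)
    (fun Q hQ hQc => D.unique02 Q hQ hQc) x rfl

/-- at a point of `S` the `C₂₀`-point is the `C₀₂`-point -/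
theorem x20_eq_x02 {n : Ideal B} (hn : n.IsMaximal) (hS : n ∈ D.S) : D.x20 n = D.x02 n := by
  have := (D.x20_isMaximal hn).isPrime
  -- the image of `x20 n` in the level-`q` fibre is the node `e_(fr n)`
  have hnode : D.y1 n = D.y2 (D.fr n) :=
    (D.node n (D.fr n) hn (D.fr_isMaximal hn)).mpr ⟨D.S_fr n hS, (D.fr_fr n hS).symm⟩
  have hle : RingHom.ker D.red2 ≤ (D.x20 n).comap D.α := by
    rw [D.comap_α_x20, hnode]
    exact D.ker_red2_le_y2 _
  have hker : RingHom.ker D.r02 ≤ D.x20 n := D.ker_r02_le_of_ker_red2_le _ hle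
  obtain ⟨n', hn', hx⟩ := exists_comap_eq_of_ker_le D.r02 D.r02_surj _ (D.x20_isMaximal hn) hker
  have : n = n' := (D.eq_of_x20_eq_x02 hn hn' hx).1
  rw [hx, this]
  rfl

/-- at a point of `S` the `C₁₁`-point is the `C₀₂`-point -/
theorem x11_eq_x02 {n : Ideal B} (hn : n.IsMaximal) (hS : n ∈ D.S) : D.x11 n = D.x02 n := by
  have := (D.x11_isMaximal hn).isPrime
  have hnode : D.y1 n = D.y2 (D.fr n) :=
    (D.node n (D.fr n) hn (D.fr_isMaximal hn)).mpr ⟨D.S_fr n hS, (D.fr_fr n hS).symm⟩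
  have hle : RingHom.ker D.red2 ≤ (D.x11 n).comap D.α := by
    rw [D.comap_α_x11, hnode]
    exact D.ker_red2_le_y2 _
  have hker : RingHom.ker D.r02 ≤ D.x11 n := D.ker_r02_le_of_ker_red2_le _ hle
  obtain ⟨n', hn', hx⟩ := exists_comap_eq_of_ker_le D.r02 D.r02_surj _ (D.x11_isMaximal hn) hker
  have : n = n' := (D.eq_of_x11_eq_x02 hn hn' hx).1
  rw [hx, this]
  rfl

theorem x20_eq_x11 {n : Ideal B} (hn : n.IsMaximal) (hS : n ∈ D.S) : D.x20 n = D.x11 n := by
  rw [D.x20_eq_x02 hn hS, D.x11_eq_x02 hn hS]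

/-- at a point of `S` all three branches pass through the point -/
theorem ker_le_x20_of_mem {n : Ideal B} (hn : n.IsMaximal) (hS : n ∈ D.S) :
    RingHom.ker D.r20 ≤ D.x20 n ∧ RingHom.ker D.r11 ≤ D.x20 n ∧ RingHom.ker D.r02 ≤ D.x20 n := by
  refine ⟨D.ker_r20_le_x20 n, ?_, ?_⟩
  · rw [D.x20_eq_x11 hn hS]
    exact D.ker_r11_le_x11 n
  · rw [D.x20_eq_x02 hn hS]
    exact D.ker_r02_le_x02 n

/-! ### Classification of the closed points of the chart fibre -/

/-- `Br(x)` is a singleton or everything: a closed point on two different components is a point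
`x_n`, `n ∈ S`, and lies on all three. -/
theorem exists_mem_S_of_two_le (x : Ideal A) (hx : x.IsMaximal)
    (h : (RingHom.ker D.r20 ≤ x ∧ RingHom.ker D.r11 ≤ x) ∨
      (RingHom.ker D.r20 ≤ x ∧ RingHom.ker D.r02 ≤ x) ∨
      (RingHom.ker D.r11 ≤ x ∧ RingHom.ker D.r02 ≤ x)) :
    ∃ n : Ideal B, n.IsMaximal ∧ n ∈ D.S ∧ x = D.x20 n ∧ x = D.x11 n ∧ x = D.x02 n := by
  rcases h with ⟨h1, h2⟩ | ⟨h1, h2⟩ | ⟨h1, h2⟩
  · obtain ⟨n, hn, hxn⟩ := exists_comap_eq_of_ker_le D.r20 D.r20_surj x hx h1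
    obtain ⟨n', hn', hxn'⟩ := exists_comap_eq_of_ker_le D.r11 D.r11_surj x hx h2
    obtain ⟨-, hS⟩ := D.eq_of_x20_eq_x11 hn hn' (hxn.symm.trans hxn')
    exact ⟨n, hn, hS, hxn, hxn.trans (D.x20_eq_x11 hn hS), hxn.trans (D.x20_eq_x02 hn hS)⟩
  · obtain ⟨n, hn, hxn⟩ := exists_comap_eq_of_ker_le D.r20 D.r20_surj x hx h1
    obtain ⟨n', hn', hxn'⟩ := exists_comap_eq_of_ker_le D.r02 D.r02_surj x hx h2
    obtain ⟨-, hS⟩ := D.eq_of_x20_eq_x02 hn hn' (hxn.symm.trans hxn')
    exact ⟨n, hn, hS, hxn, hxn.trans (D.x20_eq_x11 hn hS), hxn.trans (D.x20_eq_x02 hn hS)⟩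
  · obtain ⟨n, hn, hxn⟩ := exists_comap_eq_of_ker_le D.r11 D.r11_surj x hx h1
    obtain ⟨n', hn', hxn'⟩ := exists_comap_eq_of_ker_le D.r02 D.r02_surj x hx h2
    obtain ⟨-, hS⟩ := D.eq_of_x11_eq_x02 hn hn' (hxn.symm.trans hxn')
    exact ⟨n, hn, hS, hxn.trans (D.x20_eq_x11 hn hS).symm, hxn,
      hxn.trans (D.x11_eq_x02 hn hS)⟩

theorem all_le_of_two_le (x : Ideal A) (hx : x.IsMaximal)
    (h : (RingHom.ker D.r20 ≤ x ∧ RingHom.ker D.r11 ≤ x) ∨
      (RingHom.ker D.r20 ≤ x ∧ RingHom.ker D.r02 ≤ x) ∨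
      (RingHom.ker D.r11 ≤ x ∧ RingHom.ker D.r02 ≤ x)) :
    RingHom.ker D.r20 ≤ x ∧ RingHom.ker D.r11 ≤ x ∧ RingHom.ker D.r02 ≤ x := by
  obtain ⟨n, -, -, h20, h11, h02⟩ := D.exists_mem_S_of_two_le x hx h
  refine ⟨?_, ?_, ?_⟩
  · rw [h20]; exact D.ker_r20_le_x20 n
  · rw [h11]; exact D.ker_r11_le_x11 n
  · rw [h02]; exact D.ker_r02_le_x02 n

/-- the images of a triple point in the level-`q` fibre: `π₁(x_n) = e_(fr n)`, `π₂(x_n) = e_n` -/
theorem comap_α_x20_of_mem {n : Ideal B} (hn : n.IsMaximal) (hS : n ∈ D.S) :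
    (D.x20 n).comap D.α = D.y1 n ∧ (D.x20 n).comap D.α = D.y2 (D.fr n) := by
  refine ⟨D.comap_α_x20 n, ?_⟩
  rw [D.x20_eq_x02 hn hS]
  exact D.comap_α_x02 n

theorem comap_β_x20_of_mem {n : Ideal B} (hn : n.IsMaximal) (hS : n ∈ D.S) :
    (D.x20 n).comap D.β = D.y1 (D.fr n) ∧ (D.x20 n).comap D.β = D.y2 n := by
  refine ⟨D.comap_β_x20 n, ?_⟩
  rw [D.x20_eq_x02 hn hS]
  exact D.comap_β_x02 n

end GoingDown

end Datum

end Fermat.Agent.S36.BranchCore
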