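import Mathlib
import Fermat.Agent.S36.BranchCore

/-!
# S36 / chain (V9), abstract core, chart-independent form: `PDatum`, `TDatum`

`BranchCore.Datum` asks for `α : A₁ →+* A` INTEGRAL (field `α_int`) and derives the coincidence of
the three branches at a point of `S` by going-down along `α`.  On the chart `{x₂ ≠ ∞}` of the
level-`q²` model this is fine (`x₂ = j₀ j₁ j₂` is integral over `α(Afin₁)`), but on the chart
`{x₂ ≠ 0}` the ring `Ainf₂` is NOT integral over `α(Ainf₁)`: a horizontal point with `j₂ = 0`,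
`j₀ j₁ ≠ 0, ∞` lies over a point of `Spec Ainf₁` and is missing from `Spec Ainf₂`
(`{j₀ j₁ j₂ ≠ 0} ⊊ π₁⁻¹ {j₀ j₁ ≠ 0}`; the two opens have the same special fibre).

* `PDatum A₁ A B` : `Datum` without the three going-down fields `α_inj`, `α_int`, `unique02`.
  All the statements "two different branches through one point ⟹ same place `n`, and `n ∈ S`"
  (`eq_of_x20_eq_x02`, …) and `exists_eq_comap` hold for a `PDatum`.
* `TDatum A₁ A B` : a `PDatum` with `triple20`, `triple11` : for `n ∈ S` the three points `x₂₀(n)`,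
  `x₁₁(n)`, `x₀₂(n)` coincide.  Every theorem of `BranchCore.Datum` holds for a `TDatum` (same
  names).
* `TDatum.ofDatum : BranchCore.Datum A₁ A B → TDatum A₁ A B` (going-down; the chart `{x₂ ≠ ∞}`).
* `PDatum.toTDatum_of_norm` : **no going-down, no integrality**: the coincidence of the three
  branches from ONE norm formula.  If for every `a : A` and `n ∈ S` there is `g : A₁` (the norm of
  `a` along `α`, up to a factor which is a unit at `n`) with
  `red1 g = c * (r20 a * r11 a ^ e)`, `0 < e`, and `φ (red2 g) = c' * r02 a ^ e'`, `c' ∉ n`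
  (the formulas `(NF)` of `ThreeVal`: `e = q - 1`, `e' = q`, `c = c' = 1` on the chart
  `{x₂ ≠ ∞}`; powers of `1/J` on the chart `{x₂ ≠ 0}`), then the node relation
  `red1 g ∈ n ↔ φ (red2 g) ∈ n` gives `x₂₀(n) ≤ x₀₂(n)` and `x₁₁(n) ≤ x₀₂(n)`, hence equality
  (all three are maximal).
-/

set_option autoImplicit false

namespace Fermat.Agent.S36.BranchCoreT

open Polynomial Fermat.Agent.S36

/-- the hypotheses of chain (V9), one chart, without going-down -/
structure PDatum (A₁ A B : Type*) [CommRing A₁] [CommRing A] [CommRing B] where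
  α : A₁ →+* A
  β : A₁ →+* A
  red1 : A₁ →+* B
  red2 : A₁ →+* B
  r20 : A →+* B
  r11 : A →+* B
  r02 : A →+* B
  φ : B →+* B
  q : ℕ
  ϖ : A
  S : Set (Ideal B)
  red1_surj : Function.Surjective red1
  red2_surj : Function.Surjective red2
  r20_surj : Function.Surjective r20
  r11_surj : Function.Surjective r11
  r02_surj : Function.Surjective r02
  q_pos : 0 < q
  φ_pow : ∀ z : B, ∃ c : B, φ c = z ^ q
  r20_α : ∀ g, r20 (α g) = red1 g
  r11_α : ∀ g, r11 (α g) = red1 g
  r02_α : ∀ g, r02 (α g) = φ (red2 g)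
  r20_β : ∀ g, r20 (β g) = φ (red1 g)
  r11_β : ∀ g, r11 (β g) = red2 g
  r02_β : ∀ g, r02 (β g) = red2 g
  /-- U's description of the level-`q` fibre: the node `e_n = (fr n on V₁, n on V₂)` -/
  node : ∀ n' n : Ideal B, n'.IsMaximal → n.IsMaximal →
    (n'.comap red1 = n.comap red2 ↔ n ∈ S ∧ n' = n.comap φ)
  S_fr : ∀ n ∈ S, n.comap φ ∈ S
  fr_fr : ∀ n ∈ S, (n.comap φ).comap φ = n
  ker_inf : RingHom.ker r20 ⊓ RingHom.ker r11 ⊓ RingHom.ker r02 = (Ideal.span {ϖ}).radical

/-- the hypotheses of chain (V9), one chart: a `PDatum` in which the three branches at a point of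
`S` pass through ONE point -/
structure TDatum (A₁ A B : Type*) [CommRing A₁] [CommRing A] [CommRing B] extends
    PDatum A₁ A B where
  /-- at a point of `S` the `C₂₀`-point is the `C₀₂`-point -/
  triple20 : ∀ n : Ideal B, n.IsMaximal → n ∈ S → n.comap r20 = n.comap r02
  /-- at a point of `S` the `C₁₁`-point is the `C₀₂`-point -/
  triple11 : ∀ n : Ideal B, n.IsMaximal → n ∈ S → n.comap r11 = n.comap r02

namespace PDatum

variable {A₁ A B : Type*} [CommRing A₁] [CommRing A] [CommRing B] (D : PDatum A₁ A B)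

/-- Frobenius on points -/
def fr (n : Ideal B) : Ideal B := n.comap D.φ

/-- the point of the level-`q²` chart on `C₂₀` at the place `n` -/
def x20 (n : Ideal B) : Ideal A := n.comap D.r20
/-- the point on `C₁₁` at the place `n` -/
def x11 (n : Ideal B) : Ideal A := n.comap D.r11
/-- the point on `C₀₂` at the place `n` -/
def x02 (n : Ideal B) : Ideal A := n.comap D.r02
/-- the point of the level-`q` chart on `C₁` at the place `n` -/
def y1 (n : Ideal B) : Ideal A₁ := n.comap D.red1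
/-- the point of the level-`q` chart on `C₂` at the place `n` -/
def y2 (n : Ideal B) : Ideal A₁ := n.comap D.red2

/-! ### Frobenius on points -/

theorem φ_isIntegral : D.φ.IsIntegral := by
  intro z
  obtain ⟨c, hc⟩ := D.φ_pow z
  refine ⟨X ^ D.q - C c, monic_X_pow_sub_C c (Nat.pos_iff_ne_zero.mp D.q_pos), ?_⟩
  simp [hc]

theorem fr_isMaximal {n : Ideal B} (hn : n.IsMaximal) : (D.fr n).IsMaximal :=
  Ideal.isMaximal_comap_of_isIntegral_of_isMaximal' D.φ D.φ_isIntegral n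

theorem fr_injective {n n' : Ideal B} (hn : n.IsPrime) (hn' : n'.IsPrime)
    (h : D.fr n = D.fr n') : n = n' := by
  have key : ∀ {m m' : Ideal B}, m'.IsPrime → D.fr m = D.fr m' → m ≤ m' := by
    intro m m' hm' hmm z hz
    obtain ⟨c, hc⟩ := D.φ_pow z
    have h1 : c ∈ D.fr m := by
      change D.φ c ∈ m
      rw [hc]
      exact Ideal.pow_mem_of_mem _ hz _ D.q_pos
    rw [hmm] at h1
    have h2 : z ^ D.q ∈ m' := by
      rw [← hc]
      exact h1
    exact hm'.mem_of_pow_mem _ h2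
  exact le_antisymm (key hn' h) (key hn h.symm)

/-! ### The images in the level-`q` fibre -/

theorem comap_α_x20 (n : Ideal B) : (D.x20 n).comap D.α = D.y1 n := by
  ext g
  simp only [x20, y1, Ideal.mem_comap, D.r20_α]

theorem comap_α_x11 (n : Ideal B) : (D.x11 n).comap D.α = D.y1 n := by
  ext g
  simp only [x11, y1, Ideal.mem_comap, D.r11_α]

theorem comap_α_x02 (n : Ideal B) : (D.x02 n).comap D.α = D.y2 (D.fr n) := by
  ext g
  simp only [x02, y2, fr, Ideal.mem_comap, D.r02_α]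

theorem comap_β_x20 (n : Ideal B) : (D.x20 n).comap D.β = D.y1 (D.fr n) := by
  ext g
  simp only [x20, y1, fr, Ideal.mem_comap, D.r20_β]

theorem comap_β_x11 (n : Ideal B) : (D.x11 n).comap D.β = D.y2 n := by
  ext g
  simp only [x11, y2, Ideal.mem_comap, D.r11_β]

theorem comap_β_x02 (n : Ideal B) : (D.x02 n).comap D.β = D.y2 n := by
  ext g
  simp only [x02, y2, Ideal.mem_comap, D.r02_β]

theorem y1_injective {n n' : Ideal B} (h : D.y1 n = D.y1 n') : n = n' :=
  Ideal.comap_injective_of_surjective D.red1 D.red1_surj h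

theorem y2_injective {n n' : Ideal B} (h : D.y2 n = D.y2 n') : n = n' :=
  Ideal.comap_injective_of_surjective D.red2 D.red2_surj h

theorem x20_injective {n n' : Ideal B} (h : D.x20 n = D.x20 n') : n = n' :=
  Ideal.comap_injective_of_surjective D.r20 D.r20_surj h

theorem x11_injective {n n' : Ideal B} (h : D.x11 n = D.x11 n') : n = n' :=
  Ideal.comap_injective_of_surjective D.r11 D.r11_surj h

theorem x02_injective {n n' : Ideal B} (h : D.x02 n = D.x02 n') : n = n' :=
  Ideal.comap_injective_of_surjective D.r02 D.r02_surj h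

theorem x20_isMaximal {n : Ideal B} (hn : n.IsMaximal) : (D.x20 n).IsMaximal :=
  Ideal.comap_isMaximal_of_surjective D.r20 D.r20_surj

theorem x11_isMaximal {n : Ideal B} (hn : n.IsMaximal) : (D.x11 n).IsMaximal :=
  Ideal.comap_isMaximal_of_surjective D.r11 D.r11_surj

theorem x02_isMaximal {n : Ideal B} (hn : n.IsMaximal) : (D.x02 n).IsMaximal :=
  Ideal.comap_isMaximal_of_surjective D.r02 D.r02_surj

theorem ker_r20_le_x20 (n : Ideal B) : RingHom.ker D.r20 ≤ D.x20 n := by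
  intro a ha
  change D.r20 a ∈ n
  rw [(RingHom.mem_ker).mp ha]
  exact n.zero_mem

theorem ker_r11_le_x11 (n : Ideal B) : RingHom.ker D.r11 ≤ D.x11 n := by
  intro a ha
  change D.r11 a ∈ n
  rw [(RingHom.mem_ker).mp ha]
  exact n.zero_mem

theorem ker_r02_le_x02 (n : Ideal B) : RingHom.ker D.r02 ≤ D.x02 n := by
  intro a ha
  change D.r02 a ∈ n
  rw [(RingHom.mem_ker).mp ha]
  exact n.zero_mem

/-! ### Two different branches through one point -/

/-- `C₂₀` and `C₀₂` meet only at the points of `S`, at the same place. -/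
theorem eq_of_x20_eq_x02 {n n' : Ideal B} (hn : n.IsMaximal) (hn' : n'.IsMaximal)
    (h : D.x20 n = D.x02 n') : n = n' ∧ n ∈ D.S := by
  have h1 : D.y1 n = D.y2 (D.fr n') := by
    rw [← D.comap_α_x20, ← D.comap_α_x02, h]
  obtain ⟨hS, hfr⟩ := (D.node n (D.fr n') hn (D.fr_isMaximal hn')).mp h1
  -- `fr n' ∈ S`, `n = fr (fr n')`
  have h2 : D.fr (D.fr (D.fr n')) = D.fr n' := D.fr_fr _ hS
  have h3 : D.fr (D.fr n') = n' :=
    D.fr_injective (D.fr_isMaximal (D.fr_isMaximal hn')).isPrime hn'.isPrime h2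
  have h4 : n = n' := by
    rw [hfr]
    exact h3
  refine ⟨h4, ?_⟩
  rw [h4, ← h3]
  exact D.S_fr _ hS

/-- `C₂₀` and `C₁₁` meet only at the points of `S`, at the same place. -/
theorem eq_of_x20_eq_x11 {n n' : Ideal B} (hn : n.IsMaximal) (_hn' : n'.IsMaximal)
    (h : D.x20 n = D.x11 n') : n = n' ∧ n ∈ D.S := by
  have h1 : D.y1 n = D.y1 n' := by
    rw [← D.comap_α_x20, ← D.comap_α_x11, h]
  have h2 : n = n' := D.y1_injective h1
  have h3 : D.y1 (D.fr n) = D.y2 n' := by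
    rw [← D.comap_β_x20, ← D.comap_β_x11, h]
  rw [← h2] at h3
  exact ⟨h2, ((D.node (D.fr n) n (D.fr_isMaximal hn) hn).mp h3).1⟩

/-- `C₁₁` and `C₀₂` meet only at the points of `S`, at the same place. -/
theorem eq_of_x11_eq_x02 {n n' : Ideal B} (hn : n.IsMaximal) (_hn' : n'.IsMaximal)
    (h : D.x11 n = D.x02 n') : n = n' ∧ n ∈ D.S := by
  have h1 : D.y2 n = D.y2 n' := by
    rw [← D.comap_β_x11, ← D.comap_β_x02, h]
  have h2 : n = n' := D.y2_injective h1
  have h3 : D.y1 n = D.y2 (D.fr n') := by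
    rw [← D.comap_α_x11, ← D.comap_α_x02, h]
  rw [← h2] at h3
  obtain ⟨hS, hfr⟩ := (D.node n (D.fr n) hn (D.fr_isMaximal hn)).mp h3
  refine ⟨h2, ?_⟩
  have := D.S_fr _ hS
  rwa [← hfr] at this

theorem ker_red2_le_y2 (n : Ideal B) : RingHom.ker D.red2 ≤ D.y2 n := by
  intro a ha
  change D.red2 a ∈ n
  rw [(RingHom.mem_ker).mp ha]
  exact n.zero_mem

/-- every closed point of the fibre lies on a component -/
theorem exists_eq_comap (x : Ideal A) (hx : x.IsMaximal) (hϖ : D.ϖ ∈ x) :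
    ∃ n : Ideal B, n.IsMaximal ∧ (x = D.x20 n ∨ x = D.x11 n ∨ x = D.x02 n) := by
  have hrad : (Ideal.span {D.ϖ}).radical ≤ x := by
    rw [hx.isPrime.radical_le_iff, Ideal.span_singleton_le_iff_mem]
    exact hϖ
  rw [← D.ker_inf] at hrad
  rcases (hx.isPrime.inf_le).mp hrad with h | h
  · rcases (hx.isPrime.inf_le).mp h with h | h
    · obtain ⟨n, hn, hxn⟩ := BranchCore.Datum.exists_comap_eq_of_ker_le D.r20 D.r20_surj x hx h
      exact ⟨n, hn, Or.inl hxn⟩
    · obtain ⟨n, hn, hxn⟩ := BranchCore.Datum.exists_comap_eq_of_ker_le D.r11 D.r11_surj x hx h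
      exact ⟨n, hn, Or.inr (Or.inl hxn)⟩
  · obtain ⟨n, hn, hxn⟩ := BranchCore.Datum.exists_comap_eq_of_ker_le D.r02 D.r02_surj x hx h
    exact ⟨n, hn, Or.inr (Or.inr hxn)⟩

end PDatum

namespace TDatum

variable {A₁ A B : Type*} [CommRing A₁] [CommRing A] [CommRing B] (D : TDatum A₁ A B)

/-- Frobenius on points -/
abbrev fr (n : Ideal B) : Ideal B := D.toPDatum.fr n
/-- the point of the level-`q²` chart on `C₂₀` at the place `n` -/
abbrev x20 (n : Ideal B) : Ideal A := D.toPDatum.x20 n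
/-- the point on `C₁₁` at the place `n` -/
abbrev x11 (n : Ideal B) : Ideal A := D.toPDatum.x11 n
/-- the point on `C₀₂` at the place `n` -/
abbrev x02 (n : Ideal B) : Ideal A := D.toPDatum.x02 n
/-- the point of the level-`q` chart on `C₁` at the place `n` -/
abbrev y1 (n : Ideal B) : Ideal A₁ := D.toPDatum.y1 n
/-- the point of the level-`q` chart on `C₂` at the place `n` -/
abbrev y2 (n : Ideal B) : Ideal A₁ := D.toPDatum.y2 n

/-! ### The three branches at a point of `S` -/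

/-- at a point of `S` the `C₂₀`-point is the `C₀₂`-point -/
theorem x20_eq_x02 {n : Ideal B} (hn : n.IsMaximal) (hS : n ∈ D.S) : D.x20 n = D.x02 n :=
  D.triple20 n hn hS

/-- at a point of `S` the `C₁₁`-point is the `C₀₂`-point -/
theorem x11_eq_x02 {n : Ideal B} (hn : n.IsMaximal) (hS : n ∈ D.S) : D.x11 n = D.x02 n :=
  D.triple11 n hn hS

theorem x20_eq_x11 {n : Ideal B} (hn : n.IsMaximal) (hS : n ∈ D.S) : D.x20 n = D.x11 n := by
  rw [D.x20_eq_x02 hn hS, D.x11_eq_x02 hn hS]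

/-- at a point of `S` all three branches pass through the point -/
theorem ker_le_x20_of_mem {n : Ideal B} (hn : n.IsMaximal) (hS : n ∈ D.S) :
    RingHom.ker D.r20 ≤ D.x20 n ∧ RingHom.ker D.r11 ≤ D.x20 n ∧ RingHom.ker D.r02 ≤ D.x20 n := by
  refine ⟨D.ker_r20_le_x20 n, ?_, ?_⟩
  · rw [D.x20_eq_x11 hn hS]
    exact D.ker_r11_le_x11 n
  · rw [D.x20_eq_x02 hn hS]
    exact D.ker_r02_le_x02 n

/-! ### Classification of the closed points of the chart fibre -/

/-- `Br(x)` is a singleton or everything: a closed point on two different components is a point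
`x_n`, `n ∈ S`, and lies on all three. -/
theorem exists_mem_S_of_two_le (x : Ideal A) (hx : x.IsMaximal)
    (h : (RingHom.ker D.r20 ≤ x ∧ RingHom.ker D.r11 ≤ x) ∨
      (RingHom.ker D.r20 ≤ x ∧ RingHom.ker D.r02 ≤ x) ∨
      (RingHom.ker D.r11 ≤ x ∧ RingHom.ker D.r02 ≤ x)) :
    ∃ n : Ideal B, n.IsMaximal ∧ n ∈ D.S ∧ x = D.x20 n ∧ x = D.x11 n ∧ x = D.x02 n := by
  rcases h with ⟨h1, h2⟩ | ⟨h1, h2⟩ | ⟨h1, h2⟩
  · obtain ⟨n, hn, hxn⟩ := BranchCore.Datum.exists_comap_eq_of_ker_le D.r20 D.r20_surj x hx h1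
    obtain ⟨n', hn', hxn'⟩ := BranchCore.Datum.exists_comap_eq_of_ker_le D.r11 D.r11_surj x hx h2
    obtain ⟨-, hS⟩ := D.eq_of_x20_eq_x11 hn hn' (hxn.symm.trans hxn')
    exact ⟨n, hn, hS, hxn, hxn.trans (D.x20_eq_x11 hn hS), hxn.trans (D.x20_eq_x02 hn hS)⟩
  · obtain ⟨n, hn, hxn⟩ := BranchCore.Datum.exists_comap_eq_of_ker_le D.r20 D.r20_surj x hx h1
    obtain ⟨n', hn', hxn'⟩ := BranchCore.Datum.exists_comap_eq_of_ker_le D.r02 D.r02_surj x hx h2
    obtain ⟨-, hS⟩ := D.eq_of_x20_eq_x02 hn hn' (hxn.symm.trans hxn')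
    exact ⟨n, hn, hS, hxn, hxn.trans (D.x20_eq_x11 hn hS), hxn.trans (D.x20_eq_x02 hn hS)⟩
  · obtain ⟨n, hn, hxn⟩ := BranchCore.Datum.exists_comap_eq_of_ker_le D.r11 D.r11_surj x hx h1
    obtain ⟨n', hn', hxn'⟩ := BranchCore.Datum.exists_comap_eq_of_ker_le D.r02 D.r02_surj x hx h2
    obtain ⟨-, hS⟩ := D.eq_of_x11_eq_x02 hn hn' (hxn.symm.trans hxn')
    exact ⟨n, hn, hS, hxn.trans (D.x20_eq_x11 hn hS).symm, hxn,
      hxn.trans (D.x11_eq_x02 hn hS)⟩

theorem all_le_of_two_le (x : Ideal A) (hx : x.IsMaximal)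
    (h : (RingHom.ker D.r20 ≤ x ∧ RingHom.ker D.r11 ≤ x) ∨
      (RingHom.ker D.r20 ≤ x ∧ RingHom.ker D.r02 ≤ x) ∨
      (RingHom.ker D.r11 ≤ x ∧ RingHom.ker D.r02 ≤ x)) :
    RingHom.ker D.r20 ≤ x ∧ RingHom.ker D.r11 ≤ x ∧ RingHom.ker D.r02 ≤ x := by
  obtain ⟨n, -, -, h20, h11, h02⟩ := D.exists_mem_S_of_two_le x hx h
  refine ⟨?_, ?_, ?_⟩
  · rw [h20]; exact D.ker_r20_le_x20 n
  · rw [h11]; exact D.ker_r11_le_x11 n
  · rw [h02]; exact D.ker_r02_le_x02 n

/-- the images of a triple point in the level-`q` fibre: `π₁(x_n) = e_(fr n)`, `π₂(x_n) = e_n` -/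
theorem comap_α_x20_of_mem {n : Ideal B} (hn : n.IsMaximal) (hS : n ∈ D.S) :
    (D.x20 n).comap D.α = D.y1 n ∧ (D.x20 n).comap D.α = D.y2 (D.fr n) := by
  refine ⟨D.comap_α_x20 n, ?_⟩
  rw [D.x20_eq_x02 hn hS]
  exact D.comap_α_x02 n

theorem comap_β_x20_of_mem {n : Ideal B} (hn : n.IsMaximal) (hS : n ∈ D.S) :
    (D.x20 n).comap D.β = D.y1 (D.fr n) ∧ (D.x20 n).comap D.β = D.y2 n := by
  refine ⟨D.comap_β_x20 n, ?_⟩
  rw [D.x20_eq_x02 hn hS]
  exact D.comap_β_x02 n

end TDatum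

/-! ### From `BranchCore.Datum` (integral `α`: the chart `{x₂ ≠ ∞}`) -/

section OfDatum

variable {A₁ A B : Type*} [CommRing A₁] [CommRing A] [CommRing B]

/-- a `BranchCore.Datum` without its going-down fields -/
def PDatum.ofDatum (D : BranchCore.Datum A₁ A B) : PDatum A₁ A B where
  α := D.α
  β := D.β
  red1 := D.red1
  red2 := D.red2
  r20 := D.r20
  r11 := D.r11
  r02 := D.r02
  φ := D.φ
  q := D.q
  ϖ := D.ϖ
  S := D.S
  red1_surj := D.red1_surj
  red2_surj := D.red2_surj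
  r20_surj := D.r20_surj
  r11_surj := D.r11_surj
  r02_surj := D.r02_surj
  q_pos := D.q_pos
  φ_pow := D.φ_pow
  r20_α := D.r20_α
  r11_α := D.r11_α
  r02_α := D.r02_α
  r20_β := D.r20_β
  r11_β := D.r11_β
  r02_β := D.r02_β
  node := D.node
  S_fr := D.S_fr
  fr_fr := D.fr_fr
  ker_inf := D.ker_inf

/-- a `BranchCore.Datum` is a `TDatum`: going-down along the integral `α` -/
def TDatum.ofDatum [IsDomain A] [IsDomain B] [IsIntegrallyClosed A₁] (D : BranchCore.Datum A₁ A B) :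
    TDatum A₁ A B where
  toPDatum := PDatum.ofDatum D
  triple20 := fun _ hn hS => D.x20_eq_x02 hn hS
  triple11 := fun _ hn hS => D.x11_eq_x02 hn hS

end OfDatum

/-! ### The coincidence of the three branches from one norm formula -/

namespace PDatum

variable {A₁ A B : Type*} [CommRing A₁] [CommRing A] [CommRing B] (D : PDatum A₁ A B)

/-- the node relation at a point of `S`, elementwise: `red1 g ∈ n ↔ φ (red2 g) ∈ n` -/
theorem red1_mem_iff_of_mem {n : Ideal B} (hn : n.IsMaximal) (hS : n ∈ D.S) (g : A₁) :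
    D.red1 g ∈ n ↔ D.φ (D.red2 g) ∈ n := by
  have hnode : D.y1 n = D.y2 (D.fr n) :=
    (D.node n (D.fr n) hn (D.fr_isMaximal hn)).mpr ⟨D.S_fr n hS, (D.fr_fr n hS).symm⟩
  have h1 : g ∈ D.y1 n ↔ g ∈ D.y2 (D.fr n) := by rw [hnode]
  exact h1

/-- **no going-down**: from the norm formula `red1 (N a) = r20 a * r11 a ^ e`,
`φ (red2 (N a)) = r02 a ^ e'` (up to factors which are units at `n`) the three branches at a point
of `S` pass through one point. -/
theorem le_x02_of_norm {n : Ideal B} (hn : n.IsMaximal) (hS : n ∈ D.S)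
    (hN : ∀ a : A, ∃ (g : A₁) (c c' : B) (e e' : ℕ), 0 < e ∧ c' ∉ n ∧
      D.red1 g = c * (D.r20 a * D.r11 a ^ e) ∧ D.φ (D.red2 g) = c' * D.r02 a ^ e') :
    D.x20 n ≤ D.x02 n ∧ D.x11 n ≤ D.x02 n := by
  have hprime := hn.isPrime
  have key : ∀ a : A, D.r20 a ∈ n ∨ D.r11 a ∈ n → D.r02 a ∈ n := by
    intro a ha
    obtain ⟨g, c, c', e, e', he, hc', h1, h2⟩ := hN a
    have h3 : D.red1 g ∈ n := by
      rw [h1]
      apply n.mul_mem_left
      rcases ha with ha | ha
      · exact n.mul_mem_right _ ha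
      · exact n.mul_mem_left _ (Ideal.pow_mem_of_mem _ ha _ he)
    have h4 := (D.red1_mem_iff_of_mem hn hS g).mp h3
    rw [h2] at h4
    rcases hprime.mem_or_mem h4 with h5 | h5
    · exact absurd h5 hc'
    · exact hprime.mem_of_pow_mem _ h5
  exact ⟨fun a ha => key a (Or.inl ha), fun a ha => key a (Or.inr ha)⟩

/-- a `PDatum` with the norm formula at every point of `S` is a `TDatum` -/
def toTDatum_of_norm
    (hN : ∀ n : Ideal B, n.IsMaximal → n ∈ D.S → ∀ a : A,
      ∃ (g : A₁) (c c' : B) (e e' : ℕ), 0 < e ∧ c' ∉ n ∧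
        D.red1 g = c * (D.r20 a * D.r11 a ^ e) ∧ D.φ (D.red2 g) = c' * D.r02 a ^ e') :
    TDatum A₁ A B where
  toPDatum := D
  triple20 := fun n hn hS =>
    (D.x20_isMaximal hn).eq_of_le (D.x02_isMaximal hn).ne_top (D.le_x02_of_norm hn hS (hN n hn hS)).1
  triple11 := fun n hn hS =>
    (D.x11_isMaximal hn).eq_of_le (D.x02_isMaximal hn).ne_top (D.le_x02_of_norm hn hS (hN n hn hS)).2

end PDatum

end Fermat.Agent.S36.BranchCoreT
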