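import Mathlib
import Fermat.Agent.S36.ZC.ChartInput

/-!
# S36 (PROJECT V): the fibre ring of a chart -- adapter from reductions to `ZC/ChartInput`

Mathlib + `S36/ZC/ChartInput` only.

`R` is a chart ring of the normal model (or a local ring `O_x`), `ϖ : R` the uniformiser of the
base, and `ρ i : R →+* κ i` (`i` in a finite type) are the reductions along the vertical
valuations `W i` through the chart, with values in the coordinate rings `κ i` of the (reduced,
smooth) components: domains of dimension `≤ 1`.  The standing hypotheses are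

* `hsurj` : every `ρ i` is onto (functions on a smooth component lift);
* `hker`  : `⨅ i, ker (ρ i) = rad (ϖ)` (the `W i` are all the vertical valuations);
* `hne`   : the kernels are pairwise incomparable (the `W i` are distinct).

From these the file produces every hypothesis of `ZC.exists_lift_of_values` for
`B = R ⧸ rad (ϖ)`, `Bt = Π i, κ i`:

* `toProd_injective`, `finite_pi` : `B → Bt` is injective and `Bt` is a finite `B`-module;
* `exists_conductor` : one element `s : B` with `s • Bt ⊆ B` and `B ⧸ (s)` artinian;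
* `exists_maximal_comap_eq` : every maximal ideal of `R` containing `ϖ` is the centre of a maximal
  ideal of some `κ i` (closed points of the special fibre = closed points of the components);
* `exists_lift_of_branch_values` : **the export**: if `v : Rˣ`, `ρ i v * h i ^ n = 1` for all `i`
  and over every maximal ideal `𝔪 ∋ ϖ` of `R` the residues of the `h i` at all branches through
  `𝔪` coincide, then for every `m` there is `w : R` with `ρ i w = h i` for all `i` and
  `v * w ^ n ≡ 1` modulo `ϖ ^ m`.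
* `exists_residue_of_subsingleton` : at a point with at most one branch the condition is void.
-/

set_option autoImplicit false

namespace Fermat.Agent.S36.FibreRing

open Ideal

variable {R : Type*} [CommRing R] (ϖ : R)
variable {ι : Type*} [Fintype ι] {κ : ι → Type*} [∀ i, CommRing (κ i)]
variable (ρ : ∀ i, R →+* κ i)

/-! ### the product of the reductions -/

omit [Fintype ι] in
theorem ker_pi_ringHom : RingHom.ker (RingHom.pi ρ) = ⨅ i, RingHom.ker (ρ i) := by
  ext x
  rw [RingHom.mem_ker, Ideal.mem_iInf]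
  constructor
  · intro h i
    rw [RingHom.mem_ker]
    exact congrFun h i
  · intro h
    funext i
    exact (RingHom.mem_ker).mp (h i)

/-- the map `B = R ⧸ rad (ϖ) → Bt = Π i, κ i` -/
def toProd (hker : ⨅ i, RingHom.ker (ρ i) = (Ideal.span {ϖ}).radical) :
    R ⧸ (Ideal.span {ϖ}).radical →+* (∀ i, κ i) :=
  Ideal.Quotient.lift _ (RingHom.pi ρ) (by
    intro a ha
    rw [← hker, ← ker_pi_ringHom] at ha
    exact (RingHom.mem_ker).mp ha)

omit [Fintype ι] in
@[simp]
theorem toProd_mk (hker : ⨅ i, RingHom.ker (ρ i) = (Ideal.span {ϖ}).radical) (a : R) (i : ι) :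
    toProd ϖ ρ hker (Ideal.Quotient.mk _ a) i = ρ i a := rfl

omit [Fintype ι] in
theorem toProd_injective (hker : ⨅ i, RingHom.ker (ρ i) = (Ideal.span {ϖ}).radical) :
    Function.Injective (toProd ϖ ρ hker) := by
  unfold toProd
  refine RingHom.lift_injective_of_ker_le_ideal (Ideal.span {ϖ}).radical _ ?_
  rw [ker_pi_ringHom, hker]

section Finite

variable [DecidableEq ι]

/-- `Bt = Π i, κ i` is a finite `B`-module: it is generated by the idempotents. -/
theorem finite_pi (hsurj : ∀ i, Function.Surjective (ρ i))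
    (hker : ⨅ i, RingHom.ker (ρ i) = (Ideal.span {ϖ}).radical) :
    letI := (toProd ϖ ρ hker).toAlgebra
    Module.Finite (R ⧸ (Ideal.span {ϖ}).radical) (∀ i, κ i) := by
  let _ := (toProd ϖ ρ hker).toAlgebra
  let g : (ι → R ⧸ (Ideal.span {ϖ}).radical) →ₗ[R ⧸ (Ideal.span {ϖ}).radical] (∀ i, κ i) :=
    { toFun := fun c => ∑ i, c i • (Pi.single i (1 : κ i) : ∀ i, κ i)
      map_add' := fun c d => by
        simp only [Pi.add_apply, add_smul, Finset.sum_add_distrib]
      map_smul' := fun r c => by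
        simp only [Pi.smul_apply, smul_eq_mul, mul_smul, RingHom.id_apply, Finset.smul_sum] }
  refine Module.Finite.of_surjective g ?_
  intro x
  choose a ha using fun i => hsurj i (x i)
  refine ⟨fun i => Ideal.Quotient.mk _ (a i), ?_⟩
  funext k
  show (∑ i, (Ideal.Quotient.mk _ (a i) : R ⧸ (Ideal.span {ϖ}).radical) •
    (Pi.single i (1 : κ i) : ∀ i, κ i)) k = x k
  rw [Finset.sum_apply, Finset.sum_eq_single k]
  · rw [Algebra.smul_def, Pi.mul_apply, Pi.single_eq_same, mul_one]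
    show toProd ϖ ρ hker (Ideal.Quotient.mk _ (a k)) k = x k
    rw [toProd_mk, ha]
  · intro i _ hik
    rw [Algebra.smul_def, Pi.mul_apply, Pi.single_eq_of_ne (Ne.symm hik), mul_zero]
  · intro hk
    exact absurd (Finset.mem_univ k) hk

end Finite

/-! ### closed points -/

/-- a prime containing `rad (ϖ)` contains one of the kernels -/
theorem exists_ker_le_of_isPrime (hker : ⨅ i, RingHom.ker (ρ i) = (Ideal.span {ϖ}).radical)
    {P : Ideal R} (hP : P.IsPrime) (hϖ : ϖ ∈ P) : ∃ i, RingHom.ker (ρ i) ≤ P := by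
  have h1 : (Ideal.span {ϖ}).radical ≤ P :=
    hP.radical_le_iff.mpr ((Ideal.span_singleton_le_iff_mem (I := P)).mpr hϖ)
  have h2 : (Finset.univ : Finset ι).inf (fun i => RingHom.ker (ρ i)) ≤ P := by
    rw [Finset.inf_univ_eq_iInf, hker]
    exact h1
  obtain ⟨i, _, hi⟩ := hP.inf_le'.mp h2
  exact ⟨i, hi⟩

/-- **Closed points of the special fibre.**  Every maximal ideal of `R` containing `ϖ` is the
centre of a maximal ideal of some branch ring `κ i`. -/
theorem exists_maximal_comap_eq (hsurj : ∀ i, Function.Surjective (ρ i))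
    (hker : ⨅ i, RingHom.ker (ρ i) = (Ideal.span {ϖ}).radical)
    {𝔪 : Ideal R} (h𝔪 : 𝔪.IsMaximal) (hϖ : ϖ ∈ 𝔪) :
    ∃ (i : ι) (𝔫 : Ideal (κ i)), 𝔫.IsMaximal ∧ 𝔫.comap (ρ i) = 𝔪 := by
  obtain ⟨i, hi⟩ := exists_ker_le_of_isPrime ϖ ρ hker h𝔪.isPrime hϖ
  have hcm : (𝔪.map (ρ i)).comap (ρ i) = 𝔪 := by
    rw [Ideal.comap_map_of_surjective (ρ i) (hsurj i), ← RingHom.ker_eq_comap_bot,
      sup_eq_left.mpr hi]
  refine ⟨i, 𝔪.map (ρ i), ?_, hcm⟩
  rcases Ideal.map_eq_top_or_isMaximal_of_surjective (ρ i) (hsurj i) h𝔪 with h | h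
  · exfalso
    rw [h, Ideal.comap_top] at hcm
    exact h𝔪.ne_top hcm.symm
  · exact h

/-- **Covers.**  If a set `G ⊆ R` has no common zero on the special fibre (for every closed point
`𝔫` of every component some `g ∈ G` does not vanish at `𝔫`), then `ϖ` and `G` generate the unit
ideal of `R`. -/
theorem span_insert_eq_top_of_cover (hsurj : ∀ i, Function.Surjective (ρ i))
    (hker : ⨅ i, RingHom.ker (ρ i) = (Ideal.span {ϖ}).radical) (G : Set R)
    (hG : ∀ (i : ι) (𝔫 : Ideal (κ i)), 𝔫.IsMaximal → ∃ g ∈ G, ρ i g ∉ 𝔫) :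
    Ideal.span (insert ϖ G) = ⊤ := by
  by_contra htop
  obtain ⟨𝔪, h𝔪, hle⟩ := Ideal.exists_le_maximal _ htop
  have hϖ : ϖ ∈ 𝔪 := hle (Ideal.subset_span (Set.mem_insert ϖ G))
  obtain ⟨i, 𝔫, h𝔫, h𝔫𝔪⟩ := exists_maximal_comap_eq ϖ ρ hsurj hker h𝔪 hϖ
  obtain ⟨g, hgG, hg⟩ := hG i 𝔫 h𝔫
  have : g ∈ 𝔫.comap (ρ i) := by
    rw [h𝔫𝔪]
    exact hle (Ideal.subset_span (Set.mem_insert_of_mem ϖ hgG))
  exact hg this

/-- the same modulo `ϖ ^ m`: a partition of unity `x + ϖ ^ m * c = 1` with `x ∈ span G` -/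
theorem exists_add_pow_mul_eq_one_of_cover (hsurj : ∀ i, Function.Surjective (ρ i))
    (hker : ⨅ i, RingHom.ker (ρ i) = (Ideal.span {ϖ}).radical) (G : Set R)
    (hG : ∀ (i : ι) (𝔫 : Ideal (κ i)), 𝔫.IsMaximal → ∃ g ∈ G, ρ i g ∉ 𝔫) (m : ℕ) :
    ∃ x ∈ Ideal.span G, ∃ c : R, x + ϖ ^ m * c = 1 := by
  have h1 : Ideal.span G ⊔ Ideal.span {ϖ} = ⊤ := by
    rw [← Ideal.span_union, Set.union_singleton]
    exact span_insert_eq_top_of_cover ϖ ρ hsurj hker G hG
  have h2 : Ideal.span G ⊔ Ideal.span {ϖ} ^ m = ⊤ := Ideal.sup_pow_eq_top h1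
  rw [Ideal.span_singleton_pow] at h2
  have h3 : (1 : R) ∈ Ideal.span G ⊔ Ideal.span {ϖ ^ m} := by
    rw [h2]
    exact Submodule.mem_top
  obtain ⟨x, hx, y, hy, hxy⟩ := Submodule.mem_sup.mp h3
  obtain ⟨c, rfl⟩ := Ideal.mem_span_singleton'.mp hy
  exact ⟨x, hx, c, by rw [mul_comm]; exact hxy⟩

/-! ### the conductor element -/

section Conductor

variable [DecidableEq ι] [∀ i, IsDomain (κ i)]

/-- for each `i` an element vanishing on all the other components but not on the `i`-th -/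
theorem exists_bump (hne : ∀ i k, i ≠ k → ¬ RingHom.ker (ρ k) ≤ RingHom.ker (ρ i)) (i : ι) :
    ∃ σ : R, (∀ k, k ≠ i → ρ k σ = 0) ∧ ρ i σ ≠ 0 := by
  have hprime : (RingHom.ker (ρ i)).IsPrime := RingHom.ker_isPrime (ρ i)
  have h1 : ¬ (Finset.univ.erase i).inf (fun k => RingHom.ker (ρ k)) ≤ RingHom.ker (ρ i) := by
    intro hle
    obtain ⟨k, hk, hki⟩ := hprime.inf_le'.mp hle
    exact hne i k (Finset.ne_of_mem_erase hk).symm hki
  obtain ⟨σ, hσ, hσi⟩ := Set.not_subset.mp h1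
  refine ⟨σ, fun k hk => ?_, fun h => hσi ((RingHom.mem_ker).mpr h)⟩
  have := (Finset.inf_le (f := fun k => RingHom.ker (ρ k)) (Finset.mem_erase.mpr ⟨hk, Finset.mem_univ k⟩)) hσ
  exact (RingHom.mem_ker).mp this

/-- **The conductor element.**  There is `σ : R`, nonzero on every component, such that
`σ • Bt ⊆ B` and `B ⧸ (σ)` is artinian. -/
theorem exists_conductor [IsNoetherianRing R] [∀ i, Ring.DimensionLEOne (κ i)]
    (hsurj : ∀ i, Function.Surjective (ρ i))
    (hker : ⨅ i, RingHom.ker (ρ i) = (Ideal.span {ϖ}).radical)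
    (hne : ∀ i k, i ≠ k → ¬ RingHom.ker (ρ k) ≤ RingHom.ker (ρ i)) :
    ∃ σ : R, (∀ i, ρ i σ ≠ 0) ∧
      (∀ x : ∀ i, κ i, x * toProd ϖ ρ hker (Ideal.Quotient.mk _ σ) ∈ (toProd ϖ ρ hker).range) ∧
      IsArtinianRing ((R ⧸ (Ideal.span {ϖ}).radical) ⧸
        Ideal.span {(Ideal.Quotient.mk (Ideal.span {ϖ}).radical σ)}) := by
  choose b hb0 hb1 using exists_bump ρ hne
  set σ : R := ∑ i, b i with hσ
  have hρσ : ∀ i, ρ i σ = ρ i (b i) := by
    intro i
    rw [hσ, map_sum, Finset.sum_eq_single i]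
    · intro k _ hki
      exact hb0 k i hki.symm
    · intro hi
      exact absurd (Finset.mem_univ i) hi
  have hσne : ∀ i, ρ i σ ≠ 0 := fun i => by rw [hρσ i]; exact hb1 i
  refine ⟨σ, hσne, ?_, ?_⟩
  · -- the conductor property
    intro x
    choose a ha using fun i => hsurj i (x i)
    refine ⟨Ideal.Quotient.mk _ (∑ k, a k * b k), ?_⟩
    funext l
    rw [toProd_mk, Pi.mul_apply, toProd_mk, map_sum, Finset.sum_eq_single l]
    · rw [map_mul, ha, hρσ]
    · intro k _ hkl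
      rw [map_mul, hb0 k l hkl.symm, mul_zero]
    · intro hl
      exact absurd (Finset.mem_univ l) hl
  · -- `B ⧸ (σ)` is artinian: noetherian of dimension zero
    rw [isArtinianRing_iff_isNoetherianRing_krullDimLE_zero]
    refine ⟨inferInstance, Ring.KrullDimLE.mk₀ ?_⟩
    intro Q hQ
    -- the composite surjection `R → B ⧸ (σ)`
    set f : R →+* (R ⧸ (Ideal.span {ϖ}).radical) ⧸
        Ideal.span {(Ideal.Quotient.mk (Ideal.span {ϖ}).radical σ)} :=
      (Ideal.Quotient.mk _).comp (Ideal.Quotient.mk _) with hf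
    have hfsurj : Function.Surjective f :=
      Ideal.Quotient.mk_surjective.comp Ideal.Quotient.mk_surjective
    have hfϖ : f ϖ = 0 := by
      have : (Ideal.Quotient.mk (Ideal.span {ϖ}).radical) ϖ = 0 :=
        Ideal.Quotient.eq_zero_iff_mem.mpr (Ideal.le_radical (Ideal.mem_span_singleton_self ϖ))
      rw [hf, RingHom.comp_apply, this, map_zero]
    have hfσ : f σ = 0 := by
      rw [hf, RingHom.comp_apply]
      exact Ideal.Quotient.eq_zero_iff_mem.mpr (Ideal.mem_span_singleton_self _)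
    set P : Ideal R := Q.comap f with hP
    have hPprime : P.IsPrime := Ideal.comap_isPrime f Q
    have hϖP : ϖ ∈ P := by
      rw [hP, Ideal.mem_comap, hfϖ]
      exact Q.zero_mem
    have hσP : σ ∈ P := by
      rw [hP, Ideal.mem_comap, hfσ]
      exact Q.zero_mem
    obtain ⟨i, hi⟩ := exists_ker_le_of_isPrime ϖ ρ hker hPprime hϖP
    -- `P` is the preimage of a nonzero prime of `κ i`, hence maximal
    have hcm : (P.map (ρ i)).comap (ρ i) = P := by
      rw [Ideal.comap_map_of_surjective (ρ i) (hsurj i), ← RingHom.ker_eq_comap_bot,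
        sup_eq_left.mpr hi]
    have hmapprime : (P.map (ρ i)).IsPrime :=
      Ideal.map_isPrime_of_surjective (hsurj i) hi
    have hmapne : P.map (ρ i) ≠ ⊥ := by
      intro hbot
      have : ρ i σ ∈ P.map (ρ i) := Ideal.mem_map_of_mem _ hσP
      rw [hbot, Ideal.mem_bot] at this
      exact hσne i this
    have hmapmax : (P.map (ρ i)).IsMaximal :=
      Ring.DimensionLEOne.maximalOfPrime hmapne hmapprime
    have hPmax : P.IsMaximal := by
      rw [← hcm]
      exact Ideal.comap_isMaximal_of_surjective (ρ i) (hsurj i)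
    -- back to `Q`
    have hQ' : Q = P.map f := by
      rw [hP, Ideal.map_comap_of_surjective f hfsurj]
    rcases Ideal.map_eq_top_or_isMaximal_of_surjective f hfsurj hPmax with h | h
    · exfalso
      rw [← hQ'] at h
      exact hQ.ne_top h
    · rw [hQ']
      exact h

end Conductor

/-! ### the export -/

section Export

variable [DecidableEq ι] [∀ i, IsDomain (κ i)] [∀ i, Ring.DimensionLEOne (κ i)]

/-- **Export.**  `R` a noetherian chart ring (or local ring of the normal model), `ρ i` the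
surjective reductions onto the branch rings.  Let `v` be a unit of `R` and `h i : κ i` inverse
`n`-th roots of `ρ i v` on the branches.  If over every maximal ideal `𝔪 ∋ ϖ` of `R` the residues
of the `h i` at all the branches through `𝔪` coincide (`hval`), then for every `m` there is
`w : R` with `ρ i w = h i` on every branch and `v * w ^ n ≡ 1` modulo `ϖ ^ m`. -/
theorem exists_lift_of_branch_values [IsNoetherianRing R]
    (hsurj : ∀ i, Function.Surjective (ρ i))
    (hker : ⨅ i, RingHom.ker (ρ i) = (Ideal.span {ϖ}).radical)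
    (hne : ∀ i k, i ≠ k → ¬ RingHom.ker (ρ k) ≤ RingHom.ker (ρ i))
    {n : ℕ} (hn0 : n ≠ 0) (hn : IsUnit (n : R)) {v : R} (hv : IsUnit v)
    (h : ∀ i, κ i) (hh : ∀ i, ρ i v * h i ^ n = 1)
    (hval : ∀ 𝔪 : Ideal R, 𝔪.IsMaximal → ϖ ∈ 𝔪 → ∃ c : R, ∀ (i : ι) (𝔫 : Ideal (κ i)),
      𝔫.IsMaximal → 𝔫.comap (ρ i) = 𝔪 → h i - ρ i c ∈ 𝔫)
    (m : ℕ) :
    ∃ w : R, (∀ i, ρ i w = h i) ∧ v * w ^ n - 1 ∈ Ideal.span {ϖ ^ m} := by
  classical
  let _ := (toProd ϖ ρ hker).toAlgebra
  have hfin : Module.Finite (R ⧸ (Ideal.span {ϖ}).radical) (∀ i, κ i) := finite_pi ϖ ρ hsurj hker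
  obtain ⟨N, hN⟩ := Ideal.exists_radical_pow_le_of_fg (Ideal.span {ϖ})
    (IsNoetherian.noetherian (Ideal.span {ϖ}).radical)
  obtain ⟨σ, -, hσc, hσart⟩ := exists_conductor ϖ ρ hsurj hker hne
  have hker' : RingHom.ker (Ideal.Quotient.mk (Ideal.span {ϖ}).radical) =
      (Ideal.span {ϖ}).radical := Ideal.mk_ker
  have hh' : algebraMap (R ⧸ (Ideal.span {ϖ}).radical) (∀ i, κ i)
      (Ideal.Quotient.mk (Ideal.span {ϖ}).radical v) * h ^ n = 1 := by
    funext i
    show toProd ϖ ρ hker (Ideal.Quotient.mk _ v) i * (h ^ n) i = 1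
    rw [toProd_mk, Pi.pow_apply]
    exact hh i
  have hvals : ∀ M : Ideal (R ⧸ (Ideal.span {ϖ}).radical), M.IsMaximal →
      (Ideal.Quotient.mk (Ideal.span {ϖ}).radical σ) ∈ M →
      ∃ c : R ⧸ (Ideal.span {ϖ}).radical, ∀ P : Ideal (∀ i, κ i), P.IsMaximal →
        M ≤ P.comap (algebraMap (R ⧸ (Ideal.span {ϖ}).radical) (∀ i, κ i)) →
        h - algebraMap (R ⧸ (Ideal.span {ϖ}).radical) (∀ i, κ i) c ∈ P := by
    intro M hM _
    have hM' : (M.comap (Ideal.Quotient.mk (Ideal.span {ϖ}).radical)).IsMaximal :=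
      Ideal.comap_isMaximal_of_surjective _ Ideal.Quotient.mk_surjective
    have hϖM : ϖ ∈ M.comap (Ideal.Quotient.mk (Ideal.span {ϖ}).radical) := by
      rw [Ideal.mem_comap]
      have : (Ideal.Quotient.mk (Ideal.span {ϖ}).radical) ϖ = 0 :=
        Ideal.Quotient.eq_zero_iff_mem.mpr (Ideal.le_radical (Ideal.mem_span_singleton_self ϖ))
      rw [this]
      exact M.zero_mem
    obtain ⟨c, hc⟩ := hval _ hM' hϖM
    refine ⟨Ideal.Quotient.mk _ c, ?_⟩
    intro P hP hMP
    -- `P` comes from a maximal ideal of one factor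
    obtain ⟨⟨i, 𝔫⟩, h𝔫⟩ := (PrimeSpectrum.sigmaToPi_bijective κ).surjective ⟨P, hP.isPrime⟩
    have hP𝔫 : P = 𝔫.asIdeal.comap (Pi.evalRingHom κ i) := by
      have := congrArg PrimeSpectrum.asIdeal h𝔫
      exact this.symm
    have hevsurj : Function.Surjective (Pi.evalRingHom κ i) := fun y =>
      ⟨Pi.single i y, by simp⟩
    have h𝔫max : 𝔫.asIdeal.IsMaximal := by
      have h1 : 𝔫.asIdeal = P.map (Pi.evalRingHom κ i) := by
        rw [hP𝔫, Ideal.map_comap_of_surjective _ hevsurj]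
      rcases Ideal.map_eq_top_or_isMaximal_of_surjective _ hevsurj hP with h2 | h2
      · exfalso
        rw [← h1] at h2
        exact 𝔫.isPrime.ne_top h2
      · rw [h1]
        exact h2
    have hcomap : 𝔫.asIdeal.comap (ρ i) = M.comap (Ideal.Quotient.mk (Ideal.span {ϖ}).radical) := by
      refine (hM'.eq_of_le ?_ ?_).symm
      · exact (Ideal.comap_isPrime (ρ i) 𝔫.asIdeal).ne_top
      · intro a ha
        rw [Ideal.mem_comap] at ha ⊢
        have h1 : algebraMap (R ⧸ (Ideal.span {ϖ}).radical) (∀ i, κ i)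
            (Ideal.Quotient.mk _ a) ∈ P := hMP ha
        rw [hP𝔫, Ideal.mem_comap] at h1
        exact h1
    have := hc i 𝔫.asIdeal h𝔫max hcomap
    rw [hP𝔫, Ideal.mem_comap, map_sub]
    exact this
  obtain ⟨w, hw, hw'⟩ := ZC.exists_lift_of_values (Bt := ∀ i, κ i) ϖ N hN
    (Ideal.Quotient.mk (Ideal.span {ϖ}).radical) Ideal.Quotient.mk_surjective hker'
    (toProd_injective ϖ ρ hker) (Ideal.Quotient.mk _ σ) hσc hn0 hn hv hh' hvals m
  refine ⟨w, fun i => ?_, hw'⟩
  have := congrFun hw i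
  exact this

omit [Fintype ι] [DecidableEq ι] [∀ i, IsDomain (κ i)] [∀ i, Ring.DimensionLEOne (κ i)] in
/-- At a point with at most one branch the value condition is void. -/
theorem exists_residue_of_subsingleton (hsurj : ∀ i, Function.Surjective (ρ i)) (h : ∀ i, κ i)
    (𝔪 : Ideal R)
    (hsub : ∀ (i k : ι) (𝔫 : Ideal (κ i)) (𝔫' : Ideal (κ k)), 𝔫.IsMaximal → 𝔫'.IsMaximal →
      𝔫.comap (ρ i) = 𝔪 → 𝔫'.comap (ρ k) = 𝔪 → i = k) :
    ∃ c : R, ∀ (i : ι) (𝔫 : Ideal (κ i)), 𝔫.IsMaximal → 𝔫.comap (ρ i) = 𝔪 → h i - ρ i c ∈ 𝔫 := by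
  classical
  by_cases hex : ∃ (i : ι) (𝔫 : Ideal (κ i)), 𝔫.IsMaximal ∧ 𝔫.comap (ρ i) = 𝔪
  · obtain ⟨i₀, 𝔫₀, h𝔫₀, h𝔫₀'⟩ := hex
    obtain ⟨c, hc⟩ := hsurj i₀ (h i₀)
    refine ⟨c, fun i 𝔫 h𝔫 h𝔫' => ?_⟩
    obtain rfl : i = i₀ := hsub i i₀ 𝔫 𝔫₀ h𝔫 h𝔫₀ h𝔫' h𝔫₀'
    rw [hc, sub_self]
    exact 𝔫.zero_mem
  · exact ⟨0, fun i 𝔫 h𝔫 h𝔫' => absurd ⟨i, 𝔫, h𝔫, h𝔫'⟩ hex⟩

end Export

end Fermat.Agent.S36.FibreRing
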