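import Fermat.Agent.S36.FormalLift.SoftCore

/-!
# PROJECT V (S36): adapter (V15) → (V16), from valuation data to `SoftCore.RootData`

`SoftCore.exists_global_section` (helper24) is valuation-free: its input `RootData` asks for
functions `t i` on the opens `D(g i)` with `f (s i * t i) ^ n ≡ 1` modulo `rad (ϖ)` and pairwise
compatible modulo `rad (ϖ)` on the overlaps.  The geometric side of the chain ((A), (A'),
`GlueNorm`, `FibreRing`, `ZC/Transversal`) lives in the valuation world.  This file is the adapter.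

`GenericRoot C G 𝒲` :
* `W : 𝒲 → ValuationSubring F` the vertical valuation rings (`W₂₀, W₁₁, W₀₂`),
* generic normalisations `γ w ≠ 0` with `f * γ w ^ n ≡ 1` in the residue field of `W w`,
* functions `t i ∈ S i` such that `s i * t i / γ w ≡ 1` in the residue field of every `W w`
  containing `S i` (this is the conclusion `ρ_w (t i) = red_w (γ w / s i)` of
  `FibreRing.exists_lift_of_branch_values`), same for `t' j`,
* `Detects W ϖ S` for the rings `S` of the opens and of their pairwise overlaps: an element of `S`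
  lying in the maximal ideal of every `W w ⊇ S` lies in `rad (ϖ S)` (the vertical valuations
  containing `S` cut out the reduced special fibre of `Spec S`).

`GenericRoot.toRootData` : `RootData C G`.  The compatibilities on the overlaps cost nothing: they
are checked at the generic points only.
`exists_global_section_of_generic` : the soft core with this input.
-/

set_option autoImplicit false

namespace Fermat.Agent.S36.SoftCoreInput

open Fermat.Agent.S36.FormalLift Fermat.Agent.S36.SoftCore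

variable {F : Type*} [Field F]

/-! ### Residue computations in a valuation subring -/

section Val

variable (V : ValuationSubring F)

theorem val_eq_one_of_sub_one_lt {a : F} (ha : V.valuation (a - 1) < 1) : V.valuation a = 1 := by
  have h1 : V.valuation (a - 1 + 1) = V.valuation (1 : F) := by
    refine V.valuation.map_add_eq_of_lt_right ?_
    rw [map_one]
    exact ha
  rwa [sub_add_cancel, map_one] at h1

theorem val_pow_sub_one_lt {a : F} (ha : V.valuation (a - 1) < 1) (n : ℕ) :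
    V.valuation (a ^ n - 1) < 1 := by
  have hva : V.valuation a = 1 := val_eq_one_of_sub_one_lt V ha
  have hgeom : (∑ i ∈ Finset.range n, a ^ i) * (a - 1) = a ^ n - 1 := geom_sum_mul a n
  have hsum : V.valuation (∑ i ∈ Finset.range n, a ^ i) ≤ 1 := by
    refine V.valuation.map_sum_le fun i _ => ?_
    rw [map_pow, hva, one_pow]
  rw [← hgeom, map_mul]
  calc V.valuation (∑ i ∈ Finset.range n, a ^ i) * V.valuation (a - 1)
      ≤ 1 * V.valuation (a - 1) := mul_le_mul' hsum le_rfl
    _ = V.valuation (a - 1) := one_mul _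
    _ < 1 := ha

/-- `b ≡ 1`, `a ≡ 1` ⟹ `b * a ^ n ≡ 1` -/
theorem val_mul_pow_sub_one_lt {a b : F} (ha : V.valuation (a - 1) < 1)
    (hb : V.valuation (b - 1) < 1) (n : ℕ) : V.valuation (b * a ^ n - 1) < 1 := by
  have hva : V.valuation a = 1 := val_eq_one_of_sub_one_lt V ha
  have h1 : b * a ^ n - 1 = (b - 1) * a ^ n + (a ^ n - 1) := by ring
  rw [h1]
  refine lt_of_le_of_lt (V.valuation.map_add _ _) (max_lt ?_ (val_pow_sub_one_lt V ha n))
  rw [map_mul, map_pow, hva, one_pow, mul_one]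
  exact hb

/-- `a ≡ 1`, `a' ≡ 1` ⟹ `a - a' ≡ 0` -/
theorem val_sub_lt {a a' : F} (ha : V.valuation (a - 1) < 1) (ha' : V.valuation (a' - 1) < 1) :
    V.valuation (a - a') < 1 := by
  have h1 : a - a' = (a - 1) - (a' - 1) := by ring
  rw [h1]
  exact lt_of_le_of_lt (V.valuation.map_sub _ _) (max_lt ha ha')

end Val

/-! ### Two local computations -/

section Local

variable (V : ValuationSubring F)

/-- the root equation at a generic point: `f γ ^ n ≡ 1` and `s t / γ ≡ 1` give
`f s ^ n t ^ n ≡ 1`. -/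
theorem val_root_lt {f s t γ : F} (n : ℕ) (hγ0 : γ ≠ 0)
    (hγ : V.valuation (f * γ ^ n - 1) < 1) (ha : V.valuation (s * t / γ - 1) < 1) :
    V.valuation (f * s ^ n * t ^ n - 1) < 1 := by
  have h1 : f * s ^ n * t ^ n - 1 = (f * γ ^ n) * (s * t / γ) ^ n - 1 := by
    have hγn : γ ^ n ≠ 0 := pow_ne_zero _ hγ0
    rw [div_pow, mul_pow]
    field_simp
  rw [h1]
  exact val_mul_pow_sub_one_lt V ha hγ n

/-- the compatibility of two normalised generators at a generic point -/
theorem val_compat_lt {s t s₂ t₂ γ : F} (hs₂ : s₂ ≠ 0) (ht₂ : t₂ ∈ V)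
    (ha : V.valuation (s * t / γ - 1) < 1) (ha₂ : V.valuation (s₂ * t₂ / γ - 1) < 1) :
    V.valuation (s / s₂ * t - t₂) < 1 := by
  have hva₂ : V.valuation (s₂ * t₂ / γ) = 1 := val_eq_one_of_sub_one_lt V ha₂
  have hkey : (s / s₂ * t - t₂) * (s₂ * t₂ / γ) = t₂ * (s * t / γ - s₂ * t₂ / γ) := by
    field_simp
  have h1 : V.valuation (s / s₂ * t - t₂) =
      V.valuation t₂ * V.valuation (s * t / γ - s₂ * t₂ / γ) := by
    have := congrArg V.valuation hkey
    rwa [map_mul, hva₂, mul_one, map_mul] at this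
  rw [h1]
  have ht₂' : V.valuation t₂ ≤ 1 := (V.valuation_le_one_iff t₂).mpr ht₂
  calc V.valuation t₂ * V.valuation (s * t / γ - s₂ * t₂ / γ)
      ≤ 1 * V.valuation (s * t / γ - s₂ * t₂ / γ) := mul_le_mul' ht₂' le_rfl
    _ = V.valuation (s * t / γ - s₂ * t₂ / γ) := one_mul _
    _ < 1 := val_sub_lt V ha ha₂

end Local

/-! ### The adapter -/

section Main

variable {R0 : Type*} [CommRing R0] [Algebra R0 F] {ι ι' : Type*}

/-- the vertical valuation rings containing `S` cut out the reduced special fibre of `Spec S`: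
an element of `S` in the maximal ideal of every `W w ⊇ S` lies in `rad (ϖ S)`. -/
def Detects {𝒲 : Type*} (W : 𝒲 → ValuationSubring F) (ϖ : F) (S : Subring F) : Prop :=
  ∀ x ∈ S, (∀ w, S ≤ (W w).toSubring → (W w).valuation x < 1) → RadIn S ϖ x

/-- An `n`-th root on the reduced special fibre in valuation language: generic normalisations
`γ w` at the vertical valuations and functions `t i` on the opens with `s i * t i ≡ γ w` at every
vertical `W w` meeting the open. -/
structure GenericRoot (C : Charts R0 F ι ι') (G : LocalGen C) (𝒲 : Type*) where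
  /-- the vertical valuation rings -/
  W : 𝒲 → ValuationSubring F
  n : ℕ
  hn0 : 0 < n
  hn : ∃ n' c : R0, (n : R0) * n' = 1 + C.ϖ * c
  /-- `div f = n D` -/
  f : F
  hw : ∀ i, f * G.s i ^ n ∈ C.S i
  hw' : ∀ j, f * G.s' j ^ n ∈ C.S' j
  /-- the generic normalisations: `f γ ^ n ≡ 1` at `W w` -/
  γ : 𝒲 → F
  hγ0 : ∀ w, γ w ≠ 0
  hγ : ∀ w, (W w).valuation (f * γ w ^ n - 1) < 1
  /-- the local roots: `s i * t i ≡ γ w` at every `W w` meeting `D(g i)` -/
  t : ι → F
  ht : ∀ i, t i ∈ C.S i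
  htγ : ∀ i w, C.S i ≤ (W w).toSubring → (W w).valuation (G.s i * t i / γ w - 1) < 1
  t' : ι' → F
  ht' : ∀ j, t' j ∈ C.S' j
  htγ' : ∀ j w, C.S' j ≤ (W w).toSubring → (W w).valuation (G.s' j * t' j / γ w - 1) < 1
  det : ∀ i, Detects W C.ϖF (C.S i)
  det' : ∀ j, Detects W C.ϖF (C.S' j)
  det₂ : ∀ i j, Detects W C.ϖF (C.S₂ i j)
  det₂' : ∀ i j, Detects W C.ϖF (C.S₂' i j)
  detmix : ∀ i j, Detects W C.ϖF (C.Smix i j)

/-- the mixed transition function is a function on `D(g i) ∩ D(g' j)` -/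
theorem div_mem_Smix (C : Charts R0 F ι ι') (G : LocalGen C) (i : ι) (j : ι') :
    G.s i / G.s' j ∈ C.Smix i j := by
  obtain ⟨e, he⟩ := G.hs_mem i
  obtain ⟨N, hN⟩ := C.sheaf _ he
  obtain ⟨e', he'⟩ := G.hs_gen' j _ hN
  refine ⟨e + e', ?_⟩
  have h1 : ((C.g i : F) * (C.g' j : F)) ^ (e + e') * (G.s i / G.s' j) =
      (C.φ ^ N * ((C.g i : F) ^ e' * (C.g' j : F) ^ e)) *
        ((C.g' j : F) ^ e' * (C.φ⁻¹ ^ N * ((C.g i : F) ^ e * G.s i) / G.s' j)) := by
    have hφN : C.φ ^ N ≠ 0 := pow_ne_zero _ C.hφ0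
    rw [mul_pow, pow_add, pow_add, inv_pow]
    field_simp
  rw [h1]
  refine C.𝒜''.mul_mem (C.𝒜''.mul_mem (pow_mem (C.𝒜_le C.hφ) _)
    (C.𝒜''.mul_mem (pow_mem (C.𝒜_le (C.g i).2) _) (pow_mem (C.𝒜'_le (C.g' j).2) _)))
    (C.𝒜'_le he')

/-- **The adapter.** -/
def GenericRoot.toRootData {C : Charts R0 F ι ι'} {G : LocalGen C} {𝒲 : Type*}
    (X : GenericRoot C G 𝒲) : RootData C G where
  n := X.n
  hn0 := X.hn0
  hn := X.hn
  f := X.f
  hw := X.hw
  hw' := X.hw'
  t := X.t
  ht := X.ht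
  hroot := fun i => by
    refine X.det i _ ?_ fun w hS => ?_
    · exact (C.S i).sub_mem ((C.S i).mul_mem (X.hw i) (pow_mem (X.ht i) _)) (C.S i).one_mem
    · exact val_root_lt (X.W w) X.n (X.hγ0 w) (X.hγ w) (X.htγ i w hS)
  t' := X.t'
  ht' := X.ht'
  hroot' := fun j => by
    refine X.det' j _ ?_ fun w hS => ?_
    · exact (C.S' j).sub_mem ((C.S' j).mul_mem (X.hw' j) (pow_mem (X.ht' j) _)) (C.S' j).one_mem
    · exact val_root_lt (X.W w) X.n (X.hγ0 w) (X.hγ w) (X.htγ' j w hS)
  hcompat := fun i j => by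
    have htrans : G.s i / G.s j ∈ C.S₂ i j :=
      div_mem_awaySubring_mul C.𝒜 C.LU (C.g i).2 (C.g j).2 (G.hs_mem i) (G.hs_gen j)
    refine X.det₂ i j _ ?_ fun w hS => ?_
    · exact (C.S₂ i j).sub_mem ((C.S₂ i j).mul_mem htrans (C.S_le_S₂_left i j (X.ht i)))
        (C.S_le_S₂_right i j (X.ht j))
    · have hSi : C.S i ≤ (X.W w).toSubring := (C.S_le_S₂_left i j).trans hS
      have hSj : C.S j ≤ (X.W w).toSubring := (C.S_le_S₂_right i j).trans hS
      exact val_compat_lt (X.W w) (G.hs0 j) (hSj (X.ht j)) (X.htγ i w hSi) (X.htγ j w hSj)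
  hcompat' := fun i j => by
    have htrans : G.s' i / G.s' j ∈ C.S₂' i j :=
      div_mem_awaySubring_mul C.𝒜' C.LU' (C.g' i).2 (C.g' j).2 (G.hs_mem' i) (G.hs_gen' j)
    refine X.det₂' i j _ ?_ fun w hS => ?_
    · exact (C.S₂' i j).sub_mem ((C.S₂' i j).mul_mem htrans (C.S'_le_S₂'_left i j (X.ht' i)))
        (C.S'_le_S₂'_right i j (X.ht' j))
    · have hSi : C.S' i ≤ (X.W w).toSubring := (C.S'_le_S₂'_left i j).trans hS
      have hSj : C.S' j ≤ (X.W w).toSubring := (C.S'_le_S₂'_right i j).trans hS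
      exact val_compat_lt (X.W w) (G.hs0' j) (hSj (X.ht' j)) (X.htγ' i w hSi) (X.htγ' j w hSj)
  hcompat_mix := fun i j => by
    refine X.detmix i j _ ?_ fun w hS => ?_
    · exact (C.Smix i j).sub_mem
        ((C.Smix i j).mul_mem (div_mem_Smix C G i j) (C.S_le_Smix i j (X.ht i)))
        (C.S'_le_Smix i j (X.ht' j))
    · have hSi : C.S i ≤ (X.W w).toSubring := (C.S_le_Smix i j).trans hS
      have hSj : C.S' j ≤ (X.W w).toSubring := (C.S'_le_Smix i j).trans hS
      exact val_compat_lt (X.W w) (G.hs0' j) (hSj (X.ht' j)) (X.htγ i w hSi) (X.htγ' j w hSj)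

/-- **The soft core with valuation input.** -/
theorem exists_global_section_of_generic [IsNoetherianRing R0] [Fintype ι] [Fintype ι']
    (C : Charts R0 F ι ι') (G : LocalGen C) (hfin : C.FiniteH1) {𝒲 : Type*}
    (X : GenericRoot C G 𝒲) : ∃ h : F, h ≠ 0 ∧ h ∈ C.LU ∧ h ∈ C.LU' :=
  exists_global_section C G hfin X.toRootData

end Main

end Fermat.Agent.S36.SoftCoreInput
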