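import Mathlib
import Fermat.Agent.S36.FibreRing
import Fermat.Agent.S36.SoftCoreInput

/-!
# PROJECT V (S36), chain (V17), layer 1: `FibreRing` on one open, in valuation language

`S ≤ F` is the ring of an open `D(g)` of a chart of the model (a subring of the function field),
`W w` (`w : 𝒲`, finite) the vertical valuation subrings of `F`, `r w : W w →+* κ` their reductions
to ONE residue field `κ` (kernel = maximal ideal).  The branches through the open are the `w` with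
`S ≤ W w`; the branch ring of `w` is the image `(r w)(S) ≤ κ`.

`exists_local_root` is `FibreRing.exists_lift_of_branch_values` in this language: a unit `v` of
`S`, inverse `n`-th roots `h w : κ` of `(r w) v` on the branches, and the value condition at every
closed point of the special fibre of `Spec S` give `t ∈ S` with `(r w) t = h w` on every branch
through the open.  The hypotheses on `S`:

* `S` noetherian, `ϖ ∈ S` a nonunit of every `W w`, `(n : S)` a unit;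
* `SoftCoreInput.Detects W ϖ S` (the vertical valuations containing `S` cut out `rad (ϖ S)`);
* `Separated W S` : two different branches through the open have incomparable centres on `S`;
* the branch rings have dimension `≤ 1` and contain the `n`-th roots (in `κ`) of their elements.
-/

set_option autoImplicit false

namespace Fermat.Agent.S36.OpenLift

open Fermat.Agent.S36.FormalLift Fermat.Agent.S36.SoftCoreInput

variable {F : Type*} [Field F] {κ : Type*} [Field κ] {𝒲 : Type*}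

/-- the reduction of `W` restricted to a subring `S ≤ W` -/
def resHom (S : Subring F) (W : ValuationSubring F) (r : ↥W →+* κ) (h : S ≤ W.toSubring) :
    ↥S →+* κ :=
  r.comp (Subring.inclusion h)

@[simp]
theorem resHom_apply (S : Subring F) (W : ValuationSubring F) (r : ↥W →+* κ)
    (h : S ≤ W.toSubring) (x : ↥S) : resHom S W r h x = r ⟨(x : F), h x.2⟩ := rfl

/-- two different branches through the open have incomparable centres on `S` -/
def Separated (W : 𝒲 → ValuationSubring F) (S : Subring F) : Prop :=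
  ∀ w w' : 𝒲, S ≤ (W w).toSubring → S ≤ (W w').toSubring → w ≠ w' →
    ∃ x ∈ S, (W w').valuation x < 1 ∧ ¬ (W w).valuation x < 1

/-- the branch rings of `S` have dimension `≤ 1` and are closed under `n`-th roots in `κ` -/
structure BranchRings (W : 𝒲 → ValuationSubring F) (r : ∀ w, ↥(W w) →+* κ) (S : Subring F)
    (n : ℕ) : Prop where
  dim : ∀ (w : 𝒲) (h : S ≤ (W w).toSubring), Ring.DimensionLEOne ↥(resHom S (W w) (r w) h).range
  root : ∀ (w : 𝒲) (h : S ≤ (W w).toSubring) (z : κ),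
    z ^ n ∈ (resHom S (W w) (r w) h).range → z ∈ (resHom S (W w) (r w) h).range

variable [Fintype 𝒲]

set_option maxHeartbeats 800000 in
/-- **`FibreRing` on one open.** -/
theorem exists_local_root (W : 𝒲 → ValuationSubring F) (r : ∀ w, ↥(W w) →+* κ)
    (hr : ∀ (w : 𝒲) (x : ↥(W w)), r w x = 0 ↔ (W w).valuation (x : F) < 1)
    (S : Subring F) [IsNoetherianRing ↥S] {ϖ : F} (hϖS : ϖ ∈ S)
    (hϖW : ∀ w, (W w).valuation ϖ < 1) (hdet : Detects W ϖ S) (hsep : Separated W S)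
    {n : ℕ} (hn0 : n ≠ 0) (hn : IsUnit ((n : ℕ) : ↥S)) (hbr : BranchRings W r S n)
    {v : F} (hvS : v ∈ S) (hvinv : v⁻¹ ∈ S) (hv0 : v ≠ 0) (h : 𝒲 → κ)
    (hh : ∀ (w : 𝒲) (hw : S ≤ (W w).toSubring), r w ⟨v, hw hvS⟩ * h w ^ n = 1)
    (hval : ∀ 𝔪 : Ideal ↥S, 𝔪.IsMaximal → (⟨ϖ, hϖS⟩ : ↥S) ∈ 𝔪 → ∃ c : ↥S,
      ∀ (w : 𝒲) (hw : S ≤ (W w).toSubring), RingHom.ker (resHom S (W w) (r w) hw) ≤ 𝔪 →
        ∀ u : ↥S, resHom S (W w) (r w) hw u = h w - resHom S (W w) (r w) hw c → u ∈ 𝔪) :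
    ∃ (t : F) (ht : t ∈ S), ∀ (w : 𝒲) (hw : S ≤ (W w).toSubring), r w ⟨t, hw ht⟩ = h w := by
  classical
  -- the branches through the open
  let ι := {w : 𝒲 // S ≤ (W w).toSubring}
  let ρ' : ∀ i : ι, ↥S →+* κ := fun i => resHom S (W i.1) (r i.1) i.2
  let ρ : ∀ i : ι, ↥S →+* ↥(ρ' i).range := fun i => (ρ' i).rangeRestrict
  have hρ : ∀ (i : ι) (x : ↥S), ((ρ i x : ↥(ρ' i).range) : κ) = ρ' i x := fun i x => rfl
  have hker_eq : ∀ i : ι, RingHom.ker (ρ i) = RingHom.ker (ρ' i) := by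
    intro i
    ext x
    rw [RingHom.mem_ker, RingHom.mem_ker, Subtype.ext_iff, hρ]
    rfl
  have : ∀ i : ι, Ring.DimensionLEOne ↥(ρ' i).range := fun i => hbr.dim i.1 i.2
  have hsurj : ∀ i, Function.Surjective (ρ i) := fun i => (ρ' i).rangeRestrict_surjective
  -- membership in the kernel is a valuation condition
  have hmemker : ∀ (i : ι) (x : ↥S), x ∈ RingHom.ker (ρ' i) ↔ (W i.1).valuation (x : F) < 1 := by
    intro i x
    rw [RingHom.mem_ker]
    exact hr i.1 ⟨(x : F), i.2 x.2⟩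
  -- the kernels cut out `rad (ϖ)`
  have hker : ⨅ i, RingHom.ker (ρ i) = (Ideal.span {(⟨ϖ, hϖS⟩ : ↥S)}).radical := by
    apply le_antisymm
    · intro x hx
      rw [Ideal.mem_iInf] at hx
      obtain ⟨N, y, hy, e⟩ := hdet (x : F) x.2 (fun w hw => by
        have := hx ⟨w, hw⟩
        rw [hker_eq] at this
        exact (hmemker ⟨w, hw⟩ x).mp this)
      refine ⟨N, Ideal.mem_span_singleton'.mpr ⟨⟨y, hy⟩, ?_⟩⟩
      apply Subtype.ext
      rw [Subring.coe_mul, Subring.coe_pow, e, mul_comm]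
    · refine le_iInf fun i => ?_
      have hprime : (RingHom.ker (ρ i)).IsPrime := RingHom.ker_isPrime (ρ i)
      rw [hprime.radical_le_iff, Ideal.span_singleton_le_iff_mem, hker_eq]
      exact (hmemker i _).mpr (hϖW i.1)
  have hne : ∀ i k : ι, i ≠ k → ¬ RingHom.ker (ρ k) ≤ RingHom.ker (ρ i) := by
    intro i k hik hle
    obtain ⟨x, hxS, hx1, hx2⟩ := hsep i.1 k.1 i.2 k.2 (fun e => hik (Subtype.ext e))
    rw [hker_eq, hker_eq] at hle
    exact hx2 ((hmemker i ⟨x, hxS⟩).mp (hle ((hmemker k ⟨x, hxS⟩).mpr hx1)))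
  -- the unit and the roots
  have hvunit : IsUnit (⟨v, hvS⟩ : ↥S) := by
    refine isUnit_iff_exists_inv.mpr ⟨⟨v⁻¹, hvinv⟩, ?_⟩
    apply Subtype.ext
    rw [Subring.coe_mul, Subring.coe_one]
    exact mul_inv_cancel₀ hv0
  have hhmem : ∀ i : ι, h i.1 ∈ (ρ' i).range := by
    intro i
    refine hbr.root i.1 i.2 _ ?_
    refine ⟨⟨v⁻¹, hvinv⟩, ?_⟩
    have h1 := hh i.1 i.2
    have h2 : ρ' i ⟨v⁻¹, hvinv⟩ * ρ' i ⟨v, hvS⟩ = 1 := by
      rw [← map_mul]
      have : (⟨v⁻¹, hvinv⟩ : ↥S) * ⟨v, hvS⟩ = 1 := by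
        apply Subtype.ext
        rw [Subring.coe_mul, Subring.coe_one]
        exact inv_mul_cancel₀ hv0
      rw [this, map_one]
    have h3 : ρ' i ⟨v, hvS⟩ = r i.1 ⟨v, i.2 hvS⟩ := rfl
    calc ρ' i ⟨v⁻¹, hvinv⟩ = ρ' i ⟨v⁻¹, hvinv⟩ * (r i.1 ⟨v, i.2 hvS⟩ * h i.1 ^ n) := by
          rw [h1, mul_one]
      _ = (ρ' i ⟨v⁻¹, hvinv⟩ * ρ' i ⟨v, hvS⟩) * h i.1 ^ n := by rw [h3, mul_assoc]
      _ = h i.1 ^ n := by rw [h2, one_mul]
  let hB : ∀ i : ι, ↥(ρ' i).range := fun i => ⟨h i.1, hhmem i⟩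
  have hhB : ∀ i, ρ i ⟨v, hvS⟩ * hB i ^ n = 1 := by
    intro i
    apply Subtype.ext
    rw [Subring.coe_mul, Subring.coe_pow, Subring.coe_one, hρ]
    exact hh i.1 i.2
  have hvalB : ∀ 𝔪 : Ideal ↥S, 𝔪.IsMaximal → (⟨ϖ, hϖS⟩ : ↥S) ∈ 𝔪 → ∃ c : ↥S,
      ∀ (i : ι) (𝔫 : Ideal ↥(ρ' i).range), 𝔫.IsMaximal → 𝔫.comap (ρ i) = 𝔪 →
        hB i - ρ i c ∈ 𝔫 := by
    intro 𝔪 h𝔪 hϖ𝔪
    obtain ⟨c, hc⟩ := hval 𝔪 h𝔪 hϖ𝔪
    refine ⟨c, fun i 𝔫 _ h𝔫𝔪 => ?_⟩
    obtain ⟨u, hu⟩ := hsurj i (hB i - ρ i c)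
    have hkerle : RingHom.ker (ρ' i) ≤ 𝔪 := by
      rw [← hker_eq, ← h𝔫𝔪]
      intro x hx
      rw [Ideal.mem_comap, (RingHom.mem_ker).mp hx]
      exact 𝔫.zero_mem
    have hu' : ρ' i u = h i.1 - ρ' i c := by
      have := congrArg (Subtype.val) hu
      rw [hρ] at this
      rw [this, AddSubgroupClass.coe_sub, hρ]
    have hmem : u ∈ 𝔪 := hc i.1 i.2 hkerle u hu'
    rw [← h𝔫𝔪, Ideal.mem_comap, hu] at hmem
    exact hmem
  obtain ⟨t, ht, -⟩ := FibreRing.exists_lift_of_branch_values (⟨ϖ, hϖS⟩ : ↥S) ρ hsurj hker hne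
    hn0 hn hvunit hB hhB hvalB 0
  refine ⟨(t : F), t.2, fun w hw => ?_⟩
  have := congrArg (Subtype.val) (ht ⟨w, hw⟩)
  rw [hρ] at this
  exact this

end Fermat.Agent.S36.OpenLift
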