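import Mathlib

/-!
# S36 (project V), slice V-GlueNorm: the abstract norm computations (A) and (A′)

Design-independent algebra (Mathlib only, hypotheses first).

SETTING (the normalisation of S34/S35 at level `q M''`, one residue field `κ`).  `F'` is the
function field of level `q M''`, `F` the one of level `q² M''`; `N₁ N₂ : F →* F'` are the norms
along the two degeneracy maps `π₁ π₂`.  `V₁ V₂` are the two Gauss valuation rings of `F'` with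
reductions `red₁ red₂` to `κ`, and `W₂₀ W₁₁ W₀₂` the three valuation rings of `F` with reductions
`r₂₀ r₁₁ r₀₂` to `κ`, normalised so that `r₂₀ ∘ π₁ = red₁ = r₁₁ ∘ π₁`, `r₀₂ ∘ π₁ = φ ∘ red₂`,
`r₂₀ ∘ π₂ = φ ∘ red₁`, `r₁₁ ∘ π₂ = red₂ = r₀₂ ∘ π₂`, where `φ : κ →+* κ` is the `k`-linear Frobenius
pull-back.  With these normalisations the three branches of the triple point `x_b` over a
supersingular place `b` of `κ` sit at the SAME place `b`, `π₂ (x_b)` is the node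
`e_b = (fr b on V₁, b on V₂)` and `π₁ (x_b)` is the node `e_(fr b) = (b on V₁, fr b on V₂)`.

HYPOTHESES (fields of `Datum`):
* the four norm-reduction formulas (ramified `OrthoNorm`: thick + thin place over one Gauss ring,
  one purely inseparable place over the other);
* gluing at level `q M''` for the functions `w ∈ V₁ ∩ V₂` satisfying an abstract regularity
  predicate `Reg` ("all poles in admissible generic discs");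
* an abstract evaluation `val : Pt → κ → k → Prop` (multiplicative, unique) and the value rule
  `val (fr b) z c → val b (φ z) c`.

RESULTS, for `Y : X.Kummer n` = (`f` a unit at the three `W`, `N₁ f = g₁ ^ n`, `N₂ f = g₂ ^ n`):
* `Kummer.exists_roots` **(A)** : for `n` prime to `q`: `r₂₀ f`, `r₀₂ f` and `(r₁₁ f) ^ (q - 1)` are
  `n`-th powers in `κ`; `Kummer.nonempty_roots_pow` : so `Y.pow (q - 1)` (i.e. `f ^ (q - 1)`) has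
  `Roots` = `n`-th roots `a_W` of all three reductions;
* `Kummer.exists_constants` : if `r_W f = a_W ^ n` then `red₁ g₁ = G₁ a₂₀ a₁₁^(q-1)`,
  `φ (red₂ g₁) = G₂ a₀₂^q`, `φ (red₁ g₂) = G₁' a₂₀^q`, `red₂ g₂ = G₂' a₁₁^(q-1) a₀₂` with
  CONSTANTS `G ∈ μ_n(k)` (structure `Constants`; needs `μ_n(κ) ⊆ k`, cf.
  `exists_const_of_pow_eq_one`);
* `Kummer.relations` **(A′)** : for every `t ∈ F` (in the three `W`) with `Reg (g₁ N₁ t)`,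
  `Reg (g₂ N₂ t)` and every `b ∈ S` with `fr b ∈ S` at which `h_W = a_W r_W(t)` have values
  `c₂₀ c₁₁ c₀₂`: `G₁ c₂₀ c₁₁^(q-1) = G₂ c₀₂^q` and `G₁' c₂₀^q = G₂' c₁₁^(q-1) c₀₂`;
* `Kummer.exists_ratio` : hence `c₂₀^(q²-1) = A c₀₂^(q²-1)`, `c₁₁^(q²-1) = B c₀₂^(q²-1)` with
  `A B ∈ μ_n(k)` independent of `t` and `b` (`ratio_of_relations` = the determinant `q² - 1`);
* `Kummer.exists_normalisation` : base-point form: if at ONE `(t₀, b₀)` the three values have the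
  same `n`-th power, there are `ζ₂₀ ζ₁₁ ∈ μ_n(k)` with
  `(ζ₂₀ c₂₀)^(q²-1) = c₀₂^(q²-1) = (ζ₁₁ c₁₁)^(q²-1)` at EVERY `(t, b)`.

REMARKS for the instantiation.  `F'` may be the `ℚ̄`-function field of level `q M''` (pcg of project U
lives there) while `F` is the `K₀`-function field of level `q² M''`: `N₁ N₂` are arbitrary monoid
homomorphisms, e.g. the `K₀`-norms followed by the inclusion, and then `N_i f = g_i ^ n` exactly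
(constants of `ℚ̄` are `n`-th powers).  `S` need not be known to be `fr`-stable: `fr b ∈ S` is a
hypothesis at each point (`π₁ (x_b) = e_(fr b)` is a node).
-/

set_option autoImplicit false

namespace Fermat.Agent.S36.GlueNorm

/-! ### abstract evaluation at points -/

/-- an abstract system of evaluations of elements of `κ` at points, with values in `k` -/
structure ValSystem (k κ Pt : Type*) [Field k] [Field κ] [Algebra k κ] where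
  /-- `val b z c`: the function `z` is regular at `b` and takes the value `c` there -/
  val : Pt → κ → k → Prop
  val_const : ∀ (b : Pt) (c : k), val b (algebraMap k κ c) c
  val_mul : ∀ (b : Pt) (z z' : κ) (c c' : k), val b z c → val b z' c' → val b (z * z') (c * c')
  val_unique : ∀ (b : Pt) (z : κ) (c c' : k), val b z c → val b z c' → c = c'

namespace ValSystem

variable {k κ Pt : Type*} [Field k] [Field κ] [Algebra k κ] (E : ValSystem k κ Pt)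

theorem val_one (b : Pt) : E.val b 1 1 := by
  have := E.val_const b 1
  rwa [map_one] at this

theorem val_pow (b : Pt) {z : κ} {c : k} (h : E.val b z c) (m : ℕ) : E.val b (z ^ m) (c ^ m) := by
  induction m with
  | zero => simpa using E.val_one b
  | succ m ih =>
    rw [pow_succ, pow_succ]
    exact E.val_mul b _ _ _ _ ih h

end ValSystem

/-! ### algebra in a field: roots of unity and Bezout -/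

section Algebra

/-- an `n`-th root of unity of `κ` is a constant, as soon as `k` has a primitive `n`-th root -/
theorem exists_const_of_pow_eq_one {k κ : Type*} [Field k] [Field κ] [Algebra k κ] {n : ℕ}
    (hn : 0 < n) {ζ : k} (hζ : IsPrimitiveRoot ζ n) {z : κ} (hz : z ^ n = 1) :
    ∃ c : k, algebraMap k κ c = z := by
  have hζ' : IsPrimitiveRoot (algebraMap k κ ζ) n :=
    hζ.map_of_injective (algebraMap k κ).injective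
  have : NeZero n := ⟨hn.ne'⟩
  obtain ⟨i, -, hi⟩ := hζ'.eq_pow_of_pow_eq_one hz
  exact ⟨ζ ^ i, by rw [map_pow, hi]⟩

/-- Bezout: if `w ^ n = z ^ q`, `z ≠ 0` and `n`, `q` are coprime then `z` is an `n`-th power -/
theorem exists_pow_eq_of_pow_eq_pow {κ : Type*} [Field κ] {n q : ℕ} (hnq : Nat.Coprime n q)
    {z w : κ} (hz : z ≠ 0) (h : w ^ n = z ^ q) : ∃ a : κ, a ^ n = z := by
  by_cases hn : n = 0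
  · subst hn
    have hq : q = 1 := by simpa using hnq
    subst hq
    refine ⟨1, ?_⟩
    rw [pow_zero, pow_one] at h
    rw [pow_zero, h]
  have hw : w ≠ 0 := by
    rintro rfl
    rw [zero_pow hn] at h
    exact hz (pow_eq_zero_iff (fun hq : q = 0 => by subst hq; simp at h) |>.mp h.symm)
  have hb : (n : ℤ) * Nat.gcdA n q + (q : ℤ) * Nat.gcdB n q = 1 := by
    have := Nat.gcd_eq_gcd_ab n q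
    rw [hnq.gcd_eq_one] at this
    exact_mod_cast this.symm
  refine ⟨z ^ (Nat.gcdA n q) * w ^ (Nat.gcdB n q), ?_⟩
  rw [mul_pow, ← zpow_natCast (z ^ Nat.gcdA n q), ← zpow_mul, ← zpow_natCast (w ^ Nat.gcdB n q),
    ← zpow_mul, mul_comm (Nat.gcdB n q) (n : ℤ), zpow_mul w, zpow_natCast w, h, ← zpow_natCast z q,
    ← zpow_mul, ← zpow_add₀ hz, mul_comm (Nat.gcdA n q) (n : ℤ), hb, zpow_one]

end Algebra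

/-! ### the two-level datum -/

/-- **The two-level datum** (levels `q M''` and `q² M''`), see the header. -/
structure Datum (k κ F' F Pt : Type*) [Field k] [Field κ] [Algebra k κ] [Field F'] [Field F] where
  /-- evaluation at the places of `κ` -/
  E : ValSystem k κ Pt
  /-- the two Gauss rings of level `q M''` -/
  V₁ : ValuationSubring F'
  V₂ : ValuationSubring F'
  /-- the three valuation rings of level `q² M''` -/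
  W₂₀ : ValuationSubring F
  W₁₁ : ValuationSubring F
  W₀₂ : ValuationSubring F
  red₁ : ↥V₁ →+* κ
  red₂ : ↥V₂ →+* κ
  r₂₀ : ↥W₂₀ →+* κ
  r₁₁ : ↥W₁₁ →+* κ
  r₀₂ : ↥W₀₂ →+* κ
  /-- the norms along the two degeneracy maps -/
  N₁ : F →* F'
  N₂ : F →* F'
  /-- the `k`-linear Frobenius pull-back of `κ` -/
  φ : κ →+* κ
  /-- the residue characteristic -/
  q : ℕ
  /-- the Frobenius on places -/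
  fr : Pt → Pt
  /-- the supersingular places -/
  S : Set Pt
  /-- regularity at the bad points of level `q M''` -/
  Reg : F' → Prop
  fr_fr : ∀ b ∈ S, fr (fr b) = b
  /-- the value rule `(φ z)(b) = z(fr b)` -/
  val_fr : ∀ (b : Pt) (z : κ) (c : k), E.val (fr b) z c → E.val b (φ z) c
  /-- norm along `π₁`, over `V₁`: the thin place `W₂₀` and the thick place `W₁₁` (`e = q - 1`) -/
  norm₁_V₁ : ∀ (y : F) (h₂₀ : y ∈ W₂₀) (h₁₁ : y ∈ W₁₁) (_h₀₂ : y ∈ W₀₂),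
    ∃ m : N₁ y ∈ V₁, red₁ ⟨N₁ y, m⟩ = r₂₀ ⟨y, h₂₀⟩ * r₁₁ ⟨y, h₁₁⟩ ^ (q - 1)
  /-- norm along `π₁`, over `V₂`: the purely inseparable place `W₀₂` -/
  norm₁_V₂ : ∀ (y : F) (_h₂₀ : y ∈ W₂₀) (_h₁₁ : y ∈ W₁₁) (h₀₂ : y ∈ W₀₂),
    ∃ m : N₁ y ∈ V₂, φ (red₂ ⟨N₁ y, m⟩) = r₀₂ ⟨y, h₀₂⟩ ^ q
  /-- norm along `π₂`, over `V₁`: the purely inseparable place `W₂₀` -/
  norm₂_V₁ : ∀ (y : F) (h₂₀ : y ∈ W₂₀) (_h₁₁ : y ∈ W₁₁) (_h₀₂ : y ∈ W₀₂),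
    ∃ m : N₂ y ∈ V₁, φ (red₁ ⟨N₂ y, m⟩) = r₂₀ ⟨y, h₂₀⟩ ^ q
  /-- norm along `π₂`, over `V₂`: the thick place `W₁₁` and the thin place `W₀₂` -/
  norm₂_V₂ : ∀ (y : F) (_h₂₀ : y ∈ W₂₀) (h₁₁ : y ∈ W₁₁) (h₀₂ : y ∈ W₀₂),
    ∃ m : N₂ y ∈ V₂, red₂ ⟨N₂ y, m⟩ = r₁₁ ⟨y, h₁₁⟩ ^ (q - 1) * r₀₂ ⟨y, h₀₂⟩
  /-- **gluing at level `q M''`** (pcg of project U): node `e_b = (fr b on V₁, b on V₂)` -/
  glue : ∀ (w : F') (m₁ : w ∈ V₁) (m₂ : w ∈ V₂), Reg w → ∀ b ∈ S,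
    ∃ γ : k, E.val (fr b) (red₁ ⟨w, m₁⟩) γ ∧ E.val b (red₂ ⟨w, m₂⟩) γ

/-! ### small lemmas on valuation rings -/

section Aux

variable {K : Type*} [Field K]

/-- valuation rings are integrally closed -/
theorem mem_of_pow_mem (V : ValuationSubring K) {g : K} {n : ℕ} (hn : n ≠ 0) (h : g ^ n ∈ V) :
    g ∈ V := by
  rw [← V.valuation_le_one_iff] at h ⊢
  rw [map_pow] at h
  exact (pow_le_one_iff_of_nonneg zero_le hn).mp h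

variable {κ : Type*} [Field κ]

theorem red_mul (V : ValuationSubring K) (red : ↥V →+* κ) {x y : K} (hx : x ∈ V) (hy : y ∈ V)
    (hxy : x * y ∈ V) : red ⟨x * y, hxy⟩ = red ⟨x, hx⟩ * red ⟨y, hy⟩ := by
  rw [← map_mul]
  rfl

theorem red_pow (V : ValuationSubring K) (red : ↥V →+* κ) {x : K} (hx : x ∈ V) (n : ℕ)
    (hxn : x ^ n ∈ V) : red ⟨x ^ n, hxn⟩ = red ⟨x, hx⟩ ^ n := by
  rw [← map_pow]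
  rfl

theorem red_congr (V : ValuationSubring K) (red : ↥V →+* κ) {x y : K} (hx : x ∈ V) (hy : y ∈ V)
    (hxy : x = y) : red ⟨x, hx⟩ = red ⟨y, hy⟩ := by
  subst hxy
  rfl

end Aux

/-- an element with the same `n`-th power as `v ≠ 0` is a constant multiple of `v` -/
theorem exists_const_mul {k κ : Type*} [Field k] [Field κ] [Algebra k κ] {n : ℕ}
    (hμ : ∀ z : κ, z ^ n = 1 → ∃ c : k, algebraMap k κ c = z) {u v : κ} (hv : v ≠ 0)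
    (h : u ^ n = v ^ n) : ∃ c : k, c ^ n = 1 ∧ u = algebraMap k κ c * v := by
  obtain ⟨c, hc⟩ := hμ (u / v) (by rw [div_pow, h, div_self (pow_ne_zero n hv)])
  refine ⟨c, ?_, ?_⟩
  · apply (algebraMap k κ).injective
    rw [map_pow, hc, div_pow, h, div_self (pow_ne_zero n hv), map_one]
  · rw [hc, div_mul_cancel₀ _ hv]


/-- **the determinant `q² - 1`**: the two relations (R1), (R2) force the `(q² - 1)`-th powers of the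
three values to be proportional, with explicit factors (`q = e + 1`, `q² - 1 = e (e + 2)`). -/
theorem ratio_of_relations {k : Type*} [Field k] {G₁ G₂ G₁' G₂' c₂₀ c₁₁ c₀₂ : k} {e : ℕ}
    (hG₁ : G₁ ≠ 0) (hG₂ : G₂ ≠ 0) (hG₁' : G₁' ≠ 0) (hG₂' : G₂' ≠ 0) (hc₁₁ : c₁₁ ≠ 0)
    (hc₀₂ : c₀₂ ≠ 0) (R1 : G₁ * (c₂₀ * c₁₁ ^ e) = G₂ * c₀₂ ^ (e + 1))
    (R2 : G₁' * c₂₀ ^ (e + 1) = G₂' * (c₁₁ ^ e * c₀₂)) :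
    c₂₀ ^ (e * (e + 2)) = (G₂ * G₂' / (G₁ * G₁')) ^ e * c₀₂ ^ (e * (e + 2)) ∧
      c₁₁ ^ (e * (e + 2)) = G₂ ^ (e + 2) / (G₁ ^ (e + 2) * (G₂ * G₂' / (G₁ * G₁')))
        * c₀₂ ^ (e * (e + 2)) := by
  have hGG : G₁ * G₁' ≠ 0 := mul_ne_zero hG₁ hG₁'
  have hu : G₂ * G₂' / (G₁ * G₁') ≠ 0 := div_ne_zero (mul_ne_zero hG₂ hG₂') hGG
  -- (E1)
  have E1 : G₁ * G₁' * c₂₀ ^ (e + 2) = G₂ * G₂' * c₀₂ ^ (e + 2) := by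
    apply mul_right_cancel₀ (pow_ne_zero e hc₁₁)
    calc G₁ * G₁' * c₂₀ ^ (e + 2) * c₁₁ ^ e
        = (G₁ * (c₂₀ * c₁₁ ^ e)) * (G₁' * c₂₀ ^ (e + 1)) := by ring
      _ = (G₂ * c₀₂ ^ (e + 1)) * (G₂' * (c₁₁ ^ e * c₀₂)) := by rw [R1, R2]
      _ = G₂ * G₂' * c₀₂ ^ (e + 2) * c₁₁ ^ e := by ring
  have E1' : c₂₀ ^ (e + 2) = G₂ * G₂' / (G₁ * G₁') * c₀₂ ^ (e + 2) := by
    rw [div_mul_eq_mul_div, eq_div_iff hGG, mul_comm, E1]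
  refine ⟨?_, ?_⟩
  · rw [mul_comm e (e + 2), pow_mul, E1', mul_pow, ← pow_mul]
  · have h3 : (G₁ * (c₂₀ * c₁₁ ^ e)) ^ (e + 2) = (G₂ * c₀₂ ^ (e + 1)) ^ (e + 2) := by rw [R1]
    have h4 : G₁ ^ (e + 2) * (G₂ * G₂' / (G₁ * G₁')) * c₁₁ ^ (e * (e + 2))
        = G₂ ^ (e + 2) * c₀₂ ^ (e * (e + 2)) := by
      apply mul_right_cancel₀ (pow_ne_zero (e + 2) hc₀₂)
      calc G₁ ^ (e + 2) * (G₂ * G₂' / (G₁ * G₁')) * c₁₁ ^ (e * (e + 2)) * c₀₂ ^ (e + 2)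
          = G₁ ^ (e + 2) * (G₂ * G₂' / (G₁ * G₁') * c₀₂ ^ (e + 2)) * c₁₁ ^ (e * (e + 2)) := by
            ring
        _ = (G₁ * (c₂₀ * c₁₁ ^ e)) ^ (e + 2) := by rw [← E1']; ring
        _ = (G₂ * c₀₂ ^ (e + 1)) ^ (e + 2) := h3
        _ = G₂ ^ (e + 2) * c₀₂ ^ (e * (e + 2)) * c₀₂ ^ (e + 2) := by ring
    rw [div_mul_eq_mul_div, eq_div_iff (mul_ne_zero (pow_ne_zero _ hG₁) hu), ← h4]
    ring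

/-- `n`-th roots of unity are nonzero -/
theorem ne_zero_of_pow_eq_one {k : Type*} [Field k] {n : ℕ} (hn : n ≠ 0) {x : k}
    (h : x ^ n = 1) : x ≠ 0 := by
  rintro rfl
  rw [zero_pow hn] at h
  exact zero_ne_one h

namespace Datum

variable {k κ F' F Pt : Type*} [Field k] [Field κ] [Algebra k κ] [Field F'] [Field F]

/-- **A Kummer function of level `q² M''` both of whose norms are `n`-th powers**: `f` a unit at the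
three `W` (from `q²`-newness, `π_i_* D = div g_i`, after normalising the constants). -/
structure Kummer (X : Datum k κ F' F Pt) (n : ℕ) where
  f : F
  g₁ : F'
  g₂ : F'
  f₂₀ : f ∈ X.W₂₀
  f₁₁ : f ∈ X.W₁₁
  f₀₂ : f ∈ X.W₀₂
  r₂₀_ne : X.r₂₀ ⟨f, f₂₀⟩ ≠ 0
  r₁₁_ne : X.r₁₁ ⟨f, f₁₁⟩ ≠ 0
  r₀₂_ne : X.r₀₂ ⟨f, f₀₂⟩ ≠ 0
  norm₁ : X.N₁ f = g₁ ^ n
  norm₂ : X.N₂ f = g₂ ^ n

namespace Kummer

variable {X : Datum k κ F' F Pt} {n : ℕ} (Y : X.Kummer n)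

theorem g₁_mem_V₁ (hn : n ≠ 0) : Y.g₁ ∈ X.V₁ := by
  obtain ⟨m, -⟩ := X.norm₁_V₁ Y.f Y.f₂₀ Y.f₁₁ Y.f₀₂
  rw [Y.norm₁] at m
  exact mem_of_pow_mem _ hn m

theorem g₁_mem_V₂ (hn : n ≠ 0) : Y.g₁ ∈ X.V₂ := by
  obtain ⟨m, -⟩ := X.norm₁_V₂ Y.f Y.f₂₀ Y.f₁₁ Y.f₀₂
  rw [Y.norm₁] at m
  exact mem_of_pow_mem _ hn m

theorem g₂_mem_V₁ (hn : n ≠ 0) : Y.g₂ ∈ X.V₁ := by
  obtain ⟨m, -⟩ := X.norm₂_V₁ Y.f Y.f₂₀ Y.f₁₁ Y.f₀₂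
  rw [Y.norm₂] at m
  exact mem_of_pow_mem _ hn m

theorem g₂_mem_V₂ (hn : n ≠ 0) : Y.g₂ ∈ X.V₂ := by
  obtain ⟨m, -⟩ := X.norm₂_V₂ Y.f Y.f₂₀ Y.f₁₁ Y.f₀₂
  rw [Y.norm₂] at m
  exact mem_of_pow_mem _ hn m

/-- `(red₁ g₁) ^ n = r₂₀ f * (r₁₁ f) ^ (q - 1)` -/
theorem red₁_g₁_pow (hn : n ≠ 0) :
    X.red₁ ⟨Y.g₁, Y.g₁_mem_V₁ hn⟩ ^ n
      = X.r₂₀ ⟨Y.f, Y.f₂₀⟩ * X.r₁₁ ⟨Y.f, Y.f₁₁⟩ ^ (X.q - 1) := by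
  obtain ⟨m, hm⟩ := X.norm₁_V₁ Y.f Y.f₂₀ Y.f₁₁ Y.f₀₂
  rw [← hm, ← red_pow X.V₁ X.red₁ (Y.g₁_mem_V₁ hn) n (by rw [← Y.norm₁]; exact m)]
  exact red_congr _ _ _ _ Y.norm₁.symm

/-- `φ (red₂ g₁) ^ n = (r₀₂ f) ^ q` -/
theorem red₂_g₁_pow (hn : n ≠ 0) :
    X.φ (X.red₂ ⟨Y.g₁, Y.g₁_mem_V₂ hn⟩) ^ n = X.r₀₂ ⟨Y.f, Y.f₀₂⟩ ^ X.q := by
  obtain ⟨m, hm⟩ := X.norm₁_V₂ Y.f Y.f₂₀ Y.f₁₁ Y.f₀₂
  rw [← hm, ← map_pow, ← red_pow X.V₂ X.red₂ (Y.g₁_mem_V₂ hn) n (by rw [← Y.norm₁]; exact m)]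
  exact congrArg X.φ (red_congr _ _ _ _ Y.norm₁.symm)

/-- `φ (red₁ g₂) ^ n = (r₂₀ f) ^ q` -/
theorem red₁_g₂_pow (hn : n ≠ 0) :
    X.φ (X.red₁ ⟨Y.g₂, Y.g₂_mem_V₁ hn⟩) ^ n = X.r₂₀ ⟨Y.f, Y.f₂₀⟩ ^ X.q := by
  obtain ⟨m, hm⟩ := X.norm₂_V₁ Y.f Y.f₂₀ Y.f₁₁ Y.f₀₂
  rw [← hm, ← map_pow, ← red_pow X.V₁ X.red₁ (Y.g₂_mem_V₁ hn) n (by rw [← Y.norm₂]; exact m)]
  exact congrArg X.φ (red_congr _ _ _ _ Y.norm₂.symm)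

/-- `(red₂ g₂) ^ n = (r₁₁ f) ^ (q - 1) * r₀₂ f` -/
theorem red₂_g₂_pow (hn : n ≠ 0) :
    X.red₂ ⟨Y.g₂, Y.g₂_mem_V₂ hn⟩ ^ n
      = X.r₁₁ ⟨Y.f, Y.f₁₁⟩ ^ (X.q - 1) * X.r₀₂ ⟨Y.f, Y.f₀₂⟩ := by
  obtain ⟨m, hm⟩ := X.norm₂_V₂ Y.f Y.f₂₀ Y.f₁₁ Y.f₀₂
  rw [← hm, ← red_pow X.V₂ X.red₂ (Y.g₂_mem_V₂ hn) n (by rw [← Y.norm₂]; exact m)]
  exact red_congr _ _ _ _ Y.norm₂.symm

/-- **(A)**: the reductions of `f` on the two thin components and the `(q - 1)`-th power of its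
reduction on the thick component are `n`-th powers. -/
theorem exists_roots (hn : n ≠ 0) (hnq : Nat.Coprime n X.q) :
    ∃ a₂₀ a₁₁ a₀₂ : κ, a₂₀ ^ n = X.r₂₀ ⟨Y.f, Y.f₂₀⟩ ∧
      a₁₁ ^ n = X.r₁₁ ⟨Y.f, Y.f₁₁⟩ ^ (X.q - 1) ∧ a₀₂ ^ n = X.r₀₂ ⟨Y.f, Y.f₀₂⟩ := by
  obtain ⟨a₂₀, h₂₀⟩ := exists_pow_eq_of_pow_eq_pow hnq Y.r₂₀_ne (Y.red₁_g₂_pow hn)
  obtain ⟨a₀₂, h₀₂⟩ := exists_pow_eq_of_pow_eq_pow hnq Y.r₀₂_ne (Y.red₂_g₁_pow hn)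
  refine ⟨a₂₀, X.red₁ ⟨Y.g₁, Y.g₁_mem_V₁ hn⟩ / a₂₀, a₀₂, h₂₀, ?_, h₀₂⟩
  rw [div_pow, Y.red₁_g₁_pow hn, h₂₀, mul_div_assoc, mul_div_cancel₀ _ Y.r₂₀_ne]


/-- the `m`-th power of a Kummer function -/
def pow (m : ℕ) : X.Kummer n where
  f := Y.f ^ m
  g₁ := Y.g₁ ^ m
  g₂ := Y.g₂ ^ m
  f₂₀ := pow_mem Y.f₂₀ m
  f₁₁ := pow_mem Y.f₁₁ m
  f₀₂ := pow_mem Y.f₀₂ m
  r₂₀_ne := by
    rw [red_pow X.W₂₀ X.r₂₀ Y.f₂₀ m]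
    exact pow_ne_zero m Y.r₂₀_ne
  r₁₁_ne := by
    rw [red_pow X.W₁₁ X.r₁₁ Y.f₁₁ m]
    exact pow_ne_zero m Y.r₁₁_ne
  r₀₂_ne := by
    rw [red_pow X.W₀₂ X.r₀₂ Y.f₀₂ m]
    exact pow_ne_zero m Y.r₀₂_ne
  norm₁ := by rw [map_pow, Y.norm₁, ← pow_mul, mul_comm, pow_mul]
  norm₂ := by rw [map_pow, Y.norm₂, ← pow_mul, mul_comm, pow_mul]

theorem r₂₀_pow (m : ℕ) :
    X.r₂₀ ⟨(Y.pow m).f, (Y.pow m).f₂₀⟩ = X.r₂₀ ⟨Y.f, Y.f₂₀⟩ ^ m :=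
  red_pow X.W₂₀ X.r₂₀ Y.f₂₀ m _

theorem r₁₁_pow (m : ℕ) :
    X.r₁₁ ⟨(Y.pow m).f, (Y.pow m).f₁₁⟩ = X.r₁₁ ⟨Y.f, Y.f₁₁⟩ ^ m :=
  red_pow X.W₁₁ X.r₁₁ Y.f₁₁ m _

theorem r₀₂_pow (m : ℕ) :
    X.r₀₂ ⟨(Y.pow m).f, (Y.pow m).f₀₂⟩ = X.r₀₂ ⟨Y.f, Y.f₀₂⟩ ^ m :=
  red_pow X.W₀₂ X.r₀₂ Y.f₀₂ m _

/-- `n`-th roots of the three reductions of `f` (available after replacing `f` by `f ^ (q - 1)`,
by `exists_roots`) -/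
structure Roots where
  a₂₀ : κ
  a₁₁ : κ
  a₀₂ : κ
  h₂₀ : a₂₀ ^ n = X.r₂₀ ⟨Y.f, Y.f₂₀⟩
  h₁₁ : a₁₁ ^ n = X.r₁₁ ⟨Y.f, Y.f₁₁⟩
  h₀₂ : a₀₂ ^ n = X.r₀₂ ⟨Y.f, Y.f₀₂⟩

variable {Y}

theorem Roots.a₂₀_ne (R : Y.Roots) (hn : n ≠ 0) : R.a₂₀ ≠ 0 := fun h =>
  Y.r₂₀_ne (by rw [← R.h₂₀, h, zero_pow hn])

theorem Roots.a₁₁_ne (R : Y.Roots) (hn : n ≠ 0) : R.a₁₁ ≠ 0 := fun h =>
  Y.r₁₁_ne (by rw [← R.h₁₁, h, zero_pow hn])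

theorem Roots.a₀₂_ne (R : Y.Roots) (hn : n ≠ 0) : R.a₀₂ ≠ 0 := fun h =>
  Y.r₀₂_ne (by rw [← R.h₀₂, h, zero_pow hn])


/-- **(A), in the form used by (A′)**: the three reductions of `f ^ (q - 1)` have `n`-th roots -/
theorem nonempty_roots_pow (Y : X.Kummer n) (hn : n ≠ 0) (hnq : Nat.Coprime n X.q) :
    Nonempty (Y.pow (X.q - 1)).Roots := by
  obtain ⟨a₂₀, a₁₁, a₀₂, h₂₀, h₁₁, h₀₂⟩ := Y.exists_roots hn hnq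
  refine ⟨⟨a₂₀ ^ (X.q - 1), a₁₁, a₀₂ ^ (X.q - 1), ?_, ?_, ?_⟩⟩
  · rw [Y.r₂₀_pow, ← h₂₀, ← pow_mul, ← pow_mul, mul_comm]
  · rw [Y.r₁₁_pow, h₁₁]
  · rw [Y.r₀₂_pow, ← h₀₂, ← pow_mul, ← pow_mul, mul_comm]

/-- **the four gluing constants** of `(f, g₁, g₂, a_W)`: `n`-th roots of unity of `k` -/
structure Constants (R : Y.Roots) (hn : n ≠ 0) where
  G₁ : k
  G₂ : k
  G₁' : k
  G₂' : k
  G₁_pow : G₁ ^ n = 1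
  G₂_pow : G₂ ^ n = 1
  G₁'_pow : G₁' ^ n = 1
  G₂'_pow : G₂' ^ n = 1
  red₁_g₁ : X.red₁ ⟨Y.g₁, Y.g₁_mem_V₁ hn⟩
    = algebraMap k κ G₁ * (R.a₂₀ * R.a₁₁ ^ (X.q - 1))
  red₂_g₁ : X.φ (X.red₂ ⟨Y.g₁, Y.g₁_mem_V₂ hn⟩) = algebraMap k κ G₂ * R.a₀₂ ^ X.q
  red₁_g₂ : X.φ (X.red₁ ⟨Y.g₂, Y.g₂_mem_V₁ hn⟩) = algebraMap k κ G₁' * R.a₂₀ ^ X.q
  red₂_g₂ : X.red₂ ⟨Y.g₂, Y.g₂_mem_V₂ hn⟩
    = algebraMap k κ G₂' * (R.a₁₁ ^ (X.q - 1) * R.a₀₂)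

/-- the gluing constants exist as soon as the `n`-th roots of unity of `κ` are constants -/
theorem exists_constants (R : Y.Roots) (hn : n ≠ 0)
    (hμ : ∀ z : κ, z ^ n = 1 → ∃ c : k, algebraMap k κ c = z) : Nonempty (Constants R hn) := by
  obtain ⟨G₁, hG₁, e₁⟩ := exists_const_mul hμ
    (mul_ne_zero (R.a₂₀_ne hn) (pow_ne_zero (X.q - 1) (R.a₁₁_ne hn)))
    (show X.red₁ ⟨Y.g₁, Y.g₁_mem_V₁ hn⟩ ^ n = (R.a₂₀ * R.a₁₁ ^ (X.q - 1)) ^ n by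
      rw [Y.red₁_g₁_pow hn, mul_pow, ← pow_mul, mul_comm (X.q - 1) n, pow_mul, R.h₂₀, R.h₁₁])
  obtain ⟨G₂, hG₂, e₂⟩ := exists_const_mul hμ (pow_ne_zero X.q (R.a₀₂_ne hn))
    (show X.φ (X.red₂ ⟨Y.g₁, Y.g₁_mem_V₂ hn⟩) ^ n = (R.a₀₂ ^ X.q) ^ n by
      rw [Y.red₂_g₁_pow hn, ← pow_mul, mul_comm X.q n, pow_mul, R.h₀₂])
  obtain ⟨G₁', hG₁', e₁'⟩ := exists_const_mul hμ (pow_ne_zero X.q (R.a₂₀_ne hn))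
    (show X.φ (X.red₁ ⟨Y.g₂, Y.g₂_mem_V₁ hn⟩) ^ n = (R.a₂₀ ^ X.q) ^ n by
      rw [Y.red₁_g₂_pow hn, ← pow_mul, mul_comm X.q n, pow_mul, R.h₂₀])
  obtain ⟨G₂', hG₂', e₂'⟩ := exists_const_mul hμ
    (mul_ne_zero (pow_ne_zero (X.q - 1) (R.a₁₁_ne hn)) (R.a₀₂_ne hn))
    (show X.red₂ ⟨Y.g₂, Y.g₂_mem_V₂ hn⟩ ^ n = (R.a₁₁ ^ (X.q - 1) * R.a₀₂) ^ n by
      rw [Y.red₂_g₂_pow hn, mul_pow, ← pow_mul, mul_comm (X.q - 1) n, pow_mul, R.h₁₁, R.h₀₂])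
  exact ⟨⟨G₁, G₂, G₁', G₂', hG₁, hG₂, hG₁', hG₂', e₁, e₂, e₁', e₂'⟩⟩

/-- **(A′), the two relations.**  For every `t` (in the three `W`) such that `g₁ N₁ t` and `g₂ N₂ t`
are regular at the bad points of level `q M''`, and every supersingular place `b` at which the
three functions `h_W = a_W r_W(t)` have values `c₂₀ c₁₁ c₀₂`. -/
theorem relations {R : Y.Roots} {hn : n ≠ 0} (C : Constants R hn) {t : F} (t₂₀ : t ∈ X.W₂₀)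
    (t₁₁ : t ∈ X.W₁₁) (t₀₂ : t ∈ X.W₀₂) (hR₁ : X.Reg (Y.g₁ * X.N₁ t))
    (hR₂ : X.Reg (Y.g₂ * X.N₂ t)) {b : Pt} (hb : b ∈ X.S) (hfb : X.fr b ∈ X.S) {c₂₀ c₁₁ c₀₂ : k}
    (v₂₀ : X.E.val b (R.a₂₀ * X.r₂₀ ⟨t, t₂₀⟩) c₂₀) (v₁₁ : X.E.val b (R.a₁₁ * X.r₁₁ ⟨t, t₁₁⟩) c₁₁)
    (v₀₂ : X.E.val b (R.a₀₂ * X.r₀₂ ⟨t, t₀₂⟩) c₀₂) :
    C.G₁ * (c₂₀ * c₁₁ ^ (X.q - 1)) = C.G₂ * c₀₂ ^ X.q ∧
      C.G₁' * c₂₀ ^ X.q = C.G₂' * (c₁₁ ^ (X.q - 1) * c₀₂) := by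
  constructor
  · -- the node `π₁ (x_b) = e_(fr b) = (b on V₁, fr b on V₂)`
    obtain ⟨mt₁, ht₁⟩ := X.norm₁_V₁ t t₂₀ t₁₁ t₀₂
    obtain ⟨mt₂, ht₂⟩ := X.norm₁_V₂ t t₂₀ t₁₁ t₀₂
    have m₁ : Y.g₁ * X.N₁ t ∈ X.V₁ := X.V₁.mul_mem _ _ (Y.g₁_mem_V₁ hn) mt₁
    have m₂ : Y.g₁ * X.N₁ t ∈ X.V₂ := X.V₂.mul_mem _ _ (Y.g₁_mem_V₂ hn) mt₂
    obtain ⟨γ, hγ₁, hγ₂⟩ := X.glue _ m₁ m₂ hR₁ (X.fr b) hfb
    rw [X.fr_fr b hb] at hγ₁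
    have hγ₂' := X.val_fr b _ γ hγ₂
    have e₁ : X.red₁ ⟨Y.g₁ * X.N₁ t, m₁⟩ = algebraMap k κ C.G₁ *
        ((R.a₂₀ * X.r₂₀ ⟨t, t₂₀⟩) * (R.a₁₁ * X.r₁₁ ⟨t, t₁₁⟩) ^ (X.q - 1)) := by
      rw [red_mul X.V₁ X.red₁ (Y.g₁_mem_V₁ hn) mt₁, C.red₁_g₁, ht₁]
      ring
    have e₂ : X.φ (X.red₂ ⟨Y.g₁ * X.N₁ t, m₂⟩) = algebraMap k κ C.G₂ *
        (R.a₀₂ * X.r₀₂ ⟨t, t₀₂⟩) ^ X.q := by
      rw [red_mul X.V₂ X.red₂ (Y.g₁_mem_V₂ hn) mt₂, map_mul, C.red₂_g₁, ht₂]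
      ring
    rw [e₁] at hγ₁
    rw [e₂] at hγ₂'
    have h1 := X.E.val_unique b _ _ _ hγ₁ (X.E.val_mul b _ _ _ _ (X.E.val_const b C.G₁)
      (X.E.val_mul b _ _ _ _ v₂₀ (X.E.val_pow b v₁₁ (X.q - 1))))
    have h2 := X.E.val_unique b _ _ _ hγ₂' (X.E.val_mul b _ _ _ _ (X.E.val_const b C.G₂)
      (X.E.val_pow b v₀₂ X.q))
    rw [← h1, ← h2]
  · -- the node `π₂ (x_b) = e_b = (fr b on V₁, b on V₂)`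
    obtain ⟨mt₁, ht₁⟩ := X.norm₂_V₁ t t₂₀ t₁₁ t₀₂
    obtain ⟨mt₂, ht₂⟩ := X.norm₂_V₂ t t₂₀ t₁₁ t₀₂
    have m₁ : Y.g₂ * X.N₂ t ∈ X.V₁ := X.V₁.mul_mem _ _ (Y.g₂_mem_V₁ hn) mt₁
    have m₂ : Y.g₂ * X.N₂ t ∈ X.V₂ := X.V₂.mul_mem _ _ (Y.g₂_mem_V₂ hn) mt₂
    obtain ⟨γ, hγ₁, hγ₂⟩ := X.glue _ m₁ m₂ hR₂ b hb
    have hγ₁' := X.val_fr b _ γ hγ₁
    have e₁ : X.φ (X.red₁ ⟨Y.g₂ * X.N₂ t, m₁⟩) = algebraMap k κ C.G₁' *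
        (R.a₂₀ * X.r₂₀ ⟨t, t₂₀⟩) ^ X.q := by
      rw [red_mul X.V₁ X.red₁ (Y.g₂_mem_V₁ hn) mt₁, map_mul, C.red₁_g₂, ht₁]
      ring
    have e₂ : X.red₂ ⟨Y.g₂ * X.N₂ t, m₂⟩ = algebraMap k κ C.G₂' *
        ((R.a₁₁ * X.r₁₁ ⟨t, t₁₁⟩) ^ (X.q - 1) * (R.a₀₂ * X.r₀₂ ⟨t, t₀₂⟩)) := by
      rw [red_mul X.V₂ X.red₂ (Y.g₂_mem_V₂ hn) mt₂, C.red₂_g₂, ht₂]
      ring
    rw [e₁] at hγ₁'
    rw [e₂] at hγ₂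
    have h1 := X.E.val_unique b _ _ _ hγ₁' (X.E.val_mul b _ _ _ _ (X.E.val_const b C.G₁')
      (X.E.val_pow b v₂₀ X.q))
    have h2 := X.E.val_unique b _ _ _ hγ₂ (X.E.val_mul b _ _ _ _ (X.E.val_const b C.G₂')
      (X.E.val_mul b _ _ _ _ (X.E.val_pow b v₁₁ (X.q - 1)) v₀₂))
    rw [← h1, ← h2]

/-- **(A′), ratio form.**  The `(q² - 1)`-th powers of the three values are proportional, with
factors `A`, `B ∈ μ_n(k)` that depend neither on `t` nor on the point. -/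
theorem exists_ratio {R : Y.Roots} {hn : n ≠ 0} (C : Constants R hn) (hq : 0 < X.q) :
    ∃ A B : k, A ^ n = 1 ∧ B ^ n = 1 ∧
      ∀ {t : F} (t₂₀ : t ∈ X.W₂₀) (t₁₁ : t ∈ X.W₁₁) (t₀₂ : t ∈ X.W₀₂),
        X.Reg (Y.g₁ * X.N₁ t) → X.Reg (Y.g₂ * X.N₂ t) → ∀ {b : Pt}, b ∈ X.S → X.fr b ∈ X.S →
        ∀ {c₂₀ c₁₁ c₀₂ : k}, X.E.val b (R.a₂₀ * X.r₂₀ ⟨t, t₂₀⟩) c₂₀ →
          X.E.val b (R.a₁₁ * X.r₁₁ ⟨t, t₁₁⟩) c₁₁ → X.E.val b (R.a₀₂ * X.r₀₂ ⟨t, t₀₂⟩) c₀₂ →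
          c₁₁ ≠ 0 → c₀₂ ≠ 0 →
          c₂₀ ^ (X.q ^ 2 - 1) = A * c₀₂ ^ (X.q ^ 2 - 1) ∧
            c₁₁ ^ (X.q ^ 2 - 1) = B * c₀₂ ^ (X.q ^ 2 - 1) := by
  have hG₁ := ne_zero_of_pow_eq_one hn C.G₁_pow
  have hG₂ := ne_zero_of_pow_eq_one hn C.G₂_pow
  have hG₁' := ne_zero_of_pow_eq_one hn C.G₁'_pow
  have hG₂' := ne_zero_of_pow_eq_one hn C.G₂'_pow
  have hu : (C.G₂ * C.G₂' / (C.G₁ * C.G₁')) ^ n = 1 := by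
    rw [div_pow, mul_pow, mul_pow, C.G₁_pow, C.G₂_pow, C.G₁'_pow, C.G₂'_pow, one_mul, div_one]
  have hexp : X.q ^ 2 - 1 = (X.q - 1) * (X.q - 1 + 2) := by
    obtain ⟨e, he⟩ : ∃ e, X.q = e + 1 := ⟨X.q - 1, by omega⟩
    rw [he, Nat.add_sub_cancel]
    have : (e + 1) ^ 2 = e * (e + 2) + 1 := by ring
    rw [this, Nat.add_sub_cancel]
  have hq' : X.q - 1 + 1 = X.q := Nat.sub_add_cancel hq
  refine ⟨(C.G₂ * C.G₂' / (C.G₁ * C.G₁')) ^ (X.q - 1),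
    C.G₂ ^ (X.q - 1 + 2) / (C.G₁ ^ (X.q - 1 + 2) * (C.G₂ * C.G₂' / (C.G₁ * C.G₁'))), ?_, ?_, ?_⟩
  · rw [← pow_mul, Nat.mul_comm, pow_mul, hu, one_pow]
  · rw [div_pow, mul_pow, ← pow_mul, ← pow_mul, Nat.mul_comm _ n, pow_mul, pow_mul, C.G₁_pow,
      C.G₂_pow, hu]
    simp
  · intro t t₂₀ t₁₁ t₀₂ hR₁ hR₂ b hb hfb c₂₀ c₁₁ c₀₂ v₂₀ v₁₁ v₀₂ hc₁₁ hc₀₂
    obtain ⟨R1, R2⟩ := relations C t₂₀ t₁₁ t₀₂ hR₁ hR₂ hb hfb v₂₀ v₁₁ v₀₂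
    rw [hexp]
    refine ratio_of_relations hG₁ hG₂ hG₁' hG₂' hc₁₁ hc₀₂ ?_ ?_
    · rw [hq']
      exact R1
    · rw [hq']
      exact R2

/-- **(A′), base-point form.**  If at ONE pair `(t₀, b₀)` the three values have the same `n`-th
power (the function `f t₀ ^ n` is a unit at the triple point over `b₀`), then after multiplying
`a₂₀`, `a₁₁` by suitable `n`-th roots of unity `ζ₂₀`, `ζ₁₁` of `k` the `(q² - 1)`-th powers of the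
three values agree at EVERY pair `(t, b)`. -/
theorem exists_normalisation {R : Y.Roots} {hn : n ≠ 0} (C : Constants R hn) (hq : 0 < X.q)
    {t₀ : F} (s₂₀ : t₀ ∈ X.W₂₀) (s₁₁ : t₀ ∈ X.W₁₁) (s₀₂ : t₀ ∈ X.W₀₂)
    (hS₁ : X.Reg (Y.g₁ * X.N₁ t₀)) (hS₂ : X.Reg (Y.g₂ * X.N₂ t₀)) {b₀ : Pt} (hb₀ : b₀ ∈ X.S)
    (hfb₀ : X.fr b₀ ∈ X.S)
    {d₂₀ d₁₁ d₀₂ : k} (w₂₀ : X.E.val b₀ (R.a₂₀ * X.r₂₀ ⟨t₀, s₂₀⟩) d₂₀)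
    (w₁₁ : X.E.val b₀ (R.a₁₁ * X.r₁₁ ⟨t₀, s₁₁⟩) d₁₁)
    (w₀₂ : X.E.val b₀ (R.a₀₂ * X.r₀₂ ⟨t₀, s₀₂⟩) d₀₂) (hd₀₂ : d₀₂ ≠ 0)
    (e₂₀ : d₂₀ ^ n = d₀₂ ^ n) (e₁₁ : d₁₁ ^ n = d₀₂ ^ n) :
    ∃ ζ₂₀ ζ₁₁ : k, ζ₂₀ ^ n = 1 ∧ ζ₁₁ ^ n = 1 ∧
      ∀ {t : F} (t₂₀ : t ∈ X.W₂₀) (t₁₁ : t ∈ X.W₁₁) (t₀₂ : t ∈ X.W₀₂),
        X.Reg (Y.g₁ * X.N₁ t) → X.Reg (Y.g₂ * X.N₂ t) → ∀ {b : Pt}, b ∈ X.S → X.fr b ∈ X.S →
        ∀ {c₂₀ c₁₁ c₀₂ : k}, X.E.val b (R.a₂₀ * X.r₂₀ ⟨t, t₂₀⟩) c₂₀ →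
          X.E.val b (R.a₁₁ * X.r₁₁ ⟨t, t₁₁⟩) c₁₁ → X.E.val b (R.a₀₂ * X.r₀₂ ⟨t, t₀₂⟩) c₀₂ →
          c₁₁ ≠ 0 → c₀₂ ≠ 0 →
          (ζ₂₀ * c₂₀) ^ (X.q ^ 2 - 1) = c₀₂ ^ (X.q ^ 2 - 1) ∧
            (ζ₁₁ * c₁₁) ^ (X.q ^ 2 - 1) = c₀₂ ^ (X.q ^ 2 - 1) := by
  obtain ⟨A, B, -, -, hAB⟩ := exists_ratio C hq
  have hd₀₂n : d₀₂ ^ n ≠ 0 := pow_ne_zero n hd₀₂
  have hd₂₀ : d₂₀ ≠ 0 := fun h => hd₀₂n (by rw [← e₂₀, h, zero_pow hn])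
  have hd₁₁ : d₁₁ ≠ 0 := fun h => hd₀₂n (by rw [← e₁₁, h, zero_pow hn])
  obtain ⟨hA, hB⟩ := hAB s₂₀ s₁₁ s₀₂ hS₁ hS₂ hb₀ hfb₀ w₂₀ w₁₁ w₀₂ hd₁₁ hd₀₂
  refine ⟨d₀₂ / d₂₀, d₀₂ / d₁₁, ?_, ?_, ?_⟩
  · rw [div_pow, e₂₀, div_self hd₀₂n]
  · rw [div_pow, e₁₁, div_self hd₀₂n]
  · intro t t₂₀ t₁₁ t₀₂ hR₁ hR₂ b hb hfb c₂₀ c₁₁ c₀₂ v₂₀ v₁₁ v₀₂ hc₁₁ hc₀₂
    obtain ⟨h1, h2⟩ := hAB t₂₀ t₁₁ t₀₂ hR₁ hR₂ hb hfb v₂₀ v₁₁ v₀₂ hc₁₁ hc₀₂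
    have hpow : ∀ {d : k}, d ≠ 0 → ∀ {Z : k}, d ^ (X.q ^ 2 - 1) = Z * d₀₂ ^ (X.q ^ 2 - 1) →
        (d₀₂ / d) ^ (X.q ^ 2 - 1) * Z = 1 := by
      intro d hd Z hZ
      rw [div_pow, div_mul_eq_mul_div, div_eq_one_iff_eq (pow_ne_zero _ hd), hZ, mul_comm]
    constructor
    · rw [mul_pow, h1, ← mul_assoc, hpow hd₂₀ hA, one_mul]
    · rw [mul_pow, h2, ← mul_assoc, hpow hd₁₁ hB, one_mul]

end Kummer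

end Datum

end Fermat.Agent.S36.GlueNorm
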