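import Mathlib
import Fermat.Agent.S36.GlueNorm

/-!
# PROJECT V (S36), chain (V17), layer 2: the normalised roots at the triple points

Mathlib + `S36/GlueNorm`.  `X : GlueNorm.Datum`, `Y : X.Kummer n` a Kummer function (`f` a unit at
`W₂₀ W₁₁ W₀₂`, `N₁ f = g₁ ^ n`, `N₂ f = g₂ ^ n`), `n` prime to `q`.

`ValGood E n` : three closure properties of the system of evaluations `E` (differences, division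
by a function with nonzero value, `n`-th roots) which hold for the places of a function field over
an algebraically closed field.

`exists_normalised_roots` : let `t₀` be ONE function (in the three `W`) such that
`g₁ ^ (q - 1) * N₁ t₀` and `g₂ ^ (q - 1) * N₂ t₀` are regular at the bad points of level `q M''`,
and such that `v₀ = f ^ (q - 1) * t₀ ^ n` has at every `b ∈ S` the same nonzero value on the three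
branches (`t₀` generates `𝒪(D)`, `n D = div f ^ (q - 1)`, at all points over the non-generic
discs and at the triple points).  Then there are `A₂₀ A₁₁ A₀₂ : κ` with
`A_W ^ n = r_W (f ^ ((q - 1) (q² - 1)))` such that at EVERY `b ∈ S` the three functions
`A_W * r_W (t₀ ^ (q² - 1))` have the same nonzero value.

This is (A) + (A′) of the chain in the form consumed by the assembly: `A_W` is the root of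
`f ^ ((q - 1) (q² - 1))` on the reduced special fibre, in the trivialisation `t₀ ^ (q² - 1)`.
-/

set_option autoImplicit false

namespace Fermat.Agent.S36.TripleValues

open Fermat.Agent.S36.GlueNorm

variable {k κ Pt : Type*} [Field k] [Field κ] [Algebra k κ]

/-- closure properties of a system of evaluations -/
structure ValGood (E : ValSystem k κ Pt) (n : ℕ) : Prop where
  val_sub : ∀ (b : Pt) (z z' : κ) (c c' : k), E.val b z c → E.val b z' c' →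
    E.val b (z - z') (c - c')
  val_div : ∀ (b : Pt) (z z' : κ) (d c' : k), E.val b (z * z') d → E.val b z' c' → c' ≠ 0 →
    E.val b z (d / c')
  val_root : ∀ (b : Pt) (z : κ) (c : k), E.val b (z ^ n) c → c ≠ 0 → ∃ d : k, E.val b z d

namespace ValGood

variable {E : ValSystem k κ Pt} {n : ℕ} (hE : ValGood E n)
include hE

omit hE in
theorem val_zero (E : ValSystem k κ Pt) (b : Pt) : E.val b (0 : κ) 0 := by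
  have := E.val_const b 0
  rwa [map_zero] at this

theorem val_add {b : Pt} {z z' : κ} {c c' : k} (h : E.val b z c) (h' : E.val b z' c') :
    E.val b (z + z') (c + c') := by
  have h1 := hE.val_sub b _ _ _ _ (val_zero E b) h'
  have h2 := hE.val_sub b _ _ _ _ h h1
  rwa [zero_sub, zero_sub, sub_neg_eq_add, sub_neg_eq_add] at h2

/-- the inverse of a function with nonzero value -/
theorem val_inv {b : Pt} {z : κ} {c : k} (h : E.val b z c) (hc : c ≠ 0) :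
    E.val b z⁻¹ c⁻¹ := by
  have hz : z ≠ 0 := by
    rintro rfl
    exact hc (E.val_unique b _ _ _ h (val_zero E b))
  have h1 : E.val b (z⁻¹ * z) 1 := by
    rw [inv_mul_cancel₀ hz]
    exact E.val_one b
  have := hE.val_div b _ _ _ _ h1 h hc
  rwa [one_div] at this

/-- an `n`-th root of a function with nonzero value has a nonzero value -/
theorem exists_val_of_pow (hn : n ≠ 0) {b : Pt} {z : κ} {c : k} (h : E.val b (z ^ n) c)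
    (hc : c ≠ 0) : ∃ d : k, d ≠ 0 ∧ d ^ n = c ∧ E.val b z d := by
  obtain ⟨d, hd⟩ := hE.val_root b z c h hc
  have hdn : d ^ n = c := E.val_unique b _ _ _ (E.val_pow b hd n) h
  refine ⟨d, ?_, hdn, hd⟩
  rintro rfl
  rw [zero_pow hn] at hdn
  exact hc hdn.symm

end ValGood

variable {F' F : Type*} [Field F'] [Field F]

/-- one branch: the root of `r f` times `r t` has a value whose `n`-th power is the value of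
`r (f * t ^ n)` -/
theorem exists_val_root {E : ValSystem k κ Pt} {n : ℕ} (hE : ValGood E n) (hn : n ≠ 0)
    (W : ValuationSubring F) (r : ↥W →+* κ) {f t : F} (hf : f ∈ W) (ht : t ∈ W) {a : κ}
    (ha : a ^ n = r ⟨f, hf⟩) {b : Pt} {c : k}
    (hv : E.val b (r ⟨f * t ^ n, W.mul_mem _ _ hf (pow_mem ht n)⟩) c) (hc : c ≠ 0) :
    ∃ d : k, d ≠ 0 ∧ d ^ n = c ∧ E.val b (a * r ⟨t, ht⟩) d := by
  refine hE.exists_val_of_pow hn ?_ hc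
  have h1 : (a * r ⟨t, ht⟩) ^ n = r ⟨f * t ^ n, W.mul_mem _ _ hf (pow_mem ht n)⟩ := by
    rw [mul_pow, ha, ← map_pow, ← map_mul]
    rfl
  rw [h1]
  exact hv

/-- one branch: the value of `(ζ a) ^ m * r (t ^ m)` -/
theorem val_normalised {E : ValSystem k κ Pt} (W : ValuationSubring F) (r : ↥W →+* κ) {t : F}
    (ht : t ∈ W) {a : κ} {b : Pt} {d : k} (hv : E.val b (a * r ⟨t, ht⟩) d) (ζ : k) (m : ℕ) :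
    E.val b ((algebraMap k κ ζ * a) ^ m * r ⟨t ^ m, pow_mem ht m⟩) ((ζ * d) ^ m) := by
  have h1 : (algebraMap k κ ζ * a) ^ m * r ⟨t ^ m, pow_mem ht m⟩
      = (algebraMap k κ ζ * (a * r ⟨t, ht⟩)) ^ m := by
    rw [mul_pow, mul_pow, mul_pow, ← map_pow r, mul_assoc]
    rfl
  rw [h1]
  exact E.val_pow b (E.val_mul b _ _ _ _ (E.val_const b ζ) hv) m

set_option maxHeartbeats 800000 in
/-- **(A) + (A′), assembled.** -/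
theorem exists_normalised_roots (X : Datum k κ F' F Pt) {n : ℕ} (hn : n ≠ 0)
    (hnq : Nat.Coprime n X.q) (hq : 0 < X.q)
    (hμ : ∀ z : κ, z ^ n = 1 → ∃ c : k, algebraMap k κ c = z) (hE : ValGood X.E n)
    (Y : X.Kummer n) (hS : ∀ b ∈ X.S, X.fr b ∈ X.S) {t₀ : F} (t₂₀ : t₀ ∈ X.W₂₀)
    (t₁₁ : t₀ ∈ X.W₁₁) (t₀₂ : t₀ ∈ X.W₀₂)
    (hR₁ : X.Reg (Y.g₁ ^ (X.q - 1) * X.N₁ t₀)) (hR₂ : X.Reg (Y.g₂ ^ (X.q - 1) * X.N₂ t₀))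
    (hv₀ : ∀ b ∈ X.S, ∃ c : k, c ≠ 0 ∧
      (∀ m, X.E.val b (X.r₂₀ ⟨Y.f ^ (X.q - 1) * t₀ ^ n, m⟩) c) ∧
      (∀ m, X.E.val b (X.r₁₁ ⟨Y.f ^ (X.q - 1) * t₀ ^ n, m⟩) c) ∧
      (∀ m, X.E.val b (X.r₀₂ ⟨Y.f ^ (X.q - 1) * t₀ ^ n, m⟩) c)) :
    ∃ A₂₀ A₁₁ A₀₂ : κ,
      A₂₀ ^ n = X.r₂₀ ⟨Y.f ^ ((X.q - 1) * (X.q ^ 2 - 1)), pow_mem Y.f₂₀ _⟩ ∧
      A₁₁ ^ n = X.r₁₁ ⟨Y.f ^ ((X.q - 1) * (X.q ^ 2 - 1)), pow_mem Y.f₁₁ _⟩ ∧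
      A₀₂ ^ n = X.r₀₂ ⟨Y.f ^ ((X.q - 1) * (X.q ^ 2 - 1)), pow_mem Y.f₀₂ _⟩ ∧
      ∀ b ∈ X.S, ∃ d : k, d ≠ 0 ∧
        X.E.val b (A₂₀ * X.r₂₀ ⟨t₀ ^ (X.q ^ 2 - 1), pow_mem t₂₀ _⟩) d ∧
        X.E.val b (A₁₁ * X.r₁₁ ⟨t₀ ^ (X.q ^ 2 - 1), pow_mem t₁₁ _⟩) d ∧
        X.E.val b (A₀₂ * X.r₀₂ ⟨t₀ ^ (X.q ^ 2 - 1), pow_mem t₀₂ _⟩) d := by
  classical
  obtain ⟨R⟩ := Y.nonempty_roots_pow hn hnq
  obtain ⟨C⟩ := Datum.Kummer.exists_constants R hn hμ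
  -- the values of the three roots in the trivialisation `t₀`
  have hvals : ∀ b ∈ X.S, ∃ d₂₀ d₁₁ d₀₂ : k, d₂₀ ≠ 0 ∧ d₁₁ ≠ 0 ∧ d₀₂ ≠ 0 ∧
      d₂₀ ^ n = d₀₂ ^ n ∧ d₁₁ ^ n = d₀₂ ^ n ∧
      X.E.val b (R.a₂₀ * X.r₂₀ ⟨t₀, t₂₀⟩) d₂₀ ∧ X.E.val b (R.a₁₁ * X.r₁₁ ⟨t₀, t₁₁⟩) d₁₁ ∧
      X.E.val b (R.a₀₂ * X.r₀₂ ⟨t₀, t₀₂⟩) d₀₂ := by
    intro b hb
    obtain ⟨c, hc, h₂₀, h₁₁, h₀₂⟩ := hv₀ b hb
    obtain ⟨d₂₀, hd₂₀, e₂₀, v₂₀⟩ := exists_val_root hE hn X.W₂₀ X.r₂₀ (Y.pow (X.q - 1)).f₂₀ t₂₀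
      R.h₂₀ (h₂₀ _) hc
    obtain ⟨d₁₁, hd₁₁, e₁₁, v₁₁⟩ := exists_val_root hE hn X.W₁₁ X.r₁₁ (Y.pow (X.q - 1)).f₁₁ t₁₁
      R.h₁₁ (h₁₁ _) hc
    obtain ⟨d₀₂, hd₀₂, e₀₂, v₀₂⟩ := exists_val_root hE hn X.W₀₂ X.r₀₂ (Y.pow (X.q - 1)).f₀₂ t₀₂
      R.h₀₂ (h₀₂ _) hc
    exact ⟨d₂₀, d₁₁, d₀₂, hd₂₀, hd₁₁, hd₀₂, by rw [e₂₀, e₀₂], by rw [e₁₁, e₀₂], v₂₀, v₁₁, v₀₂⟩
  -- the normalising roots of unity
  have hζ : ∃ ζ₂₀ ζ₁₁ : k, ζ₂₀ ^ n = 1 ∧ ζ₁₁ ^ n = 1 ∧ ∀ b ∈ X.S, ∀ {c₂₀ c₁₁ c₀₂ : k},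
      X.E.val b (R.a₂₀ * X.r₂₀ ⟨t₀, t₂₀⟩) c₂₀ → X.E.val b (R.a₁₁ * X.r₁₁ ⟨t₀, t₁₁⟩) c₁₁ →
      X.E.val b (R.a₀₂ * X.r₀₂ ⟨t₀, t₀₂⟩) c₀₂ → c₁₁ ≠ 0 → c₀₂ ≠ 0 →
      (ζ₂₀ * c₂₀) ^ (X.q ^ 2 - 1) = c₀₂ ^ (X.q ^ 2 - 1) ∧
        (ζ₁₁ * c₁₁) ^ (X.q ^ 2 - 1) = c₀₂ ^ (X.q ^ 2 - 1) := by
    by_cases hne : ∃ b₀, b₀ ∈ X.S
    · obtain ⟨b₀, hb₀⟩ := hne
      obtain ⟨d₂₀, d₁₁, d₀₂, -, -, hd₀₂, e₂₀, e₁₁, w₂₀, w₁₁, w₀₂⟩ := hvals b₀ hb₀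
      obtain ⟨ζ₂₀, ζ₁₁, hζ₂₀, hζ₁₁, hall⟩ := Datum.Kummer.exists_normalisation C hq t₂₀ t₁₁ t₀₂
        hR₁ hR₂ hb₀ (hS b₀ hb₀) w₂₀ w₁₁ w₀₂ hd₀₂ e₂₀ e₁₁
      refine ⟨ζ₂₀, ζ₁₁, hζ₂₀, hζ₁₁, ?_⟩
      intro b hb c₂₀ c₁₁ c₀₂ v₂₀ v₁₁ v₀₂ hc₁₁ hc₀₂
      exact hall t₂₀ t₁₁ t₀₂ hR₁ hR₂ hb (hS b hb) v₂₀ v₁₁ v₀₂ hc₁₁ hc₀₂
    · exact ⟨1, 1, one_pow n, one_pow n, fun b hb => absurd ⟨b, hb⟩ hne⟩
  obtain ⟨ζ₂₀, ζ₁₁, hζ₂₀, hζ₁₁, hall⟩ := hζ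
  -- the `n`-th powers
  have hpow : ∀ (W : ValuationSubring F) (r : ↥W →+* κ) (hf : Y.f ∈ W) (a : κ) (ζ : k),
      ζ ^ n = 1 → a ^ n = r ⟨Y.f ^ (X.q - 1), pow_mem hf _⟩ →
      ((algebraMap k κ ζ * a) ^ (X.q ^ 2 - 1)) ^ n
        = r ⟨Y.f ^ ((X.q - 1) * (X.q ^ 2 - 1)), pow_mem hf _⟩ := by
    intro W r hf a ζ hζ ha
    rw [← pow_mul, mul_comm (X.q ^ 2 - 1) n, pow_mul, mul_pow, ← map_pow, hζ, map_one, one_mul, ha,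
      ← map_pow]
    congr 1
    apply Subtype.ext
    rw [SubmonoidClass.coe_pow, ← pow_mul]
  refine ⟨(algebraMap k κ ζ₂₀ * R.a₂₀) ^ (X.q ^ 2 - 1), (algebraMap k κ ζ₁₁ * R.a₁₁) ^ (X.q ^ 2 - 1),
    (algebraMap k κ 1 * R.a₀₂) ^ (X.q ^ 2 - 1), hpow X.W₂₀ X.r₂₀ Y.f₂₀ _ _ hζ₂₀ R.h₂₀,
    hpow X.W₁₁ X.r₁₁ Y.f₁₁ _ _ hζ₁₁ R.h₁₁, hpow X.W₀₂ X.r₀₂ Y.f₀₂ _ _ (one_pow n) R.h₀₂, ?_⟩
  intro b hb
  obtain ⟨d₂₀, d₁₁, d₀₂, -, hd₁₁, hd₀₂, -, -, v₂₀, v₁₁, v₀₂⟩ := hvals b hb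
  obtain ⟨h1, h2⟩ := hall b hb v₂₀ v₁₁ v₀₂ hd₁₁ hd₀₂
  refine ⟨d₀₂ ^ (X.q ^ 2 - 1), pow_ne_zero _ hd₀₂, ?_, ?_, ?_⟩
  · rw [← h1]
    exact val_normalised X.W₂₀ X.r₂₀ t₂₀ v₂₀ ζ₂₀ _
  · rw [← h2]
    exact val_normalised X.W₁₁ X.r₁₁ t₁₁ v₁₁ ζ₁₁ _
  · have := val_normalised X.W₀₂ X.r₀₂ t₀₂ v₀₂ 1 (X.q ^ 2 - 1)
    rwa [one_mul] at this

end Fermat.Agent.S36.TripleValues
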