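import Mathlib
import Fermat.Agent.S36.OpenLift
import Fermat.Agent.S36.TripleValues

/-!
# PROJECT V (S36), chain (V17), layer 3: THE ASSEMBLY, hypotheses first

Abstract (Mathlib + `GlueNorm` + `FibreRing` + `SoftCoreInput`).  The file connects

* (V6) `GlueNorm` : the Kummer roots `a_W` on the three components and their normalisation at the
  triple points (through `TripleValues.exists_normalised_roots`),
* (V15) `FibreRing` : lifting of the branch roots to functions on the opens of the two charts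
  (through `OpenLift.exists_local_root`),
* (V16) `SoftCoreInput.exists_global_section_of_generic` : the soft core.

`X : GlueNorm.Datum k κ F' F Pt`, `C : SoftCore.Charts R0 F ι ι'`, `G : SoftCore.LocalGen C`,
`Y : X.Kummer n`, `π : R0 →+* k` the reduction of the constants.  With `e = (q - 1) (q² - 1)`,
`fE = f ^ e`, `T = t₀ ^ (q² - 1)`:

`Input X C G Y π` (the hypotheses, all in ring / valuation / evaluation language):
* global: `r_W` onto `κ` with kernel the maximal ideal, constants reduce by `π` (onto `k`),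
  `ϖ` a nonunit of the three `W`, `n` a unit of `R0` prime to `q`, `μ_n(κ) ⊆ k`, `ValGood`,
  `S` stable under `fr`;
* the common generator `t₀` (hypotheses of `TripleValues.exists_normalised_roots`);
* for every open of the two covers an `OpenData` : noetherian, `Detects`, `Separated`,
  `BranchRings`, `fE * s ^ n` a unit of the open, residue fields of the closed points of the fibre
  equal to `k`, and at every closed point of the fibre EITHER at most one branch OR a point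
  `b ∈ S` with all three branches through it, `u ∈ 𝔪 ↔ (r_W u)(b) = 0`, and `s / T` a unit at `𝔪`;
* `Detects` for the pairwise overlaps.

`exists_global_section : Input X C G Y π → C.FiniteH1 → ∃ h ≠ 0, h ∈ C.LU ∧ h ∈ C.LU'`.
-/

set_option autoImplicit false

namespace Fermat.Agent.S36.NewInertiaDatum

open Fermat.Agent.S36.FormalLift Fermat.Agent.S36.SoftCore Fermat.Agent.S36.SoftCoreInput
open Fermat.Agent.S36.GlueNorm Fermat.Agent.S36.OpenLift Fermat.Agent.S36.TripleValues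

/-- the three vertical components `C₂₀`, `C₁₁`, `C₀₂` -/
inductive Comp : Type
  | c20 : Comp
  | c11 : Comp
  | c02 : Comp

instance : DecidableEq Comp := fun a b => by
  cases a <;> cases b <;> first | exact isTrue rfl | exact isFalse (fun h => Comp.noConfusion h)

instance : Fintype Comp :=
  ⟨{Comp.c20, Comp.c11, Comp.c02}, fun x => by cases x <;> simp⟩

variable {k κ F' F Pt : Type*} [Field k] [Field κ] [Algebra k κ] [Field F'] [Field F]

/-- the three vertical valuation subrings as a family -/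
def Wof (X : Datum k κ F' F Pt) : Comp → ValuationSubring F
  | Comp.c20 => X.W₂₀
  | Comp.c11 => X.W₁₁
  | Comp.c02 => X.W₀₂

/-- the three reductions as a family -/
def rof (X : Datum k κ F' F Pt) : ∀ w : Comp, ↥(Wof X w) →+* κ
  | Comp.c20 => X.r₂₀
  | Comp.c11 => X.r₁₁
  | Comp.c02 => X.r₀₂

variable {R0 : Type*} [CommRing R0] [Algebra R0 F]

/-- **the hypotheses on one open** `S = D(g)` with local generator `s` -/
structure OpenData (X : Datum k κ F' F Pt) (π : R0 →+* k) (ϖ : F) (S : Subring F) (hϖ : ϖ ∈ S)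
    (s fE T : F) (n : ℕ) : Prop where
  noeth : IsNoetherianRing ↥S
  det : Detects (Wof X) ϖ S
  sep : Separated (Wof X) S
  br : BranchRings (Wof X) (rof X) S n
  unit_mem : fE * s ^ n ∈ S
  unit_inv : (fE * s ^ n)⁻¹ ∈ S
  /-- the residue fields of the closed points of the fibre are `k` -/
  const : ∀ 𝔪 : Ideal ↥S, 𝔪.IsMaximal → (⟨ϖ, hϖ⟩ : ↥S) ∈ 𝔪 → ∀ u : ↥S,
    ∃ (c : R0) (hc : algebraMap R0 F c ∈ S), u - ⟨algebraMap R0 F c, hc⟩ ∈ 𝔪
  /-- the closed points of the fibre: one branch, or a triple point -/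
  pt : ∀ 𝔪 : Ideal ↥S, 𝔪.IsMaximal → (⟨ϖ, hϖ⟩ : ↥S) ∈ 𝔪 →
    (∀ (w w' : Comp) (hw : S ≤ (Wof X w).toSubring) (hw' : S ≤ (Wof X w').toSubring),
      RingHom.ker (resHom S (Wof X w) (rof X w) hw) ≤ 𝔪 →
      RingHom.ker (resHom S (Wof X w') (rof X w') hw') ≤ 𝔪 → w = w') ∨
    (∃ b ∈ X.S, (∀ w : Comp, S ≤ (Wof X w).toSubring) ∧
      (∀ (w : Comp) (hw : S ≤ (Wof X w).toSubring) (u : ↥S),
        u ∈ 𝔪 ↔ X.E.val b (resHom S (Wof X w) (rof X w) hw u) 0) ∧
      ∃ u₁ u₂ : ↥S, u₁ ∉ 𝔪 ∧ u₂ ∉ 𝔪 ∧ s * (u₂ : F) = (u₁ : F) * T)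

/-- **the hypotheses of the assembly** -/
structure Input {ι ι' : Type*} (X : Datum k κ F' F Pt) (C : Charts R0 F ι ι') (G : LocalGen C)
    {n : ℕ} (Y : X.Kummer n) (π : R0 →+* k) where
  hn0 : n ≠ 0
  hnq : Nat.Coprime n X.q
  hq : 0 < X.q
  hnunit : IsUnit ((n : ℕ) : R0)
  hμ : ∀ z : κ, z ^ n = 1 → ∃ c : k, algebraMap k κ c = z
  hE : ValGood X.E n
  hS : ∀ b ∈ X.S, X.fr b ∈ X.S
  /-- the reductions -/
  hr : ∀ (w : Comp) (x : ↥(Wof X w)), rof X w x = 0 ↔ (Wof X w).valuation (x : F) < 1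
  hrsurj : ∀ w : Comp, Function.Surjective (rof X w)
  hπ : ∀ (w : Comp) (x : R0) (m : algebraMap R0 F x ∈ Wof X w),
    rof X w ⟨algebraMap R0 F x, m⟩ = algebraMap k κ (π x)
  hπsurj : Function.Surjective π
  hϖW : ∀ w : Comp, (Wof X w).valuation C.ϖF < 1
  /-- the common generator at the bad points -/
  t₀ : F
  t₂₀ : t₀ ∈ X.W₂₀
  t₁₁ : t₀ ∈ X.W₁₁
  t₀₂ : t₀ ∈ X.W₀₂
  hR₁ : X.Reg (Y.g₁ ^ (X.q - 1) * X.N₁ t₀)
  hR₂ : X.Reg (Y.g₂ ^ (X.q - 1) * X.N₂ t₀)
  hv₀ : ∀ b ∈ X.S, ∃ c : k, c ≠ 0 ∧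
    (∀ m, X.E.val b (X.r₂₀ ⟨Y.f ^ (X.q - 1) * t₀ ^ n, m⟩) c) ∧
    (∀ m, X.E.val b (X.r₁₁ ⟨Y.f ^ (X.q - 1) * t₀ ^ n, m⟩) c) ∧
    (∀ m, X.E.val b (X.r₀₂ ⟨Y.f ^ (X.q - 1) * t₀ ^ n, m⟩) c)
  /-- the opens of the two covers -/
  opn : ∀ i : ι, OpenData X π C.ϖF (C.S i) (C.algebraMap_mem_S i C.ϖ) (G.s i)
    (Y.f ^ ((X.q - 1) * (X.q ^ 2 - 1))) (t₀ ^ (X.q ^ 2 - 1)) n
  opn' : ∀ j : ι', OpenData X π C.ϖF (C.S' j) (C.algebraMap_mem_S' j C.ϖ) (G.s' j)
    (Y.f ^ ((X.q - 1) * (X.q ^ 2 - 1))) (t₀ ^ (X.q ^ 2 - 1)) n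
  /-- the overlaps -/
  det₂ : ∀ i j, Detects (Wof X) C.ϖF (C.S₂ i j)
  det₂' : ∀ i j, Detects (Wof X) C.ϖF (C.S₂' i j)
  detmix : ∀ i j, Detects (Wof X) C.ϖF (C.Smix i j)

/-! ### reductions of products, powers, inverses -/

section Red

variable (X : Datum k κ F' F Pt)

theorem rof_congr (w : Comp) {x y : F} (hx : x ∈ Wof X w) (hy : y ∈ Wof X w) (h : x = y) :
    rof X w ⟨x, hx⟩ = rof X w ⟨y, hy⟩ := by
  subst h
  rfl

theorem rof_mul (w : Comp) {x y : F} (hx : x ∈ Wof X w) (hy : y ∈ Wof X w)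
    (hxy : x * y ∈ Wof X w) : rof X w ⟨x * y, hxy⟩ = rof X w ⟨x, hx⟩ * rof X w ⟨y, hy⟩ := by
  rw [← map_mul]
  rfl

theorem rof_pow (w : Comp) {x : F} (hx : x ∈ Wof X w) (m : ℕ) (hxm : x ^ m ∈ Wof X w) :
    rof X w ⟨x ^ m, hxm⟩ = rof X w ⟨x, hx⟩ ^ m := by
  rw [← map_pow]
  rfl

theorem rof_one (w : Comp) (h1 : (1 : F) ∈ Wof X w) : rof X w ⟨1, h1⟩ = 1 :=
  map_one (rof X w)

theorem rof_sub (w : Comp) {x y : F} (hx : x ∈ Wof X w) (hy : y ∈ Wof X w)
    (hxy : x - y ∈ Wof X w) : rof X w ⟨x - y, hxy⟩ = rof X w ⟨x, hx⟩ - rof X w ⟨y, hy⟩ := by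
  rw [← map_sub]
  rfl

theorem rof_inv (w : Comp) {x : F} (hx : x ∈ Wof X w) (hx' : x⁻¹ ∈ Wof X w) (hx0 : x ≠ 0) :
    rof X w ⟨x⁻¹, hx'⟩ = (rof X w ⟨x, hx⟩)⁻¹ := by
  refine eq_inv_of_mul_eq_one_left ?_
  rw [← rof_mul X w hx' hx (by rw [inv_mul_cancel₀ hx0]; exact (Wof X w).one_mem)]
  rw [rof_congr X w _ (Wof X w).one_mem (inv_mul_cancel₀ hx0)]
  exact rof_one X w _

end Red

/-! ### valuations -/

section Val

variable (V : ValuationSubring F)

theorem val_eq_one_of_mem_of_inv_mem {x : F} (hx0 : x ≠ 0) (hx : x ∈ V) (hx' : x⁻¹ ∈ V) :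
    V.valuation x = 1 := by
  have h1 : V.valuation x ≤ 1 := (V.valuation_le_one_iff x).mpr hx
  have h2 : V.valuation x⁻¹ ≤ 1 := (V.valuation_le_one_iff x⁻¹).mpr hx'
  have hv0 : V.valuation x ≠ 0 := (Valuation.ne_zero_iff _).mpr hx0
  rw [map_inv₀] at h2
  exact le_antisymm h1 ((inv_le_one₀ (zero_lt_iff.mpr hv0)).mp h2)

theorem val_eq_one_of_pow {x : F} {n : ℕ} (hn : n ≠ 0) (h : V.valuation x ^ n = 1) :
    V.valuation x = 1 :=
  (pow_eq_one_iff_of_nonneg zero_le hn).mp h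

theorem mem_of_val_eq_one {x : F} (h : V.valuation x = 1) : x ∈ V :=
  (V.valuation_le_one_iff x).mp h.le

theorem inv_mem_of_val_eq_one {x : F} (h : V.valuation x = 1) : x⁻¹ ∈ V := by
  rw [← V.valuation_le_one_iff, map_inv₀, h, inv_one]

end Val

/-! ### one open -/

section Open

variable {X : Datum k κ F' F Pt} {π : R0 →+* k}

set_option maxHeartbeats 1600000 in
/-- **the local root on one open**: `t ∈ S` with `A_W * r_W s * r_W t = 1` on every branch through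
the open. -/
theorem exists_open_root {n : ℕ} (hn0 : n ≠ 0) (hE : ValGood X.E n)
    (hr : ∀ (w : Comp) (x : ↥(Wof X w)), rof X w x = 0 ↔ (Wof X w).valuation (x : F) < 1)
    (hπ : ∀ (w : Comp) (x : R0) (m : algebraMap R0 F x ∈ Wof X w),
      rof X w ⟨algebraMap R0 F x, m⟩ = algebraMap k κ (π x))
    (hπsurj : Function.Surjective π) {ϖ : F} (hϖW : ∀ w : Comp, (Wof X w).valuation ϖ < 1)
    {S : Subring F} {hϖ : ϖ ∈ S} (hconstS : ∀ x : R0, algebraMap R0 F x ∈ S)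
    (hnS : IsUnit ((n : ℕ) : ↥S)) {s fE T : F} (hs0 : s ≠ 0)
    (O : OpenData X π ϖ S hϖ s fE T n) (hfE : ∀ w : Comp, (Wof X w).valuation fE = 1)
    (hT : ∀ w : Comp, T ∈ Wof X w) (A : Comp → κ)
    (hA : ∀ (w : Comp) (hf : fE ∈ Wof X w), A w ^ n = rof X w ⟨fE, hf⟩)
    (hAT : ∀ b ∈ X.S, ∃ d : k, d ≠ 0 ∧ ∀ w : Comp, X.E.val b (A w * rof X w ⟨T, hT w⟩) d) :
    ∃ (t : F) (ht : t ∈ S), ∀ (w : Comp) (hw : S ≤ (Wof X w).toSubring) (hs : s ∈ Wof X w),
      A w * rof X w ⟨s, hs⟩ * rof X w ⟨t, hw ht⟩ = 1 := by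
  classical
  have := O.noeth
  have hfEmem : ∀ w, fE ∈ Wof X w := fun w => mem_of_val_eq_one _ (hfE w)
  have hfE0 : fE ≠ 0 := by
    rintro rfl
    have := hfE Comp.c20
    rw [map_zero] at this
    exact zero_ne_one this
  have hrfE : ∀ w, rof X w ⟨fE, hfEmem w⟩ ≠ 0 := by
    intro w h0
    have := (hr w ⟨fE, hfEmem w⟩).mp h0
    rw [hfE w] at this
    exact lt_irrefl _ this
  have hA0 : ∀ w, A w ≠ 0 := by
    intro w h0
    apply hrfE w
    rw [← hA w (hfEmem w), h0, zero_pow hn0]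
  -- `v = fE * s ^ n` is a unit of `S`
  have hv0 : fE * s ^ n ≠ 0 := mul_ne_zero hfE0 (pow_ne_zero n hs0)
  -- `s` is a unit at every branch through the open
  have hsval : ∀ w, S ≤ (Wof X w).toSubring → (Wof X w).valuation s = 1 := by
    intro w hw
    have h1 : (Wof X w).valuation (fE * s ^ n) = 1 :=
      val_eq_one_of_mem_of_inv_mem _ hv0 (hw O.unit_mem) (hw O.unit_inv)
    rw [map_mul, hfE w, one_mul, map_pow] at h1
    exact val_eq_one_of_pow _ hn0 h1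
  have hsW : ∀ w, S ≤ (Wof X w).toSubring → s ∈ Wof X w := fun w hw =>
    mem_of_val_eq_one _ (hsval w hw)
  have hrs : ∀ w (hw : S ≤ (Wof X w).toSubring), rof X w ⟨s, hsW w hw⟩ ≠ 0 := by
    intro w hw h0
    have := (hr w ⟨s, hsW w hw⟩).mp h0
    rw [hsval w hw] at this
    exact lt_irrefl _ this
  -- the branch roots
  let h : Comp → κ := fun w =>
    if hw : S ≤ (Wof X w).toSubring then (A w * rof X w ⟨s, hsW w hw⟩)⁻¹ else 0
  have hh_eq : ∀ w (hw : S ≤ (Wof X w).toSubring), h w = (A w * rof X w ⟨s, hsW w hw⟩)⁻¹ :=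
    fun w hw => dif_pos hw
  have hh : ∀ (w : Comp) (hw : S ≤ (Wof X w).toSubring),
      rof X w ⟨fE * s ^ n, hw O.unit_mem⟩ * h w ^ n = 1 := by
    intro w hw
    rw [hh_eq w hw, rof_mul X w (hfEmem w) (pow_mem (hsW w hw) n), rof_pow X w (hsW w hw), inv_pow,
      mul_pow, hA w (hfEmem w)]
    exact mul_inv_cancel₀ (mul_ne_zero (hrfE w) (pow_ne_zero n (hrs w hw)))
  -- `h w` lies in the branch ring
  have hhrange : ∀ (w : Comp) (hw : S ≤ (Wof X w).toSubring),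
      h w ∈ (resHom S (Wof X w) (rof X w) hw).range := by
    intro w hw
    refine O.br.root w hw _ ⟨⟨(fE * s ^ n)⁻¹, O.unit_inv⟩, ?_⟩
    rw [resHom_apply]
    have h1 := hh w hw
    have h2 : rof X w ⟨(fE * s ^ n)⁻¹, hw O.unit_inv⟩ = (rof X w ⟨fE * s ^ n, hw O.unit_mem⟩)⁻¹ :=
      rof_inv X w _ _ hv0
    show rof X w ⟨(fE * s ^ n)⁻¹, hw O.unit_inv⟩ = h w ^ n
    rw [h2]
    exact inv_eq_of_mul_eq_one_right h1
  -- the value condition
  have hval : ∀ 𝔪 : Ideal ↥S, 𝔪.IsMaximal → (⟨ϖ, hϖ⟩ : ↥S) ∈ 𝔪 → ∃ c : ↥S,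
      ∀ (w : Comp) (hw : S ≤ (Wof X w).toSubring), RingHom.ker (resHom S (Wof X w) (rof X w) hw) ≤ 𝔪 →
        ∀ u : ↥S, resHom S (Wof X w) (rof X w) hw u = h w - resHom S (Wof X w) (rof X w) hw c →
          u ∈ 𝔪 := by
    intro 𝔪 h𝔪 hϖ𝔪
    rcases O.pt 𝔪 h𝔪 hϖ𝔪 with hsub | ⟨b, hb, hall, hmem, u₁, u₂, hu₁, hu₂, hsu⟩
    · -- at most one branch
      by_cases hex : ∃ (w₀ : Comp) (hw₀ : S ≤ (Wof X w₀).toSubring),
          RingHom.ker (resHom S (Wof X w₀) (rof X w₀) hw₀) ≤ 𝔪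
      · obtain ⟨w₀, hw₀, hk₀⟩ := hex
        obtain ⟨c, hc⟩ := hhrange w₀ hw₀
        refine ⟨c, fun w hw hk u hu => ?_⟩
        obtain rfl : w = w₀ := hsub w w₀ hw hw₀ hk hk₀
        apply hk
        rw [RingHom.mem_ker, hu, hc, sub_self]
      · exact ⟨0, fun w hw hk => absurd ⟨w, hw, hk⟩ hex⟩
    · -- a triple point
      obtain ⟨d, hd0, hd⟩ := hAT b hb
      -- the common value of an element of `S` outside `𝔪`
      have hcommon : ∀ u : ↥S, u ∉ 𝔪 → ∃ e : k, e ≠ 0 ∧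
          ∀ w : Comp, X.E.val b (resHom S (Wof X w) (rof X w) (hall w) u) e := by
        intro u hu
        obtain ⟨c, hcS, hc⟩ := O.const 𝔪 h𝔪 hϖ𝔪 u
        have hval_u : ∀ w : Comp, X.E.val b (resHom S (Wof X w) (rof X w) (hall w) u) (π c) := by
          intro w
          have h1 := (hmem w (hall w) _).mp hc
          rw [map_sub, resHom_apply S _ _ _ ⟨algebraMap R0 F c, hcS⟩, hπ] at h1
          have h2 := hE.val_add h1 (X.E.val_const b (π c))
          rwa [sub_add_cancel, zero_add] at h2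
        refine ⟨π c, fun h0 => hu ?_, hval_u⟩
        have := hval_u Comp.c20
        rw [h0] at this
        exact (hmem Comp.c20 (hall Comp.c20) u).mpr this
      obtain ⟨e₁, he₁, hv₁⟩ := hcommon u₁ hu₁
      obtain ⟨e₂, he₂, hv₂⟩ := hcommon u₂ hu₂
      -- the value of the branch roots
      have he : d * e₁ / e₂ ≠ 0 := div_ne_zero (mul_ne_zero hd0 he₁) he₂
      have hvalh : ∀ w : Comp, X.E.val b (h w) (d * e₁ / e₂)⁻¹ := by
        intro w
        rw [hh_eq w (hall w)]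
        refine hE.val_inv ?_ he
        refine hE.val_div b _ _ _ _ ?_ (hv₂ w) he₂
        have h1 : A w * rof X w ⟨s, hsW w (hall w)⟩ * resHom S (Wof X w) (rof X w) (hall w) u₂
            = A w * rof X w ⟨T, hT w⟩ * resHom S (Wof X w) (rof X w) (hall w) u₁ := by
          rw [resHom_apply, resHom_apply, mul_assoc, mul_assoc,
            ← rof_mul X w (hsW w (hall w)) (hall w u₂.2)
              ((Wof X w).mul_mem _ _ (hsW w (hall w)) (hall w u₂.2)),
            ← rof_mul X w (hT w) (hall w u₁.2) ((Wof X w).mul_mem _ _ (hT w) (hall w u₁.2))]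
          congr 1
          exact rof_congr X w _ _ (by rw [hsu, mul_comm])
        rw [h1]
        exact X.E.val_mul b _ _ _ _ (hd w) (hv₁ w)
      -- the constant
      obtain ⟨x, hx⟩ := hπsurj (d * e₁ / e₂)⁻¹
      refine ⟨⟨algebraMap R0 F x, hconstS x⟩, fun w hw _ u hu => ?_⟩
      apply (hmem w hw u).mpr
      rw [hu, resHom_apply S _ _ _ ⟨algebraMap R0 F x, hconstS x⟩, hπ, hx]
      have := hE.val_sub b _ _ _ _ (hvalh w) (X.E.val_const b (d * e₁ / e₂)⁻¹)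
      rwa [sub_self] at this
  -- `FibreRing`
  obtain ⟨t, ht, htw⟩ := exists_local_root (Wof X) (rof X) hr S hϖ hϖW O.det O.sep hn0 hnS O.br
    O.unit_mem O.unit_inv hv0 h hh hval
  refine ⟨t, ht, fun w hw hs => ?_⟩
  rw [htw w hw, hh_eq w hw, rof_congr X w hs (hsW w hw) rfl]
  exact mul_inv_cancel₀ (mul_ne_zero (hA0 w) (hrs w hw))

end Open

/-! ### the assembly -/

section Main

variable {ι ι' : Type*} [Fintype ι] [Fintype ι'] {X : Datum k κ F' F Pt} {C : Charts R0 F ι ι'}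
  {G : LocalGen C} {n : ℕ} {Y : X.Kummer n} {π : R0 →+* k}

omit [Fintype ι] [Fintype ι'] in
set_option maxHeartbeats 1600000 in
/-- **the generic root of the assembly** -/
theorem nonempty_genericRoot (I : Input X C G Y π) : Nonempty (GenericRoot C G Comp) := by
  classical
  set e : ℕ := (X.q - 1) * (X.q ^ 2 - 1) with he
  set fE : F := Y.f ^ e with hfEdef
  set T : F := I.t₀ ^ (X.q ^ 2 - 1) with hTdef
  -- (A) + (A′)
  obtain ⟨A₂₀, A₁₁, A₀₂, hA₂₀, hA₁₁, hA₀₂, hAT⟩ := exists_normalised_roots X I.hn0 I.hnq I.hq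
    I.hμ I.hE Y I.hS I.t₂₀ I.t₁₁ I.t₀₂ I.hR₁ I.hR₂ I.hv₀
  let A : Comp → κ := fun w => match w with
    | Comp.c20 => A₂₀
    | Comp.c11 => A₁₁
    | Comp.c02 => A₀₂
  have hfmem : ∀ w : Comp, Y.f ∈ Wof X w := fun w => by
    cases w
    · exact Y.f₂₀
    · exact Y.f₁₁
    · exact Y.f₀₂
  have hrf : ∀ w : Comp, rof X w ⟨Y.f, hfmem w⟩ ≠ 0 := fun w => by
    cases w
    · exact Y.r₂₀_ne
    · exact Y.r₁₁_ne
    · exact Y.r₀₂_ne
  have hfval : ∀ w : Comp, (Wof X w).valuation Y.f = 1 := by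
    intro w
    refine le_antisymm (((Wof X w).valuation_le_one_iff _).mpr (hfmem w)) (not_lt.mp fun hlt => ?_)
    exact hrf w ((I.hr w ⟨Y.f, hfmem w⟩).mpr hlt)
  have hfE : ∀ w : Comp, (Wof X w).valuation fE = 1 := fun w => by
    rw [hfEdef, map_pow, hfval w, one_pow]
  have hT : ∀ w : Comp, T ∈ Wof X w := fun w => by
    cases w
    · exact pow_mem I.t₂₀ _
    · exact pow_mem I.t₁₁ _
    · exact pow_mem I.t₀₂ _
  have hA : ∀ (w : Comp) (hf : fE ∈ Wof X w), A w ^ n = rof X w ⟨fE, hf⟩ := by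
    intro w hf
    cases w
    · exact hA₂₀
    · exact hA₁₁
    · exact hA₀₂
  have hAT' : ∀ b ∈ X.S, ∃ d : k, d ≠ 0 ∧ ∀ w : Comp, X.E.val b (A w * rof X w ⟨T, hT w⟩) d := by
    intro b hb
    obtain ⟨d, hd, h₂₀, h₁₁, h₀₂⟩ := hAT b hb
    refine ⟨d, hd, fun w => ?_⟩
    cases w
    · exact h₂₀
    · exact h₁₁
    · exact h₀₂
  have hfEmem : ∀ w, fE ∈ Wof X w := fun w => mem_of_val_eq_one _ (hfE w)
  have hrfE : ∀ w, rof X w ⟨fE, hfEmem w⟩ ≠ 0 := by
    intro w h0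
    have := (I.hr w ⟨fE, hfEmem w⟩).mp h0
    rw [hfE w] at this
    exact lt_irrefl _ this
  have hA0 : ∀ w, A w ≠ 0 := by
    intro w h0
    apply hrfE w
    rw [← hA w (hfEmem w), h0, zero_pow I.hn0]
  -- `n` is a unit of every open
  obtain ⟨nu, hnu⟩ := I.hnunit
  have hnS : ∀ S : Subring F, (∀ x : R0, algebraMap R0 F x ∈ S) → IsUnit ((n : ℕ) : ↥S) := by
    intro S hS
    refine isUnit_iff_exists_inv.mpr ⟨⟨algebraMap R0 F (↑nu⁻¹ : R0), hS _⟩, ?_⟩
    apply Subtype.ext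
    rw [Subring.coe_mul, Subring.coe_natCast, Subring.coe_one]
    have h1 : (n : R0) * (↑nu⁻¹ : R0) = 1 := by rw [← hnu, Units.mul_inv]
    have h2 := congrArg (algebraMap R0 F) h1
    rwa [map_mul, map_natCast, map_one] at h2
  -- the generic normalisations
  have hγex : ∀ w : Comp, ∃ γ : ↥(Wof X w), rof X w γ = (A w)⁻¹ := fun w => I.hrsurj w _
  choose γ hγ using hγex
  have hγval : ∀ w, (Wof X w).valuation (γ w : F) = 1 := by
    intro w
    refine le_antisymm (((Wof X w).valuation_le_one_iff _).mpr (γ w).2) (not_lt.mp fun hlt => ?_)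
    have := (I.hr w (γ w)).mpr hlt
    rw [hγ w] at this
    exact inv_ne_zero (hA0 w) this
  have hγ0 : ∀ w, (γ w : F) ≠ 0 := by
    intro w h0
    have := hγval w
    rw [h0, map_zero] at this
    exact zero_ne_one this
  have hγinv : ∀ w, (γ w : F)⁻¹ ∈ Wof X w := fun w => inv_mem_of_val_eq_one _ (hγval w)
  have hrγinv : ∀ w, rof X w ⟨(γ w : F)⁻¹, hγinv w⟩ = A w := by
    intro w
    rw [rof_inv X w (γ w).2 (hγinv w) (hγ0 w)]
    have : rof X w ⟨(γ w : F), (γ w).2⟩ = (A w)⁻¹ := hγ w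
    rw [this, inv_inv]
  -- the local roots
  have hloc : ∀ i : ι, ∃ (t : F) (ht : t ∈ C.S i),
      ∀ (w : Comp) (hw : C.S i ≤ (Wof X w).toSubring) (hs : G.s i ∈ Wof X w),
        A w * rof X w ⟨G.s i, hs⟩ * rof X w ⟨t, hw ht⟩ = 1 := fun i =>
    exists_open_root I.hn0 I.hE I.hr I.hπ I.hπsurj I.hϖW (C.algebraMap_mem_S i)
      (hnS _ (C.algebraMap_mem_S i)) (G.hs0 i) (I.opn i) hfE hT A hA hAT'
  have hloc' : ∀ j : ι', ∃ (t : F) (ht : t ∈ C.S' j),
      ∀ (w : Comp) (hw : C.S' j ≤ (Wof X w).toSubring) (hs : G.s' j ∈ Wof X w),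
        A w * rof X w ⟨G.s' j, hs⟩ * rof X w ⟨t, hw ht⟩ = 1 := fun j =>
    exists_open_root I.hn0 I.hE I.hr I.hπ I.hπsurj I.hϖW (C.algebraMap_mem_S' j)
      (hnS _ (C.algebraMap_mem_S' j)) (G.hs0' j) (I.opn' j) hfE hT A hA hAT'
  choose t ht htw using hloc
  choose t' ht' htw' using hloc'
  -- the local generators are units at the branches through their opens
  have hsval : ∀ (S : Subring F) (s : F), s ≠ 0 → fE * s ^ n ∈ S → (fE * s ^ n)⁻¹ ∈ S →
      ∀ w, S ≤ (Wof X w).toSubring → (Wof X w).valuation s = 1 := by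
    intro S s hs0 hmem hinv w hw
    have hfE0 : fE ≠ 0 := by
      intro h0
      have := hfE Comp.c20
      rw [h0, map_zero] at this
      exact zero_ne_one this
    have h1 : (Wof X w).valuation (fE * s ^ n) = 1 :=
      val_eq_one_of_mem_of_inv_mem _ (mul_ne_zero hfE0 (pow_ne_zero n hs0)) (hw hmem) (hw hinv)
    rw [map_mul, hfE w, one_mul, map_pow] at h1
    exact val_eq_one_of_pow _ I.hn0 h1
  -- the congruence `s t / γ ≡ 1`
  have hcong : ∀ (w : Comp) (s t : F) (hs : s ∈ Wof X w) (ht : t ∈ Wof X w),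
      A w * rof X w ⟨s, hs⟩ * rof X w ⟨t, ht⟩ = 1 →
      (Wof X w).valuation (s * t / (γ w : F) - 1) < 1 := by
    intro w s t hs ht h1
    have hmem : s * t / (γ w : F) - 1 ∈ Wof X w := by
      rw [div_eq_mul_inv]
      exact sub_mem ((Wof X w).mul_mem _ _ ((Wof X w).mul_mem _ _ hs ht) (hγinv w))
        (Wof X w).one_mem
    refine (I.hr w ⟨_, hmem⟩).mp ?_
    have hmem2 : s * t * (γ w : F)⁻¹ ∈ Wof X w :=
      (Wof X w).mul_mem _ _ ((Wof X w).mul_mem _ _ hs ht) (hγinv w)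
    rw [rof_congr X w hmem (sub_mem hmem2 (Wof X w).one_mem)
      (by rw [div_eq_mul_inv]),
      rof_sub X w hmem2 (Wof X w).one_mem, rof_one,
      rof_mul X w ((Wof X w).mul_mem _ _ hs ht) (hγinv w), rof_mul X w hs ht, hrγinv w, sub_eq_zero,
      ← h1]
    ring
  refine ⟨{
    W := Wof X
    n := n
    hn0 := Nat.pos_of_ne_zero I.hn0
    hn := ⟨(↑nu⁻¹ : R0), 0, by rw [← hnu, Units.mul_inv, mul_zero, add_zero]⟩
    f := fE
    hw := fun i => (I.opn i).unit_mem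
    hw' := fun j => (I.opn' j).unit_mem
    γ := fun w => (γ w : F)
    hγ0 := hγ0
    hγ := fun w => ?_
    t := t
    ht := ht
    htγ := fun i w hS => ?_
    t' := t'
    ht' := ht'
    htγ' := fun j w hS => ?_
    det := fun i => (I.opn i).det
    det' := fun j => (I.opn' j).det
    det₂ := I.det₂
    det₂' := I.det₂'
    detmix := I.detmix }⟩
  · -- `fE * γ ^ n ≡ 1`
    have hmem : fE * (γ w : F) ^ n - 1 ∈ Wof X w :=
      sub_mem ((Wof X w).mul_mem _ _ (hfEmem w) (pow_mem (γ w).2 n))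
        (Wof X w).one_mem
    refine (I.hr w ⟨_, hmem⟩).mp ?_
    rw [rof_sub X w ((Wof X w).mul_mem _ _ (hfEmem w) (pow_mem (γ w).2 n)) (Wof X w).one_mem,
      rof_one, rof_mul X w (hfEmem w) (pow_mem (γ w).2 n), rof_pow X w (γ w).2, ← hA w (hfEmem w),
      sub_eq_zero]
    have : rof X w ⟨(γ w : F), (γ w).2⟩ = (A w)⁻¹ := hγ w
    rw [this, inv_pow]
    exact mul_inv_cancel₀ (pow_ne_zero n (hA0 w))
  · have hs : G.s i ∈ Wof X w := mem_of_val_eq_one _
      (hsval (C.S i) (G.s i) (G.hs0 i) (I.opn i).unit_mem (I.opn i).unit_inv w hS)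
    exact hcong w (G.s i) (t i) hs (hS (ht i)) (htw i w hS hs)
  · have hs : G.s' j ∈ Wof X w := mem_of_val_eq_one _
      (hsval (C.S' j) (G.s' j) (G.hs0' j) (I.opn' j).unit_mem (I.opn' j).unit_inv w hS)
    exact hcong w (G.s' j) (t' j) hs (hS (ht' j)) (htw' j w hS hs)

/-- **THE ASSEMBLY.**  Under the hypotheses `Input` (chain (V6)-(V15), in ring / valuation /
evaluation language) and the finiteness of `H¹`, the sheaf of `C` has a nonzero global section. -/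
theorem exists_global_section [IsNoetherianRing R0] (I : Input X C G Y π) (hfin : C.FiniteH1) :
    ∃ h : F, h ≠ 0 ∧ h ∈ C.LU ∧ h ∈ C.LU' := by
  obtain ⟨Z⟩ := nonempty_genericRoot I
  exact exists_global_section_of_generic C G hfin Z

end Main

end Fermat.Agent.S36.NewInertiaDatum
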