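import Mathlib
import Fermat.Agent.S36.BranchCoreT
import Fermat.Agent.S36.NewInertiaDatum

/-!
# PROJECT V (S36), chain (V9) → (V17): the field `pt` of `NewInertiaDatum.OpenData`

Adapter from the ring language of `BranchCoreT.TDatum` (maximal ideals of a chart ring `𝒜`, points
= maximal ideals `n` of the coordinate ring `ℬ` of the component curve) to the valuation /
evaluation language of the assembly (`X : GlueNorm.Datum`, an open `S = 𝒜[1/g] ≤ F`, the three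
valuation rings `Wof X w`, their reductions `rof X w`, evaluation `X.E.val b` at points `b`).

Setting: `𝒜 ≤ F` the chart ring, `ℬ ≤ κ`, `D : TDatum A₁ 𝒜 ℬ` whose three reductions are the
restrictions of `rof X w` (`hcompat`), the dictionary `hdict` : every `n ∈ D.S` is the ideal of the
elements of `ℬ` with value `0` at some `b ∈ X.S`.

`pt_of_tdatum` : for every maximal ideal `𝔪 ∋ ϖ` of `S = 𝒜[1/g]` with residue field the constants
(`hconst`, the field `const` of `OpenData`): EITHER at most one branch passes through `𝔪`, OR `𝔪` is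
the triple point of some `b ∈ X.S`: all three `W` contain `S`, `u ∈ 𝔪 ↔ (r_w u)(b) = 0` on each of
the three branches, and (hypothesis `hgen`, from the common generator) `s / T` is a unit at `𝔪`.
This is literally the field `pt` of `NewInertiaDatum.OpenData`.
-/

set_option autoImplicit false

namespace Fermat.Agent.S36.BranchPt

open Fermat.Agent.S36.FormalLift Fermat.Agent.S36.SoftCoreInput Fermat.Agent.S36.GlueNorm
  Fermat.Agent.S36.OpenLift Fermat.Agent.S36.TripleValues Fermat.Agent.S36.NewInertiaDatum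
  Fermat.Agent.S36.BranchCoreT

/-! ### the three reductions of a `PDatum` as a family -/

section Family

variable {A₁ A B : Type*} [CommRing A₁] [CommRing A] [CommRing B]

/-- the three reductions as a family -/
def rD (D : PDatum A₁ A B) : Comp → (A →+* B)
  | Comp.c20 => D.r20
  | Comp.c11 => D.r11
  | Comp.c02 => D.r02

theorem rD_surj (D : PDatum A₁ A B) (w : Comp) : Function.Surjective (rD D w) := by
  cases w
  · exact D.r20_surj
  · exact D.r11_surj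
  · exact D.r02_surj

/-- two different branches through a closed point: a triple point -/
theorem exists_mem_S_of_two (D : TDatum A₁ A B) (x : Ideal A) (hx : x.IsMaximal) {w w' : Comp}
    (hww' : w ≠ w') (h : RingHom.ker (rD D.toPDatum w) ≤ x)
    (h' : RingHom.ker (rD D.toPDatum w') ≤ x) :
    ∃ n : Ideal B, n.IsMaximal ∧ n ∈ D.S ∧ ∀ w'' : Comp, x = n.comap (rD D.toPDatum w'') := by
  have key : (RingHom.ker D.r20 ≤ x ∧ RingHom.ker D.r11 ≤ x) ∨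
      (RingHom.ker D.r20 ≤ x ∧ RingHom.ker D.r02 ≤ x) ∨
      (RingHom.ker D.r11 ≤ x ∧ RingHom.ker D.r02 ≤ x) := by
    cases w <;> cases w'
    · exact absurd rfl hww'
    · exact Or.inl ⟨h, h'⟩
    · exact Or.inr (Or.inl ⟨h, h'⟩)
    · exact Or.inl ⟨h', h⟩
    · exact absurd rfl hww'
    · exact Or.inr (Or.inr ⟨h, h'⟩)
    · exact Or.inr (Or.inl ⟨h', h⟩)
    · exact Or.inr (Or.inr ⟨h', h⟩)
    · exact absurd rfl hww'
  obtain ⟨n, hn, hS, h20, h11, h02⟩ := D.exists_mem_S_of_two_le x hx key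
  refine ⟨n, hn, hS, fun w'' => ?_⟩
  cases w''
  · exact h20
  · exact h11
  · exact h02

end Family

/-! ### the adapter -/

section Main

variable {k κ F' F Pt : Type*} [Field k] [Field κ] [Algebra k κ] [Field F'] [Field F]
  {R0 : Type*} [CommRing R0] [Algebra R0 F] {A₁ : Type*} [CommRing A₁]

set_option maxHeartbeats 1600000 in
/-- **the field `pt` of `OpenData` from a `TDatum` on the chart**, for an open `S = 𝒜[1/g]`
(given by `𝒜 ≤ S`, `g⁻¹ ∈ S`, `∀ x ∈ S, ∃ E, g ^ E * x ∈ 𝒜`). -/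
theorem pt_of_tdatum' (X : Datum k κ F' F Pt) (π : R0 →+* k) {n₀ : ℕ} (hE : ValGood X.E n₀)
    (hr : ∀ (w : Comp) (x : ↥(Wof X w)), rof X w x = 0 ↔ (Wof X w).valuation (x : F) < 1)
    (hπ : ∀ (w : Comp) (x : R0) (m : algebraMap R0 F x ∈ Wof X w),
      rof X w ⟨algebraMap R0 F x, m⟩ = algebraMap k κ (π x))
    (𝒜 : Subring F) (ℬ : Subring κ) (D : TDatum A₁ ↥𝒜 ↥ℬ)
    (hle : ∀ w : Comp, 𝒜 ≤ (Wof X w).toSubring)
    (hcompat : ∀ (w : Comp) (a : ↥𝒜),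
      ((rD D.toPDatum w a : ↥ℬ) : κ) = rof X w ⟨(a : F), hle w a.2⟩)
    (hconst𝒜 : ∀ c : R0, algebraMap R0 F c ∈ 𝒜)
    (hdict : ∀ n : Ideal ↥ℬ, n.IsMaximal → n ∈ D.S →
      ∃ b ∈ X.S, ∀ z : ↥ℬ, z ∈ n ↔ X.E.val b (z : κ) 0)
    {g : F} (hg : g ∈ 𝒜) (hg0 : g ≠ 0) (S : Subring F) (h𝒜S : 𝒜 ≤ S) (hginvS : g⁻¹ ∈ S)
    (hSfrac : ∀ x ∈ S, ∃ E : ℕ, g ^ E * x ∈ 𝒜) (s T : F)
    (𝔪 : Ideal ↥S) (h𝔪 : 𝔪.IsMaximal)
    (hconst : ∀ u : ↥S, ∃ (c : R0) (hc : algebraMap R0 F c ∈ S),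
      u - ⟨algebraMap R0 F c, hc⟩ ∈ 𝔪)
    (hgen : (∀ w : Comp, S ≤ (Wof X w).toSubring) →
      (∀ (w : Comp) (hw : S ≤ (Wof X w).toSubring),
        RingHom.ker (resHom S (Wof X w) (rof X w) hw) ≤ 𝔪) →
      ∃ u₁ u₂ : ↥S, u₁ ∉ 𝔪 ∧ u₂ ∉ 𝔪 ∧ s * (u₂ : F) = (u₁ : F) * T) :
    (∀ (w w' : Comp) (hw : S ≤ (Wof X w).toSubring) (hw' : S ≤ (Wof X w').toSubring),
      RingHom.ker (resHom S (Wof X w) (rof X w) hw) ≤ 𝔪 →
      RingHom.ker (resHom S (Wof X w') (rof X w') hw') ≤ 𝔪 → w = w') ∨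
    (∃ b ∈ X.S, (∀ w : Comp, S ≤ (Wof X w).toSubring) ∧
      (∀ (w : Comp) (hw : S ≤ (Wof X w).toSubring) (u : ↥S),
        u ∈ 𝔪 ↔ X.E.val b (resHom S (Wof X w) (rof X w) hw u) 0) ∧
      ∃ u₁ u₂ : ↥S, u₁ ∉ 𝔪 ∧ u₂ ∉ 𝔪 ∧ s * (u₂ : F) = (u₁ : F) * T) := by
  classical
  have hprime : 𝔪.IsPrime := h𝔪.isPrime
  let incl : ↥𝒜 →+* ↥S := Subring.inclusion h𝒜S
  have hincl : ∀ a : ↥𝒜, ((incl a : ↥S) : F) = (a : F) := fun a => rfl
  set m : Ideal ↥𝒜 := 𝔪.comap incl with hm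
  have hmem_m : ∀ a : ↥𝒜, a ∈ m ↔ incl a ∈ 𝔪 := fun a => Iff.rfl
  -- `g` is a unit of `S`
  have hgS : g ∈ S := h𝒜S hg
  have hg𝔪 : (⟨g, hgS⟩ : ↥S) ∉ 𝔪 := by
    intro hmem
    have h1 : (⟨g, hgS⟩ : ↥S) * ⟨g⁻¹, hginvS⟩ = 1 := by
      apply Subtype.ext
      rw [Subring.coe_mul, Subring.coe_one]
      exact mul_inv_cancel₀ hg0
    exact h𝔪.ne_top ((Ideal.eq_top_iff_one 𝔪).mpr (h1 ▸ 𝔪.mul_mem_right _ hmem))
  have hgm : (⟨g, hg⟩ : ↥𝒜) ∉ m := fun h => hg𝔪 h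
  -- `m` is maximal
  have hm_max : m.IsMaximal := by
    rw [Ideal.isMaximal_iff]
    refine ⟨fun h1 => h𝔪.ne_top ((Ideal.eq_top_iff_one 𝔪).mpr (by
      have := (hmem_m 1).mp h1
      rwa [map_one] at this)), fun J a hmJ ha haJ => ?_⟩
    obtain ⟨u, i, hi, hui⟩ := h𝔪.exists_inv ((hmem_m a).not.mp ha)
    obtain ⟨c, hc, hcu⟩ := hconst u
    have hmem : (⟨algebraMap R0 F c, hconst𝒜 c⟩ : ↥𝒜) * a - 1 ∈ m := by
      rw [hmem_m]
      have h1 : incl ((⟨algebraMap R0 F c, hconst𝒜 c⟩ : ↥𝒜) * a - 1) =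
          -(u - ⟨algebraMap R0 F c, hc⟩) * incl a - i := by
        have hc'' : incl ⟨algebraMap R0 F c, hconst𝒜 c⟩ = ⟨algebraMap R0 F c, hc⟩ :=
          Subtype.ext rfl
        rw [map_sub, map_mul, map_one, hc'']
        linear_combination hui
      rw [h1]
      exact 𝔪.sub_mem (𝔪.mul_mem_right _ (𝔪.neg_mem hcu)) hi
    have h2 : (1 : ↥𝒜) = (⟨algebraMap R0 F c, hconst𝒜 c⟩ : ↥𝒜) * a -
        ((⟨algebraMap R0 F c, hconst𝒜 c⟩ : ↥𝒜) * a - 1) := by ring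
    rw [h2]
    exact J.sub_mem (J.mul_mem_left _ haJ) (hmJ hmem)
  -- elements of `S` as fractions
  have hfrac : ∀ u : ↥S, ∃ (E : ℕ) (a : ↥𝒜), (a : F) = g ^ E * (u : F) := by
    intro u
    obtain ⟨E, hE⟩ := hSfrac (u : F) u.2
    exact ⟨E, ⟨_, hE⟩, rfl⟩
  have hmem_iff : ∀ (u : ↥S) (E : ℕ) (a : ↥𝒜), (a : F) = g ^ E * (u : F) → (u ∈ 𝔪 ↔ a ∈ m) := by
    intro u E a ha
    have h1 : incl a = (⟨g, hgS⟩ : ↥S) ^ E * u := by
      apply Subtype.ext
      rw [hincl, ha, Subring.coe_mul, Subring.coe_pow]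
    rw [hmem_m, h1]
    constructor
    · intro hu
      exact 𝔪.mul_mem_left _ hu
    · intro hu
      rcases hprime.mem_or_mem hu with h2 | h2
      · exact absurd (hprime.mem_of_pow_mem E h2) hg𝔪
      · exact h2
  -- reductions of elements of `𝒜` inside `S`
  have hres_incl : ∀ (w : Comp) (hw : S ≤ (Wof X w).toSubring) (a : ↥𝒜),
      resHom S (Wof X w) (rof X w) hw (incl a) = ((rD D.toPDatum w a : ↥ℬ) : κ) := by
    intro w hw a
    rw [hcompat w a]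
    rfl
  -- kernels: from `S` to `𝒜`
  have hker_down : ∀ (w : Comp) (hw : S ≤ (Wof X w).toSubring),
      RingHom.ker (resHom S (Wof X w) (rof X w) hw) ≤ 𝔪 → RingHom.ker (rD D.toPDatum w) ≤ m := by
    intro w hw hk a ha
    rw [hmem_m]
    apply hk
    rw [RingHom.mem_ker, hres_incl w hw a, (RingHom.mem_ker).mp ha]
    rfl
  by_cases htwo : ∃ w w' : Comp, w ≠ w' ∧ RingHom.ker (rD D.toPDatum w) ≤ m ∧
      RingHom.ker (rD D.toPDatum w') ≤ m
  · -- a triple point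
    right
    obtain ⟨w₁, w₂, hne, h1, h2⟩ := htwo
    obtain ⟨n, hn, hnS, hx⟩ := exists_mem_S_of_two D m hm_max hne h1 h2
    have hnprime : n.IsPrime := hn.isPrime
    obtain ⟨b, hbS, hb⟩ := hdict n hn hnS
    have hmem_n : ∀ (w : Comp) (a : ↥𝒜), a ∈ m ↔ rD D.toPDatum w a ∈ n := by
      intro w a
      rw [hx w]
      rfl
    -- `g` is a unit of the three `W`
    have hgW : ∀ w : Comp, g⁻¹ ∈ Wof X w := by
      intro w
      have h3 : rD D.toPDatum w ⟨g, hg⟩ ∉ n := fun h => hgm ((hmem_n w _).mpr h)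
      have h4 : rof X w ⟨g, hle w hg⟩ ≠ 0 := by
        intro h0
        apply h3
        have : rD D.toPDatum w ⟨g, hg⟩ = 0 := by
          apply Subtype.ext
          rw [hcompat w ⟨g, hg⟩]
          exact h0
        rw [this]
        exact n.zero_mem
      have h5 : ¬ (Wof X w).valuation g < 1 := fun h => h4 ((hr w ⟨g, hle w hg⟩).mpr h)
      have h6 : (Wof X w).valuation g = 1 :=
        le_antisymm ((Wof X w).valuation_le_one_iff g |>.mpr (hle w hg)) (not_lt.mp h5)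
      rw [← (Wof X w).valuation_le_one_iff, map_inv₀, h6, inv_one]
    have hSW : ∀ w : Comp, S ≤ (Wof X w).toSubring := by
      intro w x hx'
      obtain ⟨E, hE⟩ := hSfrac x hx'
      have h3 : x = g⁻¹ ^ E * (g ^ E * x) := by
        rw [inv_pow, ← mul_assoc, inv_mul_cancel₀ (pow_ne_zero _ hg0), one_mul]
      change x ∈ Wof X w
      rw [h3]
      exact (Wof X w).mul_mem _ _ (pow_mem (hgW w) E) (hle w hE)
    -- the value of an element of `𝒜` outside `m`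
    have hvalue : ∀ (w : Comp) (a : ↥𝒜), a ∉ m →
        ∃ c : k, c ≠ 0 ∧ X.E.val b ((rD D.toPDatum w a : ↥ℬ) : κ) c := by
      intro w a ha
      obtain ⟨c, hc, hcu⟩ := hconst (incl a)
      have h3 : a - ⟨algebraMap R0 F c, hconst𝒜 c⟩ ∈ m := by
        rw [hmem_m]
        have : incl (a - ⟨algebraMap R0 F c, hconst𝒜 c⟩) =
            incl a - ⟨algebraMap R0 F c, hc⟩ := by
          apply Subtype.ext
          rfl
        rw [this]
        exact hcu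
      have h4 := (hb _).mp ((hmem_n w _).mp h3)
      rw [map_sub, AddSubgroupClass.coe_sub, hcompat w ⟨algebraMap R0 F c, hconst𝒜 c⟩, hπ] at h4
      have h5 := hE.val_add h4 (X.E.val_const b (π c))
      rw [sub_add_cancel, zero_add] at h5
      refine ⟨π c, fun h0 => ha ?_, h5⟩
      rw [h0] at h5
      exact (hmem_n w a).mpr ((hb _).mpr h5)
    refine ⟨b, hbS, hSW, ?_, ?_⟩
    · intro w hw u
      obtain ⟨E, a, ha⟩ := hfrac u
      obtain ⟨cg, hcg0, hcg⟩ := hvalue w ⟨g, hg⟩ hgm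
      -- `r_w a = r_w u * (r_w g) ^ E`
      have hprod : ((rD D.toPDatum w a : ↥ℬ) : κ) =
          resHom S (Wof X w) (rof X w) hw u * ((rD D.toPDatum w ⟨g, hg⟩ : ↥ℬ) : κ) ^ E := by
        rw [← hres_incl w hw a, ← hres_incl w hw ⟨g, hg⟩, ← map_pow, ← map_mul]
        congr 1
        apply Subtype.ext
        rw [hincl, ha, Subring.coe_mul, Subring.coe_pow, hincl]
        ring
      have hcgE : cg ^ E ≠ 0 := pow_ne_zero _ hcg0
      rw [hmem_iff u E a ha, hmem_n w a, hb]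
      constructor
      · intro h0
        rw [hprod] at h0
        have := hE.val_div b _ _ _ _ h0 (X.E.val_pow b hcg E) hcgE
        rwa [zero_div] at this
      · intro h0
        rw [hprod]
        have := X.E.val_mul b _ _ _ _ h0 (X.E.val_pow b hcg E)
        rwa [zero_mul] at this
    · refine hgen hSW fun w hw u hu => ?_
      obtain ⟨E, a, ha⟩ := hfrac u
      rw [hmem_iff u E a ha, hmem_n w a]
      have h3 : rD D.toPDatum w a = 0 := by
        apply Subtype.ext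
        rw [← hres_incl w hw a]
        have h4 : incl a = (⟨g, hgS⟩ : ↥S) ^ E * u := by
          apply Subtype.ext
          rw [hincl, ha, Subring.coe_mul, Subring.coe_pow]
        rw [h4, map_mul, (RingHom.mem_ker).mp hu, mul_zero]
        rfl
      rw [h3]
      exact n.zero_mem
  · -- at most one branch
    left
    intro w w' hw hw' hk hk'
    by_contra hne
    exact htwo ⟨w, w', hne, hker_down w hw hk, hker_down w' hw' hk'⟩

/-- **the field `pt` of `OpenData`** for `S = awaySubring 𝒜 g`. -/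
theorem pt_of_tdatum (X : Datum k κ F' F Pt) (π : R0 →+* k) {n₀ : ℕ} (hE : ValGood X.E n₀)
    (hr : ∀ (w : Comp) (x : ↥(Wof X w)), rof X w x = 0 ↔ (Wof X w).valuation (x : F) < 1)
    (hπ : ∀ (w : Comp) (x : R0) (m : algebraMap R0 F x ∈ Wof X w),
      rof X w ⟨algebraMap R0 F x, m⟩ = algebraMap k κ (π x))
    (𝒜 : Subring F) (ℬ : Subring κ) (D : TDatum A₁ ↥𝒜 ↥ℬ)
    (hle : ∀ w : Comp, 𝒜 ≤ (Wof X w).toSubring)
    (hcompat : ∀ (w : Comp) (a : ↥𝒜),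
      ((rD D.toPDatum w a : ↥ℬ) : κ) = rof X w ⟨(a : F), hle w a.2⟩)
    (hconst𝒜 : ∀ c : R0, algebraMap R0 F c ∈ 𝒜)
    (hdict : ∀ n : Ideal ↥ℬ, n.IsMaximal → n ∈ D.S →
      ∃ b ∈ X.S, ∀ z : ↥ℬ, z ∈ n ↔ X.E.val b (z : κ) 0)
    {g : F} (hg : g ∈ 𝒜) (hg0 : g ≠ 0) (s T : F)
    (𝔪 : Ideal ↥(awaySubring 𝒜 g hg)) (h𝔪 : 𝔪.IsMaximal)
    (hconst : ∀ u : ↥(awaySubring 𝒜 g hg), ∃ (c : R0)
      (hc : algebraMap R0 F c ∈ awaySubring 𝒜 g hg), u - ⟨algebraMap R0 F c, hc⟩ ∈ 𝔪)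
    (hgen : (∀ w : Comp, awaySubring 𝒜 g hg ≤ (Wof X w).toSubring) →
      (∀ (w : Comp) (hw : awaySubring 𝒜 g hg ≤ (Wof X w).toSubring),
        RingHom.ker (resHom (awaySubring 𝒜 g hg) (Wof X w) (rof X w) hw) ≤ 𝔪) →
      ∃ u₁ u₂ : ↥(awaySubring 𝒜 g hg), u₁ ∉ 𝔪 ∧ u₂ ∉ 𝔪 ∧ s * (u₂ : F) = (u₁ : F) * T) :
    (∀ (w w' : Comp) (hw : awaySubring 𝒜 g hg ≤ (Wof X w).toSubring)
      (hw' : awaySubring 𝒜 g hg ≤ (Wof X w').toSubring),
      RingHom.ker (resHom (awaySubring 𝒜 g hg) (Wof X w) (rof X w) hw) ≤ 𝔪 →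
      RingHom.ker (resHom (awaySubring 𝒜 g hg) (Wof X w') (rof X w') hw') ≤ 𝔪 → w = w') ∨
    (∃ b ∈ X.S, (∀ w : Comp, awaySubring 𝒜 g hg ≤ (Wof X w).toSubring) ∧
      (∀ (w : Comp) (hw : awaySubring 𝒜 g hg ≤ (Wof X w).toSubring)
        (u : ↥(awaySubring 𝒜 g hg)),
        u ∈ 𝔪 ↔ X.E.val b (resHom (awaySubring 𝒜 g hg) (Wof X w) (rof X w) hw u) 0) ∧
      ∃ u₁ u₂ : ↥(awaySubring 𝒜 g hg), u₁ ∉ 𝔪 ∧ u₂ ∉ 𝔪 ∧ s * (u₂ : F) = (u₁ : F) * T) :=
  pt_of_tdatum' X π hE hr hπ 𝒜 ℬ D hle hcompat hconst𝒜 hdict hg hg0 (awaySubring 𝒜 g hg)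
    (le_awaySubring 𝒜 g hg) (inv_mem_awaySubring 𝒜 hg) (fun _ hx => hx) s T 𝔪 h𝔪 hconst hgen

end Main

end Fermat.Agent.S36.BranchPt
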