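/-
S36 (project V), slice V-GlueLevelQ (helper8): THE LEVEL-`q` HALF OF `GlueNorm.Datum`, FILLED ON THE
OBJECTS OF PROJECT U (main).

* `LevelQ k κ F' Pt` : the fields of `GlueNorm.Datum` that only concern level `q M''`
  (`E V₁ V₂ red₁ red₂ φ fr S Reg fr_fr val_fr glue`);
* `LevelQ.comap L ι` : transport along ANY field homomorphism `ι : F'' →+* F'` (e.g. the inclusion of
  the `K₀`-form of `ℚ̄(X₀(q M''))`);
* `LevelQ.toDatum` : `GlueNorm.Datum` from a `LevelQ` and the level-`q² M''` data (three valuation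
  rings, reductions, norms, the four norm-reduction formulas);
* `red_unique` : a reduction map of residue degree one is determined by its kernel and its values on
  the lower level (to match `levelQX0` with the reductions of the `K₀`-forms);
* `valSystemPlace` : `NodalDefs.HasValue` on `Place k κ` is a `GlueNorm.ValSystem`;
* `levelQX0 X Y hFr` : the `LevelQ` of `E = ℚ̄(X₀(M q))` for `X : CoreZX0Assembly.Inputs`,
  `Y : CoreZX0Build.NodesC X` (`CoreZX0.exists_inputs`): `V₁ V₂ = (R1 X).O, (R2 X).O`,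
  `φ = FrobK.phi`, `fr = FrobK.Fr`, `S = Y.S`, `glue = (nodalC X Y).pcg`, and
  `Reg w` = "the poles of `w` lie in the residue discs over an admissible pair of sets of generic
  places";
* `R1_inputsX0_O`, `R1_inputsX0_red`, `R2_inputsX0_O`, `R2_inputsX0_red` : for the canonical inputs
  `X = CoreZX0OfGeneric.inputsX0 hgen` (those of `CoreZX0.exists_inputs`) the two rings and reductions
  are `GaussPairX0.V₁ V₂ red₁ red₂` (the objects of `S35/N1X0.norm_alpha_X0`).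
-/
import Fermat.Agent.S36.GlueNorm
import Fermat.Agent.S34.CoreZX0

set_option autoImplicit false
set_option linter.unusedSectionVars false
set_option linter.style.haveILetI false
set_option linter.unusedVariables false
set_option synthInstance.maxHeartbeats 400000

noncomputable section

namespace Fermat.Agent.S36.GlueLevelQ

open Fermat.Agent.S36.GlueNorm

/-! ### the abstract level-`q` half -/

/-- **the level-`q M''` half of `GlueNorm.Datum`** -/
structure LevelQ (k κ F' Pt : Type*) [Field k] [Field κ] [Algebra k κ] [Field F'] where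
  E : ValSystem k κ Pt
  V₁ : ValuationSubring F'
  V₂ : ValuationSubring F'
  red₁ : ↥V₁ →+* κ
  red₂ : ↥V₂ →+* κ
  φ : κ →+* κ
  fr : Pt → Pt
  S : Set Pt
  Reg : F' → Prop
  fr_fr : ∀ b ∈ S, fr (fr b) = b
  val_fr : ∀ (b : Pt) (z : κ) (c : k), E.val (fr b) z c → E.val b (φ z) c
  glue : ∀ (w : F') (m₁ : w ∈ V₁) (m₂ : w ∈ V₂), Reg w → ∀ b ∈ S,
    ∃ γ : k, E.val (fr b) (red₁ ⟨w, m₁⟩) γ ∧ E.val b (red₂ ⟨w, m₂⟩) γ

namespace LevelQ

variable {k κ F' Pt : Type*} [Field k] [Field κ] [Algebra k κ] [Field F']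

/-- the ring homomorphism `V.comap ι → V` -/
def comapHom {F'' : Type*} [Field F''] (V : ValuationSubring F') (ι : F'' →+* F') :
    ↥(V.comap ι) →+* ↥V where
  toFun x := ⟨ι (x : F''), ValuationSubring.mem_comap.mp x.2⟩
  map_one' := Subtype.ext (map_one ι)
  map_mul' x y := Subtype.ext (map_mul ι _ _)
  map_zero' := Subtype.ext (map_zero ι)
  map_add' x y := Subtype.ext (map_add ι _ _)

/-- **transport of the level-`q` half along a field homomorphism** -/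
def comap {F'' : Type*} [Field F''] (L : LevelQ k κ F' Pt) (ι : F'' →+* F') :
    LevelQ k κ F'' Pt where
  E := L.E
  V₁ := L.V₁.comap ι
  V₂ := L.V₂.comap ι
  red₁ := L.red₁.comp (comapHom L.V₁ ι)
  red₂ := L.red₂.comp (comapHom L.V₂ ι)
  φ := L.φ
  fr := L.fr
  S := L.S
  Reg w := L.Reg (ι w)
  fr_fr := L.fr_fr
  val_fr := L.val_fr
  glue w m₁ m₂ hw b hb :=
    L.glue (ι w) (ValuationSubring.mem_comap.mp m₁) (ValuationSubring.mem_comap.mp m₂) hw b hb

/-- **`GlueNorm.Datum` from its two halves** -/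
def toDatum {F : Type*} [Field F] (L : LevelQ k κ F' Pt) (W₂₀ W₁₁ W₀₂ : ValuationSubring F)
    (r₂₀ : ↥W₂₀ →+* κ) (r₁₁ : ↥W₁₁ →+* κ) (r₀₂ : ↥W₀₂ →+* κ) (N₁ N₂ : F →* F') (q : ℕ)
    (norm₁_V₁ : ∀ (y : F) (h₂₀ : y ∈ W₂₀) (h₁₁ : y ∈ W₁₁) (_h₀₂ : y ∈ W₀₂),
      ∃ m : N₁ y ∈ L.V₁, L.red₁ ⟨N₁ y, m⟩ = r₂₀ ⟨y, h₂₀⟩ * r₁₁ ⟨y, h₁₁⟩ ^ (q - 1))
    (norm₁_V₂ : ∀ (y : F) (_h₂₀ : y ∈ W₂₀) (_h₁₁ : y ∈ W₁₁) (h₀₂ : y ∈ W₀₂),
      ∃ m : N₁ y ∈ L.V₂, L.φ (L.red₂ ⟨N₁ y, m⟩) = r₀₂ ⟨y, h₀₂⟩ ^ q)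
    (norm₂_V₁ : ∀ (y : F) (h₂₀ : y ∈ W₂₀) (_h₁₁ : y ∈ W₁₁) (_h₀₂ : y ∈ W₀₂),
      ∃ m : N₂ y ∈ L.V₁, L.φ (L.red₁ ⟨N₂ y, m⟩) = r₂₀ ⟨y, h₂₀⟩ ^ q)
    (norm₂_V₂ : ∀ (y : F) (_h₂₀ : y ∈ W₂₀) (h₁₁ : y ∈ W₁₁) (h₀₂ : y ∈ W₀₂),
      ∃ m : N₂ y ∈ L.V₂, L.red₂ ⟨N₂ y, m⟩ = r₁₁ ⟨y, h₁₁⟩ ^ (q - 1) * r₀₂ ⟨y, h₀₂⟩) :
    Datum k κ F' F Pt where
  E := L.E
  V₁ := L.V₁
  V₂ := L.V₂
  W₂₀ := W₂₀
  W₁₁ := W₁₁
  W₀₂ := W₀₂
  red₁ := L.red₁
  red₂ := L.red₂
  r₂₀ := r₂₀
  r₁₁ := r₁₁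
  r₀₂ := r₀₂
  N₁ := N₁
  N₂ := N₂
  φ := L.φ
  q := q
  fr := L.fr
  S := L.S
  Reg := L.Reg
  fr_fr := L.fr_fr
  val_fr := L.val_fr
  norm₁_V₁ := norm₁_V₁
  norm₁_V₂ := norm₁_V₂
  norm₂_V₁ := norm₂_V₁
  norm₂_V₂ := norm₂_V₂
  glue := L.glue

end LevelQ


/-! ### uniqueness of the reduction map (residue degree one) -/

/-- **Two reduction maps of a valuation ring `V` of `F'` that agree on the image of a subring-like
family `a : O → V` with `ρ ∘ a` onto, and such that `ρ u = 0 → ρ' u = 0`, are equal.**  (Residue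
degree one: at level `q M''`, `a = α` on the level-`M''` Gauss ring for `V₁`, `a = β` for `V₂`.)
Used to identify the reductions of `levelQX0` with any other normalised reductions (e.g. those of
the `K₀`-forms). -/
theorem red_unique {F' κ O : Type*} [Field F'] [Field κ] {V : ValuationSubring F'}
    (ρ ρ' : ↥V →+* κ) (a : O → ↥V) (hsurj : ∀ z : κ, ∃ c : O, ρ (a c) = z)
    (hagree : ∀ c : O, ρ' (a c) = ρ (a c)) (hker : ∀ u : ↥V, ρ u = 0 → ρ' u = 0) : ρ' = ρ := by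
  refine RingHom.ext fun u => ?_
  obtain ⟨c, hc⟩ := hsurj (ρ u)
  have h0 : ρ' (u - a c) = 0 := hker _ (by rw [map_sub, hc, sub_self])
  rw [map_sub, sub_eq_zero] at h0
  rw [h0, hagree, hc]

/-! ### values at places -/

section Place

open AlgebraicCurve Fermat.Agent.S34.NodalDefs

variable (k κ : Type*) [Field k] [Field κ] [Algebra k κ]

/-- **`NodalDefs.HasValue` is a system of evaluations** -/
def valSystemPlace : ValSystem k κ (Place k κ) where
  val := HasValue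
  val_const b c := Or.inl rfl
  val_mul b z z' c c' h h' :=
    (Fermat.Agent.S34.PcgOfChart.hasValue_iff_euler b _ _).mpr
      (((Fermat.Agent.S34.PcgOfChart.hasValue_iff_euler b _ _).mp h).mul
        ((Fermat.Agent.S34.PcgOfChart.hasValue_iff_euler b _ _).mp h'))
  val_unique b z c c' h h' :=
    ((Fermat.Agent.S34.PcgOfChart.hasValue_iff_euler b _ _).mp h).unique
      ((Fermat.Agent.S34.PcgOfChart.hasValue_iff_euler b _ _).mp h')

end Place

/-! ### the level-`q` half at `E = ℚ̄(X₀(M q))` -/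

section X0

open ModularCurve AlgebraicCurve IsLocalRing
open Fermat.Agent.S34.NodalDefs
open Fermat.Agent.S37.Deuring.Core Fermat.Agent.S37.Gauss.Datum
open Fermat.Agent.S34.CoreZX0Assembly Fermat.Agent.S34.CoreZX0Build

local notation "Kb" => AlgebraicClosure ℚ

variable {q : ℕ} [hq : Fact q.Prime] {M : ℕ} [NeZero M] {A : ValuationSubring Kb} [NeZero q]
variable {hA : A.LiesOverPrime q} {hqM : ¬ q ∣ M}
variable {gL gk : ℕ} {H : Hyp (gaussDatum M A hA hqM) gL gk}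
variable [CharP (ResidueField ↥A) q]

local instance instPerfect8 (A : ValuationSubring Kb) : PerfectField (ResidueField ↥A) :=
  haveI := Fermat.Agent.S18.ResidueBasics.isAlgClosed_residueField A
  inferInstance

/-- regularity at the bad points of `X₀(M q)`: all poles lie in the residue discs over an
admissible pair of sets of generic places -/
def RegX0 (X : Inputs hA hqM H) (Y : NodesC X) (w : ↥(modularFunctionFieldBar (M * q))) : Prop :=
  ∃ S1 S2, (nodalC X Y).Adm S1 S2 ∧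
    ∀ P : Place Kb ↥(modularFunctionFieldBar (M * q)), P.ord w < 0 →
      (∃ Q ∈ S1, (R1 X).r P = some Q) ∨ (∃ Q ∈ S2, (R2 X).r P = some Q)

/-- the value rule for `FrobK.phi` -/
theorem hasValue_phi (b : Place (ResidueField ↥A) ↥(modularFunctionFieldFullC (ResidueField ↥A) M))
    (z : ↥(modularFunctionFieldFullC (ResidueField ↥A) M)) (c : ResidueField ↥A)
    (h : HasValue (Fermat.Agent.S34.FrobK.Fr (ResidueField ↥A) M q b) z c) :
    HasValue b (Fermat.Agent.S34.FrobK.phi (ResidueField ↥A) M q z) c := by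
  rcases h with h | h
  · left
    rw [h, Fermat.Agent.S34.FrobK.phi_algebraMap]
  · right
    rw [Fermat.Agent.S34.FrobK.ord_phi_sub_const]
    have hq0 : (0 : ℤ) < q := by exact_mod_cast hq.out.pos
    positivity

/-- **the level-`q` half of `GlueNorm.Datum` at `E = ℚ̄(X₀(M q))`** -/
def levelQX0 (X : Inputs hA hqM H) (Y : NodesC X)
    (hFr : ∀ b ∈ Y.S, Fermat.Agent.S34.FrobK.Fr (ResidueField ↥A) M q
      (Fermat.Agent.S34.FrobK.Fr (ResidueField ↥A) M q b) = b) :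
    LevelQ (ResidueField ↥A) ↥(modularFunctionFieldFullC (ResidueField ↥A) M)
      ↥(modularFunctionFieldBar (M * q))
      (Place (ResidueField ↥A) ↥(modularFunctionFieldFullC (ResidueField ↥A) M)) where
  E := valSystemPlace _ _
  V₁ := (R1 X).O
  V₂ := (R2 X).O
  red₁ := (R1 X).red
  red₂ := (R2 X).red
  φ := (Fermat.Agent.S34.FrobK.phi (ResidueField ↥A) M q : _ →ₐ[ResidueField ↥A] _)
  fr := Fermat.Agent.S34.FrobK.Fr (ResidueField ↥A) M q
  S := {b | b ∈ Y.S}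
  Reg := RegX0 X Y
  fr_fr := hFr
  val_fr := hasValue_phi
  glue w m₁ m₂ hw b hb := by
    obtain ⟨S1, S2, hadm, hpole⟩ := hw
    exact ((nodalC X Y).pcg S1 S2 hadm ⟨w, m₁⟩ ⟨w, m₂⟩ rfl hpole).2.2 ⟨b, hb⟩

/-! ### the canonical inputs: identification with `GaussPairX0.V₁ V₂ red₁ red₂` -/

section Canonical

open Fermat.Agent.S34.CoreZX0OfGeneric Fermat.Agent.S34.GaussPairX0

variable (hgen : GenericX0 hA hqM H)

theorem R1_inputsX0_O : (R1 (inputsX0 hgen)).O = V₁ hA hqM := rfl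

theorem R1_inputsX0_red : (R1 (inputsX0 hgen)).red = red₁ hA hqM := rfl

theorem R2_inputsX0_O : (R2 (inputsX0 hgen)).O = V₂ hA hqM := by
  rw [R2_O, Fermat.Agent.S34.GaussPairBridge.V2X0_eq]

theorem R2_inputsX0_red (u : ↥(modularFunctionFieldBar (M * q)))
    (h : u ∈ (R2 (inputsX0 hgen)).O) (h' : u ∈ V₂ hA hqM) :
    (R2 (inputsX0 hgen)).red ⟨u, h⟩ = red₂ hA hqM ⟨u, h'⟩ := by
  rw [red₂_apply]
  show red₁ hA hqM ⟨Fermat.Agent.S34.WqGalois.wq M q hq.out hqM u, h⟩ = _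
  congr 1
  apply Subtype.ext
  rw [coe_wqV, Fermat.Agent.S34.GaussPairBridge.wq_eq hqM]

/-- **the node set of the canonical inputs, no hypothesis left** (`CoreZX0Fix.exists_nodesX0_fix` at
`CoreZX0.genericX0`): use `levelQX0 (inputsX0 (CoreZX0.genericX0 hA hqM (HX0 hA hqM HM))) Y hFr`. -/
theorem exists_nodes {gM : ℕ}
    (HM : Fermat.Agent.S18.NonSpecial.RiemannHyp (ResidueField ↥A)
      ↥(modularFunctionFieldFullC (ResidueField ↥A) M) gM) :
    ∃ Y : NodesC (inputsX0 (Fermat.Agent.S34.CoreZX0.genericX0 hA hqM (HX0 hA hqM HM))),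
      ∀ b ∈ Y.S, Fermat.Agent.S34.FrobK.Fr (ResidueField ↥A) M q
        (Fermat.Agent.S34.FrobK.Fr (ResidueField ↥A) M q b) = b := by
  obtain ⟨Y, hY⟩ := Fermat.Agent.S34.CoreZX0Fix.exists_nodesX0_fix HM
    (Fermat.Agent.S34.CoreZX0.genericX0 hA hqM (HX0 hA hqM HM))
  exact ⟨Y, fun b hb => (hY b hb).1⟩

end Canonical

end X0

end Fermat.Agent.S36.GlueLevelQ
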