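/-
S36 (project V), slice V-NodesFrStable (helper8), chain (V6): THE NODE SET OF `X₀(M q)` MOD `q` IS
STABLE UNDER THE FROBENIUS OF PLACES.

Project U (`S34/EulerClosedX0.exists_nodes_closed`) produces a finite set `S` of places of
`κ = k(X₀(M))`, `Fr² = id` on `S`, such that for `h₁ h₂` regular off the poles `P0` of `j̄`:
`(h₁, h₂) ∈ Rbar0 ↔ ∀ b ∈ S, h₁(Fr b) = h₂(b)`.  Here:

* `swap_mem_Rbar0` : `Rbar0` is stable under `(h₁, h₂) ↦ (h₂, h₁)` (Atkin–Lehner: `red₂ = red₁ ∘ w_q`,
  `w_q² = 1`, the pole divisor of `x = j j_q` is `w_q`-invariant);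
* `exists_sep` : a function regular off `P0` vanishing on a finite set `T` and not at a given
  place `Q ∉ T ∪ P0` (Riemann's theorem on `κ`);
* `Fr_mem_of_mem` : hence `b ∈ S → Fr b ∈ S`;
* `exists_nodes_frStable` : the record `NodesC (inputsX0 hgen)` with `Fr² = id` on `S` AND `Fr S ⊆ S`.
-/
import Fermat.Agent.S36.GlueLevelQ

set_option autoImplicit false
set_option linter.unusedSectionVars false
set_option linter.style.haveILetI false
set_option linter.unusedVariables false
set_option synthInstance.maxHeartbeats 400000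

noncomputable section

namespace Fermat.Agent.S36.NodesFrStable

open ModularCurve AlgebraicCurve IsLocalRing

/-! ### semilinear automorphisms and Riemann–Roch spaces -/

section General

variable {K F : Type*} [Field K] [Field F] [Algebra K F]

theorem smul_mem_rr (g : SemilinearAut K F) {D : Divisor K F} {f : F}
    (hf : f ∈ riemannRochSpace D) : g • f ∈ riemannRochSpace (g • D) := by
  rw [mem_riemannRochSpace_iff] at hf ⊢
  intro v
  rcases hf (g⁻¹ • v) with h | h
  · left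
    rw [h, smul_zero]
  · right
    rw [SemilinearAut.divisor_smul_apply, Fermat.Agent.S34.KummerZ.ord_smul_eq]
    exact h

end General


/-! ### separation of finitely many places -/

section Sep

open Fermat.Agent.S18.NonSpecial Fermat.Agent.S37.Deuring.Core
open Fermat.Agent.S34.Euler.Value Fermat.Agent.S34.Euler.Places Fermat.Agent.S34.Euler.Chart

variable {k : Type*} [Field k] {κ : Type*} [Field κ] [Algebra k κ]

/-- **Separation**: on a function field satisfying Riemann's theorem, for `y` with pole divisor `E`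
of positive degree, a finite set `T` of places and a place `Q ∉ T`, all of them off the poles of
`y`, there is a function regular off the poles of `y` which vanishes on `T` and takes the value `1`
at `Q`. -/
theorem exists_sep {g : ℕ} (HR : RiemannHyp k κ g) {y : κ} {E : Divisor k κ}
    (hy : IsPoleDiv y E) (hE : 0 < Divisor.degree E) {P : Set (Place k κ)}
    (hP : ∀ v, 0 < E v ↔ v ∈ P) (T : Finset (Place k κ)) (hT : ∀ b ∈ T, b ∉ P)
    {Q : Place k κ} (hQT : Q ∉ T) (hQP : Q ∉ P) :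
    ∃ h : κ, h ∈ regOff P ∧ (∀ b ∈ T, HasValue b h 0) ∧ HasValue Q h 1 := by
  classical
  obtain ⟨c, hc⟩ := HR.riemann_eq
  set T' : Finset (Place k κ) := insert Q T with hT'
  set s : {x // x ∈ T'} → Place k κ := Subtype.val with hs
  have hsinj : Function.Injective s := Subtype.val_injective
  have hsdeg : ∀ i, (s i).deg = 1 := fun i => HR.deg_one _
  have hsP : ∀ i, s i ∉ P := by
    rintro ⟨b, hb⟩
    rcases Finset.mem_insert.mp hb with rfl | hb
    · exact hQP
    · exact hT b hb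
  -- a large multiple of `E`
  obtain ⟨n, hn⟩ : ∃ n : ℕ, c + (Fintype.card {x // x ∈ T'} : ℤ) ≤ (n : ℤ) * Divisor.degree E := by
    obtain ⟨n, hn⟩ := Archimedean.arch (c + (Fintype.card {x // x ∈ T'} : ℤ)) hE
    exact ⟨n, by rwa [nsmul_eq_mul] at hn⟩
  set D : Divisor k κ := n • E with hD
  have hdegD : Divisor.degree D = (n : ℤ) * Divisor.degree E := by
    rw [hD, map_nsmul, nsmul_eq_mul]
  have hD0 : ∀ i, D (s i) = 0 := by
    intro i
    have hE0 : E (s i) = 0 := by
      have hnn : 0 ≤ E (s i) := by rw [hy (s i)]; exact le_max_left _ _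
      have : ¬ 0 < E (s i) := fun hp => hsP i ((hP _).mp hp)
      omega
    rw [hD, Finsupp.smul_apply, hE0, smul_zero]
  haveI : Module.Finite k (riemannRochSpace D) := HR.finite D
  have hdim : ell D = ell (D - sumFam s) + Fintype.card {x // x ∈ T'} := by
    have hcard : (0 : ℤ) ≤ (Fintype.card {x // x ∈ T'} : ℤ) := Int.natCast_nonneg _
    have h1 := hc D (by rw [hdegD]; linarith)
    have h2 := hc (D - sumFam s) (by
      rw [map_sub, degree_sumFam s hsdeg, hdegD]
      linarith)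
    rw [map_sub, degree_sumFam s hsdeg] at h2
    have : (ell D : ℤ) = ell (D - sumFam s) + Fintype.card {x // x ∈ T'} := by
      rw [h1, h2]
      ring
    exact_mod_cast this
  have hsurj := evalRR_surjective s hsdeg hsinj D hD0 hdim
  obtain ⟨h, hh⟩ := hsurj (fun i => if (i : Place k κ) = Q then 1 else 0)
  refine ⟨(h : κ), rr_le_regOff hy hP n h.2, fun b hb => ?_, ?_⟩
  · have hbT' : b ∈ T' := Finset.mem_insert_of_mem hb
    have := hasValue_evalRR s hsdeg D hD0 h ⟨b, hbT'⟩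
    rw [hh] at this
    have e : (if ((⟨b, hbT'⟩ : {x // x ∈ T'}) : Place k κ) = Q then (1 : k) else 0) = 0 :=
      if_neg (fun hbQ : b = Q => hQT (hbQ ▸ hb))
    exact e ▸ this
  · have hQT' : Q ∈ T' := Finset.mem_insert_self Q T
    have := hasValue_evalRR s hsdeg D hD0 h ⟨Q, hQT'⟩
    rw [hh] at this
    have e : (if ((⟨Q, hQT'⟩ : {x // x ∈ T'}) : Place k κ) = Q then (1 : k) else 0) = 1 :=
      if_pos rfl
    exact e ▸ this

end Sep

/-! ### the swap symmetry of `Rbar0` -/

section Swap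

open Fermat.Agent.S18.NonSpecial Fermat.Agent.S37.Deuring.Core
open Fermat.Agent.S34.EulerX0 Fermat.Agent.S34.WqGalois
open Fermat.Agent.S34.Euler.RedPair Fermat.Agent.S34.Euler.Chart
open Fermat.Agent.S34.EulerClosedX0

local notation "Kb" => AlgebraicClosure ℚ

attribute [local instance 2000] Fermat.Agent.S34.EulerX0.algResFk

variable {q : ℕ} [hq : Fact q.Prime] [NeZero q] {M : ℕ} [NeZero M]
variable {A : ValuationSubring Kb} (hA : A.LiesOverPrime q) (hqM : ¬ q ∣ M)
variable [CharP (ResidueField ↥A) q] [PerfectField (ResidueField ↥A)]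

include hqM in
/-- `x = j j_q` is `w_q`-invariant -/
theorem wq_xE : wq M q hq.out hqM (xE M q) = xE M q := by
  rw [xE, map_mul, ← alpha_jgen, wq_alpha_jgen, wq_jl]
  exact mul_comm _ _

/-- the pole divisor of `x` is `w_q`-invariant -/
theorem wqAut_smul_D : wqAut hqM • D hqM = D (q := q) (M := M) hqM := by
  ext v
  rw [SemilinearAut.divisor_smul_apply, isPoleDiv_xE hqM, isPoleDiv_xE hqM,
    ← Fermat.Agent.S34.KummerZ.ord_smul_eq, wqAut_smul, wq_xE hqM]

/-- `w_q` preserves `L(r D)` -/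
theorem wq_mem_rr {r : ℕ} {f : ↥(modularFunctionFieldBar (M * q))}
    (hf : f ∈ riemannRochSpace (r • D (q := q) (M := M) hqM)) :
    wq M q hq.out hqM f ∈ riemannRochSpace (r • D (q := q) (M := M) hqM) := by
  have h := smul_mem_rr (wqAut hqM) hf
  rw [wqAut_smul] at h
  have e : wqAut hqM • (r • D (q := q) (M := M) hqM) = r • D hqM := by
    ext v
    rw [SemilinearAut.divisor_smul_apply, Finsupp.smul_apply, Finsupp.smul_apply,
      ← SemilinearAut.divisor_smul_apply, wqAut_smul_D]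
  rwa [e] at h

/-- **`Rbar0` is stable under the swap.** -/
theorem swap_mem_Rbar0 {h₁ h₂ : ↥(modularFunctionFieldFullC (ResidueField ↥A) M)}
    (h : (h₁, h₂) ∈ Rbar0 (G1X0 hA hqM) (G2X0 hA hqM) (isPoleDiv_xE hqM).nonneg) :
    (h₂, h₁) ∈ Rbar0 (G1X0 hA hqM) (G2X0 hA hqM) (isPoleDiv_xE hqM).nonneg := by
  obtain ⟨r, f, m₁, m₂, hf, hp⟩ := h
  have e₁ : (G1X0 hA hqM).red ⟨f, m₁⟩ = h₁ := congrArg Prod.fst hp
  have e₂ : (G2X0 hA hqM).red ⟨f, m₂⟩ = h₂ := congrArg Prod.snd hp
  -- `f' = w_q f`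
  have m₁' : wq M q hq.out hqM f ∈ (G1X0 hA hqM).O := m₂
  have m₂' : wq M q hq.out hqM f ∈ (G2X0 hA hqM).O := by
    show wq M q hq.out hqM (wq M q hq.out hqM f) ∈ (G1X0 hA hqM).O
    rw [wq_wq]
    exact m₁
  refine ⟨r, wq M q hq.out hqM f, m₁', m₂', wq_mem_rr hqM hf, ?_⟩
  unfold redPair
  refine Prod.ext ?_ ?_
  · show (G1X0 hA hqM).red ⟨wq M q hq.out hqM f, m₁'⟩ = h₂
    rw [← e₂]
    rfl
  · show (G2X0 hA hqM).red ⟨wq M q hq.out hqM f, m₂'⟩ = h₁
    rw [← e₁, Fermat.Agent.S34.PairDictSwapX0.G₂_red]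
    congr 1
    apply Subtype.ext
    exact wq_wq hq.out hqM f

end Swap

/-! ### the node set is Frobenius-stable -/

section Stable

open Fermat.Agent.S18.NonSpecial Fermat.Agent.S37.Deuring.Core
open Fermat.Agent.S18.B.FkBasics (jk)
open Fermat.Agent.S34.EulerX0 Fermat.Agent.S34.WqGalois
open Fermat.Agent.S34.FrobK Fermat.Agent.S34.Euler.Places Fermat.Agent.S34.Euler.Value
  Fermat.Agent.S34.Euler.RedPair Fermat.Agent.S34.Euler.Chart Fermat.Agent.S34.Euler.FrobSide
open Fermat.Agent.S34.EulerClosedX0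

local notation "Kb" => AlgebraicClosure ℚ

attribute [local instance 2000] Fermat.Agent.S34.EulerX0.algResFk

variable {q : ℕ} [hq : Fact q.Prime] [NeZero q] {M : ℕ} [NeZero M]
variable {A : ValuationSubring Kb} (hA : A.LiesOverPrime q) (hqM : ¬ q ∣ M)
variable [CharP (ResidueField ↥A) q] [PerfectField (ResidueField ↥A)]
variable [IsAlgClosed (ResidueField ↥A)]

theorem hasValue_zero' {K F : Type*} [Field K] [Field F] [Algebra K F] (v : Place K F) :
    HasValue v (0 : F) (0 : K) := by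
  have := hasValue_const (F := F) v (0 : K)
  rwa [map_zero] at this

/-- **The node set is stable under the Frobenius of places**: any finite set `S` of non-cuspidal
places which describes `Rbar0` as in `EulerClosedX0.exists_nodes_closed` satisfies `Fr S ⊆ S`. -/
theorem Fr_mem_of_mem {gM : ℕ}
    (HM : RiemannHyp (ResidueField ↥A) ↥(modularFunctionFieldFullC (ResidueField ↥A) M) gM)
    {S : Finset (Place (ResidueField ↥A) ↥(modularFunctionFieldFullC (ResidueField ↥A) M))}
    (hS : ∀ b ∈ S, b ∉ P0 (ResidueField ↥A) M)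
    (hbS : ∀ h₁ h₂ : ↥(modularFunctionFieldFullC (ResidueField ↥A) M),
        h₁ ∈ regOff (P0 (ResidueField ↥A) M) → h₂ ∈ regOff (P0 (ResidueField ↥A) M) →
        ((h₁, h₂) ∈ Rbar0 (G1X0 hA hqM) (G2X0 hA hqM) (isPoleDiv_xE hqM).nonneg ↔
          ∀ b ∈ S, ∃ c : ResidueField ↥A,
            HasValue (Fr (ResidueField ↥A) M q b) h₁ c ∧ HasValue b h₂ c))
    {b : Place (ResidueField ↥A) ↥(modularFunctionFieldFullC (ResidueField ↥A) M)} (hb : b ∈ S) :
    Fr (ResidueField ↥A) M q b ∈ S := by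
  by_contra hFb
  have hFbP : Fr (ResidueField ↥A) M q b ∉ P0 (ResidueField ↥A) M :=
    Fr_not_mem_P0 (ResidueField ↥A) M q b (hS b hb)
  have hP : ∀ v, 0 < Ek (ResidueField ↥A) M v ↔ v ∈ P0 (ResidueField ↥A) M := fun v =>
    pos_iff_mem_P0 (ResidueField ↥A) M (n := 0) (by rw [zero_add, pow_one])
      (isPoleDiv_jk (ResidueField ↥A) M) v
  obtain ⟨h, hh, hT, hQ⟩ := exists_sep HM (isPoleDiv_jk (ResidueField ↥A) M)
    (degree_Ek_pos (ResidueField ↥A) M) hP S hS hFb hFbP
  have h0 : (0 : ↥(modularFunctionFieldFullC (ResidueField ↥A) M)) ∈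
      regOff (P0 (ResidueField ↥A) M) := zero_mem _
  have m₁ : ((0 : ↥(modularFunctionFieldFullC (ResidueField ↥A) M)), h) ∈
      Rbar0 (G1X0 hA hqM) (G2X0 hA hqM) (isPoleDiv_xE hqM).nonneg :=
    (hbS 0 h h0 hh).mpr fun b' hb' => ⟨0, hasValue_zero' _, hT b' hb'⟩
  have m₂ := swap_mem_Rbar0 hA hqM m₁
  obtain ⟨c, hc₁, hc₂⟩ := (hbS h 0 hh h0).mp m₂ b hb
  have hc0 : c = 0 := hc₂.unique (hasValue_zero' _)
  rw [hc0] at hc₁
  exact zero_ne_one (hc₁.unique hQ)

end Stable

/-! ### the node record with a Frobenius-stable node set -/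

section Record

open Fermat.Agent.S18.NonSpecial Fermat.Agent.S34.NodalDefs
open Fermat.Agent.S34.Z1X0 Fermat.Agent.S34.CoreZX0Datum Fermat.Agent.S34.CoreZX0Assembly
open Fermat.Agent.S34.CoreZX0Build Fermat.Agent.S34.CoreZX0OfGeneric
open Fermat.Agent.S37.Deuring.Core Fermat.Agent.S37.Gauss.Datum
open Fermat.Agent.S34.Generic.FibAlphaX0 Fermat.Agent.S34.Generic.FibBetaX0
open Fermat.Agent.S34.Generic.BranchX0 Fermat.Agent.S34.WqGalois

local notation "Kb" => AlgebraicClosure ℚ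

attribute [local instance 2000] Fermat.Agent.S34.EulerX0.algResFk

/-- shortcut instances (all propositions) -/
local instance instPDBar' (N : ℕ) [NeZero N] :
    HasPrincipalDivisors Kb ↥(modularFunctionFieldBar N) :=
  Fermat.Agent.S18.A.Instances.hasPrincipalDivisors_bar N

local instance instPDFk' (A : ValuationSubring Kb) (N : ℕ) [NeZero N] :
    HasPrincipalDivisors (ResidueField ↥A) ↥(modularFunctionFieldFullC (ResidueField ↥A) N) :=
  Fermat.Agent.S37.ReductionInputs.hasPrincipalDivisors_Fk A N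

local instance instACk' (A : ValuationSubring Kb) : IsAlgClosed (ResidueField ↥A) :=
  Fermat.Agent.S18.ResidueBasics.isAlgClosed_residueField A

local instance instInfk' (A : ValuationSubring Kb) : Infinite (ResidueField ↥A) :=
  Fermat.Agent.S37.ReductionInputs.infinite_residueField A

local instance instNeZeroMul' (M q : ℕ) [NeZero M] [NeZero q] : NeZero (M * q) :=
  ⟨Nat.mul_ne_zero (NeZero.ne M) (NeZero.ne q)⟩

variable {q : ℕ} [hq : Fact q.Prime] {M : ℕ} [NeZero M] {A : ValuationSubring Kb} [NeZero q]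
variable {hA : A.LiesOverPrime q} {hqM : ¬ q ∣ M}
variable [CharP (ResidueField ↥A) q]

set_option maxHeartbeats 1600000 in
/-- **Record 2 at `X₀(M q)`, with a node set which is `Fr²`-fixed, off the cusps AND
`Fr`-stable.** -/
theorem exists_nodesX0_frStable {gM : ℕ}
    (HM : RiemannHyp (ResidueField ↥A) ↥(modularFunctionFieldFullC (ResidueField ↥A) M) gM)
    (hgen : GenericX0 hA hqM (HX0 hA hqM HM)) :
    ∃ Y : NodesC (inputsX0 hgen),
      (∀ b ∈ Y.S,
        Fermat.Agent.S34.FrobK.Fr (ResidueField ↥A) M q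
            (Fermat.Agent.S34.FrobK.Fr (ResidueField ↥A) M q b) = b ∧
          b ∉ Fermat.Agent.S34.Euler.FrobSide.P0 (ResidueField ↥A) M) ∧
      ∀ b ∈ Y.S, Fermat.Agent.S34.FrobK.Fr (ResidueField ↥A) M q b ∈ Y.S := by
  haveI : PerfectField (ResidueField ↥A) := inferInstance
  obtain ⟨g, HL⟩ := Fermat.Agent.S18.A.RiemannFk.exists_riemannHyp_FL (M * q)
  obtain ⟨S, hS, hNC, hbS⟩ := Fermat.Agent.S34.EulerClosedX0.exists_nodes_closed hA hqM HL HM
  set H := HX0 hA hqM HM with hH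
  set X := inputsX0 hgen with hX
  have hyp := Fermat.Agent.S34.PcgX0.hyp_X0 hqM hA H (isIntegral_alpha hqM) (isIntegral_beta M q)
    (wq M q hq.out hqM) (fun g => wq_alpha hq.out hqM g) (fun g => wq_beta hq.out hqM g)
    (fun x => wq_wq hq.out hqM x) (goodX0 A M q) (R1 X) (R1_r X) X.Fr_Fr_ne
    (isExt₁ hA hqM) (isExt_comap hA hqM) X.α_mem X.red_α X.β_mem H.riemannL H.riemannK
    (Fermat.Agent.S34.EulerClosedX0.G1X0 hA hqM) (Fermat.Agent.S34.EulerClosedX0.G2X0 hA hqM)
    (fun f h => h) (fun f h => h) (fun f h h' => rfl) (fun f h h' => rfl) S hS hbS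
  exact ⟨{ S := S, cuspL := _, hyp := hyp, gE := g, HL := HL, hNC := hNC }, hS,
    fun b hb => Fr_mem_of_mem hA hqM HM (fun b hb => (hS b hb).2) hbS hb⟩

/-- **the node set of the canonical inputs, `Fr²`-fixed, off the cusps and `Fr`-stable, no
hypothesis left**: use `GlueLevelQ.levelQX0 (inputsX0 (CoreZX0.genericX0 hA hqM (HX0 hA hqM HM))) Y`
and `levelQX0_fr_mem` for the hypothesis `hfb` of `GlueNorm.Datum.relations`. -/
theorem exists_nodes_frStable {gM : ℕ}
    (HM : RiemannHyp (ResidueField ↥A) ↥(modularFunctionFieldFullC (ResidueField ↥A) M) gM) :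
    ∃ Y : NodesC (inputsX0 (Fermat.Agent.S34.CoreZX0.genericX0 hA hqM (HX0 hA hqM HM))),
      (∀ b ∈ Y.S, Fermat.Agent.S34.FrobK.Fr (ResidueField ↥A) M q
        (Fermat.Agent.S34.FrobK.Fr (ResidueField ↥A) M q b) = b) ∧
      (∀ b ∈ Y.S, b ∉ Fermat.Agent.S34.Euler.FrobSide.P0 (ResidueField ↥A) M) ∧
      ∀ b ∈ Y.S, Fermat.Agent.S34.FrobK.Fr (ResidueField ↥A) M q b ∈ Y.S := by
  obtain ⟨Y, hY, hY'⟩ := exists_nodesX0_frStable HM
    (Fermat.Agent.S34.CoreZX0.genericX0 hA hqM (HX0 hA hqM HM))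
  exact ⟨Y, fun b hb => (hY b hb).1, fun b hb => (hY b hb).2, hY'⟩

/-- the `Fr`-stability in the shape of the `S`, `fr` fields of `GlueLevelQ.levelQX0` -/
theorem levelQX0_fr_mem {gL gk : ℕ} {H : Hyp (gaussDatum M A hA hqM) gL gk}
    (X : Inputs hA hqM H) (Y : NodesC X)
    (hFr : ∀ b ∈ Y.S, Fermat.Agent.S34.FrobK.Fr (ResidueField ↥A) M q
      (Fermat.Agent.S34.FrobK.Fr (ResidueField ↥A) M q b) = b)
    (hst : ∀ b ∈ Y.S, Fermat.Agent.S34.FrobK.Fr (ResidueField ↥A) M q b ∈ Y.S)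
    {b : Place (ResidueField ↥A) ↥(modularFunctionFieldFullC (ResidueField ↥A) M)}
    (hb : b ∈ (Fermat.Agent.S36.GlueLevelQ.levelQX0 X Y hFr).S) :
    (Fermat.Agent.S36.GlueLevelQ.levelQX0 X Y hFr).fr b ∈
      (Fermat.Agent.S36.GlueLevelQ.levelQX0 X Y hFr).S :=
  hst b hb

end Record

end Fermat.Agent.S36.NodesFrStable
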