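/-
S36 (project V), slice V-PairLiftK0 (chain v1.1 (N2)), `ℚ̄`-side inputs: THE NODE SET OF `X₀(M q)`
MOD `q` TOGETHER WITH ITS DESCRIPTION OF `Rbar0`.

`S36/NodesFrStable.exists_nodes_frStable` (helper8) returns the node record `Y : NodesC ..` with
`Fr² = id`, `Y.S` off the cusps and `Fr Y.S ⊆ Y.S`, but drops the description
`(h₁, h₂) ∈ Rbar0 ↔ ∀ b ∈ S, h₁(Fr b) = h₂(b)` of project U.  The `node` field of
`BranchCore.Datum` needs it for the SAME `S` (a place `b ∉ S` is NOT a node).  Here: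

* `Desc hA hqM S` : the description, as a predicate on `S`;
* `eq_of_desc` : the description DETERMINES `S` among the finite sets of non-cuspidal places (so
  every consumer that obtains "its own" `S` from project U talks about the same set);
* `exists_pair_of_not_mem` **(SEP over `ℚ̄`)** : for a non-cuspidal place `b ∉ S` there are `r` and
  `f ∈ V₁ ∩ V₂ ∩ L(r D)` (`D` the pole divisor of `x = j j_q`) with `red₁ f = 0` and
  `(red₂ f)(b) = 1`;
* `glue_of_mem` **(GLUE over `ℚ̄`)** : for `f ∈ V₁ ∩ V₂ ∩ L(r D)` with reductions regular off the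
  cusps and `b ∈ S`: `(red₁ f)(Fr b) = (red₂ f)(b)`;
* `exists_nodes_desc` : the record of `NodesFrStable.exists_nodes_frStable` WITH `Desc Y.S`.
-/
import Fermat.Agent.S36.NodesFrStable

set_option autoImplicit false
set_option linter.unusedSectionVars false
set_option linter.style.haveILetI false
set_option linter.unusedVariables false
set_option synthInstance.maxHeartbeats 400000

noncomputable section

namespace Fermat.Agent.S36.NodesDesc

open ModularCurve AlgebraicCurve IsLocalRing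

section Desc

open Fermat.Agent.S18.NonSpecial Fermat.Agent.S37.Deuring.Core
open Fermat.Agent.S18.B.FkBasics (jk)
open Fermat.Agent.S34.EulerX0 Fermat.Agent.S34.WqGalois
open Fermat.Agent.S34.FrobK Fermat.Agent.S34.Euler.Places Fermat.Agent.S34.Euler.Value
  Fermat.Agent.S34.Euler.RedPair Fermat.Agent.S34.Euler.Chart Fermat.Agent.S34.Euler.FrobSide
open Fermat.Agent.S34.EulerClosedX0 Fermat.Agent.S36.NodesFrStable

local notation "Kb" => AlgebraicClosure ℚ

attribute [local instance 2000] Fermat.Agent.S34.EulerX0.algResFk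

variable {q : ℕ} [hq : Fact q.Prime] [NeZero q] {M : ℕ} [NeZero M]
variable {A : ValuationSubring Kb} (hA : A.LiesOverPrime q) (hqM : ¬ q ∣ M)
variable [CharP (ResidueField ↥A) q] [PerfectField (ResidueField ↥A)]
variable [IsAlgClosed (ResidueField ↥A)]

/-- **the description of `Rbar0` by a finite set `S` of places** (project U, chart 0) -/
def Desc (S : Finset (Place (ResidueField ↥A) ↥(modularFunctionFieldFullC (ResidueField ↥A) M))) :
    Prop :=
  ∀ h₁ h₂ : ↥(modularFunctionFieldFullC (ResidueField ↥A) M),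
    h₁ ∈ regOff (P0 (ResidueField ↥A) M) → h₂ ∈ regOff (P0 (ResidueField ↥A) M) →
    ((h₁, h₂) ∈ Rbar0 (G1X0 hA hqM) (G2X0 hA hqM) (isPoleDiv_xE hqM).nonneg ↔
      ∀ b ∈ S, ∃ c : ResidueField ↥A,
        HasValue (Fr (ResidueField ↥A) M q b) h₁ c ∧ HasValue b h₂ c)

variable {hA hqM}

/-- **(SEP) over `ℚ̄`**: a non-cuspidal place `b ∉ S` is separated from the first component by an
integral function with poles at the cusps only: `red₁ f = 0`, `(red₂ f)(b) = 1`. -/
theorem exists_pair_of_not_mem {gM : ℕ}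
    (HM : RiemannHyp (ResidueField ↥A) ↥(modularFunctionFieldFullC (ResidueField ↥A) M) gM)
    {S : Finset (Place (ResidueField ↥A) ↥(modularFunctionFieldFullC (ResidueField ↥A) M))}
    (hS : ∀ b ∈ S, b ∉ P0 (ResidueField ↥A) M) (hbS : Desc hA hqM S)
    {b : Place (ResidueField ↥A) ↥(modularFunctionFieldFullC (ResidueField ↥A) M)}
    (hb : b ∉ S) (hbP : b ∉ P0 (ResidueField ↥A) M) :
    ∃ (r : ℕ) (f : ↥(modularFunctionFieldBar (M * q))) (m₁ : f ∈ (G1X0 hA hqM).O)
      (m₂ : f ∈ (G2X0 hA hqM).O), f ∈ riemannRochSpace (r • D (q := q) (M := M) hqM) ∧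
        (G1X0 hA hqM).red ⟨f, m₁⟩ = 0 ∧ HasValue b ((G2X0 hA hqM).red ⟨f, m₂⟩) 1 := by
  have hP : ∀ v, 0 < Ek (ResidueField ↥A) M v ↔ v ∈ P0 (ResidueField ↥A) M := fun v =>
    pos_iff_mem_P0 (ResidueField ↥A) M (n := 0) (by rw [zero_add, pow_one])
      (isPoleDiv_jk (ResidueField ↥A) M) v
  obtain ⟨h, hh, hT, hQ⟩ := exists_sep HM (isPoleDiv_jk (ResidueField ↥A) M)
    (degree_Ek_pos (ResidueField ↥A) M) hP S hS hb hbP
  have h0 : (0 : ↥(modularFunctionFieldFullC (ResidueField ↥A) M)) ∈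
      regOff (P0 (ResidueField ↥A) M) := zero_mem _
  have m : ((0 : ↥(modularFunctionFieldFullC (ResidueField ↥A) M)), h) ∈
      Rbar0 (G1X0 hA hqM) (G2X0 hA hqM) (isPoleDiv_xE hqM).nonneg :=
    (hbS 0 h h0 hh).mpr fun b' hb' => ⟨0, hasValue_zero' _, hT b' hb'⟩
  obtain ⟨r, f, m₁, m₂, hf, hp⟩ := m
  have e₁ : (G1X0 hA hqM).red ⟨f, m₁⟩ = 0 := congrArg Prod.fst hp
  have e₂ : (G2X0 hA hqM).red ⟨f, m₂⟩ = h := congrArg Prod.snd hp
  exact ⟨r, f, m₁, m₂, hf, e₁, e₂ ▸ hQ⟩

/-- **(GLUE) over `ℚ̄`**: the two reductions of an integral function with poles at the cusps only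
take the same value at the two branches of every node. -/
theorem glue_of_mem
    {S : Finset (Place (ResidueField ↥A) ↥(modularFunctionFieldFullC (ResidueField ↥A) M))}
    (hbS : Desc hA hqM S) {r : ℕ} {f : ↥(modularFunctionFieldBar (M * q))}
    (m₁ : f ∈ (G1X0 hA hqM).O) (m₂ : f ∈ (G2X0 hA hqM).O)
    (hf : f ∈ riemannRochSpace (r • D (q := q) (M := M) hqM))
    (h₁ : (G1X0 hA hqM).red ⟨f, m₁⟩ ∈ regOff (P0 (ResidueField ↥A) M))
    (h₂ : (G2X0 hA hqM).red ⟨f, m₂⟩ ∈ regOff (P0 (ResidueField ↥A) M))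
    {b : Place (ResidueField ↥A) ↥(modularFunctionFieldFullC (ResidueField ↥A) M)} (hb : b ∈ S) :
    ∃ c : ResidueField ↥A, HasValue (Fr (ResidueField ↥A) M q b) ((G1X0 hA hqM).red ⟨f, m₁⟩) c ∧
      HasValue b ((G2X0 hA hqM).red ⟨f, m₂⟩) c :=
  (hbS _ _ h₁ h₂).mp ⟨r, f, m₁, m₂, hf, rfl⟩ b hb

/-- **The description determines `S`** among the finite sets of non-cuspidal places. -/
theorem subset_of_desc {gM : ℕ}
    (HM : RiemannHyp (ResidueField ↥A) ↥(modularFunctionFieldFullC (ResidueField ↥A) M) gM)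
    {S S' : Finset (Place (ResidueField ↥A) ↥(modularFunctionFieldFullC (ResidueField ↥A) M))}
    (hS : ∀ b ∈ S, b ∉ P0 (ResidueField ↥A) M) (hS' : ∀ b ∈ S', b ∉ P0 (ResidueField ↥A) M)
    (hbS : Desc hA hqM S) (hbS' : Desc hA hqM S') : S ⊆ S' := by
  intro b hb
  by_contra hb'
  have hP : ∀ v, 0 < Ek (ResidueField ↥A) M v ↔ v ∈ P0 (ResidueField ↥A) M := fun v =>
    pos_iff_mem_P0 (ResidueField ↥A) M (n := 0) (by rw [zero_add, pow_one])
      (isPoleDiv_jk (ResidueField ↥A) M) v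
  obtain ⟨h, hh, hT, hQ⟩ := exists_sep HM (isPoleDiv_jk (ResidueField ↥A) M)
    (degree_Ek_pos (ResidueField ↥A) M) hP S' hS' hb' (hS b hb)
  have h0 : (0 : ↥(modularFunctionFieldFullC (ResidueField ↥A) M)) ∈
      regOff (P0 (ResidueField ↥A) M) := zero_mem _
  have m : ((0 : ↥(modularFunctionFieldFullC (ResidueField ↥A) M)), h) ∈
      Rbar0 (G1X0 hA hqM) (G2X0 hA hqM) (isPoleDiv_xE hqM).nonneg :=
    (hbS' 0 h h0 hh).mpr fun b' hb' => ⟨0, hasValue_zero' _, hT b' hb'⟩
  obtain ⟨c, hc₁, hc₂⟩ := (hbS 0 h h0 hh).mp m b hb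
  have hc0 : c = 0 := hc₁.unique (hasValue_zero' _)
  rw [hc0] at hc₂
  exact zero_ne_one (hc₂.unique hQ)

theorem eq_of_desc {gM : ℕ}
    (HM : RiemannHyp (ResidueField ↥A) ↥(modularFunctionFieldFullC (ResidueField ↥A) M) gM)
    {S S' : Finset (Place (ResidueField ↥A) ↥(modularFunctionFieldFullC (ResidueField ↥A) M))}
    (hS : ∀ b ∈ S, b ∉ P0 (ResidueField ↥A) M) (hS' : ∀ b ∈ S', b ∉ P0 (ResidueField ↥A) M)
    (hbS : Desc hA hqM S) (hbS' : Desc hA hqM S') : S = S' :=
  Finset.Subset.antisymm (subset_of_desc HM hS hS' hbS hbS') (subset_of_desc HM hS' hS hbS' hbS)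

end Desc

/-! ### the node record with the description -/

section Record

open Fermat.Agent.S18.NonSpecial Fermat.Agent.S34.NodalDefs
open Fermat.Agent.S34.Z1X0 Fermat.Agent.S34.CoreZX0Datum Fermat.Agent.S34.CoreZX0Assembly
open Fermat.Agent.S34.CoreZX0Build Fermat.Agent.S34.CoreZX0OfGeneric
open Fermat.Agent.S37.Deuring.Core Fermat.Agent.S37.Gauss.Datum
open Fermat.Agent.S34.Generic.FibAlphaX0 Fermat.Agent.S34.Generic.FibBetaX0
open Fermat.Agent.S34.Generic.BranchX0 Fermat.Agent.S34.WqGalois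

local notation "Kb" => AlgebraicClosure ℚ

attribute [local instance 2000] Fermat.Agent.S34.EulerX0.algResFk

/-- shortcut instances (all propositions) -/
local instance instPDBar'' (N : ℕ) [NeZero N] :
    HasPrincipalDivisors Kb ↥(modularFunctionFieldBar N) :=
  Fermat.Agent.S18.A.Instances.hasPrincipalDivisors_bar N

local instance instPDFk'' (A : ValuationSubring Kb) (N : ℕ) [NeZero N] :
    HasPrincipalDivisors (ResidueField ↥A) ↥(modularFunctionFieldFullC (ResidueField ↥A) N) :=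
  Fermat.Agent.S37.ReductionInputs.hasPrincipalDivisors_Fk A N

local instance instACk'' (A : ValuationSubring Kb) : IsAlgClosed (ResidueField ↥A) :=
  Fermat.Agent.S18.ResidueBasics.isAlgClosed_residueField A

local instance instInfk'' (A : ValuationSubring Kb) : Infinite (ResidueField ↥A) :=
  Fermat.Agent.S37.ReductionInputs.infinite_residueField A

local instance instNeZeroMul'' (M q : ℕ) [NeZero M] [NeZero q] : NeZero (M * q) :=
  ⟨Nat.mul_ne_zero (NeZero.ne M) (NeZero.ne q)⟩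

variable {q : ℕ} [hq : Fact q.Prime] {M : ℕ} [NeZero M] {A : ValuationSubring Kb} [NeZero q]
variable {hA : A.LiesOverPrime q} {hqM : ¬ q ∣ M}
variable [CharP (ResidueField ↥A) q]

set_option maxHeartbeats 1600000 in
/-- **Record 2 at `X₀(M q)` with a node set which is `Fr²`-fixed, off the cusps, `Fr`-stable AND
describes `Rbar0`.** -/
theorem exists_nodesX0_desc {gM : ℕ}
    (HM : RiemannHyp (ResidueField ↥A) ↥(modularFunctionFieldFullC (ResidueField ↥A) M) gM)
    (hgen : GenericX0 hA hqM (HX0 hA hqM HM)) :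
    ∃ Y : NodesC (inputsX0 hgen),
      (∀ b ∈ Y.S,
        Fermat.Agent.S34.FrobK.Fr (ResidueField ↥A) M q
            (Fermat.Agent.S34.FrobK.Fr (ResidueField ↥A) M q b) = b ∧
          b ∉ Fermat.Agent.S34.Euler.FrobSide.P0 (ResidueField ↥A) M) ∧
      (∀ b ∈ Y.S, Fermat.Agent.S34.FrobK.Fr (ResidueField ↥A) M q b ∈ Y.S) ∧
      Desc hA hqM Y.S := by
  haveI : PerfectField (ResidueField ↥A) := inferInstance
  obtain ⟨g, HL⟩ := Fermat.Agent.S18.A.RiemannFk.exists_riemannHyp_FL (M * q)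
  obtain ⟨S, hS, hNC, hbS⟩ := Fermat.Agent.S34.EulerClosedX0.exists_nodes_closed hA hqM HL HM
  set H := HX0 hA hqM HM with hH
  set X := inputsX0 hgen with hX
  have hyp := Fermat.Agent.S34.PcgX0.hyp_X0 hqM hA H (isIntegral_alpha hqM) (isIntegral_beta M q)
    (wq M q hq.out hqM) (fun g => wq_alpha hq.out hqM g) (fun g => wq_beta hq.out hqM g)
    (fun x => wq_wq hq.out hqM x) (goodX0 A M q) (R1 X) (R1_r X) X.Fr_Fr_ne
    (isExt₁ hA hqM) (isExt_comap hA hqM) X.α_mem X.red_α X.β_mem H.riemannL H.riemannK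
    (Fermat.Agent.S34.EulerClosedX0.G1X0 hA hqM) (Fermat.Agent.S34.EulerClosedX0.G2X0 hA hqM)
    (fun f h => h) (fun f h => h) (fun f h h' => rfl) (fun f h h' => rfl) S hS hbS
  exact ⟨{ S := S, cuspL := _, hyp := hyp, gE := g, HL := HL, hNC := hNC }, hS,
    fun b hb => Fermat.Agent.S36.NodesFrStable.Fr_mem_of_mem hA hqM HM
      (fun b hb => (hS b hb).2) hbS hb, hbS⟩

/-- **the node set of the canonical inputs with its description of `Rbar0`, no hypothesis left** -/
theorem exists_nodes_desc {gM : ℕ}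
    (HM : RiemannHyp (ResidueField ↥A) ↥(modularFunctionFieldFullC (ResidueField ↥A) M) gM) :
    ∃ Y : NodesC (inputsX0 (Fermat.Agent.S34.CoreZX0.genericX0 hA hqM (HX0 hA hqM HM))),
      (∀ b ∈ Y.S, Fermat.Agent.S34.FrobK.Fr (ResidueField ↥A) M q
        (Fermat.Agent.S34.FrobK.Fr (ResidueField ↥A) M q b) = b) ∧
      (∀ b ∈ Y.S, b ∉ Fermat.Agent.S34.Euler.FrobSide.P0 (ResidueField ↥A) M) ∧
      (∀ b ∈ Y.S, Fermat.Agent.S34.FrobK.Fr (ResidueField ↥A) M q b ∈ Y.S) ∧
      Desc hA hqM Y.S := by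
  obtain ⟨Y, hY, hY', hd⟩ := exists_nodesX0_desc HM
    (Fermat.Agent.S34.CoreZX0.genericX0 hA hqM (HX0 hA hqM HM))
  exact ⟨Y, fun b hb => (hY b hb).1, fun b hb => (hY b hb).2, hY', hd⟩

end Record

end Fermat.Agent.S36.NodesDesc
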