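/-
PROJECT V (S36), slice V-KrullInter (helper12): **a noetherian integrally closed domain is the
intersection of discrete valuation subrings of its fraction field** (Mathlib has no Krull-domain
theorem), in a form that can be consumed chart by chart.

Setting: `A` a noetherian integrally closed domain, `F` a fraction field of `A`.

* `locSubring P` : the localisation of `A` at a prime `P`, as a subring of `F`.
* `IsCond P y` : `P` is a prime ideal of `A` which is the conductor `{r | r y ∈ A}` of `y : F`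
  (so `P` is an associated prime of a principal ideal).
* `IsCond.valuationSubring` : for such `(P, y)` the subring `locSubring P` is a valuation subring;
  it is *discrete* (`IsCond.unit_or_div`: every element is a unit or divisible by `y⁻¹`;
  `IsCond.exists_pow`: every nonzero element is `unit * (y⁻¹) ^ n`), its centre on `A` is `P`
  (`IsCond.mem_iff_inv_not_mem`) and `P` has height one
  (`IsCond.eq_bot_or_eq_of_le`: a prime `Q ≤ P` is `⊥` or `P`).
* `exists_isCond_not_mem` : every `x : F` outside `A` is outside some `locSubring P` with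
  `IsCond P y` (**Krull intersection**).
* `mem_range_of_forall_valuationSubring` : the intersection form.
* `mem_range_of_vertical_horizontal` : **chart form**.  `B ⊆ A` integral with `B` integrally
  closed, `π : B` a prime element.  If `x` lies in every valuation subring `V ⊇ A` of `F` which is
  *vertical* (`π` a non-unit of `V`, every `s ∈ B ∖ (π)` a unit of `V`: `V` extends the
  localisation of `B` at `(π)`, the Gauss valuation when `B = O[φ]`) and in every valuation
  subring `V ⊇ A` which is *horizontal* (`π` a unit of `V`), then `x ∈ A`.  The dichotomy uses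
  going-down only (no height theory).
-/
import Mathlib

set_option autoImplicit false
set_option linter.unusedSectionVars false
set_option linter.style.haveILetI false
set_option linter.unusedVariables false

namespace Fermat.Agent.S36.KrullInter

variable {A : Type*} [CommRing A] [IsDomain A] {F : Type*} [Field F] [Algebra A F]
  [IsFractionRing A F]

local notation "ι" => algebraMap A F

theorem algebraMap_ne_zero' {a : A} (ha : a ≠ 0) : ι a ≠ 0 := fun h =>
  ha ((IsFractionRing.injective A F) (by rw [h, map_zero]))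

/-! ### Localisation at a prime inside `F` -/

/-- The localisation of `A` at the prime `P`, as a subring of the fraction field `F`. -/
def locSubring (P : Ideal A) [hP : P.IsPrime] : Subring F where
  carrier := {z | ∃ s : A, s ∉ P ∧ ∃ a : A, ι s * z = ι a}
  mul_mem' := by
    rintro z₁ z₂ ⟨s₁, hs₁, a₁, h₁⟩ ⟨s₂, hs₂, a₂, h₂⟩
    refine ⟨s₁ * s₂, fun h => (hP.mem_or_mem h).elim hs₁ hs₂, a₁ * a₂, ?_⟩
    rw [map_mul, map_mul, ← h₁, ← h₂]; ring
  one_mem' := ⟨1, fun h => hP.ne_top ((Ideal.eq_top_iff_one P).2 h), 1, by rw [map_one, mul_one]⟩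
  add_mem' := by
    rintro z₁ z₂ ⟨s₁, hs₁, a₁, h₁⟩ ⟨s₂, hs₂, a₂, h₂⟩
    refine ⟨s₁ * s₂, fun h => (hP.mem_or_mem h).elim hs₁ hs₂, s₂ * a₁ + s₁ * a₂, ?_⟩
    rw [map_mul, map_add, map_mul, map_mul, ← h₁, ← h₂]; ring
  zero_mem' := ⟨1, fun h => hP.ne_top ((Ideal.eq_top_iff_one P).2 h), 0, by
    rw [map_zero, mul_zero]⟩
  neg_mem' := by
    rintro z ⟨s, hs, a, h⟩
    exact ⟨s, hs, -a, by rw [map_neg, ← h]; ring⟩

theorem mem_locSubring {P : Ideal A} [P.IsPrime] {z : F} :
    z ∈ locSubring (F := F) P ↔ ∃ s : A, s ∉ P ∧ ∃ a : A, ι s * z = ι a := Iff.rfl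

theorem algebraMap_mem_locSubring (P : Ideal A) [hP : P.IsPrime] (a : A) :
    ι a ∈ locSubring (F := F) P :=
  ⟨1, fun h => hP.ne_top ((Ideal.eq_top_iff_one P).2 h), a, by rw [map_one, one_mul]⟩

theorem inv_mem_locSubring {P : Ideal A} [hP : P.IsPrime] {s : A} (hs : s ∉ P) :
    (ι s)⁻¹ ∈ locSubring (F := F) P := by
  have hs0 : s ≠ 0 := fun h => hs (h ▸ P.zero_mem)
  exact ⟨s, hs, 1, by rw [map_one, mul_inv_cancel₀ (algebraMap_ne_zero' hs0)]⟩

/-! ### Conductor primes -/

/-- `P` is a prime ideal which is the conductor `{r | r y ∈ A}` of `y : F`. -/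
structure IsCond (P : Ideal A) (y : F) : Prop where
  prime : P.IsPrime
  mem_iff : ∀ r : A, r ∈ P ↔ ∃ a : A, ι r * y = ι a

namespace IsCond

variable {P : Ideal A} {y : F}

theorem not_mem_range (h : IsCond P y) : ¬ ∃ a : A, y = ι a := by
  rintro ⟨a, ha⟩
  exact h.prime.ne_top ((Ideal.eq_top_iff_one P).2 ((h.mem_iff 1).2 ⟨a, by rw [map_one, one_mul, ha]⟩))

theorem ne_zero (h : IsCond P y) : y ≠ 0 := fun h0 =>
  h.not_mem_range ⟨0, by rw [h0, map_zero]⟩

theorem not_mem_locSubring (h : IsCond P y) :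
    haveI := h.prime
    y ∉ locSubring (F := F) P := by
  haveI := h.prime
  rintro ⟨s, hs, a, ha⟩
  exact hs ((h.mem_iff s).2 ⟨a, ha⟩)

theorem ne_bot (h : IsCond P y) : P ≠ ⊥ := by
  obtain ⟨a, b, hb, hab⟩ := IsFractionRing.div_surjective (A := A) y
  have hb0 : (b : A) ≠ 0 := nonZeroDivisors.ne_zero hb
  intro hbot
  have : (b : A) ∈ P := (h.mem_iff b).2 ⟨a, by
    rw [← hab, mul_div_cancel₀ _ (algebraMap_ne_zero' hb0)]⟩
  rw [hbot, Ideal.mem_bot] at this
  exact hb0 this

variable [IsNoetherianRing A] [IsIntegrallyClosed A]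

/-- The key step: `y P ⊄ P`, by integrality. -/
theorem exists_mul_eq (h : IsCond P y) : ∃ p₀ ∈ P, ∃ u₀ : A, u₀ ∉ P ∧ ι p₀ * y = ι u₀ := by
  by_contra hcon
  push Not at hcon
  -- `y • P ⊆ P`
  have hstab : ∀ p ∈ P, ∃ a ∈ P, ι p * y = ι a := by
    intro p hp
    obtain ⟨a, ha⟩ := (h.mem_iff p).1 hp
    refine ⟨a, ?_, ha⟩
    by_contra haP
    exact hcon p hp a haP ha
  let N : Submodule A F := Submodule.map (Algebra.linearMap A F) P
  have hN : N ≠ ⊥ := by
    intro hbot
    apply h.ne_bot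
    rw [Submodule.eq_bot_iff]
    intro p hp
    have : ι p ∈ N := Submodule.mem_map_of_mem (f := Algebra.linearMap A F) hp
    rw [hbot, Submodule.mem_bot] at this
    exact (IsFractionRing.injective A F) (by rw [this, map_zero])
  have hNfg : N.FG := Submodule.FG.map _ (IsNoetherian.noetherian P)
  have hint : IsIntegral A y := by
    refine isIntegral_of_smul_mem_submodule (M := F) N hN hNfg y ?_
    rintro n ⟨p, hp, rfl⟩
    obtain ⟨a, haP, ha⟩ := hstab p hp
    refine ⟨a, haP, ?_⟩
    rw [Algebra.linearMap_apply, Algebra.linearMap_apply, smul_eq_mul, mul_comm, ha]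
  obtain ⟨a, ha⟩ := IsIntegrallyClosed.isIntegral_iff.1 hint
  exact h.not_mem_range ⟨a, ha.symm⟩

theorem inv_mem_locSubring' (h : IsCond P y) :
    haveI := h.prime
    y⁻¹ ∈ locSubring (F := F) P := by
  haveI := h.prime
  obtain ⟨p₀, -, u₀, hu₀, he⟩ := h.exists_mul_eq
  refine ⟨u₀, hu₀, p₀, ?_⟩
  rw [← he, mul_assoc, mul_inv_cancel₀ h.ne_zero, mul_one]

omit [IsNoetherianRing A] [IsIntegrallyClosed A] in
/-- Every element of the localisation is a unit or divisible by `y⁻¹`. -/
theorem unit_or_div (h : IsCond P y) :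
    haveI := h.prime
    ∀ z ∈ locSubring (F := F) P, z⁻¹ ∈ locSubring (F := F) P ∨ z * y ∈ locSubring (F := F) P := by
  haveI := h.prime
  rintro z ⟨s, hs, a, ha⟩
  by_cases haP : a ∈ P
  · right
    obtain ⟨a', ha'⟩ := (h.mem_iff a).1 haP
    exact ⟨s, hs, a', by rw [← mul_assoc, ha, ha']⟩
  · left
    have ha0 : a ≠ 0 := fun h0 => haP (h0 ▸ P.zero_mem)
    have hs0 : s ≠ 0 := fun h0 => hs (h0 ▸ P.zero_mem)
    have hz : z = ι a / ι s := by
      rw [eq_div_iff (algebraMap_ne_zero' hs0), mul_comm, ha]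
    refine ⟨a, haP, s, ?_⟩
    rw [hz, inv_div, mul_div_cancel₀ _ (algebraMap_ne_zero' ha0)]

/-- The ideal of `A` of the multiples of `ι a * y ^ n` in the localisation. -/
def chainIdeal (P : Ideal A) [P.IsPrime] (y : F) (a : A) (n : ℕ) : Ideal A where
  carrier := {c | ∃ v ∈ locSubring (F := F) P, ι c = ι a * y ^ n * v}
  add_mem' := by
    rintro c₁ c₂ ⟨v₁, hv₁, h₁⟩ ⟨v₂, hv₂, h₂⟩
    exact ⟨v₁ + v₂, Subring.add_mem _ hv₁ hv₂, by rw [map_add, h₁, h₂]; ring⟩
  zero_mem' := ⟨0, Subring.zero_mem _, by rw [map_zero, mul_zero]⟩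
  smul_mem' := by
    rintro c' c ⟨v, hv, h₁⟩
    exact ⟨ι c' * v, Subring.mul_mem _ (algebraMap_mem_locSubring P c') hv, by
      rw [smul_eq_mul, map_mul, h₁]; ring⟩

/-- Every nonzero element of `A` is `unit * (y⁻¹) ^ n` in the localisation. -/
theorem exists_pow_of_algebraMap (h : IsCond P y) {a : A} (ha : a ≠ 0) :
    haveI := h.prime
    ∃ n : ℕ, ι a * y ^ n ∈ locSubring (F := F) P ∧ (ι a * y ^ n)⁻¹ ∈ locSubring (F := F) P := by
  haveI := h.prime
  by_contra hcon
  push Not at hcon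
  have hall : ∀ n : ℕ, ι a * y ^ n ∈ locSubring (F := F) P := by
    intro n
    induction n with
    | zero => rw [pow_zero, mul_one]; exact algebraMap_mem_locSubring P a
    | succ n ih =>
      rcases h.unit_or_div _ ih with hu | hd
      · exact absurd hu (hcon n ih)
      · rwa [pow_succ, ← mul_assoc]
  -- the ascending chain
  have hmono : Monotone (chainIdeal (F := F) P y a) := by
    refine monotone_nat_of_le_succ fun n c hc => ?_
    obtain ⟨v, hv, h₁⟩ := hc
    refine ⟨y⁻¹ * v, Subring.mul_mem _ h.inv_mem_locSubring' hv, ?_⟩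
    rw [h₁, pow_succ]
    field_simp [h.ne_zero]
  obtain ⟨n, hn⟩ := monotone_stabilizes_iff_noetherian.2 inferInstance
    ⟨chainIdeal (F := F) P y a, hmono⟩
  obtain ⟨s', hs', c, hc⟩ := hall (n + 1)
  have hc1 : c ∈ chainIdeal (F := F) P y a (n + 1) :=
    ⟨ι s', algebraMap_mem_locSubring P s', by rw [← hc]; ring⟩
  have hc2 : c ∈ chainIdeal (F := F) P y a n := by
    have := hn (n + 1) (Nat.le_succ n)
    simp only [OrderHom.coe_mk] at this
    rw [this]; exact hc1
  obtain ⟨v, hv, h₂⟩ := hc2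
  have hay : ι a * y ^ n ≠ 0 := mul_ne_zero (algebraMap_ne_zero' ha) (pow_ne_zero n h.ne_zero)
  have hyv : ι s' * y = v := by
    apply mul_left_cancel₀ hay
    rw [← h₂, ← hc, pow_succ]; ring
  have hs'0 : s' ≠ 0 := fun h0 => hs' (h0 ▸ P.zero_mem)
  have hmem : (ι s')⁻¹ * v ∈ locSubring (F := F) P :=
    Subring.mul_mem _ (inv_mem_locSubring hs') hv
  have hyeq : (ι s')⁻¹ * v = y := by
    rw [← hyv, ← mul_assoc, inv_mul_cancel₀ (algebraMap_ne_zero' hs'0), one_mul]
  rw [hyeq] at hmem
  exact h.not_mem_locSubring hmem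

theorem mem_or_inv_mem (h : IsCond P y) (z : F) :
    haveI := h.prime
    z ∈ locSubring (F := F) P ∨ z⁻¹ ∈ locSubring (F := F) P := by
  haveI := h.prime
  by_cases hz : z = 0
  · left; rw [hz]; exact Subring.zero_mem _
  obtain ⟨a, b, hb, hab⟩ := IsFractionRing.div_surjective (A := A) z
  have hb0 : (b : A) ≠ 0 := nonZeroDivisors.ne_zero hb
  have ha0 : a ≠ 0 := by
    rintro rfl
    rw [map_zero, zero_div] at hab
    exact hz hab.symm
  obtain ⟨n, hn1, hn2⟩ := h.exists_pow_of_algebraMap ha0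
  obtain ⟨m, hm1, hm2⟩ := h.exists_pow_of_algebraMap hb0
  have hy := h.ne_zero
  have hia := algebraMap_ne_zero' (F := F) ha0
  have hib := algebraMap_ne_zero' (F := F) hb0
  rcases le_total m n with hmn | hnm
  · left
    obtain ⟨k, rfl⟩ := Nat.exists_eq_add_of_le hmn
    have : z = (ι a * y ^ (m + k)) * (ι (b : A) * y ^ m)⁻¹ * (y⁻¹) ^ k := by
      rw [← hab, pow_add, inv_pow]
      field_simp
    rw [this]
    exact Subring.mul_mem _ (Subring.mul_mem _ hn1 hm2) (Subring.pow_mem _ h.inv_mem_locSubring' k)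
  · right
    obtain ⟨k, rfl⟩ := Nat.exists_eq_add_of_le hnm
    have : z⁻¹ = (ι (b : A) * y ^ (n + k)) * (ι a * y ^ n)⁻¹ * (y⁻¹) ^ k := by
      rw [← hab, pow_add, inv_pow]
      field_simp
    rw [this]
    exact Subring.mul_mem _ (Subring.mul_mem _ hm1 hn2) (Subring.pow_mem _ h.inv_mem_locSubring' k)

/-- The discrete valuation subring `A_P` of `F` attached to a conductor prime. -/
def valuationSubring (h : IsCond P y) : ValuationSubring F :=
  haveI := h.prime
  { locSubring (F := F) P with mem_or_inv_mem' := h.mem_or_inv_mem }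

theorem mem_valuationSubring (h : IsCond P y) {z : F} :
    z ∈ h.valuationSubring ↔ ∃ s : A, s ∉ P ∧ ∃ a : A, ι s * z = ι a := Iff.rfl

theorem algebraMap_mem (h : IsCond P y) (a : A) : ι a ∈ h.valuationSubring :=
  haveI := h.prime
  algebraMap_mem_locSubring P a

theorem not_mem (h : IsCond P y) : y ∉ h.valuationSubring := h.not_mem_locSubring

theorem inv_mem (h : IsCond P y) : y⁻¹ ∈ h.valuationSubring := h.inv_mem_locSubring'

theorem unit_or_div' (h : IsCond P y) {z : F} (hz : z ∈ h.valuationSubring) :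
    z⁻¹ ∈ h.valuationSubring ∨ z * y ∈ h.valuationSubring := h.unit_or_div z hz

omit [IsNoetherianRing A] [IsIntegrallyClosed A] in
/-- The centre of the valuation subring on `A` is `P`. -/
theorem mem_iff_inv_not_mem (h : IsCond P y) {r : A} (hr : r ≠ 0) :
    haveI := h.prime
    r ∈ P ↔ (ι r)⁻¹ ∉ locSubring (F := F) P := by
  haveI := h.prime
  constructor
  · rintro hrP ⟨s, hs, a, ha⟩
    apply hs
    have : s = a * r := by
      apply IsFractionRing.injective A F
      rw [map_mul, ← ha, mul_assoc, inv_mul_cancel₀ (algebraMap_ne_zero' hr), mul_one]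
    rw [this]
    exact P.mul_mem_left a hrP
  · intro hnot
    by_contra hrP
    exact hnot (inv_mem_locSubring hrP)

/-- `P` has height one: a prime `Q ≤ P` is `⊥` or `P`. -/
theorem eq_bot_or_eq_of_le (h : IsCond P y) (Q : Ideal A) [hQ : Q.IsPrime] (hQP : Q ≤ P) :
    Q = ⊥ ∨ Q = P := by
  haveI := h.prime
  by_cases hbot : Q = ⊥
  · exact Or.inl hbot
  right
  obtain ⟨r, hrQ, hr0⟩ := Submodule.exists_mem_ne_zero_of_ne_bot hbot
  obtain ⟨p₀, hp₀, u₀, hu₀, he⟩ := h.exists_mul_eq
  have hu₀0 : u₀ ≠ 0 := fun h0 => hu₀ (h0 ▸ P.zero_mem)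
  have hp₀0 : p₀ ≠ 0 := by
    rintro rfl
    rw [map_zero, zero_mul] at he
    exact hu₀0 ((IsFractionRing.injective A F) (by rw [← he, map_zero]))
  have hip₀ : ι p₀ ≠ 0 := algebraMap_ne_zero' hp₀0
  have hyeq : y = ι u₀ / ι p₀ := by
    rw [eq_div_iff hip₀, mul_comm, he]
  obtain ⟨n, ⟨s₁, hs₁, a₁, h₁⟩, ⟨s₂, hs₂, a₂, h₂⟩⟩ := h.exists_pow_of_algebraMap hr0
  -- `a₁ ∉ P`
  have hprod : s₁ * s₂ = a₁ * a₂ := by
    apply IsFractionRing.injective A F
    have hne : ι r * y ^ n ≠ 0 :=
      mul_ne_zero (algebraMap_ne_zero' hr0) (pow_ne_zero n h.ne_zero)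
    have hW : (ι r * y ^ n) * (ι r * y ^ n)⁻¹ = 1 := mul_inv_cancel₀ hne
    rw [map_mul, map_mul, ← h₁, ← h₂]
    generalize (ι r * y ^ n)⁻¹ = W' at hW ⊢
    generalize ι r * y ^ n = W at hW ⊢
    linear_combination (-(ι s₁ * ι s₂)) * hW
  have ha₁ : a₁ ∉ P := fun hmem =>
    (h.prime.mem_or_mem (hprod ▸ P.mul_mem_right a₂ hmem : s₁ * s₂ ∈ P)).elim hs₁ hs₂
  -- `r u₀ ^ n s₁ = a₁ p₀ ^ n`
  have hrel : r * u₀ ^ n * s₁ = a₁ * p₀ ^ n := by
    apply IsFractionRing.injective A F
    rw [map_mul, map_mul, map_mul, map_pow, map_pow, ← h₁, hyeq, div_pow]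
    field_simp
  have hp₀Q : p₀ ∈ Q := by
    have : a₁ * p₀ ^ n ∈ Q := by
      rw [← hrel]
      exact Q.mul_mem_right _ (Q.mul_mem_right _ hrQ)
    rcases hQ.mem_or_mem this with h1 | h1
    · exact absurd (hQP h1) ha₁
    · exact hQ.mem_of_pow_mem n h1
  refine le_antisymm hQP fun p hp => ?_
  obtain ⟨a', ha'⟩ := (h.mem_iff p).1 hp
  have : p * u₀ = a' * p₀ := by
    apply IsFractionRing.injective A F
    rw [map_mul, map_mul, ← ha', hyeq]
    field_simp
  have hmem : p * u₀ ∈ Q := by rw [this]; exact Q.mul_mem_left _ hp₀Q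
  rcases hQ.mem_or_mem hmem with h1 | h1
  · exact h1
  · exact absurd (hQP h1) hu₀

end IsCond

/-! ### Krull intersection -/

/-- the conductor ideal `{r | r z ∈ A}` -/
def condIdeal (A : Type*) [CommRing A] [IsDomain A] {F : Type*} [Field F] [Algebra A F]
    (z : F) : Ideal A where
  carrier := {r | ∃ a : A, algebraMap A F r * z = algebraMap A F a}
  add_mem' := by
    rintro r₁ r₂ ⟨a₁, h₁⟩ ⟨a₂, h₂⟩
    exact ⟨a₁ + a₂, by rw [map_add, map_add, add_mul, h₁, h₂]⟩
  zero_mem' := ⟨0, by rw [map_zero, zero_mul]⟩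
  smul_mem' := by
    rintro c r ⟨a, h⟩
    exact ⟨c * a, by rw [smul_eq_mul, map_mul, map_mul, mul_assoc, h]⟩

theorem mem_condIdeal {z : F} {r : A} : r ∈ condIdeal A z ↔ ∃ a : A, ι r * z = ι a := Iff.rfl

/-- **Krull intersection**: every element of `F` outside `A` is outside the localisation at some
conductor prime. -/
theorem exists_isCond_not_mem [IsNoetherianRing A] {x : F} (hx : ¬ ∃ a : A, x = ι a) :
    ∃ (P : Ideal A) (y : F) (h : IsCond P y),
      haveI := h.prime
      x ∉ locSubring (F := F) P := by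
  let 𝒮 : Set (Ideal A) :=
    {I | ∃ c : A, (¬ ∃ a : A, ι c * x = ι a) ∧ I = condIdeal A (ι c * x)}
  have hne : 𝒮.Nonempty := ⟨condIdeal A (ι 1 * x), 1, by
    rw [map_one, one_mul]; exact hx, rfl⟩
  obtain ⟨M, ⟨c, hc, rfl⟩, hmax⟩ := set_has_maximal_iff_noetherian.2 inferInstance 𝒮 hne
  set y : F := ι c * x with hy
  have hcond : IsCond (condIdeal A y) y := by
    refine ⟨⟨?_, ?_⟩, fun r => Iff.rfl⟩
    · intro htop
      have : (1 : A) ∈ condIdeal A y := htop ▸ Submodule.mem_top
      obtain ⟨a, ha⟩ := this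
      exact hc ⟨a, by rw [← ha, map_one, one_mul]⟩
    · intro a b hab
      by_contra hcon
      push Not at hcon
      obtain ⟨haM, hbM⟩ := hcon
      have hay : ¬ ∃ a' : A, ι (a * c) * x = ι a' := by
        rintro ⟨a', ha'⟩
        exact haM ⟨a', by rw [hy, ← mul_assoc, ← map_mul, ha']⟩
      have hle : condIdeal A y ≤ condIdeal A (ι (a * c) * x) := by
        rintro r ⟨a', ha'⟩
        exact ⟨a * a', by rw [map_mul, map_mul, ← ha', hy]; ring⟩
      have hmem : condIdeal A (ι (a * c) * x) ∈ 𝒮 := ⟨a * c, hay, rfl⟩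
      have heq : condIdeal A y = condIdeal A (ι (a * c) * x) :=
        (lt_or_eq_of_le hle).resolve_left (hmax _ hmem)
      apply hbM
      rw [heq]
      obtain ⟨a', ha'⟩ := hab
      exact ⟨a', by rw [← ha', hy, map_mul, map_mul]; ring⟩
  refine ⟨condIdeal A y, y, hcond, ?_⟩
  haveI := hcond.prime
  rintro ⟨s, hs, a, ha⟩
  exact hs ⟨c * a, by rw [hy, map_mul, ← ha]; ring⟩

variable [IsNoetherianRing A] [IsIntegrallyClosed A]

/-- **Intersection form.**  If `x` lies in every valuation subring `V ⊇ A` of `F` which is discrete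
(`t` generates the maximal ideal) and whose centre on `A` has height one, then `x ∈ A`. -/
theorem mem_range_of_forall_valuationSubring (x : F)
    (hx : ∀ (V : ValuationSubring F) (t : F), (∀ a : A, ι a ∈ V) → t ∈ V → t⁻¹ ∉ V →
      (∀ z ∈ V, z⁻¹ ∈ V ∨ z * t⁻¹ ∈ V) →
      (∀ Q : Ideal A, Q.IsPrime → (∀ r ∈ Q, r ≠ 0 → (ι r)⁻¹ ∉ V) → Q ≠ ⊥ →
        ∀ r : A, r ≠ 0 → (ι r)⁻¹ ∉ V → r ∈ Q) → x ∈ V) :
    ∃ a : A, x = ι a := by
  by_contra hcon
  obtain ⟨P, y, h, hxP⟩ := exists_isCond_not_mem hcon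
  haveI := h.prime
  apply hxP
  refine hx h.valuationSubring y⁻¹ h.algebraMap_mem h.inv_mem (by rw [inv_inv]; exact h.not_mem)
    (fun z hz => by rw [inv_inv]; exact h.unit_or_div' hz) ?_
  intro Q hQ hQV hQbot r hr hrV
  haveI := hQ
  have hQP : Q ≤ P := fun q hq => by
    by_cases hq0 : q = 0
    · rw [hq0]; exact P.zero_mem
    · exact (h.mem_iff_inv_not_mem hq0).2 (hQV q hq hq0)
  rcases h.eq_bot_or_eq_of_le Q hQP with h1 | h1
  · exact absurd h1 hQbot
  · rw [h1]; exact (h.mem_iff_inv_not_mem hr).2 hrV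

/-! ### Chart form: vertical and horizontal valuation subrings -/

section Chart

variable {B : Type*} [CommRing B] [IsDomain B] [IsIntegrallyClosed B] [Algebra B A] [Algebra B F]
  [IsScalarTower B A F] [Algebra.IsIntegral B A] [FaithfulSMul B A]

/-- **Chart form.**  `x` lies in `A` as soon as it lies in every *vertical* valuation subring
(`π` a non-unit, every element of `B` outside `(π)` a unit) and in every *horizontal* valuation
subring (`π` a unit) of `F` containing `A`. -/
theorem mem_range_of_vertical_horizontal {π : B} (hπ0 : π ≠ 0) (hπ : (Ideal.span {π}).IsPrime)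
    (x : F)
    (hvert : ∀ V : ValuationSubring F, (∀ a : A, ι a ∈ V) → (algebraMap B F π)⁻¹ ∉ V →
      (∀ s : B, s ∉ Ideal.span {π} → (algebraMap B F s)⁻¹ ∈ V) → x ∈ V)
    (hhor : ∀ V : ValuationSubring F, (∀ a : A, ι a ∈ V) → (algebraMap B F π)⁻¹ ∈ V → x ∈ V) :
    ∃ a : A, x = ι a := by
  by_contra hcon
  obtain ⟨P, y, h, hxP⟩ := exists_isCond_not_mem hcon
  haveI := h.prime
  apply hxP
  have hinjBA : Function.Injective (algebraMap B A) := FaithfulSMul.algebraMap_injective B A
  have hπA0 : algebraMap B A π ≠ 0 := fun h0 => hπ0 (hinjBA (by rw [h0, map_zero]))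
  by_cases hπP : algebraMap B A π ∈ P
  · -- vertical
    refine hvert h.valuationSubring h.algebraMap_mem ?_ ?_
    · rw [IsScalarTower.algebraMap_apply B A F]
      exact (h.mem_iff_inv_not_mem hπA0).1 hπP
    · -- going-down: `P ∩ B = (π)`
      haveI := hπ
      have hle : Ideal.span {π} ≤ P.under B := by
        rw [Ideal.span_le, Set.singleton_subset_iff]
        exact hπP
      obtain ⟨P', hP'P, hP'prime, hP'over⟩ := Ideal.exists_ideal_le_liesOver_of_le P hle
      haveI := hP'prime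
      have hP'ne : P' ≠ ⊥ := by
        intro hbot
        have : algebraMap B A π ∈ P' := by
          have h1 : π ∈ P'.under B := by
            rw [← hP'over.over]; exact Ideal.mem_span_singleton_self π
          exact h1
        rw [hbot, Ideal.mem_bot] at this
        exact hπA0 this
      have hP'eq : P' = P := (h.eq_bot_or_eq_of_le P' hP'P).resolve_left hP'ne
      intro s hs
      rw [IsScalarTower.algebraMap_apply B A F]
      apply inv_mem_locSubring
      intro hsP
      apply hs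
      have : s ∈ P'.under B := by rw [hP'eq]; exact hsP
      rwa [← hP'over.over] at this
  · -- horizontal
    refine hhor h.valuationSubring h.algebraMap_mem ?_
    rw [IsScalarTower.algebraMap_apply B A F]
    exact inv_mem_locSubring hπP

end Chart

end Fermat.Agent.S36.KrullInter
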