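/-
PROJECT V (S36), slice V-Centre, abstract core (helper10): **centres of valuation subrings on a
chart ring**, in pure ring language.

Setting: `A` a noetherian integrally closed domain (a chart ring of the normal model),
`F` a fraction field of `A`.

* `centre v hv` : for a valuation subring `v ⊇ A` of `F`, the prime ideal `m_v ∩ A` of `A`.
* `locSubring_centre_le` : `A_(centre v) ⊆ v`.
* `centre_ne_bot` : `v ≠ ⊤ → centre v ≠ ⊥`.
* `exists_isCond_of_height_one` : a nonzero prime `P` of height one is a conductor prime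
  (`KrullInter.IsCond P y` for some `y`), so that `A_P` is helper12's discrete valuation subring.
* `eq_valuationSubring_of_centre` : a valuation subring `v ⊇ A` whose centre is a conductor
  prime `P` is equal to `A_P` (valuation rings are maximal for domination).
* `centre_valuationSubring` : the centre of `A_P` is `P`.
* `Horizontal q v` / `exists_isCond_centre_of_horizontal` / `exists_horizontal_of_isCond` : under
  the dimension hypothesis `HDim q` (primes not containing `q` have height at most one) the map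
  `v ↦ centre v` is a bijection between the horizontal valuation subrings (`A ⊆ v ≠ ⊤`, `q` a unit
  of `v`) and the conductor primes not containing `q`.
-/
import Mathlib
import Fermat.Agent.S36.KrullInter

set_option autoImplicit false
set_option linter.unusedSectionVars false
set_option linter.style.haveILetI false
set_option linter.unusedVariables false

namespace Fermat.Agent.S36.CentreCore

open Fermat.Agent.S36.KrullInter

variable {A : Type*} [CommRing A] [IsDomain A] {F : Type*} [Field F] [Algebra A F]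
  [IsFractionRing A F]

local notation "ι" => algebraMap A F

/-! ### The centre of a valuation subring -/

theorem mul_mem_nonunits (v : ValuationSubring F) {x y : F} (hx : x ∈ v) (hy : y ∈ v.nonunits) :
    x * y ∈ v.nonunits := by
  rw [ValuationSubring.mem_nonunits_iff_or] at hy ⊢
  by_cases hxy : x * y = 0
  · exact Or.inl hxy
  right
  have hx0 : x ≠ 0 := left_ne_zero_of_mul hxy
  have hy0 : y ≠ 0 := right_ne_zero_of_mul hxy
  rcases hy with hy | hy
  · exact absurd hy hy0
  intro hmem
  apply hy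
  have : y⁻¹ = x * (x * y)⁻¹ := by
    rw [mul_inv, ← mul_assoc, mul_inv_cancel₀ hx0, one_mul]
  rw [this]
  exact v.mul_mem _ _ hx hmem

/-- The centre `m_v ∩ A` of a valuation subring `v ⊇ A`. -/
def centre (v : ValuationSubring F) (hv : ∀ a : A, ι a ∈ v) : Ideal A where
  carrier := {a | ι a ∈ v.nonunits}
  add_mem' := by
    intro a b ha hb
    show ι (a + b) ∈ v.nonunits
    rw [map_add]
    exact v.nonunits.add_mem ha hb
  zero_mem' := by
    show ι (0 : A) ∈ v.nonunits
    rw [map_zero]
    exact v.nonunits.zero_mem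
  smul_mem' := by
    intro c a ha
    show ι (c • a) ∈ v.nonunits
    rw [smul_eq_mul, map_mul]
    exact mul_mem_nonunits v (hv c) ha

theorem mem_centre {v : ValuationSubring F} {hv : ∀ a : A, ι a ∈ v} {a : A} :
    a ∈ centre v hv ↔ ι a ∈ v.nonunits := Iff.rfl

theorem mem_centre_iff {v : ValuationSubring F} {hv : ∀ a : A, ι a ∈ v} {a : A} (ha : a ≠ 0) :
    a ∈ centre v hv ↔ (ι a)⁻¹ ∉ v := by
  rw [mem_centre, ValuationSubring.mem_nonunits_iff_or]
  constructor
  · rintro (h | h)
    · exact absurd h (algebraMap_ne_zero' ha)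
    · exact h
  · exact Or.inr

theorem not_mem_centre_iff {v : ValuationSubring F} {hv : ∀ a : A, ι a ∈ v} {a : A} :
    a ∉ centre v hv ↔ a ≠ 0 ∧ (ι a)⁻¹ ∈ v := by
  constructor
  · intro h
    have ha : a ≠ 0 := fun h0 => h (h0 ▸ (centre v hv).zero_mem)
    refine ⟨ha, ?_⟩
    by_contra hcon
    exact h ((mem_centre_iff ha).2 hcon)
  · rintro ⟨ha, hinv⟩ hmem
    exact (mem_centre_iff ha).1 hmem hinv

instance centre_isPrime (v : ValuationSubring F) (hv : ∀ a : A, ι a ∈ v) :
    (centre v hv).IsPrime := by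
  refine ⟨?_, ?_⟩
  · intro htop
    have h1 : (1 : A) ∈ centre v hv := htop ▸ Submodule.mem_top
    have := (mem_centre_iff (one_ne_zero)).1 h1
    apply this
    rw [map_one, inv_one]
    exact v.one_mem
  · intro a b hab
    by_contra hcon
    push Not at hcon
    obtain ⟨ha, hb⟩ := hcon
    obtain ⟨ha0, hainv⟩ := not_mem_centre_iff.1 ha
    obtain ⟨hb0, hbinv⟩ := not_mem_centre_iff.1 hb
    have hab0 : a * b ≠ 0 := mul_ne_zero ha0 hb0
    apply (mem_centre_iff hab0).1 hab
    rw [map_mul, mul_inv]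
    exact v.mul_mem _ _ hainv hbinv

/-- `A_(centre v) ⊆ v`. -/
theorem locSubring_centre_le (v : ValuationSubring F) (hv : ∀ a : A, ι a ∈ v) {z : F}
    (hz : z ∈ locSubring (F := F) (centre v hv)) : z ∈ v := by
  obtain ⟨s, hs, a, ha⟩ := hz
  obtain ⟨hs0, hsinv⟩ := not_mem_centre_iff.1 hs
  have : z = (ι s)⁻¹ * ι a := by
    rw [← ha, ← mul_assoc, inv_mul_cancel₀ (algebraMap_ne_zero' hs0), one_mul]
  rw [this]
  exact v.mul_mem _ _ hsinv (hv a)

/-- A valuation subring `v ⊇ A` with trivial centre is everything. -/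
theorem eq_top_of_centre_eq_bot (v : ValuationSubring F) (hv : ∀ a : A, ι a ∈ v)
    (h : centre v hv = ⊥) : v = ⊤ := by
  rw [eq_top_iff]
  intro z _
  obtain ⟨a, b, hb, hab⟩ := IsFractionRing.div_surjective (A := A) z
  have hb0 : (b : A) ≠ 0 := nonZeroDivisors.ne_zero hb
  have hbc : (b : A) ∉ centre v hv := by
    rw [h, Ideal.mem_bot]; exact hb0
  obtain ⟨-, hbinv⟩ := not_mem_centre_iff.1 hbc
  rw [← hab, div_eq_mul_inv]
  exact v.mul_mem _ _ (hv a) hbinv

theorem centre_ne_bot (v : ValuationSubring F) (hv : ∀ a : A, ι a ∈ v) (hvtop : v ≠ ⊤) :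
    centre v hv ≠ ⊥ := fun h => hvtop (eq_top_of_centre_eq_bot v hv h)

/-! ### Valuation subrings with a conductor prime as centre -/

variable [IsNoetherianRing A] [IsIntegrallyClosed A]

/-- The centre of `A_P` is `P`. -/
theorem centre_valuationSubring {P : Ideal A} {y : F} (h : IsCond P y) :
    centre h.valuationSubring h.algebraMap_mem = P := by
  haveI := h.prime
  ext r
  by_cases hr : r = 0
  · rw [hr]; exact ⟨fun _ => P.zero_mem, fun _ => (centre _ _).zero_mem⟩
  rw [mem_centre_iff hr, h.mem_iff_inv_not_mem hr]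
  rfl

/-- **Domination.** A valuation subring `v ⊇ A` whose centre is a conductor prime `P` is `A_P`. -/
theorem eq_valuationSubring_of_centre (v : ValuationSubring F) (hv : ∀ a : A, ι a ∈ v)
    {P : Ideal A} {y : F} (h : IsCond P y) (hc : centre v hv = P) :
    v = h.valuationSubring := by
  haveI := h.prime
  apply le_antisymm
  · intro z hz
    by_contra hzV
    -- `z⁻¹ ∈ A_P`, a non-unit
    have hz0 : z ≠ 0 := fun h0 => hzV (h0 ▸ h.valuationSubring.zero_mem)
    have hzinv : z⁻¹ ∈ h.valuationSubring :=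
      (h.valuationSubring.mem_or_inv_mem z).resolve_left hzV
    obtain ⟨s, hs, a, ha⟩ := hzinv
    -- `ι s = z * ι a`
    have hsa : ι s = z * ι a := by
      rw [← ha, mul_comm (ι s), ← mul_assoc, mul_inv_cancel₀ hz0, one_mul]
    have haP : a ∈ P := by
      by_contra haP
      apply hzV
      have ha0 : a ≠ 0 := fun h0 => haP (h0 ▸ P.zero_mem)
      refine ⟨a, haP, s, ?_⟩
      rw [hsa, mul_comm]
    -- `ι a ∈ m_v`, so `ι s ∈ m_v`
    have h1 : ι a ∈ v.nonunits := by
      rw [← hc] at haP; exact haP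
    have h2 : ι s ∈ v.nonunits := by
      rw [hsa]; exact mul_mem_nonunits v hz h1
    apply hs
    rw [← hc]
    exact h2
  · intro z hz
    apply locSubring_centre_le v hv
    have hz' : z ∈ locSubring (F := F) P := hz
    convert hz'

omit [IsIntegrallyClosed A] in
/-- A nonzero prime of height one is a conductor prime. -/
theorem exists_isCond_of_height_one (P : Ideal A) [hP : P.IsPrime] (hP0 : P ≠ ⊥)
    (hP1 : ∀ Q : Ideal A, Q.IsPrime → Q ≤ P → Q = ⊥ ∨ Q = P) : ∃ y : F, IsCond P y := by
  obtain ⟨a, haP, ha0⟩ := Submodule.exists_mem_ne_zero_of_ne_bot hP0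
  -- `P` is a minimal prime over `(a)`
  have hmin : P ∈ (Ideal.span {a}).minimalPrimes := by
    refine ⟨⟨hP, (Ideal.span_singleton_le_iff_mem P).2 haP⟩, ?_⟩
    rintro Q ⟨hQ, haQ⟩ hQP
    rcases hP1 Q hQ hQP with h | h
    · exfalso
      have : a ∈ Q := (Ideal.span_singleton_le_iff_mem Q).1 haQ
      rw [h, Ideal.mem_bot] at this
      exact ha0 this
    · exact h.ge
  have hcolon : (Ideal.span {a} : Submodule A A).colon {(1 : A)} = Ideal.span {a} := by
    ext r
    rw [Submodule.mem_colon_singleton, smul_eq_mul, mul_one]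
  rw [← hcolon] at hmin
  obtain ⟨b, hb⟩ := Submodule.exists_eq_colon_of_mem_minimalPrimes hmin
  refine ⟨ι b / ι a, hP, fun r => ?_⟩
  rw [hb, Submodule.mem_colon_singleton, smul_eq_mul]
  have hia := algebraMap_ne_zero' (F := F) ha0
  constructor
  · intro hr
    obtain ⟨c, hc⟩ := Ideal.mem_span_singleton'.1 hr
    refine ⟨c, ?_⟩
    rw [mul_div_assoc', ← map_mul, ← hc, map_mul, mul_div_cancel_right₀ _ hia]
  · rintro ⟨c, hc⟩
    apply Ideal.mem_span_singleton'.2
    refine ⟨c, ?_⟩
    apply IsFractionRing.injective A F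
    rw [map_mul, map_mul, ← hc]
    field_simp

/-! ### Horizontal valuation subrings and height-one primes -/

/-- Primes of `A` not containing `q` have height at most one. -/
def HDim (q : A) : Prop :=
  ∀ P Q : Ideal A, P.IsPrime → Q.IsPrime → q ∉ Q → P ≤ Q → P = ⊥ ∨ P = Q

/-- A horizontal valuation subring of the chart: `A ⊆ v ≠ ⊤` and `q` is a unit of `v`. -/
structure Horizontal (q : A) (v : ValuationSubring F) : Prop where
  le : ∀ a : A, ι a ∈ v
  ne_top : v ≠ ⊤
  unit : (ι q)⁻¹ ∈ v

omit [IsNoetherianRing A] [IsIntegrallyClosed A] in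
theorem Horizontal.not_mem_centre {q : A} (hq0 : q ≠ 0) {v : ValuationSubring F}
    (h : Horizontal q v) : q ∉ centre v h.le :=
  not_mem_centre_iff.2 ⟨hq0, h.unit⟩

omit [IsIntegrallyClosed A] in
/-- Under `HDim q` the centre of a horizontal valuation subring is a conductor prime. -/
theorem Horizontal.exists_isCond_centre {q : A} (hq0 : q ≠ 0) (hd : HDim q)
    {v : ValuationSubring F} (h : Horizontal q v) : ∃ y : F, IsCond (centre v h.le) y :=
  exists_isCond_of_height_one (centre v h.le) (centre_ne_bot v h.le h.ne_top)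
    (fun Q hQ hQP => hd Q (centre v h.le) hQ inferInstance (h.not_mem_centre hq0) hQP)

/-- Under `HDim q` a horizontal valuation subring is the localisation of `A` at its centre. -/
theorem Horizontal.exists_eq_valuationSubring {q : A} (hq0 : q ≠ 0) (hd : HDim q)
    {v : ValuationSubring F} (h : Horizontal q v) :
    ∃ (y : F) (hc : IsCond (centre v h.le) y), v = hc.valuationSubring := by
  obtain ⟨y, hy⟩ := h.exists_isCond_centre hq0 hd
  exact ⟨y, hy, eq_valuationSubring_of_centre v h.le hy rfl⟩

/-- Two valuation subrings containing `A` with the same conductor prime as centre are equal. -/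
theorem eq_of_centre_eq {v v' : ValuationSubring F} (hv : ∀ a : A, ι a ∈ v)
    (hv' : ∀ a : A, ι a ∈ v') {y : F} (hc : IsCond (centre v hv) y)
    (h : centre v' hv' = centre v hv) : v' = v := by
  rw [eq_valuationSubring_of_centre v hv hc rfl, eq_valuationSubring_of_centre v' hv' hc h]

/-- The localisation at a conductor prime not containing `q` is horizontal. -/
theorem horizontal_of_isCond {q : A} {P : Ideal A} {y : F} (h : IsCond P y) (hqP : q ∉ P) :
    Horizontal q h.valuationSubring := by
  haveI := h.prime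
  refine ⟨h.algebraMap_mem, ?_, inv_mem_locSubring hqP⟩
  intro htop
  exact h.not_mem (htop ▸ ValuationSubring.mem_top y)

/-! ### Krull intersection relative to a multiplicative set -/

omit [IsIntegrallyClosed A] in
/-- **Krull intersection, local form.** If `x` is not in `S⁻¹ A` then `x` is outside the
localisation at some conductor prime disjoint from `S`. -/
theorem exists_isCond_not_mem_of_submonoid (S : Submonoid A) {x : F}
    (hx : ∀ s ∈ S, ¬ ∃ a : A, ι s * x = ι a) :
    ∃ (P : Ideal A) (y : F) (h : IsCond P y), (∀ s ∈ S, s ∉ P) ∧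
      (haveI := h.prime; x ∉ locSubring (F := F) P) := by
  let 𝒮 : Set (Ideal A) :=
    {I | ∃ c : A, (∀ s ∈ S, s ∉ condIdeal A (ι c * x)) ∧ I = condIdeal A (ι c * x)}
  have hne : 𝒮.Nonempty := ⟨condIdeal A (ι 1 * x), 1, by
    intro s hs hmem
    obtain ⟨a, ha⟩ := hmem
    exact hx s hs ⟨a, by rw [← ha, map_one, one_mul]⟩, rfl⟩
  obtain ⟨M, ⟨c, hc, rfl⟩, hmax⟩ := set_has_maximal_iff_noetherian.2 inferInstance 𝒮 hne
  set y : F := ι c * x with hy
  have hcond : IsCond (condIdeal A y) y := by
    refine ⟨⟨?_, ?_⟩, fun r => Iff.rfl⟩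
    · intro htop
      exact hc 1 S.one_mem (htop ▸ Submodule.mem_top)
    · intro a b hab
      by_contra hcon
      push Not at hcon
      obtain ⟨haM, hbM⟩ := hcon
      -- the conductor of `a y`
      have hle : condIdeal A y ≤ condIdeal A (ι (a * c) * x) := by
        rintro r ⟨a', ha'⟩
        exact ⟨a * a', by rw [map_mul, map_mul, ← ha', hy]; ring⟩
      by_cases hdis : ∀ s ∈ S, s ∉ condIdeal A (ι (a * c) * x)
      · have hmem : condIdeal A (ι (a * c) * x) ∈ 𝒮 := ⟨a * c, hdis, rfl⟩
        have heq : condIdeal A y = condIdeal A (ι (a * c) * x) :=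
          (lt_or_eq_of_le hle).resolve_left (hmax _ hmem)
        apply hbM
        rw [heq]
        obtain ⟨a', ha'⟩ := hab
        exact ⟨a', by rw [← ha', hy, map_mul, map_mul]; ring⟩
      · push Not at hdis
        obtain ⟨s, hsS, hs⟩ := hdis
        -- `s a ∈ cond y`, so `a ∈ cond (s y)`, and `cond (s y)` is disjoint from `S`
        have hle' : condIdeal A y ≤ condIdeal A (ι (s * c) * x) := by
          rintro r ⟨a', ha'⟩
          exact ⟨s * a', by rw [map_mul, map_mul, ← ha', hy]; ring⟩
        have hdis' : ∀ s' ∈ S, s' ∉ condIdeal A (ι (s * c) * x) := by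
          rintro s' hs' ⟨a', ha'⟩
          exact hc (s' * s) (S.mul_mem hs' hsS) ⟨a', by
            rw [← ha', hy, map_mul, map_mul]; ring⟩
        have hmem : condIdeal A (ι (s * c) * x) ∈ 𝒮 := ⟨s * c, hdis', rfl⟩
        have heq : condIdeal A y = condIdeal A (ι (s * c) * x) :=
          (lt_or_eq_of_le hle').resolve_left (hmax _ hmem)
        apply haM
        rw [heq]
        obtain ⟨a', ha'⟩ := hs
        exact ⟨a', by rw [← ha', map_mul, map_mul]; ring⟩
  refine ⟨condIdeal A y, y, hcond, hc, ?_⟩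
  haveI := hcond.prime
  rintro ⟨s, hs, a, ha⟩
  exact hs ⟨c * a, by rw [hy, map_mul, ← ha]; ring⟩

omit [IsIntegrallyClosed A] in
/-- Local form at a prime `x`: an element of `F` lying in `A_P` for every conductor prime `P ≤ x`
lies in `A_x`. -/
theorem mem_locSubring_of_forall_isCond (x : Ideal A) [hx : x.IsPrime] (z : F)
    (hz : ∀ (P : Ideal A) (y : F) (h : IsCond P y), P ≤ x →
      (haveI := h.prime; z ∈ locSubring (F := F) P)) :
    z ∈ locSubring (F := F) x := by
  by_contra hcon
  have h1 : ∀ s ∈ x.primeCompl, ¬ ∃ a : A, ι s * z = ι a := by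
    rintro s hs ⟨a, ha⟩
    exact hcon ⟨s, hs, a, ha⟩
  obtain ⟨P, y, h, hdis, hnot⟩ := exists_isCond_not_mem_of_submonoid x.primeCompl h1
  have hPx : P ≤ x := by
    intro p hp
    by_contra hpx
    exact hdis p hpx hp
  exact hnot (hz P y h hPx)

omit [IsIntegrallyClosed A] in
/-- Form away from `g`: an element of `F` lying in `A_P` for every conductor prime `P` not
containing `g` lies in `A[1/g]`. -/
theorem exists_pow_mul_eq_of_forall_isCond (g : A) (z : F)
    (hz : ∀ (P : Ideal A) (y : F) (h : IsCond P y), g ∉ P →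
      (haveI := h.prime; z ∈ locSubring (F := F) P)) :
    ∃ (k : ℕ) (a : A), ι (g ^ k) * z = ι a := by
  by_contra hcon
  push Not at hcon
  have h1 : ∀ s ∈ Submonoid.powers g, ¬ ∃ a : A, ι s * z = ι a := by
    rintro s ⟨k, rfl⟩ ⟨a, ha⟩
    exact hcon k a ha
  obtain ⟨P, y, h, hdis, hnot⟩ := exists_isCond_not_mem_of_submonoid (Submonoid.powers g) h1
  have hgP : g ∉ P := hdis g (Submonoid.mem_powers g)
  exact hnot (hz P y h hgP)

/-! ### Locally principal height-one primes -/

/-- `P A_x` is generated by `π` (elementary form). -/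
def LocPrincipal (x P : Ideal A) (π : A) : Prop :=
  π ∈ P ∧ ∀ a ∈ P, ∃ s : A, s ∉ x ∧ ∃ b : A, s * a = b * π

omit [IsNoetherianRing A] [IsIntegrallyClosed A] in
theorem LocPrincipal.ne_zero {x P : Ideal A} [hx : x.IsPrime] {π : A} (h : LocPrincipal x P π)
    (hP0 : P ≠ ⊥) : π ≠ 0 := by
  rintro rfl
  apply hP0
  rw [Submodule.eq_bot_iff]
  intro a ha
  obtain ⟨s, hs, b, hb⟩ := h.2 a ha
  rw [mul_zero] at hb
  rcases mul_eq_zero.1 hb with h0 | h0
  · exact absurd (h0 ▸ x.zero_mem) hs
  · exact h0

omit [IsNoetherianRing A] [IsIntegrallyClosed A] in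
/-- A local generator of `P` at `x` is not in any other height-one prime below `x`. -/
theorem LocPrincipal.not_mem_of_ne {x P P' : Ideal A} [hx : x.IsPrime] [hP : P.IsPrime]
    [hP' : P'.IsPrime] {π : A} (h : LocPrincipal x P π) (hP0 : P ≠ ⊥) (hP'x : P' ≤ x)
    (hP'1 : ∀ Q : Ideal A, Q.IsPrime → Q ≤ P' → Q = ⊥ ∨ Q = P') (hne : P' ≠ P) : π ∉ P' := by
  intro hπ
  have hle : P ≤ P' := by
    intro a ha
    obtain ⟨s, hs, b, hb⟩ := h.2 a ha
    have : s * a ∈ P' := by rw [hb]; exact P'.mul_mem_left b hπ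
    rcases hP'.mem_or_mem this with h1 | h1
    · exact absurd (hP'x h1) hs
    · exact h1
  rcases hP'1 P hP hle with h1 | h1
  · exact hP0 h1
  · exact hne h1.symm

/-- A local generator of the conductor prime `P` at `x ≥ P` is a uniformiser of `A_P`. -/
theorem LocPrincipal.unit_or_div {x P : Ideal A} [hx : x.IsPrime] {π : A} {y : F}
    (h : LocPrincipal x P π) (hc : IsCond P y) (hPx : P ≤ x) :
    ∀ z ∈ hc.valuationSubring, z⁻¹ ∈ hc.valuationSubring ∨ z * (ι π)⁻¹ ∈ hc.valuationSubring := by
  haveI := hc.prime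
  have hπ0 : π ≠ 0 := h.ne_zero hc.ne_bot
  rintro z ⟨s, hs, a, ha⟩
  by_cases haP : a ∈ P
  · right
    obtain ⟨s', hs', b, hb⟩ := h.2 a haP
    have hs'P : s' ∉ P := fun hmem => hs' (hPx hmem)
    refine ⟨s' * s, fun hmem => (hc.prime.mem_or_mem hmem).elim hs'P hs, b, ?_⟩
    have : ι s' * ι a = ι b * ι π := by rw [← map_mul, ← map_mul, hb]
    rw [map_mul, mul_assoc, ← mul_assoc (ι s), ha, ← mul_assoc, this, mul_assoc,
      mul_inv_cancel₀ (algebraMap_ne_zero' hπ0), mul_one]
  · left
    have ha0 : a ≠ 0 := fun h0 => haP (h0 ▸ P.zero_mem)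
    have hs0 : s ≠ 0 := fun h0 => hs (h0 ▸ P.zero_mem)
    have hz : z = ι a / ι s := by
      rw [eq_div_iff (algebraMap_ne_zero' hs0), mul_comm, ha]
    refine ⟨a, haP, s, ?_⟩
    rw [hz, inv_div, mul_div_cancel₀ _ (algebraMap_ne_zero' ha0)]

omit [IsNoetherianRing A] [IsIntegrallyClosed A] in
theorem LocPrincipal.inv_not_mem {x P : Ideal A} [hx : x.IsPrime] {π : A} {y : F}
    (h : LocPrincipal x P π) (hc : IsCond P y) :
    (haveI := hc.prime; (ι π)⁻¹ ∉ locSubring (F := F) P) := by
  haveI := hc.prime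
  exact (hc.mem_iff_inv_not_mem (h.ne_zero hc.ne_bot)).1 h.1

end Fermat.Agent.S36.CentreCore
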