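/-
PROJECT V (S36), slice V-ChartRing (helper12): **the affine chart ring of the normal model.**

`B` a noetherian integrally closed domain (in the application `B = O[X]`, `O` the discrete
valuation ring of the inertia field `K0`, mapped to the function field `F` by `X ↦ φ`), `Kb` a
fraction field of `B`, `F` a finite separable extension of `Kb`.  The chart ring is
`A := integralClosure B F`.

* `isNoetherianRing`, `isIntegrallyClosed`, `isFractionRing`, `finite`, `isDomain` : `A` is a
  noetherian integrally closed domain with fraction field `F`, finite over `B`.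
* `mem_of_isIntegral` : a valuation subring containing (the image of) `B` contains `A`.
* `isIntegral_of_vertical_horizontal` : **membership criterion.**  For a prime element `π` of
  `B`: `x : F` is integral over `B` as soon as it lies in every valuation subring `W ⊇ B` of `F`
  which is *vertical* (`π` a non-unit of `W`, every `s ∈ B ∖ (π)` a unit of `W`) and in every
  *horizontal* one (`π` a unit of `W`).
* polynomial form, `O` a discrete valuation ring with uniformiser `π`, `B = O[X]`:
  `isPrime_span_C`, `not_mem_span_C_iff` (`s ∉ (π) ↔` some coefficient of `s` is a unit), and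
  `isIntegral_of_gauss_places`: `x` is integral over `O[X]` iff it lies in every extension of the
  Gauss valuation (`π` non-unit, primitive polynomials units) and in every valuation subring
  containing `O[X]` and `π⁻¹` (the places of `F / Frac O` finite at `φ`).
* `finiteDimensional_of_isFractionRing` : finite-dimensionality of `F` does not depend on the
  chosen fraction field of `B`.
* `finiteDimensional_of_transcendental` : `F / K(j)` finite and `φ : F` transcendental over `K`
  imply `F / K(φ)` finite (every transcendental function is a parameter).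
* adjoin form: `toAdjoin φ : O[X] →ₐ[O] K⟮φ⟯`, `isFractionRing_toAdjoin` (`K⟮φ⟯` is a fraction
  field of `O[X]` for transcendental `φ`), and `isIntegral_adjoin_of_gauss_places`: for `O` a
  discrete valuation ring with fraction field `K` of characteristic zero, `φ` transcendental,
  `F / K⟮φ⟯` finite: `x` is integral over `O[φ] = Algebra.adjoin O {φ}` as soon as it lies in every
  extension of the `φ`-Gauss valuation and in every valuation subring containing `K` and `φ`
  (no instance on `F` other than `Algebra K F`, `Algebra O F` is needed).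
* `chart O φ := integralClosure (Algebra.adjoin O {φ}) F` with `chart_isNoetherianRing`,
  `chart_isIntegrallyClosed`, `chart_isFractionRing`, `chart_finite`, `mem_chart_of_gauss_places`,
  `mem_of_mem_chart`; also `adjoin_isNoetherianRing`, `adjoin_isIntegrallyClosed`,
  `isFractionRing_adjoinIncl` for `O[φ]` itself.
-/
import Mathlib
import Fermat.Agent.S36.KrullInter

set_option autoImplicit false
set_option linter.unusedSectionVars false
set_option linter.style.haveILetI false
set_option linter.unusedVariables false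

namespace Fermat.Agent.S36.ChartRing

open Polynomial IntermediateField

/-! ### valuation subrings are integrally closed -/

/-- A valuation subring containing the image of `B` contains every element integral over `B`. -/
theorem mem_of_isIntegral {B : Type*} [CommRing B] {F : Type*} [Field F] [Algebra B F]
    (W : ValuationSubring F) (hB : ∀ b : B, algebraMap B F b ∈ W) {x : F} (hx : IsIntegral B x) :
    x ∈ W := by
  let f : B →+* W := (algebraMap B F).codRestrict W.toSubring hB
  obtain ⟨p, hp, hpx⟩ := hx
  have hint : IsIntegral W x := by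
    refine ⟨p.map f, hp.map f, ?_⟩
    rw [eval₂_map]
    exact hpx
  obtain ⟨y, hy⟩ := (IsIntegrallyClosed.isIntegral_iff (R := W) (K := F)).1 hint
  rw [← hy]
  exact y.2

/-! ### the chart ring -/

section General

variable (B : Type*) [CommRing B] [IsDomain B] [IsIntegrallyClosed B] [IsNoetherianRing B]
  (Kb : Type*) [Field Kb] [Algebra B Kb] [IsFractionRing B Kb]
  (F : Type*) [Field F] [Algebra B F] [Algebra Kb F] [IsScalarTower B Kb F]
  [FiniteDimensional Kb F] [Algebra.IsSeparable Kb F]

include Kb

theorem isNoetherianRing : IsNoetherianRing (integralClosure B F) :=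
  integralClosure.isNoetherianRing (A := B) (K := Kb) F

theorem isIntegrallyClosed : IsIntegrallyClosed (integralClosure B F) :=
  integralClosure.isIntegrallyClosedOfFiniteExtension Kb

theorem isFractionRing : IsFractionRing (integralClosure B F) F :=
  integralClosure.isFractionRing_of_finite_extension Kb F

theorem finite : Module.Finite B (integralClosure B F) :=
  IsIntegralClosure.finite B Kb F _

theorem algebraMap_injective : Function.Injective (algebraMap B F) := by
  rw [IsScalarTower.algebraMap_eq B Kb F]
  exact (algebraMap Kb F).injective.comp (IsFractionRing.injective B Kb)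

theorem faithfulSMul : FaithfulSMul B (integralClosure B F) := by
  rw [faithfulSMul_iff_algebraMap_injective]
  intro a b hab
  apply algebraMap_injective B Kb F
  have := congrArg (algebraMap (integralClosure B F) F) hab
  rwa [← IsScalarTower.algebraMap_apply, ← IsScalarTower.algebraMap_apply] at this

/-- **Membership criterion for the chart ring.** -/
theorem isIntegral_of_vertical_horizontal {π : B} (hπ0 : π ≠ 0) (hπ : (Ideal.span {π}).IsPrime)
    (x : F)
    (hvert : ∀ W : ValuationSubring F, (∀ b : B, algebraMap B F b ∈ W) →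
      (algebraMap B F π)⁻¹ ∉ W → (∀ s : B, s ∉ Ideal.span {π} → (algebraMap B F s)⁻¹ ∈ W) → x ∈ W)
    (hhor : ∀ W : ValuationSubring F, (∀ b : B, algebraMap B F b ∈ W) →
      (algebraMap B F π)⁻¹ ∈ W → x ∈ W) :
    IsIntegral B x := by
  haveI := isNoetherianRing B Kb F
  haveI := isIntegrallyClosed B Kb F
  haveI := isFractionRing B Kb F
  haveI := faithfulSMul B Kb F
  have hB : ∀ W : ValuationSubring F, (∀ a : integralClosure B F,
      algebraMap (integralClosure B F) F a ∈ W) → ∀ b : B, algebraMap B F b ∈ W := by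
    intro W hW b
    rw [IsScalarTower.algebraMap_apply B (integralClosure B F) F]
    exact hW _
  obtain ⟨a, ha⟩ := KrullInter.mem_range_of_vertical_horizontal (A := integralClosure B F)
    (F := F) (B := B) hπ0 hπ x
    (fun W hW h1 h2 => hvert W (hB W hW) h1 h2)
    (fun W hW h1 => hhor W (hB W hW) h1)
  rw [ha]
  exact a.2

end General

/-! ### polynomial ring over a discrete valuation ring -/

section Poly

variable {O : Type*} [CommRing O] [IsDomain O] [IsDiscreteValuationRing O]

theorem span_C_eq_map (π : O) :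
    (Ideal.span {C π} : Ideal O[X]) = (Ideal.span {π}).map (C : O →+* O[X]) := by
  rw [Ideal.map_span, Set.image_singleton]

theorem isPrime_span_C {π : O} (hπ : Irreducible π) :
    (Ideal.span {C π} : Ideal O[X]).IsPrime := by
  rw [span_C_eq_map]
  have h : (Ideal.span {π}).IsPrime :=
    (Ideal.span_singleton_prime hπ.ne_zero).2 (UniqueFactorizationMonoid.irreducible_iff_prime.1 hπ)
  exact (Ideal.isPrime_map_C_iff_isPrime _).2 h

theorem mem_span_C_iff (π : O) (s : O[X]) :
    s ∈ Ideal.span {C π} ↔ ∀ i, s.coeff i ∈ Ideal.span {π} := by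
  rw [span_C_eq_map, Ideal.mem_map_C_iff]

/-- outside `(π)` = primitive: some coefficient is a unit -/
theorem not_mem_span_C_iff {π : O} (hπ : Irreducible π) (s : O[X]) :
    s ∉ Ideal.span {C π} ↔ ∃ i, IsUnit (s.coeff i) := by
  have hmax : IsLocalRing.maximalIdeal O = Ideal.span {π} :=
    (IsDiscreteValuationRing.irreducible_iff_uniformizer π).1 hπ
  rw [mem_span_C_iff, ← hmax]
  push Not
  refine exists_congr fun i => ?_
  rw [IsLocalRing.mem_maximalIdeal, mem_nonunits_iff, not_not]

theorem C_ne_zero' {π : O} (hπ : Irreducible π) : (C π : O[X]) ≠ 0 := by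
  rw [Ne, C_eq_zero]
  exact hπ.ne_zero

/-- a subring containing the constants and `X` contains all polynomials -/
theorem forall_mem_of_C_of_X {F : Type*} [Field F] [Algebra O[X] F] (W : ValuationSubring F)
    (hC : ∀ c : O, algebraMap O[X] F (C c) ∈ W) (hX : algebraMap O[X] F X ∈ W) (b : O[X]) :
    algebraMap O[X] F b ∈ W := by
  induction b using Polynomial.induction_on' with
  | add p q hp hq => rw [map_add]; exact W.add_mem _ _ hp hq
  | monomial n c =>
    rw [← C_mul_X_pow_eq_monomial, map_mul, map_pow]
    exact W.mul_mem _ _ (hC c) (pow_mem hX n)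

variable {F : Type*} [Field F] [Algebra O[X] F]
  (Kb : Type*) [Field Kb] [Algebra O[X] Kb] [IsFractionRing O[X] Kb] [Algebra Kb F]
  [IsScalarTower O[X] Kb F] [FiniteDimensional Kb F] [Algebra.IsSeparable Kb F]

include Kb in
/-- **Membership criterion, Gauss form.**  `O[X] → F`, `X ↦ φ`.  An element `x : F` is integral
over `O[X]` as soon as it lies in every valuation subring `W` of `F` extending the `φ`-Gauss
valuation (`O ⊆ W`, `φ ∈ W`, `π` a non-unit of `W`, every primitive polynomial in `φ` a unit of
`W`), and in every valuation subring containing `O`, `φ` and `π⁻¹` (the places of `F` over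
`Frac O` which are finite at `φ`, and the trivial valuation). -/
theorem isIntegral_of_gauss_places {π : O} (hπ : Irreducible π) (x : F)
    (hvert : ∀ W : ValuationSubring F, (∀ c : O, algebraMap O[X] F (C c) ∈ W) →
      algebraMap O[X] F X ∈ W → (algebraMap O[X] F (C π))⁻¹ ∉ W →
      (∀ s : O[X], (∃ i, IsUnit (s.coeff i)) → (algebraMap O[X] F s)⁻¹ ∈ W) → x ∈ W)
    (hhor : ∀ W : ValuationSubring F, (∀ c : O, algebraMap O[X] F (C c) ∈ W) →
      algebraMap O[X] F X ∈ W → (algebraMap O[X] F (C π))⁻¹ ∈ W → x ∈ W) :
    IsIntegral O[X] x := by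
  refine isIntegral_of_vertical_horizontal O[X] Kb F (C_ne_zero' hπ) (isPrime_span_C hπ) x
    (fun W hW h1 h2 => hvert W (fun c => hW _) (hW _) h1 fun s hs => h2 s ?_)
    (fun W hW h1 => hhor W (fun c => hW _) (hW _) h1)
  exact (not_mem_span_C_iff hπ s).2 hs

end Poly

/-! ### independence of the fraction field; transcendental parameters -/

section Transfer

open IntermediateField IntermediateField.algebraAdjoinAdjoin

/-- Finite-dimensionality of `F` over a fraction field of `B` does not depend on the fraction
field. -/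
theorem finiteDimensional_of_isFractionRing (B : Type*) [CommRing B]
    (Kb Kb' : Type*) [Field Kb] [Field Kb'] [Algebra B Kb] [Algebra B Kb']
    [IsFractionRing B Kb] [IsFractionRing B Kb']
    (F : Type*) [Field F] [Algebra B F] [Algebra Kb F] [Algebra Kb' F]
    [IsScalarTower B Kb F] [IsScalarTower B Kb' F] [FiniteDimensional Kb F] :
    FiniteDimensional Kb' F := by
  let e : Kb ≃ₐ[B] Kb' := IsLocalization.algEquiv (nonZeroDivisors B) Kb Kb'
  have hcomp : (algebraMap Kb' F).comp (e : Kb →+* Kb') = algebraMap Kb F := by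
    apply IsLocalization.ringHom_ext (nonZeroDivisors B)
    ext b
    simp only [RingHom.comp_apply]
    rw [← IsScalarTower.algebraMap_apply B Kb F]
    have : (e : Kb →+* Kb') (algebraMap B Kb b) = algebraMap B Kb' b := e.commutes b
    rw [this, ← IsScalarTower.algebraMap_apply B Kb' F]
  have hsmul : ∀ (c : Kb) (y : F), c • y = (e c) • y := by
    intro c y
    rw [Algebra.smul_def, Algebra.smul_def, ← hcomp]
    rfl
  obtain ⟨s, hs⟩ := (Module.finite_def (R := Kb) (M := F)).1 inferInstance
  refine Module.finite_def.2 ⟨s, ?_⟩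
  rw [eq_top_iff]
  intro x _
  have hx : x ∈ Submodule.span Kb (s : Set F) := by rw [hs]; trivial
  induction hx using Submodule.span_induction with
  | mem y hy => exact Submodule.subset_span hy
  | zero => exact Submodule.zero_mem _
  | add y z _ _ hy hz => exact Submodule.add_mem _ (hy trivial) (hz trivial)
  | smul c y _ hy => rw [hsmul]; exact Submodule.smul_mem _ _ (hy trivial)

/-- **Every transcendental element is a parameter.**  If `F` is finite over `K(j)` and `φ : F` is
transcendental over `K`, then `F` is finite over `K(φ)`. -/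
theorem finiteDimensional_of_transcendental {K F : Type*} [Field K] [Field F] [Algebra K F]
    (j φ : F) [FiniteDimensional K⟮j⟯ F] (hφ : Transcendental K φ) :
    FiniteDimensional K⟮φ⟯ F := by
  haveI : Algebra.IsAlgebraic K⟮j⟯ F := inferInstance
  haveI : Algebra.IsAlgebraic (Algebra.adjoin K ({j} : Set F)) F :=
    (IsFractionRing.comap_isAlgebraic_iff (A := Algebra.adjoin K ({j} : Set F))
      (K := K⟮j⟯) (C := F)).2 inferInstance
  have h1 : Algebra.trdeg K F ≤ 1 := by
    simpa using Algebra.IsAlgebraic.trdeg_le_cardinalMk K ({j} : Set F)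
  have hx : AlgebraicIndependent K (fun _ : PUnit => φ) :=
    (algebraicIndependent_unique_type_iff (ι := PUnit)).2 hφ
  have hb : IsTranscendenceBasis K (fun _ : PUnit => φ) :=
    hx.isTranscendenceBasis_of_trdeg_le_of_finite (by simpa using h1)
  have halg : Algebra.IsAlgebraic (IntermediateField.adjoin K (Set.range fun _ : PUnit => φ)) F :=
    hb.isAlgebraic_field
  rw [Set.range_const] at halg
  haveI : Algebra.EssFiniteType K K⟮j⟯ :=
    IntermediateField.essFiniteType_iff.2 (IntermediateField.fg_adjoin_of_finite (Set.finite_singleton j))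
  haveI : Algebra.EssFiniteType K F := Algebra.EssFiniteType.comp K K⟮j⟯ F
  haveI : Algebra.EssFiniteType K⟮φ⟯ F := Algebra.EssFiniteType.of_comp K K⟮φ⟯ F
  obtain ⟨s, hs⟩ := IntermediateField.fg_top K⟮φ⟯ F
  have hfd : FiniteDimensional K⟮φ⟯ (IntermediateField.adjoin K⟮φ⟯ (s : Set F)) :=
    IntermediateField.finiteDimensional_adjoin fun x _ => (halg.isAlgebraic x).isIntegral
  rw [hs] at hfd
  exact (IntermediateField.topEquiv (F := K⟮φ⟯) (E := F)).toLinearEquiv.finiteDimensional

end Transfer

/-! ### adjoin form: `O[φ] ⊆ F`, `K(φ)` as the fraction field of `O[X]` -/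

section AdjoinForm

variable {O : Type*} [CommRing O] [IsDomain O] {K : Type*} [Field K] [Algebra O K]
  [IsFractionRing O K] {F : Type*} [Field F] [Algebra K F] [Algebra O F] [IsScalarTower O K F]

/-- `O[X] → K(φ)`, `X ↦ φ` -/
noncomputable def toAdjoin (φ : F) : O[X] →ₐ[O] K⟮φ⟯ := aeval (AdjoinSimple.gen K φ)

theorem coe_toAdjoin (φ : F) (p : O[X]) : ((toAdjoin (K := K) φ p : K⟮φ⟯) : F) = aeval φ p := by
  have h := Polynomial.aeval_algHom_apply ((IntermediateField.val K⟮φ⟯).restrictScalars O)
    (AdjoinSimple.gen K φ) p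
  rw [toAdjoin]
  exact h.symm

theorem aeval_ne_zero_of_transcendental {φ : F} (hφ : Transcendental K φ) {p : O[X]}
    (hp : p ≠ 0) : aeval φ p ≠ 0 := by
  have h1 : p.map (algebraMap O K) ≠ 0 := by
    rwa [Ne, Polynomial.map_eq_zero_iff (IsFractionRing.injective O K)]
  intro h0
  apply h1
  apply (transcendental_iff.1 hφ)
  rwa [aeval_map_algebraMap]

theorem toAdjoin_injective {φ : F} (hφ : Transcendental K φ) :
    Function.Injective (toAdjoin (O := O) (K := K) φ) := by
  rw [injective_iff_map_eq_zero]
  intro p hp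
  by_contra hne
  apply aeval_ne_zero_of_transcendental (O := O) hφ hne
  rw [← coe_toAdjoin (K := K), hp]
  rfl

theorem aeval_integerNormalization (φ : F) (r : K[X]) :
    ∃ b : O, b ≠ 0 ∧ aeval φ (IsLocalization.integerNormalization (nonZeroDivisors O) r) =
      algebraMap O F b * aeval φ r := by
  obtain ⟨b, hb, hbr⟩ := IsLocalization.integerNormalization_spec (nonZeroDivisors O) r
  refine ⟨b, nonZeroDivisors.ne_zero hb, ?_⟩
  rw [← aeval_map_algebraMap K, hbr, ← algebraMap_smul K b r, map_smul, Algebra.smul_def,
    ← IsScalarTower.algebraMap_apply O K F]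

include K in
theorem algebraMap_ne_zero_of_ne_zero {b : O} (hb : b ≠ 0) : algebraMap O F b ≠ 0 := by
  rw [IsScalarTower.algebraMap_apply O K F]
  intro h
  have h1 := (algebraMap K F).injective (h.trans (map_zero _).symm)
  exact hb ((IsFractionRing.injective O K) (h1.trans (map_zero _).symm))

/-- `K(φ)` is a fraction field of `O[X]` (`X ↦ φ`) when `φ` is transcendental. -/
theorem isFractionRing_toAdjoin {φ : F} (hφ : Transcendental K φ) :
    letI : Algebra O[X] K⟮φ⟯ := (toAdjoin (O := O) (K := K) φ).toRingHom.toAlgebra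
    IsFractionRing O[X] K⟮φ⟯ := by
  letI : Algebra O[X] K⟮φ⟯ := (toAdjoin (O := O) (K := K) φ).toRingHom.toAlgebra
  haveI : FaithfulSMul O[X] K⟮φ⟯ :=
    (faithfulSMul_iff_algebraMap_injective _ _).2 (toAdjoin_injective hφ)
  refine IsFractionRing.of_field _ _ fun z => ?_
  obtain ⟨r, s, hrs⟩ := (mem_adjoin_simple_iff K (z : F)).1 z.2
  obtain ⟨b, hb, hbr⟩ := aeval_integerNormalization (O := O) φ r
  obtain ⟨c, hc, hcs⟩ := aeval_integerNormalization (O := O) φ s
  refine ⟨C c * IsLocalization.integerNormalization (nonZeroDivisors O) r,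
    C b * IsLocalization.integerNormalization (nonZeroDivisors O) s, ?_⟩
  apply Subtype.ext
  have h1 : ∀ p : O[X], ((algebraMap O[X] K⟮φ⟯ p : K⟮φ⟯) : F) = aeval φ p :=
    fun p => coe_toAdjoin φ p
  rw [IntermediateField.coe_div, h1, h1, hrs, map_mul, map_mul, aeval_C, aeval_C, hbr, hcs]
  have hb' := algebraMap_ne_zero_of_ne_zero (K := K) (F := F) hb
  have hc' := algebraMap_ne_zero_of_ne_zero (K := K) (F := F) hc
  rw [show algebraMap O F c * (algebraMap O F b * aeval φ r) =
      (algebraMap O F c * algebraMap O F b) * aeval φ r by ring,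
    show algebraMap O F b * (algebraMap O F c * aeval φ s) =
      (algebraMap O F c * algebraMap O F b) * aeval φ s by ring,
    mul_div_mul_left _ _ (mul_ne_zero hc' hb')]

end AdjoinForm

section AdjoinMain

variable {O : Type*} [CommRing O] [IsDomain O] [IsDiscreteValuationRing O] {K : Type*} [Field K]
  [Algebra O K] [IsFractionRing O K] {F : Type*} [Field F] [Algebra K F] [Algebra O F]
  [IsScalarTower O K F]

/-- every element of the fraction field of a discrete valuation ring is `a / π ^ n` -/
theorem exists_eq_div_pow {π : O} (hπ : Irreducible π) (c : K) :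
    ∃ (a : O) (n : ℕ), c = algebraMap O K a / (algebraMap O K π) ^ n := by
  obtain ⟨a, b, hb, rfl⟩ := IsFractionRing.div_surjective (A := O) c
  have hb0 := nonZeroDivisors.ne_zero hb
  obtain ⟨n, u, hu⟩ := IsDiscreteValuationRing.eq_unit_mul_pow_irreducible hb0 hπ
  refine ⟨a * ((u⁻¹ : Oˣ) : O), n, ?_⟩
  have hπK : algebraMap O K π ≠ 0 := fun h =>
    hπ.ne_zero ((IsFractionRing.injective O K) (h.trans (map_zero _).symm))
  have huK : algebraMap O K (u : O) * algebraMap O K ((u⁻¹ : Oˣ) : O) = 1 := by
    rw [← map_mul, Units.mul_inv, map_one]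
  have huK0 : algebraMap O K (u : O) ≠ 0 := left_ne_zero_of_mul_eq_one huK
  rw [hu, map_mul, map_mul, map_pow, div_eq_div_iff (mul_ne_zero huK0 (pow_ne_zero n hπK))
    (pow_ne_zero n hπK)]
  calc algebraMap O K a * algebraMap O K π ^ n
      = algebraMap O K a * (algebraMap O K (u : O) * algebraMap O K ((u⁻¹ : Oˣ) : O)) *
          algebraMap O K π ^ n := by rw [huK, mul_one]
    _ = _ := by ring

/-- **Membership criterion, adjoin form.**  `O` a discrete valuation ring with uniformiser `π` and
fraction field `K` of characteristic zero, `F ⊇ K` a field, `φ : F` transcendental over `K` with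
`F` finite over `K(φ)`.  Then `x : F` is integral over `O[φ]` as soon as it lies in every valuation
subring of `F` extending the `φ`-Gauss valuation and in every valuation subring of `F` containing
`K` and `φ`. -/
theorem isIntegral_adjoin_of_gauss_places [CharZero K] {π : O} (hπ : Irreducible π) (φ : F)
    (hφ : Transcendental K φ) [FiniteDimensional K⟮φ⟯ F] (x : F)
    (hvert : ∀ W : ValuationSubring F, (∀ c : O, algebraMap O F c ∈ W) → φ ∈ W →
      (algebraMap O F π)⁻¹ ∉ W →
      (∀ s : O[X], (∃ i, IsUnit (s.coeff i)) → (aeval φ s)⁻¹ ∈ W) → x ∈ W)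
    (hhor : ∀ W : ValuationSubring F, (∀ c : K, algebraMap K F c ∈ W) → φ ∈ W → x ∈ W) :
    IsIntegral (Algebra.adjoin O ({φ} : Set F)) x := by
  letI alg1 : Algebra O[X] F := (aeval φ : O[X] →ₐ[O] F).toRingHom.toAlgebra
  letI alg2 : Algebra O[X] K⟮φ⟯ := (toAdjoin (O := O) (K := K) φ).toRingHom.toAlgebra
  haveI : IsFractionRing O[X] K⟮φ⟯ := isFractionRing_toAdjoin hφ
  haveI : IsScalarTower O[X] K⟮φ⟯ F :=
    IsScalarTower.of_algebraMap_eq fun p => (coe_toAdjoin φ p).symm
  haveI : CharZero K⟮φ⟯ := charZero_of_injective_algebraMap (algebraMap K K⟮φ⟯).injective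
  haveI : Algebra.IsSeparable K⟮φ⟯ F := inferInstance
  have hmap : ∀ p : O[X], algebraMap O[X] F p = aeval φ p := fun p => rfl
  have hint : IsIntegral O[X] x := by
    refine isIntegral_of_gauss_places (O := O) (F := F) K⟮φ⟯ hπ x ?_ ?_
    · intro W hC hX h1 h2
      refine hvert W (fun c => ?_) ?_ ?_ fun s hs => ?_
      · have := hC c
        rwa [hmap, aeval_C] at this
      · rwa [hmap, aeval_X] at hX
      · rwa [hmap, aeval_C] at h1
      · have := h2 s hs
        rwa [hmap] at this
    · intro W hC hX h1
      have hC' : ∀ c : O, algebraMap O F c ∈ W := fun c => by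
        have := hC c
        rwa [hmap, aeval_C] at this
      rw [hmap, aeval_C] at h1
      refine hhor W (fun c => ?_) (by rwa [hmap, aeval_X] at hX)
      obtain ⟨a, n, rfl⟩ := exists_eq_div_pow hπ c
      rw [map_div₀, map_pow, ← IsScalarTower.algebraMap_apply O K F,
        ← IsScalarTower.algebraMap_apply O K F, div_eq_mul_inv, ← inv_pow]
      exact W.mul_mem _ _ (hC' a) (pow_mem h1 n)
  -- from `O[X]` to `O[φ]`
  obtain ⟨p, hp, hpx⟩ := hint
  let g : O[X] →+* Algebra.adjoin O ({φ} : Set F) :=
    (aeval (⟨φ, Algebra.self_mem_adjoin_singleton O φ⟩ : Algebra.adjoin O ({φ} : Set F)) :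
      O[X] →ₐ[O] Algebra.adjoin O ({φ} : Set F)).toRingHom
  have hg : (algebraMap (Algebra.adjoin O ({φ} : Set F)) F).comp g = algebraMap O[X] F := by
    ext q
    · simp [g, hmap]
    · simp [g, hmap]
  refine ⟨p.map g, hp.map g, ?_⟩
  rw [eval₂_map, hg]
  exact hpx

end AdjoinMain


/-! ### the chart ring `A_φ = integralClosure O[φ] F` -/

section AdjoinChart

variable {O : Type*} [CommRing O] [IsDomain O] [IsDiscreteValuationRing O] {K : Type*} [Field K]
  [Algebra O K] [IsFractionRing O K] {F : Type*} [Field F] [Algebra K F] [Algebra O F]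
  [IsScalarTower O K F]

theorem adjoin_le_adjoin (φ : F) :
    Algebra.adjoin O ({φ} : Set F) ≤ (K⟮φ⟯.toSubalgebra.restrictScalars O) :=
  Algebra.adjoin_le (by
    rw [Set.singleton_subset_iff]
    exact mem_adjoin_simple_self K φ)

/-- the inclusion `O[φ] → K(φ)` -/
noncomputable def adjoinIncl (φ : F) : Algebra.adjoin O ({φ} : Set F) →+* K⟮φ⟯ :=
  (Subalgebra.inclusion (adjoin_le_adjoin (O := O) (K := K) φ)).toRingHom

theorem coe_adjoinIncl (φ : F) (b : Algebra.adjoin O ({φ} : Set F)) :
    ((adjoinIncl (K := K) φ b : K⟮φ⟯) : F) = (b : F) := rfl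

theorem transcendental_base {φ : F} (hφ : Transcendental K φ) : Transcendental O φ :=
  hφ.restrictScalars (IsFractionRing.injective O K)

theorem adjoin_isNoetherianRing {φ : F} (hφ : Transcendental K φ) :
    IsNoetherianRing (Algebra.adjoin O ({φ} : Set F)) :=
  isNoetherianRing_of_ringEquiv O[X]
    (Polynomial.algEquivOfTranscendental O φ (transcendental_base hφ)).toRingEquiv

theorem adjoin_isIntegrallyClosed {φ : F} (hφ : Transcendental K φ) :
    IsIntegrallyClosed (Algebra.adjoin O ({φ} : Set F)) :=
  IsIntegrallyClosed.of_equiv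
    (Polynomial.algEquivOfTranscendental O φ (transcendental_base hφ)).toRingEquiv

theorem isFractionRing_adjoinIncl {φ : F} (hφ : Transcendental K φ) :
    letI : Algebra (Algebra.adjoin O ({φ} : Set F)) K⟮φ⟯ := (adjoinIncl (K := K) φ).toAlgebra
    IsFractionRing (Algebra.adjoin O ({φ} : Set F)) K⟮φ⟯ := by
  letI : Algebra (Algebra.adjoin O ({φ} : Set F)) K⟮φ⟯ := (adjoinIncl (K := K) φ).toAlgebra
  haveI : FaithfulSMul (Algebra.adjoin O ({φ} : Set F)) K⟮φ⟯ := by
    rw [faithfulSMul_iff_algebraMap_injective]
    intro a b hab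
    apply Subtype.ext
    have := congrArg (fun z : K⟮φ⟯ => (z : F)) hab
    exact this
  refine IsFractionRing.of_field _ _ fun z => ?_
  letI alg2 : Algebra O[X] K⟮φ⟯ := (toAdjoin (O := O) (K := K) φ).toRingHom.toAlgebra
  haveI : IsFractionRing O[X] K⟮φ⟯ := isFractionRing_toAdjoin hφ
  obtain ⟨p, q, hq, rfl⟩ := IsFractionRing.div_surjective (A := O[X]) z
  let e := Polynomial.algEquivOfTranscendental O φ (transcendental_base (K := K) hφ)
  refine ⟨e p, e q, ?_⟩
  have h1 : ∀ r : O[X], algebraMap (Algebra.adjoin O ({φ} : Set F)) K⟮φ⟯ (e r) =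
      algebraMap O[X] K⟮φ⟯ r := by
    intro r
    apply Subtype.ext
    change ((e r : Algebra.adjoin O ({φ} : Set F)) : F) = ((toAdjoin (K := K) φ r : K⟮φ⟯) : F)
    rw [coe_toAdjoin, Polynomial.algEquivOfTranscendental_apply]
    simp
  rw [h1, h1]

/-- The chart ring `A_φ`: the integral closure of `O[φ]` in `F`. -/
abbrev chart (O : Type*) [CommRing O] {F : Type*} [Field F] [Algebra O F] (φ : F) :
    Subalgebra (Algebra.adjoin O ({φ} : Set F)) F :=
  integralClosure (Algebra.adjoin O ({φ} : Set F)) F

variable [CharZero K]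

theorem chart_props {φ : F} (hφ : Transcendental K φ) [FiniteDimensional K⟮φ⟯ F] :
    IsNoetherianRing (chart O φ) ∧ IsIntegrallyClosed (chart O φ) ∧ IsFractionRing (chart O φ) F ∧
      Module.Finite (Algebra.adjoin O ({φ} : Set F)) (chart O φ) := by
  letI : Algebra (Algebra.adjoin O ({φ} : Set F)) K⟮φ⟯ := (adjoinIncl (K := K) φ).toAlgebra
  haveI : IsFractionRing (Algebra.adjoin O ({φ} : Set F)) K⟮φ⟯ := isFractionRing_adjoinIncl hφ
  haveI : IsScalarTower (Algebra.adjoin O ({φ} : Set F)) K⟮φ⟯ F :=
    IsScalarTower.of_algebraMap_eq fun b => rfl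
  haveI : CharZero K⟮φ⟯ := charZero_of_injective_algebraMap (algebraMap K K⟮φ⟯).injective
  haveI : Algebra.IsSeparable K⟮φ⟯ F := inferInstance
  haveI := adjoin_isNoetherianRing (O := O) hφ
  haveI := adjoin_isIntegrallyClosed (O := O) hφ
  exact ⟨isNoetherianRing _ K⟮φ⟯ F, isIntegrallyClosed _ K⟮φ⟯ F, isFractionRing _ K⟮φ⟯ F,
    finite _ K⟮φ⟯ F⟩

theorem chart_isNoetherianRing {φ : F} (hφ : Transcendental K φ) [FiniteDimensional K⟮φ⟯ F] :
    IsNoetherianRing (chart O φ) := (chart_props hφ).1

theorem chart_isIntegrallyClosed {φ : F} (hφ : Transcendental K φ) [FiniteDimensional K⟮φ⟯ F] :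
    IsIntegrallyClosed (chart O φ) := (chart_props hφ).2.1

theorem chart_isFractionRing {φ : F} (hφ : Transcendental K φ) [FiniteDimensional K⟮φ⟯ F] :
    IsFractionRing (chart O φ) F := (chart_props hφ).2.2.1

theorem chart_finite {φ : F} (hφ : Transcendental K φ) [FiniteDimensional K⟮φ⟯ F] :
    Module.Finite (Algebra.adjoin O ({φ} : Set F)) (chart O φ) := (chart_props hφ).2.2.2

/-- membership in the chart ring, valuation-theoretically -/
theorem mem_chart_of_gauss_places {π : O} (hπ : Irreducible π) {φ : F}
    (hφ : Transcendental K φ) [FiniteDimensional K⟮φ⟯ F] (x : F)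
    (hvert : ∀ W : ValuationSubring F, (∀ c : O, algebraMap O F c ∈ W) → φ ∈ W →
      (algebraMap O F π)⁻¹ ∉ W →
      (∀ s : O[X], (∃ i, IsUnit (s.coeff i)) → (aeval φ s)⁻¹ ∈ W) → x ∈ W)
    (hhor : ∀ W : ValuationSubring F, (∀ c : K, algebraMap K F c ∈ W) → φ ∈ W → x ∈ W) :
    x ∈ chart O φ :=
  isIntegral_adjoin_of_gauss_places hπ φ hφ x hvert hhor

/-- conversely every element of the chart ring lies in every valuation subring containing `O`
and `φ` -/
theorem mem_of_mem_chart {φ : F} {x : F} (hx : x ∈ chart O φ) (W : ValuationSubring F)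
    (hO : ∀ c : O, algebraMap O F c ∈ W) (hφW : φ ∈ W) : x ∈ W := by
  refine mem_of_isIntegral W (fun b => ?_) hx
  have hle : Algebra.adjoin O ({φ} : Set F) ≤
      (⟨W.toSubring.toSubsemiring, fun c => hO c⟩ : Subalgebra O F) :=
    Algebra.adjoin_le (by
      rw [Set.singleton_subset_iff]
      exact hφW)
  exact hle b.2

end AdjoinChart


end Fermat.Agent.S36.ChartRing
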