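/-
PROJECT V (S36), slice V-ChartVert (helper12): **the vertical half of the prime-divisor dictionary
of a chart ring.**

General part (`section General`).  `A` a noetherian integrally closed domain with fraction field
`F`, integral over an integrally closed noetherian domain `B`, `π : B` a nonzero prime element.

* `span_height_one` : a nonzero prime of `B` contained in `(π)` is `(π)`.
* `under_eq_span_of_isCond` : a conductor prime `P` of `A` containing `π` has `P ∩ B = (π)`
  (going-down for integral extensions of integrally closed domains).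
* `inv_mem_of_isCond` : hence every `s ∈ B ∖ (π)` is a unit of `A_P`: `A_P` is *vertical*.
* `centre_under_eq_span`, `centre_height_one`, `exists_isCond_eq_of_vertical` : conversely a
  valuation subring `W ⊇ A` of `F` in which `π` is a non-unit and every `s ∈ B ∖ (π)` is a unit
  has a centre `m_W ∩ A` of height one (incomparability), this centre is a conductor prime and
  `W` is the localisation of `A` at it.

Chart part (`section Chart`).  `O` a discrete valuation ring with uniformiser `π` and fraction
field `K` of characteristic zero, `φ : F` transcendental over `K`, `F / K(φ)` finite,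
`A = ChartRing.chart O φ`.  `IsGaussVert π φ W` : `O ⊆ W`, `φ ∈ W`, `π` a non-unit of `W`, every
primitive polynomial in `φ` a unit of `W` (the `hvert` shape of `ChartRing`, `ChartPlaces`,
`ModelVert`).

* `isGaussVert_of_isCond` : the localisation of the chart ring at a conductor prime containing `π`
  is Gauss-vertical.
* `exists_isCond_of_isGaussVert` : a Gauss-vertical valuation subring is the localisation of the
  chart ring at the conductor prime `m_W ∩ A`.
* `isCond_vertical_or_horizontal` : every conductor prime of the chart ring is Gauss-vertical or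
  contains `K` (a place of `F / K` finite at `φ`).
-/
import Mathlib
import Fermat.Agent.S36.KrullInter
import Fermat.Agent.S36.ChartRing
import Fermat.Agent.S36.ChartOverlap
import Fermat.Agent.S36.CentreCore

set_option autoImplicit false
set_option linter.unusedSectionVars false
set_option linter.style.haveILetI false
set_option linter.unusedVariables false

namespace Fermat.Agent.S36.ChartVert

open Polynomial IntermediateField
open Fermat.Agent.S36.KrullInter Fermat.Agent.S36.ChartRing Fermat.Agent.S36.ChartOverlap
open Fermat.Agent.S36.CentreCore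

/-! ### a prime element generates a prime of height one -/

/-- In a noetherian domain, a nonzero prime ideal contained in the prime `(π)` is `(π)`. -/
theorem span_height_one {B : Type*} [CommRing B] [IsDomain B] [IsNoetherianRing B] {π : B}
    (hπ : (Ideal.span {π}).IsPrime) (P : Ideal B) [hP : P.IsPrime] (hle : P ≤ Ideal.span {π}) :
    P = ⊥ ∨ P = Ideal.span {π} := by
  classical
  by_cases hbot : P = ⊥
  · exact Or.inl hbot
  right
  refine le_antisymm hle ?_
  rw [Ideal.span_le, Set.singleton_subset_iff]
  obtain ⟨b, hbP, hb0⟩ := Submodule.exists_mem_ne_zero_of_ne_bot hbot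
  -- `b ∉ (π) ^ k` for some `k`
  have hex : ∃ k : ℕ, b ∉ Ideal.span {π} ^ k := by
    by_contra hcon
    push Not at hcon
    have h1 : b ∈ ⨅ k : ℕ, Ideal.span {π} ^ k := by
      rw [Ideal.mem_iInf]
      exact hcon
    rw [Ideal.iInf_pow_eq_bot_of_isDomain _ hπ.ne_top, Ideal.mem_bot] at h1
    exact hb0 h1
  set k := Nat.find hex with hk
  have hkspec : b ∉ Ideal.span {π} ^ k := Nat.find_spec hex
  have hk0 : k ≠ 0 := by
    intro h0
    rw [h0, pow_zero, Ideal.one_eq_top] at hkspec
    exact hkspec Submodule.mem_top
  obtain ⟨j, hj⟩ := Nat.exists_eq_succ_of_ne_zero hk0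
  have hjmem : b ∈ Ideal.span {π} ^ j := by
    by_contra hcon
    have := Nat.find_min' hex hcon
    omega
  rw [Ideal.span_singleton_pow, Ideal.mem_span_singleton'] at hjmem
  obtain ⟨c, hc⟩ := hjmem
  have hcπ : c ∉ Ideal.span {π} := by
    intro hmem
    apply hkspec
    rw [hj, Ideal.span_singleton_pow, Ideal.mem_span_singleton']
    obtain ⟨d, hd⟩ := Ideal.mem_span_singleton'.1 hmem
    exact ⟨d, by rw [← hc, ← hd, pow_succ]; ring⟩
  have hcP : c ∉ P := fun h => hcπ (hle h)
  have hmem : c * π ^ j ∈ P := by rw [hc]; exact hbP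
  rcases hP.mem_or_mem hmem with h1 | h1
  · exact absurd h1 hcP
  · exact hP.mem_of_pow_mem j h1

/-! ### general form -/

section General

variable {A : Type*} [CommRing A] [IsDomain A] {F : Type*} [Field F] [Algebra A F]
  [IsFractionRing A F] [IsNoetherianRing A] [IsIntegrallyClosed A]
  {B : Type*} [CommRing B] [IsDomain B] [IsIntegrallyClosed B] [Algebra B A] [Algebra B F]
  [IsScalarTower B A F] [Algebra.IsIntegral B A] [FaithfulSMul B A]

local notation "ι" => algebraMap A F

/-- **Going-down.**  A conductor prime of `A` containing the prime element `π` of `B` lies over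
`(π)`. -/
theorem under_eq_span_of_isCond {π : B} (hπ0 : π ≠ 0) (hπ : (Ideal.span {π}).IsPrime)
    {P : Ideal A} {y : F} (h : IsCond P y) (hπP : algebraMap B A π ∈ P) :
    P.under B = Ideal.span {π} := by
  haveI := h.prime
  haveI := hπ
  have hinjBA : Function.Injective (algebraMap B A) := FaithfulSMul.algebraMap_injective B A
  have hπA0 : algebraMap B A π ≠ 0 := fun h0 => hπ0 (hinjBA (by rw [h0, map_zero]))
  have hle : Ideal.span {π} ≤ P.under B := by
    rw [Ideal.span_le, Set.singleton_subset_iff]
    exact hπP
  obtain ⟨P', hP'P, hP'prime, hP'over⟩ := Ideal.exists_ideal_le_liesOver_of_le P hle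
  haveI := hP'prime
  have hP'ne : P' ≠ ⊥ := by
    intro hbot
    have : algebraMap B A π ∈ P' := by
      have h1 : π ∈ P'.under B := by
        rw [← hP'over.over]; exact Ideal.mem_span_singleton_self π
      exact h1
    rw [hbot, Ideal.mem_bot] at this
    exact hπA0 this
  have hP'eq : P' = P := (h.eq_bot_or_eq_of_le P' hP'P).resolve_left hP'ne
  rw [← hP'eq]
  exact hP'over.over.symm

/-- The localisation at a conductor prime containing `π` is vertical: the elements of `B`
outside `(π)` are units. -/
theorem inv_mem_of_isCond {π : B} (hπ0 : π ≠ 0) (hπ : (Ideal.span {π}).IsPrime)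
    {P : Ideal A} {y : F} (h : IsCond P y) (hπP : algebraMap B A π ∈ P) {s : B}
    (hs : s ∉ Ideal.span {π}) : (algebraMap B F s)⁻¹ ∈ h.valuationSubring := by
  haveI := h.prime
  rw [IsScalarTower.algebraMap_apply B A F]
  apply inv_mem_locSubring
  intro hsP
  apply hs
  rw [← under_eq_span_of_isCond hπ0 hπ h hπP]
  exact hsP

/-- membership of `π` in a conductor prime, in terms of the valuation subring -/
theorem algebraMap_mem_of_inv_not_mem {π : B} (hπ0 : π ≠ 0) {P : Ideal A} {y : F}
    (h : IsCond P y) (hπW : (algebraMap B F π)⁻¹ ∉ h.valuationSubring) :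
    algebraMap B A π ∈ P := by
  haveI := h.prime
  have hinjBA : Function.Injective (algebraMap B A) := FaithfulSMul.algebraMap_injective B A
  have hπA0 : algebraMap B A π ≠ 0 := fun h0 => hπ0 (hinjBA (by rw [h0, map_zero]))
  rw [h.mem_iff_inv_not_mem hπA0, ← IsScalarTower.algebraMap_apply B A F]
  exact hπW

variable [IsNoetherianRing B]

/-- The centre of a vertical valuation subring lies over `(π)`. -/
theorem centre_under_eq_span {π : B} (hπ0 : π ≠ 0) (W : ValuationSubring F)
    (hA : ∀ a : A, ι a ∈ W) (hπW : (algebraMap B F π)⁻¹ ∉ W)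
    (hs : ∀ s : B, s ∉ Ideal.span {π} → (algebraMap B F s)⁻¹ ∈ W) :
    (centre W hA).under B = Ideal.span {π} := by
  have hinjBA : Function.Injective (algebraMap B A) := FaithfulSMul.algebraMap_injective B A
  have hπA0 : algebraMap B A π ≠ 0 := fun h0 => hπ0 (hinjBA (by rw [h0, map_zero]))
  apply le_antisymm
  · intro s hsmem
    by_contra hsπ
    have h1 : algebraMap B A s ∈ centre W hA := hsmem
    have hs0 : algebraMap B A s ≠ 0 := by
      intro h0
      apply hsπ
      have : s = 0 := hinjBA (by rw [h0, map_zero])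
      rw [this]
      exact Ideal.zero_mem _
    have h2 := (mem_centre_iff hs0).1 h1
    apply h2
    rw [← IsScalarTower.algebraMap_apply B A F]
    exact hs s hsπ
  · rw [Ideal.span_le, Set.singleton_subset_iff]
    show algebraMap B A π ∈ centre W hA
    rw [mem_centre_iff hπA0, ← IsScalarTower.algebraMap_apply B A F]
    exact hπW

/-- The centre of a vertical valuation subring has height one. -/
theorem centre_height_one {π : B} (hπ0 : π ≠ 0) (hπ : (Ideal.span {π}).IsPrime)
    (W : ValuationSubring F) (hA : ∀ a : A, ι a ∈ W) (hπW : (algebraMap B F π)⁻¹ ∉ W)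
    (hs : ∀ s : B, s ∉ Ideal.span {π} → (algebraMap B F s)⁻¹ ∈ W)
    (Q : Ideal A) (hQ : Q.IsPrime) (hQle : Q ≤ centre W hA) : Q = ⊥ ∨ Q = centre W hA := by
  haveI := hQ
  by_cases hbot : Q = ⊥
  · exact Or.inl hbot
  right
  have hund := centre_under_eq_span hπ0 W hA hπW hs
  -- `Q ∩ B` is a nonzero prime inside `(π)`
  have hQund : Q.under B ≤ Ideal.span {π} := by
    rw [← hund]
    exact Ideal.comap_mono hQle
  have hQne : Q.under B ≠ ⊥ := fun h0 => hbot (Ideal.eq_bot_of_comap_eq_bot h0)
  have hQeq : Q.under B = Ideal.span {π} :=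
    (span_height_one hπ (Q.under B) hQund).resolve_left hQne
  -- incomparability
  by_contra hne
  have hlt : Q < centre W hA := lt_of_le_of_ne hQle hne
  obtain ⟨x, hxc, hxQ⟩ := SetLike.exists_of_lt hlt
  have := Ideal.comap_lt_comap_of_integral_mem_sdiff (R := B) hQle ⟨hxc, hxQ⟩
    (Algebra.IsIntegral.isIntegral x)
  have h1 : Q.under B < (centre W hA).under B := this
  rw [hQeq, hund] at h1
  exact lt_irrefl _ h1

/-- **A vertical valuation subring is the localisation of `A` at its centre**, a conductor
prime. -/
theorem exists_isCond_eq_of_vertical {π : B} (hπ0 : π ≠ 0) (hπ : (Ideal.span {π}).IsPrime)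
    (W : ValuationSubring F) (hA : ∀ a : A, ι a ∈ W) (hπW : (algebraMap B F π)⁻¹ ∉ W)
    (hs : ∀ s : B, s ∉ Ideal.span {π} → (algebraMap B F s)⁻¹ ∈ W) :
    ∃ (y : F) (h : IsCond (centre W hA) y), W = h.valuationSubring := by
  have hne : centre W hA ≠ ⊥ := by
    refine centre_ne_bot W hA ?_
    intro htop
    exact hπW (htop ▸ ValuationSubring.mem_top _)
  obtain ⟨y, hy⟩ := exists_isCond_of_height_one (F := F) (centre W hA) hne
    (centre_height_one hπ0 hπ W hA hπW hs)
  exact ⟨y, hy, eq_valuationSubring_of_centre W hA hy rfl⟩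

end General

/-! ### the chart ring `chart O φ` -/

/-- `W` is a Gauss-vertical valuation subring for the parameter `φ`: `O ⊆ W`, `φ ∈ W`, `π` is a
non-unit of `W` and every primitive polynomial in `φ` is a unit of `W`. -/
structure IsGaussVert {O : Type*} [CommRing O] {F : Type*} [Field F] [Algebra O F] (π : O) (φ : F)
    (W : ValuationSubring F) : Prop where
  base : ∀ c : O, algebraMap O F c ∈ W
  gen : φ ∈ W
  nonunit : (algebraMap O F π)⁻¹ ∉ W
  prim : ∀ s : O[X], (∃ i, IsUnit (s.coeff i)) → (aeval φ s)⁻¹ ∈ W

section Chart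

variable {O : Type*} [CommRing O] [IsDomain O] [IsDiscreteValuationRing O] {K : Type*} [Field K]
  [Algebra O K] [IsFractionRing O K] {F : Type*} [Field F] [Algebra K F] [Algebra O F]
  [IsScalarTower O K F]

variable [CharZero K]

/-- the value in `F` of the isomorphism `O[X] ≃ O[φ]` -/
theorem coe_algEquivOfTranscendental {φ : F} (hφ : Transcendental K φ) (r : O[X]) :
    ((Polynomial.algEquivOfTranscendental O φ (transcendental_base (K := K) hφ) r :
      Algebra.adjoin O ({φ} : Set F)) : F) = aeval φ r := by
  rw [Polynomial.algEquivOfTranscendental_apply]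
  exact (Polynomial.aeval_algHom_apply (Algebra.adjoin O ({φ} : Set F)).val _ r).symm

/-- an element of `O[φ]` outside `(π)` is a primitive polynomial in `φ` -/
theorem exists_primitive_of_not_mem_span {π : O} (hπ : Irreducible π) {φ : F}
    (hφ : Transcendental K φ) (s : Algebra.adjoin O ({φ} : Set F))
    (hs : s ∉ Ideal.span {algebraMap O (Algebra.adjoin O ({φ} : Set F)) π}) :
    ∃ p : O[X], (∃ i, IsUnit (p.coeff i)) ∧ aeval φ p = (s : F) := by
  let e := Polynomial.algEquivOfTranscendental O φ (transcendental_base (K := K) hφ)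
  refine ⟨e.symm s, ?_, ?_⟩
  · rw [← not_mem_span_C_iff hπ]
    intro hmem
    apply hs
    obtain ⟨c, hc⟩ := Ideal.mem_span_singleton'.1 hmem
    rw [Ideal.mem_span_singleton']
    refine ⟨e c, ?_⟩
    have h1 : e (c * C π) = s := by rw [hc, e.apply_symm_apply]
    rw [← h1, map_mul]
    congr 1
    exact (e.commutes π).symm
  · rw [← coe_algEquivOfTranscendental hφ, e.apply_symm_apply]

/-- a primitive polynomial in `φ` is outside `(π)` -/
theorem not_mem_span_of_primitive {π : O} (hπ : Irreducible π) {φ : F}
    (hφ : Transcendental K φ) {p : O[X]} (hp : ∃ i, IsUnit (p.coeff i))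
    (s : Algebra.adjoin O ({φ} : Set F)) (hs : (s : F) = aeval φ p) :
    s ∉ Ideal.span {algebraMap O (Algebra.adjoin O ({φ} : Set F)) π} := by
  intro hmem
  obtain ⟨b, hb⟩ := Ideal.mem_span_singleton'.1 hmem
  have h1 : aeval φ p = algebraMap O F π * (b : F) := by
    rw [← hs, ← hb, Subalgebra.coe_mul, mul_comm]
    rfl
  exact (not_mem_span_C_iff hπ p).2 hp (mem_span_C_of_aeval_mem (K := K) hφ h1)

theorem faithfulSMul_chart (φ : F) :
    FaithfulSMul (Algebra.adjoin O ({φ} : Set F)) (chart O φ) := by
  rw [faithfulSMul_iff_algebraMap_injective]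
  intro a b hab
  apply Subtype.ext
  have := congrArg (fun z : chart O φ => (z : F)) hab
  exact this

/-- **Vertical conductor primes of the chart ring are Gauss-vertical.** -/
theorem isGaussVert_of_isCond {π : O} (hπ : Irreducible π) {φ : F} (hφ : Transcendental K φ)
    [FiniteDimensional K⟮φ⟯ F] :
    haveI := chart_isFractionRing (O := O) hφ
    haveI := chart_isNoetherianRing (O := O) hφ
    haveI := chart_isIntegrallyClosed (O := O) hφ
    ∀ {Q : Ideal (chart O φ)} {z : F} (h : IsCond Q z),
      (algebraMap O F π)⁻¹ ∉ h.valuationSubring → IsGaussVert π φ h.valuationSubring := by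
  haveI := chart_isFractionRing (O := O) hφ
  haveI := chart_isNoetherianRing (O := O) hφ
  haveI := chart_isIntegrallyClosed (O := O) hφ
  haveI := adjoin_isNoetherianRing (O := O) hφ
  haveI := adjoin_isIntegrallyClosed (O := O) hφ
  haveI := faithfulSMul_chart (O := O) φ
  intro Q z h hπW
  have hπ0 : algebraMap O (Algebra.adjoin O ({φ} : Set F)) π ≠ 0 := by
    intro h0
    have h1 := congrArg (fun b : Algebra.adjoin O ({φ} : Set F) => (b : F)) h0
    exact algebraMap_ne_zero_of_ne_zero (K := K) hπ.ne_zero h1
  have hπp := isPrime_span_adjoin (O := O) hπ hφ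
  have hB : ∀ b : Algebra.adjoin O ({φ} : Set F), (b : F) ∈ h.valuationSubring := fun b =>
    h.algebraMap_mem (algebraMap (Algebra.adjoin O ({φ} : Set F)) (chart O φ) b)
  have hπQ : algebraMap (Algebra.adjoin O ({φ} : Set F)) (chart O φ)
      (algebraMap O (Algebra.adjoin O ({φ} : Set F)) π) ∈ Q :=
    algebraMap_mem_of_inv_not_mem hπ0 h hπW
  refine ⟨fun c => hB (algebraMap O _ c), hB ⟨φ, Algebra.self_mem_adjoin_singleton O φ⟩, hπW,
    fun s hs => ?_⟩
  let e := Polynomial.algEquivOfTranscendental O φ (transcendental_base (K := K) hφ)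
  have h1 := inv_mem_of_isCond hπ0 hπp h hπQ
    (not_mem_span_of_primitive hπ hφ hs (e s) (coe_algEquivOfTranscendental hφ s))
  have h2 : algebraMap (Algebra.adjoin O ({φ} : Set F)) F (e s) = aeval φ s :=
    coe_algEquivOfTranscendental hφ s
  rwa [h2] at h1

/-- **A Gauss-vertical valuation subring is the localisation of the chart ring at a conductor
prime** (its centre). -/
theorem exists_isCond_of_isGaussVert {π : O} (hπ : Irreducible π) {φ : F}
    (hφ : Transcendental K φ) [FiniteDimensional K⟮φ⟯ F] {W : ValuationSubring F}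
    (hW : IsGaussVert π φ W) :
    haveI := chart_isFractionRing (O := O) hφ
    haveI := chart_isNoetherianRing (O := O) hφ
    haveI := chart_isIntegrallyClosed (O := O) hφ
    ∃ (Q : Ideal (chart O φ)) (z : F) (h : IsCond Q z), W = h.valuationSubring ∧
      ∀ a : chart O φ, a ∈ Q ↔ (a : F) ∈ W.nonunits := by
  haveI := chart_isFractionRing (O := O) hφ
  haveI := chart_isNoetherianRing (O := O) hφ
  haveI := chart_isIntegrallyClosed (O := O) hφ
  haveI := adjoin_isNoetherianRing (O := O) hφ
  haveI := adjoin_isIntegrallyClosed (O := O) hφ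
  haveI := faithfulSMul_chart (O := O) φ
  have hπ0 : algebraMap O (Algebra.adjoin O ({φ} : Set F)) π ≠ 0 := by
    intro h0
    have h1 := congrArg (fun b : Algebra.adjoin O ({φ} : Set F) => (b : F)) h0
    exact algebraMap_ne_zero_of_ne_zero (K := K) hπ.ne_zero h1
  have hπp := isPrime_span_adjoin (O := O) hπ hφ
  have hA : ∀ a : chart O φ, algebraMap (chart O φ) F a ∈ W := fun a =>
    mem_of_mem_chart a.2 W hW.base hW.gen
  haveI : IsScalarTower (Algebra.adjoin O ({φ} : Set F)) (chart O φ) F :=
    Subalgebra.isScalarTower_mid _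
  obtain ⟨y, h, hWeq⟩ := exists_isCond_eq_of_vertical (A := chart O φ) (F := F)
    (B := Algebra.adjoin O ({φ} : Set F)) hπ0 hπp W hA hW.nonunit (fun s hs => by
      obtain ⟨p, hp, hps⟩ := exists_primitive_of_not_mem_span hπ hφ s hs
      have : algebraMap (Algebra.adjoin O ({φ} : Set F)) F s = aeval φ p := hps.symm
      rw [this]
      exact hW.prim p hp)
  exact ⟨centre W hA, y, h, hWeq, fun a => Iff.rfl⟩

/-- **Dichotomy.**  The localisation of the chart ring at a conductor prime is Gauss-vertical or
contains `K` (and `φ`, and is not `⊤`): a place of `F / K` finite at `φ`. -/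
theorem isCond_vertical_or_horizontal {π : O} (hπ : Irreducible π) {φ : F}
    (hφ : Transcendental K φ) [FiniteDimensional K⟮φ⟯ F] :
    haveI := chart_isFractionRing (O := O) hφ
    haveI := chart_isNoetherianRing (O := O) hφ
    haveI := chart_isIntegrallyClosed (O := O) hφ
    ∀ {Q : Ideal (chart O φ)} {z : F} (h : IsCond Q z),
      IsGaussVert π φ h.valuationSubring ∨
        ((∀ c : K, algebraMap K F c ∈ h.valuationSubring) ∧ φ ∈ h.valuationSubring ∧
          h.valuationSubring ≠ ⊤) := by
  haveI := chart_isFractionRing (O := O) hφ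
  haveI := chart_isNoetherianRing (O := O) hφ
  haveI := chart_isIntegrallyClosed (O := O) hφ
  intro Q z h
  by_cases hπW : (algebraMap O F π)⁻¹ ∈ h.valuationSubring
  · right
    have hB : ∀ b : Algebra.adjoin O ({φ} : Set F), (b : F) ∈ h.valuationSubring := fun b =>
      h.algebraMap_mem (algebraMap (Algebra.adjoin O ({φ} : Set F)) (chart O φ) b)
    have hO : ∀ c : O, algebraMap O F c ∈ h.valuationSubring := fun c => hB (algebraMap O _ c)
    refine ⟨fun c => ?_, hB ⟨φ, Algebra.self_mem_adjoin_singleton O φ⟩, fun htop => ?_⟩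
    · obtain ⟨a, n, rfl⟩ := exists_eq_div_pow hπ c
      rw [map_div₀, map_pow, ← IsScalarTower.algebraMap_apply O K F,
        ← IsScalarTower.algebraMap_apply O K F, div_eq_mul_inv, ← inv_pow]
      exact h.valuationSubring.mul_mem _ _ (hO a) (pow_mem hπW n)
    · exact h.not_mem (htop ▸ ValuationSubring.mem_top z)
  · exact Or.inl (isGaussVert_of_isCond hπ hφ h hπW)

end Chart

end Fermat.Agent.S36.ChartVert
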