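/-
PROJECT V (S36), slice V-NakElement (helper7): **one Nakayama element at a closed point of the
fibre: valuation data ==> `O_x/(y)` is a discrete valuation ring ==> local generators.**

This is the common abstract core of the ledger items B0-i (smooth points of `C20`, `C02`:
`y = q`), B0-ii (ordinary points and middle cusps of `C11`: `y = b - a`), B0-iii (cusps) and
B0-iv (triple points: `y = a - ã`, `W` the horizontal place of degree `q² + q`).

Setting: `A` a noetherian integrally closed domain (a chart ring of the normal model,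
`S36/ChartRing`), `F` its fraction field, `m` a prime ideal (the closed point `x`), `y ∈ m`,
`W` a valuation subring of `F` containing `A` whose maximal ideal is generated by `y`, and which
is the ONLY conductor-prime valuation ring (`KrullInter.IsCond`) centred inside `m` in which `y`
is not a unit.

* `exists_isCond_le_not_mem` (C0) : local Krull intersection: `x ∉ A_m` ==> there is a conductor
  prime `Q ≤ m` with `x ∉ A_Q`.
* `exists_mul_eq_of_nonunit` (C1) : `a ∈ A` a non-unit of `W` ==> `s a = b y` with `s ∉ m`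
  (the kernel of `A_m → κ_W` is `y A_m`).
* `quotientEquiv`, `isPrincipalIdealRing_quotient` (C2) : if the image of `A_m` in the residue
  field of `W` is a principal ideal subring `T` (surjectivity is the geometric input), then
  `A_m/(y) ≃ T`; `isPrincipal_of_not_mem`: every prime of `A_m` not containing `y` is principal;
  `ufd` : `A_m` is a unique factorisation domain.
* `exists_local_generator` (C3) : every conductor prime `Q ≤ m` of `A` is principal at `m`:
  there is `h ∈ Q` such that every `a ∈ Q` satisfies `s a = b h` with `s ∉ m`.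
-/
import Mathlib
import Fermat.Agent.S36.KrullInter
import Fermat.Agent.S36.FormalLift.Principal

set_option autoImplicit false
set_option linter.unusedSectionVars false
set_option linter.style.haveILetI false
set_option linter.unusedVariables false

namespace Fermat.Agent.S36.NakElement

open Fermat.Agent.S36.KrullInter

variable {A : Type*} [CommRing A] [IsDomain A] {F : Type*} [Field F] [Algebra A F]
  [IsFractionRing A F]

local notation "ι" => algebraMap A F

/-! ### (C0) local Krull intersection -/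

/-- the local conductor `{r | s r z ∈ A for some s ∉ m}` -/
def locCond (m : Ideal A) [hm : m.IsPrime] (z : F) : Ideal A where
  carrier := {r | ∃ s : A, s ∉ m ∧ ∃ a : A, ι s * (ι r * z) = ι a}
  add_mem' := by
    rintro r₁ r₂ ⟨s₁, hs₁, a₁, h₁⟩ ⟨s₂, hs₂, a₂, h₂⟩
    refine ⟨s₁ * s₂, fun h => (hm.mem_or_mem h).elim hs₁ hs₂, s₂ * a₁ + s₁ * a₂, ?_⟩
    rw [map_mul, map_add, map_add, map_mul, map_mul, ← h₁, ← h₂]; ring
  zero_mem' := ⟨1, fun h => hm.ne_top ((Ideal.eq_top_iff_one m).2 h), 0, by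
    rw [map_zero, zero_mul, mul_zero]⟩
  smul_mem' := by
    rintro c r ⟨s, hs, a, h⟩
    exact ⟨s, hs, c * a, by rw [smul_eq_mul, map_mul, map_mul, ← h]; ring⟩

theorem mem_locCond {m : Ideal A} [m.IsPrime] {z : F} {r : A} :
    r ∈ locCond m z ↔ ∃ s : A, s ∉ m ∧ ∃ a : A, ι s * (ι r * z) = ι a := Iff.rfl

theorem locCond_le {m : Ideal A} [hm : m.IsPrime] {z : F} (h : locCond m z ≠ ⊤) :
    locCond m z ≤ m := by
  intro r hr
  by_contra hrm
  apply h
  rw [Ideal.eq_top_iff_one]
  obtain ⟨s, hs, a, ha⟩ := hr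
  exact ⟨s * r, fun h => (hm.mem_or_mem h).elim hs hrm, a, by
    rw [map_one, one_mul, map_mul, ← ha]; ring⟩

theorem condIdeal_le_locCond {m : Ideal A} [hm : m.IsPrime] {z : F} {s : A} (hs : s ∉ m) :
    condIdeal A (ι s * z) ≤ locCond m z := by
  rintro r ⟨a, ha⟩
  exact ⟨s, hs, a, by rw [← ha]; ring⟩

/-- **(C0) local Krull intersection**: an element of `F` outside the localisation of `A` at the
prime `m` is outside the localisation at some conductor prime contained in `m`. -/
theorem exists_isCond_le_not_mem [IsNoetherianRing A] [IsIntegrallyClosed A] (m : Ideal A)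
    [hm : m.IsPrime] {x : F}
    (hx : ¬ ∃ s : A, s ∉ m ∧ ∃ a : A, ι s * x = ι a) :
    ∃ (Q : Ideal A) (z : F) (h : IsCond Q z), Q ≤ m ∧ x ∉ h.valuationSubring := by
  -- a maximal proper local conductor of a multiple of `x`
  let 𝒮 : Set (Ideal A) :=
    {I | ∃ c : A, locCond m (ι c * x) ≠ ⊤ ∧ I = locCond m (ι c * x)}
  have hne : 𝒮.Nonempty := by
    refine ⟨locCond m (ι 1 * x), 1, ?_, rfl⟩
    intro htop
    have h1 : (1 : A) ∈ locCond m (ι 1 * x) := htop ▸ Submodule.mem_top
    obtain ⟨s, hs, a, ha⟩ := h1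
    exact hx ⟨s, hs, a, by rw [← ha, map_one, one_mul, one_mul]⟩
  obtain ⟨M, ⟨c, hctop, rfl⟩, hmax⟩ := set_has_maximal_iff_noetherian.2 inferInstance 𝒮 hne
  set z₀ : F := ι c * x with hz₀
  have hMm : locCond m z₀ ≤ m := locCond_le hctop
  -- `M` is prime
  have hMprime : (locCond m z₀).IsPrime := by
    refine ⟨hctop, ?_⟩
    intro a b hab
    by_contra hcon
    push Not at hcon
    obtain ⟨haM, hbM⟩ := hcon
    have hle : locCond m z₀ ≤ locCond m (ι (a * c) * x) := by
      rintro r ⟨s, hs, a', ha'⟩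
      exact ⟨s, hs, a * a', by rw [map_mul, map_mul, ← ha', hz₀]; ring⟩
    have hntop : locCond m (ι (a * c) * x) ≠ ⊤ := by
      intro htop
      have h1 : (1 : A) ∈ locCond m (ι (a * c) * x) := htop ▸ Submodule.mem_top
      obtain ⟨s, hs, a', ha'⟩ := h1
      exact haM ⟨s, hs, a', by rw [← ha', hz₀, map_one, map_mul]; ring⟩
    have hmem : locCond m (ι (a * c) * x) ∈ 𝒮 := ⟨a * c, hntop, rfl⟩
    have heq : locCond m z₀ = locCond m (ι (a * c) * x) :=
      (lt_or_eq_of_le hle).resolve_left (hmax _ hmem)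
    apply hbM
    rw [heq]
    obtain ⟨s, hs, a', ha'⟩ := hab
    exact ⟨s, hs, a', by rw [← ha', hz₀, map_mul, map_mul]; ring⟩
  -- a single `s₀ ∉ m` with `condIdeal (s₀ z₀) = M`
  let 𝒯 : Set (Ideal A) := {I | ∃ s : A, s ∉ m ∧ I = condIdeal A (ι s * z₀)}
  have hne' : 𝒯.Nonempty :=
    ⟨condIdeal A (ι 1 * z₀), 1, fun h => hm.ne_top ((Ideal.eq_top_iff_one m).2 h), rfl⟩
  obtain ⟨M', ⟨s₀, hs₀, rfl⟩, hmax'⟩ := set_has_maximal_iff_noetherian.2 inferInstance 𝒯 hne'
  have hcondeq : condIdeal A (ι s₀ * z₀) = locCond m z₀ := by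
    refine le_antisymm (condIdeal_le_locCond hs₀) ?_
    rintro r ⟨s, hs, a, ha⟩
    have hle : condIdeal A (ι s₀ * z₀) ≤ condIdeal A (ι (s * s₀) * z₀) := by
      rintro r' ⟨a', ha'⟩
      exact ⟨s * a', by rw [map_mul, map_mul, ← ha']; ring⟩
    have hmem : condIdeal A (ι (s * s₀) * z₀) ∈ 𝒯 :=
      ⟨s * s₀, fun h => (hm.mem_or_mem h).elim hs hs₀, rfl⟩
    have heq : condIdeal A (ι s₀ * z₀) = condIdeal A (ι (s * s₀) * z₀) :=
      (lt_or_eq_of_le hle).resolve_left (hmax' _ hmem)
    rw [heq]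
    exact ⟨s₀ * a, by rw [map_mul, map_mul, ← ha]; ring⟩
  have hcond : IsCond (locCond m z₀) (ι s₀ * z₀) := by
    refine ⟨hMprime, fun r => ?_⟩
    rw [← hcondeq]
    exact Iff.rfl
  refine ⟨locCond m z₀, ι s₀ * z₀, hcond, hMm, ?_⟩
  rintro ⟨s, hs, a, ha⟩
  apply hs
  rw [← hcondeq]
  exact ⟨s₀ * c * a, by rw [map_mul, map_mul, ← ha, hz₀]; ring⟩

/-! ### (C1) the kernel of `A_m → κ_W` is generated by `y` -/

variable [IsNoetherianRing A] [IsIntegrallyClosed A]

/-- **(C1)** `m` a prime ideal, `y ≠ 0`, `W` a valuation subring of `F` containing `A` in which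
every non-unit is divisible by `y`, and which is contained in every conductor-prime valuation
ring centred inside `m` where `y` is not a unit.  Then every element of `A` which is not a unit of
`W` is a multiple of `y` in the localisation `A_m`. -/
theorem exists_mul_eq_of_nonunit (m : Ideal A) [hm : m.IsPrime] {y : A} (hy0 : y ≠ 0)
    (W : ValuationSubring F) (hAW : ∀ a : A, ι a ∈ W)
    (hyW : ∀ z ∈ W, z⁻¹ ∈ W ∨ z * (ι y)⁻¹ ∈ W)
    (huniq : ∀ (Q : Ideal A) (z : F) (h : IsCond Q z), Q ≤ m → y ∈ Q →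
      ∀ w ∈ W, w ∈ h.valuationSubring)
    {a : A} (ha : (ι a)⁻¹ ∉ W) :
    ∃ s : A, s ∉ m ∧ ∃ b : A, s * a = b * y := by
  have hιy : ι y ≠ 0 := algebraMap_ne_zero' hy0
  by_contra hcon
  have hx : ¬ ∃ s : A, s ∉ m ∧ ∃ b : A, ι s * (ι a * (ι y)⁻¹) = ι b := by
    rintro ⟨s, hs, b, hb⟩
    apply hcon
    refine ⟨s, hs, b, ?_⟩
    apply IsFractionRing.injective A F
    rw [map_mul, map_mul, ← hb]
    field_simp
  obtain ⟨Q, z, h, hQm, hxQ⟩ := exists_isCond_le_not_mem m hx
  haveI := h.prime
  apply hxQ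
  by_cases hyQ : y ∈ Q
  · have hW := huniq Q z h hQm hyQ
    rcases hyW (ι a) (hAW a) with h1 | h1
    · exact absurd h1 ha
    · exact hW _ h1
  · exact Subring.mul_mem _ (algebraMap_mem_locSubring Q a) (inv_mem_locSubring hyQ)

/-- the non-units of `W` inside `A` lie in `m` -/
theorem mem_of_nonunit (m : Ideal A) [hm : m.IsPrime] {y : A} (hy0 : y ≠ 0) (hym : y ∈ m)
    (W : ValuationSubring F) (hAW : ∀ a : A, ι a ∈ W)
    (hyW : ∀ z ∈ W, z⁻¹ ∈ W ∨ z * (ι y)⁻¹ ∈ W)
    (huniq : ∀ (Q : Ideal A) (z : F) (h : IsCond Q z), Q ≤ m → y ∈ Q →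
      ∀ w ∈ W, w ∈ h.valuationSubring)
    {a : A} (ha : (ι a)⁻¹ ∉ W) : a ∈ m := by
  obtain ⟨s, hs, b, hb⟩ := exists_mul_eq_of_nonunit m hy0 W hAW hyW huniq ha
  have : s * a ∈ m := by rw [hb]; exact m.mul_mem_left b hym
  exact (hm.mem_or_mem this).resolve_left hs

/-! ### The datum -/

/-- **A Nakayama element at the prime `m`**: `y ∈ m` generates the maximal ideal of the valuation
subring `W ⊇ A`, and `W` is contained in (hence equal to, when `W` has rank one) every
conductor-prime valuation ring centred inside `m` in which `y` is not a unit. -/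
structure Datum (m : Ideal A) (y : A) (W : ValuationSubring F) : Prop where
  ne_zero : y ≠ 0
  mem : y ∈ m
  le : ∀ a : A, ι a ∈ W
  nonunit : (ι y)⁻¹ ∉ W
  div : ∀ z ∈ W, z⁻¹ ∈ W ∨ z * (ι y)⁻¹ ∈ W
  uniq : ∀ (Q : Ideal A) (z : F) (h : IsCond Q z), Q ≤ m → y ∈ Q →
    ∀ w ∈ W, w ∈ h.valuationSubring

namespace Datum

variable {m : Ideal A} [hm : m.IsPrime] {y : A} {W : ValuationSubring F}

/-- **(C1)** for a datum -/
theorem exists_mul_eq (D : Datum m y W) {a : A} (ha : (ι a)⁻¹ ∉ W) :
    ∃ s : A, s ∉ m ∧ ∃ b : A, s * a = b * y :=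
  exists_mul_eq_of_nonunit m D.ne_zero W D.le D.div D.uniq ha

theorem mem_of_nonunit (D : Datum m y W) {a : A} (ha : (ι a)⁻¹ ∉ W) : a ∈ m :=
  NakElement.mem_of_nonunit m D.ne_zero D.mem W D.le D.div D.uniq ha

omit hm in
/-- a conductor prime `Q ≤ m` containing `y` consists of non-units of `W` -/
theorem nonunit_of_mem (D : Datum m y W) {Q : Ideal A} {z : F} (h : IsCond Q z) (hQm : Q ≤ m)
    (hyQ : y ∈ Q) {a : A} (ha : a ∈ Q) (ha0 : a ≠ 0) : (ι a)⁻¹ ∉ W := by
  haveI := h.prime
  intro hW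
  exact (h.mem_iff_inv_not_mem ha0).1 ha (D.uniq Q z h hQm hyQ _ hW)

/-! ### (C2) the quotient `A_m/(y)` -/

section Quotient

variable {κ : Type*} [Field κ]

/-- **A reduction of the datum**: `ρ : A → κ` with kernel the non-units of `W`, whose extension to
`A_m` has image the subring `T` of `κ`. -/
structure Red (D : Datum m y W) (ρ : A →+* κ) (T : Subring κ) : Prop where
  ker : ∀ a : A, ρ a = 0 ↔ (a = 0 ∨ (ι a)⁻¹ ∉ W)
  mem : ∀ a : A, ρ a ∈ T
  inv_mem : ∀ a : A, a ∉ m → (ρ a)⁻¹ ∈ T
  surj : ∀ t ∈ T, ∃ a s : A, s ∉ m ∧ ρ s * t = ρ a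

variable {D : Datum m y W} {ρ : A →+* κ} {T : Subring κ}

theorem Red.ne_zero (H : Red D ρ T) {s : A} (hs : s ∉ m) : ρ s ≠ 0 := by
  intro h0
  rcases (H.ker s).1 h0 with h1 | h1
  · exact hs (h1 ▸ m.zero_mem)
  · exact hs (D.mem_of_nonunit h1)

omit hm in
theorem Red.map_y (H : Red D ρ T) : ρ y = 0 := (H.ker y).2 (Or.inr D.nonunit)

theorem Red.isUnit (H : Red D ρ T) (s : m.primeCompl) : IsUnit (ρ (s : A)) :=
  IsUnit.mk0 _ (H.ne_zero s.2)

/-- the extension of `ρ` to the localisation at `m` -/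
noncomputable def Red.lift (H : Red D ρ T) : Localization.AtPrime m →+* κ :=
  IsLocalization.lift (M := m.primeCompl) (S := Localization.AtPrime m) (g := ρ) H.isUnit

theorem Red.lift_algebraMap (H : Red D ρ T) (a : A) :
    H.lift (algebraMap A (Localization.AtPrime m) a) = ρ a :=
  IsLocalization.lift_eq _ a

theorem Red.lift_mk' (H : Red D ρ T) (a : A) (s : m.primeCompl) :
    H.lift (IsLocalization.mk' (Localization.AtPrime m) a s) = ρ a * (ρ (s : A))⁻¹ := by
  have h1 : H.lift (IsLocalization.mk' (Localization.AtPrime m) a s) * ρ (s : A) = ρ a := by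
    rw [← H.lift_algebraMap (s : A), ← map_mul, IsLocalization.mk'_spec, H.lift_algebraMap]
  rw [← h1, mul_assoc, mul_inv_cancel₀ (H.ne_zero s.2), mul_one]

theorem Red.lift_mem (H : Red D ρ T) (r : Localization.AtPrime m) : H.lift r ∈ T := by
  obtain ⟨a, s, rfl⟩ := IsLocalization.exists_mk'_eq m.primeCompl r
  rw [H.lift_mk']
  exact T.mul_mem (H.mem a) (H.inv_mem _ s.2)

/-- the reduction `A_m → T` -/
noncomputable def Red.liftT (H : Red D ρ T) : Localization.AtPrime m →+* T :=
  H.lift.codRestrict T H.lift_mem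

theorem Red.coe_liftT (H : Red D ρ T) (r : Localization.AtPrime m) :
    (H.liftT r : κ) = H.lift r := rfl

theorem Red.liftT_surjective (H : Red D ρ T) : Function.Surjective H.liftT := by
  rintro ⟨t, ht⟩
  obtain ⟨a, s, hs, hst⟩ := H.surj t ht
  refine ⟨IsLocalization.mk' (Localization.AtPrime m) a (⟨s, hs⟩ : m.primeCompl),
    Subtype.ext ?_⟩
  rw [H.coe_liftT, H.lift_mk']
  show ρ a * (ρ s)⁻¹ = t
  rw [← hst, mul_comm, ← mul_assoc, inv_mul_cancel₀ (H.ne_zero hs), one_mul]

/-- **the kernel of `A_m → T` is `(y)`** -/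
theorem Red.ker_liftT (H : Red D ρ T) :
    RingHom.ker H.liftT = Ideal.span {algebraMap A (Localization.AtPrime m) y} := by
  apply le_antisymm
  · intro r hr
    rw [RingHom.mem_ker] at hr
    have hr' : H.lift r = 0 := by rw [← H.coe_liftT, hr]; rfl
    obtain ⟨a, s, rfl⟩ := IsLocalization.exists_mk'_eq m.primeCompl r
    rw [H.lift_mk', mul_eq_zero] at hr'
    have ha : ρ a = 0 := by
      rcases hr' with h1 | h1
      · exact h1
      · exact absurd (inv_eq_zero.1 h1) (H.ne_zero s.2)
    rcases (H.ker a).1 ha with h0 | h0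
    · rw [h0, IsLocalization.mk'_zero]
      exact Ideal.zero_mem _
    · obtain ⟨s', hs', b, hb⟩ := D.exists_mul_eq h0
      rw [Ideal.mem_span_singleton]
      let s'' : m.primeCompl := ⟨s', hs'⟩
      refine ⟨IsLocalization.mk' (Localization.AtPrime m) b (s * s''), ?_⟩
      rw [IsLocalization.mul_mk'_eq_mk'_of_mul, mul_comm y b, ← hb, mul_comm s' a]
      exact (IsLocalization.mk'_cancel a s s'').symm
  · rw [Ideal.span_le, Set.singleton_subset_iff, SetLike.mem_coe, RingHom.mem_ker]
    apply Subtype.ext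
    rw [H.coe_liftT, H.lift_algebraMap, H.map_y]
    rfl

/-- **(C2)** `A_m/(y) ≃ T` -/
noncomputable def Red.quotientEquiv (H : Red D ρ T) :
    (Localization.AtPrime m ⧸ Ideal.span {algebraMap A (Localization.AtPrime m) y}) ≃+* T :=
  (Ideal.quotEquivOfEq H.ker_liftT.symm).trans
    (RingHom.quotientKerEquivOfSurjective H.liftT_surjective)

/-- **(C2)** if `T` is a principal ideal ring, so is `A_m/(y)` -/
theorem Red.isPrincipalIdealRing_quotient (H : Red D ρ T) [IsPrincipalIdealRing T] :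
    IsPrincipalIdealRing
      (Localization.AtPrime m ⧸ Ideal.span {algebraMap A (Localization.AtPrime m) y}) :=
  IsPrincipalIdealRing.of_surjective (H.quotientEquiv.symm : T →+* _)
    H.quotientEquiv.symm.surjective

/-- `y` lies in the maximal ideal of `A_m` -/
theorem algebraMap_y_mem_maximalIdeal (D : Datum m y W) :
    algebraMap A (Localization.AtPrime m) y ∈
      IsLocalRing.maximalIdeal (Localization.AtPrime m) :=
  (IsLocalization.AtPrime.to_map_mem_maximal_iff (Localization.AtPrime m) m y).2 D.mem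

theorem algebraMap_y_ne_zero (D : Datum m y W) :
    algebraMap A (Localization.AtPrime m) y ≠ 0 := by
  intro h0
  apply D.ne_zero
  have hinj : Function.Injective (algebraMap A (Localization.AtPrime m)) :=
    IsLocalization.injective _ m.primeCompl_le_nonZeroDivisors
  exact hinj (by rw [h0, map_zero])

/-- **(C2)** every prime ideal of `A_m` not containing `y` is principal -/
theorem Red.isPrincipal_of_not_mem (H : Red D ρ T) [IsPrincipalIdealRing T]
    (p : Ideal (Localization.AtPrime m)) [p.IsPrime]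
    (hyp : algebraMap A (Localization.AtPrime m) y ∉ p) : p.IsPrincipal := by
  haveI := H.isPrincipalIdealRing_quotient
  exact Fermat.Agent.S36.FormalLift.isPrincipal_of_isLocalRing
    D.algebraMap_y_mem_maximalIdeal p hyp

/-- `y` is a prime element of `A_m` -/
theorem Red.prime_y (H : Red D ρ T) : Prime (algebraMap A (Localization.AtPrime m) y) := by
  rw [← Ideal.span_singleton_prime D.algebraMap_y_ne_zero, ← H.ker_liftT]
  exact RingHom.ker_isPrime _

/-- **(C2)** `A_m` is a unique factorisation domain -/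
theorem Red.ufd (H : Red D ρ T) [IsPrincipalIdealRing T] :
    UniqueFactorizationMonoid (Localization.AtPrime m) := by
  apply UniqueFactorizationMonoid.of_forall_isPrincipal_of_height_eq_one
  intro p hp hp1
  by_cases hyp : algebraMap A (Localization.AtPrime m) y ∈ p
  · exact ⟨_, p.eq_span_singleton_of_height_eq_one hp1 hyp H.prime_y⟩
  · exact H.isPrincipal_of_not_mem p hyp

/-! ### (C3) local generators of the conductor primes through `m` -/

/-- **(C3)** every conductor prime `Q ≤ m` of `A` is principal at `m`: there is `h ∈ Q` such that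
every element of `Q` is a multiple of `h` in `A_m`. -/
theorem Red.exists_local_generator (H : Red D ρ T) [IsPrincipalIdealRing T] {Q : Ideal A} {z : F}
    (h : IsCond Q z) (hQm : Q ≤ m) :
    ∃ g ∈ Q, ∀ a ∈ Q, ∃ s : A, s ∉ m ∧ ∃ b : A, s * a = b * g := by
  haveI := h.prime
  by_cases hyQ : y ∈ Q
  · refine ⟨y, hyQ, fun a ha => ?_⟩
    by_cases ha0 : a = 0
    · exact ⟨1, fun h1 => hm.ne_top ((Ideal.eq_top_iff_one m).2 h1), 0, by
        rw [ha0, mul_zero, zero_mul]⟩
    · exact D.exists_mul_eq (D.nonunit_of_mem h hQm hyQ ha ha0)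
  · -- the extension of `Q` to `A_m` is a prime ideal not containing `y`
    have hdisj : Disjoint (m.primeCompl : Set A) (Q : Set A) := by
      rw [Set.disjoint_left]
      intro s hs hsQ
      exact hs (hQm hsQ)
    have hprime : (Q.map (algebraMap A (Localization.AtPrime m))).IsPrime :=
      IsLocalization.isPrime_of_isPrime_disjoint m.primeCompl _ Q h.prime hdisj
    have hcomap : (Q.map (algebraMap A (Localization.AtPrime m))).comap
        (algebraMap A (Localization.AtPrime m)) = Q :=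
      IsLocalization.under_map_of_isPrime_disjoint m.primeCompl _ h.prime hdisj
    have hyp : algebraMap A (Localization.AtPrime m) y ∉
        Q.map (algebraMap A (Localization.AtPrime m)) := by
      intro hmem
      apply hyQ
      rw [← hcomap]
      exact hmem
    obtain ⟨g, hg⟩ := H.isPrincipal_of_not_mem _ hyp
    -- `g = g₀ / s₀` with `g₀ ∈ Q`
    have hgmem : g ∈ Q.map (algebraMap A (Localization.AtPrime m)) := by
      rw [hg]
      exact Submodule.mem_span_singleton_self g
    obtain ⟨⟨g₀, s₀⟩, hg₀⟩ := (IsLocalization.mem_map_algebraMap_iff m.primeCompl _).1 hgmem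
    refine ⟨g₀, g₀.2, fun a ha => ?_⟩
    have hamem : algebraMap A (Localization.AtPrime m) a ∈
        Q.map (algebraMap A (Localization.AtPrime m)) := Ideal.mem_map_of_mem _ ha
    rw [hg] at hamem
    obtain ⟨r, hr⟩ := Submodule.mem_span_singleton.1 hamem
    obtain ⟨b, s, rfl⟩ := IsLocalization.exists_mk'_eq m.primeCompl r
    refine ⟨(s : A) * (s₀ : A), fun hmem => (hm.mem_or_mem hmem).elim s.2 s₀.2, b, ?_⟩
    have hinj : Function.Injective (algebraMap A (Localization.AtPrime m)) :=
      IsLocalization.injective _ m.primeCompl_le_nonZeroDivisors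
    apply hinj
    rw [map_mul, map_mul, map_mul, ← hr, ← hg₀, smul_eq_mul]
    have h1 : IsLocalization.mk' (Localization.AtPrime m) b s *
        algebraMap A (Localization.AtPrime m) (s : A) = algebraMap A (Localization.AtPrime m) b :=
      IsLocalization.mk'_spec _ b s
    rw [← h1]
    ring

end Quotient

end Datum

/-! ### Constructors -/

omit [IsNoetherianRing A] [IsIntegrallyClosed A] in
/-- units of a valuation subring -/
theorem isUnit_iff_inv_mem (W : ValuationSubring F) (x : W) :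
    IsUnit x ↔ (x : F) ≠ 0 ∧ (x : F)⁻¹ ∈ W := by
  constructor
  · rintro ⟨u, rfl⟩
    have h1 : ((u : W) : F) * ((u⁻¹ : Wˣ) : W) = 1 := by
      rw [← MulMemClass.coe_mul, Units.mul_inv]; rfl
    have hne : ((u : W) : F) ≠ 0 := fun h0 => by rw [h0, zero_mul] at h1; exact zero_ne_one h1
    refine ⟨hne, ?_⟩
    have : ((u : W) : F)⁻¹ = ((u⁻¹ : Wˣ) : W) := by
      rw [inv_eq_iff_eq_inv]
      exact eq_inv_of_mul_eq_one_left h1
    rw [this]
    exact SetLike.coe_mem _
  · rintro ⟨hne, hinv⟩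
    refine ⟨⟨x, ⟨_, hinv⟩, ?_, ?_⟩, rfl⟩
    · exact Subtype.ext (mul_inv_cancel₀ hne)
    · exact Subtype.ext (inv_mul_cancel₀ hne)

variable {m : Ideal A} [hm : m.IsPrime] {y : A} {W : ValuationSubring F}

/-- **A reduction from a residue map of `W`**: `ρW : W → κ` with kernel the non-units of `W`. -/
theorem Datum.red_of_valuationSubring (D : Datum m y W) {κ : Type*} [Field κ] (ρW : W →+* κ)
    (hker : ∀ x : W, ρW x = 0 ↔ ¬ IsUnit x) (T : Subring κ)
    (hmem : ∀ a : A, ρW ⟨ι a, D.le a⟩ ∈ T)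
    (hinv : ∀ a : A, a ∉ m → (ρW ⟨ι a, D.le a⟩)⁻¹ ∈ T)
    (hsurj : ∀ t ∈ T, ∃ a s : A, s ∉ m ∧ ρW ⟨ι s, D.le s⟩ * t = ρW ⟨ι a, D.le a⟩) :
    D.Red (ρW.comp ((algebraMap A F).codRestrict W.toSubring D.le)) T where
  ker a := by
    show ρW ⟨ι a, D.le a⟩ = 0 ↔ _
    rw [hker, isUnit_iff_inv_mem]
    show ¬ (ι a ≠ 0 ∧ (ι a)⁻¹ ∈ W) ↔ _
    constructor
    · intro h
      by_cases ha : a = 0
      · exact Or.inl ha
      · exact Or.inr fun hW => h ⟨algebraMap_ne_zero' ha, hW⟩
    · rintro (rfl | h) ⟨h1, h2⟩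
      · exact h1 (map_zero _)
      · exact h h2
  mem := hmem
  inv_mem := hinv
  surj := hsurj

/-! ### Chart form of the uniqueness hypothesis -/

section Chart

variable {B : Type*} [CommRing B] [IsDomain B] [IsIntegrallyClosed B] [Algebra B A] [Algebra B F]
  [IsScalarTower B A F] [Algebra.IsIntegral B A] [FaithfulSMul B A]

omit hm in
/-- **Dichotomy.**  `B ⊆ A` integral, `B` integrally closed, `π` a prime element of `B`: a
conductor-prime valuation ring of `A` is *vertical* (`π` a non-unit, every element of `B` outside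
`(π)` a unit) or *horizontal* (`π` a unit). -/
theorem vertical_or_horizontal {π : B} (hπ0 : π ≠ 0) (hπ : (Ideal.span {π}).IsPrime)
    {Q : Ideal A} {z : F} (h : IsCond Q z) :
    ((algebraMap B F π)⁻¹ ∉ h.valuationSubring ∧
        ∀ s : B, s ∉ Ideal.span {π} → (algebraMap B F s)⁻¹ ∈ h.valuationSubring) ∨
      (algebraMap B F π)⁻¹ ∈ h.valuationSubring := by
  haveI := h.prime
  have hinjBA : Function.Injective (algebraMap B A) := FaithfulSMul.algebraMap_injective B A
  have hπA0 : algebraMap B A π ≠ 0 := fun h0 => hπ0 (hinjBA (by rw [h0, map_zero]))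
  by_cases hπQ : algebraMap B A π ∈ Q
  · left
    refine ⟨?_, ?_⟩
    · rw [IsScalarTower.algebraMap_apply B A F]
      exact (h.mem_iff_inv_not_mem hπA0).1 hπQ
    · haveI := hπ
      have hle : Ideal.span {π} ≤ Q.under B := by
        rw [Ideal.span_le, Set.singleton_subset_iff]
        exact hπQ
      obtain ⟨Q', hQ'Q, hQ'prime, hQ'over⟩ := Ideal.exists_ideal_le_liesOver_of_le Q hle
      haveI := hQ'prime
      have hQ'ne : Q' ≠ ⊥ := by
        intro hbot
        have : algebraMap B A π ∈ Q' := by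
          have h1 : π ∈ Q'.under B := by
            rw [← hQ'over.over]; exact Ideal.mem_span_singleton_self π
          exact h1
        rw [hbot, Ideal.mem_bot] at this
        exact hπA0 this
      have hQ'eq : Q' = Q := (h.eq_bot_or_eq_of_le Q' hQ'Q).resolve_left hQ'ne
      intro s hs
      rw [IsScalarTower.algebraMap_apply B A F]
      apply inv_mem_locSubring
      intro hsQ
      apply hs
      have : s ∈ Q'.under B := by rw [hQ'eq]; exact hsQ
      rwa [← hQ'over.over] at this
  · right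
    rw [IsScalarTower.algebraMap_apply B A F]
    exact inv_mem_locSubring hπQ

omit hm in
/-- **The datum in chart form**: the uniqueness hypothesis is checked on the vertical valuation
subrings (extensions of the Gauss valuation of `B = O[φ]`) and on the horizontal ones (places of
the generic fibre) separately. -/
theorem Datum.of_chart {π : B} (hπ0 : π ≠ 0) (hπ : (Ideal.span {π}).IsPrime)
    (hy0 : y ≠ 0) (hym : y ∈ m) (hAW : ∀ a : A, ι a ∈ W) (hyW1 : (ι y)⁻¹ ∉ W)
    (hyW : ∀ z ∈ W, z⁻¹ ∈ W ∨ z * (ι y)⁻¹ ∈ W)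
    (hvert : ∀ V : ValuationSubring F, (∀ a : A, ι a ∈ V) → (∀ a : A, a ∉ m → (ι a)⁻¹ ∈ V) →
      (ι y)⁻¹ ∉ V → (algebraMap B F π)⁻¹ ∉ V →
      (∀ s : B, s ∉ Ideal.span {π} → (algebraMap B F s)⁻¹ ∈ V) → ∀ w ∈ W, w ∈ V)
    (hhor : ∀ V : ValuationSubring F, (∀ a : A, ι a ∈ V) → (∀ a : A, a ∉ m → (ι a)⁻¹ ∈ V) →
      (ι y)⁻¹ ∉ V → (algebraMap B F π)⁻¹ ∈ V → V ≠ ⊤ → ∀ w ∈ W, w ∈ V) :
    Datum m y W where
  ne_zero := hy0
  mem := hym
  le := hAW
  nonunit := hyW1
  div := hyW
  uniq Q z h hQm hyQ := by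
    haveI := h.prime
    have hcentre : ∀ a : A, a ∉ m → (ι a)⁻¹ ∈ h.valuationSubring := fun a ha =>
      inv_mem_locSubring fun haQ => ha (hQm haQ)
    have hynon : (ι y)⁻¹ ∉ h.valuationSubring := (h.mem_iff_inv_not_mem hy0).1 hyQ
    rcases vertical_or_horizontal hπ0 hπ h with ⟨h1, h2⟩ | h1
    · exact hvert _ h.algebraMap_mem hcentre hynon h1 h2
    · refine hhor _ h.algebraMap_mem hcentre hynon h1 ?_
      intro htop
      apply h.not_mem
      rw [htop]
      exact ValuationSubring.mem_top _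

end Chart

end Fermat.Agent.S36.NakElement
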