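/-
PROJECT V (S36), slice V-LocalGenCore (helper7): **abstract half of chain (V14): local generators
of `O(D)` at the closed points of a chart, in ring language.**

`A` a noetherian integrally closed domain (a chart ring of the normal model), `F = Frac A`.
A divisor on the chart is a function `n : Ideal A → ℤ` (its values at the conductor primes
`KrullInter.IsCond`, i.e. the height-one primes, are what matters), with finite support;
`divModule n = {x | ord_Q x ≥ - n Q for all Q}` is the module of sections of `O(D)` on the chart.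

Hypothesis at a prime `m` (`LocPrincipal m`): every conductor prime `Q ≤ m` is principal at `m`
(the output of `NakElement.Datum.Red.exists_local_generator`).

* `exists_local_divisor_generator` (C4) : there is `t ≠ 0` with `ord_Q t = - n Q` exactly, at every
  conductor prime `Q ≤ m`.
* `divModule_fg` : `divModule n` is a finitely generated `A`-module.
* `exists_open_generator` (C5) : there are `t ≠ 0` and `g ∉ m` with `g ^ e t ∈ divModule n` for some
  `e` and `g (x / t) ∈ A` for all `x ∈ divModule n`: `t` generates `O(D)` on the principal open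
  `D(g) ∋ m` (the shape of `SoftCore.LocalGen.hs_mem`, `hs_gen`).
* `exists_finite_cover` (C6) : compactness of the special fibre (the shape of `Charts.hcover`).
-/
import Mathlib
import Fermat.Agent.S36.KrullInter
import Fermat.Agent.S36.NakElement

set_option autoImplicit false
set_option linter.unusedSectionVars false
set_option linter.style.haveILetI false
set_option linter.unusedVariables false

namespace Fermat.Agent.S36.LocalGenCore

open Fermat.Agent.S36.KrullInter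

/-! ### Units of a valuation subring, elementwise -/

section Units

variable {F : Type*} [Field F]

/-- `x` is a unit of the valuation subring `V` -/
def IsU (V : ValuationSubring F) (x : F) : Prop := x ≠ 0 ∧ x ∈ V ∧ x⁻¹ ∈ V

namespace IsU

variable {V : ValuationSubring F} {x y : F}

theorem one : IsU V 1 := ⟨one_ne_zero, V.one_mem, by rw [inv_one]; exact V.one_mem⟩

theorem mul (hx : IsU V x) (hy : IsU V y) : IsU V (x * y) :=
  ⟨mul_ne_zero hx.1 hy.1, V.mul_mem _ _ hx.2.1 hy.2.1, by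
    rw [mul_inv]; exact V.mul_mem _ _ hx.2.2 hy.2.2⟩

theorem inv (hx : IsU V x) : IsU V x⁻¹ :=
  ⟨inv_ne_zero hx.1, hx.2.2, by rw [inv_inv]; exact hx.2.1⟩

theorem pow (hx : IsU V x) (k : ℕ) : IsU V (x ^ k) := by
  induction k with
  | zero => rw [pow_zero]; exact one
  | succ k ih => rw [pow_succ]; exact ih.mul hx

theorem zpow (hx : IsU V x) (k : ℤ) : IsU V (x ^ k) := by
  cases k with
  | ofNat k => rw [Int.ofNat_eq_natCast, zpow_natCast]; exact hx.pow k
  | negSucc k => rw [zpow_negSucc]; exact (hx.pow _).inv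

theorem prod {ι : Type*} (s : Finset ι) (f : ι → F) (h : ∀ i ∈ s, IsU V (f i)) :
    IsU V (∏ i ∈ s, f i) := by
  classical
  induction s using Finset.induction_on with
  | empty => rw [Finset.prod_empty]; exact one
  | insert a s ha ih =>
    rw [Finset.prod_insert ha]
    exact (h a (Finset.mem_insert_self a s)).mul
      (ih fun i hi => h i (Finset.mem_insert_of_mem hi))

/-- cancelling a unit -/
theorem mem_of_mul_mem (hx : IsU V x) (h : y * x ∈ V) : y ∈ V := by
  have : y = y * x * x⁻¹ := by rw [mul_assoc, mul_inv_cancel₀ hx.1, mul_one]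
  rw [this]
  exact V.mul_mem _ _ h hx.2.2

end IsU

end Units

variable {A : Type*} [CommRing A] [IsDomain A] {F : Type*} [Field F] [Algebra A F]
  [IsFractionRing A F] [IsNoetherianRing A] [IsIntegrallyClosed A]

local notation "ι" => algebraMap A F

/-! ### Conductor primes: elementary facts -/

section Cond

variable {Q : Ideal A} {z : F}

theorem isU_of_not_mem (h : IsCond Q z) {a : A} (ha : a ∉ Q) : IsU h.valuationSubring (ι a) := by
  haveI := h.prime
  have ha0 : a ≠ 0 := fun h0 => ha (h0 ▸ Q.zero_mem)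
  exact ⟨algebraMap_ne_zero' ha0, h.algebraMap_mem a, inv_mem_locSubring ha⟩

theorem mul_z_mem (h : IsCond Q z) {a : A} (ha : a ∈ Q) : ι a * z ∈ h.valuationSubring := by
  obtain ⟨a', ha'⟩ := (h.mem_iff a).1 ha
  rw [ha']
  exact h.algebraMap_mem a'

/-- `z` has order `-1`: its positive powers times elements of `Q ^ k` are integral -/
theorem pow_mul_zpow_mem (h : IsCond Q z) {a : A} (ha : a ∈ Q) (k : ℕ) :
    (ι a) ^ k * z ^ (k : ℤ) ∈ h.valuationSubring := by
  rw [zpow_natCast, ← mul_pow]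
  exact pow_mem (mul_z_mem h ha) k

/-- non-positive powers of `z` are integral -/
theorem zpow_mem_of_nonpos (h : IsCond Q z) {k : ℤ} (hk : k ≤ 0) : z ^ k ∈ h.valuationSubring := by
  obtain ⟨j, rfl⟩ : ∃ j : ℕ, k = -(j : ℤ) := ⟨(-k).toNat, by omega⟩
  rw [zpow_neg, zpow_natCast, ← inv_pow]
  exact pow_mem h.inv_mem j

/-- **archimedean property**: a nonzero element of `Q` to a high power kills every pole -/
theorem exists_pow_mul_mem (h : IsCond Q z) {c : A} (hc : c ∈ Q) (y : F) :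
    ∃ e : ℕ, ∀ e' : ℕ, e ≤ e' → (ι c) ^ e' * y ∈ h.valuationSubring := by
  haveI := h.prime
  obtain ⟨a, b, hb, hab⟩ := IsFractionRing.div_surjective (A := A) y
  have hb0 : (b : A) ≠ 0 := nonZeroDivisors.ne_zero hb
  obtain ⟨k, hk1, hk2⟩ := h.exists_pow_of_algebraMap hb0
  refine ⟨k, fun e' he' => ?_⟩
  obtain ⟨d, rfl⟩ := Nat.exists_eq_add_of_le he'
  have hz : z ≠ 0 := h.ne_zero
  have hib : ι (b : A) ≠ 0 := algebraMap_ne_zero' hb0
  have : (ι c) ^ (k + d) * y =
      (ι c) ^ d * (((ι c) ^ k * z ^ (k : ℤ)) * (ι (b : A) * z ^ k)⁻¹ * ι a) := by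
    rw [← hab, zpow_natCast, pow_add]
    field_simp
  rw [this]
  exact Subring.mul_mem _ (pow_mem (h.algebraMap_mem c) d)
    (Subring.mul_mem _ (Subring.mul_mem _ (pow_mul_zpow_mem h hc k) hk2) (h.algebraMap_mem a))

end Cond

/-! ### Local generators of the conductor primes through `m` -/

/-- `g` generates the conductor prime `Q` in the localisation at `m` -/
def IsLocalGen (m Q : Ideal A) (g : A) : Prop :=
  g ∈ Q ∧ ∀ a ∈ Q, ∃ s : A, s ∉ m ∧ ∃ b : A, s * a = b * g

/-- every conductor prime contained in `m` is principal in the localisation at `m` -/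
def LocPrincipal (m : Ideal A) : Prop :=
  ∀ (Q : Ideal A) (z : F) (_ : IsCond Q z), Q ≤ m → ∃ g : A, IsLocalGen m Q g

section LocalGen

variable {m Q Q' : Ideal A} {z z' : F} {g : A}

theorem IsLocalGen.ne_zero (hg : IsLocalGen m Q g) (h : IsCond Q z) : g ≠ 0 := by
  rintro rfl
  apply h.ne_bot
  rw [Submodule.eq_bot_iff]
  intro a ha
  obtain ⟨s, hs, b, hb⟩ := hg.2 a ha
  rw [mul_zero] at hb
  rcases mul_eq_zero.1 hb with h1 | h1
  · exact absurd (h1 ▸ m.zero_mem) hs
  · exact h1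

/-- a local generator of `Q` has order exactly one at `Q` -/
theorem IsLocalGen.isU_mul (hg : IsLocalGen m Q g) (h : IsCond Q z) (hQm : Q ≤ m) :
    IsU h.valuationSubring (ι g * z) := by
  haveI := h.prime
  have hg0 : g ≠ 0 := hg.ne_zero h
  have hne : ι g * z ≠ 0 := mul_ne_zero (algebraMap_ne_zero' hg0) h.ne_zero
  refine ⟨hne, mul_z_mem h hg.1, ?_⟩
  obtain ⟨p₀, hp₀, u₀, hu₀, he⟩ := h.exists_mul_eq
  obtain ⟨s, hs, b, hb⟩ := hg.2 p₀ hp₀
  have hsQ : s ∉ Q := fun hsQ => hs (hQm hsQ)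
  have hs0 : s ≠ 0 := fun h0 => hsQ (h0 ▸ Q.zero_mem)
  have hu₀0 : u₀ ≠ 0 := fun h0 => hu₀ (h0 ▸ Q.zero_mem)
  have hrel : ι s * ι u₀ = ι b * (ι g * z) := by
    rw [← he, ← mul_assoc, ← map_mul, hb, map_mul]; ring
  have hinv : (ι g * z)⁻¹ = ι b * (ι s)⁻¹ * (ι u₀)⁻¹ := by
    rw [inv_eq_iff_eq_inv, mul_inv, mul_inv, inv_inv, inv_inv]
    have h1 : ι b ≠ 0 := by
      intro h0
      rw [h0, zero_mul] at hrel
      exact (mul_ne_zero (algebraMap_ne_zero' hs0) (algebraMap_ne_zero' hu₀0)) hrel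
    field_simp
    rw [hrel]
    ring
  rw [hinv]
  exact Subring.mul_mem _ (Subring.mul_mem _ (algebraMap_mem_locSubring Q b)
    (inv_mem_locSubring hsQ)) (inv_mem_locSubring hu₀)

/-- a local generator of `Q` does not lie in any other conductor prime through `m` -/
theorem IsLocalGen.not_mem (hg : IsLocalGen m Q g) [hm : m.IsPrime] (h : IsCond Q z)
    (h' : IsCond Q' z') (hQ'm : Q' ≤ m) (hne : Q ≠ Q') : g ∉ Q' := by
  haveI := h.prime
  haveI := h'.prime
  intro hgQ'
  apply hne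
  have hle : Q ≤ Q' := by
    intro a ha
    obtain ⟨s, hs, b, hb⟩ := hg.2 a ha
    have : s * a ∈ Q' := by rw [hb]; exact Q'.mul_mem_left b hgQ'
    exact (h'.prime.mem_or_mem this).resolve_left fun hsQ' => hs (hQ'm hsQ')
  exact (h'.eq_bot_or_eq_of_le Q hle).resolve_left h.ne_bot

end LocalGen

/-! ### The module of a divisor -/

/-- sections of `O(D)` on the chart: `ord_Q x ≥ - n Q` at every conductor prime `Q`
(`ord_Q z = -1` when `Q` is the conductor of `z`) -/
def divModule (n : Ideal A → ℤ) : Submodule A F where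
  carrier := {x | ∀ (Q : Ideal A) (z : F) (h : IsCond Q z),
    x * z ^ (-(n Q)) ∈ h.valuationSubring}
  add_mem' := by
    intro x y hx hy Q z h
    rw [add_mul]
    exact add_mem (hx Q z h) (hy Q z h)
  zero_mem' := by
    intro Q z h
    rw [zero_mul]
    exact zero_mem _
  smul_mem' := by
    intro c x hx Q z h
    rw [Algebra.smul_def, mul_assoc]
    exact mul_mem (h.algebraMap_mem c) (hx Q z h)

theorem mem_divModule {n : Ideal A → ℤ} {x : F} :
    x ∈ divModule n ↔ ∀ (Q : Ideal A) (z : F) (h : IsCond Q z),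
      x * z ^ (-(n Q)) ∈ h.valuationSubring := Iff.rfl

/-! ### (C4) every local Weil divisor at `m` is principal -/

/-- **(C4)** if every conductor prime through `m` is principal at `m`, every divisor is principal
at `m`: there is `t ≠ 0` with `ord_Q t = - n Q` at every conductor prime `Q ≤ m`; moreover `t` is a
unit at every conductor prime not containing a fixed `a₀ ≠ 0`. -/
theorem exists_local_divisor_generator (m : Ideal A) [hm : m.IsPrime]
    (hloc : LocPrincipal (F := F) m) (n : Ideal A → ℤ)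
    (hfin : {Q : Ideal A | n Q ≠ 0 ∧ ∃ z : F, IsCond Q z}.Finite) :
    ∃ (t : F) (a₀ : A), t ≠ 0 ∧ a₀ ≠ 0 ∧
      (∀ (Q : Ideal A) (z : F) (h : IsCond Q z), Q ≤ m →
        IsU h.valuationSubring (t * z ^ (-(n Q)))) ∧
      (∀ (Q : Ideal A) (z : F) (h : IsCond Q z), a₀ ∉ Q → IsU h.valuationSubring t) := by
  classical
  let 𝒬 : Finset (Ideal A) := hfin.toFinset.filter (fun Q => Q ≤ m)
  have hmem𝒬 : ∀ Q, Q ∈ 𝒬 ↔ (n Q ≠ 0 ∧ ∃ z : F, IsCond Q z) ∧ Q ≤ m := by
    intro Q
    simp only [𝒬, Finset.mem_filter, Set.Finite.mem_toFinset, Set.mem_ofPred_eq]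
  have hex : ∀ Q : Ideal A, ∃ g : A, Q ∈ 𝒬 → IsLocalGen m Q g := by
    intro Q
    by_cases hQ : Q ∈ 𝒬
    · obtain ⟨⟨-, z, h⟩, hQm⟩ := (hmem𝒬 Q).1 hQ
      obtain ⟨g, hg⟩ := hloc Q z h hQm
      exact ⟨g, fun _ => hg⟩
    · exact ⟨1, fun h => absurd h hQ⟩
  choose gen hgen using hex
  have hgen0 : ∀ Q ∈ 𝒬, gen Q ≠ 0 := by
    intro Q hQ
    obtain ⟨⟨-, z, h⟩, -⟩ := (hmem𝒬 Q).1 hQ
    exact (hgen Q hQ).ne_zero h
  -- a local generator of `Q ∈ 𝒬` is a unit at every other conductor prime through `m`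
  have hother : ∀ (Q' : Ideal A) (z' : F) (h' : IsCond Q' z'), Q' ≤ m → ∀ Q ∈ 𝒬, Q ≠ Q' →
      IsU h'.valuationSubring (ι (gen Q) ^ (-(n Q))) := by
    intro Q' z' h' hQ'm Q hQ hne
    obtain ⟨⟨-, z, h⟩, -⟩ := (hmem𝒬 Q).1 hQ
    exact (isU_of_not_mem h' ((hgen Q hQ).not_mem h h' hQ'm hne)).zpow _
  refine ⟨∏ Q ∈ 𝒬, ι (gen Q) ^ (-(n Q)), ∏ Q ∈ 𝒬, gen Q, ?_, ?_, ?_, ?_⟩
  · rw [Finset.prod_ne_zero_iff]
    intro Q hQ
    exact zpow_ne_zero _ (algebraMap_ne_zero' (hgen0 Q hQ))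
  · rw [Finset.prod_ne_zero_iff]
    exact hgen0
  · intro Q' z' h' hQ'm
    by_cases hQ' : Q' ∈ 𝒬
    · rw [← Finset.mul_prod_erase 𝒬 _ hQ', mul_right_comm, ← mul_zpow]
      refine (((hgen Q' hQ').isU_mul h' hQ'm).zpow _).mul (IsU.prod _ _ ?_)
      intro Q hQ
      exact hother Q' z' h' hQ'm Q (Finset.mem_of_mem_erase hQ) (Finset.ne_of_mem_erase hQ)
    · have hn : n Q' = 0 := by
        by_contra hne
        exact hQ' ((hmem𝒬 Q').2 ⟨⟨hne, z', h'⟩, hQ'm⟩)
      rw [hn, neg_zero, zpow_zero, mul_one]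
      refine IsU.prod _ _ ?_
      intro Q hQ
      exact hother Q' z' h' hQ'm Q hQ (fun heq => hQ' (heq ▸ hQ))
  · intro Q' z' h' ha₀
    haveI := h'.prime
    refine IsU.prod _ _ ?_
    intro Q hQ
    refine (isU_of_not_mem h' ?_).zpow _
    intro hmem
    apply ha₀
    rw [← Finset.mul_prod_erase 𝒬 _ hQ]
    exact Q'.mul_mem_right _ hmem

/-! ### Finiteness -/

/-- the conductor primes containing a nonzero element are finitely many -/
theorem finite_cond_primes {a : A} (ha : a ≠ 0) :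
    {Q : Ideal A | a ∈ Q ∧ ∃ z : F, IsCond Q z}.Finite := by
  refine (Ideal.finite_minimalPrimes_of_isNoetherianRing A (Ideal.span {a})).subset ?_
  rintro Q ⟨haQ, z, h⟩
  haveI := h.prime
  refine ⟨⟨h.prime, (Ideal.span_singleton_le_iff_mem _).2 haQ⟩, ?_⟩
  rintro P ⟨hP, haP⟩ hPQ
  haveI := hP
  rcases h.eq_bot_or_eq_of_le P hPQ with h1 | h1
  · exfalso
    have h2 : a ∈ P := haP (Ideal.mem_span_singleton_self a)
    rw [h1, Ideal.mem_bot] at h2
    exact ha h2
  · exact h1.ge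

/-- two conductor elements of the same prime differ by a unit -/
theorem isU_div_of_isCond {Q : Ideal A} {z z' : F} (h : IsCond Q z) (h' : IsCond Q z') :
    IsU h.valuationSubring (z' * z⁻¹) := by
  have hz : z ≠ 0 := h.ne_zero
  have hz' : z' ≠ 0 := h'.ne_zero
  refine ⟨mul_ne_zero hz' (inv_ne_zero hz), ?_, ?_⟩
  · -- `z⁻¹ ∈ V` is not a unit of `V = V'`
    have h1 : z⁻¹ ∈ h'.valuationSubring := h.inv_mem
    rcases h'.unit_or_div' h1 with h2 | h2
    · rw [inv_inv] at h2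
      exact absurd h2 h.not_mem
    · rw [mul_comm]
      exact h2
  · have h1 : z'⁻¹ ∈ h.valuationSubring := h'.inv_mem
    rcases h.unit_or_div' h1 with h2 | h2
    · rw [inv_inv] at h2
      exact absurd h2 h'.not_mem
    · rw [mul_inv, inv_inv]
      exact h2

/-- membership in `divModule` can be tested with one conductor element per prime -/
theorem mul_zpow_mem_of_isCond {Q : Ideal A} {z z' : F} (h : IsCond Q z) (h' : IsCond Q z')
    {x : F} {k : ℤ} (hx : x * z ^ k ∈ h.valuationSubring) : x * z' ^ k ∈ h'.valuationSubring := by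
  have hz : z ≠ 0 := h.ne_zero
  have hu := (isU_div_of_isCond h h').zpow k
  have : x * z' ^ k = (x * z ^ k) * (z' * z⁻¹) ^ k := by
    rw [mul_zpow, inv_zpow]
    field_simp
  rw [this]
  exact Subring.mul_mem _ hx hu.2.1

/-! ### Bounded denominators -/

/-- **bounded denominators**: a nonzero `d` with `d • divModule n ⊆ A` -/
theorem exists_denominator (n : Ideal A → ℤ)
    (hfin : {Q : Ideal A | n Q ≠ 0 ∧ ∃ z : F, IsCond Q z}.Finite) :
    ∃ d : A, d ≠ 0 ∧ ∀ x ∈ divModule (F := F) n, ∃ a : A, ι d * x = ι a := by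
  classical
  have hex : ∀ Q : Ideal A, ∃ c : A, Q ∈ hfin.toFinset → c ∈ Q ∧ c ≠ 0 := by
    intro Q
    by_cases hQ : Q ∈ hfin.toFinset
    · obtain ⟨-, z, h⟩ := (Set.Finite.mem_toFinset hfin).1 hQ
      obtain ⟨c, hc, hc0⟩ := Submodule.exists_mem_ne_zero_of_ne_bot h.ne_bot
      exact ⟨c, fun _ => ⟨hc, hc0⟩⟩
    · exact ⟨1, fun h => absurd h hQ⟩
  choose c hc using hex
  refine ⟨∏ Q ∈ hfin.toFinset, c Q ^ (n Q).toNat, ?_, ?_⟩
  · rw [Finset.prod_ne_zero_iff]
    intro Q hQ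
    exact pow_ne_zero _ (hc Q hQ).2
  · intro x hx
    by_contra hcon
    obtain ⟨P, y, h, hxP⟩ := exists_isCond_not_mem hcon
    haveI := h.prime
    apply hxP
    have hxy := hx P y h
    have hy : y ≠ 0 := h.ne_zero
    by_cases hn : n P ≤ 0
    · have h1 : x = (x * y ^ (-(n P))) * y ^ (n P) := by
        rw [mul_assoc, ← zpow_add₀ hy, neg_add_cancel, zpow_zero, mul_one]
      rw [h1]
      exact Subring.mul_mem _ (algebraMap_mem_locSubring P _)
        (Subring.mul_mem _ hxy (zpow_mem_of_nonpos h hn))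
    · push Not at hn
      have hPmem : P ∈ hfin.toFinset :=
        (Set.Finite.mem_toFinset hfin).2 ⟨hn.ne', y, h⟩
      rw [← Finset.mul_prod_erase _ _ hPmem, map_mul, map_pow]
      have hk : ((n P).toNat : ℤ) = n P := Int.toNat_of_nonneg hn.le
      have h2 := pow_mul_zpow_mem h (hc P hPmem).1 (n P).toNat
      rw [hk] at h2
      have h1 : ι (c P) ^ (n P).toNat * ι (∏ Q ∈ hfin.toFinset.erase P, c Q ^ (n Q).toNat) * x =
          ι (∏ Q ∈ hfin.toFinset.erase P, c Q ^ (n Q).toNat) *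
            ((ι (c P) ^ (n P).toNat * y ^ (n P)) * (x * y ^ (-(n P)))) := by
        have : y ^ (n P) * y ^ (-(n P)) = 1 := by
          rw [← zpow_add₀ hy, add_neg_cancel, zpow_zero]
        calc ι (c P) ^ (n P).toNat * ι (∏ Q ∈ hfin.toFinset.erase P, c Q ^ (n Q).toNat) * x
            = ι (∏ Q ∈ hfin.toFinset.erase P, c Q ^ (n Q).toNat) *
                (ι (c P) ^ (n P).toNat * x * (y ^ (n P) * y ^ (-(n P)))) := by
              rw [this]; ring
          _ = _ := by ring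
      rw [h1]
      exact Subring.mul_mem _ (algebraMap_mem_locSubring P _) (Subring.mul_mem _ h2 hxy)

/-- `divModule n` is a finitely generated `A`-module -/
theorem divModule_fg (n : Ideal A → ℤ)
    (hfin : {Q : Ideal A | n Q ≠ 0 ∧ ∃ z : F, IsCond Q z}.Finite) :
    (divModule (F := F) n).FG := by
  obtain ⟨d, hd0, hd⟩ := exists_denominator n hfin
  have hle : divModule (F := F) n ≤ Submodule.span A {(ι d)⁻¹} := by
    intro x hx
    obtain ⟨a, ha⟩ := hd x hx
    rw [Submodule.mem_span_singleton]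
    refine ⟨a, ?_⟩
    rw [Algebra.smul_def, ← ha]
    field_simp [algebraMap_ne_zero' hd0]
  haveI : IsNoetherian A (Submodule.span A {(ι d)⁻¹}) :=
    isNoetherian_span_of_finite A (Set.finite_singleton _)
  exact isNoetherian_submodule.1 this _ hle

/-! ### (C5) generators on a principal open -/

/-- sections divided by a local generator lie in `A_m` -/
theorem exists_mul_div_eq (m : Ideal A) [hm : m.IsPrime] {n : Ideal A → ℤ} {t : F}
    (ht : ∀ (Q : Ideal A) (z : F) (h : IsCond Q z), Q ≤ m →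
      IsU h.valuationSubring (t * z ^ (-(n Q))))
    {x : F} (hx : x ∈ divModule n) : ∃ s : A, s ∉ m ∧ ∃ a : A, ι s * (x / t) = ι a := by
  by_contra hcon
  obtain ⟨Q, z, h, hQm, hxQ⟩ := NakElement.exists_isCond_le_not_mem m hcon
  apply hxQ
  have hu := ht Q z h hQm
  have hz : z ^ (-(n Q)) ≠ 0 := zpow_ne_zero _ h.ne_zero
  have ht0 : t ≠ 0 := fun h0 => hu.1 (by rw [h0, zero_mul])
  have : x / t = (x * z ^ (-(n Q))) * (t * z ^ (-(n Q)))⁻¹ := by
    field_simp
  rw [this]
  exact mul_mem (hx Q z h) hu.2.2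

/-- a uniform denominator outside `m` for a finitely generated module -/
theorem exists_uniform (m : Ideal A) [hm : m.IsPrime] (L : Submodule A F) (hL : L.FG) {t : F}
    (h : ∀ x ∈ L, ∃ s : A, s ∉ m ∧ ∃ a : A, ι s * (x / t) = ι a) :
    ∃ g : A, g ∉ m ∧ ∀ x ∈ L, ∃ a : A, ι g * (x / t) = ι a := by
  classical
  obtain ⟨S, hS⟩ := hL
  have hSL : ∀ x ∈ S, x ∈ L := fun x hx => hS ▸ Submodule.subset_span hx
  have hex : ∀ x : F, ∃ s : A, x ∈ S → s ∉ m ∧ ∃ a : A, ι s * (x / t) = ι a := by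
    intro x
    by_cases hx : x ∈ S
    · obtain ⟨s, hs, ha⟩ := h x (hSL x hx)
      exact ⟨s, fun _ => ⟨hs, ha⟩⟩
    · exact ⟨1, fun h => absurd h hx⟩
  choose sx hsx using hex
  refine ⟨∏ x ∈ S, sx x, ?_, ?_⟩
  · intro hmem
    obtain ⟨x, hxS, hx⟩ := Ideal.IsPrime.prod_mem_iff.1 hmem
    exact (hsx x hxS).1 hx
  · intro x hx
    rw [← hS] at hx
    induction hx using Submodule.span_induction with
    | mem x hxS =>
      obtain ⟨-, a, ha⟩ := hsx x hxS
      refine ⟨(∏ y ∈ S.erase x, sx y) * a, ?_⟩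
      rw [← Finset.mul_prod_erase S _ hxS, map_mul, map_mul, ← ha]
      ring
    | zero => exact ⟨0, by rw [zero_div, mul_zero, map_zero]⟩
    | add x y _ _ hx hy =>
      obtain ⟨a, ha⟩ := hx
      obtain ⟨b, hb⟩ := hy
      exact ⟨a + b, by rw [add_div, mul_add, ha, hb, map_add]⟩
    | smul c x _ hx =>
      obtain ⟨a, ha⟩ := hx
      exact ⟨c * a, by rw [Algebra.smul_def, map_mul, ← ha]; ring⟩

/-- **(C5)** `t` generates `O(D)` on a principal open `D(g)` containing `m` -/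
theorem exists_open_generator (m : Ideal A) [hm : m.IsPrime]
    (hloc : LocPrincipal (F := F) m) (n : Ideal A → ℤ)
    (hfin : {Q : Ideal A | n Q ≠ 0 ∧ ∃ z : F, IsCond Q z}.Finite) :
    ∃ (t : F) (g : A), t ≠ 0 ∧ g ∉ m ∧ (∃ e : ℕ, ι g ^ e * t ∈ divModule n) ∧
      (∀ x ∈ divModule n, ∃ a : A, ι g * (x / t) = ι a) ∧
      (∀ (Q : Ideal A) (z : F) (h : IsCond Q z), Q ≤ m →
        IsU h.valuationSubring (t * z ^ (-(n Q)))) := by
  classical
  obtain ⟨t, a₀, ht0, ha₀, ht, hta₀⟩ := exists_local_divisor_generator m hloc n hfin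
  -- the denominators
  obtain ⟨g₁, hg₁m, hg₁⟩ := exists_uniform m (divModule n) (divModule_fg n hfin)
    (fun x hx => exists_mul_div_eq m ht hx)
  -- the bad primes
  let ℬ : Finset (Ideal A) :=
    (hfin.toFinset ∪ (finite_cond_primes (F := F) ha₀).toFinset).filter (fun Q => ¬ Q ≤ m)
  have hℬ : ∀ Q, Q ∈ ℬ ↔ ((n Q ≠ 0 ∧ ∃ z : F, IsCond Q z) ∨ (a₀ ∈ Q ∧ ∃ z : F, IsCond Q z)) ∧
      ¬ Q ≤ m := by
    intro Q
    simp only [ℬ, Finset.mem_filter, Finset.mem_union, Set.Finite.mem_toFinset,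
      Set.mem_ofPred_eq]
  -- for each bad prime an element of `Q ∖ m` and an exponent
  have hex : ∀ Q : Ideal A, ∃ (γ : A) (e : ℕ), Q ∈ ℬ → γ ∈ Q ∧ γ ∉ m ∧
      ∀ (z : F) (h : IsCond Q z) (e' : ℕ), e ≤ e' →
        ι γ ^ e' * (t * z ^ (-(n Q))) ∈ h.valuationSubring := by
    intro Q
    by_cases hQ : Q ∈ ℬ
    · obtain ⟨hz, hQm⟩ := (hℬ Q).1 hQ
      obtain ⟨z, h⟩ : ∃ z : F, IsCond Q z := by
        rcases hz with ⟨-, hz⟩ | ⟨-, hz⟩ <;> exact hz
      obtain ⟨γ, hγQ, hγm⟩ := SetLike.not_le_iff_exists.1 hQm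
      obtain ⟨e, he⟩ := exists_pow_mul_mem h hγQ (t * z ^ (-(n Q)))
      refine ⟨γ, e, fun _ => ⟨hγQ, hγm, fun z' h' e' he' => ?_⟩⟩
      have h1 := he e' he'
      rw [← mul_assoc] at h1 ⊢
      exact mul_zpow_mem_of_isCond h h' h1
    · exact ⟨1, 0, fun h => absurd h hQ⟩
  choose γ e hγe using hex
  set g₂ : A := ∏ Q ∈ ℬ, γ Q with hg₂
  set E : ℕ := ∑ Q ∈ ℬ, e Q with hE
  have hg₂m : g₂ ∉ m := by
    intro hmem
    obtain ⟨Q, hQ, hx⟩ := Ideal.IsPrime.prod_mem_iff.1 hmem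
    exact (hγe Q hQ).2.1 hx
  have hmemE : ι g₂ ^ E * t ∈ divModule n := by
    intro Q z h
    by_cases hQm : Q ≤ m
    · rw [mul_assoc]
      exact mul_mem (pow_mem (h.algebraMap_mem _) _) (ht Q z h hQm).2.1
    · by_cases hQ : Q ∈ ℬ
      · have hle : e Q ≤ E := Finset.single_le_sum (f := e) (fun _ _ => Nat.zero_le _) hQ
        have h1 := (hγe Q hQ).2.2 z h E hle
        rw [hg₂, ← Finset.mul_prod_erase ℬ _ hQ, map_mul, mul_pow]
        have : ι (γ Q) ^ E * ι (∏ Q' ∈ ℬ.erase Q, γ Q') ^ E * t * z ^ (-(n Q)) =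
            ι (∏ Q' ∈ ℬ.erase Q, γ Q') ^ E * (ι (γ Q) ^ E * (t * z ^ (-(n Q)))) := by ring
        rw [this]
        exact mul_mem (pow_mem (h.algebraMap_mem _) _) h1
      · -- `Q` is not bad: `n Q = 0` and `t` is a unit at `Q`
        have hn : n Q = 0 := by
          by_contra hne
          exact hQ ((hℬ Q).2 ⟨Or.inl ⟨hne, z, h⟩, hQm⟩)
        have ha : a₀ ∉ Q := fun ha => hQ ((hℬ Q).2 ⟨Or.inr ⟨ha, z, h⟩, hQm⟩)
        rw [hn, neg_zero, zpow_zero, mul_one]
        exact mul_mem (pow_mem (h.algebraMap_mem _) _) (hta₀ Q z h ha).2.1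
  refine ⟨t, g₁ * g₂, ht0, fun hmem => (hm.mem_or_mem hmem).elim hg₁m hg₂m, ⟨E, ?_⟩, ?_, ht⟩
  · have : ι (g₁ * g₂) ^ E * t = (g₁ ^ E) • (ι g₂ ^ E * t) := by
      rw [Algebra.smul_def, map_mul, mul_pow, map_pow]
      ring
    rw [this]
    exact Submodule.smul_mem _ _ hmemE
  · intro x hx
    obtain ⟨a, ha⟩ := hg₁ x hx
    exact ⟨g₂ * a, by rw [map_mul, map_mul, ← ha]; ring⟩

/-- the hypothesis `LocPrincipal m` from a Nakayama element at `m` (`S36/NakElement`) -/
theorem locPrincipal_of_red {m : Ideal A} [hm : m.IsPrime] {y : A} {W : ValuationSubring F}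
    {D : NakElement.Datum m y W} {κ : Type*} [Field κ] {ρ : A →+* κ} {T : Subring κ}
    (H : D.Red ρ T) [IsPrincipalIdealRing T] : LocPrincipal (F := F) m := by
  intro Q z h hQm
  obtain ⟨g, hg, hgen⟩ := H.exists_local_generator h hQm
  exact ⟨g, hg, hgen⟩

/-! ### (C6) compactness of the special fibre -/

/-- **(C6)** if every maximal ideal containing `ϖ` misses some element of `G`, finitely many
elements of `G` generate the unit ideal together with `ϖ`. -/
theorem exists_finite_cover {R : Type*} [CommRing R] (ϖ : R) (G : Set R)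
    (h : ∀ m : Ideal R, m.IsMaximal → ϖ ∈ m → ∃ g ∈ G, g ∉ m) :
    ∃ G₀ : Finset R, (G₀ : Set R) ⊆ G ∧ Ideal.span (G₀ : Set R) ⊔ Ideal.span {ϖ} = ⊤ := by
  classical
  have htop : Ideal.span G ⊔ Ideal.span {ϖ} = ⊤ := by
    by_contra hne
    obtain ⟨m, hm, hle⟩ := Ideal.exists_le_maximal _ hne
    have hϖ : ϖ ∈ m := hle (Ideal.mem_sup_right (Ideal.mem_span_singleton_self ϖ))
    obtain ⟨g, hgG, hgm⟩ := h m hm hϖ
    exact hgm (hle (Ideal.mem_sup_left (Ideal.subset_span hgG)))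
  have h1 : (1 : R) ∈ Ideal.span G ⊔ Ideal.span {ϖ} := htop ▸ Submodule.mem_top
  obtain ⟨u, hu, v, hv, huv⟩ := Submodule.mem_sup.1 h1
  obtain ⟨G₀, hG₀, huG₀⟩ := Submodule.mem_span_finite_of_mem_span hu
  refine ⟨G₀, hG₀, ?_⟩
  rw [Ideal.eq_top_iff_one, ← huv]
  exact Submodule.add_mem_sup huG₀ hv

end Fermat.Agent.S36.LocalGenCore
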