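/-
PROJECT V (S36), slice V-Centre (C4), abstract core in `HasOrd` form (helper10): **local generators of a divisor on a
chart of the normal model**, in pure ring language.

* `IsUnif V ϖ` : `ϖ` is a uniformiser of the valuation subring `V` (`ϖ ∈ V`, `ϖ⁻¹ ∉ V`, every
  element of `V` is a unit or divisible by `ϖ`).
* `HasOrd V z m` : `z = unit * ϖ ^ m` for a (equivalently every) uniformiser `ϖ` of `V`; the
  elementary calculus (`mul`, `inv`, `zpow`, `prod`, uniqueness of `m`, `z ∈ V ↔ 0 ≤ m`).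
* `exists_local_generator` : `A` noetherian integrally closed, `x` a prime, `n` an integer valued
  function on valuation subrings with finite support such that every conductor prime `P ≤ x` in
  the support is locally principal at `x`.  Then there are `t ≠ 0` and `g ∉ x` with
  `HasOrd A_P t (n A_P)` for EVERY conductor prime `P` not containing `g`.
* `exists_finite_cover` : if this holds at every prime `x ∋ q`, finitely many `(g_i, t_i)` with
  `(q, g_1, …, g_r) = A` suffice.
-/
import Mathlib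
import Fermat.Agent.S36.KrullInter
import Fermat.Agent.S36.CentreCore

set_option autoImplicit false
set_option linter.unusedSectionVars false
set_option linter.style.haveILetI false
set_option linter.unusedVariables false

namespace Fermat.Agent.S36.LocalGenOrd

open Fermat.Agent.S36.KrullInter Fermat.Agent.S36.CentreCore

/-! ### Uniformisers and orders at a valuation subring -/

section Ord

variable {F : Type*} [Field F]

/-- `z` is a unit of the valuation subring `V`. -/
def IsUnitOf (V : ValuationSubring F) (z : F) : Prop := z ≠ 0 ∧ z ∈ V ∧ z⁻¹ ∈ V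

namespace IsUnitOf

variable {V : ValuationSubring F} {z w : F}

theorem one : IsUnitOf V (1 : F) := ⟨one_ne_zero, V.one_mem, by rw [inv_one]; exact V.one_mem⟩

theorem mul (hz : IsUnitOf V z) (hw : IsUnitOf V w) : IsUnitOf V (z * w) :=
  ⟨mul_ne_zero hz.1 hw.1, V.mul_mem _ _ hz.2.1 hw.2.1, by
    rw [mul_inv]; exact V.mul_mem _ _ hz.2.2 hw.2.2⟩

theorem inv (hz : IsUnitOf V z) : IsUnitOf V z⁻¹ :=
  ⟨inv_ne_zero hz.1, hz.2.2, by rw [inv_inv]; exact hz.2.1⟩

theorem pow (hz : IsUnitOf V z) (k : ℕ) : IsUnitOf V (z ^ k) :=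
  ⟨pow_ne_zero k hz.1, V.pow_mem hz.2.1 k, by rw [← inv_pow]; exact V.pow_mem hz.2.2 k⟩

theorem zpow (hz : IsUnitOf V z) (k : ℤ) : IsUnitOf V (z ^ k) := by
  cases k with
  | ofNat k => rw [Int.ofNat_eq_natCast, zpow_natCast]; exact hz.pow k
  | negSucc k => rw [zpow_negSucc]; exact (hz.pow (k + 1)).inv

theorem prod {ι' : Type*} (s : Finset ι') (f : ι' → F) (h : ∀ i ∈ s, IsUnitOf V (f i)) :
    IsUnitOf V (∏ i ∈ s, f i) := by
  classical
  induction s using Finset.induction_on with
  | empty => rw [Finset.prod_empty]; exact one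
  | insert a s ha ih =>
    rw [Finset.prod_insert ha]
    exact (h a (Finset.mem_insert_self a s)).mul
      (ih (fun i hi => h i (Finset.mem_insert_of_mem hi)))

end IsUnitOf

/-- `ϖ` is a uniformiser of the valuation subring `V`. -/
structure IsUnif (V : ValuationSubring F) (ϖ : F) : Prop where
  mem : ϖ ∈ V
  inv_not_mem : ϖ⁻¹ ∉ V
  unit_or_div : ∀ z ∈ V, z⁻¹ ∈ V ∨ z * ϖ⁻¹ ∈ V

namespace IsUnif

variable {V : ValuationSubring F} {ϖ ϖ' : F}

theorem ne_zero (h : IsUnif V ϖ) : ϖ ≠ 0 := by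
  rintro rfl
  exact h.inv_not_mem (by rw [inv_zero]; exact V.zero_mem)

/-- Two uniformisers differ by a unit. -/
theorem isUnitOf_div (h : IsUnif V ϖ) (h' : IsUnif V ϖ') : IsUnitOf V (ϖ' * ϖ⁻¹) := by
  refine ⟨mul_ne_zero h'.ne_zero (inv_ne_zero h.ne_zero), ?_, ?_⟩
  · exact (h.unit_or_div ϖ' h'.mem).resolve_left h'.inv_not_mem
  · rw [mul_inv, inv_inv, mul_comm]
    exact (h'.unit_or_div ϖ h.mem).resolve_left h.inv_not_mem

theorem zpow_mem_iff (h : IsUnif V ϖ) (k : ℤ) : ϖ ^ k ∈ V ↔ 0 ≤ k := by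
  constructor
  · intro hk
    by_contra hneg
    push Not at hneg
    obtain ⟨j, hj⟩ : ∃ j : ℕ, k = -((j : ℤ) + 1) := ⟨(-k - 1).toNat, by omega⟩
    apply h.inv_not_mem
    have : ϖ⁻¹ = ϖ ^ k * ϖ ^ j := by
      rw [hj, zpow_neg, ← zpow_natCast ϖ j, ← zpow_neg, ← zpow_add₀ h.ne_zero]
      have : -((j : ℤ) + 1) + j = -1 := by ring
      rw [this, zpow_neg_one]
    rw [this]
    exact V.mul_mem _ _ hk (V.pow_mem h.mem j)
  · intro hk
    obtain ⟨j, rfl⟩ := Int.eq_ofNat_of_zero_le hk
    rw [zpow_natCast]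
    exact V.pow_mem h.mem j

theorem isUnitOf_zpow_iff (h : IsUnif V ϖ) (k : ℤ) : IsUnitOf V (ϖ ^ k) ↔ k = 0 := by
  constructor
  · rintro ⟨-, h1, h2⟩
    rw [← zpow_neg] at h2
    have := (h.zpow_mem_iff k).1 h1
    have := (h.zpow_mem_iff (-k)).1 h2
    omega
  · rintro rfl
    rw [zpow_zero]; exact IsUnitOf.one

end IsUnif

/-- `z` has order `m` at the (discrete) valuation subring `V`. -/
def HasOrd (V : ValuationSubring F) (z : F) (m : ℤ) : Prop :=
  ∃ ϖ : F, IsUnif V ϖ ∧ IsUnitOf V (z * ϖ ^ (-m))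

namespace HasOrd

variable {V : ValuationSubring F} {z w ϖ : F} {m k : ℤ}

/-- The order can be read off with any uniformiser. -/
theorem of_unif (h : HasOrd V z m) (hϖ : IsUnif V ϖ) : IsUnitOf V (z * ϖ ^ (-m)) := by
  obtain ⟨ϖ₀, h₀, hu⟩ := h
  have h1 : IsUnitOf V ((ϖ * ϖ₀⁻¹) ^ (-m)) := (h₀.isUnitOf_div hϖ).zpow (-m)
  have : z * ϖ ^ (-m) = (z * ϖ₀ ^ (-m)) * (ϖ * ϖ₀⁻¹) ^ (-m) := by
    rw [mul_zpow, inv_zpow, mul_assoc, ← mul_assoc (ϖ₀ ^ (-m)), mul_comm (ϖ₀ ^ (-m)),
      mul_assoc (ϖ ^ (-m)), mul_inv_cancel₀ (zpow_ne_zero _ h₀.ne_zero), mul_one]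
  rw [this]
  exact hu.mul h1

theorem ne_zero (h : HasOrd V z m) : z ≠ 0 := by
  obtain ⟨ϖ₀, h₀, hu⟩ := h
  exact left_ne_zero_of_mul hu.1

theorem of_isUnitOf (hz : IsUnitOf V z) (hϖ : IsUnif V ϖ) : HasOrd V z 0 :=
  ⟨ϖ, hϖ, by rw [neg_zero, zpow_zero, mul_one]; exact hz⟩

theorem of_isUnif (hϖ : IsUnif V ϖ) : HasOrd V ϖ 1 :=
  ⟨ϖ, hϖ, by
    rw [zpow_neg_one, mul_inv_cancel₀ hϖ.ne_zero]; exact IsUnitOf.one⟩

theorem mul (hz : HasOrd V z m) (hw : HasOrd V w k) : HasOrd V (z * w) (m + k) := by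
  obtain ⟨ϖ₀, h₀, hu⟩ := hz
  refine ⟨ϖ₀, h₀, ?_⟩
  have h2 := hw.of_unif h₀
  have : z * w * ϖ₀ ^ (-(m + k)) = (z * ϖ₀ ^ (-m)) * (w * ϖ₀ ^ (-k)) := by
    rw [neg_add, zpow_add₀ h₀.ne_zero]; ring
  rw [this]
  exact hu.mul h2

theorem inv (hz : HasOrd V z m) : HasOrd V z⁻¹ (-m) := by
  obtain ⟨ϖ₀, h₀, hu⟩ := hz
  refine ⟨ϖ₀, h₀, ?_⟩
  have : z⁻¹ * ϖ₀ ^ (- -m) = (z * ϖ₀ ^ (-m))⁻¹ := by
    rw [mul_inv, ← zpow_neg]
  rw [this]
  exact hu.inv

theorem pow (hz : HasOrd V z m) (j : ℕ) : HasOrd V (z ^ j) (j * m) := by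
  obtain ⟨ϖ₀, h₀, hu⟩ := id hz
  induction j with
  | zero =>
    rw [pow_zero, Nat.cast_zero, zero_mul]
    exact of_isUnitOf IsUnitOf.one h₀
  | succ j ih =>
    rw [pow_succ]
    have : ((j + 1 : ℕ) : ℤ) * m = j * m + m := by push_cast; ring
    rw [this]
    exact ih.mul hz

theorem zpow (hz : HasOrd V z m) (j : ℤ) : HasOrd V (z ^ j) (j * m) := by
  cases j with
  | ofNat j => rw [Int.ofNat_eq_natCast, zpow_natCast]; exact hz.pow j
  | negSucc j =>
    rw [zpow_negSucc]
    have : Int.negSucc j * m = -(((j + 1 : ℕ) : ℤ) * m) := by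
      rw [Int.negSucc_eq]; push_cast; ring
    rw [this]
    exact (hz.pow (j + 1)).inv

theorem unique (h : HasOrd V z m) (h' : HasOrd V z k) : m = k := by
  obtain ⟨ϖ₀, h₀, hu⟩ := id h
  have h2 := h'.of_unif h₀
  have h3 : IsUnitOf V (ϖ₀ ^ (k - m)) := by
    have : ϖ₀ ^ (k - m) = (z * ϖ₀ ^ (-m)) * (z * ϖ₀ ^ (-k))⁻¹ := by
      rw [mul_inv, ← zpow_neg, neg_neg, sub_eq_add_neg, zpow_add₀ h₀.ne_zero]
      have hz := h.ne_zero
      field_simp
    rw [this]
    exact hu.mul h2.inv
  have := (h₀.isUnitOf_zpow_iff (k - m)).1 h3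
  omega

theorem mem_iff (h : HasOrd V z m) : z ∈ V ↔ 0 ≤ m := by
  obtain ⟨ϖ₀, h₀, hu⟩ := id h
  have hz : z = (z * ϖ₀ ^ (-m)) * ϖ₀ ^ m := by
    rw [mul_assoc, ← zpow_add₀ h₀.ne_zero, neg_add_cancel, zpow_zero, mul_one]
  constructor
  · intro hzV
    have : ϖ₀ ^ m = (z * ϖ₀ ^ (-m))⁻¹ * z := by
      rw [mul_inv, ← zpow_neg, neg_neg]
      have := h.ne_zero
      field_simp
    have h1 : ϖ₀ ^ m ∈ V := by
      rw [this]; exact V.mul_mem _ _ hu.2.2 hzV
    exact (h₀.zpow_mem_iff m).1 h1
  · intro hm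
    rw [hz]
    exact V.mul_mem _ _ hu.2.1 ((h₀.zpow_mem_iff m).2 hm)

theorem prod {ι' : Type*} (s : Finset ι') (f : ι' → F) (e : ι' → ℤ) (hϖ : IsUnif V ϖ)
    (h : ∀ i ∈ s, HasOrd V (f i) (e i)) : HasOrd V (∏ i ∈ s, f i) (∑ i ∈ s, e i) := by
  classical
  induction s using Finset.induction_on with
  | empty =>
    rw [Finset.prod_empty, Finset.sum_empty]
    exact of_isUnitOf IsUnitOf.one hϖ
  | insert a s ha ih =>
    rw [Finset.prod_insert ha, Finset.sum_insert ha]
    exact (h a (Finset.mem_insert_self a s)).mul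
      (ih (fun i hi => h i (Finset.mem_insert_of_mem hi)))

end HasOrd

end Ord

/-! ### Conductor primes: uniformisers and units -/

section Gen

variable {A : Type*} [CommRing A] [IsDomain A] {F : Type*} [Field F] [Algebra A F]
  [IsFractionRing A F] [IsNoetherianRing A] [IsIntegrallyClosed A]

local notation "ι" => algebraMap A F

theorem isUnif_of_isCond {P : Ideal A} {y : F} (h : IsCond P y) :
    IsUnif h.valuationSubring y⁻¹ :=
  ⟨h.inv_mem, by rw [inv_inv]; exact h.not_mem, fun z hz => by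
    rw [inv_inv]; exact h.unit_or_div' hz⟩

theorem isUnif_of_locPrincipal {x P : Ideal A} [hx : x.IsPrime] {π : A} {y : F}
    (hπ : LocPrincipal x P π) (hc : IsCond P y) (hPx : P ≤ x) :
    IsUnif hc.valuationSubring (ι π) :=
  ⟨hc.algebraMap_mem π, hπ.inv_not_mem hc, hπ.unit_or_div hc hPx⟩

theorem isUnitOf_algebraMap {P : Ideal A} {y : F} (h : IsCond P y) {a : A} (ha : a ∉ P) :
    IsUnitOf h.valuationSubring (ι a) := by
  haveI := h.prime
  have ha0 : a ≠ 0 := fun h0 => ha (h0 ▸ P.zero_mem)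
  exact ⟨algebraMap_ne_zero' ha0, h.algebraMap_mem a, inv_mem_locSubring ha⟩

/-- The valuation subring attached to a conductor prime only depends on the prime. -/
theorem valuationSubring_eq {P : Ideal A} {y y' : F} (h : IsCond P y) (h' : IsCond P y') :
    h.valuationSubring = h'.valuationSubring := by
  ext z
  exact Iff.rfl

theorem valuationSubring_eq_of_eq {P P' : Ideal A} {y y' : F} (h : IsCond P y)
    (h' : IsCond P' y') (hPP' : P = P') : h.valuationSubring = h'.valuationSubring := by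
  subst hPP'
  exact valuationSubring_eq h h'

theorem eq_of_valuationSubring_eq {P P' : Ideal A} {y y' : F} (h : IsCond P y)
    (h' : IsCond P' y') (hV : h.valuationSubring = h'.valuationSubring) : P = P' := by
  rw [← centre_valuationSubring h, ← centre_valuationSubring h']
  congr 1

/-- The centre as a total function on valuation subrings. -/
noncomputable def cen (V : ValuationSubring F) : Ideal A := by
  classical
  exact if hV : ∀ a : A, ι a ∈ V then centre V hV else ⊤

theorem cen_valuationSubring {P : Ideal A} {y : F} (h : IsCond P y) :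
    cen (A := A) h.valuationSubring = P := by
  unfold cen
  rw [dif_pos h.algebraMap_mem]
  exact centre_valuationSubring h

omit [IsNoetherianRing A] [IsIntegrallyClosed A] [IsDomain A] [IsFractionRing A F] in
theorem locPrincipal_of_eq {x Q P : Ideal A} {π : A} (h : LocPrincipal x Q π) (hQP : Q = P) :
    LocPrincipal x P π := by
  subst hQP; exact h

/-- **Local generator with a neighbourhood.** -/
theorem exists_local_generator (x : Ideal A) [hx : x.IsPrime] (n : ValuationSubring F → ℤ)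
    (hfin : {V : ValuationSubring F | n V ≠ 0}.Finite)
    (hprinc : ∀ (P : Ideal A) (y : F) (h : IsCond P y), P ≤ x → n h.valuationSubring ≠ 0 →
      ∃ π : A, LocPrincipal x P π) :
    ∃ t : F, t ≠ 0 ∧ ∃ g : A, g ∉ x ∧ ∀ (P : Ideal A) (y : F) (h : IsCond P y), g ∉ P →
      HasOrd h.valuationSubring t (n h.valuationSubring) := by
  classical
  set T : Finset (ValuationSubring F) := hfin.toFinset with hT
  have hmemT : ∀ V, V ∈ T ↔ n V ≠ 0 := fun V => hfin.mem_toFinset
  -- the members of the support centred at `x`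
  let IsAt : ValuationSubring F → Prop := fun V =>
    ∃ (P : Ideal A) (y : F) (h : IsCond P y), P ≤ x ∧ h.valuationSubring = V
  set T' : Finset (ValuationSubring F) := T.filter IsAt with hT'
  -- chosen local generators
  let π : ValuationSubring F → A := fun V =>
    if hV : ∃ π : A, LocPrincipal x (cen (A := A) V) π then Classical.choose hV else 1
  have hπ : ∀ V ∈ T', ∀ (P : Ideal A) (y : F) (h : IsCond P y), P ≤ x →
      h.valuationSubring = V → LocPrincipal x P (π V) := by
    intro V hV P y h hPx hVeq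
    have hnV : n V ≠ 0 := (hmemT V).1 (Finset.mem_filter.1 hV).1
    have hcen : cen (A := A) V = P := by rw [← hVeq, cen_valuationSubring h]
    have hex : ∃ π : A, LocPrincipal x (cen (A := A) V) π := by
      obtain ⟨π₀, hπ₀⟩ := hprinc P y h hPx (by rw [hVeq]; exact hnV)
      exact ⟨π₀, locPrincipal_of_eq hπ₀ hcen.symm⟩
    have hspec := Classical.choose_spec hex
    have hπV : π V = Classical.choose hex := dif_pos hex
    rw [hπV]
    exact locPrincipal_of_eq hspec hcen
  have hπ0 : ∀ V ∈ T', π V ≠ 0 := by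
    intro V hV
    obtain ⟨P, y, h, hPx, hVeq⟩ := (Finset.mem_filter.1 hV).2
    exact (hπ V hV P y h hPx hVeq).ne_zero h.ne_bot
  set t : F := ∏ V ∈ T', (ι (π V)) ^ (n V) with ht
  have ht0 : t ≠ 0 := by
    rw [ht, Finset.prod_ne_zero_iff]
    intro V hV
    exact zpow_ne_zero _ (algebraMap_ne_zero' (hπ0 V hV))
  -- Claim A: the conductor primes below `x`
  have hA : ∀ (P : Ideal A) (y : F) (h : IsCond P y), P ≤ x →
      HasOrd h.valuationSubring t (n h.valuationSubring) := by
    intro P y h hPx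
    haveI := h.prime
    set W := h.valuationSubring with hW
    have hunif : IsUnif W y⁻¹ := isUnif_of_isCond h
    have hsum : ∑ V ∈ T', (if V = W then n V else 0) = n W := by
      rw [Finset.sum_ite_eq' T' W]
      by_cases hWT' : W ∈ T'
      · rw [if_pos hWT']
      · rw [if_neg hWT']
        by_contra hne
        apply hWT'
        rw [hT', Finset.mem_filter]
        exact ⟨(hmemT W).2 (Ne.symm hne), P, y, h, hPx, rfl⟩
    rw [← hsum, ht]
    apply HasOrd.prod T' _ _ hunif
    intro V hV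
    obtain ⟨P', y', h', hP'x, hVeq⟩ := (Finset.mem_filter.1 hV).2
    haveI := h'.prime
    by_cases hVW : V = W
    · rw [if_pos hVW]
      have hloc : LocPrincipal x P (π V) := hπ V hV P y h hPx hVW.symm
      have h1 : HasOrd W (ι (π V)) 1 := HasOrd.of_isUnif (isUnif_of_locPrincipal hloc h hPx)
      have h2 := h1.zpow (n V)
      rwa [mul_one] at h2
    · rw [if_neg hVW]
      have hloc : LocPrincipal x P' (π V) := hπ V hV P' y' h' hP'x hVeq
      have hne : P ≠ P' := by
        intro hPP'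
        apply hVW
        rw [← hVeq]
        exact (valuationSubring_eq_of_eq h h' hPP').symm
      have hnot : π V ∉ P :=
        hloc.not_mem_of_ne h'.ne_bot hPx (fun Q hQ hQP => h.eq_bot_or_eq_of_le Q hQP) hne
      have h1 : HasOrd W (ι (π V)) 0 := HasOrd.of_isUnitOf (isUnitOf_algebraMap h hnot) hunif
      have h2 := h1.zpow (n V)
      rwa [mul_zero] at h2
  -- the finitely many exceptional primes
  let Bd : Finset (Ideal A) :=
    (T'.biUnion fun V =>
      (Ideal.finite_minimalPrimes_of_isNoetherianRing A (Ideal.span {π V})).toFinset) ∪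
      T.image (cen (A := A))
  let pick : Ideal A → A := fun Q =>
    if hQ : ∃ a : A, a ∈ Q ∧ a ∉ x then Classical.choose hQ else 1
  have hpick_not : ∀ Q : Ideal A, pick Q ∉ x := by
    intro Q
    by_cases hQ : ∃ a : A, a ∈ Q ∧ a ∉ x
    · have : pick Q = Classical.choose hQ := dif_pos hQ
      rw [this]; exact (Classical.choose_spec hQ).2
    · have : pick Q = 1 := dif_neg hQ
      rw [this]
      exact fun h1 => hx.ne_top ((Ideal.eq_top_iff_one x).2 h1)
  have hpick_mem : ∀ Q : Ideal A, ¬ Q ≤ x → pick Q ∈ Q := by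
    intro Q hQx
    have hQ : ∃ a : A, a ∈ Q ∧ a ∉ x := by
      by_contra hcon
      push Not at hcon
      exact hQx (fun a ha => hcon a ha)
    have : pick Q = Classical.choose hQ := dif_pos hQ
    rw [this]; exact (Classical.choose_spec hQ).1
  set g : A := ∏ Q ∈ Bd, pick Q with hg
  have hgx : g ∉ x := by
    rw [hg, hx.prod_mem_iff]
    rintro ⟨Q, -, hQ⟩
    exact hpick_not Q hQ
  refine ⟨t, ht0, g, hgx, ?_⟩
  intro P y h hgP
  haveI := h.prime
  by_cases hPx : P ≤ x
  · exact hA P y h hPx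
  -- `P` is not exceptional
  have hPBd : P ∉ Bd := by
    intro hmem
    apply hgP
    rw [hg]
    exact Ideal.mul_mem_right _ _ (hpick_mem P hPx) |> fun h0 => by
      rw [← Finset.mul_prod_erase Bd pick hmem]
      exact h0
  set W := h.valuationSubring with hW
  have hunif : IsUnif W y⁻¹ := isUnif_of_isCond h
  have hnW : n W = 0 := by
    by_contra hne
    apply hPBd
    apply Finset.mem_union_right
    rw [Finset.mem_image]
    exact ⟨W, (hmemT W).2 hne, cen_valuationSubring h⟩
  have hπP : ∀ V ∈ T', π V ∉ P := by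
    intro V hV hmem
    apply hPBd
    apply Finset.mem_union_left
    rw [Finset.mem_biUnion]
    refine ⟨V, hV, ?_⟩
    rw [Set.Finite.mem_toFinset]
    refine ⟨⟨h.prime, (Ideal.span_singleton_le_iff_mem P).2 hmem⟩, ?_⟩
    rintro Q ⟨hQ, hπQ⟩ hQP
    rcases h.eq_bot_or_eq_of_le Q hQP with h1 | h1
    · exfalso
      have : π V ∈ Q := (Ideal.span_singleton_le_iff_mem Q).1 hπQ
      rw [h1, Ideal.mem_bot] at this
      exact hπ0 V hV this
    · exact h1.ge
  rw [hnW, ht]
  apply HasOrd.of_isUnitOf _ hunif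
  apply IsUnitOf.prod
  intro V hV
  exact (isUnitOf_algebraMap h (hπP V hV)).zpow (n V)

/-- `(g, t)` is a chart piece for the divisor `n`: `t` generates on `D(g)`. -/
def IsPiece (n : ValuationSubring F → ℤ) (g : A) (t : F) : Prop :=
  t ≠ 0 ∧ ∀ (P : Ideal A) (y : F) (h : IsCond P y), g ∉ P →
    HasOrd h.valuationSubring t (n h.valuationSubring)

/-- **Finite cover of the special fibre by pieces with a generator.** -/
theorem exists_finite_cover (q : A) (n : ValuationSubring F → ℤ)
    (hfin : {V : ValuationSubring F | n V ≠ 0}.Finite)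
    (hprinc : ∀ x : Ideal A, x.IsMaximal → q ∈ x →
      ∀ (P : Ideal A) (y : F) (h : IsCond P y), P ≤ x → n h.valuationSubring ≠ 0 →
        ∃ π : A, LocPrincipal x P π) :
    ∃ s : Finset (A × F), (∀ p ∈ s, IsPiece n p.1 p.2) ∧
      Ideal.span (insert q ((fun p : A × F => p.1) '' (s : Set (A × F)))) = ⊤ := by
  classical
  let G : Set A := {g | ∃ t : F, IsPiece n g t}
  have htop : Ideal.span (insert q G) = ⊤ := by
    by_contra hne
    obtain ⟨x, hxmax, hle⟩ := Ideal.exists_le_maximal _ hne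
    haveI := hxmax.isPrime
    have hqx : q ∈ x := hle (Ideal.subset_span (Set.mem_insert q G))
    obtain ⟨t, ht0, g, hgx, hg⟩ := exists_local_generator x n hfin (hprinc x hxmax hqx)
    exact hgx (hle (Ideal.subset_span (Set.mem_insert_of_mem q ⟨t, ht0, hg⟩)))
  have h1 : (1 : A) ∈ Ideal.span (insert q G) := htop ▸ Submodule.mem_top
  obtain ⟨T, hTsub, hT1⟩ := Submodule.mem_span_finite_of_mem_span h1
  let tfun : A → F := fun g => if hg : ∃ t : F, IsPiece n g t then Classical.choose hg else 1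
  have htfun : ∀ g ∈ G, IsPiece n g (tfun g) := by
    intro g hg
    have : tfun g = Classical.choose hg := dif_pos hg
    rw [this]; exact Classical.choose_spec hg
  refine ⟨(T.filter (fun g => g ∈ G)).image (fun g => (g, tfun g)), ?_, ?_⟩
  · intro p hp
    obtain ⟨g, hg, rfl⟩ := Finset.mem_image.1 hp
    exact htfun g (Finset.mem_filter.1 hg).2
  · rw [Ideal.eq_top_iff_one]
    have hle : Ideal.span (T : Set A) ≤ Ideal.span (insert q ((fun p : A × F => p.1) ''
        (((T.filter (fun g => g ∈ G)).image (fun g => (g, tfun g)) : Finset (A × F)) :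
          Set (A × F)))) := by
      apply Ideal.span_le.2
      intro a ha
      rcases hTsub ha with h | h
      · rw [h]; exact Ideal.subset_span (Set.mem_insert _ _)
      · apply Ideal.subset_span
        apply Set.mem_insert_of_mem
        refine ⟨(a, tfun a), ?_, rfl⟩
        rw [Finset.mem_coe, Finset.mem_image]
        exact ⟨a, Finset.mem_filter.2 ⟨ha, h⟩, rfl⟩
    exact hle hT1

/-! ### Consequences on `D(g)`: units and quotients lie in `A[1/g]` -/

/-- On a piece, `t * y ^ n` is a unit of `A_P` (`y⁻¹` the standard uniformiser). -/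
theorem IsPiece.isUnitOf {n : ValuationSubring F → ℤ} {g : A} {t : F} (hp : IsPiece n g t)
    {P : Ideal A} {y : F} (h : IsCond P y) (hgP : g ∉ P) :
    IsUnitOf h.valuationSubring (t * y ^ (n h.valuationSubring)) := by
  have h1 := (hp.2 P y h hgP).of_unif (isUnif_of_isCond h)
  rwa [inv_zpow', neg_neg] at h1

/-- **Sections divided by the generator are functions on `D(g)`.** If `u` has order at least
`n A_P` at every conductor prime `P` not containing `g` (stated as `u * y ^ n ∈ A_P`), then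
`u / t ∈ A[1/g]`. -/
theorem IsPiece.exists_pow_mul_div_eq {n : ValuationSubring F → ℤ} {g : A} {t : F}
    (hp : IsPiece n g t) (u : F)
    (hu : ∀ (P : Ideal A) (y : F) (h : IsCond P y), g ∉ P →
      u * y ^ (n h.valuationSubring) ∈ h.valuationSubring) :
    ∃ (k : ℕ) (a : A), ι (g ^ k) * (u / t) = ι a := by
  apply exists_pow_mul_eq_of_forall_isCond g (u / t)
  intro P y h hgP
  have h1 := hp.isUnitOf h hgP
  have h2 := hu P y h hgP
  have hy := h.ne_zero
  have : u / t = (u * y ^ (n h.valuationSubring)) * (t * y ^ (n h.valuationSubring))⁻¹ := by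
    have ht := hp.1
    have hyn : y ^ (n h.valuationSubring) ≠ 0 := zpow_ne_zero _ hy
    field_simp
  rw [this]
  exact h.valuationSubring.mul_mem _ _ h2 h1.2.2

/-- **A function of order zero on `D(g)` is a unit of `A[1/g]`.** -/
theorem exists_pow_mul_eq_of_hasOrd_zero (g : A) (z : F)
    (hz : ∀ (P : Ideal A) (y : F) (h : IsCond P y), g ∉ P → HasOrd h.valuationSubring z 0) :
    (∃ (k : ℕ) (a : A), ι (g ^ k) * z = ι a) ∧ (∃ (k : ℕ) (a : A), ι (g ^ k) * z⁻¹ = ι a) := by
  constructor
  · apply exists_pow_mul_eq_of_forall_isCond g z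
    intro P y h hgP
    have h1 := (hz P y h hgP).of_unif (isUnif_of_isCond h)
    rw [neg_zero, zpow_zero, mul_one] at h1
    exact h1.2.1
  · apply exists_pow_mul_eq_of_forall_isCond g z⁻¹
    intro P y h hgP
    have h1 := (hz P y h hgP).of_unif (isUnif_of_isCond h)
    rw [neg_zero, zpow_zero, mul_one] at h1
    exact h1.2.2

/-- The Kummer function times the `N`-th power of the generator is a unit on the piece:
if `f` has order `-(N * n A_P)` on `D(g)` then `f * t ^ N` has order zero there. -/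
theorem IsPiece.hasOrd_mul_pow {n : ValuationSubring F → ℤ} {g : A} {t : F}
    (hp : IsPiece n g t) (N : ℕ) (f : F)
    (hf : ∀ (P : Ideal A) (y : F) (h : IsCond P y), g ∉ P →
      HasOrd h.valuationSubring f (-(N * n h.valuationSubring)))
    (P : Ideal A) (y : F) (h : IsCond P y) (hgP : g ∉ P) :
    HasOrd h.valuationSubring (f * t ^ N) 0 := by
  have h1 := (hp.2 P y h hgP).pow N
  have h2 := (hf P y h hgP).mul h1
  rwa [neg_add_cancel] at h2

end Gen

end Fermat.Agent.S36.LocalGenOrd
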