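/-
PROJECT V (S36), slice V-Centre, second half (helper10): **places of the generic fibre versus
conductor primes of a chart ring** = the dictionary of chain (V10), for the Prelude `Place K F`
(valuation subring containing `K`, not `⊤`, principal ideal ring), helper12's chart rings
`ChartRing.chart O φ` and helper7's `LocalGenCore.divModule`.

* `eq_of_le_of_forall_C_not_mem`, `hDim_of_isIntegral`, `hDim_chart` : the dimension hypothesis
  `CentreCore.HDim` (primes not containing the uniformiser have height at most one) for every ring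
  integral over `O[X]`, `O` a discrete valuation ring (`K[X]` is a principal ideal domain +
  incomparability); `toChart φ : O[X] →+* chart O φ`, `piChart φ π`, `constChart φ c`.
* `isDiscreteValuationRing_of_isCond` : the localisation at a conductor prime is a DVR.
* `ChartData K F q` (abstract chart: `q` a nonzero constant, `K ⊆ A[1/q]`, `HDim q`);
  `FiniteOn A v`; `ChartData.exists_isCond` (a place finite on the chart is `A_Q`, `Q` its centre, a
  conductor prime), `ChartData.placeOf` (a conductor prime not containing `q` is the centre of a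
  place), `ChartData.ne_of_mem` (vertical conductor primes are not places).
* `hasOrd_iff_ord`, `mem_iff_ord_nonneg`, `ord_cond_eq`, `isU_mul_zpow_iff_ord` : `Place.ord`
  versus `LocalGenOrd.HasOrd` and versus helper7's unit condition.
* `valFun D`, `primeFun D` : a divisor as a function on valuation subrings / primes;
  `primeFun_finite` (= the `hfin` of `LocalGenCore`), `ChartData.primeFun_centre`,
  `ChartData.primeFun_of_mem` (zero at the vertical primes).
* `ChartData.mem_divModule_iff` : `x ∈ divModule (primeFun D)` iff `ord_v x ≥ - D v` at every place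
  finite on the chart and `x` is integral at every vertical conductor prime.
* `chartData_chart`, `finiteOn_chart_iff` : the chart ring of `φ` is a chart; a place is finite on
  it iff `φ` is integral there.
-/
import Mathlib
import Fermat.Prelude.Def_AlgebraicCurve_DivisorClassGroup
import Fermat.Agent.S36.ChartRing
import Fermat.Agent.S36.CentreCore
import Fermat.Agent.S36.LocalGenOrd
import Fermat.Agent.S36.LocalGenCore

set_option autoImplicit false
set_option linter.unusedSectionVars false
set_option linter.style.haveILetI false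
set_option linter.unusedVariables false

namespace Fermat.Agent.S36.Centre

open Polynomial

section Poly

variable {O : Type*} [CommRing O] [IsDomain O]

attribute [local instance] Polynomial.algebra in
/-- Two comparable primes of `O[X]` meeting `O` trivially, the smaller nonzero, are equal
(`K[X]` is a principal ideal domain). -/
theorem eq_of_le_of_forall_C_not_mem (K : Type*) [Field K] [Algebra O K] [IsFractionRing O K]
    (p q : Ideal O[X]) [hp : p.IsPrime] [hq : q.IsPrime]
    (hpq : p ≤ q) (hp0 : p ≠ ⊥) (hqc : ∀ c : O, c ≠ 0 → C c ∉ q) : p = q := by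
  have : IsLocalization ((nonZeroDivisors O).map (C : O →+* O[X])) K[X] :=
    Polynomial.isLocalization (nonZeroDivisors O) K
  set M : Submonoid O[X] := (nonZeroDivisors O).map (C : O →+* O[X]) with hM
  have hdq : Disjoint (M : Set O[X]) (q : Set O[X]) := by
    rw [Set.disjoint_left]
    rintro _ ⟨c, hc, rfl⟩ hmem
    exact hqc c (nonZeroDivisors.ne_zero hc) hmem
  have hdp : Disjoint (M : Set O[X]) (p : Set O[X]) :=
    hdq.mono_right hpq
  have hp' := IsLocalization.isPrime_of_isPrime_disjoint M K[X] p hp hdp
  have hq' := IsLocalization.isPrime_of_isPrime_disjoint M K[X] q hq hdq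
  have hcp := IsLocalization.under_map_of_isPrime_disjoint M K[X] hp hdp
  have hcq := IsLocalization.under_map_of_isPrime_disjoint M K[X] hq hdq
  have hne : Ideal.map (algebraMap O[X] K[X]) p ≠ ⊥ := by
    intro hbot
    apply hp0
    rw [← hcp, hbot]
    rw [eq_bot_iff]
    intro x hx
    rw [Ideal.under_def, Ideal.mem_comap, Ideal.mem_bot] at hx
    rw [Ideal.mem_bot]
    have hinj : Function.Injective (algebraMap O[X] K[X]) :=
      Polynomial.map_injective _ (IsFractionRing.injective O K)
    exact hinj (by rw [hx, map_zero])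
  have hmax : (Ideal.map (algebraMap O[X] K[X]) p).IsMaximal := hp'.isMaximal hne
  have heq : Ideal.map (algebraMap O[X] K[X]) p = Ideal.map (algebraMap O[X] K[X]) q :=
    hmax.eq_of_le hq'.ne_top (Ideal.map_mono hpq)
  rw [← hcp, ← hcq, heq]

/-- Over a discrete valuation ring it suffices that the prime does not contain the uniformiser. -/
theorem C_not_mem_of_C_irreducible_not_mem [IsDiscreteValuationRing O] {π : O} (hπ : Irreducible π)
    (q : Ideal O[X]) [hq : q.IsPrime] (hπq : C π ∉ q) (c : O) (hc : c ≠ 0) : C c ∉ q := by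
  obtain ⟨n, hn⟩ := IsDiscreteValuationRing.associated_pow_irreducible hc hπ
  obtain ⟨u, hu⟩ := hn.symm
  intro hmem
  rw [← hu, map_mul, map_pow] at hmem
  rcases hq.mem_or_mem hmem with h | h
  · exact hπq (hq.mem_of_pow_mem n h)
  · apply hq.ne_top
    rw [Ideal.eq_top_iff_one]
    have : (1 : O[X]) = C (u : O) * C ((u⁻¹ : Oˣ) : O) := by
      rw [← map_mul, Units.mul_inv, map_one]
    rw [this]
    exact q.mul_mem_right _ h

open Fermat.Agent.S36.CentreCore in
/-- **Dimension hypothesis of `CentreCore` for rings integral over `O[X]`**: primes not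
containing the uniformiser have height at most one. -/
theorem hDim_of_isIntegral [IsDiscreteValuationRing O] (K : Type*) [Field K] [Algebra O K]
    [IsFractionRing O K] {π : O} (hπ : Irreducible π) {A : Type*} [CommRing A] [IsDomain A]
    (f : O[X] →+* A) (hint : f.IsIntegral) : HDim (f (C π)) := by
  intro P Q hP hQ hπQ hPQ
  by_cases hP0 : P = ⊥
  · exact Or.inl hP0
  right
  letI : Algebra O[X] A := f.toAlgebra
  have hintA : ∀ x : A, IsIntegral O[X] x := hint
  obtain ⟨x, hxP, hx0⟩ := Submodule.exists_mem_ne_zero_of_ne_bot hP0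
  have hp0 : Ideal.comap (algebraMap O[X] A) P ≠ ⊥ :=
    Ideal.comap_ne_bot_of_integral_mem hx0 hxP (hintA x)
  haveI : (Ideal.comap (algebraMap O[X] A) P).IsPrime := Ideal.comap_isPrime _ _
  haveI : (Ideal.comap (algebraMap O[X] A) Q).IsPrime := Ideal.comap_isPrime _ _
  have hπq : C π ∉ Ideal.comap (algebraMap O[X] A) Q := fun h => hπQ h
  have heq : Ideal.comap (algebraMap O[X] A) P = Ideal.comap (algebraMap O[X] A) Q :=
    eq_of_le_of_forall_C_not_mem K _ _ (Ideal.comap_mono hPQ) hp0
      (C_not_mem_of_C_irreducible_not_mem hπ _ hπq)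
  by_contra hne
  have hlt : P < Q := lt_of_le_of_ne hPQ hne
  obtain ⟨y, hyQ, hyP⟩ := Set.exists_of_ssubset hlt
  have := Ideal.comap_lt_comap_of_integral_mem_sdiff hPQ ⟨hyQ, hyP⟩ (hintA y)
  exact (ne_of_lt this) heq

end Poly

/-! ### The chart ring `A_φ` -/

section Chart

open Fermat.Agent.S36.ChartRing Fermat.Agent.S36.CentreCore Fermat.Agent.S36.KrullInter
open AlgebraicCurve IntermediateField

variable {O : Type*} [CommRing O] [IsDomain O] {F : Type*} [Field F] [Algebra O F]

/-- `O[X] → O[φ]`, `X ↦ φ`. -/
noncomputable def toAdjoinRing (φ : F) : O[X] →+* Algebra.adjoin O ({φ} : Set F) :=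
  (aeval (⟨φ, Algebra.subset_adjoin (Set.mem_singleton φ)⟩ : Algebra.adjoin O ({φ} : Set F)) :
    O[X] →ₐ[O] Algebra.adjoin O ({φ} : Set F)).toRingHom

theorem coe_toAdjoinRing (φ : F) (p : O[X]) :
    ((toAdjoinRing (O := O) φ p : Algebra.adjoin O ({φ} : Set F)) : F) = aeval φ p := by
  unfold toAdjoinRing
  have : ∀ b : Algebra.adjoin O ({φ} : Set F), (b : F) = (Algebra.adjoin O ({φ} : Set F)).val b :=
    fun b => rfl
  rw [this, AlgHom.toRingHom_eq_coe, RingHom.coe_coe, ← aeval_algHom_apply]
  rfl

theorem toAdjoinRing_surjective (φ : F) : Function.Surjective (toAdjoinRing (O := O) φ) := by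
  rintro ⟨b, hb⟩
  rw [Algebra.adjoin_singleton_eq_range_aeval] at hb
  obtain ⟨p, hp⟩ := hb
  refine ⟨p, Subtype.ext ?_⟩
  rw [coe_toAdjoinRing]
  exact hp

/-- `O[X] → A_φ`, `X ↦ φ`. -/
noncomputable def toChart (φ : F) : O[X] →+* chart O φ :=
  (algebraMap (Algebra.adjoin O ({φ} : Set F)) (chart O φ)).comp (toAdjoinRing φ)

theorem coe_toChart (φ : F) (p : O[X]) : ((toChart (O := O) φ p : chart O φ) : F) = aeval φ p := by
  unfold toChart
  rw [RingHom.comp_apply, ← coe_toAdjoinRing]
  rfl

theorem toChart_isIntegral (φ : F) : (toChart (O := O) φ).IsIntegral := by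
  unfold toChart
  apply RingHom.IsIntegral.trans
  · exact RingHom.isIntegral_of_surjective _ (toAdjoinRing_surjective φ)
  · exact algebraMap_isIntegral_iff.2 inferInstance

/-- the uniformiser of `O` in the chart ring -/
noncomputable def piChart (φ : F) (π : O) : chart O φ := toChart φ (C π)

theorem coe_piChart (φ : F) (π : O) : ((piChart φ π : chart O φ) : F) = algebraMap O F π := by
  unfold piChart
  rw [coe_toChart, aeval_C]

/-- **`HDim` for the chart ring.** -/
theorem hDim_chart [IsDiscreteValuationRing O] (K : Type*) [Field K] [Algebra O K]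
    [IsFractionRing O K] {π : O} (hπ : Irreducible π) (φ : F) : HDim (piChart φ π) :=
  hDim_of_isIntegral K hπ (toChart φ) (toChart_isIntegral φ)

end Chart

/-! ### Conductor primes give discrete valuation rings -/

section DVR

open Fermat.Agent.S36.KrullInter Fermat.Agent.S36.CentreCore Fermat.Agent.S36.LocalGenOrd

variable {A : Type*} [CommRing A] [IsDomain A] {F : Type*} [Field F] [Algebra A F]
  [IsFractionRing A F] [IsNoetherianRing A] [IsIntegrallyClosed A]

local notation "ι" => algebraMap A F

omit [IsNoetherianRing A] [IsIntegrallyClosed A] [IsFractionRing A F] [Algebra A F] [IsDomain A] in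
theorem isUnit_iff_inv_mem (V : ValuationSubring F) (a : V) (ha : a ≠ 0) :
    IsUnit a ↔ (a : F)⁻¹ ∈ V := by
  have ha0 : (a : F) ≠ 0 := fun h => ha (Subtype.ext h)
  constructor
  · rintro ⟨u, rfl⟩
    have h1 : ((u : V) : F) * (((u⁻¹ : Vˣ) : V) : F) = 1 := by
      have h2 : (u : V) * ((u⁻¹ : Vˣ) : V) = 1 := u.mul_inv
      have := congrArg (Subtype.val) h2
      exact this
    have : ((u : V) : F)⁻¹ = (((u⁻¹ : Vˣ) : V) : F) := by
      rw [inv_eq_iff_eq_inv]
      exact eq_inv_of_mul_eq_one_left h1
    rw [this]
    exact ((u⁻¹ : Vˣ) : V).2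
  · intro h
    exact IsUnit.of_mul_eq_one (⟨(a : F)⁻¹, h⟩ : V) (Subtype.ext (mul_inv_cancel₀ ha0))

/-- The localisation at a conductor prime is a discrete valuation ring. -/
theorem isDiscreteValuationRing_of_isCond {Q : Ideal A} {y : F} (h : IsCond Q y) :
    IsDiscreteValuationRing h.valuationSubring := by
  haveI := h.prime
  apply IsDiscreteValuationRing.ofHasUnitMulPowIrreducibleFactorization
  have hy0 : y ≠ 0 := h.ne_zero
  let p : h.valuationSubring := ⟨y⁻¹, h.inv_mem⟩
  have hp0 : p ≠ 0 := fun h0 => inv_ne_zero hy0 (congrArg Subtype.val h0)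
  refine ⟨p, ?_, ?_⟩
  · rw [irreducible_iff]
    constructor
    · intro hu
      have := (isUnit_iff_inv_mem _ p hp0).1 hu
      rw [show (p : F) = y⁻¹ from rfl, inv_inv] at this
      exact h.not_mem this
    · intro a b hab
      by_contra hcon
      push Not at hcon
      obtain ⟨hua, hub⟩ := hcon
      have hab' : y⁻¹ = (a : F) * (b : F) := congrArg Subtype.val hab
      have ha0 : a ≠ 0 := by
        rintro rfl
        rw [zero_mul] at hab; exact hp0 hab
      have hb0 : b ≠ 0 := by
        rintro rfl
        rw [mul_zero] at hab; exact hp0 hab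
      have h1 : (a : F) * y ∈ h.valuationSubring :=
        (h.unit_or_div' a.2).resolve_left (fun hinv => hua ((isUnit_iff_inv_mem _ a ha0).2 hinv))
      have h2 : (b : F) * y ∈ h.valuationSubring :=
        (h.unit_or_div' b.2).resolve_left (fun hinv => hub ((isUnit_iff_inv_mem _ b hb0).2 hinv))
      apply h.not_mem
      have : y = ((a : F) * y) * ((b : F) * y) := by
        have : ((a : F) * y) * ((b : F) * y) = ((a : F) * (b : F)) * (y * y) := by ring
        rw [this, ← hab', ← mul_assoc, inv_mul_cancel₀ hy0, one_mul]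
      have hmem := h.valuationSubring.mul_mem _ _ h1 h2
      rw [← this] at hmem
      exact hmem
  · intro x hx0
    obtain ⟨s, hs, a, ha⟩ := x.2
    have hxF : (x : F) ≠ 0 := fun h0 => hx0 (Subtype.ext h0)
    have hs0 : s ≠ 0 := fun h0 => hs (h0 ▸ Q.zero_mem)
    have ha0 : a ≠ 0 := by
      rintro rfl
      rw [map_zero] at ha
      rcases mul_eq_zero.1 ha with h1 | h1
      · exact algebraMap_ne_zero' hs0 h1
      · exact hxF h1
    obtain ⟨n, hn1, hn2⟩ := h.exists_pow_of_algebraMap ha0
    refine ⟨n, ?_⟩
    -- the unit `x y ^ n`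
    have hxe : (x : F) = (ι s)⁻¹ * ι a := by
      rw [← ha, ← mul_assoc, inv_mul_cancel₀ (algebraMap_ne_zero' hs0), one_mul]
    have hu1 : (x : F) * y ^ n ∈ h.valuationSubring := by
      rw [hxe, mul_assoc]
      exact h.valuationSubring.mul_mem _ _ (inv_mem_locSubring hs) hn1
    have hu2 : ((x : F) * y ^ n)⁻¹ ∈ h.valuationSubring := by
      rw [hxe, mul_assoc, mul_inv, inv_inv]
      exact h.valuationSubring.mul_mem _ _ (h.algebraMap_mem s) hn2
    let u : h.valuationSubring := ⟨(x : F) * y ^ n, hu1⟩
    have hu0 : u ≠ 0 := fun h0 =>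
      mul_ne_zero hxF (pow_ne_zero n hy0) (congrArg Subtype.val h0)
    have hu : IsUnit u := (isUnit_iff_inv_mem _ u hu0).2 hu2
    obtain ⟨u', hu'⟩ := hu
    refine ⟨u', Subtype.ext ?_⟩
    rw [hu']
    show (y⁻¹) ^ n * ((x : F) * y ^ n) = (x : F)
    rw [inv_pow]
    field_simp

end DVR

/-! ### Places of the generic fibre and conductor primes of a chart -/

section Places

open AlgebraicCurve
open Fermat.Agent.S36.KrullInter Fermat.Agent.S36.CentreCore Fermat.Agent.S36.LocalGenOrd

variable {K : Type*} [Field K] {A : Type*} [CommRing A] [IsDomain A] {F : Type*} [Field F]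
  [Algebra A F] [IsFractionRing A F] [IsNoetherianRing A] [IsIntegrallyClosed A] [Algebra K F]

local notation "ι" => algebraMap A F

/-- A chart of a curve over `K` inside a model: the element `q` of the chart ring `A` comes from
a nonzero constant, the constants lie in `A[1/q]`, and the primes of `A` not containing `q` have
height at most one. -/
structure ChartData (K : Type*) [Field K] (F : Type*) [Field F] [Algebra A F] [Algebra K F]
    (q : A) : Prop where
  q_const : ∃ c : K, algebraMap K F c = algebraMap A F q
  q_ne_zero : q ≠ 0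
  hdim : HDim q
  const : ∀ c : K, ∃ (a : A) (k : ℕ), algebraMap K F c * (algebraMap A F q) ^ k = algebraMap A F a

/-- the place `v` is finite on the chart with ring `A` -/
def FiniteOn (A : Type*) [CommRing A] [Algebra A F] (v : Place K F) : Prop :=
  ∀ a : A, algebraMap A F a ∈ v.toValuationSubring

namespace ChartData

variable {q : A}

omit [IsNoetherianRing A] [IsIntegrallyClosed A] in
theorem horizontal (C : ChartData K F q) {v : Place K F} (hv : FiniteOn A v) :
    Horizontal q v.toValuationSubring := by
  obtain ⟨c, hc⟩ := C.q_const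
  refine ⟨hv, v.ne_top', ?_⟩
  rw [← hc, ← map_inv₀]
  exact v.algebraMap_mem' _

/-- A place finite on the chart is the localisation of `A` at its centre, a conductor prime. -/
theorem exists_isCond (C : ChartData K F q) {v : Place K F} (hv : FiniteOn A v) :
    ∃ (y : F) (hc : IsCond (centre v.toValuationSubring hv) y),
      v.toValuationSubring = hc.valuationSubring :=
  (C.horizontal hv).exists_eq_valuationSubring C.q_ne_zero C.hdim

omit [IsNoetherianRing A] [IsIntegrallyClosed A] in
theorem not_mem_centre (C : ChartData K F q) {v : Place K F} (hv : FiniteOn A v) :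
    q ∉ centre v.toValuationSubring hv :=
  (C.horizontal hv).not_mem_centre C.q_ne_zero

/-- The place attached to a conductor prime not containing `q`. -/
noncomputable def placeOf (C : ChartData K F q) {Q : Ideal A} {y : F} (h : IsCond Q y)
    (hqQ : q ∉ Q) : Place K F where
  toValuationSubring := h.valuationSubring
  algebraMap_mem' := fun c => by
    haveI := h.prime
    obtain ⟨a, k, hak⟩ := C.const c
    have : algebraMap K F c = ι a * ((ι q)⁻¹) ^ k := by
      rw [← hak, mul_assoc, ← mul_pow, mul_inv_cancel₀ (algebraMap_ne_zero' C.q_ne_zero),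
        one_pow, mul_one]
    rw [this]
    exact h.valuationSubring.mul_mem _ _ (h.algebraMap_mem a)
      (h.valuationSubring.pow_mem (inv_mem_locSubring hqQ) k)
  ne_top' := fun htop => h.not_mem (htop ▸ ValuationSubring.mem_top y)
  isPrincipalIdealRing' := by
    haveI := isDiscreteValuationRing_of_isCond h
    infer_instance

theorem placeOf_toValuationSubring (C : ChartData K F q) {Q : Ideal A} {y : F} (h : IsCond Q y)
    (hqQ : q ∉ Q) : (C.placeOf h hqQ).toValuationSubring = h.valuationSubring := rfl

theorem finiteOn_placeOf (C : ChartData K F q) {Q : Ideal A} {y : F} (h : IsCond Q y)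
    (hqQ : q ∉ Q) : FiniteOn A (C.placeOf h hqQ) := h.algebraMap_mem

/-- No place has the localisation at a vertical conductor prime as valuation subring. -/
theorem ne_of_mem (C : ChartData K F q) {Q : Ideal A} {y : F} (h : IsCond Q y) (hqQ : q ∈ Q)
    (v : Place K F) : v.toValuationSubring ≠ h.valuationSubring := by
  haveI := h.prime
  intro heq
  obtain ⟨c, hc⟩ := C.q_const
  have h1 : (ι q)⁻¹ ∈ v.toValuationSubring := by
    rw [← hc, ← map_inv₀]; exact v.algebraMap_mem' _
  rw [heq] at h1
  exact (h.mem_iff_inv_not_mem C.q_ne_zero).1 hqQ h1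

end ChartData

/-! ### Orders -/

omit [IsNoetherianRing A] [IsIntegrallyClosed A] [IsFractionRing A F] [Algebra A F] [IsDomain A] in
theorem isUnif_of_irreducible (v : Place K F) {ϖ : v.toValuationSubring} (hϖ : Irreducible ϖ) :
    IsUnif v.toValuationSubring (ϖ : F) := by
  have hϖ0 : ϖ ≠ 0 := hϖ.ne_zero
  refine ⟨ϖ.2, ?_, ?_⟩
  · intro hinv
    exact hϖ.not_isUnit ((isUnit_iff_inv_mem _ ϖ hϖ0).2 hinv)
  · intro z hz
    by_cases hz0 : z = 0
    · right; rw [hz0, zero_mul]; exact v.toValuationSubring.zero_mem
    have hz0' : (⟨z, hz⟩ : v.toValuationSubring) ≠ 0 := fun h0 => hz0 (congrArg Subtype.val h0)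
    obtain ⟨n, u, hu⟩ := IsDiscreteValuationRing.eq_unit_mul_pow_irreducible hz0' hϖ
    have hzu : z = ((u : v.toValuationSubring) : F) * (ϖ : F) ^ n := by
      have := congrArg Subtype.val hu
      simpa using this
    rcases Nat.eq_zero_or_pos n with hn | hn
    · left
      rw [hn, pow_zero, mul_one] at hzu
      rw [hzu]
      exact (isUnit_iff_inv_mem _ (u : v.toValuationSubring) u.ne_zero).1 u.isUnit
    · right
      obtain ⟨k, rfl⟩ := Nat.exists_eq_succ_of_ne_zero hn.ne'
      have hϖF : (ϖ : F) ≠ 0 := fun h0 => hϖ0 (Subtype.ext h0)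
      have : z * (ϖ : F)⁻¹ = ((u : v.toValuationSubring) : F) * (ϖ : F) ^ k := by
        rw [hzu, pow_succ]; field_simp
      rw [this]
      exact v.toValuationSubring.mul_mem _ _ (u : v.toValuationSubring).2
        (v.toValuationSubring.pow_mem ϖ.2 k)

omit [IsNoetherianRing A] [IsIntegrallyClosed A] [IsFractionRing A F] [Algebra A F] [IsDomain A] in
/-- `HasOrd` at the valuation subring of a place is the order function of the place. -/
theorem hasOrd_iff_ord (v : Place K F) {z : F} (hz : z ≠ 0) (m : ℤ) :
    HasOrd v.toValuationSubring z m ↔ v.ord z = m := by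
  obtain ⟨ϖ, hϖ⟩ := IsDiscreteValuationRing.exists_irreducible v.toValuationSubring
  have hunif := isUnif_of_irreducible v hϖ
  have hϖF : (ϖ : F) ≠ 0 := hunif.ne_zero
  constructor
  · intro h
    obtain ⟨hu0, hu1, hu2⟩ := h.of_unif hunif
    let u₀ : v.toValuationSubring := ⟨z * (ϖ : F) ^ (-m), hu1⟩
    have hu₀ : u₀ ≠ 0 := fun h0 => hu0 (congrArg Subtype.val h0)
    obtain ⟨u, hu⟩ := (isUnit_iff_inv_mem _ u₀ hu₀).2 hu2
    have hz' : z = ((u : v.toValuationSubring) : F) * (ϖ : F) ^ m := by
      rw [hu]
      show z = z * (ϖ : F) ^ (-m) * (ϖ : F) ^ m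
      rw [mul_assoc, ← zpow_add₀ hϖF, neg_add_cancel, zpow_zero, mul_one]
    rw [hz']
    exact v.ord_unit_smul_zpow u hϖ m
  · intro h
    obtain ⟨u, hu⟩ := v.exists_unit_mul_zpow hz hϖ
    refine ⟨ϖ, hunif, ?_⟩
    rw [h] at hu
    have : z * (ϖ : F) ^ (-m) = ((u : v.toValuationSubring) : F) := by
      rw [hu, mul_assoc, ← zpow_add₀ hϖF, add_neg_cancel, zpow_zero, mul_one]
    rw [this]
    refine ⟨?_, (u : v.toValuationSubring).2, ?_⟩
    · exact fun h0 => u.ne_zero (Subtype.ext h0)
    · exact (isUnit_iff_inv_mem _ (u : v.toValuationSubring) u.ne_zero).1 u.isUnit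

omit [IsNoetherianRing A] [IsIntegrallyClosed A] [IsFractionRing A F] [Algebra A F] [IsDomain A] in
theorem mem_iff_ord_nonneg (v : Place K F) {z : F} (hz : z ≠ 0) :
    z ∈ v.toValuationSubring ↔ 0 ≤ v.ord z :=
  ((hasOrd_iff_ord v hz (v.ord z)).2 rfl).mem_iff

/-! ### Divisors of the generic fibre as functions on valuation subrings and on primes -/

omit [IsNoetherianRing A] [IsIntegrallyClosed A] [IsFractionRing A F] [Algebra A F] [IsDomain A] in
/-- A divisor as a function on valuation subrings (zero off the places). -/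
noncomputable def valFun (D : Divisor K F) : ValuationSubring F → ℤ := by
  classical
  exact fun V => if h : ∃ v : Place K F, v.toValuationSubring = V then D (Classical.choose h) else 0

omit [IsNoetherianRing A] [IsIntegrallyClosed A] [IsFractionRing A F] [Algebra A F] [IsDomain A] in
theorem valFun_place (D : Divisor K F) (v : Place K F) : valFun D v.toValuationSubring = D v := by
  classical
  unfold valFun
  have h : ∃ w : Place K F, w.toValuationSubring = v.toValuationSubring := ⟨v, rfl⟩
  rw [dif_pos h]
  congr 1
  exact Place.ext (Classical.choose_spec h)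

omit [IsNoetherianRing A] [IsIntegrallyClosed A] [IsFractionRing A F] [Algebra A F] [IsDomain A] in
theorem valFun_of_forall_ne (D : Divisor K F) {V : ValuationSubring F}
    (hV : ∀ v : Place K F, v.toValuationSubring ≠ V) : valFun D V = 0 := by
  classical
  unfold valFun
  rw [dif_neg]
  rintro ⟨v, hv⟩
  exact hV v hv

omit [IsNoetherianRing A] [IsIntegrallyClosed A] [IsFractionRing A F] [Algebra A F] [IsDomain A] in
theorem valFun_finite (D : Divisor K F) : {V : ValuationSubring F | valFun D V ≠ 0}.Finite := by
  classical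
  refine (D.support.finite_toSet.image (fun v : Place K F => v.toValuationSubring)).subset ?_
  intro V hV
  by_cases h : ∃ v : Place K F, v.toValuationSubring = V
  · obtain ⟨v, rfl⟩ := h
    have hV' : valFun D v.toValuationSubring ≠ 0 := hV
    rw [valFun_place] at hV'
    exact ⟨v, Finsupp.mem_support_iff.2 hV', rfl⟩
  · exfalso
    apply hV
    exact valFun_of_forall_ne D (fun v hv => h ⟨v, hv⟩)

/-- A divisor as a function on the primes of the chart ring (zero off the conductor primes which
are centres of places). -/
noncomputable def primeFun (D : Divisor K F) : Ideal A → ℤ := by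
  classical
  exact fun Q => if h : ∃ y : F, IsCond Q y then
    valFun D (Classical.choose_spec h).valuationSubring else 0

theorem primeFun_eq (D : Divisor K F) {Q : Ideal A} {y : F} (h : IsCond Q y) :
    primeFun (A := A) D Q = valFun D h.valuationSubring := by
  classical
  unfold primeFun
  have hex : ∃ y : F, IsCond Q y := ⟨y, h⟩
  rw [dif_pos hex]
  rw [valuationSubring_eq (Classical.choose_spec hex) h]

namespace ChartData

variable {q : A}

theorem primeFun_of_not_mem (C : ChartData K F q) (D : Divisor K F) {Q : Ideal A} {y : F}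
    (h : IsCond Q y) (hqQ : q ∉ Q) : primeFun (A := A) D Q = D (C.placeOf h hqQ) := by
  rw [primeFun_eq D h, ← C.placeOf_toValuationSubring h hqQ, valFun_place]

theorem primeFun_of_mem (C : ChartData K F q) (D : Divisor K F) {Q : Ideal A} {y : F}
    (h : IsCond Q y) (hqQ : q ∈ Q) : primeFun (A := A) D Q = 0 := by
  rw [primeFun_eq D h]
  exact valFun_of_forall_ne D (fun v => C.ne_of_mem h hqQ v)

theorem primeFun_centre (C : ChartData K F q) (D : Divisor K F) {v : Place K F}
    (hv : FiniteOn A v) : primeFun (A := A) D (centre v.toValuationSubring hv) = D v := by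
  obtain ⟨y, hc, heq⟩ := C.exists_isCond hv
  rw [primeFun_eq D hc, ← heq, valFun_place]

end ChartData

/-- The finiteness hypothesis of `LocalGenCore` for `primeFun D`. -/
theorem primeFun_finite (D : Divisor K F) :
    {Q : Ideal A | primeFun (A := A) D Q ≠ 0 ∧ ∃ z : F, IsCond Q z}.Finite := by
  classical
  refine ((valFun_finite D).image (fun V : ValuationSubring F => cen (A := A) V)).subset ?_
  rintro Q ⟨hQ, z, h⟩
  refine ⟨h.valuationSubring, ?_, cen_valuationSubring h⟩
  show valFun D h.valuationSubring ≠ 0
  rw [← primeFun_eq D h]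
  exact hQ

/-! ### The module of sections `divModule (primeFun D)` in terms of places -/

/-- The conductor element `z` of a conductor prime has order `-1` at the corresponding place. -/
theorem ord_cond_eq (v : Place K F) {Q : Ideal A} {z : F} (h : IsCond Q z)
    (hv : v.toValuationSubring = h.valuationSubring) : v.ord z = -1 := by
  have hz0 : z ≠ 0 := h.ne_zero
  have h1 : HasOrd v.toValuationSubring z⁻¹ 1 := by
    rw [hv]; exact HasOrd.of_isUnif (isUnif_of_isCond h)
  have h2 := (hasOrd_iff_ord v (inv_ne_zero hz0) 1).1 h1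
  rw [Place.ord_inv] at h2
  omega

/-- helper7's unit condition `IsU A_Q (t z ^ (-k))` is `ord t = -k` at the place of `Q`. -/
theorem isU_mul_zpow_iff_ord (v : Place K F) {Q : Ideal A} {z : F} (h : IsCond Q z)
    (hv : v.toValuationSubring = h.valuationSubring) {t : F} (ht : t ≠ 0) (k : ℤ) :
    LocalGenCore.IsU h.valuationSubring (t * z ^ (-k)) ↔ v.ord t = -k := by
  have hz0 : z ≠ 0 := h.ne_zero
  have hunif : IsUnif v.toValuationSubring z⁻¹ := by
    rw [hv]; exact isUnif_of_isCond h
  rw [← hasOrd_iff_ord v ht (-k)]
  constructor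
  · intro hu
    refine ⟨z⁻¹, hunif, ?_⟩
    rw [neg_neg, inv_zpow', hv]
    exact hu
  · intro ho
    have := ho.of_unif hunif
    rw [neg_neg, inv_zpow', hv] at this
    exact this

namespace ChartData

variable {q : A}

/-- **The sections of `O(D)` on the chart, in terms of places**: `x ≠ 0` lies in
`divModule (primeFun D)` iff `ord_v x ≥ - D v` at every place `v` finite on the chart and `x` is
integral at every vertical conductor prime. -/
theorem mem_divModule_iff (C : ChartData K F q) (D : Divisor K F) {x : F} (hx : x ≠ 0) :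
    x ∈ LocalGenCore.divModule (F := F) (primeFun (A := A) D) ↔
      (∀ v : Place K F, FiniteOn A v → -(D v) ≤ v.ord x) ∧
      (∀ (Q : Ideal A) (y : F) (h : IsCond Q y), q ∈ Q → x ∈ h.valuationSubring) := by
  constructor
  · intro hmem
    constructor
    · intro v hv
      obtain ⟨y, hc, heq⟩ := C.exists_isCond hv
      have h1 := hmem _ y hc
      rw [C.primeFun_centre D hv, ← heq] at h1
      have hy0 : y ≠ 0 := hc.ne_zero
      have h2 := (mem_iff_ord_nonneg v (mul_ne_zero hx (zpow_ne_zero _ hy0))).1 h1
      rw [Place.ord_mul v hx (zpow_ne_zero _ hy0), Place.ord_zpow, ord_cond_eq v hc heq] at h2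
      linarith
    · intro Q y h hqQ
      have h1 := hmem Q y h
      rw [C.primeFun_of_mem D h hqQ, neg_zero, zpow_zero, mul_one] at h1
      exact h1
  · rintro ⟨hhor, hvert⟩ Q z h
    by_cases hqQ : q ∈ Q
    · rw [C.primeFun_of_mem D h hqQ, neg_zero, zpow_zero, mul_one]
      exact hvert Q z h hqQ
    · have hz0 : z ≠ 0 := h.ne_zero
      set v := C.placeOf h hqQ with hvdef
      have hv : v.toValuationSubring = h.valuationSubring := rfl
      have h1 := hhor v (C.finiteOn_placeOf h hqQ)
      rw [C.primeFun_of_not_mem D h hqQ, ← hv]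
      rw [mem_iff_ord_nonneg v (mul_ne_zero hx (zpow_ne_zero _ hz0)),
        Place.ord_mul v hx (zpow_ne_zero _ hz0), Place.ord_zpow, ord_cond_eq v h hv]
      linarith

end ChartData

end Places

/-! ### The chart ring `A_φ` is a chart -/

section ChartInst

open AlgebraicCurve IntermediateField
open Fermat.Agent.S36.ChartRing Fermat.Agent.S36.KrullInter Fermat.Agent.S36.CentreCore

variable {O : Type*} [CommRing O] [IsDomain O] [IsDiscreteValuationRing O] {K : Type*} [Field K]
  [Algebra O K] [IsFractionRing O K] {F : Type*} [Field F] [Algebra K F] [Algebra O F]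
  [IsScalarTower O K F]

/-- The constants of `O` in the chart ring. -/
noncomputable def constChart (φ : F) (c : O) : chart O φ := toChart φ (C c)

theorem coe_constChart (φ : F) (c : O) : ((constChart φ c : chart O φ) : F) = algebraMap O F c := by
  unfold constChart
  rw [coe_toChart, aeval_C]

/-- **The chart ring of `φ` satisfies `ChartData`** (with `q` the uniformiser of `O`). -/
theorem chartData_chart {π : O} (hπ : Irreducible π) (φ : F) :
    ChartData K F (piChart φ π : chart O φ) := by
  have hπF : algebraMap O F π ≠ 0 := algebraMap_ne_zero_of_ne_zero (K := K) hπ.ne_zero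
  refine ⟨⟨algebraMap O K π, ?_⟩, ?_, hDim_chart K hπ φ, ?_⟩
  · rw [← IsScalarTower.algebraMap_apply O K F]
    exact (coe_piChart φ π).symm
  · intro h0
    apply hπF
    rw [← coe_piChart φ π, h0]
    rfl
  · intro c
    obtain ⟨a, n, rfl⟩ := exists_eq_div_pow hπ c
    refine ⟨constChart φ a, n, ?_⟩
    have h1 : algebraMap (chart O φ) F (piChart φ π) = algebraMap O F π := coe_piChart φ π
    have h2 : algebraMap (chart O φ) F (constChart φ a) = algebraMap O F a := coe_constChart φ a
    rw [h1, h2, map_div₀, map_pow, ← IsScalarTower.algebraMap_apply O K F,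
      ← IsScalarTower.algebraMap_apply O K F, div_mul_cancel₀ _ (pow_ne_zero n hπF)]

/-- A place is finite on the chart of `φ` iff `φ` is integral at it. -/
theorem finiteOn_chart_iff (φ : F) (v : Place K F) :
    FiniteOn (chart O φ) v ↔ φ ∈ v.toValuationSubring := by
  constructor
  · intro h
    have hφ : φ ∈ chart O φ := by
      have : φ = algebraMap (Algebra.adjoin O ({φ} : Set F)) F
          ⟨φ, Algebra.subset_adjoin (Set.mem_singleton φ)⟩ := rfl
      rw [this]
      exact Subalgebra.algebraMap_mem _ _
    exact h ⟨φ, hφ⟩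
  · intro hφv a
    refine mem_of_mem_chart a.2 v.toValuationSubring (fun c => ?_) hφv
    rw [IsScalarTower.algebraMap_apply O K F]
    exact v.algebraMap_mem' _

end ChartInst

end Fermat.Agent.S36.Centre
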