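/-
PROJECT V (S36), slice V-GaussK0, part 1 (helper11): `HasRep` OVER AN ARBITRARY FIELD OF CONSTANTS.

`S37/Gauss/HasRep.hasRep` proves `HasRep A π N` (every nonzero function of `ℚ̄(X₀(N))` is a constant
times a quotient of integral elements of nonzero reduction) for valuation subrings `A` of `ℚ̄` over
`ℓ ∤ N`.  The whole machine of `S18/GaussFromH` (Gauss valuation ring `OwV`, reduction `redV`, ...)
is generic in the field of constants `L`; here the same proof is run over an ARBITRARY field
`L ⊇ ℚ` (e.g. the inertia field `K0`, where the valuation is DISCRETE):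

* `embL L N : F_ℚ(N) →+* F_L(N) = laurentBaseChange L (full N)`, `jL L N`, `transcendental_jL`,
  `finrank_jL : [F_L(N) : L(j)] = [F_ℚ(N) : ℚ(j)]` (from `S30/Descent/ConstExt`),
  `adjoin_range_embL`;
* `exists_basesL` : a family `t` in `OwFull ℓ N` (rational functions) which is an `L(j)`-basis of
  `F_L(N)` and whose reduction is a `k(j)`-basis of `F_k(N)`;
* `hasRepL` : `HasRep A π N` for every valuation subring `A` of `L` over `ℓ ∤ N` and every ring
  homomorphism `π : A →+* k`, `k` algebraically closed of characteristic `ℓ`.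
-/
import Mathlib
import Fermat.Agent.S37.Gauss.HasRep
import Fermat.Agent.S30.Descent.ConstExt

set_option autoImplicit false
set_option linter.unusedSectionVars false
set_option linter.style.haveILetI false

noncomputable section

namespace Fermat.Agent.S36.GaussL

open HahnSeries ModularCurve ModularCurve.IgusaScheme IntermediateField Polynomial
open Fermat.Agent.S30.Descent.ConstExt

variable (L : Type*) [Field L] [Algebra ℚ L] (N : ℕ) [NeZero N]

/-- the coefficientwise embedding `F_ℚ(N) → F_L(N)` -/
def embL : ↥(modularFunctionFieldFull N) →+* ↥(laurentBaseChange L (modularFunctionFieldFull N)) :=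
  (coeffEmb L).restrict (modularFunctionFieldFull N) (laurentBaseChange L (modularFunctionFieldFull N))
    (fun _ hx => coeffEmb_mem_laurentBaseChange L hx)

omit [NeZero N] in
@[simp] theorem coe_embL (x : ↥(modularFunctionFieldFull N)) :
    ((embL L N x : ↥(laurentBaseChange L (modularFunctionFieldFull N))) : LaurentSeries L)
      = coeffEmb L (x : LaurentSeries ℚ) := rfl

/-- `j` in `F_L(N)` -/
def jL : ↥(laurentBaseChange L (modularFunctionFieldFull N)) := embL L N (jFull N)

theorem coe_jL : ((jL L N : ↥(laurentBaseChange L (modularFunctionFieldFull N))) : LaurentSeries L)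
    = coeffEmb L jq := by
  rw [jL, coe_embL]
  rfl

theorem transcendental_jL : Transcendental L (jL L N) := by
  letI : Algebra ℚ ↥(modularFunctionFieldFull N) := Fermat.Agent.S28.DegreeQ.algF N
  have : FiniteDimensional ℚ⟮jFull N⟯ ↥(modularFunctionFieldFull N) :=
    Fermat.Agent.S28.DegreeQ.finiteDimensional_full N
  exact transcendental_bcHom (K' := L) (F := modularFunctionFieldFull N)
    (Fermat.Agent.S28.DegreeQ.transcendental_jFull N)

/-- **degree preservation** `[F_L(N) : L(j)] = [F_ℚ(N) : ℚ(j)]`, for ANY `ℚ`-algebra structure on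
`F_ℚ(N)` -/
theorem finrank_jL [inst : Algebra ℚ ↥(modularFunctionFieldFull N)] :
    FiniteDimensional L⟮jL L N⟯ ↥(laurentBaseChange L (modularFunctionFieldFull N)) ∧
      Module.finrank L⟮jL L N⟯ ↥(laurentBaseChange L (modularFunctionFieldFull N)) =
        Module.finrank ℚ⟮jFull N⟯ ↥(modularFunctionFieldFull N) := by
  obtain rfl : inst = Fermat.Agent.S28.DegreeQ.algF N := Subsingleton.elim _ _
  letI : Algebra ℚ ↥(modularFunctionFieldFull N) := Fermat.Agent.S28.DegreeQ.algF N
  have : FiniteDimensional ℚ⟮jFull N⟯ ↥(modularFunctionFieldFull N) :=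
    Fermat.Agent.S28.DegreeQ.finiteDimensional_full N
  exact finrank_bcHom (K' := L) (F := modularFunctionFieldFull N)
    (Fermat.Agent.S28.DegreeQ.transcendental_jFull N)

omit [NeZero N] in
/-- `embL` on the constants (default `ℚ`-algebra structure of `F_ℚ(N)`) -/
theorem embL_algebraMap_rat (r : ℚ) :
    embL L N (algebraMap ℚ ↥(modularFunctionFieldFull N) r)
      = algebraMap L ↥(laurentBaseChange L (modularFunctionFieldFull N)) (algebraMap ℚ L r) := by
  rw [eq_ratCast, eq_ratCast, map_ratCast, map_ratCast]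

omit [NeZero N] in
/-- `F_L(N)` is generated over `L` by the image of `F_ℚ(N)` -/
theorem adjoin_range_embL :
    IntermediateField.adjoin L (Set.range fun x : ↥(modularFunctionFieldFull N) => embL L N x) = ⊤ := by
  rw [eq_top_iff]
  intro z _
  have h1 : (IntermediateField.adjoin L
      (Set.range fun x : ↥(modularFunctionFieldFull N) => embL L N x)).map
        (laurentBaseChange L (modularFunctionFieldFull N)).val =
      laurentBaseChange L (modularFunctionFieldFull N) := by
    rw [IntermediateField.adjoin_map, ← Set.range_comp]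
    show IntermediateField.adjoin L _ = IntermediateField.adjoin L _
    congr 1
    ext y
    constructor
    · rintro ⟨x, rfl⟩
      exact ⟨x, x.2, rfl⟩
    · rintro ⟨x, hx, rfl⟩
      exact ⟨⟨x, hx⟩, rfl⟩
  have h2 : (z : LaurentSeries L) ∈ (IntermediateField.adjoin L
      (Set.range fun x : ↥(modularFunctionFieldFull N) => embL L N x)).map
        (laurentBaseChange L (modularFunctionFieldFull N)).val := by
    rw [h1]
    exact z.2
  obtain ⟨w, hw, hwz⟩ := h2
  have : w = z := Subtype.ext hwz
  rw [← this]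
  exact hw

/-- the `L(j)`-algebra structure of `F_L(N)` -/
@[reducible] def algRatL : Algebra (RatFunc L) ↥(laurentBaseChange L (modularFunctionFieldFull N)) :=
  Fermat.Agent.S18.A.Chart.ratAlgebra (transcendental_jL L N)

attribute [local instance] algRatL

theorem algebraMap_ratL (a : RatFunc L) :
    algebraMap (RatFunc L) ↥(laurentBaseChange L (modularFunctionFieldFull N)) a =
      Fermat.Agent.S18.A.Chart.evalRat (transcendental_jL L N) a := rfl

theorem algebraMap_ratL_poly (p : L[X]) :
    algebraMap (RatFunc L) ↥(laurentBaseChange L (modularFunctionFieldFull N))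
      (algebraMap L[X] (RatFunc L) p) = Polynomial.aeval (jL L N) p := by
  rw [algebraMap_ratL, Fermat.Agent.S18.A.Chart.evalRat_algebraMap]

attribute [local instance] Fermat.Agent.S18.C.GaussDVR.algRes Fermat.Agent.S18.C.UnramVal.algBelow

open Fermat.Agent.S18.C Fermat.Agent.S37.Gauss.HasRep Fermat.Agent.S28.GaussFull in
/-- **The compatible bases over `L`**: a family `t` in `OwFull` which is an `L(j)`-basis of `F_L(N)`
and whose reduction is a `k(j)`-basis of `F_k(N)`. -/
theorem exists_basesL (ℓ : ℕ) [Fact ℓ.Prime] (k : Type*) [Field k] [Algebra (ZMod ℓ) k]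
    [IsAlgClosed k] (hℓN : ¬ ℓ ∣ N) :
    ∃ (n : ℕ) (t : Fin n → ↥(OwFull ℓ N))
      (bL : Module.Basis (Fin n) (RatFunc L) ↥(laurentBaseChange L (modularFunctionFieldFull N)))
      (bk : Module.Basis (Fin n) (RatFunc k) ↥(modularFunctionFieldFullC k N)),
      (∀ i, bL i = embL L N ((t i : ↥(OwFull ℓ N)) : ↥(modularFunctionFieldFull N))) ∧
      (∀ i, bk i = Forms.embK (ZMod ℓ) k N (redF ℓ N hℓN (t i))) := by
  obtain ⟨t, h⟩ := GaussRat.hypRat ℓ N hℓN
  have hfdQ := (BaseChangeR.finrank_full_le_bar_of_algebra N).1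
  have hfdL := (finrank_jL L N).1
  obtain ⟨bL, hbL⟩ := BaseChangeR.exists_basis_map (ModularInst.transcendental_jFull N)
    (transcendental_jL L N) (embL L N) (embL_algebraMap_rat L N) rfl
    (fun x : ↥(modularFunctionFieldFull N) => x) (adjoin_range_embL L N)
    (finrank_jL L N).2.ge h.basisE
  have hli := linearIndependent_redF ℓ N hℓN t h.indep
  have hcard : Fintype.card (Fin (Module.finrank ↥(GaussDVR.Ej N) ↥(modularFunctionFieldFull N))) =
      Module.finrank (RatFunc (ZMod ℓ)) ↥(modularFunctionFieldFullC (ZMod ℓ) N) := by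
    rw [Fintype.card_fin, GaussDVR.finrank_full_eq ℓ N hℓN,
      FormsZMod.finrank_ratFunc_zmod_eq ℓ N hℓN]
  have hfd : FiniteDimensional (RatFunc (ZMod ℓ)) ↥(modularFunctionFieldFullC (ZMod ℓ) N) :=
    (BaseChangeR.finrank_ratFunc_fullC (ZMod ℓ) N).1
  let bRes : Module.Basis _ (RatFunc (ZMod ℓ)) ↥(modularFunctionFieldFullC (ZMod ℓ) N) :=
    Module.Basis.mk hli (hli.span_eq_top_of_card_eq_finrank' hcard).ge
  obtain ⟨bk, hbk⟩ := FormsZMod.exists_basis_zmod ℓ N k hℓN bRes
  refine ⟨_, t, bL, bk, fun i => ?_, fun i => ?_⟩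
  · rw [hbL, h.basisE_apply]
  · rw [hbk, Module.Basis.mk_apply]

/-! ### integral elements over `A ⊆ L` -/

section Int

open Fermat.Agent.S18.GaussFromH Fermat.Agent.S18.C Fermat.Agent.S37.Gauss.HasRep
open Fermat.Agent.S18.B.FkBasics (jk coe_jk transcendental_jk)
open Fermat.Agent.S28.GaussVal (Zl Ol redL redL_of_mem redwL_eq InOw)
open Fermat.Agent.S28.GaussFull (OwFull redwFull)

variable {L N}
variable {ℓ : ℕ} [Fact ℓ.Prime] (A : ValuationSubring L) {k : Type*} [Field k] (π : ↥A →+* k)

/-- constants, as a ring homomorphism into the integral elements -/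
def constHomL : ↥A →+* ↥(intRing A π N) where
  toFun := constI
  map_one' := toFL_injective (by rw [toFL_constI, map_one]; simp)
  map_mul' a b := toFL_injective (by
    rw [map_mul, toFL_constI, toFL_constI, toFL_constI, ← map_mul]; rfl)
  map_zero' := toFL_injective (by rw [toFL_constI, map_zero]; simp)
  map_add' a b := toFL_injective (by
    rw [map_add, toFL_constI, toFL_constI, toFL_constI, ← map_add]; rfl)

theorem toFL_constHomL (c : ↥A) :
    toFL A π N (constHomL A π c) =
      algebraMap L ↥(laurentBaseChange L (modularFunctionFieldFull N)) (c : L) :=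
  toFL_constI c

theorem red_constHomL (c : ↥A) :
    Fermat.Agent.S18.GaussFromH.red A π N (constHomL A π c) =
      algebraMap k ↥(modularFunctionFieldFullC k N) (π c) :=
  red_constI c

/-- integral polynomials in `j` -/
def evIL : (↥A)[X] →+* ↥(intRing A π N) := Polynomial.eval₂RingHom (constHomL A π) (jI A π N)

theorem toFL_jIL : toFL A π N (jI A π N) = jL L N :=
  Subtype.ext (by rw [coe_toFL_jI, coe_jL])

theorem red_jIL : Fermat.Agent.S18.GaussFromH.red A π N (jI A π N) = jk k N :=
  Subtype.ext (by rw [coe_red_jI, coe_jk])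

theorem toFL_evIL (p : (↥A)[X]) :
    toFL A π N (evIL A π p) = Polynomial.aeval (jL L N) (p.map A.subtype) := by
  rw [evIL, Polynomial.coe_eval₂RingHom, Polynomial.hom_eval₂, toFL_jIL, Polynomial.aeval_def,
    Polynomial.eval₂_map]
  congr 1
  exact RingHom.ext fun c => toFL_constHomL A π c

theorem red_evIL (p : (↥A)[X]) :
    Fermat.Agent.S18.GaussFromH.red A π N (evIL (N := N) A π p) =
      Polynomial.aeval (jk k N) (p.map π) := by
  rw [evIL, Polynomial.coe_eval₂RingHom, Polynomial.hom_eval₂, red_jIL, Polynomial.aeval_def,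
    Polynomial.eval₂_map]
  congr 1
  exact RingHom.ext fun c => red_constHomL A π c

theorem red_evIL_ne_zero {p : (↥A)[X]} (hp : p.map π ≠ 0) :
    Fermat.Agent.S18.GaussFromH.red A π N (evIL (N := N) A π p) ≠ 0 := by
  rw [red_evIL]
  intro h0
  exact hp ((transcendental_iff.mp (transcendental_jk k N)) _ h0)

variable [Algebra (ZMod ℓ) k] (hA : A.LiesOverPrime ℓ)

/-- an `ℓ`-integral element of `F_ℚ(N)` as an integral element of the Gauss model over `A` -/
def ofOlL (hℓN : ¬ ℓ ∣ N) {x : LaurentSeries ℚ} (hxF : x ∈ modularFunctionFieldFull N)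
    (hx : x ∈ Ol ℓ) : ↥(intRing A π N) :=
  ⟨liftA A hA ⟨x, hx⟩, by
    rw [mem_intRing, coeffMap_subtype_liftA, coeffMap_liftA]
    exact ⟨coeffEmb_mem_laurentBaseChange L hxF,
      Forms.coeffMap_mem_full (ZMod ℓ) k N (red_mem_full N hℓN hxF hx)⟩⟩

theorem toFL_ofOlL (hℓN : ¬ ℓ ∣ N) {x : LaurentSeries ℚ}
    (hxF : x ∈ modularFunctionFieldFull N) (hx : x ∈ Ol ℓ) :
    toFL A π N (ofOlL A π hA hℓN hxF hx) = embL L N ⟨x, hxF⟩ :=
  Subtype.ext (by rw [coe_toFL, coe_embL]; exact coeffMap_subtype_liftA A hA ⟨x, hx⟩)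

theorem red_ofOlL (hℓN : ¬ ℓ ∣ N) {x : LaurentSeries ℚ}
    (hxF : x ∈ modularFunctionFieldFull N) (hx : x ∈ Ol ℓ) :
    Fermat.Agent.S18.GaussFromH.red A π N (ofOlL A π hA hℓN hxF hx) =
      Forms.embK (ZMod ℓ) k N
        ⟨Fermat.Agent.S28.GaussVal.red ℓ ⟨x, hx⟩, red_mem_full N hℓN hxF hx⟩ :=
  Subtype.ext (by rw [coe_red, Forms.coe_embK]; exact coeffMap_liftA A hA π ⟨x, hx⟩)

include hA in
/-- an element of `OwFull` is a quotient of integral elements of the Gauss model over `A`,
compatibly with the reductions -/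
theorem exists_rep_OwFullL (hℓN : ¬ ℓ ∣ N) (z : ↥(OwFull ℓ N)) :
    ∃ α β : ↥(intRing A π N), Fermat.Agent.S18.GaussFromH.red A π N β ≠ 0 ∧
      embL L N (z : ↥(modularFunctionFieldFull N)) * toFL A π N β = toFL A π N α ∧
      Forms.embK (ZMod ℓ) k N (redF ℓ N hℓN z) * Fermat.Agent.S18.GaussFromH.red A π N β =
        Fermat.Agent.S18.GaussFromH.red A π N α := by
  obtain ⟨a, b, haF, ha, hbF, hb, hrb, hab⟩ :=
    (show InOw ℓ (modularFunctionFieldFull N)
      ((z : ↥(modularFunctionFieldFull N)) : LaurentSeries ℚ) from z.2)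
  refine ⟨ofOlL A π hA hℓN haF ha, ofOlL A π hA hℓN hbF hb, ?_, ?_, ?_⟩
  · rw [red_ofOlL, Ne, map_eq_zero]
    intro h0
    apply hrb
    rw [redL_of_mem ℓ hb]
    exact congrArg (fun x : ↥(modularFunctionFieldFullC (ZMod ℓ) N) =>
      (x : LaurentSeries (ZMod ℓ))) h0
  · rw [toFL_ofOlL, toFL_ofOlL, ← map_mul]
    congr 1
    exact Subtype.ext hab
  · rw [red_ofOlL, red_ofOlL, ← map_mul]
    congr 1
    apply Subtype.ext
    show redwFull ℓ N z * Fermat.Agent.S28.GaussVal.red ℓ ⟨b, hb⟩ =
      Fermat.Agent.S28.GaussVal.red ℓ ⟨a, ha⟩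
    have h1 : redwFull ℓ N z = redL ℓ a / redL ℓ b :=
      redwL_eq ha hb haF hbF hrb hab
    rw [h1, ← redL_of_mem ℓ hb, ← redL_of_mem ℓ ha, div_mul_cancel₀ _ hrb]

end Int

/-! ### the main theorem -/

section Main

open Fermat.Agent.S18.GaussFromH Fermat.Agent.S18.C Fermat.Agent.S37.Gauss.HasRep
open Fermat.Agent.S18.B.FkBasics (jk coe_jk transcendental_jk)
open Fermat.Agent.S28.GaussFull (OwFull redwFull)

variable {L N}
variable {ℓ : ℕ} [Fact ℓ.Prime] (A : ValuationSubring L) {k : Type*} [Field k] (π : ↥A →+* k)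
  [Algebra (ZMod ℓ) k]

theorem algebraMap_Fk_polyL (p : k[X]) :
    algebraMap (RatFunc k) ↥(modularFunctionFieldFullC k N) (algebraMap k[X] (RatFunc k) p) =
      Polynomial.aeval (jk k N) p := by
  rw [ModularInst.algebraMap_Fk, Fermat.Agent.S18.A.Chart.evalRat_algebraMap]

theorem aeval_jL_scale (c : L) (q : (↥A)[X]) :
    Polynomial.aeval (jL L N) (Polynomial.C c * q.map A.subtype) =
      algebraMap L ↥(laurentBaseChange L (modularFunctionFieldFull N)) c *
        toFL A π N (evIL A π q) := by
  rw [map_mul, Polynomial.aeval_C, toFL_evIL]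

/-- **`HasRep` over an arbitrary field `L ⊇ ℚ`**: for a valuation subring `A` of `L` over `ℓ ∤ N` and
a ring homomorphism `π : A →+* k` into an algebraically closed field of characteristic `ℓ`, every
nonzero function of `F_L(N)` is a constant of `L` times a quotient of integral elements of nonzero
reduction. -/
theorem hasRepL [IsAlgClosed k] (hA : A.LiesOverPrime ℓ) (hℓN : ¬ ℓ ∣ N) : HasRep A π N := by
  classical
  intro f hf
  obtain ⟨n, t, bL, bk, hbL, hbk⟩ := exists_basesL L N ℓ k hℓN
  choose α β hβ hLαβ hKαβ using fun i => exists_rep_OwFullL A π hA hℓN (t i)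
  -- coordinates
  set c : Fin n → RatFunc L := fun i => bL.repr f i with hc
  have hinjL : Function.Injective (algebraMap L[X] (RatFunc L)) :=
    IsFractionRing.injective L[X] (RatFunc L)
  have hinjk : Function.Injective (algebraMap k[X] (RatFunc k)) :=
    IsFractionRing.injective k[X] (RatFunc k)
  have hf_sum : f = ∑ i, algebraMap (RatFunc L) ↥(laurentBaseChange L (modularFunctionFieldFull N))
      (c i) * embL L N ((t i : ↥(OwFull ℓ N)) : ↥(modularFunctionFieldFull N)) := by
    conv_lhs => rw [← bL.sum_repr f]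
    refine Finset.sum_congr rfl fun i _ => ?_
    rw [Algebra.smul_def, hbL]
  -- common denominator
  set s : L[X] := ∏ i, (c i).denom with hs
  set P : Fin n → L[X] := fun i => (c i).num * ∏ m ∈ Finset.univ.erase i, (c m).denom with hPdef
  have hs0 : s ≠ 0 := Finset.prod_ne_zero_iff.mpr fun i _ => RatFunc.denom_ne_zero _
  have hcP : ∀ i, c i * algebraMap L[X] (RatFunc L) s = algebraMap L[X] (RatFunc L) (P i) := by
    intro i
    have h1 : s = (c i).denom * ∏ m ∈ Finset.univ.erase i, (c m).denom :=
      (Finset.mul_prod_erase _ _ (Finset.mem_univ i)).symm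
    rw [h1, hPdef, map_mul, map_mul, ← mul_assoc]
    congr 1
    have hd : algebraMap L[X] (RatFunc L) (c i).denom ≠ 0 :=
      (map_ne_zero_iff _ hinjL).mpr (RatFunc.denom_ne_zero _)
    exact ((div_eq_iff hd).mp (RatFunc.num_div_denom (c i))).symm
  have hPne : ∃ i, P i ≠ 0 := by
    by_contra hall
    push Not at hall
    apply hf
    rw [hf_sum]
    refine Finset.sum_eq_zero fun i _ => ?_
    have h0 : c i = 0 := by
      have h1 := hcP i
      rw [hall i, map_zero] at h1
      rcases mul_eq_zero.mp h1 with h | h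
      · exact h
      · exact absurd ((map_eq_zero_iff _ hinjL).mp h) hs0
    rw [h0, map_zero, zero_mul]
  obtain ⟨cP, Q, hcP0, ⟨i0, hQi0⟩, hPQ⟩ := exists_scale_family π P hPne
  obtain ⟨cs, s0, hcs0, hs0π, hss0⟩ := GaussA.exists_scale_poly π s hs0
  set B : ↥(intRing A π N) := ∏ m, β m with hBdef
  set Bi : Fin n → ↥(intRing A π N) := fun i => ∏ m ∈ Finset.univ.erase i, β m with hBidef
  have hB : ∀ i, β i * Bi i = B := fun i => Finset.mul_prod_erase _ _ (Finset.mem_univ i)
  have hredB : Fermat.Agent.S18.GaussFromH.red A π N B ≠ 0 := by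
    rw [hBdef, map_prod]
    exact Finset.prod_ne_zero_iff.mpr fun i _ => hβ i
  refine ⟨cP / cs, ∑ i, evIL A π (Q i) * α i * Bi i, evIL A π s0 * B,
    div_ne_zero hcP0 hcs0, ?_, ?_, ?_⟩
  · -- the reduction of the numerator
    have h1 : Fermat.Agent.S18.GaussFromH.red A π N (∑ i, evIL A π (Q i) * α i * Bi i) =
        (∑ i, algebraMap k[X] (RatFunc k) ((Q i).map π) • bk i) *
          Fermat.Agent.S18.GaussFromH.red A π N B := by
      rw [map_sum, Finset.sum_mul]
      refine Finset.sum_congr rfl fun i _ => ?_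
      rw [map_mul, map_mul, ← hKαβ i, red_evIL, Algebra.smul_def, algebraMap_Fk_polyL, hbk i,
        ← hB i, map_mul]
      ring
    rw [h1]
    refine mul_ne_zero ?_ hredB
    intro h0
    have h2 := Fintype.linearIndependent_iff.mp bk.linearIndependent _ h0 i0
    exact hQi0 ((map_eq_zero_iff _ hinjk).mp h2)
  · rw [map_mul]
    exact mul_ne_zero (red_evIL_ne_zero A π hs0π) hredB
  · -- the identity
    have hF1 : Polynomial.aeval (jL L N) s =
        algebraMap L ↥(laurentBaseChange L (modularFunctionFieldFull N)) cs *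
          toFL A π N (evIL A π s0) := by
      rw [hss0, aeval_jL_scale A π]
    have hF2 : ∀ i, Polynomial.aeval (jL L N) (P i) =
        algebraMap L ↥(laurentBaseChange L (modularFunctionFieldFull N)) cP *
          toFL A π N (evIL A π (Q i)) := by
      intro i
      rw [hPQ i, aeval_jL_scale A π]
    have hF4 : f * Polynomial.aeval (jL L N) s = ∑ i, Polynomial.aeval (jL L N) (P i) *
        embL L N ((t i : ↥(OwFull ℓ N)) : ↥(modularFunctionFieldFull N)) := by
      conv_lhs => rw [hf_sum]
      rw [Finset.sum_mul]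
      refine Finset.sum_congr rfl fun i _ => ?_
      rw [← algebraMap_ratL_poly, ← algebraMap_ratL_poly, ← hcP i, map_mul]
      ring
    have hcs' : algebraMap L ↥(laurentBaseChange L (modularFunctionFieldFull N)) cs ≠ 0 :=
      (map_ne_zero_iff _
        (algebraMap L ↥(laurentBaseChange L (modularFunctionFieldFull N))).injective).mpr hcs0
    have key : f * toFL A π N (evIL A π s0 * B) *
        algebraMap L ↥(laurentBaseChange L (modularFunctionFieldFull N)) cs =
        algebraMap L ↥(laurentBaseChange L (modularFunctionFieldFull N)) cP *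
          toFL A π N (∑ i, evIL A π (Q i) * α i * Bi i) := by
      have e1 : f * toFL A π N (evIL A π s0 * B) *
          algebraMap L ↥(laurentBaseChange L (modularFunctionFieldFull N)) cs =
          f * Polynomial.aeval (jL L N) s * toFL A π N B := by
        rw [hF1, map_mul]
        ring
      rw [e1, hF4, Finset.sum_mul, map_sum, Finset.mul_sum]
      refine Finset.sum_congr rfl fun i _ => ?_
      rw [hF2 i, map_mul, map_mul, ← hLαβ i, ← hB i, map_mul]
      ring
    rw [map_div₀, div_mul_eq_mul_div, eq_div_iff hcs']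
    exact key

end Main

end Fermat.Agent.S36.GaussL
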