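import Mathlib
import Fermat.Agent.S30.Descent.ConstExt
import Fermat.Prelude.Def_ModularCurve_ArithmeticGalois

/-!
# S36 (exploration, helper18): Galois descent of the constant field of a Laurent function field

`K ⊆ K'` an algebraic extension, `F : IntermediateField K (LaurentSeries K)`,
`F' = constExt K' F = K'(bc F) ⊆ K'((q))` (`S30/Descent/ConstExt`).

* `exists_lsum_eq` : for `K'/K` algebraic every element of `F'` is a `K'`-LINEAR COMBINATION of
  elements of `bc F` (no denominators);
* `basisBC` : a `K`-basis of `F` is a `K'`-basis of `F'`  (`F' = K' ⊗_K F`);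
* `exists_bcHom_eq_of_fixed` : **descent**: if `H` is a set of ring endomorphisms of `K'` fixing
  `K` pointwise whose common fixed points are exactly `K`, then an element of `F'` fixed by the
  coefficientwise action of every `σ ∈ H` comes from `F`.

Design independent.  Personal branch only.
-/

set_option autoImplicit false
set_option linter.unusedSectionVars false

noncomputable section

namespace Fermat.Agent.S36.K0Fixed

open ModularCurve IntermediateField Polynomial Fermat.Agent.S30.Descent.ConstExt

variable {K : Type*} {K' : Type*} [Field K] [Field K'] [Algebra K K']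
variable (F : IntermediateField K (LaurentSeries K))

/-! ### the subring of `K'`-linear combinations -/

/-- the subring of `F'` of `K'`-linear combinations of elements of `bc F` -/
def lsumSubring : Subring (constExt K' F) where
  carrier := {y | ∃ l : List (K' × F), lsum F l = y}
  mul_mem' := by
    rintro _ _ ⟨l₁, rfl⟩ ⟨l₂, rfl⟩
    exact exists_lsum_mul F l₁ l₂
  one_mem' := ⟨[(1, 1)], by simp⟩
  add_mem' := by
    rintro _ _ ⟨l₁, rfl⟩ ⟨l₂, rfl⟩
    exact ⟨l₁ ++ l₂, lsum_append F l₁ l₂⟩
  zero_mem' := ⟨[], rfl⟩
  neg_mem' := by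
    rintro _ ⟨l, rfl⟩
    refine ⟨l.map fun p => (-p.1, p.2), ?_⟩
    induction l with
    | nil => simp
    | cons p l ih =>
      rw [List.map_cons, lsum_cons, lsum_cons, ih]
      simp only [map_neg]
      ring

variable {F}

theorem mem_lsumSubring {y : constExt K' F} :
    y ∈ lsumSubring (K' := K') F ↔ ∃ l : List (K' × F), lsum F l = y := Iff.rfl

theorem lsum_mem (l : List (K' × F)) : lsum F l ∈ lsumSubring (K' := K') F := ⟨l, rfl⟩

theorem algebraMap_mem_lsumSubring (a : K') :
    algebraMap K' (constExt K' F) a ∈ lsumSubring (K' := K') F := ⟨[(a, 1)], by simp⟩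

theorem bcHom_mem_lsumSubring (f : F) : bcHom K' F f ∈ lsumSubring (K' := K') F :=
  ⟨[(1, f)], by simp⟩

/-! ### algebraicity over `bc F` -/

/-- the subfield `bc F` of `F'` -/
abbrev bcField : Subfield (constExt K' F) := (bcHom K' F).fieldRange

theorem isAlgebraic_algebraMap_bc {a : K'} (ha : IsAlgebraic K a) :
    IsAlgebraic (bcField (K' := K') (F := F)) (algebraMap K' (constExt K' F) a) := by
  obtain ⟨p, hp0, hp⟩ := ha
  -- the ring homomorphism `K → bc F`
  let φ : K →+* bcField (K' := K') (F := F) :=
    ((bcHom K' F).rangeRestrictField).comp (algebraMap K F)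
  refine ⟨p.map φ, (Polynomial.map_ne_zero_iff φ.injective).mpr hp0, ?_⟩
  rw [aeval_def, eval₂_map]
  have hcomp : (algebraMap (bcField (K' := K') (F := F)) (constExt K' F)).comp φ =
      (algebraMap K' (constExt K' F)).comp (algebraMap K K') := by
    refine RingHom.ext fun c => ?_
    exact bcHom_algebraMap (K' := K') F c
  have hp' : eval₂ (algebraMap K K') a p = 0 := by rw [← aeval_def]; exact hp
  rw [hcomp, ← Polynomial.hom_eval₂, hp', map_zero]

variable [Algebra.IsAlgebraic K K']

theorem isAlgebraic_lsum (l : List (K' × F)) :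
    IsAlgebraic (bcField (K' := K') (F := F)) (lsum F l) := by
  induction l with
  | nil => exact isAlgebraic_zero
  | cons p l ih =>
    rw [lsum_cons]
    refine IsAlgebraic.add (IsAlgebraic.mul
      (isAlgebraic_algebraMap_bc (Algebra.IsAlgebraic.isAlgebraic p.1)) ?_) ih
    exact _root_.isAlgebraic_algebraMap (R := bcField (K' := K') (F := F))
      (⟨bcHom K' F p.2, ⟨p.2, rfl⟩⟩ : bcField (K' := K') (F := F))

/-- the subring of linear combinations is closed under inverses -/
theorem inv_mem_lsumSubring {y : constExt K' F} (hy : y ∈ lsumSubring (K' := K') F) :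
    y⁻¹ ∈ lsumSubring (K' := K') F := by
  obtain ⟨l, rfl⟩ := hy
  have halg := isAlgebraic_lsum (K' := K') l
  have hmem : lsum F l ∈ Algebra.adjoin (bcField (K' := K') (F := F)) {lsum F l} :=
    Algebra.self_mem_adjoin_singleton _ _
  have hinv := Subalgebra.inv_mem_of_algebraic
    (Algebra.adjoin (bcField (K' := K') (F := F)) {lsum F l}) (x := ⟨lsum F l, hmem⟩) halg
  -- the adjoined algebra lies in the subring of linear combinations
  have hle : ∀ z ∈ Algebra.adjoin (bcField (K' := K') (F := F)) {lsum F l},
      z ∈ lsumSubring (K' := K') F := by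
    intro z hz
    induction hz using Algebra.adjoin_induction with
    | mem x hx =>
      rw [Set.mem_singleton_iff] at hx
      rw [hx]
      exact lsum_mem l
    | algebraMap r =>
      obtain ⟨f, hf⟩ := r.2
      have : algebraMap (bcField (K' := K') (F := F)) (constExt K' F) r = bcHom K' F f := hf.symm
      rw [this]
      exact bcHom_mem_lsumSubring f
    | add x y _ _ hx hy => exact add_mem hx hy
    | mul x y _ _ hx hy => exact mul_mem hx hy
  exact hle _ hinv

/-- **for `K'/K` algebraic, every element of `F'` is a `K'`-linear combination of elements of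
`bc F`** -/
theorem exists_lsum_eq (y : constExt K' F) : ∃ l : List (K' × F), lsum F l = y := by
  obtain ⟨l₁, l₂, -, rfl⟩ := exists_lsum_div F y
  rw [div_eq_mul_inv]
  exact mul_mem (lsum_mem l₁) (inv_mem_lsumSubring (lsum_mem l₂))

/-! ### a `K`-basis of `F` is a `K'`-basis of `F'` -/

theorem bcHom_smul (c : K) (f : F) :
    bcHom K' F (c • f) = algebraMap K K' c • bcHom K' F f := by
  rw [Algebra.smul_def, map_mul, bcHom_algebraMap, Algebra.smul_def]

theorem bcHom_linearCombination {ι : Type*} (b : ι → F) (d : ι →₀ K) :
    bcHom K' F (Finsupp.linearCombination K b d) =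
      Finsupp.linearCombination K' (fun i => bcHom K' F (b i))
        (d.mapRange (algebraMap K K') (map_zero _)) := by
  rw [Finsupp.linearCombination_apply, Finsupp.linearCombination_apply,
    Finsupp.sum_mapRange_index (h := fun i a => a • bcHom K' F (b i)) (fun i => zero_smul K' _),
    Finsupp.sum, Finsupp.sum, map_sum]
  exact Finset.sum_congr rfl fun i _ => bcHom_smul _ _

theorem span_bcHom_basis {ι : Type*} (b : Module.Basis ι K F) :
    ⊤ ≤ Submodule.span K' (Set.range fun i => bcHom K' F (b i)) := by
  rintro y -
  obtain ⟨l, rfl⟩ := exists_lsum_eq y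
  induction l with
  | nil => exact zero_mem _
  | cons p l ih =>
    rw [lsum_cons]
    refine add_mem ?_ ih
    rw [← Algebra.smul_def]
    refine Submodule.smul_mem _ _ ?_
    have h := bcHom_linearCombination (K' := K') (fun i => b i) (b.repr p.2)
    rw [b.linearCombination_repr] at h
    rw [h, Finsupp.linearCombination_apply]
    refine Submodule.sum_mem _ fun i _ => Submodule.smul_mem _ _ (Submodule.subset_span ⟨i, rfl⟩)

/-- **a `K`-basis of `F` is a `K'`-basis of `F'`** -/
def basisBC {ι : Type*} (b : Module.Basis ι K F) : Module.Basis ι K' (constExt K' F) :=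
  Module.Basis.mk (linearIndependent_bcHom F b.linearIndependent) (span_bcHom_basis b)

@[simp] theorem basisBC_apply {ι : Type*} (b : Module.Basis ι K F) (i : ι) :
    basisBC (K' := K') b i = bcHom K' F (b i) := by
  rw [basisBC, Module.Basis.mk_apply]

/-! ### the coefficientwise action -/

/-- `coeffMap σ` on a `K'`-multiple of an element of `bc F` -/
theorem coeffMap_smul_bc (σ : K' →+* K')
    (hσ : ∀ c : K, σ (algebraMap K K' c) = algebraMap K K' c) (a : K') (f : LaurentSeries K) :
    coeffMap σ (algebraMap K' (LaurentSeries K') a * bc K K' f) =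
      algebraMap K' (LaurentSeries K') (σ a) * bc K K' f := by
  rw [map_mul, coeffMap_algebraMap, coeffMap_coeffMap]
  congr 1
  exact coeffMap_congr (RingHom.ext hσ) f

theorem coe_linearCombination {ι : Type*} (b : ι → F) (c : ι →₀ K') :
    ((Finsupp.linearCombination K' (fun i => bcHom K' F (b i)) c : constExt K' F) :
        LaurentSeries K') =
      c.sum fun i a => algebraMap K' (LaurentSeries K') a * bc K K' (b i : LaurentSeries K) := by
  rw [Finsupp.linearCombination_apply, Finsupp.sum, Finsupp.sum]
  rw [show (((∑ i ∈ c.support, c i • bcHom K' F (b i) : constExt K' F)) : LaurentSeries K') =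
    (constExt K' F).val (∑ i ∈ c.support, c i • bcHom K' F (b i)) from rfl, map_sum]
  refine Finset.sum_congr rfl fun i _ => ?_
  rw [Algebra.smul_def, map_mul]
  rfl

theorem coeffMap_linearCombination {ι : Type*} (b : ι → F) (c : ι →₀ K') (σ : K' →+* K')
    (hσ : ∀ c : K, σ (algebraMap K K' c) = algebraMap K K' c) :
    coeffMap σ ((Finsupp.linearCombination K' (fun i => bcHom K' F (b i)) c : constExt K' F) :
        LaurentSeries K') =
      ((Finsupp.linearCombination K' (fun i => bcHom K' F (b i))
        (c.mapRange σ (map_zero σ)) : constExt K' F) : LaurentSeries K') := by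
  rw [coe_linearCombination, coe_linearCombination,
    Finsupp.sum_mapRange_index
      (h := fun i a => algebraMap K' (LaurentSeries K') a * bc K K' (b i : LaurentSeries K))
      (fun i => by simp), Finsupp.sum, Finsupp.sum, map_sum]
  exact Finset.sum_congr rfl fun i _ => coeffMap_smul_bc σ hσ _ _

/-- **Galois descent of the field of constants**: an element of `F' = K'(bc F)` fixed by the
coefficientwise action of a set `H` of endomorphisms of `K'` over `K` with `K'^H = K` comes from
`F`. -/
theorem exists_bcHom_eq_of_fixed (H : Set (K' →+* K'))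
    (hHK : ∀ σ ∈ H, ∀ c : K, σ (algebraMap K K' c) = algebraMap K K' c)
    (hfix : ∀ a : K', (∀ σ ∈ H, σ a = a) → a ∈ Set.range (algebraMap K K'))
    (y : constExt K' F)
    (hy : ∀ σ ∈ H, coeffMap σ (y : LaurentSeries K') = (y : LaurentSeries K')) :
    ∃ f : F, bcHom K' F f = y := by
  classical
  set b := Module.Basis.ofVectorSpace K F with hb
  set B := basisBC (K' := K') b with hB
  set c := B.repr y with hc
  have hyc : Finsupp.linearCombination K' (fun i => bcHom K' F (b i)) c = y := by
    have h := B.linearCombination_repr y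
    have hfun : (fun i => bcHom K' F (b i)) = B := by
      funext i
      rw [hB, basisBC_apply]
    rw [hfun]
    exact h
  have hli : LinearIndependent K' (fun i => bcHom K' F (b i)) :=
    linearIndependent_bcHom F b.linearIndependent
  -- every coordinate is fixed by `H`
  have hcoord : ∀ σ ∈ H, c.mapRange σ (map_zero σ) = c := by
    intro σ hσ
    apply (linearIndependent_iff_injective_finsuppLinearCombination.mp hli)
    apply Subtype.ext
    rw [← coeffMap_linearCombination (fun i => b i) c σ (hHK σ hσ), hyc]
    exact hy σ hσ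
  have hmem : ∀ i, c i ∈ Set.range (algebraMap K K') := by
    intro i
    refine hfix _ fun σ hσ => ?_
    have := DFunLike.congr_fun (hcoord σ hσ) i
    simpa using this
  choose d hd using hmem
  let d' : Module.Basis.ofVectorSpaceIndex K F →₀ K := Finsupp.onFinset c.support d (by
    intro i hi
    rw [Finsupp.mem_support_iff]
    intro h0
    apply hi
    have := hd i
    rw [h0] at this
    exact (map_eq_zero _).mp this)
  refine ⟨Finsupp.linearCombination K b d', ?_⟩
  rw [bcHom_linearCombination, ← hyc]
  congr 1
  ext i
  simp only [Finsupp.mapRange_apply, d', Finsupp.onFinset_apply]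
  exact hd i

/-! ### the modular case: invariants of a subgroup of the arithmetic Galois action -/

section Laurent

variable {L : Type*} [Field L] [Algebra ℚ L] [Algebra.IsAlgebraic ℚ L]
variable (F₀ : IntermediateField ℚ (LaurentSeries ℚ)) (H : Subgroup (L ≃ₐ[ℚ] L))

/-- **the invariants of `H` in `L(F₀)` are `L^H(F₀)`**: an element of `laurentBaseChange L F₀` fixed
by the arithmetic Galois action of every `σ ∈ H` is the coefficientwise image of an element of
`laurentBaseChange (fixedField H) F₀`. -/
theorem exists_fixedField_form (x : laurentBaseChange L F₀)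
    (hx : ∀ σ ∈ H, arithmeticGalois F₀ σ • x = x) :
    ∃ x₀ : laurentBaseChange (IntermediateField.fixedField H) F₀,
      coeffMap (algebraMap (IntermediateField.fixedField H) L) (x₀ : LaurentSeries _) =
        (x : LaurentSeries L) := by
  have : Algebra.IsAlgebraic (IntermediateField.fixedField H) L :=
    Algebra.IsAlgebraic.tower_top (K := ℚ) (IntermediateField.fixedField H)
  have hE : constExt L (laurentBaseChange (IntermediateField.fixedField H) F₀) =
      laurentBaseChange L F₀ := constExt_laurentBaseChange F₀
  have hxm : (x : LaurentSeries L) ∈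
      constExt L (laurentBaseChange (IntermediateField.fixedField H) F₀) := by
    rw [hE]; exact x.2
  obtain ⟨f, hf⟩ := exists_bcHom_eq_of_fixed
    (F := laurentBaseChange (IntermediateField.fixedField H) F₀)
    (H := {τ : L →+* L | ∃ σ ∈ H, τ = (σ : L →+* L)})
    (by
      rintro _ ⟨σ, hσ, rfl⟩ c
      exact c.2 ⟨σ, hσ⟩)
    (by
      intro a ha
      refine ⟨⟨a, fun σ => ?_⟩, rfl⟩
      exact ha _ ⟨σ.1, σ.2, rfl⟩)
    ⟨(x : LaurentSeries L), hxm⟩
    (by
      rintro _ ⟨σ, hσ, rfl⟩
      have := congrArg (fun z : laurentBaseChange L F₀ => (z : LaurentSeries L)) (hx σ hσ)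
      simpa only [coe_arithmeticGalois_smul] using this)
  refine ⟨f, ?_⟩
  have := congrArg (fun z : constExt L (laurentBaseChange (IntermediateField.fixedField H) F₀) =>
    (z : LaurentSeries L)) hf
  simpa only [coe_bcHom] using this

/-- the coefficientwise embedding `K(F₀) → L(F₀)` for an intermediate field `K` of `L/ℚ` -/
def toBar (K : IntermediateField ℚ L) : laurentBaseChange K F₀ →+* laurentBaseChange L F₀ where
  toFun x := ⟨bc K L (x : LaurentSeries K), by
    rw [← constExt_laurentBaseChange (K := K) (K' := L) F₀]
    exact bc_mem_constExt _ x.2⟩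
  map_one' := Subtype.ext (map_one (bc K L))
  map_mul' a b := Subtype.ext (map_mul (bc K L) (a : LaurentSeries K) (b : LaurentSeries K))
  map_zero' := Subtype.ext (map_zero (bc K L))
  map_add' a b := Subtype.ext (map_add (bc K L) (a : LaurentSeries K) (b : LaurentSeries K))

@[simp] theorem coe_toBar (K : IntermediateField ℚ L) (x : laurentBaseChange K F₀) :
    ((toBar F₀ K x : laurentBaseChange L F₀) : LaurentSeries L) =
      bc K L (x : LaurentSeries K) := rfl

theorem toBar_injective (K : IntermediateField ℚ L) : Function.Injective (toBar F₀ K) :=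
  (toBar F₀ K).injective

theorem toBar_algebraMap (K : IntermediateField ℚ L) (c : K) :
    toBar F₀ K (algebraMap K (laurentBaseChange K F₀) c) =
      algebraMap L (laurentBaseChange L F₀) (c : L) :=
  Subtype.ext (bc_algebraMap c)

/-- elements of `K(F₀)` are fixed by the automorphisms fixing `K` -/
theorem arithmeticGalois_smul_toBar (K : IntermediateField ℚ L) (σ : L ≃ₐ[ℚ] L)
    (hσ : ∀ c : K, σ (c : L) = c) (x : laurentBaseChange K F₀) :
    arithmeticGalois F₀ σ • toBar F₀ K x = toBar F₀ K x := by
  apply Subtype.ext
  rw [coe_arithmeticGalois_smul, coe_toBar, coeffMap_coeffMap]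
  exact coeffMap_congr (RingHom.ext fun c => hσ c) _

/-- **`L(F₀)^H = L^H(F₀)`** -/
theorem range_toBar_fixedField :
    Set.range (toBar F₀ (IntermediateField.fixedField H)) =
      {x | ∀ σ ∈ H, arithmeticGalois F₀ σ • x = x} := by
  ext x
  constructor
  · rintro ⟨x₀, rfl⟩ σ hσ
    exact arithmeticGalois_smul_toBar F₀ _ σ
      (fun c : IntermediateField.fixedField H => c.2 ⟨σ, hσ⟩) x₀
  · intro hx
    obtain ⟨x₀, hx₀⟩ := exists_fixedField_form F₀ H x hx
    exact ⟨x₀, Subtype.ext hx₀⟩

end Laurent

end Fermat.Agent.S36.K0Fixed
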