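/-
S36 (PROJECT V, helper19): **the minimal polynomial of `j₂ = j(t^(q²))` over `E (N0 q) = ℚ̄(X₀(N0 q))`**
(`q` prime, `q ∤ N0`) is `G(X) = Φ_q(X, j₁)/(X - j)`, `j₁ = j(t^q)`, `Φ_q ∈ ℤ[j][X]` the modular
polynomial; over `ℚ̄((t))` it splits as `G = (X - j₂) ∏_{0 < b < q} (X - j(ζ^b t))`.

Here `E (N0 q) → E (N0 q q)` is `α` (the inclusion), `Φ` is any integral polynomial with
`Φ(X, j(t)) = rPoly q ℤ` (e.g. the Kronecker one of `S34/Kronecker`).

* `map_phiJ1` : `Φ(X, j₁) = (X - j₂) ∏_{b < q} (X - j(ζ^b t))` over `ℚ̄((t))`;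
* `phiJ1_eq` : `Φ(X, j₁) = (X - j) · G` over `E (N0 q)`, `G = gPolyJ2` monic of degree `q`;
* `map_gPolyJ2` : the splitting of `G` over `ℚ̄((t))`;
* `minpoly_j2` : `minpoly_{E (N0 q)} j₂ = G` (along `α`);
* `eval_j_map_gPolyJ2` : `G(j) = (j - j₂) ∏_{0 < b < q} (j - j(ζ^b t))` (the input of the
  "theta-derivative" computation `G(j) = q · unit`).
-/
import Mathlib
import Fermat.Agent.S36.LevelDvd
import Fermat.Agent.S34.Kronecker

set_option autoImplicit false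
set_option linter.unusedSectionVars false
set_option linter.style.haveILetI false

noncomputable section

namespace Fermat.Agent.S36.MinpolyJ2

open Polynomial ModularCurve AlgebraicCurve IntermediateField
open Fermat.Agent.S24.DegreeAlg Fermat.Agent.S24.FF Fermat.Agent.S18.A.Instances
open Fermat.Agent.S37.Hecke.Integral Fermat.Agent.S35.LevelMaps
open Fermat.Agent.S28.LaurentRescale Fermat.Agent.S28.ModPoly Fermat.Agent.S36.LevelDvd

local notation "Kb" => AlgebraicClosure ℚ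

variable {N0 q : ℕ} [NeZero N0] [NeZero q] [NeZero (N0 * q)] [NeZero (N0 * q * q)]

/-- `j₁ = j(t^q) ∈ E (N0 q)` -/
abbrev j1 (N0 q : ℕ) [NeZero N0] [NeZero q] : E (N0 * q) := Fermat.Agent.S34.PowerBasisX0.jl N0 q

/-- `j₂ = j(t^(q²)) ∈ E (N0 q q)` -/
def j2 (N0 q : ℕ) [NeZero N0] [NeZero q] [NeZero (N0 * q)] : E (N0 * q * q) :=
  heckeBetaBar Kb (N0 * q) q (j1 N0 q)

theorem coe_j1 : ((j1 N0 q : E (N0 * q)) : LaurentSeries Kb) = qExpand Kb q (jqModC Kb) :=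
  Fermat.Agent.S34.PowerBasisX0.coe_jl

theorem coe_j2 :
    ((j2 N0 q : E (N0 * q * q)) : LaurentSeries Kb) = qExpand Kb q (qExpand Kb q (jqModC Kb)) := by
  rw [j2, coe_heckeBetaBar, coe_j1]

/-- `Φ(X, j₁) ∈ E (N0 q)[X]` -/
def phiJ1 (N0 q : ℕ) [NeZero N0] [NeZero q] (Φ : Polynomial (Polynomial ℤ)) :
    Polynomial (E (N0 * q)) :=
  Φ.map ((aeval (j1 N0 q) : Polynomial ℤ →ₐ[ℤ] E (N0 * q)) : Polynomial ℤ →+* E (N0 * q))

/-- the coefficient embedding `E N → ℚ̄((t))` -/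
abbrev valE (N : ℕ) [NeZero N] : E N →+* LaurentSeries Kb :=
  (modularFunctionFieldBar N).val.toRingHom

theorem valE_injective (N : ℕ) [NeZero N] : Function.Injective (valE N) :=
  (valE N).injective

theorem valE_comp_aeval :
    (valE (N0 * q)).comp
        ((aeval (j1 N0 q) : Polynomial ℤ →ₐ[ℤ] E (N0 * q)) : Polynomial ℤ →+* E (N0 * q)) =
      (evalL Kb (qExpand Kb q (jqModC Kb))).comp (Polynomial.mapRingHom (Int.castRingHom Kb)) := by
  apply Polynomial.ringHom_ext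
  · intro a
    simp only [RingHom.comp_apply, Polynomial.coe_mapRingHom, Polynomial.map_C, evalL_C]
    rw [show ((aeval (j1 N0 q) : Polynomial ℤ →ₐ[ℤ] E (N0 * q)) : Polynomial ℤ →+* E (N0 * q))
        (C a) = ((a : ℤ) : E (N0 * q)) by simp]
    rw [map_intCast, eq_intCast, ← Fermat.Agent.S18.B.Basic.algebraMap_eq_C, map_intCast]
  · simp only [RingHom.comp_apply, Polynomial.coe_mapRingHom, Polynomial.map_X, evalL_X]
    rw [show ((aeval (j1 N0 q) : Polynomial ℤ →ₐ[ℤ] E (N0 * q)) : Polynomial ℤ →+* E (N0 * q))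
        X = j1 N0 q by simp]
    exact coe_j1

/-- **`Φ(X, j₁) = (X - j₂) ∏_{b < q} (X - j(ζ^b t))` over `ℚ̄((t))`.** -/
theorem map_phiJ1 {Φ : Polynomial (Polynomial ℤ)}
    (hΦ : Φ.map (evalL ℤ (jqModC ℤ)) = rPoly q ℤ) {ζ : Kbˣ} (hζ : IsPrimitiveRoot ζ q) :
    (phiJ1 N0 q Φ).map (valE (N0 * q)) =
      (X - C (qExpand Kb q (qExpand Kb q (jqModC Kb)))) *
        ∏ b ∈ Finset.range q, (X - C (rescaleU (ζ ^ b) (jqModC Kb))) := by
  rw [phiJ1, Polynomial.map_map, valE_comp_aeval, ← Polynomial.map_map,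
    ← qExpand_comp_evalL, ← Polynomial.map_map, map_map_evalL q Kb Φ hΦ, rPoly,
    Polynomial.map_mul, Polynomial.map_sub, Polynomial.map_X, Polynomial.map_C,
    map_qExpand_gPoly q Kb hζ]

/-! ### The cofactor `G = Φ(X, j₁)/(X - j)` -/

theorem exists_primitiveRoot_q (hq : q.Prime) : ∃ ζ : Kbˣ, IsPrimitiveRoot ζ q :=
  Fermat.Agent.S28.StepDeg.exists_isPrimitiveRoot_units (k := Kb) (p := q)
    (Nat.cast_ne_zero.mpr hq.ne_zero)

theorem coe_jgen' : valE (N0 * q) (jgen (N0 * q)) = jqModC Kb :=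
  Fermat.Agent.S18.B.Basic.coe_jgen_eq (N0 * q)

/-- `Φ(j, j₁) = 0`. -/
theorem phiJ1_isRoot_j (hq : q.Prime) {Φ : Polynomial (Polynomial ℤ)}
    (hΦ : Φ.map (evalL ℤ (jqModC ℤ)) = rPoly q ℤ) :
    (phiJ1 N0 q Φ).IsRoot (jgen (N0 * q)) := by
  obtain ⟨ζ, hζ⟩ := exists_primitiveRoot_q (q := q) hq
  rw [IsRoot.def]
  apply valE_injective
  rw [map_zero, ← Polynomial.eval₂_hom, ← Polynomial.eval_map, map_phiJ1 hΦ hζ, eval_mul,
    eval_prod]
  refine mul_eq_zero_of_right _ (Finset.prod_eq_zero (Finset.mem_range.2 hq.pos) ?_)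
  rw [pow_zero, rescaleU_one, eval_sub, eval_X, eval_C, coe_jgen', sub_self]

/-- `G = Φ(X, j₁)/(X - j) ∈ E (N0 q)[X]` -/
def gPolyJ2 (N0 q : ℕ) [NeZero N0] [NeZero q] [NeZero (N0 * q)] (Φ : Polynomial (Polynomial ℤ)) :
    Polynomial (E (N0 * q)) :=
  phiJ1 N0 q Φ /ₘ (X - C (jgen (N0 * q)))

/-- **`Φ(X, j₁) = (X - j) · G`.** -/
theorem phiJ1_eq (hq : q.Prime) {Φ : Polynomial (Polynomial ℤ)}
    (hΦ : Φ.map (evalL ℤ (jqModC ℤ)) = rPoly q ℤ) :
    phiJ1 N0 q Φ = (X - C (jgen (N0 * q))) * gPolyJ2 N0 q Φ :=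
  (mul_divByMonic_eq_iff_isRoot.2 (phiJ1_isRoot_j hq hΦ)).symm

theorem monic_phiJ1 {Φ : Polynomial (Polynomial ℤ)} (hmonic : Φ.Monic) :
    (phiJ1 N0 q Φ).Monic := hmonic.map _

theorem natDegree_phiJ1 {Φ : Polynomial (Polynomial ℤ)} (hmonic : Φ.Monic) :
    (phiJ1 N0 q Φ).natDegree = Φ.natDegree := hmonic.natDegree_map _

theorem monic_gPolyJ2 (hq : q.Prime) {Φ : Polynomial (Polynomial ℤ)} (hmonic : Φ.Monic)
    (hΦ : Φ.map (evalL ℤ (jqModC ℤ)) = rPoly q ℤ) : (gPolyJ2 N0 q Φ).Monic := by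
  have h := monic_phiJ1 (N0 := N0) (q := q) hmonic
  rw [phiJ1_eq hq hΦ] at h
  exact (monic_X_sub_C _).of_mul_monic_left h

theorem natDegree_gPolyJ2 (hq : q.Prime) {Φ : Polynomial (Polynomial ℤ)} (hmonic : Φ.Monic)
    (hdeg : Φ.natDegree = q + 1) (hΦ : Φ.map (evalL ℤ (jqModC ℤ)) = rPoly q ℤ) :
    (gPolyJ2 N0 q Φ).natDegree = q := by
  have h := natDegree_phiJ1 (N0 := N0) (q := q) hmonic
  rw [phiJ1_eq hq hΦ, (monic_X_sub_C _).natDegree_mul (monic_gPolyJ2 hq hmonic hΦ),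
    natDegree_X_sub_C, hdeg] at h
  omega

/-- **`G = (X - j₂) ∏_{0 < b < q} (X - j(ζ^b t))` over `ℚ̄((t))`.** -/
theorem map_gPolyJ2 (hq : q.Prime) {Φ : Polynomial (Polynomial ℤ)}
    (hΦ : Φ.map (evalL ℤ (jqModC ℤ)) = rPoly q ℤ) {ζ : Kbˣ} (hζ : IsPrimitiveRoot ζ q) :
    (gPolyJ2 N0 q Φ).map (valE (N0 * q)) =
      (X - C (qExpand Kb q (qExpand Kb q (jqModC Kb)))) *
        ∏ b ∈ Finset.range (q - 1), (X - C (rescaleU (ζ ^ (b + 1)) (jqModC Kb))) := by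
  have h1 := map_phiJ1 (N0 := N0) hΦ hζ
  rw [phiJ1_eq hq hΦ, Polynomial.map_mul, Polynomial.map_sub, Polynomial.map_X, Polynomial.map_C,
    coe_jgen'] at h1
  rw [show Finset.range q = Finset.range ((q - 1) + 1) by rw [Nat.sub_add_cancel hq.pos],
    Finset.prod_range_succ', pow_zero, rescaleU_one] at h1
  have hne : (X - C (jqModC Kb) : Polynomial (LaurentSeries Kb)) ≠ 0 := X_sub_C_ne_zero _
  apply mul_left_cancel₀ hne
  rw [h1]
  ring

/-! ### The minimal polynomial -/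

/-- in prime degree the minimal polynomial of an element outside the base has full degree -/
theorem natDegree_minpoly_of_prime {F E' : Type*} [Field F] [Field E'] [Algebra F E'] {q : ℕ}
    (hq : q.Prime) (hfr : Module.finrank F E' = q) (y : E')
    (hy : y ∉ Set.range (algebraMap F E')) : (minpoly F y).natDegree = q := by
  obtain ⟨b, hb⟩ := exists_basis_pow_of_prime hq hfr y hy
  haveI : FiniteDimensional F E' := FiniteDimensional.of_finrank_pos (by rw [hfr]; exact hq.pos)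
  apply le_antisymm
  · rw [← hfr]; exact minpoly.natDegree_le y
  · by_contra hlt
    rw [not_le] at hlt
    have hint : IsIntegral F y := IsIntegral.of_finite F y
    -- `y^d` is a combination of lower powers, contradicting independence
    have hli := b.linearIndependent
    have hpow : ∀ i : Fin q, b i = y ^ (i : ℕ) := hb
    have hm := minpoly.aeval F y
    rw [Polynomial.aeval_eq_sum_range' (n := q) hlt] at hm
    rw [Fintype.linearIndependent_iff] at hli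
    have hsum : ∑ i : Fin q, (minpoly F y).coeff (i : ℕ) • b i = 0 := by
      rw [← hm, Finset.sum_range]
      exact Finset.sum_congr rfl fun i _ => by rw [hpow]
    have h0 := hli (fun i => (minpoly F y).coeff (i : ℕ)) hsum ⟨(minpoly F y).natDegree, hlt⟩
    have hlead : (minpoly F y).coeff (minpoly F y).natDegree = 1 := (minpoly.monic hint)
    simp only at h0
    rw [hlead] at h0
    exact one_ne_zero h0

theorem j2_not_mem_range (hq : q.Prime) (hqN0 : ¬ q ∣ N0) :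
    letI := algebraAlong (heckeAlphaBar Kb (N0 * q) q)
    j2 N0 q ∉ Set.range (algebraMap (E (N0 * q)) (E (N0 * q * q))) := by
  letI := algebraAlong (heckeAlphaBar Kb (N0 * q) q)
  rintro ⟨g, hg⟩
  have h1 : (g : LaurentSeries Kb) = qExpand Kb q (qExpand Kb q (jqModC Kb)) := by
    rw [← coe_j2 (N0 := N0), ← hg]
    exact (coe_heckeAlphaBar (L := Kb) (N0 * q) q g).symm
  have h2 : (g : LaurentSeries Kb) ∈ modularFunctionFieldBar (N0 * q) := g.2
  rw [h1] at h2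
  exact jq2_not_mem_bar hq hqN0 h2

theorem finrank_alpha (hq : q.Prime) :
    letI := algebraAlong (heckeAlphaBar Kb (N0 * q) q)
    Module.finrank (E (N0 * q)) (E (N0 * q * q)) = q :=
  finrankAlong_alpha_of_dvd (N0 * q) hq (Dvd.intro_left N0 rfl)

theorem valE_alpha (g : E (N0 * q)) :
    valE (N0 * q * q) (heckeAlphaBar Kb (N0 * q) q g) = valE (N0 * q) g :=
  coe_heckeAlphaBar (L := Kb) (N0 * q) q g

theorem valE_algebraMap (g : E (N0 * q)) :
    letI := algebraAlong (heckeAlphaBar Kb (N0 * q) q)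
    valE (N0 * q * q) (algebraMap (E (N0 * q)) (E (N0 * q * q)) g) = valE (N0 * q) g :=
  valE_alpha g

theorem valE_comp_algebraMap :
    letI := algebraAlong (heckeAlphaBar Kb (N0 * q) q)
    (valE (N0 * q * q)).comp (algebraMap (E (N0 * q)) (E (N0 * q * q))) = valE (N0 * q) := by
  letI := algebraAlong (heckeAlphaBar Kb (N0 * q) q)
  refine RingHom.ext fun g => ?_
  rw [RingHom.comp_apply]
  exact valE_algebraMap g

/-- `G(j₂) = 0`. -/
theorem aeval_j2_gPolyJ2 (hq : q.Prime) {Φ : Polynomial (Polynomial ℤ)}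
    (hΦ : Φ.map (evalL ℤ (jqModC ℤ)) = rPoly q ℤ) :
    letI := algebraAlong (heckeAlphaBar Kb (N0 * q) q)
    aeval (j2 N0 q) (gPolyJ2 N0 q Φ) = 0 := by
  letI := algebraAlong (heckeAlphaBar Kb (N0 * q) q)
  obtain ⟨ζ, hζ⟩ := exists_primitiveRoot_q (q := q) hq
  apply valE_injective
  rw [map_zero, aeval_def, Polynomial.hom_eval₂, valE_comp_algebraMap, ← Polynomial.eval_map,
    map_gPolyJ2 hq hΦ hζ, eval_mul, eval_sub, eval_X, eval_C]
  have : valE (N0 * q * q) (j2 N0 q) = qExpand Kb q (qExpand Kb q (jqModC Kb)) := coe_j2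
  rw [this, sub_self, zero_mul]

theorem natDegree_minpoly_j2 (hq : q.Prime) (hqN0 : ¬ q ∣ N0) :
    letI := algebraAlong (heckeAlphaBar Kb (N0 * q) q)
    (minpoly (E (N0 * q)) (j2 N0 q)).natDegree = q := by
  letI := algebraAlong (heckeAlphaBar Kb (N0 * q) q)
  exact natDegree_minpoly_of_prime hq (finrank_alpha hq) (j2 N0 q) (j2_not_mem_range hq hqN0)

/-- **The minimal polynomial of `j₂` over `E (N0 q)` (along `α`) is `G`.** -/
theorem minpoly_j2 (hq : q.Prime) (hqN0 : ¬ q ∣ N0) {Φ : Polynomial (Polynomial ℤ)}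
    (hmonic : Φ.Monic) (hdeg : Φ.natDegree = q + 1)
    (hΦ : Φ.map (evalL ℤ (jqModC ℤ)) = rPoly q ℤ) :
    letI := algebraAlong (heckeAlphaBar Kb (N0 * q) q)
    minpoly (E (N0 * q)) (j2 N0 q) = gPolyJ2 N0 q Φ := by
  letI := algebraAlong (heckeAlphaBar Kb (N0 * q) q)
  have hfr := finrank_alpha (N0 := N0) hq
  haveI : FiniteDimensional (E (N0 * q)) (E (N0 * q * q)) :=
    FiniteDimensional.of_finrank_pos (by rw [hfr]; exact hq.pos)
  have hdvd : minpoly (E (N0 * q)) (j2 N0 q) ∣ gPolyJ2 N0 q Φ :=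
    minpoly.dvd _ _ (aeval_j2_gPolyJ2 hq hΦ)
  have hle : (gPolyJ2 N0 q Φ).natDegree ≤ (minpoly (E (N0 * q)) (j2 N0 q)).natDegree := by
    rw [natDegree_gPolyJ2 hq hmonic hdeg hΦ, natDegree_minpoly_j2 hq hqN0]
  exact (Polynomial.eq_of_monic_of_dvd_of_natDegree_le
    (minpoly.monic (IsIntegral.of_finite _ _)) (monic_gPolyJ2 hq hmonic hΦ) hdvd hle).symm

/-- **`G(j) = (j - j₂) ∏_{0 < b < q} (j - j(ζ^b t))`** in `ℚ̄((t))`: the input of the computation
`G(j) = q · unit` (`∏ (1 - ζ^b) = q`, `(j - j(ζ^b t))/(1 - ζ^b) ≡ θ j`). -/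
theorem valE_eval_j_gPolyJ2 (hq : q.Prime) {Φ : Polynomial (Polynomial ℤ)}
    (hΦ : Φ.map (evalL ℤ (jqModC ℤ)) = rPoly q ℤ) {ζ : Kbˣ} (hζ : IsPrimitiveRoot ζ q) :
    valE (N0 * q) ((gPolyJ2 N0 q Φ).eval (jgen (N0 * q))) =
      (jqModC Kb - qExpand Kb q (qExpand Kb q (jqModC Kb))) *
        ∏ b ∈ Finset.range (q - 1), (jqModC Kb - rescaleU (ζ ^ (b + 1)) (jqModC Kb)) := by
  rw [← Polynomial.eval₂_at_apply, ← Polynomial.eval_map, map_gPolyJ2 hq hΦ hζ, eval_mul,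
    eval_prod, eval_sub, eval_X, eval_C, coe_jgen']
  refine congrArg _ (Finset.prod_congr rfl fun b _ => ?_)
  rw [eval_sub, eval_X, eval_C]

/-- **Summary with the Kronecker polynomial**: there is `Φ ∈ ℤ[j][X]` monic of degree `q + 1` with
`Φ ≡ (X - j^q)(X^q - j)` in characteristic `q`, such that `Φ(X, j₁) = (X - j) G` over `E (N0 q)`
and `G` is the minimal polynomial of `j₂` over `E (N0 q)`. -/
theorem exists_kronecker_minpoly_j2 (hq : q.Prime) (hqN0 : ¬ q ∣ N0) :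
    ∃ Φ : Polynomial (Polynomial ℤ), Φ.Monic ∧ Φ.natDegree = q + 1 ∧
      Φ.map (evalL ℤ (jqModC ℤ)) = rPoly q ℤ ∧
      (∀ (k : Type) [Field k] [CharP k q],
        Φ.map (Polynomial.mapRingHom (Int.castRingHom k)) = (X - C (X ^ q)) * (X ^ q - C X)) ∧
      phiJ1 N0 q Φ = (X - C (jgen (N0 * q))) * gPolyJ2 N0 q Φ ∧
      (gPolyJ2 N0 q Φ).Monic ∧ (gPolyJ2 N0 q Φ).natDegree = q ∧
      (letI := algebraAlong (heckeAlphaBar Kb (N0 * q) q);
        minpoly (E (N0 * q)) (j2 N0 q) = gPolyJ2 N0 q Φ) := by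
  haveI : Fact q.Prime := ⟨hq⟩
  obtain ⟨Φ, hmonic, hdeg, hΦ, hchar⟩ := Fermat.Agent.S34.Kronecker.kronecker q
  exact ⟨Φ, hmonic, hdeg, hΦ, hchar, phiJ1_eq hq hΦ, monic_gPolyJ2 hq hmonic hΦ,
    natDegree_gPolyJ2 hq hmonic hdeg hΦ, minpoly_j2 hq hqN0 hmonic hdeg hΦ⟩

end Fermat.Agent.S36.MinpolyJ2
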