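/-
S36 (PROJECT V, helper19): **power bases over the fixed field `K = ℚ̄^H`** (`H` a subgroup of
`Gal(ℚ̄/ℚ)`; `H` = inertia gives `K = K₀`) of the function fields
`F_K(N) = laurentBaseChange K (modularFunctionFieldFull N)`.

* `exists_powerBasis_of_basis_pow` : a basis `1, y, …, y^(n-1)` of `E N'` over `E N` along a map `φ`
  commuting with the arithmetic Galois action and restricting to `φ_K : F_K(N) → F_K(N')`, with
  `y = toBar y_K`, descends to a `PowerBasis` of `F_K(N')` over `F_K(N)` along `φ_K` with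
  generator `y_K` (the coordinates of an `H`-fixed element are `H`-fixed);
* `minpoly_eq_of_powerBasis` : a monic polynomial of degree `pb.dim` killing `pb.gen` is its minimal
  polynomial.
-/
import Mathlib
import Fermat.Agent.S36.MinpolyJ2
import Fermat.Agent.S36.K0Fixed

set_option autoImplicit false
set_option linter.unusedSectionVars false
set_option linter.style.haveILetI false

noncomputable section

namespace Fermat.Agent.S36.PowerBasisK0

open Polynomial ModularCurve AlgebraicCurve IntermediateField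
open Fermat.Agent.S24.DegreeAlg Fermat.Agent.S35.LevelMaps Fermat.Agent.S36.K0Fixed
open Fermat.Agent.S30.Descent.ConstExt

local notation "Kb" => AlgebraicClosure ℚ

/-! ### Generalities -/

/-- a monic polynomial of degree `pb.dim` killing `pb.gen` is its minimal polynomial -/
theorem minpoly_eq_of_powerBasis {R S : Type*} [Field R] [Field S] [Algebra R S]
    (pb : PowerBasis R S) (G : Polynomial R) (hG : G.Monic) (hdeg : G.natDegree = pb.dim)
    (hroot : aeval pb.gen G = 0) : minpoly R pb.gen = G := by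
  have hdvd : minpoly R pb.gen ∣ G := minpoly.dvd _ _ hroot
  refine (Polynomial.eq_of_monic_of_dvd_of_natDegree_le
    (minpoly.monic pb.isIntegral_gen) hG hdvd ?_).symm
  rw [hdeg, pb.natDegree_minpoly]

/-- **Descent of a basis of powers (abstract form).** `F ⊆ E`, `F' ⊆ E'` (via `t`, `t'`), a
commuting square `φK : F → F'`, `φ : E → E'`, a family of endomorphisms `(s i, s' i)` of `(E, E')`
compatible with `φ`, fixing `t' F'` pointwise and with `E^s = t F`; then a basis of `E'` over `E`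
consisting of the powers of `t' yK` descends to a power basis of `F'` over `F` generated by `yK`. -/
theorem exists_powerBasis_of_basis_pow_abstract
    {F F' E₁ E₂ ι : Type*} [Field F] [Field F'] [Field E₁] [Field E₂]
    (t : F →+* E₁) (t' : F' →+* E₂) (φK : F →+* F') (φ : E₁ →+* E₂)
    (hφ : ∀ x, t' (φK x) = φ (t x))
    (s : ι → (E₁ →+* E₁)) (s' : ι → (E₂ →+* E₂))
    (hs : ∀ i x, s' i (φ x) = φ (s i x))
    (hfix' : ∀ i z, s' i (t' z) = t' z)
    (hfix : ∀ x : E₁, (∀ i, s i x = x) → ∃ c, t c = x)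
    (yK : F') {n : ℕ}
    (b : letI := φ.toAlgebra; Module.Basis (Fin n) E₁ E₂)
    (hb : ∀ i, b i = (t' yK) ^ (i : ℕ)) :
    letI := φK.toAlgebra
    ∃ pb : PowerBasis F F', pb.gen = yK ∧ pb.dim = n := by
  classical
  letI aK : Algebra F F' := φK.toAlgebra
  letI aB : Algebra E₁ E₂ := φ.toAlgebra
  have hsmulB : ∀ (c : E₁) (z : E₂), c • z = φ c * z := fun c z => Algebra.smul_def c z
  have hsmulK : ∀ (c : F) (z : F'), c • z = φK c * z := fun c z => Algebra.smul_def c z
  have ht'inj : Function.Injective t' := t'.injective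
  have htinj : Function.Injective t := t.injective
  -- coordinates w.r.t. `b` of a fixed element are fixed
  have hcoord : ∀ xK : F', ∀ i, ∃ c : F, t c = b.repr (t' xK) i := by
    intro xK i
    refine hfix _ fun σ => ?_
    have hsum : t' xK = ∑ j, b.repr (t' xK) j • b j := (b.sum_repr (t' xK)).symm
    have h2 : t' xK = ∑ j, (s σ (b.repr (t' xK) j)) • b j := by
      calc t' xK = s' σ (t' xK) := (hfix' σ xK).symm
        _ = s' σ (∑ j, b.repr (t' xK) j • b j) := by rw [← hsum]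
        _ = ∑ j, s' σ (b.repr (t' xK) j • b j) := map_sum _ _ _
        _ = ∑ j, (s σ (b.repr (t' xK) j)) • b j := by
            refine Finset.sum_congr rfl fun j _ => ?_
            rw [hsmulB, hsmulB, map_mul, hs, hb, map_pow, hfix']
    have h3 := congrArg (fun z => b.repr z i) h2
    simp only [b.repr_sum_self] at h3
    exact h3.symm
  -- linear independence
  have hli : LinearIndependent F (fun i : Fin n => yK ^ (i : ℕ)) := by
    rw [Fintype.linearIndependent_iff]
    intro g hg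
    have h1 := congrArg t' hg
    rw [map_sum, map_zero] at h1
    have h2 : ∑ i, t (g i) • b i = 0 := by
      rw [← h1]
      refine Finset.sum_congr rfl fun i _ => ?_
      rw [hsmulB, hsmulK, map_mul, hφ, map_pow, hb]
    have h3 := Fintype.linearIndependent_iff.1 b.linearIndependent _ h2
    intro i
    exact htinj (by rw [h3 i, map_zero])
  -- spanning
  have hsp : ⊤ ≤ Submodule.span F (Set.range fun i : Fin n => yK ^ (i : ℕ)) := by
    intro xK _
    choose c hc using hcoord xK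
    have hx : xK = ∑ i, c i • yK ^ (i : ℕ) := by
      apply ht'inj
      calc t' xK = ∑ i, b.repr (t' xK) i • b i := (b.sum_repr (t' xK)).symm
        _ = ∑ i, t' (c i • yK ^ (i : ℕ)) := by
            refine Finset.sum_congr rfl fun i _ => ?_
            rw [hsmulB, hsmulK, map_mul, hφ, map_pow, hb, hc]
        _ = t' (∑ i, c i • yK ^ (i : ℕ)) := (map_sum _ _ _).symm
    rw [hx]
    exact Submodule.sum_mem _ fun i _ =>
      Submodule.smul_mem _ _ (Submodule.subset_span ⟨i, rfl⟩)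
  refine ⟨{ gen := yK, dim := n, basis := Module.Basis.mk hli hsp,
            basis_eq_pow := fun i => by rw [Module.Basis.mk_apply] }, rfl, rfl⟩

variable (H : Subgroup (Kb ≃ₐ[ℚ] Kb))

/-- `F_K(N)`, `K = ℚ̄^H` -/
abbrev FK (N : ℕ) : Type :=
  ↥(laurentBaseChange (IntermediateField.fixedField H) (modularFunctionFieldFull N))

/-- the coefficientwise embedding `F_K(N) → E N` -/
abbrev tB (N : ℕ) : FK H N →+* E N :=
  toBar (modularFunctionFieldFull N) (IntermediateField.fixedField H)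

theorem tB_injective (N : ℕ) : Function.Injective (tB H N) :=
  toBar_injective _ _

/-- the arithmetic Galois action as a ring automorphism of `E N` -/
abbrev sig (σ : Kb ≃ₐ[ℚ] Kb) (N : ℕ) : E N ≃+* E N :=
  arithmeticRingAut (modularFunctionFieldFull N) σ

theorem sig_tB {σ : Kb ≃ₐ[ℚ] Kb} (hσ : σ ∈ H) (N : ℕ) (x : FK H N) :
    sig σ N (tB H N x) = tB H N x :=
  arithmeticGalois_smul_toBar (modularFunctionFieldFull N) _ σ
    (fun c : IntermediateField.fixedField H => c.2 ⟨σ, hσ⟩) x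

theorem exists_tB_eq_of_fixed (N : ℕ) (x : E N) (hx : ∀ σ ∈ H, sig σ N x = x) :
    ∃ c : FK H N, tB H N c = x := by
  have h : x ∈ {x : E N | ∀ σ ∈ H,
      arithmeticGalois (modularFunctionFieldFull N) σ • x = x} := hx
  rw [← range_toBar_fixedField (modularFunctionFieldFull N) H] at h
  exact h

/-! ### The concrete descent lemma -/

section Concrete

variable {H}

/-- **Descent of a power basis** along a Galois-equivariant map between the `E N`. -/
theorem exists_powerBasis_of_basis_pow {N N' : ℕ}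
    (φK : FK H N →+* FK H N') (φ : E N →ₐ[Kb] E N')
    (hφ : ∀ x, tB H N' (φK x) = φ (tB H N x))
    (hσ : ∀ σ ∈ H, ∀ x : E N, sig σ N' (φ x) = φ (sig σ N x))
    (yK : FK H N') {n : ℕ}
    (b : letI := algebraAlong φ; Module.Basis (Fin n) (E N) (E N'))
    (hb : ∀ i, b i = (tB H N' yK) ^ (i : ℕ)) :
    letI := φK.toAlgebra
    ∃ pb : PowerBasis (FK H N) (FK H N'), pb.gen = yK ∧ pb.dim = n :=
  exists_powerBasis_of_basis_pow_abstract (ι := H) (tB H N) (tB H N') φK φ.toRingHom hφ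
    (fun σ => ((sig σ.1 N : E N ≃+* E N) : E N →+* E N))
    (fun σ => ((sig σ.1 N' : E N' ≃+* E N') : E N' →+* E N'))
    (fun σ x => hσ σ.1 σ.2 x) (fun σ z => sig_tB H σ.2 N' z)
    (fun x hx => exists_tB_eq_of_fixed H N x fun σ hσH => hx ⟨σ, hσH⟩) yK b hb

end Concrete

/-! ### The elements `j₀, j₁, j₂` over `K` and the compatibilities -/

section Elements

/-- `j ∈ F_K(N)` -/
def j0K (N : ℕ) [NeZero N] : FK H N :=
  ⟨coeffEmb _ jq, coeffEmb_mem_laurentBaseChange _ (by
    have h := jqd_mem_full N (one_dvd N)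
    rwa [qExpand_one_apply] at h)⟩

theorem coe_j0K (N : ℕ) [NeZero N] :
    ((j0K H N : FK H N) : LaurentSeries ↥(IntermediateField.fixedField H)) = jqModC _ :=
  Fermat.Agent.S18.B.Basic.coeffEmb_jq _

theorem tB_j0K (N : ℕ) [NeZero N] : tB H N (j0K H N) = jgen N := by
  apply Subtype.ext
  rw [coe_toBar, coe_j0K, Fermat.Agent.S18.B.Basic.coe_jgen_eq]
  exact coeffMap_jqModC _

variable (N ℓ : ℕ) [NeZero N] [NeZero ℓ]

/-- `α_K : F_K(N) → F_K(N ℓ)` as a ring homomorphism -/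
def alphaK : FK H N →+* FK H (N * ℓ) :=
  (heckeAlphaBar (↥(IntermediateField.fixedField H)) N ℓ).toRingHom

/-- `β_K : F_K(N) → F_K(N ℓ)` as a ring homomorphism -/
def betaK : FK H N →+* FK H (N * ℓ) :=
  (heckeBetaBar (↥(IntermediateField.fixedField H)) N ℓ).toRingHom

theorem coe_alphaK (x : FK H N) :
    ((alphaK H N ℓ x : FK H (N * ℓ)) : LaurentSeries ↥(IntermediateField.fixedField H)) = x :=
  coe_heckeAlphaBar N ℓ x

theorem coe_betaK (x : FK H N) :
    ((betaK H N ℓ x : FK H (N * ℓ)) : LaurentSeries ↥(IntermediateField.fixedField H)) =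
      qExpand _ ℓ (x : LaurentSeries ↥(IntermediateField.fixedField H)) :=
  coe_heckeBetaBar N ℓ x

theorem tB_alphaK (x : FK H N) :
    tB H (N * ℓ) (alphaK H N ℓ x) = heckeAlphaBar Kb N ℓ (tB H N x) := by
  apply Subtype.ext
  rw [coe_toBar, coe_alphaK, coe_heckeAlphaBar, coe_toBar]

theorem tB_betaK (x : FK H N) :
    tB H (N * ℓ) (betaK H N ℓ x) = heckeBetaBar Kb N ℓ (tB H N x) := by
  apply Subtype.ext
  rw [coe_toBar, coe_betaK, coe_heckeBetaBar, coe_toBar]
  exact Fermat.Agent.S28.PrimeCaseForm.coeffMap_qExpand _ _ _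

theorem sig_alpha (σ : Kb ≃ₐ[ℚ] Kb) (x : E N) :
    sig σ (N * ℓ) (heckeAlphaBar Kb N ℓ x) = heckeAlphaBar Kb N ℓ (sig σ N x) := by
  apply Subtype.ext
  rw [coe_arithmeticRingAut_apply, coe_heckeAlphaBar, coe_heckeAlphaBar,
    coe_arithmeticRingAut_apply]

theorem sig_beta (σ : Kb ≃ₐ[ℚ] Kb) (x : E N) :
    sig σ (N * ℓ) (heckeBetaBar Kb N ℓ x) = heckeBetaBar Kb N ℓ (sig σ N x) := by
  apply Subtype.ext
  rw [coe_arithmeticRingAut_apply, coe_heckeBetaBar, coe_heckeBetaBar,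
    coe_arithmeticRingAut_apply]
  exact Fermat.Agent.S28.PrimeCaseForm.coeffMap_qExpand _ _ _

end Elements

/-! ### The `β`-mirror over `ℚ̄`: the minimal polynomial of `j` over `β E (N0 q)` -/

section BetaBar

open Fermat.Agent.S36.MinpolyJ2 Fermat.Agent.S28.ModPoly Fermat.Agent.S28.LaurentRescale

variable {N0 q : ℕ} [NeZero N0] [NeZero q] [NeZero (N0 * q)] [NeZero (N0 * q * q)]

/-- `Φ(X, j) ∈ E (N0 q)[X]` -/
def phiJ0 (N0 q : ℕ) [NeZero N0] [NeZero q] [NeZero (N0 * q)] (Φ : Polynomial (Polynomial ℤ)) :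
    Polynomial (E (N0 * q)) :=
  Φ.map ((aeval (jgen (N0 * q)) : Polynomial ℤ →ₐ[ℤ] E (N0 * q)) : Polynomial ℤ →+* E (N0 * q))

theorem valE_comp_aeval_jgen :
    (valE (N0 * q)).comp
        ((aeval (jgen (N0 * q)) : Polynomial ℤ →ₐ[ℤ] E (N0 * q)) : Polynomial ℤ →+* E (N0 * q)) =
      (evalL Kb (jqModC Kb)).comp (Polynomial.mapRingHom (Int.castRingHom Kb)) := by
  apply Polynomial.ringHom_ext
  · intro a
    simp only [RingHom.comp_apply, Polynomial.coe_mapRingHom, Polynomial.map_C, evalL_C]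
    rw [show ((aeval (jgen (N0 * q)) : Polynomial ℤ →ₐ[ℤ] E (N0 * q)) :
        Polynomial ℤ →+* E (N0 * q)) (C a) = ((a : ℤ) : E (N0 * q)) by simp]
    rw [map_intCast, eq_intCast, ← Fermat.Agent.S18.B.Basic.algebraMap_eq_C, map_intCast]
  · simp only [RingHom.comp_apply, Polynomial.coe_mapRingHom, Polynomial.map_X, evalL_X]
    rw [show ((aeval (jgen (N0 * q)) : Polynomial ℤ →ₐ[ℤ] E (N0 * q)) :
        Polynomial ℤ →+* E (N0 * q)) X = jgen (N0 * q) by simp]
    exact coe_jgen'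

/-- `Φ(X, j) = (X - j₁) · gPoly` over `ℚ̄((t))`. -/
theorem map_phiJ0 {Φ : Polynomial (Polynomial ℤ)}
    (hΦ : Φ.map (evalL ℤ (jqModC ℤ)) = rPoly q ℤ) :
    (phiJ0 N0 q Φ).map (valE (N0 * q)) = rPoly q Kb := by
  rw [phiJ0, Polynomial.map_map, valE_comp_aeval_jgen, ← Polynomial.map_map,
    map_map_evalL q Kb Φ hΦ]

theorem phiJ0_isRoot_j1 {Φ : Polynomial (Polynomial ℤ)}
    (hΦ : Φ.map (evalL ℤ (jqModC ℤ)) = rPoly q ℤ) : (phiJ0 N0 q Φ).IsRoot (j1 N0 q) := by
  rw [IsRoot.def]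
  apply valE_injective
  rw [map_zero, ← Polynomial.eval₂_hom, ← Polynomial.eval_map, map_phiJ0 hΦ, rPoly, eval_mul,
    eval_sub, eval_X, eval_C]
  have : valE (N0 * q) (j1 N0 q) = qExpand Kb q (jqModC Kb) := coe_j1
  rw [this, sub_self, zero_mul]

/-- `G_β = Φ(X, j)/(X - j₁) ∈ E (N0 q)[X]` -/
def gPolyBeta (N0 q : ℕ) [NeZero N0] [NeZero q] [NeZero (N0 * q)]
    (Φ : Polynomial (Polynomial ℤ)) : Polynomial (E (N0 * q)) :=
  phiJ0 N0 q Φ /ₘ (X - C (j1 N0 q))

theorem phiJ0_eq {Φ : Polynomial (Polynomial ℤ)}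
    (hΦ : Φ.map (evalL ℤ (jqModC ℤ)) = rPoly q ℤ) :
    phiJ0 N0 q Φ = (X - C (j1 N0 q)) * gPolyBeta N0 q Φ :=
  (mul_divByMonic_eq_iff_isRoot.2 (phiJ0_isRoot_j1 hΦ)).symm

/-- `G_β = gPoly` over `ℚ̄((t))`. -/
theorem map_gPolyBeta {Φ : Polynomial (Polynomial ℤ)}
    (hΦ : Φ.map (evalL ℤ (jqModC ℤ)) = rPoly q ℤ) :
    (gPolyBeta N0 q Φ).map (valE (N0 * q)) = gPoly q Kb := by
  have h1 := map_phiJ0 (N0 := N0) hΦ
  rw [phiJ0_eq hΦ, Polynomial.map_mul, Polynomial.map_sub, Polynomial.map_X, Polynomial.map_C,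
    rPoly] at h1
  have : valE (N0 * q) (j1 N0 q) = qExpand Kb q (jqModC Kb) := coe_j1
  rw [this] at h1
  exact mul_left_cancel₀ (X_sub_C_ne_zero _) h1

theorem monic_gPolyBeta {Φ : Polynomial (Polynomial ℤ)}
    (hΦ : Φ.map (evalL ℤ (jqModC ℤ)) = rPoly q ℤ) : (gPolyBeta N0 q Φ).Monic := by
  apply Polynomial.monic_of_injective (valE_injective (N0 * q))
  rw [map_gPolyBeta hΦ]
  exact monic_gPoly q Kb

theorem natDegree_gPolyBeta {Φ : Polynomial (Polynomial ℤ)}
    (hΦ : Φ.map (evalL ℤ (jqModC ℤ)) = rPoly q ℤ) : (gPolyBeta N0 q Φ).natDegree = q := by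
  rw [← natDegree_map_eq_of_injective (valE_injective (N0 * q)), map_gPolyBeta hΦ]
  exact natDegree_gPoly q Kb

theorem valE_beta (g : E (N0 * q)) :
    valE (N0 * q * q) (heckeBetaBar Kb (N0 * q) q g) = qExpand Kb q (valE (N0 * q) g) :=
  coe_heckeBetaBar (L := Kb) (N0 * q) q g

theorem valE_comp_algebraMap_beta :
    letI := algebraAlong (heckeBetaBar Kb (N0 * q) q)
    (valE (N0 * q * q)).comp (algebraMap (E (N0 * q)) (E (N0 * q * q))) =
      (qExpand Kb q).comp (valE (N0 * q)) := by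
  letI := algebraAlong (heckeBetaBar Kb (N0 * q) q)
  refine RingHom.ext fun g => ?_
  rw [RingHom.comp_apply, RingHom.comp_apply]
  exact valE_beta g

/-- `G_β(j) = 0` along `β`. -/
theorem aeval_jgen_gPolyBeta (hq : q.Prime) {Φ : Polynomial (Polynomial ℤ)}
    (hΦ : Φ.map (evalL ℤ (jqModC ℤ)) = rPoly q ℤ) :
    letI := algebraAlong (heckeBetaBar Kb (N0 * q) q)
    aeval (jgen (N0 * q * q)) (gPolyBeta N0 q Φ) = 0 := by
  letI := algebraAlong (heckeBetaBar Kb (N0 * q) q)
  obtain ⟨ζ, hζ⟩ := exists_primitiveRoot_q (q := q) hq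
  apply valE_injective
  rw [map_zero, aeval_def, Polynomial.hom_eval₂, valE_comp_algebraMap_beta, ← Polynomial.eval_map,
    ← Polynomial.map_map, map_gPolyBeta hΦ, map_qExpand_gPoly q Kb hζ, eval_prod]
  refine Finset.prod_eq_zero (Finset.mem_range.2 hq.pos) ?_
  have : valE (N0 * q * q) (jgen (N0 * q * q)) = jqModC Kb :=
    Fermat.Agent.S18.B.Basic.coe_jgen_eq (N0 * q * q)
  rw [pow_zero, rescaleU_one, eval_sub, eval_X, eval_C, this, sub_self]

end BetaBar

/-! ### The two power bases over `K` -/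

section Instances

open Fermat.Agent.S36.MinpolyJ2 Fermat.Agent.S28.ModPoly Fermat.Agent.S36.LevelDvd

variable {N0 q : ℕ} [NeZero N0] [NeZero q] [NeZero (N0 * q)] [NeZero (N0 * q * q)]

/-- `j₁ = j(t^q) ∈ F_K(N0 q)` -/
def j1K (N0 q : ℕ) [NeZero N0] [NeZero q] : FK H (N0 * q) := betaK H N0 q (j0K H N0)

/-- `j₂ = j(t^(q²)) ∈ F_K(N0 q q)` -/
def j2K (N0 q : ℕ) [NeZero N0] [NeZero q] [NeZero (N0 * q)] : FK H (N0 * q * q) :=
  betaK H (N0 * q) q (j1K H N0 q)

theorem tB_j1K : tB H (N0 * q) (j1K H N0 q) = j1 N0 q := by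
  rw [j1K, tB_betaK, tB_j0K]
  rfl

theorem tB_j2K : tB H (N0 * q * q) (j2K H N0 q) = j2 N0 q := by
  rw [j2K, tB_betaK, tB_j1K]
  rfl

/-- **Power basis along `α_K`**: `1, j₂, …, j₂^(q-1)` is a basis of `F_K(N0 q q)` over `F_K(N0 q)`. -/
theorem exists_powerBasis_alphaK (hq : q.Prime) (hqN0 : ¬ q ∣ N0) :
    letI := (alphaK H (N0 * q) q).toAlgebra
    ∃ pb : PowerBasis (FK H (N0 * q)) (FK H (N0 * q * q)),
      pb.gen = j2K H N0 q ∧ pb.dim = q := by
  obtain ⟨b, hb⟩ := exists_basis_pow_of_isIncl_dvd hq rfl hqN0 rfl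
    (heckeAlphaBar Kb (N0 * q) q) (isIncl_alpha _ _) (j2 N0 q) coe_j2
  exact exists_powerBasis_of_basis_pow (alphaK H (N0 * q) q) (heckeAlphaBar Kb (N0 * q) q)
    (tB_alphaK H _ _) (fun σ _ x => sig_alpha _ _ σ x) (j2K H N0 q) b
    (fun i => by rw [hb, tB_j2K])

/-- **Power basis along `β_K`**: `1, j, …, j^(q-1)` is a basis of `F_K(N0 q q)` over `β_K F_K(N0 q)`. -/
theorem exists_powerBasis_betaK (hq : q.Prime) :
    letI := (betaK H (N0 * q) q).toAlgebra
    ∃ pb : PowerBasis (FK H (N0 * q)) (FK H (N0 * q * q)),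
      pb.gen = j0K H (N0 * q * q) ∧ pb.dim = q := by
  obtain ⟨b, hb⟩ := exists_basis_pow_of_isDil_dvd hq (Dvd.intro_left N0 rfl) rfl
    (heckeBetaBar Kb (N0 * q) q) (isDil_beta _ _) (jgen (N0 * q * q))
    (Fermat.Agent.S18.B.Basic.coe_jgen_eq (N0 * q * q))
  exact exists_powerBasis_of_basis_pow (betaK H (N0 * q) q) (heckeBetaBar Kb (N0 * q) q)
    (tB_betaK H _ _) (fun σ _ x => sig_beta _ _ σ x) (j0K H (N0 * q * q)) b
    (fun i => by rw [hb, tB_j0K])

end Instances

end Fermat.Agent.S36.PowerBasisK0
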