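/-
PROJECT V (S36), slice V-ChartX0 (helper10): **the instance glue of the chart rings at `X₀(N)` over
the inertia field** - ONE place where the `W A`-algebra structure of the `K0`-forms is declared, so
that every `X₀` instantiation of `ChartRing` / `ChartPlaces` / `SymChart` / `Centre` / `Lattice`
uses the SAME instances.

`A` a valuation subring of `ℚ̄`, `K0 A = ℚ̄^I` its inertia field, `W A = A ∩ K0` the small discrete
valuation ring (`S18/C/SmallDVR`), `FK0 A N = laurentBaseChange (K0 A) (modularFunctionFieldFull N)`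
the `K0`-form of the function field of `X₀(N)` as a TYPE (definitionally helper19's
`PowerBasisK0.FK (A.inertiaSubgroupIn ℚ) N`, helper6's `KummerNew.F0` and the field of helper18's
`K0PlacesX0`).

* `algebraK0`, `algebraW`, `isScalarTowerW` : `W A → K0 A → FK0 A N`.
* `isDVR`, `irreducible_ell` : the hypotheses `[IsDiscreteValuationRing O]`, `Irreducible π` of
  `ChartRing` / `Centre` for `O = W A`, `π = ℓ`.
* `jK0`, `transcendental_jK0`, `finiteDimensional_jK0`, `jK0_eq_j0K`,
  `finiteDimensional_of_transcendental` : `[FiniteDimensional K0⟮φ⟯ (FK0 A N)]` for EVERY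
  transcendental `φ` (so for `x₂ = j₀ j₁ j₂`, `x₂⁻¹`, local parameters, ...).
* `chartX0 A N φ`, `chartX0_props` (noetherian, integrally closed, fraction field `FK0 A N`),
  `chartData_chartX0` (`Centre.ChartData`: places finite on the chart = conductor primes not
  containing `ℓ`, `HDim`), `finiteOn_chartX0_iff`.
-/
import Mathlib
import Fermat.Agent.S18.C.SmallDVR
import Fermat.Agent.S36.GaussL
import Fermat.Agent.S36.ChartRing
import Fermat.Agent.S36.Centre
import Fermat.Agent.S36.PowerBasisK0

set_option autoImplicit false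
set_option synthInstance.maxHeartbeats 400000
set_option linter.unusedSectionVars false
set_option linter.style.haveILetI false
set_option linter.unusedVariables false

noncomputable section

namespace Fermat.Agent.S36.ChartX0

open ModularCurve IntermediateField AlgebraicCurve
open Fermat.Agent.S18.C.SmallDVR Fermat.Agent.S36.ChartRing Fermat.Agent.S36.Centre
open Fermat.Agent.S36.CentreCore Fermat.Agent.S36.KrullInter

local notation "Kb" => AlgebraicClosure ℚ

variable (A : ValuationSubring Kb)

/-- The `K0`-form of the function field of `X₀(N)`, `K0` the inertia field of `A`, as a type. -/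
abbrev FK0 (N : ℕ) : Type := ↥(laurentBaseChange ↥(K0 A) (modularFunctionFieldFull N))

theorem FK0_eq (N : ℕ) :
    FK0 A N = Fermat.Agent.S36.PowerBasisK0.FK (A.inertiaSubgroupIn ℚ) N := rfl

instance algebraK0 (N : ℕ) : Algebra ↥(K0 A) (FK0 A N) := inferInstance

instance algebraW (N : ℕ) : Algebra ↥(W A) (FK0 A N) :=
  ((algebraMap ↥(K0 A) (FK0 A N)).comp (algebraMap ↥(W A) ↥(K0 A))).toAlgebra

theorem algebraMap_W_apply (N : ℕ) (c : ↥(W A)) :
    algebraMap ↥(W A) (FK0 A N) c = algebraMap ↥(K0 A) (FK0 A N) (algebraMap ↥(W A) ↥(K0 A) c) := rfl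

instance isScalarTowerW (N : ℕ) : IsScalarTower ↥(W A) ↥(K0 A) (FK0 A N) :=
  IsScalarTower.of_algebraMap_eq fun c => algebraMap_W_apply A N c

/-! ### The base: `W A` is a discrete valuation ring with uniformiser `ℓ` -/

variable {A} {ℓ : ℕ} [hℓ : Fact ℓ.Prime]

theorem isDVR (hA : A.LiesOverPrime ℓ) : IsDiscreteValuationRing ↥(W A) :=
  isDiscreteValuationRing_W hA

theorem irreducible_ell (hA : A.LiesOverPrime ℓ) : Irreducible (((ℓ : ℕ) : ↥(W A))) :=
  irreducible_natCast hA

theorem algebraMap_ell (N : ℕ) :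
    algebraMap ↥(W A) (FK0 A N) ((ℓ : ℕ) : ↥(W A)) = ((ℓ : ℕ) : FK0 A N) := by
  rw [map_natCast]

variable (A)

/-! ### The coordinate `j` and parameters -/

/-- `j` in the `K0`-form of level `N` (helper11's `GaussL.jL`). -/
abbrev jK0 (N : ℕ) [NeZero N] : FK0 A N := Fermat.Agent.S36.GaussL.jL ↥(K0 A) N

theorem transcendental_jK0 (N : ℕ) [NeZero N] : Transcendental ↥(K0 A) (jK0 A N) :=
  Fermat.Agent.S36.GaussL.transcendental_jL ↥(K0 A) N

theorem finiteDimensional_jK0 (N : ℕ) [NeZero N] :
    FiniteDimensional (↥(K0 A))⟮jK0 A N⟯ (FK0 A N) := by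
  letI : Algebra ℚ ↥(modularFunctionFieldFull N) := Fermat.Agent.S28.DegreeQ.algF N
  exact (Fermat.Agent.S36.GaussL.finrank_jL ↥(K0 A) N).1

/-- helper11's `jL` and helper19's `j0K` are the same element. -/
theorem jK0_eq_j0K (N : ℕ) [NeZero N] :
    jK0 A N = Fermat.Agent.S36.PowerBasisK0.j0K (A.inertiaSubgroupIn ℚ) N := by
  apply Subtype.ext
  rw [Fermat.Agent.S36.PowerBasisK0.coe_j0K]
  show ((Fermat.Agent.S36.GaussL.jL ↥(K0 A) N :
    ↥(laurentBaseChange ↥(K0 A) (modularFunctionFieldFull N))) : LaurentSeries ↥(K0 A)) = _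
  rw [Fermat.Agent.S36.GaussL.coe_jL]
  exact Fermat.Agent.S18.B.Basic.coeffEmb_jq _

/-- `F_N` is finite over `K0(φ)` for every `φ` transcendental over `K0`. -/
theorem finiteDimensional_of_transcendental (N : ℕ) [NeZero N] {φ : FK0 A N}
    (hφ : Transcendental ↥(K0 A) φ) : FiniteDimensional (↥(K0 A))⟮φ⟯ (FK0 A N) := by
  haveI := finiteDimensional_jK0 A N
  exact Fermat.Agent.S36.ChartRing.finiteDimensional_of_transcendental (jK0 A N) φ hφ

/-! ### The chart rings at `X₀(N)` over `W A` -/

section Chart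

variable {A} (hA : A.LiesOverPrime ℓ) (N : ℕ) [NeZero N] {φ : FK0 A N}
  (hφ : Transcendental ↥(K0 A) φ)

/-- The chart ring of `φ` at level `N` over `W A` (helper12's `ChartRing.chart`). -/
abbrev chartX0 (A : ValuationSubring Kb) (N : ℕ) (φ : FK0 A N) :
    Subalgebra (Algebra.adjoin ↥(W A) ({φ} : Set (FK0 A N))) (FK0 A N) :=
  chart ↥(W A) φ

include hA hφ in
theorem chartX0_props :
    IsNoetherianRing ↥(chartX0 A N φ) ∧ IsIntegrallyClosed ↥(chartX0 A N φ) ∧
      IsFractionRing ↥(chartX0 A N φ) (FK0 A N) := by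
  haveI := isDVR hA
  haveI := finiteDimensional_of_transcendental A N hφ
  have h := chart_props (O := ↥(W A)) (K := ↥(K0 A)) hφ
  exact ⟨h.1, h.2.1, h.2.2.1⟩

include hA in
/-- **The chart ring of `φ` is a chart in the sense of `Centre.ChartData`.** -/
theorem chartData_chartX0 :
    ChartData ↥(K0 A) (FK0 A N) (piChart φ ((ℓ : ℕ) : ↥(W A)) : ↥(chartX0 A N φ)) := by
  haveI := isDVR hA
  exact chartData_chart (K := ↥(K0 A)) (irreducible_ell hA) φ

omit [NeZero N] in
include hA in
/-- A `K0`-place is finite on the chart of `φ` iff `φ` is integral at it. -/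
theorem finiteOn_chartX0_iff (v : Place ↥(K0 A) (FK0 A N)) :
    FiniteOn ↥(chartX0 A N φ) v ↔ φ ∈ v.toValuationSubring := by
  haveI := isDVR hA
  exact finiteOn_chart_iff (O := ↥(W A)) φ v

end Chart

end Fermat.Agent.S36.ChartX0
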