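import Mathlib
import Fermat.Agent.S34.OrthoNorm

/-!
# S36 (project V, stage 0): norm, trace and characteristic polynomial commute with reduction,
# the RAMIFIED case

The ramified twin of `S34.OrthoTrace` / `S34.OrthoNorm`.  `F'/F` finite, `O` a valuation ring of `F`
whose maximal ideal is generated by `π`, `O' i` (`i : ι`) pairwise incomparable archimedean valuation
rings of `F'` over `O` whose maximal ideals are generated by `ϖ i`, `v_i π = v_i (ϖ i) ^ e i`, residue
maps `red`, `red' i` (`RedData`), and `∑ i, e i * [κ' i : κ] = [F' : F]` (the equality case of the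
fundamental inequality).  Then for every `y ∈ ⋂ O' i`:

* `norm_mem` : `N_{F'/F} y ∈ O`, and `red_norm` : `red (N y) = ∏ i, N_{κ' i/κ} (red' i y) ^ e i`;
* `trace_mem`, `red_trace` : `red (Tr y) = ∑ i, e i • Tr_{κ' i/κ} (red' i y)`;
* `exists_charpoly` : the characteristic polynomial of the multiplication by `y` is the image of a
  monic `P : O[X]` with `P.map red = ∏ i, charpoly (red' i y) ^ e i`.

The basis: `b ⟨i, (j, l)⟩ = x i * (a i j * ϖ i ^ l)` (`l < e i`), with approximate idempotents `x i`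
(`x i ≡ 1` at `i`, and `x i * (a i j * ϖ i ^ l) ∈ π O' i'` for `i' ≠ i`).  The matrix of the
multiplication by `y` in this basis has entries in `O`; its reduction is block diagonal with respect
to `i` and, inside the block of `i`, block triangular with respect to the level `l`, all `e i`
diagonal blocks being the matrix of the multiplication by `red' i y` in the basis `B i`.
-/

set_option autoImplicit false
set_option linter.unusedSectionVars false

namespace Fermat.Agent.S36.OrthoRam

open Fermat.Agent.S34.WeakApprox Fermat.Agent.S34.OrthoMulti Fermat.Agent.S34.OrthoTrace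
open Fermat.Agent.S34.BlockDiagDet

/-! ### valuations of elements of the base field -/

section Base

variable {F F' : Type*} [Field F] [Field F'] [Algebra F F']
variable {O : ValuationSubring F} {A : ValuationSubring F'}

theorem val_algebraMap_le_one (hO : A.comap (algebraMap F F') = O) {c : F} (hc : c ∈ O) :
    A.valuation (algebraMap F F' c) ≤ 1 := by
  rw [A.valuation_le_one_iff]
  rw [← hO] at hc
  exact ValuationSubring.mem_comap.mp hc

theorem val_algebraMap_ne_zero {t : F} (ht : t ≠ 0) : A.valuation (algebraMap F F' t) ≠ 0 := by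
  rw [Ne, Valuation.zero_iff]
  exact fun h => ht ((map_eq_zero_iff _ (algebraMap F F').injective).mp h)

/-- divisibility in `O` gives divisibility in `A` -/
theorem val_algebraMap_le_of_le (hO : A.comap (algebraMap F F') = O) {c t : F}
    (h : O.valuation c ≤ O.valuation t) :
    A.valuation (algebraMap F F' c) ≤ A.valuation (algebraMap F F' t) := by
  by_cases ht : t = 0
  · subst ht
    rw [map_zero] at h
    have h1 : c = 0 := (Valuation.zero_iff _).mp (le_antisymm h zero_le)
    rw [h1]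
  · have h1 : c / t ∈ O := by
      rw [← O.valuation_le_one_iff, map_div₀]
      exact div_le_one_of_le₀ h zero_le
    have h3 := val_algebraMap_le_one hO h1
    rw [map_div₀, map_div₀] at h3
    have ht' : 0 < A.valuation (algebraMap F F' t) :=
      lt_of_le_of_ne zero_le (Ne.symm (val_algebraMap_ne_zero ht))
    exact (div_le_one₀ ht').mp h3

/-- divisibility in `A` of elements of `F` gives divisibility in `O` -/
theorem le_of_val_algebraMap_le (hO : A.comap (algebraMap F F') = O) {c t : F}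
    (h : A.valuation (algebraMap F F' c) ≤ A.valuation (algebraMap F F' t)) :
    O.valuation c ≤ O.valuation t := by
  by_cases ht : t = 0
  · subst ht
    rw [map_zero, map_zero] at h
    have h1 : algebraMap F F' c = 0 := (Valuation.zero_iff _).mp (le_antisymm h zero_le)
    rw [(map_eq_zero_iff _ (algebraMap F F').injective).mp h1]
  · have ht' : 0 < A.valuation (algebraMap F F' t) :=
      lt_of_le_of_ne zero_le (Ne.symm (val_algebraMap_ne_zero ht))
    have h1 : A.valuation (algebraMap F F' (c / t)) ≤ 1 := by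
      rw [map_div₀, map_div₀]
      exact (div_le_one₀ ht').mpr h
    have h2 : c / t ∈ O := by
      rw [← hO]
      exact ValuationSubring.mem_comap.mpr ((A.valuation_le_one_iff _).mp h1)
    have h3 := (O.valuation_le_one_iff _).mpr h2
    rw [map_div₀] at h3
    have ht'' : 0 < O.valuation t :=
      lt_of_le_of_ne zero_le (Ne.symm (by rw [Ne, Valuation.zero_iff]; exact ht))
    exact (div_le_one₀ ht'').mp h3

end Base

/-! ### one place: the filtration by the powers of the uniformizer -/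

section Local

variable {F F' : Type*} [Field F] [Field F'] [Algebra F F']
variable {O : ValuationSubring F} {A : ValuationSubring F'}
variable {J : Type*} [Fintype J]

/-- ramification data at one place: `π` generates `𝔪_O`, `ϖ` generates `𝔪_A`, `v π = v ϖ ^ e` -/
structure LocalRam (O : ValuationSubring F) (A : ValuationSubring F') (π : F) (ϖ : F') (e : ℕ) :
    Prop where
  comap : A.comap (algebraMap F F') = O
  π_mem : π ∈ O.nonunits
  π_ne_zero : π ≠ 0
  π_gen : ∀ c ∈ O.nonunits, O.valuation c ≤ O.valuation π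
  ϖ_mem : ϖ ∈ A.nonunits
  ϖ_gen : ∀ z ∈ A.nonunits, A.valuation z ≤ A.valuation ϖ
  val_π : A.valuation (algebraMap F F' π) = A.valuation ϖ ^ e

namespace LocalRam

variable {π : F} {ϖ : F'} {e : ℕ} (hR : LocalRam O A π ϖ e)
include hR

theorem val_ϖ_lt_one : A.valuation ϖ < 1 := A.mem_nonunits_iff.mp hR.ϖ_mem

theorem val_π_lt_one : A.valuation (algebraMap F F' π) < 1 := by
  have h1 : π ∈ (A.comap (algebraMap F F')).nonunits := by
    rw [hR.comap]
    exact hR.π_mem
  exact A.mem_nonunits_iff.mp ((S34.ArchComap.mem_comap_nonunits_iff A _ π).mp h1)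

theorem e_ne_zero : e ≠ 0 := by
  intro h
  have h1 := hR.val_π_lt_one
  rw [hR.val_π, h, pow_zero] at h1
  exact lt_irrefl _ h1

theorem val_ϖ_pos : 0 < A.valuation ϖ := by
  refine lt_of_le_of_ne zero_le (Ne.symm fun h => ?_)
  have h1 := hR.val_π
  rw [h, zero_pow hR.e_ne_zero] at h1
  exact val_algebraMap_ne_zero hR.π_ne_zero h1

theorem ϖ_ne_zero : ϖ ≠ 0 := by
  intro h
  have h1 := hR.val_ϖ_pos
  rw [h, map_zero] at h1
  exact lt_irrefl _ h1

theorem val_pow_le_pow {n m : ℕ} (h : n ≤ m) : A.valuation ϖ ^ m ≤ A.valuation ϖ ^ n :=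
  pow_le_pow_right_of_le_one' hR.val_ϖ_lt_one.le h

theorem val_pow_le_one (n : ℕ) : A.valuation ϖ ^ n ≤ 1 := by
  have := hR.val_pow_le_pow (Nat.zero_le n)
  rwa [pow_zero] at this

theorem val_pow_pos (n : ℕ) : 0 < A.valuation ϖ ^ n := pow_pos hR.val_ϖ_pos n

/-- elements of `𝔪_O` are divisible by `π`, also upstairs -/
theorem val_algebraMap_le_of_mem_nonunits {c : F} (hc : c ∈ O.nonunits) :
    A.valuation (algebraMap F F' c) ≤ A.valuation ϖ ^ e := by
  rw [← hR.val_π]
  exact val_algebraMap_le_of_le hR.comap (hR.π_gen c hc)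

/-- `v z ≤ v ϖ` means `z ∈ 𝔪_A` -/
theorem mem_nonunits_of_val_le {z : F'} (hz : A.valuation z ≤ A.valuation ϖ) : z ∈ A.nonunits :=
  A.mem_nonunits_iff.mpr (lt_of_le_of_lt hz hR.val_ϖ_lt_one)

variable {a : J → F'} (ha : ∀ j, a j ∈ A)
include ha

/-- the `l`-th layer of a combination -/
theorem val_layer_le_one {d : J × Fin e → F} (hd : ∀ q, d q ∈ O) (l : Fin e) :
    A.valuation (∑ j, algebraMap F F' (d (j, l)) * a j) ≤ 1 :=
  (A.valuation_le_one_iff _).mpr
    (sum_mem fun j _ => mul_mem ((A.valuation_le_one_iff _).mp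
      (val_algebraMap_le_one hR.comap (hd _))) (ha j))

theorem val_layer_le_of_mem_nonunits {d : J × Fin e → F} (l : Fin e)
    (hd : ∀ j, d (j, l) ∈ O.nonunits) :
    A.valuation (∑ j, algebraMap F F' (d (j, l)) * a j) ≤ A.valuation ϖ ^ e := by
  refine Valuation.map_sum_le _ fun j _ => ?_
  rw [map_mul]
  calc A.valuation (algebraMap F F' (d (j, l))) * A.valuation (a j)
      ≤ A.valuation ϖ ^ e * 1 :=
        mul_le_mul' (hR.val_algebraMap_le_of_mem_nonunits (hd j))
          ((A.valuation_le_one_iff _).mpr (ha j))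
    _ = A.valuation ϖ ^ e := mul_one _

omit hR ha in
theorem sum_eq_sum_layers (d : J × Fin e → F) :
    ∑ q : J × Fin e, algebraMap F F' (d q) * (a q.1 * ϖ ^ (q.2 : ℕ))
      = ∑ l : Fin e, (∑ j, algebraMap F F' (d (j, l)) * a j) * ϖ ^ (l : ℕ) := by
  rw [Fintype.sum_prod_type_right]
  refine Finset.sum_congr rfl fun l _ => ?_
  rw [Finset.sum_mul]
  exact Finset.sum_congr rfl fun j _ => by ring

/-- **extraction of the layer `l₀`**: if the lower layers have coefficients in `𝔪_O` and the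
combination is `≡ w ϖ ^ l₀` modulo `ϖ ^ (l₀ + 1)`, then the `l₀`-th layer is `≡ w` modulo `𝔪_A` -/
theorem val_layer_sub_le {d : J × Fin e → F} (hd : ∀ q, d q ∈ O) (l₀ : Fin e) (w : F')
    (hlow : ∀ q : J × Fin e, q.2 < l₀ → d q ∈ O.nonunits)
    (h : A.valuation (∑ q : J × Fin e, algebraMap F F' (d q) * (a q.1 * ϖ ^ (q.2 : ℕ))
      - w * ϖ ^ (l₀ : ℕ)) ≤ A.valuation ϖ ^ ((l₀ : ℕ) + 1)) :
    A.valuation (∑ j, algebraMap F F' (d (j, l₀)) * a j - w) ≤ A.valuation ϖ := by
  classical
  have h1 : (∑ j, algebraMap F F' (d (j, l₀)) * a j - w) * ϖ ^ (l₀ : ℕ)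
      = (∑ q : J × Fin e, algebraMap F F' (d q) * (a q.1 * ϖ ^ (q.2 : ℕ)) - w * ϖ ^ (l₀ : ℕ))
        - ∑ l ∈ Finset.univ.erase l₀,
            (∑ j, algebraMap F F' (d (j, l)) * a j) * ϖ ^ (l : ℕ) := by
    rw [sum_eq_sum_layers, ← Finset.add_sum_erase _ _ (Finset.mem_univ l₀)]
    ring
  have h2 : A.valuation ((∑ j, algebraMap F F' (d (j, l₀)) * a j - w) * ϖ ^ (l₀ : ℕ))
      ≤ A.valuation ϖ ^ ((l₀ : ℕ) + 1) := by
    rw [h1]
    refine Valuation.map_sub_le _ h (Valuation.map_sum_le _ fun l hl => ?_)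
    have hne : l ≠ l₀ := Finset.ne_of_mem_erase hl
    rw [map_mul, map_pow]
    rcases lt_or_gt_of_ne hne with hlt | hgt
    · calc A.valuation (∑ j, algebraMap F F' (d (j, l)) * a j) * A.valuation ϖ ^ (l : ℕ)
          ≤ A.valuation ϖ ^ e * 1 :=
            mul_le_mul' (hR.val_layer_le_of_mem_nonunits ha l fun j => hlow (j, l) hlt)
              (hR.val_pow_le_one _)
        _ = A.valuation ϖ ^ e := mul_one _
        _ ≤ A.valuation ϖ ^ ((l₀ : ℕ) + 1) := hR.val_pow_le_pow l₀.2
    · calc A.valuation (∑ j, algebraMap F F' (d (j, l)) * a j) * A.valuation ϖ ^ (l : ℕ)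
          ≤ 1 * A.valuation ϖ ^ (l : ℕ) :=
            mul_le_mul' (hR.val_layer_le_one ha hd l) le_rfl
        _ = A.valuation ϖ ^ (l : ℕ) := one_mul _
        _ ≤ A.valuation ϖ ^ ((l₀ : ℕ) + 1) := hR.val_pow_le_pow hgt
  rw [map_mul, map_pow, pow_succ'] at h2
  exact le_of_mul_le_mul_right h2 (hR.val_pow_pos _)

/-- **the coefficients of the layers below `l₀` of an element of `ϖ ^ l₀ A` lie in `𝔪_O`** -/
theorem coeff_mem_nonunits_of_val_le
    (hri : ∀ c : J → F, (∀ j, c j ∈ O) →
      ∑ j, algebraMap F F' (c j) * a j ∈ A.nonunits → ∀ j, c j ∈ O.nonunits)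
    {d : J × Fin e → F} (hd : ∀ q, d q ∈ O) :
    ∀ l₀ : ℕ, l₀ ≤ e →
      A.valuation (∑ q : J × Fin e, algebraMap F F' (d q) * (a q.1 * ϖ ^ (q.2 : ℕ)))
        ≤ A.valuation ϖ ^ l₀ →
      ∀ q : J × Fin e, (q.2 : ℕ) < l₀ → d q ∈ O.nonunits := by
  intro l₀
  induction l₀ with
  | zero => exact fun _ _ q hq => absurd hq (Nat.not_lt_zero _)
  | succ n ih =>
    intro hn h q hq
    have hlow : ∀ q : J × Fin e, (q.2 : ℕ) < n → d q ∈ O.nonunits :=
      ih (Nat.le_of_succ_le hn) (h.trans (hR.val_pow_le_pow (Nat.le_succ n)))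
    rcases Nat.lt_succ_iff_lt_or_eq.mp hq with hlt | heq
    · exact hlow q hlt
    · set l₁ : Fin e := ⟨n, hn⟩ with hl₁
      have h3 := hR.val_layer_sub_le ha hd l₁ 0 (fun q hq => hlow q hq)
        (by rw [zero_mul, sub_zero]; exact h)
      rw [sub_zero] at h3
      have h4 := hri (fun j => d (j, l₁)) (fun j => hd _) (hR.mem_nonunits_of_val_le h3) q.1
      have h5 : q = (q.1, l₁) := Prod.ext rfl (Fin.ext heq)
      rw [h5]
      exact h4

end LocalRam

end Local

/-! ### several places: the twisted family -/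

section Global

variable {F F' : Type*} [Field F] [Field F'] [Algebra F F']
variable {ι : Type*} [Fintype ι]
variable {O : ValuationSubring F} {O' : ι → ValuationSubring F'}
variable {J : ι → Type*} [∀ i, Fintype (J i)]

/-- global ramification data: a uniformizer `π` of `O`, uniformizers `ϖ i` of the `O' i`, and the
ramification indices `e i` -/
structure RamData (O : ValuationSubring F) (O' : ι → ValuationSubring F') where
  /-- a generator of the maximal ideal of `O` -/
  π : F
  /-- generators of the maximal ideals of the `O' i` -/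
  ϖ : ι → F'
  /-- the ramification indices -/
  e : ι → ℕ
  loc : ∀ i, LocalRam O (O' i) π (ϖ i) (e i)

variable (R : RamData O O') (a : ∀ i, J i → F')

/-- the twisted family `x i * (a i j * ϖ i ^ l)` -/
def fam (x : ι → F') (p : Σ i, J i × Fin (R.e i)) : F' :=
  x p.1 * (a p.1 p.2.1 * R.ϖ p.1 ^ (p.2.2 : ℕ))

/-- approximate idempotents adapted to the family -/
structure IsTwist (x : ι → F') : Prop where
  sub_mem : ∀ i, x i - 1 ∈ (O' i).nonunits
  off : ∀ (p : Σ i, J i × Fin (R.e i)) (i' : ι), i' ≠ p.1 →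
    (O' i').valuation (fam R a x p) ≤ (O' i').valuation (algebraMap F F' R.π)

theorem exists_isTwist (hA : ∀ i, Arch (O' i)) (hinc : ∀ i j, i ≠ j → ¬ O' i ≤ O' j) :
    ∃ x : ι → F', IsTwist R a x := by
  classical
  have h1 : ∀ i, ∃ x : F', x - 1 ∈ (O' i).nonunits ∧
      ∀ i', i' ≠ i → x ∈ (O' i').nonunits ∧
        ∀ y ∈ (Finset.univ.image fun q : J i × Fin (R.e i) =>
          a i q.1 * R.ϖ i ^ (q.2 : ℕ) / algebraMap F F' R.π), x * y ∈ (O' i').nonunits :=
    fun i => exists_one_sub O' hA hinc i _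
  choose x hx1 hx2 using h1
  refine ⟨x, hx1, fun p i' hi' => ?_⟩
  obtain ⟨i, q⟩ := p
  have h2 := (hx2 i i' hi').2 _ (Finset.mem_image.mpr ⟨q, Finset.mem_univ _, rfl⟩)
  have hπ : 0 < (O' i').valuation (algebraMap F F' R.π) :=
    lt_of_le_of_ne zero_le (Ne.symm (val_algebraMap_ne_zero (R.loc i').π_ne_zero))
  rw [(O' i').mem_nonunits_iff, ← mul_div_assoc, map_div₀, div_lt_one₀ hπ] at h2
  exact h2.le

variable {R a}
variable {x : ι → F'} (hx : IsTwist R a x) (ha : ∀ i j, a i j ∈ O' i)
include hx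

theorem IsTwist.val_x (i : ι) : (O' i).valuation (x i) = 1 := by
  have h2 : x i = 1 + (x i - 1) := by ring
  rw [h2]
  exact Valuation.map_one_add_of_lt _ ((O' i).mem_nonunits_iff.mp (hx.sub_mem i))

include ha

theorem IsTwist.val_fam_le (p : Σ i, J i × Fin (R.e i)) :
    (O' p.1).valuation (fam R a x p) ≤ (O' p.1).valuation (R.ϖ p.1) ^ (p.2.2 : ℕ) := by
  rw [fam, map_mul, map_mul, map_pow, hx.val_x, one_mul]
  calc (O' p.1).valuation (a p.1 p.2.1) * (O' p.1).valuation (R.ϖ p.1) ^ (p.2.2 : ℕ)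
      ≤ 1 * (O' p.1).valuation (R.ϖ p.1) ^ (p.2.2 : ℕ) :=
        mul_le_mul' (((O' p.1).valuation_le_one_iff _).mpr (ha _ _)) le_rfl
    _ = _ := one_mul _

theorem IsTwist.fam_mem (p : Σ i, J i × Fin (R.e i)) (i : ι) : fam R a x p ∈ O' i := by
  rw [← (O' i).valuation_le_one_iff]
  by_cases hi : i = p.1
  · subst hi
    exact (hx.val_fam_le ha p).trans ((R.loc _).val_pow_le_one _)
  · exact (hx.off p i hi).trans (R.loc i).val_π_lt_one.le

/-- the contribution of the other places is divisible by `π` -/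
theorem IsTwist.val_rest_le [DecidableEq ι] {c : (Σ i, J i × Fin (R.e i)) → F} (hc : ∀ p, c p ∈ O)
    (i : ι) :
    (O' i).valuation (∑ i' ∈ Finset.univ.erase i, ∑ q : J i' × Fin (R.e i'),
        algebraMap F F' (c ⟨i', q⟩) * fam R a x ⟨i', q⟩)
      ≤ (O' i).valuation (algebraMap F F' R.π) := by
  refine Valuation.map_sum_le _ fun i' hi' => Valuation.map_sum_le _ fun q _ => ?_
  rw [map_mul]
  calc (O' i).valuation (algebraMap F F' (c ⟨i', q⟩)) * (O' i).valuation (fam R a x ⟨i', q⟩)
      ≤ 1 * (O' i).valuation (algebraMap F F' R.π) :=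
        mul_le_mul' (val_algebraMap_le_one (R.loc i).comap (hc _))
          (hx.off ⟨i', q⟩ i (Finset.ne_of_mem_erase hi').symm)
    _ = _ := one_mul _

omit hx ha in
theorem sum_fam_eq [DecidableEq ι] (c : (Σ i, J i × Fin (R.e i)) → F) (i : ι) :
    ∑ p, algebraMap F F' (c p) * fam R a x p
      = x i * ∑ q : J i × Fin (R.e i),
          algebraMap F F' (c ⟨i, q⟩) * (a i q.1 * R.ϖ i ^ (q.2 : ℕ))
        + ∑ i' ∈ Finset.univ.erase i, ∑ q : J i' × Fin (R.e i'),
            algebraMap F F' (c ⟨i', q⟩) * fam R a x ⟨i', q⟩ := by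
  rw [Fintype.sum_sigma, ← Finset.add_sum_erase _ _ (Finset.mem_univ i), Finset.mul_sum]
  congr 1
  refine Finset.sum_congr rfl fun q _ => ?_
  rw [fam]
  ring

/-- modulo `π`, a combination of the twisted family is at `i` the local combination of the block
of `i` -/
theorem IsTwist.val_block_sub_le {c : (Σ i, J i × Fin (R.e i)) → F} (hc : ∀ p, c p ∈ O) (i : ι)
    (t : F') {g : (O' i).ValueGroup} (hg : (O' i).valuation (algebraMap F F' R.π) ≤ g)
    (h : (O' i).valuation (∑ p, algebraMap F F' (c p) * fam R a x p - x i * t) ≤ g) :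
    (O' i).valuation (∑ q : J i × Fin (R.e i),
      algebraMap F F' (c ⟨i, q⟩) * (a i q.1 * R.ϖ i ^ (q.2 : ℕ)) - t) ≤ g := by
  classical
  have h1 : x i * (∑ q : J i × Fin (R.e i),
        algebraMap F F' (c ⟨i, q⟩) * (a i q.1 * R.ϖ i ^ (q.2 : ℕ)) - t)
      = (∑ p, algebraMap F F' (c p) * fam R a x p - x i * t)
        - ∑ i' ∈ Finset.univ.erase i, ∑ q : J i' × Fin (R.e i'),
            algebraMap F F' (c ⟨i', q⟩) * fam R a x ⟨i', q⟩ := by
    rw [sum_fam_eq c i]
    ring
  have h2 := Valuation.map_sub_le _ h ((hx.val_rest_le ha hc i).trans hg)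
  rw [← h1, map_mul, hx.val_x, one_mul] at h2
  exact h2

/-- **extraction of the layer `l₀` at `i`** -/
theorem IsTwist.val_layer_sub_le {c : (Σ i, J i × Fin (R.e i)) → F} (hc : ∀ p, c p ∈ O) (i : ι)
    (l₀ : Fin (R.e i)) (w : F')
    (hlow : ∀ q : J i × Fin (R.e i), q.2 < l₀ → c ⟨i, q⟩ ∈ O.nonunits)
    (h : (O' i).valuation (∑ p, algebraMap F F' (c p) * fam R a x p
      - x i * (w * R.ϖ i ^ (l₀ : ℕ))) ≤ (O' i).valuation (R.ϖ i) ^ ((l₀ : ℕ) + 1)) :
    (O' i).valuation (∑ j, algebraMap F F' (c ⟨i, (j, l₀)⟩) * a i j - w)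
      ≤ (O' i).valuation (R.ϖ i) := by
  have h1 := hx.val_block_sub_le ha hc i (w * R.ϖ i ^ (l₀ : ℕ))
    (g := (O' i).valuation (R.ϖ i) ^ ((l₀ : ℕ) + 1))
    (by rw [(R.loc i).val_π]; exact (R.loc i).val_pow_le_pow l₀.2) h
  exact (R.loc i).val_layer_sub_le (ha i) (d := fun q => c ⟨i, q⟩) (fun q => hc _) l₀ w hlow h1

variable (hri : ∀ i (c : J i → F), (∀ j, c j ∈ O) →
  ∑ j, algebraMap F F' (c j) * a i j ∈ (O' i).nonunits → ∀ j, c j ∈ O.nonunits)
include hri

/-- **the coefficients of the layers below `l₀` at `i` of an element of `ϖ i ^ l₀ O' i` lie in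
`𝔪_O`** -/
theorem IsTwist.coeff_mem_nonunits_of_val_le {c : (Σ i, J i × Fin (R.e i)) → F}
    (hc : ∀ p, c p ∈ O) (i : ι) (l₀ : ℕ) (hl₀ : l₀ ≤ R.e i)
    (h : (O' i).valuation (∑ p, algebraMap F F' (c p) * fam R a x p)
      ≤ (O' i).valuation (R.ϖ i) ^ l₀) (q : J i × Fin (R.e i)) (hq : (q.2 : ℕ) < l₀) :
    c ⟨i, q⟩ ∈ O.nonunits := by
  have h1 := hx.val_block_sub_le ha hc i 0 (g := (O' i).valuation (R.ϖ i) ^ l₀)
    (by rw [(R.loc i).val_π]; exact (R.loc i).val_pow_le_pow hl₀)
    (by rw [mul_zero, sub_zero]; exact h)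
  rw [sub_zero] at h1
  exact (R.loc i).coeff_mem_nonunits_of_val_le (ha i) (hri i) (d := fun q => c ⟨i, q⟩)
    (fun q => hc _) l₀ hl₀ h1 q hq

/-- **coefficients of an element of `π ⋂ O' i`** -/
theorem IsTwist.coeff_mem_nonunits {c : (Σ i, J i × Fin (R.e i)) → F} (hc : ∀ p, c p ∈ O)
    (h : ∀ i, (O' i).valuation (∑ p, algebraMap F F' (c p) * fam R a x p)
      ≤ (O' i).valuation (algebraMap F F' R.π)) (p : Σ i, J i × Fin (R.e i)) :
    c p ∈ O.nonunits := by
  obtain ⟨i, q⟩ := p
  exact hx.coeff_mem_nonunits_of_val_le ha hri hc i (R.e i) le_rfl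
    ((h i).trans (R.loc i).val_π.le) q q.2.2

/-- **the twisted family is orthogonal**: if a combination is divisible by `t ∈ F` at all places
then so are its coefficients -/
theorem IsTwist.val_coeff_le {c : (Σ i, J i × Fin (R.e i)) → F} {t : F}
    (h : ∀ i, (O' i).valuation (∑ p, algebraMap F F' (c p) * fam R a x p)
      ≤ (O' i).valuation (algebraMap F F' t)) (p : Σ i, J i × Fin (R.e i)) :
    O.valuation (c p) ≤ O.valuation t := by
  classical
  obtain ⟨p₀, -, hmax⟩ := Finset.exists_max_image Finset.univ (fun p => O.valuation (c p))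
    ⟨p, Finset.mem_univ _⟩
  refine (hmax p (Finset.mem_univ _)).trans (not_lt.mp fun hlt => ?_)
  have hc0 : c p₀ ≠ 0 := by
    intro h0
    rw [h0, map_zero] at hlt
    exact not_lt_zero hlt
  have hv0 : 0 < O.valuation (c p₀) := lt_of_le_of_lt zero_le hlt
  set d : (Σ i, J i × Fin (R.e i)) → F := fun p => c p / c p₀ with hd
  have hdO : ∀ p, d p ∈ O := by
    intro p
    rw [← O.valuation_le_one_iff, hd, map_div₀]
    exact div_le_one_of_le₀ (hmax p (Finset.mem_univ _)) zero_le
  have ht : t / c p₀ ∈ O.nonunits := by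
    rw [O.mem_nonunits_iff, map_div₀, div_lt_one₀ hv0]
    exact hlt
  have hsum : ∑ p, algebraMap F F' (d p) * fam R a x p
      = (∑ p, algebraMap F F' (c p) * fam R a x p) * (algebraMap F F' (c p₀))⁻¹ := by
    rw [Finset.sum_mul]
    refine Finset.sum_congr rfl fun p _ => ?_
    rw [hd, map_div₀]
    ring
  have h1 : d p₀ ∈ O.nonunits := by
    refine hx.coeff_mem_nonunits ha hri hdO (fun i => ?_) p₀
    have h2 : (O' i).valuation (algebraMap F F' (t / c p₀))
        ≤ (O' i).valuation (algebraMap F F' R.π) :=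
      val_algebraMap_le_of_le (R.loc i).comap ((R.loc i).π_gen _ ht)
    refine le_trans ?_ h2
    rw [hsum, map_mul, map_div₀, map_div₀, map_inv₀, div_eq_mul_inv]
    exact mul_le_mul' (h i) le_rfl
  rw [hd, O.mem_nonunits_iff] at h1
  simp only [div_self hc0, map_one, lt_self_iff_false] at h1

theorem IsTwist.eq_zero_of_sum_eq_zero {c : (Σ i, J i × Fin (R.e i)) → F}
    (hc : ∑ p, algebraMap F F' (c p) * fam R a x p = 0) (p : Σ i, J i × Fin (R.e i)) :
    c p = 0 := by
  have h1 := hx.val_coeff_le ha hri (c := c) (t := 0) (fun i => by rw [hc, map_zero, map_zero, map_zero]) p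
  rw [map_zero] at h1
  exact (Valuation.zero_iff _).mp (le_antisymm h1 zero_le)

/-- the twisted family is linearly independent -/
theorem IsTwist.linearIndependent : LinearIndependent F (fam R a x) := by
  rw [Fintype.linearIndependent_iff]
  intro c hc
  refine hx.eq_zero_of_sum_eq_zero ha hri ?_
  rw [← hc]
  exact Finset.sum_congr rfl fun p _ => (Algebra.smul_def _ _).symm

/-- **the fundamental inequality** -/
theorem IsTwist.card_le_finrank [Module.Finite F F'] :
    ∑ i, R.e i * Fintype.card (J i) ≤ Module.finrank F F' := by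
  have h1 := (hx.linearIndependent ha hri).fintype_card_le_finrank
  rw [Fintype.card_sigma] at h1
  refine le_trans (le_of_eq (Finset.sum_congr rfl fun i _ => ?_)) h1
  rw [Fintype.card_prod, Fintype.card_fin, mul_comm]

/-- coordinates of an element of `⋂ O' i` -/
theorem IsTwist.coeff_mem {c : (Σ i, J i × Fin (R.e i)) → F}
    (hy : ∀ i, ∑ p, algebraMap F F' (c p) * fam R a x p ∈ O' i)
    (p : Σ i, J i × Fin (R.e i)) : c p ∈ O := by
  have h1 := hx.val_coeff_le ha hri (c := c) (t := 1)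
    (fun i => by rw [map_one, map_one]; exact ((O' i).valuation_le_one_iff _).mpr (hy i)) p
  rw [map_one] at h1
  exact (O.valuation_le_one_iff _).mp h1

omit hri in
theorem IsTwist.sum_mem {c : (Σ i, J i × Fin (R.e i)) → F} (hc : ∀ p, c p ∈ O) (i : ι) :
    ∑ p, algebraMap F F' (c p) * fam R a x p ∈ O' i :=
  _root_.sum_mem fun p _ => mul_mem
    (((O' i).valuation_le_one_iff _).mp (val_algebraMap_le_one (R.loc i).comap (hc p)))
    (hx.fam_mem ha p i)

section Basis

variable [Module.Finite F F']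
variable (hcard : ∑ i, R.e i * Fintype.card (J i) = Module.finrank F F')

/-- **the equality case**: the twisted family is a basis -/
noncomputable def IsTwist.basis : Module.Basis (Σ i, J i × Fin (R.e i)) F F' :=
  basisOfLinearIndependentOfCardEqFinrank' (fam R a x) (hx.linearIndependent ha hri)
    (by
      rw [Fintype.card_sigma, ← hcard]
      refine Finset.sum_congr rfl fun i _ => ?_
      rw [Fintype.card_prod, Fintype.card_fin, mul_comm])

theorem IsTwist.basis_apply (p : Σ i, J i × Fin (R.e i)) :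
    hx.basis ha hri hcard p = fam R a x p := by
  rw [IsTwist.basis, coe_basisOfLinearIndependentOfCardEqFinrank']

theorem IsTwist.sum_repr (y : F') :
    ∑ p, algebraMap F F' ((hx.basis ha hri hcard).repr y p) * fam R a x p = y := by
  conv_rhs => rw [← (hx.basis ha hri hcard).sum_repr y]
  exact Finset.sum_congr rfl fun p _ => by rw [hx.basis_apply ha hri hcard, Algebra.smul_def]

/-- **`⋂ O' i` is `O`-free on the twisted family** -/
theorem IsTwist.mem_iff_repr_mem (y : F') :
    (∀ i, y ∈ O' i) ↔ ∀ p, (hx.basis ha hri hcard).repr y p ∈ O := by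
  constructor
  · intro hy
    refine hx.coeff_mem ha hri fun i => ?_
    rw [hx.sum_repr ha hri hcard y]
    exact hy i
  · intro hc i
    rw [← hx.sum_repr ha hri hcard y]
    exact hx.sum_mem ha hc i

end Basis

end Global

/-! ### determinants of matrices that are block triangular with respect to the level -/

section BlockTri

open Matrix

variable {S : Type*} [CommRing S]

section OneBlock

variable {J : Type*} [Fintype J] [DecidableEq J] {n : ℕ}

/-- the index equivalence of the `k`-th level -/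
def levelEquiv (k : Fin n) : { q : J × Fin n // q.2 = k } ≃ J where
  toFun q := q.1.1
  invFun j := ⟨(j, k), rfl⟩
  left_inv := by
    rintro ⟨⟨j, l⟩, h⟩
    dsimp only at h
    subst h
    rfl
  right_inv _ := rfl

/-- determinant of a matrix over `J × Fin n` that is block triangular with respect to the level,
all diagonal blocks being `A` -/
theorem det_of_levels (N : Matrix (J × Fin n) (J × Fin n) S) (A : Matrix J J S)
    (hdiag : ∀ j j' l, N (j, l) (j', l) = A j j')
    (hlt : ∀ q q' : J × Fin n, q.2 < q'.2 → N q q' = 0) : N.det = A.det ^ n := by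
  have hN : Nᵀ.BlockTriangular Prod.snd := fun q q' h => hlt q' q h
  rw [← Matrix.det_transpose, hN.det_fintype]
  have h1 : ∀ k : Fin n, (Nᵀ.toSquareBlock Prod.snd k).det = A.det := by
    intro k
    have h2 : Nᵀ.toSquareBlock Prod.snd k
        = Matrix.reindex (levelEquiv k).symm (levelEquiv k).symm Aᵀ := by
      ext ⟨⟨j, l⟩, h⟩ ⟨⟨j', l'⟩, h'⟩
      dsimp only at h h'
      subst h
      subst h'
      rw [toSquareBlock_def]
      simp only [of_apply, reindex_apply, submatrix_apply, Equiv.symm_symm, transpose_apply]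
      exact hdiag _ _ _
    rw [h2, Matrix.det_reindex_self, Matrix.det_transpose]
  rw [Finset.prod_congr rfl fun k _ => h1 k, Finset.prod_const, Finset.card_univ,
    Fintype.card_fin]

/-- characteristic polynomial of a matrix over `J × Fin n` that is block triangular with respect
to the level, all diagonal blocks being `A` -/
theorem charpoly_of_levels (N : Matrix (J × Fin n) (J × Fin n) S) (A : Matrix J J S)
    (hdiag : ∀ j j' l, N (j, l) (j', l) = A j j')
    (hlt : ∀ q q' : J × Fin n, q.2 < q'.2 → N q q' = 0) : N.charpoly = A.charpoly ^ n := by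
  rw [Matrix.charpoly, Matrix.charpoly]
  refine det_of_levels N.charmatrix A.charmatrix ?_ ?_
  · intro j j' l
    by_cases hj : j = j'
    · subst hj
      rw [charmatrix_apply_eq, charmatrix_apply_eq, hdiag]
    · have hne : ((j, l) : J × Fin n) ≠ (j', l) := fun h => hj (Prod.ext_iff.mp h).1
      rw [charmatrix_apply_ne _ _ _ hne, charmatrix_apply_ne _ _ _ hj, hdiag]
  · intro q q' h
    have hne : q ≠ q' := fun h' => absurd h (h' ▸ lt_irrefl _)
    rw [charmatrix_apply_ne _ _ _ hne, hlt q q' h, map_zero, neg_zero]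

end OneBlock

variable {ι : Type*} [Fintype ι] [DecidableEq ι] {J : ι → Type*} [∀ i, Fintype (J i)]
  [∀ i, DecidableEq (J i)] {e : ι → ℕ}

/-- determinant of a matrix over `Σ i, J i × Fin (e i)` that is block diagonal with respect to `i`
and, in the block of `i`, block triangular with respect to the level with all diagonal blocks
`A i` -/
theorem det_of_sigma_levels (M : Matrix (Σ i, J i × Fin (e i)) (Σ i, J i × Fin (e i)) S)
    (A : ∀ i, Matrix (J i) (J i) S)
    (hdiag : ∀ i j j' l, M ⟨i, (j, l)⟩ ⟨i, (j', l)⟩ = A i j j')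
    (hlt : ∀ i (q q' : J i × Fin (e i)), q.2 < q'.2 → M ⟨i, q⟩ ⟨i, q'⟩ = 0)
    (hoff : ∀ p p' : Σ i, J i × Fin (e i), p.1 ≠ p'.1 → M p p' = 0) :
    M.det = ∏ i, (A i).det ^ e i := by
  rw [det_of_sigma_blocks (J := fun i => J i × Fin (e i)) M (fun i q q' => M ⟨i, q⟩ ⟨i, q'⟩)
    (fun _ _ _ => rfl) hoff]
  exact Finset.prod_congr rfl fun i _ =>
    det_of_levels _ (A i) (hdiag i) (hlt i)

theorem charpoly_of_sigma_levels
    (M : Matrix (Σ i, J i × Fin (e i)) (Σ i, J i × Fin (e i)) S)
    (A : ∀ i, Matrix (J i) (J i) S)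
    (hdiag : ∀ i j j' l, M ⟨i, (j, l)⟩ ⟨i, (j', l)⟩ = A i j j')
    (hlt : ∀ i (q q' : J i × Fin (e i)), q.2 < q'.2 → M ⟨i, q⟩ ⟨i, q'⟩ = 0)
    (hoff : ∀ p p' : Σ i, J i × Fin (e i), p.1 ≠ p'.1 → M p p' = 0) :
    M.charpoly = ∏ i, (A i).charpoly ^ e i := by
  rw [charpoly_of_sigma_blocks (J := fun i => J i × Fin (e i)) M
    (fun i q q' => M ⟨i, q⟩ ⟨i, q'⟩) (fun _ _ _ => rfl) hoff]
  exact Finset.prod_congr rfl fun i _ =>
    charpoly_of_levels _ (A i) (hdiag i) (hlt i)

end BlockTri

/-! ### the reduced multiplication matrix -/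

section Red

variable {F F' : Type*} [Field F] [Field F'] [Algebra F F'] [Module.Finite F F']
variable {ι : Type*} [Fintype ι]
variable {O : ValuationSubring F} {O' : ι → ValuationSubring F'}
variable {κ : Type*} [Field κ] {κ' : ι → Type*} [∀ i, Field (κ' i)] [∀ i, Algebra κ (κ' i)]
variable {J : ι → Type*} [∀ i, Fintype (J i)]

variable (D : RedData O O' κ κ') {R : RamData O O'} (B : ∀ i, Module.Basis (J i) κ (κ' i))
variable {a : ∀ i, J i → F'} (ha : ∀ i j, a i j ∈ O' i)
variable (hB : ∀ i j, D.r i (a i j) (ha i j) = B i j)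
variable {x : ι → F'} (hx : IsTwist R a x)
variable (hcard : ∑ i, R.e i * Fintype.card (J i) = Module.finrank F F')

include hB in
/-- the reduction of a combination of the lifts `a i j` with coefficients in `O` -/
theorem r_layer (i : ι) {c : J i → F} (hc : ∀ j, c j ∈ O) :
    D.r i (∑ j, algebraMap F F' (c j) * a i j)
      (sum_mem fun j _ => mul_mem (algebraMap_mem_of_mem D.comap i (hc j)) (ha i j))
      = ∑ j, D.red ⟨c j, hc j⟩ • B i j := by
  rw [D.r_sum i Finset.univ (fun j => algebraMap F F' (c j) * a i j)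
    (fun j => mul_mem (algebraMap_mem_of_mem D.comap i (hc j)) (ha i j))]
  refine Finset.sum_congr rfl fun j _ => ?_
  rw [D.r_mul i (algebraMap_mem_of_mem D.comap i (hc j)) (ha i j), D.r_algebraMap i (hc j),
    hB, Algebra.smul_def]

/-- the basis of `F'` over `F` given by the twisted family -/
noncomputable def twBasis : Module.Basis (Σ i, J i × Fin (R.e i)) F F' :=
  hx.basis ha (hri_of_basis D B a ha hB) hcard

theorem twBasis_apply (p : Σ i, J i × Fin (R.e i)) :
    twBasis D B ha hB hx hcard p = fam R a x p :=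
  hx.basis_apply ha (hri_of_basis D B a ha hB) hcard p

theorem sum_repr_twBasis (z : F') :
    ∑ p, algebraMap F F' ((twBasis D B ha hB hx hcard).repr z p) * fam R a x p = z :=
  hx.sum_repr ha (hri_of_basis D B a ha hB) hcard z

/-- the coordinates of `z ∈ ⋂ O' i` lie in `O` -/
theorem repr_mem {z : F'} (hz : ∀ i, z ∈ O' i) (p : Σ i, J i × Fin (R.e i)) :
    (twBasis D B ha hB hx hcard).repr z p ∈ O :=
  (hx.mem_iff_repr_mem ha (hri_of_basis D B a ha hB) hcard z).mp hz p

/-- the matrix of the multiplication by `y ∈ ⋂ O' i` has entries in `O` -/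
theorem repr_mul_mem {y : F'} (hy : ∀ i, y ∈ O' i) (p p' : Σ i, J i × Fin (R.e i)) :
    (twBasis D B ha hB hx hcard).repr (y * fam R a x p') p ∈ O :=
  repr_mem D B ha hB hx hcard (fun i => mul_mem (hy i) (hx.fam_mem ha p' i)) p

/-- the blocks off the diagonal (with respect to the place) lie in `𝔪_O` -/
theorem repr_mul_mem_nonunits_of_ne {y : F'} (hy : ∀ i, y ∈ O' i)
    (p p' : Σ i, J i × Fin (R.e i)) (h : p.1 ≠ p'.1) :
    (twBasis D B ha hB hx hcard).repr (y * fam R a x p') p ∈ O.nonunits := by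
  obtain ⟨i, q⟩ := p
  refine hx.coeff_mem_nonunits_of_val_le ha (hri_of_basis D B a ha hB)
    (c := fun p => (twBasis D B ha hB hx hcard).repr (y * fam R a x p') p)
    (fun p => repr_mul_mem D B ha hB hx hcard hy p p') i (R.e i) le_rfl ?_ q q.2.2
  rw [sum_repr_twBasis, map_mul, ← (R.loc i).val_π]
  calc (O' i).valuation y * (O' i).valuation (fam R a x p')
      ≤ 1 * (O' i).valuation (algebraMap F F' R.π) :=
        mul_le_mul' (((O' i).valuation_le_one_iff _).mpr (hy i)) (hx.off p' i h)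
    _ = _ := one_mul _

/-- in the block of a place the entries above the diagonal (with respect to the level) lie in
`𝔪_O` -/
theorem repr_mul_mem_nonunits_of_lt {y : F'} (hy : ∀ i, y ∈ O' i) (i : ι)
    (q q' : J i × Fin (R.e i)) (h : q.2 < q'.2) :
    (twBasis D B ha hB hx hcard).repr (y * fam R a x ⟨i, q'⟩) ⟨i, q⟩ ∈ O.nonunits := by
  refine hx.coeff_mem_nonunits_of_val_le ha (hri_of_basis D B a ha hB)
    (c := fun p => (twBasis D B ha hB hx hcard).repr (y * fam R a x ⟨i, q'⟩) p)
    (fun p => repr_mul_mem D B ha hB hx hcard hy p ⟨i, q'⟩) i (q'.2 : ℕ) q'.2.2.le ?_ q h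
  rw [sum_repr_twBasis, map_mul]
  calc (O' i).valuation y * (O' i).valuation (fam R a x ⟨i, q'⟩)
      ≤ 1 * (O' i).valuation (R.ϖ i) ^ (q'.2 : ℕ) :=
        mul_le_mul' (((O' i).valuation_le_one_iff _).mpr (hy i)) (hx.val_fam_le ha ⟨i, q'⟩)
    _ = _ := one_mul _

/-- **the diagonal blocks of the reduced multiplication matrix** -/
theorem repr_red_mul {y : F'} (hy : ∀ i, y ∈ O' i) (i : ι) (j j' : J i) (l : Fin (R.e i)) :
    (B i).repr (D.r i y (hy i) * B i j') j
      = D.red ⟨(twBasis D B ha hB hx hcard).repr (y * fam R a x ⟨i, (j', l)⟩) ⟨i, (j, l)⟩,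
          repr_mul_mem D B ha hB hx hcard hy ⟨i, (j, l)⟩ ⟨i, (j', l)⟩⟩ := by
  classical
  set c : (Σ i, J i × Fin (R.e i)) → F :=
    fun p => (twBasis D B ha hB hx hcard).repr (y * fam R a x ⟨i, (j', l)⟩) p with hc
  have hcO : ∀ p, c p ∈ O := fun p => repr_mul_mem D B ha hB hx hcard hy p ⟨i, (j', l)⟩
  have h1 : (O' i).valuation (∑ j, algebraMap F F' (c ⟨i, (j, l)⟩) * a i j - y * a i j')
      ≤ (O' i).valuation (R.ϖ i) := by
    refine hx.val_layer_sub_le ha hcO i l (y * a i j')
      (fun q hq => repr_mul_mem_nonunits_of_lt D B ha hB hx hcard hy i q (j', l) hq) ?_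
    have h2 : ∑ p, algebraMap F F' (c p) * fam R a x p
        - x i * (y * a i j' * R.ϖ i ^ (l : ℕ)) = 0 := by
      rw [hc, sum_repr_twBasis, fam]
      ring
    rw [h2, map_zero]
    exact zero_le
  have hT : ∑ j, algebraMap F F' (c ⟨i, (j, l)⟩) * a i j ∈ O' i :=
    sum_mem fun j _ => mul_mem (algebraMap_mem_of_mem D.comap i (hcO _)) (ha i j)
  have h3 := D.r_eq_of_sub_mem i hT (mul_mem (hy i) (ha i j'))
    ((R.loc i).mem_nonunits_of_val_le h1)
  rw [r_layer D B ha hB i (c := fun j => c ⟨i, (j, l)⟩) (fun j => hcO _),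
    D.r_mul i (hy i) (ha i j'), hB] at h3
  rw [← h3, (B i).repr_sum_self]

/-- the matrix of the multiplication by `y ∈ ⋂ O' i` in the twisted basis, over `O` -/
noncomputable def mulMatrix {y : F'} (hy : ∀ i, y ∈ O' i) :
    Matrix (Σ i, J i × Fin (R.e i)) (Σ i, J i × Fin (R.e i)) ↥O :=
  fun p p' => ⟨(twBasis D B ha hB hx hcard).repr (y * fam R a x p') p,
    repr_mul_mem D B ha hB hx hcard hy p p'⟩

theorem map_subtype_mulMatrix [DecidableEq (Σ i, J i × Fin (R.e i))] {y : F'}
    (hy : ∀ i, y ∈ O' i) :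
    (mulMatrix D B ha hB hx hcard hy).map O.subtype
      = Algebra.leftMulMatrix (twBasis D B ha hB hx hcard) y := by
  ext p p'
  rw [Matrix.map_apply, Algebra.leftMulMatrix_eq_repr_mul, twBasis_apply]
  rfl

theorem map_red_mulMatrix_diag [∀ i, DecidableEq (J i)] {y : F'} (hy : ∀ i, y ∈ O' i) (i : ι)
    (j j' : J i) (l : Fin (R.e i)) :
    ((mulMatrix D B ha hB hx hcard hy).map D.red) ⟨i, (j, l)⟩ ⟨i, (j', l)⟩
      = Algebra.leftMulMatrix (B i) (D.r i y (hy i)) j j' := by
  rw [Matrix.map_apply, Algebra.leftMulMatrix_eq_repr_mul,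
    repr_red_mul D B ha hB hx hcard hy i j j' l]
  rfl

theorem map_red_mulMatrix_lt {y : F'} (hy : ∀ i, y ∈ O' i) (i : ι)
    (q q' : J i × Fin (R.e i)) (h : q.2 < q'.2) :
    ((mulMatrix D B ha hB hx hcard hy).map D.red) ⟨i, q⟩ ⟨i, q'⟩ = 0 := by
  rw [Matrix.map_apply]
  exact (D.red_eq_zero _).mpr (repr_mul_mem_nonunits_of_lt D B ha hB hx hcard hy i q q' h)

theorem map_red_mulMatrix_off {y : F'} (hy : ∀ i, y ∈ O' i)
    (p p' : Σ i, J i × Fin (R.e i)) (h : p.1 ≠ p'.1) :
    ((mulMatrix D B ha hB hx hcard hy).map D.red) p p' = 0 := by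
  rw [Matrix.map_apply]
  exact (D.red_eq_zero _).mpr (repr_mul_mem_nonunits_of_ne D B ha hB hx hcard hy p p' h)

theorem norm_eq_det_mulMatrix [DecidableEq ι] [∀ i, DecidableEq (J i)] {y : F'}
    (hy : ∀ i, y ∈ O' i) :
    Algebra.norm F y = ((mulMatrix D B ha hB hx hcard hy).det : F) := by
  rw [Algebra.norm_eq_matrix_det (twBasis D B ha hB hx hcard) y,
    ← map_subtype_mulMatrix D B ha hB hx hcard hy]
  exact (RingHom.map_det O.subtype (mulMatrix D B ha hB hx hcard hy)).symm

include D B ha hB hx hcard in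
theorem norm_mem_of_twist {y : F'} (hy : ∀ i, y ∈ O' i) : Algebra.norm F y ∈ O := by
  classical
  rw [norm_eq_det_mulMatrix D B ha hB hx hcard hy]
  exact (mulMatrix D B ha hB hx hcard hy).det.2

theorem red_norm_of_twist {y : F'} (hy : ∀ i, y ∈ O' i) :
    D.red ⟨Algebra.norm F y, norm_mem_of_twist D B ha hB hx hcard hy⟩
      = ∏ i, Algebra.norm κ (D.r i y (hy i)) ^ R.e i := by
  classical
  have h1 : (⟨Algebra.norm F y, norm_mem_of_twist D B ha hB hx hcard hy⟩ : ↥O)
      = (mulMatrix D B ha hB hx hcard hy).det :=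
    Subtype.ext (norm_eq_det_mulMatrix D B ha hB hx hcard hy)
  rw [h1, RingHom.map_det, RingHom.mapMatrix_apply,
    det_of_sigma_levels ((mulMatrix D B ha hB hx hcard hy).map D.red)
      (fun i => Algebra.leftMulMatrix (B i) (D.r i y (hy i)))
      (map_red_mulMatrix_diag D B ha hB hx hcard hy)
      (map_red_mulMatrix_lt D B ha hB hx hcard hy)
      (map_red_mulMatrix_off D B ha hB hx hcard hy)]
  refine Finset.prod_congr rfl fun i _ => ?_
  rw [Algebra.norm_eq_matrix_det (B i)]

theorem trace_eq_trace_mulMatrix [DecidableEq ι] [∀ i, DecidableEq (J i)] {y : F'}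
    (hy : ∀ i, y ∈ O' i) :
    Algebra.trace F F' y = ((mulMatrix D B ha hB hx hcard hy).trace : F) := by
  rw [Algebra.trace_eq_matrix_trace (twBasis D B ha hB hx hcard) y,
    ← map_subtype_mulMatrix D B ha hB hx hcard hy]
  exact (AddMonoidHom.map_trace O.subtype.toAddMonoidHom
    (mulMatrix D B ha hB hx hcard hy)).symm

include D B ha hB hx hcard in
theorem trace_mem_of_twist {y : F'} (hy : ∀ i, y ∈ O' i) : Algebra.trace F F' y ∈ O := by
  classical
  rw [trace_eq_trace_mulMatrix D B ha hB hx hcard hy]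
  exact (mulMatrix D B ha hB hx hcard hy).trace.2

theorem red_trace_of_twist {y : F'} (hy : ∀ i, y ∈ O' i) :
    D.red ⟨Algebra.trace F F' y, trace_mem_of_twist D B ha hB hx hcard hy⟩
      = ∑ i, R.e i • Algebra.trace κ (κ' i) (D.r i y (hy i)) := by
  classical
  have h1 : (⟨Algebra.trace F F' y, trace_mem_of_twist D B ha hB hx hcard hy⟩ : ↥O)
      = (mulMatrix D B ha hB hx hcard hy).trace :=
    Subtype.ext (trace_eq_trace_mulMatrix D B ha hB hx hcard hy)
  rw [h1, Matrix.trace, map_sum, Fintype.sum_sigma]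
  refine Finset.sum_congr rfl fun i _ => ?_
  rw [Fintype.sum_prod_type_right, Algebra.trace_eq_matrix_trace (B i), Matrix.trace]
  have h2 : ∀ l : Fin (R.e i), ∑ j, D.red ((mulMatrix D B ha hB hx hcard hy).diag ⟨i, (j, l)⟩)
      = ∑ j, (Algebra.leftMulMatrix (B i) (D.r i y (hy i))).diag j := fun l =>
    Finset.sum_congr rfl fun j _ => by
      rw [Matrix.diag_apply, Matrix.diag_apply,
        ← map_red_mulMatrix_diag D B ha hB hx hcard hy i j j l, Matrix.map_apply]
  rw [Finset.sum_congr rfl fun l _ => h2 l, Finset.sum_const, Finset.card_univ,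
    Fintype.card_fin]

/-- the characteristic polynomial of the multiplication by `y ∈ ⋂ O' i` has coefficients in `O` -/
theorem charpoly_mulMatrix_map_subtype [DecidableEq ι] [∀ i, DecidableEq (J i)] {y : F'}
    (hy : ∀ i, y ∈ O' i) :
    (mulMatrix D B ha hB hx hcard hy).charpoly.map O.subtype =
      LinearMap.charpoly (Algebra.lmul F F' y) := by
  rw [← Matrix.charpoly_map, map_subtype_mulMatrix D B ha hB hx hcard hy,
    Algebra.leftMulMatrix_apply, LinearMap.charpoly_toMatrix]

/-- **the characteristic polynomial commutes with reduction** -/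
theorem charpoly_mulMatrix_map_red [DecidableEq ι] [∀ i, DecidableEq (J i)]
    [∀ i, Module.Finite κ (κ' i)] {y : F'} (hy : ∀ i, y ∈ O' i) :
    (mulMatrix D B ha hB hx hcard hy).charpoly.map D.red =
      ∏ i, LinearMap.charpoly (Algebra.lmul κ (κ' i) (D.r i y (hy i))) ^ R.e i := by
  rw [← Matrix.charpoly_map,
    charpoly_of_sigma_levels ((mulMatrix D B ha hB hx hcard hy).map D.red)
      (fun i => Algebra.leftMulMatrix (B i) (D.r i y (hy i)))
      (map_red_mulMatrix_diag D B ha hB hx hcard hy)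
      (map_red_mulMatrix_lt D B ha hB hx hcard hy)
      (map_red_mulMatrix_off D B ha hB hx hcard hy)]
  refine Finset.prod_congr rfl fun i _ => ?_
  rw [Algebra.leftMulMatrix_apply, LinearMap.charpoly_toMatrix]

end Red

/-! ### the main statements -/

section Main

variable {F F' : Type*} [Field F] [Field F'] [Algebra F F'] [Module.Finite F F']
variable {ι : Type*} [Fintype ι]
variable {O : ValuationSubring F} {O' : ι → ValuationSubring F'}
variable {κ : Type*} [Field κ] {κ' : ι → Type*} [∀ i, Field (κ' i)] [∀ i, Algebra κ (κ' i)]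
variable {J : ι → Type*} [∀ i, Fintype (J i)]

variable (D : RedData O O' κ κ') (R : RamData O O') (B : ∀ i, Module.Basis (J i) κ (κ' i))
variable (a : ∀ i, J i → F') (ha : ∀ i j, a i j ∈ O' i)

/-- **the norm of an element of `⋂ O' i` lies in `O`** (ramified case) -/
theorem norm_mem (hB : ∀ i j, D.r i (a i j) (ha i j) = B i j)
    (hA : ∀ i, Arch (O' i)) (hinc : ∀ i j, i ≠ j → ¬ O' i ≤ O' j)
    (hcard : ∑ i, R.e i * Fintype.card (J i) = Module.finrank F F')
    {y : F'} (hy : ∀ i, y ∈ O' i) : Algebra.norm F y ∈ O := by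
  obtain ⟨x, hx⟩ := exists_isTwist R a hA hinc
  exact norm_mem_of_twist D B ha hB hx hcard hy

/-- **the norm commutes with reduction** (ramified case):
`red (N y) = ∏ i, N_i (red' i y) ^ e i` -/
theorem red_norm (hB : ∀ i j, D.r i (a i j) (ha i j) = B i j)
    (hA : ∀ i, Arch (O' i)) (hinc : ∀ i j, i ≠ j → ¬ O' i ≤ O' j)
    (hcard : ∑ i, R.e i * Fintype.card (J i) = Module.finrank F F')
    {y : F'} (hy : ∀ i, y ∈ O' i) :
    D.red ⟨Algebra.norm F y, norm_mem D R B a ha hB hA hinc hcard hy⟩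
      = ∏ i, Algebra.norm κ (D.r i y (hy i)) ^ R.e i := by
  obtain ⟨x, hx⟩ := exists_isTwist R a hA hinc
  exact red_norm_of_twist D B ha hB hx hcard hy

/-- **the trace of an element of `⋂ O' i` lies in `O`** (ramified case) -/
theorem trace_mem (hB : ∀ i j, D.r i (a i j) (ha i j) = B i j)
    (hA : ∀ i, Arch (O' i)) (hinc : ∀ i j, i ≠ j → ¬ O' i ≤ O' j)
    (hcard : ∑ i, R.e i * Fintype.card (J i) = Module.finrank F F')
    {y : F'} (hy : ∀ i, y ∈ O' i) : Algebra.trace F F' y ∈ O := by
  obtain ⟨x, hx⟩ := exists_isTwist R a hA hinc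
  exact trace_mem_of_twist D B ha hB hx hcard hy

/-- **the trace commutes with reduction** (ramified case):
`red (Tr y) = ∑ i, e i • Tr_i (red' i y)` -/
theorem red_trace (hB : ∀ i j, D.r i (a i j) (ha i j) = B i j)
    (hA : ∀ i, Arch (O' i)) (hinc : ∀ i j, i ≠ j → ¬ O' i ≤ O' j)
    (hcard : ∑ i, R.e i * Fintype.card (J i) = Module.finrank F F')
    {y : F'} (hy : ∀ i, y ∈ O' i) :
    D.red ⟨Algebra.trace F F' y, trace_mem D R B a ha hB hA hinc hcard hy⟩
      = ∑ i, R.e i • Algebra.trace κ (κ' i) (D.r i y (hy i)) := by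
  obtain ⟨x, hx⟩ := exists_isTwist R a hA hinc
  exact red_trace_of_twist D B ha hB hx hcard hy

/-- **the characteristic polynomial of the multiplication by `y ∈ ⋂ O' i` is defined over `O` and
reduces to the product of the `e i`-th powers of the characteristic polynomials of the
reductions** -/
theorem exists_charpoly [∀ i, Module.Finite κ (κ' i)]
    (hB : ∀ i j, D.r i (a i j) (ha i j) = B i j)
    (hA : ∀ i, Arch (O' i)) (hinc : ∀ i j, i ≠ j → ¬ O' i ≤ O' j)
    (hcard : ∑ i, R.e i * Fintype.card (J i) = Module.finrank F F')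
    {y : F'} (hy : ∀ i, y ∈ O' i) :
    ∃ P : Polynomial ↥O, P.Monic ∧
      P.map O.subtype = LinearMap.charpoly (Algebra.lmul F F' y) ∧
      P.map D.red
        = ∏ i, LinearMap.charpoly (Algebra.lmul κ (κ' i) (D.r i y (hy i))) ^ R.e i := by
  classical
  obtain ⟨x, hx⟩ := exists_isTwist R a hA hinc
  exact ⟨(mulMatrix D B ha hB hx hcard hy).charpoly, Matrix.charpoly_monic _,
    charpoly_mulMatrix_map_subtype D B ha hB hx hcard hy,
    charpoly_mulMatrix_map_red D B ha hB hx hcard hy⟩

/-- **`⋂ O' i` is a free `O`-module of rank `[F' : F]`**: there is a basis of `F'` over `F` in which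
the elements of `⋂ O' i` are exactly those with coordinates in `O` -/
theorem exists_basis (hB : ∀ i j, D.r i (a i j) (ha i j) = B i j)
    (hA : ∀ i, Arch (O' i)) (hinc : ∀ i j, i ≠ j → ¬ O' i ≤ O' j)
    (hcard : ∑ i, R.e i * Fintype.card (J i) = Module.finrank F F') :
    ∃ b : Module.Basis (Σ i, J i × Fin (R.e i)) F F',
      (∀ p i, b p ∈ O' i) ∧ ∀ z : F', (∀ i, z ∈ O' i) ↔ ∀ p, b.repr z p ∈ O := by
  obtain ⟨x, hx⟩ := exists_isTwist R a hA hinc
  refine ⟨twBasis D B ha hB hx hcard, fun p i => ?_, fun z =>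
    hx.mem_iff_repr_mem ha (hri_of_basis D B a ha hB) hcard z⟩
  rw [twBasis_apply]
  exact hx.fam_mem ha p i

/-! ### basis-free forms -/

section BasisFree

variable [∀ i, Module.Finite κ (κ' i)]

/-- **the norm of an element of `⋂ O' i` lies in `O`** (ramified case, basis-free form) -/
theorem norm_mem' (hsurj : ∀ i, Function.Surjective (D.red' i))
    (hA : ∀ i, Arch (O' i)) (hinc : ∀ i j, i ≠ j → ¬ O' i ≤ O' j)
    (hdim : ∑ i, R.e i * Module.finrank κ (κ' i) = Module.finrank F F')
    {y : F'} (hy : ∀ i, y ∈ O' i) : Algebra.norm F y ∈ O := by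
  obtain ⟨a, ha, hB⟩ := exists_lifts D hsurj
  exact norm_mem D R (fun i => Module.finBasis κ (κ' i)) a ha hB hA hinc
    (by simpa using hdim) hy

/-- **the norm commutes with reduction** (ramified case, basis-free form) -/
theorem red_norm' (hsurj : ∀ i, Function.Surjective (D.red' i))
    (hA : ∀ i, Arch (O' i)) (hinc : ∀ i j, i ≠ j → ¬ O' i ≤ O' j)
    (hdim : ∑ i, R.e i * Module.finrank κ (κ' i) = Module.finrank F F')
    {y : F'} (hy : ∀ i, y ∈ O' i) :
    D.red ⟨Algebra.norm F y, norm_mem' D R hsurj hA hinc hdim hy⟩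
      = ∏ i, Algebra.norm κ (D.red' i ⟨y, hy i⟩) ^ R.e i := by
  obtain ⟨a, ha, hB⟩ := exists_lifts D hsurj
  exact red_norm D R (fun i => Module.finBasis κ (κ' i)) a ha hB hA hinc
    (by simpa using hdim) hy

/-- **the trace of an element of `⋂ O' i` lies in `O`** (ramified case, basis-free form) -/
theorem trace_mem' (hsurj : ∀ i, Function.Surjective (D.red' i))
    (hA : ∀ i, Arch (O' i)) (hinc : ∀ i j, i ≠ j → ¬ O' i ≤ O' j)
    (hdim : ∑ i, R.e i * Module.finrank κ (κ' i) = Module.finrank F F')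
    {y : F'} (hy : ∀ i, y ∈ O' i) : Algebra.trace F F' y ∈ O := by
  obtain ⟨a, ha, hB⟩ := exists_lifts D hsurj
  exact trace_mem D R (fun i => Module.finBasis κ (κ' i)) a ha hB hA hinc
    (by simpa using hdim) hy

/-- **the trace commutes with reduction** (ramified case, basis-free form) -/
theorem red_trace' (hsurj : ∀ i, Function.Surjective (D.red' i))
    (hA : ∀ i, Arch (O' i)) (hinc : ∀ i j, i ≠ j → ¬ O' i ≤ O' j)
    (hdim : ∑ i, R.e i * Module.finrank κ (κ' i) = Module.finrank F F')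
    {y : F'} (hy : ∀ i, y ∈ O' i) :
    D.red ⟨Algebra.trace F F' y, trace_mem' D R hsurj hA hinc hdim hy⟩
      = ∑ i, R.e i • Algebra.trace κ (κ' i) (D.red' i ⟨y, hy i⟩) := by
  obtain ⟨a, ha, hB⟩ := exists_lifts D hsurj
  exact red_trace D R (fun i => Module.finBasis κ (κ' i)) a ha hB hA hinc
    (by simpa using hdim) hy

/-- the characteristic polynomial (ramified case, basis-free form) -/
theorem exists_charpoly' (hsurj : ∀ i, Function.Surjective (D.red' i))
    (hA : ∀ i, Arch (O' i)) (hinc : ∀ i j, i ≠ j → ¬ O' i ≤ O' j)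
    (hdim : ∑ i, R.e i * Module.finrank κ (κ' i) = Module.finrank F F')
    {y : F'} (hy : ∀ i, y ∈ O' i) :
    ∃ P : Polynomial ↥O, P.Monic ∧
      P.map O.subtype = LinearMap.charpoly (Algebra.lmul F F' y) ∧
      P.map D.red =
        ∏ i, LinearMap.charpoly (Algebra.lmul κ (κ' i) (D.red' i ⟨y, hy i⟩)) ^ R.e i := by
  obtain ⟨a, ha, hB⟩ := exists_lifts D hsurj
  exact exists_charpoly D R (fun i => Module.finBasis κ (κ' i)) a ha hB hA hinc
    (by simpa using hdim) hy

end BasisFree

end Main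

end Fermat.Agent.S36.OrthoRam
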