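import Mathlib
import Fermat.Agent.S35.NormRed
import Fermat.Agent.S36.OrthoRam

/-!
# S36 (project V, stage 0): the ramified norm formula for TWO valuation rings

The `Bool`-indexed specialisation of `S36/OrthoRam` (twin of `S35/NormRed.red_norm₂`).

* `red_norm₂` : `V₁`, `V₂` the two (incomparable, archimedean) valuation rings of `F'` over `O`, with
  ramification data `LocalRam O V_i π ϖ_i e_i` and `e₁ [κ₁ : κ] + e₂ [κ₂ : κ] = [F' : F]`; then for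
  `y ∈ V₁ ∩ V₂`: `red (N_{F'/F} y) = N_{κ₁/κ} (ρ₁ y) ^ e₁ * N_{κ₂/κ} (ρ₂ y) ^ e₂`;
* `red_norm₂_deg_one` : the case `κ₁ = κ₂ = κ` (both residue degrees one, reductions restricting to
  `red` on `O`): `red (N y) = ρ₁ y ^ e₁ * ρ₂ y ^ e₂` when `e₁ + e₂ = [F' : F]`
  (project V: `W11` thick with `e = q - 1`, `W20` thin with `e = 1`, over `V1` along `π₁`).
-/

set_option autoImplicit false
set_option linter.unusedSectionVars false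

noncomputable section

namespace Fermat.Agent.S36.OrthoRamTwo

open Fermat.Agent.S34.WeakApprox Fermat.Agent.S34.OrthoMulti Fermat.Agent.S34.OrthoTrace
open Fermat.Agent.S35.NormRed Fermat.Agent.S36.OrthoRam

universe u

variable {F F' : Type*} [Field F] [Field F'] [Algebra F F'] [Module.Finite F F']
variable {O : ValuationSubring F} {V₁ V₂ : ValuationSubring F'}
variable {κ : Type*} [Field κ] {κ₁ κ₂ : Type u} [Field κ₁] [Field κ₂]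
  [Algebra κ κ₁] [Algebra κ κ₂]

/-- the ramification data of two valuation rings over `O` -/
def ramData₂ {π : F} {ϖ₁ ϖ₂ : F'} {e₁ e₂ : ℕ} (h₁ : LocalRam O V₁ π ϖ₁ e₁)
    (h₂ : LocalRam O V₂ π ϖ₂ e₂) : RamData O (fam V₁ V₂) where
  π := π
  ϖ := fun b => bif b then ϖ₁ else ϖ₂
  e := fun b => bif b then e₁ else e₂
  loc := fun b => match b with
    | true => h₁
    | false => h₂

/-- **the norm commutes with reduction, two valuation rings, ramified case** -/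
theorem red_norm₂ [Module.Finite κ κ₁] [Module.Finite κ κ₂]
    {π : F} {ϖ₁ ϖ₂ : F'} {e₁ e₂ : ℕ} (hR₁ : LocalRam O V₁ π ϖ₁ e₁) (hR₂ : LocalRam O V₂ π ϖ₂ e₂)
    (red : ↥O →+* κ) (ρ₁ : ↥V₁ →+* κ₁) (ρ₂ : ↥V₂ →+* κ₂)
    (hred : ∀ c : ↥O, red c = 0 ↔ (c : F) ∈ O.nonunits)
    (hρ₁ : ∀ y : ↥V₁, ρ₁ y = 0 ↔ (y : F') ∈ V₁.nonunits)
    (hρ₂ : ∀ y : ↥V₂, ρ₂ y = 0 ↔ (y : F') ∈ V₂.nonunits)
    (hc₁ : ∀ (c : ↥O) (h : algebraMap F F' (c : F) ∈ V₁),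
      ρ₁ ⟨algebraMap F F' (c : F), h⟩ = algebraMap κ κ₁ (red c))
    (hc₂ : ∀ (c : ↥O) (h : algebraMap F F' (c : F) ∈ V₂),
      ρ₂ ⟨algebraMap F F' (c : F), h⟩ = algebraMap κ κ₂ (red c))
    (hs₁ : Function.Surjective ρ₁) (hs₂ : Function.Surjective ρ₂)
    (hA₁ : Arch V₁) (hA₂ : Arch V₂) (h12 : ¬ V₁ ≤ V₂) (h21 : ¬ V₂ ≤ V₁)
    (hdim : e₁ * Module.finrank κ κ₁ + e₂ * Module.finrank κ κ₂ = Module.finrank F F')
    {y : F'} (hy₁ : y ∈ V₁) (hy₂ : y ∈ V₂) :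
    ∃ h : Algebra.norm F y ∈ O,
      red ⟨Algebra.norm F y, h⟩ =
        Algebra.norm κ (ρ₁ ⟨y, hy₁⟩) ^ e₁ * Algebra.norm κ (ρ₂ ⟨y, hy₂⟩) ^ e₂ := by
  set D := redData₂ hR₁.comap hR₂.comap red ρ₁ ρ₂ hred hρ₁ hρ₂ hc₁ hc₂ with hD
  set R := ramData₂ hR₁ hR₂ with hR
  have hsurj : ∀ b, Function.Surjective (D.red' b) := fun b => by cases b <;> assumption
  have hA : ∀ b, Arch (fam V₁ V₂ b) := fun b => by cases b <;> assumption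
  have hinc : ∀ b b', b ≠ b' → ¬ fam V₁ V₂ b ≤ fam V₁ V₂ b' := by
    intro b b' hbb
    cases b <;> cases b'
    · exact absurd rfl hbb
    · exact h21
    · exact h12
    · exact absurd rfl hbb
  have hdim' : ∑ b, R.e b * Module.finrank κ (famK κ₁ κ₂ b) = Module.finrank F F' := by
    rw [Fintype.sum_bool]
    exact hdim
  have hy : ∀ b, y ∈ fam V₁ V₂ b := fun b => by cases b <;> assumption
  have h := OrthoRam.red_norm' D R hsurj hA hinc hdim' hy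
  rw [Fintype.prod_bool] at h
  exact ⟨OrthoRam.norm_mem' D R hsurj hA hinc hdim' hy, h⟩

/-- **both residue degrees one**: `red (N y) = ρ₁ y ^ e₁ * ρ₂ y ^ e₂` -/
theorem red_norm₂_deg_one {κ : Type u} [Field κ]
    {π : F} {ϖ₁ ϖ₂ : F'} {e₁ e₂ : ℕ} (hR₁ : LocalRam O V₁ π ϖ₁ e₁) (hR₂ : LocalRam O V₂ π ϖ₂ e₂)
    (red : ↥O →+* κ) (ρ₁ : ↥V₁ →+* κ) (ρ₂ : ↥V₂ →+* κ)
    (hred : ∀ c : ↥O, red c = 0 ↔ (c : F) ∈ O.nonunits)
    (hρ₁ : ∀ y : ↥V₁, ρ₁ y = 0 ↔ (y : F') ∈ V₁.nonunits)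
    (hρ₂ : ∀ y : ↥V₂, ρ₂ y = 0 ↔ (y : F') ∈ V₂.nonunits)
    (hc₁ : ∀ (c : ↥O) (h : algebraMap F F' (c : F) ∈ V₁),
      ρ₁ ⟨algebraMap F F' (c : F), h⟩ = red c)
    (hc₂ : ∀ (c : ↥O) (h : algebraMap F F' (c : F) ∈ V₂),
      ρ₂ ⟨algebraMap F F' (c : F), h⟩ = red c)
    (hs₁ : Function.Surjective ρ₁) (hs₂ : Function.Surjective ρ₂)
    (hA₁ : Arch V₁) (hA₂ : Arch V₂) (h12 : ¬ V₁ ≤ V₂) (h21 : ¬ V₂ ≤ V₁)
    (hdim : e₁ + e₂ = Module.finrank F F')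
    {y : F'} (hy₁ : y ∈ V₁) (hy₂ : y ∈ V₂) :
    ∃ h : Algebra.norm F y ∈ O,
      red ⟨Algebra.norm F y, h⟩ = ρ₁ ⟨y, hy₁⟩ ^ e₁ * ρ₂ ⟨y, hy₂⟩ ^ e₂ := by
  obtain ⟨h, hn⟩ := red_norm₂ (κ := κ) (κ₁ := κ) (κ₂ := κ) hR₁ hR₂ red ρ₁ ρ₂ hred hρ₁ hρ₂
    (fun c h => by rw [hc₁ c h]; rfl) (fun c h => by rw [hc₂ c h]; rfl) hs₁ hs₂ hA₁ hA₂ h12 h21
    (by rw [Module.finrank_self, mul_one, mul_one]; exact hdim) hy₁ hy₂
  refine ⟨h, ?_⟩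
  rw [hn, Algebra.norm_self]
  rfl

end Fermat.Agent.S36.OrthoRamTwo
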