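import Mathlib
import Fermat.Agent.S34.SimpleRoot
import Fermat.Agent.S34.ArchComap
import Fermat.Agent.S36.EisensteinRoot
import Fermat.Agent.S36.OrthoRamTwo

/-!
# S36 (project V, stage 0): a thick and a thin place over a discrete valuation ring

`O` a discrete valuation subring of `F` (`IsPrincipalIdealRing`, `≠ ⊤`), `F' = F(t)` of degree
`m + 1`, `S : EisensteinRoot.Datum O F'` (the THICK place `V = S.V`: `t ≡ a`, `e = m`, `f = 1`) and
`S' : SimpleRoot.Datum O F'` with the same `t` (the THIN place `V' = S'.V`: `t ≡ b`, `e = f = 1`),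
`a ≢ b mod 𝔪_O`.  (Project V: `O = V1`, `t = j(q²τ)`, `a = j`, `b = j^{q²}`-lift, `m = q - 1`,
`V = W11`, `V' = W20`.)

* `arch_of_pid` : a discrete valuation subring is archimedean; `arch_V`, `arch_V'`;
* `not_le`, `not_le'` : `V`, `V'` are incomparable;
* `localRam'` : the ramification data of the thin place (`e = 1`, uniformizer `ϖ`);
* `red_norm` : for `y ∈ V ∩ V'` and reductions `ρ : V → κ`, `ρ' : V' → κ` restricting to
  `red : O → κ`: `N_{F'/F} y ∈ O` and `red (N y) = ρ y ^ m * ρ' y`;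
* `eq_or_eq` : if moreover `H ≡ X - b mod 𝔪`, then `V`, `V'` are the ONLY valuation subrings of `F'`
  over `O`.
-/

set_option autoImplicit false
set_option linter.unusedSectionVars false

noncomputable section

namespace Fermat.Agent.S36.ThickThin

open Polynomial IsLocalRing
open Fermat.Agent.S34.WeakApprox Fermat.Agent.S34.TwoExt Fermat.Agent.S36.OrthoRam

universe u

variable {F : Type*} [Field F] {F' : Type*} [Field F'] [Algebra F F']

/-! ### a discrete valuation subring is archimedean -/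

theorem arch_of_pid (O : ValuationSubring F) [IsPrincipalIdealRing ↥O] : Arch O := by
  intro a c hc hc0
  by_cases ha : a ∈ O
  · exact ⟨0, by rw [pow_zero, mul_one]; exact ha⟩
  have ha0 : a ≠ 0 := fun h => ha (h ▸ O.zero_mem)
  have hinv : a⁻¹ ∈ O := (O.mem_or_inv_mem a).resolve_left ha
  have hcO : c ∈ O := O.nonunits_subset hc
  have hcm : (⟨c, hcO⟩ : ↥O) ∈ maximalIdeal ↥O :=
    (O.valuation_lt_one_iff ⟨c, hcO⟩).mpr (O.mem_nonunits_iff.mp hc)
  have hprin : (maximalIdeal ↥O).IsPrincipal := IsPrincipalIdealRing.principal _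
  have h7 := ((tfae_of_isNoetherianRing_of_isLocalRing_of_isDomain ↥O).out 4 6).mp hprin
  have hI : Ideal.span {(⟨a⁻¹, hinv⟩ : ↥O)} ≠ ⊥ := by
    rw [Ne, Ideal.span_singleton_eq_bot]
    intro h
    exact inv_ne_zero ha0 (congrArg (Subtype.val : ↥O → F) h)
  obtain ⟨n, hn⟩ := h7 _ hI
  have h1 : (⟨c, hcO⟩ : ↥O) ^ n ∈ Ideal.span {(⟨a⁻¹, hinv⟩ : ↥O)} := by
    rw [hn]
    exact Ideal.pow_mem_pow hcm n
  obtain ⟨r, hr⟩ := Ideal.mem_span_singleton'.mp h1
  refine ⟨n, ?_⟩
  have h2 : (r : F) * a⁻¹ = c ^ n := congrArg (Subtype.val : ↥O → F) hr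
  have h3 : a * c ^ n = (r : F) := by
    rw [← h2]
    field_simp
  rw [h3]
  exact r.2

/-! ### the pair -/

variable {O : ValuationSubring F}

/-- a thick (Eisenstein) and a thin (simple root) place with the same primitive element -/
structure Pair (O : ValuationSubring F) (F' : Type*) [Field F'] [Algebra F F'] where
  S : EisensteinRoot.Datum O F'
  S' : S34.SimpleRoot.Datum O F'
  t_eq : S'.t = S.t
  res_ne : residue ↥O S.a ≠ residue ↥O S'.a
  ϖ_ne_zero : S.ϖ ≠ 0

namespace Pair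

variable (T : Pair O F') [IsPrincipalIdealRing ↥O]

/-- the thick place -/
abbrev V : ValuationSubring F' := T.S.V

/-- the thin place -/
abbrev V' : ValuationSubring F' := T.S'.V

include T in
theorem O_ne_top : O ≠ ⊤ := by
  intro h
  have hmem : ∀ x : F, x ∈ O := fun x => by
    rw [h]
    exact ValuationSubring.mem_top x
  have h1 : IsUnit T.S.ϖ := by
    refine isUnit_iff_exists_inv.mpr ⟨⟨(T.S.ϖ : F)⁻¹, hmem _⟩, ?_⟩
    apply Subtype.ext
    show (T.S.ϖ : F) * (T.S.ϖ : F)⁻¹ = 1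
    exact mul_inv_cancel₀ fun h0 => T.ϖ_ne_zero (Subtype.ext h0)
  exact ((mem_maximalIdeal _).mp T.S.ϖ_mem) h1

theorem V_ne_V' : T.V ≠ T.V' := by
  intro h
  have h1 : T.V.valuation (T.S.t - algebraMap F F' (T.S.a : F)) < 1 := T.S.val_sub_lt_one
  have h2 : T.V.valuation (T.S.t - algebraMap F F' (T.S'.a : F)) < 1 := by
    have := T.S'.val_sub_lt_one
    rw [T.t_eq] at this
    rw [h]
    exact this
  have h3 : T.V.valuation (algebraMap F F' ((T.S'.a - T.S.a : ↥O) : F)) < 1 := by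
    have h4 : algebraMap F F' ((T.S'.a - T.S.a : ↥O) : F)
        = (T.S.t - algebraMap F F' (T.S.a : F)) - (T.S.t - algebraMap F F' (T.S'.a : F)) := by
      rw [show ((T.S'.a - T.S.a : ↥O) : F) = (T.S'.a : F) - (T.S.a : F) from rfl, map_sub]
      ring
    rw [h4]
    exact Valuation.map_sub_lt _ h1 h2
  rw [val_alg_lt_one_iff T.S.comap_V, ← ValuationSubring.valuation_lt_one_iff,
    ← residue_eq_zero_iff, map_sub, sub_eq_zero] at h3
  exact T.res_ne h3.symm

variable [Module.Finite F F']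

theorem arch_V : Arch T.V := by
  refine S34.ArchComap.arch_of_comap (F := F) T.V ?_
  rw [T.S.comap_V]
  exact arch_of_pid O

theorem arch_V' : Arch T.V' := by
  refine S34.ArchComap.arch_of_comap (F := F) T.V' ?_
  rw [T.S'.comap_V]
  exact arch_of_pid O

theorem not_le : ¬ T.V ≤ T.V' := fun h =>
  T.V_ne_V' (le_antisymm h (T.arch_V.le_of_le h (T.S'.V_ne_top T.O_ne_top)))

theorem not_le' : ¬ T.V' ≤ T.V := fun h =>
  T.V_ne_V' (le_antisymm (T.arch_V'.le_of_le h (T.S.V_ne_top T.O_ne_top)) h)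

omit [Module.Finite F F'] in
/-- the ramification data of the thick place -/
theorem localRam : LocalRam O T.V (T.S.ϖ : F) (T.S.t - algebraMap F F' (T.S.a : F)) T.S.m :=
  T.S.localRam T.ϖ_ne_zero

omit [Module.Finite F F'] in
/-- the ramification data of the thin place: `e = 1` -/
theorem localRam' : LocalRam O T.V' (T.S.ϖ : F) (algebraMap F F' (T.S.ϖ : F)) 1 where
  comap := T.S'.comap_V
  π_mem := T.localRam.π_mem
  π_ne_zero := T.localRam.π_ne_zero
  π_gen := T.localRam.π_gen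
  ϖ_mem := by
    rw [T.V'.mem_nonunits_iff, val_alg_lt_one_iff T.S'.comap_V, ← O.mem_nonunits_iff]
    exact T.localRam.π_mem
  ϖ_gen := by
    intro z hz
    have hzR : z ∈ T.S'.R := T.V'.nonunits_subset hz
    have h1 : (⟨z, hzR⟩ : ↥T.S'.R) ∈ maximalIdeal ↥T.S'.R :=
      (T.S'.val_lt_one_iff ⟨z, hzR⟩).mp (T.V'.mem_nonunits_iff.mp hz)
    rw [T.S'.maximalIdeal_R_eq T.S.hϖ, Ideal.mem_span_singleton'] at h1
    obtain ⟨r', hr'⟩ := h1
    have h2 : (r' : F') * algebraMap F F' (T.S.ϖ : F) = z := by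
      have := congrArg (Subtype.val : ↥T.S'.R → F') hr'
      rw [show ((r' * T.S'.constR T.S.ϖ : ↥T.S'.R) : F')
        = (r' : F') * ((T.S'.constR T.S.ϖ : ↥T.S'.R) : F') from rfl, T.S'.coe_constR] at this
      exact this
    rw [← h2, map_mul]
    exact mul_le_of_le_one_left' (T.S'.val_le_one r')
  val_π := (pow_one _).symm

/-- **the norm formula for a thick and a thin place**: `red (N y) = ρ y ^ m * ρ' y` -/
theorem red_norm {κ : Type u} [Field κ] (hdeg : Module.finrank F F' = T.S.m + 1)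
    (red : ↥O →+* κ) (ρ : ↥T.V →+* κ) (ρ' : ↥T.V' →+* κ)
    (hred : ∀ c : ↥O, red c = 0 ↔ (c : F) ∈ O.nonunits)
    (hρ : ∀ y : ↥T.V, ρ y = 0 ↔ (y : F') ∈ T.V.nonunits)
    (hρ' : ∀ y : ↥T.V', ρ' y = 0 ↔ (y : F') ∈ T.V'.nonunits)
    (hc : ∀ (c : ↥O) (h : algebraMap F F' (c : F) ∈ T.V),
      ρ ⟨algebraMap F F' (c : F), h⟩ = red c)
    (hc' : ∀ (c : ↥O) (h : algebraMap F F' (c : F) ∈ T.V'),
      ρ' ⟨algebraMap F F' (c : F), h⟩ = red c)
    (hs : Function.Surjective ρ) (hs' : Function.Surjective ρ')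
    {y : F'} (hy : y ∈ T.V) (hy' : y ∈ T.V') :
    ∃ h : Algebra.norm F y ∈ O,
      red ⟨Algebra.norm F y, h⟩ = ρ ⟨y, hy⟩ ^ T.S.m * ρ' ⟨y, hy'⟩ := by
  obtain ⟨h, hn⟩ := OrthoRamTwo.red_norm₂_deg_one T.localRam T.localRam' red ρ ρ' hred hρ hρ'
    hc hc' hs hs' T.arch_V T.arch_V' T.not_le T.not_le' hdeg.symm hy hy'
  exact ⟨h, by rw [hn, pow_one]⟩

omit [Module.Finite F F'] in
/-- **`V`, `V'` are the only valuation subrings over `O`** when the cofactor `H` reduces to
`X - b` -/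
theorem eq_or_eq (hH : red O T.S.H = X - C (residue ↥O T.S'.a))
    {W : ValuationSubring F'} (hW : W.comap (algebraMap F F') = O) : W = T.V ∨ W = T.V' := by
  by_cases hlt : W.valuation (T.S.t - algebraMap F F' (T.S.a : F)) < 1
  · exact Or.inl (T.S.eq_V_of_comap hW hlt)
  right
  refine T.S'.eq_V_of_comap hW ?_
  rw [T.t_eq]
  -- `t - a` is a unit of `W`
  have htW : T.S.t ∈ W := T.S.t_mem_of_comap hW
  have h1 : W.valuation (T.S.t - algebraMap F F' (T.S.a : F)) = 1 :=
    le_antisymm ((W.valuation_le_one_iff _).mpr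
      (sub_mem htW ((alg_mem_iff hW _).mpr T.S.a.2))) (not_lt.mp hlt)
  -- `(t - a)^m H(t) = - ϖ G(t) ∈ 𝔪_W`
  have h2 : W.valuation (T.S.ev T.S.H) < 1 := by
    have h3 := congrArg (Subtype.val : ↥T.S.A → F') T.S.evA_relation
    have h4 : (T.S.t - algebraMap F F' (T.S.a : F)) ^ T.S.m * T.S.ev T.S.H
        = - (algebraMap F F' (T.S.ϖ : F) * T.S.ev T.S.G) := by
      have h5 : ((T.S.evA (X - C T.S.a) ^ T.S.m * T.S.evA T.S.H : ↥T.S.A) : F')
          = T.S.ev (X - C T.S.a) ^ T.S.m * T.S.ev T.S.H := rfl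
      have h6 : ((-(T.S.evA (C T.S.ϖ) * T.S.evA T.S.G) : ↥T.S.A) : F')
          = - (T.S.ev (C T.S.ϖ) * T.S.ev T.S.G) := rfl
      rw [h5, h6, map_sub, EisensteinRoot.Datum.ev_X, EisensteinRoot.Datum.ev_C,
        EisensteinRoot.Datum.ev_C] at h3
      exact h3
    have h7 : W.valuation ((T.S.t - algebraMap F F' (T.S.a : F)) ^ T.S.m * T.S.ev T.S.H) < 1 := by
      rw [h4, Valuation.map_neg, map_mul]
      refine lt_of_le_of_lt (mul_le_of_le_one_right'
        ((W.valuation_le_one_iff _).mpr (T.S.ev_mem_of_comap hW _))) ?_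
      rw [val_alg_lt_one_iff hW, ← ValuationSubring.valuation_lt_one_iff]
      exact T.S.ϖ_mem
    rwa [map_mul, map_pow, h1, one_pow, one_mul] at h7
  -- `H = (X - b) + (element of 𝔪[X])`
  have h8 : red O (T.S.H - (X - C T.S'.a)) = 0 := by
    rw [map_sub, hH, map_sub, red_C, red_apply, map_X, sub_self]
  have h9 : W.valuation (T.S.ev (T.S.H - (X - C T.S'.a))) < 1 := by
    rw [EisensteinRoot.Datum.ev_apply, eval₂_eq_sum_range]
    refine Valuation.map_sum_lt _ one_ne_zero fun i _ => ?_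
    rw [map_mul, coeffHom_apply, map_pow]
    refine lt_of_le_of_lt (mul_le_of_le_one_right'
      (pow_le_one₀ zero_le ((W.valuation_le_one_iff _).mpr htW))) ?_
    rw [val_alg_lt_one_iff hW, ← ValuationSubring.valuation_lt_one_iff]
    exact (red_eq_zero_iff O _).mp h8 i
  have h10 : T.S.t - algebraMap F F' (T.S'.a : F)
      = T.S.ev T.S.H - T.S.ev (T.S.H - (X - C T.S'.a)) := by
    rw [map_sub, map_sub, EisensteinRoot.Datum.ev_X, EisensteinRoot.Datum.ev_C]
    ring
  rw [h10]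
  exact Valuation.map_sub_lt _ h2 h9

end Pair

end Fermat.Agent.S36.ThickThin
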