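/-
S36 (project V): **Dedekind-Kummer with ONE irreducible factor, for a discrete valuation subring**
(the inert / purely inseparable places), and the one-place norm formulas.

`O` a valuation subring of `F` which is a principal ideal ring, `𝔪_O = (ϖ)`, `F' = F(t)`, `Φ ∈ O[X]`
monic with `Φ(t) = 0`, `1, …, t^(n-1)` spanning `F'`, `Φ ∣ p` whenever `p(t) = 0`, and `Φ mod 𝔪_O`
IRREDUCIBLE over the residue field `κ` (e.g. `X^q - j₁`, purely inseparable).  Then

* `eq_V_of_comap` : `V` is the ONLY valuation subring of `F'` over `O`;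
* `e = 1` : `ϖ` generates `𝔪_V` (`localRam : OrthoRam.LocalRam O V ϖ ϖ 1`), `V` is a principal ideal
  ring, `V ≠ ⊤`, `arch_V`;
* `exists_ev_sub_lt_one` : every `x ∈ V` is congruent mod `𝔪_V` to some `r(t)`, `r ∈ O[X]`, so the
  residue field of `V` is `κ[X]/(Φ mod 𝔪)`; `finrank_residue` : `f = deg Φ`;
* `red_norm_one` : `red₀ (N_{F'/F} y) = N_{κ'/κ} (ρ y)` for `y ∈ V`;
* `red_norm_one_frob` : the Frobenius form `φ (red₀ (N y)) = (ρ y) ^ q` when `deg Φ = q`, `ρ : V → κ`
  extends `φ ∘ red₀` and every `q`-th power of `κ` lies in the image of `φ : κ →+* κ`.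

Application (project V): `W02 | V2` along `π₁` and `W20 | V1` along `π₂`
(`Φ = Φ_q(X, j₁)/(X - j₀) ≡ X^q - j₁`).
-/
import Mathlib
import Fermat.Agent.S34.TwoExt
import Fermat.Agent.S34.OrthoNorm
import Fermat.Agent.S35.NormRed
import Fermat.Agent.S36.ThickThin

set_option autoImplicit false
set_option linter.unusedSectionVars false
set_option linter.style.haveILetI false

noncomputable section

namespace Fermat.Agent.S36.InertRoot

open Polynomial IsLocalRing Fermat.Agent.S34.TwoExt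

variable {F : Type*} [Field F] {F' : Type*} [Field F'] [Algebra F F']

/-- The data: a primitive integral element `t` whose minimal polynomial `Φ` is irreducible modulo
`𝔪_O = (ϖ)`. -/
structure Datum (O : ValuationSubring F) (F' : Type*) [Field F'] [Algebra F F'] where
  t : F'
  Φ : (↥O)[X]
  ϖ : ↥O
  monic : Φ.Monic
  root : Φ.eval₂ (coeffHom O F') t = 0
  span : ∀ x : F', ∃ P : F[X], P.natDegree < Φ.natDegree ∧ aeval t P = x
  dvd_of_root : ∀ p : (↥O)[X], p.eval₂ (coeffHom O F') t = 0 → Φ ∣ p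
  hϖ : maximalIdeal ↥O = Ideal.span {ϖ}
  irr : Irreducible (red O Φ)

namespace Datum

variable {O : ValuationSubring F} (S : Datum O F')

/-- evaluation at `t` -/
def ev : (↥O)[X] →+* F' := eval₂RingHom (coeffHom O F') S.t

theorem ev_apply (p : (↥O)[X]) : S.ev p = p.eval₂ (coeffHom O F') S.t := rfl

@[simp] theorem ev_C (c : ↥O) : S.ev (C c) = algebraMap F F' (c : F) := by
  rw [ev_apply, eval₂_C, coeffHom_apply]

@[simp] theorem ev_X : S.ev X = S.t := by rw [ev_apply, eval₂_X]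

/-- the subring `O[t]` of `F'` -/
def A : Subring F' := S.ev.range

/-- `O[X] → O[t]` -/
def evA : (↥O)[X] →+* ↥S.A := S.ev.rangeRestrict

theorem evA_surjective : Function.Surjective S.evA := S.ev.rangeRestrict_surjective

theorem coe_evA (p : (↥O)[X]) : ((S.evA p : ↥S.A) : F') = S.ev p := rfl

instance instFactIrr : Fact (Irreducible (red O S.Φ)) := ⟨S.irr⟩

/-- the residue field `κ[X]/(Φ mod 𝔪)` of the extension -/
abbrev L : Type _ := AdjoinRoot (red O S.Φ)

/-- `O[X] → κ[X]/(Φ mod 𝔪)` -/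
def chi0 : (↥O)[X] →+* S.L := (AdjoinRoot.mk (red O S.Φ)).comp (red O)

theorem chi0_apply (p : (↥O)[X]) : S.chi0 p = AdjoinRoot.mk (red O S.Φ) (red O p) := rfl

theorem chi0_Φ : S.chi0 S.Φ = 0 := by
  rw [chi0_apply, AdjoinRoot.mk_self]

theorem ker_evA_le : RingHom.ker S.evA ≤ RingHom.ker S.chi0 := by
  intro p hp
  rw [RingHom.mem_ker] at hp ⊢
  have h0 : S.ev p = 0 := by rw [← S.coe_evA, hp]; rfl
  obtain ⟨q, rfl⟩ := S.dvd_of_root p h0
  rw [map_mul, chi0_Φ, zero_mul]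

/-- the character `O[t] → κ[X]/(Φ mod 𝔪)` -/
def chi : ↥S.A →+* S.L :=
  S.evA.liftOfSurjective S.evA_surjective ⟨S.chi0, S.ker_evA_le⟩

theorem chi_evA (p : (↥O)[X]) : S.chi (S.evA p) = S.chi0 p :=
  RingHom.liftOfRightInverse_comp_apply _ _ _ ⟨S.chi0, S.ker_evA_le⟩ p

theorem chi_surjective : Function.Surjective S.chi := by
  intro y
  obtain ⟨g, rfl⟩ := AdjoinRoot.mk_surjective y
  obtain ⟨p, rfl⟩ := red_surjective O g
  exact ⟨S.evA p, by rw [chi_evA, chi0_apply]⟩

/-- the maximal ideal `𝔪_O · O[t]` of `O[t]` -/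
def P : Ideal ↥S.A := RingHom.ker S.chi

instance : S.P.IsMaximal := RingHom.ker_isMaximal_of_surjective _ S.chi_surjective

instance : S.P.IsPrime := Ideal.IsMaximal.isPrime inferInstance

theorem mem_P_iff (p : (↥O)[X]) : S.evA p ∈ S.P ↔ red O S.Φ ∣ red O p := by
  rw [P, RingHom.mem_ker, chi_evA, chi0_apply, AdjoinRoot.mk_eq_zero]

theorem ϖ_mem : S.ϖ ∈ maximalIdeal ↥O := by
  rw [S.hϖ]
  exact Ideal.mem_span_singleton_self _

theorem evA_C_mem_P {c : ↥O} (hc : c ∈ maximalIdeal ↥O) : S.evA (C c) ∈ S.P := by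
  rw [mem_P_iff, red_C, (residue_eq_zero_iff _).mpr hc, map_zero]
  exact dvd_zero _

/-- **`P = ϖ · O[t]`** -/
theorem mem_P_iff_exists (y : ↥S.A) : y ∈ S.P ↔ ∃ h : ↥S.A, y = S.evA (C S.ϖ) * h := by
  constructor
  · intro hy
    obtain ⟨p, rfl⟩ := S.evA_surjective y
    rw [mem_P_iff] at hy
    obtain ⟨gbar, hg⟩ := hy
    obtain ⟨g, rfl⟩ := red_surjective O gbar
    have h1 : red O (p - S.Φ * g) = 0 := by rw [map_sub, map_mul, hg, sub_self]
    have h2 : C S.ϖ ∣ p - S.Φ * g := by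
      rw [C_dvd_iff_dvd_coeff]
      intro i
      have h3 := (red_eq_zero_iff O _).mp h1 i
      rw [S.hϖ] at h3
      exact Ideal.mem_span_singleton.mp h3
    obtain ⟨h, hh⟩ := h2
    refine ⟨S.evA h, ?_⟩
    have h4 : p = S.Φ * g + C S.ϖ * h := by rw [← hh]; ring
    have h5 : S.evA S.Φ = 0 := Subtype.ext (by rw [S.coe_evA]; exact S.root)
    rw [h4, map_add, map_mul, map_mul, h5, zero_mul, zero_add]
  · rintro ⟨h, rfl⟩
    exact Ideal.mul_mem_right _ _ (S.evA_C_mem_P S.ϖ_mem)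

/-! ### The localisation `R` of `O[t]` at `P` -/

/-- the localisation of `O[t]` at `P`, as a subring of `F'` -/
abbrev R : Subring F' := (LocalSubring.ofPrime S.A S.P).toSubring

theorem A_le_R : S.A ≤ S.R := LocalSubring.le_ofPrime S.A S.P

instance [IsPrincipalIdealRing ↥O] : IsNoetherianRing ↥S.A :=
  isNoetherianRing_of_surjective _ _ S.evA S.evA_surjective

instance [IsPrincipalIdealRing ↥O] : IsNoetherianRing ↥S.R :=
  IsLocalization.isNoetherianRing S.P.primeCompl ↥S.R inferInstance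

theorem maximalIdeal_R : maximalIdeal ↥S.R = S.P.map (algebraMap ↥S.A ↥S.R) :=
  (IsLocalization.AtPrime.map_eq_maximalIdeal S.P ↥S.R).symm

/-- the image of `c ∈ O` in `R` -/
def constR (c : ↥O) : ↥S.R := algebraMap ↥S.A ↥S.R (S.evA (C c))

theorem coe_constR (c : ↥O) : ((S.constR c : ↥S.R) : F') = algebraMap F F' (c : F) := by
  show S.ev (C c) = _
  rw [ev_C]


/-- **The maximal ideal of `R` is generated by `ϖ`.** -/
theorem maximalIdeal_R_eq : maximalIdeal ↥S.R = Ideal.span {S.constR S.ϖ} := by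
  apply le_antisymm
  · rw [maximalIdeal_R, Ideal.map_le_iff_le_comap]
    intro x hx
    obtain ⟨h, rfl⟩ := (S.mem_P_iff_exists x).mp hx
    rw [Ideal.mem_comap, map_mul]
    exact Ideal.mul_mem_right _ _ (Ideal.mem_span_singleton_self _)
  · rw [Ideal.span_singleton_le_iff_mem, maximalIdeal_R]
    exact Ideal.mem_map_of_mem _ (S.evA_C_mem_P S.ϖ_mem)

/-! ### `R` is a discrete valuation ring, hence a valuation subring of `F'` -/

section DVR

variable [IsPrincipalIdealRing ↥O]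

omit [IsPrincipalIdealRing ↥O] in
theorem isPrincipal_maximalIdeal_R : (maximalIdeal ↥S.R).IsPrincipal :=
  ⟨⟨S.constR S.ϖ, S.maximalIdeal_R_eq⟩⟩

theorem valuationRing_R : ValuationRing ↥S.R :=
  ((tfae_of_isNoetherianRing_of_isLocalRing_of_isDomain ↥S.R).out 4 1).mp
    S.isPrincipal_maximalIdeal_R

theorem isPrincipalIdealRing_R : IsPrincipalIdealRing ↥S.R :=
  ((tfae_of_isNoetherianRing_of_isLocalRing_of_isDomain ↥S.R).out 4 0).mp
    S.isPrincipal_maximalIdeal_R

omit [IsPrincipalIdealRing ↥O] in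
/-- every element of `F'` is a quotient of an element of `O[t]` by a nonzero constant of `O` -/
theorem exists_const_mul_mem_A (x : F') :
    ∃ d : ↥O, d ≠ 0 ∧ algebraMap F F' (d : F) * x ∈ S.A := by
  obtain ⟨P, -, rfl⟩ := S.span x
  obtain ⟨b, hbM, hb⟩ := IsLocalization.integerNormalization_spec (nonZeroDivisors ↥O) P
    (S := F)
  refine ⟨b, nonZeroDivisors.ne_zero hbM, ?_⟩
  have h1 : algebraMap F F' ((b : ↥O) : F) * aeval S.t P =
      S.ev (IsLocalization.integerNormalization (nonZeroDivisors ↥O) P) := by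
    show _ = eval₂ ((algebraMap F F').comp (algebraMap ↥O F)) S.t _
    rw [← eval₂_map (f := algebraMap ↥O F) (g := algebraMap F F'), ← aeval_def, hb,
      Algebra.smul_def, map_mul]
    congr 1
    rw [show algebraMap (↥O) F[X] b = C ((b : ↥O) : F) from rfl, aeval_C]
  rw [h1]
  exact ⟨_, rfl⟩

theorem mem_or_inv_mem_R (x : F') : x ∈ S.R ∨ x⁻¹ ∈ S.R := by
  have := S.valuationRing_R
  obtain ⟨d, hd0, hdx⟩ := S.exists_const_mul_mem_A x
  have hd' : algebraMap F F' (d : F) ≠ 0 := by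
    rw [Ne, map_eq_zero]
    exact fun h => hd0 (Subtype.ext h)
  set r₁ : ↥S.R := ⟨algebraMap F F' (d : F) * x, S.A_le_R hdx⟩ with hr₁
  set r₂ : ↥S.R := S.constR d with hr₂
  have hr₂c : (r₂ : F') = algebraMap F F' (d : F) := S.coe_constR d
  obtain ⟨c, hc | hc⟩ := ValuationRing.cond r₁ r₂
  · -- `r₁ c = r₂`, so `x⁻¹ = c`
    right
    have h := congrArg (Subtype.val : ↥S.R → F') hc
    rw [show ((r₁ * c : ↥S.R) : F') = (r₁ : F') * (c : F') from rfl, hr₂c] at h
    have hx0 : x ≠ 0 := by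
      rintro rfl
      rw [hr₁] at h
      simp only [mul_zero, zero_mul] at h
      exact hd' h.symm
    have hc' : (c : F') = x⁻¹ := by
      rw [hr₁] at h
      field_simp
      field_simp at h
      rw [mul_comm]
      exact h
    rw [← hc']
    exact c.2
  · left
    have h := congrArg (Subtype.val : ↥S.R → F') hc
    rw [show ((r₂ * c : ↥S.R) : F') = (r₂ : F') * (c : F') from rfl, hr₂c] at h
    have hc' : (c : F') = x := mul_left_cancel₀ hd' h
    rw [← hc']
    exact c.2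

/-- **The valuation subring of type `a`.** -/
def V : ValuationSubring F' :=
  { S.R with mem_or_inv_mem' := S.mem_or_inv_mem_R }

theorem mem_V_iff (x : F') : x ∈ S.V ↔ x ∈ S.R := Iff.rfl

theorem val_lt_one_iff (r : ↥S.R) :
    S.V.valuation (r : F') < 1 ↔ r ∈ maximalIdeal ↥S.R := by
  rw [← ValuationSubring.mem_nonunits_iff, ValuationSubring.mem_nonunits_iff_or, mem_V_iff,
    mem_maximalIdeal, mem_nonunits_iff]
  constructor
  · rintro (h | h) hu
    · have : r = 0 := Subtype.ext h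
      rw [this] at hu
      exact not_isUnit_zero hu
    · obtain ⟨u, hu'⟩ := hu
      apply h
      have h1 : ((u⁻¹ : (↥S.R)ˣ) : ↥S.R) * r = 1 := by rw [← hu']; exact Units.inv_mul u
      have h2 : (((u⁻¹ : (↥S.R)ˣ) : ↥S.R) : F') * (r : F') = 1 :=
        congrArg (Subtype.val : ↥S.R → F') h1
      have h3 : (r : F')⁻¹ = (((u⁻¹ : (↥S.R)ˣ) : ↥S.R) : F') := by
        rw [eq_comm, ← mul_eq_one_iff_eq_inv₀]
        · exact h2
        · intro h0
          rw [h0, mul_zero] at h2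
          exact zero_ne_one h2
      rw [h3]
      exact (((u⁻¹ : (↥S.R)ˣ) : ↥S.R)).2
  · intro hnu
    by_cases h0 : (r : F') = 0
    · exact Or.inl h0
    · right
      intro hinv
      apply hnu
      refine isUnit_iff_exists_inv.mpr ⟨⟨(r : F')⁻¹, hinv⟩, Subtype.ext ?_⟩
      show (r : F') * (r : F')⁻¹ = 1
      exact mul_inv_cancel₀ h0

theorem val_le_one (r : ↥S.R) : S.V.valuation (r : F') ≤ 1 :=
  (S.V.valuation_le_one_iff _).mpr r.2

/-- elements of `P` are non-units of `V` -/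
theorem val_lt_one_of_mem_P {y : ↥S.A} (hy : y ∈ S.P) : S.V.valuation (y : F') < 1 := by
  have h : algebraMap ↥S.A ↥S.R y ∈ maximalIdeal ↥S.R := by
    rw [maximalIdeal_R]
    exact Ideal.mem_map_of_mem _ hy
  exact (S.val_lt_one_iff _).mpr h

/-- **`V` lies over `O`.** -/
theorem comap_V : S.V.comap (algebraMap F F') = O := by
  refine ValuationSubring.ext _ _ fun x => ?_
  rw [ValuationSubring.mem_comap]
  constructor
  · intro hx
    by_contra hxO
    have hx0 : x ≠ 0 := fun h => hxO (h ▸ O.zero_mem)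
    have hv : 1 < O.valuation x := not_le.mp fun h => hxO ((O.valuation_le_one_iff _).mp h)
    have hinv : O.valuation x⁻¹ < 1 := by
      rw [map_inv₀]
      exact inv_lt_one_of_one_lt₀ hv
    set c : ↥O := ⟨x⁻¹, (O.valuation_le_one_iff _).mp hinv.le⟩ with hc
    have hcm : c ∈ maximalIdeal ↥O := (O.valuation_lt_one_iff c).mpr hinv
    have hP : S.evA (C c) ∈ S.P := S.evA_C_mem_P hcm
    have h1 := S.val_lt_one_of_mem_P hP
    rw [coe_evA, ev_C, hc, map_inv₀, map_inv₀] at h1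
    have h2 : S.V.valuation (algebraMap F F' x) ≤ 1 := (S.V.valuation_le_one_iff _).mpr hx
    have h3 : S.V.valuation (algebraMap F F' x) ≠ 0 :=
      (Valuation.ne_zero_iff _).mpr ((_root_.map_ne_zero _).mpr hx0)
    have h4 : 1 ≤ (S.V.valuation (algebraMap F F' x))⁻¹ :=
      (one_le_inv₀ (lt_of_le_of_ne zero_le h3.symm)).mpr h2
    exact absurd h1 (not_lt.mpr h4)
  · intro hx
    have : algebraMap F F' x = S.ev (C ⟨x, hx⟩) := by rw [ev_C]
    rw [this]
    exact S.A_le_R ⟨_, rfl⟩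


/-! ### Uniqueness -/

omit [IsPrincipalIdealRing ↥O] in
theorem t_mem_of_comap {W : ValuationSubring F'} (hW : W.comap (algebraMap F F') = O) :
    S.t ∈ W := by
  have hint : IsIntegral ↥W S.t := by
    refine ⟨S.Φ.map (Setup.incl hW), S.monic.map _, ?_⟩
    rw [eval₂_map]
    exact S.root
  obtain ⟨y, hy⟩ := IsIntegrallyClosed.isIntegral_iff.mp hint
  rw [← hy]
  exact y.2

omit [IsPrincipalIdealRing ↥O] in
theorem ev_mem_of_comap {W : ValuationSubring F'} (hW : W.comap (algebraMap F F') = O)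
    (p : (↥O)[X]) : S.ev p ∈ W := by
  rw [ev_apply, eval₂_eq_sum_range]
  exact sum_mem fun i _ =>
    W.mul_mem _ _ ((alg_mem_iff hW _).mpr (p.coeff i).2) (pow_mem (S.t_mem_of_comap hW) i)

omit [IsPrincipalIdealRing ↥O] in
/-- elements of `P` are non-units of any `W` over `O` -/
theorem val_lt_one_of_mem_P_of_comap {W : ValuationSubring F'}
    (hW : W.comap (algebraMap F F') = O) {y : ↥S.A} (hy : y ∈ S.P) :
    W.valuation (y : F') < 1 := by
  obtain ⟨h, rfl⟩ := (S.mem_P_iff_exists y).mp hy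
  obtain ⟨p, rfl⟩ := S.evA_surjective h
  have h1 : ((S.evA (C S.ϖ) * S.evA p : ↥S.A) : F') = algebraMap F F' (S.ϖ : F) * S.ev p := by
    show S.ev (C S.ϖ) * S.ev p = _
    rw [ev_C]
  rw [h1, map_mul]
  refine lt_of_le_of_lt (mul_le_of_le_one_right'
    ((W.valuation_le_one_iff _).mpr (S.ev_mem_of_comap hW p))) ?_
  rw [val_alg_lt_one_iff hW, ← ValuationSubring.valuation_lt_one_iff]
  exact S.ϖ_mem

omit [IsPrincipalIdealRing ↥O] in
/-- elements of `O[t]` outside `P` are units of any such `W` -/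
theorem val_eq_one_of_notMem_P_of_comap {W : ValuationSubring F'}
    (hW : W.comap (algebraMap F F') = O) {y : ↥S.A} (hy : y ∉ S.P) :
    W.valuation (y : F') = 1 := by
  have hχ : S.chi y ≠ 0 := fun h => hy ((RingHom.mem_ker).mpr h)
  obtain ⟨y', hy'⟩ := S.chi_surjective (S.chi y)⁻¹
  have hP : y * y' - 1 ∈ S.P := by
    rw [P, RingHom.mem_ker, map_sub, map_mul, hy', map_one, mul_inv_cancel₀ hχ, sub_self]
  have h1 := S.val_lt_one_of_mem_P_of_comap hW hP
  have hyW : W.valuation (y : F') ≤ 1 := by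
    obtain ⟨p, rfl⟩ := S.evA_surjective y
    exact (W.valuation_le_one_iff _).mpr (S.ev_mem_of_comap hW p)
  have hy'W : W.valuation (y' : F') ≤ 1 := by
    obtain ⟨p, rfl⟩ := S.evA_surjective y'
    exact (W.valuation_le_one_iff _).mpr (S.ev_mem_of_comap hW p)
  have h2 : W.valuation ((y : F') * (y' : F')) = 1 := by
    have h3 : ((y * y' - 1 : ↥S.A) : F') = (y : F') * (y' : F') - 1 := rfl
    rw [h3] at h1
    have := Valuation.map_sub_eq_of_lt_left W.valuation (x := (1 : F'))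
      (y := 1 - (y : F') * (y' : F')) (by
        rw [map_one, ← Valuation.map_neg, neg_sub]; exact h1)
    rw [sub_sub_cancel, map_one] at this
    exact this
  rw [map_mul] at h2
  refine le_antisymm hyW ?_
  by_contra hlt'
  rw [not_le] at hlt'
  have : W.valuation (y : F') * W.valuation (y' : F') < 1 :=
    lt_of_le_of_lt (mul_le_of_le_one_right' hy'W) hlt'
  rw [h2] at this
  exact lt_irrefl _ this

/-- **Uniqueness**: `V` is the only valuation subring of `F'` over `O`. -/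
theorem eq_V_of_comap {W : ValuationSubring F'} (hW : W.comap (algebraMap F F') = O) :
    W = S.V := by
  -- `V ≤ W`
  have hVW : ∀ x : F', x ∈ S.R → x ∈ W := by
    intro x hx
    obtain ⟨⟨b, s⟩, hbs⟩ := IsLocalization.surj S.P.primeCompl (⟨x, hx⟩ : ↥S.R)
    have h1 : x * ((s : ↥S.A) : F') = ((b : ↥S.A) : F') :=
      congrArg (Subtype.val : ↥S.R → F') hbs
    have hs1 := S.val_eq_one_of_notMem_P_of_comap hW s.2
    have hbW : W.valuation ((b : ↥S.A) : F') ≤ 1 := by
      obtain ⟨p, rfl⟩ := S.evA_surjective b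
      exact (W.valuation_le_one_iff _).mpr (S.ev_mem_of_comap hW p)
    rw [← W.valuation_le_one_iff]
    rwa [← h1, map_mul, hs1, mul_one] at hbW
  refine ValuationSubring.ext _ _ fun x => ⟨fun hx => ?_, fun hx => hVW x hx⟩
  by_contra hxV
  have hx0 : x ≠ 0 := fun h => hxV (h ▸ S.V.zero_mem)
  have hinv : x⁻¹ ∈ S.R := (S.mem_or_inv_mem_R x).resolve_left hxV
  -- `x⁻¹` is a non-unit of `R`
  have hnu : (⟨x⁻¹, hinv⟩ : ↥S.R) ∈ maximalIdeal ↥S.R := by
    rw [← val_lt_one_iff, ← ValuationSubring.mem_nonunits_iff,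
      ValuationSubring.mem_nonunits_iff_or]
    right
    show (x⁻¹)⁻¹ ∉ S.V
    rwa [inv_inv]
  -- hence a non-unit of `W`
  rw [S.maximalIdeal_R_eq, Ideal.mem_span_singleton'] at hnu
  obtain ⟨r', hr'⟩ := hnu
  have h1 : (r' : F') * algebraMap F F' (S.ϖ : F) = x⁻¹ := by
    have := congrArg (Subtype.val : ↥S.R → F') hr'
    rw [show ((r' * S.constR S.ϖ : ↥S.R) : F') = (r' : F') * ((S.constR S.ϖ : ↥S.R) : F') from rfl,
      coe_constR] at this
    exact this
  have hϖW : W.valuation (algebraMap F F' (S.ϖ : F)) < 1 := by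
    rw [val_alg_lt_one_iff hW, ← ValuationSubring.valuation_lt_one_iff]
    exact S.ϖ_mem
  have h2 : W.valuation x⁻¹ < 1 := by
    rw [← h1, map_mul]
    exact lt_of_le_of_lt (mul_le_of_le_one_left'
      ((W.valuation_le_one_iff _).mpr (hVW _ r'.2))) hϖW
  have h3 : W.valuation x ≤ 1 := (W.valuation_le_one_iff _).mpr hx
  rw [map_inv₀] at h2
  have h4 : W.valuation x ≠ 0 := (Valuation.ne_zero_iff _).mpr hx0
  have h5 : 1 ≤ (W.valuation x)⁻¹ := (one_le_inv₀ (lt_of_le_of_ne zero_le h4.symm)).mpr h3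
  exact absurd h2 (not_lt.mpr h5)


/-! ### the residue field, `e = 1` -/

/-- **the residue field of `V` is generated by the class of `t`**: every element of `V` is
congruent to some `r(t)`, `r ∈ O[X]`, modulo `𝔪_V` -/
theorem exists_ev_sub_lt_one {x : F'} (hx : x ∈ S.V) :
    ∃ r : (↥O)[X], S.V.valuation (x - S.ev r) < 1 := by
  obtain ⟨⟨b, s⟩, hbs⟩ := IsLocalization.surj S.P.primeCompl (⟨x, hx⟩ : ↥S.R)
  have h1 : x * ((s : ↥S.A) : F') = ((b : ↥S.A) : F') :=
    congrArg (Subtype.val : ↥S.R → F') hbs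
  have hχ : S.chi s ≠ 0 := fun h => s.2 ((RingHom.mem_ker).mpr h)
  obtain ⟨c, hc⟩ := S.chi_surjective (S.chi b * (S.chi s)⁻¹)
  obtain ⟨r, rfl⟩ := S.evA_surjective c
  have hP : b - S.evA r * s ∈ S.P := by
    refine (RingHom.mem_ker).mpr ?_
    rw [map_sub, map_mul, hc, mul_assoc, inv_mul_cancel₀ hχ, mul_one, sub_self]
  have h2 := S.val_lt_one_of_mem_P hP
  have hs1 := S.val_eq_one_of_notMem_P_of_comap S.comap_V s.2
  have h3 : ((b - S.evA r * s : ↥S.A) : F') = (x - S.ev r) * ((s : ↥S.A) : F') := by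
    rw [sub_mul, h1]
    rfl
  rw [h3, map_mul, hs1, mul_one] at h2
  exact ⟨r, h2⟩

/-- **`ϖ` generates `𝔪_V`** -/
theorem val_le_of_mem_nonunits {z : F'} (hz : z ∈ S.V.nonunits) :
    S.V.valuation z ≤ S.V.valuation (algebraMap F F' (S.ϖ : F)) := by
  have hzR : z ∈ S.R := S.V.nonunits_subset hz
  have h1 : (⟨z, hzR⟩ : ↥S.R) ∈ maximalIdeal ↥S.R :=
    (S.val_lt_one_iff ⟨z, hzR⟩).mp (S.V.mem_nonunits_iff.mp hz)
  rw [S.maximalIdeal_R_eq, Ideal.mem_span_singleton'] at h1
  obtain ⟨r', hr'⟩ := h1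
  have h2 : (r' : F') * algebraMap F F' (S.ϖ : F) = z := by
    have := congrArg (Subtype.val : ↥S.R → F') hr'
    rw [show ((r' * S.constR S.ϖ : ↥S.R) : F')
      = (r' : F') * ((S.constR S.ϖ : ↥S.R) : F') from rfl, coe_constR] at this
    exact this
  rw [← h2, map_mul]
  exact mul_le_of_le_one_left' (S.val_le_one r')

/-- the ramification data of `V` over `O` in the form of `OrthoRam`: `e = 1` -/
theorem localRam (hϖ0 : S.ϖ ≠ 0) :
    OrthoRam.LocalRam O S.V (S.ϖ : F) (algebraMap F F' (S.ϖ : F)) 1 where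
  comap := S.comap_V
  π_mem := by
    rw [O.mem_nonunits_iff, ← ValuationSubring.valuation_lt_one_iff]
    exact S.ϖ_mem
  π_ne_zero := fun h => hϖ0 (Subtype.ext h)
  π_gen := by
    intro c hc
    have hcO : c ∈ O := O.nonunits_subset hc
    have h1 : (⟨c, hcO⟩ : ↥O) ∈ maximalIdeal ↥O :=
      (O.valuation_lt_one_iff ⟨c, hcO⟩).mpr (O.mem_nonunits_iff.mp hc)
    rw [S.hϖ, Ideal.mem_span_singleton'] at h1
    obtain ⟨d, hd⟩ := h1
    have h2 : (d : F) * (S.ϖ : F) = c := congrArg (Subtype.val : ↥O → F) hd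
    rw [← h2, map_mul]
    exact mul_le_of_le_one_left' ((O.valuation_le_one_iff _).mpr d.2)
  ϖ_mem := by
    rw [S.V.mem_nonunits_iff, val_alg_lt_one_iff S.comap_V,
      ← ValuationSubring.valuation_lt_one_iff]
    exact S.ϖ_mem
  ϖ_gen := fun z hz => S.val_le_of_mem_nonunits hz
  val_π := (pow_one _).symm

/-- `V` is a principal ideal ring. -/
theorem isPrincipalIdealRing_V : IsPrincipalIdealRing ↥S.V :=
  S.isPrincipalIdealRing_R

/-- `V` is not the whole field (if `O` is not). -/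
theorem V_ne_top (hO : O ≠ ⊤) : S.V ≠ ⊤ := by
  intro h
  apply hO
  refine ValuationSubring.ext _ _ fun x => ⟨fun _ => ValuationSubring.mem_top x, fun _ => ?_⟩
  rw [← S.comap_V, ValuationSubring.mem_comap, h]
  exact ValuationSubring.mem_top _

end DVR

/-! ### archimedean; the residue degree; the one-place norm formulas -/

section Norm

variable [IsPrincipalIdealRing ↥O]

theorem arch_V [Module.Finite F F'] : S34.WeakApprox.Arch S.V := by
  refine S34.ArchComap.arch_of_comap (F := F) S.V ?_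
  rw [S.comap_V]
  exact ThickThin.arch_of_pid O

/-- `O[X] → V`, evaluation at `t` -/
def evV : (↥O)[X] →+* ↥S.V :=
  S.ev.codRestrict S.V.toSubring fun p => S.ev_mem_of_comap S.comap_V p

theorem coe_evV (p : (↥O)[X]) : ((S.evV p : ↥S.V) : F') = S.ev p := rfl

variable {κ : Type*} [Field κ] {κ' : Type*} [Field κ'] [Algebra κ κ']

/-- `ρ (p(t)) = (red₀ p)(ρ t)` -/
theorem rho_evV (red₀ : ↥O →+* κ) (ρ : ↥S.V →+* κ')
    (hc : ∀ c : ↥O, ρ (Setup.incl S.comap_V c) = algebraMap κ κ' (red₀ c)) (p : (↥O)[X]) :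
    ρ (S.evV p) = aeval (ρ ⟨S.t, S.t_mem_of_comap S.comap_V⟩) (p.map red₀) := by
  have h : ρ.comp S.evV =
      ((aeval (ρ ⟨S.t, S.t_mem_of_comap S.comap_V⟩) : κ[X] →ₐ[κ] κ') : κ[X] →+* κ').comp
        (mapRingHom red₀) := by
    refine Polynomial.ringHom_ext (fun c => ?_) ?_
    · have h1 : S.evV (C c) = Setup.incl S.comap_V c := by
        apply Subtype.ext
        rw [coe_evV, ev_C]
        rfl
      rw [RingHom.comp_apply, RingHom.comp_apply, h1, hc, coe_mapRingHom, map_C]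
      simp
    · have h1 : S.evV X = ⟨S.t, S.t_mem_of_comap S.comap_V⟩ := by
        apply Subtype.ext
        rw [coe_evV, ev_X]
      rw [RingHom.comp_apply, RingHom.comp_apply, h1, coe_mapRingHom, map_X]
      simp
  exact congrArg (fun f => f p) h

/-- **the residue degree**: if `ρ : V → κ'` is onto with kernel `𝔪_V` and restricts to the residue
map `red₀ : O → κ` of `O`, then `κ' = κ[ρ t]` and `[κ' : κ] = deg Φ`. -/
theorem finrank_residue (red₀ : ↥O →+* κ)
    (hred₀ : ∀ c : ↥O, red₀ c = 0 ↔ (c : F) ∈ O.nonunits) (hsurj₀ : Function.Surjective red₀)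
    (ρ : ↥S.V →+* κ') (hρ : ∀ y : ↥S.V, ρ y = 0 ↔ (y : F') ∈ S.V.nonunits)
    (hρs : Function.Surjective ρ)
    (hc : ∀ c : ↥O, ρ (Setup.incl S.comap_V c) = algebraMap κ κ' (red₀ c)) :
    Module.Finite κ κ' ∧ Module.finrank κ κ' = S.Φ.natDegree := by
  set θ : κ' := ρ ⟨S.t, S.t_mem_of_comap S.comap_V⟩ with hθ
  have hgm : (S.Φ.map red₀).Monic := S.monic.map _
  have hgirr := S35.NormRed.irreducible_map_of_red red₀ hred₀ hsurj₀ S.irr
  have hroot : aeval θ (S.Φ.map red₀) = 0 := by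
    rw [hθ, ← S.rho_evV red₀ ρ hc]
    have h0 : S.evV S.Φ = 0 := Subtype.ext (by rw [coe_evV]; exact S.root)
    rw [h0, map_zero]
  have hint : IsIntegral κ θ := ⟨S.Φ.map red₀, hgm, by rw [← aeval_def]; exact hroot⟩
  have hmin : minpoly κ θ = S.Φ.map red₀ :=
    (minpoly.eq_of_irreducible_of_monic hgirr hroot hgm).symm
  have htop : IntermediateField.adjoin κ {θ} = ⊤ := by
    rw [eq_top_iff]
    intro y _
    obtain ⟨x, rfl⟩ := hρs y
    obtain ⟨r, hr⟩ := S.exists_ev_sub_lt_one x.2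
    have h1 : ρ x = ρ (S.evV r) := by
      rw [← sub_eq_zero, ← map_sub, hρ, ValuationSubring.mem_nonunits_iff]
      push_cast
      rw [S.coe_evV]
      exact hr
    rw [h1, S.rho_evV red₀ ρ hc]
    exact IntermediateField.algebra_adjoin_le_adjoin κ {θ} (aeval_mem_adjoin_singleton κ θ)
  set pb := Setup.powerBasisOfAdjoinEqTop hint htop with hpb
  have hgen : pb.gen = θ := Setup.powerBasisOfAdjoinEqTop_gen hint htop
  refine ⟨pb.finite, ?_⟩
  rw [pb.finrank, ← pb.natDegree_minpoly, hgen, hmin, S.monic.natDegree_map]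

variable [Module.Finite F F']

/-- the reduction data of the single place `V` -/
def redData (red₀ : ↥O →+* κ) (hred₀ : ∀ c : ↥O, red₀ c = 0 ↔ (c : F) ∈ O.nonunits)
    (ρ : ↥S.V →+* κ') (hρ : ∀ y : ↥S.V, ρ y = 0 ↔ (y : F') ∈ S.V.nonunits)
    (hc : ∀ c : ↥O, ρ (Setup.incl S.comap_V c) = algebraMap κ κ' (red₀ c)) :
    S34.OrthoTrace.RedData O (fun _ : Unit => S.V) κ (fun _ : Unit => κ') where
  comap := fun _ => S.comap_V
  red := red₀
  red' := fun _ => ρ
  red_eq_zero := hred₀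
  red'_eq_zero := fun _ => hρ
  compat := fun _ c => hc c

/-- **the norm commutes with reduction, one inert place**: `red₀ (N y) = N_{κ'/κ} (ρ y)` -/
theorem red_norm_one (hfin : Module.finrank F F' = S.Φ.natDegree)
    (red₀ : ↥O →+* κ) (hred₀ : ∀ c : ↥O, red₀ c = 0 ↔ (c : F) ∈ O.nonunits)
    (hsurj₀ : Function.Surjective red₀)
    (ρ : ↥S.V →+* κ') (hρ : ∀ y : ↥S.V, ρ y = 0 ↔ (y : F') ∈ S.V.nonunits)
    (hρs : Function.Surjective ρ)
    (hc : ∀ c : ↥O, ρ (Setup.incl S.comap_V c) = algebraMap κ κ' (red₀ c))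
    {y : F'} (hy : y ∈ S.V) :
    (Module.Finite κ κ' ∧ Module.finrank κ κ' = S.Φ.natDegree) ∧
    ∃ h : Algebra.norm F y ∈ O,
      red₀ ⟨Algebra.norm F y, h⟩ = Algebra.norm κ (ρ ⟨y, hy⟩) := by
  have hd := S.finrank_residue red₀ hred₀ hsurj₀ ρ hρ hρs hc
  refine ⟨hd, ?_⟩
  haveI := hd.1
  set D := S.redData red₀ hred₀ ρ hρ hc with hD
  have hsurj : ∀ i, Function.Surjective (D.red' i) := fun _ => hρs
  have hA : ∀ _ : Unit, S34.WeakApprox.Arch S.V := fun _ => S.arch_V
  have hinc : ∀ i j : Unit, i ≠ j → ¬ S.V ≤ S.V := fun i j hij => absurd (Subsingleton.elim i j) hij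
  have hdim : ∑ _i : Unit, Module.finrank κ κ' = Module.finrank F F' := by
    rw [Fintype.sum_unique, hd.2, hfin]
  have h := S34.OrthoNorm.red_norm' D hsurj hA hinc hdim (fun _ => hy)
  rw [Fintype.prod_unique] at h
  exact ⟨S34.OrthoNorm.norm_mem' D hsurj hA hinc hdim (fun _ => hy), h⟩

/-- **the one-place norm formula, Frobenius form**: `ρ : V → κ` extends `φ ∘ red₀`, where
`φ : κ →+* κ` has every `q`-th power in its image, and `deg Φ = q`.  Then
`φ (red₀ (N y)) = (ρ y) ^ q`. -/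
theorem red_norm_one_frob {κ : Type*} [Field κ] (q : ℕ) [hq : Fact q.Prime] [CharP κ q]
    (hfin : Module.finrank F F' = S.Φ.natDegree) (hdeg : S.Φ.natDegree = q)
    (red₀ : ↥O →+* κ) (hred₀ : ∀ c : ↥O, red₀ c = 0 ↔ (c : F) ∈ O.nonunits)
    (hsurj₀ : Function.Surjective red₀)
    (φ : κ →+* κ) (hφ : ∀ z : κ, ∃ c : κ, φ c = z ^ q)
    (ρ : ↥S.V →+* κ) (hρ : ∀ y : ↥S.V, ρ y = 0 ↔ (y : F') ∈ S.V.nonunits)
    (hρs : Function.Surjective ρ)
    (hc : ∀ c : ↥O, ρ (Setup.incl S.comap_V c) = φ (red₀ c))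
    {y : F'} (hy : y ∈ S.V) :
    ∃ h : Algebra.norm F y ∈ O, φ (red₀ ⟨Algebra.norm F y, h⟩) = ρ ⟨y, hy⟩ ^ q := by
  obtain ⟨⟨hfin', hrank⟩, h, hn⟩ :=
    S.red_norm_one (κ' := S35.NormRed.Via φ) hfin red₀ hred₀ hsurj₀ ρ hρ hρs hc hy
  refine ⟨h, ?_⟩
  have h2 := S35.NormRed.algebraMap_norm_eq_pow_finrank (K := κ) (L := S35.NormRed.Via φ) q hφ
    (ρ ⟨y, hy⟩)
  rw [hrank, hdeg, S35.NormRed.Via.algebraMap_apply] at h2
  rw [hn]
  exact h2

end Norm

/-- The data from a power basis of `F'/F` whose generator has minimal polynomial `Φ`. -/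
def ofPowerBasis (pb : PowerBasis F F') (Φ : (↥O)[X]) (ϖ : ↥O) (hΦ : Φ.Monic)
    (hmin : minpoly F pb.gen = Φ.map (algebraMap ↥O F))
    (hϖ : maximalIdeal ↥O = Ideal.span {ϖ}) (hirr : Irreducible (red O Φ)) : Datum O F' where
  t := pb.gen
  Φ := Φ
  ϖ := ϖ
  monic := hΦ
  root := by
    have h : Φ.eval₂ (coeffHom O F') pb.gen = aeval pb.gen (Φ.map (algebraMap ↥O F)) := by
      rw [aeval_def, eval₂_map]
      rfl
    rw [h, ← hmin, minpoly.aeval]
  span := fun x => by
    obtain ⟨f, hf, hx⟩ := pb.exists_eq_aeval x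
    refine ⟨f, ?_, hx.symm⟩
    have h1 : pb.dim = Φ.natDegree := by
      rw [← pb.natDegree_minpoly, hmin, hΦ.natDegree_map]
    rwa [← h1]
  dvd_of_root := fun p hp => by
    have h : aeval pb.gen (p.map (algebraMap ↥O F)) = 0 := by
      rw [aeval_def, eval₂_map]
      exact hp
    have h1 := minpoly.dvd F pb.gen h
    rw [hmin] at h1
    exact (map_dvd_map _ (FaithfulSMul.algebraMap_injective ↥O F) hΦ).mp h1
  hϖ := hϖ
  irr := hirr

end Datum

end Fermat.Agent.S36.InertRoot
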