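import Mathlib
import Fermat.Agent.S34.WeakApproxMul
import Fermat.Agent.S36.OrthoRam

/-!
# S36 (project V): the VALUE of the norm, ramified case

Same framework as `S36/OrthoRam` (`F'/F` finite, `O` a valuation ring of `F` with uniformizer `π`,
`O' i` pairwise incomparable archimedean valuation rings of `F'` over `O` with uniformizers `ϖ i`,
`v_i π = v_i (ϖ i) ^ e i`, residue data `D : RedData`, `∑ i, e i * [κ' i : κ] = [F' : F]`).

* `val_norm_eq_one` : if `y` is a unit at all `O' i` then `N_{F'/F} y` is a unit of `O`;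
* `val_norm_le` : if `t ∈ ⋂ O' i` is divisible by `π` at the places of `S` then
  `π ^ (∑ i ∈ S, e i f i)` divides `N t`;
* `val_norm_eq_of_val_eq` : if `v_i t = v_i π` for `i ∈ S` and `t` is a unit at the other places then
  `v (N t) = v π ^ (∑ i ∈ S, e i f i)`;
* `val_norm` : **`V (N y) = ∑ i, f i * W_i y`**: if `y ≠ 0` and `v_i y = v_i (ϖ i) ^ n i` (`n i : ℤ`) for
  all `i`, then `v (N y) = v π ^ (∑ i, f i * n i)`.
-/

set_option autoImplicit false
set_option linter.unusedSectionVars false

namespace Fermat.Agent.S36.OrthoRamVal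

open Fermat.Agent.S34.WeakApprox Fermat.Agent.S34.OrthoMulti Fermat.Agent.S34.OrthoTrace
open Fermat.Agent.S34.WeakApproxMul Fermat.Agent.S36.OrthoRam

variable {F F' : Type*} [Field F] [Field F'] [Algebra F F'] [Module.Finite F F']
variable {ι : Type*} [Fintype ι]
variable {O : ValuationSubring F} {O' : ι → ValuationSubring F'}
variable {κ : Type*} [Field κ] {κ' : ι → Type*} [∀ i, Field (κ' i)] [∀ i, Algebra κ (κ' i)]
variable {J : ι → Type*} [∀ i, Fintype (J i)]

/-! ### the value group of a place with a uniformizer -/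

section ValueGroup

variable {A : ValuationSubring F'} {π : F} {ϖ : F'} {e : ℕ}

omit [Module.Finite F F'] in
/-- the values of the elements of `A` are the powers of the value of the uniformizer -/
theorem exists_pow_eq_of_mem (hR : LocalRam O A π ϖ e) (hA : Arch A) {y : F'} (hy : y ≠ 0)
    (hyA : y ∈ A) : ∃ n : ℕ, A.valuation y = A.valuation ϖ ^ n := by
  classical
  have hex : ∃ k : ℕ, A.valuation ϖ ^ k ≤ A.valuation y := by
    obtain ⟨k, hk⟩ := hA y⁻¹ ϖ hR.ϖ_mem hR.ϖ_ne_zero
    refine ⟨k, ?_⟩
    have h1 := (A.valuation_le_one_iff _).mpr hk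
    rw [map_mul, map_inv₀, map_pow, inv_mul_le_iff₀ (lt_of_le_of_ne zero_le
      (Ne.symm ((Valuation.ne_zero_iff _).mpr hy))), mul_one] at h1
    exact h1
  have hfind := Nat.find_spec hex
  rcases Nat.eq_zero_or_pos (Nat.find hex) with h0 | hpos
  · refine ⟨0, ?_⟩
    rw [h0, pow_zero] at hfind
    rw [pow_zero]
    exact le_antisymm ((A.valuation_le_one_iff _).mpr hyA) hfind
  · obtain ⟨m, hm⟩ := Nat.exists_eq_succ_of_ne_zero hpos.ne'
    have hlt : A.valuation y < A.valuation ϖ ^ m := by
      have := Nat.find_min hex (m := m) (by omega)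
      exact not_le.mp this
    have hfind' : A.valuation ϖ ^ (m + 1) ≤ A.valuation y := by
      rw [hm] at hfind
      exact hfind
    refine ⟨m + 1, le_antisymm ?_ hfind'⟩
    have hz : y / ϖ ^ m ∈ A.nonunits := by
      rw [A.mem_nonunits_iff, map_div₀, map_pow]
      exact (div_lt_one₀ (hR.val_pow_pos m)).mpr hlt
    have h2 := hR.ϖ_gen _ hz
    rw [map_div₀, map_pow, div_le_iff₀ (hR.val_pow_pos m)] at h2
    rw [pow_succ']
    exact h2

omit [Module.Finite F F'] in
/-- **the value group of `A` is generated by the value of the uniformizer** -/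
theorem exists_zpow_eq (hR : LocalRam O A π ϖ e) (hA : Arch A) {y : F'} (hy : y ≠ 0) :
    ∃ n : ℤ, A.valuation y = A.valuation ϖ ^ n := by
  rcases A.mem_or_inv_mem y with h | h
  · obtain ⟨n, hn⟩ := exists_pow_eq_of_mem hR hA hy h
    exact ⟨n, by rw [hn, zpow_natCast]⟩
  · obtain ⟨n, hn⟩ := exists_pow_eq_of_mem hR hA (inv_ne_zero hy) h
    refine ⟨-(n : ℤ), ?_⟩
    rw [map_inv₀] at hn
    rw [zpow_neg, zpow_natCast, ← hn, inv_inv]

end ValueGroup

/-! ### divisibility of the norm, for a fixed twisted basis -/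

section Twist

variable (D : RedData O O' κ κ') {R : RamData O O'} (B : ∀ i, Module.Basis (J i) κ (κ' i))
variable {a : ∀ i, J i → F'} (ha : ∀ i j, a i j ∈ O' i)
variable (hB : ∀ i j, D.r i (a i j) (ha i j) = B i j)
variable {x : ι → F'} (hx : IsTwist R a x)
variable (hcard : ∑ i, R.e i * Fintype.card (J i) = Module.finrank F F')

/-- the columns of the places where `t` is divisible by `π` are divisible by `π` -/
theorem repr_mul_val_le {t : F'} (ht : ∀ i, t ∈ O' i) (p p' : Σ i, J i × Fin (R.e i))
    (hp' : (O' p'.1).valuation t ≤ (O' p'.1).valuation (algebraMap F F' R.π)) :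
    O.valuation ((twBasis D B ha hB hx hcard).repr (t * fam R a x p') p) ≤ O.valuation R.π := by
  refine hx.val_coeff_le ha (hri_of_basis D B a ha hB)
    (c := fun p => (twBasis D B ha hB hx hcard).repr (t * fam R a x p') p) (fun i => ?_) p
  rw [sum_repr_twBasis, map_mul]
  by_cases hi : i = p'.1
  · subst hi
    calc (O' p'.1).valuation t * (O' p'.1).valuation (fam R a x p')
        ≤ (O' p'.1).valuation (algebraMap F F' R.π) * 1 :=
          mul_le_mul' hp' (((O' p'.1).valuation_le_one_iff _).mpr (hx.fam_mem ha p' _))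
      _ = _ := mul_one _
  · calc (O' i).valuation t * (O' i).valuation (fam R a x p')
        ≤ 1 * (O' i).valuation (algebraMap F F' R.π) :=
          mul_le_mul' (((O' i).valuation_le_one_iff _).mpr (ht i)) (hx.off p' i hi)
      _ = _ := one_mul _

include D B ha hB hx hcard in
theorem val_norm_le_of_twist [DecidableEq ι] (S : Finset ι) {t : F'} (ht : ∀ i, t ∈ O' i)
    (hS : ∀ i ∈ S, (O' i).valuation t ≤ (O' i).valuation (algebraMap F F' R.π)) :
    O.valuation (Algebra.norm F t)
      ≤ O.valuation R.π ^ (∑ i ∈ S, R.e i * Fintype.card (J i)) := by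
  classical
  set b := twBasis D B ha hB hx hcard with hb
  set A : Matrix (Σ i, J i × Fin (R.e i)) (Σ i, J i × Fin (R.e i)) F :=
    Algebra.leftMulMatrix b t with hA
  have hAe : ∀ p p', A p p' = b.repr (t * fam R a x p') p := by
    intro p p'
    rw [hA, Algebra.leftMulMatrix_eq_repr_mul, hb, twBasis_apply]
  have hπ0 : R.π ≠ 0 := by
    by_cases hne : Nonempty ι
    · obtain ⟨i⟩ := hne
      exact (R.loc i).π_ne_zero
    · -- no places: `S` is empty, the statement is `v (N t) ≤ 1`... we do not need `π ≠ 0`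
      exfalso
      have hemp : IsEmpty ι := not_nonempty_iff.mp hne
      have h0 : Module.finrank F F' = 0 := by
        rw [← hcard]
        exact Finset.sum_eq_zero fun i _ => (hemp.false i).elim
      exact (Module.finrank_pos (R := F) (M := F')).ne' h0
  set v : (Σ i, J i × Fin (R.e i)) → F := fun p' => if p'.1 ∈ S then R.π else 1 with hv
  have hv0 : ∀ p', v p' ≠ 0 := by
    intro p'
    rw [hv]
    by_cases h : p'.1 ∈ S
    · simp only [h, if_true]
      exact hπ0
    · simp only [h, if_false]
      exact one_ne_zero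
  -- the matrix with the factors `π` removed, over `O`
  have hmem : ∀ p p', A p p' / v p' ∈ O := by
    intro p p'
    rw [hv]
    by_cases h : p'.1 ∈ S
    · simp only [h, if_true]
      rw [← O.valuation_le_one_iff, map_div₀]
      refine div_le_one_of_le₀ ?_ zero_le
      rw [hAe]
      exact repr_mul_val_le D B ha hB hx hcard ht p p' (hS _ h)
    · simp only [h, if_false, div_one]
      rw [hAe]
      exact repr_mul_mem D B ha hB hx hcard ht p p'
  set A'' : Matrix (Σ i, J i × Fin (R.e i)) (Σ i, J i × Fin (R.e i)) ↥O :=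
    fun p p' => ⟨A p p' / v p', hmem p p'⟩ with hA''
  have hfac : A = Matrix.of fun p p' => v p' * (A''.map O.subtype) p p' := by
    ext p p'
    rw [Matrix.of_apply, Matrix.map_apply, hA'']
    show A p p' = v p' * (A p p' / v p')
    rw [mul_div_cancel₀ _ (hv0 p')]
  have hdet : Algebra.norm F t = (∏ p', v p') * ((A''.det : ↥O) : F) := by
    rw [Algebra.norm_eq_matrix_det b t, ← hA, hfac, Matrix.det_mul_row]
    congr 1
    exact (RingHom.map_det O.subtype A'').symm
  have hprod : ∏ p', v p' = R.π ^ (∑ i ∈ S, R.e i * Fintype.card (J i)) := by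
    rw [Fintype.prod_sigma, ← Finset.prod_pow_eq_pow_sum]
    rw [← Finset.prod_subset (Finset.subset_univ S)]
    · refine Finset.prod_congr rfl fun i hi => ?_
      rw [hv]
      simp only [hi, if_true, Finset.prod_const, Finset.card_univ, Fintype.card_prod,
        Fintype.card_fin]
      rw [mul_comm]
    · intro i _ hi
      rw [hv]
      simp only [hi, if_false, Finset.prod_const_one]
  rw [hdet, hprod, map_mul, map_pow]
  exact mul_le_of_le_one_right' ((O.valuation_le_one_iff _).mpr (A''.det).2)

end Twist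

/-! ### the main statements -/

section Main

variable (D : RedData O O' κ κ') (R : RamData O O') [∀ i, Module.Finite κ (κ' i)]

/-- **divisibility of the norm** -/
theorem val_norm_le [DecidableEq ι] (hsurj : ∀ i, Function.Surjective (D.red' i))
    (hA : ∀ i, Arch (O' i)) (hinc : ∀ i j, i ≠ j → ¬ O' i ≤ O' j)
    (hdim : ∑ i, R.e i * Module.finrank κ (κ' i) = Module.finrank F F')
    (S : Finset ι) {t : F'} (ht : ∀ i, t ∈ O' i)
    (hS : ∀ i ∈ S, (O' i).valuation t ≤ (O' i).valuation (algebraMap F F' R.π)) :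
    O.valuation (Algebra.norm F t)
      ≤ O.valuation R.π ^ (∑ i ∈ S, R.e i * Module.finrank κ (κ' i)) := by
  obtain ⟨a, ha, hB⟩ := exists_lifts D hsurj
  obtain ⟨x, hx⟩ := exists_isTwist R a hA hinc
  have h := val_norm_le_of_twist D (fun i => Module.finBasis κ (κ' i)) ha hB hx
    (by simpa using hdim) S ht hS
  simpa using h

/-- **the norm of an element that is a unit at all places is a unit** -/
theorem val_norm_eq_one (hsurj : ∀ i, Function.Surjective (D.red' i))
    (hA : ∀ i, Arch (O' i)) (hinc : ∀ i j, i ≠ j → ¬ O' i ≤ O' j)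
    (hdim : ∑ i, R.e i * Module.finrank κ (κ' i) = Module.finrank F F')
    {y : F'} (hy : ∀ i, (O' i).valuation y = 1) :
    O.valuation (Algebra.norm F y) = 1 := by
  have hmem : ∀ i, y ∈ O' i := fun i => ((O' i).valuation_le_one_iff _).mp (hy i).le
  have h1 := OrthoRam.red_norm' D R hsurj hA hinc hdim hmem
  have hN := OrthoRam.norm_mem' D R hsurj hA hinc hdim hmem
  refine le_antisymm ((O.valuation_le_one_iff _).mpr hN) (not_lt.mp fun hlt => ?_)
  have h2 : D.red ⟨Algebra.norm F y, hN⟩ = 0 :=
    (D.red_eq_zero _).mpr (O.mem_nonunits_iff.mpr hlt)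
  rw [h2] at h1
  obtain ⟨i, -, hi⟩ := Finset.prod_eq_zero_iff.mp h1.symm
  have h3 : Algebra.norm κ (D.red' i ⟨y, hmem i⟩) = 0 := pow_eq_zero_iff (R.loc i).e_ne_zero |>.mp hi
  have h4 : D.red' i ⟨y, hmem i⟩ = 0 := Algebra.norm_eq_zero_iff.mp h3
  have h5 := (D.red'_eq_zero i _).mp h4
  rw [(O' i).mem_nonunits_iff, hy i] at h5
  exact lt_irrefl _ h5

omit [∀ i, Module.Finite κ (κ' i)] in
theorem nonempty_of_hdim
    (hdim : ∑ i, R.e i * Module.finrank κ (κ' i) = Module.finrank F F') : Nonempty ι := by
  by_contra hne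
  have hemp : IsEmpty ι := not_nonempty_iff.mp hne
  have h0 : Module.finrank F F' = 0 := by
    rw [← hdim]
    exact Finset.sum_eq_zero fun i _ => (hemp.false i).elim
  exact (Module.finrank_pos (R := F) (M := F')).ne' h0

omit [Module.Finite F F'] [Fintype ι] in
theorem val_π_pos (i : ι) : 0 < O.valuation R.π :=
  lt_of_le_of_ne zero_le (Ne.symm ((Valuation.ne_zero_iff _).mpr (R.loc i).π_ne_zero))

/-- **the exact value of the norm of an element with the values of `π` on `S` and trivial values
off `S`** -/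
theorem val_norm_eq_of_val_eq [DecidableEq ι] (hsurj : ∀ i, Function.Surjective (D.red' i))
    (hA : ∀ i, Arch (O' i)) (hinc : ∀ i j, i ≠ j → ¬ O' i ≤ O' j)
    (hdim : ∑ i, R.e i * Module.finrank κ (κ' i) = Module.finrank F F')
    (S : Finset ι) {t : F'}
    (hS : ∀ i ∈ S, (O' i).valuation t = (O' i).valuation (algebraMap F F' R.π))
    (hS' : ∀ i, i ∉ S → (O' i).valuation t = 1) :
    O.valuation (Algebra.norm F t)
      = O.valuation R.π ^ (∑ i ∈ S, R.e i * Module.finrank κ (κ' i)) := by
  obtain ⟨i₀⟩ := nonempty_of_hdim R hdim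
  have hπpos := val_π_pos R i₀
  have hπi : ∀ i, (O' i).valuation (algebraMap F F' R.π) ≤ 1 := fun i => (R.loc i).val_π_lt_one.le
  have hπi0 : ∀ i, (O' i).valuation (algebraMap F F' R.π) ≠ 0 := fun i =>
    val_algebraMap_ne_zero (R.loc i).π_ne_zero
  have hval : ∀ i, (O' i).valuation t = if i ∈ S then (O' i).valuation (algebraMap F F' R.π)
      else 1 := by
    intro i
    by_cases h : i ∈ S
    · simp only [h, if_true]
      exact hS i h
    · simp only [h, if_false]
      exact hS' i h
  have ht : ∀ i, t ∈ O' i := by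
    intro i
    rw [← (O' i).valuation_le_one_iff, hval i]
    split_ifs
    · exact hπi i
    · exact le_rfl
  have ht0 : t ≠ 0 := by
    intro h0
    have h1 := hval i₀
    rw [h0, map_zero] at h1
    split_ifs at h1
    · exact hπi0 i₀ h1.symm
    · exact zero_ne_one h1
  -- the complementary element
  set t' : F' := algebraMap F F' R.π / t with ht'
  have hval' : ∀ i, (O' i).valuation t' = if i ∈ S then 1
      else (O' i).valuation (algebraMap F F' R.π) := by
    intro i
    rw [ht', map_div₀, hval i]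
    split_ifs
    · exact div_self (hπi0 i)
    · exact div_one _
  have ht'mem : ∀ i, t' ∈ O' i := by
    intro i
    rw [← (O' i).valuation_le_one_iff, hval' i]
    split_ifs
    · exact le_rfl
    · exact hπi i
  have h1 := val_norm_le D R hsurj hA hinc hdim S ht (fun i hi => (hS i hi).le)
  have h2 := val_norm_le D R hsurj hA hinc hdim Sᶜ ht'mem (fun i hi => by
    rw [hval' i, if_neg (Finset.mem_compl.mp hi)])
  have hmul : Algebra.norm F t * Algebra.norm F t' = R.π ^ Module.finrank F F' := by
    rw [← map_mul, ht', mul_div_cancel₀ _ ht0, Algebra.norm_algebraMap]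
  have hsum : ∑ i ∈ S, R.e i * Module.finrank κ (κ' i)
      + ∑ i ∈ Sᶜ, R.e i * Module.finrank κ (κ' i) = Module.finrank F F' := by
    rw [Finset.sum_add_sum_compl, hdim]
  have h3 := congrArg O.valuation hmul
  rw [map_mul, map_pow, ← hsum, pow_add] at h3
  refine le_antisymm h1 (not_lt.mp fun hlt => ?_)
  have h4 : O.valuation (Algebra.norm F t) * O.valuation (Algebra.norm F t')
      < O.valuation R.π ^ (∑ i ∈ S, R.e i * Module.finrank κ (κ' i))
        * O.valuation R.π ^ (∑ i ∈ Sᶜ, R.e i * Module.finrank κ (κ' i)) :=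
    calc O.valuation (Algebra.norm F t) * O.valuation (Algebra.norm F t')
        ≤ O.valuation (Algebra.norm F t)
          * O.valuation R.π ^ (∑ i ∈ Sᶜ, R.e i * Module.finrank κ (κ' i)) :=
          mul_le_mul' le_rfl h2
      _ < _ := mul_lt_mul_of_pos_right hlt (pow_pos hπpos _)
  rw [h3] at h4
  exact lt_irrefl _ h4

/-- **the norm of an element that is a uniformizer at `i` and a unit at the other places has
value `v π ^ f i`** -/
theorem val_norm_uniformizer [DecidableEq ι] (hsurj : ∀ i, Function.Surjective (D.red' i))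
    (hA : ∀ i, Arch (O' i)) (hinc : ∀ i j, i ≠ j → ¬ O' i ≤ O' j)
    (hdim : ∑ i, R.e i * Module.finrank κ (κ' i) = Module.finrank F F')
    (i : ι) {τ : F'} (hi : (O' i).valuation τ = (O' i).valuation (R.ϖ i))
    (hj : ∀ j, j ≠ i → (O' j).valuation τ = 1) :
    O.valuation (Algebra.norm F τ) = O.valuation R.π ^ Module.finrank κ (κ' i) := by
  have h1 := val_norm_eq_of_val_eq D R hsurj hA hinc hdim {i} (t := τ ^ R.e i)
    (fun j hj' => by
      rw [Finset.mem_singleton.mp hj', map_pow, hi, (R.loc i).val_π])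
    (fun j hj' => by
      rw [map_pow, hj j (fun h => hj' (Finset.mem_singleton.mpr h)), one_pow])
  rw [Finset.sum_singleton, map_pow, map_pow, mul_comm, pow_mul] at h1
  exact (pow_left_inj₀ zero_le zero_le (R.loc i).e_ne_zero).mp h1

omit [Module.Finite F F'] [∀ i, Module.Finite κ (κ' i)] in
theorem prod_zpow_eq_zpow_sum {Γ : Type*} [CommGroupWithZero Γ] {g : Γ} (hg : g ≠ 0)
    (s : Finset ι) (m : ι → ℤ) : ∏ i ∈ s, g ^ m i = g ^ ∑ i ∈ s, m i := by
  classical
  induction s using Finset.induction_on with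
  | empty => simp
  | insert i s hi ih => rw [Finset.prod_insert hi, Finset.sum_insert hi, ih, zpow_add₀ hg]

/-- **the value of the norm**: `V (N y) = ∑ i, f i * W_i y` -/
theorem val_norm [DecidableEq ι] (hsurj : ∀ i, Function.Surjective (D.red' i))
    (hA : ∀ i, Arch (O' i)) (hinc : ∀ i j, i ≠ j → ¬ O' i ≤ O' j)
    (hdim : ∑ i, R.e i * Module.finrank κ (κ' i) = Module.finrank F F')
    {y : F'} (n : ι → ℤ) (hy : ∀ i, (O' i).valuation y = (O' i).valuation (R.ϖ i) ^ n i) :
    O.valuation (Algebra.norm F y)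
      = O.valuation R.π ^ (∑ i, (Module.finrank κ (κ' i) : ℤ) * n i) := by
  obtain ⟨i₀⟩ := nonempty_of_hdim R hdim
  have hπ0 : O.valuation R.π ≠ 0 := (val_π_pos R i₀).ne'
  -- uniformizers at one place that are units at the others
  have h1 : ∀ i, ∃ τ : F', τ ≠ 0 ∧ (O' i).valuation τ = (O' i).valuation (R.ϖ i) ∧
      ∀ j, j ≠ i → (O' j).valuation τ = 1 := by
    intro i
    obtain ⟨τ, hτ0, hτ⟩ := exists_approx_mul' O' hA hinc
      (fun j => if j = i then R.ϖ i else 1) (fun j => by
        by_cases h : j = i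
        · simp only [h, if_true]
          exact (R.loc i).ϖ_ne_zero
        · simp only [h, if_false]
          exact one_ne_zero)
    refine ⟨τ, hτ0, ?_, fun j hj => ?_⟩
    · have := (hτ i).2
      simpa using this
    · have := (hτ j).2
      simpa [hj] using this
  choose τ hτ0 hτi hτj using h1
  have hγ0 : ∀ i, (O' i).valuation (R.ϖ i) ≠ 0 := fun i => (R.loc i).val_ϖ_pos.ne'
  set w : F' := ∏ i, τ i ^ n i with hw
  have hw0 : w ≠ 0 := Finset.prod_ne_zero_iff.mpr fun i _ => zpow_ne_zero _ (hτ0 i)
  have hwval : ∀ j, (O' j).valuation w = (O' j).valuation (R.ϖ j) ^ n j := by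
    intro j
    rw [hw, map_prod, Finset.prod_eq_single j]
    · rw [map_zpow₀, hτi]
    · intro i _ hij
      rw [map_zpow₀, hτj i j (Ne.symm hij), one_zpow]
    · intro h
      exact absurd (Finset.mem_univ j) h
  have hu : ∀ j, (O' j).valuation (y / w) = 1 := by
    intro j
    rw [map_div₀, hy j, hwval j]
    exact div_self (zpow_ne_zero _ (hγ0 j))
  have h2 := val_norm_eq_one D R hsurj hA hinc hdim hu
  have h3 : Algebra.norm F y = Algebra.norm F (y / w) * Algebra.norm F w := by
    rw [← map_mul, div_mul_cancel₀ _ hw0]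
  rw [h3, map_mul, h2, one_mul, hw, map_prod, map_prod]
  rw [← prod_zpow_eq_zpow_sum hπ0]
  refine Finset.prod_congr rfl fun i _ => ?_
  rw [Algebra.norm_zpow, map_zpow₀,
    val_norm_uniformizer D R hsurj hA hinc hdim i (hτi i) (hτj i), zpow_mul, zpow_natCast]

end Main

end Fermat.Agent.S36.OrthoRamVal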