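/-
S36 (project V), slice V-ThreeVal: **the three valuation rings of level `q² M''` over the two Gauss
rings of level `q M''`, abstractly.**

SETTING.  `F₁` (level `q M''`), `F₂` (level `q² M''`) fields, `α β : F₁ →+* F₂` the two degeneracy
maps, `V₁ V₂` the two Gauss valuation subrings of `F₁` (principal ideal rings), `x y ∈ F₁` the two
coordinate functions `j(τ)`, `j(qτ)`, so that `α y = β x` (`= j(qτ)` at level `q²`), with
`y ≡ x^q` on `V₁`, `x ≡ y^q` on `V₂`.  The field `F₂` is generated over `α F₁` by `β y = j(q²τ)`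
and over `β F₁` by `α x = j(τ)`; the hypotheses are FOUR root data:

* `Pα : ThickThin.Pair V₁ (Via α)` (minimal polynomial `≡ (X - x)^(q-1) (X - y^q)` on `V₁`):
  thick place `W₁₁`, thin place `W₂₀`;
* `Iα : InertRoot.Datum V₂ (Via α)` (minimal polynomial `≡ X^q - y` irreducible on `V₂`): `W₀₂`;
* `Pβ : ThickThin.Pair V₂ (Via β)` (`≡ (X - y)^(q-1) (X - x^q)` on `V₂`): thick `W₁₁`, thin `W₀₂`;
* `Iβ : InertRoot.Datum V₁ (Via β)` (`≡ X^q - x` on `V₁`): `W₂₀`.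

RESULTS.
* `pairOfPowerBasis` : a `ThickThin.Pair` from a power basis and the factorisation
  `Φ ≡ (X - a)^m (X - a') mod 𝔪`, `Φ(a) = ϖ · unit` (with `pairOfPowerBasis_red_H` = the hypothesis
  of `ThickThin.Pair.eq_or_eq`);
* `two_of_square`, `two_of_square'` : the hypotheses `two_α`, `two_β` of `Setup` from the level below
  (`α ∘ β₀ = β ∘ α₀` and `V₁ V₂` the only valuation subrings over `O₀`);
* `Setup.W₁₁_eq`, `W₂₀_eq`, `W₀₂_eq` : the places constructed along `α` and along `β` COINCIDE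
  (`W₂₀ ∩ β F₁ = V₁`, `W₁₁ ∩ β F₁ = V₂`, `W₀₂ ∩ β F₁ = V₂`);
* `Setup.eq_W₂₀_of_comap_β`, `eq_W₀₂_of_comap_α`, `eq_W₁₁_of_val_lt`, `eq_W₁₁_of_comap`,
  `Setup.exhaustive` : a valuation subring `W` of `F₂` is determined by the pair
  `(W ∩ α F₁, W ∩ β F₁) ∈ {(V₁,V₁), (V₁,V₂), (V₂,V₂)}`; the three places are pairwise different;
* `Setup.Reds` : residue maps `red₁ red₂ r₂₀ r₁₁ r₀₂` to ONE field `κ`, normalised as in `GlueNorm`
  (only surjectivity of `red₁ red₂` and the six compatibilities are asked); `Setup.Num` : the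
  numerical hypotheses; `Setup.Reds.norm₁_V₁`, `norm₁_V₂`, `norm₂_V₁`, `norm₂_V₂` : **the four
  norm-reduction formulas**, verbatim the four fields of `GlueNorm.Datum` with
  `N₁ = normAlong α`, `N₂ = normAlong β`;
* `Setup.val_norm₁_V₁`, `val_norm₁_V₂`, `val_norm₂_V₁`, `val_norm₂_V₂` : the four value formulas
  `V₁(N₁ y) = a + b`, `V₂(N₁ y) = q c`, `V₁(N₂ y) = q a`, `V₂(N₂ y) = b + c` for the orders
  `a b c` of `y` at `W₂₀ W₁₁ W₀₂` (`exists_ords`);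
* `Setup.dvd_ords` **(A2)** : if `N₁ f = g₁ ^ n`, `N₂ f = g₂ ^ n`, `n` prime to `q`, then `n` divides
  the three orders of `f`; `Setup.exists_adjust` : hence `f * s ^ n` is a unit at the three places
  for some `s ≠ 0` (weak approximation).
-/
import Mathlib
import Fermat.Agent.S36.ThickThin
import Fermat.Agent.S36.InertRoot
import Fermat.Agent.S36.OrthoRamVal

set_option autoImplicit false
set_option linter.unusedSectionVars false
set_option linter.style.haveILetI false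

noncomputable section

namespace Fermat.Agent.S36.ThreeVal

open Polynomial IsLocalRing
open Fermat.Agent.S34.TwoExt Fermat.Agent.S34.WeakApprox Fermat.Agent.S36.OrthoRam

/-! ### generalities -/

section General

variable {K : Type*} [Field K]

/-- a surjective ring homomorphism from a valuation ring onto a field has kernel the maximal
ideal -/
theorem eq_zero_iff_of_surjective (V : ValuationSubring K) {κ : Type*} [Field κ] (ρ : ↥V →+* κ)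
    (hρ : Function.Surjective ρ) (y : ↥V) : ρ y = 0 ↔ (y : K) ∈ V.nonunits := by
  haveI : (RingHom.ker ρ).IsMaximal := RingHom.ker_isMaximal_of_surjective ρ hρ
  have h1 : RingHom.ker ρ = maximalIdeal ↥V := eq_maximalIdeal inferInstance
  rw [← RingHom.mem_ker, h1, ValuationSubring.mem_nonunits_iff, ValuationSubring.valuation_lt_one_iff]

/-- if `ρ ∘ incl` is onto then `ρ` is onto -/
theorem surjective_of_comp {A B C : Type*} {f : A → B} {g : B → C}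
    (h : Function.Surjective (g ∘ f)) : Function.Surjective g := fun c => by
  obtain ⟨a, ha⟩ := h c
  exact ⟨f a, ha⟩

variable {L : Type*} [Field L]

theorem mem_nonunits_comap_iff (f : K →+* L) (W : ValuationSubring L) (c : K) :
    c ∈ (W.comap f).nonunits ↔ f c ∈ W.nonunits := by
  rw [ValuationSubring.mem_nonunits_iff, ValuationSubring.mem_nonunits_iff]
  by_cases hc : c = 0
  · subst hc
    simp
  constructor
  · intro h
    by_contra h2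
    rw [not_lt] at h2
    have h3 : (f c)⁻¹ ∈ W := by
      rw [← W.valuation_le_one_iff, map_inv₀]
      exact inv_le_one_of_one_le₀ h2
    have h4 : c⁻¹ ∈ W.comap f := by
      rw [ValuationSubring.mem_comap, map_inv₀]
      exact h3
    rw [← (W.comap f).valuation_le_one_iff, map_inv₀] at h4
    have h5 : (W.comap f).valuation c ≠ 0 := (Valuation.ne_zero_iff _).mpr hc
    have h6 : 1 ≤ (W.comap f).valuation c := (inv_le_one₀ (zero_lt_iff.mpr h5)).mp h4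
    exact absurd h (not_lt.mpr h6)
  · intro h
    by_contra h2
    rw [not_lt] at h2
    have h3 : c⁻¹ ∈ W.comap f := by
      rw [← (W.comap f).valuation_le_one_iff, map_inv₀]
      exact inv_le_one_of_one_le₀ h2
    rw [ValuationSubring.mem_comap, map_inv₀, ← W.valuation_le_one_iff, map_inv₀] at h3
    have h5 : W.valuation (f c) ≠ 0 :=
      (Valuation.ne_zero_iff _).mpr ((map_ne_zero_iff f f.injective).mpr hc)
    have h6 : 1 ≤ W.valuation (f c) := (inv_le_one₀ (zero_lt_iff.mpr h5)).mp h3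
    exact absurd h (not_lt.mpr h6)

end General

/-! ### a thick-thin pair from a power basis -/

section OfPowerBasis

variable {F : Type*} [Field F] {F' : Type*} [Field F'] [Algebra F F'] {O : ValuationSubring F}

/-- the cofactor `H` of an Eisenstein root datum reduces to the cofactor of the reduction of `Φ` -/
theorem red_H_eq (S : EisensteinRoot.Datum O F') (h : (ResidueField ↥O)[X])
    (hred : red O S.Φ = (X - C (residue ↥O S.a)) ^ S.m * h) : red O S.H = h := by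
  have h0 : residue ↥O S.ϖ = 0 := by
    rw [residue_eq_zero_iff, S.hϖ]
    exact Ideal.mem_span_singleton_self _
  have h1 : red O S.Φ = (X - C (residue ↥O S.a)) ^ S.m * red O S.H := by
    conv_lhs => rw [S.decomp]
    rw [map_add, map_mul, map_mul, map_pow, map_sub, red_C, red_C, red_apply O X, Polynomial.map_X,
      h0, map_zero, zero_mul, add_zero]
  rw [hred] at h1
  exact (mul_left_cancel₀ (pow_ne_zero _ (X_sub_C_ne_zero _)) h1).symm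

variable (pb : PowerBasis F F') (Φ : (↥O)[X]) (a a' ϖ : ↥O) (m : ℕ)

theorem eval_mem_of_red (hred : red O Φ = (X - C (residue ↥O a)) ^ m * (X - C (residue ↥O a'))) :
    Φ.eval a' ∈ maximalIdeal ↥O := by
  rw [← residue_eq_zero_iff, ← eval_map_apply, ← red_apply, hred, eval_mul, eval_sub, eval_X, eval_C,
    sub_self, mul_zero]

theorem deriv_unit_of_red (hred : red O Φ = (X - C (residue ↥O a)) ^ m * (X - C (residue ↥O a')))
    (hne : residue ↥O a ≠ residue ↥O a') : IsUnit (Φ.derivative.eval a') := by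
  by_contra hnu
  have h1 : Φ.derivative.eval a' ∈ maximalIdeal ↥O := (mem_maximalIdeal _).mpr hnu
  rw [← residue_eq_zero_iff, ← eval_map_apply, ← Polynomial.derivative_map, ← red_apply, hred,
    derivative_mul, eval_add, eval_mul, eval_mul, eval_sub, eval_X, eval_C, sub_self, mul_zero,
    zero_add, derivative_sub, derivative_X, derivative_C, sub_zero, eval_one, mul_one, eval_pow,
    eval_sub, eval_X, eval_C] at h1
  exact hne (sub_eq_zero.mp (pow_eq_zero_iff (Nat.pos_iff_ne_zero.mp (Nat.pos_of_ne_zero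
    (fun h => by subst h; simp at h1))) |>.mp h1)).symm

/-- **a thick-thin pair from a power basis**: `Φ ≡ (X - a)^m (X - a') mod 𝔪`, `a ≢ a'`,
`Φ(a) = ϖ · unit` -/
def pairOfPowerBasis (hΦ : Φ.Monic) (hmin : minpoly F pb.gen = Φ.map (algebraMap ↥O F))
    (hϖ : maximalIdeal ↥O = Ideal.span {ϖ}) (hϖ0 : ϖ ≠ 0) (hm : 0 < m)
    (hred : red O Φ = (X - C (residue ↥O a)) ^ m * (X - C (residue ↥O a')))
    (hne : residue ↥O a ≠ residue ↥O a')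
    (u : ↥O) (hu : IsUnit u) (hΦa : Φ.eval a = ϖ * u) : ThickThin.Pair O F' :=
  have hh : (X - C (residue ↥O a') : (ResidueField ↥O)[X]).eval (residue ↥O a) ≠ 0 := by
    rw [eval_sub, eval_X, eval_C]
    exact sub_ne_zero.mpr hne
  have hex := EisensteinRoot.exists_decomp Φ a ϖ m hϖ hϖ0 hm _ hred hh u hu hΦa
  { S := EisensteinRoot.Datum.ofPowerBasis pb Φ hex.choose hex.choose_spec.choose a ϖ m hΦ hmin hϖ hm
      hex.choose_spec.choose_spec.1 hex.choose_spec.choose_spec.2.1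
      hex.choose_spec.choose_spec.2.2
    S' := S34.SimpleRoot.Datum.ofPowerBasis pb Φ a' hΦ hmin (eval_mem_of_red Φ a a' m hred)
      (deriv_unit_of_red Φ a a' m hred hne)
    t_eq := rfl
    res_ne := hne
    ϖ_ne_zero := hϖ0 }

section Simp

variable (hΦ : Φ.Monic) (hmin : minpoly F pb.gen = Φ.map (algebraMap ↥O F))
    (hϖ : maximalIdeal ↥O = Ideal.span {ϖ}) (hϖ0 : ϖ ≠ 0) (hm : 0 < m)
    (hred : red O Φ = (X - C (residue ↥O a)) ^ m * (X - C (residue ↥O a')))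
    (hne : residue ↥O a ≠ residue ↥O a')
    (u : ↥O) (hu : IsUnit u) (hΦa : Φ.eval a = ϖ * u)

@[simp] theorem pairOfPowerBasis_t :
    (pairOfPowerBasis pb Φ a a' ϖ m hΦ hmin hϖ hϖ0 hm hred hne u hu hΦa).S.t = pb.gen := rfl

@[simp] theorem pairOfPowerBasis_a :
    (pairOfPowerBasis pb Φ a a' ϖ m hΦ hmin hϖ hϖ0 hm hred hne u hu hΦa).S.a = a := rfl

@[simp] theorem pairOfPowerBasis_a' :
    (pairOfPowerBasis pb Φ a a' ϖ m hΦ hmin hϖ hϖ0 hm hred hne u hu hΦa).S'.a = a' := rfl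

@[simp] theorem pairOfPowerBasis_m :
    (pairOfPowerBasis pb Φ a a' ϖ m hΦ hmin hϖ hϖ0 hm hred hne u hu hΦa).S.m = m := rfl

@[simp] theorem pairOfPowerBasis_ϖ :
    (pairOfPowerBasis pb Φ a a' ϖ m hΦ hmin hϖ hϖ0 hm hred hne u hu hΦa).S.ϖ = ϖ := rfl

@[simp] theorem pairOfPowerBasis_Φ :
    (pairOfPowerBasis pb Φ a a' ϖ m hΦ hmin hϖ hϖ0 hm hred hne u hu hΦa).S.Φ = Φ := rfl

/-- the hypothesis of `ThickThin.Pair.eq_or_eq` -/
theorem pairOfPowerBasis_red_H :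
    red O (pairOfPowerBasis pb Φ a a' ϖ m hΦ hmin hϖ hϖ0 hm hred hne u hu hΦa).S.H
      = X - C (residue ↥O
        (pairOfPowerBasis pb Φ a a' ϖ m hΦ hmin hϖ hϖ0 hm hred hne u hu hΦa).S'.a) :=
  red_H_eq _ _ hred

end Simp

end OfPowerBasis

/-! ### the value of the norm: two places of residue degree one; one inert place -/

section Values

open Fermat.Agent.S35.NormRed Fermat.Agent.S34.OrthoTrace

universe u

variable {F F' : Type*} [Field F] [Field F'] [Algebra F F'] [Module.Finite F F']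
variable {O : ValuationSubring F}

/-- **the value of the norm, two places of residue degree one**:
`v (N y) = v(π) ^ (n₁ + n₂)` if `v_i y = v_i(ϖ_i) ^ n_i` -/
theorem val_norm₂_deg_one {V₁ V₂ : ValuationSubring F'} {κ : Type u} [Field κ]
    {π : F} {ϖ₁ ϖ₂ : F'} {e₁ e₂ : ℕ} (hR₁ : LocalRam O V₁ π ϖ₁ e₁) (hR₂ : LocalRam O V₂ π ϖ₂ e₂)
    (red : ↥O →+* κ) (ρ₁ : ↥V₁ →+* κ) (ρ₂ : ↥V₂ →+* κ)
    (hred : ∀ c : ↥O, red c = 0 ↔ (c : F) ∈ O.nonunits)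
    (hρ₁ : ∀ y : ↥V₁, ρ₁ y = 0 ↔ (y : F') ∈ V₁.nonunits)
    (hρ₂ : ∀ y : ↥V₂, ρ₂ y = 0 ↔ (y : F') ∈ V₂.nonunits)
    (hc₁ : ∀ (c : ↥O) (h : algebraMap F F' (c : F) ∈ V₁),
      ρ₁ ⟨algebraMap F F' (c : F), h⟩ = red c)
    (hc₂ : ∀ (c : ↥O) (h : algebraMap F F' (c : F) ∈ V₂),
      ρ₂ ⟨algebraMap F F' (c : F), h⟩ = red c)
    (hs₁ : Function.Surjective ρ₁) (hs₂ : Function.Surjective ρ₂)
    (hA₁ : Arch V₁) (hA₂ : Arch V₂) (h12 : ¬ V₁ ≤ V₂) (h21 : ¬ V₂ ≤ V₁)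
    (hdim : e₁ + e₂ = Module.finrank F F')
    {y : F'} (n₁ n₂ : ℤ) (hy₁ : V₁.valuation y = V₁.valuation ϖ₁ ^ n₁)
    (hy₂ : V₂.valuation y = V₂.valuation ϖ₂ ^ n₂) :
    O.valuation (Algebra.norm F y) = O.valuation π ^ (n₁ + n₂) := by
  set D := redData₂ (κ := κ) (κ₁ := κ) (κ₂ := κ) hR₁.comap hR₂.comap red ρ₁ ρ₂ hred hρ₁ hρ₂
    (fun c h => by rw [hc₁ c h]; rfl) (fun c h => by rw [hc₂ c h]; rfl) with hD
  set R := OrthoRamTwo.ramData₂ hR₁ hR₂ with hR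
  have hsurj : ∀ b, Function.Surjective (D.red' b) := fun b => by cases b <;> assumption
  have hA : ∀ b, Arch (fam V₁ V₂ b) := fun b => by cases b <;> assumption
  have hinc : ∀ b b', b ≠ b' → ¬ fam V₁ V₂ b ≤ fam V₁ V₂ b' := by
    intro b b' hbb
    cases b <;> cases b'
    · exact absurd rfl hbb
    · exact h21
    · exact h12
    · exact absurd rfl hbb
  have hdim' : ∑ b, R.e b * Module.finrank κ (famK κ κ b) = Module.finrank F F' := by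
    rw [Fintype.sum_bool]
    show e₁ * Module.finrank κ κ + e₂ * Module.finrank κ κ = _
    rw [Module.finrank_self, mul_one, mul_one]
    exact hdim
  have h := OrthoRamVal.val_norm D R hsurj hA hinc hdim' (fun b => bif b then n₁ else n₂)
    (fun b => by cases b <;> assumption)
  rw [Fintype.sum_bool] at h
  rw [h]
  show O.valuation π ^ (((Module.finrank κ κ : ℕ) : ℤ) * n₁ + ((Module.finrank κ κ : ℕ) : ℤ) * n₂)
    = _
  rw [Module.finrank_self, Nat.cast_one, one_mul, one_mul]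

/-- **the value of the norm, one inert place**: `v (N y) = v(ϖ) ^ (deg Φ * n)` if
`v_V y = v_V(ϖ) ^ n` -/
theorem val_norm_inert [IsPrincipalIdealRing ↥O] (S : InertRoot.Datum O F')
    {κ : Type*} [Field κ] {κ' : Type*} [Field κ'] [Algebra κ κ']
    (hfin : Module.finrank F F' = S.Φ.natDegree) (hϖ0 : S.ϖ ≠ 0)
    (red₀ : ↥O →+* κ) (hred₀ : ∀ c : ↥O, red₀ c = 0 ↔ (c : F) ∈ O.nonunits)
    (hsurj₀ : Function.Surjective red₀)
    (ρ : ↥S.V →+* κ') (hρ : ∀ y : ↥S.V, ρ y = 0 ↔ (y : F') ∈ S.V.nonunits)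
    (hρs : Function.Surjective ρ)
    (hc : ∀ c : ↥O, ρ (Setup.incl S.comap_V c) = algebraMap κ κ' (red₀ c))
    {y : F'} (n : ℤ) (hy : S.V.valuation y = S.V.valuation (algebraMap F F' (S.ϖ : F)) ^ n) :
    O.valuation (Algebra.norm F y) = O.valuation (S.ϖ : F) ^ ((S.Φ.natDegree : ℤ) * n) := by
  have hd := S.finrank_residue red₀ hred₀ hsurj₀ ρ hρ hρs hc
  haveI := hd.1
  set D := S.redData red₀ hred₀ ρ hρ hc with hD
  set R : RamData O (fun _ : Unit => S.V) :=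
    { π := (S.ϖ : F)
      ϖ := fun _ => algebraMap F F' (S.ϖ : F)
      e := fun _ => 1
      loc := fun _ => S.localRam hϖ0 } with hR
  have hsurj : ∀ i, Function.Surjective (D.red' i) := fun _ => hρs
  have hA : ∀ _ : Unit, Arch S.V := fun _ => S.arch_V
  have hinc : ∀ i j : Unit, i ≠ j → ¬ S.V ≤ S.V := fun i j hij => absurd (Subsingleton.elim i j) hij
  have hdim : ∑ i : Unit, R.e i * Module.finrank κ κ' = Module.finrank F F' := by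
    rw [Fintype.sum_unique, hd.2, hfin]
    show 1 * _ = _
    rw [one_mul]
  have h := OrthoRamVal.val_norm D R hsurj hA hinc hdim (fun _ => n) (fun _ => hy)
  rw [Fintype.sum_unique, hd.2] at h
  exact h

end Values

/-! ### the setup -/

section Main

variable {F₁ : Type*} [Field F₁] {F₂ : Type*} [Field F₂]

/-- the norm `F₂ → F₁` along a ring homomorphism `F₁ → F₂` -/
def normAlong (f : F₁ →+* F₂) : F₂ →* F₁ :=
  (Algebra.norm F₁ : S35.NormRed.Via f →* F₁)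

theorem normAlong_apply (f : F₁ →+* F₂) (z : F₂) :
    normAlong f z = (letI := f.toAlgebra; Algebra.norm F₁ z) := rfl

/-- **The setup**: four root data over the two Gauss rings `V₁ V₂` of `F₁` along the two maps
`α β : F₁ →+* F₂`, and the two coordinate functions `x y` (see the header). -/
structure Setup (α β : F₁ →+* F₂) (V₁ V₂ : ValuationSubring F₁) where
  /-- over `V₁` along `α`: the thick place `W₁₁` and the thin place `W₂₀` -/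
  Pα : ThickThin.Pair V₁ (S35.NormRed.Via α)
  /-- over `V₂` along `α`: the inert place `W₀₂` -/
  Iα : InertRoot.Datum V₂ (S35.NormRed.Via α)
  /-- over `V₂` along `β`: the thick place `W₁₁` and the thin place `W₀₂` -/
  Pβ : ThickThin.Pair V₂ (S35.NormRed.Via β)
  /-- over `V₁` along `β`: the inert place `W₂₀` -/
  Iβ : InertRoot.Datum V₁ (S35.NormRed.Via β)
  x : F₁
  y : F₁
  q : ℕ
  hαβ : α y = β x
  tα : (Pα.S.t : F₂) = β y
  tβ : (Pβ.S.t : F₂) = α x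
  aα : (Pα.S.a : F₁) - x ∈ V₁.nonunits
  aα' : (Pα.S'.a : F₁) - y ^ q ∈ V₁.nonunits
  aβ : (Pβ.S.a : F₁) - y ∈ V₂.nonunits
  aβ' : (Pβ.S'.a : F₁) - x ^ q ∈ V₂.nonunits
  h₁ : y - x ^ q ∈ V₁.nonunits
  hd₁ : y - x ^ q ∉ V₂.nonunits
  hd₂ : x - y ^ q ∉ V₁.nonunits
  two_α : ∀ W : ValuationSubring F₂, (W.comap α = V₁ ∨ W.comap α = V₂) →
    (W.comap β = V₁ ∨ W.comap β = V₂)
  two_β : ∀ W : ValuationSubring F₂, (W.comap β = V₁ ∨ W.comap β = V₂) →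
    (W.comap α = V₁ ∨ W.comap α = V₂)

/-- the hypotheses `two_α`, `two_β` from the level below: `F₀` with `α₀ β₀ : F₀ → F₁`,
`α ∘ β₀ = β ∘ α₀`, and `V₁ V₂` the only valuation subrings of `F₁` over `O₀` along `α₀` -/
theorem two_of_square {F₀ : Type*} [Field F₀] {α β : F₁ →+* F₂} {V₁ V₂ : ValuationSubring F₁}
    (α₀ β₀ : F₀ →+* F₁) (O₀ : ValuationSubring F₀) (hsq : α.comp β₀ = β.comp α₀)
    (h1 : V₁.comap β₀ = O₀) (h2 : V₂.comap β₀ = O₀)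
    (two : ∀ V : ValuationSubring F₁, V.comap α₀ = O₀ → V = V₁ ∨ V = V₂)
    (W : ValuationSubring F₂) (h : W.comap α = V₁ ∨ W.comap α = V₂) :
    W.comap β = V₁ ∨ W.comap β = V₂ := by
  apply two
  rw [ValuationSubring.comap_comap, ← hsq, ← ValuationSubring.comap_comap]
  rcases h with h | h <;> rw [h] <;> assumption

/-- the mirror of `two_of_square` -/
theorem two_of_square' {F₀ : Type*} [Field F₀] {α β : F₁ →+* F₂} {V₁ V₂ : ValuationSubring F₁}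
    (α₀ β₀ : F₀ →+* F₁) (O₀ : ValuationSubring F₀) (hsq : α.comp β₀ = β.comp α₀)
    (h1 : V₁.comap α₀ = O₀) (h2 : V₂.comap α₀ = O₀)
    (two : ∀ V : ValuationSubring F₁, V.comap β₀ = O₀ → V = V₁ ∨ V = V₂)
    (W : ValuationSubring F₂) (h : W.comap β = V₁ ∨ W.comap β = V₂) :
    W.comap α = V₁ ∨ W.comap α = V₂ := by
  apply two
  rw [ValuationSubring.comap_comap, hsq, ← ValuationSubring.comap_comap]
  rcases h with h | h <;> rw [h] <;> assumption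

namespace Setup

variable {α β : F₁ →+* F₂} {V₁ V₂ : ValuationSubring F₁} (T : Setup α β V₁ V₂)
variable [IsPrincipalIdealRing ↥V₁] [IsPrincipalIdealRing ↥V₂]

/-- the thick place -/
def W₁₁ : ValuationSubring F₂ := T.Pα.V

/-- the thin place over `V₁` along `α` -/
def W₂₀ : ValuationSubring F₂ := T.Pα.V'

/-- the inert place over `V₂` along `α` -/
def W₀₂ : ValuationSubring F₂ := T.Iα.V

theorem comap_α_W₁₁ : T.W₁₁.comap α = V₁ := T.Pα.S.comap_V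

theorem comap_α_W₂₀ : T.W₂₀.comap α = V₁ := T.Pα.S'.comap_V

theorem comap_α_W₀₂ : T.W₀₂.comap α = V₂ := T.Iα.comap_V

include T in
theorem V₁_ne_V₂ : V₁ ≠ V₂ := fun h => T.hd₁ (h ▸ T.h₁)

/-- membership in the maximal ideal, along a ring homomorphism -/
theorem val_lt_one_of_comap {f : F₁ →+* F₂} {W : ValuationSubring F₂} {V : ValuationSubring F₁}
    (hW : W.comap f = V) {c : F₁} (hc : c ∈ V.nonunits) : W.valuation (f c) < 1 := by
  rw [← ValuationSubring.mem_nonunits_iff, ← mem_nonunits_comap_iff, hW]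
  exact hc

theorem val_le_one_of_comap {f : F₁ →+* F₂} {W : ValuationSubring F₂} {V : ValuationSubring F₁}
    (hW : W.comap f = V) {c : F₁} (hc : c ∈ V) : W.valuation (f c) ≤ 1 := by
  rw [ValuationSubring.valuation_le_one_iff, ← ValuationSubring.mem_comap, hW]
  exact hc

theorem mem_nonunits_of_val_lt_one {f : F₁ →+* F₂} {W : ValuationSubring F₂}
    {V : ValuationSubring F₁} (hW : W.comap f = V) {c : F₁} (hc : W.valuation (f c) < 1) :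
    c ∈ V.nonunits := by
  rw [← hW, mem_nonunits_comap_iff, ValuationSubring.mem_nonunits_iff]
  exact hc

/-- `u ^ n - v ^ n` is in the maximal ideal as soon as `u - v` is -/
theorem val_pow_sub_pow_lt_one {W : ValuationSubring F₂} {u v : F₂} (hu : W.valuation u ≤ 1)
    (hv : W.valuation v ≤ 1) (huv : W.valuation (u - v) < 1) (n : ℕ) :
    W.valuation (u ^ n - v ^ n) < 1 := by
  have h1 : u ^ n - v ^ n = (u - v) * ∑ i ∈ Finset.range n, u ^ i * v ^ (n - 1 - i) :=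
    ((Commute.all u v).mul_geom_sum₂ n).symm
  have h2 : W.valuation (∑ i ∈ Finset.range n, u ^ i * v ^ (n - 1 - i)) ≤ 1 := by
    rw [ValuationSubring.valuation_le_one_iff]
    refine Subring.sum_mem _ fun i _ => mul_mem (pow_mem ?_ _) (pow_mem ?_ _)
    · exact (W.valuation_le_one_iff _).mp hu
    · exact (W.valuation_le_one_iff _).mp hv
  rw [h1, map_mul]
  exact lt_of_le_of_lt (mul_le_of_le_one_right' h2) huv

/-! #### the places along `β` -/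

theorem val_thin_β : (T.Pβ.V' : ValuationSubring F₂).valuation (α T.x - β (T.Pβ.S'.a : F₁)) < 1 := by
  have h := T.Pβ.S'.val_sub_lt_one
  rw [T.Pβ.t_eq] at h
  rw [← T.tβ]
  exact h

theorem val_thin_α : T.W₂₀.valuation (β T.y - α (T.Pα.S'.a : F₁)) < 1 := by
  have h := T.Pα.S'.val_sub_lt_one
  rw [T.Pα.t_eq] at h
  rw [← T.tα]
  exact h

theorem val_thick_α : T.W₁₁.valuation (β T.y - α (T.Pα.S.a : F₁)) < 1 := by
  have h := T.Pα.S.val_sub_lt_one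
  rw [← T.tα]
  exact h

theorem val_thick_β : (T.Pβ.V : ValuationSubring F₂).valuation (α T.x - β (T.Pβ.S.a : F₁)) < 1 := by
  have h := T.Pβ.S.val_sub_lt_one
  rw [← T.tβ]
  exact h

/-- the thin place over `V₂` along `β` lies over `V₂` along `α` -/
theorem comap_α_thin_β : (T.Pβ.V' : ValuationSubring F₂).comap α = V₂ := by
  have hβ : (T.Pβ.V' : ValuationSubring F₂).comap β = V₂ := T.Pβ.S'.comap_V
  rcases T.two_β _ (Or.inr hβ) with h | h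
  · exfalso
    apply T.hd₂
    refine mem_nonunits_of_val_lt_one h ?_
    have h1 : α (T.x - T.y ^ T.q) = (α T.x - β (T.Pβ.S'.a : F₁))
        + β ((T.Pβ.S'.a : F₁) - T.x ^ T.q) := by
      rw [map_sub, map_sub, map_pow, map_pow, T.hαβ]
      ring
    rw [h1]
    exact Valuation.map_add_lt _ T.val_thin_β (val_lt_one_of_comap hβ T.aβ')
  · exact h

/-- the thin place over `V₁` along `α` lies over `V₁` along `β` -/
theorem comap_β_W₂₀ : T.W₂₀.comap β = V₁ := by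
  have hα := T.comap_α_W₂₀
  rcases T.two_α _ (Or.inl hα) with h | h
  · exact h
  · exfalso
    apply T.hd₁
    refine mem_nonunits_of_val_lt_one h ?_
    have h1 : β (T.y - T.x ^ T.q) = (β T.y - α (T.Pα.S'.a : F₁))
        + α ((T.Pα.S'.a : F₁) - T.y ^ T.q) := by
      rw [map_sub, map_sub, map_pow, map_pow, T.hαβ]
      ring
    rw [h1]
    exact Valuation.map_add_lt _ T.val_thin_α (val_lt_one_of_comap hα T.aα')

include T in
theorem x_mem_V₁ : T.x ∈ V₁ := by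
  have h1 : (T.Pα.S.a : F₁) - T.x ∈ V₁ := V₁.nonunits_subset T.aα
  have h2 : T.x = (T.Pα.S.a : F₁) - ((T.Pα.S.a : F₁) - T.x) := by ring
  rw [h2]
  exact sub_mem T.Pα.S.a.2 h1

include T in
theorem y_mem_V₂ : T.y ∈ V₂ := by
  have h1 : (T.Pβ.S.a : F₁) - T.y ∈ V₂ := V₂.nonunits_subset T.aβ
  have h2 : T.y = (T.Pβ.S.a : F₁) - ((T.Pβ.S.a : F₁) - T.y) := by ring
  rw [h2]
  exact sub_mem T.Pβ.S.a.2 h1

theorem βy_mem_W₁₁ : β T.y ∈ T.W₁₁ := by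
  have h := T.Pα.S.t_mem_of_comap T.Pα.S.comap_V
  rw [← T.tα]
  exact h

/-- on the thick place the two outer coordinates agree: `j(τ) ≡ j(q²τ)` -/
theorem val_sub_W₁₁ : T.W₁₁.valuation (α T.x - β T.y) < 1 := by
  have h1 : α T.x - β T.y = - (β T.y - α (T.Pα.S.a : F₁)) - α ((T.Pα.S.a : F₁) - T.x) := by
    rw [map_sub]
    ring
  rw [h1]
  refine Valuation.map_sub_lt _ ?_ (val_lt_one_of_comap T.comap_α_W₁₁ T.aα)
  rw [Valuation.map_neg]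
  exact T.val_thick_α

/-- the thick place over `V₁` along `α` lies over `V₂` along `β` -/
theorem comap_β_W₁₁ : T.W₁₁.comap β = V₂ := by
  have hα := T.comap_α_W₁₁
  rcases T.two_α _ (Or.inl hα) with h | h
  · exfalso
    apply T.hd₂
    refine mem_nonunits_of_val_lt_one h ?_
    have h1 : β (T.x - T.y ^ T.q)
        = α (T.y - T.x ^ T.q) + ((α T.x) ^ T.q - (β T.y) ^ T.q) := by
      rw [map_sub, map_sub, map_pow, map_pow, T.hαβ]
      ring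
    rw [h1]
    refine Valuation.map_add_lt _ (val_lt_one_of_comap hα T.h₁)
      (val_pow_sub_pow_lt_one ?_ ?_ T.val_sub_W₁₁ _)
    · exact val_le_one_of_comap hα T.x_mem_V₁
    · exact (T.W₁₁.valuation_le_one_iff _).mpr T.βy_mem_W₁₁
  · exact h

/-! #### the identifications -/

/-- **`W₂₀`**: the inert place over `V₁` along `β` is the thin place over `V₁` along `α` -/
theorem W₂₀_eq : (T.Iβ.V : ValuationSubring F₂) = T.W₂₀ :=
  (T.Iβ.eq_V_of_comap T.comap_β_W₂₀).symm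

/-- **`W₀₂`**: the thin place over `V₂` along `β` is the inert place over `V₂` along `α` -/
theorem W₀₂_eq : (T.Pβ.V' : ValuationSubring F₂) = T.W₀₂ :=
  T.Iα.eq_V_of_comap T.comap_α_thin_β

/-- **`W₁₁`**: the thick place over `V₂` along `β` is the thick place over `V₁` along `α` -/
theorem W₁₁_eq : (T.Pβ.V : ValuationSubring F₂) = T.W₁₁ := by
  refine (T.Pβ.S.eq_V_of_comap T.comap_β_W₁₁ ?_).symm
  have h1 : α T.x - β (T.Pβ.S.a : F₁) = (α T.x - β T.y) - β ((T.Pβ.S.a : F₁) - T.y) := by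
    rw [map_sub]
    ring
  have h2 : T.W₁₁.valuation (α T.x - β (T.Pβ.S.a : F₁)) < 1 := by
    rw [h1]
    exact Valuation.map_sub_lt _ T.val_sub_W₁₁ (val_lt_one_of_comap T.comap_β_W₁₁ T.aβ)
  rw [← T.tβ] at h2
  exact h2

theorem comap_β_W₀₂ : T.W₀₂.comap β = V₂ := by
  rw [← T.W₀₂_eq]
  exact T.Pβ.S'.comap_V

/-! #### a valuation subring of `F₂` is determined by its two restrictions -/

theorem eq_W₂₀_of_comap_β {W : ValuationSubring F₂} (hβ : W.comap β = V₁) : W = T.W₂₀ := by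
  rw [← T.W₂₀_eq]
  exact T.Iβ.eq_V_of_comap hβ

theorem eq_W₀₂_of_comap_α {W : ValuationSubring F₂} (hα : W.comap α = V₂) : W = T.W₀₂ :=
  T.Iα.eq_V_of_comap hα

/-- the thick place is the only one over `V₁` along `α` with `j(q²τ) ≡ j(τ)` -/
theorem eq_W₁₁_of_val_lt {W : ValuationSubring F₂} (hα : W.comap α = V₁)
    (hlt : W.valuation (α T.x - β T.y) < 1) : W = T.W₁₁ := by
  refine T.Pα.S.eq_V_of_comap hα ?_
  have h1 : β T.y - α (T.Pα.S.a : F₁) = - (α T.x - β T.y) - α ((T.Pα.S.a : F₁) - T.x) := by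
    rw [map_sub]
    ring
  have h2 : W.valuation (β T.y - α (T.Pα.S.a : F₁)) < 1 := by
    rw [h1]
    refine Valuation.map_sub_lt _ ?_ (val_lt_one_of_comap hα T.aα)
    rw [Valuation.map_neg]
    exact hlt
  rw [← T.tα] at h2
  exact h2

/-- `(W ∩ α F₁, W ∩ β F₁) = (V₁, V₂)` characterises the thick place (given that the thick and
the thin place are the only ones over `V₁` along `α`) -/
theorem eq_W₁₁_of_comap (hH : red V₁ T.Pα.S.H = X - C (residue ↥V₁ T.Pα.S'.a))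
    {W : ValuationSubring F₂} (hα : W.comap α = V₁) (hβ : W.comap β = V₂) : W = T.W₁₁ := by
  rcases T.Pα.eq_or_eq hH hα with h | h
  · exact h
  · exfalso
    have h2 : W = T.W₂₀ := h
    rw [h2, T.comap_β_W₂₀] at hβ
    exact T.V₁_ne_V₂ hβ

/-- **exhaustiveness**: the three places are the only valuation subrings of `F₂` lying over `V₁`
or `V₂` along `α` -/
theorem exhaustive (hH : red V₁ T.Pα.S.H = X - C (residue ↥V₁ T.Pα.S'.a))
    {W : ValuationSubring F₂} (h : W.comap α = V₁ ∨ W.comap α = V₂) :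
    W = T.W₂₀ ∨ W = T.W₁₁ ∨ W = T.W₀₂ := by
  rcases h with h | h
  · rcases T.Pα.eq_or_eq hH h with h' | h'
    · exact Or.inr (Or.inl h')
    · exact Or.inl h'
  · exact Or.inr (Or.inr (T.eq_W₀₂_of_comap_α h))

/-- the three places are pairwise different -/
theorem W₂₀_ne_W₁₁ : T.W₂₀ ≠ T.W₁₁ := fun h => T.Pα.V_ne_V' h.symm

theorem W₂₀_ne_W₀₂ : T.W₂₀ ≠ T.W₀₂ := fun h =>
  T.V₁_ne_V₂ (by rw [← T.comap_α_W₂₀, h, T.comap_α_W₀₂])

theorem W₁₁_ne_W₀₂ : T.W₁₁ ≠ T.W₀₂ := fun h =>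
  T.V₁_ne_V₂ (by rw [← T.comap_α_W₁₁, h, T.comap_α_W₀₂])

/-! #### the four norm-reduction formulas -/

section Norms

variable {κ : Type*} [Field κ]

theorem mem_of_comap {f : F₁ →+* F₂} {W : ValuationSubring F₂} {V : ValuationSubring F₁}
    (hW : W.comap f = V) {c : F₁} (hc : c ∈ V) : f c ∈ W := by
  rw [← ValuationSubring.mem_comap, hW]
  exact hc

theorem surjective_of_compat {f : F₁ →+* F₂} {W : ValuationSubring F₂} {V : ValuationSubring F₁}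
    (hW : W.comap f = V) (red : ↥V →+* κ) (r : ↥W →+* κ) (hs : Function.Surjective red)
    (hc : ∀ (c : ↥V) (h : f (c : F₁) ∈ W), r ⟨f c, h⟩ = red c) : Function.Surjective r :=
  fun z => by
    obtain ⟨c, hc'⟩ := hs z
    exact ⟨⟨f c, mem_of_comap hW c.2⟩, by rw [hc, hc']⟩

/-- **norm along `α`, over `V₁`**: the thin place `W₂₀` and the thick place `W₁₁` -/
theorem norm₁_V₁ (hdeg : Module.finrank F₁ (S35.NormRed.Via α) = T.Pα.S.m + 1)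
    {W₂₀ W₁₁ : ValuationSubring F₂} (e₂₀ : W₂₀ = T.W₂₀) (e₁₁ : W₁₁ = T.W₁₁)
    (red₁ : ↥V₁ →+* κ) (r₂₀ : ↥W₂₀ →+* κ) (r₁₁ : ↥W₁₁ →+* κ)
    (hs : Function.Surjective red₁)
    (h₂₀ : ∀ (c : ↥V₁) (h : α (c : F₁) ∈ W₂₀), r₂₀ ⟨α c, h⟩ = red₁ c)
    (h₁₁ : ∀ (c : ↥V₁) (h : α (c : F₁) ∈ W₁₁), r₁₁ ⟨α c, h⟩ = red₁ c)
    (y : F₂) (hy₂₀ : y ∈ W₂₀) (hy₁₁ : y ∈ W₁₁) :
    ∃ m : normAlong α y ∈ V₁,
      red₁ ⟨normAlong α y, m⟩ = r₂₀ ⟨y, hy₂₀⟩ * r₁₁ ⟨y, hy₁₁⟩ ^ T.Pα.S.m := by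
  subst e₂₀ e₁₁
  haveI : Module.Finite F₁ (S35.NormRed.Via α) :=
    Module.finite_of_finrank_pos (by rw [hdeg]; omega)
  have hs₂₀ := surjective_of_compat T.comap_α_W₂₀ red₁ r₂₀ hs h₂₀
  have hs₁₁ := surjective_of_compat T.comap_α_W₁₁ red₁ r₁₁ hs h₁₁
  obtain ⟨m, hm⟩ := T.Pα.red_norm hdeg red₁ r₁₁ r₂₀ (eq_zero_iff_of_surjective _ _ hs)
    (eq_zero_iff_of_surjective _ _ hs₁₁) (eq_zero_iff_of_surjective _ _ hs₂₀) h₁₁ h₂₀ hs₁₁ hs₂₀
    hy₁₁ hy₂₀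
  exact ⟨m, by rw [mul_comm]; exact hm⟩

/-- **norm along `β`, over `V₂`**: the thick place `W₁₁` and the thin place `W₀₂` -/
theorem norm₂_V₂ (hdeg : Module.finrank F₁ (S35.NormRed.Via β) = T.Pβ.S.m + 1)
    {W₁₁ W₀₂ : ValuationSubring F₂} (e₁₁ : W₁₁ = T.W₁₁) (e₀₂ : W₀₂ = T.W₀₂)
    (red₂ : ↥V₂ →+* κ) (r₁₁ : ↥W₁₁ →+* κ) (r₀₂ : ↥W₀₂ →+* κ)
    (hs : Function.Surjective red₂)
    (h₁₁ : ∀ (c : ↥V₂) (h : β (c : F₁) ∈ W₁₁), r₁₁ ⟨β c, h⟩ = red₂ c)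
    (h₀₂ : ∀ (c : ↥V₂) (h : β (c : F₁) ∈ W₀₂), r₀₂ ⟨β c, h⟩ = red₂ c)
    (y : F₂) (hy₁₁ : y ∈ W₁₁) (hy₀₂ : y ∈ W₀₂) :
    ∃ m : normAlong β y ∈ V₂,
      red₂ ⟨normAlong β y, m⟩ = r₁₁ ⟨y, hy₁₁⟩ ^ T.Pβ.S.m * r₀₂ ⟨y, hy₀₂⟩ := by
  have e₁₁' : W₁₁ = (T.Pβ.V : ValuationSubring F₂) := e₁₁.trans T.W₁₁_eq.symm
  have e₀₂' : W₀₂ = (T.Pβ.V' : ValuationSubring F₂) := e₀₂.trans T.W₀₂_eq.symm
  subst e₁₁' e₀₂'
  haveI : Module.Finite F₁ (S35.NormRed.Via β) :=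
    Module.finite_of_finrank_pos (by rw [hdeg]; omega)
  have hs₁₁ := surjective_of_compat (W := (T.Pβ.V : ValuationSubring F₂)) T.Pβ.S.comap_V
    red₂ r₁₁ hs h₁₁
  have hs₀₂ := surjective_of_compat (W := (T.Pβ.V' : ValuationSubring F₂)) T.Pβ.S'.comap_V
    red₂ r₀₂ hs h₀₂
  exact T.Pβ.red_norm hdeg red₂ r₁₁ r₀₂ (eq_zero_iff_of_surjective _ _ hs)
    (eq_zero_iff_of_surjective _ _ hs₁₁) (eq_zero_iff_of_surjective _ _ hs₀₂) h₁₁ h₀₂ hs₁₁ hs₀₂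
    hy₁₁ hy₀₂

/-- **norm along `α`, over `V₂`**: the purely inseparable place `W₀₂` -/
theorem norm₁_V₂ [hq : Fact T.q.Prime] [CharP κ T.q]
    (hdeg : Module.finrank F₁ (S35.NormRed.Via α) = T.q) (hΦ : T.Iα.Φ.natDegree = T.q)
    {W₀₂ : ValuationSubring F₂} (e₀₂ : W₀₂ = T.W₀₂)
    (red₂ : ↥V₂ →+* κ) (r₀₂ : ↥W₀₂ →+* κ) (φ : κ →+* κ) (hφ : ∀ z : κ, ∃ c : κ, φ c = z ^ T.q)
    (hs : Function.Surjective red₂) (hs₀₂ : Function.Surjective r₀₂)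
    (h₀₂ : ∀ (c : ↥V₂) (h : α (c : F₁) ∈ W₀₂), r₀₂ ⟨α c, h⟩ = φ (red₂ c))
    (y : F₂) (hy : y ∈ W₀₂) :
    ∃ m : normAlong α y ∈ V₂, φ (red₂ ⟨normAlong α y, m⟩) = r₀₂ ⟨y, hy⟩ ^ T.q := by
  subst e₀₂
  haveI : Module.Finite F₁ (S35.NormRed.Via α) :=
    Module.finite_of_finrank_pos (by rw [hdeg]; exact hq.out.pos)
  exact T.Iα.red_norm_one_frob T.q (hdeg.trans hΦ.symm) hΦ red₂
    (eq_zero_iff_of_surjective _ _ hs) hs φ hφ r₀₂ (eq_zero_iff_of_surjective _ _ hs₀₂) hs₀₂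
    (fun c => h₀₂ c _) hy

/-- **norm along `β`, over `V₁`**: the purely inseparable place `W₂₀` -/
theorem norm₂_V₁ [hq : Fact T.q.Prime] [CharP κ T.q]
    (hdeg : Module.finrank F₁ (S35.NormRed.Via β) = T.q) (hΦ : T.Iβ.Φ.natDegree = T.q)
    {W₂₀ : ValuationSubring F₂} (e₂₀ : W₂₀ = T.W₂₀)
    (red₁ : ↥V₁ →+* κ) (r₂₀ : ↥W₂₀ →+* κ) (φ : κ →+* κ) (hφ : ∀ z : κ, ∃ c : κ, φ c = z ^ T.q)
    (hs : Function.Surjective red₁) (hs₂₀ : Function.Surjective r₂₀)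
    (h₂₀ : ∀ (c : ↥V₁) (h : β (c : F₁) ∈ W₂₀), r₂₀ ⟨β c, h⟩ = φ (red₁ c))
    (y : F₂) (hy : y ∈ W₂₀) :
    ∃ m : normAlong β y ∈ V₁, φ (red₁ ⟨normAlong β y, m⟩) = r₂₀ ⟨y, hy⟩ ^ T.q := by
  have e₂₀' : W₂₀ = (T.Iβ.V : ValuationSubring F₂) := e₂₀.trans T.W₂₀_eq.symm
  subst e₂₀'
  haveI : Module.Finite F₁ (S35.NormRed.Via β) :=
    Module.finite_of_finrank_pos (by rw [hdeg]; exact hq.out.pos)
  exact T.Iβ.red_norm_one_frob T.q (hdeg.trans hΦ.symm) hΦ red₁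
    (eq_zero_iff_of_surjective _ _ hs) hs φ hφ r₂₀ (eq_zero_iff_of_surjective _ _ hs₂₀) hs₂₀
    (fun c => h₂₀ c _) hy

end Norms

/-! #### the bundled form: the four fields of `GlueNorm.Datum` -/

/-- the numerical hypotheses -/
structure Num (T : Setup α β V₁ V₂) : Prop where
  prime : T.q.Prime
  degα : Module.finrank F₁ (S35.NormRed.Via α) = T.q
  degβ : Module.finrank F₁ (S35.NormRed.Via β) = T.q
  mα : T.Pα.S.m = T.q - 1
  mβ : T.Pβ.S.m = T.q - 1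
  degIα : T.Iα.Φ.natDegree = T.q
  degIβ : T.Iβ.Φ.natDegree = T.q

/-- **the residue maps**: `red₁ red₂` on the Gauss rings of `F₁`, `r₂₀ r₁₁ r₀₂` on the three
valuation rings of `F₂`, all with values in ONE field `κ`, normalised as in `GlueNorm`:
`r₂₀ ∘ α = red₁ = r₁₁ ∘ α`, `r₀₂ ∘ α = φ ∘ red₂`, `r₂₀ ∘ β = φ ∘ red₁`, `r₁₁ ∘ β = red₂ = r₀₂ ∘ β`. -/
structure Reds (T : Setup α β V₁ V₂) (κ : Type*) [Field κ] where
  W₂₀ : ValuationSubring F₂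
  W₁₁ : ValuationSubring F₂
  W₀₂ : ValuationSubring F₂
  e₂₀ : W₂₀ = T.W₂₀
  e₁₁ : W₁₁ = T.W₁₁
  e₀₂ : W₀₂ = T.W₀₂
  red₁ : ↥V₁ →+* κ
  red₂ : ↥V₂ →+* κ
  r₂₀ : ↥W₂₀ →+* κ
  r₁₁ : ↥W₁₁ →+* κ
  r₀₂ : ↥W₀₂ →+* κ
  φ : κ →+* κ
  hφ : ∀ z : κ, ∃ c : κ, φ c = z ^ T.q
  surj₁ : Function.Surjective red₁
  surj₂ : Function.Surjective red₂
  r₂₀_α : ∀ (c : ↥V₁) (h : α (c : F₁) ∈ W₂₀), r₂₀ ⟨α c, h⟩ = red₁ c
  r₂₀_β : ∀ (c : ↥V₁) (h : β (c : F₁) ∈ W₂₀), r₂₀ ⟨β c, h⟩ = φ (red₁ c)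
  r₁₁_α : ∀ (c : ↥V₁) (h : α (c : F₁) ∈ W₁₁), r₁₁ ⟨α c, h⟩ = red₁ c
  r₁₁_β : ∀ (c : ↥V₂) (h : β (c : F₁) ∈ W₁₁), r₁₁ ⟨β c, h⟩ = red₂ c
  r₀₂_α : ∀ (c : ↥V₂) (h : α (c : F₁) ∈ W₀₂), r₀₂ ⟨α c, h⟩ = φ (red₂ c)
  r₀₂_β : ∀ (c : ↥V₂) (h : β (c : F₁) ∈ W₀₂), r₀₂ ⟨β c, h⟩ = red₂ c

namespace Reds

variable {T} {κ : Type*} [Field κ] (R : Reds T κ) (N : Num T)

theorem surj₂₀ : Function.Surjective R.r₂₀ :=
  surjective_of_compat (by rw [R.e₂₀]; exact T.comap_α_W₂₀) R.red₁ R.r₂₀ R.surj₁ R.r₂₀_α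

theorem surj₁₁ : Function.Surjective R.r₁₁ :=
  surjective_of_compat (by rw [R.e₁₁]; exact T.comap_α_W₁₁) R.red₁ R.r₁₁ R.surj₁ R.r₁₁_α

theorem surj₀₂ : Function.Surjective R.r₀₂ :=
  surjective_of_compat (by rw [R.e₀₂]; exact T.comap_β_W₀₂) R.red₂ R.r₀₂ R.surj₂ R.r₀₂_β

include N

/-- field `norm₁_V₁` of `GlueNorm.Datum` -/
theorem norm₁_V₁ (y : F₂) (h₂₀ : y ∈ R.W₂₀) (h₁₁ : y ∈ R.W₁₁) (_h₀₂ : y ∈ R.W₀₂) :
    ∃ m : normAlong α y ∈ V₁,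
      R.red₁ ⟨normAlong α y, m⟩ = R.r₂₀ ⟨y, h₂₀⟩ * R.r₁₁ ⟨y, h₁₁⟩ ^ (T.q - 1) := by
  have h := Setup.norm₁_V₁ T (by rw [N.degα, N.mα]; have := N.prime.pos; omega) R.e₂₀ R.e₁₁
    R.red₁ R.r₂₀ R.r₁₁ R.surj₁ R.r₂₀_α R.r₁₁_α y h₂₀ h₁₁
  rwa [N.mα] at h

/-- field `norm₂_V₂` of `GlueNorm.Datum` -/
theorem norm₂_V₂ (y : F₂) (_h₂₀ : y ∈ R.W₂₀) (h₁₁ : y ∈ R.W₁₁) (h₀₂ : y ∈ R.W₀₂) :
    ∃ m : normAlong β y ∈ V₂,
      R.red₂ ⟨normAlong β y, m⟩ = R.r₁₁ ⟨y, h₁₁⟩ ^ (T.q - 1) * R.r₀₂ ⟨y, h₀₂⟩ := by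
  have h := Setup.norm₂_V₂ T (by rw [N.degβ, N.mβ]; have := N.prime.pos; omega) R.e₁₁ R.e₀₂
    R.red₂ R.r₁₁ R.r₀₂ R.surj₂ R.r₁₁_β R.r₀₂_β y h₁₁ h₀₂
  rwa [N.mβ] at h

variable [CharP κ T.q]

/-- field `norm₁_V₂` of `GlueNorm.Datum` -/
theorem norm₁_V₂ (y : F₂) (_h₂₀ : y ∈ R.W₂₀) (_h₁₁ : y ∈ R.W₁₁) (h₀₂ : y ∈ R.W₀₂) :
    ∃ m : normAlong α y ∈ V₂, R.φ (R.red₂ ⟨normAlong α y, m⟩) = R.r₀₂ ⟨y, h₀₂⟩ ^ T.q := by
  haveI : Fact T.q.Prime := ⟨N.prime⟩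
  exact Setup.norm₁_V₂ T N.degα N.degIα R.e₀₂ R.red₂ R.r₀₂ R.φ R.hφ R.surj₂ R.surj₀₂ R.r₀₂_α y h₀₂

/-- field `norm₂_V₁` of `GlueNorm.Datum` -/
theorem norm₂_V₁ (y : F₂) (h₂₀ : y ∈ R.W₂₀) (_h₁₁ : y ∈ R.W₁₁) (_h₀₂ : y ∈ R.W₀₂) :
    ∃ m : normAlong β y ∈ V₁, R.φ (R.red₁ ⟨normAlong β y, m⟩) = R.r₂₀ ⟨y, h₂₀⟩ ^ T.q := by
  haveI : Fact T.q.Prime := ⟨N.prime⟩
  exact Setup.norm₂_V₁ T N.degβ N.degIβ R.e₂₀ R.red₁ R.r₂₀ R.φ R.hφ R.surj₁ R.surj₂₀ R.r₂₀_β y h₂₀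

end Reds

/-! #### the uniformizers -/

/-- the uniformizer of `V₁` -/
def π₁ : F₁ := (T.Pα.S.ϖ : F₁)

/-- the uniformizer of `V₂` -/
def π₂ : F₁ := (T.Pβ.S.ϖ : F₁)

/-- the uniformizer `j(q²τ) - j(τ)` of the thick place -/
def ϖ₁₁ : F₂ := β T.y - α (T.Pα.S.a : F₁)

/-- the same uniformizer, from the `β`-side -/
def ϖ₁₁' : F₂ := α T.x - β (T.Pβ.S.a : F₁)

/-- the ramification data of the thick place over `V₁` along `α` -/
theorem localRam_W₁₁_α :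
    LocalRam V₁ T.Pα.V T.π₁ (T.ϖ₁₁ : S35.NormRed.Via α) T.Pα.S.m := by
  have h := T.Pα.localRam
  have e : T.ϖ₁₁ = (T.Pα.S.t - algebraMap F₁ (S35.NormRed.Via α) (T.Pα.S.a : F₁) :
      S35.NormRed.Via α) := by
    show β T.y - α (T.Pα.S.a : F₁) = _
    rw [← T.tα]
    rfl
  rw [e]
  exact h

/-- the ramification data of the thin place over `V₁` along `α` -/
theorem localRam_W₂₀_α :
    LocalRam V₁ T.Pα.V' T.π₁ (α T.π₁ : S35.NormRed.Via α) 1 := T.Pα.localRam'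

/-- the ramification data of the thick place over `V₂` along `β` -/
theorem localRam_W₁₁_β :
    LocalRam V₂ T.Pβ.V T.π₂ (T.ϖ₁₁' : S35.NormRed.Via β) T.Pβ.S.m := by
  have h := T.Pβ.localRam
  have e : T.ϖ₁₁' =
      (T.Pβ.S.t - algebraMap F₁ (S35.NormRed.Via β) (T.Pβ.S.a : F₁) : S35.NormRed.Via β) := by
    show α T.x - β (T.Pβ.S.a : F₁) = _
    rw [← T.tβ]
    rfl
  rw [e]
  exact h

/-- the ramification data of the thin place over `V₂` along `β` -/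
theorem localRam_W₀₂_β :
    LocalRam V₂ T.Pβ.V' T.π₂ (β T.π₂ : S35.NormRed.Via β) 1 := T.Pβ.localRam'

include T in
theorem Iα_ϖ_ne_zero : T.Iα.ϖ ≠ 0 := by
  intro h0
  have h1 : T.Pβ.S.ϖ ∈ maximalIdeal ↥V₂ := T.Pβ.S.ϖ_mem
  rw [T.Iα.hϖ, h0, Ideal.mem_span_singleton'] at h1
  obtain ⟨r, hr⟩ := h1
  rw [mul_zero] at hr
  exact T.Pβ.ϖ_ne_zero hr.symm

include T in
theorem Iβ_ϖ_ne_zero : T.Iβ.ϖ ≠ 0 := by
  intro h0
  have h1 : T.Pα.S.ϖ ∈ maximalIdeal ↥V₁ := T.Pα.S.ϖ_mem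
  rw [T.Iβ.hϖ, h0, Ideal.mem_span_singleton'] at h1
  obtain ⟨r, hr⟩ := h1
  rw [mul_zero] at hr
  exact T.Pα.ϖ_ne_zero hr.symm

/-- the ramification data of the inert place over `V₂` along `α` -/
theorem localRam_W₀₂_α :
    LocalRam V₂ T.Iα.V (T.Iα.ϖ : F₁) (α (T.Iα.ϖ : F₁) : S35.NormRed.Via α) 1 :=
  T.Iα.localRam T.Iα_ϖ_ne_zero

/-- the ramification data of the inert place over `V₁` along `β` -/
theorem localRam_W₂₀_β :
    LocalRam V₁ T.Iβ.V (T.Iβ.ϖ : F₁) (β (T.Iβ.ϖ : F₁) : S35.NormRed.Via β) 1 :=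
  T.Iβ.localRam T.Iβ_ϖ_ne_zero

/-- `ϖ` generates the maximal ideal of `A` -/
def IsUnif (A : ValuationSubring F₂) (ϖ : F₂) : Prop :=
  ϖ ∈ A.nonunits ∧ ∀ z ∈ A.nonunits, A.valuation z ≤ A.valuation ϖ

omit [IsPrincipalIdealRing ↥V₁] [IsPrincipalIdealRing ↥V₂] in
theorem IsUnif.val_eq {A : ValuationSubring F₂} {ϖ ϖ' : F₂} (h : IsUnif A ϖ) (h' : IsUnif A ϖ') :
    A.valuation ϖ = A.valuation ϖ' :=
  le_antisymm (h'.2 _ h.1) (h.2 _ h'.1)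

theorem isUnif_W₁₁ : IsUnif T.W₁₁ T.ϖ₁₁ := ⟨T.localRam_W₁₁_α.ϖ_mem, T.localRam_W₁₁_α.ϖ_gen⟩

theorem isUnif_W₁₁' : IsUnif T.W₁₁ T.ϖ₁₁' := by
  rw [← T.W₁₁_eq]
  exact ⟨T.localRam_W₁₁_β.ϖ_mem, T.localRam_W₁₁_β.ϖ_gen⟩

theorem isUnif_W₂₀ : IsUnif T.W₂₀ (α T.π₁) := ⟨T.localRam_W₂₀_α.ϖ_mem, T.localRam_W₂₀_α.ϖ_gen⟩

theorem isUnif_W₂₀' : IsUnif T.W₂₀ (β (T.Iβ.ϖ : F₁)) := by
  rw [← T.W₂₀_eq]
  exact ⟨T.localRam_W₂₀_β.ϖ_mem, T.localRam_W₂₀_β.ϖ_gen⟩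

theorem isUnif_W₀₂ : IsUnif T.W₀₂ (α (T.Iα.ϖ : F₁)) :=
  ⟨T.localRam_W₀₂_α.ϖ_mem, T.localRam_W₀₂_α.ϖ_gen⟩

theorem isUnif_W₀₂' : IsUnif T.W₀₂ (β T.π₂) := by
  rw [← T.W₀₂_eq]
  exact ⟨T.localRam_W₀₂_β.ϖ_mem, T.localRam_W₀₂_β.ϖ_gen⟩

/-- the two uniformizers of `V₂` have the same value -/
theorem val_Iα_ϖ : V₂.valuation (T.Iα.ϖ : F₁) = V₂.valuation T.π₂ :=
  le_antisymm (T.localRam_W₀₂_β.π_gen _ T.localRam_W₀₂_α.π_mem)
    (T.localRam_W₀₂_α.π_gen _ T.localRam_W₀₂_β.π_mem)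

/-- the two uniformizers of `V₁` have the same value -/
theorem val_Iβ_ϖ : V₁.valuation (T.Iβ.ϖ : F₁) = V₁.valuation T.π₁ :=
  le_antisymm (T.localRam_W₂₀_α.π_gen _ T.localRam_W₂₀_β.π_mem)
    (T.localRam_W₂₀_β.π_gen _ T.localRam_W₂₀_α.π_mem)

/-! #### the four value formulas -/

section ValueFormulas

variable {κ : Type*} [Field κ] (R : Reds T κ) (N : Num T)

include R N

/-- **value of the norm along `α`, over `V₁`** -/
theorem val_norm₁_V₁ (y : F₂) (a b : ℤ)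
    (ha : T.W₂₀.valuation y = T.W₂₀.valuation (α T.π₁) ^ a)
    (hb : T.W₁₁.valuation y = T.W₁₁.valuation T.ϖ₁₁ ^ b) :
    V₁.valuation (normAlong α y) = V₁.valuation T.π₁ ^ (a + b) := by
  obtain ⟨W₂₀, W₁₁, W₀₂, e₂₀, e₁₁, e₀₂, red₁, red₂, r₂₀, r₁₁, r₀₂, φ, hφ, surj₁, surj₂, r₂₀_α,
    r₂₀_β, r₁₁_α, r₁₁_β, r₀₂_α, r₀₂_β⟩ := R
  subst e₂₀ e₁₁ e₀₂
  have hdeg : T.Pα.S.m + 1 = Module.finrank F₁ (S35.NormRed.Via α) := by
    rw [N.degα, N.mα]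
    have := N.prime.pos
    omega
  haveI : Module.Finite F₁ (S35.NormRed.Via α) :=
    Module.finite_of_finrank_pos (by rw [← hdeg]; omega)
  have hs₂₀ := surjective_of_compat T.comap_α_W₂₀ red₁ r₂₀ surj₁ r₂₀_α
  have hs₁₁ := surjective_of_compat T.comap_α_W₁₁ red₁ r₁₁ surj₁ r₁₁_α
  have h := val_norm₂_deg_one (F := F₁) (F' := S35.NormRed.Via α) T.localRam_W₁₁_α
    T.localRam_W₂₀_α red₁ r₁₁ r₂₀ (eq_zero_iff_of_surjective _ _ surj₁)
    (eq_zero_iff_of_surjective _ _ hs₁₁) (eq_zero_iff_of_surjective _ _ hs₂₀) r₁₁_α r₂₀_α hs₁₁ hs₂₀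
    T.Pα.arch_V T.Pα.arch_V' T.Pα.not_le T.Pα.not_le' hdeg b a hb ha
  rw [add_comm]
  exact h

/-- **value of the norm along `β`, over `V₂`** -/
theorem val_norm₂_V₂ (y : F₂) (b c : ℤ)
    (hb : T.W₁₁.valuation y = T.W₁₁.valuation T.ϖ₁₁ ^ b)
    (hc : T.W₀₂.valuation y = T.W₀₂.valuation (β T.π₂) ^ c) :
    V₂.valuation (normAlong β y) = V₂.valuation T.π₂ ^ (b + c) := by
  obtain ⟨W₂₀, W₁₁, W₀₂, e₂₀, e₁₁, e₀₂, red₁, red₂, r₂₀, r₁₁, r₀₂, φ, hφ, surj₁, surj₂, r₂₀_α,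
    r₂₀_β, r₁₁_α, r₁₁_β, r₀₂_α, r₀₂_β⟩ := R
  have e₁₁' : W₁₁ = (T.Pβ.V : ValuationSubring F₂) := e₁₁.trans T.W₁₁_eq.symm
  have e₀₂' : W₀₂ = (T.Pβ.V' : ValuationSubring F₂) := e₀₂.trans T.W₀₂_eq.symm
  subst e₁₁' e₀₂'
  have hdeg : T.Pβ.S.m + 1 = Module.finrank F₁ (S35.NormRed.Via β) := by
    rw [N.degβ, N.mβ]
    have := N.prime.pos
    omega
  haveI : Module.Finite F₁ (S35.NormRed.Via β) :=
    Module.finite_of_finrank_pos (by rw [← hdeg]; omega)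
  have hs₁₁ := surjective_of_compat (W := (T.Pβ.V : ValuationSubring F₂)) T.Pβ.S.comap_V
    red₂ r₁₁ surj₂ r₁₁_β
  have hs₀₂ := surjective_of_compat (W := (T.Pβ.V' : ValuationSubring F₂)) T.Pβ.S'.comap_V
    red₂ r₀₂ surj₂ r₀₂_β
  rw [← T.isUnif_W₁₁'.val_eq T.isUnif_W₁₁, ← T.W₁₁_eq] at hb
  rw [← T.W₀₂_eq] at hc
  exact val_norm₂_deg_one (F := F₁) (F' := S35.NormRed.Via β) T.localRam_W₁₁_β
    T.localRam_W₀₂_β red₂ r₁₁ r₀₂ (eq_zero_iff_of_surjective _ _ surj₂)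
    (eq_zero_iff_of_surjective _ _ hs₁₁) (eq_zero_iff_of_surjective _ _ hs₀₂) r₁₁_β r₀₂_β hs₁₁ hs₀₂
    T.Pβ.arch_V T.Pβ.arch_V' T.Pβ.not_le T.Pβ.not_le' hdeg b c hb hc

/-- **value of the norm along `α`, over `V₂`** -/
theorem val_norm₁_V₂ (y : F₂) (c : ℤ)
    (hc : T.W₀₂.valuation y = T.W₀₂.valuation (β T.π₂) ^ c) :
    V₂.valuation (normAlong α y) = V₂.valuation T.π₂ ^ ((T.q : ℤ) * c) := by
  obtain ⟨W₂₀, W₁₁, W₀₂, e₂₀, e₁₁, e₀₂, red₁, red₂, r₂₀, r₁₁, r₀₂, φ, hφ, surj₁, surj₂, r₂₀_α,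
    r₂₀_β, r₁₁_α, r₁₁_β, r₀₂_α, r₀₂_β⟩ := R
  subst e₂₀ e₁₁ e₀₂
  haveI : Module.Finite F₁ (S35.NormRed.Via α) :=
    Module.finite_of_finrank_pos (by rw [N.degα]; exact N.prime.pos)
  have hs₀₂ := surjective_of_compat T.comap_β_W₀₂ red₂ r₀₂ surj₂ r₀₂_β
  rw [← T.isUnif_W₀₂.val_eq T.isUnif_W₀₂'] at hc
  have h := val_norm_inert (F := F₁) (F' := S35.NormRed.Via α) T.Iα (κ := κ)
    (κ' := S35.NormRed.Via φ) (N.degα.trans N.degIα.symm) T.Iα_ϖ_ne_zero red₂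
    (eq_zero_iff_of_surjective _ _ surj₂) surj₂ r₀₂ (eq_zero_iff_of_surjective _ _ hs₀₂) hs₀₂
    (fun c => r₀₂_α c _) c hc
  rw [T.val_Iα_ϖ, N.degIα] at h
  exact h

/-- **value of the norm along `β`, over `V₁`** -/
theorem val_norm₂_V₁ (y : F₂) (a : ℤ)
    (ha : T.W₂₀.valuation y = T.W₂₀.valuation (α T.π₁) ^ a) :
    V₁.valuation (normAlong β y) = V₁.valuation T.π₁ ^ ((T.q : ℤ) * a) := by
  obtain ⟨W₂₀, W₁₁, W₀₂, e₂₀, e₁₁, e₀₂, red₁, red₂, r₂₀, r₁₁, r₀₂, φ, hφ, surj₁, surj₂, r₂₀_α,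
    r₂₀_β, r₁₁_α, r₁₁_β, r₀₂_α, r₀₂_β⟩ := R
  have hs₂₀ : Function.Surjective r₂₀ :=
    surjective_of_compat (by rw [e₂₀]; exact T.comap_α_W₂₀) red₁ r₂₀ surj₁ r₂₀_α
  have e₂₀' : W₂₀ = (T.Iβ.V : ValuationSubring F₂) := e₂₀.trans T.W₂₀_eq.symm
  subst e₂₀'
  haveI : Module.Finite F₁ (S35.NormRed.Via β) :=
    Module.finite_of_finrank_pos (by rw [N.degβ]; exact N.prime.pos)
  rw [← T.isUnif_W₂₀'.val_eq T.isUnif_W₂₀, ← T.W₂₀_eq] at ha
  have h := val_norm_inert (F := F₁) (F' := S35.NormRed.Via β) T.Iβ (κ := κ)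
    (κ' := S35.NormRed.Via φ) (N.degβ.trans N.degIβ.symm) T.Iβ_ϖ_ne_zero red₁
    (eq_zero_iff_of_surjective _ _ surj₁) surj₁ r₂₀ (eq_zero_iff_of_surjective _ _ hs₂₀) hs₂₀
    (fun c => r₂₀_β c _) a ha
  rw [T.val_Iβ_ϖ, N.degIβ] at h
  exact h

/-! #### (A2): the orders of a function whose two norms are `n`-th powers -/

omit R in
theorem finite_α : Module.Finite F₁ (S35.NormRed.Via α) :=
  Module.finite_of_finrank_pos (by rw [N.degα]; exact N.prime.pos)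

omit R in
theorem finite_β : Module.Finite F₁ (S35.NormRed.Via β) :=
  Module.finite_of_finrank_pos (by rw [N.degβ]; exact N.prime.pos)

omit R in
theorem arch_W₂₀ : Arch T.W₂₀ := by
  haveI := T.finite_α N
  exact T.Pα.arch_V'

omit R in
theorem arch_W₁₁ : Arch T.W₁₁ := by
  haveI := T.finite_α N
  exact T.Pα.arch_V

omit R in
theorem arch_W₀₂ : Arch T.W₀₂ := by
  haveI := T.finite_α N
  exact T.Iα.arch_V

omit R in
/-- the orders at the three places exist -/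
theorem exists_ords {y : F₂} (hy : y ≠ 0) : ∃ a b c : ℤ,
    T.W₂₀.valuation y = T.W₂₀.valuation (α T.π₁) ^ a ∧
    T.W₁₁.valuation y = T.W₁₁.valuation T.ϖ₁₁ ^ b ∧
    T.W₀₂.valuation y = T.W₀₂.valuation (β T.π₂) ^ c := by
  obtain ⟨a, ha⟩ := OrthoRamVal.exists_zpow_eq (F := F₁) (F' := S35.NormRed.Via α)
    T.localRam_W₂₀_α (T.arch_W₂₀ N) hy
  obtain ⟨b, hb⟩ := OrthoRamVal.exists_zpow_eq (F := F₁) (F' := S35.NormRed.Via α)
    T.localRam_W₁₁_α (T.arch_W₁₁ N) hy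
  obtain ⟨c, hc⟩ := OrthoRamVal.exists_zpow_eq (F := F₁) (F' := S35.NormRed.Via α)
    T.localRam_W₀₂_α (T.arch_W₀₂ N) hy
  refine ⟨a, b, c, ha, hb, ?_⟩
  rw [← T.isUnif_W₀₂.val_eq T.isUnif_W₀₂']
  exact hc

end ValueFormulas


section Adjust

variable {κ : Type*} [Field κ] (R : Reds T κ) (N : Num T)

/-- the value group of `V₁` is generated by the value of `π₁` -/
theorem exists_zpow_eq_V₁ {g : F₁} (hg : g ≠ 0) :
    ∃ k : ℤ, V₁.valuation g = V₁.valuation T.π₁ ^ k := by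
  have h := T.localRam_W₂₀_α
  have hR : LocalRam (F := F₁) (F' := F₁) V₁ V₁ T.π₁ T.π₁ 1 :=
    { comap := by
        ext x
        simp [ValuationSubring.mem_comap]
      π_mem := h.π_mem
      π_ne_zero := h.π_ne_zero
      π_gen := h.π_gen
      ϖ_mem := h.π_mem
      ϖ_gen := h.π_gen
      val_π := (pow_one _).symm }
  exact OrthoRamVal.exists_zpow_eq hR (ThickThin.arch_of_pid V₁) hg

/-- the value group of `V₂` is generated by the value of `π₂` -/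
theorem exists_zpow_eq_V₂ {g : F₁} (hg : g ≠ 0) :
    ∃ k : ℤ, V₂.valuation g = V₂.valuation T.π₂ ^ k := by
  have h := T.localRam_W₀₂_β
  have hR : LocalRam (F := F₁) (F' := F₁) V₂ V₂ T.π₂ T.π₂ 1 :=
    { comap := by
        ext x
        simp [ValuationSubring.mem_comap]
      π_mem := h.π_mem
      π_ne_zero := h.π_ne_zero
      π_gen := h.π_gen
      ϖ_mem := h.π_mem
      ϖ_gen := h.π_gen
      val_π := (pow_one _).symm }
  exact OrthoRamVal.exists_zpow_eq hR (ThickThin.arch_of_pid V₂) hg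

theorem val_π₁_pos : 0 < V₁.valuation T.π₁ :=
  lt_of_le_of_ne zero_le (Ne.symm ((Valuation.ne_zero_iff _).mpr T.localRam_W₂₀_α.π_ne_zero))

theorem val_π₁_ne_one : V₁.valuation T.π₁ ≠ 1 :=
  ne_of_lt (V₁.mem_nonunits_iff.mp T.localRam_W₂₀_α.π_mem)

theorem val_π₂_pos : 0 < V₂.valuation T.π₂ :=
  lt_of_le_of_ne zero_le (Ne.symm ((Valuation.ne_zero_iff _).mpr T.localRam_W₀₂_β.π_ne_zero))

theorem val_π₂_ne_one : V₂.valuation T.π₂ ≠ 1 :=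
  ne_of_lt (V₂.mem_nonunits_iff.mp T.localRam_W₀₂_β.π_mem)

/-- if `v(N) = v(π)^e` and `N = g^n` then `n ∣ e` -/
theorem dvd_of_val_eq {V : ValuationSubring F₁} {π : F₁} (h0 : 0 < V.valuation π)
    (h1 : V.valuation π ≠ 1)
    (hgen : ∀ g : F₁, g ≠ 0 → ∃ k : ℤ, V.valuation g = V.valuation π ^ k)
    {z g : F₁} {n : ℕ} (hn : n ≠ 0) (hz : z = g ^ n) {e : ℤ}
    (he : V.valuation z = V.valuation π ^ e) : (n : ℤ) ∣ e := by
  have hg : g ≠ 0 := by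
    rintro rfl
    rw [zero_pow hn] at hz
    rw [hz, map_zero] at he
    exact (zpow_ne_zero e h0.ne') he.symm
  obtain ⟨k, hk⟩ := hgen g hg
  rw [hz, map_pow, hk, ← zpow_natCast, ← zpow_mul, zpow_right_inj₀ h0 h1] at he
  exact ⟨k, by rw [← he]; ring⟩

include R N in
/-- **(A2)**: if both norms of `f` are `n`-th powers, `n` prime to `q`, then the three orders of
`f` are divisible by `n` -/
theorem dvd_ords {n : ℕ} (hn : Nat.Coprime n T.q) {f : F₂} {g₁ g₂ : F₁}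
    (h₁ : normAlong α f = g₁ ^ n) (h₂ : normAlong β f = g₂ ^ n) {a b c : ℤ}
    (ha : T.W₂₀.valuation f = T.W₂₀.valuation (α T.π₁) ^ a)
    (hb : T.W₁₁.valuation f = T.W₁₁.valuation T.ϖ₁₁ ^ b)
    (hc : T.W₀₂.valuation f = T.W₀₂.valuation (β T.π₂) ^ c) :
    (n : ℤ) ∣ a ∧ (n : ℤ) ∣ b ∧ (n : ℤ) ∣ c := by
  have hn0 : n ≠ 0 := by
    rintro rfl
    rw [Nat.coprime_zero_left] at hn
    exact N.prime.one_lt.ne' hn
  have hcop : IsCoprime (n : ℤ) (T.q : ℤ) := Nat.isCoprime_iff_coprime.mpr hn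
  have e2 := dvd_of_val_eq T.val_π₂_pos T.val_π₂_ne_one (fun g hg => T.exists_zpow_eq_V₂ hg) hn0 h₁
    (T.val_norm₁_V₂ R N f c hc)
  have e3 := dvd_of_val_eq T.val_π₁_pos T.val_π₁_ne_one (fun g hg => T.exists_zpow_eq_V₁ hg) hn0 h₂
    (T.val_norm₂_V₁ R N f a ha)
  have e4 := dvd_of_val_eq T.val_π₂_pos T.val_π₂_ne_one (fun g hg => T.exists_zpow_eq_V₂ hg) hn0 h₂
    (T.val_norm₂_V₂ R N f b c hb hc)
  have hda : (n : ℤ) ∣ a := hcop.dvd_of_dvd_mul_left e3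
  have hdc : (n : ℤ) ∣ c := hcop.dvd_of_dvd_mul_left e2
  exact ⟨hda, (Int.dvd_add_left hdc).mp e4, hdc⟩

omit [IsPrincipalIdealRing ↥V₁] [IsPrincipalIdealRing ↥V₂] in
/-- the order computation of `exists_adjust` -/
theorem val_mul_pow_eq_one {A : ValuationSubring F₂} {ϖ f s : F₂} (hϖ : ϖ ≠ 0) {n : ℕ} {a a' : ℤ}
    (ha : A.valuation f = A.valuation ϖ ^ a) (ha' : a = (n : ℤ) * a')
    (hs : A.valuation s = A.valuation (ϖ ^ (-a'))) : A.valuation (f * s ^ n) = 1 := by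
  have h0 : A.valuation ϖ ≠ 0 := (Valuation.ne_zero_iff _).mpr hϖ
  rw [map_mul, map_pow, hs, map_zpow₀, ha, ← zpow_natCast, ← zpow_mul, ← zpow_add₀ h0, ha']
  have : (n : ℤ) * a' + -a' * (n : ℤ) = 0 := by ring
  rw [this, zpow_zero]

theorem W₂₀_ne_top : T.W₂₀ ≠ ⊤ := T.Pα.S'.V_ne_top T.Pα.O_ne_top

theorem W₁₁_ne_top : T.W₁₁ ≠ ⊤ := T.Pα.S.V_ne_top T.Pα.O_ne_top

theorem W₀₂_ne_top : T.W₀₂ ≠ ⊤ := T.Iα.V_ne_top T.Pβ.O_ne_top

omit [IsPrincipalIdealRing ↥V₁] [IsPrincipalIdealRing ↥V₂] in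
theorem not_le_of_arch {A B : ValuationSubring F₂} (hA : Arch A) (hB : B ≠ ⊤) (hne : A ≠ B) :
    ¬ A ≤ B := fun h => hne (le_antisymm h (hA.le_of_le h hB))

include R N in
/-- **(A2), weak approximation form**: if both norms of `f ≠ 0` are `n`-th powers, `n` prime to `q`,
then `f * s ^ n` is a unit at the three places for a suitable `s ≠ 0` -/
theorem exists_adjust {n : ℕ} (hn : Nat.Coprime n T.q) {f : F₂} (hf : f ≠ 0) {g₁ g₂ : F₁}
    (h₁ : normAlong α f = g₁ ^ n) (h₂ : normAlong β f = g₂ ^ n) :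
    ∃ s : F₂, s ≠ 0 ∧ T.W₂₀.valuation (f * s ^ n) = 1 ∧ T.W₁₁.valuation (f * s ^ n) = 1 ∧
      T.W₀₂.valuation (f * s ^ n) = 1 := by
  obtain ⟨a, b, c, ha, hb, hc⟩ := T.exists_ords N hf
  obtain ⟨⟨a', ha'⟩, ⟨b', hb'⟩, ⟨c', hc'⟩⟩ := T.dvd_ords R N hn h₁ h₂ ha hb hc
  have hu₂₀ : α T.π₁ ≠ 0 := (map_ne_zero_iff α α.injective).mpr T.localRam_W₂₀_α.π_ne_zero
  have hu₁₁ : T.ϖ₁₁ ≠ 0 := T.localRam_W₁₁_α.ϖ_ne_zero
  have hu₀₂ : β T.π₂ ≠ 0 := (map_ne_zero_iff β β.injective).mpr T.localRam_W₀₂_β.π_ne_zero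
  let O : Fin 3 → ValuationSubring F₂ := ![T.W₂₀, T.W₁₁, T.W₀₂]
  let u : Fin 3 → F₂ := ![(α T.π₁) ^ (-a'), T.ϖ₁₁ ^ (-b'), (β T.π₂) ^ (-c')]
  have hA : ∀ i, Arch (O i) := by
    intro i
    fin_cases i
    exacts [T.arch_W₂₀ N, T.arch_W₁₁ N, T.arch_W₀₂ N]
  have hinc : ∀ i j, i ≠ j → ¬ O i ≤ O j := by
    intro i j hij
    fin_cases i <;> fin_cases j
    · exact absurd rfl hij
    · exact not_le_of_arch (T.arch_W₂₀ N) T.W₁₁_ne_top T.W₂₀_ne_W₁₁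
    · exact not_le_of_arch (T.arch_W₂₀ N) T.W₀₂_ne_top T.W₂₀_ne_W₀₂
    · exact not_le_of_arch (T.arch_W₁₁ N) T.W₂₀_ne_top T.W₂₀_ne_W₁₁.symm
    · exact absurd rfl hij
    · exact not_le_of_arch (T.arch_W₁₁ N) T.W₀₂_ne_top T.W₁₁_ne_W₀₂
    · exact not_le_of_arch (T.arch_W₀₂ N) T.W₂₀_ne_top T.W₂₀_ne_W₀₂.symm
    · exact not_le_of_arch (T.arch_W₀₂ N) T.W₁₁_ne_top T.W₁₁_ne_W₀₂.symm
    · exact absurd rfl hij
  have hu : ∀ i, u i ≠ 0 := by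
    intro i
    fin_cases i
    exacts [zpow_ne_zero _ hu₂₀, zpow_ne_zero _ hu₁₁, zpow_ne_zero _ hu₀₂]
  obtain ⟨s, hs0, hs⟩ := S34.WeakApproxMul.exists_approx_mul' O hA hinc u hu
  exact ⟨s, hs0, val_mul_pow_eq_one hu₂₀ ha ha' (hs 0).2, val_mul_pow_eq_one hu₁₁ hb hb' (hs 1).2,
    val_mul_pow_eq_one hu₀₂ hc hc' (hs 2).2⟩

end Adjust

end Setup

end Main

end Fermat.Agent.S36.ThreeVal
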