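/-
S36 (project V), slice V-GlueThreeVal (helper8), chain (V6), abstract wiring:
`GlueLevelQ.LevelQ` (level `q M''`, over `E₁ = ℚ̄(X₀(q M''))`) + `ThreeVal.Setup / Reds / Num` (the
three valuation rings of `F₂ = K₀(X₀(q² M''))` over the two Gauss rings of `F₁ = K₀(X₀(q M''))`)
`⟹ GlueNorm.Datum k κ E₁ F₂ Pt`.

The link between the two halves is a field homomorphism `ι : F₁ →+* E₁` (the coefficientwise
embedding `toE`): the Gauss rings of `F₁` are `L.V_i.comap ι`, their reductions are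
`L.red_i ∘ comapHom`, and the norms of the datum are `N_i = ι ∘ normAlong` (so that the constants
`c_i` of `N_i f = c_i g_i ^ n` can be absorbed in `E₁`, where they are `n`-th powers).

* `datum L ι T R N h₁ h₂ hφ : GlueNorm.Datum k κ E₁ F₂ Pt`;
* `r₂₀_eq_zero_iff`, `r₁₁_eq_zero_iff`, `r₀₂_eq_zero_iff`, `r₂₀_surjective`, … : the kernels of the
  three reductions are the maximal ideals, and they are onto (fields `hr`, `hrsurj` of
  `NewInertiaDatum.Input`);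
* `r₂₀_alpha`, `r₁₁_alpha`, `r₁₁_beta`, `r₀₂_beta`, `r₂₀_beta`, `r₀₂_alpha` : the three reductions on
  the image of level `q`, in terms of `L.red₁ L.red₂ L.φ` (for the field `hπ` of the assembly);
* `kummer` : the Kummer datum from a function `f` which is a unit at the three `W`, with
  `normAlong α f = c₁ * g₁ ^ n`, `normAlong β f = c₂ * g₂ ^ n` in `F₁` and `n`-th roots `d_i` of
  `ι c_i` in `E₁`;
* `valSystemPlace_val_sub`, `valSystemPlace_val_div`, `valSystemPlace_val_root` : the three fields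
  of `TripleValues.ValGood (valSystemPlace k κ) n` (places of degree one, `n ≠ 0`).
-/
import Fermat.Agent.S36.GlueLevelQ
import Fermat.Agent.S36.ThreeVal

set_option autoImplicit false
set_option linter.unusedSectionVars false
set_option linter.style.haveILetI false
set_option linter.unusedVariables false

noncomputable section

namespace Fermat.Agent.S36.GlueThreeVal

open Fermat.Agent.S36.GlueNorm Fermat.Agent.S36.GlueLevelQ Fermat.Agent.S36.ThreeVal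

variable {k κ E₁ F₁ F₂ Pt : Type*} [Field k] [Field κ] [Algebra k κ] [Field E₁] [Field F₁]
  [Field F₂]

section Datum

variable (L : LevelQ k κ E₁ Pt) (ι : F₁ →+* E₁) {α β : F₁ →+* F₂}
  [IsPrincipalIdealRing ↥(L.V₁.comap ι)] [IsPrincipalIdealRing ↥(L.V₂.comap ι)]
  (T : Setup α β (L.V₁.comap ι) (L.V₂.comap ι)) (R : T.Reds κ) (N : T.Num) [CharP κ T.q]
  (h₁ : R.red₁ = L.red₁.comp (LevelQ.comapHom L.V₁ ι))
  (h₂ : R.red₂ = L.red₂.comp (LevelQ.comapHom L.V₂ ι)) (hφ : R.φ = L.φ)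

/-- **`GlueNorm.Datum` from the level-`q` half over `E₁` and the three valuation rings over the
`K₀`-forms.** -/
def datum : Datum k κ E₁ F₂ Pt :=
  L.toDatum R.W₂₀ R.W₁₁ R.W₀₂ R.r₂₀ R.r₁₁ R.r₀₂
    ((ι : F₁ →* E₁).comp (normAlong α)) ((ι : F₁ →* E₁).comp (normAlong β)) T.q
    (fun y h₂₀ h₁₁ h₀₂ => by
      obtain ⟨m, hm⟩ := R.norm₁_V₁ N y h₂₀ h₁₁ h₀₂
      refine ⟨ValuationSubring.mem_comap.mp m, ?_⟩
      rw [← hm, h₁]
      rfl)
    (fun y h₂₀ h₁₁ h₀₂ => by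
      obtain ⟨m, hm⟩ := R.norm₁_V₂ N y h₂₀ h₁₁ h₀₂
      refine ⟨ValuationSubring.mem_comap.mp m, ?_⟩
      rw [← hm, h₂, hφ]
      rfl)
    (fun y h₂₀ h₁₁ h₀₂ => by
      obtain ⟨m, hm⟩ := R.norm₂_V₁ N y h₂₀ h₁₁ h₀₂
      refine ⟨ValuationSubring.mem_comap.mp m, ?_⟩
      rw [← hm, h₁, hφ]
      rfl)
    (fun y h₂₀ h₁₁ h₀₂ => by
      obtain ⟨m, hm⟩ := R.norm₂_V₂ N y h₂₀ h₁₁ h₀₂
      refine ⟨ValuationSubring.mem_comap.mp m, ?_⟩
      rw [← hm, h₂]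
      rfl)

/-! #### projections -/

@[simp] theorem datum_E : (datum L ι T R N h₁ h₂ hφ).E = L.E := rfl
@[simp] theorem datum_V₁ : (datum L ι T R N h₁ h₂ hφ).V₁ = L.V₁ := rfl
@[simp] theorem datum_V₂ : (datum L ι T R N h₁ h₂ hφ).V₂ = L.V₂ := rfl
@[simp] theorem datum_W₂₀ : (datum L ι T R N h₁ h₂ hφ).W₂₀ = R.W₂₀ := rfl
@[simp] theorem datum_W₁₁ : (datum L ι T R N h₁ h₂ hφ).W₁₁ = R.W₁₁ := rfl
@[simp] theorem datum_W₀₂ : (datum L ι T R N h₁ h₂ hφ).W₀₂ = R.W₀₂ := rfl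
@[simp] theorem datum_red₁ : (datum L ι T R N h₁ h₂ hφ).red₁ = L.red₁ := rfl
@[simp] theorem datum_red₂ : (datum L ι T R N h₁ h₂ hφ).red₂ = L.red₂ := rfl
@[simp] theorem datum_r₂₀ : (datum L ι T R N h₁ h₂ hφ).r₂₀ = R.r₂₀ := rfl
@[simp] theorem datum_r₁₁ : (datum L ι T R N h₁ h₂ hφ).r₁₁ = R.r₁₁ := rfl
@[simp] theorem datum_r₀₂ : (datum L ι T R N h₁ h₂ hφ).r₀₂ = R.r₀₂ := rfl
@[simp] theorem datum_φ : (datum L ι T R N h₁ h₂ hφ).φ = L.φ := rfl
@[simp] theorem datum_q : (datum L ι T R N h₁ h₂ hφ).q = T.q := rfl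
@[simp] theorem datum_fr : (datum L ι T R N h₁ h₂ hφ).fr = L.fr := rfl
@[simp] theorem datum_S : (datum L ι T R N h₁ h₂ hφ).S = L.S := rfl
@[simp] theorem datum_Reg : (datum L ι T R N h₁ h₂ hφ).Reg = L.Reg := rfl

@[simp] theorem datum_N₁ (y : F₂) :
    (datum L ι T R N h₁ h₂ hφ).N₁ y = ι (normAlong α y) := rfl

@[simp] theorem datum_N₂ (y : F₂) :
    (datum L ι T R N h₁ h₂ hφ).N₂ y = ι (normAlong β y) := rfl

/-! #### the three reductions: kernels and surjectivity (`hr`, `hrsurj` of the assembly) -/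

omit [CharP κ T.q] in
theorem r₂₀_eq_zero_iff (x : ↥R.W₂₀) : R.r₂₀ x = 0 ↔ R.W₂₀.valuation (x : F₂) < 1 := by
  rw [eq_zero_iff_of_surjective R.W₂₀ R.r₂₀ R.surj₂₀, ValuationSubring.mem_nonunits_iff]

omit [CharP κ T.q] in
theorem r₁₁_eq_zero_iff (x : ↥R.W₁₁) : R.r₁₁ x = 0 ↔ R.W₁₁.valuation (x : F₂) < 1 := by
  rw [eq_zero_iff_of_surjective R.W₁₁ R.r₁₁ R.surj₁₁, ValuationSubring.mem_nonunits_iff]

omit [CharP κ T.q] in
theorem r₀₂_eq_zero_iff (x : ↥R.W₀₂) : R.r₀₂ x = 0 ↔ R.W₀₂.valuation (x : F₂) < 1 := by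
  rw [eq_zero_iff_of_surjective R.W₀₂ R.r₀₂ R.surj₀₂, ValuationSubring.mem_nonunits_iff]

theorem datum_r₂₀_eq_zero_iff (x : ↥(datum L ι T R N h₁ h₂ hφ).W₂₀) :
    (datum L ι T R N h₁ h₂ hφ).r₂₀ x = 0 ↔
      (datum L ι T R N h₁ h₂ hφ).W₂₀.valuation (x : F₂) < 1 :=
  r₂₀_eq_zero_iff L ι T R x

theorem datum_r₁₁_eq_zero_iff (x : ↥(datum L ι T R N h₁ h₂ hφ).W₁₁) :
    (datum L ι T R N h₁ h₂ hφ).r₁₁ x = 0 ↔
      (datum L ι T R N h₁ h₂ hφ).W₁₁.valuation (x : F₂) < 1 :=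
  r₁₁_eq_zero_iff L ι T R x

theorem datum_r₀₂_eq_zero_iff (x : ↥(datum L ι T R N h₁ h₂ hφ).W₀₂) :
    (datum L ι T R N h₁ h₂ hφ).r₀₂ x = 0 ↔
      (datum L ι T R N h₁ h₂ hφ).W₀₂.valuation (x : F₂) < 1 :=
  r₀₂_eq_zero_iff L ι T R x

theorem datum_r₂₀_surjective : Function.Surjective (datum L ι T R N h₁ h₂ hφ).r₂₀ := R.surj₂₀

theorem datum_r₁₁_surjective : Function.Surjective (datum L ι T R N h₁ h₂ hφ).r₁₁ := R.surj₁₁

theorem datum_r₀₂_surjective : Function.Surjective (datum L ι T R N h₁ h₂ hφ).r₀₂ := R.surj₀₂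

/-! #### the three reductions on the image of level `q` -/

omit [CharP κ T.q] in
include h₁ in
theorem r₂₀_alpha (c : F₁) (hc : c ∈ L.V₁.comap ι) (h : α c ∈ R.W₂₀) :
    R.r₂₀ ⟨α c, h⟩ = L.red₁ ⟨ι c, ValuationSubring.mem_comap.mp hc⟩ := by
  rw [R.r₂₀_α ⟨c, hc⟩ h, h₁]
  rfl

omit [CharP κ T.q] in
include h₁ in
theorem r₁₁_alpha (c : F₁) (hc : c ∈ L.V₁.comap ι) (h : α c ∈ R.W₁₁) :
    R.r₁₁ ⟨α c, h⟩ = L.red₁ ⟨ι c, ValuationSubring.mem_comap.mp hc⟩ := by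
  rw [R.r₁₁_α ⟨c, hc⟩ h, h₁]
  rfl

omit [CharP κ T.q] in
include h₂ in
theorem r₁₁_beta (c : F₁) (hc : c ∈ L.V₂.comap ι) (h : β c ∈ R.W₁₁) :
    R.r₁₁ ⟨β c, h⟩ = L.red₂ ⟨ι c, ValuationSubring.mem_comap.mp hc⟩ := by
  rw [R.r₁₁_β ⟨c, hc⟩ h, h₂]
  rfl

omit [CharP κ T.q] in
include h₂ in
theorem r₀₂_beta (c : F₁) (hc : c ∈ L.V₂.comap ι) (h : β c ∈ R.W₀₂) :
    R.r₀₂ ⟨β c, h⟩ = L.red₂ ⟨ι c, ValuationSubring.mem_comap.mp hc⟩ := by
  rw [R.r₀₂_β ⟨c, hc⟩ h, h₂]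
  rfl

omit [CharP κ T.q] in
include h₁ hφ in
theorem r₂₀_beta (c : F₁) (hc : c ∈ L.V₁.comap ι) (h : β c ∈ R.W₂₀) :
    R.r₂₀ ⟨β c, h⟩ = L.φ (L.red₁ ⟨ι c, ValuationSubring.mem_comap.mp hc⟩) := by
  rw [R.r₂₀_β ⟨c, hc⟩ h, h₁, hφ]
  rfl

omit [CharP κ T.q] in
include h₂ hφ in
theorem r₀₂_alpha (c : F₁) (hc : c ∈ L.V₂.comap ι) (h : α c ∈ R.W₀₂) :
    R.r₀₂ ⟨α c, h⟩ = L.φ (L.red₂ ⟨ι c, ValuationSubring.mem_comap.mp hc⟩) := by
  rw [R.r₀₂_α ⟨c, hc⟩ h, h₂, hφ]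
  rfl

/-! #### the Kummer datum -/

/-- **The Kummer datum**: `f` a unit at the three `W`, with `normAlong α f = c₁ * g₁ ^ n` and
`normAlong β f = c₂ * g₂ ^ n` in `F₁`, and `n`-th roots `d₁ d₂` of `ι c₁`, `ι c₂` in `E₁`
(constants of an algebraically closed field). -/
def kummer {n : ℕ} (f : F₂) (u₂₀ : R.W₂₀.valuation f = 1) (u₁₁ : R.W₁₁.valuation f = 1)
    (u₀₂ : R.W₀₂.valuation f = 1) (c₁ c₂ g₁ g₂ : F₁) (hN₁ : normAlong α f = c₁ * g₁ ^ n)
    (hN₂ : normAlong β f = c₂ * g₂ ^ n) (d₁ d₂ : E₁) (hd₁ : d₁ ^ n = ι c₁) (hd₂ : d₂ ^ n = ι c₂) :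
    (datum L ι T R N h₁ h₂ hφ).Kummer n where
  f := f
  g₁ := d₁ * ι g₁
  g₂ := d₂ * ι g₂
  f₂₀ := (R.W₂₀.valuation_le_one_iff f).mp u₂₀.le
  f₁₁ := (R.W₁₁.valuation_le_one_iff f).mp u₁₁.le
  f₀₂ := (R.W₀₂.valuation_le_one_iff f).mp u₀₂.le
  r₂₀_ne := fun h => by
    have := (r₂₀_eq_zero_iff L ι T R _).mp h
    rw [u₂₀] at this
    exact lt_irrefl _ this
  r₁₁_ne := fun h => by
    have := (r₁₁_eq_zero_iff L ι T R _).mp h
    rw [u₁₁] at this
    exact lt_irrefl _ this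
  r₀₂_ne := fun h => by
    have := (r₀₂_eq_zero_iff L ι T R _).mp h
    rw [u₀₂] at this
    exact lt_irrefl _ this
  norm₁ := by
    rw [datum_N₁, hN₁, map_mul, map_pow, mul_pow, hd₁]
  norm₂ := by
    rw [datum_N₂, hN₂, map_mul, map_pow, mul_pow, hd₂]

end Datum

/-! ### closure properties of `valSystemPlace` (the three fields of `TripleValues.ValGood`) -/

section ValPlace

open AlgebraicCurve Fermat.Agent.S34.NodalDefs

variable (k κ)
variable (hdeg : ∀ v : Place k κ, v.deg = 1)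

/-- differences -/
theorem valSystemPlace_val_sub (b : Place k κ) (z z' : κ) (c c' : k)
    (h : (valSystemPlace k κ).val b z c) (h' : (valSystemPlace k κ).val b z' c') :
    (valSystemPlace k κ).val b (z - z') (c - c') :=
  (Fermat.Agent.S34.PcgOfChart.hasValue_iff_euler b _ _).mpr
    (((Fermat.Agent.S34.PcgOfChart.hasValue_iff_euler b _ _).mp h).sub
      ((Fermat.Agent.S34.PcgOfChart.hasValue_iff_euler b _ _).mp h'))

include hdeg in
/-- division by a function with a nonzero value -/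
theorem valSystemPlace_val_div (b : Place k κ) (z z' : κ) (d c' : k)
    (h : (valSystemPlace k κ).val b (z * z') d) (h' : (valSystemPlace k κ).val b z' c')
    (hc' : c' ≠ 0) : (valSystemPlace k κ).val b z (d / c') := by
  have e := (Fermat.Agent.S34.PcgOfChart.hasValue_iff_euler b (z * z') d).mp h
  have e' := (Fermat.Agent.S34.PcgOfChart.hasValue_iff_euler b z' c').mp h'
  -- `z'` is a unit at `b`
  have hu : b.adicValuation z' = 1 := by
    have hcv : b.adicValuation (algebraMap k κ c') = 1 := by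
      refine le_antisymm ((Fermat.Agent.S24.Ord.mem_iff b _).mp (b.algebraMap_mem' c')) ?_
      by_contra hlt
      rw [not_le] at hlt
      exact hc' (Fermat.Agent.S34.NodalGeneric.eq_zero_of_adicValuation_algebraMap_lt_one b hlt)
    have h1 : b.adicValuation ((z' - algebraMap k κ c') + algebraMap k κ c') =
        b.adicValuation (algebraMap k κ c') :=
      Valuation.map_add_eq_of_lt_right _ (by rw [hcv]; exact e')
    rw [sub_add_cancel, hcv] at h1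
    exact h1
  -- hence `z` is regular at `b`
  have hz : b.adicValuation z ≤ 1 := by
    have := e.le_one
    rwa [map_mul, hu, mul_one] at this
  obtain ⟨a, ha⟩ := Fermat.Agent.S34.Euler.Value.exists_hasValue b (hdeg b) hz
  have hd : a * c' = d := (ha.mul e').unique e
  have : d / c' = a := by rw [← hd, mul_div_cancel_right₀ _ hc']
  rw [this]
  exact (Fermat.Agent.S34.PcgOfChart.hasValue_iff_euler b z a).mpr ha

include hdeg in
/-- `n`-th roots -/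
theorem valSystemPlace_val_root {n : ℕ} (hn : n ≠ 0) (b : Place k κ) (z : κ) (c : k)
    (h : (valSystemPlace k κ).val b (z ^ n) c) : ∃ d : k, (valSystemPlace k κ).val b z d := by
  have e := (Fermat.Agent.S34.PcgOfChart.hasValue_iff_euler b (z ^ n) c).mp h
  have hz : b.adicValuation z ≤ 1 := by
    have := e.le_one
    rw [map_pow] at this
    exact (pow_le_one_iff_of_nonneg zero_le hn).mp this
  obtain ⟨a, ha⟩ := Fermat.Agent.S34.Euler.Value.exists_hasValue b (hdeg b) hz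
  exact ⟨a, (Fermat.Agent.S34.PcgOfChart.hasValue_iff_euler b z a).mpr ha⟩

end ValPlace

end Fermat.Agent.S36.GlueThreeVal
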