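/-
S36 (project V), slice V-GlueNormX0 (helper8), chain (V6), abstract wiring, second form:
`GlueThreeVal.datum` with PROPOSITIONAL links between the two halves.

`GlueThreeVal.datum L ι T R N h₁ h₂ hφ` needs `T : Setup α β (L.V₁.comap ι) (L.V₂.comap ι)`, i.e. the
two Gauss rings of `F₁` must be the comaps DEFINITIONALLY.  The `X₀`-instantiation of the three
valuation rings (`ThreeValX0.Hyp`) carries its own `V₁ V₂ red₁ red₂ φ` as structure fields, so here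
the link is stated by equations:

* `hV₁ : V₁ = L.V₁.comap ι`, `hV₂ : V₂ = L.V₂.comap ι`;
* `h₁ : R.red₁ ⟨x, _⟩ = L.red₁ ⟨ι x, _⟩`, `h₂ : R.red₂ ⟨x, _⟩ = L.red₂ ⟨ι x, _⟩` (elementwise);
* `hφ : R.φ = L.φ`.

`datumEq L ι T R N hV₁ hV₂ h₁ h₂ hφ : GlueNorm.Datum k κ E₁ F₂ Pt`, with the three valuation rings
and reductions LITERALLY those of `R`, norms `N_i = ι ∘ normAlong`, and the same exports as
`GlueThreeVal` (kernels, surjectivity, the six formulas on the image of level `q`, the Kummer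
datum).
-/
import Fermat.Agent.S36.GlueThreeVal

set_option autoImplicit false
set_option linter.unusedSectionVars false
set_option linter.style.haveILetI false
set_option linter.unusedVariables false

noncomputable section

namespace Fermat.Agent.S36.GlueThreeValEq

open Fermat.Agent.S36.GlueNorm Fermat.Agent.S36.GlueLevelQ Fermat.Agent.S36.ThreeVal

variable {k κ E₁ F₁ F₂ Pt : Type*} [Field k] [Field κ] [Algebra k κ] [Field E₁] [Field F₁]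
  [Field F₂]

variable (L : LevelQ k κ E₁ Pt) (ι : F₁ →+* E₁) {α β : F₁ →+* F₂}
  {V₁ V₂ : ValuationSubring F₁} [IsPrincipalIdealRing ↥V₁] [IsPrincipalIdealRing ↥V₂]
  (T : Setup α β V₁ V₂) (R : T.Reds κ) (N : T.Num) [CharP κ T.q]
  (hV₁ : V₁ = L.V₁.comap ι) (hV₂ : V₂ = L.V₂.comap ι)
  (h₁ : ∀ (x : F₁) (h : x ∈ V₁) (h' : ι x ∈ L.V₁), R.red₁ ⟨x, h⟩ = L.red₁ ⟨ι x, h'⟩)
  (h₂ : ∀ (x : F₁) (h : x ∈ V₂) (h' : ι x ∈ L.V₂), R.red₂ ⟨x, h⟩ = L.red₂ ⟨ι x, h'⟩)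
  (hφ : R.φ = L.φ)

omit [IsPrincipalIdealRing ↥V₁] [IsPrincipalIdealRing ↥V₂] in
include hV₁ in
theorem mem_V₁ {x : F₁} (h : x ∈ V₁) : ι x ∈ L.V₁ := by
  rw [hV₁] at h
  exact ValuationSubring.mem_comap.mp h

omit [IsPrincipalIdealRing ↥V₁] [IsPrincipalIdealRing ↥V₂] in
include hV₂ in
theorem mem_V₂ {x : F₁} (h : x ∈ V₂) : ι x ∈ L.V₂ := by
  rw [hV₂] at h
  exact ValuationSubring.mem_comap.mp h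

/-- **`GlueNorm.Datum` from the level-`q` half over `E₁` and the three valuation rings over the
`K₀`-forms**, the two halves being linked by equations. -/
def datumEq : Datum k κ E₁ F₂ Pt :=
  L.toDatum R.W₂₀ R.W₁₁ R.W₀₂ R.r₂₀ R.r₁₁ R.r₀₂
    ((ι : F₁ →* E₁).comp (normAlong α)) ((ι : F₁ →* E₁).comp (normAlong β)) T.q
    (fun y h₂₀ h₁₁ h₀₂ => by
      obtain ⟨m, hm⟩ := R.norm₁_V₁ N y h₂₀ h₁₁ h₀₂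
      refine ⟨mem_V₁ L ι hV₁ m, ?_⟩
      rw [← hm]
      exact (h₁ _ m _).symm)
    (fun y h₂₀ h₁₁ h₀₂ => by
      obtain ⟨m, hm⟩ := R.norm₁_V₂ N y h₂₀ h₁₁ h₀₂
      refine ⟨mem_V₂ L ι hV₂ m, ?_⟩
      rw [← hm, hφ]
      exact congrArg L.φ (h₂ _ m _).symm)
    (fun y h₂₀ h₁₁ h₀₂ => by
      obtain ⟨m, hm⟩ := R.norm₂_V₁ N y h₂₀ h₁₁ h₀₂
      refine ⟨mem_V₁ L ι hV₁ m, ?_⟩
      rw [← hm, hφ]
      exact congrArg L.φ (h₁ _ m _).symm)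
    (fun y h₂₀ h₁₁ h₀₂ => by
      obtain ⟨m, hm⟩ := R.norm₂_V₂ N y h₂₀ h₁₁ h₀₂
      refine ⟨mem_V₂ L ι hV₂ m, ?_⟩
      rw [← hm]
      exact (h₂ _ m _).symm)

/-! #### projections -/

@[simp] theorem datumEq_E : (datumEq L ι T R N hV₁ hV₂ h₁ h₂ hφ).E = L.E := rfl
@[simp] theorem datumEq_V₁ : (datumEq L ι T R N hV₁ hV₂ h₁ h₂ hφ).V₁ = L.V₁ := rfl
@[simp] theorem datumEq_V₂ : (datumEq L ι T R N hV₁ hV₂ h₁ h₂ hφ).V₂ = L.V₂ := rfl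
@[simp] theorem datumEq_W₂₀ : (datumEq L ι T R N hV₁ hV₂ h₁ h₂ hφ).W₂₀ = R.W₂₀ := rfl
@[simp] theorem datumEq_W₁₁ : (datumEq L ι T R N hV₁ hV₂ h₁ h₂ hφ).W₁₁ = R.W₁₁ := rfl
@[simp] theorem datumEq_W₀₂ : (datumEq L ι T R N hV₁ hV₂ h₁ h₂ hφ).W₀₂ = R.W₀₂ := rfl
@[simp] theorem datumEq_red₁ : (datumEq L ι T R N hV₁ hV₂ h₁ h₂ hφ).red₁ = L.red₁ := rfl
@[simp] theorem datumEq_red₂ : (datumEq L ι T R N hV₁ hV₂ h₁ h₂ hφ).red₂ = L.red₂ := rfl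
@[simp] theorem datumEq_r₂₀ : (datumEq L ι T R N hV₁ hV₂ h₁ h₂ hφ).r₂₀ = R.r₂₀ := rfl
@[simp] theorem datumEq_r₁₁ : (datumEq L ι T R N hV₁ hV₂ h₁ h₂ hφ).r₁₁ = R.r₁₁ := rfl
@[simp] theorem datumEq_r₀₂ : (datumEq L ι T R N hV₁ hV₂ h₁ h₂ hφ).r₀₂ = R.r₀₂ := rfl
@[simp] theorem datumEq_φ : (datumEq L ι T R N hV₁ hV₂ h₁ h₂ hφ).φ = L.φ := rfl
@[simp] theorem datumEq_q : (datumEq L ι T R N hV₁ hV₂ h₁ h₂ hφ).q = T.q := rfl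
@[simp] theorem datumEq_fr : (datumEq L ι T R N hV₁ hV₂ h₁ h₂ hφ).fr = L.fr := rfl
@[simp] theorem datumEq_S : (datumEq L ι T R N hV₁ hV₂ h₁ h₂ hφ).S = L.S := rfl
@[simp] theorem datumEq_Reg : (datumEq L ι T R N hV₁ hV₂ h₁ h₂ hφ).Reg = L.Reg := rfl

@[simp] theorem datumEq_N₁ (y : F₂) :
    (datumEq L ι T R N hV₁ hV₂ h₁ h₂ hφ).N₁ y = ι (normAlong α y) := rfl

@[simp] theorem datumEq_N₂ (y : F₂) :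
    (datumEq L ι T R N hV₁ hV₂ h₁ h₂ hφ).N₂ y = ι (normAlong β y) := rfl

/-! #### the three reductions: kernels and surjectivity -/

omit [CharP κ T.q] in
theorem r₂₀_eq_zero_iff (x : ↥R.W₂₀) : R.r₂₀ x = 0 ↔ R.W₂₀.valuation (x : F₂) < 1 := by
  rw [eq_zero_iff_of_surjective R.W₂₀ R.r₂₀ R.surj₂₀, ValuationSubring.mem_nonunits_iff]

omit [CharP κ T.q] in
theorem r₁₁_eq_zero_iff (x : ↥R.W₁₁) : R.r₁₁ x = 0 ↔ R.W₁₁.valuation (x : F₂) < 1 := by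
  rw [eq_zero_iff_of_surjective R.W₁₁ R.r₁₁ R.surj₁₁, ValuationSubring.mem_nonunits_iff]

omit [CharP κ T.q] in
theorem r₀₂_eq_zero_iff (x : ↥R.W₀₂) : R.r₀₂ x = 0 ↔ R.W₀₂.valuation (x : F₂) < 1 := by
  rw [eq_zero_iff_of_surjective R.W₀₂ R.r₀₂ R.surj₀₂, ValuationSubring.mem_nonunits_iff]

theorem datumEq_r₂₀_eq_zero_iff (x : ↥(datumEq L ι T R N hV₁ hV₂ h₁ h₂ hφ).W₂₀) :
    (datumEq L ι T R N hV₁ hV₂ h₁ h₂ hφ).r₂₀ x = 0 ↔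
      (datumEq L ι T R N hV₁ hV₂ h₁ h₂ hφ).W₂₀.valuation (x : F₂) < 1 :=
  r₂₀_eq_zero_iff T R x

theorem datumEq_r₁₁_eq_zero_iff (x : ↥(datumEq L ι T R N hV₁ hV₂ h₁ h₂ hφ).W₁₁) :
    (datumEq L ι T R N hV₁ hV₂ h₁ h₂ hφ).r₁₁ x = 0 ↔
      (datumEq L ι T R N hV₁ hV₂ h₁ h₂ hφ).W₁₁.valuation (x : F₂) < 1 :=
  r₁₁_eq_zero_iff T R x

theorem datumEq_r₀₂_eq_zero_iff (x : ↥(datumEq L ι T R N hV₁ hV₂ h₁ h₂ hφ).W₀₂) :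
    (datumEq L ι T R N hV₁ hV₂ h₁ h₂ hφ).r₀₂ x = 0 ↔
      (datumEq L ι T R N hV₁ hV₂ h₁ h₂ hφ).W₀₂.valuation (x : F₂) < 1 :=
  r₀₂_eq_zero_iff T R x

theorem datumEq_r₂₀_surjective :
    Function.Surjective (datumEq L ι T R N hV₁ hV₂ h₁ h₂ hφ).r₂₀ := R.surj₂₀

theorem datumEq_r₁₁_surjective :
    Function.Surjective (datumEq L ι T R N hV₁ hV₂ h₁ h₂ hφ).r₁₁ := R.surj₁₁

theorem datumEq_r₀₂_surjective :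
    Function.Surjective (datumEq L ι T R N hV₁ hV₂ h₁ h₂ hφ).r₀₂ := R.surj₀₂

/-! #### the three reductions on the image of level `q` -/

omit [CharP κ T.q] in
include hV₁ h₁ in
theorem r₂₀_alpha (c : F₁) (hc : c ∈ V₁) (h : α c ∈ R.W₂₀) :
    R.r₂₀ ⟨α c, h⟩ = L.red₁ ⟨ι c, mem_V₁ L ι hV₁ hc⟩ := by
  rw [R.r₂₀_α ⟨c, hc⟩ h]
  exact h₁ c hc _

omit [CharP κ T.q] in
include hV₁ h₁ in
theorem r₁₁_alpha (c : F₁) (hc : c ∈ V₁) (h : α c ∈ R.W₁₁) :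
    R.r₁₁ ⟨α c, h⟩ = L.red₁ ⟨ι c, mem_V₁ L ι hV₁ hc⟩ := by
  rw [R.r₁₁_α ⟨c, hc⟩ h]
  exact h₁ c hc _

omit [CharP κ T.q] in
include hV₂ h₂ in
theorem r₁₁_beta (c : F₁) (hc : c ∈ V₂) (h : β c ∈ R.W₁₁) :
    R.r₁₁ ⟨β c, h⟩ = L.red₂ ⟨ι c, mem_V₂ L ι hV₂ hc⟩ := by
  rw [R.r₁₁_β ⟨c, hc⟩ h]
  exact h₂ c hc _

omit [CharP κ T.q] in
include hV₂ h₂ in
theorem r₀₂_beta (c : F₁) (hc : c ∈ V₂) (h : β c ∈ R.W₀₂) :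
    R.r₀₂ ⟨β c, h⟩ = L.red₂ ⟨ι c, mem_V₂ L ι hV₂ hc⟩ := by
  rw [R.r₀₂_β ⟨c, hc⟩ h]
  exact h₂ c hc _

omit [CharP κ T.q] in
include hV₁ h₁ hφ in
theorem r₂₀_beta (c : F₁) (hc : c ∈ V₁) (h : β c ∈ R.W₂₀) :
    R.r₂₀ ⟨β c, h⟩ = L.φ (L.red₁ ⟨ι c, mem_V₁ L ι hV₁ hc⟩) := by
  rw [R.r₂₀_β ⟨c, hc⟩ h, hφ]
  exact congrArg L.φ (h₁ c hc _)

omit [CharP κ T.q] in
include hV₂ h₂ hφ in
theorem r₀₂_alpha (c : F₁) (hc : c ∈ V₂) (h : α c ∈ R.W₀₂) :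
    R.r₀₂ ⟨α c, h⟩ = L.φ (L.red₂ ⟨ι c, mem_V₂ L ι hV₂ hc⟩) := by
  rw [R.r₀₂_α ⟨c, hc⟩ h, hφ]
  exact congrArg L.φ (h₂ c hc _)

/-! #### membership of the image of level `q` in the three rings -/

omit [CharP κ T.q] in
theorem alpha_mem_W₂₀ {c : F₁} (hc : c ∈ V₁) : α c ∈ R.W₂₀ := by
  rw [R.e₂₀]
  exact Setup.mem_of_comap T.comap_α_W₂₀ hc

omit [CharP κ T.q] in
theorem alpha_mem_W₁₁ {c : F₁} (hc : c ∈ V₁) : α c ∈ R.W₁₁ := by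
  rw [R.e₁₁]
  exact Setup.mem_of_comap T.comap_α_W₁₁ hc

omit [CharP κ T.q] in
theorem alpha_mem_W₀₂ {c : F₁} (hc : c ∈ V₂) : α c ∈ R.W₀₂ := by
  rw [R.e₀₂]
  exact Setup.mem_of_comap T.comap_α_W₀₂ hc

omit [CharP κ T.q] in
theorem beta_mem_W₂₀ {c : F₁} (hc : c ∈ V₁) : β c ∈ R.W₂₀ := by
  rw [R.e₂₀]
  exact Setup.mem_of_comap T.comap_β_W₂₀ hc

omit [CharP κ T.q] in
theorem beta_mem_W₁₁ {c : F₁} (hc : c ∈ V₂) : β c ∈ R.W₁₁ := by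
  rw [R.e₁₁]
  exact Setup.mem_of_comap T.comap_β_W₁₁ hc

omit [CharP κ T.q] in
theorem beta_mem_W₀₂ {c : F₁} (hc : c ∈ V₂) : β c ∈ R.W₀₂ := by
  rw [R.e₀₂]
  exact Setup.mem_of_comap T.comap_β_W₀₂ hc

/-! #### the Kummer datum -/

/-- **The Kummer datum**: `f` a unit at the three `W`, with `normAlong α f = c₁ * g₁ ^ n` and
`normAlong β f = c₂ * g₂ ^ n` in `F₁`, and `n`-th roots `d₁ d₂` of `ι c₁`, `ι c₂` in `E₁`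
(constants of an algebraically closed field). -/
def kummerEq {n : ℕ} (f : F₂) (u₂₀ : R.W₂₀.valuation f = 1) (u₁₁ : R.W₁₁.valuation f = 1)
    (u₀₂ : R.W₀₂.valuation f = 1) (c₁ c₂ g₁ g₂ : F₁) (hN₁ : normAlong α f = c₁ * g₁ ^ n)
    (hN₂ : normAlong β f = c₂ * g₂ ^ n) (d₁ d₂ : E₁) (hd₁ : d₁ ^ n = ι c₁) (hd₂ : d₂ ^ n = ι c₂) :
    (datumEq L ι T R N hV₁ hV₂ h₁ h₂ hφ).Kummer n where
  f := f
  g₁ := d₁ * ι g₁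
  g₂ := d₂ * ι g₂
  f₂₀ := (R.W₂₀.valuation_le_one_iff f).mp u₂₀.le
  f₁₁ := (R.W₁₁.valuation_le_one_iff f).mp u₁₁.le
  f₀₂ := (R.W₀₂.valuation_le_one_iff f).mp u₀₂.le
  r₂₀_ne := fun h => by
    have := (r₂₀_eq_zero_iff T R _).mp h
    rw [u₂₀] at this
    exact lt_irrefl _ this
  r₁₁_ne := fun h => by
    have := (r₁₁_eq_zero_iff T R _).mp h
    rw [u₁₁] at this
    exact lt_irrefl _ this
  r₀₂_ne := fun h => by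
    have := (r₀₂_eq_zero_iff T R _).mp h
    rw [u₀₂] at this
    exact lt_irrefl _ this
  norm₁ := by
    rw [datumEq_N₁, hN₁, map_mul, map_pow, mul_pow, hd₁]
  norm₂ := by
    rw [datumEq_N₂, hN₂, map_mul, map_pow, mul_pow, hd₂]

@[simp] theorem kummerEq_f {n : ℕ} (f : F₂) (u₂₀ : R.W₂₀.valuation f = 1)
    (u₁₁ : R.W₁₁.valuation f = 1) (u₀₂ : R.W₀₂.valuation f = 1) (c₁ c₂ g₁ g₂ : F₁)
    (hN₁ : normAlong α f = c₁ * g₁ ^ n) (hN₂ : normAlong β f = c₂ * g₂ ^ n) (d₁ d₂ : E₁)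
    (hd₁ : d₁ ^ n = ι c₁) (hd₂ : d₂ ^ n = ι c₂) :
    (kummerEq L ι T R N hV₁ hV₂ h₁ h₂ hφ f u₂₀ u₁₁ u₀₂ c₁ c₂ g₁ g₂ hN₁ hN₂ d₁ d₂ hd₁ hd₂).f = f :=
  rfl

@[simp] theorem kummerEq_g₁ {n : ℕ} (f : F₂) (u₂₀ : R.W₂₀.valuation f = 1)
    (u₁₁ : R.W₁₁.valuation f = 1) (u₀₂ : R.W₀₂.valuation f = 1) (c₁ c₂ g₁ g₂ : F₁)
    (hN₁ : normAlong α f = c₁ * g₁ ^ n) (hN₂ : normAlong β f = c₂ * g₂ ^ n) (d₁ d₂ : E₁)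
    (hd₁ : d₁ ^ n = ι c₁) (hd₂ : d₂ ^ n = ι c₂) :
    (kummerEq L ι T R N hV₁ hV₂ h₁ h₂ hφ f u₂₀ u₁₁ u₀₂ c₁ c₂ g₁ g₂ hN₁ hN₂ d₁ d₂ hd₁ hd₂).g₁
      = d₁ * ι g₁ := rfl

@[simp] theorem kummerEq_g₂ {n : ℕ} (f : F₂) (u₂₀ : R.W₂₀.valuation f = 1)
    (u₁₁ : R.W₁₁.valuation f = 1) (u₀₂ : R.W₀₂.valuation f = 1) (c₁ c₂ g₁ g₂ : F₁)
    (hN₁ : normAlong α f = c₁ * g₁ ^ n) (hN₂ : normAlong β f = c₂ * g₂ ^ n) (d₁ d₂ : E₁)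
    (hd₁ : d₁ ^ n = ι c₁) (hd₂ : d₂ ^ n = ι c₂) :
    (kummerEq L ι T R N hV₁ hV₂ h₁ h₂ hφ f u₂₀ u₁₁ u₀₂ c₁ c₂ g₁ g₂ hN₁ hN₂ d₁ d₂ hd₁ hd₂).g₂
      = d₂ * ι g₂ := rfl

end Fermat.Agent.S36.GlueThreeValEq
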