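/-
S36 (project V), slice V-RegOfPoles (helper8), chain (V6) / (N1)(SD3), consumer side: THE REGULARITY
HYPOTHESIS `Reg (g_i * N_i t)` OF `GlueNorm.Datum.Kummer.relations`, IN THE LANGUAGE OF PROJECT U.

`GlueLevelQ.RegX0 X Y w` says: every pole of `w ∈ ℚ̄(X₀(M q))` lies in a residue disc over an
admissible pair of finite sets of generic places.  Here:

* `r1_eq_some_iff`, `r2_eq_some_iff` : the two partial specialisation maps in closed form
  (`sp1 P = Q, sp2 P = Fr Q` resp. `sp2 P = Q, sp1 P = Fr Q`, `Q` good);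
* `exists_disc_of_sp1_mem_good` : a place `P` with `sp1 P` good lies in a generic disc
  (the dichotomy `GenericAt.dich`);
* `regX0_of_poles` : **`RegX0 X Y w` as soon as `sp1 P` is good for every pole `P` of `w`**;
* `regX0_of_pow_eq` : `RegX0` only depends on the poles (`w ^ n = c • w'`);
* `exists_above_of_ord_norm_neg` : a pole of `N_φ v` lies under a pole of `v`
  (`PushKummer.ord_norm`);
* `regX0_norm_alpha`, `regX0_norm_beta` : **level `q²`**: for `v ∈ ℚ̄(X₀(M q²))`, if every pole
  `P'` of `v` has `placeMap H (P' ∘ α' ∘ α)` good, then `N_α' v` and `N_β' v` are `RegX0`;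
  `regX0_of_pow_eq_norm_alpha/beta` : the same for `w` with `w ^ n = N v` (the shape
  `w = g_i * N_i t`, `v = f * t ^ n` of `GlueNorm.Datum.Kummer.relations`);
* `badValues X` (finite), `placeMap_mem_good_of_jvalue`, `sp1_mem_good_of_jvalue`,
  **`regX0_of_jvalues_alpha/beta`** : THE CRITERION WITHOUT ANY SPECIALISATION MAP: `RegX0 X Y w` as
  soon as at every pole `P'` of `v` the function `j(τ) = α' (α j)` has an `A`-integral value whose
  residue is not one of the finitely many bad values of `j̄` (the values at the non-good places).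
  This is the statement the ring-language dictionary (SD3) has to deliver: if `v` is regular at the
  closed points of the model lying over `j̄ ∈ badValues` or over `j̄ = ∞`, its poles have good
  `j`-values.
-/
import Fermat.Agent.S36.GlueLevelQ
import Fermat.Agent.S35.PushKummer
import Fermat.Agent.S34.Generic.FibValueX0

set_option autoImplicit false
set_option linter.unusedSectionVars false
set_option linter.style.haveILetI false
set_option linter.unusedVariables false
set_option synthInstance.maxHeartbeats 400000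

noncomputable section

namespace Fermat.Agent.S36.RegOfPoles

open ModularCurve AlgebraicCurve IsLocalRing
open Fermat.Agent.S34.NodalDefs
open Fermat.Agent.S37.Deuring.Core Fermat.Agent.S37.Gauss.Datum
open Fermat.Agent.S34.CoreZX0Assembly Fermat.Agent.S34.CoreZX0Build
open Fermat.Agent.S34.Generic.Compat Fermat.Agent.S34.Generic.RestrAlong
open Fermat.Agent.S34.Generic.SmoothRedOfGeneric Fermat.Agent.S34.Generic.SwapX0
open Fermat.Agent.S34.Generic.FibAlphaX0 Fermat.Agent.S34.Generic.FibBetaX0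
open Fermat.Agent.S34.WqGalois
open Fermat.Agent.S36.GlueLevelQ

local notation "Kb" => AlgebraicClosure ℚ

attribute [local instance 2000] Fermat.Agent.S34.EulerX0.algResFk

/-- shortcut instances (all propositions) -/
local instance instPDBarR (N : ℕ) [NeZero N] :
    HasPrincipalDivisors Kb ↥(modularFunctionFieldBar N) :=
  Fermat.Agent.S18.A.Instances.hasPrincipalDivisors_bar N

local instance instPDFkR (A : ValuationSubring Kb) (N : ℕ) [NeZero N] :
    HasPrincipalDivisors (ResidueField ↥A) ↥(modularFunctionFieldFullC (ResidueField ↥A) N) :=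
  Fermat.Agent.S37.ReductionInputs.hasPrincipalDivisors_Fk A N

local instance instACkR (A : ValuationSubring Kb) : IsAlgClosed (ResidueField ↥A) :=
  Fermat.Agent.S18.ResidueBasics.isAlgClosed_residueField A

local instance instInfkR (A : ValuationSubring Kb) : Infinite (ResidueField ↥A) :=
  Fermat.Agent.S37.ReductionInputs.infinite_residueField A

local instance instNeZeroMulR (M q : ℕ) [NeZero M] [NeZero q] : NeZero (M * q) :=
  ⟨Nat.mul_ne_zero (NeZero.ne M) (NeZero.ne q)⟩

variable {q : ℕ} [hq : Fact q.Prime] {M : ℕ} [NeZero M] {A : ValuationSubring Kb} [NeZero q]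
variable {hA : A.LiesOverPrime q} {hqM : ¬ q ∣ M}
variable {gL gk : ℕ} {H : Hyp (gaussDatum M A hA hqM) gL gk}
variable [CharP (ResidueField ↥A) q]

/-! ### level `q`: the generic discs -/

/-- the first partial specialisation map in closed form -/
theorem r1_eq_some_iff (X : Inputs hA hqM H) (P : Place Kb ↥(modularFunctionFieldBar (M * q)))
    (Q : Place (ResidueField ↥A) ↥(modularFunctionFieldFullC (ResidueField ↥A) M)) :
    (R1 X).r P = some Q ↔ Q ∈ X.good ∧ sp1 H P = Q ∧
      sp2 H P = Fermat.Agent.S34.FrobK.Fr (ResidueField ↥A) M q Q := by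
  rw [R1_r]
  exact rOne_eq_some_iff _ _ _ _ P Q

/-- the second partial specialisation map in closed form -/
theorem r2_eq_some_iff (X : Inputs hA hqM H) (P : Place Kb ↥(modularFunctionFieldBar (M * q)))
    (Q : Place (ResidueField ↥A) ↥(modularFunctionFieldFullC (ResidueField ↥A) M)) :
    (R2 X).r P = some Q ↔ Q ∈ X.good ∧ sp2 H P = Q ∧
      sp1 H P = Fermat.Agent.S34.FrobK.Fr (ResidueField ↥A) M q Q :=
  smoothRedComap_r_eq_some_iff (placeMap H) (heckeAlphaBar Kb M q) (heckeBetaBar Kb M q)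
    (isIntegral_alpha hqM) (isIntegral_beta M q) (wq M q hq.out hqM)
    (fun g => wq_alpha hq.out hqM g) (fun g => wq_beta hq.out hqM g)
    (Fermat.Agent.S34.FrobK.Fr (ResidueField ↥A) M q) X.good (R1 X) (R1_r X) P Q

/-- **a place whose first specialisation is good lies in a generic disc** -/
theorem exists_disc_of_sp1_mem_good (X : Inputs hA hqM H)
    (P : Place Kb ↥(modularFunctionFieldBar (M * q))) (h : sp1 H P ∈ X.good) :
    (∃ Q, (R1 X).r P = some Q) ∨ (∃ Q, (R2 X).r P = some Q) := by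
  rcases (X.generic _ h).dich P rfl with h2 | h2
  · exact Or.inl ⟨sp1 H P, (r1_eq_some_iff X P _).mpr ⟨h, rfl, h2⟩⟩
  · refine Or.inr ⟨sp2 H P, (r2_eq_some_iff X P _).mpr ⟨?_, rfl, ?_⟩⟩
    · have e : Fermat.Agent.S34.FrobK.Fr (ResidueField ↥A) M q (sp2 H P) = sp1 H P := by
        change Fermat.Agent.S34.FrobK.Fr (ResidueField ↥A) M q
          (placeMap H ((rbX M q).res P)) = _
        rw [h2, Equiv.apply_symm_apply]
      exact (X.Fr_mem_iff _).mp (e ▸ h)
    · change _ = Fermat.Agent.S34.FrobK.Fr (ResidueField ↥A) M q (placeMap H ((rbX M q).res P))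
      rw [h2, Equiv.apply_symm_apply]

/-- the poles of a function are finitely many -/
theorem finite_poles {N : ℕ} [NeZero N] (w : ↥(modularFunctionFieldBar N)) :
    {P : Place Kb ↥(modularFunctionFieldBar N) | P.ord w < 0}.Finite := by
  rcases eq_or_ne w 0 with rfl | hw
  · have : {P : Place Kb ↥(modularFunctionFieldBar N) |
        P.ord (0 : ↥(modularFunctionFieldBar N)) < 0} = ∅ := by
      ext P
      simp [Place.ord_zero]
    rw [this]
    exact Set.finite_empty
  · obtain ⟨D, hD, -⟩ := HasPrincipalDivisors.exists_divisor (K := Kb) w hw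
    refine D.support.finite_toSet.subset fun P hP => ?_
    rw [Finset.mem_coe, Finsupp.mem_support_iff, hD P]
    exact ne_of_lt hP

/-- **`RegX0 X Y w` as soon as every pole of `w` lies in a generic disc** -/
theorem regX0_of_forall_disc (X : Inputs hA hqM H) (Y : NodesC X)
    (w : ↥(modularFunctionFieldBar (M * q)))
    (h : ∀ P : Place Kb ↥(modularFunctionFieldBar (M * q)), P.ord w < 0 →
      (∃ Q, (R1 X).r P = some Q) ∨ (∃ Q, (R2 X).r P = some Q)) : RegX0 X Y w := by
  have hfin := finite_poles w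
  set T1 : Set (Place (ResidueField ↥A) ↥(modularFunctionFieldFullC (ResidueField ↥A) M)) :=
    {Q | ∃ P : Place Kb ↥(modularFunctionFieldBar (M * q)), P.ord w < 0 ∧ (R1 X).r P = some Q}
    with hT1
  set T2 : Set (Place (ResidueField ↥A) ↥(modularFunctionFieldFullC (ResidueField ↥A) M)) :=
    {Q | ∃ P : Place Kb ↥(modularFunctionFieldBar (M * q)), P.ord w < 0 ∧ (R2 X).r P = some Q}
    with hT2
  have hT1fin : T1.Finite := by
    have h1 : ((R1 X).r '' {P | P.ord w < 0}).Finite := hfin.image _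
    refine (h1.preimage (Option.some_injective _).injOn).subset ?_
    rintro Q ⟨P, hP, hQ⟩
    exact ⟨P, hP, hQ⟩
  have hT2fin : T2.Finite := by
    have h1 : ((R2 X).r '' {P | P.ord w < 0}).Finite := hfin.image _
    refine (h1.preimage (Option.some_injective _).injOn).subset ?_
    rintro Q ⟨P, hP, hQ⟩
    exact ⟨P, hP, hQ⟩
  have hT1good : T1 ⊆ (nodalC X Y).R1.good := by
    rintro Q ⟨P, -, hQ⟩
    exact ((r1_eq_some_iff X P Q).mp hQ).1
  have hT2good : T2 ⊆ (nodalC X Y).R2.good := by
    rintro Q ⟨P, -, hQ⟩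
    exact ((r2_eq_some_iff X P Q).mp hQ).1
  obtain ⟨S1, S2, hadm, h1, h2⟩ := (nodalC X Y).exists_adm T1 T2 hT1fin hT2fin hT1good hT2good
  refine ⟨S1, S2, hadm, fun P hP => ?_⟩
  rcases h P hP with ⟨Q, hQ⟩ | ⟨Q, hQ⟩
  · exact Or.inl ⟨Q, h1 ⟨P, hP, hQ⟩, hQ⟩
  · exact Or.inr ⟨Q, h2 ⟨P, hP, hQ⟩, hQ⟩

/-- **`RegX0 X Y w` as soon as the first specialisation of every pole of `w` is good** -/
theorem regX0_of_poles (X : Inputs hA hqM H) (Y : NodesC X)
    (w : ↥(modularFunctionFieldBar (M * q)))
    (h : ∀ P : Place Kb ↥(modularFunctionFieldBar (M * q)), P.ord w < 0 → sp1 H P ∈ X.good) :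
    RegX0 X Y w :=
  regX0_of_forall_disc X Y w fun P hP => exists_disc_of_sp1_mem_good X P (h P hP)

/-- `RegX0` only depends on the poles -/
theorem regX0_of_poles_subset (X : Inputs hA hqM H) (Y : NodesC X)
    {w w' : ↥(modularFunctionFieldBar (M * q))} (hw' : RegX0 X Y w')
    (h : ∀ P : Place Kb ↥(modularFunctionFieldBar (M * q)), P.ord w < 0 → P.ord w' < 0) :
    RegX0 X Y w := by
  obtain ⟨S1, S2, hadm, hpole⟩ := hw'
  exact ⟨S1, S2, hadm, fun P hP => hpole P (h P hP)⟩

/-- `RegX0 X Y w` if `w ^ n = c * w'` with `n ≠ 0`, `c` a nonzero constant and `RegX0 X Y w'` -/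
theorem regX0_of_pow_eq (X : Inputs hA hqM H) (Y : NodesC X)
    {w w' : ↥(modularFunctionFieldBar (M * q))} {n : ℕ} (hn : n ≠ 0) {c : Kb} (hc : c ≠ 0)
    (hww' : w ^ n = algebraMap Kb _ c * w') (hw' : RegX0 X Y w') : RegX0 X Y w := by
  refine regX0_of_poles_subset X Y hw' fun P hP => ?_
  have hw0 : w ≠ 0 := by
    rintro rfl
    rw [Place.ord_zero] at hP
    exact lt_irrefl _ hP
  have hcE : algebraMap Kb ↥(modularFunctionFieldBar (M * q)) c ≠ 0 := (map_ne_zero _).mpr hc
  have hw'0 : w' ≠ 0 := by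
    rintro rfl
    rw [mul_zero] at hww'
    exact pow_ne_zero n hw0 hww'
  have e : (n : ℤ) * P.ord w = P.ord w' := by
    rw [← Fermat.Agent.S34.KummerZ.ord_pow, hww', P.ord_mul hcE hw'0,
      Fermat.Agent.S34.KummerZ.ord_algebraMap P hc, zero_add]
  have hn' : (0 : ℤ) < n := by exact_mod_cast Nat.pos_of_ne_zero hn
  rw [← e]
  exact mul_neg_of_pos_of_neg hn' hP

/-! ### poles of a norm -/

section Norm

open Fermat.Agent.S24.DegreeAlg Fermat.Agent.S18.A.Instances
open Fermat.Agent.S37.Hecke.Integral Fermat.Agent.S35.LevelMaps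
open Fermat.Agent.S35.DegeneracyHecke Fermat.Agent.S35.PushKummer

variable {N N' : ℕ} [NeZero N] [NeZero N']

/-- **a pole of `N_φ v` lies under a pole of `v`** -/
theorem exists_above_of_ord_norm_neg (φ : E N →ₐ[Kb] E N') (v : E N') {P : Place Kb (E N)}
    (h : P.ord (normAlong φ v) < 0) :
    ∃ P' : Place Kb (E N'), resAlong φ (isIntegral_hom φ) P' = P ∧ P'.ord v < 0 := by
  classical
  have hv : v ≠ 0 := by
    rintro rfl
    have h0 : normAlong φ (0 : E N') = 0 := by
      letI := algebraAlong φ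
      haveI := isScalarTower_along φ
      haveI := isIntegral_along φ (isIntegral_hom φ)
      haveI : Module.Finite (E N) (E N') := finiteAlong_hom φ
      haveI : Module.Free (E N) (E N') := Module.Free.of_divisionRing (E N) (E N')
      exact Algebra.norm_zero
    rw [h0, Place.ord_zero] at h
    exact lt_irrefl _ h
  obtain ⟨D, hD, -⟩ := HasPrincipalDivisors.exists_divisor (K := Kb) v hv
  rw [ord_norm φ hv D hD P] at h
  letI := algebraAlong φ
  haveI := isScalarTower_along φ
  haveI := isIntegral_along φ (isIntegral_hom φ)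
  have key : push φ D P = ∑ w ∈ D.support,
      if w.restrict (E N) = P then D w * (w.inertiaDeg (E N) : ℤ) else 0 :=
    Divisor.pushforward_apply D P
  rw [key] at h
  have h0 : ∑ w ∈ D.support, (if w.restrict (E N) = P then D w * (w.inertiaDeg (E N) : ℤ) else 0)
      < ∑ w ∈ D.support, (0 : ℤ) := by
    rw [Finset.sum_const_zero]
    exact h
  obtain ⟨w, -, hw⟩ := Finset.exists_lt_of_sum_lt h0
  split_ifs at hw with hres
  · refine ⟨w, hres, ?_⟩
    rw [← hD w]
    by_contra hnn
    rw [not_lt] at hnn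
    exact absurd hw (not_lt.mpr (mul_nonneg hnn (Int.natCast_nonneg _)))
  · exact absurd hw (lt_irrefl _)

end Norm

/-! ### level `q²` -/

section LevelQ2

open Fermat.Agent.S24.DegreeAlg Fermat.Agent.S18.A.Instances
open Fermat.Agent.S37.Hecke.Integral Fermat.Agent.S35.LevelMaps
open Fermat.Agent.S35.DegeneracyHecke Fermat.Agent.S35.PushKummer

/-- the two composite degeneracy maps `x(t) ↦ x(t^q)` of level `q²` agree -/
theorem alpha_beta_eq_beta_alpha (x : E M) :
    heckeAlphaBar Kb (M * q) q (heckeBetaBar Kb M q x) =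
      heckeBetaBar Kb (M * q) q (heckeAlphaBar Kb M q x) := by
  apply Subtype.ext
  rw [isIncl_alpha (M * q) q, isDil_beta (M * q) q, isDil_beta M q, isIncl_alpha M q]

/-- restrictions commute: `(P' ∘ β') ∘ α = (P' ∘ α') ∘ β` -/
theorem resAlong_alpha_beta (P' : Place Kb (E (M * q * q))) :
    resAlong (heckeAlphaBar Kb M q) (isIntegral_alpha hqM)
        (resAlong (heckeBetaBar Kb (M * q) q) (isIntegral_hom _) P') =
      resAlong (heckeBetaBar Kb M q) (isIntegral_beta M q)
        (resAlong (heckeAlphaBar Kb (M * q) q) (isIntegral_hom _) P') := by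
  apply Place.ext
  ext g
  rw [mem_resAlong_iff, mem_resAlong_iff, mem_resAlong_iff, mem_resAlong_iff,
    alpha_beta_eq_beta_alpha]

/-- `sp1 (P' ∘ β') = sp2 (P' ∘ α')` -/
theorem sp1_resAlong_beta (P' : Place Kb (E (M * q * q))) :
    sp1 H (resAlong (heckeBetaBar Kb (M * q) q) (isIntegral_hom _) P') =
      sp2 H (resAlong (heckeAlphaBar Kb (M * q) q) (isIntegral_hom _) P') := by
  unfold sp1 sp2
  rw [resAlong_alpha_beta (hqM := hqM)]

/-- **level `q²`, along `α'`**: if every pole `P'` of `v` has `sp1 (P' ∘ α')` good, then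
`N_α' v` is `RegX0` -/
theorem regX0_norm_alpha (X : Inputs hA hqM H) (Y : NodesC X) (v : E (M * q * q))
    (h : ∀ P' : Place Kb (E (M * q * q)), P'.ord v < 0 →
      sp1 H (resAlong (heckeAlphaBar Kb (M * q) q) (isIntegral_hom _) P') ∈ X.good) :
    RegX0 X Y (normAlong (heckeAlphaBar Kb (M * q) q) v) := by
  refine regX0_of_poles X Y _ fun P hP => ?_
  obtain ⟨P', rfl, hP'⟩ := exists_above_of_ord_norm_neg _ v hP
  exact h P' hP'

/-- **level `q²`, along `β'`**: under the same hypothesis `N_β' v` is `RegX0` -/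
theorem regX0_norm_beta (X : Inputs hA hqM H) (Y : NodesC X) (v : E (M * q * q))
    (h : ∀ P' : Place Kb (E (M * q * q)), P'.ord v < 0 →
      sp1 H (resAlong (heckeAlphaBar Kb (M * q) q) (isIntegral_hom _) P') ∈ X.good) :
    RegX0 X Y (normAlong (heckeBetaBar Kb (M * q) q) v) := by
  refine regX0_of_poles X Y _ fun P hP => ?_
  obtain ⟨P', rfl, hP'⟩ := exists_above_of_ord_norm_neg _ v hP
  rw [sp1_resAlong_beta]
  have hg := h P' hP'
  rcases (X.generic _ hg).dich _ rfl with h2 | h2
  · change sp2 H _ = _ at h2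
    rw [h2]
    exact (X.Fr_mem_iff _).mpr hg
  · change sp2 H _ = _ at h2
    rw [h2]
    refine (X.Fr_mem_iff _).mp ?_
    rw [Equiv.apply_symm_apply]
    exact hg

/-- restriction along a composite -/
theorem resAlong_comp {N N' N'' : ℕ} [NeZero N] [NeZero N'] [NeZero N'']
    (ψ : E N →ₐ[Kb] E N') (φ : E N' →ₐ[Kb] E N'') (P : Place Kb (E N'')) :
    resAlong ψ (isIntegral_hom ψ) (resAlong φ (isIntegral_hom φ) P) =
      resAlong (φ.comp ψ) (isIntegral_hom _) P := by
  apply Place.ext
  ext g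
  rw [mem_resAlong_iff, mem_resAlong_iff, mem_resAlong_iff]
  rfl

/-- the first specialisation of `P' ∘ α'` is the specialisation of `P' ∘ (α' ∘ α)`: the value of
`j(τ)` at the point of `X₀(M q²)` -/
theorem sp1_resAlong_alpha (P' : Place Kb (E (M * q * q))) :
    sp1 H (resAlong (heckeAlphaBar Kb (M * q) q) (isIntegral_hom _) P') =
      placeMap H (resAlong ((heckeAlphaBar Kb (M * q) q).comp (heckeAlphaBar Kb M q))
        (isIntegral_hom _) P') := by
  unfold sp1
  rw [← resAlong_comp]

/-- **the form used by `GlueNorm.Datum.Kummer.relations`**, along `α'`: `w ^ n = N_α' v` -/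
theorem regX0_of_pow_eq_norm_alpha (X : Inputs hA hqM H) (Y : NodesC X)
    {w : E (M * q)} {v : E (M * q * q)} {n : ℕ} (hn : n ≠ 0)
    (hwv : w ^ n = normAlong (heckeAlphaBar Kb (M * q) q) v)
    (h : ∀ P' : Place Kb (E (M * q * q)), P'.ord v < 0 →
      sp1 H (resAlong (heckeAlphaBar Kb (M * q) q) (isIntegral_hom _) P') ∈ X.good) :
    RegX0 X Y w :=
  regX0_of_pow_eq X Y hn one_ne_zero (by rw [map_one, one_mul, hwv]) (regX0_norm_alpha X Y v h)

/-- **the form used by `GlueNorm.Datum.Kummer.relations`**, along `β'`: `w ^ n = N_β' v` -/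
theorem regX0_of_pow_eq_norm_beta (X : Inputs hA hqM H) (Y : NodesC X)
    {w : E (M * q)} {v : E (M * q * q)} {n : ℕ} (hn : n ≠ 0)
    (hwv : w ^ n = normAlong (heckeBetaBar Kb (M * q) q) v)
    (h : ∀ P' : Place Kb (E (M * q * q)), P'.ord v < 0 →
      sp1 H (resAlong (heckeAlphaBar Kb (M * q) q) (isIntegral_hom _) P') ∈ X.good) :
    RegX0 X Y w :=
  regX0_of_pow_eq X Y hn one_ne_zero (by rw [map_one, one_mul, hwv]) (regX0_norm_beta X Y v h)

end LevelQ2

/-! ### the criterion in terms of `j`-values -/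

section JValue

open Fermat.Agent.S24.DegreeAlg (jgen)
open Fermat.Agent.S18.B.FkBasics (jk)
open Fermat.Agent.S34.Generic.Dich Fermat.Agent.S34.CuspRedX0 Fermat.Agent.S37.Deuring.HypX0
open Fermat.Agent.S18.A.Instances Fermat.Agent.S35.LevelMaps Fermat.Agent.S35.PushKummer

/-- **the bad `j̄`-values**: the values of `j̄` at the places of `κ` which are not good -/
def badValues (X : Inputs hA hqM H) : Set (ResidueField ↥A) :=
  {γ | ∃ Q : Place (ResidueField ↥A) ↥(modularFunctionFieldFullC (ResidueField ↥A) M),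
    Q ∉ X.good ∧ HasVal Q (jk (ResidueField ↥A) M) γ}

/-- there are finitely many bad values -/
theorem finite_badValues (X : Inputs hA hqM H) : (badValues X).Finite := by
  classical
  have h1 : ((fun Q : Place (ResidueField ↥A) ↥(modularFunctionFieldFullC (ResidueField ↥A) M) =>
      valAt Q (jk (ResidueField ↥A) M)) '' X.goodᶜ).Finite := X.finite_compl.image _
  refine h1.subset ?_
  rintro γ ⟨Q, hQ, hγ⟩
  exact ⟨Q, hQ, hγ.valAt_eq⟩

/-- **a place of `X₀(M)` whose `j`-value is `A`-integral with residue outside the bad values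
specialises to a good place** -/
theorem placeMap_mem_good_of_jvalue (X : Inputs hA hqM H)
    (P₀ : Place Kb ↥(modularFunctionFieldBar M)) (c : ↥A)
    (hc : HasVal P₀ (jgen M) (c : Kb)) (hbad : residue ↥A c ∉ badValues X) :
    placeMap H P₀ ∈ X.good := by
  by_contra hQ
  set Q := placeMap H P₀ with hQdef
  have hdegk : ∀ Q' : Place (ResidueField ↥A) ↥(modularFunctionFieldFullC (ResidueField ↥A) M),
      Q'.deg = 1 := H.riemannK.deg_one
  rcases le_or_gt 0 (Q.ord (jk (ResidueField ↥A) M)) with h0 | h0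
  · -- `Q` is not a cusp: the value of `j̄` at `Q` is the residue of `c`
    have hJ0 : jk (ResidueField ↥A) M ≠ 0 :=
      Fermat.Agent.S34.Euler.FrobSide.jk_ne_zero (ResidueField ↥A) M
    obtain ⟨γ, hγ⟩ := exists_hasVal Q (hdegk Q)
      ((Fermat.Agent.S24.Ord.ord_nonneg_iff Q hJ0).mp h0)
    obtain ⟨c₂, hc₂, hres⟩ := Fermat.Agent.S34.Generic.FibValueX0.exists_jvalue hA hqM H hγ
      hQdef.symm
    have e : (c : Kb) = (c₂ : Kb) := HasVal.unique hc hc₂
    have e' : c = c₂ := Subtype.ext e
    exact hbad ⟨Q, hQ, by rw [e', hres]; exact hγ⟩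
  · -- `Q` is a cusp: `1 / j` has a value in the maximal ideal at `P₀`
    have hreg := regOn_inv_jgen hA hqM H Q h0.le
    have hmem : (jgen M)⁻¹ ∈ (gaussDatum M A hA hqM).O := inv_jgen_mem_O hA hqM H
    have hreg' : Fermat.Agent.S18.Disc.RegOn (placeMap H)
        (((⟨(jgen M)⁻¹, hmem⟩ : (redDatum H).O)) : ↥(modularFunctionFieldBar M)) Q := hreg
    obtain ⟨a, ha1, ha2⟩ := exists_hasVal_of_regOn (redDatum H)
      (fun P => Fermat.Agent.S24.Ord.deg_eq_one (Fermat.Agent.S24.Degree.isFF M) P)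
      (⟨(jgen M)⁻¹, hmem⟩ : (redDatum H).O) hreg' hQdef.symm
    have ha1' : HasVal P₀ (jgen M)⁻¹ (a : Kb) := ha1
    have hred : (redDatum H).red ⟨(jgen M)⁻¹, hmem⟩ = (jk (ResidueField ↥A) M)⁻¹ :=
      red_inv_jgen hA hqM H hmem
    rw [hred] at ha2
    -- `1 / j̄` vanishes at `Q`
    have hJ0 : jk (ResidueField ↥A) M ≠ 0 :=
      Fermat.Agent.S34.Euler.FrobSide.jk_ne_zero (ResidueField ↥A) M
    have hz : HasVal Q (jk (ResidueField ↥A) M)⁻¹ (0 : ResidueField ↥A) := by
      unfold HasVal
      rw [map_zero, sub_zero]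
      refine (Fermat.Agent.S24.Ord.ord_pos_iff Q (inv_ne_zero hJ0)).mp ?_
      rw [Place.ord_inv]
      omega
    have hπa : residue ↥A a = 0 := HasVal.unique ha2 hz
    -- but `c * a = 1`
    have hj0 : jgen M ≠ 0 := Fermat.Agent.S34.EulerX0.jgen_ne_zero M
    have h1 : HasVal P₀ (1 : ↥(modularFunctionFieldBar M)) ((c : Kb) * (a : Kb)) := by
      have := hc.mul ha1'
      rwa [mul_inv_cancel₀ hj0] at this
    have e : (c : Kb) * (a : Kb) = 1 := HasVal.unique h1 (hasVal_one P₀)
    have e' : c * a = 1 := Subtype.ext e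
    have : residue ↥A c * residue ↥A a = 1 := by rw [← map_mul, e', map_one]
    rw [hπa, mul_zero] at this
    exact zero_ne_one this

/-- values along a homomorphism -/
theorem hasVal_resAlong_iff {N N' : ℕ} [NeZero N] [NeZero N'] (φ : E N →ₐ[Kb] E N')
    (P : Place Kb (E N')) (g : E N) (c : Kb) :
    HasVal (resAlong φ (isIntegral_hom φ) P) g c ↔ HasVal P (φ g) c := by
  unfold HasVal
  rw [← adicValuation_map_lt_one_iff φ (isIntegral_hom φ) P, map_sub, AlgHom.commutes]

/-- **the value of `j(τ)` at a place of `X₀(M q²)` decides**: if it is `A`-integral with residue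
outside the bad values, the first specialisation of `P' ∘ α'` is good -/
theorem sp1_mem_good_of_jvalue (X : Inputs hA hqM H) (P' : Place Kb (E (M * q * q))) (c : ↥A)
    (hc : HasVal P' (heckeAlphaBar Kb (M * q) q (heckeAlphaBar Kb M q (jgen M))) (c : Kb))
    (hbad : residue ↥A c ∉ badValues X) :
    sp1 H (resAlong (heckeAlphaBar Kb (M * q) q) (isIntegral_hom _) P') ∈ X.good := by
  unfold sp1
  refine placeMap_mem_good_of_jvalue X _ c ?_ hbad
  have h1 := (hasVal_resAlong_iff (heckeAlphaBar Kb (M * q) q) P'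
    (heckeAlphaBar Kb M q (jgen M)) (c : Kb)).mpr hc
  exact (hasVal_resAlong_iff (heckeAlphaBar Kb M q) _ (jgen M) (c : Kb)).mpr h1

/-- **(SD3), consumer form, along `α'`**: `w ^ n = N_α' v`, and at every pole of `v` the function
`j(τ)` has an `A`-integral value whose residue is not a bad value `⟹ RegX0 X Y w` -/
theorem regX0_of_jvalues_alpha (X : Inputs hA hqM H) (Y : NodesC X)
    {w : E (M * q)} {v : E (M * q * q)} {n : ℕ} (hn : n ≠ 0)
    (hwv : w ^ n = normAlong (heckeAlphaBar Kb (M * q) q) v)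
    (h : ∀ P' : Place Kb (E (M * q * q)), P'.ord v < 0 → ∃ c : ↥A,
      HasVal P' (heckeAlphaBar Kb (M * q) q (heckeAlphaBar Kb M q (jgen M))) (c : Kb) ∧
        residue ↥A c ∉ badValues X) :
    RegX0 X Y w :=
  regX0_of_pow_eq_norm_alpha X Y hn hwv fun P' hP' => by
    obtain ⟨c, hc, hbad⟩ := h P' hP'
    exact sp1_mem_good_of_jvalue X P' c hc hbad

/-- **(SD3), consumer form, along `β'`** -/
theorem regX0_of_jvalues_beta (X : Inputs hA hqM H) (Y : NodesC X)
    {w : E (M * q)} {v : E (M * q * q)} {n : ℕ} (hn : n ≠ 0)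
    (hwv : w ^ n = normAlong (heckeBetaBar Kb (M * q) q) v)
    (h : ∀ P' : Place Kb (E (M * q * q)), P'.ord v < 0 → ∃ c : ↥A,
      HasVal P' (heckeAlphaBar Kb (M * q) q (heckeAlphaBar Kb M q (jgen M))) (c : Kb) ∧
        residue ↥A c ∉ badValues X) :
    RegX0 X Y w :=
  regX0_of_pow_eq_norm_beta X Y hn hwv fun P' hP' => by
    obtain ⟨c, hc, hbad⟩ := h P' hP'
    exact sp1_mem_good_of_jvalue X P' c hc hbad

end JValue

end Fermat.Agent.S36.RegOfPoles
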