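/-
S36 (PROJECT V, helper19): **the minimal polynomials over `K = ℚ̄^H`** of the two power-basis
generators of `S36/PowerBasisK0` (`H` = inertia gives `K = K₀`), with integral coefficients:

* along `α_K` : `minpoly_{F_K(N0 q)} j₂ = G_α := Φ(X, j₁)/(X - j)`;
* along `β_K` : `minpoly_{F_K(N0 q)} j = G_β := Φ(X, j)/(X - j₁)` (read through `β_K`, i.e. the polynomial
  `Φ(X, j₁)/(X - j₂)` over `β_K F_K(N0 q)`),

for any `Φ ∈ ℤ[j][X]` with `Φ(X, j(t)) = rPoly q ℤ` (e.g. the Kronecker polynomial of `S34/Kronecker`).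
Both `G_α`, `G_β` are obtained from `Φ(X, ·)` by dividing by a monic linear factor, so their
coefficients are integer polynomials in `j, j₁`.
-/
import Mathlib
import Fermat.Agent.S36.PowerBasisK0

set_option autoImplicit false
set_option linter.unusedSectionVars false
set_option linter.style.haveILetI false

noncomputable section

namespace Fermat.Agent.S36.MinpolyK0

open Polynomial ModularCurve AlgebraicCurve IntermediateField
open Fermat.Agent.S24.DegreeAlg Fermat.Agent.S35.LevelMaps Fermat.Agent.S36.K0Fixed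
open Fermat.Agent.S36.PowerBasisK0 Fermat.Agent.S36.MinpolyJ2 Fermat.Agent.S28.ModPoly

local notation "Kb" => AlgebraicClosure ℚ

variable (H : Subgroup (Kb ≃ₐ[ℚ] Kb))

/-- `P ↦ P(x)`, `ℤ[j] → F_K(N)` -/
def intEval {N : ℕ} (x : FK H N) : Polynomial ℤ →+* FK H N :=
  Polynomial.eval₂RingHom (Int.castRingHom (FK H N)) x

/-- `Φ(X, x) ∈ F_K(N)[X]` -/
def phiK {N : ℕ} (Φ : Polynomial (Polynomial ℤ)) (x : FK H N) : Polynomial (FK H N) :=
  Φ.map (intEval H x)

theorem tB_comp_intEval {N : ℕ} (x : FK H N) :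
    (tB H N).comp (intEval H x) =
      ((aeval (tB H N x) : Polynomial ℤ →ₐ[ℤ] E N) : Polynomial ℤ →+* E N) := by
  apply Polynomial.ringHom_ext
  · intro a
    simp [intEval]
  · simp [intEval]

theorem map_phiK {N : ℕ} (Φ : Polynomial (Polynomial ℤ)) (x : FK H N) :
    (phiK H Φ x).map (tB H N) =
      Φ.map ((aeval (tB H N x) : Polynomial ℤ →ₐ[ℤ] E N) : Polynomial ℤ →+* E N) := by
  rw [phiK, Polynomial.map_map, tB_comp_intEval]

variable {N0 q : ℕ} [NeZero N0] [NeZero q] [NeZero (N0 * q)] [NeZero (N0 * q * q)]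

/-- `G_α = Φ(X, j₁)/(X - j) ∈ F_K(N0 q)[X]` -/
def gAlphaK (N0 q : ℕ) [NeZero N0] [NeZero q] [NeZero (N0 * q)] (Φ : Polynomial (Polynomial ℤ)) :
    Polynomial (FK H (N0 * q)) :=
  phiK H Φ (j1K H N0 q) /ₘ (X - C (j0K H (N0 * q)))

/-- `G_β = Φ(X, j)/(X - j₁) ∈ F_K(N0 q)[X]` -/
def gBetaK (N0 q : ℕ) [NeZero N0] [NeZero q] [NeZero (N0 * q)] (Φ : Polynomial (Polynomial ℤ)) :
    Polynomial (FK H (N0 * q)) :=
  phiK H Φ (j0K H (N0 * q)) /ₘ (X - C (j1K H N0 q))

theorem map_gAlphaK (Φ : Polynomial (Polynomial ℤ)) :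
    (gAlphaK H N0 q Φ).map (tB H (N0 * q)) = gPolyJ2 N0 q Φ := by
  rw [gAlphaK, Polynomial.map_divByMonic _ (monic_X_sub_C _), map_phiK, Polynomial.map_sub,
    Polynomial.map_X, Polynomial.map_C, tB_j1K, tB_j0K]
  rfl

theorem map_gBetaK (Φ : Polynomial (Polynomial ℤ)) :
    (gBetaK H N0 q Φ).map (tB H (N0 * q)) = gPolyBeta N0 q Φ := by
  rw [gBetaK, Polynomial.map_divByMonic _ (monic_X_sub_C _), map_phiK, Polynomial.map_sub,
    Polynomial.map_X, Polynomial.map_C, tB_j1K, tB_j0K]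
  rfl

section Facts

variable {Φ : Polynomial (Polynomial ℤ)} (hmonic : Φ.Monic) (hdeg : Φ.natDegree = q + 1)
  (hΦ : Φ.map (evalL ℤ (jqModC ℤ)) = rPoly q ℤ)

include hmonic hΦ in
theorem monic_gAlphaK (hq : q.Prime) : (gAlphaK H N0 q Φ).Monic := by
  apply Polynomial.monic_of_injective (tB_injective H (N0 * q))
  rw [map_gAlphaK]
  exact monic_gPolyJ2 hq hmonic hΦ

include hmonic hdeg hΦ in
theorem natDegree_gAlphaK (hq : q.Prime) : (gAlphaK H N0 q Φ).natDegree = q := by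
  rw [← natDegree_map_eq_of_injective (tB_injective H (N0 * q)), map_gAlphaK]
  exact natDegree_gPolyJ2 hq hmonic hdeg hΦ

include hΦ in
theorem monic_gBetaK : (gBetaK H N0 q Φ).Monic := by
  apply Polynomial.monic_of_injective (tB_injective H (N0 * q))
  rw [map_gBetaK]
  exact monic_gPolyBeta hΦ

include hΦ in
theorem natDegree_gBetaK : (gBetaK H N0 q Φ).natDegree = q := by
  rw [← natDegree_map_eq_of_injective (tB_injective H (N0 * q)), map_gBetaK]
  exact natDegree_gPolyBeta hΦ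

/-- transport of `aeval` along `tB` for the algebra structures along `φK`, `φ` -/
theorem tB_aeval {N N' : ℕ} (φK : FK H N →+* FK H N') (φ : E N →ₐ[Kb] E N')
    (hφ : ∀ x, tB H N' (φK x) = φ (tB H N x)) (y : FK H N') (G : Polynomial (FK H N)) :
    letI := φK.toAlgebra
    letI := algebraAlong φ
    tB H N' (aeval y G) = aeval (tB H N' y) (G.map (tB H N)) := by
  letI := φK.toAlgebra
  letI := algebraAlong φ
  have hcomp : (tB H N').comp (algebraMap (FK H N) (FK H N')) =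
      (algebraMap (E N) (E N')).comp (tB H N) := RingHom.ext fun x => by
    rw [RingHom.comp_apply, RingHom.comp_apply]
    exact hφ x
  rw [aeval_def, aeval_def, Polynomial.hom_eval₂, hcomp, Polynomial.eval₂_map]

include hΦ in
/-- `G_α(j₂) = 0` along `α_K`. -/
theorem aeval_j2K_gAlphaK (hq : q.Prime) :
    letI := (alphaK H (N0 * q) q).toAlgebra
    aeval (j2K H N0 q) (gAlphaK H N0 q Φ) = 0 := by
  letI := (alphaK H (N0 * q) q).toAlgebra
  apply tB_injective H (N0 * q * q)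
  rw [map_zero, tB_aeval H (alphaK H (N0 * q) q) (heckeAlphaBar Kb (N0 * q) q) (tB_alphaK H _ _),
    map_gAlphaK, tB_j2K]
  exact aeval_j2_gPolyJ2 hq hΦ

include hΦ in
/-- `G_β(j) = 0` along `β_K`. -/
theorem aeval_j0K_gBetaK (hq : q.Prime) :
    letI := (betaK H (N0 * q) q).toAlgebra
    aeval (j0K H (N0 * q * q)) (gBetaK H N0 q Φ) = 0 := by
  letI := (betaK H (N0 * q) q).toAlgebra
  apply tB_injective H (N0 * q * q)
  rw [map_zero, tB_aeval H (betaK H (N0 * q) q) (heckeBetaBar Kb (N0 * q) q) (tB_betaK H _ _),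
    map_gBetaK, tB_j0K]
  exact aeval_jgen_gPolyBeta hq hΦ

end Facts

/-- **`Φ(X, j₁) = (X - j) · G_α`** over `F_K(N0 q)`. -/
theorem phiK_eq_alpha (hq : q.Prime) {Φ : Polynomial (Polynomial ℤ)}
    (hΦ : Φ.map (evalL ℤ (jqModC ℤ)) = rPoly q ℤ) :
    phiK H Φ (j1K H N0 q) = (X - C (j0K H (N0 * q))) * gAlphaK H N0 q Φ := by
  apply Polynomial.map_injective _ (tB_injective H (N0 * q))
  rw [Polynomial.map_mul, map_gAlphaK, Polynomial.map_sub, Polynomial.map_X, Polynomial.map_C,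
    map_phiK, tB_j1K, tB_j0K]
  exact phiJ1_eq hq hΦ

/-- **`Φ(X, j) = (X - j₁) · G_β`** over `F_K(N0 q)`. -/
theorem phiK_eq_beta {Φ : Polynomial (Polynomial ℤ)}
    (hΦ : Φ.map (evalL ℤ (jqModC ℤ)) = rPoly q ℤ) :
    phiK H Φ (j0K H (N0 * q)) = (X - C (j1K H N0 q)) * gBetaK H N0 q Φ := by
  apply Polynomial.map_injective _ (tB_injective H (N0 * q))
  rw [Polynomial.map_mul, map_gBetaK, Polynomial.map_sub, Polynomial.map_X, Polynomial.map_C,
    map_phiK, tB_j1K, tB_j0K]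
  exact phiJ0_eq hΦ

/-! ### Exports -/

/-- **(I1, `α`)** over `K = ℚ̄^H`: a power basis of `F_K(N0 q q)` over `F_K(N0 q)` along `α_K` with
generator `j₂` and minimal polynomial `G_α = Φ(X, j₁)/(X - j)`. -/
theorem exists_powerBasis_minpoly_alphaK (hq : q.Prime) (hqN0 : ¬ q ∣ N0)
    {Φ : Polynomial (Polynomial ℤ)} (hmonic : Φ.Monic) (hdeg : Φ.natDegree = q + 1)
    (hΦ : Φ.map (evalL ℤ (jqModC ℤ)) = rPoly q ℤ) :
    letI := (alphaK H (N0 * q) q).toAlgebra
    ∃ pb : PowerBasis (FK H (N0 * q)) (FK H (N0 * q * q)),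
      pb.gen = j2K H N0 q ∧ pb.dim = q ∧
        minpoly (FK H (N0 * q)) pb.gen = gAlphaK H N0 q Φ := by
  letI := (alphaK H (N0 * q) q).toAlgebra
  obtain ⟨pb, hgen, hdim⟩ := exists_powerBasis_alphaK H (N0 := N0) hq hqN0
  refine ⟨pb, hgen, hdim, ?_⟩
  refine minpoly_eq_of_powerBasis pb _ (monic_gAlphaK H hmonic hΦ hq) ?_ ?_
  · rw [natDegree_gAlphaK H hmonic hdeg hΦ hq, hdim]
  · rw [hgen]
    exact aeval_j2K_gAlphaK H hΦ hq

/-- **(I1, `β`)** over `K = ℚ̄^H`: a power basis of `F_K(N0 q q)` over `F_K(N0 q)` along `β_K` with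
generator `j` and minimal polynomial `G_β = Φ(X, j)/(X - j₁)` (coefficients read through `β_K`). -/
theorem exists_powerBasis_minpoly_betaK (hq : q.Prime)
    {Φ : Polynomial (Polynomial ℤ)}
    (hΦ : Φ.map (evalL ℤ (jqModC ℤ)) = rPoly q ℤ) :
    letI := (betaK H (N0 * q) q).toAlgebra
    ∃ pb : PowerBasis (FK H (N0 * q)) (FK H (N0 * q * q)),
      pb.gen = j0K H (N0 * q * q) ∧ pb.dim = q ∧
        minpoly (FK H (N0 * q)) pb.gen = gBetaK H N0 q Φ := by
  letI := (betaK H (N0 * q) q).toAlgebra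
  obtain ⟨pb, hgen, hdim⟩ := exists_powerBasis_betaK H (N0 := N0) hq
  refine ⟨pb, hgen, hdim, ?_⟩
  refine minpoly_eq_of_powerBasis pb _ (monic_gBetaK H hΦ) ?_ ?_
  · rw [natDegree_gBetaK H hΦ, hdim]
  · rw [hgen]
    exact aeval_j0K_gBetaK H hΦ hq

end Fermat.Agent.S36.MinpolyK0
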