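/-
PROJECT V (S36), slice V-ThetaPhi, part 3 (helper13): **saturation for free from `HasRep`.**

Setting of `S18/GaussFromH` (`L` any field over `ℚ`, `A : ValuationSubring L`, `π : A →+* k`,
`FL = L(X₀(N)) ⊆ L((t))`, `Fk ⊆ k((t))`): if every nonzero function is `c · a / b` with `a, b`
integral of nonzero reduction (`HasRep`), then an `A`-integral Laurent series `y` whose image lies
in `FL` and whose reduction `coeffMap π y` is NONZERO automatically has its reduction in `Fk`:
`y ∈ intRing A π N`.  Hence the function `f = y ⊗ L` is a unit of the Gauss ring `OwV` with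
`redV f = coeffMap π y`.

Use: `U = G(j)/q` of `S36/ThetaPhi` (`G` the minimal polynomial of `j(t^{q²})` over the level-`q`
field) is a unit of the Gauss ring `V₁`, with reduction `(j - j^{q²}) (θ j)^{q-1}`.
-/
import Mathlib
import Fermat.Agent.S18.GaussFromH

set_option autoImplicit false
set_option linter.unusedSectionVars false

noncomputable section

namespace Fermat.Agent.S36.GaussUnit

open HahnSeries IntermediateField ModularCurve
open Fermat.Agent.S18.GaussFromH

variable {L : Type*} [Field L] [Algebra ℚ L] {A : ValuationSubring L}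
variable {k : Type*} [Field k] {π : A →+* k} {N : ℕ}

/-- **Saturation from `HasRep`**: an integral series lying in `FL` with nonzero reduction is an
integral element (its reduction lies in `Fk`). -/
theorem mem_intRing_of_hasRep (hrep : HasRep A π N) (hπ : ∀ a : A, ¬ IsUnit a → π a = 0)
    {y : LaurentSeries A}
    (hy : coeffMap A.subtype y ∈ laurentBaseChange L (modularFunctionFieldFull N))
    (hne : coeffMap π y ≠ 0) : y ∈ intRing A π N := by
  refine mem_intRing.mpr ⟨hy, ?_⟩
  set f : ↥(laurentBaseChange L (modularFunctionFieldFull N)) := ⟨coeffMap A.subtype y, hy⟩ with hf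
  have hy0 : y ≠ 0 := by
    rintro rfl
    exact hne (map_zero _)
  have hf0 : f ≠ 0 := by
    intro h
    apply hy0
    apply coeffMap_subtype_injective (A := A)
    rw [map_zero]
    exact congrArg Subtype.val h
  obtain ⟨c, a, b, hc, ha, hb, h⟩ := hrep f hf0
  -- the identity in `L((t))`
  have hL : coeffMap A.subtype y * coeffMap A.subtype b.1 =
      algebraMap L (LaurentSeries L) c * coeffMap A.subtype a.1 := by
    have := congrArg Subtype.val h
    simpa using this
  have hred_a : coeffMap π a.1 ≠ 0 := fun h0 => ha (Subtype.ext (by rw [coe_red]; exact h0))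
  have hred_b : coeffMap π b.1 ≠ 0 := fun h0 => hb (Subtype.ext (by rw [coe_red]; exact h0))
  -- `c ∈ A`
  have hcA : c ∈ A := by
    by_contra hcA'
    have hcinv : c⁻¹ ∈ A := (A.mem_or_inv_mem c).resolve_left hcA'
    have hu : ¬ IsUnit (⟨c⁻¹, hcinv⟩ : A) := by
      intro hu
      obtain ⟨v, hv⟩ := hu
      apply hcA'
      have h1 : ((v⁻¹ : Aˣ) : A) * (⟨c⁻¹, hcinv⟩ : A) = 1 := by rw [← hv]; exact v.inv_mul
      have h2 : (((v⁻¹ : Aˣ) : A) : L) * c⁻¹ = 1 := by
        have := congrArg (Subtype.val) h1
        simpa using this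
      have h3 : (((v⁻¹ : Aˣ) : A) : L) = c := by
        field_simp at h2
        exact h2
      rw [← h3]
      exact ((v⁻¹ : Aˣ) : A).2
    have hπc := hπ ⟨c⁻¹, hcinv⟩ hu
    have hA : (HahnSeries.single 0 (⟨c⁻¹, hcinv⟩ : A) : LaurentSeries A) * (y * b.1) = a.1 := by
      apply coeffMap_subtype_injective (A := A)
      rw [map_mul, map_mul, hL, coeffMap_single, ← mul_assoc]
      have : (HahnSeries.single 0 (A.subtype ⟨c⁻¹, hcinv⟩) : LaurentSeries L) *
          algebraMap L (LaurentSeries L) c = 1 := by
        rw [algebraMap_laurentSeries_eq_single, HahnSeries.single_mul_single, add_zero]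
        show HahnSeries.single 0 (c⁻¹ * c) = 1
        rw [inv_mul_cancel₀ hc]
        rfl
      rw [this, one_mul]
    have hk := congrArg (coeffMap π) hA
    rw [map_mul, coeffMap_single, hπc, HahnSeries.single_eq_zero, zero_mul] at hk
    exact hred_a hk.symm
  have hA : y * b.1 = (HahnSeries.single 0 (⟨c, hcA⟩ : A) : LaurentSeries A) * a.1 := by
    apply coeffMap_subtype_injective (A := A)
    rw [map_mul, map_mul, hL, coeffMap_single, algebraMap_laurentSeries_eq_single]
    rfl
  have hk := congrArg (coeffMap π) hA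
  rw [map_mul, map_mul, coeffMap_single] at hk
  -- the reduction is a quotient in `Fk`
  have hq : coeffMap π y =
      algebraMap k (LaurentSeries k) (π ⟨c, hcA⟩) * coeffMap π a.1 * (coeffMap π b.1)⁻¹ := by
    rw [algebraMap_laurentSeries_eq_single, ← hk, mul_assoc, mul_inv_cancel₀ hred_b, mul_one]
  rw [hq]
  exact mul_mem (mul_mem ((modularFunctionFieldFullC k N).algebraMap_mem _) a.2.2)
    (inv_mem b.2.2)

/-- the integral element attached to a series as in `mem_intRing_of_hasRep` -/
def intOf (hrep : HasRep A π N) (hπ : ∀ a : A, ¬ IsUnit a → π a = 0)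
    (y : LaurentSeries A)
    (hy : coeffMap A.subtype y ∈ laurentBaseChange L (modularFunctionFieldFull N))
    (hne : coeffMap π y ≠ 0) : ↥(intRing A π N) :=
  ⟨y, mem_intRing_of_hasRep hrep hπ hy hne⟩

/-- **An `A`-integral function with nonzero reduction is a unit of the Gauss ring**, with
reduction the coefficientwise reduction of its expansion. -/
theorem isUnit_of_integral_expansion (hrep : HasRep A π N) (hπ : ∀ a : A, ¬ IsUnit a → π a = 0)
    (f : ↥(laurentBaseChange L (modularFunctionFieldFull N))) {y : LaurentSeries A}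
    (hfy : coeffMap A.subtype y = (f : LaurentSeries L)) (hne : coeffMap π y ≠ 0) :
    ∃ hf : f ∈ OwV A π N hrep, IsUnit (⟨f, hf⟩ : ↥(OwV A π N hrep)) ∧
      ((redV A π N hrep ⟨f, hf⟩ : ↥(modularFunctionFieldFullC k N)) : LaurentSeries k) =
        coeffMap π y := by
  have hy : coeffMap A.subtype y ∈ laurentBaseChange L (modularFunctionFieldFull N) := by
    rw [hfy]; exact f.2
  set a := intOf hrep hπ y hy hne with ha
  have hfa : f = toFL A π N a := Subtype.ext hfy.symm
  have hmem : f ∈ OwV A π N hrep := by rw [hfa]; exact toFL_mem_OwV hrep a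
  have hred : redV A π N hrep ⟨f, hmem⟩ = red A π N a := by
    have h := redV_toFL hrep a
    have he : (⟨f, hmem⟩ : ↥(OwV A π N hrep)) = ⟨toFL A π N a, toFL_mem_OwV hrep a⟩ :=
      Subtype.ext hfa
    rw [he, h]
  refine ⟨hmem, ?_, ?_⟩
  · by_contra hu
    have h0 := (redV_eq_zero_iff hrep ⟨f, hmem⟩).mpr hu
    rw [hred] at h0
    apply hne
    have := congrArg Subtype.val h0
    simpa [ha, intOf] using this
  · rw [hred, coe_red]
    rfl

end Fermat.Agent.S36.GaussUnit
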