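/-
PROJECT V (S36), slice V-ThetaPhi, part 1 (helper13): **the Euler derivation `θ = t d/dt` on
Laurent series** over a commutative ring.

* `thetaL f` : coefficientwise `(θ f)_n = n · f_n`;
* additivity, Leibniz rule (`thetaL_mul`), `thetaD : Derivation ℤ R((t)) R((t))`;
* `thetaL_coeffMap` (base change), `thetaL_qExpand : θ (f(t^N)) = N · (θ f)(t^N)`,
  `thetaL_single`, `thetaL_C`;
* bivariate chain rule for a derivation `D` of a commutative ring `S`:
  `D (Φ(x, y)) = Φ_X(x, y) · D x + Φ_Y(x, y) · D y` for `Φ ∈ ℤ[X][Y]`
  (`Φ_X = swap (derivative (swap Φ))`, `Φ_Y = derivative Φ`).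

Mathlib + Prelude only; design independent.
-/
import Mathlib
import Fermat.Prelude.Def_ModularCurve_X0
import Fermat.Prelude.Def_ModularCurve_LaurentCoeff

set_option autoImplicit false

noncomputable section

namespace Fermat.Agent.S36.ThetaL

open HahnSeries ModularCurve Polynomial

section Theta

variable {R : Type*} [CommRing R]

/-- The Euler derivation `θ = t d/dt` on Laurent series: `(θ f)_n = n f_n`. -/
def thetaL (f : LaurentSeries R) : LaurentSeries R where
  coeff n := (n : R) * f.coeff n
  isPWO_support' := f.isPWO_support.mono fun n hn => by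
    simp only [Function.mem_support, ne_eq] at hn ⊢
    intro h
    exact hn (by rw [h, mul_zero])

@[simp] theorem coeff_thetaL (f : LaurentSeries R) (n : ℤ) :
    (thetaL f).coeff n = (n : R) * f.coeff n := rfl

theorem support_thetaL_subset (f : LaurentSeries R) : (thetaL f).support ⊆ f.support := by
  intro n hn
  simp only [HahnSeries.mem_support, coeff_thetaL, ne_eq] at hn ⊢
  intro h
  exact hn (by rw [h, mul_zero])

@[simp] theorem thetaL_zero : thetaL (0 : LaurentSeries R) = 0 := by
  ext n; simp

theorem thetaL_add (f g : LaurentSeries R) : thetaL (f + g) = thetaL f + thetaL g := by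
  ext n; simp [mul_add]

theorem thetaL_neg (f : LaurentSeries R) : thetaL (-f) = -thetaL f := by
  ext n; simp

theorem thetaL_sub (f g : LaurentSeries R) : thetaL (f - g) = thetaL f - thetaL g := by
  ext n; simp [mul_sub]

theorem thetaL_single (n : ℤ) (r : R) :
    thetaL (HahnSeries.single n r : LaurentSeries R) = HahnSeries.single n ((n : R) * r) := by
  ext m
  rcases eq_or_ne m n with rfl | hm
  · simp [HahnSeries.coeff_single_same]
  · simp [HahnSeries.coeff_single_of_ne hm]

@[simp] theorem thetaL_C (r : R) : thetaL (HahnSeries.C r : LaurentSeries R) = 0 := by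
  change thetaL (HahnSeries.single 0 r : LaurentSeries R) = 0
  rw [thetaL_single]
  simp

/-- **Leibniz rule** for `θ`. -/
theorem thetaL_mul (f g : LaurentSeries R) :
    thetaL (f * g) = thetaL f * g + f * thetaL g := by
  ext a
  rw [coeff_thetaL, HahnSeries.coeff_add,
    HahnSeries.coeff_mul_left' f.isPWO_support (support_thetaL_subset f),
    HahnSeries.coeff_mul_right' g.isPWO_support (support_thetaL_subset g),
    HahnSeries.coeff_mul, Finset.mul_sum, ← Finset.sum_add_distrib]
  refine Finset.sum_congr rfl fun ij hij => ?_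
  rw [Finset.mem_antidiagonal] at hij
  obtain ⟨-, -, hsum⟩ := hij
  rw [coeff_thetaL, coeff_thetaL, ← hsum]
  push_cast
  ring

@[simp] theorem thetaL_one : thetaL (1 : LaurentSeries R) = 0 := by
  change thetaL (HahnSeries.single 0 1 : LaurentSeries R) = 0
  rw [thetaL_single]
  simp

/-- `θ` as an additive map. -/
def thetaAdd : LaurentSeries R →+ LaurentSeries R where
  toFun := thetaL
  map_zero' := thetaL_zero
  map_add' := thetaL_add

/-- `θ` as a `ℤ`-derivation of `R((t))`. -/
def thetaD : Derivation ℤ (LaurentSeries R) (LaurentSeries R) where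
  toFun := thetaL
  map_add' := thetaL_add
  map_smul' n f := by
    simp only [RingHom.id_apply]
    have h2 : ((n : LaurentSeries R)) = HahnSeries.C (n : R) := by simp
    rw [Algebra.smul_def, zsmul_eq_mul, eq_intCast, thetaL_mul, h2, thetaL_C, zero_mul,
      zero_add]
  map_one_eq_zero' := thetaL_one
  leibniz' f g := by
    change thetaL (f * g) = f • thetaL g + g • thetaL f
    rw [thetaL_mul, smul_eq_mul, smul_eq_mul]
    ring

@[simp] theorem thetaD_apply (f : LaurentSeries R) : thetaD f = thetaL f := rfl

theorem thetaL_pow (f : LaurentSeries R) (n : ℕ) :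
    thetaL (f ^ n) = (n : LaurentSeries R) * f ^ (n - 1) * thetaL f := by
  have h := Derivation.leibniz_pow (thetaD (R := R)) f n
  rw [thetaD_apply, thetaD_apply] at h
  rw [h, nsmul_eq_mul, smul_eq_mul, mul_assoc]

/-- base change -/
theorem thetaL_coeffMap {S : Type*} [CommRing S] (φ : R →+* S) (f : LaurentSeries R) :
    thetaL (coeffMap φ f) = coeffMap φ (thetaL f) := by
  ext n
  simp

/-- `θ (f(t^N)) = N · (θ f)(t^N)`. -/
theorem thetaL_qExpand (N : ℕ) [NeZero N] (f : LaurentSeries R) :
    thetaL (qExpand R N f) = (N : LaurentSeries R) * qExpand R N (thetaL f) := by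
  ext n
  have hN : ((N : LaurentSeries R)) = HahnSeries.C (N : R) := by
    simp
  rw [hN, HahnSeries.C_mul_eq_smul, HahnSeries.coeff_smul, smul_eq_mul, coeff_thetaL]
  by_cases hn : (N : ℤ) ∣ n
  · obtain ⟨k, rfl⟩ := hn
    rw [qExpand_coeff_mul, qExpand_coeff_mul, coeff_thetaL]
    push_cast
    ring
  · rw [qExpand_coeff_of_not_dvd N f hn, qExpand_coeff_of_not_dvd N (thetaL f) hn, mul_zero,
      mul_zero]

end Theta

/-! ### bivariate chain rule -/

section Chain

open Polynomial.Bivariate

section DX

variable {R : Type*} [CommRing R]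

/-- the partial derivative with respect to the inner variable `X` of `Φ ∈ R[X][Y]` -/
def dX (Φ : R[X][Y]) : R[X][Y] := Bivariate.swap (derivative (Bivariate.swap Φ))

theorem dX_add (Φ Ψ : R[X][Y]) : dX (Φ + Ψ) = dX Φ + dX Ψ := by
  simp [dX]

theorem dX_neg (Φ : R[X][Y]) : dX (-Φ) = -dX Φ := by
  simp [dX]

theorem dX_sub (Φ Ψ : R[X][Y]) : dX (Φ - Ψ) = dX Φ - dX Ψ := by
  simp [dX]

theorem dX_mul (Φ Ψ : R[X][Y]) : dX (Φ * Ψ) = dX Φ * Ψ + Φ * dX Ψ := by
  simp only [dX, map_mul, derivative_mul, map_add, Bivariate.swap_swap_apply]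

theorem dX_Y : dX (Polynomial.X : R[X][Y]) = 0 := by
  rw [dX, Bivariate.swap_Y, derivative_C, map_zero]

theorem dX_C (p : R[X]) : dX (Polynomial.C p : R[X][Y]) = Polynomial.C (derivative p) := by
  rw [dX, Bivariate.swap_C, derivative_map, Bivariate.swap_map_C]

theorem dX_pow (Φ : R[X][Y]) (n : ℕ) :
    dX (Φ ^ n) = Polynomial.C (n : R[X]) * Φ ^ (n - 1) * dX Φ := by
  simp only [dX, map_pow, derivative_pow, map_mul, Bivariate.swap_swap_apply]
  simp

theorem dX_monomial_monomial (n m : ℕ) (a : R) :
    dX (monomial n (monomial m a)) = monomial n (monomial (m - 1) (a * m)) := by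
  rw [dX, Bivariate.swap_monomial_monomial, derivative_monomial]
  have : (monomial n a : R[X]) * ((m : ℕ) : R[X]) = monomial n (a * m) := by
    rw [← C_eq_natCast, monomial_mul_C]
  rw [this, Bivariate.swap_monomial_monomial]

/-- base change -/
theorem dX_map {S : Type*} [CommRing S] (f : R →+* S) (Φ : R[X][Y]) :
    (dX Φ).map (mapRingHom f) = dX (Φ.map (mapRingHom f)) := by
  induction Φ using Polynomial.induction_on' with
  | add p q hp hq => rw [dX_add, Polynomial.map_add, Polynomial.map_add, dX_add, hp, hq]
  | monomial n c =>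
    induction c using Polynomial.induction_on' with
    | add p q hp hq =>
      rw [(monomial n).map_add, dX_add, Polynomial.map_add, Polynomial.map_add, dX_add, hp, hq]
    | monomial m a =>
      rw [dX_monomial_monomial, Polynomial.map_monomial, Polynomial.map_monomial,
        coe_mapRingHom, Polynomial.map_monomial, Polynomial.map_monomial,
        dX_monomial_monomial, map_mul, map_natCast]

end DX

variable {S : Type*} [CommRing S] [Algebra ℤ S]

/-- **Bivariate chain rule**: for a derivation `D` of `S`, a ring homomorphism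
`φ : ℤ[X] → S` (evaluation at `x = φ X`) and `y : S`:
`D (Φ(x, y)) = (∂_X Φ)(x, y) · D x + (∂_Y Φ)(x, y) · D y`. -/
theorem deriv_eval_map (D : Derivation ℤ S S) (φ : ℤ[X] →+* S) (y : S) (Φ : ℤ[X][Y]) :
    D ((Φ.map φ).eval y) =
      ((dX Φ).map φ).eval y * D (φ Polynomial.X) + ((derivative Φ).map φ).eval y * D y := by
  induction Φ using Polynomial.induction_on' with
  | add p q hp hq =>
    rw [Polynomial.map_add, eval_add, map_add, hp, hq, dX_add, derivative_add,
      Polynomial.map_add, Polynomial.map_add, eval_add, eval_add]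
    ring
  | monomial n c =>
    induction c using Polynomial.induction_on' with
    | add p q hp hq =>
      rw [(monomial n).map_add, Polynomial.map_add, eval_add, map_add, hp, hq, dX_add,
        derivative_add, Polynomial.map_add, Polynomial.map_add, eval_add, eval_add]
      ring
    | monomial m a =>
      have hC : ∀ b : ℤ, φ (Polynomial.C b) = (b : S) := fun b =>
        eq_intCast (φ.comp Polynomial.C) b
      have hmon : ∀ (k : ℕ) (b : ℤ), φ (monomial k b) = (b : S) * φ Polynomial.X ^ k := by
        intro k b
        rw [← C_mul_X_pow_eq_monomial, map_mul, map_pow, hC]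
      rw [dX_monomial_monomial, derivative_monomial, Polynomial.map_monomial,
        Polynomial.map_monomial, Polynomial.map_monomial, eval_monomial, eval_monomial,
        eval_monomial, map_mul φ, map_natCast φ, hmon, hmon]
      simp only [Derivation.leibniz, Derivation.leibniz_pow, smul_eq_mul, nsmul_eq_mul,
        Derivation.map_intCast, mul_zero, add_zero]
      push_cast
      ring

end Chain

end Fermat.Agent.S36.ThetaL
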