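/-
PROJECT V (S36), slice V-ThetaPhi, part 2 (helper13): **the second-order congruence for the
modular polynomial from the Euler derivation.**

`Φ ∈ ℤ[X][Y]` the modular polynomial of prime level `q` (`S34.Kronecker.kronecker`:
`Φ(Y, j(t)) = rPoly q ℤ = (Y - j(t^q)) ∏_b (Y - j(ζ^b t^{1/q}))`), `j₀ = j(t)`, `j₁ = j(t^q)`.
Then `Y = j₀` is a root of `P(Y) := Φ(Y, j₁)` (the minimal polynomial of `j(t^{q²})` over the
level-`q` field is `G = P / (Y - j₀)`), and

  `G(j₀) = P'(j₀) = q · U`,   `U ∈ ℤ((t))`,   `U mod q = (j - j^{q²}) · (θ j)^{q-1} ≠ 0`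

(`θ = t d/dt`).  Proof: apply `θ` to `Φ(j₀, j₁) = 0`:
`P'(j₀) θ j₀ + (∂_X Φ)(j₀, j₁) · q (θ j)(t^q) = 0`, `θ j₀` is a unit of `ℤ((t))`, and
`∂_X Φ ≡ -(Y - X^q) mod q` by Kronecker.  This is the input `Phi.eval a = varpi * unit` of
`S36.EisensteinRoot.exists_decomp` for `W₁₁` (`e = q - 1`), with `a = j`, `varpi = q`.
-/
import Mathlib
import Fermat.Agent.S36.ThetaL
import Fermat.Agent.S34.Kronecker

set_option autoImplicit false
set_option linter.unusedSectionVars false

noncomputable section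

namespace Fermat.Agent.S36.ThetaPhi

open HahnSeries ModularCurve Polynomial Polynomial.Bivariate
open Fermat.Agent.S36.ThetaL
open Fermat.Agent.S28.ModPoly

/-! ### generalities -/

section General

variable {R : Type*} [CommRing R]

theorem qExpand_comp_evalL' (p : ℕ) [NeZero p] (y : LaurentSeries R) :
    (qExpand R p).comp (evalL R y) = evalL R (qExpand R p y) := by
  apply Polynomial.ringHom_ext
  · intro a
    rw [RingHom.comp_apply, evalL_C, evalL_C, qExpand_C]
  · rw [RingHom.comp_apply, evalL_X, evalL_X]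

/-- the derivative at a root is the value of the cofactor -/
theorem derivative_eval_of_eq_mul {S : Type*} [CommRing S] {P G : Polynomial S} {a : S}
    (h : P = (X - Polynomial.C a) * G) : P.derivative.eval a = G.eval a := by
  rw [h, derivative_mul, eval_add, eval_mul, eval_mul, eval_sub, eval_X, eval_C, sub_self,
    zero_mul, add_zero, derivative_sub, derivative_X, derivative_C, sub_zero, eval_one, one_mul]

end General

/-! ### `j(t)` is a root of `Φ(Y, j(t^q))` -/

section Root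

variable (q : ℕ) [NeZero q]

local notation "Kb" => AlgebraicClosure ℚ

/-- `j(t)` is a root of `gPoly(t^q) = ∏_b (Y - j(ζ^b t))` over `ℚ̄`. -/
theorem eval_map_qExpand_gPoly_bar :
    ((gPoly q Kb).map (qExpand Kb q)).eval (jqModC Kb) = 0 := by
  have hqk : ((q : ℕ) : Kb) ≠ 0 := Nat.cast_ne_zero.mpr (NeZero.ne q)
  obtain ⟨ζ, hζ⟩ := Fermat.Agent.S28.StepDeg.exists_isPrimitiveRoot_units (k := Kb) (p := q) hqk
  rw [map_qExpand_gPoly q Kb hζ, Polynomial.eval_prod]
  refine Finset.prod_eq_zero (Finset.mem_range.mpr (Nat.pos_of_ne_zero (NeZero.ne q))) ?_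
  rw [pow_zero, Fermat.Agent.S28.LaurentRescale.rescaleU_one, eval_sub, eval_X, eval_C, sub_self]

/-- `j(t)` is a root of `gPoly(t^q)` over `ℤ`. -/
theorem eval_map_qExpand_gPoly_int :
    ((gPoly q ℤ).map (qExpand ℤ q)).eval (jqModC ℤ) = 0 := by
  have hinj : Function.Injective (coeffMap (Int.castRingHom Kb)) :=
    Fermat.Agent.S34.Kronecker.coeffMap_injective (RingHom.injective_int (Int.castRingHom Kb))
  apply hinj
  rw [map_zero, ← Polynomial.eval_map_apply, Polynomial.map_map]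
  have hcomp : (coeffMap (Int.castRingHom Kb)).comp (qExpand ℤ q) =
      (qExpand Kb q).comp (coeffMap (Int.castRingHom Kb)) := by
    refine RingHom.ext fun x => ?_
    exact Fermat.Agent.S28.PrimeCaseForm.coeffMap_qExpand _ q x
  rw [hcomp, ← Polynomial.map_map, map_gPoly, coeffMap_jqModC]
  exact eval_map_qExpand_gPoly_bar q

variable {q}

/-- **`Y = j(t)` is a root of `Φ(Y, j(t^q))`.** -/
theorem eval_map_evalL_qExpand {Φ : ℤ[X][Y]} (hΦ : Φ.map (evalL ℤ (jqModC ℤ)) = rPoly q ℤ) :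
    (Φ.map (evalL ℤ (qExpand ℤ q (jqModC ℤ)))).eval (jqModC ℤ) = 0 := by
  rw [← qExpand_comp_evalL', ← Polynomial.map_map, hΦ, rPoly, Polynomial.map_mul, eval_mul,
    eval_map_qExpand_gPoly_int, mul_zero]

end Root

/-! ### `θ j` -/

section ThetaJ

variable (R : Type*) [CommRing R]

theorem coeff_thetaL_jqModC_neg_one : (thetaL (jqModC R)).coeff (-1) = -1 := by
  rw [coeff_thetaL, coeff_jqModC_neg_one]
  simp

theorem coeff_thetaL_jqModC_of_lt {k : ℤ} (hk : k < -1) : (thetaL (jqModC R)).coeff k = 0 := by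
  rw [coeff_thetaL, coeff_jqModC_of_lt R hk, mul_zero]

theorem thetaL_jqModC_ne_zero [Nontrivial R] : thetaL (jqModC R) ≠ 0 := by
  intro h
  have := coeff_thetaL_jqModC_neg_one R
  rw [h, HahnSeries.coeff_zero] at this
  exact (neg_ne_zero.mpr one_ne_zero) this.symm

theorem order_thetaL_jqModC [Nontrivial R] : (thetaL (jqModC R)).order = -1 := by
  apply le_antisymm
  · apply HahnSeries.order_le_of_coeff_ne_zero
    rw [coeff_thetaL_jqModC_neg_one]
    exact neg_ne_zero.mpr one_ne_zero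
  · by_contra hlt
    rw [not_le] at hlt
    have h0 := coeff_thetaL_jqModC_of_lt R hlt
    rw [HahnSeries.coeff_order_eq_zero] at h0
    exact thetaL_jqModC_ne_zero R h0

/-- `θ j = -t⁻¹ + …` is a unit of `R((t))` (`R` a domain). -/
theorem isUnit_thetaL_jqModC [IsDomain R] : IsUnit (thetaL (jqModC R)) := by
  rw [HahnSeries.isUnit_iff, HahnSeries.leadingCoeff_eq, order_thetaL_jqModC,
    coeff_thetaL_jqModC_neg_one]
  exact isUnit_one.neg

end ThetaJ

/-! ### the main identity over `ℤ` -/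

section Main

variable {q : ℕ} [NeZero q]

/-- **the `θ`-identity**: `P'(j₀) · θ j₀ = - q · (∂_X Φ)(j₀, j₁) · (θ j)(t^q)`. -/
theorem deriv_mul_thetaL {Φ : ℤ[X][Y]} (hΦ : Φ.map (evalL ℤ (jqModC ℤ)) = rPoly q ℤ) :
    ((derivative Φ).map (evalL ℤ (qExpand ℤ q (jqModC ℤ)))).eval (jqModC ℤ) * thetaL (jqModC ℤ) =
      -((q : LaurentSeries ℤ) *
        (((dX Φ).map (evalL ℤ (qExpand ℤ q (jqModC ℤ)))).eval (jqModC ℤ) *
          qExpand ℤ q (thetaL (jqModC ℤ)))) := by
  have h := deriv_eval_map (thetaD (R := ℤ)) (evalL ℤ (qExpand ℤ q (jqModC ℤ))) (jqModC ℤ) Φ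
  rw [eval_map_evalL_qExpand hΦ, map_zero, thetaD_apply, thetaD_apply, evalL_X,
    thetaL_qExpand] at h
  linear_combination -h

/-- **`P'(j₀) = q · U`** with `U · θ j₀ = - (∂_X Φ)(j₀, j₁) · (θ j)(t^q)`. -/
theorem exists_deriv_eq_mul {Φ : ℤ[X][Y]} (hΦ : Φ.map (evalL ℤ (jqModC ℤ)) = rPoly q ℤ) :
    ∃ U : LaurentSeries ℤ,
      ((derivative Φ).map (evalL ℤ (qExpand ℤ q (jqModC ℤ)))).eval (jqModC ℤ) =
        (q : LaurentSeries ℤ) * U ∧
      U * thetaL (jqModC ℤ) =
        -(((dX Φ).map (evalL ℤ (qExpand ℤ q (jqModC ℤ)))).eval (jqModC ℤ) *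
          qExpand ℤ q (thetaL (jqModC ℤ))) := by
  obtain ⟨u, hu⟩ := isUnit_thetaL_jqModC ℤ
  have h := deriv_mul_thetaL hΦ
  set A := ((derivative Φ).map (evalL ℤ (qExpand ℤ q (jqModC ℤ)))).eval (jqModC ℤ) with hA
  set B := ((dX Φ).map (evalL ℤ (qExpand ℤ q (jqModC ℤ)))).eval (jqModC ℤ) with hB
  set T := qExpand ℤ q (thetaL (jqModC ℤ)) with hT
  rw [← hu] at h ⊢
  refine ⟨-(B * T) * ((u⁻¹ : (LaurentSeries ℤ)ˣ) : LaurentSeries ℤ), ?_, ?_⟩
  · have h1 : A = A * (u : LaurentSeries ℤ) * ((u⁻¹ : (LaurentSeries ℤ)ˣ) : LaurentSeries ℤ) := by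
      rw [mul_assoc, Units.mul_inv, mul_one]
    rw [h1, h]
    ring
  · rw [mul_assoc, Units.inv_mul, mul_one]

end Main

/-! ### reduction modulo `q` -/

section ModQ

variable {R S : Type*} [CommRing R] [CommRing S]

theorem coeffMap_comp_evalL (c : R →+* S) (x : LaurentSeries R) :
    (coeffMap c).comp (evalL R x) = (evalL S (coeffMap c x)).comp (mapRingHom c) := by
  apply Polynomial.ringHom_ext
  · intro a
    rw [RingHom.comp_apply, RingHom.comp_apply, evalL_C, coe_mapRingHom, Polynomial.map_C, evalL_C]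
    exact coeffMap_single c 0 a
  · rw [RingHom.comp_apply, RingHom.comp_apply, evalL_X, coe_mapRingHom, Polynomial.map_X, evalL_X]

/-- base change of a bivariate evaluation -/
theorem coeffMap_eval_map_evalL (c : R →+* S) (x y : LaurentSeries R) (P : R[X][Y]) :
    coeffMap c ((P.map (evalL R x)).eval y) =
      ((P.map (mapRingHom c)).map (evalL S (coeffMap c x))).eval (coeffMap c y) := by
  rw [← Polynomial.eval_map_apply, Polynomial.map_map, coeffMap_comp_evalL, ← Polynomial.map_map]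

variable {q : ℕ} [hq : Fact q.Prime] [NeZero q] {k : Type*} [Field k] [CharP k q]

/-- `∂_X` of the Kronecker product in characteristic `q`. -/
theorem dX_kronecker :
    dX ((Polynomial.X - Polynomial.C (Polynomial.X ^ q)) *
        (Polynomial.X ^ q - Polynomial.C Polynomial.X) : k[X][Y]) =
      -(Polynomial.X - Polynomial.C (Polynomial.X ^ q)) := by
  have hq0 : ((q : ℕ) : k) = 0 := CharP.cast_eq_zero k q
  rw [dX_mul, dX_sub, dX_sub, dX_Y, dX_C, dX_C, dX_pow, dX_Y, derivative_X_pow, derivative_X, hq0,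
    map_zero, zero_mul, map_zero, mul_zero, map_one]
  ring

/-- series with coefficients in the prime field: `z(t^q) = z^q`. -/
theorem qExpand_coeffMap_intCast (w : LaurentSeries ℤ) :
    qExpand k q (coeffMap (Int.castRingHom k) w) = (coeffMap (Int.castRingHom k) w) ^ q := by
  rw [Fermat.Agent.S37.ES.KummerPoly.pow_char_eq_qExpand q, coeffMap_coeffMap,
    RingHom.ext_int ((frobenius k q).comp (Int.castRingHom k)) (Int.castRingHom k)]

theorem jk_ne_jk_pow (hq1 : 1 < q) : jqModC k - jqModC k ^ (q ^ 2) ≠ 0 := by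
  intro h
  have h1 : (jqModC k - jqModC k ^ (q ^ 2)).coeff (-((q ^ 2 : ℕ) : ℤ)) = -1 := by
    rw [HahnSeries.coeff_sub, coeff_jqModC_pow_self, coeff_jqModC_of_lt, zero_sub]
    have : (1 : ℤ) < ((q ^ 2 : ℕ) : ℤ) := by
      have : 1 < q ^ 2 := Nat.one_lt_pow (by norm_num) hq1
      exact_mod_cast this
    linarith
  rw [h, HahnSeries.coeff_zero] at h1
  exact (neg_ne_zero.mpr one_ne_zero) h1.symm

/-- **The unit `U = P'(j₀)/q` modulo `q`**: `U ≡ (j - j^{q²}) (θ j)^{q-1}`. -/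
theorem coeffMap_U_eq {Φ : ℤ[X][Y]}
    (hΦk : Φ.map (mapRingHom (Int.castRingHom k)) =
      (Polynomial.X - Polynomial.C (Polynomial.X ^ q)) *
        (Polynomial.X ^ q - Polynomial.C Polynomial.X))
    {U : LaurentSeries ℤ}
    (hU : U * thetaL (jqModC ℤ) =
        -(((dX Φ).map (evalL ℤ (qExpand ℤ q (jqModC ℤ)))).eval (jqModC ℤ) *
          qExpand ℤ q (thetaL (jqModC ℤ)))) :
    coeffMap (Int.castRingHom k) U =
      (jqModC k - jqModC k ^ (q ^ 2)) * thetaL (jqModC k) ^ (q - 1) := by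
  have hθ : thetaL (jqModC k) ≠ 0 := thetaL_jqModC_ne_zero k
  have h1 := congrArg (coeffMap (Int.castRingHom k)) hU
  rw [map_mul, map_neg, map_mul, coeffMap_eval_map_evalL, dX_map, hΦk, dX_kronecker,
    ← thetaL_coeffMap, coeffMap_jqModC, Fermat.Agent.S28.PrimeCaseForm.coeffMap_qExpand,
    Fermat.Agent.S28.PrimeCaseForm.coeffMap_qExpand, ← thetaL_coeffMap, coeffMap_jqModC,
    Fermat.Agent.S34.Kronecker.qExpand_jqModC_char] at h1
  have h2 : qExpand k q (thetaL (jqModC k)) = thetaL (jqModC k) ^ q := by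
    have := qExpand_coeffMap_intCast (q := q) (k := k) (thetaL (jqModC ℤ))
    rwa [← thetaL_coeffMap, coeffMap_jqModC] at this
  rw [h2] at h1
  simp only [Polynomial.map_neg, Polynomial.map_sub, Polynomial.map_X, Polynomial.map_C,
    Polynomial.map_pow, map_pow, evalL_X, eval_neg, eval_sub, eval_X, eval_pow, eval_C] at h1
  have hq1 : q - 1 + 1 = q := Nat.sub_add_cancel hq.out.pos
  apply mul_right_cancel₀ hθ
  rw [h1, mul_assoc, ← pow_succ, hq1, ← pow_mul, sq]
  ring

theorem coeffMap_U_ne_zero {Φ : ℤ[X][Y]}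
    (hΦk : Φ.map (mapRingHom (Int.castRingHom k)) =
      (Polynomial.X - Polynomial.C (Polynomial.X ^ q)) *
        (Polynomial.X ^ q - Polynomial.C Polynomial.X))
    {U : LaurentSeries ℤ}
    (hU : U * thetaL (jqModC ℤ) =
        -(((dX Φ).map (evalL ℤ (qExpand ℤ q (jqModC ℤ)))).eval (jqModC ℤ) *
          qExpand ℤ q (thetaL (jqModC ℤ)))) :
    coeffMap (Int.castRingHom k) U ≠ 0 := by
  rw [coeffMap_U_eq hΦk hU]
  exact mul_ne_zero (jk_ne_jk_pow hq.out.one_lt) (pow_ne_zero _ (thetaL_jqModC_ne_zero k))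

end ModQ

/-! ### the packaged statement -/

section Packaged

variable (q : ℕ) [hq : Fact q.Prime] [NeZero q]

/-- **Second-order Kronecker at the root `j`**: for the modular polynomial `Φ` of level `q`
(any `Φ ∈ ℤ[X][Y]` with `Φ(Y, j(t)) = rPoly q ℤ` and the Kronecker congruence), there is
`U ∈ ℤ((t))` with `(∂_Y Φ)(j(t), j(t^q)) = q · U` and, in every field `k` of characteristic `q`,
`U ≡ (j - j^{q²}) (θ j)^{q-1} ≠ 0`. -/
theorem exists_U {Φ : ℤ[X][Y]} (hΦ : Φ.map (evalL ℤ (jqModC ℤ)) = rPoly q ℤ) :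
    ∃ U : LaurentSeries ℤ,
      ((derivative Φ).map (evalL ℤ (qExpand ℤ q (jqModC ℤ)))).eval (jqModC ℤ) =
        (q : LaurentSeries ℤ) * U ∧
      ∀ (k : Type) [Field k] [CharP k q],
        Φ.map (mapRingHom (Int.castRingHom k)) =
          (Polynomial.X - Polynomial.C (Polynomial.X ^ q)) *
            (Polynomial.X ^ q - Polynomial.C Polynomial.X) →
        coeffMap (Int.castRingHom k) U =
            (jqModC k - jqModC k ^ (q ^ 2)) * thetaL (jqModC k) ^ (q - 1) ∧
          coeffMap (Int.castRingHom k) U ≠ 0 := by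
  obtain ⟨U, hU1, hU2⟩ := exists_deriv_eq_mul hΦ
  exact ⟨U, hU1, fun k _ _ hΦk => ⟨coeffMap_U_eq hΦk hU2, coeffMap_U_ne_zero hΦk hU2⟩⟩

/-- The same over an arbitrary coefficient ring `R` (e.g. `ℚ̄`, `K₀`, a valuation ring): with
`Φ_R = Φ ⊗ R`, `(∂_Y Φ_R)(j(t), j(t^q)) = q · U_R`, `U_R = U ⊗ R`. -/
theorem deriv_eval_eq_base {R : Type*} [CommRing R] {Φ : ℤ[X][Y]} {U : LaurentSeries ℤ}
    (hU : ((derivative Φ).map (evalL ℤ (qExpand ℤ q (jqModC ℤ)))).eval (jqModC ℤ) =
      (q : LaurentSeries ℤ) * U) :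
    ((derivative (Φ.map (mapRingHom (Int.castRingHom R)))).map
        (evalL R (qExpand R q (jqModC R)))).eval (jqModC R) =
      (q : LaurentSeries R) * coeffMap (Int.castRingHom R) U := by
  have h := congrArg (coeffMap (Int.castRingHom R)) hU
  rw [coeffMap_eval_map_evalL, Fermat.Agent.S28.PrimeCaseForm.coeffMap_qExpand, coeffMap_jqModC,
    map_mul, map_natCast, ← derivative_map] at h
  exact h

/-- cofactor form: if `Φ_R(Y, j(t^q)) = (Y - j(t)) · G` then `G(j(t)) = q · U_R`. -/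
theorem cofactor_eval_eq_base {R : Type*} [CommRing R] {Φ : ℤ[X][Y]} {U : LaurentSeries ℤ}
    (hU : ((derivative Φ).map (evalL ℤ (qExpand ℤ q (jqModC ℤ)))).eval (jqModC ℤ) =
      (q : LaurentSeries ℤ) * U)
    {G : Polynomial (LaurentSeries R)}
    (hG : (Φ.map (mapRingHom (Int.castRingHom R))).map (evalL R (qExpand R q (jqModC R))) =
      (Polynomial.X - Polynomial.C (jqModC R)) * G) :
    G.eval (jqModC R) = (q : LaurentSeries R) * coeffMap (Int.castRingHom R) U := by
  rw [← derivative_eval_of_eq_mul hG, derivative_map]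
  exact deriv_eval_eq_base q hU

end Packaged

end Fermat.Agent.S36.ThetaPhi
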