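/-
PROJECT V (S36), slice V-ThetaX0, part 2 (helper13): **inputs (I2) and (I3) of the three-valuation
analysis on the concrete objects over `ℚ̄`.**

`q` prime, `q ∤ M`, `A` a valuation subring of `ℚ̄` over `q`, `E (M q) = ℚ̄(X₀(M q))`, `j = jgen`,
`j₁ = j(t^q) = jl M q`, `Φ ∈ ℤ[X][Y]` the Kronecker modular polynomial,
`G = Φ(Y, j₁)/(Y - j) = gPolyJ2 M q Φ` the minimal polynomial of `j₂ = j(t^{q²})` over `E (M q)`
(`S36/MinpolyJ2`), `(V₁, red₁)`, `(V₂, red₂)` the two Gauss data of level `M q`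
(`S34/GaussPairX0`), `J = jk` the `j`-function of the reduction.

* `valE_eval_cofactor` : the `t`-expansion of `G(j)` is `q · U_{ℚ̄}`, `U ∈ ℤ((t))` the series of
  `S36/ThetaPhi.exists_U`; `eval_cofactor_eq_derivative` : `G(j) = (∂_Y Φ)(j, j₁)`, visibly a
  `ℤ`-polynomial in `j, j₁` (hence rational over every subfield of constants);
* **(I3)** `exists_unit_eval_cofactor` / `exists_unit_eval_gPolyJ2` : `G(j) = q · u` with `u` a UNIT
  of `V₁` and `red₁ u = (J - J^{q²}) (θ J)^{q-1}` as a `t`-series;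
  mirror `exists_unit_eval_cofactor_mirror` : for `G' = Φ(Y, j)/(Y - j₁)` (the minimal polynomial of
  `j₀` over `β E (M q)`): `G'(j₁) = q · u'`, `u'` a unit of `V₂`, `red₂ u' = red₁ u`;
* **(I2)** `exists_cofactor_V₁` : `G ∈ V₁[Y]` and `red₁ G = (Y - J)^{q-1} (Y - J^{q²})`;
  `exists_cofactor_V₂` : `G ∈ V₂[Y]` and `red₂ G = Y^q - J`.
-/
import Mathlib
import Fermat.Agent.S36.MinpolyJ2
import Fermat.Agent.S36.ThetaPhi
import Fermat.Agent.S36.GaussUnit
import Fermat.Agent.S36.KroneckerRed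
import Fermat.Agent.S34.GaussPairX0
import Fermat.Agent.S34.EulerX0

set_option autoImplicit false
set_option linter.unusedSectionVars false
set_option linter.style.haveILetI false

noncomputable section

namespace Fermat.Agent.S36.ThetaX0

open Polynomial ModularCurve AlgebraicCurve IsLocalRing
open Fermat.Agent.S24.DegreeAlg (jgen)
open Fermat.Agent.S18.B.FkBasics (jk)
open Fermat.Agent.S18.GaussFromH
open Fermat.Agent.S35.LevelMaps
open Fermat.Agent.S28.ModPoly
open Fermat.Agent.S37.Gauss.Datum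
open Fermat.Agent.S34.PowerBasisX0
open Fermat.Agent.S36.MinpolyJ2 Fermat.Agent.S36.ThetaL Fermat.Agent.S36.ThetaPhi
open Fermat.Agent.S36.KroneckerRed
open Fermat.Agent.S34.GaussPairX0

local notation "Kb" => AlgebraicClosure ℚ

set_option synthInstance.maxHeartbeats 400000
set_option maxHeartbeats 1000000

section Expansion

variable {N0 q : ℕ} [NeZero N0] [hq : Fact q.Prime] [NeZero q] [NeZero (N0 * q)]

/-- `Φ_{ℚ̄}(Y, j(t^q)) = (Y - j) · G` as polynomials over `ℚ̄((t))`. -/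
theorem map_map_eq_mul {Φ : Polynomial (Polynomial ℤ)} {G : Polynomial (E (N0 * q))}
    (hG : phiJ1 N0 q Φ = (Polynomial.X - Polynomial.C (jgen (N0 * q))) * G) :
    (Φ.map (mapRingHom (Int.castRingHom Kb))).map (evalL Kb (qExpand Kb q (jqModC Kb))) =
      (Polynomial.X - Polynomial.C (jqModC Kb)) * G.map (valE (N0 * q)) := by
  have h := congrArg (Polynomial.map (valE (N0 * q))) hG
  rw [Polynomial.map_mul, Polynomial.map_sub, Polynomial.map_X, Polynomial.map_C, coe_jgen',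
    phiJ1, Polynomial.map_map, valE_comp_aeval, ← Polynomial.map_map] at h
  exact h

/-- **The `t`-expansion of `G(j)` is `q · U`.** -/
theorem valE_eval_cofactor {Φ : Polynomial (Polynomial ℤ)} {G : Polynomial (E (N0 * q))}
    (hG : phiJ1 N0 q Φ = (Polynomial.X - Polynomial.C (jgen (N0 * q))) * G)
    {U : LaurentSeries ℤ}
    (hU : ((derivative Φ).map (evalL ℤ (qExpand ℤ q (jqModC ℤ)))).eval (jqModC ℤ) =
      (q : LaurentSeries ℤ) * U) :
    valE (N0 * q) (G.eval (jgen (N0 * q))) =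
      (q : LaurentSeries Kb) * coeffMap (Int.castRingHom Kb) U := by
  rw [← cofactor_eval_eq_base q hU (map_map_eq_mul hG), ← Polynomial.eval₂_at_apply,
    ← Polynomial.eval_map, coe_jgen']

omit hq in
/-- **`G(j) = (∂_Y Φ)(j, j₁)`**: a `ℤ`-polynomial expression in `j` and `j₁`. -/
theorem eval_cofactor_eq_derivative {Φ : Polynomial (Polynomial ℤ)} {G : Polynomial (E (N0 * q))}
    (hG : phiJ1 N0 q Φ = (Polynomial.X - Polynomial.C (jgen (N0 * q))) * G) :
    G.eval (jgen (N0 * q)) = (derivative (phiJ1 N0 q Φ)).eval (jgen (N0 * q)) :=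
  (derivative_eval_of_eq_mul hG).symm

end Expansion

section Unit

variable {q : ℕ} [hq : Fact q.Prime] {M : ℕ} [NeZero M] {A : ValuationSubring Kb}
variable (hA : A.LiesOverPrime q) (hqM : ¬ q ∣ M) [NeZero q]

/-- the residue function field has characteristic `q` -/
theorem charP_fullC (hA : A.LiesOverPrime q) :
    CharP ↥(modularFunctionFieldFullC (ResidueField ↥A) M) q := by
  haveI := charP_res hA
  exact charP_of_injective_algebraMap
    (algebraMap (ResidueField ↥A) ↥(modularFunctionFieldFullC (ResidueField ↥A) M)).injective q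

/-- **(I3) on the concrete objects**: `G(j) = q · u`, `u` a unit of the Gauss ring `V₁` of level
`M q`, with `red₁ u = (J - J^{q²}) (θ J)^{q-1}`. -/
theorem exists_unit_eval_cofactor {Φ : Polynomial (Polynomial ℤ)}
    (hΦ : Φ.map (evalL ℤ (jqModC ℤ)) = rPoly q ℤ)
    (hchar : ∀ (k : Type) [Field k] [CharP k q],
      Φ.map (mapRingHom (Int.castRingHom k)) =
        (Polynomial.X - Polynomial.C (Polynomial.X ^ q)) *
          (Polynomial.X ^ q - Polynomial.C Polynomial.X))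
    {G : Polynomial (E (M * q))}
    (hG : phiJ1 M q Φ = (Polynomial.X - Polynomial.C (jgen (M * q))) * G) :
    ∃ u : E (M * q), G.eval (jgen (M * q)) = (q : E (M * q)) * u ∧
      ∃ hu : u ∈ V₁ hA hqM, IsUnit (⟨u, hu⟩ : ↥(V₁ hA hqM)) ∧
        ((red₁ hA hqM ⟨u, hu⟩ : ↥(modularFunctionFieldFullC (ResidueField ↥A) M)) :
            LaurentSeries (ResidueField ↥A)) =
          (jqModC (ResidueField ↥A) - jqModC (ResidueField ↥A) ^ (q ^ 2)) *
            thetaL (jqModC (ResidueField ↥A)) ^ (q - 1) := by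
  haveI := charP_res hA
  obtain ⟨U, hU, hUk⟩ := exists_U q hΦ
  obtain ⟨hUeq, hUne⟩ := hUk (ResidueField ↥A) (hchar (ResidueField ↥A))
  have hq0 : (q : E (M * q)) ≠ 0 := Nat.cast_ne_zero.mpr hq.out.ne_zero
  set g : E (M * q) := G.eval (jgen (M * q)) with hg
  set u : E (M * q) := g / (q : E (M * q)) with hu
  have hgu : g = (q : E (M * q)) * u := by rw [hu]; field_simp
  set y : LaurentSeries ↥A := coeffMap (Int.castRingHom ↥A) U with hy
  have hyL : coeffMap A.subtype y = coeffMap (Int.castRingHom Kb) U := by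
    rw [hy, coeffMap_coeffMap]
    exact coeffMap_congr (RingHom.ext_int _ _) U
  have hyk : coeffMap (residue ↥A) y = coeffMap (Int.castRingHom (ResidueField ↥A)) U := by
    rw [hy, coeffMap_coeffMap]
    exact coeffMap_congr (RingHom.ext_int _ _) U
  have hvg := valE_eval_cofactor (N0 := M) hG hU
  have hfy : coeffMap A.subtype y = ((u : E (M * q)) : LaurentSeries Kb) := by
    rw [hyL]
    have h1 : valE (M * q) g = valE (M * q) (q : E (M * q)) * valE (M * q) u := by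
      rw [← map_mul, ← hgu]
    rw [hvg, map_natCast] at h1
    have hq0' : (q : LaurentSeries Kb) ≠ 0 := by
      rw [← map_natCast (valE (M * q))]
      exact (_root_.map_ne_zero _).mpr hq0
    exact mul_left_cancel₀ hq0' h1
  have hne : coeffMap (residue ↥A) y ≠ 0 := by rw [hyk]; exact hUne
  obtain ⟨hf, hunit, hred⟩ := Fermat.Agent.S36.GaussUnit.isUnit_of_integral_expansion
    (hasRepMul hA hqM) (residue_eq_zero_of_not_isUnit A) u hfy hne
  refine ⟨u, hgu, hf, hunit, ?_⟩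
  rw [red₁, RingHom.comp_apply, coe_castK]
  rw [← hUeq, ← hyk]
  exact hred

/-- (I3) for `G = gPolyJ2`, the minimal polynomial of `j₂` over `E (M q)`. -/
theorem exists_unit_eval_gPolyJ2 {Φ : Polynomial (Polynomial ℤ)}
    (hΦ : Φ.map (evalL ℤ (jqModC ℤ)) = rPoly q ℤ)
    (hchar : ∀ (k : Type) [Field k] [CharP k q],
      Φ.map (mapRingHom (Int.castRingHom k)) =
        (Polynomial.X - Polynomial.C (Polynomial.X ^ q)) *
          (Polynomial.X ^ q - Polynomial.C Polynomial.X)) :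
    ∃ u : E (M * q), (gPolyJ2 M q Φ).eval (jgen (M * q)) = (q : E (M * q)) * u ∧
      ∃ hu : u ∈ V₁ hA hqM, IsUnit (⟨u, hu⟩ : ↥(V₁ hA hqM)) ∧
        ((red₁ hA hqM ⟨u, hu⟩ : ↥(modularFunctionFieldFullC (ResidueField ↥A) M)) :
            LaurentSeries (ResidueField ↥A)) =
          (jqModC (ResidueField ↥A) - jqModC (ResidueField ↥A) ^ (q ^ 2)) *
            thetaL (jqModC (ResidueField ↥A)) ^ (q - 1) :=
  exists_unit_eval_cofactor hA hqM hΦ hchar (phiJ1_eq hq.out hΦ)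

/-! ### the mirror: `G' = Φ(Y, j)/(Y - j₁)` at `V₂` -/

/-- `Φ(Y, j) ∈ E (M q)[Y]` -/
def phiJ0 (M q : ℕ) [NeZero M] [NeZero q] (Φ : Polynomial (Polynomial ℤ)) :
    Polynomial (E (M * q)) :=
  Φ.map ((aeval (jgen (M * q)) : Polynomial ℤ →ₐ[ℤ] E (M * q)) : Polynomial ℤ →+* E (M * q))

/-- the Atkin-Lehner involution as a ring hom -/
abbrev wqR (hqM : ¬ q ∣ M) : E (M * q) →+* E (M * q) :=
  ((wq hqM : E (M * q) ≃ₐ[Kb] E (M * q)) : E (M * q) →+* E (M * q))

theorem wqR_jgen : wqR hqM (jgen (M * q)) = jl M q := by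
  rw [← Fermat.Agent.S34.EulerX0.alpha_jgen (M := M) (q := q)]
  exact wq_alpha hqM (jgen M)

theorem wqR_jl : wqR hqM (jl M q) = jgen (M * q) := by
  rw [← Fermat.Agent.S34.EulerX0.alpha_jgen (M := M) (q := q)]
  exact wq_jl hqM

theorem map_wqR_phiJ0 (Φ : Polynomial (Polynomial ℤ)) :
    (phiJ0 M q Φ).map (wqR hqM) = phiJ1 M q Φ := by
  rw [phiJ0, phiJ1, Polynomial.map_map]
  congr 1
  apply Polynomial.ringHom_ext
  · intro a
    simp
  · simp only [RingHom.comp_apply, AlgHom.coe_toRingHom, aeval_X]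
    exact wqR_jgen hqM

/-- **(I3), mirror**: for `G' = Φ(Y, j)/(Y - j₁)`: `G'(j₁) = q · u'`, `u'` a unit of `V₂`, with
`red₂ u' = (J - J^{q²}) (θ J)^{q-1}`. -/
theorem exists_unit_eval_cofactor_mirror {Φ : Polynomial (Polynomial ℤ)}
    (hΦ : Φ.map (evalL ℤ (jqModC ℤ)) = rPoly q ℤ)
    (hchar : ∀ (k : Type) [Field k] [CharP k q],
      Φ.map (mapRingHom (Int.castRingHom k)) =
        (Polynomial.X - Polynomial.C (Polynomial.X ^ q)) *
          (Polynomial.X ^ q - Polynomial.C Polynomial.X))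
    {G' : Polynomial (E (M * q))}
    (hG' : phiJ0 M q Φ = (Polynomial.X - Polynomial.C (jl M q)) * G') :
    ∃ u : E (M * q), G'.eval (jl M q) = (q : E (M * q)) * u ∧
      ∃ hu : u ∈ V₂ hA hqM, IsUnit (⟨u, hu⟩ : ↥(V₂ hA hqM)) ∧
        ((red₂ hA hqM ⟨u, hu⟩ : ↥(modularFunctionFieldFullC (ResidueField ↥A) M)) :
            LaurentSeries (ResidueField ↥A)) =
          (jqModC (ResidueField ↥A) - jqModC (ResidueField ↥A) ^ (q ^ 2)) *
            thetaL (jqModC (ResidueField ↥A)) ^ (q - 1) := by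
  have hG : phiJ1 M q Φ =
      (Polynomial.X - Polynomial.C (jgen (M * q))) * G'.map (wqR hqM) := by
    have h := congrArg (Polynomial.map (wqR hqM)) hG'
    rw [map_wqR_phiJ0, Polynomial.map_mul, Polynomial.map_sub, Polynomial.map_X,
      Polynomial.map_C, wqR_jl] at h
    exact h
  obtain ⟨u, hgu, hu, hunit, hred⟩ := exists_unit_eval_cofactor hA hqM hΦ hchar hG
  have hev : (G'.map (wqR hqM)).eval (jgen (M * q)) = wqR hqM (G'.eval (jl M q)) := by
    rw [← wqR_jl hqM, Polynomial.eval_map_apply]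
  rw [hev] at hgu
  have hmem : wq hqM u ∈ V₂ hA hqM := (wq_mem_V₂_iff hA hqM).mpr hu
  have hsymm : (wqV hA hqM).symm ⟨u, hu⟩ = (⟨wq hqM u, hmem⟩ : ↥(V₂ hA hqM)) := Subtype.ext rfl
  refine ⟨wq hqM u, ?_, hmem, ?_, ?_⟩
  · have h := congrArg (wq hqM) hgu
    rw [map_mul, map_natCast] at h
    rw [← h]
    exact (wq_wq hqM _).symm
  · rw [← hsymm]
    exact hunit.map (wqV hA hqM).symm
  · rw [red₂_apply, ← hred]
    congr 2
    exact Subtype.ext (wq_wq hqM u)

end Unit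

section FirstOrder

variable {q : ℕ} [hq : Fact q.Prime] {M : ℕ} [NeZero M] {A : ValuationSubring Kb}
variable (hA : A.LiesOverPrime q) (hqM : ¬ q ∣ M) [NeZero q]

theorem jgen_mem_V₁ : jgen (M * q) ∈ V₁ hA hqM := by
  rw [← Fermat.Agent.S34.EulerX0.alpha_jgen (M := M) (q := q)]
  exact (alpha_mem_V₁_iff hA hqM (jgen M)).mpr (jgen_mem_O hA hqM)

theorem jl_mem_V₁ : jl M q ∈ V₁ hA hqM := beta_mem_V₁ hA hqM (jgen_mem_O hA hqM)

theorem jgen_mem_V₂ : jgen (M * q) ∈ V₂ hA hqM := by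
  rw [← Fermat.Agent.S34.EulerX0.alpha_jgen (M := M) (q := q)]
  exact (alpha_mem_V₂_iff hA hqM (jgen M)).mpr (jgen_mem_O hA hqM)

theorem jl_mem_V₂ : jl M q ∈ V₂ hA hqM :=
  (beta_mem_V₂_iff hA hqM (jgen M)).mpr (jgen_mem_O hA hqM)

/-- `red₁ j = J` -/
theorem red₁_jgen : red₁ hA hqM ⟨jgen (M * q), jgen_mem_V₁ hA hqM⟩ = jk (ResidueField ↥A) M := by
  rw [← red_jgen hA hqM, ← red₁_alpha hA hqM ⟨jgen M, jgen_mem_O hA hqM⟩]
  congr 1

/-- `red₁ j₁ = J^q` -/
theorem red₁_jl' : red₁ hA hqM ⟨jl M q, jl_mem_V₁ hA hqM⟩ = jk (ResidueField ↥A) M ^ q :=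
  red₁_jl hA hqM

/-- `red₂ j₁ = J` -/
theorem red₂_jl' : red₂ hA hqM ⟨jl M q, jl_mem_V₂ hA hqM⟩ = jk (ResidueField ↥A) M :=
  red₂_jl hA hqM

/-- `red₂ j = J^q` -/
theorem red₂_jgen :
    red₂ hA hqM ⟨jgen (M * q), jgen_mem_V₂ hA hqM⟩ = jk (ResidueField ↥A) M ^ q := by
  rw [red₂_apply, ← red₁_jl' hA hqM]
  congr 1
  exact Subtype.ext (wqR_jgen hqM)

/-- the evaluation `ℤ[X] → V`, `X ↦ j₁`, for a valuation subring `V ∋ j₁` -/
def evJ1 (V : ValuationSubring (E (M * q))) (h : jl M q ∈ V) : Polynomial ℤ →+* ↥V :=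
  ((aeval (⟨jl M q, h⟩ : ↥V) : Polynomial ℤ →ₐ[ℤ] ↥V) : Polynomial ℤ →+* ↥V)

theorem evJ1_X (V : ValuationSubring (E (M * q))) (h : jl M q ∈ V) :
    evJ1 V h Polynomial.X = ⟨jl M q, h⟩ := by
  simp [evJ1]

theorem subtype_comp_evJ1 (V : ValuationSubring (E (M * q))) (h : jl M q ∈ V) :
    V.subtype.comp (evJ1 V h) =
      ((aeval (j1 M q) : Polynomial ℤ →ₐ[ℤ] E (M * q)) : Polynomial ℤ →+* E (M * q)) := by
  apply Polynomial.ringHom_ext
  · intro a
    simp [evJ1]
  · simp [evJ1]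

/-- the cofactor `G` has coefficients in every valuation subring containing `j` and `j₁` -/
theorem exists_cofactor_of_mem (V : ValuationSubring (E (M * q))) (h1 : jl M q ∈ V)
    (h0 : jgen (M * q) ∈ V) {Φ : Polynomial (Polynomial ℤ)} {G : Polynomial (E (M * q))}
    (hG : phiJ1 M q Φ = (Polynomial.X - Polynomial.C (jgen (M * q))) * G) :
    ∃ G₁ : Polynomial ↥V, G₁.map V.subtype = G ∧
      Φ.map (evJ1 V h1) = (Polynomial.X - Polynomial.C ⟨jgen (M * q), h0⟩) * G₁ := by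
  refine exists_cofactor_of_injective V.subtype Subtype.val_injective (evJ1 V h1)
    ⟨jgen (M * q), h0⟩ ?_
  rw [subtype_comp_evJ1]
  exact hG

/-- **(I2) at `V₁`**: `G ∈ V₁[Y]` and `red₁ G = (Y - J)^{q-1} (Y - J^{q²})`. -/
theorem exists_cofactor_V₁ {Φ : Polynomial (Polynomial ℤ)}
    (hchar : ∀ (k : Type) [Field k] [CharP k q],
      Φ.map (mapRingHom (Int.castRingHom k)) =
        (Polynomial.X - Polynomial.C (Polynomial.X ^ q)) *
          (Polynomial.X ^ q - Polynomial.C Polynomial.X))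
    {G : Polynomial (E (M * q))}
    (hG : phiJ1 M q Φ = (Polynomial.X - Polynomial.C (jgen (M * q))) * G) :
    ∃ G₁ : Polynomial ↥(V₁ hA hqM), G₁.map (V₁ hA hqM).subtype = G ∧
      G₁.map (red₁ hA hqM) =
        (Polynomial.X - Polynomial.C (jk (ResidueField ↥A) M)) ^ (q - 1) *
          (Polynomial.X - Polynomial.C (jk (ResidueField ↥A) M ^ (q ^ 2))) := by
  haveI := charP_fullC (M := M) hA
  obtain ⟨G₁, h1, h2⟩ := exists_cofactor_of_mem (V₁ hA hqM) (jl_mem_V₁ hA hqM)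
    (jgen_mem_V₁ hA hqM) hG
  refine ⟨G₁, h1, ?_⟩
  have h := map_cofactor_thick
    (hchar ↥(modularFunctionFieldFullC (ResidueField ↥A) M))
    (evJ1 (V₁ hA hqM) (jl_mem_V₁ hA hqM)) (red₁ hA hqM) h2
    (by rw [evJ1_X, red₁_jl', red₁_jgen])
  rw [red₁_jgen] at h
  exact h

/-- **(I2) at `V₂`**: `G ∈ V₂[Y]` and `red₂ G = Y^q - J`. -/
theorem exists_cofactor_V₂ {Φ : Polynomial (Polynomial ℤ)}
    (hchar : ∀ (k : Type) [Field k] [CharP k q],
      Φ.map (mapRingHom (Int.castRingHom k)) =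
        (Polynomial.X - Polynomial.C (Polynomial.X ^ q)) *
          (Polynomial.X ^ q - Polynomial.C Polynomial.X))
    {G : Polynomial (E (M * q))}
    (hG : phiJ1 M q Φ = (Polynomial.X - Polynomial.C (jgen (M * q))) * G) :
    ∃ G₂ : Polynomial ↥(V₂ hA hqM), G₂.map (V₂ hA hqM).subtype = G ∧
      G₂.map (red₂ hA hqM) =
        Polynomial.X ^ q - Polynomial.C (jk (ResidueField ↥A) M) := by
  haveI := charP_fullC (M := M) hA
  obtain ⟨G₂, h1, h2⟩ := exists_cofactor_of_mem (V₂ hA hqM) (jl_mem_V₂ hA hqM)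
    (jgen_mem_V₂ hA hqM) hG
  refine ⟨G₂, h1, ?_⟩
  have h := map_cofactor_inert
    (hchar ↥(modularFunctionFieldFullC (ResidueField ↥A) M))
    (evJ1 (V₂ hA hqM) (jl_mem_V₂ hA hqM)) (red₂ hA hqM) h2
    (by rw [evJ1_X, red₂_jl', red₂_jgen])
  rw [evJ1_X, red₂_jl'] at h
  exact h

/-! ### the mirror `G' = Φ(Y, j)/(Y - j₁)` -/

/-- the evaluation `ℤ[X] → V`, `X ↦ j`, for a valuation subring `V ∋ j` -/
def evJ0 (V : ValuationSubring (E (M * q))) (h : jgen (M * q) ∈ V) : Polynomial ℤ →+* ↥V :=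
  ((aeval (⟨jgen (M * q), h⟩ : ↥V) : Polynomial ℤ →ₐ[ℤ] ↥V) : Polynomial ℤ →+* ↥V)

theorem evJ0_X (V : ValuationSubring (E (M * q))) (h : jgen (M * q) ∈ V) :
    evJ0 V h Polynomial.X = ⟨jgen (M * q), h⟩ := by
  simp [evJ0]

theorem subtype_comp_evJ0 (V : ValuationSubring (E (M * q))) (h : jgen (M * q) ∈ V) :
    V.subtype.comp (evJ0 V h) =
      ((aeval (jgen (M * q)) : Polynomial ℤ →ₐ[ℤ] E (M * q)) : Polynomial ℤ →+* E (M * q)) := by
  apply Polynomial.ringHom_ext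
  · intro a
    simp [evJ0]
  · simp [evJ0]

/-- the mirror cofactor `G'` has coefficients in every valuation subring containing `j`, `j₁` -/
theorem exists_cofactor_mirror_of_mem (V : ValuationSubring (E (M * q))) (h1 : jl M q ∈ V)
    (h0 : jgen (M * q) ∈ V) {Φ : Polynomial (Polynomial ℤ)} {G' : Polynomial (E (M * q))}
    (hG' : phiJ0 M q Φ = (Polynomial.X - Polynomial.C (jl M q)) * G') :
    ∃ G₁ : Polynomial ↥V, G₁.map V.subtype = G' ∧
      Φ.map (evJ0 V h0) = (Polynomial.X - Polynomial.C ⟨jl M q, h1⟩) * G₁ := by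
  refine exists_cofactor_of_injective V.subtype Subtype.val_injective (evJ0 V h0)
    ⟨jl M q, h1⟩ ?_
  rw [subtype_comp_evJ0]
  exact hG'

/-- **(I2), mirror at `V₂`**: `G' ∈ V₂[Y]` and `red₂ G' = (Y - J)^{q-1} (Y - J^{q²})`. -/
theorem exists_cofactor_mirror_V₂ {Φ : Polynomial (Polynomial ℤ)}
    (hchar : ∀ (k : Type) [Field k] [CharP k q],
      Φ.map (mapRingHom (Int.castRingHom k)) =
        (Polynomial.X - Polynomial.C (Polynomial.X ^ q)) *
          (Polynomial.X ^ q - Polynomial.C Polynomial.X))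
    {G' : Polynomial (E (M * q))}
    (hG' : phiJ0 M q Φ = (Polynomial.X - Polynomial.C (jl M q)) * G') :
    ∃ G₂ : Polynomial ↥(V₂ hA hqM), G₂.map (V₂ hA hqM).subtype = G' ∧
      G₂.map (red₂ hA hqM) =
        (Polynomial.X - Polynomial.C (jk (ResidueField ↥A) M)) ^ (q - 1) *
          (Polynomial.X - Polynomial.C (jk (ResidueField ↥A) M ^ (q ^ 2))) := by
  haveI := charP_fullC (M := M) hA
  obtain ⟨G₂, h1, h2⟩ := exists_cofactor_mirror_of_mem (V₂ hA hqM) (jl_mem_V₂ hA hqM)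
    (jgen_mem_V₂ hA hqM) hG'
  refine ⟨G₂, h1, ?_⟩
  have h := map_cofactor_thick
    (hchar ↥(modularFunctionFieldFullC (ResidueField ↥A) M))
    (evJ0 (V₂ hA hqM) (jgen_mem_V₂ hA hqM)) (red₂ hA hqM) h2
    (by rw [evJ0_X, red₂_jl', red₂_jgen])
  rw [red₂_jl'] at h
  exact h

/-- **(I2), mirror at `V₁`**: `G' ∈ V₁[Y]` and `red₁ G' = Y^q - J`. -/
theorem exists_cofactor_mirror_V₁ {Φ : Polynomial (Polynomial ℤ)}
    (hchar : ∀ (k : Type) [Field k] [CharP k q],
      Φ.map (mapRingHom (Int.castRingHom k)) =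
        (Polynomial.X - Polynomial.C (Polynomial.X ^ q)) *
          (Polynomial.X ^ q - Polynomial.C Polynomial.X))
    {G' : Polynomial (E (M * q))}
    (hG' : phiJ0 M q Φ = (Polynomial.X - Polynomial.C (jl M q)) * G') :
    ∃ G₁ : Polynomial ↥(V₁ hA hqM), G₁.map (V₁ hA hqM).subtype = G' ∧
      G₁.map (red₁ hA hqM) =
        Polynomial.X ^ q - Polynomial.C (jk (ResidueField ↥A) M) := by
  haveI := charP_fullC (M := M) hA
  obtain ⟨G₁, h1, h2⟩ := exists_cofactor_mirror_of_mem (V₁ hA hqM) (jl_mem_V₁ hA hqM)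
    (jgen_mem_V₁ hA hqM) hG'
  refine ⟨G₁, h1, ?_⟩
  have h := map_cofactor_inert
    (hchar ↥(modularFunctionFieldFullC (ResidueField ↥A) M))
    (evJ0 (V₁ hA hqM) (jgen_mem_V₁ hA hqM)) (red₁ hA hqM) h2
    (by rw [evJ0_X, red₁_jl', red₁_jgen])
  rw [evJ0_X, red₁_jgen] at h
  exact h

/-- **`J` is not a `q`-th power** in `k((t))`, `char k = q` (`θ (b^q) = 0 ≠ θ J`). -/
theorem jqModC_ne_pow (k : Type*) [Field k] [CharP k q] (b : LaurentSeries k) :
    b ^ q ≠ jqModC k := by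
  intro h
  have h1 := thetaL_jqModC_ne_zero k
  rw [← h, thetaL_pow] at h1
  apply h1
  have : (q : LaurentSeries k) = 0 := by
    rw [← map_natCast (HahnSeries.C : k →+* LaurentSeries k), CharP.cast_eq_zero, map_zero]
  rw [this, zero_mul, zero_mul]

/-- **`J` is not a `q`-th power in the residue function field**, so `Y^q - J` is irreducible. -/
theorem jk_ne_pow (k : Type*) [Field k] [CharP k q] (N : ℕ) [NeZero N]
    (b : ↥(modularFunctionFieldFullC k N)) : b ^ q ≠ jk k N := by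
  intro h
  have h1 := congrArg (Subtype.val) h
  rw [SubmonoidClass.coe_pow] at h1
  exact jqModC_ne_pow k _ h1

theorem irreducible_X_pow_sub_jk (k : Type*) [Field k] [CharP k q] (N : ℕ) [NeZero N] :
    Irreducible (Polynomial.X ^ q - Polynomial.C (jk k N) :
      Polynomial ↥(modularFunctionFieldFullC k N)) :=
  X_pow_sub_C_irreducible_of_prime hq.out (jk_ne_pow k N)

end FirstOrder

end Fermat.Agent.S36.ThetaX0
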