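/-
PROJECT V (S36), slice V-ThetaK0 (helper13; chain v1.1 (N3)): **K₀-transfer of the inputs (I2) and
(I3)** of the three-valuation analysis: from `S36/ThetaX0` (over `ℚ̄`) to the `K`-form
`F_K(M q) = laurentBaseChange K (full (M q))`, `K = ℚ̄^H` (`H` ANY subgroup of `Gal(ℚ̄/ℚ)`;
`H = A.inertiaSubgroupIn ℚ` gives `K = K₀`), in the field shapes of `ThreeValInputs.Inputs`.

Objects (helper19's `PowerBasisK0` / `MinpolyK0` names): `tB : F_K(N) → E N`, `j0K`, `j1K`,
`gAlphaK = Φ(X, j₁)/(X - j₀)`, `gBetaK = Φ(X, j₀)/(X - j₁)`.  Valuation subrings and reductions: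

* `V1K := V₁.comap tB`, `V2K := V₂.comap tB` (`V₁`, `V₂` of `S34/GaussPairX0`),
  `red1K := red₁ ∘ comapHom`, `red2K := red₂ ∘ comapHom` (helper8's `LevelQ.comapHom`), so they are
  definitionally the objects of `GlueLevelQ.LevelQ.comap`;
* `x1K y1K : V1K`, `x2K y2K : V2K` : the coordinates `j₀`, `j₁`; `red1K x = J`, `red1K y = J^q`,
  `red2K y = J`, `red2K x = J^q`; `J ≠ J^{q²}`;
* `exists_alpha1` : `Φα₁ : V1K[X]`, `Φα₁ ↦ gAlphaK`, monic, `Φα₁.map red1K = (X - J)^{q-1}(X - J^{q²})`,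
  `Φα₁(x) = q · u₁`, `u₁` a unit of `V1K` (with its reduction);
* `exists_alpha2` : `Φα₂ : V2K[X]`, `Φα₂ ↦ gAlphaK`, monic, `Φα₂.map red2K = X^q - J` irreducible;
* `exists_beta2`, `exists_beta1` : the `β`-mirror with `gBetaK`.
-/
import Mathlib
import Fermat.Agent.S36.ThetaX0
import Fermat.Agent.S36.MinpolyK0
import Fermat.Agent.S36.GlueLevelQ

set_option autoImplicit false
set_option linter.unusedSectionVars false
set_option linter.style.haveILetI false

noncomputable section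

namespace Fermat.Agent.S36.ThetaK0

open Polynomial ModularCurve AlgebraicCurve IsLocalRing
open Fermat.Agent.S24.DegreeAlg (jgen)
open Fermat.Agent.S18.B.FkBasics (jk)
open Fermat.Agent.S35.LevelMaps
open Fermat.Agent.S28.ModPoly
open Fermat.Agent.S34.PowerBasisX0 (jl)
open Fermat.Agent.S34.GaussPairX0
open Fermat.Agent.S36.MinpolyJ2 (j1 gPolyJ2 phiJ1_eq)
open Fermat.Agent.S36.PowerBasisK0 (FK tB tB_injective j0K j1K tB_j0K tB_j1K gPolyBeta)
open Fermat.Agent.S36.MinpolyK0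
open Fermat.Agent.S36.KroneckerRed
open Fermat.Agent.S36.ThetaL
open Fermat.Agent.S36.GlueLevelQ.LevelQ (comapHom)

local notation "Kb" => AlgebraicClosure ℚ

set_option synthInstance.maxHeartbeats 400000
set_option maxHeartbeats 1000000

variable (H : Subgroup (Kb ≃ₐ[ℚ] Kb))
variable {q : ℕ} [hq : Fact q.Prime] {M : ℕ} [NeZero M] {A : ValuationSubring Kb}
variable (hA : A.LiesOverPrime q) (hqM : ¬ q ∣ M) [NeZero q]

/-- `V₁` restricted to the `K`-form -/
abbrev V1K : ValuationSubring (FK H (M * q)) := (V₁ hA hqM).comap (tB H (M * q))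

/-- `V₂` restricted to the `K`-form -/
abbrev V2K : ValuationSubring (FK H (M * q)) := (V₂ hA hqM).comap (tB H (M * q))

/-- `red₁` on the `K`-form -/
abbrev red1K : ↥(V1K H hA hqM) →+* ↥(modularFunctionFieldFullC (ResidueField ↥A) M) :=
  (red₁ hA hqM).comp (comapHom (V₁ hA hqM) (tB H (M * q)))

/-- `red₂` on the `K`-form -/
abbrev red2K : ↥(V2K H hA hqM) →+* ↥(modularFunctionFieldFullC (ResidueField ↥A) M) :=
  (red₂ hA hqM).comp (comapHom (V₂ hA hqM) (tB H (M * q)))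

theorem red1K_apply (x : ↥(V1K H hA hqM)) :
    red1K H hA hqM x = red₁ hA hqM ⟨tB H (M * q) x.1, ValuationSubring.mem_comap.mp x.2⟩ := rfl

theorem red2K_apply (x : ↥(V2K H hA hqM)) :
    red2K H hA hqM x = red₂ hA hqM ⟨tB H (M * q) x.1, ValuationSubring.mem_comap.mp x.2⟩ := rfl

/-! ### the coordinates -/

theorem j0K_mem_V1K : j0K H (M * q) ∈ V1K H hA hqM := by
  rw [ValuationSubring.mem_comap, tB_j0K]
  exact Fermat.Agent.S36.ThetaX0.jgen_mem_V₁ hA hqM

theorem j1K_mem_V1K : j1K H M q ∈ V1K H hA hqM := by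
  rw [ValuationSubring.mem_comap, tB_j1K]
  exact Fermat.Agent.S36.ThetaX0.jl_mem_V₁ hA hqM

theorem j0K_mem_V2K : j0K H (M * q) ∈ V2K H hA hqM := by
  rw [ValuationSubring.mem_comap, tB_j0K]
  exact Fermat.Agent.S36.ThetaX0.jgen_mem_V₂ hA hqM

theorem j1K_mem_V2K : j1K H M q ∈ V2K H hA hqM := by
  rw [ValuationSubring.mem_comap, tB_j1K]
  exact Fermat.Agent.S36.ThetaX0.jl_mem_V₂ hA hqM

/-- `j₀ ∈ V1K` -/
def x1K : ↥(V1K H hA hqM) := ⟨j0K H (M * q), j0K_mem_V1K H hA hqM⟩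
/-- `j₁ ∈ V1K` -/
def y1K : ↥(V1K H hA hqM) := ⟨j1K H M q, j1K_mem_V1K H hA hqM⟩
/-- `j₀ ∈ V2K` -/
def x2K : ↥(V2K H hA hqM) := ⟨j0K H (M * q), j0K_mem_V2K H hA hqM⟩
/-- `j₁ ∈ V2K` -/
def y2K : ↥(V2K H hA hqM) := ⟨j1K H M q, j1K_mem_V2K H hA hqM⟩

theorem red1K_x : red1K H hA hqM (x1K H hA hqM) = jk (ResidueField ↥A) M := by
  rw [red1K_apply, ← Fermat.Agent.S36.ThetaX0.red₁_jgen hA hqM]
  congr 1
  exact Subtype.ext (tB_j0K H (M * q))

theorem red1K_y : red1K H hA hqM (y1K H hA hqM) = jk (ResidueField ↥A) M ^ q := by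
  rw [red1K_apply, ← Fermat.Agent.S36.ThetaX0.red₁_jl' hA hqM]
  congr 1
  exact Subtype.ext (tB_j1K H)

theorem red2K_x : red2K H hA hqM (x2K H hA hqM) = jk (ResidueField ↥A) M ^ q := by
  rw [red2K_apply, ← Fermat.Agent.S36.ThetaX0.red₂_jgen hA hqM]
  congr 1
  exact Subtype.ext (tB_j0K H (M * q))

theorem red2K_y : red2K H hA hqM (y2K H hA hqM) = jk (ResidueField ↥A) M := by
  rw [red2K_apply, ← Fermat.Agent.S36.ThetaX0.red₂_jl' hA hqM]
  congr 1
  exact Subtype.ext (tB_j1K H)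

/-- `J ≠ J^{q²}` in the residue function field -/
theorem jk_ne_pow_sq (hA : A.LiesOverPrime q) :
    jk (ResidueField ↥A) M ≠ jk (ResidueField ↥A) M ^ (q ^ 2) := by
  haveI := charP_res hA
  intro h
  have h1 := congrArg Subtype.val h
  rw [SubmonoidClass.coe_pow, Fermat.Agent.S18.B.FkBasics.coe_jk] at h1
  exact Fermat.Agent.S36.ThetaPhi.jk_ne_jk_pow (k := ResidueField ↥A) hq.out.one_lt
    (sub_eq_zero.mpr h1)

/-! ### the evaluation homs `ℤ[X] → V`, `X ↦ j₁` resp. `j₀` -/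

/-- `P ↦ P(y)`, `ℤ[X] → V` for `y` in a valuation subring `V` of `F_K` -/
def evK {N : ℕ} (V : ValuationSubring (FK H N)) (y : ↥V) : Polynomial ℤ →+* ↥V :=
  Polynomial.eval₂RingHom (Int.castRingHom ↥V) y

theorem evK_X {N : ℕ} (V : ValuationSubring (FK H N)) (y : ↥V) : evK H V y Polynomial.X = y := by
  simp [evK]

theorem subtype_comp_evK {N : ℕ} (V : ValuationSubring (FK H N)) (y : ↥V) :
    V.subtype.comp (evK H V y) = intEval H (y : FK H N) := by
  apply Polynomial.ringHom_ext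
  · intro a
    simp [evK, intEval]
  · simp [evK, intEval]

/-- the cofactor `gAlphaK` over a valuation subring containing `j₀`, `j₁` -/
theorem exists_cofactor_alphaK (V : ValuationSubring (FK H (M * q))) (h0 : j0K H (M * q) ∈ V)
    (h1 : j1K H M q ∈ V) {Φ : Polynomial (Polynomial ℤ)}
    (hΦ : Φ.map (evalL ℤ (jqModC ℤ)) = rPoly q ℤ) :
    ∃ G : Polynomial ↥V, G.map V.subtype = gAlphaK H M q Φ ∧
      Φ.map (evK H V ⟨j1K H M q, h1⟩) =
        (Polynomial.X - Polynomial.C ⟨j0K H (M * q), h0⟩) * G := by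
  refine exists_cofactor_of_injective V.subtype Subtype.val_injective (evK H V ⟨j1K H M q, h1⟩)
    ⟨j0K H (M * q), h0⟩ ?_
  rw [subtype_comp_evK]
  exact phiK_eq_alpha H hq.out hΦ

/-- the cofactor `gBetaK` over a valuation subring containing `j₀`, `j₁` -/
theorem exists_cofactor_betaK (V : ValuationSubring (FK H (M * q))) (h0 : j0K H (M * q) ∈ V)
    (h1 : j1K H M q ∈ V) {Φ : Polynomial (Polynomial ℤ)}
    (hΦ : Φ.map (evalL ℤ (jqModC ℤ)) = rPoly q ℤ) :
    ∃ G : Polynomial ↥V, G.map V.subtype = gBetaK H M q Φ ∧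
      Φ.map (evK H V ⟨j0K H (M * q), h0⟩) =
        (Polynomial.X - Polynomial.C ⟨j1K H M q, h1⟩) * G := by
  refine exists_cofactor_of_injective V.subtype Subtype.val_injective
    (evK H V ⟨j0K H (M * q), h0⟩) ⟨j1K H M q, h1⟩ ?_
  rw [subtype_comp_evK]
  exact phiK_eq_beta H hΦ

/-! ### units of a comap -/

omit hq [NeZero q] in
/-- an element of the `K`-form whose image is a unit of `V` is a unit of `V.comap tB` -/
theorem isUnit_comap {N : ℕ} (V : ValuationSubring (E N)) {x : FK H N}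
    (hx : tB H N x ∈ V) (hu : IsUnit (⟨tB H N x, hx⟩ : ↥V)) :
    IsUnit (⟨x, ValuationSubring.mem_comap.mpr hx⟩ : ↥(V.comap (tB H N))) := by
  obtain ⟨v, hv⟩ := hu.exists_right_inv
  have hv' : tB H N x * (v : E N) = 1 := congrArg Subtype.val hv
  have hx0 : x ≠ 0 := by
    rintro rfl
    rw [map_zero, zero_mul] at hv'
    exact zero_ne_one hv'
  have hinv : tB H N x⁻¹ = (v : E N) := by
    rw [map_inv₀]
    exact inv_eq_of_mul_eq_one_right hv'
  have hmem : x⁻¹ ∈ V.comap (tB H N) := by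
    rw [ValuationSubring.mem_comap, hinv]
    exact v.2
  exact IsUnit.of_mul_eq_one (⟨x⁻¹, hmem⟩ : ↥(V.comap (tB H N)))
    (Subtype.ext (mul_inv_cancel₀ hx0))

omit hq [NeZero q] in
/-- monicity descends along the inclusion of a valuation subring -/
theorem monic_of_map_subtype {N : ℕ} {V : ValuationSubring (FK H N)} {G : Polynomial ↥V}
    {P : Polynomial (FK H N)} (h : G.map V.subtype = P) (hP : P.Monic) : G.Monic :=
  Polynomial.monic_of_injective (f := V.subtype) Subtype.val_injective (h ▸ hP)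

omit hq [NeZero q] in
theorem map_algebraMap_eq {N : ℕ} {V : ValuationSubring (FK H N)} (G : Polynomial ↥V) :
    G.map (algebraMap ↥V (FK H N)) = G.map V.subtype := rfl

/-! ### the exports -/

variable {Φ : Polynomial (Polynomial ℤ)}

/-- **(I2)+(I3) over `K`, `α`-side at `V₁`**: `Φα₁ ∈ V1K[X]` lifts `gAlphaK`, is monic when `Φ` is,
reduces to `(X - J)^{q-1} (X - J^{q²})`, and `Φα₁(j₀) = q · u₁` with `u₁` a unit of `V1K` of
reduction `(J - J^{q²}) (θ J)^{q-1}`. -/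
theorem exists_alpha1
    (hΦ : Φ.map (evalL ℤ (jqModC ℤ)) = rPoly q ℤ)
    (hchar : ∀ (k : Type) [Field k] [CharP k q],
      Φ.map (mapRingHom (Int.castRingHom k)) =
        (Polynomial.X - Polynomial.C (Polynomial.X ^ q)) *
          (Polynomial.X ^ q - Polynomial.C Polynomial.X)) :
    ∃ (G : Polynomial ↥(V1K H hA hqM)) (u : ↥(V1K H hA hqM)),
      G.map (V1K H hA hqM).subtype = gAlphaK H M q Φ ∧
      G.map (red1K H hA hqM) =
        (Polynomial.X - Polynomial.C (jk (ResidueField ↥A) M)) ^ (q - 1) *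
          (Polynomial.X - Polynomial.C (jk (ResidueField ↥A) M ^ (q ^ 2))) ∧
      G.eval (x1K H hA hqM) = (q : ↥(V1K H hA hqM)) * u ∧ IsUnit u ∧
      ((red1K H hA hqM u : ↥(modularFunctionFieldFullC (ResidueField ↥A) M)) :
          LaurentSeries (ResidueField ↥A)) =
        (jqModC (ResidueField ↥A) - jqModC (ResidueField ↥A) ^ (q ^ 2)) *
          thetaL (jqModC (ResidueField ↥A)) ^ (q - 1) := by
  haveI := Fermat.Agent.S36.ThetaX0.charP_fullC (M := M) hA
  obtain ⟨G, hG1, hG2⟩ := exists_cofactor_alphaK H (V1K H hA hqM) (j0K_mem_V1K H hA hqM)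
    (j1K_mem_V1K H hA hqM) hΦ
  -- first order
  have hred := map_cofactor_thick
    (hchar ↥(modularFunctionFieldFullC (ResidueField ↥A) M))
    (evK H (V1K H hA hqM) ⟨j1K H M q, j1K_mem_V1K H hA hqM⟩) (red1K H hA hqM) hG2
    (by
      rw [evK_X]
      exact (red1K_y H hA hqM).trans (by rw [← red1K_x H hA hqM]; rfl))
  have hx : red1K H hA hqM ⟨j0K H (M * q), j0K_mem_V1K H hA hqM⟩ = jk (ResidueField ↥A) M :=
    red1K_x H hA hqM
  rw [hx] at hred
  -- second order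
  obtain ⟨u, hgu, hu, hunit, hredu⟩ :=
    Fermat.Agent.S36.ThetaX0.exists_unit_eval_gPolyJ2 hA hqM hΦ hchar
  have hq0 : (q : E (M * q)) ≠ 0 := Nat.cast_ne_zero.mpr hq.out.ne_zero
  have hq0K : (q : FK H (M * q)) ≠ 0 := Nat.cast_ne_zero.mpr hq.out.ne_zero
  set g0 : FK H (M * q) := (gAlphaK H M q Φ).eval (j0K H (M * q)) with hg0
  set u0 : FK H (M * q) := g0 / (q : FK H (M * q)) with hu0
  have hg0u0 : g0 = (q : FK H (M * q)) * u0 := by rw [hu0]; field_simp
  have htBg0 : tB H (M * q) g0 = (gPolyJ2 M q Φ).eval (jgen (M * q)) := by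
    rw [hg0, ← map_gAlphaK H Φ, ← tB_j0K H (M * q), Polynomial.eval_map_apply]
  have htBu0 : tB H (M * q) u0 = u := by
    have h1 : tB H (M * q) g0 = (q : E (M * q)) * tB H (M * q) u0 := by
      rw [hg0u0, map_mul, map_natCast]
    rw [htBg0, hgu] at h1
    exact (mul_left_cancel₀ hq0 h1).symm
  have hu0mem : tB H (M * q) u0 ∈ V₁ hA hqM := by rw [htBu0]; exact hu
  have hunit0 : IsUnit (⟨tB H (M * q) u0, hu0mem⟩ : ↥(V₁ hA hqM)) := by
    have : (⟨tB H (M * q) u0, hu0mem⟩ : ↥(V₁ hA hqM)) = ⟨u, hu⟩ := Subtype.ext htBu0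
    rw [this]; exact hunit
  refine ⟨G, ⟨u0, ValuationSubring.mem_comap.mpr hu0mem⟩, hG1, hred, ?_,
    isUnit_comap H (V₁ hA hqM) hu0mem hunit0, ?_⟩
  · apply Subtype.ext
    have h1 : ((G.eval (x1K H hA hqM) : ↥(V1K H hA hqM)) : FK H (M * q)) =
        (G.map (V1K H hA hqM).subtype).eval (j0K H (M * q)) := by
      have := Polynomial.eval_map_apply (p := G) (V1K H hA hqM).subtype (x1K H hA hqM)
      exact this.symm
    rw [h1, hG1]
    show g0 = ((q : ↥(V1K H hA hqM)) : FK H (M * q)) * u0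
    rw [hg0u0]
    congr 1
  · rw [red1K_apply, ← hredu]
    congr 2
    exact Subtype.ext htBu0

/-- **(I2) over `K`, `α`-side at `V₂`**: `Φα₂ ∈ V2K[X]` lifts `gAlphaK` and reduces to `X^q - J`,
irreducible. -/
theorem exists_alpha2
    (hΦ : Φ.map (evalL ℤ (jqModC ℤ)) = rPoly q ℤ)
    (hchar : ∀ (k : Type) [Field k] [CharP k q],
      Φ.map (mapRingHom (Int.castRingHom k)) =
        (Polynomial.X - Polynomial.C (Polynomial.X ^ q)) *
          (Polynomial.X ^ q - Polynomial.C Polynomial.X)) :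
    ∃ G : Polynomial ↥(V2K H hA hqM),
      G.map (V2K H hA hqM).subtype = gAlphaK H M q Φ ∧
      G.map (red2K H hA hqM) =
        Polynomial.X ^ q - Polynomial.C (jk (ResidueField ↥A) M) ∧
      Irreducible (G.map (red2K H hA hqM)) := by
  haveI := Fermat.Agent.S36.ThetaX0.charP_fullC (M := M) hA
  haveI := charP_res hA
  obtain ⟨G, hG1, hG2⟩ := exists_cofactor_alphaK H (V2K H hA hqM) (j0K_mem_V2K H hA hqM)
    (j1K_mem_V2K H hA hqM) hΦ
  have hred := map_cofactor_inert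
    (hchar ↥(modularFunctionFieldFullC (ResidueField ↥A) M))
    (evK H (V2K H hA hqM) ⟨j1K H M q, j1K_mem_V2K H hA hqM⟩) (red2K H hA hqM) hG2
    (by
      rw [evK_X]
      exact (red2K_x H hA hqM).trans (by rw [← red2K_y H hA hqM]; rfl))
  have hy : red2K H hA hqM (evK H (V2K H hA hqM) ⟨j1K H M q, j1K_mem_V2K H hA hqM⟩
      Polynomial.X) = jk (ResidueField ↥A) M := by
    rw [evK_X]
    exact red2K_y H hA hqM
  rw [hy] at hred
  refine ⟨G, hG1, hred, ?_⟩
  rw [hred]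
  exact Fermat.Agent.S36.ThetaX0.irreducible_X_pow_sub_jk (ResidueField ↥A) M

/-- **(I2)+(I3) over `K`, `β`-side at `V₂`**: `Φβ₂ ∈ V2K[X]` lifts `gBetaK`, reduces to
`(X - J)^{q-1} (X - J^{q²})`, and `Φβ₂(j₁) = q · u₂` with `u₂` a unit of `V2K`. -/
theorem exists_beta2
    (hΦ : Φ.map (evalL ℤ (jqModC ℤ)) = rPoly q ℤ)
    (hchar : ∀ (k : Type) [Field k] [CharP k q],
      Φ.map (mapRingHom (Int.castRingHom k)) =
        (Polynomial.X - Polynomial.C (Polynomial.X ^ q)) *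
          (Polynomial.X ^ q - Polynomial.C Polynomial.X)) :
    ∃ (G : Polynomial ↥(V2K H hA hqM)) (u : ↥(V2K H hA hqM)),
      G.map (V2K H hA hqM).subtype = gBetaK H M q Φ ∧
      G.map (red2K H hA hqM) =
        (Polynomial.X - Polynomial.C (jk (ResidueField ↥A) M)) ^ (q - 1) *
          (Polynomial.X - Polynomial.C (jk (ResidueField ↥A) M ^ (q ^ 2))) ∧
      G.eval (y2K H hA hqM) = (q : ↥(V2K H hA hqM)) * u ∧ IsUnit u ∧
      ((red2K H hA hqM u : ↥(modularFunctionFieldFullC (ResidueField ↥A) M)) :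
          LaurentSeries (ResidueField ↥A)) =
        (jqModC (ResidueField ↥A) - jqModC (ResidueField ↥A) ^ (q ^ 2)) *
          thetaL (jqModC (ResidueField ↥A)) ^ (q - 1) := by
  haveI := Fermat.Agent.S36.ThetaX0.charP_fullC (M := M) hA
  obtain ⟨G, hG1, hG2⟩ := exists_cofactor_betaK H (V2K H hA hqM) (j0K_mem_V2K H hA hqM)
    (j1K_mem_V2K H hA hqM) hΦ
  have hred := map_cofactor_thick
    (hchar ↥(modularFunctionFieldFullC (ResidueField ↥A) M))
    (evK H (V2K H hA hqM) ⟨j0K H (M * q), j0K_mem_V2K H hA hqM⟩) (red2K H hA hqM) hG2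
    (by
      rw [evK_X]
      exact (red2K_x H hA hqM).trans (by rw [← red2K_y H hA hqM]; rfl))
  have hy : red2K H hA hqM ⟨j1K H M q, j1K_mem_V2K H hA hqM⟩ = jk (ResidueField ↥A) M :=
    red2K_y H hA hqM
  rw [hy] at hred
  -- second order, via the mirror over `ℚ̄`
  have hG' : Fermat.Agent.S36.ThetaX0.phiJ0 M q Φ =
      (Polynomial.X - Polynomial.C (jl M q)) * gPolyBeta M q Φ :=
    Fermat.Agent.S36.PowerBasisK0.phiJ0_eq hΦ
  obtain ⟨u, hgu, hu, hunit, hredu⟩ :=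
    Fermat.Agent.S36.ThetaX0.exists_unit_eval_cofactor_mirror hA hqM hΦ hchar hG'
  have hq0 : (q : E (M * q)) ≠ 0 := Nat.cast_ne_zero.mpr hq.out.ne_zero
  have hq0K : (q : FK H (M * q)) ≠ 0 := Nat.cast_ne_zero.mpr hq.out.ne_zero
  set g0 : FK H (M * q) := (gBetaK H M q Φ).eval (j1K H M q) with hg0
  set u0 : FK H (M * q) := g0 / (q : FK H (M * q)) with hu0
  have hg0u0 : g0 = (q : FK H (M * q)) * u0 := by rw [hu0]; field_simp
  have htBg0 : tB H (M * q) g0 = (gPolyBeta M q Φ).eval (jl M q) := by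
    rw [hg0, ← map_gBetaK H Φ,
      show jl M q = tB H (M * q) (j1K H M q) from (tB_j1K H).symm, Polynomial.eval_map_apply]
  have htBu0 : tB H (M * q) u0 = u := by
    have h1 : tB H (M * q) g0 = (q : E (M * q)) * tB H (M * q) u0 := by
      rw [hg0u0, map_mul, map_natCast]
    rw [htBg0, hgu] at h1
    exact (mul_left_cancel₀ hq0 h1).symm
  have hu0mem : tB H (M * q) u0 ∈ V₂ hA hqM := by rw [htBu0]; exact hu
  have hunit0 : IsUnit (⟨tB H (M * q) u0, hu0mem⟩ : ↥(V₂ hA hqM)) := by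
    have : (⟨tB H (M * q) u0, hu0mem⟩ : ↥(V₂ hA hqM)) = ⟨u, hu⟩ := Subtype.ext htBu0
    rw [this]; exact hunit
  refine ⟨G, ⟨u0, ValuationSubring.mem_comap.mpr hu0mem⟩, hG1, hred, ?_,
    isUnit_comap H (V₂ hA hqM) hu0mem hunit0, ?_⟩
  · apply Subtype.ext
    have h1 : ((G.eval (y2K H hA hqM) : ↥(V2K H hA hqM)) : FK H (M * q)) =
        (G.map (V2K H hA hqM).subtype).eval (j1K H M q) := by
      have := Polynomial.eval_map_apply (p := G) (V2K H hA hqM).subtype (y2K H hA hqM)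
      exact this.symm
    rw [h1, hG1]
    show g0 = ((q : ↥(V2K H hA hqM)) : FK H (M * q)) * u0
    rw [hg0u0]
    congr 1
  · rw [red2K_apply, ← hredu]
    congr 2
    exact Subtype.ext htBu0

/-- **(I2) over `K`, `β`-side at `V₁`**: `Φβ₁ ∈ V1K[X]` lifts `gBetaK` and reduces to `X^q - J`,
irreducible. -/
theorem exists_beta1
    (hΦ : Φ.map (evalL ℤ (jqModC ℤ)) = rPoly q ℤ)
    (hchar : ∀ (k : Type) [Field k] [CharP k q],
      Φ.map (mapRingHom (Int.castRingHom k)) =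
        (Polynomial.X - Polynomial.C (Polynomial.X ^ q)) *
          (Polynomial.X ^ q - Polynomial.C Polynomial.X)) :
    ∃ G : Polynomial ↥(V1K H hA hqM),
      G.map (V1K H hA hqM).subtype = gBetaK H M q Φ ∧
      G.map (red1K H hA hqM) =
        Polynomial.X ^ q - Polynomial.C (jk (ResidueField ↥A) M) ∧
      Irreducible (G.map (red1K H hA hqM)) := by
  haveI := Fermat.Agent.S36.ThetaX0.charP_fullC (M := M) hA
  haveI := charP_res hA
  obtain ⟨G, hG1, hG2⟩ := exists_cofactor_betaK H (V1K H hA hqM) (j0K_mem_V1K H hA hqM)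
    (j1K_mem_V1K H hA hqM) hΦ
  have hred := map_cofactor_inert
    (hchar ↥(modularFunctionFieldFullC (ResidueField ↥A) M))
    (evK H (V1K H hA hqM) ⟨j0K H (M * q), j0K_mem_V1K H hA hqM⟩) (red1K H hA hqM) hG2
    (by
      rw [evK_X]
      exact (red1K_y H hA hqM).trans (by rw [← red1K_x H hA hqM]; rfl))
  have hx : red1K H hA hqM (evK H (V1K H hA hqM) ⟨j0K H (M * q), j0K_mem_V1K H hA hqM⟩
      Polynomial.X) = jk (ResidueField ↥A) M := by
    rw [evK_X]
    exact red1K_x H hA hqM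
  rw [hx] at hred
  refine ⟨G, hG1, hred, ?_⟩
  rw [hred]
  exact Fermat.Agent.S36.ThetaX0.irreducible_X_pow_sub_jk (ResidueField ↥A) M

end Fermat.Agent.S36.ThetaK0
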