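/-
PROJECT V (S36), slice V-ThetaX0, part 1 (helper13): **first-order Kronecker for the cofactor
`G = Φ_q(Y, x)/(Y - y)`, abstractly** (input (I2) of the three-valuation analysis).

`Φ ∈ ℤ[X][Y]` any polynomial with the Kronecker congruence `Φ ≡ (Y - X^q)(Y^q - X)` in a field `κ`
of characteristic `q`; `S` any commutative ring (a valuation ring `V₁`, `V₂`, their `K₀`-forms, …),
`φ : ℤ[X] →+* S` (so `x = φ X`; think `x = j₁ = j(t^q)`), `y ∈ S` a root (`y = j`), `G ∈ S[Y]` with
`Φ(Y, x) = (Y - y) · G`, and `r : S →+* κ` a reduction map.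

* `map_map_of_char` : `r(Φ(Y, x)) = (Y - (r x)^q)(Y^q - r x)`;
* `map_cofactor_thick` : if `r x = (r y)^q` (the place `V₁`) then
  `r(G) = (Y - r y)^{q-1} (Y - (r y)^{q²})`: a root of multiplicity `q - 1` (the THICK place `W₁₁`)
  and a simple root (the thin place `W₂₀`);
* `map_cofactor_inert` : if `r y = (r x)^q` (the place `V₂`) then `r(G) = Y^q - r x` (the
  inseparable place `W₀₂`), irreducible when `r x` is not a `q`-th power
  (`irreducible_map_cofactor_inert`);
* `map_divByMonic_X_sub_C` : the cofactor commutes with ring homs (so `G` descends to every subring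
  containing `x` and `y`).
-/
import Mathlib

set_option autoImplicit false

namespace Fermat.Agent.S36.KroneckerRed

open Polynomial

variable {q : ℕ} {S κ : Type*} [CommRing S] [Field κ]

/-- a ring hom `ℤ[X] → S → κ` is "base change to `κ`, then evaluate at the image of `X`" -/
theorem comp_eq_evalRingHom_comp (φ : Polynomial ℤ →+* S) (r : S →+* κ) :
    r.comp φ = (evalRingHom (r (φ X))).comp (mapRingHom (Int.castRingHom κ)) := by
  apply Polynomial.ringHom_ext
  · intro a
    simp
  · simp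

/-- **`r(Φ(Y, x)) = (Y - (r x)^q)(Y^q - r x)`.** -/
theorem map_map_of_char {Φ : Polynomial (Polynomial ℤ)}
    (hchar : Φ.map (mapRingHom (Int.castRingHom κ)) = (X - C (X ^ q)) * (X ^ q - C X))
    (φ : Polynomial ℤ →+* S) (r : S →+* κ) :
    (Φ.map φ).map r = (X - C (r (φ X) ^ q)) * (X ^ q - C (r (φ X))) := by
  rw [Polynomial.map_map, comp_eq_evalRingHom_comp, ← Polynomial.map_map, hchar]
  simp

variable [hq : Fact q.Prime] [CharP κ q]

/-- **The cofactor at the place `V₁`** (`r x = (r y)^q`):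
`r(G) = (Y - r y)^{q-1} (Y - (r y)^{q²})`. -/
theorem map_cofactor_thick {Φ : Polynomial (Polynomial ℤ)}
    (hchar : Φ.map (mapRingHom (Int.castRingHom κ)) = (X - C (X ^ q)) * (X ^ q - C X))
    (φ : Polynomial ℤ →+* S) (r : S →+* κ) {y : S} {G : Polynomial S}
    (hG : Φ.map φ = (X - C y) * G) (hxy : r (φ X) = r y ^ q) :
    G.map r = (X - C (r y)) ^ (q - 1) * (X - C (r y ^ (q ^ 2))) := by
  have h := map_map_of_char hchar φ r
  rw [hG, Polynomial.map_mul, Polynomial.map_sub, Polynomial.map_X, Polynomial.map_C, hxy] at h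
  have hfrob : (X : Polynomial κ) ^ q - C (r y ^ q) = (X - C (r y)) ^ q := by
    rw [sub_pow_char, ← C_pow]
  rw [hfrob, ← pow_mul, ← pow_two] at h
  have hne : (X - C (r y) : Polynomial κ) ≠ 0 := X_sub_C_ne_zero _
  apply mul_left_cancel₀ hne
  rw [h]
  obtain ⟨n, hn⟩ : ∃ n, q = n + 1 := ⟨q - 1, (Nat.sub_add_cancel hq.out.pos).symm⟩
  rw [hn, Nat.add_sub_cancel, pow_succ]
  ring

omit hq [CharP κ q] in
/-- **The cofactor at the place `V₂`** (`r y = (r x)^q`): `r(G) = Y^q - r x`. -/
theorem map_cofactor_inert {Φ : Polynomial (Polynomial ℤ)}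
    (hchar : Φ.map (mapRingHom (Int.castRingHom κ)) = (X - C (X ^ q)) * (X ^ q - C X))
    (φ : Polynomial ℤ →+* S) (r : S →+* κ) {y : S} {G : Polynomial S}
    (hG : Φ.map φ = (X - C y) * G) (hyx : r y = r (φ X) ^ q) :
    G.map r = X ^ q - C (r (φ X)) := by
  have h := map_map_of_char hchar φ r
  rw [hG, Polynomial.map_mul, Polynomial.map_sub, Polynomial.map_X, Polynomial.map_C, hyx] at h
  have hne : (X - C (r (φ X) ^ q) : Polynomial κ) ≠ 0 := X_sub_C_ne_zero _
  exact mul_left_cancel₀ hne h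

omit [CharP κ q] in
/-- `Y^q - c` is irreducible when `c` is not a `q`-th power -/
theorem irreducible_map_cofactor_inert {Φ : Polynomial (Polynomial ℤ)}
    (hchar : Φ.map (mapRingHom (Int.castRingHom κ)) = (X - C (X ^ q)) * (X ^ q - C X))
    (φ : Polynomial ℤ →+* S) (r : S →+* κ) {y : S} {G : Polynomial S}
    (hG : Φ.map φ = (X - C y) * G) (hyx : r y = r (φ X) ^ q)
    (hnp : ∀ b : κ, b ^ q ≠ r (φ X)) : Irreducible (G.map r) := by
  rw [map_cofactor_inert hchar φ r hG hyx]
  exact X_pow_sub_C_irreducible_of_prime hq.out hnp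

omit hq [CharP κ q] in
/-- the cofactor `P /ₘ (Y - y)` commutes with ring homs -/
theorem map_divByMonic_X_sub_C {T : Type*} [CommRing T] (f : S →+* T) (P : Polynomial S) (y : S) :
    (P /ₘ (X - C y)).map f = P.map f /ₘ (X - C (f y)) := by
  rw [Polynomial.map_divByMonic f (monic_X_sub_C y), Polynomial.map_sub, Polynomial.map_X,
    Polynomial.map_C]

omit hq [CharP κ q] in
/-- uniqueness of the cofactor -/
theorem cofactor_unique {T : Type*} [CommRing T] [IsDomain T] {P G G' : Polynomial T} {y : T}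
    (hG : P = (X - C y) * G) (hG' : P = (X - C y) * G') : G = G' :=
  mul_left_cancel₀ (X_sub_C_ne_zero y) (hG.symm.trans hG')

omit hq [CharP κ q] in
/-- **The cofactor descends along an injective ring hom** `ι : S → E` (a subring containing `x = φ X`
and the root `y`). -/
theorem exists_cofactor_of_injective {S E : Type*} [CommRing S] [CommRing E] [IsDomain E]
    (ι : S →+* E) (hι : Function.Injective ι) (φ : Polynomial ℤ →+* S) (y : S)
    {Φ : Polynomial (Polynomial ℤ)} {G : Polynomial E}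
    (hG : Φ.map (ι.comp φ) = (X - C (ι y)) * G) :
    ∃ G₁ : Polynomial S, G₁.map ι = G ∧ Φ.map φ = (X - C y) * G₁ := by
  have h1 : (Φ.map φ /ₘ (X - C y)).map ι = G := by
    rw [map_divByMonic_X_sub_C, Polynomial.map_map, hG,
      Polynomial.mul_divByMonic_cancel_left _ (monic_X_sub_C _)]
  refine ⟨Φ.map φ /ₘ (X - C y), h1, ?_⟩
  apply Polynomial.map_injective ι hι
  rw [Polynomial.map_mul, h1, Polynomial.map_sub, Polynomial.map_X, Polynomial.map_C,
    Polynomial.map_map, hG]

end Fermat.Agent.S36.KroneckerRed
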