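/-
PROJECT V (S36), assembly layer 1, abstract part (helper6): **the value argument (A2).**

SETTING.  `F₂` (level `q² M''`) with three pairwise distinct DISCRETE valuation subrings
`W₂₀ W₁₁ W₀₂` (uniformizers `ϖ₂₀ ϖ₁₁ ϖ₀₂`), `F₁` (level `q M''`) with two discrete valuation
subrings `V₁ V₂` with a common uniformizer `π` (`= q`), `π' ∈ F₂` (`= q` again) with
`W₂₀ π' = W₂₀ ϖ₂₀`, `W₁₁ π' = (W₁₁ ϖ₁₁) ^ (q - 1)`, `W₀₂ π' = W₀₂ ϖ₀₂`; two multiplicative maps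
`N₁ N₂ : F₂ →* F₁` (the norms along the two degeneracy maps) with the four VALUE formulas
(`S36/OrthoRamVal.val_norm`): if `y ≠ 0` has values `(a, c, b)` at `(W₂₀, W₁₁, W₀₂)` then
`V₁ (N₁ y) = a + c`, `V₂ (N₁ y) = q b`, `V₁ (N₂ y) = q a`, `V₂ (N₂ y) = c + b`.
A CONSTANT is an element of `F₁` with the same value at `V₁` and `V₂`.

RESULT (`exists_unit_normalisation`).  If `N₁ f = c₁ g₁ ^ n`, `N₂ f = c₂ g₂ ^ n` with constants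
`c₁ c₂`, then there are `h ∈ F₂ˣ` and `m : ℤ` such that `f ^ (q + 1) * π' ^ (-m) * h ^ (-n)` is a unit
at all three `W`.

Mathlib + `S34/WeakApproxMul` only.
-/
import Mathlib
import Fermat.Agent.S34.WeakApproxMul

set_option autoImplicit false

namespace Fermat.Agent.S36.UnitNormal

open Fermat.Agent.S34.WeakApprox Fermat.Agent.S34.WeakApproxMul

/-! ### discrete valuation subrings, elementwise -/

section Disc

variable {F : Type*} [Field F]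

/-- `W` is a discrete valuation subring of `F` with uniformizer `ϖ`: the value group is generated
by the value of `ϖ`. -/
structure IsDisc (W : ValuationSubring F) (ϖ : F) : Prop where
  ne_zero : ϖ ≠ 0
  lt_one : W.valuation ϖ < 1
  exists_zpow : ∀ y : F, y ≠ 0 → ∃ n : ℤ, W.valuation y = W.valuation ϖ ^ n

namespace IsDisc

variable {W : ValuationSubring F} {ϖ : F} (h : IsDisc W ϖ)

include h

theorem val_pos : 0 < W.valuation ϖ :=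
  lt_of_le_of_ne zero_le (Ne.symm ((Valuation.ne_zero_iff _).mpr h.ne_zero))

theorem zpow_inj {a b : ℤ} (hab : W.valuation ϖ ^ a = W.valuation ϖ ^ b) : a = b :=
  zpow_right_injective₀ h.val_pos h.lt_one.ne hab

theorem zpow_ne_zero' (a : ℤ) : ϖ ^ a ≠ 0 := zpow_ne_zero a h.ne_zero

theorem zpow_le_one_iff {a : ℤ} : W.valuation ϖ ^ a ≤ 1 ↔ 0 ≤ a := by
  have := zpow_le_zpow_iff_right_of_lt_one₀ h.val_pos h.lt_one (m := a) (n := 0)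
  rwa [zpow_zero] at this

theorem ne_top : W ≠ ⊤ := by
  intro htop
  have hmem : ϖ⁻¹ ∈ W := by rw [htop]; exact ValuationSubring.mem_top _
  have h1 := (W.valuation_le_one_iff _).mpr hmem
  rw [map_inv₀] at h1
  have h2 : 1 ≤ W.valuation ϖ := by
    have := (inv_le_one₀ h.val_pos).mp h1
    exact this
  exact absurd h.lt_one (not_lt.mpr h2)

/-- a discrete valuation subring is archimedean -/
theorem arch : Arch W := by
  intro a c hc hc0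
  by_cases ha0 : a = 0
  · exact ⟨0, by rw [ha0, zero_mul]; exact W.zero_mem⟩
  obtain ⟨l, hl⟩ := h.exists_zpow a ha0
  obtain ⟨k, hk⟩ := h.exists_zpow c hc0
  have hk1 : 1 ≤ k := by
    have h1 : W.valuation c < 1 := W.mem_nonunits_iff.mp hc
    rw [hk] at h1
    have h2 : ¬ W.valuation ϖ ^ k ≥ 1 := not_le.mpr h1
    by_contra hcon
    have hk0 : k ≤ 0 := by omega
    apply h2
    have := zpow_le_zpow_iff_right_of_lt_one₀ h.val_pos h.lt_one (m := 0) (n := k)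
    rw [zpow_zero] at this
    exact this.mpr hk0
  refine ⟨(-l).toNat, ?_⟩
  rw [← W.valuation_le_one_iff, map_mul, map_pow, hl, hk, ← zpow_natCast, ← zpow_mul,
    ← zpow_add₀ h.val_pos.ne', h.zpow_le_one_iff]
  have h3 : -l ≤ ((-l).toNat : ℤ) := Int.self_le_toNat _
  have h4 : (0 : ℤ) ≤ ((-l).toNat : ℤ) := Int.natCast_nonneg _
  nlinarith

end IsDisc

/-- **weak approximation for values**: finitely many pairwise distinct discrete valuation subrings,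
prescribed values. -/
theorem exists_values {ι : Type*} [Finite ι] (W : ι → ValuationSubring F) (ϖ : ι → F)
    (hd : ∀ i, IsDisc (W i) (ϖ i)) (hne : ∀ i j, i ≠ j → W i ≠ W j) (x : ι → ℤ) :
    ∃ h : F, h ≠ 0 ∧ ∀ i, (W i).valuation h = (W i).valuation (ϖ i) ^ x i := by
  have hinc : ∀ i j, i ≠ j → ¬ W i ≤ W j := fun i j hij hle =>
    hne i j hij (le_antisymm hle ((hd i).arch.le_of_le hle (hd j).ne_top))
  obtain ⟨y, hy0, hy⟩ := exists_approx_mul' W (fun i => (hd i).arch) hinc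
    (fun i => ϖ i ^ x i) (fun i => (hd i).zpow_ne_zero' _)
  exact ⟨y, hy0, fun i => by rw [(hy i).2, map_zpow₀]⟩

end Disc

/-! ### the setting -/

/-- **The two-level value datum**, see the header. -/
structure Setting (F₁ F₂ : Type*) [Field F₁] [Field F₂] where
  W₂₀ : ValuationSubring F₂
  W₁₁ : ValuationSubring F₂
  W₀₂ : ValuationSubring F₂
  ϖ₂₀ : F₂
  ϖ₁₁ : F₂
  ϖ₀₂ : F₂
  V₁ : ValuationSubring F₁
  V₂ : ValuationSubring F₁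
  π : F₁
  π' : F₂
  q : ℕ
  q_pos : 0 < q
  N₁ : F₂ →* F₁
  N₂ : F₂ →* F₁
  d₂₀ : IsDisc W₂₀ ϖ₂₀
  d₁₁ : IsDisc W₁₁ ϖ₁₁
  d₀₂ : IsDisc W₀₂ ϖ₀₂
  dV₁ : IsDisc V₁ π
  dV₂ : IsDisc V₂ π
  ne₂₀₁₁ : W₂₀ ≠ W₁₁
  ne₂₀₀₂ : W₂₀ ≠ W₀₂
  ne₁₁₀₂ : W₁₁ ≠ W₀₂
  hπ₂₀ : W₂₀.valuation π' = W₂₀.valuation ϖ₂₀
  hπ₁₁ : W₁₁.valuation π' = W₁₁.valuation ϖ₁₁ ^ (q - 1)
  hπ₀₂ : W₀₂.valuation π' = W₀₂.valuation ϖ₀₂
  /-- `V₁ (N₁ y) = W₂₀ y + W₁₁ y` -/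
  val₁₁ : ∀ (y : F₂) (a c b : ℤ), y ≠ 0 → W₂₀.valuation y = W₂₀.valuation ϖ₂₀ ^ a →
    W₁₁.valuation y = W₁₁.valuation ϖ₁₁ ^ c → W₀₂.valuation y = W₀₂.valuation ϖ₀₂ ^ b →
    V₁.valuation (N₁ y) = V₁.valuation π ^ (a + c)
  /-- `V₂ (N₁ y) = q W₀₂ y` -/
  val₁₂ : ∀ (y : F₂) (a c b : ℤ), y ≠ 0 → W₂₀.valuation y = W₂₀.valuation ϖ₂₀ ^ a →
    W₁₁.valuation y = W₁₁.valuation ϖ₁₁ ^ c → W₀₂.valuation y = W₀₂.valuation ϖ₀₂ ^ b →
    V₂.valuation (N₁ y) = V₂.valuation π ^ ((q : ℤ) * b)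
  /-- `V₁ (N₂ y) = q W₂₀ y` -/
  val₂₁ : ∀ (y : F₂) (a c b : ℤ), y ≠ 0 → W₂₀.valuation y = W₂₀.valuation ϖ₂₀ ^ a →
    W₁₁.valuation y = W₁₁.valuation ϖ₁₁ ^ c → W₀₂.valuation y = W₀₂.valuation ϖ₀₂ ^ b →
    V₁.valuation (N₂ y) = V₁.valuation π ^ ((q : ℤ) * a)
  /-- `V₂ (N₂ y) = W₁₁ y + W₀₂ y` -/
  val₂₂ : ∀ (y : F₂) (a c b : ℤ), y ≠ 0 → W₂₀.valuation y = W₂₀.valuation ϖ₂₀ ^ a →
    W₁₁.valuation y = W₁₁.valuation ϖ₁₁ ^ c → W₀₂.valuation y = W₀₂.valuation ϖ₀₂ ^ b →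
    V₂.valuation (N₂ y) = V₂.valuation π ^ (c + b)

namespace Setting

variable {F₁ F₂ : Type*} [Field F₁] [Field F₂] (X : Setting F₁ F₂)

/-- a constant: the same value at `V₁` and `V₂` -/
def IsConst (c : F₁) : Prop :=
  ∃ m : ℤ, X.V₁.valuation c = X.V₁.valuation X.π ^ m ∧ X.V₂.valuation c = X.V₂.valuation X.π ^ m

/-- the values of `c * g ^ n` -/
theorem val_const_mul_pow {V : ValuationSubring F₁} (hV : IsDisc V X.π) {c g : F₁} {m s : ℤ}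
    (hc : V.valuation c = V.valuation X.π ^ m) (hg : V.valuation g = V.valuation X.π ^ s) (n : ℕ) :
    V.valuation (c * g ^ n) = V.valuation X.π ^ (m + n * s) := by
  rw [map_mul, map_pow, hc, hg, ← zpow_natCast, ← zpow_mul, ← zpow_add₀ hV.val_pos.ne',
    mul_comm s]

/-- **The value argument (A2).** -/
theorem exists_unit_normalisation {n : ℕ} {f : F₂} (hf : f ≠ 0) {c₁ c₂ g₁ g₂ : F₁}
    (hc₁ : X.IsConst c₁) (hc₂ : X.IsConst c₂) (hg₁ : g₁ ≠ 0) (hg₂ : g₂ ≠ 0)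
    (h₁ : X.N₁ f = c₁ * g₁ ^ n) (h₂ : X.N₂ f = c₂ * g₂ ^ n) :
    ∃ (h : F₂) (m : ℤ), h ≠ 0 ∧
      X.W₂₀.valuation (f ^ (X.q + 1) * X.π' ^ (-m) * h ^ (-(n : ℤ))) = 1 ∧
      X.W₁₁.valuation (f ^ (X.q + 1) * X.π' ^ (-m) * h ^ (-(n : ℤ))) = 1 ∧
      X.W₀₂.valuation (f ^ (X.q + 1) * X.π' ^ (-m) * h ^ (-(n : ℤ))) = 1 := by
  -- the values of `f`
  obtain ⟨a, ha⟩ := X.d₂₀.exists_zpow f hf
  obtain ⟨c, hc⟩ := X.d₁₁.exists_zpow f hf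
  obtain ⟨b, hb⟩ := X.d₀₂.exists_zpow f hf
  -- the values of the constants and of `g₁`, `g₂`
  obtain ⟨m₁, hm₁, hm₁'⟩ := hc₁
  obtain ⟨m₂, hm₂, hm₂'⟩ := hc₂
  obtain ⟨s₁, hs₁⟩ := X.dV₁.exists_zpow g₁ hg₁
  obtain ⟨s₁', hs₁'⟩ := X.dV₂.exists_zpow g₁ hg₁
  obtain ⟨s₂, hs₂⟩ := X.dV₁.exists_zpow g₂ hg₂
  obtain ⟨s₂', hs₂'⟩ := X.dV₂.exists_zpow g₂ hg₂
  -- the four congruences
  have e₁₁ : a + c = m₁ + n * s₁ := X.dV₁.zpow_inj (by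
    rw [← X.val₁₁ f a c b hf ha hc hb, h₁, X.val_const_mul_pow X.dV₁ hm₁ hs₁])
  have e₁₂ : (X.q : ℤ) * b = m₁ + n * s₁' := X.dV₂.zpow_inj (by
    rw [← X.val₁₂ f a c b hf ha hc hb, h₁, X.val_const_mul_pow X.dV₂ hm₁' hs₁'])
  have e₂₁ : (X.q : ℤ) * a = m₂ + n * s₂ := X.dV₁.zpow_inj (by
    rw [← X.val₂₁ f a c b hf ha hc hb, h₂, X.val_const_mul_pow X.dV₁ hm₂ hs₂])
  have e₂₂ : c + b = m₂ + n * s₂' := X.dV₂.zpow_inj (by
    rw [← X.val₂₂ f a c b hf ha hc hb, h₂, X.val_const_mul_pow X.dV₂ hm₂' hs₂'])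
  -- `a + c - q b = n u`, `q a - c - b = n v`
  set u : ℤ := s₁ - s₁' with hu
  set v : ℤ := s₂ - s₂' with hv
  have r₁ : a + c - X.q * b = n * u := by rw [hu]; linear_combination e₁₁ - e₁₂
  have r₂ : X.q * a - c - b = n * v := by rw [hv]; linear_combination e₂₁ - e₂₂
  -- weak approximation: values `(u + v, q u - v, 0)`
  let Wf : Fin 3 → ValuationSubring F₂ := ![X.W₂₀, X.W₁₁, X.W₀₂]
  let ϖf : Fin 3 → F₂ := ![X.ϖ₂₀, X.ϖ₁₁, X.ϖ₀₂]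
  have hd : ∀ i, IsDisc (Wf i) (ϖf i) := by
    intro i
    fin_cases i
    · exact X.d₂₀
    · exact X.d₁₁
    · exact X.d₀₂
  have hne : ∀ i j, i ≠ j → Wf i ≠ Wf j := by
    intro i j hij
    fin_cases i <;> fin_cases j
    · exact absurd rfl hij
    · exact X.ne₂₀₁₁
    · exact X.ne₂₀₀₂
    · exact X.ne₂₀₁₁.symm
    · exact absurd rfl hij
    · exact X.ne₁₁₀₂
    · exact X.ne₂₀₀₂.symm
    · exact X.ne₁₁₀₂.symm
    · exact absurd rfl hij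
  obtain ⟨h, hh0, hh⟩ := exists_values Wf ϖf hd hne ![u + v, X.q * u - v, 0]
  have hh₂₀ : X.W₂₀.valuation h = X.W₂₀.valuation X.ϖ₂₀ ^ (u + v) := hh 0
  have hh₁₁ : X.W₁₁.valuation h = X.W₁₁.valuation X.ϖ₁₁ ^ ((X.q : ℤ) * u - v) := hh 1
  have hh₀₂ : X.W₀₂.valuation h = X.W₀₂.valuation X.ϖ₀₂ ^ (0 : ℤ) := hh 2
  have hq1 : 1 ≤ X.q := X.q_pos
  refine ⟨h, (X.q + 1) * b, hh0, ?_, ?_, ?_⟩
  · -- `W₂₀`
    rw [map_mul, map_mul, map_pow, map_zpow₀, map_zpow₀, ha, X.hπ₂₀, hh₂₀, ← zpow_natCast,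
      ← zpow_mul, ← zpow_mul, ← zpow_add₀ X.d₂₀.val_pos.ne', ← zpow_add₀ X.d₂₀.val_pos.ne']
    have : a * ((X.q + 1 : ℕ) : ℤ) + -((X.q + 1 : ℤ) * b) + (u + v) * -(n : ℤ) = 0 := by
      push_cast
      linear_combination r₁ + r₂
    rw [this, zpow_zero]
  · -- `W₁₁`
    rw [map_mul, map_mul, map_pow, map_zpow₀, map_zpow₀, hc, X.hπ₁₁, hh₁₁, ← zpow_natCast,
      ← zpow_natCast, ← zpow_mul, ← zpow_mul, ← zpow_mul, ← zpow_add₀ X.d₁₁.val_pos.ne',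
      ← zpow_add₀ X.d₁₁.val_pos.ne']
    have hcast : ((X.q - 1 : ℕ) : ℤ) = (X.q : ℤ) - 1 := by
      rw [Nat.cast_sub hq1]; simp
    have : c * ((X.q + 1 : ℕ) : ℤ) + ((X.q - 1 : ℕ) : ℤ) * -((X.q + 1 : ℤ) * b)
        + ((X.q : ℤ) * u - v) * -(n : ℤ) = 0 := by
      rw [hcast]
      push_cast
      linear_combination (X.q : ℤ) * r₁ - r₂
    rw [this, zpow_zero]
  · -- `W₀₂`
    rw [map_mul, map_mul, map_pow, map_zpow₀, map_zpow₀, hb, X.hπ₀₂, hh₀₂, ← zpow_natCast,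
      ← zpow_mul, ← zpow_mul, ← zpow_add₀ X.d₀₂.val_pos.ne', ← zpow_add₀ X.d₀₂.val_pos.ne']
    have : b * ((X.q + 1 : ℕ) : ℤ) + -((X.q + 1 : ℤ) * b) + 0 * -(n : ℤ) = 0 := by
      push_cast
      ring
    rw [this, zpow_zero]

end Setting

end Fermat.Agent.S36.UnitNormal
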