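/-
S36 (project V), slice V-ThreeValInputs: **constructors for `ThreeVal.Setup`, `ThreeVal.Setup.Num`
and `ThreeVal.Setup.Reds` from hypotheses in the form the `X₀`-instantiation delivers them.**

* `Inputs α β V₁ V₂ κ` : reductions `red₁ red₂ : V_i → κ` (ONTO), a common uniformizer `ϖ` of `V₁`
  and `V₂` (`= q`), coordinate functions `x y` (`= j₀, j₁`) with `red₁ y = (red₁ x)^q`,
  `red₂ x = (red₂ y)^q`, `J ≠ J^(q²)`; the two power bases (`F₂ = α F₁ (β y) = β F₁ (α x)`) with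
  minimal polynomials `Φα`, `Φβ` given over `V₁` AND over `V₂`; the first-order Kronecker
  reductions, stated with the `κ`-valued maps:
  `Φα₁.map red₁ = (X - J)^(q-1) (X - J^(q²))`, `Φα₂.map red₂` irreducible,
  `Φβ₂.map red₂ = (X - J)^(q-1) (X - J^(q²))`, `Φβ₁.map red₁` irreducible; the second-order input
  `Φα₁(x) = ϖ u₁`, `Φβ₂(y) = ϖ u₂` with units `u_i`; `two_α`, `two_β`.
  `Inputs.setup : ThreeVal.Setup α β V₁ V₂` and `Inputs.num : (Inputs.setup I).Num`.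
* `RedInputs` : the level below (`F₀`, `α₀ β₀ : F₀ → F₁`, `O₀`, `red₀`), residue degree one of `V₁`
  over `O₀` along `α₀` and of `V₂` along `β₀`, and the values of `r₂₀ r₁₁ r₀₂` on the three copies
  `a₀ = α α₀`, `a₁ = α β₀ = β α₀`, `a₂ = β β₀` of `O₀`; `RedInputs.reds : Reds T κ`.
* `toSetting` : the `UnitNormal.Setting` (value argument (A2) with constants) of a setup.
-/
import Mathlib
import Fermat.Agent.S36.ThreeVal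
import Fermat.Agent.S36.UnitNormal

set_option autoImplicit false
set_option linter.unusedSectionVars false
set_option linter.style.haveILetI false

noncomputable section

namespace Fermat.Agent.S36.ThreeValInputs

open Polynomial IsLocalRing
open Fermat.Agent.S34.TwoExt Fermat.Agent.S34.WeakApprox Fermat.Agent.S36.OrthoRam
open Fermat.Agent.S36.ThreeVal

/-! ### from `κ`-valued reductions to the residue field -/

section Adapters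

variable {F : Type*} [Field F] {O : ValuationSubring F} {κ : Type*} [Field κ]
variable (ρ : ↥O →+* κ) (hρ : ∀ c : ↥O, ρ c = 0 ↔ (c : F) ∈ O.nonunits)

include hρ

theorem mem_maximalIdeal_iff (c : ↥O) : c ∈ maximalIdeal ↥O ↔ ρ c = 0 := by
  rw [hρ, ValuationSubring.mem_nonunits_iff, ValuationSubring.valuation_lt_one_iff]

theorem residue_eq_iff (a b : ↥O) : residue ↥O a = residue ↥O b ↔ ρ a = ρ b := by
  rw [← sub_eq_zero, ← map_sub, residue_eq_zero_iff, mem_maximalIdeal_iff ρ hρ, map_sub,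
    sub_eq_zero]

/-- two polynomials with the same image under `ρ` have the same reduction -/
theorem red_eq_of_map_eq {P Q : (↥O)[X]} (h : P.map ρ = Q.map ρ) : red O P = red O Q := by
  rw [← sub_eq_zero, ← map_sub, red_eq_zero_iff]
  intro i
  rw [mem_maximalIdeal_iff ρ hρ, coeff_sub, map_sub, sub_eq_zero, ← coeff_map, ← coeff_map, h]

theorem isLocalHom : IsLocalHom ρ := by
  refine ⟨fun a ha => ?_⟩
  by_contra hnu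
  have h1 : a ∈ maximalIdeal ↥O := (mem_maximalIdeal _).mpr hnu
  rw [mem_maximalIdeal_iff ρ hρ] at h1
  rw [h1] at ha
  exact not_isUnit_zero ha

/-- irreducibility descends from `κ` to the residue field -/
theorem irreducible_red_of_map {P : (↥O)[X]} (hP : P.Monic) (h : Irreducible (P.map ρ)) :
    Irreducible (red O P) := by
  haveI := isLocalHom ρ hρ
  have h1 : (red O P).map (ResidueField.lift ρ) = P.map ρ := by
    rw [red_apply, Polynomial.map_map, ResidueField.lift_comp_residue]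
  refine Monic.irreducible_of_irreducible_map (ResidueField.lift ρ) _ ?_ (h1 ▸ h)
  rw [red_apply]
  exact hP.map _

end Adapters

/-! ### the inputs of the setup -/

section Main

variable {F₁ : Type*} [Field F₁] {F₂ : Type*} [Field F₂]

/-- **The inputs** of `ThreeVal.Setup`, in the form delivered by the `X₀`-instantiation (see the
header). -/
structure Inputs (α β : F₁ →+* F₂) (V₁ V₂ : ValuationSubring F₁) (κ : Type*) [Field κ] where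
  q : ℕ
  prime : q.Prime
  /-- the common uniformizer (`= q`) -/
  ϖ₁ : ↥V₁
  ϖ₂ : ↥V₂
  hϖ₁ : maximalIdeal ↥V₁ = Ideal.span {ϖ₁}
  hϖ₂ : maximalIdeal ↥V₂ = Ideal.span {ϖ₂}
  ϖ₁_ne : ϖ₁ ≠ 0
  ϖ₂_ne : ϖ₂ ≠ 0
  /-- the reductions -/
  red₁ : ↥V₁ →+* κ
  red₂ : ↥V₂ →+* κ
  surj₁ : Function.Surjective red₁
  surj₂ : Function.Surjective red₂
  /-- the coordinate functions `j₀`, `j₁` -/
  x₁ : ↥V₁
  y₁ : ↥V₁
  x₂ : ↥V₂
  y₂ : ↥V₂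
  hx : (x₁ : F₁) = x₂
  hy : (y₁ : F₁) = y₂
  hαβ : α (y₁ : F₁) = β (x₁ : F₁)
  red₁_y : red₁ y₁ = red₁ x₁ ^ q
  red₂_x : red₂ x₂ = red₂ y₂ ^ q
  ne₁ : red₁ x₁ ≠ red₁ x₁ ^ (q ^ 2)
  ne₂ : red₂ y₂ ≠ red₂ y₂ ^ (q ^ 2)
  /-- `F₂ = α F₁ (β y)` -/
  pbα : PowerBasis F₁ (S35.NormRed.Via α)
  gen_α : (pbα.gen : F₂) = β (y₁ : F₁)
  /-- `F₂ = β F₁ (α x)` -/
  pbβ : PowerBasis F₁ (S35.NormRed.Via β)
  gen_β : (pbβ.gen : F₂) = α (x₁ : F₁)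
  /-- the minimal polynomials, over `V₁` and over `V₂` -/
  Φα₁ : (↥V₁)[X]
  Φα₂ : (↥V₂)[X]
  Φβ₁ : (↥V₁)[X]
  Φβ₂ : (↥V₂)[X]
  monic_α₁ : Φα₁.Monic
  monic_α₂ : Φα₂.Monic
  monic_β₁ : Φβ₁.Monic
  monic_β₂ : Φβ₂.Monic
  min_α₁ : minpoly F₁ pbα.gen = Φα₁.map (algebraMap ↥V₁ F₁)
  min_α₂ : minpoly F₁ pbα.gen = Φα₂.map (algebraMap ↥V₂ F₁)
  min_β₁ : minpoly F₁ pbβ.gen = Φβ₁.map (algebraMap ↥V₁ F₁)
  min_β₂ : minpoly F₁ pbβ.gen = Φβ₂.map (algebraMap ↥V₂ F₁)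
  /-- first-order Kronecker -/
  red_α₁ : Φα₁.map red₁ = (X - C (red₁ x₁)) ^ (q - 1) * (X - C (red₁ x₁ ^ (q ^ 2)))
  irr_α₂ : Irreducible (Φα₂.map red₂)
  red_β₂ : Φβ₂.map red₂ = (X - C (red₂ y₂)) ^ (q - 1) * (X - C (red₂ y₂ ^ (q ^ 2)))
  irr_β₁ : Irreducible (Φβ₁.map red₁)
  /-- second-order Kronecker (theta) -/
  u₁ : ↥V₁
  u₂ : ↥V₂
  unit₁ : IsUnit u₁
  unit₂ : IsUnit u₂
  eval_α₁ : Φα₁.eval x₁ = ϖ₁ * u₁
  eval_β₂ : Φβ₂.eval y₂ = ϖ₂ * u₂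
  two_α : ∀ W : ValuationSubring F₂, (W.comap α = V₁ ∨ W.comap α = V₂) →
    (W.comap β = V₁ ∨ W.comap β = V₂)
  two_β : ∀ W : ValuationSubring F₂, (W.comap β = V₁ ∨ W.comap β = V₂) →
    (W.comap α = V₁ ∨ W.comap α = V₂)

namespace Inputs

variable {α β : F₁ →+* F₂} {V₁ V₂ : ValuationSubring F₁} {κ : Type*} [Field κ]
variable (I : Inputs α β V₁ V₂ κ)

theorem ker₁ (c : ↥V₁) : I.red₁ c = 0 ↔ (c : F₁) ∈ V₁.nonunits :=
  eq_zero_iff_of_surjective V₁ I.red₁ I.surj₁ c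

theorem ker₂ (c : ↥V₂) : I.red₂ c = 0 ↔ (c : F₁) ∈ V₂.nonunits :=
  eq_zero_iff_of_surjective V₂ I.red₂ I.surj₂ c

include I in
theorem q_sub_one_pos : 0 < I.q - 1 := by
  have := I.prime.two_le
  omega

theorem red_Φα₁ : red V₁ I.Φα₁
    = (X - C (residue ↥V₁ I.x₁)) ^ (I.q - 1) * (X - C (residue ↥V₁ (I.y₁ ^ I.q))) := by
  have h : red V₁ ((X - C I.x₁) ^ (I.q - 1) * (X - C (I.y₁ ^ I.q)))
      = (X - C (residue ↥V₁ I.x₁)) ^ (I.q - 1) * (X - C (residue ↥V₁ (I.y₁ ^ I.q))) := by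
    rw [map_mul, map_pow, map_sub, map_sub, red_C, red_C, red_apply V₁ X, Polynomial.map_X]
  rw [← h]
  refine red_eq_of_map_eq I.red₁ I.ker₁ ?_
  have h2 : I.red₁ (I.y₁ ^ I.q) = I.red₁ I.x₁ ^ (I.q ^ 2) := by
    rw [map_pow, I.red₁_y, ← pow_mul, pow_two]
  rw [I.red_α₁, Polynomial.map_mul, Polynomial.map_pow, Polynomial.map_sub, Polynomial.map_sub,
    Polynomial.map_X, Polynomial.map_C, Polynomial.map_C, h2]

theorem red_Φβ₂ : red V₂ I.Φβ₂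
    = (X - C (residue ↥V₂ I.y₂)) ^ (I.q - 1) * (X - C (residue ↥V₂ (I.x₂ ^ I.q))) := by
  have h : red V₂ ((X - C I.y₂) ^ (I.q - 1) * (X - C (I.x₂ ^ I.q)))
      = (X - C (residue ↥V₂ I.y₂)) ^ (I.q - 1) * (X - C (residue ↥V₂ (I.x₂ ^ I.q))) := by
    rw [map_mul, map_pow, map_sub, map_sub, red_C, red_C, red_apply V₂ X, Polynomial.map_X]
  rw [← h]
  refine red_eq_of_map_eq I.red₂ I.ker₂ ?_
  have h2 : I.red₂ (I.x₂ ^ I.q) = I.red₂ I.y₂ ^ (I.q ^ 2) := by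
    rw [map_pow, I.red₂_x, ← pow_mul, pow_two]
  rw [I.red_β₂, Polynomial.map_mul, Polynomial.map_pow, Polynomial.map_sub, Polynomial.map_sub,
    Polynomial.map_X, Polynomial.map_C, Polynomial.map_C, h2]

theorem res_ne₁ : residue ↥V₁ I.x₁ ≠ residue ↥V₁ (I.y₁ ^ I.q) := by
  rw [Ne, residue_eq_iff I.red₁ I.ker₁, map_pow, I.red₁_y, ← pow_mul, ← pow_two]
  exact I.ne₁

theorem res_ne₂ : residue ↥V₂ I.y₂ ≠ residue ↥V₂ (I.x₂ ^ I.q) := by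
  rw [Ne, residue_eq_iff I.red₂ I.ker₂, map_pow, I.red₂_x, ← pow_mul, ← pow_two]
  exact I.ne₂

/-- the thick-thin pair over `V₁` along `α` -/
def Pα : ThickThin.Pair V₁ (S35.NormRed.Via α) :=
  pairOfPowerBasis I.pbα I.Φα₁ I.x₁ (I.y₁ ^ I.q) I.ϖ₁ (I.q - 1) I.monic_α₁ I.min_α₁ I.hϖ₁ I.ϖ₁_ne
    I.q_sub_one_pos I.red_Φα₁ I.res_ne₁ I.u₁ I.unit₁ I.eval_α₁

/-- the thick-thin pair over `V₂` along `β` -/
def Pβ : ThickThin.Pair V₂ (S35.NormRed.Via β) :=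
  pairOfPowerBasis I.pbβ I.Φβ₂ I.y₂ (I.x₂ ^ I.q) I.ϖ₂ (I.q - 1) I.monic_β₂ I.min_β₂ I.hϖ₂ I.ϖ₂_ne
    I.q_sub_one_pos I.red_Φβ₂ I.res_ne₂ I.u₂ I.unit₂ I.eval_β₂

/-- the inert root datum over `V₂` along `α` -/
def Iα : InertRoot.Datum V₂ (S35.NormRed.Via α) :=
  InertRoot.Datum.ofPowerBasis I.pbα I.Φα₂ I.ϖ₂ I.monic_α₂ I.min_α₂ I.hϖ₂
    (irreducible_red_of_map I.red₂ I.ker₂ I.monic_α₂ I.irr_α₂)

/-- the inert root datum over `V₁` along `β` -/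
def Iβ : InertRoot.Datum V₁ (S35.NormRed.Via β) :=
  InertRoot.Datum.ofPowerBasis I.pbβ I.Φβ₁ I.ϖ₁ I.monic_β₁ I.min_β₁ I.hϖ₁
    (irreducible_red_of_map I.red₁ I.ker₁ I.monic_β₁ I.irr_β₁)

/-- **the setup** -/
def setup : Setup α β V₁ V₂ where
  Pα := I.Pα
  Iα := I.Iα
  Pβ := I.Pβ
  Iβ := I.Iβ
  x := (I.x₁ : F₁)
  y := (I.y₁ : F₁)
  q := I.q
  hαβ := I.hαβ
  tα := I.gen_α
  tβ := I.gen_β
  aα := by
    show (I.x₁ : F₁) - (I.x₁ : F₁) ∈ V₁.nonunits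
    rw [sub_self]
    exact V₁.nonunits.zero_mem
  aα' := by
    show ((I.y₁ ^ I.q : ↥V₁) : F₁) - (I.y₁ : F₁) ^ I.q ∈ V₁.nonunits
    rw [SubmonoidClass.coe_pow, sub_self]
    exact V₁.nonunits.zero_mem
  aβ := by
    show (I.y₂ : F₁) - (I.y₁ : F₁) ∈ V₂.nonunits
    rw [I.hy, sub_self]
    exact V₂.nonunits.zero_mem
  aβ' := by
    show ((I.x₂ ^ I.q : ↥V₂) : F₁) - (I.x₁ : F₁) ^ I.q ∈ V₂.nonunits
    rw [SubmonoidClass.coe_pow, I.hx, sub_self]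
    exact V₂.nonunits.zero_mem
  h₁ := by
    have h : I.red₁ (I.y₁ - I.x₁ ^ I.q) = 0 := by
      rw [map_sub, map_pow, I.red₁_y, sub_self]
    exact (I.ker₁ _).mp h
  hd₁ := by
    intro hmem
    have h1 : ((I.y₂ - I.x₂ ^ I.q : ↥V₂) : F₁) ∈ V₂.nonunits := by
      have : ((I.y₂ - I.x₂ ^ I.q : ↥V₂) : F₁) = (I.y₁ : F₁) - (I.x₁ : F₁) ^ I.q := by
        rw [I.hx, I.hy]
        rfl
      rw [this]
      exact hmem
    have h2 := (I.ker₂ _).mpr h1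
    rw [map_sub, map_pow, I.red₂_x, ← pow_mul, ← pow_two, sub_eq_zero] at h2
    exact I.ne₂ h2
  hd₂ := by
    intro hmem
    have h1 : ((I.x₁ - I.y₁ ^ I.q : ↥V₁) : F₁) ∈ V₁.nonunits := hmem
    have h2 := (I.ker₁ _).mpr h1
    rw [map_sub, map_pow, I.red₁_y, ← pow_mul, ← pow_two, sub_eq_zero] at h2
    exact I.ne₁ h2
  two_α := I.two_α
  two_β := I.two_β

@[simp] theorem setup_q : I.setup.q = I.q := rfl

@[simp] theorem setup_x : I.setup.x = (I.x₁ : F₁) := rfl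

@[simp] theorem setup_y : I.setup.y = (I.y₁ : F₁) := rfl

theorem natDegree_thick_thin {k : Type*} [Field k] (a b : k) (m : ℕ) :
    ((X - C a) ^ m * (X - C b)).natDegree = m + 1 := by
  rw [natDegree_mul (pow_ne_zero _ (X_sub_C_ne_zero a)) (X_sub_C_ne_zero b), natDegree_pow,
    natDegree_X_sub_C, natDegree_X_sub_C, mul_one]

include I in
theorem q_eq : I.q - 1 + 1 = I.q := by
  have := I.prime.two_le
  omega

theorem natDegree_Φα₁ : I.Φα₁.natDegree = I.q := by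
  rw [← I.monic_α₁.natDegree_map I.red₁, I.red_α₁, natDegree_thick_thin, I.q_eq]

theorem natDegree_Φβ₂ : I.Φβ₂.natDegree = I.q := by
  rw [← I.monic_β₂.natDegree_map I.red₂, I.red_β₂, natDegree_thick_thin, I.q_eq]

theorem natDegree_Φα₂ : I.Φα₂.natDegree = I.q := by
  rw [← I.monic_α₂.natDegree_map (algebraMap ↥V₂ F₁), ← I.min_α₂, I.min_α₁,
    I.monic_α₁.natDegree_map, I.natDegree_Φα₁]

theorem natDegree_Φβ₁ : I.Φβ₁.natDegree = I.q := by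
  rw [← I.monic_β₁.natDegree_map (algebraMap ↥V₁ F₁), ← I.min_β₁, I.min_β₂,
    I.monic_β₂.natDegree_map, I.natDegree_Φβ₂]

theorem finrank_α : Module.finrank F₁ (S35.NormRed.Via α) = I.q := by
  rw [I.pbα.finrank, ← I.pbα.natDegree_minpoly, I.min_α₁, I.monic_α₁.natDegree_map,
    I.natDegree_Φα₁]

theorem finrank_β : Module.finrank F₁ (S35.NormRed.Via β) = I.q := by
  rw [I.pbβ.finrank, ← I.pbβ.natDegree_minpoly, I.min_β₂, I.monic_β₂.natDegree_map,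
    I.natDegree_Φβ₂]

/-- **the numerical hypotheses** -/
theorem num : I.setup.Num where
  prime := I.prime
  degα := I.finrank_α
  degβ := I.finrank_β
  mα := rfl
  mβ := rfl
  degIα := I.natDegree_Φα₂
  degIβ := I.natDegree_Φβ₁

/-- the hypothesis of `ThickThin.Pair.eq_or_eq`, `Setup.exhaustive`, `Setup.eq_W₁₁_of_comap` -/
theorem red_H : red V₁ I.setup.Pα.S.H = X - C (residue ↥V₁ I.setup.Pα.S'.a) :=
  pairOfPowerBasis_red_H I.pbα I.Φα₁ I.x₁ (I.y₁ ^ I.q) I.ϖ₁ (I.q - 1) I.monic_α₁ I.min_α₁ I.hϖ₁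
    I.ϖ₁_ne I.q_sub_one_pos I.red_Φα₁ I.res_ne₁ I.u₁ I.unit₁ I.eval_α₁

end Inputs

/-! ### the residue maps from their values on the three copies of the level below -/

section RedInputs

variable {α β : F₁ →+* F₂} {V₁ V₂ : ValuationSubring F₁}
variable [IsPrincipalIdealRing ↥V₁] [IsPrincipalIdealRing ↥V₂]
variable {F₀ : Type*} [Field F₀]

/-- **The inputs of `Reds`**: the level below (`α₀ β₀ : F₀ → F₁`, `O₀`, `red₀`), residue degree one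
of `V₁` over `O₀` along `α₀` and of `V₂` along `β₀`, residue maps killing the maximal ideals, and
their values on `a₀ = α α₀`, `a₁ = β α₀ = α β₀`, `a₂ = β β₀` of `O₀` (helper5's normalisation:
`r₂₀ (a_i c) = φ^i (red₀ c)`, `r₀₂ (a_i c) = φ^(2-i) (red₀ c)`, `r₁₁ (a₀ c) = red₀ c = r₁₁ (a₂ c)`). -/
structure RedInputs (T : Setup α β V₁ V₂) (κ : Type*) [Field κ] (α₀ β₀ : F₀ →+* F₁)
    (O₀ : ValuationSubring F₀) where
  W₂₀ : ValuationSubring F₂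
  W₁₁ : ValuationSubring F₂
  W₀₂ : ValuationSubring F₂
  e₂₀ : W₂₀ = T.W₂₀
  e₁₁ : W₁₁ = T.W₁₁
  e₀₂ : W₀₂ = T.W₀₂
  red₀ : ↥O₀ →+* κ
  red₁ : ↥V₁ →+* κ
  red₂ : ↥V₂ →+* κ
  r₂₀ : ↥W₂₀ →+* κ
  r₁₁ : ↥W₁₁ →+* κ
  r₀₂ : ↥W₀₂ →+* κ
  φ : κ →+* κ
  hφ : ∀ z : κ, ∃ c : κ, φ c = z ^ T.q
  surj₁ : Function.Surjective red₁
  surj₂ : Function.Surjective red₂
  comap₁ : V₁.comap α₀ = O₀
  comap₂ : V₂.comap β₀ = O₀
  deg₁ : ∀ x ∈ V₁, ∃ c : ↥O₀, x - α₀ (c : F₀) ∈ V₁.nonunits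
  deg₂ : ∀ x ∈ V₂, ∃ c : ↥O₀, x - β₀ (c : F₀) ∈ V₂.nonunits
  red₁_α₀ : ∀ (c : ↥O₀) (h : α₀ (c : F₀) ∈ V₁), red₁ ⟨α₀ c, h⟩ = red₀ c
  red₂_β₀ : ∀ (c : ↥O₀) (h : β₀ (c : F₀) ∈ V₂), red₂ ⟨β₀ c, h⟩ = red₀ c
  ker₂₀ : ∀ z : ↥W₂₀, (z : F₂) ∈ W₂₀.nonunits → r₂₀ z = 0
  ker₁₁ : ∀ z : ↥W₁₁, (z : F₂) ∈ W₁₁.nonunits → r₁₁ z = 0
  ker₀₂ : ∀ z : ↥W₀₂, (z : F₂) ∈ W₀₂.nonunits → r₀₂ z = 0
  r₂₀_a₀ : ∀ (c : ↥O₀) (h : α (α₀ (c : F₀)) ∈ W₂₀), r₂₀ ⟨α (α₀ c), h⟩ = red₀ c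
  r₂₀_a₁ : ∀ (c : ↥O₀) (h : β (α₀ (c : F₀)) ∈ W₂₀), r₂₀ ⟨β (α₀ c), h⟩ = φ (red₀ c)
  r₁₁_a₀ : ∀ (c : ↥O₀) (h : α (α₀ (c : F₀)) ∈ W₁₁), r₁₁ ⟨α (α₀ c), h⟩ = red₀ c
  r₁₁_a₂ : ∀ (c : ↥O₀) (h : β (β₀ (c : F₀)) ∈ W₁₁), r₁₁ ⟨β (β₀ c), h⟩ = red₀ c
  r₀₂_a₁ : ∀ (c : ↥O₀) (h : α (β₀ (c : F₀)) ∈ W₀₂), r₀₂ ⟨α (β₀ c), h⟩ = φ (red₀ c)
  r₀₂_a₂ : ∀ (c : ↥O₀) (h : β (β₀ (c : F₀)) ∈ W₀₂), r₀₂ ⟨β (β₀ c), h⟩ = red₀ c

/-- the transfer principle: a residue map `r` on `W` over `V` along `f`, with `V` of residue degree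
one over `O₀` along `g`, is determined on `f V` by its values on `f g O₀` -/
theorem compat_of_deg_one {κ : Type*} [Field κ] {f : F₁ →+* F₂} {g : F₀ →+* F₁}
    {O₀ : ValuationSubring F₀} {V : ValuationSubring F₁} {W : ValuationSubring F₂}
    (hW : W.comap f = V) (hV : V.comap g = O₀)
    (deg : ∀ x ∈ V, ∃ c : ↥O₀, x - g (c : F₀) ∈ V.nonunits)
    (red₀ : ↥O₀ →+* κ) (red : ↥V →+* κ) (r : ↥W →+* κ) (ψ : κ →+* κ)
    (hred : ∀ c : ↥V, (c : F₁) ∈ V.nonunits → red c = 0)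
    (hr : ∀ z : ↥W, (z : F₂) ∈ W.nonunits → r z = 0)
    (hg : ∀ (c : ↥O₀) (h : g (c : F₀) ∈ V), red ⟨g c, h⟩ = red₀ c)
    (hfg : ∀ (c : ↥O₀) (h : f (g (c : F₀)) ∈ W), r ⟨f (g c), h⟩ = ψ (red₀ c))
    (c : ↥V) (h : f (c : F₁) ∈ W) : r ⟨f c, h⟩ = ψ (red c) := by
  obtain ⟨c₀, hc₀⟩ := deg c c.2
  have hgV : g (c₀ : F₀) ∈ V := by
    rw [← ValuationSubring.mem_comap, hV]
    exact c₀.2
  have hfgW : f (g (c₀ : F₀)) ∈ W := Setup.mem_of_comap hW hgV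
  have hdV : (c : F₁) - g (c₀ : F₀) ∈ V := V.nonunits_subset hc₀
  have hfdW : f ((c : F₁) - g (c₀ : F₀)) ∈ W := Setup.mem_of_comap hW hdV
  have h1 : (⟨f c, h⟩ : ↥W) = ⟨f (g (c₀ : F₀)), hfgW⟩ + ⟨f ((c : F₁) - g (c₀ : F₀)), hfdW⟩ := by
    apply Subtype.ext
    show f (c : F₁) = f (g (c₀ : F₀)) + f ((c : F₁) - g (c₀ : F₀))
    rw [← map_add]
    congr 1
    ring
  have h2 : c = ⟨g (c₀ : F₀), hgV⟩ + ⟨(c : F₁) - g (c₀ : F₀), hdV⟩ := by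
    apply Subtype.ext
    show (c : F₁) = g (c₀ : F₀) + ((c : F₁) - g (c₀ : F₀))
    ring
  have h3 : r ⟨f ((c : F₁) - g (c₀ : F₀)), hfdW⟩ = 0 := by
    apply hr
    rw [← mem_nonunits_comap_iff, hW]
    exact hc₀
  have h4 : red ⟨(c : F₁) - g (c₀ : F₀), hdV⟩ = 0 := hred _ hc₀
  rw [h1, map_add, h3, add_zero, hfg]
  conv_rhs => rw [h2, map_add, h4, add_zero, hg]

namespace RedInputs

variable {T : Setup α β V₁ V₂} {κ : Type*} [Field κ] {α₀ β₀ : F₀ →+* F₁}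
  {O₀ : ValuationSubring F₀} (R : RedInputs T κ α₀ β₀ O₀)

theorem ker₁ (c : ↥V₁) (hc : (c : F₁) ∈ V₁.nonunits) : R.red₁ c = 0 :=
  (eq_zero_iff_of_surjective V₁ R.red₁ R.surj₁ c).mpr hc

theorem ker₂ (c : ↥V₂) (hc : (c : F₁) ∈ V₂.nonunits) : R.red₂ c = 0 :=
  (eq_zero_iff_of_surjective V₂ R.red₂ R.surj₂ c).mpr hc

/-- **the residue maps** -/
def reds : Setup.Reds T κ where
  W₂₀ := R.W₂₀
  W₁₁ := R.W₁₁
  W₀₂ := R.W₀₂
  e₂₀ := R.e₂₀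
  e₁₁ := R.e₁₁
  e₀₂ := R.e₀₂
  red₁ := R.red₁
  red₂ := R.red₂
  r₂₀ := R.r₂₀
  r₁₁ := R.r₁₁
  r₀₂ := R.r₀₂
  φ := R.φ
  hφ := R.hφ
  surj₁ := R.surj₁
  surj₂ := R.surj₂
  r₂₀_α := fun c h => by
    have := compat_of_deg_one (f := α) (g := α₀) (by rw [R.e₂₀]; exact T.comap_α_W₂₀) R.comap₁
      R.deg₁ R.red₀ R.red₁ R.r₂₀ (RingHom.id κ) R.ker₁ R.ker₂₀ R.red₁_α₀ R.r₂₀_a₀ c h
    exact this
  r₂₀_β := fun c h =>
    compat_of_deg_one (f := β) (g := α₀) (by rw [R.e₂₀]; exact T.comap_β_W₂₀) R.comap₁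
      R.deg₁ R.red₀ R.red₁ R.r₂₀ R.φ R.ker₁ R.ker₂₀ R.red₁_α₀ R.r₂₀_a₁ c h
  r₁₁_α := fun c h => by
    have := compat_of_deg_one (f := α) (g := α₀) (by rw [R.e₁₁]; exact T.comap_α_W₁₁) R.comap₁
      R.deg₁ R.red₀ R.red₁ R.r₁₁ (RingHom.id κ) R.ker₁ R.ker₁₁ R.red₁_α₀ R.r₁₁_a₀ c h
    exact this
  r₁₁_β := fun c h => by
    have := compat_of_deg_one (f := β) (g := β₀) (by rw [R.e₁₁]; exact T.comap_β_W₁₁) R.comap₂
      R.deg₂ R.red₀ R.red₂ R.r₁₁ (RingHom.id κ) R.ker₂ R.ker₁₁ R.red₂_β₀ R.r₁₁_a₂ c h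
    exact this
  r₀₂_α := fun c h =>
    compat_of_deg_one (f := α) (g := β₀) (by rw [R.e₀₂]; exact T.comap_α_W₀₂) R.comap₂
      R.deg₂ R.red₀ R.red₂ R.r₀₂ R.φ R.ker₂ R.ker₀₂ R.red₂_β₀ R.r₀₂_a₁ c h
  r₀₂_β := fun c h => by
    have := compat_of_deg_one (f := β) (g := β₀) (by rw [R.e₀₂]; exact T.comap_β_W₀₂) R.comap₂
      R.deg₂ R.red₀ R.red₂ R.r₀₂ (RingHom.id κ) R.ker₂ R.ker₀₂ R.red₂_β₀ R.r₀₂_a₂ c h
    exact this

end RedInputs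

end RedInputs

/-! ### the value datum of `UnitNormal` -/

section Setting

variable {α β : F₁ →+* F₂} {V₁ V₂ : ValuationSubring F₁}
variable [IsPrincipalIdealRing ↥V₁] [IsPrincipalIdealRing ↥V₂]
variable (T : Setup α β V₁ V₂) {κ : Type*} [Field κ] (R : Setup.Reds T κ) (N : Setup.Num T)

include N in
theorem isDisc_W₂₀ : UnitNormal.IsDisc T.W₂₀ (α T.π₁) where
  ne_zero := (map_ne_zero_iff α α.injective).mpr T.localRam_W₂₀_α.π_ne_zero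
  lt_one := T.W₂₀.mem_nonunits_iff.mp T.isUnif_W₂₀.1
  exists_zpow := fun y hy => by
    obtain ⟨a, b, c, ha, hb, hc⟩ := T.exists_ords N hy
    exact ⟨a, ha⟩

include N in
theorem isDisc_W₁₁ : UnitNormal.IsDisc T.W₁₁ T.ϖ₁₁ where
  ne_zero := T.localRam_W₁₁_α.ϖ_ne_zero
  lt_one := T.W₁₁.mem_nonunits_iff.mp T.isUnif_W₁₁.1
  exists_zpow := fun y hy => by
    obtain ⟨a, b, c, ha, hb, hc⟩ := T.exists_ords N hy
    exact ⟨b, hb⟩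

include N in
theorem isDisc_W₀₂ : UnitNormal.IsDisc T.W₀₂ (β T.π₂) where
  ne_zero := (map_ne_zero_iff β β.injective).mpr T.localRam_W₀₂_β.π_ne_zero
  lt_one := T.W₀₂.mem_nonunits_iff.mp T.isUnif_W₀₂'.1
  exists_zpow := fun y hy => by
    obtain ⟨a, b, c, ha, hb, hc⟩ := T.exists_ords N hy
    exact ⟨c, hc⟩

theorem isDisc_V₁ : UnitNormal.IsDisc V₁ T.π₁ where
  ne_zero := T.localRam_W₂₀_α.π_ne_zero
  lt_one := V₁.mem_nonunits_iff.mp T.localRam_W₂₀_α.π_mem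
  exists_zpow := fun _ hy => T.exists_zpow_eq_V₁ hy

theorem isDisc_V₂ : UnitNormal.IsDisc V₂ T.π₂ where
  ne_zero := T.localRam_W₀₂_β.π_ne_zero
  lt_one := V₂.mem_nonunits_iff.mp T.localRam_W₀₂_β.π_mem
  exists_zpow := fun _ hy => T.exists_zpow_eq_V₂ hy

/-- **the `UnitNormal.Setting` of a setup** whose two Gauss rings have the SAME uniformizer `π`
(`= q`) with `α π = β π` -/
def toSetting (hπ : T.π₂ = T.π₁) (hπ' : β T.π₁ = α T.π₁) : UnitNormal.Setting F₁ F₂ where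
  W₂₀ := T.W₂₀
  W₁₁ := T.W₁₁
  W₀₂ := T.W₀₂
  ϖ₂₀ := α T.π₁
  ϖ₁₁ := T.ϖ₁₁
  ϖ₀₂ := β T.π₂
  V₁ := V₁
  V₂ := V₂
  π := T.π₁
  π' := α T.π₁
  q := T.q
  q_pos := N.prime.pos
  N₁ := normAlong α
  N₂ := normAlong β
  d₂₀ := isDisc_W₂₀ T N
  d₁₁ := isDisc_W₁₁ T N
  d₀₂ := isDisc_W₀₂ T N
  dV₁ := isDisc_V₁ T
  dV₂ := hπ ▸ isDisc_V₂ T
  ne₂₀₁₁ := T.W₂₀_ne_W₁₁
  ne₂₀₀₂ := T.W₂₀_ne_W₀₂
  ne₁₁₀₂ := T.W₁₁_ne_W₀₂
  hπ₂₀ := rfl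
  hπ₁₁ := by
    have h := T.localRam_W₁₁_α.val_π
    rw [N.mα] at h
    exact h
  hπ₀₂ := by rw [hπ, hπ']
  val₁₁ := fun y a c b _ ha hc _ => T.val_norm₁_V₁ R N y a c ha hc
  val₁₂ := fun y a c b _ _ _ hb => by
    have h := T.val_norm₁_V₂ R N y b hb
    rw [hπ] at h
    exact h
  val₂₁ := fun y a c b _ ha _ _ => T.val_norm₂_V₁ R N y a ha
  val₂₂ := fun y a c b _ _ hc hb => by
    have h := T.val_norm₂_V₂ R N y c b hc hb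
    rw [hπ] at h
    exact h

/-- the three valuation rings are principal ideal rings -/
theorem isPrincipalIdealRing_W₂₀ : IsPrincipalIdealRing ↥T.W₂₀ := T.Pα.S'.isPrincipalIdealRing_V

theorem isPrincipalIdealRing_W₁₁ : IsPrincipalIdealRing ↥T.W₁₁ := T.Pα.S.isPrincipalIdealRing_V

theorem isPrincipalIdealRing_W₀₂ : IsPrincipalIdealRing ↥T.W₀₂ := T.Iα.isPrincipalIdealRing_V

end Setting

end Main

end Fermat.Agent.S36.ThreeValInputs
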