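/-
S36 (project V), slice V-ThreeValRes: **the residue maps of the three valuation rings, abstractly.**

In the setting of `ThreeVal.Setup` add the level below: `F₀`, `α₀ β₀ : F₀ →+* F₁` with
`α ∘ β₀ = β ∘ α₀`, a valuation subring `O₀` of `F₀` with `red₀ : O₀ → κ` ONTO, and the level-`q`
normalisation (D5): `red₁ α₀ = red₀`, `red₁ β₀ = φ red₀`, `red₂ β₀ = red₀`, `red₂ α₀ = φ red₀`, where
`V₁` has residue degree one over `O₀` along `α₀` and `V₂` along `β₀`.  Then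

* `exists_res_of_deg_one` : a place `W` of residue degree one over `V` carries a unique residue
  map extending `red`;
* `ResInputs.reds : Setup.Reds T κ` : the residue maps `r₂₀ r₁₁` (extending `red₁` along `α`) and
  `r₀₂` (extending `red₂` along `β`) and the SIX compatibilities
  `r₂₀ α = red₁ = r₁₁ α`, `r₀₂ α = φ red₂`, `r₂₀ β = φ red₁`, `r₁₁ β = red₂ = r₀₂ β`.
  The only non-formal one, `r₁₁ β = red₂` (the two outer degeneracy maps agree on the thick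
  component), follows from `σ ∘ φ = φ ⟹ σ = id` (injectivity of Frobenius): no expansion at the
  middle cusp is needed.
-/
import Mathlib
import Fermat.Agent.S36.ThreeValInputs

set_option autoImplicit false
set_option linter.unusedSectionVars false
set_option linter.style.haveILetI false

noncomputable section

namespace Fermat.Agent.S36.ThreeValRes

open Polynomial IsLocalRing
open Fermat.Agent.S34.TwoExt Fermat.Agent.S34.WeakApprox Fermat.Agent.S36.OrthoRam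
open Fermat.Agent.S36.ThreeVal Fermat.Agent.S36.ThreeValInputs

variable {F₁ : Type*} [Field F₁] {F₂ : Type*} [Field F₂]

/-! ### the residue map of a place of residue degree one -/

section DegOne

variable {f : F₁ →+* F₂} {V : ValuationSubring F₁} {W : ValuationSubring F₂}
variable {κ : Type*} [Field κ]

/-- two constants congruent to the same element have the same reduction -/
theorem red_eq_of_val_lt (hW : W.comap f = V) (red : ↥V →+* κ)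
    (hred : ∀ c : ↥V, red c = 0 ↔ (c : F₁) ∈ V.nonunits) {z : F₂} {c c' : ↥V}
    (h : W.valuation (z - f (c : F₁)) < 1) (h' : W.valuation (z - f (c' : F₁)) < 1) :
    red c = red c' := by
  rw [← sub_eq_zero, ← map_sub, hred]
  refine Setup.mem_nonunits_of_val_lt_one hW ?_
  have h1 : f ((c - c' : ↥V) : F₁) = (z - f (c' : F₁)) - (z - f (c : F₁)) := by
    rw [show ((c - c' : ↥V) : F₁) = (c : F₁) - (c' : F₁) from rfl, map_sub]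
    ring
  rw [h1]
  exact Valuation.map_sub_lt _ h' h

/-- **the residue map of a place of residue degree one** -/
theorem exists_res_of_deg_one (hW : W.comap f = V)
    (deg : ∀ z ∈ W, ∃ c : ↥V, W.valuation (z - f (c : F₁)) < 1)
    (red : ↥V →+* κ) (hred : ∀ c : ↥V, red c = 0 ↔ (c : F₁) ∈ V.nonunits) :
    ∃ ρ : ↥W →+* κ, (∀ (z : ↥W) (c : ↥V), W.valuation ((z : F₂) - f (c : F₁)) < 1 → ρ z = red c) ∧
      (∀ (c : ↥V) (h : f (c : F₁) ∈ W), ρ ⟨f c, h⟩ = red c) ∧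
      (∀ z : ↥W, ρ z = 0 ↔ (z : F₂) ∈ W.nonunits) := by
  choose! c hc using deg
  have key : ∀ (z : ↥W) (d : ↥V), W.valuation ((z : F₂) - f (d : F₁)) < 1 → red (c z) = red d :=
    fun z d hd => red_eq_of_val_lt hW red hred (hc z z.2) hd
  have hfW : ∀ d : ↥V, f (d : F₁) ∈ W := fun d => Setup.mem_of_comap hW d.2
  let ρ : ↥W →+* κ :=
    { toFun := fun z => red (c z)
      map_one' := by
        rw [← map_one red]
        refine key 1 1 ?_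
        show W.valuation ((1 : F₂) - f ((1 : ↥V) : F₁)) < 1
        rw [show ((1 : ↥V) : F₁) = 1 from rfl, map_one, sub_self, map_zero]
        exact zero_lt_one
      map_mul' := fun z z' => by
        rw [← map_mul red]
        refine key (z * z') (c z * c z') ?_
        have h1 : ((z * z' : ↥W) : F₂) - f ((c z * c z' : ↥V) : F₁)
            = (z : F₂) * ((z' : F₂) - f (c z' : F₁)) + f (c z' : F₁) * ((z : F₂) - f (c z : F₁)) := by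
          rw [show ((z * z' : ↥W) : F₂) = (z : F₂) * (z' : F₂) from rfl,
            show ((c z * c z' : ↥V) : F₁) = (c z : F₁) * (c z' : F₁) from rfl, map_mul]
          ring
        rw [h1]
        refine Valuation.map_add_lt _ ?_ ?_
        · rw [map_mul]
          exact lt_of_le_of_lt (mul_le_of_le_one_left' ((W.valuation_le_one_iff _).mpr z.2))
            (hc z' z'.2)
        · rw [map_mul]
          exact lt_of_le_of_lt (mul_le_of_le_one_left' ((W.valuation_le_one_iff _).mpr (hfW _)))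
            (hc z z.2)
      map_zero' := by
        rw [← map_zero red]
        refine key 0 0 ?_
        show W.valuation ((0 : F₂) - f ((0 : ↥V) : F₁)) < 1
        rw [show ((0 : ↥V) : F₁) = 0 from rfl, map_zero, sub_self, map_zero]
        exact zero_lt_one
      map_add' := fun z z' => by
        rw [← map_add red]
        refine key (z + z') (c z + c z') ?_
        have h1 : ((z + z' : ↥W) : F₂) - f ((c z + c z' : ↥V) : F₁)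
            = ((z : F₂) - f (c z : F₁)) + ((z' : F₂) - f (c z' : F₁)) := by
          rw [show ((z + z' : ↥W) : F₂) = (z : F₂) + (z' : F₂) from rfl,
            show ((c z + c z' : ↥V) : F₁) = (c z : F₁) + (c z' : F₁) from rfl, map_add]
          ring
        rw [h1]
        exact Valuation.map_add_lt _ (hc z z.2) (hc z' z'.2) }
  refine ⟨ρ, fun z d hd => key z d hd, fun d h => key ⟨f d, h⟩ d ?_, fun z => ?_⟩
  · show W.valuation (f (d : F₁) - f (d : F₁)) < 1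
    rw [sub_self, map_zero]
    exact zero_lt_one
  · show red (c z) = 0 ↔ _
    rw [hred, ValuationSubring.mem_nonunits_iff, ValuationSubring.mem_nonunits_iff]
    constructor
    · intro h
      have h1 : W.valuation (f (c z : F₁)) < 1 := Setup.val_lt_one_of_comap hW
        (V.mem_nonunits_iff.mpr h)
      have h2 : (z : F₂) = ((z : F₂) - f (c z : F₁)) + f (c z : F₁) := by ring
      rw [h2]
      exact Valuation.map_add_lt _ (hc z z.2) h1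
    · intro h
      have h1 : W.valuation (f (c z : F₁)) < 1 := by
        have h2 : f (c z : F₁) = (z : F₂) - ((z : F₂) - f (c z : F₁)) := by ring
        rw [h2]
        exact Valuation.map_sub_lt _ h (hc z z.2)
      exact V.mem_nonunits_iff.mp (Setup.mem_nonunits_of_val_lt_one hW h1)

end DegOne

/-! ### the inputs from the level below -/

section Main

variable {α β : F₁ →+* F₂} {V₁ V₂ : ValuationSubring F₁}
variable [IsPrincipalIdealRing ↥V₁] [IsPrincipalIdealRing ↥V₂]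
variable {F₀ : Type*} [Field F₀]

/-- **The level below and the normalisation (D5) at level `q`.** -/
structure ResInputs (T : Setup α β V₁ V₂) (κ : Type*) [Field κ] (α₀ β₀ : F₀ →+* F₁)
    (O₀ : ValuationSubring F₀) where
  red₀ : ↥O₀ →+* κ
  red₁ : ↥V₁ →+* κ
  red₂ : ↥V₂ →+* κ
  φ : κ →+* κ
  hφ : ∀ z : κ, ∃ c : κ, φ c = z ^ T.q
  surj₀ : Function.Surjective red₀
  /-- `α ∘ β₀ = β ∘ α₀` -/
  hsq : ∀ c : F₀, α (β₀ c) = β (α₀ c)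
  comap₁α : V₁.comap α₀ = O₀
  comap₁β : V₁.comap β₀ = O₀
  comap₂α : V₂.comap α₀ = O₀
  comap₂β : V₂.comap β₀ = O₀
  /-- residue degree one of `V₁` over `O₀` along `α₀` and of `V₂` along `β₀` -/
  deg₁ : ∀ x ∈ V₁, ∃ c : ↥O₀, x - α₀ (c : F₀) ∈ V₁.nonunits
  deg₂ : ∀ x ∈ V₂, ∃ c : ↥O₀, x - β₀ (c : F₀) ∈ V₂.nonunits
  red₁_α₀ : ∀ (c : ↥O₀) (h : α₀ (c : F₀) ∈ V₁), red₁ ⟨α₀ c, h⟩ = red₀ c
  red₁_β₀ : ∀ (c : ↥O₀) (h : β₀ (c : F₀) ∈ V₁), red₁ ⟨β₀ c, h⟩ = φ (red₀ c)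
  red₂_β₀ : ∀ (c : ↥O₀) (h : β₀ (c : F₀) ∈ V₂), red₂ ⟨β₀ c, h⟩ = red₀ c
  red₂_α₀ : ∀ (c : ↥O₀) (h : α₀ (c : F₀) ∈ V₂), red₂ ⟨α₀ c, h⟩ = φ (red₀ c)

namespace ResInputs

variable {T : Setup α β V₁ V₂} {κ : Type*} [Field κ] {α₀ β₀ : F₀ →+* F₁}
  {O₀ : ValuationSubring F₀} (R : ResInputs T κ α₀ β₀ O₀)

include R in
theorem α₀_mem_V₁ (c : ↥O₀) : α₀ (c : F₀) ∈ V₁ := by
  rw [← ValuationSubring.mem_comap, R.comap₁α]
  exact c.2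

include R in
theorem β₀_mem_V₁ (c : ↥O₀) : β₀ (c : F₀) ∈ V₁ := by
  rw [← ValuationSubring.mem_comap, R.comap₁β]
  exact c.2

include R in
theorem α₀_mem_V₂ (c : ↥O₀) : α₀ (c : F₀) ∈ V₂ := by
  rw [← ValuationSubring.mem_comap, R.comap₂α]
  exact c.2

include R in
theorem β₀_mem_V₂ (c : ↥O₀) : β₀ (c : F₀) ∈ V₂ := by
  rw [← ValuationSubring.mem_comap, R.comap₂β]
  exact c.2

theorem surj₁ : Function.Surjective R.red₁ := fun z => by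
  obtain ⟨c, hc⟩ := R.surj₀ z
  exact ⟨⟨α₀ c, R.α₀_mem_V₁ c⟩, by rw [R.red₁_α₀, hc]⟩

theorem surj₂ : Function.Surjective R.red₂ := fun z => by
  obtain ⟨c, hc⟩ := R.surj₀ z
  exact ⟨⟨β₀ c, R.β₀_mem_V₂ c⟩, by rw [R.red₂_β₀, hc]⟩

theorem ker₁ (c : ↥V₁) : R.red₁ c = 0 ↔ (c : F₁) ∈ V₁.nonunits :=
  eq_zero_iff_of_surjective V₁ R.red₁ R.surj₁ c

theorem ker₂ (c : ↥V₂) : R.red₂ c = 0 ↔ (c : F₁) ∈ V₂.nonunits :=
  eq_zero_iff_of_surjective V₂ R.red₂ R.surj₂ c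

include R in
theorem deg₂₀ : ∀ z ∈ T.W₂₀, ∃ c : ↥V₁, T.W₂₀.valuation (z - α (c : F₁)) < 1 :=
  fun _ hz => T.Pα.S'.exists_const_sub_lt_one hz

include R in
theorem deg₁₁ : ∀ z ∈ T.W₁₁, ∃ c : ↥V₁, T.W₁₁.valuation (z - α (c : F₁)) < 1 :=
  fun _ hz => T.Pα.S.exists_const_sub_lt_one hz

include R in
theorem deg₀₂ : ∀ z ∈ T.W₀₂, ∃ c : ↥V₂, T.W₀₂.valuation (z - β (c : F₁)) < 1 := by
  rw [← T.W₀₂_eq]
  exact fun _ hz => T.Pβ.S'.exists_const_sub_lt_one hz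

/-- the residue map of the thin place `W₂₀`, extending `red₁` along `α` -/
def r₂₀ : ↥T.W₂₀ →+* κ :=
  (exists_res_of_deg_one T.comap_α_W₂₀ R.deg₂₀ R.red₁ R.ker₁).choose

/-- the residue map of the thick place `W₁₁`, extending `red₁` along `α` -/
def r₁₁ : ↥T.W₁₁ →+* κ :=
  (exists_res_of_deg_one T.comap_α_W₁₁ R.deg₁₁ R.red₁ R.ker₁).choose

/-- the residue map of the thin place `W₀₂`, extending `red₂` along `β` -/
def r₀₂ : ↥T.W₀₂ →+* κ :=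
  (exists_res_of_deg_one T.comap_β_W₀₂ R.deg₀₂ R.red₂ R.ker₂).choose

theorem r₂₀_α (c : ↥V₁) (h : α (c : F₁) ∈ T.W₂₀) : R.r₂₀ ⟨α c, h⟩ = R.red₁ c :=
  (exists_res_of_deg_one T.comap_α_W₂₀ R.deg₂₀ R.red₁ R.ker₁).choose_spec.2.1 c h

theorem r₁₁_α (c : ↥V₁) (h : α (c : F₁) ∈ T.W₁₁) : R.r₁₁ ⟨α c, h⟩ = R.red₁ c :=
  (exists_res_of_deg_one T.comap_α_W₁₁ R.deg₁₁ R.red₁ R.ker₁).choose_spec.2.1 c h

theorem r₀₂_β (c : ↥V₂) (h : β (c : F₁) ∈ T.W₀₂) : R.r₀₂ ⟨β c, h⟩ = R.red₂ c :=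
  (exists_res_of_deg_one T.comap_β_W₀₂ R.deg₀₂ R.red₂ R.ker₂).choose_spec.2.1 c h

theorem ker₂₀ (z : ↥T.W₂₀) : R.r₂₀ z = 0 ↔ (z : F₂) ∈ T.W₂₀.nonunits :=
  (exists_res_of_deg_one T.comap_α_W₂₀ R.deg₂₀ R.red₁ R.ker₁).choose_spec.2.2 z

theorem ker₁₁ (z : ↥T.W₁₁) : R.r₁₁ z = 0 ↔ (z : F₂) ∈ T.W₁₁.nonunits :=
  (exists_res_of_deg_one T.comap_α_W₁₁ R.deg₁₁ R.red₁ R.ker₁).choose_spec.2.2 z

theorem ker₀₂ (z : ↥T.W₀₂) : R.r₀₂ z = 0 ↔ (z : F₂) ∈ T.W₀₂.nonunits :=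
  (exists_res_of_deg_one T.comap_β_W₀₂ R.deg₀₂ R.red₂ R.ker₂).choose_spec.2.2 z

/-- `r₂₀ (a₁ c) = φ (red₀ c)` -/
theorem r₂₀_a₁ (c : ↥O₀) (h : β (α₀ (c : F₀)) ∈ T.W₂₀) :
    R.r₂₀ ⟨β (α₀ c), h⟩ = R.φ (R.red₀ c) := by
  have h' : α (β₀ (c : F₀)) ∈ T.W₂₀ := by rw [R.hsq]; exact h
  have e : (⟨β (α₀ (c : F₀)), h⟩ : ↥T.W₂₀) = ⟨α (β₀ (c : F₀)), h'⟩ :=
    Subtype.ext (R.hsq c).symm
  rw [e, R.r₂₀_α ⟨β₀ c, R.β₀_mem_V₁ c⟩ h', R.red₁_β₀]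

/-- `r₀₂ (a₁ c) = φ (red₀ c)` -/
theorem r₀₂_a₁ (c : ↥O₀) (h : α (β₀ (c : F₀)) ∈ T.W₀₂) :
    R.r₀₂ ⟨α (β₀ c), h⟩ = R.φ (R.red₀ c) := by
  have h' : β (α₀ (c : F₀)) ∈ T.W₀₂ := by rw [← R.hsq]; exact h
  have e : (⟨α (β₀ (c : F₀)), h⟩ : ↥T.W₀₂) = ⟨β (α₀ (c : F₀)), h'⟩ := Subtype.ext (R.hsq c)
  rw [e, R.r₀₂_β ⟨α₀ c, R.α₀_mem_V₂ c⟩ h', R.red₂_α₀]

/-- **the two outer degeneracy maps agree on the thick component**: `r₁₁ (a₂ c) = red₀ c`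
(`= r₁₁ (a₀ c)`).  Proof: `(red₀ c)^q = φ (red₀ d)` for some `d`; then `β₀ (c^q) ≡ α₀ d` on `V₂`, so
`r₁₁ (a₂ c)^q = r₁₁ (β α₀ d) = r₁₁ (α β₀ d) = red₁ (β₀ d) = φ (red₀ d) = (red₀ c)^q`. -/
theorem r₁₁_a₂ [hq : Fact T.q.Prime] [CharP κ T.q] (c : ↥O₀) (h : β (β₀ (c : F₀)) ∈ T.W₁₁) :
    R.r₁₁ ⟨β (β₀ c), h⟩ = R.red₀ c := by
  apply frobenius_inj κ T.q
  show R.r₁₁ ⟨β (β₀ c), h⟩ ^ T.q = R.red₀ c ^ T.q
  obtain ⟨u, hu⟩ := R.hφ (R.red₀ c)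
  obtain ⟨d, hd⟩ := R.surj₀ u
  -- `β₀ (c^q) - α₀ d ∈ 𝔪_{V₂}`
  have h1 : R.red₂ (⟨β₀ ((c ^ T.q : ↥O₀) : F₀), R.β₀_mem_V₂ _⟩ - ⟨α₀ (d : F₀), R.α₀_mem_V₂ d⟩)
      = 0 := by
    rw [map_sub, R.red₂_β₀, R.red₂_α₀, map_pow, hd, hu, sub_self]
  have h2 : β₀ ((c ^ T.q : ↥O₀) : F₀) - α₀ (d : F₀) ∈ V₂.nonunits := (R.ker₂ _).mp h1
  have h3 : T.W₁₁.valuation (β (β₀ ((c ^ T.q : ↥O₀) : F₀) - α₀ (d : F₀))) < 1 :=
    Setup.val_lt_one_of_comap T.comap_β_W₁₁ h2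
  have hd' : α (β₀ (d : F₀)) ∈ T.W₁₁ :=
    Setup.mem_of_comap T.comap_α_W₁₁ (R.β₀_mem_V₁ d)
  -- `β β₀ (c^q) ≡ α β₀ d`
  have h4 : (⟨β (β₀ (c : F₀)), h⟩ : ↥T.W₁₁) ^ T.q - ⟨α (β₀ (d : F₀)), hd'⟩ ∈
      RingHom.ker R.r₁₁ := by
    rw [RingHom.mem_ker, R.ker₁₁, ValuationSubring.mem_nonunits_iff]
    have e : (((⟨β (β₀ (c : F₀)), h⟩ : ↥T.W₁₁) ^ T.q - ⟨α (β₀ (d : F₀)), hd'⟩ : ↥T.W₁₁) : F₂)
        = β (β₀ ((c ^ T.q : ↥O₀) : F₀) - α₀ (d : F₀)) := by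
      show (β (β₀ (c : F₀))) ^ T.q - α (β₀ (d : F₀)) = _
      rw [map_sub, R.hsq, show ((c ^ T.q : ↥O₀) : F₀) = (c : F₀) ^ T.q from rfl, map_pow, map_pow]
    rw [e]
    exact h3
  rw [RingHom.mem_ker, map_sub, map_pow, sub_eq_zero] at h4
  rw [h4, R.r₁₁_α ⟨β₀ d, R.β₀_mem_V₁ d⟩ hd', R.red₁_β₀, hd, hu]

/-- **the residue maps of the three valuation rings** with the six compatibilities -/
def reds [hq : Fact T.q.Prime] [CharP κ T.q] : Setup.Reds T κ where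
  W₂₀ := T.W₂₀
  W₁₁ := T.W₁₁
  W₀₂ := T.W₀₂
  e₂₀ := rfl
  e₁₁ := rfl
  e₀₂ := rfl
  red₁ := R.red₁
  red₂ := R.red₂
  r₂₀ := R.r₂₀
  r₁₁ := R.r₁₁
  r₀₂ := R.r₀₂
  φ := R.φ
  hφ := R.hφ
  surj₁ := R.surj₁
  surj₂ := R.surj₂
  r₂₀_α := R.r₂₀_α
  r₂₀_β := fun c h =>
    compat_of_deg_one (f := β) (g := α₀) T.comap_β_W₂₀ R.comap₁α R.deg₁ R.red₀ R.red₁ R.r₂₀ R.φ
      (fun c hc => (R.ker₁ c).mpr hc) (fun z hz => (R.ker₂₀ z).mpr hz) R.red₁_α₀ R.r₂₀_a₁ c h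
  r₁₁_α := R.r₁₁_α
  r₁₁_β := fun c h => by
    have := compat_of_deg_one (f := β) (g := β₀) T.comap_β_W₁₁ R.comap₂β R.deg₂ R.red₀ R.red₂
      R.r₁₁ (RingHom.id κ) (fun c hc => (R.ker₂ c).mpr hc) (fun z hz => (R.ker₁₁ z).mpr hz)
      R.red₂_β₀ R.r₁₁_a₂ c h
    exact this
  r₀₂_α := fun c h =>
    compat_of_deg_one (f := α) (g := β₀) T.comap_α_W₀₂ R.comap₂β R.deg₂ R.red₀ R.red₂ R.r₀₂ R.φ
      (fun c hc => (R.ker₂ c).mpr hc) (fun z hz => (R.ker₀₂ z).mpr hz) R.red₂_β₀ R.r₀₂_a₁ c h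
  r₀₂_β := R.r₀₂_β

@[simp] theorem reds_W₂₀ [Fact T.q.Prime] [CharP κ T.q] : R.reds.W₂₀ = T.W₂₀ := rfl

@[simp] theorem reds_W₁₁ [Fact T.q.Prime] [CharP κ T.q] : R.reds.W₁₁ = T.W₁₁ := rfl

@[simp] theorem reds_W₀₂ [Fact T.q.Prime] [CharP κ T.q] : R.reds.W₀₂ = T.W₀₂ := rfl

/-- helper5's normalisation on the three copies of `O₀` -/
theorem r₂₀_a₀ (c : ↥O₀) (h : α (α₀ (c : F₀)) ∈ T.W₂₀) : R.r₂₀ ⟨α (α₀ c), h⟩ = R.red₀ c := by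
  rw [R.r₂₀_α ⟨α₀ c, R.α₀_mem_V₁ c⟩ h, R.red₁_α₀]

theorem r₁₁_a₀ (c : ↥O₀) (h : α (α₀ (c : F₀)) ∈ T.W₁₁) : R.r₁₁ ⟨α (α₀ c), h⟩ = R.red₀ c := by
  rw [R.r₁₁_α ⟨α₀ c, R.α₀_mem_V₁ c⟩ h, R.red₁_α₀]

theorem r₀₂_a₂ (c : ↥O₀) (h : β (β₀ (c : F₀)) ∈ T.W₀₂) : R.r₀₂ ⟨β (β₀ c), h⟩ = R.red₀ c := by
  rw [R.r₀₂_β ⟨β₀ c, R.β₀_mem_V₂ c⟩ h, R.red₂_β₀]

theorem r₂₀_a₂ [Fact T.q.Prime] [CharP κ T.q] (c : ↥O₀) (h : β (β₀ (c : F₀)) ∈ T.W₂₀) :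
    R.r₂₀ ⟨β (β₀ c), h⟩ = R.φ (R.φ (R.red₀ c)) := by
  have h1 : R.r₂₀ ⟨β (β₀ c), h⟩ = R.φ (R.red₁ ⟨β₀ c, R.β₀_mem_V₁ c⟩) :=
    R.reds.r₂₀_β ⟨β₀ c, R.β₀_mem_V₁ c⟩ h
  rw [h1, R.red₁_β₀]

theorem r₁₁_a₁ (c : ↥O₀) (h : α (β₀ (c : F₀)) ∈ T.W₁₁) :
    R.r₁₁ ⟨α (β₀ c), h⟩ = R.φ (R.red₀ c) := by
  rw [R.r₁₁_α ⟨β₀ c, R.β₀_mem_V₁ c⟩ h, R.red₁_β₀]

theorem r₀₂_a₀ [Fact T.q.Prime] [CharP κ T.q] (c : ↥O₀) (h : α (α₀ (c : F₀)) ∈ T.W₀₂) :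
    R.r₀₂ ⟨α (α₀ c), h⟩ = R.φ (R.φ (R.red₀ c)) := by
  have h1 : R.r₀₂ ⟨α (α₀ c), h⟩ = R.φ (R.red₂ ⟨α₀ c, R.α₀_mem_V₂ c⟩) :=
    R.reds.r₀₂_α ⟨α₀ c, R.α₀_mem_V₂ c⟩ h
  rw [h1, R.red₂_α₀]

end ResInputs

end Main

end Fermat.Agent.S36.ThreeValRes
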