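/-
S36 (project V), chain (V4), `X₀`-instantiation of `S36/ThreeVal` over `K = ℚ̄^H` (`H` = inertia gives
`K = K₀`): **hypotheses first.**

`F₀ = F_K(N0)`, `F₁ = F_K(N0 q)`, `F₂ = F_K(N0 q q)` (helper19's `FK`), `α₀ β₀ : F₀ → F₁`,
`α β : F₁ → F₂` (helper19's `alphaK`, `betaK`).  The structure `Hyp` lists exactly what the level-`q`
slice (V2) and the theta slice (N3) deliver: the Gauss ring `O₀` of `F₀`, the two Gauss rings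
`V₁ V₂` of `F₁` (PIDs with uniformizer `q`, the only valuation subrings over `O₀` along `α₀` and
along `β₀`, residue degree one), the reductions `red₀ red₁ red₂` to `κ` with the level-`q`
normalisation (D5), `J ≠ J^(q²)`, `J` not a `q`-th power, a Kronecker polynomial `Φ`, and
`G_α(j₀) = q u₁`, `G_β(j₁) = q u₂` with units.  Everything else (power bases, minimal polynomials
over `V₁` and `V₂`, their first-order reductions) is taken from `S36/MinpolyK0` and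
`S36/KroneckerRed`.

OUTPUT: `Hyp.inputs : ThreeValInputs.Inputs`, hence `Hyp.setup : ThreeVal.Setup`, `Hyp.num`,
`Hyp.resInputs : ThreeValRes.ResInputs`, `Hyp.reds : Setup.Reds`, i.e. the three valuation rings
`W₂₀ W₁₁ W₀₂` of `F₂`, their residue maps, the four norm-reduction formulas, the value formulas and
exhaustiveness.
-/
import Mathlib
import Fermat.Agent.S36.ThreeValRes
import Fermat.Agent.S36.MinpolyK0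
import Fermat.Agent.S36.KroneckerRed

set_option autoImplicit false
set_option linter.unusedSectionVars false
set_option linter.style.haveILetI false

noncomputable section

namespace Fermat.Agent.S36.ThreeValX0

open Polynomial IsLocalRing ModularCurve
open Fermat.Agent.S36.PowerBasisK0 Fermat.Agent.S36.MinpolyK0 Fermat.Agent.S28.ModPoly
open Fermat.Agent.S36.ThreeVal Fermat.Agent.S36.ThreeValInputs Fermat.Agent.S36.ThreeValRes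

local notation "Kb" => AlgebraicClosure ℚ

variable (H : Subgroup (Kb ≃ₐ[ℚ] Kb))
variable (N0 q : ℕ) [NeZero N0] [NeZero q] [NeZero (N0 * q)] [NeZero (N0 * q * q)]

/-! ### formal facts about the level maps over `K` -/

/-- `α ∘ β₀ = β ∘ α₀` -/
theorem square (c : FK H N0) :
    alphaK H (N0 * q) q (betaK H N0 q c) = betaK H (N0 * q) q (alphaK H N0 q c) := by
  apply Subtype.ext
  rw [coe_alphaK, coe_betaK, coe_betaK, coe_alphaK]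

theorem alphaK_j0K : alphaK H N0 q (j0K H N0) = j0K H (N0 * q) := by
  apply Subtype.ext
  rw [coe_alphaK, coe_j0K, coe_j0K]

theorem alphaK_j0K' : alphaK H (N0 * q) q (j0K H (N0 * q)) = j0K H (N0 * q * q) := by
  apply Subtype.ext
  rw [coe_alphaK, coe_j0K, coe_j0K]

/-- `α j₁ = β j₀` -/
theorem alphaK_j1K : alphaK H (N0 * q) q (j1K H N0 q) = betaK H (N0 * q) q (j0K H (N0 * q)) := by
  rw [j1K, square, alphaK_j0K]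

/-! ### the minimal polynomials over a valuation subring containing `j₀`, `j₁` -/

section Cofactor

variable {H N0 q}

/-- `P ↦ P(c)`, `ℤ[X] → V` -/
def intEvalV {N : ℕ} (V : ValuationSubring (FK H N)) (c : ↥V) : Polynomial ℤ →+* ↥V :=
  Polynomial.eval₂RingHom (Int.castRingHom ↥V) c

@[simp] theorem intEvalV_X {N : ℕ} (V : ValuationSubring (FK H N)) (c : ↥V) :
    intEvalV V c X = c := by
  simp [intEvalV]

theorem algebraMap_comp_intEvalV {N : ℕ} (V : ValuationSubring (FK H N)) (c : ↥V) :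
    (algebraMap ↥V (FK H N)).comp (intEvalV V c) = intEval H (c : FK H N) := by
  apply Polynomial.ringHom_ext
  · intro a
    simp [intEvalV, intEval]
  · simp [intEvalV, intEval]

theorem algebraMap_injective_V {N : ℕ} (V : ValuationSubring (FK H N)) :
    Function.Injective (algebraMap ↥V (FK H N)) := fun _ _ h => Subtype.ext h

variable (hq : q.Prime) {Φ : Polynomial (Polynomial ℤ)}
  (hΦ : Φ.map (evalL ℤ (jqModC ℤ)) = rPoly q ℤ)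

include hq hΦ in
/-- `G_α = Φ(X, j₁)/(X - j₀)` has coefficients in every valuation subring containing `j₀`, `j₁` -/
theorem exists_gAlpha (V : ValuationSubring (FK H (N0 * q))) (x y : ↥V)
    (hx : (x : FK H (N0 * q)) = j0K H (N0 * q)) (hy : (y : FK H (N0 * q)) = j1K H N0 q) :
    ∃ G : Polynomial ↥V, G.map (algebraMap ↥V (FK H (N0 * q))) = gAlphaK H N0 q Φ ∧
      Φ.map (intEvalV V y) = (X - C x) * G := by
  refine KroneckerRed.exists_cofactor_of_injective (algebraMap ↥V (FK H (N0 * q)))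
    (algebraMap_injective_V V) (intEvalV V y) x ?_
  rw [algebraMap_comp_intEvalV, hy]
  have h := phiK_eq_alpha H (N0 := N0) hq hΦ
  rw [phiK] at h
  rw [h]
  congr 3
  exact hx.symm

include hΦ in
/-- `G_β = Φ(X, j₀)/(X - j₁)` has coefficients in every valuation subring containing `j₀`, `j₁` -/
theorem exists_gBeta (V : ValuationSubring (FK H (N0 * q))) (x y : ↥V)
    (hx : (x : FK H (N0 * q)) = j0K H (N0 * q)) (hy : (y : FK H (N0 * q)) = j1K H N0 q) :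
    ∃ G : Polynomial ↥V, G.map (algebraMap ↥V (FK H (N0 * q))) = gBetaK H N0 q Φ ∧
      Φ.map (intEvalV V x) = (X - C y) * G := by
  refine KroneckerRed.exists_cofactor_of_injective (algebraMap ↥V (FK H (N0 * q)))
    (algebraMap_injective_V V) (intEvalV V x) y ?_
  rw [algebraMap_comp_intEvalV, hx]
  have h := phiK_eq_beta H (N0 := N0) (q := q) hΦ
  rw [phiK] at h
  rw [h]
  congr 3
  exact hy.symm

end Cofactor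

/-! ### the hypotheses -/

/-- **What the level-`q` slice (V2) and the theta slice (N3) deliver** (see the header). -/
structure Hyp (κ : Type) [Field κ] where
  prime : q.Prime
  hqN0 : ¬ q ∣ N0
  O₀ : ValuationSubring (FK H N0)
  V₁ : ValuationSubring (FK H (N0 * q))
  V₂ : ValuationSubring (FK H (N0 * q))
  pid₁ : IsPrincipalIdealRing ↥V₁
  pid₂ : IsPrincipalIdealRing ↥V₂
  /-- `q` is a uniformizer of `V₁` and of `V₂` -/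
  hϖ₁ : maximalIdeal ↥V₁ = Ideal.span {(q : ↥V₁)}
  hϖ₂ : maximalIdeal ↥V₂ = Ideal.span {(q : ↥V₂)}
  charκ : CharP κ q
  red₀ : ↥O₀ →+* κ
  red₁ : ↥V₁ →+* κ
  red₂ : ↥V₂ →+* κ
  φ : κ →+* κ
  hφ : ∀ z : κ, ∃ c : κ, φ c = z ^ q
  surj₀ : Function.Surjective red₀
  comap₁α : V₁.comap (alphaK H N0 q) = O₀
  comap₁β : V₁.comap (betaK H N0 q) = O₀
  comap₂α : V₂.comap (alphaK H N0 q) = O₀
  comap₂β : V₂.comap (betaK H N0 q) = O₀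
  /-- `V₁`, `V₂` are the only valuation subrings over `O₀`, along `α₀` and along `β₀` -/
  only_α : ∀ V : ValuationSubring (FK H (N0 * q)), V.comap (alphaK H N0 q) = O₀ → V = V₁ ∨ V = V₂
  only_β : ∀ V : ValuationSubring (FK H (N0 * q)), V.comap (betaK H N0 q) = O₀ → V = V₁ ∨ V = V₂
  /-- residue degree one -/
  deg₁ : ∀ x ∈ V₁, ∃ c : ↥O₀, x - alphaK H N0 q (c : FK H N0) ∈ V₁.nonunits
  deg₂ : ∀ x ∈ V₂, ∃ c : ↥O₀, x - betaK H N0 q (c : FK H N0) ∈ V₂.nonunits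
  /-- the level-`q` normalisation (D5) -/
  red₁_α₀ : ∀ (c : ↥O₀) (h : alphaK H N0 q (c : FK H N0) ∈ V₁), red₁ ⟨_, h⟩ = red₀ c
  red₁_β₀ : ∀ (c : ↥O₀) (h : betaK H N0 q (c : FK H N0) ∈ V₁), red₁ ⟨_, h⟩ = φ (red₀ c)
  red₂_β₀ : ∀ (c : ↥O₀) (h : betaK H N0 q (c : FK H N0) ∈ V₂), red₂ ⟨_, h⟩ = red₀ c
  red₂_α₀ : ∀ (c : ↥O₀) (h : alphaK H N0 q (c : FK H N0) ∈ V₂), red₂ ⟨_, h⟩ = φ (red₀ c)
  /-- `j` and its reduction `J` -/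
  hj : j0K H N0 ∈ O₀
  hφJ : φ (red₀ ⟨j0K H N0, hj⟩) = red₀ ⟨j0K H N0, hj⟩ ^ q
  hJ : red₀ ⟨j0K H N0, hj⟩ ≠ red₀ ⟨j0K H N0, hj⟩ ^ (q ^ 2)
  hJq : ∀ b : κ, b ^ q ≠ red₀ ⟨j0K H N0, hj⟩
  /-- a Kronecker polynomial -/
  Φ : Polynomial (Polynomial ℤ)
  hmonic : Φ.Monic
  hdeg : Φ.natDegree = q + 1
  hΦ : Φ.map (evalL ℤ (jqModC ℤ)) = rPoly q ℤ
  hchar : Φ.map (Polynomial.mapRingHom (Int.castRingHom κ)) = (X - C (X ^ q)) * (X ^ q - C X)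
  /-- second-order Kronecker: `G_α(j₀) = q u₁`, `G_β(j₁) = q u₂` -/
  u₁ : ↥V₁
  u₂ : ↥V₂
  unit₁ : IsUnit u₁
  unit₂ : IsUnit u₂
  eval₁ : (gAlphaK H N0 q Φ).eval (j0K H (N0 * q)) = (q : FK H (N0 * q)) * (u₁ : FK H (N0 * q))
  eval₂ : (gBetaK H N0 q Φ).eval (j1K H N0 q) = (q : FK H (N0 * q)) * (u₂ : FK H (N0 * q))

namespace Hyp

variable {H N0 q} {κ : Type} [Field κ] (Y : Hyp H N0 q κ)

/-- `J = red₀ j` -/
def J : κ := Y.red₀ ⟨j0K H N0, Y.hj⟩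

theorem x_mem_V₁ : j0K H (N0 * q) ∈ Y.V₁ := by
  rw [← alphaK_j0K, ← ValuationSubring.mem_comap, Y.comap₁α]
  exact Y.hj

theorem x_mem_V₂ : j0K H (N0 * q) ∈ Y.V₂ := by
  rw [← alphaK_j0K, ← ValuationSubring.mem_comap, Y.comap₂α]
  exact Y.hj

theorem y_mem_V₁ : j1K H N0 q ∈ Y.V₁ := by
  rw [j1K, ← ValuationSubring.mem_comap, Y.comap₁β]
  exact Y.hj

theorem y_mem_V₂ : j1K H N0 q ∈ Y.V₂ := by
  rw [j1K, ← ValuationSubring.mem_comap, Y.comap₂β]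
  exact Y.hj

/-- `j₀`, `j₁` as elements of `V₁`, `V₂` -/
def x₁ : ↥Y.V₁ := ⟨j0K H (N0 * q), Y.x_mem_V₁⟩

def y₁ : ↥Y.V₁ := ⟨j1K H N0 q, Y.y_mem_V₁⟩

def x₂ : ↥Y.V₂ := ⟨j0K H (N0 * q), Y.x_mem_V₂⟩

def y₂ : ↥Y.V₂ := ⟨j1K H N0 q, Y.y_mem_V₂⟩

theorem red₁_x : Y.red₁ Y.x₁ = Y.J := by
  have h : alphaK H N0 q ((⟨j0K H N0, Y.hj⟩ : ↥Y.O₀) : FK H N0) ∈ Y.V₁ := by
    rw [alphaK_j0K]
    exact Y.x_mem_V₁
  have e : Y.x₁ = ⟨_, h⟩ := Subtype.ext (alphaK_j0K H N0 q).symm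
  rw [e, Y.red₁_α₀]
  rfl

theorem red₁_y : Y.red₁ Y.y₁ = Y.J ^ q := by
  have h : betaK H N0 q ((⟨j0K H N0, Y.hj⟩ : ↥Y.O₀) : FK H N0) ∈ Y.V₁ := Y.y_mem_V₁
  have e : Y.y₁ = ⟨_, h⟩ := rfl
  rw [e, Y.red₁_β₀, Y.hφJ]
  rfl

theorem red₂_y : Y.red₂ Y.y₂ = Y.J := by
  have h : betaK H N0 q ((⟨j0K H N0, Y.hj⟩ : ↥Y.O₀) : FK H N0) ∈ Y.V₂ := Y.y_mem_V₂
  have e : Y.y₂ = ⟨_, h⟩ := rfl
  rw [e, Y.red₂_β₀]
  rfl

theorem red₂_x : Y.red₂ Y.x₂ = Y.J ^ q := by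
  have h : alphaK H N0 q ((⟨j0K H N0, Y.hj⟩ : ↥Y.O₀) : FK H N0) ∈ Y.V₂ := by
    rw [alphaK_j0K]
    exact Y.x_mem_V₂
  have e : Y.x₂ = ⟨_, h⟩ := Subtype.ext (alphaK_j0K H N0 q).symm
  rw [e, Y.red₂_α₀, Y.hφJ]
  rfl

/-! #### the four polynomials -/

/-- `G_α` over `V₁` -/
def Φα₁ : Polynomial ↥Y.V₁ := (exists_gAlpha Y.prime Y.hΦ Y.V₁ Y.x₁ Y.y₁ rfl rfl).choose

/-- `G_α` over `V₂` -/
def Φα₂ : Polynomial ↥Y.V₂ := (exists_gAlpha Y.prime Y.hΦ Y.V₂ Y.x₂ Y.y₂ rfl rfl).choose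

/-- `G_β` over `V₁` -/
def Φβ₁ : Polynomial ↥Y.V₁ := (exists_gBeta Y.hΦ Y.V₁ Y.x₁ Y.y₁ rfl rfl).choose

/-- `G_β` over `V₂` -/
def Φβ₂ : Polynomial ↥Y.V₂ := (exists_gBeta Y.hΦ Y.V₂ Y.x₂ Y.y₂ rfl rfl).choose

theorem map_Φα₁ : Y.Φα₁.map (algebraMap ↥Y.V₁ (FK H (N0 * q))) = gAlphaK H N0 q Y.Φ :=
  (exists_gAlpha Y.prime Y.hΦ Y.V₁ Y.x₁ Y.y₁ rfl rfl).choose_spec.1

theorem map_Φα₂ : Y.Φα₂.map (algebraMap ↥Y.V₂ (FK H (N0 * q))) = gAlphaK H N0 q Y.Φ :=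
  (exists_gAlpha Y.prime Y.hΦ Y.V₂ Y.x₂ Y.y₂ rfl rfl).choose_spec.1

theorem map_Φβ₁ : Y.Φβ₁.map (algebraMap ↥Y.V₁ (FK H (N0 * q))) = gBetaK H N0 q Y.Φ :=
  (exists_gBeta Y.hΦ Y.V₁ Y.x₁ Y.y₁ rfl rfl).choose_spec.1

theorem map_Φβ₂ : Y.Φβ₂.map (algebraMap ↥Y.V₂ (FK H (N0 * q))) = gBetaK H N0 q Y.Φ :=
  (exists_gBeta Y.hΦ Y.V₂ Y.x₂ Y.y₂ rfl rfl).choose_spec.1

theorem fac_Φα₁ : Y.Φ.map (intEvalV Y.V₁ Y.y₁) = (X - C Y.x₁) * Y.Φα₁ :=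
  (exists_gAlpha Y.prime Y.hΦ Y.V₁ Y.x₁ Y.y₁ rfl rfl).choose_spec.2

theorem fac_Φα₂ : Y.Φ.map (intEvalV Y.V₂ Y.y₂) = (X - C Y.x₂) * Y.Φα₂ :=
  (exists_gAlpha Y.prime Y.hΦ Y.V₂ Y.x₂ Y.y₂ rfl rfl).choose_spec.2

theorem fac_Φβ₁ : Y.Φ.map (intEvalV Y.V₁ Y.x₁) = (X - C Y.y₁) * Y.Φβ₁ :=
  (exists_gBeta Y.hΦ Y.V₁ Y.x₁ Y.y₁ rfl rfl).choose_spec.2

theorem fac_Φβ₂ : Y.Φ.map (intEvalV Y.V₂ Y.x₂) = (X - C Y.y₂) * Y.Φβ₂ :=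
  (exists_gBeta Y.hΦ Y.V₂ Y.x₂ Y.y₂ rfl rfl).choose_spec.2

theorem monic_Φα₁ : Y.Φα₁.Monic :=
  Polynomial.monic_of_injective (algebraMap_injective_V Y.V₁)
    (by rw [Y.map_Φα₁]; exact monic_gAlphaK H Y.hmonic Y.hΦ Y.prime)

theorem monic_Φα₂ : Y.Φα₂.Monic :=
  Polynomial.monic_of_injective (algebraMap_injective_V Y.V₂)
    (by rw [Y.map_Φα₂]; exact monic_gAlphaK H Y.hmonic Y.hΦ Y.prime)

theorem monic_Φβ₁ : Y.Φβ₁.Monic :=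
  Polynomial.monic_of_injective (algebraMap_injective_V Y.V₁)
    (by rw [Y.map_Φβ₁]; exact monic_gBetaK H Y.hΦ)

theorem monic_Φβ₂ : Y.Φβ₂.Monic :=
  Polynomial.monic_of_injective (algebraMap_injective_V Y.V₂)
    (by rw [Y.map_Φβ₂]; exact monic_gBetaK H Y.hΦ)

/-! #### first-order Kronecker -/

theorem red_Φα₁ : Y.Φα₁.map Y.red₁
    = (X - C (Y.red₁ Y.x₁)) ^ (q - 1) * (X - C (Y.red₁ Y.x₁ ^ (q ^ 2))) := by
  haveI : Fact q.Prime := ⟨Y.prime⟩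
  haveI := Y.charκ
  refine KroneckerRed.map_cofactor_thick Y.hchar (intEvalV Y.V₁ Y.y₁) Y.red₁ Y.fac_Φα₁ ?_
  rw [intEvalV_X, Y.red₁_y, Y.red₁_x]

theorem red_Φβ₂ : Y.Φβ₂.map Y.red₂
    = (X - C (Y.red₂ Y.y₂)) ^ (q - 1) * (X - C (Y.red₂ Y.y₂ ^ (q ^ 2))) := by
  haveI : Fact q.Prime := ⟨Y.prime⟩
  haveI := Y.charκ
  refine KroneckerRed.map_cofactor_thick Y.hchar (intEvalV Y.V₂ Y.x₂) Y.red₂ Y.fac_Φβ₂ ?_
  rw [intEvalV_X, Y.red₂_x, Y.red₂_y]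

theorem irr_Φα₂ : Irreducible (Y.Φα₂.map Y.red₂) := by
  haveI : Fact q.Prime := ⟨Y.prime⟩
  haveI := Y.charκ
  refine KroneckerRed.irreducible_map_cofactor_inert Y.hchar (intEvalV Y.V₂ Y.y₂) Y.red₂
    Y.fac_Φα₂ ?_ ?_
  · rw [intEvalV_X, Y.red₂_x, Y.red₂_y]
  · rw [intEvalV_X, Y.red₂_y]
    exact Y.hJq

theorem irr_Φβ₁ : Irreducible (Y.Φβ₁.map Y.red₁) := by
  haveI : Fact q.Prime := ⟨Y.prime⟩
  haveI := Y.charκ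
  refine KroneckerRed.irreducible_map_cofactor_inert Y.hchar (intEvalV Y.V₁ Y.x₁) Y.red₁
    Y.fac_Φβ₁ ?_ ?_
  · rw [intEvalV_X, Y.red₁_y, Y.red₁_x]
  · rw [intEvalV_X, Y.red₁_x]
    exact Y.hJq

/-! #### the power bases -/

/-- `F₂ = α F₁ (j₂)` -/
def pbα : PowerBasis (FK H (N0 * q)) (S35.NormRed.Via (alphaK H (N0 * q) q)) :=
  (exists_powerBasis_minpoly_alphaK H (N0 := N0) Y.prime Y.hqN0 Y.hmonic Y.hdeg Y.hΦ).choose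

theorem gen_pbα : (Y.pbα.gen : FK H (N0 * q * q)) = j2K H N0 q :=
  (exists_powerBasis_minpoly_alphaK H (N0 := N0) Y.prime Y.hqN0 Y.hmonic Y.hdeg Y.hΦ).choose_spec.1

theorem minpoly_pbα : minpoly (FK H (N0 * q)) Y.pbα.gen = gAlphaK H N0 q Y.Φ :=
  (exists_powerBasis_minpoly_alphaK H (N0 := N0) Y.prime Y.hqN0 Y.hmonic Y.hdeg
    Y.hΦ).choose_spec.2.2

/-- `F₂ = β F₁ (j₀)` -/
def pbβ : PowerBasis (FK H (N0 * q)) (S35.NormRed.Via (betaK H (N0 * q) q)) :=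
  (exists_powerBasis_minpoly_betaK H (N0 := N0) Y.prime Y.hΦ).choose

theorem gen_pbβ : (Y.pbβ.gen : FK H (N0 * q * q)) = j0K H (N0 * q * q) :=
  (exists_powerBasis_minpoly_betaK H (N0 := N0) Y.prime Y.hΦ).choose_spec.1

theorem minpoly_pbβ : minpoly (FK H (N0 * q)) Y.pbβ.gen = gBetaK H N0 q Y.Φ :=
  (exists_powerBasis_minpoly_betaK H (N0 := N0) Y.prime Y.hΦ).choose_spec.2.2

/-! #### the uniformizer and the second-order input -/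

theorem q_ne₁ : (q : ↥Y.V₁) ≠ 0 := by
  intro h
  have h1 : ((q : ↥Y.V₁) : FK H (N0 * q)) = 0 := by rw [h]; rfl
  have h2 : ((q : ↥Y.V₁) : FK H (N0 * q)) = (q : FK H (N0 * q)) := rfl
  rw [h2] at h1
  exact (Nat.cast_ne_zero.mpr Y.prime.ne_zero) h1

theorem q_ne₂ : (q : ↥Y.V₂) ≠ 0 := by
  intro h
  have h1 : ((q : ↥Y.V₂) : FK H (N0 * q)) = 0 := by rw [h]; rfl
  have h2 : ((q : ↥Y.V₂) : FK H (N0 * q)) = (q : FK H (N0 * q)) := rfl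
  rw [h2] at h1
  exact (Nat.cast_ne_zero.mpr Y.prime.ne_zero) h1

theorem eval_Φα₁ : Y.Φα₁.eval Y.x₁ = (q : ↥Y.V₁) * Y.u₁ := by
  apply algebraMap_injective_V Y.V₁
  rw [← Polynomial.eval_map_apply, Y.map_Φα₁]
  exact Y.eval₁

theorem eval_Φβ₂ : Y.Φβ₂.eval Y.y₂ = (q : ↥Y.V₂) * Y.u₂ := by
  apply algebraMap_injective_V Y.V₂
  rw [← Polynomial.eval_map_apply, Y.map_Φβ₂]
  exact Y.eval₂

/-! #### the inputs, the setup, the residue maps -/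

/-- **the inputs of `ThreeVal.Setup`** -/
def inputs : Inputs (alphaK H (N0 * q) q) (betaK H (N0 * q) q) Y.V₁ Y.V₂ κ where
  q := q
  prime := Y.prime
  ϖ₁ := (q : ↥Y.V₁)
  ϖ₂ := (q : ↥Y.V₂)
  hϖ₁ := Y.hϖ₁
  hϖ₂ := Y.hϖ₂
  ϖ₁_ne := Y.q_ne₁
  ϖ₂_ne := Y.q_ne₂
  red₁ := Y.red₁
  red₂ := Y.red₂
  surj₁ := fun z => by
    obtain ⟨c, hc⟩ := Y.surj₀ z
    have h : alphaK H N0 q (c : FK H N0) ∈ Y.V₁ := by
      rw [← ValuationSubring.mem_comap, Y.comap₁α]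
      exact c.2
    exact ⟨⟨_, h⟩, by rw [Y.red₁_α₀, hc]⟩
  surj₂ := fun z => by
    obtain ⟨c, hc⟩ := Y.surj₀ z
    have h : betaK H N0 q (c : FK H N0) ∈ Y.V₂ := by
      rw [← ValuationSubring.mem_comap, Y.comap₂β]
      exact c.2
    exact ⟨⟨_, h⟩, by rw [Y.red₂_β₀, hc]⟩
  x₁ := Y.x₁
  y₁ := Y.y₁
  x₂ := Y.x₂
  y₂ := Y.y₂
  hx := rfl
  hy := rfl
  hαβ := alphaK_j1K H N0 q
  red₁_y := by rw [Y.red₁_y, Y.red₁_x]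
  red₂_x := by rw [Y.red₂_x, Y.red₂_y]
  ne₁ := by rw [Y.red₁_x]; exact Y.hJ
  ne₂ := by rw [Y.red₂_y]; exact Y.hJ
  pbα := Y.pbα
  gen_α := Y.gen_pbα
  pbβ := Y.pbβ
  gen_β := Y.gen_pbβ.trans (alphaK_j0K' H N0 q).symm
  Φα₁ := Y.Φα₁
  Φα₂ := Y.Φα₂
  Φβ₁ := Y.Φβ₁
  Φβ₂ := Y.Φβ₂
  monic_α₁ := Y.monic_Φα₁
  monic_α₂ := Y.monic_Φα₂
  monic_β₁ := Y.monic_Φβ₁
  monic_β₂ := Y.monic_Φβ₂
  min_α₁ := Y.minpoly_pbα.trans Y.map_Φα₁.symm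
  min_α₂ := Y.minpoly_pbα.trans Y.map_Φα₂.symm
  min_β₁ := Y.minpoly_pbβ.trans Y.map_Φβ₁.symm
  min_β₂ := Y.minpoly_pbβ.trans Y.map_Φβ₂.symm
  red_α₁ := Y.red_Φα₁
  irr_α₂ := Y.irr_Φα₂
  red_β₂ := Y.red_Φβ₂
  irr_β₁ := Y.irr_Φβ₁
  u₁ := Y.u₁
  u₂ := Y.u₂
  unit₁ := Y.unit₁
  unit₂ := Y.unit₂
  eval_α₁ := Y.eval_Φα₁
  eval_β₂ := Y.eval_Φβ₂
  two_α := two_of_square (alphaK H N0 q) (betaK H N0 q) Y.O₀
    (RingHom.ext fun c => square H N0 q c) Y.comap₁β Y.comap₂β Y.only_α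
  two_β := two_of_square' (alphaK H N0 q) (betaK H N0 q) Y.O₀
    (RingHom.ext fun c => square H N0 q c) Y.comap₁α Y.comap₂α Y.only_β

instance instPid₁ : IsPrincipalIdealRing ↥Y.V₁ := Y.pid₁

instance instPid₂ : IsPrincipalIdealRing ↥Y.V₂ := Y.pid₂

/-- **the setup of `ThreeVal`** at level `N0 q q` over `K` -/
def setup : Setup (alphaK H (N0 * q) q) (betaK H (N0 * q) q) Y.V₁ Y.V₂ := Y.inputs.setup

theorem num : Y.setup.Num := Y.inputs.num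

@[simp] theorem setup_q : Y.setup.q = q := rfl

/-- the level below -/
def resInputs : ResInputs Y.setup κ (alphaK H N0 q) (betaK H N0 q) Y.O₀ where
  red₀ := Y.red₀
  red₁ := Y.red₁
  red₂ := Y.red₂
  φ := Y.φ
  hφ := Y.hφ
  surj₀ := Y.surj₀
  hsq := square H N0 q
  comap₁α := Y.comap₁α
  comap₁β := Y.comap₁β
  comap₂α := Y.comap₂α
  comap₂β := Y.comap₂β
  deg₁ := Y.deg₁
  deg₂ := Y.deg₂
  red₁_α₀ := Y.red₁_α₀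
  red₁_β₀ := Y.red₁_β₀
  red₂_β₀ := Y.red₂_β₀
  red₂_α₀ := Y.red₂_α₀

/-- **the residue maps of `W₂₀ W₁₁ W₀₂`** with the six compatibilities -/
def reds : Setup.Reds Y.setup κ :=
  haveI : Fact Y.setup.q.Prime := ⟨Y.prime⟩
  haveI : CharP κ Y.setup.q := Y.charκ
  Y.resInputs.reds

/-! #### exports -/

/-- the three valuation rings of `F_K(N0 q q)` -/
abbrev W₂₀ : ValuationSubring (FK H (N0 * q * q)) := Y.setup.W₂₀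

abbrev W₁₁ : ValuationSubring (FK H (N0 * q * q)) := Y.setup.W₁₁

abbrev W₀₂ : ValuationSubring (FK H (N0 * q * q)) := Y.setup.W₀₂

/-- the residue maps -/
def r₂₀ : ↥Y.W₂₀ →+* κ := Y.reds.r₂₀

def r₁₁ : ↥Y.W₁₁ →+* κ := Y.reds.r₁₁

def r₀₂ : ↥Y.W₀₂ →+* κ := Y.reds.r₀₂

/-- **(NF)** the four norm-reduction formulas, in the shape of the fields of `GlueNorm.Datum` -/
theorem norm₁_V₁ (y : FK H (N0 * q * q)) (h₂₀ : y ∈ Y.W₂₀) (h₁₁ : y ∈ Y.W₁₁) (h₀₂ : y ∈ Y.W₀₂) :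
    ∃ m : normAlong (alphaK H (N0 * q) q) y ∈ Y.V₁,
      Y.red₁ ⟨normAlong (alphaK H (N0 * q) q) y, m⟩ = Y.r₂₀ ⟨y, h₂₀⟩ * Y.r₁₁ ⟨y, h₁₁⟩ ^ (q - 1) :=
  Y.reds.norm₁_V₁ Y.num y h₂₀ h₁₁ h₀₂

theorem norm₁_V₂ (y : FK H (N0 * q * q)) (h₂₀ : y ∈ Y.W₂₀) (h₁₁ : y ∈ Y.W₁₁) (h₀₂ : y ∈ Y.W₀₂) :
    ∃ m : normAlong (alphaK H (N0 * q) q) y ∈ Y.V₂,
      Y.φ (Y.red₂ ⟨normAlong (alphaK H (N0 * q) q) y, m⟩) = Y.r₀₂ ⟨y, h₀₂⟩ ^ q :=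
  haveI : CharP κ Y.setup.q := Y.charκ
  Y.reds.norm₁_V₂ Y.num y h₂₀ h₁₁ h₀₂

theorem norm₂_V₁ (y : FK H (N0 * q * q)) (h₂₀ : y ∈ Y.W₂₀) (h₁₁ : y ∈ Y.W₁₁) (h₀₂ : y ∈ Y.W₀₂) :
    ∃ m : normAlong (betaK H (N0 * q) q) y ∈ Y.V₁,
      Y.φ (Y.red₁ ⟨normAlong (betaK H (N0 * q) q) y, m⟩) = Y.r₂₀ ⟨y, h₂₀⟩ ^ q :=
  haveI : CharP κ Y.setup.q := Y.charκ
  Y.reds.norm₂_V₁ Y.num y h₂₀ h₁₁ h₀₂

theorem norm₂_V₂ (y : FK H (N0 * q * q)) (h₂₀ : y ∈ Y.W₂₀) (h₁₁ : y ∈ Y.W₁₁) (h₀₂ : y ∈ Y.W₀₂) :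
    ∃ m : normAlong (betaK H (N0 * q) q) y ∈ Y.V₂,
      Y.red₂ ⟨normAlong (betaK H (N0 * q) q) y, m⟩ = Y.r₁₁ ⟨y, h₁₁⟩ ^ (q - 1) * Y.r₀₂ ⟨y, h₀₂⟩ :=
  Y.reds.norm₂_V₂ Y.num y h₂₀ h₁₁ h₀₂

/-- **(VAL)** the value datum of `UnitNormal` (field `X` of `UnitGen.ValDatum`) -/
def setting : UnitNormal.Setting (FK H (N0 * q)) (FK H (N0 * q * q)) :=
  toSetting Y.setup Y.reds Y.num rfl (by
    show betaK H (N0 * q) q ((q : ↥Y.V₁) : FK H (N0 * q))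
      = alphaK H (N0 * q) q ((q : ↥Y.V₁) : FK H (N0 * q))
    rw [show ((q : ↥Y.V₁) : FK H (N0 * q)) = (q : FK H (N0 * q)) from rfl, map_natCast,
      map_natCast])

/-- **(ALL)** a valuation subring of `F₂` lying over `V₁` or `V₂` along `α` is one of the three -/
theorem exhaustive {W : ValuationSubring (FK H (N0 * q * q))}
    (h : W.comap (alphaK H (N0 * q) q) = Y.V₁ ∨ W.comap (alphaK H (N0 * q) q) = Y.V₂) :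
    W = Y.W₂₀ ∨ W = Y.W₁₁ ∨ W = Y.W₀₂ :=
  Y.setup.exhaustive Y.inputs.red_H h

/-- **(ALL)**, along `a₀ = α ∘ α₀` -/
theorem exhaustive_a₀ {W : ValuationSubring (FK H (N0 * q * q))}
    (h : W.comap ((alphaK H (N0 * q) q).comp (alphaK H N0 q)) = Y.O₀) :
    W = Y.W₂₀ ∨ W = Y.W₁₁ ∨ W = Y.W₀₂ := by
  refine Y.exhaustive (Y.only_α _ ?_)
  rw [ValuationSubring.comap_comap]
  exact h

/-- **(ALL)**, along `a₂ = β ∘ β₀` -/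
theorem exhaustive_a₂ {W : ValuationSubring (FK H (N0 * q * q))}
    (h : W.comap ((betaK H (N0 * q) q).comp (betaK H N0 q)) = Y.O₀) :
    W = Y.W₂₀ ∨ W = Y.W₁₁ ∨ W = Y.W₀₂ := by
  refine Y.exhaustive (Y.setup.two_β _ (Y.only_β _ ?_))
  rw [ValuationSubring.comap_comap]
  exact h

/-! #### further exports: restrictions, compatibilities (D5), kernels -/

theorem comap_α_W₂₀ : Y.W₂₀.comap (alphaK H (N0 * q) q) = Y.V₁ := Y.setup.comap_α_W₂₀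

theorem comap_α_W₁₁ : Y.W₁₁.comap (alphaK H (N0 * q) q) = Y.V₁ := Y.setup.comap_α_W₁₁

theorem comap_α_W₀₂ : Y.W₀₂.comap (alphaK H (N0 * q) q) = Y.V₂ := Y.setup.comap_α_W₀₂

theorem comap_β_W₂₀ : Y.W₂₀.comap (betaK H (N0 * q) q) = Y.V₁ := Y.setup.comap_β_W₂₀

theorem comap_β_W₁₁ : Y.W₁₁.comap (betaK H (N0 * q) q) = Y.V₂ := Y.setup.comap_β_W₁₁

theorem comap_β_W₀₂ : Y.W₀₂.comap (betaK H (N0 * q) q) = Y.V₂ := Y.setup.comap_β_W₀₂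

theorem r₂₀_α (c : ↥Y.V₁) (h : alphaK H (N0 * q) q (c : FK H (N0 * q)) ∈ Y.W₂₀) :
    Y.r₂₀ ⟨_, h⟩ = Y.red₁ c := Y.reds.r₂₀_α c h

theorem r₂₀_β (c : ↥Y.V₁) (h : betaK H (N0 * q) q (c : FK H (N0 * q)) ∈ Y.W₂₀) :
    Y.r₂₀ ⟨_, h⟩ = Y.φ (Y.red₁ c) := Y.reds.r₂₀_β c h

theorem r₁₁_α (c : ↥Y.V₁) (h : alphaK H (N0 * q) q (c : FK H (N0 * q)) ∈ Y.W₁₁) :
    Y.r₁₁ ⟨_, h⟩ = Y.red₁ c := Y.reds.r₁₁_α c h

theorem r₁₁_β (c : ↥Y.V₂) (h : betaK H (N0 * q) q (c : FK H (N0 * q)) ∈ Y.W₁₁) :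
    Y.r₁₁ ⟨_, h⟩ = Y.red₂ c := Y.reds.r₁₁_β c h

theorem r₀₂_α (c : ↥Y.V₂) (h : alphaK H (N0 * q) q (c : FK H (N0 * q)) ∈ Y.W₀₂) :
    Y.r₀₂ ⟨_, h⟩ = Y.φ (Y.red₂ c) := Y.reds.r₀₂_α c h

theorem r₀₂_β (c : ↥Y.V₂) (h : betaK H (N0 * q) q (c : FK H (N0 * q)) ∈ Y.W₀₂) :
    Y.r₀₂ ⟨_, h⟩ = Y.red₂ c := Y.reds.r₀₂_β c h

theorem r₂₀_surjective : Function.Surjective Y.r₂₀ := Y.reds.surj₂₀

theorem r₁₁_surjective : Function.Surjective Y.r₁₁ := Y.reds.surj₁₁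

theorem r₀₂_surjective : Function.Surjective Y.r₀₂ := Y.reds.surj₀₂

theorem r₂₀_eq_zero_iff (z : ↥Y.W₂₀) : Y.r₂₀ z = 0 ↔ (z : FK H (N0 * q * q)) ∈ Y.W₂₀.nonunits :=
  eq_zero_iff_of_surjective _ _ Y.r₂₀_surjective z

theorem r₁₁_eq_zero_iff (z : ↥Y.W₁₁) : Y.r₁₁ z = 0 ↔ (z : FK H (N0 * q * q)) ∈ Y.W₁₁.nonunits :=
  eq_zero_iff_of_surjective _ _ Y.r₁₁_surjective z

theorem r₀₂_eq_zero_iff (z : ↥Y.W₀₂) : Y.r₀₂ z = 0 ↔ (z : FK H (N0 * q * q)) ∈ Y.W₀₂.nonunits :=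
  eq_zero_iff_of_surjective _ _ Y.r₀₂_surjective z

/-- the three valuation rings are principal ideal rings, pairwise different, `≠ ⊤` -/
theorem isPrincipalIdealRing_W₂₀ : IsPrincipalIdealRing ↥Y.W₂₀ :=
  ThreeValInputs.isPrincipalIdealRing_W₂₀ Y.setup

theorem isPrincipalIdealRing_W₁₁ : IsPrincipalIdealRing ↥Y.W₁₁ :=
  ThreeValInputs.isPrincipalIdealRing_W₁₁ Y.setup

theorem isPrincipalIdealRing_W₀₂ : IsPrincipalIdealRing ↥Y.W₀₂ :=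
  ThreeValInputs.isPrincipalIdealRing_W₀₂ Y.setup

theorem W₂₀_ne_W₁₁ : Y.W₂₀ ≠ Y.W₁₁ := Y.setup.W₂₀_ne_W₁₁

theorem W₂₀_ne_W₀₂ : Y.W₂₀ ≠ Y.W₀₂ := Y.setup.W₂₀_ne_W₀₂

theorem W₁₁_ne_W₀₂ : Y.W₁₁ ≠ Y.W₀₂ := Y.setup.W₁₁_ne_W₀₂

/-- `j₂ - j₀` lies in the maximal ideal of the thick place -/
theorem val_W₁₁_sub : Y.W₁₁.valuation (j0K H (N0 * q * q) - j2K H N0 q) < 1 := by
  have h := Y.setup.val_sub_W₁₁
  have e1 : alphaK H (N0 * q) q Y.setup.x = j0K H (N0 * q * q) := alphaK_j0K' H N0 q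
  have e2 : betaK H (N0 * q) q Y.setup.y = j2K H N0 q := rfl
  rw [e1, e2] at h
  exact h

end Hyp

end Fermat.Agent.S36.ThreeValX0
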