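/-
S36 (project V), slice V-GlueNormX0 (helper8), chain (V6), `X₀`-INSTANTIATION OF `GlueNorm.Datum`,
hypotheses first.

Level `q M` over `ℚ̄` comes from project U (`GlueLevelQ`, `NodesFrStable`, `RegOfPoles`); level
`q² M` over `K = ℚ̄^H` comes from `ThreeValX0.Hyp` (helper21).  The two halves are linked by
equations (`GlueThreeValEq.datumEq`), which are `rfl` for the canonical filling
(`V_i := ThetaK0.V1K / V2K`, `red_i := red1K / red2K`, `φ := FrobK.phi`).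

* `levelQ hgen Y hFr` : the level-`q` half with `V₁ V₂ red₁ red₂` LITERALLY those of
  `S34/GaussPairX0` (so that `V_i.comap tB = ThetaK0.V1K / V2K` by `rfl`);
* `Link Hs hA hqM Z` : the four equations between `Z : ThreeValX0.Hyp Hs M q κ` and project U;
* `datumX0 hgen Y hFr Z lk : GlueNorm.Datum k κ (E (M q)) (F_K(M q²)) (Place k κ)`;
* `hS`, `hr`, `hrsurj` : the fields of the same names of `NewInertiaDatum.Input`;
* `r_const` / `hπ` : the three reductions on the constants of `A ∩ K` (field `hπ`);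
* `reg₁`, `reg₂` : the fields `hR₁ hR₂` of `NewInertiaDatum.Input` from: (a) `tB ∘ N_K = N_ℚ̄ ∘ tB`
  (`hN₁ hN₂`, helper19's `NormK0`), (b) at every pole of `f ^ (q - 1) * t₀ ^ n` (over `ℚ̄`) the
  function `j(τ)` has an `A`-integral value whose residue is not one of the finitely many bad
  values (`RegOfPoles.regX0_of_jvalues_alpha/beta`; this is what (SD3) delivers for a `t₀`
  generating `O((q-1) D)` at the closed points over the bad values and at the cusps).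
-/
import Fermat.Agent.S36.GlueThreeValEq
import Fermat.Agent.S36.ThreeValX0
import Fermat.Agent.S36.ThetaK0
import Fermat.Agent.S36.NodesFrStable
import Fermat.Agent.S36.RegOfPoles
import Fermat.Agent.S36.NewInertiaDatum
import Fermat.Agent.S36.ChartX0

set_option autoImplicit false
set_option linter.unusedSectionVars false
set_option linter.style.haveILetI false
set_option linter.unusedVariables false
set_option synthInstance.maxHeartbeats 400000

noncomputable section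

namespace Fermat.Agent.S36.GlueNormX0

open ModularCurve AlgebraicCurve IsLocalRing
open Fermat.Agent.S34.NodalDefs
open Fermat.Agent.S37.Deuring.Core Fermat.Agent.S37.Gauss.Datum
open Fermat.Agent.S34.CoreZX0Assembly Fermat.Agent.S34.CoreZX0Build
open Fermat.Agent.S34.CoreZX0OfGeneric Fermat.Agent.S34.GaussPairX0
open Fermat.Agent.S36.GlueNorm Fermat.Agent.S36.GlueLevelQ Fermat.Agent.S36.GlueThreeValEq
open Fermat.Agent.S36.PowerBasisK0 (FK tB alphaK betaK)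
open Fermat.Agent.S36.ThetaK0 (V1K V2K red1K red2K)
open Fermat.Agent.S24.DegreeAlg Fermat.Agent.S18.A.Instances
open Fermat.Agent.S37.Hecke.Integral Fermat.Agent.S35.LevelMaps
open Fermat.Agent.S35.DegeneracyHecke

local notation "Kb" => AlgebraicClosure ℚ

attribute [local instance 2000] Fermat.Agent.S34.EulerX0.algResFk

/-- shortcut instances (all propositions) -/
local instance instPDBarG (N : ℕ) [NeZero N] :
    HasPrincipalDivisors Kb ↥(modularFunctionFieldBar N) :=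
  Fermat.Agent.S18.A.Instances.hasPrincipalDivisors_bar N

local instance instPDFkG (A : ValuationSubring Kb) (N : ℕ) [NeZero N] :
    HasPrincipalDivisors (ResidueField ↥A) ↥(modularFunctionFieldFullC (ResidueField ↥A) N) :=
  Fermat.Agent.S37.ReductionInputs.hasPrincipalDivisors_Fk A N

local instance instACkG (A : ValuationSubring Kb) : IsAlgClosed (ResidueField ↥A) :=
  Fermat.Agent.S18.ResidueBasics.isAlgClosed_residueField A

local instance instInfkG (A : ValuationSubring Kb) : Infinite (ResidueField ↥A) :=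
  Fermat.Agent.S37.ReductionInputs.infinite_residueField A

local instance instNeZeroMulG (M q : ℕ) [NeZero M] [NeZero q] : NeZero (M * q) :=
  ⟨Nat.mul_ne_zero (NeZero.ne M) (NeZero.ne q)⟩

variable {q : ℕ} [hq : Fact q.Prime] {M : ℕ} [NeZero M] {A : ValuationSubring Kb} [NeZero q]
variable {hA : A.LiesOverPrime q} {hqM : ¬ q ∣ M}
variable {gL gk : ℕ} {HG : Hyp (gaussDatum M A hA hqM) gL gk}
variable [CharP (ResidueField ↥A) q]

/-! ### the level-`q` half on the objects of `S34/GaussPairX0` -/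

section LevelQ

variable (hgen : GenericX0 hA hqM HG) (Y : NodesC (inputsX0 hgen))
  (hFr : ∀ b ∈ Y.S, Fermat.Agent.S34.FrobK.Fr (ResidueField ↥A) M q
    (Fermat.Agent.S34.FrobK.Fr (ResidueField ↥A) M q b) = b)

/-- **the level-`q` half of `GlueNorm.Datum` at `E = ℚ̄(X₀(M q))`**, for the canonical inputs, with
`V₁ V₂ red₁ red₂` literally those of `S34/GaussPairX0`. -/
def levelQ : LevelQ (ResidueField ↥A) ↥(modularFunctionFieldFullC (ResidueField ↥A) M)
    ↥(modularFunctionFieldBar (M * q))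
    (Place (ResidueField ↥A) ↥(modularFunctionFieldFullC (ResidueField ↥A) M)) where
  E := valSystemPlace _ _
  V₁ := V₁ hA hqM
  V₂ := V₂ hA hqM
  red₁ := red₁ hA hqM
  red₂ := red₂ hA hqM
  φ := (Fermat.Agent.S34.FrobK.phi (ResidueField ↥A) M q : _ →ₐ[ResidueField ↥A] _)
  fr := Fermat.Agent.S34.FrobK.Fr (ResidueField ↥A) M q
  S := {b | b ∈ Y.S}
  Reg := RegX0 (inputsX0 hgen) Y
  fr_fr := hFr
  val_fr := hasValue_phi
  glue w m₁ m₂ hw b hb := by
    have m₂' : w ∈ (R2 (inputsX0 hgen)).O := by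
      rw [R2_inputsX0_O]
      exact m₂
    obtain ⟨γ, h1, h2⟩ := (levelQX0 (inputsX0 hgen) Y hFr).glue w m₁ m₂' hw b hb
    refine ⟨γ, h1, ?_⟩
    rw [← R2_inputsX0_red hgen w m₂' m₂]
    exact h2

@[simp] theorem levelQ_V₁ : (levelQ hgen Y hFr).V₁ = V₁ hA hqM := rfl
@[simp] theorem levelQ_V₂ : (levelQ hgen Y hFr).V₂ = V₂ hA hqM := rfl
@[simp] theorem levelQ_red₁ : (levelQ hgen Y hFr).red₁ = red₁ hA hqM := rfl
@[simp] theorem levelQ_red₂ : (levelQ hgen Y hFr).red₂ = red₂ hA hqM := rfl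
@[simp] theorem levelQ_S : (levelQ hgen Y hFr).S = {b | b ∈ Y.S} := rfl
@[simp] theorem levelQ_fr :
    (levelQ hgen Y hFr).fr = Fermat.Agent.S34.FrobK.Fr (ResidueField ↥A) M q := rfl
@[simp] theorem levelQ_Reg : (levelQ hgen Y hFr).Reg = RegX0 (inputsX0 hgen) Y := rfl
@[simp] theorem levelQ_E : (levelQ hgen Y hFr).E = valSystemPlace _ _ := rfl

end LevelQ

/-! ### the link with the three valuation rings over `K = ℚ̄^H` -/

section Datum

open Fermat.Agent.S36.ThreeVal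

variable (Hs : Subgroup (Kb ≃ₐ[ℚ] Kb))

/-- **the four equations linking `Z : ThreeValX0.Hyp Hs M q κ` with project U** (all `rfl` for the
canonical filling `V_i := V1K / V2K`, `red_i := red1K / red2K`, `φ := FrobK.phi`). -/
structure Link (hA : A.LiesOverPrime q) (hqM : ¬ q ∣ M)
    (Z : ThreeValX0.Hyp Hs M q ↥(modularFunctionFieldFullC (ResidueField ↥A) M)) : Prop where
  hV₁ : Z.V₁ = V1K Hs hA hqM
  hV₂ : Z.V₂ = V2K Hs hA hqM
  h₁ : ∀ (x : FK Hs (M * q)) (h : x ∈ Z.V₁) (h' : tB Hs (M * q) x ∈ V₁ hA hqM),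
    Z.red₁ ⟨x, h⟩ = red₁ hA hqM ⟨tB Hs (M * q) x, h'⟩
  h₂ : ∀ (x : FK Hs (M * q)) (h : x ∈ Z.V₂) (h' : tB Hs (M * q) x ∈ V₂ hA hqM),
    Z.red₂ ⟨x, h⟩ = red₂ hA hqM ⟨tB Hs (M * q) x, h'⟩
  hφ : Z.φ = ((Fermat.Agent.S34.FrobK.phi (ResidueField ↥A) M q :
    _ →ₐ[ResidueField ↥A] _) : _ →+* _)

variable {Hs}
variable (hgen : GenericX0 hA hqM HG) (Y : NodesC (inputsX0 hgen))
  (hFr : ∀ b ∈ Y.S, Fermat.Agent.S34.FrobK.Fr (ResidueField ↥A) M q
    (Fermat.Agent.S34.FrobK.Fr (ResidueField ↥A) M q b) = b)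
  (Z : ThreeValX0.Hyp Hs M q ↥(modularFunctionFieldFullC (ResidueField ↥A) M))
  (lk : Link Hs hA hqM Z)

/-- **`GlueNorm.Datum` at `X₀`**: level `q M` over `ℚ̄` from project U, level `q² M` over
`K = ℚ̄^H` from `ThreeValX0.Hyp`. -/
def datumX0 : Datum (ResidueField ↥A) ↥(modularFunctionFieldFullC (ResidueField ↥A) M)
    ↥(modularFunctionFieldBar (M * q)) (FK Hs (M * q * q))
    (Place (ResidueField ↥A) ↥(modularFunctionFieldFullC (ResidueField ↥A) M)) :=
  haveI : CharP ↥(modularFunctionFieldFullC (ResidueField ↥A) M) Z.setup.q := Z.charκ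
  datumEq (levelQ hgen Y hFr) (tB Hs (M * q)) Z.setup Z.reds Z.num lk.hV₁ lk.hV₂ lk.h₁ lk.h₂ lk.hφ

@[simp] theorem datumX0_W₂₀ : (datumX0 hgen Y hFr Z lk).W₂₀ = Z.W₂₀ := rfl
@[simp] theorem datumX0_W₁₁ : (datumX0 hgen Y hFr Z lk).W₁₁ = Z.W₁₁ := rfl
@[simp] theorem datumX0_W₀₂ : (datumX0 hgen Y hFr Z lk).W₀₂ = Z.W₀₂ := rfl
@[simp] theorem datumX0_r₂₀ : (datumX0 hgen Y hFr Z lk).r₂₀ = Z.r₂₀ := rfl
@[simp] theorem datumX0_r₁₁ : (datumX0 hgen Y hFr Z lk).r₁₁ = Z.r₁₁ := rfl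
@[simp] theorem datumX0_r₀₂ : (datumX0 hgen Y hFr Z lk).r₀₂ = Z.r₀₂ := rfl
@[simp] theorem datumX0_V₁ : (datumX0 hgen Y hFr Z lk).V₁ = V₁ hA hqM := rfl
@[simp] theorem datumX0_V₂ : (datumX0 hgen Y hFr Z lk).V₂ = V₂ hA hqM := rfl
@[simp] theorem datumX0_red₁ : (datumX0 hgen Y hFr Z lk).red₁ = red₁ hA hqM := rfl
@[simp] theorem datumX0_red₂ : (datumX0 hgen Y hFr Z lk).red₂ = red₂ hA hqM := rfl
@[simp] theorem datumX0_q : (datumX0 hgen Y hFr Z lk).q = q := rfl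
@[simp] theorem datumX0_E : (datumX0 hgen Y hFr Z lk).E = valSystemPlace _ _ := rfl
@[simp] theorem datumX0_S : (datumX0 hgen Y hFr Z lk).S = {b | b ∈ Y.S} := rfl
@[simp] theorem datumX0_fr :
    (datumX0 hgen Y hFr Z lk).fr = Fermat.Agent.S34.FrobK.Fr (ResidueField ↥A) M q := rfl
@[simp] theorem datumX0_Reg : (datumX0 hgen Y hFr Z lk).Reg = RegX0 (inputsX0 hgen) Y := rfl
@[simp] theorem datumX0_φ : (datumX0 hgen Y hFr Z lk).φ
    = ((Fermat.Agent.S34.FrobK.phi (ResidueField ↥A) M q : _ →ₐ[ResidueField ↥A] _) : _ →+* _) :=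
  rfl

@[simp] theorem datumX0_N₁ (y : FK Hs (M * q * q)) :
    (datumX0 hgen Y hFr Z lk).N₁ y = tB Hs (M * q) (normAlong (alphaK Hs (M * q) q) y) := rfl

@[simp] theorem datumX0_N₂ (y : FK Hs (M * q * q)) :
    (datumX0 hgen Y hFr Z lk).N₂ y = tB Hs (M * q) (normAlong (betaK Hs (M * q) q) y) := rfl

end Datum

/-! ### the global fields of `NewInertiaDatum.Input` -/

section Input

open Fermat.Agent.S36.ThreeVal Fermat.Agent.S36.NewInertiaDatum

variable {Hs : Subgroup (Kb ≃ₐ[ℚ] Kb)}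
variable (hgen : GenericX0 hA hqM HG) (Y : NodesC (inputsX0 hgen))
  (hFr : ∀ b ∈ Y.S, Fermat.Agent.S34.FrobK.Fr (ResidueField ↥A) M q
    (Fermat.Agent.S34.FrobK.Fr (ResidueField ↥A) M q b) = b)
  (Z : ThreeValX0.Hyp Hs M q ↥(modularFunctionFieldFullC (ResidueField ↥A) M))
  (lk : Link Hs hA hqM Z)

/-- field `hS` of `NewInertiaDatum.Input`: the node set is stable under `fr` -/
theorem hS (hst : ∀ b ∈ Y.S, Fermat.Agent.S34.FrobK.Fr (ResidueField ↥A) M q b ∈ Y.S) :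
    ∀ b ∈ (datumX0 hgen Y hFr Z lk).S, (datumX0 hgen Y hFr Z lk).fr b ∈ (datumX0 hgen Y hFr Z lk).S :=
  fun b hb => hst b hb

/-- field `hr` of `NewInertiaDatum.Input`: the kernels of the three reductions -/
theorem hr (w : Comp) (x : ↥(Wof (datumX0 hgen Y hFr Z lk) w)) :
    rof (datumX0 hgen Y hFr Z lk) w x = 0 ↔
      (Wof (datumX0 hgen Y hFr Z lk) w).valuation (x : FK Hs (M * q * q)) < 1 := by
  cases w
  · exact GlueThreeValEq.r₂₀_eq_zero_iff Z.setup Z.reds x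
  · exact GlueThreeValEq.r₁₁_eq_zero_iff Z.setup Z.reds x
  · exact GlueThreeValEq.r₀₂_eq_zero_iff Z.setup Z.reds x

/-- field `hrsurj` of `NewInertiaDatum.Input` -/
theorem hrsurj (w : Comp) : Function.Surjective (rof (datumX0 hgen Y hFr Z lk) w) := by
  cases w
  · exact Z.r₂₀_surjective
  · exact Z.r₁₁_surjective
  · exact Z.r₀₂_surjective

end Input

/-! ### the three reductions on the constants (field `hπ` of `NewInertiaDatum.Input`) -/

section Const

open Fermat.Agent.S36.ThreeVal Fermat.Agent.S36.NewInertiaDatum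

variable {Hs : Subgroup (Kb ≃ₐ[ℚ] Kb)}
variable (hgen : GenericX0 hA hqM HG) (Y : NodesC (inputsX0 hgen))
  (hFr : ∀ b ∈ Y.S, Fermat.Agent.S34.FrobK.Fr (ResidueField ↥A) M q
    (Fermat.Agent.S34.FrobK.Fr (ResidueField ↥A) M q b) = b)
  (Z : ThreeValX0.Hyp Hs M q ↥(modularFunctionFieldFullC (ResidueField ↥A) M))
  (lk : Link Hs hA hqM Z)

/-- `tB` of a constant -/
theorem tB_const (N : ℕ) (c : ↥(IntermediateField.fixedField Hs)) :
    tB Hs N (algebraMap ↥(IntermediateField.fixedField Hs) (FK Hs N) c)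
      = algebraMap Kb ↥(modularFunctionFieldBar N) (c : Kb) :=
  Fermat.Agent.S36.K0Fixed.toBar_algebraMap _ _ c

/-- the level maps fix the constants -/
theorem alphaK_const (N ℓ : ℕ) [NeZero N] [NeZero ℓ] (c : ↥(IntermediateField.fixedField Hs)) :
    alphaK Hs N ℓ (algebraMap ↥(IntermediateField.fixedField Hs) (FK Hs N) c)
      = algebraMap ↥(IntermediateField.fixedField Hs) (FK Hs (N * ℓ)) c :=
  (heckeAlphaBar (↥(IntermediateField.fixedField Hs)) N ℓ).commutes c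

theorem betaK_const (N ℓ : ℕ) [NeZero N] [NeZero ℓ] (c : ↥(IntermediateField.fixedField Hs)) :
    betaK Hs N ℓ (algebraMap ↥(IntermediateField.fixedField Hs) (FK Hs N) c)
      = algebraMap ↥(IntermediateField.fixedField Hs) (FK Hs (N * ℓ)) c :=
  (heckeBetaBar (↥(IntermediateField.fixedField Hs)) N ℓ).commutes c

include lk in
/-- `A`-integral constants of `K` lie in `V₁` (over `K`) -/
theorem const_mem_V₁ (c : ↥(IntermediateField.fixedField Hs)) (hc : (c : Kb) ∈ A) :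
    algebraMap ↥(IntermediateField.fixedField Hs) (FK Hs (M * q)) c ∈ Z.V₁ := by
  rw [lk.hV₁, ValuationSubring.mem_comap, tB_const]
  exact (gaussDatum₁ hA hqM).algebraMap_mem ⟨(c : Kb), hc⟩

include lk in
/-- `A`-integral constants of `K` lie in `V₂` (over `K`) -/
theorem const_mem_V₂ (c : ↥(IntermediateField.fixedField Hs)) (hc : (c : Kb) ∈ A) :
    algebraMap ↥(IntermediateField.fixedField Hs) (FK Hs (M * q)) c ∈ Z.V₂ := by
  rw [lk.hV₂, ValuationSubring.mem_comap, tB_const, mem_V₂_iff, AlgEquiv.commutes]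
  exact (gaussDatum₁ hA hqM).algebraMap_mem ⟨(c : Kb), hc⟩

include lk in
theorem red₁_const (c : ↥(IntermediateField.fixedField Hs)) (hc : (c : Kb) ∈ A) :
    Z.red₁ ⟨_, const_mem_V₁ Z lk c hc⟩ =
      algebraMap (ResidueField ↥A) ↥(modularFunctionFieldFullC (ResidueField ↥A) M)
        (residue ↥A ⟨(c : Kb), hc⟩) := by
  have hm : tB Hs (M * q) (algebraMap ↥(IntermediateField.fixedField Hs) (FK Hs (M * q)) c)
      ∈ V₁ hA hqM := by
    rw [tB_const]
    exact (gaussDatum₁ hA hqM).algebraMap_mem ⟨(c : Kb), hc⟩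
  rw [lk.h₁ _ _ hm, ← red₁_algebraMap hA hqM ⟨(c : Kb), hc⟩]
  congr 1
  exact Subtype.ext (tB_const (M * q) c)

include lk in
theorem red₂_const (c : ↥(IntermediateField.fixedField Hs)) (hc : (c : Kb) ∈ A) :
    Z.red₂ ⟨_, const_mem_V₂ Z lk c hc⟩ =
      algebraMap (ResidueField ↥A) ↥(modularFunctionFieldFullC (ResidueField ↥A) M)
        (residue ↥A ⟨(c : Kb), hc⟩) := by
  have hm : tB Hs (M * q) (algebraMap ↥(IntermediateField.fixedField Hs) (FK Hs (M * q)) c)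
      ∈ V₂ hA hqM := by
    rw [tB_const]
    exact algebraMap_mem_V₂ hA hqM ⟨(c : Kb), hc⟩
  rw [lk.h₂ _ _ hm, ← red₂_algebraMap hA hqM ⟨(c : Kb), hc⟩]
  congr 1
  exact Subtype.ext (tB_const (M * q) c)

include lk in
/-- **the reduction `r₂₀` on the constants** -/
theorem r₂₀_const (c : ↥(IntermediateField.fixedField Hs)) (hc : (c : Kb) ∈ A)
    (m : algebraMap ↥(IntermediateField.fixedField Hs) (FK Hs (M * q * q)) c ∈ Z.W₂₀) :
    Z.r₂₀ ⟨_, m⟩ =
      algebraMap (ResidueField ↥A) ↥(modularFunctionFieldFullC (ResidueField ↥A) M)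
        (residue ↥A ⟨(c : Kb), hc⟩) := by
  have e : algebraMap ↥(IntermediateField.fixedField Hs) (FK Hs (M * q * q)) c
      = alphaK Hs (M * q) q (algebraMap ↥(IntermediateField.fixedField Hs) (FK Hs (M * q)) c) :=
    (alphaK_const (M * q) q c).symm
  have m' : alphaK Hs (M * q) q
      (algebraMap ↥(IntermediateField.fixedField Hs) (FK Hs (M * q)) c) ∈ Z.W₂₀ := e ▸ m
  have h1 : Z.r₂₀ ⟨_, m⟩ = Z.r₂₀ ⟨_, m'⟩ := congrArg Z.r₂₀ (Subtype.ext e)
  rw [h1, Z.r₂₀_α ⟨_, const_mem_V₁ Z lk c hc⟩ m', red₁_const Z lk c hc]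

include lk in
/-- **the reduction `r₁₁` on the constants** -/
theorem r₁₁_const (c : ↥(IntermediateField.fixedField Hs)) (hc : (c : Kb) ∈ A)
    (m : algebraMap ↥(IntermediateField.fixedField Hs) (FK Hs (M * q * q)) c ∈ Z.W₁₁) :
    Z.r₁₁ ⟨_, m⟩ =
      algebraMap (ResidueField ↥A) ↥(modularFunctionFieldFullC (ResidueField ↥A) M)
        (residue ↥A ⟨(c : Kb), hc⟩) := by
  have e : algebraMap ↥(IntermediateField.fixedField Hs) (FK Hs (M * q * q)) c
      = alphaK Hs (M * q) q (algebraMap ↥(IntermediateField.fixedField Hs) (FK Hs (M * q)) c) :=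
    (alphaK_const (M * q) q c).symm
  have m' : alphaK Hs (M * q) q
      (algebraMap ↥(IntermediateField.fixedField Hs) (FK Hs (M * q)) c) ∈ Z.W₁₁ := e ▸ m
  have h1 : Z.r₁₁ ⟨_, m⟩ = Z.r₁₁ ⟨_, m'⟩ := congrArg Z.r₁₁ (Subtype.ext e)
  rw [h1, Z.r₁₁_α ⟨_, const_mem_V₁ Z lk c hc⟩ m', red₁_const Z lk c hc]

include lk in
/-- **the reduction `r₀₂` on the constants** -/
theorem r₀₂_const (c : ↥(IntermediateField.fixedField Hs)) (hc : (c : Kb) ∈ A)
    (m : algebraMap ↥(IntermediateField.fixedField Hs) (FK Hs (M * q * q)) c ∈ Z.W₀₂) :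
    Z.r₀₂ ⟨_, m⟩ =
      algebraMap (ResidueField ↥A) ↥(modularFunctionFieldFullC (ResidueField ↥A) M)
        (residue ↥A ⟨(c : Kb), hc⟩) := by
  have e : algebraMap ↥(IntermediateField.fixedField Hs) (FK Hs (M * q * q)) c
      = betaK Hs (M * q) q (algebraMap ↥(IntermediateField.fixedField Hs) (FK Hs (M * q)) c) :=
    (betaK_const (M * q) q c).symm
  have m' : betaK Hs (M * q) q
      (algebraMap ↥(IntermediateField.fixedField Hs) (FK Hs (M * q)) c) ∈ Z.W₀₂ := e ▸ m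
  have h1 : Z.r₀₂ ⟨_, m⟩ = Z.r₀₂ ⟨_, m'⟩ := congrArg Z.r₀₂ (Subtype.ext e)
  rw [h1, Z.r₀₂_β ⟨_, const_mem_V₂ Z lk c hc⟩ m', red₂_const Z lk c hc]

/-- **field `hπ` of `NewInertiaDatum.Input`, on the constants of `A ∩ K`** (`Comp`-indexed) -/
theorem rof_const (w : Comp) (c : ↥(IntermediateField.fixedField Hs)) (hc : (c : Kb) ∈ A)
    (m : algebraMap ↥(IntermediateField.fixedField Hs) (FK Hs (M * q * q)) c
      ∈ Wof (datumX0 hgen Y hFr Z lk) w) :
    rof (datumX0 hgen Y hFr Z lk) w ⟨_, m⟩ =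
      algebraMap (ResidueField ↥A) ↥(modularFunctionFieldFullC (ResidueField ↥A) M)
        (residue ↥A ⟨(c : Kb), hc⟩) := by
  cases w
  · exact r₂₀_const Z lk c hc m
  · exact r₁₁_const Z lk c hc m
  · exact r₀₂_const Z lk c hc m

/-- `A`-integral constants of `K` lie in the three rings -/
theorem const_mem_Wof (w : Comp) (c : ↥(IntermediateField.fixedField Hs)) (hc : (c : Kb) ∈ A) :
    algebraMap ↥(IntermediateField.fixedField Hs) (FK Hs (M * q * q)) c
      ∈ Wof (datumX0 hgen Y hFr Z lk) w := by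
  cases w
  · show _ ∈ Z.W₂₀
    rw [← alphaK_const (M * q) q c]
    exact GlueThreeValEq.alpha_mem_W₂₀ Z.setup Z.reds (const_mem_V₁ Z lk c hc)
  · show _ ∈ Z.W₁₁
    rw [← alphaK_const (M * q) q c]
    exact GlueThreeValEq.alpha_mem_W₁₁ Z.setup Z.reds (const_mem_V₁ Z lk c hc)
  · show _ ∈ Z.W₀₂
    rw [← betaK_const (M * q) q c]
    exact GlueThreeValEq.beta_mem_W₀₂ Z.setup Z.reds (const_mem_V₂ Z lk c hc)

end Const

/-! ### the regularity fields `hR₁`, `hR₂` of `NewInertiaDatum.Input` -/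

section Reg

open Fermat.Agent.S36.ThreeVal Fermat.Agent.S36.RegOfPoles
open Fermat.Agent.S24.DegreeAlg (jgen)
open Fermat.Agent.S34.Generic.Dich Fermat.Agent.S34.CuspRedX0 Fermat.Agent.S37.Deuring.HypX0

variable {Hs : Subgroup (Kb ≃ₐ[ℚ] Kb)}
variable (hgen : GenericX0 hA hqM HG) (Y : NodesC (inputsX0 hgen))
  (hFr : ∀ b ∈ Y.S, Fermat.Agent.S34.FrobK.Fr (ResidueField ↥A) M q
    (Fermat.Agent.S34.FrobK.Fr (ResidueField ↥A) M q b) = b)
  (Z : ThreeValX0.Hyp Hs M q ↥(modularFunctionFieldFullC (ResidueField ↥A) M))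
  (lk : Link Hs hA hqM Z)

/-- **field `hR₁` of `NewInertiaDatum.Input`**: `Reg (g₁ ^ (q - 1) * N₁ t₀)`, from the
compatibility of the `K`-norm with the `ℚ̄`-norm and the `j`-value criterion at the poles of
`f ^ (q - 1) * t₀ ^ n`. -/
theorem reg₁ {n : ℕ} (hn : n ≠ 0) (Ku : (datumX0 hgen Y hFr Z lk).Kummer n)
    (t₀ : FK Hs (M * q * q))
    (hN₁ : ∀ y : FK Hs (M * q * q), tB Hs (M * q) (normAlong (alphaK Hs (M * q) q) y)
      = Fermat.Agent.S35.PushKummer.normAlong (heckeAlphaBar Kb (M * q) q)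
          (tB Hs (M * q * q) y))
    (h : ∀ P' : Place Kb (E (M * q * q)),
      P'.ord (tB Hs (M * q * q) (Ku.f ^ (q - 1) * t₀ ^ n)) < 0 → ∃ c : ↥A,
        HasVal P' (heckeAlphaBar Kb (M * q) q (heckeAlphaBar Kb M q (jgen M))) (c : Kb) ∧
          residue ↥A c ∉ badValues (inputsX0 hgen)) :
    (datumX0 hgen Y hFr Z lk).Reg
      (Ku.g₁ ^ ((datumX0 hgen Y hFr Z lk).q - 1) * (datumX0 hgen Y hFr Z lk).N₁ t₀) := by
  show RegX0 (inputsX0 hgen) Y
    (Ku.g₁ ^ (q - 1) * tB Hs (M * q) (normAlong (alphaK Hs (M * q) q) t₀))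
  refine regX0_of_jvalues_alpha (inputsX0 hgen) Y hn ?_ h
  have hK : tB Hs (M * q) (normAlong (alphaK Hs (M * q) q) Ku.f) = Ku.g₁ ^ n := Ku.norm₁
  rw [← hN₁, map_mul, map_pow, map_pow, map_mul, map_pow, map_pow, hK, mul_pow, ← pow_mul,
    ← pow_mul, mul_comm (q - 1) n]

/-- **field `hR₂` of `NewInertiaDatum.Input`**: `Reg (g₂ ^ (q - 1) * N₂ t₀)`. -/
theorem reg₂ {n : ℕ} (hn : n ≠ 0) (Ku : (datumX0 hgen Y hFr Z lk).Kummer n)
    (t₀ : FK Hs (M * q * q))
    (hN₂ : ∀ y : FK Hs (M * q * q), tB Hs (M * q) (normAlong (betaK Hs (M * q) q) y)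
      = Fermat.Agent.S35.PushKummer.normAlong (heckeBetaBar Kb (M * q) q)
          (tB Hs (M * q * q) y))
    (h : ∀ P' : Place Kb (E (M * q * q)),
      P'.ord (tB Hs (M * q * q) (Ku.f ^ (q - 1) * t₀ ^ n)) < 0 → ∃ c : ↥A,
        HasVal P' (heckeAlphaBar Kb (M * q) q (heckeAlphaBar Kb M q (jgen M))) (c : Kb) ∧
          residue ↥A c ∉ badValues (inputsX0 hgen)) :
    (datumX0 hgen Y hFr Z lk).Reg
      (Ku.g₂ ^ ((datumX0 hgen Y hFr Z lk).q - 1) * (datumX0 hgen Y hFr Z lk).N₂ t₀) := by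
  show RegX0 (inputsX0 hgen) Y
    (Ku.g₂ ^ (q - 1) * tB Hs (M * q) (normAlong (betaK Hs (M * q) q) t₀))
  refine regX0_of_jvalues_beta (inputsX0 hgen) Y hn ?_ h
  have hK : tB Hs (M * q) (normAlong (betaK Hs (M * q) q) Ku.f) = Ku.g₂ ^ n := Ku.norm₂
  rw [← hN₂, map_mul, map_pow, map_pow, map_mul, map_pow, map_pow, hK, mul_pow, ← pow_mul,
    ← pow_mul, mul_comm (q - 1) n]

end Reg

/-! ### the Kummer datum -/

section Kummer

open Fermat.Agent.S36.ThreeVal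

variable {Hs : Subgroup (Kb ≃ₐ[ℚ] Kb)}
variable (hgen : GenericX0 hA hqM HG) (Y : NodesC (inputsX0 hgen))
  (hFr : ∀ b ∈ Y.S, Fermat.Agent.S34.FrobK.Fr (ResidueField ↥A) M q
    (Fermat.Agent.S34.FrobK.Fr (ResidueField ↥A) M q b) = b)
  (Z : ThreeValX0.Hyp Hs M q ↥(modularFunctionFieldFullC (ResidueField ↥A) M))
  (lk : Link Hs hA hqM Z)

/-- **the Kummer datum at `X₀`**: `f` a unit at the three `W`, `N_α f = c₁ g₁ ^ n`,
`N_β f = c₂ g₂ ^ n` over `K`, and `n`-th roots `d_i` of `tB c_i` over `ℚ̄`. -/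
def kummerX0 {n : ℕ} (f : FK Hs (M * q * q)) (u₂₀ : Z.W₂₀.valuation f = 1)
    (u₁₁ : Z.W₁₁.valuation f = 1) (u₀₂ : Z.W₀₂.valuation f = 1) (c₁ c₂ g₁ g₂ : FK Hs (M * q))
    (hN₁ : normAlong (alphaK Hs (M * q) q) f = c₁ * g₁ ^ n)
    (hN₂ : normAlong (betaK Hs (M * q) q) f = c₂ * g₂ ^ n) (d₁ d₂ : E (M * q))
    (hd₁ : d₁ ^ n = tB Hs (M * q) c₁) (hd₂ : d₂ ^ n = tB Hs (M * q) c₂) :
    (datumX0 hgen Y hFr Z lk).Kummer n :=
  haveI : CharP ↥(modularFunctionFieldFullC (ResidueField ↥A) M) Z.setup.q := Z.charκ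
  kummerEq (levelQ hgen Y hFr) (tB Hs (M * q)) Z.setup Z.reds Z.num lk.hV₁ lk.hV₂ lk.h₁ lk.h₂ lk.hφ
    f u₂₀ u₁₁ u₀₂ c₁ c₂ g₁ g₂ hN₁ hN₂ d₁ d₂ hd₁ hd₂

/-- **the Kummer datum at `X₀` with constants `c₁ c₂ ∈ K`** (the shape of `UnitGen.UnitKummerHyp`):
the constants are absorbed by `n`-th roots in `ℚ̄`. -/
theorem exists_kummerX0 {n : ℕ} (hn : n ≠ 0) (f : FK Hs (M * q * q))
    (u₂₀ : Z.W₂₀.valuation f = 1) (u₁₁ : Z.W₁₁.valuation f = 1) (u₀₂ : Z.W₀₂.valuation f = 1)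
    (c₁ c₂ : ↥(IntermediateField.fixedField Hs)) (g₁ g₂ : FK Hs (M * q))
    (hN₁ : normAlong (alphaK Hs (M * q) q) f
      = algebraMap ↥(IntermediateField.fixedField Hs) (FK Hs (M * q)) c₁ * g₁ ^ n)
    (hN₂ : normAlong (betaK Hs (M * q) q) f
      = algebraMap ↥(IntermediateField.fixedField Hs) (FK Hs (M * q)) c₂ * g₂ ^ n) :
    ∃ (Ku : (datumX0 hgen Y hFr Z lk).Kummer n) (e₁ e₂ : Kb), Ku.f = f ∧
      e₁ ^ n = (c₁ : Kb) ∧ e₂ ^ n = (c₂ : Kb) ∧
      Ku.g₁ = algebraMap Kb (E (M * q)) e₁ * tB Hs (M * q) g₁ ∧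
      Ku.g₂ = algebraMap Kb (E (M * q)) e₂ * tB Hs (M * q) g₂ := by
  obtain ⟨e₁, he₁⟩ := IsAlgClosed.exists_pow_nat_eq (c₁ : Kb) (Nat.pos_of_ne_zero hn)
  obtain ⟨e₂, he₂⟩ := IsAlgClosed.exists_pow_nat_eq (c₂ : Kb) (Nat.pos_of_ne_zero hn)
  refine ⟨kummerX0 hgen Y hFr Z lk f u₂₀ u₁₁ u₀₂ _ _ g₁ g₂ hN₁ hN₂
    (algebraMap Kb (E (M * q)) e₁) (algebraMap Kb (E (M * q)) e₂) ?_ ?_, e₁, e₂, rfl, he₁, he₂,
    rfl, rfl⟩
  · rw [← map_pow, he₁, tB_const]
  · rw [← map_pow, he₂, tB_const]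

end Kummer

/-! ### the inertia field: the field `hπ` of `NewInertiaDatum.Input` for `R0 = W A` -/

section Inertia

open Fermat.Agent.S36.NewInertiaDatum Fermat.Agent.S18.C.SmallDVR Fermat.Agent.S36.ChartX0

variable (hgen : GenericX0 hA hqM HG) (Y : NodesC (inputsX0 hgen))
  (hFr : ∀ b ∈ Y.S, Fermat.Agent.S34.FrobK.Fr (ResidueField ↥A) M q
    (Fermat.Agent.S34.FrobK.Fr (ResidueField ↥A) M q b) = b)
  (Z : ThreeValX0.Hyp (A.inertiaSubgroupIn ℚ) M q
    ↥(modularFunctionFieldFullC (ResidueField ↥A) M))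
  (lk : Link (A.inertiaSubgroupIn ℚ) hA hqM Z)

/-- **field `hπ` of `NewInertiaDatum.Input`** for `R0 = W A = A ∩ K₀` (algebra structure of
`ChartX0.algebraW`), `π = ` the residue map `W A → k`. -/
theorem hπ (w : Comp) (x : ↥(W A))
    (m : (algebraMap ↥(W A) (FK0 A (M * q * q)) x : FK0 A (M * q * q))
      ∈ Wof (datumX0 hgen Y hFr Z lk) w) :
    rof (datumX0 hgen Y hFr Z lk) w ⟨algebraMap ↥(W A) (FK0 A (M * q * q)) x, m⟩ =
      algebraMap (ResidueField ↥A) ↥(modularFunctionFieldFullC (ResidueField ↥A) M)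
        (algebraMap ↥(W A) (ResidueField ↥A) x) :=
  rof_const hgen Y hFr Z lk w (x : ↥(K0 A)) (coe_mem A x) m

/-- the constants of `W A` lie in the three rings -/
theorem algebraMap_W_mem (w : Comp) (x : ↥(W A)) :
    (algebraMap ↥(W A) (FK0 A (M * q * q)) x : FK0 A (M * q * q))
      ∈ Wof (datumX0 hgen Y hFr Z lk) w :=
  const_mem_Wof hgen Y hFr Z lk w (x : ↥(K0 A)) (coe_mem A x)

/-- field `hπsurj` of `NewInertiaDatum.Input` -/
theorem hπsurj (hA : A.LiesOverPrime q) :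
    Function.Surjective (algebraMap ↥(W A) (ResidueField ↥A)) :=
  algebraMap_W_k_surjective A hA

end Inertia

/-! ### the canonical datum: no hypothesis on the level-`q` side -/

section Canonical

open Fermat.Agent.S18.NonSpecial Fermat.Agent.S36.NewInertiaDatum

variable {Hs : Subgroup (Kb ≃ₐ[ℚ] Kb)} {gM : ℕ}
variable (hA) (hqM)
variable (HM : RiemannHyp (ResidueField ↥A) ↥(modularFunctionFieldFullC (ResidueField ↥A) M) gM)

/-- the node record of `NodesFrStable.exists_nodes_frStable` -/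
def nodesX0 : NodesC (inputsX0 (Fermat.Agent.S34.CoreZX0.genericX0 hA hqM (HX0 hA hqM HM))) :=
  (Fermat.Agent.S36.NodesFrStable.exists_nodes_frStable HM).choose

theorem nodesX0_fr_fr :
    ∀ b ∈ (nodesX0 hA hqM HM).S, Fermat.Agent.S34.FrobK.Fr (ResidueField ↥A) M q
      (Fermat.Agent.S34.FrobK.Fr (ResidueField ↥A) M q b) = b :=
  (Fermat.Agent.S36.NodesFrStable.exists_nodes_frStable HM).choose_spec.1

theorem nodesX0_off_cusps :
    ∀ b ∈ (nodesX0 hA hqM HM).S, b ∉ Fermat.Agent.S34.Euler.FrobSide.P0 (ResidueField ↥A) M :=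
  (Fermat.Agent.S36.NodesFrStable.exists_nodes_frStable HM).choose_spec.2.1

theorem nodesX0_fr_mem :
    ∀ b ∈ (nodesX0 hA hqM HM).S,
      Fermat.Agent.S34.FrobK.Fr (ResidueField ↥A) M q b ∈ (nodesX0 hA hqM HM).S :=
  (Fermat.Agent.S36.NodesFrStable.exists_nodes_frStable HM).choose_spec.2.2

variable (Z : ThreeValX0.Hyp Hs M q ↥(modularFunctionFieldFullC (ResidueField ↥A) M))
  (lk : Link Hs hA hqM Z)

/-- **the canonical `GlueNorm.Datum` at `X₀`** (`S` = the `Fr`-stable node set of project U) -/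
def datumC : Datum (ResidueField ↥A) ↥(modularFunctionFieldFullC (ResidueField ↥A) M)
    ↥(modularFunctionFieldBar (M * q)) (FK Hs (M * q * q))
    (Place (ResidueField ↥A) ↥(modularFunctionFieldFullC (ResidueField ↥A) M)) :=
  datumX0 (Fermat.Agent.S34.CoreZX0.genericX0 hA hqM (HX0 hA hqM HM)) (nodesX0 hA hqM HM)
    (nodesX0_fr_fr hA hqM HM) Z lk

/-- field `hS` of `NewInertiaDatum.Input` for the canonical datum: NO hypothesis -/
theorem datumC_hS : ∀ b ∈ (datumC hA hqM HM Z lk).S,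
    (datumC hA hqM HM Z lk).fr b ∈ (datumC hA hqM HM Z lk).S :=
  hS _ _ _ Z lk (nodesX0_fr_mem hA hqM HM)

/-- the nodes of the canonical datum are not cusps -/
theorem datumC_off_cusps : ∀ b ∈ (datumC hA hqM HM Z lk).S,
    b ∉ Fermat.Agent.S34.Euler.FrobSide.P0 (ResidueField ↥A) M :=
  nodesX0_off_cusps hA hqM HM

end Canonical

end Fermat.Agent.S36.GlueNormX0
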