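/-
PROJECT V (S36), slice V-NormK0 (helper19): **the norms along the degeneracy maps over
`K = ℚ̄^H` and their compatibility with the norms over `ℚ̄`.**

`F_K(N) = FK H N` (helper18's `F0(N)`), `tB : F_K(N) → E N` the coefficientwise embedding,
`alphaK, betaK : F_K(N) →+* F_K(N ℓ)` the degeneracy maps over `K` (`PowerBasisK0`).

* `map_norm_of_bases` (abstract): a commuting square of fields `F → F'`, `E → E'` (via `t`, `t'`)
  and an `F`-basis of `F'` whose image is an `E`-basis of `E'`  ⟹  `t (N_{F'/F} y) = N_{E'/E} (t' y)`;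
  `map_norm_of_powerBasis` : the same from a power basis of `F'/F` and a basis of powers of `E'/E`.
* `normK φK : F_K(N') →* F_K(N)` : the norm along a ring homomorphism `φK` (definitionally
  `ThreeVal.normAlong φK`), `normK_apply`.
* `tB_normK_of_basis_pow` : the compatibility `tB (normK φK y) = normAlong φ (tB y)` from a basis of
  powers of `E N'` over `E N`.
* **`tB_normK_alpha`, `tB_normK_beta`** : for a prime `ℓ ∣ N`, `ℓ² ∤ N`:
  `tB (normK (alphaK H N ℓ) y) = normAlong (heckeAlphaBar ℚ̄ N ℓ) (tB y)` and the same for `β`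
  (for `β` only `ℓ ∣ N` is needed)  — the hypotheses `hN₁`, `hN₂` of `UnitGen.ValDatum`.
* `normK_algebraMap` : `normK φK (c) = c ^ [F_K(N') : F_K(N)]` for a constant `c ∈ K`;
  **`normK_alpha_algebraMap`, `normK_beta_algebraMap`** : `= c ^ ℓ` in the situation above
  (`N₁_const`, `N₂_const` of `UnitGen.ValDatum`).
-/
import Mathlib
import Fermat.Agent.S36.PowerBasisK0
import Fermat.Agent.S36.LevelDvd
import Fermat.Agent.S35.PushKummer

set_option autoImplicit false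
set_option linter.unusedSectionVars false
set_option linter.style.haveILetI false

noncomputable section

namespace Fermat.Agent.S36.NormK0

open Polynomial ModularCurve AlgebraicCurve IntermediateField
open Fermat.Agent.S24.DegreeAlg Fermat.Agent.S35.LevelMaps Fermat.Agent.S36.K0Fixed
open Fermat.Agent.S36.PowerBasisK0 Fermat.Agent.S36.LevelDvd
open Fermat.Agent.S35.PushKummer

local notation "Kb" => AlgebraicClosure ℚ

-- speed only: these are the instances which the default search finds (after many failures)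
attribute [local instance 10000] SubalgebraClass.toAlgebra Algebra.toModule

/-! ### Generalities -/

/-- **Base change of the norm.** A commuting square of fields and a basis of `F'/F` whose image is
a basis of `E₂/E₁`: the norms correspond. -/
theorem map_norm_of_bases
    {F F' E₁ E₂ ι : Type*} [Field F] [Field F'] [Field E₁] [Field E₂] [Fintype ι] [DecidableEq ι]
    (t : F →+* E₁) (t' : F' →+* E₂) (φK : F →+* F') (φ : E₁ →+* E₂)
    (hφ : ∀ x, t' (φK x) = φ (t x))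
    (bK : letI := φK.toAlgebra; Module.Basis ι F F')
    (b : letI := φ.toAlgebra; Module.Basis ι E₁ E₂)
    (hb : ∀ i, b i = t' (bK i)) (y : F') :
    t (letI := φK.toAlgebra; Algebra.norm F y) = (letI := φ.toAlgebra; Algebra.norm E₁ (t' y)) := by
  letI aK : Algebra F F' := φK.toAlgebra
  letI aB : Algebra E₁ E₂ := φ.toAlgebra
  have hsmulB : ∀ (c : E₁) (z : E₂), c • z = φ c * z := fun c z => Algebra.smul_def c z
  have hsmulK : ∀ (c : F) (z : F'), c • z = φK c * z := fun c z => Algebra.smul_def c z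
  -- coordinates correspond
  have hrepr : ∀ (z : F') (i : ι), b.repr (t' z) i = t (bK.repr z i) := by
    intro z i
    have hz : t' z = ∑ j, t (bK.repr z j) • b j := by
      calc t' z = t' (∑ j, bK.repr z j • bK j) := by rw [bK.sum_repr]
        _ = ∑ j, t' (bK.repr z j • bK j) := map_sum _ _ _
        _ = ∑ j, t (bK.repr z j) • b j := by
            refine Finset.sum_congr rfl fun j _ => ?_
            rw [hsmulB, hsmulK, map_mul, hφ, hb]
    rw [hz, b.repr_sum_self]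
  rw [Algebra.norm_eq_matrix_det bK y, Algebra.norm_eq_matrix_det b (t' y), RingHom.map_det]
  congr 1
  ext i j
  rw [RingHom.mapMatrix_apply, Matrix.map_apply, Algebra.leftMulMatrix_eq_repr_mul,
    Algebra.leftMulMatrix_eq_repr_mul, hb, ← map_mul, hrepr]

/-- **Base change of the norm, form with bases of powers.** -/
theorem map_norm_of_basis_pow
    {F F' E₁ E₂ : Type*} [Field F] [Field F'] [Field E₁] [Field E₂]
    (t : F →+* E₁) (t' : F' →+* E₂) (φK : F →+* F') (φ : E₁ →+* E₂)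
    (hφ : ∀ x, t' (φK x) = φ (t x)) (yK : F') {n : ℕ}
    (bK : letI := φK.toAlgebra; Module.Basis (Fin n) F F') (hbK : ∀ i, bK i = yK ^ (i : ℕ))
    (b : letI := φ.toAlgebra; Module.Basis (Fin n) E₁ E₂)
    (hb : ∀ i, b i = (t' yK) ^ (i : ℕ)) (y : F') :
    t (letI := φK.toAlgebra; Algebra.norm F y) = (letI := φ.toAlgebra; Algebra.norm E₁ (t' y)) :=
  map_norm_of_bases t t' φK φ hφ bK b (fun i => by rw [hb, hbK, map_pow]) y

/-- the norm of a constant -/
theorem norm_algebraMap_of_tower {K F F' : Type*} [Field K] [Field F] [Field F'] [Algebra K F]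
    [Algebra K F'] (φK : F →+* F') (hφK : ∀ c : K, φK (algebraMap K F c) = algebraMap K F' c)
    (c : K) :
    (letI := φK.toAlgebra; Algebra.norm F (algebraMap K F' c)) =
      algebraMap K F c ^ (letI := φK.toAlgebra; Module.finrank F F') := by
  letI aK : Algebra F F' := φK.toAlgebra
  have h : algebraMap K F' c = algebraMap F F' (algebraMap K F c) := (hφK c).symm
  rw [h, Algebra.norm_algebraMap]

/-! ### The norm over `K` along a ring homomorphism -/

variable (H : Subgroup (Kb ≃ₐ[ℚ] Kb))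

/-- the norm `F_K(N') → F_K(N)` along `φK : F_K(N) →+* F_K(N')` -/
def normK {N N' : ℕ} (φK : FK H N →+* FK H N') : FK H N' →* FK H N :=
  letI := φK.toAlgebra
  Algebra.norm (FK H N)

theorem normK_apply {N N' : ℕ} (φK : FK H N →+* FK H N') (y : FK H N') :
    normK H φK y = (letI := φK.toAlgebra; Algebra.norm (FK H N) y) := rfl

variable {H}

/-- **Compatibility of the norms over `K` and over `ℚ̄`** from a basis of powers. -/
theorem tB_normK_of_basis_pow {N N' : ℕ} [NeZero N] [NeZero N']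
    (φK : FK H N →+* FK H N') (φ : E N →ₐ[Kb] E N')
    (hφ : ∀ x, tB H N' (φK x) = φ (tB H N x))
    (hσ : ∀ σ ∈ H, ∀ x : E N, sig σ N' (φ x) = φ (sig σ N x))
    (yK : FK H N') {n : ℕ}
    (b : letI := algebraAlong φ; Module.Basis (Fin n) (E N) (E N'))
    (hb : ∀ i, b i = (tB H N' yK) ^ (i : ℕ)) (y : FK H N') :
    tB H N (normK H φK y) = normAlong φ (tB H N' y) := by
  obtain ⟨pb, hgen, hdim⟩ := exists_powerBasis_of_basis_pow φK φ hφ hσ yK b hb
  rw [normK_apply, normAlong_def]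
  letI := φK.toAlgebra
  exact map_norm_of_basis_pow (tB H N) (tB H N') φK φ.toRingHom hφ yK
    (pb.basis.reindex (finCongr hdim))
    (fun i => by rw [Module.Basis.reindex_apply, pb.basis_eq_pow, hgen]; rfl) b hb y

/-- the degree `[F_K(N') : F_K(N)]` from a basis of powers -/
theorem finrank_of_basis_pow {N N' : ℕ} [NeZero N] [NeZero N']
    (φK : FK H N →+* FK H N') (φ : E N →ₐ[Kb] E N')
    (hφ : ∀ x, tB H N' (φK x) = φ (tB H N x))
    (hσ : ∀ σ ∈ H, ∀ x : E N, sig σ N' (φ x) = φ (sig σ N x))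
    (yK : FK H N') {n : ℕ}
    (b : letI := algebraAlong φ; Module.Basis (Fin n) (E N) (E N'))
    (hb : ∀ i, b i = (tB H N' yK) ^ (i : ℕ)) :
    (letI := φK.toAlgebra; Module.finrank (FK H N) (FK H N')) = n := by
  obtain ⟨pb, -, hdim⟩ := exists_powerBasis_of_basis_pow φK φ hφ hσ yK b hb
  letI := φK.toAlgebra
  rw [← hdim, pb.finrank]

/-! ### The degeneracy maps -/

section Instances

open Fermat.Agent.S36.MinpolyJ2

variable (H)

/-- `α`, level `N0 ℓ → N0 ℓ ℓ`, `ℓ ∤ N0` -/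
theorem tB_normK_alpha' {N0 ℓ : ℕ} [NeZero N0] [NeZero ℓ] [NeZero (N0 * ℓ)] [NeZero (N0 * ℓ * ℓ)]
    (hℓ : ℓ.Prime) (hℓN0 : ¬ ℓ ∣ N0) (y : FK H (N0 * ℓ * ℓ)) :
    tB H (N0 * ℓ) (normK H (alphaK H (N0 * ℓ) ℓ) y) =
      normAlong (heckeAlphaBar Kb (N0 * ℓ) ℓ) (tB H (N0 * ℓ * ℓ) y) := by
  obtain ⟨b, hb⟩ := exists_basis_pow_of_isIncl_dvd hℓ rfl hℓN0 rfl
    (heckeAlphaBar Kb (N0 * ℓ) ℓ) (isIncl_alpha _ _) (j2 N0 ℓ) coe_j2
  exact tB_normK_of_basis_pow (alphaK H (N0 * ℓ) ℓ) (heckeAlphaBar Kb (N0 * ℓ) ℓ)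
    (tB_alphaK H _ _) (fun σ _ x => sig_alpha _ _ σ x) (j2K H N0 ℓ) b
    (fun i => by rw [hb, tB_j2K]) y

theorem finrank_alphaK' {N0 ℓ : ℕ} [NeZero N0] [NeZero ℓ] [NeZero (N0 * ℓ)] [NeZero (N0 * ℓ * ℓ)]
    (hℓ : ℓ.Prime) (hℓN0 : ¬ ℓ ∣ N0) :
    (letI := (alphaK H (N0 * ℓ) ℓ).toAlgebra
     Module.finrank (FK H (N0 * ℓ)) (FK H (N0 * ℓ * ℓ))) = ℓ := by
  obtain ⟨b, hb⟩ := exists_basis_pow_of_isIncl_dvd hℓ rfl hℓN0 rfl
    (heckeAlphaBar Kb (N0 * ℓ) ℓ) (isIncl_alpha _ _) (j2 N0 ℓ) coe_j2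
  exact finrank_of_basis_pow (alphaK H (N0 * ℓ) ℓ) (heckeAlphaBar Kb (N0 * ℓ) ℓ)
    (tB_alphaK H _ _) (fun σ _ x => sig_alpha _ _ σ x) (j2K H N0 ℓ) b
    (fun i => by rw [hb, tB_j2K])

variable (N ℓ : ℕ) [NeZero N] [NeZero ℓ]

/-- **`tB ∘ N_{α_K} = N_α ∘ tB`** for a prime `ℓ ∥ N` (`hN₁` of `UnitGen.ValDatum`). -/
theorem tB_normK_alpha (hℓ : ℓ.Prime) (hℓN : ℓ ∣ N) (hℓ2 : ¬ ℓ ^ 2 ∣ N) (y : FK H (N * ℓ)) :
    tB H N (normK H (alphaK H N ℓ) y) = normAlong (heckeAlphaBar Kb N ℓ) (tB H (N * ℓ) y) := by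
  obtain ⟨N0, hN0⟩ : ∃ N0, N = N0 * ℓ := ⟨N / ℓ, (Nat.div_mul_cancel hℓN).symm⟩
  subst hN0
  haveI : NeZero N0 := ⟨fun h => NeZero.ne (N0 * ℓ) (by rw [h, zero_mul])⟩
  have hℓN0 : ¬ ℓ ∣ N0 := fun h => hℓ2 (by rw [pow_two]; exact Nat.mul_dvd_mul_right h ℓ)
  exact tB_normK_alpha' H hℓ hℓN0 y

/-- **`tB ∘ N_{β_K} = N_β ∘ tB`** for a prime `ℓ ∣ N` (`hN₂` of `UnitGen.ValDatum`). -/
theorem tB_normK_beta (hℓ : ℓ.Prime) (hℓN : ℓ ∣ N) (y : FK H (N * ℓ)) :
    tB H N (normK H (betaK H N ℓ) y) = normAlong (heckeBetaBar Kb N ℓ) (tB H (N * ℓ) y) := by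
  obtain ⟨b, hb⟩ := exists_basis_pow_of_isDil_dvd hℓ hℓN rfl
    (heckeBetaBar Kb N ℓ) (isDil_beta _ _) (jgen (N * ℓ))
    (Fermat.Agent.S18.B.Basic.coe_jgen_eq (N * ℓ))
  exact tB_normK_of_basis_pow (betaK H N ℓ) (heckeBetaBar Kb N ℓ)
    (tB_betaK H _ _) (fun σ _ x => sig_beta _ _ σ x) (j0K H (N * ℓ)) b
    (fun i => by rw [hb, tB_j0K]) y

/-- `[F_K(N ℓ) : α_K F_K(N)] = ℓ` for a prime `ℓ ∥ N` -/
theorem finrank_alphaK (hℓ : ℓ.Prime) (hℓN : ℓ ∣ N) (hℓ2 : ¬ ℓ ^ 2 ∣ N) :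
    (letI := (alphaK H N ℓ).toAlgebra; Module.finrank (FK H N) (FK H (N * ℓ))) = ℓ := by
  obtain ⟨N0, hN0⟩ : ∃ N0, N = N0 * ℓ := ⟨N / ℓ, (Nat.div_mul_cancel hℓN).symm⟩
  subst hN0
  haveI : NeZero N0 := ⟨fun h => NeZero.ne (N0 * ℓ) (by rw [h, zero_mul])⟩
  have hℓN0 : ¬ ℓ ∣ N0 := fun h => hℓ2 (by rw [pow_two]; exact Nat.mul_dvd_mul_right h ℓ)
  exact finrank_alphaK' H hℓ hℓN0

/-- `[F_K(N ℓ) : β_K F_K(N)] = ℓ` for a prime `ℓ ∣ N` -/
theorem finrank_betaK (hℓ : ℓ.Prime) (hℓN : ℓ ∣ N) :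
    (letI := (betaK H N ℓ).toAlgebra; Module.finrank (FK H N) (FK H (N * ℓ))) = ℓ := by
  obtain ⟨b, hb⟩ := exists_basis_pow_of_isDil_dvd hℓ hℓN rfl
    (heckeBetaBar Kb N ℓ) (isDil_beta _ _) (jgen (N * ℓ))
    (Fermat.Agent.S18.B.Basic.coe_jgen_eq (N * ℓ))
  exact finrank_of_basis_pow (betaK H N ℓ) (heckeBetaBar Kb N ℓ)
    (tB_betaK H _ _) (fun σ _ x => sig_beta _ _ σ x) (j0K H (N * ℓ)) b
    (fun i => by rw [hb, tB_j0K])

theorem alphaK_algebraMap (c : IntermediateField.fixedField H) :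
    alphaK H N ℓ (algebraMap (IntermediateField.fixedField H) (FK H N) c) =
      algebraMap (IntermediateField.fixedField H) (FK H (N * ℓ)) c :=
  (heckeAlphaBar (↥(IntermediateField.fixedField H)) N ℓ).commutes c

theorem betaK_algebraMap (c : IntermediateField.fixedField H) :
    betaK H N ℓ (algebraMap (IntermediateField.fixedField H) (FK H N) c) =
      algebraMap (IntermediateField.fixedField H) (FK H (N * ℓ)) c :=
  (heckeBetaBar (↥(IntermediateField.fixedField H)) N ℓ).commutes c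

/-- **the norm of a constant along `α_K`** (`N₁_const` of `UnitGen.ValDatum`) -/
theorem normK_alpha_algebraMap (hℓ : ℓ.Prime) (hℓN : ℓ ∣ N) (hℓ2 : ¬ ℓ ^ 2 ∣ N)
    (c : IntermediateField.fixedField H) :
    normK H (alphaK H N ℓ) (algebraMap (IntermediateField.fixedField H) (FK H (N * ℓ)) c) =
      algebraMap (IntermediateField.fixedField H) (FK H N) (c ^ ℓ) := by
  rw [normK_apply, norm_algebraMap_of_tower (alphaK H N ℓ) (alphaK_algebraMap H N ℓ) c,
    finrank_alphaK H N ℓ hℓ hℓN hℓ2, map_pow]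

/-- **the norm of a constant along `β_K`** (`N₂_const` of `UnitGen.ValDatum`) -/
theorem normK_beta_algebraMap (hℓ : ℓ.Prime) (hℓN : ℓ ∣ N)
    (c : IntermediateField.fixedField H) :
    normK H (betaK H N ℓ) (algebraMap (IntermediateField.fixedField H) (FK H (N * ℓ)) c) =
      algebraMap (IntermediateField.fixedField H) (FK H N) (c ^ ℓ) := by
  rw [normK_apply, norm_algebraMap_of_tower (betaK H N ℓ) (betaK_algebraMap H N ℓ) c,
    finrank_betaK H N ℓ hℓ hℓN, map_pow]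

end Instances

end Fermat.Agent.S36.NormK0
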