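/-
S36 (project V), slice V-GlueNormX0 (helper8), chain (V6): THE NORMS OF `GlueNormX0.datumX0` ARE THE
`ℚ̄`-NORMS AFTER `tB` (`NormK0`, helper19), so that the hypotheses `hN₁ hN₂` of
`GlueNormX0.reg₁ / reg₂` and of `RegFinal.reg_of_local / reg_of_common_generator / ...` (helper18)
are discharged:

* `datumX0_N₁_eq`, `datumX0_N₂_eq` : `(datumX0 ..).N_i y = PushKummer.normAlong (α' resp. β') (tB y)`
  (the literal shape `hN₁ hN₂` of `RegFinal`), `datumC_N₁_eq`, `datumC_N₂_eq` for the canonical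
  datum;
* `reg₁'`, `reg₂'` : `GlueNormX0.reg₁ / reg₂` with no norm hypothesis left.
-/
import Fermat.Agent.S36.GlueNormX0
import Fermat.Agent.S36.NormK0

set_option autoImplicit false
set_option linter.unusedSectionVars false
set_option linter.style.haveILetI false
set_option linter.unusedVariables false
set_option synthInstance.maxHeartbeats 400000

noncomputable section

namespace Fermat.Agent.S36.GlueNormX0

open ModularCurve AlgebraicCurve IsLocalRing
open Fermat.Agent.S34.NodalDefs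
open Fermat.Agent.S37.Deuring.Core Fermat.Agent.S37.Gauss.Datum
open Fermat.Agent.S34.CoreZX0Assembly Fermat.Agent.S34.CoreZX0Build
open Fermat.Agent.S34.CoreZX0OfGeneric Fermat.Agent.S34.GaussPairX0
open Fermat.Agent.S36.GlueNorm Fermat.Agent.S36.GlueLevelQ
open Fermat.Agent.S36.PowerBasisK0 (FK tB alphaK betaK)
open Fermat.Agent.S24.DegreeAlg Fermat.Agent.S18.A.Instances
open Fermat.Agent.S37.Hecke.Integral Fermat.Agent.S35.LevelMaps
open Fermat.Agent.S35.DegeneracyHecke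
open Fermat.Agent.S36.ThreeVal Fermat.Agent.S36.RegOfPoles
open Fermat.Agent.S24.DegreeAlg (jgen)
open Fermat.Agent.S34.Generic.Dich Fermat.Agent.S34.CuspRedX0 Fermat.Agent.S37.Deuring.HypX0

local notation "Kb" => AlgebraicClosure ℚ

attribute [local instance 2000] Fermat.Agent.S34.EulerX0.algResFk

/-- shortcut instances (all propositions) -/
local instance instPDBarGN (N : ℕ) [NeZero N] :
    HasPrincipalDivisors Kb ↥(modularFunctionFieldBar N) :=
  Fermat.Agent.S18.A.Instances.hasPrincipalDivisors_bar N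

local instance instPDFkGN (A : ValuationSubring Kb) (N : ℕ) [NeZero N] :
    HasPrincipalDivisors (ResidueField ↥A) ↥(modularFunctionFieldFullC (ResidueField ↥A) N) :=
  Fermat.Agent.S37.ReductionInputs.hasPrincipalDivisors_Fk A N

local instance instACkGN (A : ValuationSubring Kb) : IsAlgClosed (ResidueField ↥A) :=
  Fermat.Agent.S18.ResidueBasics.isAlgClosed_residueField A

local instance instInfkGN (A : ValuationSubring Kb) : Infinite (ResidueField ↥A) :=
  Fermat.Agent.S37.ReductionInputs.infinite_residueField A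

local instance instNeZeroMulGN (M q : ℕ) [NeZero M] [NeZero q] : NeZero (M * q) :=
  ⟨Nat.mul_ne_zero (NeZero.ne M) (NeZero.ne q)⟩

variable {q : ℕ} [hq : Fact q.Prime] {M : ℕ} [NeZero M] {A : ValuationSubring Kb} [NeZero q]
variable {hA : A.LiesOverPrime q} {hqM : ¬ q ∣ M}
variable {gL gk : ℕ} {HG : Hyp (gaussDatum M A hA hqM) gL gk}
variable [CharP (ResidueField ↥A) q]
variable {Hs : Subgroup (Kb ≃ₐ[ℚ] Kb)}

/-- `tB ∘ N_K = N_ℚ̄ ∘ tB` along `α'` (`NormK0.tB_normK_alpha'`), in the shape `hN₁` of `reg₁` -/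
theorem hN₁ (hqM : ¬ q ∣ M) (y : FK Hs (M * q * q)) :
    tB Hs (M * q) (normAlong (alphaK Hs (M * q) q) y)
      = Fermat.Agent.S35.PushKummer.normAlong (heckeAlphaBar Kb (M * q) q)
          (tB Hs (M * q * q) y) :=
  Fermat.Agent.S36.NormK0.tB_normK_alpha' Hs hq.out hqM y

/-- `tB ∘ N_K = N_ℚ̄ ∘ tB` along `β'` (`NormK0.tB_normK_beta`), in the shape `hN₂` of `reg₂` -/
theorem hN₂ (y : FK Hs (M * q * q)) :
    tB Hs (M * q) (normAlong (betaK Hs (M * q) q) y)
      = Fermat.Agent.S35.PushKummer.normAlong (heckeBetaBar Kb (M * q) q)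
          (tB Hs (M * q * q) y) :=
  Fermat.Agent.S36.NormK0.tB_normK_beta Hs (M * q) q hq.out (Dvd.intro_left M rfl) y

section Datum

variable (hgen : GenericX0 hA hqM HG) (Y : NodesC (inputsX0 hgen))
  (hFr : ∀ b ∈ Y.S, Fermat.Agent.S34.FrobK.Fr (ResidueField ↥A) M q
    (Fermat.Agent.S34.FrobK.Fr (ResidueField ↥A) M q b) = b)
  (Z : ThreeValX0.Hyp Hs M q ↥(modularFunctionFieldFullC (ResidueField ↥A) M))
  (lk : Link Hs hA hqM Z)

/-- **the hypothesis `hN₁` of `RegFinal`** for `datumX0` -/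
theorem datumX0_N₁_eq (y : FK Hs (M * q * q)) :
    (datumX0 hgen Y hFr Z lk).N₁ y
      = Fermat.Agent.S35.PushKummer.normAlong (heckeAlphaBar Kb (M * q) q)
          (tB Hs (M * q * q) y) :=
  hN₁ hqM y

/-- **the hypothesis `hN₂` of `RegFinal`** for `datumX0` -/
theorem datumX0_N₂_eq (y : FK Hs (M * q * q)) :
    (datumX0 hgen Y hFr Z lk).N₂ y
      = Fermat.Agent.S35.PushKummer.normAlong (heckeBetaBar Kb (M * q) q)
          (tB Hs (M * q * q) y) :=
  hN₂ y

/-- **field `hR₁` of `NewInertiaDatum.Input`**, no norm hypothesis left -/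
theorem reg₁' {n : ℕ} (hn : n ≠ 0) (Ku : (datumX0 hgen Y hFr Z lk).Kummer n)
    (t₀ : FK Hs (M * q * q))
    (h : ∀ P' : Place Kb (E (M * q * q)),
      P'.ord (tB Hs (M * q * q) (Ku.f ^ (q - 1) * t₀ ^ n)) < 0 → ∃ c : ↥A,
        HasVal P' (heckeAlphaBar Kb (M * q) q (heckeAlphaBar Kb M q (jgen M))) (c : Kb) ∧
          residue ↥A c ∉ badValues (inputsX0 hgen)) :
    (datumX0 hgen Y hFr Z lk).Reg
      (Ku.g₁ ^ ((datumX0 hgen Y hFr Z lk).q - 1) * (datumX0 hgen Y hFr Z lk).N₁ t₀) :=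
  reg₁ hgen Y hFr Z lk hn Ku t₀ (hN₁ hqM) h

/-- **field `hR₂` of `NewInertiaDatum.Input`**, no norm hypothesis left -/
theorem reg₂' {n : ℕ} (hn : n ≠ 0) (Ku : (datumX0 hgen Y hFr Z lk).Kummer n)
    (t₀ : FK Hs (M * q * q))
    (h : ∀ P' : Place Kb (E (M * q * q)),
      P'.ord (tB Hs (M * q * q) (Ku.f ^ (q - 1) * t₀ ^ n)) < 0 → ∃ c : ↥A,
        HasVal P' (heckeAlphaBar Kb (M * q) q (heckeAlphaBar Kb M q (jgen M))) (c : Kb) ∧
          residue ↥A c ∉ badValues (inputsX0 hgen)) :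
    (datumX0 hgen Y hFr Z lk).Reg
      (Ku.g₂ ^ ((datumX0 hgen Y hFr Z lk).q - 1) * (datumX0 hgen Y hFr Z lk).N₂ t₀) :=
  reg₂ hgen Y hFr Z lk hn Ku t₀ hN₂ h

end Datum

section Canonical

open Fermat.Agent.S18.NonSpecial

variable {gM : ℕ} (hA) (hqM)
variable (HM : RiemannHyp (ResidueField ↥A) ↥(modularFunctionFieldFullC (ResidueField ↥A) M) gM)
  (Z : ThreeValX0.Hyp Hs M q ↥(modularFunctionFieldFullC (ResidueField ↥A) M))
  (lk : Link Hs hA hqM Z)

theorem datumC_N₁_eq (y : FK Hs (M * q * q)) :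
    (datumC hA hqM HM Z lk).N₁ y
      = Fermat.Agent.S35.PushKummer.normAlong (heckeAlphaBar Kb (M * q) q)
          (tB Hs (M * q * q) y) :=
  hN₁ hqM y

theorem datumC_N₂_eq (y : FK Hs (M * q * q)) :
    (datumC hA hqM HM Z lk).N₂ y
      = Fermat.Agent.S35.PushKummer.normAlong (heckeBetaBar Kb (M * q) q)
          (tB Hs (M * q * q) y) :=
  hN₂ y

/-- `Reg` of the canonical datum is `RegX0` of the canonical inputs (hypothesis `hReg` of
`RegFinal`) -/
theorem datumC_Reg :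
    (datumC hA hqM HM Z lk).Reg
      = RegX0 (inputsX0 (Fermat.Agent.S34.CoreZX0.genericX0 hA hqM (HX0 hA hqM HM)))
          (nodesX0 hA hqM HM) := rfl

end Canonical

end Fermat.Agent.S36.GlueNormX0
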