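import Mathlib
import Fermat.Agent.S36.NewInertiaDatum
import Fermat.Agent.S36.FormalLift.LatticeOpen

/-!
# PROJECT V (S36), chain (V17), layer 5: `NewInertiaDatum.Input` for the lattice charts

`helper24`'s `Lattice.VCharts` (`FormalLift/LatticeOpen.lean`) provides, for the two-chart model of
`O(D̄)` built from valuative data, the soft-core half of `NewInertiaDatum.Input`:
noetherianity, `Detects` for the five kinds of opens, `fE * s ^ n` a unit of the opens, the residue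
fields of the closed points of the fibre, finite generation of `H¹` and the final inequality
`ord_v h ≥ -D v`.

`Leaf X V Y π` collects what is left for the X₀-side (the "leaf facts"): the three vertical
valuation rings are those of the `GlueNorm.Datum`, the chart function is transcendental and its
Gauss valuation rings are the three `W`, `div (f ^ e) = n D` at the `K`-places, the numerical facts,
the reductions, the common generator `t₀` at the bad points and, for every open of the two covers,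
`Separated`, `BranchRings` and the description `PtCond` of the closed points of the fibre.

`Leaf.input : Nonempty (Input X V.charts V.localGen Y π)`, `Leaf.finiteH1`, `Leaf.ord_ge`.
-/

set_option autoImplicit false
set_option linter.unusedSectionVars false

namespace Fermat.Agent.S36.NewInertiaCharts

open Polynomial IntermediateField AlgebraicCurve
open Fermat.Agent.S36.FormalLift Fermat.Agent.S36.SoftCore Fermat.Agent.S36.SoftCoreInput
open Fermat.Agent.S36.GlueNorm Fermat.Agent.S36.OpenLift Fermat.Agent.S36.TripleValues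
open Fermat.Agent.S36.NewInertiaDatum Fermat.Agent.S36.Lattice

variable {k κ F' F Pt : Type*} [Field k] [Field κ] [Algebra k κ] [Field F'] [Field F]

/-- **the closed points of the fibre of one open**: at most one branch, or a triple point at which
`s / T` is a unit (the literal shape of `NewInertiaDatum.OpenData.pt`) -/
def PtCond (X : Datum k κ F' F Pt) (ϖ : F) (S : Subring F) (hϖ : ϖ ∈ S) (s T : F) : Prop :=
  ∀ 𝔪 : Ideal ↥S, 𝔪.IsMaximal → (⟨ϖ, hϖ⟩ : ↥S) ∈ 𝔪 →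
    (∀ (w w' : Comp) (hw : S ≤ (Wof X w).toSubring) (hw' : S ≤ (Wof X w').toSubring),
      RingHom.ker (resHom S (Wof X w) (rof X w) hw) ≤ 𝔪 →
      RingHom.ker (resHom S (Wof X w') (rof X w') hw') ≤ 𝔪 → w = w') ∨
    (∃ b ∈ X.S, (∀ w : Comp, S ≤ (Wof X w).toSubring) ∧
      (∀ (w : Comp) (hw : S ≤ (Wof X w).toSubring) (u : ↥S),
        u ∈ 𝔪 ↔ X.E.val b (resHom S (Wof X w) (rof X w) hw u) 0) ∧
      ∃ u₁ u₂ : ↥S, u₁ ∉ 𝔪 ∧ u₂ ∉ 𝔪 ∧ s * (u₂ : F) = (u₁ : F) * T)

variable {O : Type*} [CommRing O] [IsDomain O] [IsDiscreteValuationRing O] {K : Type*} [Field K]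
  [Algebra O K] [IsFractionRing O K] [CharZero K] [Algebra K F] [Algebra O F] [IsScalarTower O K F]
  {ι ι' : Type*}

/-- **the leaf facts**: what the X₀-side owes for the lattice charts `V` -/
structure Leaf (X : Datum k κ F' F Pt) (V : VCharts O K F Comp ι ι') {n : ℕ} (Y : X.Kummer n)
    (π : O →+* k) where
  /-- the vertical valuation rings of the charts are the three `W` -/
  hW : V.W = Wof X
  hϖ : Irreducible V.ϖ
  hφ : Transcendental K V.φ
  hφ' : Transcendental K V.φ⁻¹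
  hfd : FiniteDimensional K⟮V.φ⟯ F
  hfd' : FiniteDimensional K⟮V.φ⁻¹⟯ F
  /-- (V7) on `U = {φ ≠ ∞}` -/
  hvert : ∀ W : ValuationSubring F, (∀ c : O, algebraMap O F c ∈ W) → V.φ ∈ W →
    (algebraMap O F V.ϖ)⁻¹ ∉ W →
    (∀ s : O[X], (∃ i, IsUnit (s.coeff i)) → (aeval V.φ s)⁻¹ ∈ W) → W ∈ Set.range V.W
  /-- (V7) on `U' = {φ ≠ 0}` -/
  hvert' : ∀ W : ValuationSubring F, (∀ c : O, algebraMap O F c ∈ W) → V.φ⁻¹ ∈ W →
    (algebraMap O F V.ϖ)⁻¹ ∉ W →
    (∀ s : O[X], (∃ i, IsUnit (s.coeff i)) → (aeval V.φ⁻¹ s)⁻¹ ∈ W) → W ∈ Set.range V.W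
  /-- `div (f ^ e) = n D` at the `K`-places -/
  hfD : ∀ v : Place K F, v.ord (Y.f ^ ((X.q - 1) * (X.q ^ 2 - 1))) = n * V.D v
  hn0 : n ≠ 0
  hnq : Nat.Coprime n X.q
  hq : 0 < X.q
  hnunit : IsUnit ((n : ℕ) : O)
  hμ : ∀ z : κ, z ^ n = 1 → ∃ c : k, algebraMap k κ c = z
  hE : ValGood X.E n
  hS : ∀ b ∈ X.S, X.fr b ∈ X.S
  hr : ∀ (w : Comp) (x : ↥(Wof X w)), rof X w x = 0 ↔ (Wof X w).valuation (x : F) < 1
  hrsurj : ∀ w : Comp, Function.Surjective (rof X w)
  hπ : ∀ (w : Comp) (x : O) (m : algebraMap O F x ∈ Wof X w),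
    rof X w ⟨algebraMap O F x, m⟩ = algebraMap k κ (π x)
  hπsurj : Function.Surjective π
  hϖW : ∀ w : Comp, (Wof X w).valuation (algebraMap O F V.ϖ) < 1
  /-- the common generator at the bad points -/
  t₀ : F
  t₂₀ : t₀ ∈ X.W₂₀
  t₁₁ : t₀ ∈ X.W₁₁
  t₀₂ : t₀ ∈ X.W₀₂
  hR₁ : X.Reg (Y.g₁ ^ (X.q - 1) * X.N₁ t₀)
  hR₂ : X.Reg (Y.g₂ ^ (X.q - 1) * X.N₂ t₀)
  hv₀ : ∀ b ∈ X.S, ∃ c : k, c ≠ 0 ∧
    (∀ m, X.E.val b (X.r₂₀ ⟨Y.f ^ (X.q - 1) * t₀ ^ n, m⟩) c) ∧
    (∀ m, X.E.val b (X.r₁₁ ⟨Y.f ^ (X.q - 1) * t₀ ^ n, m⟩) c) ∧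
    (∀ m, X.E.val b (X.r₀₂ ⟨Y.f ^ (X.q - 1) * t₀ ^ n, m⟩) c)
  /-- the opens of the two covers -/
  sep : ∀ i : ι, Separated (Wof X) (V.charts.S i)
  sep' : ∀ j : ι', Separated (Wof X) (V.charts.S' j)
  br : ∀ i : ι, BranchRings (Wof X) (rof X) (V.charts.S i) n
  br' : ∀ j : ι', BranchRings (Wof X) (rof X) (V.charts.S' j) n
  pt : ∀ i : ι, PtCond X V.charts.ϖF (V.charts.S i) (V.charts.algebraMap_mem_S i V.charts.ϖ)
    (V.s i) (t₀ ^ (X.q ^ 2 - 1))
  pt' : ∀ j : ι', PtCond X V.charts.ϖF (V.charts.S' j) (V.charts.algebraMap_mem_S' j V.charts.ϖ)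
    (V.s' j) (t₀ ^ (X.q ^ 2 - 1))

namespace Leaf

variable {X : Datum k κ F' F Pt} {V : VCharts O K F Comp ι ι'} {n : ℕ} {Y : X.Kummer n}
  {π : O →+* k}

theorem f_mem (w : Comp) : Y.f ∈ Wof X w := by
  cases w
  · exact Y.f₂₀
  · exact Y.f₁₁
  · exact Y.f₀₂

theorem f_val (L : Leaf X V Y π) (w : Comp) : (Wof X w).valuation Y.f = 1 := by
  refine le_antisymm (((Wof X w).valuation_le_one_iff _).mpr (f_mem w)) (not_lt.mp fun hlt => ?_)
  have h0 := (L.hr w ⟨Y.f, f_mem w⟩).mpr hlt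
  cases w
  · exact Y.r₂₀_ne h0
  · exact Y.r₁₁_ne h0
  · exact Y.r₀₂_ne h0

theorem fE_unit (L : Leaf X V Y π) (w : Comp) :
    Y.f ^ ((X.q - 1) * (X.q ^ 2 - 1)) ∈ V.W w ∧ (Y.f ^ ((X.q - 1) * (X.q ^ 2 - 1)))⁻¹ ∈ V.W w := by
  rw [L.hW]
  have h1 : (Wof X w).valuation (Y.f ^ ((X.q - 1) * (X.q ^ 2 - 1))) = 1 := by
    rw [map_pow, L.f_val w, one_pow]
  exact ⟨mem_of_val_eq_one _ h1, inv_mem_of_val_eq_one _ h1⟩

theorem fE_ne_zero (L : Leaf X V Y π) : Y.f ^ ((X.q - 1) * (X.q ^ 2 - 1)) ≠ 0 := by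
  refine pow_ne_zero _ fun h0 => ?_
  have := L.f_val Comp.c20
  rw [h0, map_zero] at this
  exact zero_ne_one this

variable [Fintype ι] [Fintype ι']

/-- **`NewInertiaDatum.Input` for the lattice charts** -/
theorem input [IsAlgClosed (IsLocalRing.ResidueField O)] (L : Leaf X V Y π) :
    Nonempty (Input X V.charts V.localGen Y π) := by
  have := L.hfd
  have := L.hfd'
  have hdet : ∀ {S : Subring F}, Detects V.W V.charts.ϖF S → Detects (Wof X) V.charts.ϖF S := by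
    intro S h
    rw [← L.hW]
    exact h
  refine ⟨{
    hn0 := L.hn0
    hnq := L.hnq
    hq := L.hq
    hnunit := L.hnunit
    hμ := L.hμ
    hE := L.hE
    hS := L.hS
    hr := L.hr
    hrsurj := L.hrsurj
    hπ := L.hπ
    hπsurj := L.hπsurj
    hϖW := L.hϖW
    t₀ := L.t₀
    t₂₀ := L.t₂₀
    t₁₁ := L.t₁₁
    t₀₂ := L.t₀₂
    hR₁ := L.hR₁
    hR₂ := L.hR₂
    hv₀ := L.hv₀
    opn := fun i =>
      { noeth := V.noeth L.hϖ L.hφ L.hvert i
        det := hdet (V.det i)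
        sep := L.sep i
        br := L.br i
        unit_mem := (V.unit_S L.fE_ne_zero L.hfD L.fE_unit i).1
        unit_inv := (V.unit_S L.fE_ne_zero L.hfD L.fE_unit i).2
        const := V.const L.hϖ L.hφ L.hvert i
        pt := L.pt i }
    opn' := fun j =>
      { noeth := V.noeth' L.hϖ L.hφ' L.hvert' j
        det := hdet (V.det' j)
        sep := L.sep' j
        br := L.br' j
        unit_mem := (V.unit_S' L.fE_ne_zero L.hfD L.fE_unit j).1
        unit_inv := (V.unit_S' L.fE_ne_zero L.hfD L.fE_unit j).2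
        const := V.const' L.hϖ L.hφ' L.hvert' j
        pt := L.pt' j }
    det₂ := fun i j => hdet (V.det₂ i j)
    det₂' := fun i j => hdet (V.det₂' i j)
    detmix := fun i j => hdet (V.detmix i j) }⟩

omit [Fintype ι] [Fintype ι'] in
theorem finiteH1 (L : Leaf X V Y π) : V.charts.FiniteH1 := by
  have := L.hfd
  exact V.finiteH1 L.hϖ L.hφ L.hvert

omit [Fintype ι] [Fintype ι'] in
theorem ord_ge (_L : Leaf X V Y π) {h : F} (hh0 : h ≠ 0) (h1 : h ∈ V.charts.LU)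
    (h2 : h ∈ V.charts.LU') (v : Place K F) : -V.D v ≤ v.ord h :=
  V.ord_ge hh0 h1 h2 v

/-- **the nonzero global section with its order bound** -/
theorem exists_section [IsAlgClosed (IsLocalRing.ResidueField O)] (L : Leaf X V Y π) :
    ∃ h : F, h ≠ 0 ∧ ∀ v : Place K F, -V.D v ≤ v.ord h := by
  obtain ⟨I⟩ := L.input
  have : IsNoetherianRing O := inferInstance
  obtain ⟨h, hh0, h1, h2⟩ := exists_global_section I L.finiteH1
  exact ⟨h, hh0, fun v => L.ord_ge hh0 h1 h2 v⟩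

end Leaf

end Fermat.Agent.S36.NewInertiaCharts
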