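import Mathlib
import Fermat.Agent.S36.TripleValues
import Fermat.Agent.S36.GlueLevelQ

/-!
# PROJECT V (S36), chain (V17), layer 4a: the places of a function field over an algebraically
closed field are a good system of evaluations

`GlueLevelQ.valSystemPlace k κ` (`NodalDefs.HasValue` on `Place k κ`) satisfies
`TripleValues.ValGood` for every `n ≠ 0` as soon as `k` is algebraically closed: differences,
division by a function with nonzero value, and `n`-th roots (the polynomial `X ^ n - c` splits in
`k`, so one of the factors `z - d` of `z ^ n - c` has positive order).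

Also `exists_const_of_pow_eq_one` : the `n`-th roots of unity of `κ` are constants.
-/

set_option autoImplicit false

namespace Fermat.Agent.S36.ValPlace

open AlgebraicCurve Polynomial Fermat.Agent.S36.GlueNorm Fermat.Agent.S36.TripleValues
open Fermat.Agent.S36.GlueLevelQ

variable {k κ : Type*} [Field k] [Field κ] [Algebra k κ]

local notation "EV" => Fermat.Agent.S34.Euler.Value.HasValue

theorem val_iff (Q : Place k κ) (z : κ) (c : k) :
    (valSystemPlace k κ).val Q z c ↔ EV Q z c :=
  Fermat.Agent.S34.PcgOfChart.hasValue_iff_euler Q z c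

/-- a function with nonzero value is a unit of the place -/
theorem adicValuation_eq_one {Q : Place k κ} {z : κ} {c : k} (h : EV Q z c) (hc : c ≠ 0) :
    Q.adicValuation z = 1 := by
  have h1 : Q.adicValuation (algebraMap k κ c) = 1 := by
    by_contra hne
    have hle : Q.adicValuation (algebraMap k κ c) ≤ 1 :=
      (Fermat.Agent.S24.Ord.mem_iff Q _).mp (Q.algebraMap_mem' c)
    have hlt : Q.adicValuation (algebraMap k κ c) < 1 := lt_of_le_of_ne hle hne
    exact hc (Fermat.Agent.S34.NodalGeneric.eq_zero_of_adicValuation_algebraMap_lt_one Q hlt)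
  have h2 : Q.adicValuation (z - algebraMap k κ c + algebraMap k κ c)
      = Q.adicValuation (algebraMap k κ c) := by
    refine Q.adicValuation.map_add_eq_of_lt_right ?_
    rw [h1]
    exact h
  rwa [sub_add_cancel, h1] at h2

theorem ev_div {Q : Place k κ} {z z' : κ} {d c' : k} (h : EV Q (z * z') d) (h' : EV Q z' c')
    (hc' : c' ≠ 0) : EV Q z (d / c') := by
  have hz'1 : Q.adicValuation z' = 1 := adicValuation_eq_one h' hc'
  have hz'0 : z' ≠ 0 := by
    rintro rfl
    rw [map_zero] at hz'1
    exact zero_ne_one hz'1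
  have hc'K : algebraMap k κ c' ≠ 0 := (_root_.map_ne_zero _).mpr hc'
  have hc'1 : Q.adicValuation (algebraMap k κ c') = 1 :=
    adicValuation_eq_one (Fermat.Agent.S34.Euler.Value.hasValue_const Q c') hc'
  have hd1 : Q.adicValuation (algebraMap k κ d) ≤ 1 :=
    (Fermat.Agent.S24.Ord.mem_iff Q _).mp (Q.algebraMap_mem' d)
  unfold Fermat.Agent.S34.Euler.Value.HasValue at h h' ⊢
  have key : z - algebraMap k κ (d / c')
      = (z * z' - algebraMap k κ d) * z'⁻¹
        + algebraMap k κ d * ((algebraMap k κ c' - z') * (z'⁻¹ * (algebraMap k κ c')⁻¹)) := by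
    rw [map_div₀]
    field_simp
    ring
  rw [key]
  refine lt_of_le_of_lt (Q.adicValuation.map_add _ _) (max_lt ?_ ?_)
  · rw [map_mul, map_inv₀, hz'1, inv_one, mul_one]
    exact h
  · rw [map_mul, map_mul, map_mul, map_inv₀, map_inv₀, hz'1, hc'1, inv_one, mul_one, mul_one]
    have h3 : Q.adicValuation (algebraMap k κ c' - z') < 1 := by
      rw [← neg_sub, Valuation.map_neg]
      exact h'
    calc Q.adicValuation (algebraMap k κ d) * Q.adicValuation (algebraMap k κ c' - z')
        ≤ 1 * Q.adicValuation (algebraMap k κ c' - z') := mul_le_mul_left hd1 _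
      _ = Q.adicValuation (algebraMap k κ c' - z') := one_mul _
      _ < 1 := h3

/-- a product of elements of valuation `≥ 1` has valuation `≥ 1` -/
theorem exists_lt_one_of_prod_lt_one (Q : Place k κ) (z : κ) (m : Multiset k)
    (h : Q.adicValuation ((m.map fun r => z - algebraMap k κ r).prod) < 1) :
    ∃ r ∈ m, Q.adicValuation (z - algebraMap k κ r) < 1 := by
  induction m using Multiset.induction_on with
  | empty =>
    rw [Multiset.map_zero, Multiset.prod_zero, map_one] at h
    exact absurd h (lt_irrefl _)
  | cons a m ih =>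
    rw [Multiset.map_cons, Multiset.prod_cons, map_mul] at h
    by_cases ha : Q.adicValuation (z - algebraMap k κ a) < 1
    · exact ⟨a, Multiset.mem_cons_self a m, ha⟩
    · rw [not_lt] at ha
      have h2 : Q.adicValuation ((m.map fun r => z - algebraMap k κ r).prod) < 1 := by
        by_contra hge
        rw [not_lt] at hge
        have : (1 : _) ≤ Q.adicValuation (z - algebraMap k κ a)
            * Q.adicValuation ((m.map fun r => z - algebraMap k κ r).prod) :=
          one_le_mul_of_one_le_of_one_le ha hge
        exact absurd h (not_lt.mpr this)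
      obtain ⟨r, hr, hlt⟩ := ih h2
      exact ⟨r, Multiset.mem_cons_of_mem hr, hlt⟩

/-- the factorisation of `z ^ n - c` over an algebraically closed field of constants -/
theorem pow_sub_eq_prod [IsAlgClosed k] {n : ℕ} (hn : n ≠ 0) (z : κ) (c : k) :
    ∃ m : Multiset k, z ^ n - algebraMap k κ c = (m.map fun r => z - algebraMap k κ r).prod := by
  set p : k[X] := X ^ n - C c with hp
  have hmonic : p.Monic := monic_X_pow_sub_C c hn
  have hsplit : p.Splits := IsAlgClosed.splits p
  have hprod : p = (p.roots.map (X - C ·)).prod := hsplit.eq_prod_roots_of_monic hmonic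
  have h1 : aeval z p = z ^ n - algebraMap k κ c := by
    rw [hp, map_sub, map_pow, aeval_X, aeval_C]
  have h2 : aeval z p = (p.roots.map fun r => z - algebraMap k κ r).prod := by
    conv_lhs => rw [hprod]
    rw [map_multiset_prod, Multiset.map_map]
    congr 1
    refine Multiset.map_congr rfl fun r _ => ?_
    simp [aeval_X, aeval_C]
  exact ⟨p.roots, by rw [← h1, h2]⟩

theorem ev_root [IsAlgClosed k] {n : ℕ} (hn : n ≠ 0) {Q : Place k κ} {z : κ} {c : k}
    (h : EV Q (z ^ n) c) : ∃ d : k, EV Q z d := by
  obtain ⟨m, hm⟩ := pow_sub_eq_prod hn z c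
  unfold Fermat.Agent.S34.Euler.Value.HasValue at h
  rw [hm] at h
  obtain ⟨r, -, hr⟩ := exists_lt_one_of_prod_lt_one Q z m h
  exact ⟨r, hr⟩

/-- **the places of a function field over an algebraically closed field are a good system of
evaluations** -/
theorem valGood_place [IsAlgClosed k] {n : ℕ} (hn : n ≠ 0) : ValGood (valSystemPlace k κ) n where
  val_sub := fun Q z z' c c' h h' =>
    (val_iff Q _ _).mpr (((val_iff Q _ _).mp h).sub ((val_iff Q _ _).mp h'))
  val_div := fun Q z z' d c' h h' hc' =>
    (val_iff Q _ _).mpr (ev_div ((val_iff Q _ _).mp h) ((val_iff Q _ _).mp h') hc')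
  val_root := fun Q z c h _ => by
    obtain ⟨d, hd⟩ := ev_root hn ((val_iff Q _ _).mp h)
    exact ⟨d, (val_iff Q _ _).mpr hd⟩

/-- the `n`-th roots of unity of `κ` are constants (`k` algebraically closed) -/
theorem exists_const_of_pow_eq_one [IsAlgClosed k] {n : ℕ} (hn : n ≠ 0) (z : κ)
    (hz : z ^ n = 1) : ∃ c : k, algebraMap k κ c = z := by
  obtain ⟨m, hm⟩ := pow_sub_eq_prod hn z (1 : k)
  rw [hz, map_one, sub_self] at hm
  have h0 := Multiset.prod_eq_zero_iff.mp hm.symm
  obtain ⟨x, -, hx0⟩ := Multiset.mem_map.mp h0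
  exact ⟨x, (sub_eq_zero.mp hx0).symm⟩

end Fermat.Agent.S36.ValPlace
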