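/-
PROJECT V (S36), chain (V17), last step (helper14): **from a global section over the inertia field
to a principal divisor over `ℚ̄`.**

The soft core (`FormalLift/LatticeMain`, `SoftCore.exists_global_section_of_generic`) is run on the
`K0`-form `F0 = laurentBaseChange K0 (modularFunctionFieldFull N)` of the function field of
`X₀(N)` (`K0 = ℚ̄^I`); it produces `h₀ ≠ 0` in `F0` with `ord_v h₀ ≥ -D₀ v` at EVERY `K0`-place `v`
(`Lattice.ord_ge_of_mem_lat_inf`).  The closing lemmas `Lattice.isPrincipal_of_global_section` /
`VInput.isPrincipal` would need `HasPrincipalDivisors K0 F0`, `0 < v.deg` and `deg_K0 D₀ = 0`, i.e.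
the degree theory over the non algebraically closed field `K0` (number of `ℚ̄`-places above a
`K0`-place = its degree), which is NOT on main.  This file closes over `ℚ̄` instead, where
everything is available:

* `divisorBelow N K0 D` : the function `K0PlacesExt.divBelow N K0 D` as a FINSUPP, i.e. a
  `Divisor K0 F0` (the `X.D` of `Lattice.VInput`); `divisorBelow_apply`, `divisorBelow_restrX0`;
* `finite_ord_ne_zero_K0` : a nonzero function of the `K0`-form has finitely many zeros and poles
  among the `K0`-places (the field `hfinAll` of `Lattice.VInput` for `K = K0`);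
* `eq_ord_inv_toBar` : `h₀ ≠ 0` in `F0`, `D` of degree zero over `ℚ̄`,
  `-D w ≤ ord_(w|F0) h₀` for every `ℚ̄`-place `w`  ⟹  `D w = ord_w (toBar h₀)⁻¹` for every `w`;
* `exists_ord_eq_of_global_section` : the same starting from a `K0`-divisor `D₀` with
  `D₀ (w|F0) = D w` and `-D₀ v ≤ ord_v h₀` at every `K0`-place `v`:
  `∃ h ≠ 0, ∀ w, ord_w h = D w`;
* `exists_ord_eq_of_divisorBelow` : the form for `D₀ = divisorBelow N K0 D` when `n D = div f₀`
  with `f₀` in the `K0`-form, `n ≠ 0`.
-/
import Mathlib
import Fermat.Agent.S36.K0PlacesExt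
import Fermat.Agent.S36.FormalLift.Lattice
import Fermat.Agent.S18.A.Instances

set_option autoImplicit false
set_option linter.unusedSectionVars false
set_option linter.style.haveILetI false

noncomputable section

namespace Fermat.Agent.S36.GlobalSectionBar

open AlgebraicCurve ModularCurve
open Fermat.Agent.S36.K0DescentLaurent Fermat.Agent.S36.K0Fixed
open Fermat.Agent.S36.K0PlacesX0 Fermat.Agent.S36.K0PlacesExt

local notation "Kb" => AlgebraicClosure ℚ

variable (N : ℕ) (K0 : IntermediateField ℚ Kb)

/-! ### the divisor below, as a finsupp -/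

open Classical in
/-- **the divisor on the `K0`-form below a divisor over `ℚ̄`** (value at a chosen place above),
as a finitely supported function. -/
def divisorBelow (D : Divisor Kb (modularFunctionFieldBar N)) :
    Divisor K0 (laurentBaseChange K0 (modularFunctionFieldFull N)) :=
  Finsupp.onFinset (D.support.image (restrX0 N K0)) (divBelow N K0 D) (by
    intro v hv
    rw [Finset.mem_image]
    refine ⟨placeAbove N K0 v, ?_, restrX0_placeAbove N K0 v⟩
    rw [Finsupp.mem_support_iff]
    exact hv)

@[simp] theorem divisorBelow_apply (D : Divisor Kb (modularFunctionFieldBar N))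
    (v : Place K0 (laurentBaseChange K0 (modularFunctionFieldFull N))) :
    divisorBelow N K0 D v = divBelow N K0 D v := rfl

variable {N K0}

/-- `n D = div f₀` reads `v(f₀) = n D₀(v)` on the `K0`-form, finsupp form -/
theorem ord_eq_mul_divisorBelow {n : ℤ} {D : Divisor Kb (modularFunctionFieldBar N)}
    {f₀ : laurentBaseChange K0 (modularFunctionFieldFull N)}
    (hord : ∀ w : Place Kb (modularFunctionFieldBar N),
      w.ord (toBar (modularFunctionFieldFull N) K0 f₀) = n * D w)
    (v : Place K0 (laurentBaseChange K0 (modularFunctionFieldFull N))) :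
    v.ord f₀ = n * divisorBelow N K0 D v := by
  rw [divisorBelow_apply]
  exact ord_eq_mul_divBelow hord v

/-- the divisor below is the divisor above on every fibre of the restriction, as soon as
`n D = div (toBar f₀)` with `n ≠ 0` -/
theorem divisorBelow_restrX0 {n : ℤ} (hn : n ≠ 0) {D : Divisor Kb (modularFunctionFieldBar N)}
    {f₀ : laurentBaseChange K0 (modularFunctionFieldFull N)}
    (hord : ∀ w : Place Kb (modularFunctionFieldBar N),
      w.ord (toBar (modularFunctionFieldFull N) K0 f₀) = n * D w)
    (w : Place Kb (modularFunctionFieldBar N)) :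
    divisorBelow N K0 D (restrX0 N K0 w) = D w := by
  rw [divisorBelow_apply]
  exact divBelow_restrX0 hn hord w

/-! ### finitely many zeros and poles over `K0` -/

/-- `toBar` is injective -/
theorem toBar_ne_zero {f : laurentBaseChange K0 (modularFunctionFieldFull N)} (hf : f ≠ 0) :
    toBar (modularFunctionFieldFull N) K0 f ≠ 0 := fun h =>
  hf ((toBar (modularFunctionFieldFull N) K0).injective (by rw [h, map_zero]))

variable [NeZero N]

/-- **a nonzero function of the `K0`-form has finitely many zeros and poles** (the field `hfinAll`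
of `Lattice.VInput` for `K = K0`). -/
theorem finite_ord_ne_zero_K0 {f : laurentBaseChange K0 (modularFunctionFieldFull N)}
    (hf : f ≠ 0) :
    {v : Place K0 (laurentBaseChange K0 (modularFunctionFieldFull N)) | v.ord f ≠ 0}.Finite := by
  classical
  haveI := Fermat.Agent.S18.A.Instances.hasPrincipalDivisors_bar N
  obtain ⟨D, hD, -⟩ := HasPrincipalDivisors.exists_divisor (K := Kb)
    (toBar (modularFunctionFieldFull N) K0 f) (toBar_ne_zero hf)
  refine ((D.support.image (restrX0 N K0)).finite_toSet).subset fun v hv => ?_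
  rw [Finset.mem_coe, Finset.mem_image]
  refine ⟨placeAbove N K0 v, ?_, restrX0_placeAbove N K0 v⟩
  rw [Finsupp.mem_support_iff, hD, ord_toBar_X0, restrX0_placeAbove]
  exact hv

/-! ### the last step of (V17), over `ℚ̄` -/

/-- **A global section over `K0` makes the divisor principal over `ℚ̄`.**  `h₀ ≠ 0` in the
`K0`-form, `D` of degree zero, `ord_(w|F0) h₀ ≥ -D w` at every `ℚ̄`-place `w`: then
`D = div (toBar h₀)⁻¹`. -/
theorem eq_ord_inv_toBar (D : Divisor Kb (modularFunctionFieldBar N))
    (hD : Divisor.degree D = 0) {h₀ : laurentBaseChange K0 (modularFunctionFieldFull N)}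
    (hh0 : h₀ ≠ 0)
    (hh : ∀ w : Place Kb (modularFunctionFieldBar N), -D w ≤ (restrX0 N K0 w).ord h₀)
    (w : Place Kb (modularFunctionFieldBar N)) :
    D w = w.ord (toBar (modularFunctionFieldFull N) K0 h₀)⁻¹ := by
  haveI := Fermat.Agent.S18.A.Instances.hasPrincipalDivisors_bar N
  refine Fermat.Agent.S36.Lattice.eq_ord_inv_of_global_section (K := Kb)
    (fun v => ?_) D hD (toBar_ne_zero hh0) (fun v => ?_) w
  · rw [Fermat.Agent.S18.A.Instances.deg_one_bar N v]
    exact Nat.one_pos
  · rw [ord_toBar_X0]
    exact hh v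

/-- **(V17), last step.**  `D₀` a function on the `K0`-places with `D₀ (w|F0) = D w`, `deg D = 0`,
and `h₀ ≠ 0` in the `K0`-form with `ord_v h₀ ≥ -D₀ v` at every `K0`-place (a nonzero global
section of `O(D₀)`): then `D` is the divisor of a function. -/
theorem exists_ord_eq_of_global_section (D : Divisor Kb (modularFunctionFieldBar N))
    (hD : Divisor.degree D = 0)
    (D₀ : Place K0 (laurentBaseChange K0 (modularFunctionFieldFull N)) → ℤ)
    (hfib : ∀ w : Place Kb (modularFunctionFieldBar N), D₀ (restrX0 N K0 w) = D w)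
    {h₀ : laurentBaseChange K0 (modularFunctionFieldFull N)} (hh0 : h₀ ≠ 0)
    (hh : ∀ v : Place K0 (laurentBaseChange K0 (modularFunctionFieldFull N)), -D₀ v ≤ v.ord h₀) :
    ∃ h : modularFunctionFieldBar N, h ≠ 0 ∧
      ∀ w : Place Kb (modularFunctionFieldBar N), w.ord h = D w := by
  refine ⟨(toBar (modularFunctionFieldFull N) K0 h₀)⁻¹, inv_ne_zero (toBar_ne_zero hh0),
    fun w => (eq_ord_inv_toBar D hD hh0 (fun w' => ?_) w).symm⟩
  rw [← hfib w']
  exact hh _

/-- **(V17), last step, for `D₀ = divisorBelow N K0 D`** when `n D = div f₀`, `n ≠ 0`, `f₀` in the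
`K0`-form. -/
theorem exists_ord_eq_of_divisorBelow (D : Divisor Kb (modularFunctionFieldBar N))
    (hD : Divisor.degree D = 0) {n : ℤ} (hn : n ≠ 0)
    {f₀ : laurentBaseChange K0 (modularFunctionFieldFull N)}
    (hord : ∀ w : Place Kb (modularFunctionFieldBar N),
      w.ord (toBar (modularFunctionFieldFull N) K0 f₀) = n * D w)
    {h₀ : laurentBaseChange K0 (modularFunctionFieldFull N)} (hh0 : h₀ ≠ 0)
    (hh : ∀ v : Place K0 (laurentBaseChange K0 (modularFunctionFieldFull N)),
      -divisorBelow N K0 D v ≤ v.ord h₀) :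
    ∃ h : modularFunctionFieldBar N, h ≠ 0 ∧
      ∀ w : Place Kb (modularFunctionFieldBar N), w.ord h = D w :=
  exists_ord_eq_of_global_section D hD (fun v => divisorBelow N K0 D v)
    (fun w => divisorBelow_restrX0 hn hord w) hh0 hh

end Fermat.Agent.S36.GlobalSectionBar
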