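/-
PROJECT V (S36), Stage-0 design-independent slice (helper18): the Kummer function of an
`I`-invariant torsion class of `J₀(N)` LIVES IN THE `K0`-FORM of the function field.

`exists_kummer_K0form` : for a subgroup `I` of `Gal(ℚ̄/ℚ)` with fixed field `K0 = ℚ̄^I`, every
`I`-invariant `y : JZero N` with `n • y = 0` is the class of an `I`-invariant degree-zero divisor
`D` with `n D = div f`, where `f = toBar f₀` for some `f₀` in
`laurentBaseChange K0 (modularFunctionFieldFull N)` (the function field of `X₀(N)` over `K0`,
inside `K0((q))`), normalised by leading `q`-coefficient `1`.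
-/
import Mathlib
import Fermat.Agent.S36.K0DescentX0
import Fermat.Agent.S36.K0Fixed

set_option autoImplicit false
set_option linter.unusedSectionVars false
set_option linter.style.haveILetI false

noncomputable section

namespace Fermat.Agent.S36.K0FixedX0

open AlgebraicCurve ModularCurve HahnSeries
open Fermat.Agent.S36.K0DescentLaurent Fermat.Agent.S36.K0DescentX0 Fermat.Agent.S36.K0Fixed

local notation "Kb" => AlgebraicClosure ℚ

variable (N : ℕ) [NeZero N]

/-- **Descent to the inertia field, `K0`-form.** -/
theorem exists_kummer_K0form (I : Subgroup (Kb ≃ₐ[ℚ] Kb)) {n : ℕ} (y : JZero N)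
    (hy : ∀ σ ∈ I, σ • y = y) (hny : (n : ℤ) • y = 0) :
    ∃ (D : Divisor.degZero (K := Kb) (F := modularFunctionFieldBar N))
      (f₀ : laurentBaseChange (IntermediateField.fixedField I) (modularFunctionFieldFull N)),
      Pic0.mk D = y ∧ f₀ ≠ 0 ∧
      (∀ w : Place Kb (modularFunctionFieldBar N),
        w.ord (toBar (modularFunctionFieldFull N) (IntermediateField.fixedField I) f₀) =
          n * (D : Divisor Kb (modularFunctionFieldBar N)) w) ∧
      (∀ σ ∈ I, arithmeticGalois (modularFunctionFieldFull N) σ •
        (D : Divisor Kb (modularFunctionFieldBar N)) = (D : Divisor Kb (modularFunctionFieldBar N))) ∧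
      qLead (modularFunctionFieldFull N)
        (toBar (modularFunctionFieldFull N) (IntermediateField.fixedField I) f₀) = 1 := by
  haveI : Algebra.IsAlgebraic ℚ Kb := AlgebraicClosure.isAlgebraic ℚ
  obtain ⟨D, f, hD, hf0, hord, hDinv, hfinv, hlead⟩ := exists_invariant_kummer_X0 N I y hy hny
  have hmem : f ∈ Set.range (toBar (modularFunctionFieldFull N) (IntermediateField.fixedField I)) := by
    rw [range_toBar_fixedField]
    exact hfinv
  obtain ⟨f₀, rfl⟩ := hmem
  refine ⟨D, f₀, hD, ?_, hord, hDinv, hlead⟩
  rintro rfl
  exact hf0 (map_zero _)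

end Fermat.Agent.S36.K0FixedX0
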