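/-
PROJECT V (S36), assembly layer 0 (helper6): **the Kummer form of (NEW-I), over the inertia
field.**

`newInertiaHyp_of_kummerNew` : `NewInertiaHyp M' q p` follows from `KummerNewHyp M' q p I k`
(`I = A.inertiaSubgroupIn ℚ`, `k ≠ 0`), a statement about the following data ONLY:

* an `I`-invariant divisor `D` of degree zero on `X₀(M' q)` and a function `f₀` of the `K0`-form
  `F0(M' q) = laurentBaseChange K0 (modularFunctionFieldFull (M' q))` of the function field
  (`K0 = ℚ̄^I`), with `p^a D = div f₀` and leading `q`-coefficient `1`;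
* `K0`-RATIONAL Kummer data for the two push-forwards: `N_α f₀ = c₁ g₁ ^ p^a`,
  `N_β f₀ = c₂ g₂ ^ p^a` with `g₁, g₂ ∈ F0(M')`, `c₁, c₂ ∈ K0`, `div g₁ = α_* D`,
  `div g₂ = β_* D`;

and asks for `k D` to be principal.

Ingredients: `K0FixedX0.exists_kummer_K0form` (helper18), `S35/PushKummer` (helper8), the
Galois-equivariance of the norm (`normAlong_smul`) and the normalisation of a function with
invariant divisor by its leading coefficient (`smul_eq_self_of_divisor_invariant`).
-/
import Mathlib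
import Fermat.Agent.S36.K0FixedX0
import Fermat.Agent.S36.OfNewInertia
import Fermat.Agent.S35.PushKummer

set_option autoImplicit false
set_option linter.unusedSectionVars false
set_option linter.style.haveILetI false

noncomputable section

namespace Fermat.Agent.S36.KummerNew

open ModularCurve AlgebraicCurve
open Fermat.Agent.S24.DegreeAlg Fermat.Agent.S18.A.Instances
open Fermat.Agent.S37.Hecke.Integral Fermat.Agent.S35.LevelMaps
open Fermat.Agent.S35.DegeneracyHecke Fermat.Agent.S35.DegeneracyGalois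
open Fermat.Agent.S35.PushKummer Fermat.Agent.S36.OfNewInertia
open Fermat.Agent.S36.K0DescentLaurent Fermat.Agent.S36.K0Fixed

local notation "Kb" => AlgebraicClosure ℚ
local notation "GQ" => (AlgebraicClosure ℚ ≃ₐ[ℚ] AlgebraicClosure ℚ)

/-! ### Galois-equivariance of the norm -/

section Norm

variable {N N' : ℕ} [NeZero N] [NeZero N']

/-- **the norm along an equivariant homomorphism is `G_ℚ`-equivariant** -/
theorem normAlong_smul {φ : E N →ₐ[Kb] E N'} {σ : GQ} (h : Equivariant φ σ) (f : E N') :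
    normAlong φ (arithmeticGalois (modularFunctionFieldFull N') σ • f)
      = arithmeticGalois (modularFunctionFieldFull N) σ • normAlong φ f := by
  letI := algebraAlong φ
  have he : RingHom.comp (algebraMap (E N) (E N'))
        ((SemilinearAut.toRingAut (arithmeticGalois (modularFunctionFieldFull N) σ) :
          E N ≃+* E N) : E N →+* E N)
      = RingHom.comp ((SemilinearAut.toRingAut
          (arithmeticGalois (modularFunctionFieldFull N') σ) : E N' ≃+* E N') : E N' →+* E N')
        (algebraMap (E N) (E N')) :=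
    RingHom.ext fun x => (h x).symm
  have key := Algebra.norm_eq_of_equiv_equiv
    (SemilinearAut.toRingAut (arithmeticGalois (modularFunctionFieldFull N) σ))
    (SemilinearAut.toRingAut (arithmeticGalois (modularFunctionFieldFull N') σ)) he f
  rw [normAlong_def, normAlong_def, SemilinearAut.smul_def, SemilinearAut.smul_def]
  rw [key, RingEquiv.apply_symm_apply]

end Norm

/-! ### Functions with invariant divisor -/

section Invariant

variable (N : ℕ) [NeZero N]

/-- **a function with `I`-invariant divisor and leading coefficient `1` is `I`-fixed** -/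
theorem smul_eq_self_of_divisor_invariant (I : Subgroup GQ) {g : E N} (hg : g ≠ 0)
    (Dg : Divisor Kb (E N)) (hDg : ∀ v : Place Kb (E N), v.ord g = Dg v)
    (hinv : ∀ σ ∈ I, arithmeticGalois (modularFunctionFieldFull N) σ • Dg = Dg)
    (hlead : qLead (modularFunctionFieldFull N) g = 1) :
    ∀ σ ∈ I, arithmeticGalois (modularFunctionFieldFull N) σ • g = g := by
  intro σ hσ
  set h := arithmeticGalois (modularFunctionFieldFull N) σ with hh
  have hhg : h • g ≠ 0 := by
    rw [Ne, smul_eq_zero_iff_eq]; exact hg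
  have hord : ∀ w : Place Kb (E N), w.ord (h • g / g) = 0 := fun w => by
    rw [Fermat.Agent.S34.CoreZOfPrincipal.ord_div' w hhg hg, hDg w]
    have e1 : w.ord (h • g) = (h⁻¹ • w).ord g := by
      have e := SemilinearAut.ord_smul h (h⁻¹ • w) g
      rwa [smul_inv_smul] at e
    rw [e1, hDg (h⁻¹ • w)]
    have e2 : Dg (h⁻¹ • w) = Dg w := by
      have e := SemilinearAut.divisor_smul_apply h Dg w
      rw [hinv σ hσ] at e
      exact e.symm
    rw [e2]; ring
  obtain ⟨c, hc, hcu⟩ := Fermat.Agent.S34.CoreZX0OfPrincipal.exists_const_of_ord_eq_zero N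
    (h • g / g) (div_ne_zero hhg hg) hord
  have hhgc : h • g = algebraMap Kb (E N) c * g := by
    rw [← hcu, div_mul_cancel₀ _ hg]
  have hc1 : c = 1 := by
    have e1 : qLead (modularFunctionFieldFull N) (h • g) = 1 := by
      rw [hh, qLead_arithmeticGalois_smul, hlead, map_one]
    rw [hhgc, qLead_const_mul, hlead, mul_one] at e1
    exact e1
  rw [hhgc, hc1, map_one, one_mul]

/-- a constant function fixed by `I` is a constant of the fixed field -/
theorem const_mem_fixedField (I : Subgroup GQ) {c : Kb}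
    (hc : ∀ σ ∈ I, arithmeticGalois (modularFunctionFieldFull N) σ • algebraMap Kb (E N) c
      = algebraMap Kb (E N) c) : c ∈ IntermediateField.fixedField I := by
  rintro ⟨σ, hσ⟩
  have h1 := hc σ hσ
  rw [SemilinearAut.smul_algebraMap, baseAut_arithmeticGalois] at h1
  exact (algebraMap Kb (E N)).injective h1

end Invariant

/-! ### The Kummer form of (NEW-I) -/

section Main

/-- the function field of `X₀(N)` over the fixed field of `I` (inside `K0((q))`) -/
abbrev F0 (I : Subgroup GQ) (N : ℕ) :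
    IntermediateField (IntermediateField.fixedField I)
      (LaurentSeries (IntermediateField.fixedField I)) :=
  laurentBaseChange (IntermediateField.fixedField I) (modularFunctionFieldFull N)

/-- the coefficientwise embedding `F0(N) → ℚ̄(X₀(N))` -/
abbrev toE (I : Subgroup GQ) (N : ℕ) : F0 I N →+* E N :=
  toBar (modularFunctionFieldFull N) (IntermediateField.fixedField I)

variable (M' q p : ℕ) [NeZero M'] [NeZero q] [NeZero (M' * q)]

/-- **The Kummer form of (NEW-I)** for a subgroup `I` of `G_ℚ` and a constant `k`: for every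
`I`-invariant divisor `D` with `p^a D = div f₀`, `f₀` defined over `K0 = ℚ̄^I`, whose two norms are
`K0`-rational constants times `p^a`-th powers of `K0`-rational functions with divisors
`α_* D`, `β_* D`, the divisor `k D` is principal. -/
def KummerNewHyp (I : Subgroup GQ) (k : ℕ) : Prop :=
  ∀ (a : ℕ) (D : Divisor.degZero (K := Kb) (F := E (M' * q)))
    (f₀ : F0 I (M' * q)) (g₁ g₂ : F0 I M') (c₁ c₂ : IntermediateField.fixedField I),
    f₀ ≠ 0 → g₁ ≠ 0 → g₂ ≠ 0 → c₁ ≠ 0 → c₂ ≠ 0 →
    (∀ w : Place Kb (E (M' * q)),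
      w.ord (toE I (M' * q) f₀) = ((p ^ a : ℕ) : ℤ) * (D : Divisor Kb (E (M' * q))) w) →
    (∀ σ ∈ I, arithmeticGalois (modularFunctionFieldFull (M' * q)) σ •
      (D : Divisor Kb (E (M' * q))) = (D : Divisor Kb (E (M' * q)))) →
    qLead (modularFunctionFieldFull (M' * q)) (toE I (M' * q) f₀) = 1 →
    normAlong (heckeAlphaBar Kb M' q) (toE I (M' * q) f₀)
      = algebraMap Kb (E M') (c₁ : Kb) * toE I M' g₁ ^ (p ^ a) →
    (∀ v : Place Kb (E M'), v.ord (toE I M' g₁)
      = push (heckeAlphaBar Kb M' q) (D : Divisor Kb (E (M' * q))) v) →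
    normAlong (heckeBetaBar Kb M' q) (toE I (M' * q) f₀)
      = algebraMap Kb (E M') (c₂ : Kb) * toE I M' g₂ ^ (p ^ a) →
    (∀ v : Place Kb (E M'), v.ord (toE I M' g₂)
      = push (heckeBetaBar Kb M' q) (D : Divisor Kb (E (M' * q))) v) →
    ∃ h : E (M' * q), h ≠ 0 ∧
      ∀ w : Place Kb (E (M' * q)), w.ord h = (k : ℤ) * (D : Divisor Kb (E (M' * q))) w

variable {M' q p}

/-- `K0`-rational Kummer data for one push-forward -/
theorem exists_K0_norm_data (I : Subgroup GQ) {φ : E M' →ₐ[Kb] E (M' * q)}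
    (hφ : ∀ σ : GQ, Equivariant φ σ)
    (D : Divisor.degZero (K := Kb) (F := E (M' * q))) (f₀ : F0 I (M' * q)) (hf₀ : f₀ ≠ 0) (n : ℕ)
    (hord : ∀ w : Place Kb (E (M' * q)),
      w.ord (toE I (M' * q) f₀) = (n : ℤ) * (D : Divisor Kb (E (M' * q))) w)
    (hDinv : ∀ σ ∈ I, arithmeticGalois (modularFunctionFieldFull (M' * q)) σ •
      (D : Divisor Kb (E (M' * q))) = (D : Divisor Kb (E (M' * q))))
    (h0 : pushJ φ (Pic0.mk D) = 0) :
    ∃ (g₁ : F0 I M') (c₁ : IntermediateField.fixedField I), g₁ ≠ 0 ∧ c₁ ≠ 0 ∧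
      normAlong φ (toE I (M' * q) f₀) = algebraMap Kb (E M') (c₁ : Kb) * toE I M' g₁ ^ n ∧
      ∀ v : Place Kb (E M'), v.ord (toE I M' g₁) = push φ (D : Divisor Kb (E (M' * q))) v := by
  haveI : Algebra.IsAlgebraic ℚ Kb := AlgebraicClosure.isAlgebraic ℚ
  have hf : toE I (M' * q) f₀ ≠ 0 := fun h => hf₀ ((toE I (M' * q)).injective (by rw [h, map_zero]))
  obtain ⟨g, c, hg, hc, hN, hgD⟩ := exists_norm_eq_const_mul_pow φ D hf n hord h0
  -- normalise `g` by its leading coefficient
  have hl0 : qLead (modularFunctionFieldFull M') g ≠ 0 := qLead_ne_zero _ g hg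
  set l : Kb := qLead (modularFunctionFieldFull M') g with hl
  set g' : E M' := algebraMap Kb (E M') l⁻¹ * g with hg'
  have hlF : algebraMap Kb (E M') l⁻¹ ≠ 0 := by
    rw [Ne, map_eq_zero]; exact inv_ne_zero hl0
  have hg'0 : g' ≠ 0 := mul_ne_zero hlF hg
  have hlead' : qLead (modularFunctionFieldFull M') g' = 1 := by
    rw [hg', qLead_const_mul, ← hl, inv_mul_cancel₀ hl0]
  have hordc : ∀ (v : Place Kb (E M')) (b : Kb), b ≠ 0 → v.ord (algebraMap Kb (E M') b) = 0 := by
    intro v b hb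
    have hmem : algebraMap Kb (E M') b ∈ v.toValuationSubring := v.algebraMap_mem' _
    have hmem' : algebraMap Kb (E M') b⁻¹ ∈ v.toValuationSubring := v.algebraMap_mem' _
    have e1 : algebraMap Kb (E M') b * algebraMap Kb (E M') b⁻¹ = 1 := by
      rw [← map_mul, mul_inv_cancel₀ hb, map_one]
    have e2 : algebraMap Kb (E M') b⁻¹ * algebraMap Kb (E M') b = 1 := by
      rw [mul_comm]; exact e1
    let u : v.toValuationSubringˣ :=
      ⟨⟨_, hmem⟩, ⟨_, hmem'⟩, Subtype.ext e1, Subtype.ext e2⟩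
    exact v.ord_coe_unit u
  have hordg' : ∀ v : Place Kb (E M'), v.ord g' = push φ (D : Divisor Kb (E (M' * q))) v :=
    fun v => by
      rw [hg', v.ord_mul hlF hg, hordc v _ (inv_ne_zero hl0), zero_add, hgD v]
  -- the push-forward of `D` is `I`-invariant
  have hpinv : ∀ σ ∈ I, arithmeticGalois (modularFunctionFieldFull M') σ •
      push φ (D : Divisor Kb (E (M' * q))) = push φ (D : Divisor Kb (E (M' * q))) :=
    fun σ hσ => by rw [← push_smul (hφ σ), hDinv σ hσ]
  have hfix : ∀ σ ∈ I, arithmeticGalois (modularFunctionFieldFull M') σ • g' = g' :=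
    smul_eq_self_of_divisor_invariant M' I hg'0 _ hordg' hpinv hlead'
  have hmem : g' ∈ Set.range (toE I M') := by
    rw [range_toBar_fixedField]
    exact hfix
  obtain ⟨g₁, hg₁⟩ := hmem
  -- the constant
  set c' : Kb := c * l ^ n with hc'
  have hc'0 : c' ≠ 0 := mul_ne_zero hc (pow_ne_zero n hl0)
  have hN' : normAlong φ (toE I (M' * q) f₀) = algebraMap Kb (E M') c' * g' ^ n := by
    have hlE : algebraMap Kb (E M') l ≠ 0 := (map_ne_zero _).mpr hl0
    rw [hN, hc', hg']
    simp only [map_mul, map_pow, map_inv₀, mul_pow]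
    rw [inv_pow, mul_assoc, ← mul_assoc ((algebraMap Kb (E M') l) ^ n),
      mul_inv_cancel₀ (pow_ne_zero n hlE), one_mul]
  have hfixf : ∀ σ ∈ I, arithmeticGalois (modularFunctionFieldFull (M' * q)) σ •
      toE I (M' * q) f₀ = toE I (M' * q) f₀ := fun σ hσ =>
    arithmeticGalois_smul_toBar _ _ σ
      (fun c : IntermediateField.fixedField I => c.2 ⟨σ, hσ⟩) f₀
  have hcfix : c' ∈ IntermediateField.fixedField I := by
    refine const_mem_fixedField M' I fun σ hσ => ?_
    have hgn : g' ^ n ≠ 0 := pow_ne_zero n hg'0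
    have e1 : algebraMap Kb (E M') c' = normAlong φ (toE I (M' * q) f₀) / g' ^ n := by
      rw [hN', mul_div_assoc, div_self hgn, mul_one]
    rw [e1, smul_div₀', smul_pow', hfix σ hσ, ← normAlong_smul (hφ σ), hfixf σ hσ]
  refine ⟨g₁, ⟨c', hcfix⟩, ?_, ?_, ?_, ?_⟩
  · rintro rfl
    rw [map_zero] at hg₁
    exact hg'0 hg₁.symm
  · intro h
    exact hc'0 (congrArg Subtype.val h)
  · rw [hg₁]; exact hN'
  · rw [hg₁]; exact hordg'

/-- **(NEW-I) from its Kummer form over the inertia field.** -/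
theorem newInertiaHyp_of_kummerNew
    (H : ∃ A : ValuationSubring Kb, A.LiesOverPrime q ∧ ∃ k : ℕ, k ≠ 0 ∧
      KummerNewHyp M' q p (A.inertiaSubgroupIn ℚ) k) : NewInertiaHyp M' q p := by
  obtain ⟨A, hA, k, hk, HK⟩ := H
  refine ⟨A, hA, k, hk, ?_⟩
  intro y hy hα hβ hI
  obtain ⟨a, ha⟩ := hy
  have hny : ((p ^ a : ℕ) : ℤ) • y = 0 := by rw [natCast_zsmul]; exact ha
  obtain ⟨D, f₀, rfl, hf₀, hord, hDinv, hlead⟩ :=
    Fermat.Agent.S36.K0FixedX0.exists_kummer_K0form (M' * q) (A.inertiaSubgroupIn ℚ) y hI hny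
  obtain ⟨g₁, c₁, hg₁, hc₁, hN₁, hD₁⟩ := exists_K0_norm_data (A.inertiaSubgroupIn ℚ)
    (fun σ => equivariant_of_isIncl (isIncl_alpha M' q) σ) D f₀ hf₀ (p ^ a) hord hDinv hα
  obtain ⟨g₂, c₂, hg₂, hc₂, hN₂, hD₂⟩ := exists_K0_norm_data (A.inertiaSubgroupIn ℚ)
    (fun σ => equivariant_of_isDil (isDil_beta M' q) σ) D f₀ hf₀ (p ^ a) hord hDinv hβ
  obtain ⟨h, hh, hhD⟩ := HK a D f₀ g₁ g₂ c₁ c₂ hf₀ hg₁ hg₂ hc₁ hc₂ hord hDinv hlead
    hN₁ hD₁ hN₂ hD₂
  -- `k D` is principal
  have h3 : k • Pic0.mk D = Pic0.mk (k • D) := (QuotientAddGroup.mk_nsmul _ _ _).symm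
  rw [h3]
  refine (QuotientAddGroup.eq_zero_iff _).mpr ?_
  rw [AddSubgroup.mem_addSubgroupOf]
  refine ⟨h, hh, fun w => ?_⟩
  rw [hhD w, AddSubgroup.coe_nsmul, Finsupp.smul_apply, nsmul_eq_mul]

end Main

end Fermat.Agent.S36.KummerNew
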