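/-
PROJECT V (S36), assembly layer 1, wiring (helper6) = chain (V5): **the value argument (A2) on the
data of `KummerNewHyp`.**

`ValDatum M1 q I` bundles what the three-valuation slice (V4) and the `K0`-power bases (V3) owe for
this step: an `UnitNormal.Setting` on `F₁ = F0 I M1`, `F₂ = F0 I (M1 q)` whose maps `N₁ N₂` are the
`K0`-forms of the norms along the two degeneracy maps, for which nonzero constants of `K0` are
constants, and `π' ∈ K0`.

`UnitKummerHyp V p k'` is `KummerNewHyp` for Kummer functions which are UNITS at `W₂₀ W₁₁ W₀₂`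
(no normalisation of the leading coefficient any more), and

`kummerNewHyp_of_unitKummerHyp : UnitKummerHyp V p k' → KummerNewHyp M1 q p I ((q + 1) * k')`.
-/
import Mathlib
import Fermat.Agent.S36.KummerNew
import Fermat.Agent.S36.UnitNormal

set_option autoImplicit false
set_option linter.unusedSectionVars false
set_option linter.style.haveILetI false

noncomputable section

namespace Fermat.Agent.S36.UnitGen

open ModularCurve AlgebraicCurve
open Fermat.Agent.S24.DegreeAlg Fermat.Agent.S18.A.Instances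
open Fermat.Agent.S37.Hecke.Integral Fermat.Agent.S35.LevelMaps
open Fermat.Agent.S35.DegeneracyHecke Fermat.Agent.S35.DegeneracyGalois
open Fermat.Agent.S35.PushKummer
open Fermat.Agent.S36.K0DescentLaurent Fermat.Agent.S36.K0Fixed Fermat.Agent.S36.KummerNew

local notation "Kb" => AlgebraicClosure ℚ
local notation "GQ" => (AlgebraicClosure ℚ ≃ₐ[ℚ] AlgebraicClosure ℚ)

/-! ### multiplicative maps between fields -/

section MonoidHom

variable {F₁ F₂ : Type*} [Field F₁] [Field F₂]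

theorem monoidHom_ne_zero (N : F₂ →* F₁) {x : F₂} (hx : x ≠ 0) : N x ≠ 0 := by
  intro h0
  have h : N x * N x⁻¹ = 1 := by rw [← map_mul, mul_inv_cancel₀ hx, map_one]
  rw [h0, zero_mul] at h
  exact zero_ne_one h

theorem monoidHom_map_inv (N : F₂ →* F₁) {x : F₂} (hx : x ≠ 0) : N x⁻¹ = (N x)⁻¹ := by
  have h : N x * N x⁻¹ = 1 := by rw [← map_mul, mul_inv_cancel₀ hx, map_one]
  exact eq_inv_of_mul_eq_one_right h

theorem monoidHom_map_zpow (N : F₂ →* F₁) {x : F₂} (hx : x ≠ 0) (z : ℤ) :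
    N (x ^ z) = N x ^ z := by
  cases z with
  | ofNat n => simp only [Int.ofNat_eq_natCast, zpow_natCast, map_pow]
  | negSucc n =>
    rw [zpow_negSucc, zpow_negSucc, monoidHom_map_inv N (pow_ne_zero _ hx), map_pow]

end MonoidHom

/-! ### the divisor of a function, as an element of `Div⁰` -/

section DivOf

variable {N : ℕ} [NeZero N]

/-- the divisor of a nonzero function -/
def divOf (x : E N) (hx : x ≠ 0) : Divisor.degZero (K := Kb) (F := E N) :=
  haveI := hasPrincipalDivisors_bar N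
  ⟨Classical.choose (HasPrincipalDivisors.exists_divisor (K := Kb) x hx),
    Divisor.mem_degZero.mpr
      (Classical.choose_spec (HasPrincipalDivisors.exists_divisor (K := Kb) x hx)).2⟩

theorem divOf_apply (x : E N) (hx : x ≠ 0) (w : Place Kb (E N)) :
    (divOf x hx : Divisor Kb (E N)) w = w.ord x :=
  haveI := hasPrincipalDivisors_bar N
  (Classical.choose_spec (HasPrincipalDivisors.exists_divisor (K := Kb) x hx)).1 w

/-- the divisor of an `I`-fixed function is `I`-invariant -/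
theorem smul_divOf_of_fixed (x : E N) (hx : x ≠ 0) (σ : GQ)
    (hfix : arithmeticGalois (modularFunctionFieldFull N) σ • x = x) :
    arithmeticGalois (modularFunctionFieldFull N) σ • (divOf x hx : Divisor Kb (E N))
      = (divOf x hx : Divisor Kb (E N)) := by
  ext w
  rw [SemilinearAut.divisor_smul_apply, divOf_apply, divOf_apply]
  have h := SemilinearAut.ord_smul (arithmeticGalois (modularFunctionFieldFull N) σ)
    ((arithmeticGalois (modularFunctionFieldFull N) σ)⁻¹ • w) x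
  rw [smul_inv_smul, hfix] at h
  exact h.symm

end DivOf

/-! ### the datum -/

section Datum

variable (M1 q : ℕ) [NeZero M1] [NeZero q] [NeZero (M1 * q)] (I : Subgroup GQ)

/-- **What (V3) + (V4) owe for the value argument.** -/
structure ValDatum where
  /-- the three discrete valuation subrings of `F₂`, the two of `F₁`, the `K0`-norms and the four
  value formulas -/
  X : UnitNormal.Setting (F0 I M1) (F0 I (M1 * q))
  hq : X.q = q
  /-- `N₁` is the `K0`-form of the norm along `α` -/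
  hN₁ : ∀ y : F0 I (M1 * q),
    toE I M1 (X.N₁ y) = normAlong (heckeAlphaBar Kb M1 q) (toE I (M1 * q) y)
  /-- `N₂` is the `K0`-form of the norm along `β` -/
  hN₂ : ∀ y : F0 I (M1 * q),
    toE I M1 (X.N₂ y) = normAlong (heckeBetaBar Kb M1 q) (toE I (M1 * q) y)
  /-- nonzero constants of `K0` have the same value at `V₁` and `V₂` -/
  const : ∀ c : IntermediateField.fixedField I, c ≠ 0 →
    X.IsConst (algebraMap (IntermediateField.fixedField I) (F0 I M1) c)
  /-- `π'` is a constant -/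
  hπ' : ∃ c : IntermediateField.fixedField I, c ≠ 0 ∧
    X.π' = algebraMap (IntermediateField.fixedField I) (F0 I (M1 * q)) c
  /-- the norms of constants are constants -/
  N₁_const : ∀ c : IntermediateField.fixedField I, c ≠ 0 →
    ∃ c' : IntermediateField.fixedField I, c' ≠ 0 ∧
      X.N₁ (algebraMap (IntermediateField.fixedField I) (F0 I (M1 * q)) c)
        = algebraMap (IntermediateField.fixedField I) (F0 I M1) c'
  N₂_const : ∀ c : IntermediateField.fixedField I, c ≠ 0 →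
    ∃ c' : IntermediateField.fixedField I, c' ≠ 0 ∧
      X.N₂ (algebraMap (IntermediateField.fixedField I) (F0 I (M1 * q)) c)
        = algebraMap (IntermediateField.fixedField I) (F0 I M1) c'

variable {M1 q I}

/-- **The Kummer form of (NEW-I) for Kummer functions which are units at the three vertical
valuations.** -/
def UnitKummerHyp (V : ValDatum M1 q I) (p k' : ℕ) : Prop :=
  ∀ (a : ℕ) (D : Divisor.degZero (K := Kb) (F := E (M1 * q)))
    (f₀ : F0 I (M1 * q)) (g₁ g₂ : F0 I M1) (c₁ c₂ : IntermediateField.fixedField I),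
    f₀ ≠ 0 → g₁ ≠ 0 → g₂ ≠ 0 → c₁ ≠ 0 → c₂ ≠ 0 →
    (∀ w : Place Kb (E (M1 * q)),
      w.ord (toE I (M1 * q) f₀) = ((p ^ a : ℕ) : ℤ) * (D : Divisor Kb (E (M1 * q))) w) →
    (∀ σ ∈ I, arithmeticGalois (modularFunctionFieldFull (M1 * q)) σ •
      (D : Divisor Kb (E (M1 * q))) = (D : Divisor Kb (E (M1 * q)))) →
    V.X.W₂₀.valuation f₀ = 1 → V.X.W₁₁.valuation f₀ = 1 → V.X.W₀₂.valuation f₀ = 1 →
    V.X.N₁ f₀ = algebraMap (IntermediateField.fixedField I) (F0 I M1) c₁ * g₁ ^ (p ^ a) →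
    (∀ v : Place Kb (E M1), v.ord (toE I M1 g₁)
      = push (heckeAlphaBar Kb M1 q) (D : Divisor Kb (E (M1 * q))) v) →
    V.X.N₂ f₀ = algebraMap (IntermediateField.fixedField I) (F0 I M1) c₂ * g₂ ^ (p ^ a) →
    (∀ v : Place Kb (E M1), v.ord (toE I M1 g₂)
      = push (heckeBetaBar Kb M1 q) (D : Divisor Kb (E (M1 * q))) v) →
    ∃ h : E (M1 * q), h ≠ 0 ∧
      ∀ w : Place Kb (E (M1 * q)), w.ord h = (k' : ℤ) * (D : Divisor Kb (E (M1 * q))) w

/-- `toE` of a constant -/
theorem toE_const (N : ℕ) (c : IntermediateField.fixedField I) :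
    toE I N (algebraMap (IntermediateField.fixedField I) (F0 I N) c)
      = algebraMap Kb (E N) (c : Kb) :=
  toBar_algebraMap _ _ c

theorem toE_ne_zero (N : ℕ) {x : F0 I N} (hx : x ≠ 0) : toE I N x ≠ 0 := fun h =>
  hx ((toE I N).injective (by rw [h, map_zero]))

/-- elements of `F0` are `I`-fixed -/
theorem smul_toE (N : ℕ) (x : F0 I N) (σ : GQ) (hσ : σ ∈ I) :
    arithmeticGalois (modularFunctionFieldFull N) σ • toE I N x = toE I N x :=
  haveI : Algebra.IsAlgebraic ℚ Kb := AlgebraicClosure.isAlgebraic ℚ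
  arithmeticGalois_smul_toBar _ _ σ
    (fun c : IntermediateField.fixedField I => c.2 ⟨σ, hσ⟩) x

/-- the new norm data -/
theorem norm_data {N : F0 I (M1 * q) →* F0 I M1}
    (hNc : ∀ c : IntermediateField.fixedField I, c ≠ 0 →
      ∃ c' : IntermediateField.fixedField I, c' ≠ 0 ∧
        N (algebraMap (IntermediateField.fixedField I) (F0 I (M1 * q)) c)
          = algebraMap (IntermediateField.fixedField I) (F0 I M1) c')
    {f₀ h : F0 I (M1 * q)} {g : F0 I M1} {c cπ : IntermediateField.fixedField I} {n : ℕ}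
    (hc : c ≠ 0) (hcπ : cπ ≠ 0) (hh : h ≠ 0) (m : ℤ)
    (hN : N f₀ = algebraMap (IntermediateField.fixedField I) (F0 I M1) c * g ^ n) :
    ∃ c' : IntermediateField.fixedField I, c' ≠ 0 ∧
      N (f₀ ^ (q + 1) * (algebraMap (IntermediateField.fixedField I) (F0 I (M1 * q)) cπ) ^ (-m)
          * h ^ (-(n : ℤ)))
        = algebraMap (IntermediateField.fixedField I) (F0 I M1) c' * (g ^ (q + 1) / N h) ^ n := by
  obtain ⟨d, hd0, hd⟩ := hNc cπ hcπ
  have hcπF : algebraMap (IntermediateField.fixedField I) (F0 I (M1 * q)) cπ ≠ 0 :=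
    (map_ne_zero _).mpr hcπ
  refine ⟨c ^ (q + 1) * d ^ (-m), mul_ne_zero (pow_ne_zero _ hc) (zpow_ne_zero _ hd0), ?_⟩
  have e1 : N (f₀ ^ (q + 1) * (algebraMap (IntermediateField.fixedField I) (F0 I (M1 * q)) cπ) ^ (-m)
      * h ^ (-(n : ℤ))) = N f₀ ^ (q + 1)
        * N (algebraMap (IntermediateField.fixedField I) (F0 I (M1 * q)) cπ) ^ (-m)
        * N h ^ (-(n : ℤ)) := by
    rw [map_mul, map_mul, map_pow, monoidHom_map_zpow N hcπF, monoidHom_map_zpow N hh]
  have hNh : N h ≠ 0 := monoidHom_ne_zero N hh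
  rw [e1, hN, hd, map_mul, map_pow, map_zpow₀, zpow_neg (N h), zpow_natCast]
  generalize (algebraMap (IntermediateField.fixedField I) (F0 I M1) d) ^ (-m) = Y
  rw [div_pow, mul_pow, ← pow_mul, ← pow_mul, mul_comm n (q + 1), div_eq_mul_inv]
  ring

end Datum

/-! ### the reduction -/

section Main

variable {M1 q : ℕ} [NeZero M1] [NeZero q] [NeZero (M1 * q)] {I : Subgroup GQ}

set_option maxHeartbeats 800000 in
/-- **(V5)**: the Kummer form of (NEW-I) from its unit form, with the factor `q + 1`. -/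
theorem kummerNewHyp_of_unitKummerHyp (V : ValDatum M1 q I) {p k' : ℕ}
    (H : UnitKummerHyp V p k') : KummerNewHyp M1 q p I ((q + 1) * k') := by
  intro a D f₀ g₁ g₂ c₁ c₂ hf₀ hg₁ hg₂ hc₁ hc₂ hord hDinv _hlead hN₁ hD₁ hN₂ hD₂
  set n : ℕ := p ^ a with hn
  -- the norm equations over `K0`
  have hN₁' : V.X.N₁ f₀ = algebraMap (IntermediateField.fixedField I) (F0 I M1) c₁ * g₁ ^ n := by
    apply (toE I M1).injective
    rw [V.hN₁, hN₁, map_mul, map_pow, toE_const]
  have hN₂' : V.X.N₂ f₀ = algebraMap (IntermediateField.fixedField I) (F0 I M1) c₂ * g₂ ^ n := by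
    apply (toE I M1).injective
    rw [V.hN₂, hN₂, map_mul, map_pow, toE_const]
  -- the value argument
  obtain ⟨h, m, hh0, hu₂₀, hu₁₁, hu₀₂⟩ := V.X.exists_unit_normalisation hf₀
    (V.const c₁ hc₁) (V.const c₂ hc₂) hg₁ hg₂ hN₁' hN₂'
  obtain ⟨cπ, hcπ0, hcπ⟩ := V.hπ'
  rw [V.hq, hcπ] at hu₂₀ hu₁₁ hu₀₂
  set f' : F0 I (M1 * q) :=
    f₀ ^ (q + 1) * (algebraMap (IntermediateField.fixedField I) (F0 I (M1 * q)) cπ) ^ (-m)
      * h ^ (-(n : ℤ)) with hf'
  have hcπF : algebraMap (IntermediateField.fixedField I) (F0 I (M1 * q)) cπ ≠ 0 :=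
    (map_ne_zero _).mpr hcπ0
  have hf'0 : f' ≠ 0 :=
    mul_ne_zero (mul_ne_zero (pow_ne_zero _ hf₀) (zpow_ne_zero _ hcπF)) (zpow_ne_zero _ hh0)
  -- the new divisor
  have hEh : toE I (M1 * q) h ≠ 0 := toE_ne_zero _ hh0
  set D' : Divisor.degZero (K := Kb) (F := E (M1 * q)) := (q + 1) • D - divOf _ hEh with hD'
  have hD'apply : ∀ w : Place Kb (E (M1 * q)), (D' : Divisor Kb (E (M1 * q))) w
      = ((q + 1 : ℕ) : ℤ) * (D : Divisor Kb (E (M1 * q))) w - w.ord (toE I (M1 * q) h) := by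
    intro w
    rw [hD', AddSubgroup.coe_sub, AddSubgroup.coe_nsmul, Finsupp.sub_apply, Finsupp.smul_apply,
      nsmul_eq_mul, divOf_apply]
  have hcπK : ((cπ : IntermediateField.fixedField I) : Kb) ≠ 0 := fun h0 => hcπ0 (Subtype.ext h0)
  have hord' : ∀ w : Place Kb (E (M1 * q)),
      w.ord (toE I (M1 * q) f') = ((p ^ a : ℕ) : ℤ) * (D' : Divisor Kb (E (M1 * q))) w := by
    intro w
    have hA : toE I (M1 * q) f₀ ^ (q + 1) ≠ 0 := pow_ne_zero _ (toE_ne_zero _ hf₀)
    have hB : (algebraMap Kb (E (M1 * q)) (cπ : Kb)) ^ (-m) ≠ 0 :=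
      zpow_ne_zero _ ((map_ne_zero _).mpr hcπK)
    have hC : toE I (M1 * q) h ^ (-(n : ℤ)) ≠ 0 := zpow_ne_zero _ hEh
    rw [hf', map_mul, map_mul, map_pow, map_zpow₀, map_zpow₀, toE_const,
      w.ord_mul (mul_ne_zero hA hB) hC, w.ord_mul hA hB, Fermat.Agent.S34.KummerZ.ord_pow,
      w.ord_zpow, w.ord_zpow, Fermat.Agent.S34.KummerZ.ord_algebraMap w hcπK, hord w, hD'apply w,
      ← hn]
    push_cast
    ring
  have hD'inv : ∀ σ ∈ I, arithmeticGalois (modularFunctionFieldFull (M1 * q)) σ •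
      (D' : Divisor Kb (E (M1 * q))) = (D' : Divisor Kb (E (M1 * q))) := by
    intro σ hσ
    ext w
    rw [SemilinearAut.divisor_smul_apply, hD'apply, hD'apply]
    have e1 : (D : Divisor Kb (E (M1 * q)))
        ((arithmeticGalois (modularFunctionFieldFull (M1 * q)) σ)⁻¹ • w)
        = (D : Divisor Kb (E (M1 * q))) w := by
      have e := SemilinearAut.divisor_smul_apply
        (arithmeticGalois (modularFunctionFieldFull (M1 * q)) σ) (D : Divisor Kb (E (M1 * q))) w
      rw [hDinv σ hσ] at e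
      exact e.symm
    have e2 : ((arithmeticGalois (modularFunctionFieldFull (M1 * q)) σ)⁻¹ • w).ord
        (toE I (M1 * q) h) = w.ord (toE I (M1 * q) h) := by
      have e := SemilinearAut.ord_smul (arithmeticGalois (modularFunctionFieldFull (M1 * q)) σ)
        ((arithmeticGalois (modularFunctionFieldFull (M1 * q)) σ)⁻¹ • w) (toE I (M1 * q) h)
      rw [smul_inv_smul, smul_toE _ _ σ hσ] at e
      exact e.symm
    rw [e1, e2]
  -- the new norm data
  obtain ⟨c₁', hc₁'0, hN₁f'⟩ := norm_data V.N₁_const hc₁ hcπ0 hh0 m hN₁'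
  obtain ⟨c₂', hc₂'0, hN₂f'⟩ := norm_data V.N₂_const hc₂ hcπ0 hh0 m hN₂'
  have hNh₁ : V.X.N₁ h ≠ 0 := monoidHom_ne_zero _ hh0
  have hNh₂ : V.X.N₂ h ≠ 0 := monoidHom_ne_zero _ hh0
  have hg₁' : g₁ ^ (q + 1) / V.X.N₁ h ≠ 0 := div_ne_zero (pow_ne_zero _ hg₁) hNh₁
  have hg₂' : g₂ ^ (q + 1) / V.X.N₂ h ≠ 0 := div_ne_zero (pow_ne_zero _ hg₂) hNh₂
  -- push-forward of the new divisor
  have hpush : ∀ (φ : E M1 →ₐ[Kb] E (M1 * q)) (v : Place Kb (E M1)),
      push φ (D' : Divisor Kb (E (M1 * q))) v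
        = ((q + 1 : ℕ) : ℤ) * push φ (D : Divisor Kb (E (M1 * q))) v
          - v.ord (normAlong φ (toE I (M1 * q) h)) := by
    intro φ v
    rw [ord_norm φ hEh (divOf _ hEh : Divisor Kb (E (M1 * q))) (fun w => divOf_apply _ hEh w) v,
      hD', AddSubgroup.coe_sub, AddSubgroup.coe_nsmul, map_sub, map_nsmul, Finsupp.sub_apply,
      Finsupp.smul_apply, nsmul_eq_mul]
  have hD₁' : ∀ v : Place Kb (E M1), v.ord (toE I M1 (g₁ ^ (q + 1) / V.X.N₁ h))
      = push (heckeAlphaBar Kb M1 q) (D' : Divisor Kb (E (M1 * q))) v := by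
    intro v
    rw [hpush, map_div₀, map_pow,
      Fermat.Agent.S34.CoreZOfPrincipal.ord_div' v (pow_ne_zero _ (toE_ne_zero _ hg₁))
        (toE_ne_zero _ hNh₁), Fermat.Agent.S34.KummerZ.ord_pow, hD₁ v, V.hN₁]
  have hD₂' : ∀ v : Place Kb (E M1), v.ord (toE I M1 (g₂ ^ (q + 1) / V.X.N₂ h))
      = push (heckeBetaBar Kb M1 q) (D' : Divisor Kb (E (M1 * q))) v := by
    intro v
    rw [hpush, map_div₀, map_pow,
      Fermat.Agent.S34.CoreZOfPrincipal.ord_div' v (pow_ne_zero _ (toE_ne_zero _ hg₂))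
        (toE_ne_zero _ hNh₂), Fermat.Agent.S34.KummerZ.ord_pow, hD₂ v, V.hN₂]
  obtain ⟨h', hh'0, hh'⟩ := H a D' f' _ _ c₁' c₂' hf'0 hg₁' hg₂' hc₁'0 hc₂'0 hord' hD'inv
    hu₂₀ hu₁₁ hu₀₂ hN₁f' hD₁' hN₂f' hD₂'
  refine ⟨h' * toE I (M1 * q) h ^ k', mul_ne_zero hh'0 (pow_ne_zero _ hEh), fun w => ?_⟩
  rw [w.ord_mul hh'0 (pow_ne_zero _ hEh), hh' w, Fermat.Agent.S34.KummerZ.ord_pow, hD'apply w]
  push_cast
  ring

end Main

end Fermat.Agent.S36.UnitGen
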