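import Mathlib
import Fermat.Agent.S36.NewInertiaDatum
import Fermat.Agent.S36.UnitGen
import Fermat.Agent.S36.GlobalSectionBar

/-!
# PROJECT V (S36), chain (V17), layer 4: from the assembly to `(NEW-I)`, hypotheses first

`SheafDatum k κ Pt R0 V p` (for `V : UnitGen.ValDatum M1 q I`, `q ‖ M1`) bundles what the X₀-side
owes to the final step:

* a `GlueNorm.Datum` `X` over `E M1` (level `q M''`, `ℚ̄`-form) and `F0 I (M1 q)` (level `q² M''`,
  `K0`-form) whose three valuation rings are those of `V`, whose norms are `toE ∘ V.X.N_i`, with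
  reductions of kernel the maximal ideals;
* for every Kummer function `Y : X.Kummer (p ^ a)` with `p ^ a • D = div (toE Y.f)`, `D` of degree
  zero and `I`-invariant: a two-chart model `C` with local generators `G` of the sheaf
  `O(e D)`, `e = (q - 1) (q² - 1)`, satisfying `NewInertiaDatum.Input`, with finitely generated
  `H¹`, and such that a common section `h ∈ C.LU ⊓ C.LU'` has `ord_v h ≥ -(e D)₀ v` at every
  `K0`-place `v` (`Lattice.ord_ge_of_mem_lat_inf`).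

`unitKummerHyp_of_sheafDatum : SheafDatum k κ Pt R0 V p → UnitKummerHyp V p ((q - 1) (q² - 1))`
(the constants `c_i` of the norm equations are absorbed as `n`-th powers in `ℚ̄`, the assembly
`NewInertiaDatum.exists_global_section` gives the section and helper14's
`GlobalSectionBar.exists_ord_eq_of_divisorBelow` closes over `ℚ̄`), hence

`newInertiaHyp_of_sheafDatum : … → OfNewInertia.NewInertiaHyp M1 q p`.
-/

set_option autoImplicit false
set_option linter.unusedSectionVars false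
set_option linter.style.haveILetI false

noncomputable section

namespace Fermat.Agent.S36.NewInertiaX0

open ModularCurve AlgebraicCurve
open Fermat.Agent.S35.LevelMaps Fermat.Agent.S35.PushKummer
open Fermat.Agent.S36.K0DescentLaurent Fermat.Agent.S36.K0Fixed Fermat.Agent.S36.KummerNew
open Fermat.Agent.S36.UnitGen Fermat.Agent.S36.GlueNorm Fermat.Agent.S36.SoftCore
open Fermat.Agent.S36.NewInertiaDatum Fermat.Agent.S36.OfNewInertia

local notation "Kb" => AlgebraicClosure ℚ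
local notation "GQ" => (AlgebraicClosure ℚ ≃ₐ[ℚ] AlgebraicClosure ℚ)

variable {M1 q : ℕ} [NeZero M1] [NeZero q] [NeZero (M1 * q)] {I : Subgroup GQ}

/-- **what the X₀-side owes to the final step** -/
structure SheafDatum (k κ Pt : Type*) [Field k] [Field κ] [Algebra k κ] (R0 : Type*) [CommRing R0]
    [Algebra R0 (F0 I (M1 * q))] (V : ValDatum M1 q I) (p : ℕ) where
  /-- the two-level datum -/
  X : Datum k κ (E M1) (F0 I (M1 * q)) Pt
  hW₂₀ : X.W₂₀ = V.X.W₂₀
  hW₁₁ : X.W₁₁ = V.X.W₁₁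
  hW₀₂ : X.W₀₂ = V.X.W₀₂
  hr₂₀ : ∀ x : ↥X.W₂₀, X.r₂₀ x = 0 ↔ X.W₂₀.valuation (x : F0 I (M1 * q)) < 1
  hr₁₁ : ∀ x : ↥X.W₁₁, X.r₁₁ x = 0 ↔ X.W₁₁.valuation (x : F0 I (M1 * q)) < 1
  hr₀₂ : ∀ x : ↥X.W₀₂, X.r₀₂ x = 0 ↔ X.W₀₂.valuation (x : F0 I (M1 * q)) < 1
  hN₁ : ∀ y : F0 I (M1 * q), X.N₁ y = toE I M1 (V.X.N₁ y)
  hN₂ : ∀ y : F0 I (M1 * q), X.N₂ y = toE I M1 (V.X.N₂ y)
  /-- the reduction of the constants -/
  π : R0 →+* k
  /-- the sheaf `O(e D)` on the two-chart model, for every Kummer function -/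
  sheaf : ∀ (a : ℕ) (D : Divisor Kb (E (M1 * q))), Divisor.degree D = 0 →
    (∀ σ ∈ I, arithmeticGalois (modularFunctionFieldFull (M1 * q)) σ • D = D) →
    ∀ Y : X.Kummer (p ^ a),
    (∀ w : Place Kb (E (M1 * q)), w.ord (toE I (M1 * q) Y.f) = ((p ^ a : ℕ) : ℤ) * D w) →
    ∃ (ι ι' : Type) (_ : Fintype ι) (_ : Fintype ι') (C : Charts R0 (F0 I (M1 * q)) ι ι')
      (G : LocalGen C), Nonempty (Input X C G Y π) ∧ C.FiniteH1 ∧
      ∀ h : F0 I (M1 * q), h ≠ 0 → h ∈ C.LU → h ∈ C.LU' →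
        ∀ v : Place (IntermediateField.fixedField I) (F0 I (M1 * q)),
          -GlobalSectionBar.divisorBelow (M1 * q) (IntermediateField.fixedField I)
            (((q - 1) * (q ^ 2 - 1)) • D) v ≤ v.ord h

variable {k κ Pt : Type*} [Field k] [Field κ] [Algebra k κ] {R0 : Type*} [CommRing R0]
  [Algebra R0 (F0 I (M1 * q))] {V : ValDatum M1 q I} {p : ℕ}

set_option maxHeartbeats 800000 in
/-- **(V17)**: the unit Kummer form of (NEW-I) with `k' = (q - 1) (q² - 1)`. -/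
theorem unitKummerHyp_of_sheafDatum [IsNoetherianRing R0] (S : SheafDatum k κ Pt R0 V p)
    (hp : 0 < p) : UnitKummerHyp V p ((q - 1) * (q ^ 2 - 1)) := by
  intro a D f₀ g₁ g₂ c₁ c₂ hf₀ hg₁ hg₂ hc₁ hc₂ hord hDinv hu₂₀ hu₁₁ hu₀₂ hN₁ hD₁ hN₂ hD₂
  set n : ℕ := p ^ a with hn
  have hn0 : n ≠ 0 := (pow_pos hp a).ne'
  -- the constants are `n`-th powers in `ℚ̄`
  obtain ⟨d₁, hd₁⟩ := IsAlgClosed.exists_pow_nat_eq ((c₁ : IntermediateField.fixedField I) : Kb)
    (Nat.pos_of_ne_zero hn0)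
  obtain ⟨d₂, hd₂⟩ := IsAlgClosed.exists_pow_nat_eq ((c₂ : IntermediateField.fixedField I) : Kb)
    (Nat.pos_of_ne_zero hn0)
  -- the Kummer datum
  have hmem : ∀ W : ValuationSubring (F0 I (M1 * q)), W.valuation f₀ = 1 → f₀ ∈ W := fun W h =>
    (W.valuation_le_one_iff f₀).mp h.le
  have hu₂₀' : S.X.W₂₀.valuation f₀ = 1 := by rw [S.hW₂₀]; exact hu₂₀
  have hu₁₁' : S.X.W₁₁.valuation f₀ = 1 := by rw [S.hW₁₁]; exact hu₁₁
  have hu₀₂' : S.X.W₀₂.valuation f₀ = 1 := by rw [S.hW₀₂]; exact hu₀₂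
  let Y : S.X.Kummer n :=
    { f := f₀
      g₁ := algebraMap Kb (E M1) d₁ * toE I M1 g₁
      g₂ := algebraMap Kb (E M1) d₂ * toE I M1 g₂
      f₂₀ := hmem _ hu₂₀'
      f₁₁ := hmem _ hu₁₁'
      f₀₂ := hmem _ hu₀₂'
      r₂₀_ne := fun h => by
        have := (S.hr₂₀ _).mp h
        rw [hu₂₀'] at this
        exact lt_irrefl _ this
      r₁₁_ne := fun h => by
        have := (S.hr₁₁ _).mp h
        rw [hu₁₁'] at this
        exact lt_irrefl _ this
      r₀₂_ne := fun h => by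
        have := (S.hr₀₂ _).mp h
        rw [hu₀₂'] at this
        exact lt_irrefl _ this
      norm₁ := by
        rw [S.hN₁, hN₁, map_mul, toE_const, map_pow, mul_pow, ← hd₁, map_pow]
      norm₂ := by
        rw [S.hN₂, hN₂, map_mul, toE_const, map_pow, mul_pow, ← hd₂, map_pow] }
  -- the sheaf and the assembly
  have hdegD : Divisor.degree (D : Divisor Kb (E (M1 * q))) = 0 := Divisor.mem_degZero.mp D.2
  obtain ⟨ι, ι', _, _, C, G, ⟨Inp⟩, hfin, hge⟩ := S.sheaf a D hdegD hDinv Y hord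
  obtain ⟨h₀, hh0, h1, h2⟩ := exists_global_section Inp hfin
  -- the last step, over `ℚ̄`
  set e : ℕ := (q - 1) * (q ^ 2 - 1) with he
  have hdeg' : Divisor.degree (e • (D : Divisor Kb (E (M1 * q)))) = 0 := by
    rw [map_nsmul, hdegD, smul_zero]
  have hord' : ∀ w : Place Kb (E (M1 * q)),
      w.ord (toBar (modularFunctionFieldFull (M1 * q)) (IntermediateField.fixedField I) (f₀ ^ e))
        = ((n : ℕ) : ℤ) * (e • (D : Divisor Kb (E (M1 * q)))) w := by
    intro w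
    rw [map_pow, Fermat.Agent.S34.KummerZ.ord_pow]
    have := hord w
    rw [Finsupp.smul_apply, nsmul_eq_mul]
    change (e : ℤ) * w.ord (toE I (M1 * q) f₀) = _
    rw [this]
    ring
  have hnZ : ((n : ℕ) : ℤ) ≠ 0 := by exact_mod_cast hn0
  obtain ⟨h, hh, hhD⟩ := GlobalSectionBar.exists_ord_eq_of_divisorBelow (N := M1 * q)
    (K0 := IntermediateField.fixedField I) (e • (D : Divisor Kb (E (M1 * q)))) hdeg' hnZ hord'
    hh0 (hge h₀ hh0 h1 h2)
  refine ⟨h, hh, fun w => ?_⟩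
  rw [hhD w, Finsupp.smul_apply, nsmul_eq_mul]

/-- **(V5) + (V17)**: the Kummer form of (NEW-I) with `k = (q + 1) (q - 1) (q² - 1)`. -/
theorem kummerNewHyp_of_sheafDatum [IsNoetherianRing R0] (S : SheafDatum k κ Pt R0 V p)
    (hp : 0 < p) : KummerNewHyp M1 q p I ((q + 1) * ((q - 1) * (q ^ 2 - 1))) :=
  kummerNewHyp_of_unitKummerHyp V (unitKummerHyp_of_sheafDatum S hp)

/-- **(NEW-I) from the sheaf datum.** -/
theorem newInertiaHyp_of_sheafDatum {A : ValuationSubring Kb} (hA : A.LiesOverPrime q)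
    {k κ Pt : Type*} [Field k] [Field κ] [Algebra k κ] {R0 : Type*} [CommRing R0]
    [Algebra R0 (F0 (A.inertiaSubgroupIn ℚ) (M1 * q))] [IsNoetherianRing R0]
    {V : ValDatum M1 q (A.inertiaSubgroupIn ℚ)} {p : ℕ} (S : SheafDatum k κ Pt R0 V p)
    (hp : 0 < p) (hq : 2 ≤ q) : NewInertiaHyp M1 q p := by
  refine newInertiaHyp_of_kummerNew ⟨A, hA, (q + 1) * ((q - 1) * (q ^ 2 - 1)), ?_,
    kummerNewHyp_of_sheafDatum S hp⟩
  have h1 : q - 1 ≠ 0 := by omega
  have h2 : q ^ 2 - 1 ≠ 0 := by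
    have : 4 ≤ q ^ 2 := by nlinarith
    omega
  exact Nat.mul_ne_zero (by omega) (Nat.mul_ne_zero h1 h2)

end Fermat.Agent.S36.NewInertiaX0
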