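import Mathlib
import Fermat.Agent.S36.NewInertiaX0
import Fermat.Agent.S36.NewInertiaCharts

/-!
# PROJECT V (S36), chain (V17), layer 6: `SheafDatum` from the lattice charts

`sheafDatum_of_leaf` : if for every Kummer function `Y` (with `p ^ a • D = div Y.f`) the X₀-side
provides lattice charts `Vc : Lattice.VCharts O K0 F Comp ι ι'` for the divisor
`divisorBelow ((q - 1) (q² - 1) • D)` together with the leaf facts `NewInertiaCharts.Leaf X Vc Y π`,
then `NewInertiaX0.SheafDatum`, hence (NEW-I) (`newInertiaHyp_of_leaf`).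

Also: `hfD_of_hord` (the field `hfD` of `Leaf` from the order condition over `ℚ̄`) and
`isUnit_natCast_of_coprime` (the field `hnunit`).
-/

set_option autoImplicit false
set_option linter.unusedSectionVars false
set_option linter.style.haveILetI false

noncomputable section

namespace Fermat.Agent.S36.NewInertiaLeaf

open ModularCurve AlgebraicCurve
open Fermat.Agent.S35.LevelMaps Fermat.Agent.S35.PushKummer
open Fermat.Agent.S36.K0DescentLaurent Fermat.Agent.S36.K0Fixed Fermat.Agent.S36.KummerNew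
open Fermat.Agent.S36.UnitGen Fermat.Agent.S36.GlueNorm Fermat.Agent.S36.SoftCore
open Fermat.Agent.S36.NewInertiaDatum Fermat.Agent.S36.OfNewInertia Fermat.Agent.S36.NewInertiaX0
open Fermat.Agent.S36.NewInertiaCharts Fermat.Agent.S36.Lattice

local notation "Kb" => AlgebraicClosure ℚ
local notation "GQ" => (AlgebraicClosure ℚ ≃ₐ[ℚ] AlgebraicClosure ℚ)

/-! ### numerics -/

/-- in a local ring in which `q` is not a unit, the integers prime to `q` are units -/
theorem isUnit_natCast_of_coprime {O : Type*} [CommRing O] [IsLocalRing O] {q n : ℕ}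
    (hq : ¬ IsUnit ((q : ℕ) : O)) (h : Nat.Coprime n q) : IsUnit ((n : ℕ) : O) := by
  have hb : (n : ℤ) * Nat.gcdA n q + (q : ℤ) * Nat.gcdB n q = 1 := by
    have := Nat.gcd_eq_gcd_ab n q
    rw [h] at this
    exact_mod_cast this.symm
  have hO : ((n : ℕ) : O) * ((Nat.gcdA n q : ℤ) : O) + ((q : ℕ) : O) * ((Nat.gcdB n q : ℤ) : O)
      = 1 := by
    have := congrArg (Int.cast (R := O)) hb
    push_cast at this
    exact this
  have hnon : ((q : ℕ) : O) * ((Nat.gcdB n q : ℤ) : O) ∈ IsLocalRing.maximalIdeal O :=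
    Ideal.mul_mem_right _ _ ((IsLocalRing.mem_maximalIdeal _).mpr hq)
  have hu : IsUnit (((n : ℕ) : O) * ((Nat.gcdA n q : ℤ) : O)) := by
    have h1 : ((n : ℕ) : O) * ((Nat.gcdA n q : ℤ) : O)
        = 1 - ((q : ℕ) : O) * ((Nat.gcdB n q : ℤ) : O) := by
      rw [← hO]; ring
    rw [h1]
    by_contra hnu
    have h2 := (IsLocalRing.mem_maximalIdeal _).mpr hnu
    have h3 := Ideal.add_mem _ h2 hnon
    rw [sub_add_cancel] at h3
    exact (IsLocalRing.maximalIdeal.isMaximal O).ne_top ((Ideal.eq_top_iff_one _).mpr h3)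
  exact isUnit_of_mul_isUnit_left hu

variable {M1 q : ℕ} [NeZero M1] [NeZero q] [NeZero (M1 * q)] {I : Subgroup GQ}

/-! ### the divisor of `f ^ e` at the `K0`-places -/

/-- **`Leaf.hfD`** from the order condition over `ℚ̄` -/
theorem hfD_of_hord {n e : ℕ} {D : Divisor Kb (E (M1 * q))} {f₀ : F0 I (M1 * q)}
    (hord : ∀ w : Place Kb (E (M1 * q)), w.ord (toE I (M1 * q) f₀) = ((n : ℕ) : ℤ) * D w)
    (v : Place (IntermediateField.fixedField I) (F0 I (M1 * q))) :
    v.ord (f₀ ^ e) = (n : ℤ) * GlobalSectionBar.divisorBelow (M1 * q)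
      (IntermediateField.fixedField I) (e • D) v := by
  refine GlobalSectionBar.ord_eq_mul_divisorBelow (N := M1 * q)
    (K0 := IntermediateField.fixedField I) (n := (n : ℤ)) (D := e • D) (f₀ := f₀ ^ e) ?_ v
  intro w
  rw [map_pow, Fermat.Agent.S34.KummerZ.ord_pow]
  have := hord w
  rw [Finsupp.smul_apply, nsmul_eq_mul]
  change (e : ℤ) * w.ord (toE I (M1 * q) f₀) = _
  rw [this]
  ring

/-! ### the sheaf datum -/

variable {k κ Pt : Type*} [Field k] [Field κ] [Algebra k κ]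
  {O : Type*} [CommRing O] [IsDomain O] [IsDiscreteValuationRing O]
  [Algebra O (IntermediateField.fixedField I)] [IsFractionRing O (IntermediateField.fixedField I)]
  [Algebra O (F0 I (M1 * q))] [IsScalarTower O (IntermediateField.fixedField I) (F0 I (M1 * q))]
  [IsAlgClosed (IsLocalRing.ResidueField O)]

/-- **`SheafDatum` from the lattice charts and the leaf facts** -/
def sheafDatum_of_leaf (V : ValDatum M1 q I) (p : ℕ)
    (X : Datum k κ (E M1) (F0 I (M1 * q)) Pt)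
    (hW₂₀ : X.W₂₀ = V.X.W₂₀) (hW₁₁ : X.W₁₁ = V.X.W₁₁) (hW₀₂ : X.W₀₂ = V.X.W₀₂)
    (hr₂₀ : ∀ x : ↥X.W₂₀, X.r₂₀ x = 0 ↔ X.W₂₀.valuation (x : F0 I (M1 * q)) < 1)
    (hr₁₁ : ∀ x : ↥X.W₁₁, X.r₁₁ x = 0 ↔ X.W₁₁.valuation (x : F0 I (M1 * q)) < 1)
    (hr₀₂ : ∀ x : ↥X.W₀₂, X.r₀₂ x = 0 ↔ X.W₀₂.valuation (x : F0 I (M1 * q)) < 1)
    (hN₁ : ∀ y : F0 I (M1 * q), X.N₁ y = toE I M1 (V.X.N₁ y))
    (hN₂ : ∀ y : F0 I (M1 * q), X.N₂ y = toE I M1 (V.X.N₂ y))
    (π : O →+* k)
    (H : ∀ (a : ℕ) (D : Divisor Kb (E (M1 * q))), Divisor.degree D = 0 →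
      (∀ σ ∈ I, arithmeticGalois (modularFunctionFieldFull (M1 * q)) σ • D = D) →
      ∀ Y : X.Kummer (p ^ a),
      (∀ w : Place Kb (E (M1 * q)), w.ord (toE I (M1 * q) Y.f) = ((p ^ a : ℕ) : ℤ) * D w) →
      ∃ (ι ι' : Type) (_ : Fintype ι) (_ : Fintype ι')
        (Vc : VCharts O (IntermediateField.fixedField I) (F0 I (M1 * q)) Comp ι ι'),
        (∀ v : Place (IntermediateField.fixedField I) (F0 I (M1 * q)),
          Vc.D v = GlobalSectionBar.divisorBelow (M1 * q) (IntermediateField.fixedField I)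
            (((q - 1) * (q ^ 2 - 1)) • D) v) ∧ Nonempty (Leaf X Vc Y π)) :
    SheafDatum k κ Pt O V p where
  X := X
  hW₂₀ := hW₂₀
  hW₁₁ := hW₁₁
  hW₀₂ := hW₀₂
  hr₂₀ := hr₂₀
  hr₁₁ := hr₁₁
  hr₀₂ := hr₀₂
  hN₁ := hN₁
  hN₂ := hN₂
  π := π
  sheaf := fun a D hdeg hinv Y hord => by
    obtain ⟨ι, ι', i1, i2, Vc, hD, ⟨L⟩⟩ := H a D hdeg hinv Y hord
    refine ⟨ι, ι', i1, i2, Vc.charts, Vc.localGen, L.input, L.finiteH1, ?_⟩
    intro h hh0 h1 h2 v
    rw [← hD v]
    exact L.ord_ge hh0 h1 h2 v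

/-- **(NEW-I) from the lattice charts and the leaf facts** -/
theorem newInertiaHyp_of_leaf {A : ValuationSubring Kb} (hA : A.LiesOverPrime q)
    {k κ Pt : Type*} [Field k] [Field κ] [Algebra k κ]
    {O : Type*} [CommRing O] [IsDomain O] [IsDiscreteValuationRing O]
    [Algebra O (IntermediateField.fixedField (A.inertiaSubgroupIn ℚ))]
    [IsFractionRing O (IntermediateField.fixedField (A.inertiaSubgroupIn ℚ))]
    [Algebra O (F0 (A.inertiaSubgroupIn ℚ) (M1 * q))]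
    [IsScalarTower O (IntermediateField.fixedField (A.inertiaSubgroupIn ℚ))
      (F0 (A.inertiaSubgroupIn ℚ) (M1 * q))]
    [IsAlgClosed (IsLocalRing.ResidueField O)]
    {V : ValDatum M1 q (A.inertiaSubgroupIn ℚ)} {p : ℕ} (S : SheafDatum k κ Pt O V p)
    (hp : 0 < p) (hq : 2 ≤ q) : NewInertiaHyp M1 q p :=
  haveI : IsNoetherianRing O := inferInstance
  newInertiaHyp_of_sheafDatum hA S hp hq

end Fermat.Agent.S36.NewInertiaLeaf
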