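import Mathlib
import Fermat.Agent.S18.C.SmallDVR
import Fermat.Agent.S36.NewInertiaLeaf

/-!
# PROJECT V (S36), chain (V17): base facts on `O₀ = SmallDVR.W A` for the final assembly

* `isAlgClosed_residueField_W` : the residue field of `W A` is algebraically closed
  (hypothesis of `Lattice.VCharts.const`, `NewInertiaCharts.Leaf.input`);
* `isUnit_natCast_W` : integers prime to `ℓ` are units of `W A` (field `hnunit`);
* `redW` : the reduction `W A →+* k = ResidueField A`, surjective, with kernel `(ℓ)`.
-/

set_option autoImplicit false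
set_option linter.unusedSectionVars false

noncomputable section

namespace Fermat.Agent.S36.X0Base

open IsLocalRing Fermat.Agent.S18.C.SmallDVR

local notation "Kb" => AlgebraicClosure ℚ

variable {A : ValuationSubring Kb} {ℓ : ℕ} [Fact ℓ.Prime]

/-- the residue field of the small DVR is algebraically closed -/
theorem isAlgClosed_residueField_W (hA : A.LiesOverPrime ℓ) :
    IsAlgClosed (IsLocalRing.ResidueField ↥(W A)) := by
  have : IsAlgClosed (ResidueField ↥A) := Fermat.Agent.S18.ResidueBasics.isAlgClosed_residueField A
  exact IsAlgClosed.of_ringEquiv _ _ (residueFieldEquiv hA).symm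

/-- integers prime to `ℓ` are units of `W A` -/
theorem isUnit_natCast_W (hA : A.LiesOverPrime ℓ) {n : ℕ} (h : Nat.Coprime n ℓ) :
    IsUnit ((n : ℕ) : ↥(W A)) :=
  Fermat.Agent.S36.NewInertiaLeaf.isUnit_natCast_of_coprime (not_isUnit_natCast hA) h

/-- the reduction of the constants -/
def redW (A : ValuationSubring Kb) : ↥(W A) →+* ResidueField ↥A :=
  algebraMap ↥(W A) (ResidueField ↥A)

theorem redW_surjective (hA : A.LiesOverPrime ℓ) : Function.Surjective (redW A) :=
  algebraMap_W_k_surjective A hA

theorem ker_redW (hA : A.LiesOverPrime ℓ) :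
    RingHom.ker (redW A) = Ideal.span {((ℓ : ℕ) : ↥(W A))} :=
  ker_algebraMap_W_k_eq_span A hA

theorem redW_apply (x : ↥(W A)) : redW A x = residue ↥A (toA A x) := algebraMap_W_k A x

end Fermat.Agent.S36.X0Base
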