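/-
S36 (project V), slice V-LeafX (helper8), chain (V17): THE `X`-SIDE FIELDS OF
`NewInertiaCharts.Leaf` AT `X₀`, in their literal shapes, in ONE record.

* `XSide X ϖ n π` : the twelve fields `hn0 hnq hq hnunit hμ hE hS hr hrsurj hπ hπsurj hϖW` of
  `NewInertiaCharts.Leaf X V Y π` (with `V.ϖ = ϖ`), which only depend on the `GlueNorm.Datum` `X`,
  the uniformiser and the reduction of the constants;
* `xSide_datumX0`, `xSide_datumC` : `XSide` for `GlueNormX0.datumX0 / datumC` over the inertia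
  field, `O = W A = A ∩ K₀` (instances of `ChartX0`), `ϖ = q`, `π = W A → ResidueField A`;
  the only inputs are `n ≠ 0` and `n` prime to `q`;
* `Wfam_eq_Wof`, `rfam_eq_rof` : the families of `FormalLift/LatticeX0` (helper24) are those of the
  datum (field `hW` of `Leaf` for the charts `LatticeX0.vcharts`);
* the Kummer datum: for `Ku : (datumX0 ..).Kummer n`, `kummer_val` (`f` is a unit of the three
  rings), `kummer_norm₁`, `kummer_norm₂` (the `ℚ̄`-norms of `tB f` are `g_i ^ n`);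
* `sheaf_hW₂₀ … sheaf_hN₂` : the hypotheses `hW₂₀ hW₁₁ hW₀₂ hr₂₀ hr₁₁ hr₀₂ hN₁ hN₂` of
  `NewInertiaLeaf.sheafDatum_of_leaf` for `X = datumX0` and any `V : UnitGen.ValDatum` with
  `V.X = Z.setting` (e.g. `ValDatumNorm.valDatumOfHyp`);
* `nodesD`, `datumD`, `xSide_datumD` : THE DATUM FOR THE FINAL ASSEMBLY: the node record of
  `NodesDesc.exists_nodes_desc` (helper23), whose `S` is `Fr²`-fixed, off the cusps, `Fr`-stable AND
  describes `Rbar0` (`nodesD_desc : NodesDesc.Desc hA hqM (nodesD hA hqM HM).S`; the record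
  `nodesX0` of `GlueNormX0.datumC` does not export the description), typed in the `ChartX0`
  spelling `FK0 A (M q q)` so that `NewInertiaCharts.Leaf (datumD ..) Vc Ku π` finds the instances
  `W A → K0 A → FK0 A N` of `ChartX0`.
-/
import Fermat.Agent.S36.GlueNormX0Norm
import Fermat.Agent.S36.NewInertiaCharts
import Fermat.Agent.S36.ValPlace
import Fermat.Agent.S36.X0Base
import Fermat.Agent.S36.FormalLift.LatticeX0
import Fermat.Agent.S36.NodesDesc

set_option autoImplicit false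
set_option linter.unusedSectionVars false
set_option linter.style.haveILetI false
set_option linter.unusedVariables false
set_option synthInstance.maxHeartbeats 400000

noncomputable section

namespace Fermat.Agent.S36.LeafX

open Fermat.Agent.S36.GlueNorm Fermat.Agent.S36.NewInertiaDatum Fermat.Agent.S36.TripleValues

/-! ### the record -/

section Abstract

variable {k κ F' F Pt : Type*} [Field k] [Field κ] [Algebra k κ] [Field F'] [Field F]
variable {O : Type*} [CommRing O] [Algebra O F]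

/-- **the `X`-side fields of `NewInertiaCharts.Leaf X V Y π`** (`ϖ = V.ϖ`), literal shapes -/
structure XSide (X : Datum k κ F' F Pt) (ϖ : O) (n : ℕ) (π : O →+* k) : Prop where
  hn0 : n ≠ 0
  hnq : Nat.Coprime n X.q
  hq : 0 < X.q
  hnunit : IsUnit ((n : ℕ) : O)
  hμ : ∀ z : κ, z ^ n = 1 → ∃ c : k, algebraMap k κ c = z
  hE : ValGood X.E n
  hS : ∀ b ∈ X.S, X.fr b ∈ X.S
  hr : ∀ (w : Comp) (x : ↥(Wof X w)), rof X w x = 0 ↔ (Wof X w).valuation (x : F) < 1
  hrsurj : ∀ w : Comp, Function.Surjective (rof X w)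
  hπ : ∀ (w : Comp) (x : O) (m : algebraMap O F x ∈ Wof X w),
    rof X w ⟨algebraMap O F x, m⟩ = algebraMap k κ (π x)
  hπsurj : Function.Surjective π
  hϖW : ∀ w : Comp, (Wof X w).valuation (algebraMap O F ϖ) < 1

/-- the field `hϖW` from `hr`, `hπ` and `π ϖ = 0` -/
theorem hϖW_of {X : Datum k κ F' F Pt} {ϖ : O} {π : O →+* k}
    (hr : ∀ (w : Comp) (x : ↥(Wof X w)), rof X w x = 0 ↔ (Wof X w).valuation (x : F) < 1)
    (hπ : ∀ (w : Comp) (x : O) (m : algebraMap O F x ∈ Wof X w),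
      rof X w ⟨algebraMap O F x, m⟩ = algebraMap k κ (π x))
    (hmem : ∀ w : Comp, algebraMap O F ϖ ∈ Wof X w) (h0 : π ϖ = 0) (w : Comp) :
    (Wof X w).valuation (algebraMap O F ϖ) < 1 :=
  (hr w ⟨algebraMap O F ϖ, hmem w⟩).mp (by rw [hπ w ϖ (hmem w), h0, map_zero])

/-- a Kummer function is a unit of the three rings -/
theorem kummer_val_of {X : Datum k κ F' F Pt} {n : ℕ} (Ku : X.Kummer n)
    (hr : ∀ (w : Comp) (x : ↥(Wof X w)), rof X w x = 0 ↔ (Wof X w).valuation (x : F) < 1)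
    (w : Comp) : (Wof X w).valuation Ku.f = 1 := by
  have hm : Ku.f ∈ Wof X w := by
    cases w
    · exact Ku.f₂₀
    · exact Ku.f₁₁
    · exact Ku.f₀₂
  refine le_antisymm (((Wof X w).valuation_le_one_iff _).mpr hm) (not_lt.mp fun hlt => ?_)
  have h0 := (hr w ⟨Ku.f, hm⟩).mpr hlt
  cases w
  · exact Ku.r₂₀_ne h0
  · exact Ku.r₁₁_ne h0
  · exact Ku.r₀₂_ne h0

end Abstract

/-! ### at `X₀` -/

open ModularCurve AlgebraicCurve IsLocalRing
open Fermat.Agent.S34.NodalDefs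
open Fermat.Agent.S37.Deuring.Core Fermat.Agent.S37.Gauss.Datum
open Fermat.Agent.S34.CoreZX0Assembly Fermat.Agent.S34.CoreZX0Build
open Fermat.Agent.S34.CoreZX0OfGeneric Fermat.Agent.S34.GaussPairX0
open Fermat.Agent.S36.GlueLevelQ Fermat.Agent.S36.GlueNormX0
open Fermat.Agent.S36.PowerBasisK0 (FK tB alphaK betaK)
open Fermat.Agent.S24.DegreeAlg Fermat.Agent.S18.A.Instances
open Fermat.Agent.S37.Hecke.Integral Fermat.Agent.S35.LevelMaps
open Fermat.Agent.S35.DegeneracyHecke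
open Fermat.Agent.S36.ThreeVal
open Fermat.Agent.S18.C.SmallDVR Fermat.Agent.S36.ChartX0

local notation "Kb" => AlgebraicClosure ℚ

attribute [local instance 2000] Fermat.Agent.S34.EulerX0.algResFk

/-- shortcut instances (all propositions) -/
local instance instPDBarLX (N : ℕ) [NeZero N] :
    HasPrincipalDivisors Kb ↥(modularFunctionFieldBar N) :=
  Fermat.Agent.S18.A.Instances.hasPrincipalDivisors_bar N

local instance instPDFkLX (A : ValuationSubring Kb) (N : ℕ) [NeZero N] :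
    HasPrincipalDivisors (ResidueField ↥A) ↥(modularFunctionFieldFullC (ResidueField ↥A) N) :=
  Fermat.Agent.S37.ReductionInputs.hasPrincipalDivisors_Fk A N

local instance instACkLX (A : ValuationSubring Kb) : IsAlgClosed (ResidueField ↥A) :=
  Fermat.Agent.S18.ResidueBasics.isAlgClosed_residueField A

local instance instInfkLX (A : ValuationSubring Kb) : Infinite (ResidueField ↥A) :=
  Fermat.Agent.S37.ReductionInputs.infinite_residueField A

local instance instNeZeroMulLX (M q : ℕ) [NeZero M] [NeZero q] : NeZero (M * q) :=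
  ⟨Nat.mul_ne_zero (NeZero.ne M) (NeZero.ne q)⟩

variable {q : ℕ} [hq : Fact q.Prime] {M : ℕ} [NeZero M] {A : ValuationSubring Kb} [NeZero q]
variable {hA : A.LiesOverPrime q} {hqM : ¬ q ∣ M}
variable {gL gk : ℕ} {HG : Hyp (gaussDatum M A hA hqM) gL gk}
variable [CharP (ResidueField ↥A) q]

/-! #### the families of `LatticeX0` are those of the datum -/

section Families

variable {Hs : Subgroup (Kb ≃ₐ[ℚ] Kb)}
variable (hgen : GenericX0 hA hqM HG) (Y : NodesC (inputsX0 hgen))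
  (hFr : ∀ b ∈ Y.S, Fermat.Agent.S34.FrobK.Fr (ResidueField ↥A) M q
    (Fermat.Agent.S34.FrobK.Fr (ResidueField ↥A) M q b) = b)
  (Z : ThreeValX0.Hyp Hs M q ↥(modularFunctionFieldFullC (ResidueField ↥A) M))
  (lk : Link Hs hA hqM Z)

/-- field `hW` of `NewInertiaCharts.Leaf` for the charts `LatticeX0.vcharts Z ..` -/
theorem Wfam_eq_Wof : LatticeX0.Wfam Z = Wof (datumX0 hgen Y hFr Z lk) := by
  funext w
  cases w <;> rfl

theorem Wfam_apply (w : Comp) : LatticeX0.Wfam Z w = Wof (datumX0 hgen Y hFr Z lk) w := by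
  cases w <;> rfl

/-- the reductions of `LatticeX0` are those of the datum -/
theorem rfam_eq_rof (w : Comp) (x : FK Hs (M * q * q)) (m : x ∈ LatticeX0.Wfam Z w)
    (m' : x ∈ Wof (datumX0 hgen Y hFr Z lk) w) :
    LatticeX0.rfam Z w ⟨x, m⟩ = rof (datumX0 hgen Y hFr Z lk) w ⟨x, m'⟩ := by
  cases w <;> rfl

end Families

/-! #### the Kummer datum -/

section KummerShape

variable {Hs : Subgroup (Kb ≃ₐ[ℚ] Kb)}
variable (hgen : GenericX0 hA hqM HG) (Y : NodesC (inputsX0 hgen))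
  (hFr : ∀ b ∈ Y.S, Fermat.Agent.S34.FrobK.Fr (ResidueField ↥A) M q
    (Fermat.Agent.S34.FrobK.Fr (ResidueField ↥A) M q b) = b)
  (Z : ThreeValX0.Hyp Hs M q ↥(modularFunctionFieldFullC (ResidueField ↥A) M))
  (lk : Link Hs hA hqM Z)

/-- a Kummer function of `datumX0` is a unit of the three rings -/
theorem kummer_val {n : ℕ} (Ku : (datumX0 hgen Y hFr Z lk).Kummer n) (w : Comp) :
    (Wof (datumX0 hgen Y hFr Z lk) w).valuation Ku.f = 1 :=
  kummer_val_of Ku (GlueNormX0.hr hgen Y hFr Z lk) w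

theorem kummer_val₂₀ {n : ℕ} (Ku : (datumX0 hgen Y hFr Z lk).Kummer n) :
    Z.W₂₀.valuation Ku.f = 1 := kummer_val hgen Y hFr Z lk Ku Comp.c20

theorem kummer_val₁₁ {n : ℕ} (Ku : (datumX0 hgen Y hFr Z lk).Kummer n) :
    Z.W₁₁.valuation Ku.f = 1 := kummer_val hgen Y hFr Z lk Ku Comp.c11

theorem kummer_val₀₂ {n : ℕ} (Ku : (datumX0 hgen Y hFr Z lk).Kummer n) :
    Z.W₀₂.valuation Ku.f = 1 := kummer_val hgen Y hFr Z lk Ku Comp.c02

/-- the `ℚ̄`-norm along `α'` of `tB f` is `g₁ ^ n` -/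
theorem kummer_norm₁ {n : ℕ} (Ku : (datumX0 hgen Y hFr Z lk).Kummer n) :
    Fermat.Agent.S35.PushKummer.normAlong (heckeAlphaBar Kb (M * q) q)
      (tB Hs (M * q * q) Ku.f) = Ku.g₁ ^ n := by
  rw [← datumX0_N₁_eq hgen Y hFr Z lk]
  exact Ku.norm₁

/-- the `ℚ̄`-norm along `β'` of `tB f` is `g₂ ^ n` -/
theorem kummer_norm₂ {n : ℕ} (Ku : (datumX0 hgen Y hFr Z lk).Kummer n) :
    Fermat.Agent.S35.PushKummer.normAlong (heckeBetaBar Kb (M * q) q)
      (tB Hs (M * q * q) Ku.f) = Ku.g₂ ^ n := by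
  rw [← datumX0_N₂_eq hgen Y hFr Z lk]
  exact Ku.norm₂

end KummerShape

/-! #### the hypotheses of `NewInertiaLeaf.sheafDatum_of_leaf` on `X` -/

section Sheaf

variable {Hs : Subgroup (Kb ≃ₐ[ℚ] Kb)}
variable (hgen : GenericX0 hA hqM HG) (Y : NodesC (inputsX0 hgen))
  (hFr : ∀ b ∈ Y.S, Fermat.Agent.S34.FrobK.Fr (ResidueField ↥A) M q
    (Fermat.Agent.S34.FrobK.Fr (ResidueField ↥A) M q b) = b)
  (Z : ThreeValX0.Hyp Hs M q ↥(modularFunctionFieldFullC (ResidueField ↥A) M))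
  (lk : Link Hs hA hqM Z)

theorem sheaf_hW₂₀ : (datumX0 hgen Y hFr Z lk).W₂₀ = Z.setting.W₂₀ := rfl

theorem sheaf_hW₁₁ : (datumX0 hgen Y hFr Z lk).W₁₁ = Z.setting.W₁₁ := rfl

theorem sheaf_hW₀₂ : (datumX0 hgen Y hFr Z lk).W₀₂ = Z.setting.W₀₂ := rfl

theorem sheaf_hr₂₀ (x : ↥(datumX0 hgen Y hFr Z lk).W₂₀) :
    (datumX0 hgen Y hFr Z lk).r₂₀ x = 0 ↔
      (datumX0 hgen Y hFr Z lk).W₂₀.valuation (x : FK Hs (M * q * q)) < 1 :=
  GlueNormX0.hr hgen Y hFr Z lk Comp.c20 x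

theorem sheaf_hr₁₁ (x : ↥(datumX0 hgen Y hFr Z lk).W₁₁) :
    (datumX0 hgen Y hFr Z lk).r₁₁ x = 0 ↔
      (datumX0 hgen Y hFr Z lk).W₁₁.valuation (x : FK Hs (M * q * q)) < 1 :=
  GlueNormX0.hr hgen Y hFr Z lk Comp.c11 x

theorem sheaf_hr₀₂ (x : ↥(datumX0 hgen Y hFr Z lk).W₀₂) :
    (datumX0 hgen Y hFr Z lk).r₀₂ x = 0 ↔
      (datumX0 hgen Y hFr Z lk).W₀₂.valuation (x : FK Hs (M * q * q)) < 1 :=
  GlueNormX0.hr hgen Y hFr Z lk Comp.c02 x

theorem sheaf_hN₁ (y : FK Hs (M * q * q)) :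
    (datumX0 hgen Y hFr Z lk).N₁ y = tB Hs (M * q) (Z.setting.N₁ y) := rfl

theorem sheaf_hN₂ (y : FK Hs (M * q * q)) :
    (datumX0 hgen Y hFr Z lk).N₂ y = tB Hs (M * q) (Z.setting.N₂ y) := rfl

end Sheaf

/-! #### the record over the inertia field -/

section Inertia

variable (hgen : GenericX0 hA hqM HG) (Y : NodesC (inputsX0 hgen))
  (hFr : ∀ b ∈ Y.S, Fermat.Agent.S34.FrobK.Fr (ResidueField ↥A) M q
    (Fermat.Agent.S34.FrobK.Fr (ResidueField ↥A) M q b) = b)
  (Z : ThreeValX0.Hyp (A.inertiaSubgroupIn ℚ) M q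
    ↥(modularFunctionFieldFullC (ResidueField ↥A) M))
  (lk : Link (A.inertiaSubgroupIn ℚ) hA hqM Z)

/-- `π q = 0` -/
theorem algebraMap_W_natCast_q : algebraMap ↥(W A) (ResidueField ↥A) ((q : ℕ) : ↥(W A)) = 0 := by
  rw [map_natCast]
  exact CharP.cast_eq_zero (ResidueField ↥A) q

/-- field `hϖW` of `NewInertiaCharts.Leaf` : `q` is a non-unit of the three rings -/
theorem hϖW (w : Comp) :
    (Wof (datumX0 hgen Y hFr Z lk) w).valuation
      (algebraMap ↥(W A) (FK0 A (M * q * q)) ((q : ℕ) : ↥(W A)) : FK0 A (M * q * q)) < 1 :=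
  @hϖW_of _ _ _ (FK0 A (M * q * q)) _ _ _ _ _ _ ↥(W A) _ (algebraW A (M * q * q))
    (datumX0 hgen Y hFr Z lk) _ _ (GlueNormX0.hr hgen Y hFr Z lk) (GlueNormX0.hπ hgen Y hFr Z lk)
    (fun w => algebraMap_W_mem hgen Y hFr Z lk w _) algebraMap_W_natCast_q w

/-- **the `X`-side fields of `NewInertiaCharts.Leaf` for `datumX0` over the inertia field**,
`O = W A`, `ϖ = q`, `π = W A → ResidueField A` -/
theorem xSide_datumX0
    (hst : ∀ b ∈ Y.S, Fermat.Agent.S34.FrobK.Fr (ResidueField ↥A) M q b ∈ Y.S)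
    {n : ℕ} (hn0 : n ≠ 0) (hnq : Nat.Coprime n q) :
    @XSide _ _ _ (FK0 A (M * q * q)) _ _ _ _ _ _ ↥(W A) _ (algebraW A (M * q * q))
      (datumX0 hgen Y hFr Z lk) ((q : ℕ) : ↥(W A)) n (algebraMap ↥(W A) (ResidueField ↥A)) where
  hn0 := hn0
  hnq := hnq
  hq := hq.out.pos
  hnunit := Fermat.Agent.S36.X0Base.isUnit_natCast_W hA hnq
  hμ := Fermat.Agent.S36.ValPlace.exists_const_of_pow_eq_one hn0
  hE := Fermat.Agent.S36.ValPlace.valGood_place hn0
  hS := GlueNormX0.hS hgen Y hFr Z lk hst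
  hr := GlueNormX0.hr hgen Y hFr Z lk
  hrsurj := GlueNormX0.hrsurj hgen Y hFr Z lk
  hπ := GlueNormX0.hπ hgen Y hFr Z lk
  hπsurj := GlueNormX0.hπsurj hA
  hϖW := hϖW hgen Y hFr Z lk

end Inertia

/-! #### the canonical datum -/

section Canonical

open Fermat.Agent.S18.NonSpecial

variable {gM : ℕ} (hA) (hqM)
variable (HM : RiemannHyp (ResidueField ↥A) ↥(modularFunctionFieldFullC (ResidueField ↥A) M) gM)
  (Z : ThreeValX0.Hyp (A.inertiaSubgroupIn ℚ) M q
    ↥(modularFunctionFieldFullC (ResidueField ↥A) M))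
  (lk : Link (A.inertiaSubgroupIn ℚ) hA hqM Z)

/-- **the `X`-side fields of `NewInertiaCharts.Leaf` for the canonical datum `datumC`**: the only
inputs are `n ≠ 0` and `n` prime to `q`. -/
theorem xSide_datumC {n : ℕ} (hn0 : n ≠ 0) (hnq : Nat.Coprime n q) :
    @XSide _ _ _ (FK0 A (M * q * q)) _ _ _ _ _ _ ↥(W A) _ (algebraW A (M * q * q))
      (datumC hA hqM HM Z lk) ((q : ℕ) : ↥(W A)) n (algebraMap ↥(W A) (ResidueField ↥A)) :=
  xSide_datumX0 _ _ _ Z lk (nodesX0_fr_mem hA hqM HM) hn0 hnq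

/-- field `hW` of `NewInertiaCharts.Leaf` for the canonical datum -/
theorem Wfam_eq_Wof_datumC : LatticeX0.Wfam Z = Wof (datumC hA hqM HM Z lk) :=
  Wfam_eq_Wof _ _ _ Z lk

end Canonical

/-! #### the datum for the final assembly: node set WITH its description of `Rbar0` -/

section Desc

open Fermat.Agent.S18.NonSpecial

variable {gM : ℕ} (hA) (hqM)
variable (HM : RiemannHyp (ResidueField ↥A) ↥(modularFunctionFieldFullC (ResidueField ↥A) M) gM)

/-- the node record of `NodesDesc.exists_nodes_desc` -/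
def nodesD : NodesC (inputsX0 (Fermat.Agent.S34.CoreZX0.genericX0 hA hqM (HX0 hA hqM HM))) :=
  (Fermat.Agent.S36.NodesDesc.exists_nodes_desc HM).choose

theorem nodesD_fr_fr :
    ∀ b ∈ (nodesD hA hqM HM).S, Fermat.Agent.S34.FrobK.Fr (ResidueField ↥A) M q
      (Fermat.Agent.S34.FrobK.Fr (ResidueField ↥A) M q b) = b :=
  (Fermat.Agent.S36.NodesDesc.exists_nodes_desc HM).choose_spec.1

theorem nodesD_off_cusps :
    ∀ b ∈ (nodesD hA hqM HM).S, b ∉ Fermat.Agent.S34.Euler.FrobSide.P0 (ResidueField ↥A) M :=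
  (Fermat.Agent.S36.NodesDesc.exists_nodes_desc HM).choose_spec.2.1

theorem nodesD_fr_mem :
    ∀ b ∈ (nodesD hA hqM HM).S,
      Fermat.Agent.S34.FrobK.Fr (ResidueField ↥A) M q b ∈ (nodesD hA hqM HM).S :=
  (Fermat.Agent.S36.NodesDesc.exists_nodes_desc HM).choose_spec.2.2.1

/-- the node set describes `Rbar0` (the `S` shared with `BranchX0`, `CountHid`, `EulerExact`) -/
theorem nodesD_desc : Fermat.Agent.S36.NodesDesc.Desc hA hqM (nodesD hA hqM HM).S :=
  (Fermat.Agent.S36.NodesDesc.exists_nodes_desc HM).choose_spec.2.2.2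

variable (Z : ThreeValX0.Hyp (A.inertiaSubgroupIn ℚ) M q
    ↥(modularFunctionFieldFullC (ResidueField ↥A) M))
  (lk : Link (A.inertiaSubgroupIn ℚ) hA hqM Z)

/-- **the `GlueNorm.Datum` of the final assembly**: `datumX0` on the node record `nodesD`, over the
inertia field, typed in the `ChartX0` spelling `FK0 A (M q q)`. -/
abbrev datumD : Datum (ResidueField ↥A) ↥(modularFunctionFieldFullC (ResidueField ↥A) M)
    ↥(modularFunctionFieldBar (M * q)) (FK0 A (M * q * q))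
    (Place (ResidueField ↥A) ↥(modularFunctionFieldFullC (ResidueField ↥A) M)) :=
  datumX0 (Fermat.Agent.S34.CoreZX0.genericX0 hA hqM (HX0 hA hqM HM)) (nodesD hA hqM HM)
    (nodesD_fr_fr hA hqM HM) Z lk

theorem datumD_S : (datumD hA hqM HM Z lk).S = {b | b ∈ (nodesD hA hqM HM).S} := rfl

theorem mem_datumD_S {b : Place (ResidueField ↥A) ↥(modularFunctionFieldFullC (ResidueField ↥A) M)} :
    b ∈ (datumD hA hqM HM Z lk).S ↔ b ∈ (nodesD hA hqM HM).S := Iff.rfl

theorem datumD_off_cusps : ∀ b ∈ (datumD hA hqM HM Z lk).S,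
    b ∉ Fermat.Agent.S34.Euler.FrobSide.P0 (ResidueField ↥A) M :=
  nodesD_off_cusps hA hqM HM

theorem datumD_fr_fr : ∀ b ∈ (datumD hA hqM HM Z lk).S,
    (datumD hA hqM HM Z lk).fr ((datumD hA hqM HM Z lk).fr b) = b :=
  nodesD_fr_fr hA hqM HM

/-- `Reg` of `datumD` is `RegX0` of the canonical inputs and `nodesD` (hypothesis `hReg` of
`RegFinal`) -/
theorem datumD_Reg :
    (datumD hA hqM HM Z lk).Reg
      = RegX0 (inputsX0 (Fermat.Agent.S34.CoreZX0.genericX0 hA hqM (HX0 hA hqM HM)))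
          (nodesD hA hqM HM) := rfl

theorem datumD_N₁_eq (y : FK0 A (M * q * q)) :
    (datumD hA hqM HM Z lk).N₁ y
      = Fermat.Agent.S35.PushKummer.normAlong (heckeAlphaBar Kb (M * q) q)
          (tB (A.inertiaSubgroupIn ℚ) (M * q * q) y) :=
  GlueNormX0.hN₁ hqM y

theorem datumD_N₂_eq (y : FK0 A (M * q * q)) :
    (datumD hA hqM HM Z lk).N₂ y
      = Fermat.Agent.S35.PushKummer.normAlong (heckeBetaBar Kb (M * q) q)
          (tB (A.inertiaSubgroupIn ℚ) (M * q * q) y) :=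
  GlueNormX0.hN₂ y

/-- **the `X`-side fields of `NewInertiaCharts.Leaf` for `datumD`**: the only inputs are `n ≠ 0` and
`n` prime to `q`.  Use: `{ xSide_datumD hA hqM HM Z lk hn0 hnq with hW := .., hϖ := .., .. }`. -/
theorem xSide_datumD {n : ℕ} (hn0 : n ≠ 0) (hnq : Nat.Coprime n q) :
    XSide (datumD hA hqM HM Z lk) ((q : ℕ) : ↥(W A)) n (algebraMap ↥(W A) (ResidueField ↥A)) :=
  xSide_datumX0 _ _ _ Z lk (nodesD_fr_mem hA hqM HM) hn0 hnq

/-- field `hW` of `NewInertiaCharts.Leaf` for `datumD` -/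
theorem Wfam_eq_Wof_datumD : LatticeX0.Wfam Z = Wof (datumD hA hqM HM Z lk) :=
  Wfam_eq_Wof _ _ _ Z lk

end Desc

end Fermat.Agent.S36.LeafX
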