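/-
PROJECT V (S36), slice V-GaussK0, part 2 (helper11): THE GAUSS VALUATION OVER THE INERTIA FIELD IS
DISCRETE.

`A` a valuation subring of `ℚ̄` over `ℓ ∤ N`, `K0 = K0 A` the inertia field (fixed field of
`A.inertiaSubgroupIn ℚ`), `W = A ∩ K0` the small DVR of `S18/C/SmallDVR` (uniformizer `ℓ`, residue
field `k = ResidueField A`).  `F0 = laurentBaseChange K0 (full N)` is the `K0`-form of the function
field of `X₀(N)` (`S36/K0Fixed`: its image under `toBar` is the field of inertia-invariant functions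
of `ℚ̄(X₀(N))`).

* `hasRepW` : `HasRep (W A) (piW A) N` (from `S36/GaussL.hasRepL`), hence the whole machine of
  `S18/GaussFromH` over `K0`:
  `O0 : ValuationSubring F0`, `red0 : O0 →+* F_k(N)` onto with kernel the maximal ideal
  (`red0_surjective`, `ker_red0`, `red0_eq_zero_iff`), `exists_const_mul_unit0` (every nonzero
  function is a constant of `K0` times a unit), `mem_W_of_algebraMap_mem_O0`;
* `exists_unit_mul_pow0`, `maximalIdeal_O0_eq : 𝔪 = (ℓ)`, `isDiscreteValuationRing_O0`,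
  `isPrincipalIdealRing_O0`, `O0_ne_top` : **`O0` is a DVR with uniformizer `ℓ`**;
* comparison with the Gauss datum `G = S37.Gauss.Datum.gaussDatum N A hA hℓN` of `ℚ̄(X₀(N))`:
  `O0_eq_comap : O0 = G.O.comap toBar`, `toBarO : O0 →+* G.O`, `red_toBarO : G.red ∘ toBarO = red0`;
* `exists_zpow_mul_unit` **(G1)** : a nonzero function of `ℚ̄(X₀(N))` fixed by the inertia group of
  `A` is `ℓ ^ n` (`n : ℤ`) times a unit of `G.O`.  (Wild inertia is invisible to residue fields, so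
  this is NOT a formal consequence of the triviality of the inertia action on `F_k(N)`; it uses the
  rational orthonormal basis of the smooth model once.)
-/
import Mathlib
import Fermat.Agent.S36.GaussL
import Fermat.Agent.S36.K0Fixed
import Fermat.Agent.S18.C.SmallDVR
import Fermat.Agent.S37.Gauss.Datum

set_option autoImplicit false
set_option linter.unusedSectionVars false
set_option linter.style.haveILetI false
set_option synthInstance.maxHeartbeats 400000

noncomputable section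

namespace Fermat.Agent.S36.GaussK0

open HahnSeries ModularCurve IsLocalRing IntermediateField Polynomial
open Fermat.Agent.S18.C.SmallDVR Fermat.Agent.S18.GaussFromH Fermat.Agent.S36.K0Fixed
open Fermat.Agent.S30.Descent.ConstExt

local notation "Kb" => AlgebraicClosure ℚ

variable {ℓ : ℕ} [hℓ : Fact ℓ.Prime] (N : ℕ) [NeZero N] (A : ValuationSubring Kb)

/-- the residue map of the small DVR `W = A ∩ K0`, with values in the residue field of `A` -/
def piW : ↥(W A) →+* ResidueField ↥A := (residue ↥A).comp (toA A)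

theorem piW_apply (x : ↥(W A)) : piW A x = residue ↥A (toA A x) := rfl

theorem piW_eq_zero_of_not_isUnit (a : ↥(W A)) (ha : ¬ IsUnit a) : piW A a = 0 := by
  rw [piW_apply, residue_eq_zero_iff, ← mem_maximalIdeal_iff]
  exact (mem_maximalIdeal a).mpr ha

variable {A}

theorem piW_surjective (hA : A.LiesOverPrime ℓ) : Function.Surjective (piW A) :=
  algebraMap_W_k_surjective A hA

theorem liesOver_W (hA : A.LiesOverPrime ℓ) : (W A).LiesOverPrime ℓ := by
  show ((ℓ : ℕ) : ↥(K0 A)) ∈ (W A).nonunits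
  have h1 : ((((ℓ : ℕ) : ↥(W A)) : ↥(K0 A))) ∈ (W A).nonunits := by
    rw [ValuationSubring.coe_mem_nonunits_iff, mem_maximalIdeal]
    exact not_isUnit_natCast hA
  simpa using h1

variable (hA : A.LiesOverPrime ℓ) (hℓN : ¬ ℓ ∣ N)

include hA hℓN in
set_option synthInstance.maxHeartbeats 400000 in
/-- **`HasRep` over the inertia field**: every nonzero function of `K0(X₀(N))` is a constant of `K0`
times a quotient of `W`-integral elements of nonzero reduction. -/
theorem hasRepW : HasRep (W A) (piW A) N :=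
  haveI : CharP (ResidueField ↥A) ℓ := Fermat.Agent.S18.ResidueBasics.charP_residueField A hA
  haveI : IsAlgClosed (ResidueField ↥A) := Fermat.Agent.S18.ResidueBasics.isAlgClosed_residueField A
  letI : Algebra (ZMod ℓ) (ResidueField ↥A) := ZMod.algebra _ ℓ
  Fermat.Agent.S36.GaussL.hasRepL (W A) (piW A) (liesOver_W hA) hℓN

/-- **the Gauss valuation ring of `K0(X₀(N))`** -/
def O0 : ValuationSubring ↥(laurentBaseChange ↥(K0 A) (modularFunctionFieldFull N)) :=
  OwV (W A) (piW A) N (hasRepW N hA hℓN)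

/-- **its reduction map**, with values in `F_k(N)`, `k` the residue field of `A` -/
def red0 : ↥(O0 N hA hℓN) →+* ↥(modularFunctionFieldFullC (ResidueField ↥A) N) :=
  redV (W A) (piW A) N (hasRepW N hA hℓN)

theorem red0_eq_zero_iff (u : ↥(O0 N hA hℓN)) : red0 N hA hℓN u = 0 ↔ ¬ IsUnit u :=
  redV_eq_zero_iff (hasRepW N hA hℓN) u

theorem red0_surjective : Function.Surjective (red0 N hA hℓN) :=
  redV_surjective (hasRepW N hA hℓN) (piW_surjective hA)

theorem ker_red0 : RingHom.ker (red0 N hA hℓN) = maximalIdeal ↥(O0 N hA hℓN) := by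
  ext x
  rw [RingHom.mem_ker, red0_eq_zero_iff, mem_maximalIdeal, mem_nonunits_iff]

theorem algebraMap_mem_O0 (c : ↥(W A)) :
    algebraMap ↥(K0 A) ↥(laurentBaseChange ↥(K0 A) (modularFunctionFieldFull N)) (c : ↥(K0 A)) ∈
      O0 N hA hℓN :=
  algebraMap_mem_OwV (hasRepW N hA hℓN) c

theorem red0_algebraMap (c : ↥(W A)) :
    red0 N hA hℓN ⟨_, algebraMap_mem_O0 N hA hℓN c⟩ =
      algebraMap (ResidueField ↥A) ↥(modularFunctionFieldFullC (ResidueField ↥A) N) (piW A c) :=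
  redV_algebraMap (hasRepW N hA hℓN) c

theorem mem_W_of_algebraMap_mem_O0 (c : ↥(K0 A))
    (hc : algebraMap ↥(K0 A) ↥(laurentBaseChange ↥(K0 A) (modularFunctionFieldFull N)) c ∈
      O0 N hA hℓN) : c ∈ W A :=
  mem_of_algebraMap_mem_Ow (piW_eq_zero_of_not_isUnit A) c hc

/-- every nonzero function is a constant of `K0` times a Gauss unit -/
theorem exists_const_mul_unit0
    (f : ↥(laurentBaseChange ↥(K0 A) (modularFunctionFieldFull N))) (hf : f ≠ 0) :
    ∃ c : ↥(K0 A), c ≠ 0 ∧ ∃ u : (↥(O0 N hA hℓN))ˣ,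
      f = algebraMap ↥(K0 A) ↥(laurentBaseChange ↥(K0 A) (modularFunctionFieldFull N)) c *
        ((u : ↥(O0 N hA hℓN)) : ↥(laurentBaseChange ↥(K0 A) (modularFunctionFieldFull N))) :=
  exists_const_mul_unit (hasRepW N hA hℓN) f hf

/-! ### `O0` is a discrete valuation ring with uniformizer `ℓ` -/

/-- constants of `W` as elements of `O0` -/
def constO0 : ↥(W A) →+* ↥(O0 N hA hℓN) where
  toFun c := ⟨_, algebraMap_mem_O0 N hA hℓN c⟩
  map_one' := Subtype.ext (by simp)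
  map_mul' a b := Subtype.ext (by simp)
  map_zero' := Subtype.ext (by simp)
  map_add' a b := Subtype.ext (by simp)

@[simp] theorem coe_constO0 (c : ↥(W A)) :
    ((constO0 N hA hℓN c : ↥(O0 N hA hℓN)) :
      ↥(laurentBaseChange ↥(K0 A) (modularFunctionFieldFull N))) =
      algebraMap ↥(K0 A) ↥(laurentBaseChange ↥(K0 A) (modularFunctionFieldFull N))
        (c : ↥(K0 A)) := rfl

theorem red0_constO0 (c : ↥(W A)) :
    red0 N hA hℓN (constO0 N hA hℓN c) =
      algebraMap (ResidueField ↥A) ↥(modularFunctionFieldFullC (ResidueField ↥A) N) (piW A c) :=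
  red0_algebraMap N hA hℓN c

theorem constO0_injective : Function.Injective (constO0 N hA hℓN) := by
  intro a b h
  have h1 := congrArg (fun x : ↥(O0 N hA hℓN) =>
    (x : ↥(laurentBaseChange ↥(K0 A) (modularFunctionFieldFull N)))) h
  simp only [coe_constO0] at h1
  exact Subtype.ext ((algebraMap ↥(K0 A)
    ↥(laurentBaseChange ↥(K0 A) (modularFunctionFieldFull N))).injective h1)

omit hℓ [NeZero N] in
theorem mem_of_eq_mul_unit {F : Type*} [Field F] (V : ValuationSubring F) (x : ↥V) (u : (↥V)ˣ)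
    (c : F) (h : (x : F) = c * ((u : ↥V) : F)) : c ∈ V := by
  have h2 : ((u : ↥V) : F) * (((u⁻¹ : (↥V)ˣ) : ↥V) : F) = 1 := by
    have := congrArg (Subtype.val : ↥V → F) (Units.mul_inv u)
    exact this
  have h1 : c = (x : F) * (((u⁻¹ : (↥V)ˣ) : ↥V) : F) := by
    rw [h, mul_assoc, h2, mul_one]
  rw [h1]
  exact V.mul_mem _ _ x.2 (((u⁻¹ : (↥V)ˣ) : ↥V)).2

theorem constO0_natCast (n : ℕ) :
    constO0 N hA hℓN ((n : ℕ) : ↥(W A)) = ((n : ℕ) : ↥(O0 N hA hℓN)) :=
  map_natCast (constO0 N hA hℓN) n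

theorem constO0_mul_pow (w : ↥(W A)) (n : ℕ) :
    constO0 N hA hℓN (w * ((ℓ : ℕ) : ↥(W A)) ^ n) =
      constO0 N hA hℓN w * ((ℓ : ℕ) : ↥(O0 N hA hℓN)) ^ n := by
  rw [map_mul, map_pow, constO0_natCast]

/-- **every nonzero element of `O0` is a unit times a power of `ℓ`** -/
theorem exists_unit_mul_pow0 (x : ↥(O0 N hA hℓN)) (hx : x ≠ 0) :
    ∃ (n : ℕ) (u : (↥(O0 N hA hℓN))ˣ), x = u * ((ℓ : ℕ) : ↥(O0 N hA hℓN)) ^ n := by
  have hx0 : (x : ↥(laurentBaseChange ↥(K0 A) (modularFunctionFieldFull N))) ≠ 0 :=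
    fun h => hx (Subtype.ext h)
  obtain ⟨c, hc0, u, hu⟩ := exists_const_mul_unit0 N hA hℓN _ hx0
  have hcW : c ∈ W A :=
    mem_W_of_algebraMap_mem_O0 N hA hℓN c (mem_of_eq_mul_unit _ x u _ hu)
  have hcW0 : (⟨c, hcW⟩ : ↥(W A)) ≠ 0 := fun h => hc0 (congrArg Subtype.val h)
  obtain ⟨n, w, hw⟩ := exists_unit_mul_pow hA ⟨c, hcW⟩ hcW0
  refine ⟨n, Units.map (constO0 N hA hℓN : ↥(W A) →* ↥(O0 N hA hℓN)) w * u, ?_⟩
  have h4 : x = constO0 N hA hℓN ⟨c, hcW⟩ * u := Subtype.ext hu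
  have h5 : ((Units.map (constO0 N hA hℓN : ↥(W A) →* ↥(O0 N hA hℓN)) w * u :
      (↥(O0 N hA hℓN))ˣ) : ↥(O0 N hA hℓN)) = constO0 N hA hℓN (w : ↥(W A)) * u := rfl
  rw [h5, h4, hw, constO0_mul_pow]
  exact mul_right_comm _ _ _

theorem not_isUnit_natCast0 : ¬ IsUnit (((ℓ : ℕ) : ↥(O0 N hA hℓN))) := by
  rw [← red0_eq_zero_iff, ← map_natCast (constO0 N hA hℓN), red0_constO0,
    piW_eq_zero_of_not_isUnit A _ (not_isUnit_natCast hA), map_zero]

theorem natCast0_ne_zero : ((ℓ : ℕ) : ↥(O0 N hA hℓN)) ≠ 0 := by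
  rw [← map_natCast (constO0 N hA hℓN)]
  intro h
  have h1 : ((ℓ : ℕ) : ↥(W A)) = 0 := constO0_injective N hA hℓN (by rw [h, map_zero])
  have h2 := congrArg (fun z : ↥(W A) => (((z : ↥(K0 A))) : Kb)) h1
  simp only [coe_natCast_W] at h2
  have h3 : ((ℓ : ℕ) : Kb) ≠ 0 := by exact_mod_cast hℓ.out.ne_zero
  exact h3 (by simpa using h2)

/-- **the maximal ideal of `O0` is generated by `ℓ`** -/
theorem maximalIdeal_O0_eq :
    maximalIdeal ↥(O0 N hA hℓN) = Ideal.span {((ℓ : ℕ) : ↥(O0 N hA hℓN))} := by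
  apply le_antisymm
  · intro x hx
    rcases eq_or_ne x 0 with rfl | hx0
    · exact zero_mem _
    obtain ⟨n, u, hu⟩ := exists_unit_mul_pow0 N hA hℓN x hx0
    rcases Nat.eq_zero_or_pos n with rfl | hn
    · rw [pow_zero, mul_one] at hu
      exact absurd (hu ▸ u.isUnit) ((mem_maximalIdeal x).mp hx)
    · rw [hu, Ideal.mem_span_singleton]
      exact Dvd.dvd.mul_left (dvd_pow_self _ hn.ne') _
  · rw [Ideal.span_singleton_le_iff_mem, mem_maximalIdeal, mem_nonunits_iff]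
    exact not_isUnit_natCast0 N hA hℓN

theorem irreducible_natCast0 : Irreducible (((ℓ : ℕ) : ↥(O0 N hA hℓN))) := by
  have h1 : (Ideal.span {((ℓ : ℕ) : ↥(O0 N hA hℓN))}).IsPrime := by
    rw [← maximalIdeal_O0_eq]
    exact Ideal.IsMaximal.isPrime inferInstance
  exact ((Ideal.span_singleton_prime (natCast0_ne_zero N hA hℓN)).mp h1).irreducible

/-- **`O0` is a discrete valuation ring** -/
theorem isDiscreteValuationRing_O0 : IsDiscreteValuationRing ↥(O0 N hA hℓN) := by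
  refine IsDiscreteValuationRing.ofHasUnitMulPowIrreducibleFactorization
    ⟨((ℓ : ℕ) : ↥(O0 N hA hℓN)), irreducible_natCast0 N hA hℓN, fun {x} hx => ?_⟩
  obtain ⟨n, u, hu⟩ := exists_unit_mul_pow0 N hA hℓN x hx
  refine ⟨n, ?_⟩
  rw [hu, mul_comm]
  exact associated_mul_unit_right _ _ u.isUnit

theorem isPrincipalIdealRing_O0 : IsPrincipalIdealRing ↥(O0 N hA hℓN) :=
  haveI := isDiscreteValuationRing_O0 N hA hℓN
  inferInstance

theorem O0_ne_top : O0 N hA hℓN ≠ ⊤ := by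
  intro h
  apply not_isUnit_natCast0 N hA hℓN
  have hmem : ∀ x : ↥(laurentBaseChange ↥(K0 A) (modularFunctionFieldFull N)),
      x ∈ O0 N hA hℓN := fun x => by rw [h]; exact ValuationSubring.mem_top x
  refine isUnit_iff_exists_inv.mpr ⟨⟨(((ℓ : ℕ) : ↥(O0 N hA hℓN)) :
    ↥(laurentBaseChange ↥(K0 A) (modularFunctionFieldFull N)))⁻¹, hmem _⟩, ?_⟩
  apply Subtype.ext
  show (((ℓ : ℕ) : ↥(O0 N hA hℓN)) : ↥(laurentBaseChange ↥(K0 A) (modularFunctionFieldFull N))) *
    (((ℓ : ℕ) : ↥(O0 N hA hℓN)) : ↥(laurentBaseChange ↥(K0 A) (modularFunctionFieldFull N)))⁻¹ = 1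
  exact mul_inv_cancel₀ fun h0 => natCast0_ne_zero N hA hℓN (Subtype.ext h0)

/-! ### comparison with the Gauss datum of `ℚ̄(X₀(N))` -/

section Compare

open Fermat.Agent.S37.Gauss.Datum

local instance : Algebra.IsAlgebraic ℚ Kb := AlgebraicClosure.isAlgebraic ℚ

omit hℓ [NeZero N] in
theorem subtype_comp_toA :
    (A.subtype : ↥A →+* Kb).comp (toA A) =
      (algebraMap ↥(K0 A) Kb).comp ((W A).subtype : ↥(W A) →+* ↥(K0 A)) :=
  RingHom.ext fun _ => rfl

/-- `W`-integral elements are `A`-integral -/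
def intMap : ↥(intRing (W A) (piW A) N) →+* ↥(intRing A (residue ↥A) N) where
  toFun y := ⟨coeffMap (toA A) y.1, by
    rw [mem_intRing, coeffMap_coeffMap, coeffMap_coeffMap, subtype_comp_toA, ← coeffMap_coeffMap]
    exact ⟨(toBar (modularFunctionFieldFull N) (K0 A) (toFL (W A) (piW A) N y)).2, y.2.2⟩⟩
  map_one' := Subtype.ext (map_one _)
  map_mul' x y := Subtype.ext (map_mul _ _ _)
  map_zero' := Subtype.ext (map_zero _)
  map_add' x y := Subtype.ext (map_add _ _ _)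

omit hℓ in
theorem toFL_intMap (y : ↥(intRing (W A) (piW A) N)) :
    toFL A (residue ↥A) N (intMap N y) =
      toBar (modularFunctionFieldFull N) (K0 A) (toFL (W A) (piW A) N y) := by
  apply Subtype.ext
  rw [coe_toFL, coe_toBar, coe_toFL]
  show coeffMap A.subtype (coeffMap (toA A) y.1) = _
  rw [coeffMap_coeffMap, subtype_comp_toA, ← coeffMap_coeffMap]

omit hℓ in
theorem red_intMap (y : ↥(intRing (W A) (piW A) N)) :
    Fermat.Agent.S18.GaussFromH.red A (residue ↥A) N (intMap N y) =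
      Fermat.Agent.S18.GaussFromH.red (W A) (piW A) N y := by
  apply Subtype.ext
  rw [coe_red, coe_red]
  show coeffMap (residue ↥A) (coeffMap (toA A) y.1) = _
  rw [coeffMap_coeffMap]
  rfl

/-- functions of the Gauss ring over `K0` lie in the Gauss ring over `ℚ̄` -/
theorem toBar_mem_O (f : ↥(O0 N hA hℓN)) :
    toBar (modularFunctionFieldFull N) (K0 A)
      (f : ↥(laurentBaseChange ↥(K0 A) (modularFunctionFieldFull N))) ∈
        (gaussDatum N A hA hℓN).O := by
  obtain ⟨a, b, hb, hab⟩ := f.2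
  rw [mem_O_iff]
  refine ⟨intMap N a, intMap N b, ?_, ?_⟩
  · rw [red_intMap]; exact hb
  · rw [toFL_intMap, toFL_intMap, ← map_mul, hab]

/-- the two reductions agree -/
theorem red_toBar (f : ↥(O0 N hA hℓN)) :
    (gaussDatum N A hA hℓN).red ⟨_, toBar_mem_O N hA hℓN f⟩ = red0 N hA hℓN f := by
  obtain ⟨a, b, hb, hab⟩ := f.2
  have hb' : Fermat.Agent.S18.GaussFromH.red A (residue ↥A) N (intMap N b) ≠ 0 := by
    rw [red_intMap]; exact hb
  have hab' : toBar (modularFunctionFieldFull N) (K0 A)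
      (f : ↥(laurentBaseChange ↥(K0 A) (modularFunctionFieldFull N))) *
        toFL A (residue ↥A) N (intMap N b) = toFL A (residue ↥A) N (intMap N a) := by
    rw [toFL_intMap, toFL_intMap, ← map_mul, hab]
  rw [red_eq hA hℓN ⟨_, toBar_mem_O N hA hℓN f⟩ hb' hab', red_intMap, red_intMap]
  exact (redV_eq (hasRepW N hA hℓN) f hb hab).symm

/-- **`O0` is the restriction of the Gauss ring of `ℚ̄(X₀(N))` to `K0(X₀(N))`** -/
theorem mem_O0_iff (f : ↥(laurentBaseChange ↥(K0 A) (modularFunctionFieldFull N))) :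
    f ∈ O0 N hA hℓN ↔
      toBar (modularFunctionFieldFull N) (K0 A) f ∈ (gaussDatum N A hA hℓN).O := by
  constructor
  · intro hf
    exact toBar_mem_O N hA hℓN ⟨f, hf⟩
  · intro hf
    by_contra hnot
    have hf0 : f ≠ 0 := fun h => hnot (h ▸ (O0 N hA hℓN).zero_mem)
    have hinv : f⁻¹ ∈ O0 N hA hℓN := ((O0 N hA hℓN).mem_or_inv_mem f).resolve_left hnot
    have hnu : ¬ IsUnit (⟨f⁻¹, hinv⟩ : ↥(O0 N hA hℓN)) := by
      intro hu
      obtain ⟨v, hv⟩ := hu.exists_right_inv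
      have hv' : f⁻¹ * (v : ↥(laurentBaseChange ↥(K0 A) (modularFunctionFieldFull N))) = 1 :=
        congrArg Subtype.val hv
      apply hnot
      have : (v : ↥(laurentBaseChange ↥(K0 A) (modularFunctionFieldFull N))) = f := by
        field_simp at hv'
        exact hv'
      rw [← this]
      exact v.2
    have h0 : red0 N hA hℓN ⟨f⁻¹, hinv⟩ = 0 := (red0_eq_zero_iff N hA hℓN _).mpr hnu
    rw [← red_toBar] at h0
    have h1 : ¬ IsUnit (⟨_, toBar_mem_O N hA hℓN ⟨f⁻¹, hinv⟩⟩ : ↥(gaussDatum N A hA hℓN).O) :=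
      ((gaussDatum N A hA hℓN).red_eq_zero_iff _).mp h0
    apply h1
    refine isUnit_iff_exists_inv.mpr ⟨⟨_, hf⟩, ?_⟩
    apply Subtype.ext
    show toBar (modularFunctionFieldFull N) (K0 A) f⁻¹ *
      toBar (modularFunctionFieldFull N) (K0 A) f = 1
    rw [← map_mul, inv_mul_cancel₀ hf0, map_one]

theorem O0_eq_comap :
    O0 N hA hℓN =
      (gaussDatum N A hA hℓN).O.comap (toBar (modularFunctionFieldFull N) (K0 A)) :=
  SetLike.ext fun f => mem_O0_iff N hA hℓN f

/-- `O0 → O`, as a ring homomorphism -/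
def toBarO : ↥(O0 N hA hℓN) →+* ↥(gaussDatum N A hA hℓN).O where
  toFun f := ⟨_, toBar_mem_O N hA hℓN f⟩
  map_one' := Subtype.ext (map_one _)
  map_mul' _ _ := Subtype.ext (map_mul _ _ _)
  map_zero' := Subtype.ext (map_zero _)
  map_add' _ _ := Subtype.ext (map_add _ _ _)

@[simp] theorem coe_toBarO (f : ↥(O0 N hA hℓN)) :
    ((toBarO N hA hℓN f : ↥(gaussDatum N A hA hℓN).O) : ↥(modularFunctionFieldBar N)) =
      toBar (modularFunctionFieldFull N) (K0 A)
        (f : ↥(laurentBaseChange ↥(K0 A) (modularFunctionFieldFull N))) := rfl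

theorem red_toBarO (f : ↥(O0 N hA hℓN)) :
    (gaussDatum N A hA hℓN).red (toBarO N hA hℓN f) = red0 N hA hℓN f :=
  red_toBar N hA hℓN f

theorem toBarO_natCast (n : ℕ) :
    toBarO N hA hℓN ((n : ℕ) : ↥(O0 N hA hℓN)) = ((n : ℕ) : ↥(gaussDatum N A hA hℓN).O) :=
  map_natCast (toBarO N hA hℓN) n

omit hℓ [NeZero N] in
theorem eq_zpow_neg_mul {F : Type*} [Field F] {g a b p : F} {n : ℕ} (h : g⁻¹ = a * p ^ n)
    (hab : a * b = 1) : g = p ^ (-(n : ℤ)) * b := by
  have hg : g = (a * p ^ n)⁻¹ := by rw [← h, inv_inv]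
  have hb : b = a⁻¹ := eq_inv_of_mul_eq_one_right hab
  rw [hg, hb, zpow_neg, zpow_natCast, mul_inv, mul_comm]

theorem toBar_eq_of_eq_unit_mul_pow (x : ↥(O0 N hA hℓN)) (u : (↥(O0 N hA hℓN))ˣ) (n : ℕ)
    (hu : x = u * ((ℓ : ℕ) : ↥(O0 N hA hℓN)) ^ n) :
    toBar (modularFunctionFieldFull N) (K0 A)
        (x : ↥(laurentBaseChange ↥(K0 A) (modularFunctionFieldFull N))) =
      ((Units.map (toBarO N hA hℓN : ↥(O0 N hA hℓN) →* ↥(gaussDatum N A hA hℓN).O) u :
        (↥(gaussDatum N A hA hℓN).O)ˣ) : ↥(gaussDatum N A hA hℓN).O) *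
        ((ℓ : ℕ) : ↥(modularFunctionFieldBar N)) ^ n := by
  have h1 : toBarO N hA hℓN x =
      toBarO N hA hℓN (u : ↥(O0 N hA hℓN)) * ((ℓ : ℕ) : ↥(gaussDatum N A hA hℓN).O) ^ n := by
    rw [hu, map_mul, map_pow, toBarO_natCast]
  exact congrArg (Subtype.val : ↥(gaussDatum N A hA hℓN).O → ↥(modularFunctionFieldBar N)) h1

/-- **(G1) the Gauss valuation is discrete on inertia-invariant functions**: a nonzero function of
`ℚ̄(X₀(N))` (`ℓ ∤ N`) fixed by the inertia group of `A` is a power of `ℓ` times a unit of the Gauss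
valuation ring. -/
theorem exists_zpow_mul_unit (f : ↥(modularFunctionFieldBar N)) (hf : f ≠ 0)
    (hinv : ∀ σ ∈ A.inertiaSubgroupIn ℚ,
      arithmeticGalois (modularFunctionFieldFull N) σ • f = f) :
    ∃ (n : ℤ) (u : (↥(gaussDatum N A hA hℓN).O)ˣ),
      f = ((ℓ : ℕ) : ↥(modularFunctionFieldBar N)) ^ n *
        ((u : ↥(gaussDatum N A hA hℓN).O) : ↥(modularFunctionFieldBar N)) := by
  have hmem : f ∈ Set.range (toBar (modularFunctionFieldFull N) (K0 A)) := by
    rw [K0, range_toBar_fixedField]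
    exact hinv
  obtain ⟨f₀, rfl⟩ := hmem
  have hf₀ : f₀ ≠ 0 := by
    rintro rfl
    exact hf (map_zero _)
  have hℓ0 : ((ℓ : ℕ) : ↥(modularFunctionFieldBar N)) ≠ 0 := by
    exact_mod_cast hℓ.out.ne_zero
  rcases (O0 N hA hℓN).mem_or_inv_mem f₀ with h | h
  · obtain ⟨n, u, hu⟩ := exists_unit_mul_pow0 N hA hℓN ⟨f₀, h⟩
      (fun h0 => hf₀ (congrArg Subtype.val h0))
    refine ⟨(n : ℤ), Units.map
      (toBarO N hA hℓN : ↥(O0 N hA hℓN) →* ↥(gaussDatum N A hA hℓN).O) u, ?_⟩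
    rw [zpow_natCast, mul_comm]
    exact toBar_eq_of_eq_unit_mul_pow N hA hℓN ⟨f₀, h⟩ u n hu
  · obtain ⟨n, u, hu⟩ := exists_unit_mul_pow0 N hA hℓN ⟨f₀⁻¹, h⟩
      (fun h0 => inv_ne_zero hf₀ (congrArg Subtype.val h0))
    refine ⟨-(n : ℤ), (Units.map
      (toBarO N hA hℓN : ↥(O0 N hA hℓN) →* ↥(gaussDatum N A hA hℓN).O) u)⁻¹, ?_⟩
    have hu' := toBar_eq_of_eq_unit_mul_pow N hA hℓN ⟨f₀⁻¹, h⟩ u n hu
    have h2 := congrArg (Subtype.val : ↥(gaussDatum N A hA hℓN).O → ↥(modularFunctionFieldBar N))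
      (Units.mul_inv (Units.map
        (toBarO N hA hℓN : ↥(O0 N hA hℓN) →* ↥(gaussDatum N A hA hℓN).O) u))
    exact eq_zpow_neg_mul
      ((map_inv₀ (toBar (modularFunctionFieldFull N) (K0 A)) f₀).symm.trans hu') h2

end Compare

end Fermat.Agent.S36.GaussK0
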