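/-
PROJECT V (S36), slice V-GaussK0, part 3 (helper11): the exports of `S36/GaussK0` on the OBJECTS OF
THE CHAIN (helper2 #2528 (D4)/(D5), helper6 `KummerNew.F0 I N`, `KummerNew.toE I N`,
`I = A.inertiaSubgroupIn ℚ`), i.e. with the fixed field written literally as
`IntermediateField.fixedField I` and the Gauss valuation ring written as a `comap`:

* `Og0 N hA hℓN := (gaussDatum N A hA hℓN).O.comap (toE I N)`; `Og0_eq : Og0 = GaussK0.O0`;
* `isPrincipalIdealRing_Og0`, `isDiscreteValuationRing_Og0`,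
  `maximalIdeal_Og0_eq : 𝔪 = (ℓ)`, `Og0_ne_top`, `exists_unit_mul_pow_Og0`;
* `toO : Og0 →+* G.O`, `red0z := G.red ∘ toO : Og0 →+* F_k(N)`, `red0z_surjective`,
  `ker_red0z`, `red0z_eq_zero_iff`;
* constants: `algebraMap_mem_Og0`, `red0z_algebraMap`, `mem_of_algebraMap_mem_Og0`;
* `j0K_mem_Og0`, `red0z_j0K : red0z j = J` (`j0K` of `S36/PowerBasisK0`).
-/
import Mathlib
import Fermat.Agent.S36.GaussK0
import Fermat.Agent.S36.KummerNew
import Fermat.Agent.S36.PowerBasisK0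

set_option autoImplicit false
set_option linter.unusedSectionVars false
set_option linter.style.haveILetI false
set_option synthInstance.maxHeartbeats 400000

noncomputable section

namespace Fermat.Agent.S36.GaussK0Comap

open HahnSeries ModularCurve IsLocalRing IntermediateField Polynomial
open Fermat.Agent.S18.C.SmallDVR Fermat.Agent.S36.K0Fixed Fermat.Agent.S36.GaussK0
open Fermat.Agent.S37.Gauss.Datum Fermat.Agent.S36.KummerNew

local notation "Kb" => AlgebraicClosure ℚ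

variable {ℓ : ℕ} [hℓ : Fact ℓ.Prime] (N : ℕ) [NeZero N] {A : ValuationSubring Kb}
variable (hA : A.LiesOverPrime ℓ) (hℓN : ¬ ℓ ∣ N)

/-- **the Gauss valuation ring of the `K0`-form `F0 I N`** (`I` the inertia group of `A`), as the
restriction of the Gauss valuation ring of `ℚ̄(X₀(N))` along `toE` -/
def Og0 : ValuationSubring ↥(F0 (A.inertiaSubgroupIn ℚ) N) :=
  (gaussDatum N A hA hℓN).O.comap (toE (A.inertiaSubgroupIn ℚ) N)

theorem mem_Og0_iff (f : ↥(F0 (A.inertiaSubgroupIn ℚ) N)) :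
    f ∈ Og0 N hA hℓN ↔ toE (A.inertiaSubgroupIn ℚ) N f ∈ (gaussDatum N A hA hℓN).O := Iff.rfl

theorem Og0_eq : Og0 N hA hℓN = O0 N hA hℓN := (O0_eq_comap N hA hℓN).symm

theorem isPrincipalIdealRing_Og0 : IsPrincipalIdealRing ↥(Og0 N hA hℓN) :=
  Og0_eq N hA hℓN ▸ isPrincipalIdealRing_O0 N hA hℓN

theorem isDiscreteValuationRing_Og0 : IsDiscreteValuationRing ↥(Og0 N hA hℓN) :=
  Og0_eq N hA hℓN ▸ isDiscreteValuationRing_O0 N hA hℓN

theorem maximalIdeal_Og0_eq :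
    maximalIdeal ↥(Og0 N hA hℓN) = Ideal.span {((ℓ : ℕ) : ↥(Og0 N hA hℓN))} :=
  Og0_eq N hA hℓN ▸ maximalIdeal_O0_eq N hA hℓN

theorem Og0_ne_top : Og0 N hA hℓN ≠ ⊤ :=
  Og0_eq N hA hℓN ▸ O0_ne_top N hA hℓN

/-- the inclusion `Og0 → G.O` -/
def toO : ↥(Og0 N hA hℓN) →+* ↥(gaussDatum N A hA hℓN).O where
  toFun f := ⟨toE (A.inertiaSubgroupIn ℚ) N f, f.2⟩
  map_one' := Subtype.ext (map_one _)
  map_mul' _ _ := Subtype.ext (map_mul _ _ _)
  map_zero' := Subtype.ext (map_zero _)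
  map_add' _ _ := Subtype.ext (map_add _ _ _)

@[simp] theorem coe_toO (f : ↥(Og0 N hA hℓN)) :
    ((toO N hA hℓN f : ↥(gaussDatum N A hA hℓN).O) : ↥(modularFunctionFieldBar N)) =
      toE (A.inertiaSubgroupIn ℚ) N (f : ↥(F0 (A.inertiaSubgroupIn ℚ) N)) := rfl

/-- **the reduction map of `Og0`**: the restriction of the reduction of the Gauss datum -/
def red0z : ↥(Og0 N hA hℓN) →+* ↥(modularFunctionFieldFullC (ResidueField ↥A) N) :=
  (gaussDatum N A hA hℓN).red.comp (toO N hA hℓN)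

theorem red0z_apply (f : ↥(Og0 N hA hℓN)) :
    red0z N hA hℓN f = (gaussDatum N A hA hℓN).red (toO N hA hℓN f) := rfl

theorem aux_zero_iff (V : ValuationSubring ↥(F0 (A.inertiaSubgroupIn ℚ) N))
    (hV : V = O0 N hA hℓN) (u : ↥V)
    (hu : toE (A.inertiaSubgroupIn ℚ) N (u : ↥(F0 (A.inertiaSubgroupIn ℚ) N)) ∈
      (gaussDatum N A hA hℓN).O) :
    (gaussDatum N A hA hℓN).red ⟨_, hu⟩ = 0 ↔ ¬ IsUnit u := by
  subst hV
  have h1 := red_toBar N hA hℓN u
  have h2 := red0_eq_zero_iff N hA hℓN u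
  constructor
  · intro h
    exact h2.mp (h1.symm.trans h)
  · intro h
    exact h1.trans (h2.mpr h)

theorem aux_surj (V : ValuationSubring ↥(F0 (A.inertiaSubgroupIn ℚ) N))
    (hV : V = O0 N hA hℓN) (y : ↥(modularFunctionFieldFullC (ResidueField ↥A) N)) :
    ∃ (u : ↥V) (hu : toE (A.inertiaSubgroupIn ℚ) N (u : ↥(F0 (A.inertiaSubgroupIn ℚ) N)) ∈
      (gaussDatum N A hA hℓN).O), (gaussDatum N A hA hℓN).red ⟨_, hu⟩ = y := by
  subst hV
  obtain ⟨x, rfl⟩ := red0_surjective N hA hℓN y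
  exact ⟨x, toBar_mem_O N hA hℓN x, red_toBar N hA hℓN x⟩

theorem aux_pow (V : ValuationSubring ↥(F0 (A.inertiaSubgroupIn ℚ) N))
    (hV : V = O0 N hA hℓN) (x : ↥V) (hx : x ≠ 0) :
    ∃ (n : ℕ) (u : (↥V)ˣ), x = u * ((ℓ : ℕ) : ↥V) ^ n := by
  subst hV
  exact exists_unit_mul_pow0 N hA hℓN x hx

theorem red0z_eq_zero_iff (u : ↥(Og0 N hA hℓN)) : red0z N hA hℓN u = 0 ↔ ¬ IsUnit u :=
  aux_zero_iff N hA hℓN _ (Og0_eq N hA hℓN) u u.2

theorem ker_red0z : RingHom.ker (red0z N hA hℓN) = maximalIdeal ↥(Og0 N hA hℓN) := by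
  ext x
  rw [RingHom.mem_ker, red0z_eq_zero_iff, mem_maximalIdeal, mem_nonunits_iff]

theorem red0z_surjective : Function.Surjective (red0z N hA hℓN) := by
  intro y
  obtain ⟨u, hu, h⟩ := aux_surj N hA hℓN _ (Og0_eq N hA hℓN) y
  exact ⟨u, h⟩

/-- every nonzero element of `Og0` is a unit times a power of `ℓ` -/
theorem exists_unit_mul_pow_Og0 (x : ↥(Og0 N hA hℓN)) (hx : x ≠ 0) :
    ∃ (n : ℕ) (u : (↥(Og0 N hA hℓN))ˣ), x = u * ((ℓ : ℕ) : ↥(Og0 N hA hℓN)) ^ n :=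
  aux_pow N hA hℓN _ (Og0_eq N hA hℓN) x hx

/-! ### constants -/

/-- constants of `K0` which are integral for `A` lie in `Og0` -/
theorem algebraMap_mem_Og0 (c : ↥(IntermediateField.fixedField (A.inertiaSubgroupIn ℚ)))
    (hc : (c : Kb) ∈ A) :
    algebraMap ↥(IntermediateField.fixedField (A.inertiaSubgroupIn ℚ))
      ↥(F0 (A.inertiaSubgroupIn ℚ) N) c ∈ Og0 N hA hℓN := by
  rw [mem_Og0_iff]
  have h : toE (A.inertiaSubgroupIn ℚ) N
      (algebraMap ↥(IntermediateField.fixedField (A.inertiaSubgroupIn ℚ))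
        ↥(F0 (A.inertiaSubgroupIn ℚ) N) c) =
      algebraMap Kb ↥(modularFunctionFieldBar N) (c : Kb) :=
    toBar_algebraMap (modularFunctionFieldFull N) _ c
  rw [h]
  exact (gaussDatum N A hA hℓN).algebraMap_mem ⟨(c : Kb), hc⟩

/-- on constants `red0z` is the residue map of `A` -/
theorem red0z_algebraMap (c : ↥(IntermediateField.fixedField (A.inertiaSubgroupIn ℚ)))
    (hc : (c : Kb) ∈ A) :
    red0z N hA hℓN ⟨_, algebraMap_mem_Og0 N hA hℓN c hc⟩ =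
      algebraMap (ResidueField ↥A) ↥(modularFunctionFieldFullC (ResidueField ↥A) N)
        (residue ↥A ⟨(c : Kb), hc⟩) := by
  rw [red0z_apply, ← (gaussDatum N A hA hℓN).red_algebraMap ⟨(c : Kb), hc⟩]
  congr 1
  exact Subtype.ext (toBar_algebraMap (modularFunctionFieldFull N) _ c)

/-- `Og0 ∩ K0 = A ∩ K0` -/
theorem mem_of_algebraMap_mem_Og0 (c : ↥(IntermediateField.fixedField (A.inertiaSubgroupIn ℚ)))
    (hc : algebraMap ↥(IntermediateField.fixedField (A.inertiaSubgroupIn ℚ))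
      ↥(F0 (A.inertiaSubgroupIn ℚ) N) c ∈ Og0 N hA hℓN) : (c : Kb) ∈ A := by
  rw [mem_Og0_iff] at hc
  have h : toE (A.inertiaSubgroupIn ℚ) N
      (algebraMap ↥(IntermediateField.fixedField (A.inertiaSubgroupIn ℚ))
        ↥(F0 (A.inertiaSubgroupIn ℚ) N) c) =
      algebraMap Kb ↥(modularFunctionFieldBar N) (c : Kb) :=
    toBar_algebraMap (modularFunctionFieldFull N) _ c
  rw [h] at hc
  exact (gaussDatum N A hA hℓN).mem_of_algebraMap_mem _ hc

/-! ### `j` -/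

open Fermat.Agent.S36.PowerBasisK0 in
/-- `j` lies in `Og0` -/
theorem j0K_mem_Og0 : j0K (A.inertiaSubgroupIn ℚ) N ∈ Og0 N hA hℓN := by
  rw [mem_Og0_iff]
  have h : toE (A.inertiaSubgroupIn ℚ) N (j0K (A.inertiaSubgroupIn ℚ) N) =
      Fermat.Agent.S24.DegreeAlg.jgen N := tB_j0K (A.inertiaSubgroupIn ℚ) N
  rw [h]
  exact jgen_mem_O hA hℓN

open Fermat.Agent.S36.PowerBasisK0 in
/-- `red0z j = J` -/
theorem red0z_j0K :
    red0z N hA hℓN ⟨j0K (A.inertiaSubgroupIn ℚ) N, j0K_mem_Og0 N hA hℓN⟩ =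
      Fermat.Agent.S18.B.FkBasics.jk (ResidueField ↥A) N := by
  rw [red0z_apply, ← red_jgen hA hℓN]
  congr 1
  exact Subtype.ext (tB_j0K (A.inertiaSubgroupIn ℚ) N)

end Fermat.Agent.S36.GaussK0Comap
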