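/-
PROJECT V (S36), slice V-LevelQK0, abstract core (helper16): **the two extensions of a DISCRETE
valuation ring along a "Kronecker" extension**, in ring language (no modular objects).

`F ⊆ F'` fields, `O` a valuation subring of `F`, `ρ : O → κ` a reduction map (kernel `= 𝔪_O`),
`x ∈ O` (think `x = j`), `pb` a power basis of `F'/F` (think `pb.gen = j(t^q)`) whose minimal
polynomial `Φ ∈ O[X]` satisfies the Kronecker congruence
`ρ(Φ) = (X - J^q)(X^q - J)`, `J = ρ x`, with `J^(q²) ≠ J` and `X^q - J` irreducible over `κ`.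

* `Hyp.simple : SimpleRoot.Datum O F'` (`t = pb.gen`, simple root `a = x^q`);
  `Hyp.two : TwoExt.Setup O F'` (`G₁ = X - x^q`, `G₂ = X^q - x`);
* for a valuation subring `V` of `F'` over `O` with `pb.gen - x^q ∈ 𝔪_V` (`Hyp.IsThin`), when `O`
  is a PID with `𝔪_O = (ϖ)`: `V = (simple).V` (`IsThin.eq_V`), `V` is a PID
  (`IsThin.isPrincipalIdealRing`), `V ≠ ⊤`, `𝔪_V = (ϖ)` (`IsThin.maximalIdeal_eq`,
  `IsThin.exists_mul_of_mem_nonunits`, `IsThin.val_le_of_mem_nonunits`), the value group is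
  generated by `|ϖ|` (`IsThin.exists_zpow_eq`) and the residue degree is one
  (`IsThin.exists_const_sub_mem_nonunits`);
* `Hyp.eq_or_eq` : if `V₁` is thin and `V₂` lies over `O` with `pb.gen^q - x ∈ 𝔪_{V₂}`
  (`Hyp.IsInsep`), then `V₁`, `V₂` are the ONLY valuation subrings of `F'` over `O`;
  `Hyp.ne_of_isThin_of_isInsep : V₁ ≠ V₂`.

Application (`S36/LevelQK0`): `F = F_{K₀}(M)`, `F' = F_{K₀}(M q)` along `α₀` (resp. `β₀`), `O` the
Gauss ring over `K₀` (a DVR with uniformiser `q`), `V₁ V₂` the two Gauss rings of level `M q`.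
-/
import Mathlib
import Fermat.Agent.S34.SimpleRoot
import Fermat.Agent.S36.ThreeValInputs

set_option autoImplicit false
set_option linter.unusedSectionVars false
set_option linter.style.haveILetI false

noncomputable section

namespace Fermat.Agent.S36.KroneckerLevel

open Polynomial IsLocalRing
open Fermat.Agent.S34.TwoExt Fermat.Agent.S34
open Fermat.Agent.S36.ThreeValInputs (mem_maximalIdeal_iff residue_eq_iff red_eq_of_map_eq
  irreducible_red_of_map)

variable {F : Type*} [Field F] {F' : Type*} [Field F'] [Algebra F F']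

/-- **The hypotheses**: a power basis whose minimal polynomial satisfies the Kronecker congruence
modulo the maximal ideal of `O`. -/
structure Hyp (O : ValuationSubring F) (F' : Type*) [Field F'] [Algebra F F']
    (κ : Type*) [Field κ] where
  q : ℕ
  q_pos : 0 < q
  ρ : ↥O →+* κ
  hρ : ∀ c : ↥O, ρ c = 0 ↔ (c : F) ∈ O.nonunits
  x : ↥O
  pb : PowerBasis F F'
  Φ : (↥O)[X]
  monic : Φ.Monic
  hmin : minpoly F pb.gen = Φ.map (algebraMap ↥O F)
  hchar : Φ.map ρ = (X - C (ρ x ^ q)) * (X ^ q - C (ρ x))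
  hne : ρ x ^ (q ^ 2) ≠ ρ x
  hirr : Irreducible (X ^ q - C (ρ x) : κ[X])

namespace Hyp

variable {O : ValuationSubring F} {κ : Type*} [Field κ] (H : Hyp O F' κ)

/-- `ρ (P(a)) = (ρ P)(ρ a)` -/
theorem rho_eval (P : (↥O)[X]) (a : ↥O) : H.ρ (P.eval a) = (P.map H.ρ).eval (H.ρ a) := by
  rw [Polynomial.eval_map, Polynomial.eval₂_at_apply]

theorem eval_mem : H.Φ.eval (H.x ^ H.q) ∈ maximalIdeal ↥O := by
  rw [mem_maximalIdeal_iff H.ρ H.hρ, H.rho_eval, H.hchar, map_pow, eval_mul, eval_sub, eval_X,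
    eval_C, sub_self, zero_mul]

theorem deriv_unit : IsUnit (H.Φ.derivative.eval (H.x ^ H.q)) := by
  by_contra hnu
  have h1 : H.Φ.derivative.eval (H.x ^ H.q) ∈ maximalIdeal ↥O := (mem_maximalIdeal _).mpr hnu
  rw [mem_maximalIdeal_iff H.ρ H.hρ, H.rho_eval, ← Polynomial.derivative_map, H.hchar, map_pow,
    derivative_mul, derivative_sub, derivative_sub, derivative_X, derivative_C, derivative_C,
    derivative_X_pow, sub_zero, sub_zero, one_mul, eval_add, eval_sub, eval_pow, eval_X, eval_C,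
    eval_mul, eval_sub, eval_X, eval_C, sub_self, zero_mul, add_zero, ← pow_mul, ← pow_two,
    sub_eq_zero] at h1
  exact H.hne h1

/-- the simple-root datum at `a = x^q` -/
def simple : SimpleRoot.Datum O F' :=
  SimpleRoot.Datum.ofPowerBasis H.pb H.Φ (H.x ^ H.q) H.monic H.hmin H.eval_mem H.deriv_unit

@[simp] theorem simple_t : H.simple.t = H.pb.gen := rfl

@[simp] theorem simple_a : H.simple.a = H.x ^ H.q := rfl

/-- the first factor `X - x^q` -/
def G₁ : (↥O)[X] := X - C (H.x ^ H.q)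

/-- the second factor `X^q - x` -/
def G₂ : (↥O)[X] := X ^ H.q - C H.x

theorem monic_G₂ : H.G₂.Monic := monic_X_pow_sub_C _ H.q_pos.ne'

theorem red_Φ : red O H.Φ = red O H.G₁ * red O H.G₂ := by
  rw [← map_mul]
  refine red_eq_of_map_eq H.ρ H.hρ ?_
  rw [H.hchar, G₁, G₂, Polynomial.map_mul, Polynomial.map_sub, Polynomial.map_sub,
    Polynomial.map_pow, Polynomial.map_X, Polynomial.map_C, Polynomial.map_C, map_pow H.ρ]

theorem red_G₁ : red O H.G₁ = X - C (residue ↥O (H.x ^ H.q)) := by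
  rw [G₁, map_sub, red_C, red_apply, Polynomial.map_X]

theorem red_G₂ : red O H.G₂ = X ^ H.q - C (residue ↥O H.x) := by
  rw [G₂, map_sub, map_pow, red_C, red_apply, Polynomial.map_X]

theorem irr_G₁ : Irreducible (red O H.G₁) := by
  rw [red_G₁]
  exact irreducible_X_sub_C _

theorem irr_G₂ : Irreducible (red O H.G₂) := by
  refine irreducible_red_of_map H.ρ H.hρ H.monic_G₂ ?_
  rw [G₂, Polynomial.map_sub, Polynomial.map_pow, Polynomial.map_X, Polynomial.map_C]
  exact H.hirr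

theorem coprime_G : IsCoprime (red O H.G₁) (red O H.G₂) := by
  rw [H.irr_G₁.coprime_iff_not_dvd, red_G₁, red_G₂, dvd_iff_isRoot, IsRoot.def, eval_sub,
    eval_pow, eval_X, eval_C, sub_eq_zero, ← map_pow, residue_eq_iff H.ρ H.hρ, map_pow, map_pow,
    ← pow_mul, ← pow_two]
  exact H.hne

/-- the Dedekind-Kummer setup with the two factors `X - x^q`, `X^q - x` -/
def two : TwoExt.Setup O F' :=
  TwoExt.Setup.ofPowerBasis H.pb H.Φ H.G₁ H.G₂ H.monic H.hmin H.red_Φ H.irr_G₁ H.irr_G₂ H.coprime_G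

@[simp] theorem two_t : H.two.t = H.pb.gen := rfl

theorem ev_G₁ : H.two.ev H.two.G₁ = H.pb.gen - algebraMap F F' ((H.x : F) ^ H.q) := by
  show H.two.ev H.G₁ = _
  rw [G₁, map_sub, TwoExt.Setup.ev_X, TwoExt.Setup.ev_C, two_t, SubmonoidClass.coe_pow]

theorem ev_G₂ : H.two.ev H.two.G₂ = H.pb.gen ^ H.q - algebraMap F F' (H.x : F) := by
  show H.two.ev H.G₂ = _
  rw [G₂, map_sub, map_pow, TwoExt.Setup.ev_X, TwoExt.Setup.ev_C, two_t]

/-- `V` lies over `O` and `pb.gen - x^q ∈ 𝔪_V` (the extension with `e = f = 1`) -/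
structure IsThin (V : ValuationSubring F') : Prop where
  comap : V.comap (algebraMap F F') = O
  lt : V.valuation (H.pb.gen - algebraMap F F' ((H.x : F) ^ H.q)) < 1

/-- `V` lies over `O` and `pb.gen^q - x ∈ 𝔪_V` (the purely inseparable extension) -/
structure IsInsep (V : ValuationSubring F') : Prop where
  comap : V.comap (algebraMap F F') = O
  lt : V.valuation (H.pb.gen ^ H.q - algebraMap F F' (H.x : F)) < 1

variable {H}

theorem IsThin.isExt {V : ValuationSubring F'} (h : H.IsThin V) : H.two.IsExt H.two.G₁ V :=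
  ⟨h.comap, by rw [ev_G₁]; exact h.lt⟩

theorem IsInsep.isExt {V : ValuationSubring F'} (h : H.IsInsep V) : H.two.IsExt H.two.G₂ V :=
  ⟨h.comap, by rw [ev_G₂]; exact h.lt⟩

/-- **the two extensions are the only ones** -/
theorem eq_or_eq {V₁ V₂ : ValuationSubring F'} (h₁ : H.IsThin V₁) (h₂ : H.IsInsep V₂)
    {V : ValuationSubring F'} (hV : V.comap (algebraMap F F') = O) : V = V₁ ∨ V = V₂ :=
  H.two.eq_or_eq h₁.isExt h₂.isExt hV

theorem ne_of_isThin_of_isInsep {V₁ V₂ : ValuationSubring F'} (h₁ : H.IsThin V₁)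
    (h₂ : H.IsInsep V₂) : V₁ ≠ V₂ := fun h =>
  H.two.not_isExt_both h₁.isExt (h ▸ h₂.isExt)

section PID

variable [IsPrincipalIdealRing ↥O] {V : ValuationSubring F'} (h : H.IsThin V)

include h

/-- the thin extension is the simple-root ring -/
theorem IsThin.eq_V : V = H.simple.V :=
  H.simple.eq_V_of_comap h.comap (by
    rw [simple_t, simple_a, SubmonoidClass.coe_pow]
    exact h.lt)

theorem IsThin.isPrincipalIdealRing : IsPrincipalIdealRing ↥V := by
  rw [h.eq_V]
  exact H.simple.isPrincipalIdealRing_V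

theorem IsThin.ne_top (hO : O ≠ ⊤) : V ≠ ⊤ := by
  rw [h.eq_V]
  exact H.simple.V_ne_top hO

/-- residue degree one -/
theorem IsThin.exists_const_sub_mem_nonunits {z : F'} (hz : z ∈ V) :
    ∃ c : ↥O, z - algebraMap F F' (c : F) ∈ V.nonunits := by
  have hV := h.eq_V
  subst hV
  obtain ⟨c, hc⟩ := H.simple.exists_const_sub_lt_one hz
  exact ⟨c, (ValuationSubring.mem_nonunits_iff _).mpr hc⟩

/-- the value group is generated by the value of a uniformiser of `O` -/
theorem IsThin.exists_zpow_eq {ϖ : ↥O} (hϖ : maximalIdeal ↥O = Ideal.span {ϖ}) {z : F'}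
    (hz : z ≠ 0) : ∃ m : ℤ, V.valuation z = V.valuation (algebraMap F F' (ϖ : F)) ^ m := by
  have hV := h.eq_V
  subst hV
  exact H.simple.exists_zpow_eq hϖ hz

/-- `𝔪_V = ϖ V`, elementwise -/
theorem IsThin.exists_mul_of_mem_nonunits {ϖ : ↥O} (hϖ : maximalIdeal ↥O = Ideal.span {ϖ})
    {z : F'} (hz : z ∈ V.nonunits) : ∃ r ∈ V, z = r * algebraMap F F' (ϖ : F) := by
  have hV := h.eq_V
  subst hV
  have hzV : z ∈ H.simple.V := ValuationSubring.nonunits_le hz
  have hzR : (⟨z, hzV⟩ : ↥H.simple.R) ∈ maximalIdeal ↥H.simple.R := by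
    rw [← SimpleRoot.Datum.val_lt_one_iff]
    exact (ValuationSubring.mem_nonunits_iff _).mp hz
  rw [H.simple.maximalIdeal_R_eq hϖ, Ideal.mem_span_singleton'] at hzR
  obtain ⟨r, hr⟩ := hzR
  refine ⟨(r : F'), r.2, ?_⟩
  have := congrArg (Subtype.val : ↥H.simple.R → F') hr
  rw [show ((r * H.simple.constR ϖ : ↥H.simple.R) : F') =
    (r : F') * ((H.simple.constR ϖ : ↥H.simple.R) : F') from rfl,
    SimpleRoot.Datum.coe_constR] at this
  exact this.symm

theorem IsThin.algebraMap_mem {c : F} (hc : c ∈ O) : algebraMap F F' c ∈ V :=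
  (alg_mem_iff h.comap c).mpr hc

/-- `𝔪_V = (ϖ)` -/
theorem IsThin.maximalIdeal_eq {ϖ : ↥O} (hϖ : maximalIdeal ↥O = Ideal.span {ϖ}) :
    maximalIdeal ↥V = Ideal.span {(⟨algebraMap F F' (ϖ : F), h.algebraMap_mem ϖ.2⟩ : ↥V)} := by
  apply le_antisymm
  · intro z hz
    have hz' : (z : F') ∈ V.nonunits := by
      rw [ValuationSubring.coe_mem_nonunits_iff]
      exact hz
    obtain ⟨r, hr, hzr⟩ := h.exists_mul_of_mem_nonunits hϖ hz'
    rw [Ideal.mem_span_singleton']
    exact ⟨⟨r, hr⟩, Subtype.ext hzr.symm⟩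
  · rw [Ideal.span_singleton_le_iff_mem, ← ValuationSubring.coe_mem_nonunits_iff,
      ValuationSubring.mem_nonunits_iff]
    show V.valuation (algebraMap F F' (ϖ : F)) < 1
    rw [val_alg_lt_one_iff h.comap, ← ValuationSubring.valuation_lt_one_iff, hϖ]
    exact Ideal.mem_span_singleton_self ϖ

/-- every non-unit has value at most `|ϖ|` -/
theorem IsThin.val_le_of_mem_nonunits {ϖ : ↥O} (hϖ : maximalIdeal ↥O = Ideal.span {ϖ})
    {z : F'} (hz : z ∈ V.nonunits) :
    V.valuation z ≤ V.valuation (algebraMap F F' (ϖ : F)) := by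
  obtain ⟨r, hr, rfl⟩ := h.exists_mul_of_mem_nonunits hϖ hz
  rw [map_mul]
  exact mul_le_of_le_one_left' ((V.valuation_le_one_iff _).mpr hr)

end PID

end Hyp

end Fermat.Agent.S36.KroneckerLevel
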