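/-
PROJECT V (S36), slice V-LevelQK0 = chain (V2) (helper16): **the two Gauss rings of level `M q` over
the fixed field `K = ℚ̄^H`** (`H = A.inertiaSubgroupIn ℚ` gives `K = K₀`).

Objects (names of `S36/PowerBasisK0`, `S36/ThetaK0`): `FK H N`, `tB`, `alphaK`, `betaK`, `j0K`, `j1K`,
`V1K = V₁.comap tB`, `V2K = V₂.comap tB`, `red1K`, `red2K` (`V₁ V₂ red₁ red₂` of `S34/GaussPairX0`).

PART A (any `H`, no hypothesis):
* `OgK H hA hqM := G.O.comap (tB H M)`, `red0K := G.red ∘ comapHom` (`G` the Gauss datum of level `M`;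
  for `H` = inertia these are `GaussK0Comap.Og0`, `red0z`: `OgK_inertia`, `red0K_inertia`);
* `alphaK_mem_V1K_iff`, `betaK_mem_V1K_iff`, `alphaK_mem_V2K_iff`, `betaK_mem_V2K_iff`, and
  `comap_alphaK_V1K`, `comap_betaK_V1K`, `comap_alphaK_V2K`, `comap_betaK_V2K`
  (`V_i.comap α₀ = OgK = V_i.comap β₀`);
* the normalisation (D5): `red1K_alphaK : red1K ∘ α₀ = red0K`, `red2K_betaK : red2K ∘ β₀ = red0K`,
  `red1K_betaK : red1K ∘ β₀ = φ ∘ red0K`, `red2K_alphaK : red2K ∘ α₀ = φ ∘ red0K`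
  (`φ = S34/FrobK.phi`; `coe_…` versions with `qExpand`);
* kernels `red0K_eq_zero_iff`, `red1K_eq_zero_iff`, `red2K_eq_zero_iff`; surjectivity of `red1K`,
  `red2K` from that of `red0K`;
* the power bases of `F_K(M q)` over `F_K(M)`: along `α_K` with generator `j₁` (`pbA`), along `β_K`
  with generator `j₀` (`pbB`), both with minimal polynomial `Φ_q(X, j)` (`PhiOK`, coefficients in
  `OgK`);
* `hypA`, `hypB : KroneckerLevel.Hyp OgK (F_K(M q)) κ` and
  `isThin_V1K_A`, `isInsep_V2K_A` (along `α`), `isThin_V2K_B`, `isInsep_V1K_B` (along `β`);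
* `eq_or_eq_alphaK`, `eq_or_eq_betaK` : `V1K`, `V2K` are the ONLY valuation subrings of `F_K(M q)`
  over `OgK` along `α_K`, and along `β_K`; `V1K_ne_V2K`.

PART B (`OgK` a PID with `𝔪 = (ϖ)`): `isPrincipalIdealRing_V1K/V2K`, `V1K_ne_top`, `V2K_ne_top`,
`maximalIdeal_V1K_eq`, `maximalIdeal_V2K_eq` (`𝔪 = (ϖ)`), `exists_zpow_eq_V1K/V2K`,
`deg_one_V1K` (every `z ∈ V1K` is `≡ α₀ c`), `deg_one_V2K` (every `z ∈ V2K` is `≡ β₀ c`).

PART C (`H` = inertia of `A`; all hypotheses discharged by `S36/GaussK0Comap`): see `section Inertia`.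
-/
import Mathlib
import Fermat.Agent.S36.KroneckerLevel
import Fermat.Agent.S36.ThetaK0
import Fermat.Agent.S36.GaussK0Comap
import Fermat.Agent.S34.FrobK

set_option autoImplicit false
set_option linter.unusedSectionVars false
set_option linter.style.haveILetI false
set_option synthInstance.maxHeartbeats 400000

noncomputable section

namespace Fermat.Agent.S36.LevelQK0

open Polynomial ModularCurve AlgebraicCurve IsLocalRing
open Fermat.Agent.S24.DegreeAlg (jgen)
open Fermat.Agent.S18.B.FkBasics (jk)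
open Fermat.Agent.S35.LevelMaps
open Fermat.Agent.S28.ModPoly
open Fermat.Agent.S37.Gauss.Datum
open Fermat.Agent.S34.PowerBasisX0
open Fermat.Agent.S34.TwoGaussX0 (modPolyZ modPolyZ_monic natDegree_modPolyZ map_evalL_modPolyZ
  map_modPolyZ_char)
open Fermat.Agent.S34.GaussPairX0
open Fermat.Agent.S36.PowerBasisK0
open Fermat.Agent.S36.MinpolyK0
open Fermat.Agent.S36.ThetaK0
open Fermat.Agent.S36.GlueLevelQ.LevelQ (comapHom)

local notation "Kb" => AlgebraicClosure ℚ

variable (H : Subgroup (Kb ≃ₐ[ℚ] Kb))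
variable {q : ℕ} [hq : Fact q.Prime] {M : ℕ} [NeZero M] {A : ValuationSubring Kb}
variable (hA : A.LiesOverPrime q) (hqM : ¬ q ∣ M) [NeZero q]

/-! ## Part A -/

/-- nonunits of a comap along a field homomorphism -/
theorem mem_nonunits_comap_iff' {F F' : Type*} [Field F] [Field F'] (V : ValuationSubring F')
    (ι : F →+* F') (x : F) : x ∈ (V.comap ι).nonunits ↔ ι x ∈ V.nonunits := by
  rw [ValuationSubring.mem_nonunits_iff_or, ValuationSubring.mem_nonunits_iff_or,
    ValuationSubring.mem_comap, map_inv₀, map_eq_zero]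

/-- the Gauss ring of level `M` on the `K`-form -/
abbrev OgK : ValuationSubring (FK H M) := (gaussDatum M A hA hqM).O.comap (tB H M)

/-- its reduction -/
abbrev red0K : ↥(OgK H hA hqM) →+* ↥(modularFunctionFieldFullC (ResidueField ↥A) M) :=
  (gaussDatum M A hA hqM).red.comp (comapHom (gaussDatum M A hA hqM).O (tB H M))

theorem mem_OgK_iff (x : FK H M) : x ∈ OgK H hA hqM ↔ tB H M x ∈ (gaussDatum M A hA hqM).O :=
  Iff.rfl

theorem red0K_apply (x : ↥(OgK H hA hqM)) :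
    red0K H hA hqM x =
      (gaussDatum M A hA hqM).red ⟨tB H M x.1, ValuationSubring.mem_comap.mp x.2⟩ := rfl

/-! ### membership along `α_K`, `β_K` -/

theorem alphaK_mem_V1K_iff (x : FK H M) : alphaK H M q x ∈ V1K H hA hqM ↔ x ∈ OgK H hA hqM := by
  rw [ValuationSubring.mem_comap, tB_alphaK, alpha_mem_V₁_iff, mem_OgK_iff]

theorem betaK_mem_V1K_iff (x : FK H M) : betaK H M q x ∈ V1K H hA hqM ↔ x ∈ OgK H hA hqM := by
  rw [ValuationSubring.mem_comap, tB_betaK, beta_mem_V₁_iff, mem_OgK_iff]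

theorem alphaK_mem_V2K_iff (x : FK H M) : alphaK H M q x ∈ V2K H hA hqM ↔ x ∈ OgK H hA hqM := by
  rw [ValuationSubring.mem_comap, tB_alphaK, alpha_mem_V₂_iff, mem_OgK_iff]

theorem betaK_mem_V2K_iff (x : FK H M) : betaK H M q x ∈ V2K H hA hqM ↔ x ∈ OgK H hA hqM := by
  rw [ValuationSubring.mem_comap, tB_betaK, beta_mem_V₂_iff, mem_OgK_iff]

theorem comap_alphaK_V1K : (V1K H hA hqM).comap (alphaK H M q) = OgK H hA hqM :=
  ValuationSubring.ext _ _ fun x => by
    rw [ValuationSubring.mem_comap]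
    exact alphaK_mem_V1K_iff H hA hqM x

theorem comap_betaK_V1K : (V1K H hA hqM).comap (betaK H M q) = OgK H hA hqM :=
  ValuationSubring.ext _ _ fun x => by
    rw [ValuationSubring.mem_comap]
    exact betaK_mem_V1K_iff H hA hqM x

theorem comap_alphaK_V2K : (V2K H hA hqM).comap (alphaK H M q) = OgK H hA hqM :=
  ValuationSubring.ext _ _ fun x => by
    rw [ValuationSubring.mem_comap]
    exact alphaK_mem_V2K_iff H hA hqM x

theorem comap_betaK_V2K : (V2K H hA hqM).comap (betaK H M q) = OgK H hA hqM :=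
  ValuationSubring.ext _ _ fun x => by
    rw [ValuationSubring.mem_comap]
    exact betaK_mem_V2K_iff H hA hqM x

/-! ### the reductions along `α_K`, `β_K`: the normalisation (D5) -/

/-- `red1K ∘ α₀ = red0K` -/
theorem red1K_alphaK (x : ↥(OgK H hA hqM)) (h : alphaK H M q (x : FK H M) ∈ V1K H hA hqM) :
    red1K H hA hqM ⟨alphaK H M q x, h⟩ = red0K H hA hqM x := by
  rw [red1K_apply, red0K_apply,
    ← red₁_alpha hA hqM ⟨tB H M x.1, ValuationSubring.mem_comap.mp x.2⟩]
  exact congrArg (red₁ hA hqM) (Subtype.ext (tB_alphaK H M q x))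

/-- `red2K ∘ β₀ = red0K` -/
theorem red2K_betaK (x : ↥(OgK H hA hqM)) (h : betaK H M q (x : FK H M) ∈ V2K H hA hqM) :
    red2K H hA hqM ⟨betaK H M q x, h⟩ = red0K H hA hqM x := by
  rw [red2K_apply, red0K_apply,
    ← red₂_beta hA hqM ⟨tB H M x.1, ValuationSubring.mem_comap.mp x.2⟩]
  exact congrArg (red₂ hA hqM) (Subtype.ext (tB_betaK H M q x))

/-- `red1K ∘ β₀ = (red0K ·)(t^q)` -/
theorem coe_red1K_betaK (x : ↥(OgK H hA hqM)) (h : betaK H M q (x : FK H M) ∈ V1K H hA hqM) :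
    ((red1K H hA hqM ⟨betaK H M q x, h⟩ :
      ↥(modularFunctionFieldFullC (ResidueField ↥A) M)) : LaurentSeries (ResidueField ↥A)) =
      qExpand (ResidueField ↥A) q ((red0K H hA hqM x :
        ↥(modularFunctionFieldFullC (ResidueField ↥A) M)) : LaurentSeries (ResidueField ↥A)) := by
  rw [red1K_apply, red0K_apply,
    ← coe_red₁_beta hA hqM ⟨tB H M x.1, ValuationSubring.mem_comap.mp x.2⟩]
  exact congrArg (fun z => ((red₁ hA hqM z : ↥(modularFunctionFieldFullC (ResidueField ↥A) M)) :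
    LaurentSeries (ResidueField ↥A))) (Subtype.ext (tB_betaK H M q x))

/-- `red2K ∘ α₀ = (red0K ·)(t^q)` -/
theorem coe_red2K_alphaK (x : ↥(OgK H hA hqM)) (h : alphaK H M q (x : FK H M) ∈ V2K H hA hqM) :
    ((red2K H hA hqM ⟨alphaK H M q x, h⟩ :
      ↥(modularFunctionFieldFullC (ResidueField ↥A) M)) : LaurentSeries (ResidueField ↥A)) =
      qExpand (ResidueField ↥A) q ((red0K H hA hqM x :
        ↥(modularFunctionFieldFullC (ResidueField ↥A) M)) : LaurentSeries (ResidueField ↥A)) := by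
  rw [red2K_apply, red0K_apply,
    ← coe_red₂_alpha hA hqM ⟨tB H M x.1, ValuationSubring.mem_comap.mp x.2⟩]
  exact congrArg (fun z => ((red₂ hA hqM z : ↥(modularFunctionFieldFullC (ResidueField ↥A) M)) :
    LaurentSeries (ResidueField ↥A))) (Subtype.ext (tB_alphaK H M q x))

/-! ### kernels and surjectivity -/

theorem red0K_eq_zero_iff (x : ↥(OgK H hA hqM)) :
    red0K H hA hqM x = 0 ↔ (x : FK H M) ∈ (OgK H hA hqM).nonunits := by
  rw [red0K_apply, (gaussDatum M A hA hqM).red_eq_zero_iff]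
  refine Iff.trans ?_
    (mem_nonunits_comap_iff' (gaussDatum M A hA hqM).O (tB H M) (x : FK H M)).symm
  have key : ∀ y : ↥(gaussDatum M A hA hqM).O, ¬ IsUnit y ↔
      (y : ↥(modularFunctionFieldBar M)) ∈ (gaussDatum M A hA hqM).O.nonunits := fun y => by
    rw [ValuationSubring.coe_mem_nonunits_iff, mem_maximalIdeal, mem_nonunits_iff]
  exact key ⟨tB H M x.1, ValuationSubring.mem_comap.mp x.2⟩

theorem red1K_eq_zero_iff (x : ↥(V1K H hA hqM)) :
    red1K H hA hqM x = 0 ↔ (x : FK H (M * q)) ∈ (V1K H hA hqM).nonunits := by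
  rw [red1K_apply, red₁_eq_zero_iff_mem_nonunits]
  exact (mem_nonunits_comap_iff' (V₁ hA hqM) (tB H (M * q)) (x : FK H (M * q))).symm

theorem red2K_eq_zero_iff (x : ↥(V2K H hA hqM)) :
    red2K H hA hqM x = 0 ↔ (x : FK H (M * q)) ∈ (V2K H hA hqM).nonunits := by
  rw [red2K_apply, red₂_eq_zero_iff_mem_nonunits]
  exact (mem_nonunits_comap_iff' (V₂ hA hqM) (tB H (M * q)) (x : FK H (M * q))).symm

theorem red1K_surjective (h0 : Function.Surjective (red0K H hA hqM)) :
    Function.Surjective (red1K H hA hqM) := fun y => by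
  obtain ⟨x, rfl⟩ := h0 y
  exact ⟨⟨alphaK H M q x, (alphaK_mem_V1K_iff H hA hqM x).mpr x.2⟩, red1K_alphaK H hA hqM x _⟩

theorem red2K_surjective (h0 : Function.Surjective (red0K H hA hqM)) :
    Function.Surjective (red2K H hA hqM) := fun y => by
  obtain ⟨x, rfl⟩ := h0 y
  exact ⟨⟨betaK H M q x, (betaK_mem_V2K_iff H hA hqM x).mpr x.2⟩, red2K_betaK H hA hqM x _⟩

/-! ### `j` in `OgK`, the modular polynomial over `OgK` -/

theorem j0K_mem_OgK : j0K H M ∈ OgK H hA hqM := by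
  rw [mem_OgK_iff, tB_j0K]
  exact jgen_mem_O hA hqM

/-- `j ∈ OgK` -/
def jOK : ↥(OgK H hA hqM) := ⟨j0K H M, j0K_mem_OgK H hA hqM⟩

theorem red0K_jOK : red0K H hA hqM (jOK H hA hqM) = jk (ResidueField ↥A) M := by
  rw [red0K_apply, ← red_jgen hA hqM]
  exact congrArg (gaussDatum M A hA hqM).red (Subtype.ext (tB_j0K H M))

/-- `P ↦ P(j)`, `ℤ[X] → OgK` -/
def evOK : Polynomial ℤ →+* ↥(OgK H hA hqM) :=
  Polynomial.eval₂RingHom (Int.castRingHom ↥(OgK H hA hqM)) (jOK H hA hqM)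

theorem evOK_X : evOK H hA hqM X = jOK H hA hqM := by
  simp [evOK]

/-- `Φ_q(X, j) ∈ OgK[X]` -/
def PhiOK : Polynomial ↥(OgK H hA hqM) := (modPolyZ q).map (evOK H hA hqM)

theorem monic_PhiOK : (PhiOK H hA hqM).Monic := modPolyZ_monic.map _

theorem natDegree_PhiOK : (PhiOK H hA hqM).natDegree = q + 1 := by
  rw [PhiOK, modPolyZ_monic.natDegree_map, natDegree_modPolyZ]

theorem subtype_comp_evOK :
    ((OgK H hA hqM).subtype).comp (evOK H hA hqM) = intEval H (j0K H M) := by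
  apply Polynomial.ringHom_ext
  · intro a
    simp [evOK, intEval]
  · simp [evOK, intEval, jOK]

theorem map_subtype_PhiOK :
    (PhiOK H hA hqM).map (algebraMap ↥(OgK H hA hqM) (FK H M)) = phiK H (modPolyZ q) (j0K H M) := by
  rw [PhiOK, Polynomial.map_map, phiK]
  exact congrArg (fun f => (modPolyZ q).map f) (subtype_comp_evOK H hA hqM)

/-- Kronecker's congruence for `PhiOK` -/
theorem map_red0K_PhiOK :
    (PhiOK H hA hqM).map (red0K H hA hqM) =
      (X - C (red0K H hA hqM (jOK H hA hqM) ^ q)) *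
        (X ^ q - C (red0K H hA hqM (jOK H hA hqM))) := by
  haveI : CharP (ResidueField ↥A) q := charP_res hA
  have h := Fermat.Agent.S36.KroneckerRed.map_map_of_char (q := q)
    (κ := ↥(modularFunctionFieldFullC (ResidueField ↥A) M))
    (Φ := modPolyZ q) ?_ (evOK H hA hqM) (red0K H hA hqM)
  · rw [evOK_X] at h
    exact h
  · have h1 := map_modPolyZ_char (q := q) (ResidueField ↥A)
    have h2 := congrArg (Polynomial.map (Polynomial.mapRingHom
      (algebraMap (ResidueField ↥A) ↥(modularFunctionFieldFullC (ResidueField ↥A) M)))) h1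
    rw [Polynomial.map_map] at h2
    have hcomp : (Polynomial.mapRingHom
        (algebraMap (ResidueField ↥A) ↥(modularFunctionFieldFullC (ResidueField ↥A) M))).comp
          (Polynomial.mapRingHom (Int.castRingHom (ResidueField ↥A))) =
        Polynomial.mapRingHom
          (Int.castRingHom ↥(modularFunctionFieldFullC (ResidueField ↥A) M)) := by
      apply Polynomial.ringHom_ext
      · intro a
        simp
      · simp
    rw [hcomp] at h2
    rw [h2]
    simp

/-! ### the two power bases of `F_K(M q)` over `F_K(M)` -/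

include hqM in
/-- along `α_K` : `1, j₁, …, j₁^q` -/
theorem exists_powerBasis_alphaK1 :
    letI := (alphaK H M q).toAlgebra
    ∃ pb : PowerBasis (FK H M) (FK H (M * q)), pb.gen = j1K H M q ∧ pb.dim = q + 1 := by
  obtain ⟨b, hb⟩ := exists_basis_pow_of_isIncl hq.out hqM rfl (heckeAlphaBar Kb M q)
    (isIncl_alpha M q) (jl M q) coe_jl
  exact exists_powerBasis_of_basis_pow (alphaK H M q) (heckeAlphaBar Kb M q)
    (tB_alphaK H M q) (fun σ _ x => sig_alpha M q σ x) (j1K H M q) b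
    (fun i => by rw [hb, tB_j1K])

include hqM in
/-- along `β_K` : `1, j₀, …, j₀^q` -/
theorem exists_powerBasis_betaK1 :
    letI := (betaK H M q).toAlgebra
    ∃ pb : PowerBasis (FK H M) (FK H (M * q)), pb.gen = j0K H (M * q) ∧ pb.dim = q + 1 := by
  obtain ⟨b, hb⟩ := exists_basis_pow_of_isDil hq.out hqM rfl (heckeBetaBar Kb M q)
    (isDil_beta M q) (jgen (M * q)) (Fermat.Agent.S18.B.Basic.coe_jgen_eq (M * q))
  exact exists_powerBasis_of_basis_pow (betaK H M q) (heckeBetaBar Kb M q)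
    (tB_betaK H M q) (fun σ _ x => sig_beta M q σ x) (j0K H (M * q)) b
    (fun i => by rw [hb, tB_j0K])

/-! ### along `α_K` -/

section Alpha

/-- `F_K(M q)` as an algebra over `F_K(M)` along `α_K` -/
@[reducible] def algA (H : Subgroup (Kb ≃ₐ[ℚ] Kb)) (M q : ℕ) [NeZero M] [NeZero q] :
    Algebra (FK H M) (FK H (M * q)) := (alphaK H M q).toAlgebra

attribute [local instance] algA

theorem algebraMap_A (x : FK H M) : algebraMap (FK H M) (FK H (M * q)) x = alphaK H M q x := rfl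

/-- the power basis `1, j₁, …, j₁^q` along `α_K` -/
def pbA : PowerBasis (FK H M) (FK H (M * q)) := (exists_powerBasis_alphaK1 H hqM).choose

theorem pbA_gen : (pbA H hqM).gen = j1K H M q := (exists_powerBasis_alphaK1 H hqM).choose_spec.1

theorem pbA_dim : (pbA H hqM).dim = q + 1 := (exists_powerBasis_alphaK1 H hqM).choose_spec.2

/-- `Φ_q(j₁, j) = 0` along `α_K` -/
theorem aeval_j1K_phiK :
    aeval (j1K H M q) (phiK H (modPolyZ q) (j0K H M)) = 0 := by
  apply tB_injective H (M * q)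
  rw [map_zero, tB_aeval H (alphaK H M q) (heckeAlphaBar Kb M q) (tB_alphaK H M q), map_phiK,
    tB_j0K, tB_j1K]
  exact aeval_jl_modPolyF (N := M) (ℓ := q) map_evalL_modPolyZ

theorem minpoly_pbA :
    minpoly (FK H M) (pbA H hqM).gen =
      (PhiOK H hA hqM).map (algebraMap ↥(OgK H hA hqM) (FK H M)) := by
  rw [map_subtype_PhiOK]
  refine minpoly_eq_of_powerBasis (pbA H hqM) _ (modPolyZ_monic.map _) ?_ ?_
  · rw [phiK, modPolyZ_monic.natDegree_map, natDegree_modPolyZ, pbA_dim]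
  · rw [pbA_gen]
    exact aeval_j1K_phiK H

/-- **the Kronecker hypotheses along `α_K`** -/
def hypA : KroneckerLevel.Hyp (OgK H hA hqM) (FK H (M * q))
    ↥(modularFunctionFieldFullC (ResidueField ↥A) M) where
  q := q
  q_pos := hq.out.pos
  ρ := red0K H hA hqM
  hρ := red0K_eq_zero_iff H hA hqM
  x := jOK H hA hqM
  pb := pbA H hqM
  Φ := PhiOK H hA hqM
  monic := monic_PhiOK H hA hqM
  hmin := minpoly_pbA H hA hqM
  hchar := map_red0K_PhiOK H hA hqM
  hne := by
    rw [red0K_jOK]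
    exact (jk_ne_pow_sq hA).symm
  hirr := by
    rw [red0K_jOK]
    exact irreducible_X_pow_sub_C_jk (ResidueField ↥A) M q

theorem alphaK_j0K : alphaK H M q (j0K H M) = j0K H (M * q) := by
  apply Subtype.ext
  rw [coe_alphaK, coe_j0K, coe_j0K]

theorem isThin_V1K_A : (hypA H hA hqM).IsThin (V1K H hA hqM) where
  comap := comap_alphaK_V1K H hA hqM
  lt := by
    have h1 : (hypA H hA hqM).pb.gen - algebraMap (FK H M) (FK H (M * q))
          ((((hypA H hA hqM).x : ↥(OgK H hA hqM)) : FK H M) ^ (hypA H hA hqM).q) =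
        ((y1K H hA hqM - x1K H hA hqM ^ q : ↥(V1K H hA hqM)) : FK H (M * q)) := by
      show (pbA H hqM).gen - alphaK H M q (j0K H M ^ q) = _
      rw [pbA_gen, map_pow, alphaK_j0K]
      rfl
    rw [h1, ← ValuationSubring.mem_nonunits_iff, ← red1K_eq_zero_iff, map_sub, map_pow, red1K_y,
      red1K_x, sub_self]

theorem isInsep_V2K_A : (hypA H hA hqM).IsInsep (V2K H hA hqM) where
  comap := comap_alphaK_V2K H hA hqM
  lt := by
    have h1 : (hypA H hA hqM).pb.gen ^ (hypA H hA hqM).q - algebraMap (FK H M) (FK H (M * q))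
          (((hypA H hA hqM).x : ↥(OgK H hA hqM)) : FK H M) =
        ((y2K H hA hqM ^ q - x2K H hA hqM : ↥(V2K H hA hqM)) : FK H (M * q)) := by
      show (pbA H hqM).gen ^ q - alphaK H M q (j0K H M) = _
      rw [pbA_gen, alphaK_j0K]
      rfl
    rw [h1, ← ValuationSubring.mem_nonunits_iff, ← red2K_eq_zero_iff, map_sub, map_pow, red2K_y,
      red2K_x, sub_self]

/-- **`V1K`, `V2K` are the only valuation subrings of `F_K(M q)` over `OgK` along `α_K`** -/
theorem eq_or_eq_alphaK {V : ValuationSubring (FK H (M * q))}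
    (hV : V.comap (alphaK H M q) = OgK H hA hqM) : V = V1K H hA hqM ∨ V = V2K H hA hqM :=
  KroneckerLevel.Hyp.eq_or_eq (isThin_V1K_A H hA hqM) (isInsep_V2K_A H hA hqM) hV

theorem V1K_ne_V2K : V1K H hA hqM ≠ V2K H hA hqM :=
  KroneckerLevel.Hyp.ne_of_isThin_of_isInsep (isThin_V1K_A H hA hqM) (isInsep_V2K_A H hA hqM)

/-! #### Part B along `α_K`: `V1K` is a DVR with the uniformiser of `OgK`, residue degree one -/

section PID

variable [IsPrincipalIdealRing ↥(OgK H hA hqM)]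

theorem isPrincipalIdealRing_V1K : IsPrincipalIdealRing ↥(V1K H hA hqM) :=
  (isThin_V1K_A H hA hqM).isPrincipalIdealRing

theorem V1K_ne_top (hO : OgK H hA hqM ≠ ⊤) : V1K H hA hqM ≠ ⊤ :=
  (isThin_V1K_A H hA hqM).ne_top hO

/-- residue degree one of `V1K` over `OgK` along `α_K` -/
theorem deg_one_V1K {z : FK H (M * q)} (hz : z ∈ V1K H hA hqM) :
    ∃ c : ↥(OgK H hA hqM), z - alphaK H M q (c : FK H M) ∈ (V1K H hA hqM).nonunits :=
  (isThin_V1K_A H hA hqM).exists_const_sub_mem_nonunits hz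

theorem exists_zpow_eq_V1K {ϖ : ↥(OgK H hA hqM)}
    (hϖ : maximalIdeal ↥(OgK H hA hqM) = Ideal.span {ϖ}) {z : FK H (M * q)} (hz : z ≠ 0) :
    ∃ m : ℤ, (V1K H hA hqM).valuation z =
      (V1K H hA hqM).valuation (alphaK H M q (ϖ : FK H M)) ^ m :=
  (isThin_V1K_A H hA hqM).exists_zpow_eq hϖ hz

theorem exists_mul_of_mem_nonunits_V1K {ϖ : ↥(OgK H hA hqM)}
    (hϖ : maximalIdeal ↥(OgK H hA hqM) = Ideal.span {ϖ}) {z : FK H (M * q)}
    (hz : z ∈ (V1K H hA hqM).nonunits) :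
    ∃ r ∈ V1K H hA hqM, z = r * alphaK H M q (ϖ : FK H M) :=
  (isThin_V1K_A H hA hqM).exists_mul_of_mem_nonunits hϖ hz

/-- **`𝔪_{V1K} = (ϖ)`** -/
theorem maximalIdeal_V1K_eq {ϖ : ↥(OgK H hA hqM)}
    (hϖ : maximalIdeal ↥(OgK H hA hqM) = Ideal.span {ϖ}) :
    maximalIdeal ↥(V1K H hA hqM) = Ideal.span
      {(⟨alphaK H M q (ϖ : FK H M), (alphaK_mem_V1K_iff H hA hqM _).mpr ϖ.2⟩ :
        ↥(V1K H hA hqM))} :=
  (isThin_V1K_A H hA hqM).maximalIdeal_eq hϖ

end PID

end Alpha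

/-! ### along `β_K` -/

section Beta

/-- `F_K(M q)` as an algebra over `F_K(M)` along `β_K` -/
@[reducible] def algB (H : Subgroup (Kb ≃ₐ[ℚ] Kb)) (M q : ℕ) [NeZero M] [NeZero q] :
    Algebra (FK H M) (FK H (M * q)) := (betaK H M q).toAlgebra

attribute [local instance] algB

theorem algebraMap_B (x : FK H M) : algebraMap (FK H M) (FK H (M * q)) x = betaK H M q x := rfl

/-- the power basis `1, j₀, …, j₀^q` along `β_K` -/
def pbB : PowerBasis (FK H M) (FK H (M * q)) := (exists_powerBasis_betaK1 H hqM).choose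

theorem pbB_gen : (pbB H hqM).gen = j0K H (M * q) := (exists_powerBasis_betaK1 H hqM).choose_spec.1

theorem pbB_dim : (pbB H hqM).dim = q + 1 := (exists_powerBasis_betaK1 H hqM).choose_spec.2

/-- `Φ_q(j₀, j₁) = 0`, read along `β_K` -/
theorem aeval_j0K_phiK :
    aeval (j0K H (M * q)) (phiK H (modPolyZ q) (j0K H M)) = 0 := by
  apply tB_injective H (M * q)
  rw [map_zero, tB_aeval H (betaK H M q) (heckeBetaBar Kb M q) (tB_betaK H M q), map_phiK,
    tB_j0K, tB_j0K]
  letI := algebraAlong (heckeBetaBar Kb M q)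
  rw [aeval_def, Polynomial.eval₂_map]
  have hcomp : (algebraMap (E M) (E (M * q))).comp
      ((aeval (jgen M) : Polynomial ℤ →ₐ[ℤ] E M) : Polynomial ℤ →+* E M) =
      ((aeval (Fermat.Agent.S36.MinpolyJ2.j1 M q) : Polynomial ℤ →ₐ[ℤ] E (M * q)) :
        Polynomial ℤ →+* E (M * q)) := by
    apply Polynomial.ringHom_ext
    · intro a
      simp
    · simp only [RingHom.comp_apply, RingHom.coe_coe, aeval_X]
      rfl
  rw [hcomp, ← Polynomial.eval_map]
  exact Fermat.Agent.S36.MinpolyJ2.phiJ1_isRoot_j hq.out map_evalL_modPolyZ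

theorem minpoly_pbB :
    minpoly (FK H M) (pbB H hqM).gen =
      (PhiOK H hA hqM).map (algebraMap ↥(OgK H hA hqM) (FK H M)) := by
  rw [map_subtype_PhiOK]
  refine minpoly_eq_of_powerBasis (pbB H hqM) _ (modPolyZ_monic.map _) ?_ ?_
  · rw [phiK, modPolyZ_monic.natDegree_map, natDegree_modPolyZ, pbB_dim]
  · rw [pbB_gen]
    exact aeval_j0K_phiK H

/-- **the Kronecker hypotheses along `β_K`** -/
def hypB : KroneckerLevel.Hyp (OgK H hA hqM) (FK H (M * q))
    ↥(modularFunctionFieldFullC (ResidueField ↥A) M) where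
  q := q
  q_pos := hq.out.pos
  ρ := red0K H hA hqM
  hρ := red0K_eq_zero_iff H hA hqM
  x := jOK H hA hqM
  pb := pbB H hqM
  Φ := PhiOK H hA hqM
  monic := monic_PhiOK H hA hqM
  hmin := minpoly_pbB H hA hqM
  hchar := map_red0K_PhiOK H hA hqM
  hne := by
    rw [red0K_jOK]
    exact (jk_ne_pow_sq hA).symm
  hirr := by
    rw [red0K_jOK]
    exact irreducible_X_pow_sub_C_jk (ResidueField ↥A) M q

theorem isThin_V2K_B : (hypB H hA hqM).IsThin (V2K H hA hqM) where
  comap := comap_betaK_V2K H hA hqM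
  lt := by
    have h1 : (hypB H hA hqM).pb.gen - algebraMap (FK H M) (FK H (M * q))
          ((((hypB H hA hqM).x : ↥(OgK H hA hqM)) : FK H M) ^ (hypB H hA hqM).q) =
        ((x2K H hA hqM - y2K H hA hqM ^ q : ↥(V2K H hA hqM)) : FK H (M * q)) := by
      show (pbB H hqM).gen - betaK H M q (j0K H M ^ q) = _
      rw [pbB_gen, map_pow]
      rfl
    rw [h1, ← ValuationSubring.mem_nonunits_iff, ← red2K_eq_zero_iff, map_sub, map_pow, red2K_y,
      red2K_x, sub_self]

theorem isInsep_V1K_B : (hypB H hA hqM).IsInsep (V1K H hA hqM) where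
  comap := comap_betaK_V1K H hA hqM
  lt := by
    have h1 : (hypB H hA hqM).pb.gen ^ (hypB H hA hqM).q - algebraMap (FK H M) (FK H (M * q))
          (((hypB H hA hqM).x : ↥(OgK H hA hqM)) : FK H M) =
        ((x1K H hA hqM ^ q - y1K H hA hqM : ↥(V1K H hA hqM)) : FK H (M * q)) := by
      show (pbB H hqM).gen ^ q - betaK H M q (j0K H M) = _
      rw [pbB_gen]
      rfl
    rw [h1, ← ValuationSubring.mem_nonunits_iff, ← red1K_eq_zero_iff, map_sub, map_pow, red1K_y,
      red1K_x, sub_self]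

/-- **`V1K`, `V2K` are the only valuation subrings of `F_K(M q)` over `OgK` along `β_K`** -/
theorem eq_or_eq_betaK {V : ValuationSubring (FK H (M * q))}
    (hV : V.comap (betaK H M q) = OgK H hA hqM) : V = V1K H hA hqM ∨ V = V2K H hA hqM :=
  (KroneckerLevel.Hyp.eq_or_eq (isThin_V2K_B H hA hqM) (isInsep_V1K_B H hA hqM) hV).symm

/-! #### Part B along `β_K`: `V2K` is a DVR with the uniformiser of `OgK`, residue degree one -/

section PID

variable [IsPrincipalIdealRing ↥(OgK H hA hqM)]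

theorem isPrincipalIdealRing_V2K : IsPrincipalIdealRing ↥(V2K H hA hqM) :=
  (isThin_V2K_B H hA hqM).isPrincipalIdealRing

theorem V2K_ne_top (hO : OgK H hA hqM ≠ ⊤) : V2K H hA hqM ≠ ⊤ :=
  (isThin_V2K_B H hA hqM).ne_top hO

/-- residue degree one of `V2K` over `OgK` along `β_K` -/
theorem deg_one_V2K {z : FK H (M * q)} (hz : z ∈ V2K H hA hqM) :
    ∃ c : ↥(OgK H hA hqM), z - betaK H M q (c : FK H M) ∈ (V2K H hA hqM).nonunits :=
  (isThin_V2K_B H hA hqM).exists_const_sub_mem_nonunits hz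

theorem exists_zpow_eq_V2K {ϖ : ↥(OgK H hA hqM)}
    (hϖ : maximalIdeal ↥(OgK H hA hqM) = Ideal.span {ϖ}) {z : FK H (M * q)} (hz : z ≠ 0) :
    ∃ m : ℤ, (V2K H hA hqM).valuation z =
      (V2K H hA hqM).valuation (betaK H M q (ϖ : FK H M)) ^ m :=
  (isThin_V2K_B H hA hqM).exists_zpow_eq hϖ hz

theorem exists_mul_of_mem_nonunits_V2K {ϖ : ↥(OgK H hA hqM)}
    (hϖ : maximalIdeal ↥(OgK H hA hqM) = Ideal.span {ϖ}) {z : FK H (M * q)}
    (hz : z ∈ (V2K H hA hqM).nonunits) :
    ∃ r ∈ V2K H hA hqM, z = r * betaK H M q (ϖ : FK H M) :=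
  (isThin_V2K_B H hA hqM).exists_mul_of_mem_nonunits hϖ hz

/-- **`𝔪_{V2K} = (ϖ)`** -/
theorem maximalIdeal_V2K_eq {ϖ : ↥(OgK H hA hqM)}
    (hϖ : maximalIdeal ↥(OgK H hA hqM) = Ideal.span {ϖ}) :
    maximalIdeal ↥(V2K H hA hqM) = Ideal.span
      {(⟨betaK H M q (ϖ : FK H M), (betaK_mem_V2K_iff H hA hqM _).mpr ϖ.2⟩ :
        ↥(V2K H hA hqM))} :=
  (isThin_V2K_B H hA hqM).maximalIdeal_eq hϖ

end PID

end Beta

/-! ### the normalisation (D5) with `φ = FrobK.phi` -/

section Phi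

variable [CharP (ResidueField ↥A) q]

local instance instPerfect16 (A : ValuationSubring Kb) : PerfectField (ResidueField ↥A) :=
  haveI := Fermat.Agent.S18.ResidueBasics.isAlgClosed_residueField A
  inferInstance

/-- `red1K ∘ β₀ = φ ∘ red0K` -/
theorem red1K_betaK (x : ↥(OgK H hA hqM)) (h : betaK H M q (x : FK H M) ∈ V1K H hA hqM) :
    red1K H hA hqM ⟨betaK H M q x, h⟩ =
      Fermat.Agent.S34.FrobK.phi (ResidueField ↥A) M q (red0K H hA hqM x) :=
  Subtype.ext ((coe_red1K_betaK H hA hqM x h).trans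
    (Fermat.Agent.S34.FrobK.coe_phi (ResidueField ↥A) M q (red0K H hA hqM x)).symm)

/-- `red2K ∘ α₀ = φ ∘ red0K` -/
theorem red2K_alphaK (x : ↥(OgK H hA hqM)) (h : alphaK H M q (x : FK H M) ∈ V2K H hA hqM) :
    red2K H hA hqM ⟨alphaK H M q x, h⟩ =
      Fermat.Agent.S34.FrobK.phi (ResidueField ↥A) M q (red0K H hA hqM x) :=
  Subtype.ext ((coe_red2K_alphaK H hA hqM x h).trans
    (Fermat.Agent.S34.FrobK.coe_phi (ResidueField ↥A) M q (red0K H hA hqM x)).symm)

/-- `φ` is the `q`-th power up to the coefficientwise `q`-th root: every `q`-th power is a value -/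
theorem exists_phi_eq_pow (z : ↥(modularFunctionFieldFullC (ResidueField ↥A) M)) :
    ∃ c, Fermat.Agent.S34.FrobK.phi (ResidueField ↥A) M q c = z ^ q :=
  ⟨(Fermat.Agent.S34.FrobK.psi (ResidueField ↥A) M q).symm z, by
    rw [Fermat.Agent.S34.FrobK.phi_eq_pow, RingEquiv.apply_symm_apply]⟩

end Phi


/-! ### the square `α ∘ β₀ = β ∘ α₀` over `K` -/

/-- `α_K(M q) ∘ β_K(M) = β_K(M q) ∘ α_K(M)` (both are `g ↦ g(t^q)` on expansions) -/
theorem alphaK_betaK_comm [NeZero (M * q)] (c : FK H M) :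
    alphaK H (M * q) q (betaK H M q c) = betaK H (M * q) q (alphaK H M q c) := by
  apply Subtype.ext
  rw [coe_alphaK, coe_betaK, coe_betaK, coe_alphaK]

theorem alphaK_comp_betaK [NeZero (M * q)] :
    (alphaK H (M * q) q).comp (betaK H M q) = (betaK H (M * q) q).comp (alphaK H M q) :=
  RingHom.ext fun c => by
    rw [RingHom.comp_apply, RingHom.comp_apply]
    exact alphaK_betaK_comm H c

/-! ## Part C: `H` the inertia group of `A` -/

section Inertia

open Fermat.Agent.S36.GaussK0Comap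

omit H

local notation "Iq" => A.inertiaSubgroupIn ℚ

/-- for the inertia group, `OgK` is helper11's `Og0` -/
theorem OgK_inertia : OgK Iq hA hqM = Og0 M hA hqM := rfl

theorem red0K_inertia (x : ↥(OgK Iq hA hqM)) : red0K Iq hA hqM x = red0z M hA hqM x := rfl

instance isPrincipalIdealRing_OgK_inertia : IsPrincipalIdealRing ↥(OgK Iq hA hqM) :=
  isPrincipalIdealRing_Og0 M hA hqM

theorem OgK_inertia_ne_top : OgK Iq hA hqM ≠ ⊤ := Og0_ne_top M hA hqM

/-- `𝔪_{Og0} = (q)` -/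
theorem maximalIdeal_OgK_inertia :
    maximalIdeal ↥(OgK Iq hA hqM) = Ideal.span {((q : ℕ) : ↥(OgK Iq hA hqM))} :=
  maximalIdeal_Og0_eq M hA hqM

theorem red0K_inertia_surjective : Function.Surjective (red0K Iq hA hqM) :=
  red0z_surjective M hA hqM

/-- **`V1z` is a PID** -/
instance isPrincipalIdealRing_V1z : IsPrincipalIdealRing ↥(V1K Iq hA hqM) :=
  isPrincipalIdealRing_V1K Iq hA hqM

/-- **`V2z` is a PID** -/
instance isPrincipalIdealRing_V2z : IsPrincipalIdealRing ↥(V2K Iq hA hqM) :=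
  isPrincipalIdealRing_V2K Iq hA hqM

theorem V1z_ne_top : V1K Iq hA hqM ≠ ⊤ := V1K_ne_top Iq hA hqM (OgK_inertia_ne_top hA hqM)

theorem V2z_ne_top : V2K Iq hA hqM ≠ ⊤ := V2K_ne_top Iq hA hqM (OgK_inertia_ne_top hA hqM)

/-- **`𝔪_{V1z} = (q)`** -/
theorem maximalIdeal_V1z_eq :
    maximalIdeal ↥(V1K Iq hA hqM) = Ideal.span {((q : ℕ) : ↥(V1K Iq hA hqM))} := by
  have h : (⟨alphaK Iq M q (((q : ℕ) : ↥(OgK Iq hA hqM)) : FK Iq M),
      (alphaK_mem_V1K_iff Iq hA hqM _).mpr (SetLike.coe_mem _)⟩ : ↥(V1K Iq hA hqM)) =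
      ((q : ℕ) : ↥(V1K Iq hA hqM)) :=
    Subtype.ext (by
      show alphaK Iq M q (((q : ℕ) : ↥(OgK Iq hA hqM)) : FK Iq M) =
        (((q : ℕ) : ↥(V1K Iq hA hqM)) : FK Iq (M * q))
      rw [SubringClass.coe_natCast, SubringClass.coe_natCast, map_natCast])
  rw [maximalIdeal_V1K_eq Iq hA hqM (maximalIdeal_OgK_inertia hA hqM), h]

/-- **`𝔪_{V2z} = (q)`** -/
theorem maximalIdeal_V2z_eq :
    maximalIdeal ↥(V2K Iq hA hqM) = Ideal.span {((q : ℕ) : ↥(V2K Iq hA hqM))} := by
  have h : (⟨betaK Iq M q (((q : ℕ) : ↥(OgK Iq hA hqM)) : FK Iq M),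
      (betaK_mem_V2K_iff Iq hA hqM _).mpr (SetLike.coe_mem _)⟩ : ↥(V2K Iq hA hqM)) =
      ((q : ℕ) : ↥(V2K Iq hA hqM)) :=
    Subtype.ext (by
      show betaK Iq M q (((q : ℕ) : ↥(OgK Iq hA hqM)) : FK Iq M) =
        (((q : ℕ) : ↥(V2K Iq hA hqM)) : FK Iq (M * q))
      rw [SubringClass.coe_natCast, SubringClass.coe_natCast, map_natCast])
  rw [maximalIdeal_V2K_eq Iq hA hqM (maximalIdeal_OgK_inertia hA hqM), h]

theorem red1z_surjective : Function.Surjective (red1K Iq hA hqM) :=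
  red1K_surjective Iq hA hqM (red0K_inertia_surjective hA hqM)

theorem red2z_surjective : Function.Surjective (red2K Iq hA hqM) :=
  red2K_surjective Iq hA hqM (red0K_inertia_surjective hA hqM)

/-- the value group of `V1z` is generated by `|q|` -/
theorem exists_zpow_eq_V1z {z : FK Iq (M * q)} (hz : z ≠ 0) :
    ∃ m : ℤ, (V1K Iq hA hqM).valuation z = (V1K Iq hA hqM).valuation ((q : ℕ) : FK Iq (M * q)) ^ m := by
  obtain ⟨m, hm⟩ := exists_zpow_eq_V1K Iq hA hqM (maximalIdeal_OgK_inertia hA hqM) hz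
  refine ⟨m, ?_⟩
  rw [hm, SubringClass.coe_natCast, map_natCast]

/-- the value group of `V2z` is generated by `|q|` -/
theorem exists_zpow_eq_V2z {z : FK Iq (M * q)} (hz : z ≠ 0) :
    ∃ m : ℤ, (V2K Iq hA hqM).valuation z = (V2K Iq hA hqM).valuation ((q : ℕ) : FK Iq (M * q)) ^ m := by
  obtain ⟨m, hm⟩ := exists_zpow_eq_V2K Iq hA hqM (maximalIdeal_OgK_inertia hA hqM) hz
  refine ⟨m, ?_⟩
  rw [hm, SubringClass.coe_natCast, map_natCast]

theorem natCast_ne_zero_V1z : ((q : ℕ) : ↥(V1K Iq hA hqM)) ≠ 0 := by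
  intro h
  have h1 := congrArg (Subtype.val : ↥(V1K Iq hA hqM) → FK Iq (M * q)) h
  rw [SubringClass.coe_natCast, ZeroMemClass.coe_zero, Nat.cast_eq_zero] at h1
  exact hq.out.ne_zero h1

theorem natCast_ne_zero_V2z : ((q : ℕ) : ↥(V2K Iq hA hqM)) ≠ 0 := by
  intro h
  have h1 := congrArg (Subtype.val : ↥(V2K Iq hA hqM) → FK Iq (M * q)) h
  rw [SubringClass.coe_natCast, ZeroMemClass.coe_zero, Nat.cast_eq_zero] at h1
  exact hq.out.ne_zero h1

end Inertia

end Fermat.Agent.S36.LevelQK0
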