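/-
PROJECT V (S36), slice V-ThreeValX0Inst (helper11, architect ruling #2710): **THE ACTUAL `Y`** =
the instantiation of helper21's `ThreeValX0.Hyp` at the inertia group `I = A.inertiaSubgroupIn ℚ` of a
valuation subring `A` of `ℚ̄` over `q ∤ M`, `κ = F_k(M)`, `k = ResidueField A`.

Every field is an export of helper16's `S36/LevelQK0` (level-`q` valuation rings `V1K`, `V2K` over
`OgK I = GaussK0Comap.Og0`), helper13's `S36/ThetaK0` (second-order Kronecker: `exists_alpha1`,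
`exists_beta2`), `S34/TwoGaussX0.modPolyZ` (the Kronecker polynomial), `S34/FrobK.phi`.

* `exists_u1`, `exists_u2` : `G_α(j₀) = q u₁`, `G_β(j₁) = q u₂` with `u_i` units of `V_iK`;
* **`hypX0 hA hqM : ThreeValX0.Hyp I M q F_k(M)`**;
* `rfl`-lemmas for the consumers: `hypX0_O₀` (`= GaussK0Comap.Og0 M hA hqM`), `hypX0_red₀` (`= red0z`,
  the `hred₀` of `CompNormalX0Base.base_X0` / `VertX0Final.link`), `hypX0_V₁`, `hypX0_V₂`, `hypX0_red₁`,
  `hypX0_red₂`, `hypX0_φ` (the five fields of `GlueNormX0.Link`), `hypX0_Φ`, `hypX0_J`.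
The bundled links (`GlueNormX0.Link`, `CompNormalX0Base.Link`) are in `S36/ThreeValX0InstLinks`.
Every `X₀` end product should still be stated for a VARIABLE `Y` (+ link hypotheses).
-/
import Mathlib
import Fermat.Agent.S36.ThreeValX0
import Fermat.Agent.S36.LevelQK0

set_option autoImplicit false
set_option linter.unusedSectionVars false
set_option linter.style.haveILetI false
set_option synthInstance.maxHeartbeats 400000
set_option maxHeartbeats 1000000

noncomputable section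

namespace Fermat.Agent.S36.ThreeValX0Inst

open Polynomial ModularCurve AlgebraicCurve IsLocalRing
open Fermat.Agent.S18.B.FkBasics (jk)
open Fermat.Agent.S28.ModPoly
open Fermat.Agent.S34.TwoGaussX0 (modPolyZ modPolyZ_monic natDegree_modPolyZ map_evalL_modPolyZ
  map_modPolyZ_char)
open Fermat.Agent.S36.PowerBasisK0
open Fermat.Agent.S36.MinpolyK0
open Fermat.Agent.S36.ThetaK0
open Fermat.Agent.S36.LevelQK0
open Fermat.Agent.S36.ThreeValX0

local notation "Kb" => AlgebraicClosure ℚ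

variable {q : ℕ} [hq : Fact q.Prime] {M : ℕ} [NeZero M] {A : ValuationSubring Kb}
variable (hA : A.LiesOverPrime q) (hqM : ¬ q ∣ M) [NeZero q] [NeZero (M * q)]

local notation "Iq" => A.inertiaSubgroupIn ℚ

/-- the second-order data on the `α`-side: `G_α(j₀) = q u₁`, `u₁` a unit of `V1K` -/
theorem exists_u1 :
    ∃ u : ↥(V1K Iq hA hqM), IsUnit u ∧
      (gAlphaK Iq M q (modPolyZ q)).eval (j0K Iq (M * q)) =
        (q : FK Iq (M * q)) * (u : FK Iq (M * q)) := by
  obtain ⟨G, u, hG, -, hev, hu, -⟩ := exists_alpha1 Iq hA hqM map_evalL_modPolyZ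
    (fun k _ _ => map_modPolyZ_char k)
  refine ⟨u, hu, ?_⟩
  rw [← hG]
  have h1 := Polynomial.eval_map_apply (p := G) (V1K Iq hA hqM).subtype (x1K Iq hA hqM)
  have h2 : (V1K Iq hA hqM).subtype (x1K Iq hA hqM) = j0K Iq (M * q) := rfl
  rw [h2] at h1
  rw [h1, hev]
  simp

/-- the second-order data on the `β`-side: `G_β(j₁) = q u₂`, `u₂` a unit of `V2K` -/
theorem exists_u2 :
    ∃ u : ↥(V2K Iq hA hqM), IsUnit u ∧
      (gBetaK Iq M q (modPolyZ q)).eval (j1K Iq M q) =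
        (q : FK Iq (M * q)) * (u : FK Iq (M * q)) := by
  obtain ⟨G, u, hG, -, hev, hu, -⟩ := exists_beta2 Iq hA hqM map_evalL_modPolyZ
    (fun k _ _ => map_modPolyZ_char k)
  refine ⟨u, hu, ?_⟩
  rw [← hG]
  have h1 := Polynomial.eval_map_apply (p := G) (V2K Iq hA hqM).subtype (y2K Iq hA hqM)
  have h2 : (V2K Iq hA hqM).subtype (y2K Iq hA hqM) = j1K Iq M q := rfl
  rw [h2] at h1
  rw [h1, hev]
  simp

/-- **THE ACTUAL `Y`**: `ThreeValX0.Hyp` at the inertia group of `A`, level `M`, `q ∤ M`. -/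
def hypX0 : Hyp Iq M q ↥(modularFunctionFieldFullC (ResidueField ↥A) M) :=
  haveI : CharP (ResidueField ↥A) q := Fermat.Agent.S34.GaussPairX0.charP_res hA
  haveI : IsAlgClosed (ResidueField ↥A) := Fermat.Agent.S18.ResidueBasics.isAlgClosed_residueField A
  haveI : PerfectField (ResidueField ↥A) := inferInstance
  haveI : CharP ↥(modularFunctionFieldFullC (ResidueField ↥A) M) q :=
    Fermat.Agent.S36.ThetaX0.charP_fullC (M := M) hA
  { prime := hq.out
    hqN0 := hqM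
    O₀ := OgK Iq hA hqM
    V₁ := V1K Iq hA hqM
    V₂ := V2K Iq hA hqM
    pid₁ := isPrincipalIdealRing_V1z hA hqM
    pid₂ := isPrincipalIdealRing_V2z hA hqM
    hϖ₁ := maximalIdeal_V1z_eq hA hqM
    hϖ₂ := maximalIdeal_V2z_eq hA hqM
    charκ := Fermat.Agent.S36.ThetaX0.charP_fullC (M := M) hA
    red₀ := red0K Iq hA hqM
    red₁ := red1K Iq hA hqM
    red₂ := red2K Iq hA hqM
    φ := Fermat.Agent.S34.FrobK.phi (ResidueField ↥A) M q
    hφ := fun z => exists_phi_eq_pow z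
    surj₀ := red0K_inertia_surjective hA hqM
    comap₁α := comap_alphaK_V1K Iq hA hqM
    comap₁β := comap_betaK_V1K Iq hA hqM
    comap₂α := comap_alphaK_V2K Iq hA hqM
    comap₂β := comap_betaK_V2K Iq hA hqM
    only_α := fun V hV => eq_or_eq_alphaK Iq hA hqM hV
    only_β := fun V hV => eq_or_eq_betaK Iq hA hqM hV
    deg₁ := fun x hx => deg_one_V1K Iq hA hqM hx
    deg₂ := fun x hx => deg_one_V2K Iq hA hqM hx
    red₁_α₀ := red1K_alphaK Iq hA hqM
    red₁_β₀ := red1K_betaK Iq hA hqM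
    red₂_β₀ := red2K_betaK Iq hA hqM
    red₂_α₀ := red2K_alphaK Iq hA hqM
    hj := j0K_mem_OgK Iq hA hqM
    hφJ := by
      have h : red0K Iq hA hqM ⟨j0K Iq M, j0K_mem_OgK Iq hA hqM⟩ = jk (ResidueField ↥A) M :=
        red0K_jOK Iq hA hqM
      rw [h]
      exact Fermat.Agent.S34.FrobK.phi_jk (ResidueField ↥A) M q
    hJ := by
      have h : red0K Iq hA hqM ⟨j0K Iq M, j0K_mem_OgK Iq hA hqM⟩ = jk (ResidueField ↥A) M :=
        red0K_jOK Iq hA hqM
      rw [h]
      exact jk_ne_pow_sq hA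
    hJq := by
      intro b
      have h : red0K Iq hA hqM ⟨j0K Iq M, j0K_mem_OgK Iq hA hqM⟩ = jk (ResidueField ↥A) M :=
        red0K_jOK Iq hA hqM
      rw [h]
      exact Fermat.Agent.S36.ThetaX0.jk_ne_pow (ResidueField ↥A) M b
    Φ := modPolyZ q
    hmonic := modPolyZ_monic
    hdeg := natDegree_modPolyZ
    hΦ := map_evalL_modPolyZ
    hchar := map_modPolyZ_char ↥(modularFunctionFieldFullC (ResidueField ↥A) M)
    u₁ := (exists_u1 hA hqM).choose
    u₂ := (exists_u2 hA hqM).choose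
    unit₁ := (exists_u1 hA hqM).choose_spec.1
    unit₂ := (exists_u2 hA hqM).choose_spec.1
    eval₁ := (exists_u1 hA hqM).choose_spec.2
    eval₂ := (exists_u2 hA hqM).choose_spec.2 }

/-! ### `rfl`-lemmas -/

theorem hypX0_O₀ : (hypX0 hA hqM).O₀ = Fermat.Agent.S36.GaussK0Comap.Og0 M hA hqM := rfl

theorem hypX0_O₀' : (hypX0 hA hqM).O₀ = OgK Iq hA hqM := rfl

/-- the `hred₀` of `CompNormalX0Base.base_X0` / `VertX0Final.link` -/
theorem hypX0_red₀ (g : FK Iq M) (hg : g ∈ (hypX0 hA hqM).O₀)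
    (hg' : g ∈ Fermat.Agent.S36.GaussK0Comap.Og0 M hA hqM) :
    (hypX0 hA hqM).red₀ ⟨g, hg⟩ = Fermat.Agent.S36.GaussK0Comap.red0z M hA hqM ⟨g, hg'⟩ := rfl

theorem hypX0_red₀' : (hypX0 hA hqM).red₀ = red0K Iq hA hqM := rfl

theorem hypX0_V₁ : (hypX0 hA hqM).V₁ = V1K Iq hA hqM := rfl

theorem hypX0_V₂ : (hypX0 hA hqM).V₂ = V2K Iq hA hqM := rfl

theorem hypX0_red₁ : (hypX0 hA hqM).red₁ = red1K Iq hA hqM := rfl

theorem hypX0_red₂ : (hypX0 hA hqM).red₂ = red2K Iq hA hqM := rfl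

theorem hypX0_φ [CharP (ResidueField ↥A) q] [PerfectField (ResidueField ↥A)] :
    (hypX0 hA hqM).φ = Fermat.Agent.S34.FrobK.phi (ResidueField ↥A) M q := rfl

theorem hypX0_Φ : (hypX0 hA hqM).Φ = modPolyZ q := rfl

/-- `J = red₀ j` is the `j`-function of `F_k(M)` -/
theorem hypX0_J : (hypX0 hA hqM).J = jk (ResidueField ↥A) M :=
  red0K_jOK Iq hA hqM

end Fermat.Agent.S36.ThreeValX0Inst
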