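import Mathlib
import Fermat.Agent.S36.UnitGen
import Fermat.Agent.S36.ThreeValX0

/-!
# PROJECT V (S36), chain (V5) at `X₀`: `UnitGen.ValDatum` from `ThreeValX0.Hyp`, hypotheses first

`Y : ThreeValX0.Hyp I N0 q κ` (helper21) gives `Y.setting : UnitNormal.Setting F₁ F₂`,
`F₁ = F_K(N0 q)`, `F₂ = F_K(N0 q q)`, `K = ℚ̄^I`, with `N₁ = normAlong α_K`, `N₂ = normAlong β_K`,
`π = π' = q`.  `valDatum` completes it to `UnitGen.ValDatum (N0 * q) q I` from

* `hN₁ hN₂` : the `K`-norms are the `K`-forms of the norms over `ℚ̄` (helper19 `NormK0`);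
* a discrete valuation ring `O` with fraction field `K` and uniformiser `q`, whose elements are
  integral at `V₁` and `V₂` (at `X₀`: `O = SmallDVR.W A`).

The fields `const` (nonzero constants have the same value at `V₁` and `V₂`), `hπ'`, `N₁_const`,
`N₂_const` are proved here.
-/

set_option autoImplicit false
set_option linter.unusedSectionVars false

noncomputable section

namespace Fermat.Agent.S36.ValDatumX0

open ModularCurve AlgebraicCurve
open Fermat.Agent.S35.LevelMaps Fermat.Agent.S35.PushKummer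
open Fermat.Agent.S36.K0DescentLaurent Fermat.Agent.S36.K0Fixed Fermat.Agent.S36.KummerNew
open Fermat.Agent.S36.UnitGen Fermat.Agent.S36.PowerBasisK0 Fermat.Agent.S36.ThreeValX0

local notation "Kb" => AlgebraicClosure ℚ
local notation "GQ" => (AlgebraicClosure ℚ ≃ₐ[ℚ] AlgebraicClosure ℚ)

/-! ### constants of a discretely valued field -/

section Const

variable {O K F : Type*} [CommRing O] [IsDomain O] [IsDiscreteValuationRing O] [Field K]
  [Algebra O K] [IsFractionRing O K] [Field F] [Algebra K F]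

/-- an element of `O` is `ϖ ^ m` times a unit, seen in a valuation subring containing `O` -/
theorem val_algebraMap_of_dvr {ϖ : O} (hϖ : Irreducible ϖ) (V : ValuationSubring F)
    (hV : ∀ c : O, algebraMap K F (algebraMap O K c) ∈ V) {a : O} (ha : a ≠ 0) :
    ∃ m : ℕ, Associated a (ϖ ^ m) ∧ V.valuation (algebraMap K F (algebraMap O K a))
      = V.valuation (algebraMap K F (algebraMap O K ϖ)) ^ m := by
  obtain ⟨m, hm⟩ := IsDiscreteValuationRing.associated_pow_irreducible ha hϖ
  refine ⟨m, hm, ?_⟩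
  obtain ⟨u, hu⟩ := hm
  have h1 : V.valuation (algebraMap K F (algebraMap O K (u : O))) = 1 := by
    have h2 : V.valuation (algebraMap K F (algebraMap O K (u : O))) ≤ 1 :=
      (V.valuation_le_one_iff _).mpr (hV _)
    have h3 : V.valuation (algebraMap K F (algebraMap O K ((u⁻¹ : Oˣ) : O))) ≤ 1 :=
      (V.valuation_le_one_iff _).mpr (hV _)
    have h4 : V.valuation (algebraMap K F (algebraMap O K (u : O))) *
        V.valuation (algebraMap K F (algebraMap O K ((u⁻¹ : Oˣ) : O))) = 1 := by
      rw [← map_mul, ← map_mul, ← map_mul, Units.mul_inv, map_one, map_one, map_one]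
    refine le_antisymm h2 ?_
    calc (1 : _) = V.valuation (algebraMap K F (algebraMap O K (u : O))) *
        V.valuation (algebraMap K F (algebraMap O K ((u⁻¹ : Oˣ) : O))) := h4.symm
      _ ≤ V.valuation (algebraMap K F (algebraMap O K (u : O))) * 1 := by gcongr
      _ = _ := mul_one _
  have h5 : a = ϖ ^ m * ((u⁻¹ : Oˣ) : O) := by
    rw [← hu, mul_assoc, Units.mul_inv, mul_one]
  have h6 : V.valuation (algebraMap K F (algebraMap O K ((u⁻¹ : Oˣ) : O))) = 1 := by
    have h4 : V.valuation (algebraMap K F (algebraMap O K (u : O))) *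
        V.valuation (algebraMap K F (algebraMap O K ((u⁻¹ : Oˣ) : O))) = 1 := by
      rw [← map_mul, ← map_mul, ← map_mul, Units.mul_inv, map_one, map_one, map_one]
    rw [h1, one_mul] at h4
    exact h4
  rw [h5, map_mul, map_mul, map_mul, h6, mul_one, map_pow, map_pow, map_pow]

/-- **constants**: a nonzero element of `K = Frac O` has value `|ϖ| ^ m` at EVERY valuation
subring of `F` containing `O`, with the same `m` -/
theorem exists_zpow_const {ϖ : O} (hϖ : Irreducible ϖ) {c : K} (hc : c ≠ 0) :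
    ∃ m : ℤ, ∀ V : ValuationSubring F, (∀ x : O, algebraMap K F (algebraMap O K x) ∈ V) →
      V.valuation (algebraMap K F c) = V.valuation (algebraMap K F (algebraMap O K ϖ)) ^ m := by
  obtain ⟨a, b, hb, hab⟩ := IsFractionRing.div_surjective (A := O) c
  have hb0 : b ≠ 0 := nonZeroDivisors.ne_zero hb
  have ha0 : a ≠ 0 := by
    rintro rfl
    rw [map_zero, zero_div] at hab
    exact hc hab.symm
  obtain ⟨m₁, hm₁⟩ := IsDiscreteValuationRing.associated_pow_irreducible ha0 hϖ
  obtain ⟨m₂, hm₂⟩ := IsDiscreteValuationRing.associated_pow_irreducible hb0 hϖ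
  refine ⟨(m₁ : ℤ) - m₂, fun V hV => ?_⟩
  obtain ⟨n₁, hn₁, h1⟩ := val_algebraMap_of_dvr (K := K) hϖ V hV ha0
  obtain ⟨n₂, hn₂, h2⟩ := val_algebraMap_of_dvr (K := K) hϖ V hV hb0
  have hpow : ∀ {i j : ℕ}, Associated (ϖ ^ i) (ϖ ^ j) → i = j := by
    intro i j hij
    by_contra hne
    rcases Nat.lt_or_gt_of_ne hne with h | h
    · obtain ⟨u, hu⟩ := hij
      obtain ⟨d, rfl⟩ := Nat.exists_eq_add_of_lt h
      have h3 : ϖ ^ i * ((u : O)) = ϖ ^ i * ϖ ^ (d + 1) := by
        rw [hu, ← pow_add, add_assoc]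
      have h4 := mul_left_cancel₀ (pow_ne_zero i hϖ.ne_zero) h3
      exact hϖ.not_isUnit (isUnit_of_dvd_unit (dvd_pow_self ϖ (Nat.succ_ne_zero d))
        (h4 ▸ u.isUnit))
    · obtain ⟨u, hu⟩ := hij.symm
      obtain ⟨d, rfl⟩ := Nat.exists_eq_add_of_lt h
      have h3 : ϖ ^ j * ((u : O)) = ϖ ^ j * ϖ ^ (d + 1) := by
        rw [hu, ← pow_add, add_assoc]
      have h4 := mul_left_cancel₀ (pow_ne_zero j hϖ.ne_zero) h3
      exact hϖ.not_isUnit (isUnit_of_dvd_unit (dvd_pow_self ϖ (Nat.succ_ne_zero d))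
        (h4 ▸ u.isUnit))
  have e1 : n₁ = m₁ := hpow (hn₁.symm.trans hm₁)
  have e2 : n₂ = m₂ := hpow (hn₂.symm.trans hm₂)
  subst e1 e2
  have hϖF : V.valuation (algebraMap K F (algebraMap O K ϖ)) ≠ 0 := by
    rw [Valuation.ne_zero_iff]
    intro h0
    have h3 := (map_eq_zero_iff _ (algebraMap K F).injective).mp h0
    exact hϖ.ne_zero ((map_eq_zero_iff _ (IsFractionRing.injective O K)).mp h3)
  rw [← hab, map_div₀, map_div₀, h1, h2, zpow_sub₀ hϖF, zpow_natCast, zpow_natCast]

end Const

/-! ### the value datum at `X₀` -/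

section Datum

variable {I : Subgroup GQ} {N0 q : ℕ} [NeZero N0] [NeZero q] [NeZero (N0 * q)]
  [NeZero (N0 * q * q)] {κ : Type} [Field κ]

/-- **`UnitGen.ValDatum` at `X₀`**, hypotheses first -/
def valDatum (Y : Hyp I N0 q κ)
    (hN₁ : ∀ y : F0 I (N0 * q * q), toE I (N0 * q) (ThreeVal.normAlong (alphaK I (N0 * q) q) y)
      = normAlong (heckeAlphaBar Kb (N0 * q) q) (toE I (N0 * q * q) y))
    (hN₂ : ∀ y : F0 I (N0 * q * q), toE I (N0 * q) (ThreeVal.normAlong (betaK I (N0 * q) q) y)
      = normAlong (heckeBetaBar Kb (N0 * q) q) (toE I (N0 * q * q) y))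
    {O : Type*} [CommRing O] [IsDomain O] [IsDiscreteValuationRing O]
    [Algebra O (IntermediateField.fixedField I)] [IsFractionRing O (IntermediateField.fixedField I)]
    (hq : Irreducible ((q : ℕ) : O))
    (hO₁ : ∀ x : O, algebraMap (IntermediateField.fixedField I) (F0 I (N0 * q))
      (algebraMap O (IntermediateField.fixedField I) x) ∈ Y.V₁)
    (hO₂ : ∀ x : O, algebraMap (IntermediateField.fixedField I) (F0 I (N0 * q))
      (algebraMap O (IntermediateField.fixedField I) x) ∈ Y.V₂)
    (hc₁ : ∀ c : IntermediateField.fixedField I, c ≠ 0 →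
      ∃ c' : IntermediateField.fixedField I, c' ≠ 0 ∧
        ThreeVal.normAlong (alphaK I (N0 * q) q)
          (algebraMap (IntermediateField.fixedField I) (F0 I (N0 * q * q)) c)
          = algebraMap (IntermediateField.fixedField I) (F0 I (N0 * q)) c')
    (hc₂ : ∀ c : IntermediateField.fixedField I, c ≠ 0 →
      ∃ c' : IntermediateField.fixedField I, c' ≠ 0 ∧
        ThreeVal.normAlong (betaK I (N0 * q) q)
          (algebraMap (IntermediateField.fixedField I) (F0 I (N0 * q * q)) c)
          = algebraMap (IntermediateField.fixedField I) (F0 I (N0 * q)) c') :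
    ValDatum (N0 * q) q I where
  X := Y.setting
  hq := rfl
  hN₁ := hN₁
  hN₂ := hN₂
  const := fun c hc => by
    obtain ⟨m, hm⟩ := exists_zpow_const (O := O) (F := F0 I (N0 * q)) hq hc
    refine ⟨m, ?_, ?_⟩
    · have := hm Y.V₁ hO₁
      rw [map_natCast, map_natCast] at this
      exact this
    · have := hm Y.V₂ hO₂
      rw [map_natCast, map_natCast] at this
      exact this
  hπ' := ⟨((q : ℕ) : IntermediateField.fixedField I), by
    have := NeZero.ne q
    exact_mod_cast this, by
    show alphaK I (N0 * q) q (((q : ℕ) : ↥Y.V₁) : F0 I (N0 * q)) = _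
    rw [show ((((q : ℕ) : ↥Y.V₁)) : F0 I (N0 * q)) = ((q : ℕ) : F0 I (N0 * q)) from rfl,
      map_natCast, map_natCast]⟩
  N₁_const := hc₁
  N₂_const := hc₂

end Datum

end Fermat.Agent.S36.ValDatumX0
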