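/-
PROJECT V (S36), slice V-NormK0, part 2 (helper19): `ValDatumX0.valDatum` with the four norm
hypotheses `hN₁ hN₂ hc₁ hc₂` DISCHARGED by `NormK0`
(`tB_normK_alpha'`, `tB_normK_beta`, `normK_alpha_algebraMap`, `normK_beta_algebraMap`;
`NormK0.normK I φ` is definitionally `ThreeVal.normAlong φ`).

What is left of `UnitGen.ValDatum (N0 * q) q I` after this file: `Y : ThreeValX0.Hyp I N0 q κ`
and a discrete valuation ring `O` with fraction field `K = ℚ̄^I`, uniformiser `q`, integral at
`V₁`, `V₂` (at `X₀`: `O = SmallDVR.W A`).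
-/
import Mathlib
import Fermat.Agent.S36.NormK0
import Fermat.Agent.S36.ValDatumX0

set_option autoImplicit false
set_option linter.unusedSectionVars false

noncomputable section

namespace Fermat.Agent.S36.ValDatumNorm

open ModularCurve AlgebraicCurve
open Fermat.Agent.S35.LevelMaps Fermat.Agent.S35.PushKummer
open Fermat.Agent.S36.K0DescentLaurent Fermat.Agent.S36.K0Fixed Fermat.Agent.S36.KummerNew
open Fermat.Agent.S36.UnitGen Fermat.Agent.S36.PowerBasisK0 Fermat.Agent.S36.ThreeValX0
open Fermat.Agent.S36.NormK0 Fermat.Agent.S36.ValDatumX0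

local notation "Kb" => AlgebraicClosure ℚ
local notation "GQ" => (AlgebraicClosure ℚ ≃ₐ[ℚ] AlgebraicClosure ℚ)

variable {I : Subgroup GQ} {N0 q : ℕ} [NeZero N0] [NeZero q] [NeZero (N0 * q)]
  [NeZero (N0 * q * q)] {κ : Type} [Field κ]

/-- **`UnitGen.ValDatum` at `X₀`** from `ThreeValX0.Hyp` and the discrete valuation ring of
constants only: the norm hypotheses of `ValDatumX0.valDatum` are theorems (`NormK0`). -/
def valDatumOfHyp (Y : Hyp I N0 q κ) (hqp : q.Prime) (hqN0 : ¬ q ∣ N0)
    {O : Type*} [CommRing O] [IsDomain O] [IsDiscreteValuationRing O]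
    [Algebra O (IntermediateField.fixedField I)] [IsFractionRing O (IntermediateField.fixedField I)]
    (hq : Irreducible ((q : ℕ) : O))
    (hO₁ : ∀ x : O, algebraMap (IntermediateField.fixedField I) (F0 I (N0 * q))
      (algebraMap O (IntermediateField.fixedField I) x) ∈ Y.V₁)
    (hO₂ : ∀ x : O, algebraMap (IntermediateField.fixedField I) (F0 I (N0 * q))
      (algebraMap O (IntermediateField.fixedField I) x) ∈ Y.V₂) :
    ValDatum (N0 * q) q I :=
  valDatum Y (fun y => tB_normK_alpha' I hqp hqN0 y)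
    (fun y => tB_normK_beta I (N0 * q) q hqp (Dvd.intro_left N0 rfl) y) hq hO₁ hO₂
    (fun c hc => ⟨c ^ q, pow_ne_zero _ hc,
      normK_alpha_algebraMap I (N0 * q) q hqp (Dvd.intro_left N0 rfl)
        (fun h => hqN0 (by
          rw [pow_two] at h
          exact (Nat.mul_dvd_mul_iff_right hqp.pos).1 h)) c⟩)
    (fun c hc => ⟨c ^ q, pow_ne_zero _ hc,
      normK_beta_algebraMap I (N0 * q) q hqp (Dvd.intro_left N0 rfl) c⟩)

theorem valDatumOfHyp_X (Y : Hyp I N0 q κ) (hqp : q.Prime) (hqN0 : ¬ q ∣ N0)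
    {O : Type*} [CommRing O] [IsDomain O] [IsDiscreteValuationRing O]
    [Algebra O (IntermediateField.fixedField I)] [IsFractionRing O (IntermediateField.fixedField I)]
    (hq : Irreducible ((q : ℕ) : O))
    (hO₁ : ∀ x : O, algebraMap (IntermediateField.fixedField I) (F0 I (N0 * q))
      (algebraMap O (IntermediateField.fixedField I) x) ∈ Y.V₁)
    (hO₂ : ∀ x : O, algebraMap (IntermediateField.fixedField I) (F0 I (N0 * q))
      (algebraMap O (IntermediateField.fixedField I) x) ∈ Y.V₂) :
    (valDatumOfHyp Y hqp hqN0 hq hO₁ hO₂).X = Y.setting := rfl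

end Fermat.Agent.S36.ValDatumNorm
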