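/-
S36 (project V), slice V-LeafXInst (helper8), chain (V17): `S36/LeafX` AT THE ACTUAL `Y`
(`ThreeValX0Inst.hypX0`, helper11), no hypothesis left on the `X`-side:

* `linkY : GlueNormX0.Link I hA hqM (hypX0 hA hqM)` (all `rfl`);
* `datumY hA hqM HM` : THE `GlueNorm.Datum` of the final assembly (`LeafX.datumD` at `hypX0`), typed
  `Datum k κ (E (M q)) (FK0 A (M q q)) (Place k κ)`; `datumY_desc`, `datumY_off_cusps`, ...;
* `xSide_datumY hn0 hnq` : the twelve `X`-side fields of `NewInertiaCharts.Leaf`;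
* `valDatumY hA hqM : UnitGen.ValDatum (M q) q I` (`ValDatumNorm.valDatumOfHyp` at `O = W A`), with
  `valDatumY_X : (valDatumY hA hqM).X = (hypX0 hA hqM).setting`;
* `sheafY_hW₂₀ … sheafY_hN₂` : the eight hypotheses of `NewInertiaLeaf.sheafDatum_of_leaf` for
  `V = valDatumY`, `X = datumY`;
* `sheafDatumY`, `newInertiaHyp_of_leafY` : **(NEW-I) at level `M q`, `q ∤ M`, from the leaf facts
  for `datumY`**: if for every Kummer function `Ku : (datumY ..).Kummer (p ^ a)` with
  `p ^ a • D = div (toE Ku.f)` there are lattice charts `Vc` over `W A` for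
  `divisorBelow ((q - 1) (q² - 1) • D)` with `NewInertiaCharts.Leaf (datumY ..) Vc Ku π`, then
  `OfNewInertia.NewInertiaHyp (M * q) q p`.  (All types in the `ChartX0` spelling `W A`, `K0 A`,
  `FK0 A N`; the instances in the `fixedField I` / `F0 I N` spelling asked by
  `sheafDatum_of_leaf` are local to the proof.)
-/
import Fermat.Agent.S36.LeafX
import Fermat.Agent.S36.ThreeValX0Inst
import Fermat.Agent.S36.ValDatumNorm

set_option autoImplicit false
set_option linter.unusedSectionVars false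
set_option linter.style.haveILetI false
set_option linter.unusedVariables false
set_option synthInstance.maxHeartbeats 400000

noncomputable section

namespace Fermat.Agent.S36.LeafXInst

open ModularCurve AlgebraicCurve IsLocalRing
open Fermat.Agent.S34.NodalDefs
open Fermat.Agent.S37.Deuring.Core Fermat.Agent.S37.Gauss.Datum
open Fermat.Agent.S34.CoreZX0Assembly Fermat.Agent.S34.CoreZX0Build
open Fermat.Agent.S34.CoreZX0OfGeneric Fermat.Agent.S34.GaussPairX0
open Fermat.Agent.S36.GlueNorm Fermat.Agent.S36.NewInertiaDatum Fermat.Agent.S36.TripleValues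
open Fermat.Agent.S36.GlueLevelQ Fermat.Agent.S36.GlueNormX0
open Fermat.Agent.S36.PowerBasisK0 (FK tB alphaK betaK)
open Fermat.Agent.S24.DegreeAlg Fermat.Agent.S18.A.Instances
open Fermat.Agent.S37.Hecke.Integral Fermat.Agent.S35.LevelMaps
open Fermat.Agent.S35.DegeneracyHecke
open Fermat.Agent.S18.C.SmallDVR Fermat.Agent.S36.ChartX0
open Fermat.Agent.S18.NonSpecial
open Fermat.Agent.S36.LeafX Fermat.Agent.S36.ThreeValX0Inst

local notation "Kb" => AlgebraicClosure ℚ

attribute [local instance 2000] Fermat.Agent.S34.EulerX0.algResFk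

/-- shortcut instances (all propositions) -/
local instance instPDBarLY (N : ℕ) [NeZero N] :
    HasPrincipalDivisors Kb ↥(modularFunctionFieldBar N) :=
  Fermat.Agent.S18.A.Instances.hasPrincipalDivisors_bar N

local instance instPDFkLY (A : ValuationSubring Kb) (N : ℕ) [NeZero N] :
    HasPrincipalDivisors (ResidueField ↥A) ↥(modularFunctionFieldFullC (ResidueField ↥A) N) :=
  Fermat.Agent.S37.ReductionInputs.hasPrincipalDivisors_Fk A N

local instance instACkLY (A : ValuationSubring Kb) : IsAlgClosed (ResidueField ↥A) :=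
  Fermat.Agent.S18.ResidueBasics.isAlgClosed_residueField A

local instance instInfkLY (A : ValuationSubring Kb) : Infinite (ResidueField ↥A) :=
  Fermat.Agent.S37.ReductionInputs.infinite_residueField A

local instance instNeZeroMulLY (M q : ℕ) [NeZero M] [NeZero q] : NeZero (M * q) :=
  ⟨Nat.mul_ne_zero (NeZero.ne M) (NeZero.ne q)⟩

variable {q : ℕ} [hq : Fact q.Prime] {M : ℕ} [NeZero M] {A : ValuationSubring Kb} [NeZero q]
variable [CharP (ResidueField ↥A) q]
variable {gM : ℕ} (hA : A.LiesOverPrime q) (hqM : ¬ q ∣ M)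

/-- the link of the actual `Y` with project U: all `rfl` -/
theorem linkY : Link (A.inertiaSubgroupIn ℚ) hA hqM (hypX0 hA hqM) :=
  ⟨rfl, rfl, fun _ _ _ => rfl, fun _ _ _ => rfl, rfl⟩

/-! ### the datum -/

section Datum

variable (HM : RiemannHyp (ResidueField ↥A) ↥(modularFunctionFieldFullC (ResidueField ↥A) M) gM)

/-- **THE `GlueNorm.Datum` of the final assembly**: level `q M` over `ℚ̄` from project U (node record
`LeafX.nodesD`, with its description of `Rbar0`), level `q² M` over the inertia field from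
`ThreeValX0Inst.hypX0`. -/
abbrev datumY : Datum (ResidueField ↥A) ↥(modularFunctionFieldFullC (ResidueField ↥A) M)
    ↥(modularFunctionFieldBar (M * q)) (FK0 A (M * q * q))
    (Place (ResidueField ↥A) ↥(modularFunctionFieldFullC (ResidueField ↥A) M)) :=
  datumD hA hqM HM (hypX0 hA hqM) (linkY hA hqM)

theorem mem_datumY_S
    {b : Place (ResidueField ↥A) ↥(modularFunctionFieldFullC (ResidueField ↥A) M)} :
    b ∈ (datumY hA hqM HM).S ↔ b ∈ (nodesD hA hqM HM).S := Iff.rfl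

/-- the node set of `datumY` describes `Rbar0` -/
theorem datumY_desc : Fermat.Agent.S36.NodesDesc.Desc hA hqM (nodesD hA hqM HM).S :=
  nodesD_desc hA hqM HM

theorem datumY_off_cusps : ∀ b ∈ (datumY hA hqM HM).S,
    b ∉ Fermat.Agent.S34.Euler.FrobSide.P0 (ResidueField ↥A) M :=
  nodesD_off_cusps hA hqM HM

theorem datumY_q : (datumY hA hqM HM).q = q := rfl

theorem datumY_W₂₀ : (datumY hA hqM HM).W₂₀ = (hypX0 hA hqM).W₂₀ := rfl

theorem datumY_W₁₁ : (datumY hA hqM HM).W₁₁ = (hypX0 hA hqM).W₁₁ := rfl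

theorem datumY_W₀₂ : (datumY hA hqM HM).W₀₂ = (hypX0 hA hqM).W₀₂ := rfl

/-- field `hW` of `NewInertiaCharts.Leaf` for charts built on `LatticeX0.Wfam (hypX0 hA hqM)` -/
theorem Wfam_eq_Wof_datumY : LatticeX0.Wfam (hypX0 hA hqM) = Wof (datumY hA hqM HM) :=
  Wfam_eq_Wof _ _ _ _ _

/-- **the twelve `X`-side fields of `NewInertiaCharts.Leaf` for `datumY`** -/
theorem xSide_datumY {n : ℕ} (hn0 : n ≠ 0) (hnq : Nat.Coprime n q) :
    XSide (datumY hA hqM HM) ((q : ℕ) : ↥(W A)) n (algebraMap ↥(W A) (ResidueField ↥A)) :=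
  xSide_datumD hA hqM HM _ _ hn0 hnq

end Datum

/-! ### the value datum -/

section ValDatum

/-- the constants of `W A` lie in `V₁` -/
theorem hO₁ (x : ↥(W A)) :
    algebraMap ↥(K0 A) (FK0 A (M * q)) (algebraMap ↥(W A) ↥(K0 A) x) ∈ (hypX0 hA hqM).V₁ :=
  const_mem_V₁ (hypX0 hA hqM) (linkY hA hqM) (x : ↥(K0 A)) (coe_mem A x)

/-- the constants of `W A` lie in `V₂` -/
theorem hO₂ (x : ↥(W A)) :
    algebraMap ↥(K0 A) (FK0 A (M * q)) (algebraMap ↥(W A) ↥(K0 A) x) ∈ (hypX0 hA hqM).V₂ :=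
  const_mem_V₂ (hypX0 hA hqM) (linkY hA hqM) (x : ↥(K0 A)) (coe_mem A x)

/-- **`UnitGen.ValDatum` at the actual `Y`**, `O = W A` -/
def valDatumY : Fermat.Agent.S36.UnitGen.ValDatum (M * q) q (A.inertiaSubgroupIn ℚ) :=
  haveI := isDVR hA
  @Fermat.Agent.S36.ValDatumNorm.valDatumOfHyp (A.inertiaSubgroupIn ℚ) M q _ _ _ _ _ _
    (hypX0 hA hqM) hq.out hqM ↥(W A) _ _ _
    (inferInstance : Algebra ↥(W A) ↥(K0 A)) (isFractionRing_W_K0 A) (irreducible_ell hA)
    (hO₁ hA hqM) (hO₂ hA hqM)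

theorem valDatumY_X : (valDatumY hA hqM).X = (hypX0 hA hqM).setting := rfl

end ValDatum

/-! ### the hypotheses of `NewInertiaLeaf.sheafDatum_of_leaf` -/

section Sheaf

variable (HM : RiemannHyp (ResidueField ↥A) ↥(modularFunctionFieldFullC (ResidueField ↥A) M) gM)

theorem sheafY_hW₂₀ : (datumY hA hqM HM).W₂₀ = (valDatumY hA hqM).X.W₂₀ := rfl

theorem sheafY_hW₁₁ : (datumY hA hqM HM).W₁₁ = (valDatumY hA hqM).X.W₁₁ := rfl

theorem sheafY_hW₀₂ : (datumY hA hqM HM).W₀₂ = (valDatumY hA hqM).X.W₀₂ := rfl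

theorem sheafY_hr₂₀ (x : ↥(datumY hA hqM HM).W₂₀) :
    (datumY hA hqM HM).r₂₀ x = 0 ↔
      (datumY hA hqM HM).W₂₀.valuation (x : FK0 A (M * q * q)) < 1 :=
  sheaf_hr₂₀ _ _ _ _ _ x

theorem sheafY_hr₁₁ (x : ↥(datumY hA hqM HM).W₁₁) :
    (datumY hA hqM HM).r₁₁ x = 0 ↔
      (datumY hA hqM HM).W₁₁.valuation (x : FK0 A (M * q * q)) < 1 :=
  sheaf_hr₁₁ _ _ _ _ _ x

theorem sheafY_hr₀₂ (x : ↥(datumY hA hqM HM).W₀₂) :
    (datumY hA hqM HM).r₀₂ x = 0 ↔
      (datumY hA hqM HM).W₀₂.valuation (x : FK0 A (M * q * q)) < 1 :=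
  sheaf_hr₀₂ _ _ _ _ _ x

theorem sheafY_hN₁ (y : FK0 A (M * q * q)) :
    (datumY hA hqM HM).N₁ y
      = Fermat.Agent.S36.KummerNew.toE (A.inertiaSubgroupIn ℚ) (M * q)
          ((valDatumY hA hqM).X.N₁ y) := rfl

theorem sheafY_hN₂ (y : FK0 A (M * q * q)) :
    (datumY hA hqM HM).N₂ y
      = Fermat.Agent.S36.KummerNew.toE (A.inertiaSubgroupIn ℚ) (M * q)
          ((valDatumY hA hqM).X.N₂ y) := rfl

end Sheaf

/-! ### (NEW-I) from the leaf facts for `datumY` -/

section Final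

open Fermat.Agent.S36.NewInertiaLeaf Fermat.Agent.S36.NewInertiaX0 Fermat.Agent.S36.Lattice
open Fermat.Agent.S36.NewInertiaCharts Fermat.Agent.S36.KummerNew

/-- the instances of `ChartX0` in the `fixedField I` / `F0 I N` spelling (local to this section) -/
local instance instAlgWF (N : ℕ) : Algebra ↥(W A) ↥(F0 (A.inertiaSubgroupIn ℚ) N) := algebraW A N

local instance instAlgWK :
    Algebra ↥(W A) ↥(IntermediateField.fixedField (A.inertiaSubgroupIn ℚ)) :=
  (inferInstance : Algebra ↥(W A) ↥(K0 A))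

local instance instFracWK :
    IsFractionRing ↥(W A) ↥(IntermediateField.fixedField (A.inertiaSubgroupIn ℚ)) :=
  isFractionRing_W_K0 A

local instance instTowerW (N : ℕ) : IsScalarTower ↥(W A)
    ↥(IntermediateField.fixedField (A.inertiaSubgroupIn ℚ)) ↥(F0 (A.inertiaSubgroupIn ℚ) N) :=
  isScalarTowerW A N

variable (HM : RiemannHyp (ResidueField ↥A) ↥(modularFunctionFieldFullC (ResidueField ↥A) M) gM)

/-- the hypothesis of `newInertiaHyp_of_leafY`: lattice charts and leaf facts for every Kummer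
function of `datumY` -/
def LeafHyp (p : ℕ) : Prop :=
  haveI := isDVR hA
  ∀ (a : ℕ) (D : Divisor Kb (E (M * q * q))), Divisor.degree D = 0 →
    (∀ σ ∈ A.inertiaSubgroupIn ℚ,
      arithmeticGalois (modularFunctionFieldFull (M * q * q)) σ • D = D) →
    ∀ Ku : (datumY hA hqM HM).Kummer (p ^ a),
    (∀ w : Place Kb (E (M * q * q)),
      w.ord (toE (A.inertiaSubgroupIn ℚ) (M * q * q) Ku.f) = ((p ^ a : ℕ) : ℤ) * D w) →
    ∃ (ι ι' : Type) (_ : Fintype ι) (_ : Fintype ι')
      (Vc : VCharts ↥(W A) ↥(K0 A) (FK0 A (M * q * q)) Comp ι ι'),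
      (∀ v : Place ↥(K0 A) (FK0 A (M * q * q)),
        Vc.D v = GlobalSectionBar.divisorBelow (M * q * q) (K0 A)
          (((q - 1) * (q ^ 2 - 1)) • D) v) ∧
        Nonempty (Leaf (datumY hA hqM HM) Vc Ku (algebraMap ↥(W A) (ResidueField ↥A)))

set_option maxHeartbeats 1000000 in
/-- **`NewInertiaX0.SheafDatum` at the actual `Y`** -/
def sheafDatumY (p : ℕ) (H : LeafHyp hA hqM HM p) :
    SheafDatum (ResidueField ↥A) ↥(modularFunctionFieldFullC (ResidueField ↥A) M)
      (Place (ResidueField ↥A) ↥(modularFunctionFieldFullC (ResidueField ↥A) M)) ↥(W A)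
      (valDatumY hA hqM) p :=
  haveI := isDVR hA
  haveI := Fermat.Agent.S36.X0Base.isAlgClosed_residueField_W hA
  sheafDatum_of_leaf (valDatumY hA hqM) p (datumY hA hqM HM)
    (sheafY_hW₂₀ hA hqM HM) (sheafY_hW₁₁ hA hqM HM) (sheafY_hW₀₂ hA hqM HM)
    (sheafY_hr₂₀ hA hqM HM) (sheafY_hr₁₁ hA hqM HM) (sheafY_hr₀₂ hA hqM HM)
    (sheafY_hN₁ hA hqM HM) (sheafY_hN₂ hA hqM HM)
    (algebraMap ↥(W A) (ResidueField ↥A)) H

/-- **(NEW-I) at level `M q`, `q ∤ M`, from the leaf facts for `datumY`** -/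
theorem newInertiaHyp_of_leafY (p : ℕ) (hp : 0 < p) (H : LeafHyp hA hqM HM p) :
    Fermat.Agent.S36.OfNewInertia.NewInertiaHyp (M * q) q p :=
  haveI := isDVR hA
  haveI := Fermat.Agent.S36.X0Base.isAlgClosed_residueField_W hA
  newInertiaHyp_of_leaf hA (sheafDatumY hA hqM HM p H) hp hq.out.two_le

end Final

end Fermat.Agent.S36.LeafXInst
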