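/-
PROJECT V (S36), slice V-SpecDictOne (helper14) = (SD1) of chain v1.1: **the dictionary between
the maximal ideals of the chart ring of a curve and the places finite on the chart.**

ABSTRACT PART.  `K` any field, `F/K` a function field with separating element `x`
(`hx : IsFF K x`, `hsep : Algebra.IsSeparable K⟮x⟯ F`), `B := ChartRing.chart K x` the integral
closure of `K[x]` in `F` (the SAME TERM as `S24.Fibre.intRing K x`, so the Dedekind toolkit of
`S18/A/Defs` and `S24/PlacePrime` applies verbatim).

* `coe_mem` : `B ⊆ O_v` for every place `v` finite at `x`; `incl v hv : B →+* O_v`;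
* `pointOf v hv : Ideal B` : the point `n_v = m_v ∩ B`; `mem_pointOf_iff_val`
  (`b ∈ n_v ↔ v(b) < 1`), `mem_pointOf_iff` (`↔ b = 0 ∨ 0 < ord_v b`), `pointOf_placeOfPrime`,
  `pointOf_isMaximal`, `pointOf_injective`, `exists_place_of_isMaximal`, `existsUnique_place`;
* `mem_chart_iff` : `f ∈ B ↔ f ∈ O_v` for every place `v` finite at `x`;
* `hasValue_iff`, `hasValue_iff'` : `z(v) = c ↔ z - c ∈ n_v`, for both `HasValue` predicates on
  main (`S34.NodalDefs.HasValue`, `S34.Euler.Value.HasValue`); `hasValue_unique`;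
* `exists_mul_eq_of_mem` : `O_v = B_(n_v)` elementwise (`f ∈ O_v ⇒ f s = b`, `s ∉ n_v`).

`X₀` PART.  `k` perfect of characteristic `q`, `κ = modularFunctionFieldFullC k N`,
`phi = FrobK.phi`, `Fr = FrobK.Fr`, `x : κ` with `phi x = x ^ q` (`x = J` and `x = J⁻¹`):

* `mem_Fr_iff` : `x ∈ O_(Fr v) ↔ x ∈ O_v`; `phi_mem_chart_iff` : `phi g ∈ B ↔ g ∈ B`;
* `phiB : B →+* B`, `coe_phiB`, `phiB_pow : ∀ z, ∃ c, phiB c = z ^ q` (`BranchCore.Datum.φ_pow`);
* `comap_phiB_pointOf : (n_v).comap phiB = n_(Fr v)`;
* `nodeSet S : Set (Ideal B)`, `pointOf_mem_nodeSet_iff`, `nodeSet_fr`, `nodeSet_fr_fr`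
  (`= BranchCore.Datum.S_fr`, `fr_fr` from `NodesFrStable`);
* `glue_of_values`, `sep_of_values` : the hypotheses `hglue`, `hsep` of `NodeField.node_iff` from
  their value forms (`NodesDesc.glue_of_mem`, `exists_pair_of_not_mem`);
* the instances `x = jk k N`, `x = (jk k N)⁻¹` : `phi_jk_inv`, `isFF_jk_inv`, `isSeparable_jk_inv`.
-/
import Mathlib
import Fermat.Agent.S18.A.Defs
import Fermat.Agent.S18.B.SeparableFk
import Fermat.Agent.S34.FrobK
import Fermat.Agent.S34.NodalDefs
import Fermat.Agent.S34.Euler.Value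
import Fermat.Agent.S36.ChartRing

set_option autoImplicit false
set_option linter.unusedSectionVars false
set_option linter.style.haveILetI false
set_option linter.unusedVariables false

noncomputable section

namespace Fermat.Agent.S36.SpecDictOne

open AlgebraicCurve IsDedekindDomain IntermediateField
open Fermat.Agent.S24.FF Fermat.Agent.S24.PlacePrime
open Fermat.Agent.S36.ChartRing (chart)
open scoped IntermediateField.algebraAdjoinAdjoin

universe u w

/-! ### abstract part -/

section Abstract

variable {K : Type w} {F : Type u} [Field K] [Field F] [Algebra K F] {x : F}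

/-- the chart ring lies in the valuation ring of every place finite at `x` -/
theorem coe_mem (v : Place K F) (hv : x ∈ v.toValuationSubring) (b : chart K x) :
    (b : F) ∈ v.toValuationSubring := by
  rw [Fermat.Agent.S24.Ord.mem_iff]
  exact Fermat.Agent.S24.Ord.adicValuation_le_one_of_isIntegral v
    (Fermat.Agent.S24.Ord.adicValuation_adjoin_le_one v
      ((Fermat.Agent.S24.Ord.mem_iff v _).mp hv)) b.2

/-- the inclusion `B → O_v` -/
def incl (v : Place K F) (hv : x ∈ v.toValuationSubring) : chart K x →+* v.toValuationSubring :=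
  (algebraMap (chart K x) F).codRestrict v.toValuationSubring.toSubring (coe_mem v hv)

@[simp] theorem coe_incl (v : Place K F) (hv : x ∈ v.toValuationSubring) (b : chart K x) :
    ((incl v hv b : v.toValuationSubring) : F) = (b : F) := rfl

/-- **the point of the chart at the place `v`**: `n_v = m_v ∩ B` -/
def pointOf (v : Place K F) (hv : x ∈ v.toValuationSubring) : Ideal (chart K x) :=
  (IsLocalRing.maximalIdeal v.toValuationSubring).comap (incl v hv)

theorem mem_pointOf_iff_val (v : Place K F) (hv : x ∈ v.toValuationSubring) (b : chart K x) :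
    b ∈ pointOf v hv ↔ v.adicValuation (b : F) < 1 := by
  rw [pointOf, Ideal.mem_comap, Fermat.Agent.S24.Ord.mem_maximalIdeal_iff]
  rfl

theorem mem_pointOf_iff (v : Place K F) (hv : x ∈ v.toValuationSubring) (b : chart K x) :
    b ∈ pointOf v hv ↔ b = 0 ∨ 0 < v.ord (b : F) := by
  rw [mem_pointOf_iff_val]
  rcases eq_or_ne b 0 with rfl | hb
  · simp
  · have hbF : (b : F) ≠ 0 := fun h => hb (Subtype.ext h)
    rw [Fermat.Agent.S24.Ord.ord_pos_iff v hbF]
    simp [hb]

instance pointOf_isPrime (v : Place K F) (hv : x ∈ v.toValuationSubring) :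
    (pointOf v hv).IsPrime :=
  Ideal.comap_isPrime _ _

theorem pointOf_ne_top (v : Place K F) (hv : x ∈ v.toValuationSubring) : pointOf v hv ≠ ⊤ :=
  (pointOf_isPrime v hv).ne_top

/-- constants of `B` -/
theorem coe_algebraMap (c : K) : ((algebraMap K (chart K x) c : chart K x) : F) = algebraMap K F c :=
  rfl

theorem coe_sub_algebraMap (z : chart K x) (c : K) :
    ((z - algebraMap K (chart K x) c : chart K x) : F) = (z : F) - algebraMap K F c := rfl

/-- nonzero constants are not in `n_v` -/
theorem algebraMap_not_mem (v : Place K F) (hv : x ∈ v.toValuationSubring) {c : K} (hc : c ≠ 0) :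
    algebraMap K (chart K x) c ∉ pointOf v hv := by
  rw [mem_pointOf_iff_val, coe_algebraMap, Fermat.Agent.S24.Ord.adicValuation_algebraMap v hc]
  exact lt_irrefl _

/-- `x` as an element of the chart ring -/
def xB (K : Type w) {F : Type u} [Field K] [Field F] [Algebra K F] (x : F) : chart K x :=
  algebraMap (Algebra.adjoin K ({x} : Set F)) (chart K x)
    ⟨x, Algebra.self_mem_adjoin_singleton K x⟩

@[simp] theorem coe_xB : ((xB K x : chart K x) : F) = x := rfl

/-- the point of the place attached to a nonzero prime `P` of `B` is `P` -/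
theorem pointOf_placeOfPrime [IsDedekindDomain (chart K x)] [IsFractionRing (chart K x) F]
    (P : HeightOneSpectrum (chart K x))
    (hv : x ∈ (placeOfPrime (K := K) P).toValuationSubring) :
    pointOf (placeOfPrime (K := K) P) hv = P.asIdeal := by
  ext b
  rw [mem_pointOf_iff]
  have h := placeOfPrime_ord_pos_iff (K := K) (F := F) P b
  rcases eq_or_ne b 0 with rfl | hb
  · simp
  · simp only [hb, false_or]
    rw [show (b : F) = algebraMap (chart K x) F b from rfl, h]
    simp [hb]

theorem mem_placeOfPrime_x [IsDedekindDomain (chart K x)] [IsFractionRing (chart K x) F]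
    (P : HeightOneSpectrum (chart K x)) :
    x ∈ (placeOfPrime (K := K) P).toValuationSubring := by
  rw [mem_placeOfPrime]
  show P.valuation F (algebraMap (chart K x) F (xB K x)) ≤ 1
  exact P.valuation_le_one _

variable (hx : IsFF K x) (hsep : Algebra.IsSeparable K⟮x⟯ F)

include hx hsep in
/-- every place finite at `x` is the place of its point -/
theorem exists_prime_eq (v : Place K F) (hv : x ∈ v.toValuationSubring) :
    haveI := Fermat.Agent.S18.A.Defs.isDedekind hx hsep
    haveI := Fermat.Agent.S18.A.Defs.isFractionRing hx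
    ∃ P : HeightOneSpectrum (chart K x), placeOfPrime (K := K) P = v ∧ P.asIdeal = pointOf v hv := by
  haveI := Fermat.Agent.S18.A.Defs.isDedekind hx hsep
  haveI := Fermat.Agent.S18.A.Defs.isFractionRing hx
  obtain ⟨P, hP⟩ := Fermat.Agent.S18.A.Defs.exists_prime hx hsep v
    ((Fermat.Agent.S24.Ord.mem_iff v _).mp hv)
  refine ⟨P, hP, ?_⟩
  subst hP
  exact (pointOf_placeOfPrime P hv).symm

include hx hsep in
/-- **`n_v` is a maximal ideal of `B`** -/
theorem pointOf_isMaximal (v : Place K F) (hv : x ∈ v.toValuationSubring) :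
    (pointOf v hv).IsMaximal := by
  haveI := Fermat.Agent.S18.A.Defs.isDedekind hx hsep
  haveI := Fermat.Agent.S18.A.Defs.isFractionRing hx
  obtain ⟨P, -, hP⟩ := exists_prime_eq hx hsep v hv
  rw [← hP]
  exact P.isMaximal

include hx hsep in
/-- **`v ↦ n_v` is injective** -/
theorem pointOf_injective {v v' : Place K F} (hv : x ∈ v.toValuationSubring)
    (hv' : x ∈ v'.toValuationSubring) (h : pointOf v hv = pointOf v' hv') : v = v' := by
  haveI := Fermat.Agent.S18.A.Defs.isDedekind hx hsep
  haveI := Fermat.Agent.S18.A.Defs.isFractionRing hx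
  obtain ⟨P, hPv, hP⟩ := exists_prime_eq hx hsep v hv
  obtain ⟨P', hPv', hP'⟩ := exists_prime_eq hx hsep v' hv'
  have : P = P' := HeightOneSpectrum.ext (by rw [hP, hP', h])
  rw [← hPv, ← hPv', this]

include hx in
/-- `B` is not a field -/
theorem not_isField_chart : ¬ IsField (chart K x) := by
  intro hB
  have h1 : IsField (Algebra.adjoin K ({x} : Set F)) :=
    isField_of_isIntegral_of_isField (R := Algebra.adjoin K ({x} : Set F)) (S := chart K x)
      (fun a b hab => Subtype.ext (congrArg (fun z : chart K x => (z : F)) hab)) hB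
  have e := Polynomial.algEquivOfTranscendental K x hx.transcendental
  exact Polynomial.not_isField K (e.toMulEquiv.isField h1)

include hx hsep in
/-- **every maximal ideal of `B` is the point of a place finite at `x`** -/
theorem exists_place_of_isMaximal (n : Ideal (chart K x)) (hn : n.IsMaximal) :
    ∃ (v : Place K F) (hv : x ∈ v.toValuationSubring), pointOf v hv = n := by
  haveI := Fermat.Agent.S18.A.Defs.isDedekind hx hsep
  haveI := Fermat.Agent.S18.A.Defs.isFractionRing hx
  have hne : n ≠ ⊥ := Ring.ne_bot_of_isMaximal_of_not_isField hn (not_isField_chart hx)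
  let P : HeightOneSpectrum (chart K x) := ⟨n, hn.isPrime, hne⟩
  exact ⟨placeOfPrime (K := K) P, mem_placeOfPrime_x P, pointOf_placeOfPrime P _⟩

include hx hsep in
/-- the dictionary: maximal ideals of `B` `↔` places finite at `x` -/
theorem existsUnique_place (n : Ideal (chart K x)) (hn : n.IsMaximal) :
    ∃! v : Place K F, ∃ hv : x ∈ v.toValuationSubring, pointOf v hv = n := by
  obtain ⟨v, hv, h⟩ := exists_place_of_isMaximal hx hsep n hn
  refine ⟨v, ⟨hv, h⟩, ?_⟩
  rintro v' ⟨hv', h'⟩
  exact pointOf_injective hx hsep hv' hv (h'.trans h.symm)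

include hx hsep in
/-- **`B` is the ring of functions regular at all places finite at `x`** -/
theorem mem_chart_iff (f : F) :
    f ∈ chart K x ↔ ∀ v : Place K F, x ∈ v.toValuationSubring → f ∈ v.toValuationSubring := by
  haveI := Fermat.Agent.S18.A.Defs.isDedekind hx hsep
  haveI := Fermat.Agent.S18.A.Defs.isFractionRing hx
  constructor
  · intro hf v hv
    exact coe_mem v hv ⟨f, hf⟩
  · intro h
    have := HeightOneSpectrum.mem_integers_of_valuation_le_one (R := chart K x) F f
      (fun P => (mem_placeOfPrime (K := K) P f).mp (h _ (mem_placeOfPrime_x P)))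
    obtain ⟨b, rfl⟩ := this
    exact b.2

/-! ### values -/

/-- `z(v) = c ↔ z - c ∈ n_v` (`S34.Euler.Value.HasValue`) -/
theorem hasValue_iff' (v : Place K F) (hv : x ∈ v.toValuationSubring) (z : chart K x) (c : K) :
    Fermat.Agent.S34.Euler.Value.HasValue v (z : F) c ↔
      z - algebraMap K (chart K x) c ∈ pointOf v hv := by
  rw [mem_pointOf_iff_val, coe_sub_algebraMap]
  rfl

/-- `z(v) = c ↔ z - c ∈ n_v` (`S34.NodalDefs.HasValue`) -/
theorem hasValue_iff (v : Place K F) (hv : x ∈ v.toValuationSubring) (z : chart K x) (c : K) :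
    Fermat.Agent.S34.NodalDefs.HasValue v (z : F) c ↔
      z - algebraMap K (chart K x) c ∈ pointOf v hv := by
  rw [mem_pointOf_iff, coe_sub_algebraMap, Fermat.Agent.S34.NodalDefs.HasValue]
  refine or_congr ?_ Iff.rfl
  constructor
  · intro h
    apply Subtype.ext
    rw [coe_sub_algebraMap, h, sub_self]
    rfl
  · intro h
    have := congrArg (fun b : chart K x => (b : F)) h
    simp only [coe_sub_algebraMap] at this
    exact sub_eq_zero.mp this

/-- the two `HasValue` predicates agree on `B` -/
theorem hasValue_iff_hasValue' (v : Place K F) (hv : x ∈ v.toValuationSubring) (z : chart K x)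
    (c : K) : Fermat.Agent.S34.NodalDefs.HasValue v (z : F) c ↔
      Fermat.Agent.S34.Euler.Value.HasValue v (z : F) c := by
  rw [hasValue_iff v hv, hasValue_iff' v hv]

/-- `z ∈ n_v ↔ z(v) = 0` -/
theorem mem_pointOf_iff_hasValue_zero (v : Place K F) (hv : x ∈ v.toValuationSubring)
    (z : chart K x) :
    z ∈ pointOf v hv ↔ Fermat.Agent.S34.Euler.Value.HasValue v (z : F) 0 := by
  rw [hasValue_iff' v hv, map_zero, sub_zero]

/-- values are unique -/
theorem hasValue_unique (v : Place K F) (hv : x ∈ v.toValuationSubring) (z : chart K x)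
    {c c' : K} (h : z - algebraMap K (chart K x) c ∈ pointOf v hv)
    (h' : z - algebraMap K (chart K x) c' ∈ pointOf v hv) : c = c' := by
  by_contra hne
  have h1 : algebraMap K (chart K x) (c' - c) ∈ pointOf v hv := by
    have := (pointOf v hv).sub_mem h h'
    rwa [sub_sub_sub_cancel_left, ← map_sub] at this
  exact algebraMap_not_mem v hv (sub_ne_zero.mpr (Ne.symm hne)) h1

include hx hsep in
/-- **`O_v` is the localisation of `B` at `n_v`**, elementwise -/
theorem exists_mul_eq_of_mem (v : Place K F) (hv : x ∈ v.toValuationSubring) {f : F}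
    (hf : f ∈ v.toValuationSubring) :
    ∃ b s : chart K x, s ∉ pointOf v hv ∧ f * (s : F) = (b : F) := by
  haveI := Fermat.Agent.S18.A.Defs.isDedekind hx hsep
  haveI := Fermat.Agent.S18.A.Defs.isFractionRing hx
  obtain ⟨P, hPv, hP⟩ := exists_prime_eq hx hsep v hv
  subst hPv
  obtain ⟨b, s, hs⟩ := P.exists_primeCompl_mul_eq_of_integer f ((mem_placeOfPrime P f).mp hf)
  refine ⟨b, s, ?_, hs⟩
  rw [← hP]
  exact s.2

/-- over an algebraically closed field every function of `B` has a value at every point -/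
theorem exists_value [IsAlgClosed K] (hx : IsFF K x) (v : Place K F)
    (hv : x ∈ v.toValuationSubring) (z : chart K x) :
    ∃ c : K, z - algebraMap K (chart K x) c ∈ pointOf v hv := by
  obtain ⟨c, hc⟩ := Fermat.Agent.S24.Ord.exists_sub_lt_one hx v
    ((Fermat.Agent.S24.Ord.mem_iff v _).mp (coe_mem v hv z))
  exact ⟨c, (mem_pointOf_iff_val v hv _).mpr hc⟩

/-- over an algebraically closed field the residue field of `B` at `n_v` is `K` -/
theorem algebraMap_quotient_bijective [IsAlgClosed K] (hx : IsFF K x) (v : Place K F)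
    (hv : x ∈ v.toValuationSubring) :
    Function.Bijective ((Ideal.Quotient.mk (pointOf v hv)).comp (algebraMap K (chart K x))) := by
  constructor
  · intro a b hab
    by_contra hne
    have : algebraMap K (chart K x) (a - b) ∈ pointOf v hv := by
      rw [map_sub]
      exact (Ideal.Quotient.mk_eq_mk_iff_sub_mem _ _).mp hab
    exact algebraMap_not_mem v hv (sub_ne_zero.mpr hne) this
  · intro w
    obtain ⟨z, rfl⟩ := Ideal.Quotient.mk_surjective w
    obtain ⟨c, hc⟩ := exists_value hx v hv z
    refine ⟨c, ?_⟩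
    rw [RingHom.comp_apply]
    exact ((Ideal.Quotient.mk_eq_mk_iff_sub_mem _ _).mpr hc).symm

end Abstract

/-! ### the `X₀` part: Frobenius -/

section X0

open ModularCurve
open Fermat.Agent.S34.FrobK
open Fermat.Agent.S34.Euler.Value (HasValue)
open Fermat.Agent.S18.B.FkBasics (jk)

variable (k : Type*) [Field k] (N : ℕ) [NeZero N]
variable (q : ℕ) [hq : Fact q.Prime] [CharP k q] [PerfectField k]
variable {x : ↥(modularFunctionFieldFullC k N)}

/-- the two charts: `phi J⁻¹ = (J⁻¹)^q` -/
theorem phi_jk_inv : phi k N q (jk k N)⁻¹ = ((jk k N)⁻¹) ^ q := by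
  rw [map_inv₀, phi_jk, inv_pow]

theorem isFF_jk_inv : IsFF k (jk k N)⁻¹ := (Fermat.Agent.S18.B.FkBasics.isFF k N).inv

theorem isSeparable_jk_inv :
    Algebra.IsSeparable k⟮(jk k N)⁻¹⟯ ↥(modularFunctionFieldFullC k N) :=
  Fermat.Agent.S18.A.Defs.isSeparable_inv (Fermat.Agent.S18.B.SeparableFk.isSeparable_jk k N)

variable (hφx : phi k N q x = x ^ q)

include hφx in
/-- **the chart is Frobenius-stable**: `x` is finite at `Fr v` iff at `v` -/
theorem mem_Fr_iff (v : Place k ↥(modularFunctionFieldFullC k N)) :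
    x ∈ (Fr k N q v).toValuationSubring ↔ x ∈ v.toValuationSubring := by
  rw [← phi_mem_iff, hφx, Fermat.Agent.S24.Ord.mem_iff, Fermat.Agent.S24.Ord.mem_iff, map_pow]
  exact pow_le_one_iff hq.out.ne_zero

variable (hx : IsFF k x)
  (hsep : Algebra.IsSeparable k⟮x⟯ ↥(modularFunctionFieldFullC k N))

include hφx hx hsep in
/-- **`phi g ∈ B ↔ g ∈ B`** -/
theorem phi_mem_chart_iff (g : ↥(modularFunctionFieldFullC k N)) :
    phi k N q g ∈ chart k x ↔ g ∈ chart k x := by
  rw [mem_chart_iff hx hsep, mem_chart_iff hx hsep]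
  constructor
  · intro h v hv
    have hv' : x ∈ ((Fr k N q).symm v).toValuationSubring := by
      rw [← mem_Fr_iff k N q hφx, Equiv.apply_symm_apply]
      exact hv
    have := (phi_mem_iff k N q ((Fr k N q).symm v) g).mp (h _ hv')
    rwa [Equiv.apply_symm_apply] at this
  · intro h v hv
    rw [phi_mem_iff]
    exact h _ ((mem_Fr_iff k N q hφx v).mpr hv)

/-- **the Frobenius pull-back of the chart ring** -/
def phiB : chart k x →+* chart k x :=
  (((phi k N q : ↥(modularFunctionFieldFullC k N) →ₐ[k] ↥(modularFunctionFieldFullC k N)) :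
      ↥(modularFunctionFieldFullC k N) →+* ↥(modularFunctionFieldFullC k N)).comp
    (algebraMap (chart k x) ↥(modularFunctionFieldFullC k N))).codRestrict (chart k x)
    (fun b => (phi_mem_chart_iff k N q hφx hx hsep (b : ↥(modularFunctionFieldFullC k N))).mpr b.2)

@[simp] theorem coe_phiB (b : chart k x) :
    ((phiB k N q hφx hx hsep b : chart k x) : ↥(modularFunctionFieldFullC k N)) =
      phi k N q (b : ↥(modularFunctionFieldFullC k N)) := rfl

theorem phiB_injective : Function.Injective (phiB k N q hφx hx hsep) := by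
  intro a b hab
  apply Subtype.ext
  apply phi_injective k N q
  rw [← coe_phiB k N q hφx hx hsep, ← coe_phiB k N q hφx hx hsep, hab]

theorem phiB_algebraMap (c : k) :
    phiB k N q hφx hx hsep (algebraMap k (chart k x) c) = algebraMap k (chart k x) c := by
  apply Subtype.ext
  rw [coe_phiB]
  exact phi_algebraMap k N q c

theorem phiB_xB : phiB k N q hφx hx hsep (xB k x) = xB k x ^ q := by
  apply Subtype.ext
  rw [coe_phiB]
  exact hφx

/-- **`BranchCore.Datum.φ_pow`**: every `q`-th power is in the image of `phiB` -/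
theorem phiB_pow (z : chart k x) : ∃ c : chart k x, phiB k N q hφx hx hsep c = z ^ q := by
  have h1 : phi k N q ((psi k N q).symm (z : ↥(modularFunctionFieldFullC k N))) =
      (z : ↥(modularFunctionFieldFullC k N)) ^ q := by
    rw [phi_eq_pow, RingEquiv.apply_symm_apply]
  have hmem : (psi k N q).symm (z : ↥(modularFunctionFieldFullC k N)) ∈ chart k x := by
    rw [← phi_mem_chart_iff k N q hφx hx hsep, h1]
    exact (z ^ q).2
  exact ⟨⟨_, hmem⟩, Subtype.ext h1⟩

/-- **`n_v.comap phiB = n_(Fr v)`** -/
theorem comap_phiB_pointOf (v : Place k ↥(modularFunctionFieldFullC k N))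
    (hv : x ∈ v.toValuationSubring) :
    (pointOf v hv).comap (phiB k N q hφx hx hsep) =
      pointOf (Fr k N q v) ((mem_Fr_iff k N q hφx v).mpr hv) := by
  ext b
  rw [Ideal.mem_comap, mem_pointOf_iff, mem_pointOf_iff, coe_phiB, ord_phi]
  have hq0 : (0 : ℤ) < q := by exact_mod_cast hq.out.pos
  refine or_congr ?_ ?_
  · exact map_eq_zero_iff _ (phiB_injective k N q hφx hx hsep)
  · constructor
    · intro h
      by_contra hneg
      rw [not_lt] at hneg
      nlinarith
    · intro h
      positivity

/-! ### the node set -/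

/-- the points of the chart at the places of `S` -/
def nodeSet (S : Set (Place k ↥(modularFunctionFieldFullC k N))) : Set (Ideal (chart k x)) :=
  {n | ∃ v ∈ S, ∃ hv : x ∈ v.toValuationSubring, n = pointOf v hv}

theorem nodeSet_finite {S : Set (Place k ↥(modularFunctionFieldFullC k N))} (hS : S.Finite) :
    (nodeSet k N (x := x) S).Finite := by
  classical
  refine (hS.image fun v => if hv : x ∈ v.toValuationSubring then pointOf v hv else ⊥).subset ?_
  rintro n ⟨v, hvS, hv, rfl⟩
  exact ⟨v, hvS, by simp [hv]⟩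

include hx hsep in
theorem pointOf_mem_nodeSet_iff (S : Set (Place k ↥(modularFunctionFieldFullC k N)))
    (v : Place k ↥(modularFunctionFieldFullC k N)) (hv : x ∈ v.toValuationSubring) :
    pointOf v hv ∈ nodeSet k N (x := x) S ↔ v ∈ S := by
  constructor
  · rintro ⟨v', hv'S, hv', h⟩
    rw [pointOf_injective hx hsep hv hv' h]
    exact hv'S
  · intro h
    exact ⟨v, h, hv, rfl⟩

/-- **`BranchCore.Datum.S_fr`** -/
theorem nodeSet_fr (S : Set (Place k ↥(modularFunctionFieldFullC k N)))
    (hS : ∀ v ∈ S, Fr k N q v ∈ S) :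
    ∀ n ∈ nodeSet k N (x := x) S, n.comap (phiB k N q hφx hx hsep) ∈ nodeSet k N (x := x) S := by
  rintro n ⟨v, hvS, hv, rfl⟩
  exact ⟨Fr k N q v, hS v hvS, (mem_Fr_iff k N q hφx v).mpr hv,
    comap_phiB_pointOf k N q hφx hx hsep v hv⟩

/-- **`BranchCore.Datum.fr_fr`** -/
theorem nodeSet_fr_fr (S : Set (Place k ↥(modularFunctionFieldFullC k N)))
    (hS : ∀ v ∈ S, Fr k N q (Fr k N q v) = v) :
    ∀ n ∈ nodeSet k N (x := x) S,
      (n.comap (phiB k N q hφx hx hsep)).comap (phiB k N q hφx hx hsep) = n := by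
  rintro n ⟨v, hvS, hv, rfl⟩
  rw [comap_phiB_pointOf, comap_phiB_pointOf]
  congr 1
  exact hS v hvS

/-! ### the hypotheses of `NodeField.node_iff` from values -/

/-- **(GLUE)**: `hglue` of `NodeField.node_iff` from the equality of the values of the two
reductions at the two branches of a node -/
theorem glue_of_values {A₁ : Type*} (red1 red2 : A₁ → chart k x)
    (S : Set (Place k ↥(modularFunctionFieldFullC k N)))
    (h : ∀ v ∈ S, x ∈ v.toValuationSubring → ∀ g : A₁, ∃ c : k,
      HasValue (Fr k N q v) ((red1 g : chart k x) : ↥(modularFunctionFieldFullC k N)) c ∧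
        HasValue v ((red2 g : chart k x) : ↥(modularFunctionFieldFullC k N)) c) :
    ∀ n ∈ nodeSet k N (x := x) S, ∀ g : A₁,
      red1 g ∈ n.comap (phiB k N q hφx hx hsep) ↔ red2 g ∈ n := by
  rintro n ⟨v, hvS, hv, rfl⟩ g
  obtain ⟨c, h1, h2⟩ := h v hvS hv g
  rw [comap_phiB_pointOf, mem_pointOf_iff_hasValue_zero, mem_pointOf_iff_hasValue_zero]
  constructor
  · intro h0
    rw [← h1.unique h0]
    exact h2
  · intro h0
    rw [← h2.unique h0]
    exact h1

include hx hsep in
/-- **(SEP)**: `hsep` of `NodeField.node_iff` from a separating function at every place off `S` -/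
theorem sep_of_values {A₁ : Type*} (red1 red2 : A₁ → chart k x)
    (S : Set (Place k ↥(modularFunctionFieldFullC k N)))
    (h : ∀ v : Place k ↥(modularFunctionFieldFullC k N), x ∈ v.toValuationSubring → v ∉ S →
      ∃ g : A₁,
        HasValue (Fr k N q v) ((red1 g : chart k x) : ↥(modularFunctionFieldFullC k N)) 0 ∧
          ¬ HasValue v ((red2 g : chart k x) : ↥(modularFunctionFieldFullC k N)) 0) :
    ∀ n : Ideal (chart k x), n.IsMaximal → n ∉ nodeSet k N (x := x) S →
      ∃ g : A₁, red1 g ∈ n.comap (phiB k N q hφx hx hsep) ∧ red2 g ∉ n := by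
  intro n hn hnS
  obtain ⟨v, hv, rfl⟩ := exists_place_of_isMaximal hx hsep n hn
  have hvS : v ∉ S := fun hvS => hnS ((pointOf_mem_nodeSet_iff k N hx hsep S v hv).mpr hvS)
  obtain ⟨g, h1, h2⟩ := h v hv hvS
  refine ⟨g, ?_, ?_⟩
  · rw [comap_phiB_pointOf, mem_pointOf_iff_hasValue_zero]
    exact h1
  · rw [mem_pointOf_iff_hasValue_zero]
    exact h2

include hx hsep in
/-- (SEP), the form of `NodesDesc.exists_pair_of_not_mem`: `red₁ g = 0`, `(red₂ g)(v) = c ≠ 0` -/
theorem sep_of_values' {A₁ : Type*} (red1 red2 : A₁ → chart k x)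
    (S : Set (Place k ↥(modularFunctionFieldFullC k N)))
    (h : ∀ v : Place k ↥(modularFunctionFieldFullC k N), x ∈ v.toValuationSubring → v ∉ S →
      ∃ (g : A₁) (c : k), c ≠ 0 ∧
        HasValue (Fr k N q v) ((red1 g : chart k x) : ↥(modularFunctionFieldFullC k N)) 0 ∧
          HasValue v ((red2 g : chart k x) : ↥(modularFunctionFieldFullC k N)) c) :
    ∀ n : Ideal (chart k x), n.IsMaximal → n ∉ nodeSet k N (x := x) S →
      ∃ g : A₁, red1 g ∈ n.comap (phiB k N q hφx hx hsep) ∧ red2 g ∉ n := by
  refine sep_of_values k N q hφx hx hsep red1 red2 S fun v hv hvS => ?_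
  obtain ⟨g, c, hc, h1, h2⟩ := h v hv hvS
  exact ⟨g, h1, fun h0 => hc (h2.unique h0)⟩

end X0

end Fermat.Agent.S36.SpecDictOne
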