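/-
PROJECT V (S36), slice V-SpecDictLocal (helper14), companion of `S36/SpecDictOne`: **the local
ring of the chart at a point is the valuation ring of the place.**

`K` any field, `F/K` a function field with separating element `x`, `B = ChartRing.chart K x`,
`v : Place K F` finite at `x`, `n_v = SpecDictOne.pointOf v hv`.

* `mem_pointOf_iff_inv`, `not_mem_pointOf_iff_inv` : the CENTRE CONDITIONS in the shape of
  `B0Thick.Hyp.Res` / `CountBound` (`b ∈ n_v ↔ b = 0 ∨ b⁻¹ ∉ O_v`, `b ∉ n_v ↔ b ≠ 0 ∧ b⁻¹ ∈ O_v`);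
* `isUnit_incl_iff` : `incl b` is a unit of `O_v` iff `b ∉ n_v`;
* `isLocalization_atPrime` : `O_v` (as a `B`-algebra through `incl`) IS the localisation of `B`
  at `n_v`;
* uniformisers: for `π : F` with `ord_v π = 1`: `mem_of_ord_eq_one`, `dvd_of_not_isUnit`
  (every non-unit of `O_v` is a multiple of `π`: the hypothesis `hD` of
  `TripleFibre.eisensteinFibre_of_red`), `not_isUnit_of_ord_eq_one`, `maximalIdeal_eq_span`,
  `irreducible_of_ord_eq_one`; `dvd_iff_le_ord`;
* `exists_ord_eq_one` : a local parameter exists IN `B` (`∃ b : B, ord_v b = 1`);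
* `pointOf_map_eq` : `n_v O_v = m_v`.
-/
import Mathlib
import Fermat.Agent.S36.SpecDictOne

set_option autoImplicit false
set_option linter.unusedSectionVars false
set_option linter.style.haveILetI false
set_option linter.unusedVariables false

noncomputable section

namespace Fermat.Agent.S36.SpecDictLocal

open AlgebraicCurve IsDedekindDomain IntermediateField
open Fermat.Agent.S24.FF Fermat.Agent.S24.PlacePrime
open Fermat.Agent.S36.ChartRing (chart)
open Fermat.Agent.S36.SpecDictOne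
open scoped IntermediateField.algebraAdjoinAdjoin

universe u w

variable {K : Type w} {F : Type u} [Field K] [Field F] [Algebra K F] {x : F}

/-! ### centre conditions -/

theorem inv_mem_iff (v : Place K F) {f : F} (hf : f ≠ 0) :
    f⁻¹ ∈ v.toValuationSubring ↔ 1 ≤ v.adicValuation f := by
  rw [Fermat.Agent.S24.Ord.mem_iff, map_inv₀]
  exact inv_le_one₀ (zero_lt_iff.mpr (v.adicValuation_ne_zero hf))

/-- `b ∈ n_v ↔ b = 0 ∨ b⁻¹ ∉ O_v` -/
theorem mem_pointOf_iff_inv (v : Place K F) (hv : x ∈ v.toValuationSubring) (b : chart K x) :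
    b ∈ pointOf v hv ↔ (b : F) = 0 ∨ (b : F)⁻¹ ∉ v.toValuationSubring := by
  rw [mem_pointOf_iff_val]
  rcases eq_or_ne (b : F) 0 with h0 | h0
  · simp [h0]
  · rw [inv_mem_iff v h0, not_le]
    simp [h0]

/-- `b ∉ n_v ↔ b ≠ 0 ∧ b⁻¹ ∈ O_v` -/
theorem not_mem_pointOf_iff_inv (v : Place K F) (hv : x ∈ v.toValuationSubring) (b : chart K x) :
    b ∉ pointOf v hv ↔ (b : F) ≠ 0 ∧ (b : F)⁻¹ ∈ v.toValuationSubring := by
  rw [mem_pointOf_iff_inv, not_or, not_not]

/-- `incl b` is a unit of `O_v` iff `b ∉ n_v` -/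
theorem isUnit_incl_iff (v : Place K F) (hv : x ∈ v.toValuationSubring) (b : chart K x) :
    IsUnit (incl v hv b) ↔ b ∉ pointOf v hv := by
  rw [pointOf, Ideal.mem_comap, IsLocalRing.mem_maximalIdeal, mem_nonunits_iff, not_not]

/-! ### `O_v = B_(n_v)` -/

/-- **`O_v` is the localisation of `B` at `n_v`.** -/
theorem isLocalization_atPrime (hx : IsFF K x) (hsep : Algebra.IsSeparable K⟮x⟯ F)
    (v : Place K F) (hv : x ∈ v.toValuationSubring) :
    letI := (incl v hv).toAlgebra
    IsLocalization.AtPrime v.toValuationSubring (pointOf v hv) := by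
  letI := (incl v hv).toAlgebra
  have halg : ∀ b : chart K x, algebraMap (chart K x) v.toValuationSubring b = incl v hv b :=
    fun _ => rfl
  refine (isLocalization_iff _ _).mpr ⟨?_, ?_, ?_⟩
  · rintro ⟨s, hs⟩
    rw [halg]
    exact (isUnit_incl_iff v hv s).mpr hs
  · intro f
    obtain ⟨b, s, hs, hfs⟩ := exists_mul_eq_of_mem hx hsep v hv f.2
    exact ⟨(b, ⟨s, hs⟩), Subtype.ext hfs⟩
  · intro a b hab
    refine ⟨1, ?_⟩
    have h1 : ((incl v hv a : v.toValuationSubring) : F) = (incl v hv b : v.toValuationSubring) := by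
      rw [← halg, ← halg, hab]
    have : a = b := Subtype.ext h1
    rw [this]

/-! ### uniformisers -/

theorem ne_zero_of_ord_eq_one (v : Place K F) {π : F} (hπ : v.ord π = 1) : π ≠ 0 := by
  rintro rfl
  rw [Place.ord_zero] at hπ
  exact zero_ne_one hπ

theorem mem_of_ord_nonneg (v : Place K F) {f : F} (hf : 0 ≤ v.ord f) :
    f ∈ v.toValuationSubring := by
  rcases eq_or_ne f 0 with rfl | h0
  · exact zero_mem _
  · exact (Fermat.Agent.S24.Ord.mem_iff v f).mpr
      ((Fermat.Agent.S24.Ord.ord_nonneg_iff v h0).mp hf)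

theorem mem_of_ord_eq_one (v : Place K F) {π : F} (hπ : v.ord π = 1) :
    π ∈ v.toValuationSubring :=
  mem_of_ord_nonneg v (by rw [hπ]; exact zero_le_one)

theorem not_isUnit_iff_ord_pos (v : Place K F) (d : v.toValuationSubring) (hd : d ≠ 0) :
    ¬ IsUnit d ↔ 0 < v.ord (d : F) := by
  have hdF : (d : F) ≠ 0 := fun h => hd (Subtype.ext h)
  rw [Fermat.Agent.S24.Ord.ord_pos_iff v hdF, ← Fermat.Agent.S24.Ord.mem_maximalIdeal_iff,
    IsLocalRing.mem_maximalIdeal, mem_nonunits_iff]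

/-- `π ∣ d` in `O_v` iff `ord_v π ≤ ord_v d` -/
theorem dvd_iff_le_ord (v : Place K F) {p d : v.toValuationSubring} (hp : p ≠ 0) (hd : d ≠ 0) :
    p ∣ d ↔ v.ord (p : F) ≤ v.ord (d : F) := by
  have hpF : (p : F) ≠ 0 := fun h => hp (Subtype.ext h)
  have hdF : (d : F) ≠ 0 := fun h => hd (Subtype.ext h)
  constructor
  · rintro ⟨c, rfl⟩
    have hc : c ≠ 0 := fun h => hd (by rw [h, mul_zero])
    have hcF : (c : F) ≠ 0 := fun h => hc (Subtype.ext h)
    have h1 : 0 ≤ v.ord (c : F) :=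
      (Fermat.Agent.S24.Ord.ord_nonneg_iff v hcF).mpr ((Fermat.Agent.S24.Ord.mem_iff v _).mp c.2)
    have : ((p * c : v.toValuationSubring) : F) = (p : F) * (c : F) := rfl
    rw [this, Place.ord_mul v hpF hcF]
    linarith
  · intro h
    have h1 : 0 ≤ v.ord ((d : F) * (p : F)⁻¹) := by
      rw [Place.ord_mul v hdF (inv_ne_zero hpF), Place.ord_inv]
      linarith
    refine ⟨⟨(d : F) * (p : F)⁻¹, mem_of_ord_nonneg v h1⟩, Subtype.ext ?_⟩
    show (d : F) = (p : F) * ((d : F) * (p : F)⁻¹)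
    field_simp

/-- **every non-unit of `O_v` is a multiple of a local parameter** (`hD` of
`TripleFibre.eisensteinFibre_of_red`) -/
theorem dvd_of_not_isUnit (v : Place K F) {π : F} (hπ : v.ord π = 1)
    (d : v.toValuationSubring) (hd : ¬ IsUnit d) :
    (⟨π, mem_of_ord_eq_one v hπ⟩ : v.toValuationSubring) ∣ d := by
  rcases eq_or_ne d 0 with rfl | h0
  · exact dvd_zero _
  · have hπ0 : (⟨π, mem_of_ord_eq_one v hπ⟩ : v.toValuationSubring) ≠ 0 := fun h =>
      ne_zero_of_ord_eq_one v hπ (congrArg Subtype.val h)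
    rw [dvd_iff_le_ord v hπ0 h0]
    show v.ord π ≤ v.ord (d : F)
    rw [hπ]
    exact (not_isUnit_iff_ord_pos v d h0).mp hd

theorem not_isUnit_of_ord_eq_one (v : Place K F) {π : F} (hπ : v.ord π = 1) :
    ¬ IsUnit (⟨π, mem_of_ord_eq_one v hπ⟩ : v.toValuationSubring) := by
  have hπ0 : (⟨π, mem_of_ord_eq_one v hπ⟩ : v.toValuationSubring) ≠ 0 := fun h =>
    ne_zero_of_ord_eq_one v hπ (congrArg Subtype.val h)
  rw [not_isUnit_iff_ord_pos v _ hπ0]
  show 0 < v.ord π
  rw [hπ]
  exact zero_lt_one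

/-- `m_v = (π)` -/
theorem maximalIdeal_eq_span (v : Place K F) {π : F} (hπ : v.ord π = 1) :
    IsLocalRing.maximalIdeal v.toValuationSubring =
      Ideal.span {(⟨π, mem_of_ord_eq_one v hπ⟩ : v.toValuationSubring)} := by
  apply le_antisymm
  · intro d hd
    rw [IsLocalRing.mem_maximalIdeal, mem_nonunits_iff] at hd
    exact Ideal.mem_span_singleton.mpr (dvd_of_not_isUnit v hπ d hd)
  · rw [Ideal.span_singleton_le_iff_mem, IsLocalRing.mem_maximalIdeal, mem_nonunits_iff]
    exact not_isUnit_of_ord_eq_one v hπ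

theorem irreducible_of_ord_eq_one (v : Place K F) {π : F} (hπ : v.ord π = 1) :
    Irreducible (⟨π, mem_of_ord_eq_one v hπ⟩ : v.toValuationSubring) := by
  rw [IsDiscreteValuationRing.irreducible_iff_uniformizer]
  exact maximalIdeal_eq_span v hπ

/-- a local parameter exists in the chart ring -/
theorem exists_ord_eq_one (hx : IsFF K x) (hsep : Algebra.IsSeparable K⟮x⟯ F)
    (v : Place K F) (hv : x ∈ v.toValuationSubring) :
    ∃ b : chart K x, v.ord (b : F) = 1 := by
  obtain ⟨ϖ, hϖ⟩ := IsDiscreteValuationRing.exists_irreducible v.toValuationSubring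
  obtain ⟨b, s, hs, hfs⟩ := exists_mul_eq_of_mem hx hsep v hv ϖ.2
  have hϖ1 : v.ord (ϖ : F) = 1 := Place.ord_coe_irreducible v hϖ
  have hϖ0 : (ϖ : F) ≠ 0 := ne_zero_of_ord_eq_one v hϖ1
  have hs0 : (s : F) ≠ 0 := ((not_mem_pointOf_iff_inv v hv s).mp hs).1
  have hsord : v.ord (s : F) = 0 := by
    have h1 : 0 ≤ v.ord (s : F) :=
      (Fermat.Agent.S24.Ord.ord_nonneg_iff v hs0).mpr
        ((Fermat.Agent.S24.Ord.mem_iff v _).mp (coe_mem v hv s))
    have h2 : 0 ≤ v.ord (s : F)⁻¹ :=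
      (Fermat.Agent.S24.Ord.ord_nonneg_iff v (inv_ne_zero hs0)).mpr
        ((Fermat.Agent.S24.Ord.mem_iff v _).mp ((not_mem_pointOf_iff_inv v hv s).mp hs).2)
    rw [Place.ord_inv] at h2
    linarith
  refine ⟨b, ?_⟩
  rw [← hfs, Place.ord_mul v hϖ0 hs0, hϖ1, hsord, add_zero]

/-- `n_v O_v = m_v` -/
theorem pointOf_map_eq (hx : IsFF K x) (hsep : Algebra.IsSeparable K⟮x⟯ F)
    (v : Place K F) (hv : x ∈ v.toValuationSubring) :
    (pointOf v hv).map (incl v hv) = IsLocalRing.maximalIdeal v.toValuationSubring := by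
  apply le_antisymm
  · rw [Ideal.map_le_iff_le_comap]
    exact le_rfl
  · obtain ⟨b, hb⟩ := exists_ord_eq_one hx hsep v hv
    rw [maximalIdeal_eq_span v hb, Ideal.span_singleton_le_iff_mem]
    have hbn : b ∈ pointOf v hv := by
      rw [mem_pointOf_iff]
      right
      rw [hb]
      exact zero_lt_one
    exact Ideal.mem_map_of_mem (incl v hv) hbn

end Fermat.Agent.S36.SpecDictLocal
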