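/-
S36 (project V), slice V-BranchLinksX0 (helper16), chain (V9) → (V17): THE LINK FACTS `hdict`,
`hconv`, `hne` of `BranchPt.pt_of_tdatum` / `LeafT0.t0_fields` for a VARIABLE
`D : BranchCoreT.TDatum A₁ 𝒜 ℬ` in the (P-subring) convention (`ℬ : Subring κ` any presentation of
the coordinate ring of the component curve), hypotheses-first.

The only thing asked of `D` is the ELEMENTWISE description of its node set `D.S`:

  `IsPointAt ℬ n b : ∀ z : ℬ, z ∈ n ↔ b.adicValuation z < 1`   ("`n` is the point of `ℬ` at the place `b`")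

which is `SpecDictOne.mem_pointOf_iff_val` for `n = pointOf b hb`, whatever transport was used to
type `D.S` (`isPointAt_pointOf`, `exists_isPointAt_of_mem_nodeSet`).

* abstract: `IsPointAt.eq` (uniqueness), `IsPointAt.mem_iff_hasValue`, `IsPointAt.mem_iff_val`
  (`z ∈ n ↔ z(b) = 0` for the evaluation system `GlueLevelQ.valSystemPlace`),
  `IsPointAt.isMaximal` (over an algebraically closed constant field, `ℬ` containing the constants
  and contained in `O_b`), `pointAt` / `isPointAt_pointAt` (existence);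
* `hdict_of_isPointAt` : `(∀ n ∈ D.S, ∃ b ∈ X.S, IsPointAt ℬ n b)` ⟹ the literal `hdict`;
* `hconv_of_isPointAt` : `(∀ b ∈ X.S, ∃ n ∈ D.S, IsPointAt ℬ n b)` ⟹ the literal `hconv`;
* `hne_of_hconv` : `X.S.Nonempty` ⟹ the literal `hne`;
* at `X = LeafXInst.datumY` : `datumY_E` (`rfl`), `datumY_S_nonempty` (THE SPECIAL FIBRE HAS A NODE:
  exact Euler identity + `2 g(M) ≤ g(M q)`), `jk_mem_of_mem_datumY_S` (the nodes are finite at
  `J̄`, i.e. they are points of the fin chart `chart k J̄`), and the three link facts in one call: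
  `links_fin_datumY`.
-/
import Mathlib
import Fermat.Agent.S36.SpecDictOne
import Fermat.Agent.S36.BranchPt
import Fermat.Agent.S36.ValPlace
import Fermat.Agent.S36.LeafXInst
import Fermat.Agent.S36.EulerExact.Desc
import Fermat.Agent.S34.NodalCoreX0
import Fermat.Agent.S36.SpecDictLocal

set_option autoImplicit false
set_option linter.unusedSectionVars false
set_option linter.style.haveILetI false
set_option linter.unusedVariables false
set_option synthInstance.maxHeartbeats 400000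

noncomputable section

namespace Fermat.Agent.S36.BranchLinksX0

open AlgebraicCurve
open Fermat.Agent.S24.FF
open Fermat.Agent.S36.ChartRing (chart)
open Fermat.Agent.S36.GlueNorm Fermat.Agent.S36.GlueLevelQ
open Fermat.Agent.S36.BranchCoreT Fermat.Agent.S36.BranchPt

universe u w

/-! ### the point of a ring of functions at a place, elementwise -/

section Abstract

variable {K : Type w} {F : Type u} [Field K] [Field F] [Algebra K F]

/-- `n` is the point of the ring `ℬ ≤ F` at the place `v`: `n = m_v ∩ ℬ`, elementwise -/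
def IsPointAt (ℬ : Subring F) (n : Ideal ↥ℬ) (v : Place K F) : Prop :=
  ∀ z : ↥ℬ, z ∈ n ↔ v.adicValuation (z : F) < 1

namespace IsPointAt

variable {ℬ : Subring F} {n n' : Ideal ↥ℬ} {v : Place K F}

/-- the point at a place is unique -/
theorem eq (h : IsPointAt ℬ n v) (h' : IsPointAt ℬ n' v) : n = n' := by
  ext z
  rw [h z, h' z]

/-- `z ∈ n ↔ z(v) = 0` (`S34.Euler.Value.HasValue`) -/
theorem mem_iff_hasValue (h : IsPointAt ℬ n v) (z : ↥ℬ) :
    z ∈ n ↔ Fermat.Agent.S34.Euler.Value.HasValue v (z : F) 0 := by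
  rw [h z, Fermat.Agent.S34.Euler.Value.hasValue_zero_iff]

/-- `z ∈ n ↔ z(v) = 0` for the evaluation system of the assembly -/
theorem mem_iff_val (h : IsPointAt ℬ n v) (z : ↥ℬ) :
    z ∈ n ↔ (valSystemPlace K F).val v (z : F) 0 := by
  rw [Fermat.Agent.S36.ValPlace.val_iff, h.mem_iff_hasValue]

theorem one_notMem (h : IsPointAt ℬ n v) : (1 : ↥ℬ) ∉ n := by
  intro h1
  rw [h 1, Subring.coe_one, map_one] at h1
  exact lt_irrefl _ h1

theorem ne_top (h : IsPointAt ℬ n v) : n ≠ ⊤ := fun htop =>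
  h.one_notMem (htop ▸ Submodule.mem_top)

/-- over an algebraically closed constant field the point at a place is a maximal ideal (`ℬ`
contains the constants and lies in `O_v`) -/
theorem isMaximal [IsAlgClosed K] {x : F} (hx : IsFF K x) (h : IsPointAt ℬ n v)
    (hconst : ∀ c : K, algebraMap K F c ∈ ℬ)
    (hle : ∀ z ∈ ℬ, z ∈ v.toValuationSubring) : n.IsMaximal := by
  rw [Ideal.isMaximal_iff]
  refine ⟨h.one_notMem, fun J a hnJ ha haJ => ?_⟩
  obtain ⟨c, hc⟩ := Fermat.Agent.S24.Ord.exists_sub_lt_one hx v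
    ((Fermat.Agent.S24.Ord.mem_iff v _).mp (hle a a.2))
  have hc0 : c ≠ 0 := by
    rintro rfl
    apply ha
    rw [h a]
    rwa [map_zero, sub_zero] at hc
  have hmem : a - ⟨algebraMap K F c, hconst c⟩ ∈ n := by
    rw [h]
    exact hc
  have hcJ : (⟨algebraMap K F c, hconst c⟩ : ↥ℬ) ∈ J := by
    have h1 := J.sub_mem haJ (hnJ hmem)
    rwa [sub_sub_cancel] at h1
  have h1 : (1 : ↥ℬ) = ⟨algebraMap K F c⁻¹, hconst c⁻¹⟩ * ⟨algebraMap K F c, hconst c⟩ := by
    apply Subtype.ext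
    rw [Subring.coe_one, Subring.coe_mul, ← map_mul, inv_mul_cancel₀ hc0, map_one]
  rw [h1]
  exact J.mul_mem_left _ hcJ

end IsPointAt

/-- **the point of `ℬ` at the place `v`** (`ℬ ≤ O_v`) -/
def pointAt (ℬ : Subring F) (v : Place K F) (hle : ∀ z ∈ ℬ, z ∈ v.toValuationSubring) :
    Ideal ↥ℬ :=
  (IsLocalRing.maximalIdeal v.toValuationSubring).comap
    (Subring.inclusion (show ℬ ≤ v.toValuationSubring.toSubring from hle))

theorem isPointAt_pointAt (ℬ : Subring F) (v : Place K F)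
    (hle : ∀ z ∈ ℬ, z ∈ v.toValuationSubring) : IsPointAt ℬ (pointAt ℬ v hle) v := by
  intro z
  rw [pointAt, Ideal.mem_comap, Fermat.Agent.S24.Ord.mem_maximalIdeal_iff]
  rfl

/-- the chart ring lies in `O_v` for every place finite at `x` (P-subring form) -/
theorem le_of_eq_chart {x : F} {ℬ : Subring F} (hℬ : ℬ = (chart K x).toSubring) (v : Place K F)
    (hv : x ∈ v.toValuationSubring) : ∀ z ∈ ℬ, z ∈ v.toValuationSubring := by
  subst hℬ
  intro z hz
  exact Fermat.Agent.S36.SpecDictOne.coe_mem v hv ⟨z, hz⟩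

/-- the constants lie in the chart ring (P-subring form) -/
theorem const_mem_of_eq_chart {x : F} {ℬ : Subring F} (hℬ : ℬ = (chart K x).toSubring) (c : K) :
    algebraMap K F c ∈ ℬ := by
  subst hℬ
  have h := (algebraMap K (chart K x) c).2
  rwa [Fermat.Agent.S36.SpecDictOne.coe_algebraMap] at h

/-- `SpecDictOne.pointOf` is the point at the place (subalgebra-as-type presentation) -/
theorem isPointAt_pointOf {x : F} (v : Place K F) (hv : x ∈ v.toValuationSubring) :
    IsPointAt (chart K x).toSubring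
      (Fermat.Agent.S36.SpecDictOne.pointOf v hv : Ideal (chart K x)) v :=
  fun z => Fermat.Agent.S36.SpecDictOne.mem_pointOf_iff_val v hv z

end Abstract

/-! ### the link facts -/

section Links

variable {k : Type w} {κ : Type u} [Field k] [Field κ] [Algebra k κ]
  {F' F : Type*} [Field F'] [Field F] {A₁ : Type*} [CommRing A₁]

/-- **`hdict`** of `BranchPt.pt_of_tdatum` / `LeafT0.t0_fields`, literal shape -/
theorem hdict_of_isPointAt (X : Datum k κ F' F (Place k κ)) (hXE : X.E = valSystemPlace k κ)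
    {𝒜 : Subring F} (ℬ : Subring κ) (D : TDatum A₁ ↥𝒜 ↥ℬ)
    (hDS : ∀ n : Ideal ↥ℬ, n.IsMaximal → n ∈ D.S → ∃ b ∈ X.S, IsPointAt ℬ n b) :
    ∀ n : Ideal ↥ℬ, n.IsMaximal → n ∈ D.S →
      ∃ b ∈ X.S, ∀ z : ↥ℬ, z ∈ n ↔ X.E.val b (z : κ) 0 := by
  intro n hn hnS
  obtain ⟨b, hb, hp⟩ := hDS n hn hnS
  refine ⟨b, hb, fun z => ?_⟩
  rw [hXE]
  exact hp.mem_iff_val z

/-- **`hconv`** of `LeafT0.t0_fields`, literal shape -/
theorem hconv_of_isPointAt [IsAlgClosed k] {x : κ} (hx : IsFF k x)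
    (X : Datum k κ F' F (Place k κ)) (hXE : X.E = valSystemPlace k κ)
    {𝒜 : Subring F} (ℬ : Subring κ) (D : TDatum A₁ ↥𝒜 ↥ℬ)
    (hconst : ∀ c : k, algebraMap k κ c ∈ ℬ)
    (hle : ∀ b ∈ X.S, ∀ z ∈ ℬ, z ∈ b.toValuationSubring)
    (hSD : ∀ b ∈ X.S, ∃ n : Ideal ↥ℬ, n ∈ D.S ∧ IsPointAt ℬ n b) :
    ∀ b ∈ X.S, ∃ n : Ideal ↥ℬ, n.IsMaximal ∧ n ∈ D.S ∧
      ∀ z : ↥ℬ, z ∈ n ↔ X.E.val b (z : κ) 0 := by
  intro b hb
  obtain ⟨n, hnS, hp⟩ := hSD b hb
  refine ⟨n, hp.isMaximal hx hconst (hle b hb), hnS, fun z => ?_⟩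
  rw [hXE]
  exact hp.mem_iff_val z

/-- **`hne`** of `LeafT0.t0_fields`, literal shape -/
theorem hne_of_hconv (X : Datum k κ F' F (Place k κ))
    {𝒜 : Subring F} (ℬ : Subring κ) (D : TDatum A₁ ↥𝒜 ↥ℬ) (hne : X.S.Nonempty)
    (hconv : ∀ b ∈ X.S, ∃ n : Ideal ↥ℬ, n.IsMaximal ∧ n ∈ D.S ∧
      ∀ z : ↥ℬ, z ∈ n ↔ X.E.val b (z : κ) 0) :
    ∃ n : Ideal ↥ℬ, n.IsMaximal ∧ n ∈ D.S := by
  obtain ⟨b, hb⟩ := hne
  obtain ⟨n, hn, hnS, -⟩ := hconv b hb
  exact ⟨n, hn, hnS⟩

end Links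

/-! ### `SpecDictOne.nodeSet` in the elementwise language -/

section NodeSet

open Fermat.Agent.S36.SpecDictOne

variable (k : Type w) [Field k] (N : ℕ) [NeZero N]
  {x : ↥(ModularCurve.modularFunctionFieldFullC k N)}

/-- the points of `SpecDictOne.nodeSet S₀` are the points at the places of `S₀` -/
theorem exists_isPointAt_of_mem_nodeSet
    {S₀ : Set (Place k ↥(ModularCurve.modularFunctionFieldFullC k N))}
    {n : Ideal (chart k x)} (hn : n ∈ nodeSet k N (x := x) S₀) :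
    ∃ b ∈ S₀, x ∈ b.toValuationSubring ∧ IsPointAt (chart k x).toSubring n b := by
  obtain ⟨v, hvS, hv, rfl⟩ := hn
  exact ⟨v, hvS, hv, isPointAt_pointOf v hv⟩

/-- the point at a place of `S₀` finite at `x` lies in `SpecDictOne.nodeSet S₀` -/
theorem mem_nodeSet_of_isPointAt
    {S₀ : Set (Place k ↥(ModularCurve.modularFunctionFieldFullC k N))}
    {n : Ideal (chart k x)} {b : Place k ↥(ModularCurve.modularFunctionFieldFullC k N)}
    (hb : b ∈ S₀) (hv : x ∈ b.toValuationSubring)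
    (hn : IsPointAt (chart k x).toSubring n b) : n ∈ nodeSet k N (x := x) S₀ :=
  ⟨b, hb, hv, hn.eq (isPointAt_pointOf b hv)⟩

/-- `n ∈ nodeSet S₀ ↔ n` is the point at a place of `S₀` (all places of `S₀` finite at `x`) -/
theorem mem_nodeSet_iff
    {S₀ : Set (Place k ↥(ModularCurve.modularFunctionFieldFullC k N))}
    (hS₀ : ∀ b ∈ S₀, x ∈ b.toValuationSubring) (n : Ideal (chart k x)) :
    n ∈ nodeSet k N (x := x) S₀ ↔ ∃ b ∈ S₀, IsPointAt (chart k x).toSubring n b :=
  ⟨fun h => by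
      obtain ⟨b, hb, -, hp⟩ := exists_isPointAt_of_mem_nodeSet k N h
      exact ⟨b, hb, hp⟩,
    fun ⟨b, hb, hp⟩ => mem_nodeSet_of_isPointAt k N hb (hS₀ b hb) hp⟩

end NodeSet

/-! ### the node set of a (P-subring) presentation, Frobenius -/

section PointSet

open Fermat.Agent.S34.FrobK

variable {k : Type w} [Field k] {N : ℕ} [NeZero N]
variable {q : ℕ} [hq : Fact q.Prime] [CharP k q] [PerfectField k]

/-- **the node set of a (P-subring) presentation** `ℬ` of a coordinate ring: the points of `ℬ` at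
the places of `S₀` (candidate for the field `S` of `BranchCoreT.PDatum`; no transport needed) -/
def pointSet {κ : Type u} [Field κ] [Algebra k κ] (ℬ : Subring κ) (S₀ : Set (Place k κ)) :
    Set (Ideal ↥ℬ) :=
  {n | ∃ b ∈ S₀, IsPointAt ℬ n b}

theorem mem_pointSet {κ : Type u} [Field κ] [Algebra k κ] {ℬ : Subring κ} {S₀ : Set (Place k κ)}
    {n : Ideal ↥ℬ} : n ∈ pointSet ℬ S₀ ↔ ∃ b ∈ S₀, IsPointAt ℬ n b := Iff.rfl

/-- **`n_b.comap φ = n_(Fr b)`** for any ring endomorphism `φ` of `ℬ` inducing the Frobenius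
pull-back `phi` -/
theorem IsPointAt.comap_phi {ℬ : Subring ↥(ModularCurve.modularFunctionFieldFullC k N)}
    {n : Ideal ↥ℬ} {b : Place k ↥(ModularCurve.modularFunctionFieldFullC k N)}
    (h : IsPointAt ℬ n b) (φ : ↥ℬ →+* ↥ℬ)
    (hφ : ∀ z : ↥ℬ, ((φ z : ↥ℬ) : ↥(ModularCurve.modularFunctionFieldFullC k N)) =
      phi k N q (z : ↥(ModularCurve.modularFunctionFieldFullC k N))) :
    IsPointAt ℬ (n.comap φ) (Fr k N q b) := by
  intro z
  rw [Ideal.mem_comap, h (φ z), hφ z]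
  rcases eq_or_ne (z : ↥(ModularCurve.modularFunctionFieldFullC k N)) 0 with h0 | h0
  · rw [h0, map_zero, map_zero, map_zero]
  · rw [← Fermat.Agent.S24.Ord.ord_pos_iff b (phi_ne_zero k N q h0),
      ← Fermat.Agent.S24.Ord.ord_pos_iff (Fr k N q b) h0, ord_phi]
    have hq0 : (0 : ℤ) < q := by exact_mod_cast hq.out.pos
    constructor
    · intro h1
      by_contra hneg
      rw [not_lt] at hneg
      nlinarith
    · intro h1
      positivity

/-- **`PDatum.S_fr`** for `S = pointSet ℬ S₀` -/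
theorem pointSet_fr {ℬ : Subring ↥(ModularCurve.modularFunctionFieldFullC k N)}
    (φ : ↥ℬ →+* ↥ℬ)
    (hφ : ∀ z : ↥ℬ, ((φ z : ↥ℬ) : ↥(ModularCurve.modularFunctionFieldFullC k N)) =
      phi k N q (z : ↥(ModularCurve.modularFunctionFieldFullC k N)))
    (S₀ : Set (Place k ↥(ModularCurve.modularFunctionFieldFullC k N)))
    (hS : ∀ v ∈ S₀, Fr k N q v ∈ S₀) :
    ∀ n ∈ pointSet ℬ S₀, n.comap φ ∈ pointSet ℬ S₀ := by
  rintro n ⟨b, hb, hp⟩
  exact ⟨Fr k N q b, hS b hb, hp.comap_phi φ hφ⟩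

/-- **`PDatum.fr_fr`** for `S = pointSet ℬ S₀` -/
theorem pointSet_fr_fr {ℬ : Subring ↥(ModularCurve.modularFunctionFieldFullC k N)}
    (φ : ↥ℬ →+* ↥ℬ)
    (hφ : ∀ z : ↥ℬ, ((φ z : ↥ℬ) : ↥(ModularCurve.modularFunctionFieldFullC k N)) =
      phi k N q (z : ↥(ModularCurve.modularFunctionFieldFullC k N)))
    (S₀ : Set (Place k ↥(ModularCurve.modularFunctionFieldFullC k N)))
    (hS : ∀ v ∈ S₀, Fr k N q (Fr k N q v) = v) :
    ∀ n ∈ pointSet ℬ S₀, (n.comap φ).comap φ = n := by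
  rintro n ⟨b, hb, hp⟩
  have h2 := (hp.comap_phi φ hφ).comap_phi φ hφ
  rw [hS b hb] at h2
  exact h2.eq hp

end PointSet

/-! ### at `X = LeafXInst.datumY` -/

section X0

open ModularCurve IsLocalRing
open Fermat.Agent.S18.NonSpecial
open Fermat.Agent.S18.B.FkBasics (jk)
open Fermat.Agent.S36.LeafX Fermat.Agent.S36.LeafXInst
open Fermat.Agent.S36.ChartX0

local notation "Kb" => AlgebraicClosure ℚ

attribute [local instance 2000] Fermat.Agent.S34.EulerX0.algResFk

/-- shortcut instances (all propositions) -/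
local instance instACkBL (A : ValuationSubring Kb) : IsAlgClosed (ResidueField ↥A) :=
  Fermat.Agent.S18.ResidueBasics.isAlgClosed_residueField A

local instance instNeZeroMulBL (M q : ℕ) [NeZero M] [NeZero q] : NeZero (M * q) :=
  ⟨Nat.mul_ne_zero (NeZero.ne M) (NeZero.ne q)⟩

variable {q : ℕ} [hq : Fact q.Prime] {M : ℕ} [NeZero M] {A : ValuationSubring Kb} [NeZero q]
variable [CharP (ResidueField ↥A) q]
variable {gM : ℕ} (hA : A.LiesOverPrime q) (hqM : ¬ q ∣ M)
variable (HM : RiemannHyp (ResidueField ↥A) ↥(modularFunctionFieldFullC (ResidueField ↥A) M) gM)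

/-- the evaluation system of `datumY` is the system of the places of `κ_M` -/
theorem datumY_E : (datumY hA hqM HM).E =
    valSystemPlace (ResidueField ↥A) ↥(modularFunctionFieldFullC (ResidueField ↥A) M) := rfl

/-- **the special fibre has a node**: `(datumY ..).S` is nonempty (exact Euler identity
`g(M q) + 1 = 2 g(M) + #S` and `2 g(M) ≤ g(M q)`) -/
theorem datumY_S_nonempty : (datumY hA hqM HM).S.Nonempty := by
  obtain ⟨g, HL⟩ := Fermat.Agent.S18.A.RiemannFk.exists_riemannHyp_FL (M * q)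
  have hid := Fermat.Agent.S36.EulerExact.Desc.card_eq_of_desc_nat hA hqM HM HL
    (nodesD_off_cusps hA hqM HM) (nodesD_desc hA hqM HM)
  have h1 := Fermat.Agent.S34.NodesNonempty.one_le_of_genus_identity hq.out hqM
    (Fermat.Agent.S34.NodalCoreX0.riemannHyp_bar_of_riemannHyp_k hA hqM HM) HL hid
  obtain ⟨b, hb⟩ := Finset.card_pos.mp h1
  exact ⟨b, hb⟩

/-- the nodes are finite at `J̄`: they are points of the fin chart `chart k J̄` -/
theorem jk_mem_of_mem_datumY_S
    {b : Place (ResidueField ↥A) ↥(modularFunctionFieldFullC (ResidueField ↥A) M)}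
    (hb : b ∈ (datumY hA hqM HM).S) : jk (ResidueField ↥A) M ∈ b.toValuationSubring :=
  Fermat.Agent.S36.SpecDictLocal.mem_of_ord_nonneg b
    ((Fermat.Agent.S36.EulerExact.Desc.not_mem_P0_iff_ord_nonneg b).mp
      (datumY_off_cusps hA hqM HM b hb))

variable {A₁ : Type*} [CommRing A₁]

/-- **the three link facts `hdict`, `hconv`, `hne` on the FIN chart at `X = datumY`**, literal
shapes of `LeafT0.t0_fields`, for a variable `TDatum` in the (P-subring) convention whose node set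
is the set of the points at the places of `(datumY ..).S`. -/
theorem links_fin_datumY {𝒜 : Subring (FK0 A (M * q * q))}
    {ℬ : Subring ↥(modularFunctionFieldFullC (ResidueField ↥A) M)}
    (hℬ : ℬ = (chart (ResidueField ↥A) (jk (ResidueField ↥A) M)).toSubring)
    (D : TDatum A₁ ↥𝒜 ↥ℬ)
    (hDS : ∀ n : Ideal ↥ℬ, n ∈ D.S ↔ ∃ b ∈ (datumY hA hqM HM).S, IsPointAt ℬ n b) :
    (∀ n : Ideal ↥ℬ, n.IsMaximal → n ∈ D.S →
      ∃ b ∈ (datumY hA hqM HM).S, ∀ z : ↥ℬ, z ∈ n ↔
        (datumY hA hqM HM).E.val b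
          (z : ↥(modularFunctionFieldFullC (ResidueField ↥A) M)) 0) ∧
    (∀ b ∈ (datumY hA hqM HM).S, ∃ n : Ideal ↥ℬ, n.IsMaximal ∧ n ∈ D.S ∧
      ∀ z : ↥ℬ, z ∈ n ↔ (datumY hA hqM HM).E.val b
        (z : ↥(modularFunctionFieldFullC (ResidueField ↥A) M)) 0) ∧
    ∃ n : Ideal ↥ℬ, n.IsMaximal ∧ n ∈ D.S := by
  have hle : ∀ b ∈ (datumY hA hqM HM).S, ∀ z ∈ ℬ, z ∈ b.toValuationSubring := fun b hb =>
    le_of_eq_chart hℬ b (jk_mem_of_mem_datumY_S hA hqM HM hb)
  have hconv := hconv_of_isPointAt (Fermat.Agent.S18.B.FkBasics.isFF (ResidueField ↥A) M)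
    (datumY hA hqM HM) (datumY_E hA hqM HM) ℬ D (const_mem_of_eq_chart hℬ) hle
    (fun b hb => ⟨pointAt ℬ b (hle b hb),
      (hDS _).mpr ⟨b, hb, isPointAt_pointAt ℬ b (hle b hb)⟩, isPointAt_pointAt ℬ b (hle b hb)⟩)
  exact ⟨hdict_of_isPointAt (datumY hA hqM HM) (datumY_E hA hqM HM) ℬ D
      (fun n _ hnS => (hDS n).mp hnS), hconv,
    hne_of_hconv (datumY hA hqM HM) ℬ D (datumY_S_nonempty hA hqM HM) hconv⟩

/-- **`hdict'` on the INF chart at `X = datumY`** (or on any chart): only the inclusion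
`D.S ⊆ {points at the places of (datumY ..).S}` is needed. -/
theorem hdict_datumY {𝒜 : Subring (FK0 A (M * q * q))}
    {ℬ : Subring ↥(modularFunctionFieldFullC (ResidueField ↥A) M)} (D : TDatum A₁ ↥𝒜 ↥ℬ)
    (hDS : ∀ n : Ideal ↥ℬ, n.IsMaximal → n ∈ D.S →
      ∃ b ∈ (datumY hA hqM HM).S, IsPointAt ℬ n b) :
    ∀ n : Ideal ↥ℬ, n.IsMaximal → n ∈ D.S →
      ∃ b ∈ (datumY hA hqM HM).S, ∀ z : ↥ℬ, z ∈ n ↔
        (datumY hA hqM HM).E.val b
          (z : ↥(modularFunctionFieldFullC (ResidueField ↥A) M)) 0 :=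
  hdict_of_isPointAt (datumY hA hqM HM) (datumY_E hA hqM HM) ℬ D hDS

/-- **the three link facts on the FIN chart for `D.S = SpecDictOne.nodeSet (datumY ..).S`** (the
node set of `BranchX0.finTDatum` & co., subalgebra-as-type presentation `chart k J̄` of the
coordinate ring, read as the subring `(chart k J̄).toSubring`) -/
theorem links_fin_datumY_nodeSet {𝒜 : Subring (FK0 A (M * q * q))}
    (D : TDatum A₁ ↥𝒜 ↥(chart (ResidueField ↥A) (jk (ResidueField ↥A) M)).toSubring)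
    (hS : D.S = (Fermat.Agent.S36.SpecDictOne.nodeSet (ResidueField ↥A) M
      (x := jk (ResidueField ↥A) M) (datumY hA hqM HM).S :
        Set (Ideal (chart (ResidueField ↥A) (jk (ResidueField ↥A) M))))) :
    (∀ n : Ideal ↥(chart (ResidueField ↥A) (jk (ResidueField ↥A) M)).toSubring,
      n.IsMaximal → n ∈ D.S →
      ∃ b ∈ (datumY hA hqM HM).S,
        ∀ z : ↥(chart (ResidueField ↥A) (jk (ResidueField ↥A) M)).toSubring, z ∈ n ↔
        (datumY hA hqM HM).E.val b
          (z : ↥(modularFunctionFieldFullC (ResidueField ↥A) M)) 0) ∧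
    (∀ b ∈ (datumY hA hqM HM).S,
      ∃ n : Ideal ↥(chart (ResidueField ↥A) (jk (ResidueField ↥A) M)).toSubring,
        n.IsMaximal ∧ n ∈ D.S ∧
      ∀ z : ↥(chart (ResidueField ↥A) (jk (ResidueField ↥A) M)).toSubring,
        z ∈ n ↔ (datumY hA hqM HM).E.val b
        (z : ↥(modularFunctionFieldFullC (ResidueField ↥A) M)) 0) ∧
    ∃ n : Ideal ↥(chart (ResidueField ↥A) (jk (ResidueField ↥A) M)).toSubring,
      n.IsMaximal ∧ n ∈ D.S := by
  refine links_fin_datumY hA hqM HM rfl D fun n => ?_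
  rw [hS]
  exact mem_nodeSet_iff (ResidueField ↥A) M
    (fun b hb => jk_mem_of_mem_datumY_S hA hqM HM hb) n

/-- **`hdict'` on the INF chart for `D.S = SpecDictOne.nodeSet (datumY ..).S`** at `x = J̄⁻¹` -/
theorem hdict_inf_datumY_nodeSet {𝒜 : Subring (FK0 A (M * q * q))}
    (D : TDatum A₁ ↥𝒜 ↥(chart (ResidueField ↥A) (jk (ResidueField ↥A) M)⁻¹).toSubring)
    (hS : D.S = (Fermat.Agent.S36.SpecDictOne.nodeSet (ResidueField ↥A) M
      (x := (jk (ResidueField ↥A) M)⁻¹) (datumY hA hqM HM).S :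
        Set (Ideal (chart (ResidueField ↥A) (jk (ResidueField ↥A) M)⁻¹)))) :
    ∀ n : Ideal ↥(chart (ResidueField ↥A) (jk (ResidueField ↥A) M)⁻¹).toSubring,
      n.IsMaximal → n ∈ D.S →
      ∃ b ∈ (datumY hA hqM HM).S,
        ∀ z : ↥(chart (ResidueField ↥A) (jk (ResidueField ↥A) M)⁻¹).toSubring, z ∈ n ↔
        (datumY hA hqM HM).E.val b
          (z : ↥(modularFunctionFieldFullC (ResidueField ↥A) M)) 0 := by
  refine hdict_datumY hA hqM HM D fun n _ hn => ?_
  rw [hS] at hn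
  obtain ⟨b, hb, -, hp⟩ := exists_isPointAt_of_mem_nodeSet (ResidueField ↥A) M hn
  exact ⟨b, hb, hp⟩

end X0

end Fermat.Agent.S36.BranchLinksX0
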