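/-
PROJECT V (S36), slice V-CompNormal = chain (V8), ABSTRACT PART (helper26):
**every component of the special fibre is a normal curve inside the model: the reduction of a
chart ring along a vertical valuation is ONTO the chart ring of the component.**

Mathlib + `S36/ChartRing` only.  `ChartRing.chart O φ` is the integral closure of `O[φ]` in `F`.

* `isIntegral_of_forall_isIntegral`, `mem_chart_of_mem_chart` : transitivity
  (`y ∈ chart O φ`, `x ∈ chart O y` ⟹ `x ∈ chart O φ`);
* `map_mem_chart` : an `O`-linear ring homomorphism `a : F₀ →+* F₂` maps `chart O j` into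
  `chart O (a j)`; `map_mem_chart_of_mem` : hence into `chart O φ` as soon as `a j ∈ chart O φ`
  (e.g. `a = a₂`, `j ↦ j₂ = j(q²τ)`, integral over `ℤ[j₀]`; or `φ = j₀ j₂` and both `j₀`, `j₂`);
* `red_mem_chart` : a ring homomorphism `r : W →+* κ` on a valuation subring `W ∋ φ` of `F` which
  restricts to `π : O →+* k` on the constants maps `chart O φ` into `chart k (r φ)`, hence into
  `chart k J` whenever `r φ ∈ chart k J` (`r₀₂ (j₀) = J ^ q²`, `r (j₀ j₂) = J ^ (q² + 1)`, ...);
* `exists_mem_chart_red_eq` : **the lifting step**: if `r ∘ a = red₀` on the Gauss ring `Og` of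
  `F₀` and every `b` of a set `B ⊆ κ` is `red₀ g` with `g ∈ chart O j ∩ Og` (this is the
  `K₀`-rational lift with pole control of level `M''`, slice V-LiftK0), then every `b ∈ B` is
  `r x` with `x ∈ chart O φ ∩ W`;
* `rho` : the bundled reduction `chart O φ →+* chart k J`, `rho_apply`, `rho_surjective`,
  `rho_eq_zero_iff`, `quotientKerEquiv : chart O φ ⧸ ker ρ ≃+* chart k J`
  ("`A ⧸ (𝔪_W ∩ A)` is the coordinate ring of the component").

The charts at infinity are the same statements for `φ⁻¹`, `j⁻¹`, `J⁻¹`.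
-/
import Mathlib
import Fermat.Agent.S36.ChartRing

set_option autoImplicit false
set_option linter.unusedSectionVars false
set_option linter.unusedVariables false

namespace Fermat.Agent.S36.CompNormal

open Fermat.Agent.S36.ChartRing

/-! ### transitivity of integrality for subalgebras -/

section Trans

variable {O : Type*} [CommRing O] {F : Type*} [CommRing F] [Algebra O F]

/-- if every element of the subalgebra `S'` is integral over the subalgebra `S`, then an element
integral over `S'` is integral over `S` -/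
theorem isIntegral_of_forall_isIntegral (S S' : Subalgebra O F)
    (h : ∀ y ∈ S', IsIntegral S y) {x : F} (hx : IsIntegral S' x) : IsIntegral S x := by
  let ι : S' →+* integralClosure S F :=
    { toFun := fun y => ⟨(y : F), h y y.2⟩
      map_one' := rfl
      map_mul' := fun _ _ => rfl
      map_zero' := rfl
      map_add' := fun _ _ => rfl }
  have h1 : IsIntegral (integralClosure S F) ((RingHom.id F) x) :=
    IsIntegral.map_of_comp_eq ι (RingHom.id F) (RingHom.ext fun y => rfl) hx
  exact isIntegral_trans (R := S) (A := integralClosure S F) x h1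

end Trans

section Chart

variable {O : Type*} [CommRing O]

theorem mem_chart_iff {F : Type*} [Field F] [Algebra O F] {φ x : F} :
    x ∈ chart O φ ↔ IsIntegral (Algebra.adjoin O ({φ} : Set F)) x := Iff.rfl

/-- the chart function lies in its chart ring -/
theorem self_mem_chart {F : Type*} [Field F] [Algebra O F] (φ : F) : φ ∈ chart O φ := by
  have h : IsIntegral (Algebra.adjoin O ({φ} : Set F))
      (algebraMap (Algebra.adjoin O ({φ} : Set F)) F
        ⟨φ, Algebra.subset_adjoin (Set.mem_singleton φ)⟩) := isIntegral_algebraMap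
  exact h

/-- constants lie in every chart ring -/
theorem algebraMap_mem_chart {F : Type*} [Field F] [Algebra O F] (φ : F) (c : O) :
    algebraMap O F c ∈ chart O φ := by
  have h : IsIntegral (Algebra.adjoin O ({φ} : Set F))
      (algebraMap (Algebra.adjoin O ({φ} : Set F)) F
        ⟨algebraMap O F c, Subalgebra.algebraMap_mem _ c⟩) := isIntegral_algebraMap
  exact h

/-- every element of `O[y]` is integral over `O[φ]` when `y` is -/
theorem isIntegral_of_mem_adjoin {F : Type*} [Field F] [Algebra O F] {φ y : F}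
    (hy : y ∈ chart O φ) {z : F} (hz : z ∈ Algebra.adjoin O ({y} : Set F)) :
    IsIntegral (Algebra.adjoin O ({φ} : Set F)) z := by
  induction hz using Algebra.adjoin_induction with
  | mem x hx =>
    rw [Set.mem_singleton_iff] at hx
    subst hx
    exact hy
  | algebraMap c => exact algebraMap_mem_chart φ c
  | add x y _ _ hx hy => exact hx.add hy
  | mul x y _ _ hx hy => exact hx.mul hy

/-- **transitivity of chart rings**: `y ∈ chart O φ` and `x ∈ chart O y` give `x ∈ chart O φ` -/
theorem mem_chart_of_mem_chart {F : Type*} [Field F] [Algebra O F] {φ y x : F}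
    (hy : y ∈ chart O φ) (hx : x ∈ chart O y) : x ∈ chart O φ :=
  isIntegral_of_forall_isIntegral (Algebra.adjoin O ({φ} : Set F)) (Algebra.adjoin O ({y} : Set F))
    (fun _ hz => isIntegral_of_mem_adjoin hy hz) hx

/-- `chart O y ≤ chart O φ` as sets when `y ∈ chart O φ` -/
theorem chart_subset_chart {F : Type*} [Field F] [Algebra O F] {φ y : F} (hy : y ∈ chart O φ) :
    (chart O y : Set F) ⊆ (chart O φ : Set F) := fun _ hx => mem_chart_of_mem_chart hy hx

variable {F₀ F₂ : Type*} [Field F₀] [Field F₂] [Algebra O F₀] [Algebra O F₂]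

/-- an `O`-linear ring homomorphism maps `O[j]` into `O[a j]` -/
theorem map_mem_adjoin (a : F₀ →+* F₂)
    (ha : ∀ c : O, a (algebraMap O F₀ c) = algebraMap O F₂ c) (j : F₀) {z : F₀}
    (hz : z ∈ Algebra.adjoin O ({j} : Set F₀)) : a z ∈ Algebra.adjoin O ({a j} : Set F₂) := by
  induction hz using Algebra.adjoin_induction with
  | mem x hx =>
    rw [Set.mem_singleton_iff] at hx
    subst hx
    exact Algebra.subset_adjoin (Set.mem_singleton _)
  | algebraMap c =>
    rw [ha]
    exact Subalgebra.algebraMap_mem _ c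
  | add x y _ _ hx hy =>
    rw [map_add]
    exact Subalgebra.add_mem _ hx hy
  | mul x y _ _ hx hy =>
    rw [map_mul]
    exact Subalgebra.mul_mem _ hx hy

/-- **transport of the chart ring**: an `O`-linear ring homomorphism `a` maps `chart O j` into
`chart O (a j)` -/
theorem map_mem_chart (a : F₀ →+* F₂)
    (ha : ∀ c : O, a (algebraMap O F₀ c) = algebraMap O F₂ c) {j g : F₀} (hg : g ∈ chart O j) :
    a g ∈ chart O (a j) := by
  let ι : Algebra.adjoin O ({j} : Set F₀) →+* Algebra.adjoin O ({a j} : Set F₂) :=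
    { toFun := fun z => ⟨a (z : F₀), map_mem_adjoin a ha j z.2⟩
      map_one' := Subtype.ext (map_one a)
      map_mul' := fun x y => Subtype.ext (map_mul a _ _)
      map_zero' := Subtype.ext (map_zero a)
      map_add' := fun x y => Subtype.ext (map_add a _ _) }
  exact IsIntegral.map_of_comp_eq ι a (RingHom.ext fun z => rfl) hg

/-- transport into a prescribed chart: `a j ∈ chart O φ` suffices -/
theorem map_mem_chart_of_mem (a : F₀ →+* F₂)
    (ha : ∀ c : O, a (algebraMap O F₀ c) = algebraMap O F₂ c) {j g : F₀} {φ : F₂}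
    (hj : a j ∈ chart O φ) (hg : g ∈ chart O j) : a g ∈ chart O φ :=
  mem_chart_of_mem_chart hj (map_mem_chart a ha hg)

end Chart

/-! ### the reduction of a chart ring along a vertical valuation -/

section Red

variable {O : Type*} [CommRing O] {k : Type*} [CommRing k] (π : O →+* k)
variable {F : Type*} [Field F] [Algebra O F] (W : ValuationSubring F)
variable {κ : Type*} [Field κ] [Algebra k κ] (r : ↥W →+* κ)

/-- the chart ring lies in every valuation subring containing the constants and `φ` -/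
theorem mem_of_mem_chart' {φ x : F} (hO : ∀ c : O, algebraMap O F c ∈ W) (hφ : φ ∈ W)
    (hx : x ∈ chart O φ) : x ∈ W := by
  refine mem_of_isIntegral W (fun b => ?_) hx
  have hle : Algebra.adjoin O ({φ} : Set F) ≤
      (⟨W.toSubring.toSubsemiring, fun c => hO c⟩ : Subalgebra O F) :=
    Algebra.adjoin_le (by
      rw [Set.singleton_subset_iff]
      exact hφ)
  exact hle b.2

/-- `r` maps `O[φ]` into `k[r φ]` -/
theorem red_mem_adjoin (hO : ∀ c : O, algebraMap O F c ∈ W)
    (hr : ∀ c : O, r ⟨algebraMap O F c, hO c⟩ = algebraMap k κ (π c)) {φ : F} (hφ : φ ∈ W)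
    {z : F} (hz : z ∈ Algebra.adjoin O ({φ} : Set F)) (hzW : z ∈ W) :
    r ⟨z, hzW⟩ ∈ Algebra.adjoin k ({r ⟨φ, hφ⟩} : Set κ) := by
  have key : ∀ z : F, z ∈ Algebra.adjoin O ({φ} : Set F) →
      ∃ h : z ∈ W, r ⟨z, h⟩ ∈ Algebra.adjoin k ({r ⟨φ, hφ⟩} : Set κ) := by
    intro z hz
    induction hz using Algebra.adjoin_induction with
    | mem x hx =>
      rw [Set.mem_singleton_iff] at hx
      subst hx
      exact ⟨hφ, Algebra.subset_adjoin (Set.mem_singleton _)⟩
    | algebraMap c =>
      refine ⟨hO c, ?_⟩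
      rw [hr]
      exact Subalgebra.algebraMap_mem _ _
    | add x y _ _ hx hy =>
      obtain ⟨hxW, hx'⟩ := hx
      obtain ⟨hyW, hy'⟩ := hy
      refine ⟨W.add_mem _ _ hxW hyW, ?_⟩
      have e : (⟨x + y, W.add_mem _ _ hxW hyW⟩ : ↥W) = ⟨x, hxW⟩ + ⟨y, hyW⟩ := rfl
      rw [e, map_add]
      exact Subalgebra.add_mem _ hx' hy'
    | mul x y _ _ hx hy =>
      obtain ⟨hxW, hx'⟩ := hx
      obtain ⟨hyW, hy'⟩ := hy
      refine ⟨W.mul_mem _ _ hxW hyW, ?_⟩
      have e : (⟨x * y, W.mul_mem _ _ hxW hyW⟩ : ↥W) = ⟨x, hxW⟩ * ⟨y, hyW⟩ := rfl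
      rw [e, map_mul]
      exact Subalgebra.mul_mem _ hx' hy'
  obtain ⟨_, h2⟩ := key z hz
  exact h2

/-- **the reduction of the chart ring lies in the chart ring of the component**, coordinate
`r φ` -/
theorem red_mem_chart_self (hO : ∀ c : O, algebraMap O F c ∈ W)
    (hr : ∀ c : O, r ⟨algebraMap O F c, hO c⟩ = algebraMap k κ (π c)) {φ : F} (hφ : φ ∈ W)
    {x : F} (hx : x ∈ chart O φ) (hxW : x ∈ W) : r ⟨x, hxW⟩ ∈ chart k (r ⟨φ, hφ⟩) := by
  obtain ⟨p, hp, hpx⟩ := hx
  have hSW : ∀ z : Algebra.adjoin O ({φ} : Set F), (z : F) ∈ W := fun z =>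
    mem_of_mem_chart' W hO hφ (by
      have h : IsIntegral (Algebra.adjoin O ({φ} : Set F))
        (algebraMap (Algebra.adjoin O ({φ} : Set F)) F z) := isIntegral_algebraMap
      exact h)
  -- the inclusion `O[φ] → W`
  let incl : Algebra.adjoin O ({φ} : Set F) →+* ↥W :=
    { toFun := fun z => ⟨(z : F), hSW z⟩
      map_one' := rfl
      map_mul' := fun _ _ => rfl
      map_zero' := rfl
      map_add' := fun _ _ => rfl }
  -- the induced map `O[φ] → k[r φ]`
  let θ : Algebra.adjoin O ({φ} : Set F) →+* Algebra.adjoin k ({r ⟨φ, hφ⟩} : Set κ) :=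
    { toFun := fun z => ⟨r (incl z), red_mem_adjoin π W r hO hr hφ z.2 (hSW z)⟩
      map_one' := Subtype.ext (by
        show r (incl 1) = 1
        rw [map_one, map_one])
      map_mul' := fun x y => Subtype.ext (by
        show r (incl (x * y)) = r (incl x) * r (incl y)
        rw [map_mul, map_mul])
      map_zero' := Subtype.ext (by
        show r (incl 0) = 0
        rw [map_zero, map_zero])
      map_add' := fun x y => Subtype.ext (by
        show r (incl (x + y)) = r (incl x) + r (incl y)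
        rw [map_add, map_add]) }
  have h0 : Polynomial.eval₂ incl (⟨x, hxW⟩ : ↥W) p = 0 := by
    apply Subtype.ext
    have h1 := Polynomial.hom_eval₂ p incl W.subtype (⟨x, hxW⟩ : ↥W)
    rw [ZeroMemClass.coe_zero]
    have h2 : (W.subtype (Polynomial.eval₂ incl (⟨x, hxW⟩ : ↥W) p) : F)
        = Polynomial.eval₂ (W.subtype.comp incl) (W.subtype ⟨x, hxW⟩) p := h1
    have h3 : (W.subtype.comp incl : Algebra.adjoin O ({φ} : Set F) →+* F)
        = algebraMap (Algebra.adjoin O ({φ} : Set F)) F := RingHom.ext fun z => rfl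
    rw [h3] at h2
    exact h2.trans hpx
  refine ⟨p.map θ, hp.map θ, ?_⟩
  rw [Polynomial.eval₂_map]
  have h4 : ((algebraMap (Algebra.adjoin k ({r ⟨φ, hφ⟩} : Set κ)) κ).comp θ
      : Algebra.adjoin O ({φ} : Set F) →+* κ) = r.comp incl := RingHom.ext fun z => rfl
  rw [h4, ← Polynomial.hom_eval₂, h0, map_zero]

/-- **the reduction of the chart ring lies in the chart ring of the component**, coordinate `J`
with `r φ ∈ chart k J` -/
theorem red_mem_chart (hO : ∀ c : O, algebraMap O F c ∈ W)
    (hr : ∀ c : O, r ⟨algebraMap O F c, hO c⟩ = algebraMap k κ (π c)) {φ : F} (hφ : φ ∈ W)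
    {J : κ} (hJ : r ⟨φ, hφ⟩ ∈ chart k J)
    {x : F} (hx : x ∈ chart O φ) (hxW : x ∈ W) : r ⟨x, hxW⟩ ∈ chart k J :=
  mem_chart_of_mem_chart hJ (red_mem_chart_self π W r hO hr hφ hx hxW)

end Red

/-! ### the lifting step -/

section Lift

variable {O : Type*} [CommRing O]
variable {F₀ F₂ : Type*} [Field F₀] [Field F₂] [Algebra O F₀] [Algebra O F₂]
variable {κ : Type*} [Field κ]

/-- **Lifting through a level map.**  `Og` the Gauss ring of `F₀` with reduction `red₀`, `W` a
valuation subring of `F₂` with reduction `r`, `a : F₀ →+* F₂` an `O`-linear level map with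
`a Og ⊆ W` and `r ∘ a = red₀`.  If every element of `B ⊆ κ` is the reduction of an element of
`chart O j ∩ Og` and `a j ∈ chart O φ`, then every element of `B` is the reduction of an element of
`chart O φ ∩ W`. -/
theorem exists_mem_chart_red_eq (a : F₀ →+* F₂)
    (ha : ∀ c : O, a (algebraMap O F₀ c) = algebraMap O F₂ c)
    (Og : ValuationSubring F₀) (red₀ : ↥Og →+* κ) (W : ValuationSubring F₂) (r : ↥W →+* κ)
    (haW : ∀ g : F₀, g ∈ Og → a g ∈ W)
    (hra : ∀ (g : F₀) (hg : g ∈ Og), r ⟨a g, haW g hg⟩ = red₀ ⟨g, hg⟩)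
    {j : F₀} {φ : F₂} (hj : a j ∈ chart O φ) (B : Set κ)
    (hlift : ∀ b ∈ B, ∃ g : F₀, g ∈ chart O j ∧ ∃ hg : g ∈ Og, red₀ ⟨g, hg⟩ = b) :
    ∀ b ∈ B, ∃ x : F₂, x ∈ chart O φ ∧ ∃ hx : x ∈ W, r ⟨x, hx⟩ = b := by
  intro b hb
  obtain ⟨g, hgc, hg, hgb⟩ := hlift b hb
  exact ⟨a g, map_mem_chart_of_mem a ha hj hgc, haW g hg, (hra g hg).trans hgb⟩

end Lift

/-! ### the bundled reduction `chart O φ →+* chart k J` -/

section Rho

variable {O : Type*} [CommRing O] {k : Type*} [CommRing k] (π : O →+* k)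
variable {F : Type*} [Field F] [Algebra O F] (W : ValuationSubring F)
variable {κ : Type*} [Field κ] [Algebra k κ] (r : ↥W →+* κ)
variable (hO : ∀ c : O, algebraMap O F c ∈ W)
variable (hr : ∀ c : O, r ⟨algebraMap O F c, hO c⟩ = algebraMap k κ (π c))
variable {φ : F} (hφ : φ ∈ W) {J : κ} (hJ : r ⟨φ, hφ⟩ ∈ chart k J)

/-- **the reduction of the chart ring along `W`**, with values in the chart ring of the
component -/
def rho : ↥(chart O φ) →+* ↥(chart k J) where
  toFun x := ⟨r ⟨(x : F), mem_of_mem_chart' W hO hφ x.2⟩,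
    red_mem_chart π W r hO hr hφ hJ x.2 (mem_of_mem_chart' W hO hφ x.2)⟩
  map_one' := Subtype.ext (by
    show r ⟨((1 : ↥(chart O φ)) : F), _⟩ = 1
    have e : (⟨((1 : ↥(chart O φ)) : F), mem_of_mem_chart' W hO hφ (1 : ↥(chart O φ)).2⟩ : ↥W)
        = 1 := rfl
    rw [e, map_one])
  map_mul' x y := Subtype.ext (by
    show r ⟨((x * y : ↥(chart O φ)) : F), _⟩ = r ⟨(x : F), _⟩ * r ⟨(y : F), _⟩
    rw [← map_mul]
    rfl)
  map_zero' := Subtype.ext (by
    show r ⟨((0 : ↥(chart O φ)) : F), _⟩ = 0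
    have e : (⟨((0 : ↥(chart O φ)) : F), mem_of_mem_chart' W hO hφ (0 : ↥(chart O φ)).2⟩ : ↥W)
        = 0 := rfl
    rw [e, map_zero])
  map_add' x y := Subtype.ext (by
    show r ⟨((x + y : ↥(chart O φ)) : F), _⟩ = r ⟨(x : F), _⟩ + r ⟨(y : F), _⟩
    rw [← map_add]
    rfl)

theorem rho_apply (x : ↥(chart O φ)) :
    ((rho π W r hO hr hφ hJ x : ↥(chart k J)) : κ)
      = r ⟨(x : F), mem_of_mem_chart' W hO hφ x.2⟩ := rfl

/-- **surjectivity** of the bundled reduction from the lifting property -/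
theorem rho_surjective
    (hlift : ∀ b ∈ (chart k J : Set κ), ∃ x : F, x ∈ chart O φ ∧ ∃ hx : x ∈ W, r ⟨x, hx⟩ = b) :
    Function.Surjective (rho π W r hO hr hφ hJ) := by
  intro b
  obtain ⟨x, hxc, hxW, hxb⟩ := hlift (b : κ) b.2
  exact ⟨⟨x, hxc⟩, Subtype.ext hxb⟩

/-- the kernel of the bundled reduction is `𝔪_W ∩ chart` -/
theorem rho_eq_zero_iff (hker : ∀ w : ↥W, r w = 0 ↔ (w : F) ∈ W.nonunits) (x : ↥(chart O φ)) :
    rho π W r hO hr hφ hJ x = 0 ↔ (x : F) ∈ W.nonunits := by
  rw [← hker ⟨(x : F), mem_of_mem_chart' W hO hφ x.2⟩]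
  constructor
  · intro h
    have := congrArg (fun z : ↥(chart k J) => (z : κ)) h
    simpa [rho_apply] using this
  · intro h
    apply Subtype.ext
    rw [rho_apply, h]
    rfl

/-- **`A ⧸ (𝔪_W ∩ A)` is the coordinate ring of the component** -/
noncomputable def quotientKerEquiv
    (hlift : ∀ b ∈ (chart k J : Set κ), ∃ x : F, x ∈ chart O φ ∧ ∃ hx : x ∈ W, r ⟨x, hx⟩ = b) :
    (↥(chart O φ) ⧸ RingHom.ker (rho π W r hO hr hφ hJ)) ≃+* ↥(chart k J) :=
  RingHom.quotientKerEquivOfSurjective (rho_surjective π W r hO hr hφ hJ hlift)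

end Rho

end Fermat.Agent.S36.CompNormal
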