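/-
PROJECT V (S36), slice V-CompNormal = chain (V8), the LOCALISED form (helper26):
**the branch rings of a principal open `D(g)` of a chart are Dedekind-like: of dimension `≤ 1` and
closed under `n`-th roots inside the function field `κ` of the component.**

This is the `BranchRings` field of the chain-(V17) `OpenData` (one open `S = 𝒜[1/g]`,
`FormalLift.awaySubring`): for a vertical valuation subring `W ⊇ S` with reduction `r : W →+* κ`,
the branch ring is the image `r(S) ⊆ κ`.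

Mathlib + `S36/CompNormal` + `S36/FormalLift/Away`.

* `dimensionLEOne_of_surjective` : a surjective image of a ring of dimension `≤ 1`;
* `dimensionLEOne_adjoin_singleton` : `k[J] ⊆ κ` (`k` a field, `J` ARBITRARY) has dimension `≤ 1`;
* `dimensionLEOne_chart`, `mem_chart_of_isIntegral_chart` : `chart k J` (the integral closure of
  `k[J]` in `κ`) has dimension `≤ 1` and is integrally closed in `κ`;
* `dimensionLEOne_awaySubring`, `root_mem_awaySubring` : `B[1/b] ⊆ κ` inherits both properties;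
* `range_awaySubring` : `r(𝒜[1/g]) = r(𝒜)[1/r(g)]` for `𝒜[1/g] ⊆ W`, `g ≠ 0`;
* `dimensionLEOne_range_awaySubring`, `root_mem_range_awaySubring` : the two `BranchRings` fields
  for `S = 𝒜[1/g]` from `r(𝒜) = B`, `B` of dimension `≤ 1` and integrally closed in `κ`;
* `range_chart` : `r(chart O φ) = chart k J` from the lifting property of `CompNormal`
  (`rho_surjective`), and `dimensionLEOne_range_chart_away`, `root_mem_range_chart_away`.
-/
import Mathlib
import Fermat.Agent.S36.CompNormal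
import Fermat.Agent.S36.FormalLift.Away

set_option autoImplicit false
set_option linter.unusedSectionVars false
set_option linter.unusedVariables false
set_option linter.style.haveILetI false

namespace Fermat.Agent.S36.CompNormalAway

open Fermat.Agent.S36.ChartRing Fermat.Agent.S36.CompNormal Fermat.Agent.S36.FormalLift

/-! ### dimension `≤ 1` -/

section DimOne

/-- a surjective image of a ring of dimension `≤ 1` has dimension `≤ 1` -/
theorem dimensionLEOne_of_surjective {R R' : Type*} [CommRing R] [CommRing R'] (f : R →+* R')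
    (hf : Function.Surjective f) [Ring.DimensionLEOne R] : Ring.DimensionLEOne R' := by
  refine ⟨fun {p} hp0 hp => ?_⟩
  have hc : (p.comap f).IsPrime := Ideal.comap_isPrime f p
  have hc0 : p.comap f ≠ ⊥ := by
    intro h
    apply hp0
    rw [eq_bot_iff]
    intro y hy
    obtain ⟨x, rfl⟩ := hf y
    have hx : x ∈ p.comap f := hy
    rw [h, Ideal.mem_bot] at hx
    rw [Ideal.mem_bot, hx, map_zero]
  have hmax : (p.comap f).IsMaximal := Ring.DimensionLEOne.maximalOfPrime hc0 hc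
  have h := Ideal.map_eq_top_or_isMaximal_of_surjective f hf hmax
  rw [Ideal.map_comap_of_surjective f hf] at h
  rcases h with h | h
  · exact absurd h hp.ne_top
  · exact h

variable (k : Type*) [Field k] {κ : Type*} [Field κ] [Algebra k κ]

/-- `k[J] ⊆ κ` has dimension `≤ 1`, for ANY `J` -/
theorem dimensionLEOne_adjoin_singleton (J : κ) :
    Ring.DimensionLEOne ↥(Algebra.adjoin k ({J} : Set κ)) := by
  let J' : ↥(Algebra.adjoin k ({J} : Set κ)) := ⟨J, Algebra.subset_adjoin (Set.mem_singleton J)⟩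
  let f : Polynomial k →+* ↥(Algebra.adjoin k ({J} : Set κ)) :=
    ((Polynomial.aeval J' : Polynomial k →ₐ[k] ↥(Algebra.adjoin k ({J} : Set κ))) :
      Polynomial k →+* ↥(Algebra.adjoin k ({J} : Set κ)))
  refine dimensionLEOne_of_surjective f ?_
  intro x
  have hx : (x : κ) ∈ (Polynomial.aeval J : Polynomial k →ₐ[k] κ).range := by
    rw [← Algebra.adjoin_singleton_eq_range_aeval k J]
    exact x.2
  obtain ⟨p, hp⟩ := hx
  refine ⟨p, Subtype.ext ?_⟩
  show ((Polynomial.aeval J' p : ↥(Algebra.adjoin k ({J} : Set κ))) : κ) = (x : κ)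
  rw [← Subalgebra.aeval_coe]
  exact hp

/-- the chart ring of the component has dimension `≤ 1` -/
theorem dimensionLEOne_chart (J : κ) : Ring.DimensionLEOne ↥(chart k J) := by
  haveI := dimensionLEOne_adjoin_singleton k J
  exact Ring.DimensionLEOne.integralClosure _ _

/-- the chart ring of the component is integrally closed in `κ` -/
theorem mem_chart_of_isIntegral_chart {J z : κ} (hz : IsIntegral ↥(chart k J) z) :
    z ∈ chart k J :=
  isIntegral_trans (R := ↥(Algebra.adjoin k ({J} : Set κ)))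
    (A := ↥(integralClosure ↥(Algebra.adjoin k ({J} : Set κ)) κ)) z hz

end DimOne

/-! ### `B[1/b]` inside a field -/

section Away

variable {κ : Type*} [Field κ] (B : Subring κ) {b : κ} (hb : b ∈ B)

include hb in
/-- `B[1/b]` has dimension `≤ 1` if `B` has -/
theorem dimensionLEOne_awaySubring [Ring.DimensionLEOne ↥B] (hb0 : b ≠ 0) :
    Ring.DimensionLEOne ↥(awaySubring B b hb) := by
  classical
  set B' := awaySubring B b hb with hB'
  let ι : ↥B →+* ↥B' := Subring.inclusion (le_awaySubring B b hb)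
  -- `b` is a unit of `B'`
  have hbB' : b ∈ B' := le_awaySubring B b hb hb
  have hbinv : b⁻¹ ∈ B' := inv_mem_awaySubring B hb
  refine ⟨fun {P} hP0 hP => ?_⟩
  -- the contraction is a nonzero prime, hence maximal
  have hp : (P.comap ι).IsPrime := Ideal.comap_isPrime ι P
  have hp0 : P.comap ι ≠ ⊥ := by
    intro h
    apply hP0
    rw [eq_bot_iff]
    intro y hy
    obtain ⟨E, hE⟩ := y.2
    have hmem : (⟨b ^ E * (y : κ), hE⟩ : ↥B) ∈ P.comap ι := by
      rw [Ideal.mem_comap]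
      have e : ι ⟨b ^ E * (y : κ), hE⟩ = (⟨b, hbB'⟩ : ↥B') ^ E * y := by
        apply Subtype.ext
        rfl
      rw [e]
      exact P.mul_mem_left _ hy
    rw [h, Ideal.mem_bot] at hmem
    have h0 : b ^ E * (y : κ) = 0 := congrArg Subtype.val hmem
    rw [Ideal.mem_bot]
    apply Subtype.ext
    rcases mul_eq_zero.mp h0 with h1 | h1
    · exact absurd (pow_eq_zero_iff (M₀ := κ) (a := b) (n := E) (by
        rintro rfl
        rw [pow_zero] at h1
        exact one_ne_zero h1) |>.mp h1) hb0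
    · exact h1
  have hpmax : (P.comap ι).IsMaximal := Ring.DimensionLEOne.maximalOfPrime hp0 hp
  -- every proper ideal above `P` equals `P`
  refine Ideal.isMaximal_def.mpr ⟨hP.ne_top, fun Q hPQ => ?_⟩
  by_contra hQtop
  have hq : P.comap ι ≤ Q.comap ι := Ideal.comap_mono hPQ.le
  have hqtop : Q.comap ι ≠ ⊤ := by
    intro h
    apply hQtop
    rw [Ideal.eq_top_iff_one] at h ⊢
    rw [Ideal.mem_comap, map_one] at h
    exact h
  have hqe : P.comap ι = Q.comap ι := hpmax.eq_of_le hqtop hq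
  obtain ⟨y, hyQ, hyP⟩ := Set.exists_of_ssubset hPQ
  obtain ⟨E, hE⟩ := y.2
  have e : ι ⟨b ^ E * (y : κ), hE⟩ = (⟨b, hbB'⟩ : ↥B') ^ E * y := by
    apply Subtype.ext
    rfl
  have hmemQ : (⟨b ^ E * (y : κ), hE⟩ : ↥B) ∈ Q.comap ι := by
    rw [Ideal.mem_comap, e]
    exact Q.mul_mem_left _ hyQ
  rw [← hqe, Ideal.mem_comap, e] at hmemQ
  -- `b` is a unit of `B'`
  have hunit : IsUnit ((⟨b, hbB'⟩ : ↥B') ^ E) := by
    refine IsUnit.pow E (isUnit_iff_exists_inv.mpr ⟨⟨b⁻¹, hbinv⟩, ?_⟩)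
    apply Subtype.ext
    show b * b⁻¹ = 1
    exact mul_inv_cancel₀ hb0
  rcases hP.mem_or_mem hmemQ with h1 | h1
  · exact hP.ne_top (Ideal.eq_top_of_isUnit_mem _ h1 hunit)
  · exact hyP h1

include hb in
/-- `B[1/b]` is closed under `n`-th roots in `κ` if `B` is integrally closed in `κ` -/
theorem root_mem_awaySubring (hB : ∀ z : κ, IsIntegral ↥B z → z ∈ B) {n : ℕ} (hn : n ≠ 0) {z : κ}
    (hz : z ^ n ∈ awaySubring B b hb) : z ∈ awaySubring B b hb := by
  obtain ⟨E, hE⟩ := hz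
  refine ⟨E, hB _ ?_⟩
  -- `(b ^ E z) ^ n = b ^ (E (n - 1)) (b ^ E z ^ n) ∈ B`
  obtain ⟨m, rfl⟩ := Nat.exists_eq_succ_of_ne_zero hn
  have hc : (b ^ E * z) ^ (m + 1) ∈ B := by
    have e : (b ^ E * z) ^ (m + 1) = (b ^ E) ^ m * (b ^ E * z ^ (m + 1)) := by ring
    rw [e]
    exact B.mul_mem (pow_mem (pow_mem hb _) _) hE
  refine ⟨Polynomial.X ^ (m + 1) - Polynomial.C (⟨(b ^ E * z) ^ (m + 1), hc⟩ : ↥B),
    Polynomial.monic_X_pow_sub_C _ (Nat.succ_ne_zero m), ?_⟩
  rw [Polynomial.eval₂_sub, Polynomial.eval₂_pow, Polynomial.eval₂_X, Polynomial.eval₂_C]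
  exact sub_self _

end Away

/-! ### the reduction of a localised chart ring -/

section Range

variable {F : Type*} [Field F] {κ : Type*} [Field κ]
variable (W : ValuationSubring F) (r : ↥W →+* κ) (𝒜 : Subring F) {g : F} (hg : g ∈ 𝒜)

/-- a non-trivial `W ⊇ 𝒜[1/g]` forces `g ≠ 0` -/
theorem ne_zero_of_awaySubring_le (hS : awaySubring 𝒜 g hg ≤ W.toSubring) {ϖ : F} (hϖ0 : ϖ ≠ 0)
    (hϖ : W.valuation ϖ < 1) : g ≠ 0 := by
  rintro rfl
  have h1 : ϖ⁻¹ ∈ W := hS ⟨1, by rw [pow_one, zero_mul]; exact 𝒜.zero_mem⟩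
  have h2 : W.valuation ϖ⁻¹ ≤ 1 := (W.valuation_le_one_iff _).mpr h1
  have h3 : W.valuation ϖ * W.valuation ϖ⁻¹ = 1 := by
    rw [← map_mul, mul_inv_cancel₀ hϖ0, map_one]
  have h4 : W.valuation ϖ * W.valuation ϖ⁻¹ < 1 := by
    calc W.valuation ϖ * W.valuation ϖ⁻¹ ≤ W.valuation ϖ * 1 := by gcongr
      _ = W.valuation ϖ := mul_one _
      _ < 1 := hϖ
  exact absurd h3 h4.ne

variable (hS : awaySubring 𝒜 g hg ≤ W.toSubring)

/-- `r(g)` lies in `r(𝒜)` -/
theorem red_mem_range :
    r ⟨g, hS (le_awaySubring 𝒜 g hg hg)⟩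
      ∈ (r.comp (Subring.inclusion ((le_awaySubring 𝒜 g hg).trans hS))).range :=
  ⟨⟨g, hg⟩, rfl⟩

/-- `r(g) ≠ 0` : `g` is a unit of `𝒜[1/g] ⊆ W` -/
theorem red_ne_zero (hg0 : g ≠ 0) : r ⟨g, hS (le_awaySubring 𝒜 g hg hg)⟩ ≠ 0 := by
  intro h
  have hinv : g⁻¹ ∈ W := hS (inv_mem_awaySubring 𝒜 hg)
  have e : (⟨g, hS (le_awaySubring 𝒜 g hg hg)⟩ : ↥W) * ⟨g⁻¹, hinv⟩ = 1 := by
    apply Subtype.ext
    show g * g⁻¹ = 1
    exact mul_inv_cancel₀ hg0
  have := congrArg r e
  rw [map_mul, h, zero_mul, map_one] at this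
  exact zero_ne_one this

/-- **`r(𝒜[1/g]) = r(𝒜)[1/r(g)]`** -/
theorem range_awaySubring (hg0 : g ≠ 0) :
    (r.comp (Subring.inclusion hS)).range
      = awaySubring (r.comp (Subring.inclusion ((le_awaySubring 𝒜 g hg).trans hS))).range
          (r ⟨g, hS (le_awaySubring 𝒜 g hg hg)⟩) (red_mem_range W r 𝒜 hg hS) := by
  have hgW : g ∈ W := hS (le_awaySubring 𝒜 g hg hg)
  ext z
  constructor
  · rintro ⟨x, rfl⟩
    obtain ⟨E, hE⟩ := x.2
    refine ⟨E, ⟨⟨g ^ E * (x : F), hE⟩, ?_⟩⟩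
    show r ⟨g ^ E * (x : F), _⟩ = r ⟨g, hgW⟩ ^ E * r ⟨(x : F), _⟩
    rw [← map_pow, ← map_mul]
    rfl
  · rintro ⟨E, ⟨a, ha⟩⟩
    have hxS : (a : F) * (g ^ E)⁻¹ ∈ awaySubring 𝒜 g hg := by
      refine ⟨E, ?_⟩
      have e : g ^ E * ((a : F) * (g ^ E)⁻¹) = (a : F) := by
        field_simp
      rw [e]
      exact a.2
    refine ⟨⟨(a : F) * (g ^ E)⁻¹, hxS⟩, ?_⟩
    have hne : r ⟨g, hgW⟩ ^ E ≠ 0 := pow_ne_zero _ (red_ne_zero W r 𝒜 hg hS hg0)
    apply mul_left_cancel₀ hne
    rw [← ha]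
    show r ⟨g, hgW⟩ ^ E * r ⟨(a : F) * (g ^ E)⁻¹, _⟩ = r ⟨(a : F), _⟩
    rw [← map_pow, ← map_mul]
    congr 1
    apply Subtype.ext
    show g ^ E * ((a : F) * (g ^ E)⁻¹) = (a : F)
    field_simp

/-- **first `BranchRings` field** for the open `S = 𝒜[1/g]` : the branch ring has dimension
`≤ 1` as soon as `r(𝒜) = B` has -/
theorem dimensionLEOne_range_awaySubring (hg0 : g ≠ 0) (B : Subring κ)
    (hB : (r.comp (Subring.inclusion ((le_awaySubring 𝒜 g hg).trans hS))).range = B)
    [Ring.DimensionLEOne ↥B] : Ring.DimensionLEOne ↥(r.comp (Subring.inclusion hS)).range := by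
  subst hB
  rw [range_awaySubring W r 𝒜 hg hS hg0]
  exact dimensionLEOne_awaySubring _ _ (red_ne_zero W r 𝒜 hg hS hg0)

/-- **second `BranchRings` field** for the open `S = 𝒜[1/g]` : the branch ring is closed under
`n`-th roots in `κ` as soon as `r(𝒜) = B` is integrally closed in `κ` -/
theorem root_mem_range_awaySubring (hg0 : g ≠ 0) (B : Subring κ)
    (hB : (r.comp (Subring.inclusion ((le_awaySubring 𝒜 g hg).trans hS))).range = B)
    (hBic : ∀ z : κ, IsIntegral ↥B z → z ∈ B) {n : ℕ} (hn : n ≠ 0) {z : κ}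
    (hz : z ^ n ∈ (r.comp (Subring.inclusion hS)).range) :
    z ∈ (r.comp (Subring.inclusion hS)).range := by
  subst hB
  rw [range_awaySubring W r 𝒜 hg hS hg0] at hz ⊢
  exact root_mem_awaySubring _ _ hBic hn hz

end Range

/-! ### the chart rings of `CompNormal` -/

section ChartRange

variable {O : Type*} [CommRing O] {k : Type*} [Field k] (π : O →+* k)
variable {F : Type*} [Field F] [Algebra O F] (W : ValuationSubring F)
variable {κ : Type*} [Field κ] [Algebra k κ] (r : ↥W →+* κ)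
variable (hO : ∀ c : O, algebraMap O F c ∈ W)
variable (hr : ∀ c : O, r ⟨algebraMap O F c, hO c⟩ = algebraMap k κ (π c))
variable {φ : F} (hφ : φ ∈ W) {J : κ} (hJ : r ⟨φ, hφ⟩ ∈ chart k J)

include hO hφ in
/-- the chart ring lies in every valuation subring containing the constants and `φ` -/
theorem chart_le : (chart O φ).toSubring ≤ W.toSubring :=
  fun x hx => mem_of_mem_chart' W hO hφ hx

include π hr hJ in
/-- **`r(chart O φ) = chart k J`**, from the lifting property (`CompNormal.rho_surjective`) -/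
theorem range_chart
    (hlift : ∀ b ∈ (chart k J : Set κ), ∃ x : F, x ∈ chart O φ ∧ ∃ hx : x ∈ W, r ⟨x, hx⟩ = b) :
    (r.comp (Subring.inclusion (chart_le W hO hφ))).range = (chart k J).toSubring := by
  ext z
  constructor
  · rintro ⟨x, rfl⟩
    exact red_mem_chart π W r hO hr hφ hJ x.2 (mem_of_mem_chart' W hO hφ x.2)
  · intro hz
    obtain ⟨x, hxc, hxW, hxz⟩ := hlift z hz
    exact ⟨⟨x, hxc⟩, hxz⟩

variable {g : F} (hg : g ∈ (chart O φ).toSubring)
variable (hS : awaySubring (chart O φ).toSubring g hg ≤ W.toSubring)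

include π hr hJ in
/-- **`BranchRings.dim`** for the open `D(g)` of the chart `chart O φ` -/
theorem dimensionLEOne_range_chart_away (hg0 : g ≠ 0)
    (hlift : ∀ b ∈ (chart k J : Set κ), ∃ x : F, x ∈ chart O φ ∧ ∃ hx : x ∈ W, r ⟨x, hx⟩ = b) :
    Ring.DimensionLEOne ↥(r.comp (Subring.inclusion hS)).range := by
  haveI : Ring.DimensionLEOne ↥(chart k J).toSubring := dimensionLEOne_chart k J
  exact dimensionLEOne_range_awaySubring W r _ hg hS hg0 (chart k J).toSubring
    (range_chart π W r hO hr hφ hJ hlift)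

include π hr hJ in
/-- **`BranchRings.root`** for the open `D(g)` of the chart `chart O φ` -/
theorem root_mem_range_chart_away (hg0 : g ≠ 0)
    (hlift : ∀ b ∈ (chart k J : Set κ), ∃ x : F, x ∈ chart O φ ∧ ∃ hx : x ∈ W, r ⟨x, hx⟩ = b)
    {n : ℕ} (hn : n ≠ 0) {z : κ} (hz : z ^ n ∈ (r.comp (Subring.inclusion hS)).range) :
    z ∈ (r.comp (Subring.inclusion hS)).range :=
  root_mem_range_awaySubring W r _ hg hS hg0 (chart k J).toSubring
    (range_chart π W r hO hr hφ hJ hlift)
    (fun z hz => mem_chart_of_isIntegral_chart k hz) hn hz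

end ChartRange

end Fermat.Agent.S36.CompNormalAway
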