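/-
PROJECT V (S36), slice V-JIntegral (helper26): **the coordinate functions `j(τ), j(qτ), j(q²τ)` are
pairwise integral over each other**, over `K = ℚ̄^H` (`H` = inertia gives `K = K₀`).

This is the X0 INPUT of the symmetric charts (chain v1.1 (E1), `S36/SymChart`): for the chart
functions `x₁ = j₀ j₁` (level `N0 q`) and `x₂ = j₀ j₁ j₂` (level `N0 q q`) one needs exactly that
every `j_i` is integral over `ℤ[j_k]`.

Abstract part (Mathlib + `S36/CompNormal`), `chart ℤ y` = integral closure of `ℤ[y]`: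
* `mem_chart_int_of_isRoot` : a root of `Φ(X, y)`, `Φ ∈ ℤ[Y][X]` monic, lies in `chart ℤ y`;
* `mem_chart_of_mem_chart_int` : `chart ℤ y ⊆ chart O y` for every base ring `O`;
* `map_mem_chart_int` : transport along a ring homomorphism.

X0 part (`S36/MinpolyK0`), for any `Φ ∈ ℤ[j][X]` monic with `Φ(X, j(t)) = rPoly q ℤ` (e.g. the
Kronecker polynomial of `S34/Kronecker`), `q` prime:
* level `N0 q` : `j1K_mem_chart_j0K`, `j0K_mem_chart_j1K`;
* level `N0 q q`, `j0L = j`, `j1L = j(t^q)`, `j2L = j(t^(q²))` : `alphaK_j0K`, `alphaK_j1K`,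
  `betaK_j0K`, `betaK_j1K` (the four images of the level-`N0 q` coordinates) and the six
  memberships `j1L_mem_chart_j0L`, …, `j0L_mem_chart_j2L`;
* `jL_mem_chart` : for `i k : Fin 3`, `jL i ∈ chart O (jL k)` for EVERY commutative ring `O` acting
  on the field (`O = ℤ`, `O = W A`, …), and `jK_mem_chart` at level `N0 q`;
* `exists_*` : hypothesis-free versions (Kronecker polynomial plugged in).
-/
import Mathlib
import Fermat.Agent.S36.CompNormal
import Fermat.Agent.S36.MinpolyK0
import Fermat.Agent.S34.Kronecker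

set_option autoImplicit false
set_option linter.unusedSectionVars false
set_option linter.unusedVariables false
set_option linter.style.haveILetI false

noncomputable section

namespace Fermat.Agent.S36.JIntegral

open Polynomial ModularCurve
open Fermat.Agent.S36.ChartRing Fermat.Agent.S36.CompNormal
open Fermat.Agent.S36.PowerBasisK0 Fermat.Agent.S36.MinpolyK0 Fermat.Agent.S28.ModPoly

/-! ### abstract part -/

section Abstract

variable {F : Type*} [Field F]

/-- a root of `Φ(X, y)`, `Φ ∈ ℤ[Y][X]` monic, is integral over `ℤ[y]` -/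
theorem mem_chart_int_of_isRoot {y x : F} {Φ : Polynomial (Polynomial ℤ)} (hΦ : Φ.Monic)
    (hroot : (Φ.map (Polynomial.eval₂RingHom (Int.castRingHom F) y)).IsRoot x) :
    x ∈ chart ℤ y := by
  let y' : Algebra.adjoin ℤ ({y} : Set F) := ⟨y, Algebra.subset_adjoin (Set.mem_singleton y)⟩
  let ι : Polynomial ℤ →+* Algebra.adjoin ℤ ({y} : Set F) :=
    ((Polynomial.aeval y' : Polynomial ℤ →ₐ[ℤ] Algebra.adjoin ℤ ({y} : Set F)) :
      Polynomial ℤ →+* Algebra.adjoin ℤ ({y} : Set F))
  have hcomp : (algebraMap (Algebra.adjoin ℤ ({y} : Set F)) F).comp ι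
      = Polynomial.eval₂RingHom (Int.castRingHom F) y := by
    apply Polynomial.ringHom_ext
    · intro a
      simp [ι]
    · simp [ι, y']
  refine ⟨Φ.map ι, hΦ.map ι, ?_⟩
  rw [Polynomial.eval₂_map, hcomp]
  rw [IsRoot.def, Polynomial.eval_map] at hroot
  exact hroot

/-- `ℤ[y] ⊆ O[y]` -/
theorem mem_adjoin_of_mem_adjoin_int {O : Type*} [CommRing O] [Algebra O F] {y z : F}
    (hz : z ∈ Algebra.adjoin ℤ ({y} : Set F)) : z ∈ Algebra.adjoin O ({y} : Set F) := by
  induction hz using Algebra.adjoin_induction with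
  | mem x hx => exact Algebra.subset_adjoin hx
  | algebraMap c =>
    have h : algebraMap ℤ F c = algebraMap O F (c : O) := by
      rw [eq_intCast, map_intCast]
    rw [h]
    exact Subalgebra.algebraMap_mem _ _
  | add x y _ _ hx hy => exact Subalgebra.add_mem _ hx hy
  | mul x y _ _ hx hy => exact Subalgebra.mul_mem _ hx hy

/-- **`chart ℤ y ⊆ chart O y`** for every base ring `O` -/
theorem mem_chart_of_mem_chart_int {O : Type*} [CommRing O] [Algebra O F] {y x : F}
    (hx : x ∈ chart ℤ y) : x ∈ chart O y := by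
  let ι : Algebra.adjoin ℤ ({y} : Set F) →+* Algebra.adjoin O ({y} : Set F) :=
    { toFun := fun z => ⟨(z : F), mem_adjoin_of_mem_adjoin_int z.2⟩
      map_one' := rfl
      map_mul' := fun _ _ => rfl
      map_zero' := rfl
      map_add' := fun _ _ => rfl }
  exact IsIntegral.map_of_comp_eq ι (RingHom.id F) (RingHom.ext fun z => rfl) hx

/-- transport of integrality over `ℤ[y]` along a ring homomorphism -/
theorem map_mem_chart_int {F' : Type*} [Field F'] (a : F →+* F') {y x : F}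
    (hx : x ∈ chart ℤ y) : a x ∈ chart ℤ (a y) :=
  map_mem_chart a (fun c => by rw [eq_intCast, eq_intCast, map_intCast]) hx

end Abstract

/-! ### the coordinate functions over `K = ℚ̄^H` -/

local notation "Kb" => AlgebraicClosure ℚ

variable (H : Subgroup (Kb ≃ₐ[ℚ] Kb))
variable {N0 q : ℕ} [NeZero N0] [NeZero q] [NeZero (N0 * q)]

section LevelOne

variable {Φ : Polynomial (Polynomial ℤ)} (hmonic : Φ.Monic)
  (hΦ : Φ.map (evalL ℤ (jqModC ℤ)) = rPoly q ℤ)

include hmonic hΦ in
/-- level `N0 q`: `j₁ = j(t^q)` is integral over `ℤ[j]` -/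
theorem j1K_mem_chart_j0K : j1K H N0 q ∈ chart ℤ (j0K H (N0 * q)) := by
  refine mem_chart_int_of_isRoot hmonic ?_
  have h := phiK_eq_beta H (N0 := N0) hΦ
  rw [phiK, intEval] at h
  rw [h, IsRoot.def, eval_mul, eval_sub, eval_X, eval_C, sub_self, zero_mul]

include hmonic hΦ in
/-- level `N0 q`: `j` is integral over `ℤ[j₁]` -/
theorem j0K_mem_chart_j1K (hq : q.Prime) : j0K H (N0 * q) ∈ chart ℤ (j1K H N0 q) := by
  refine mem_chart_int_of_isRoot hmonic ?_
  have h := phiK_eq_alpha H (N0 := N0) hq hΦ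
  rw [phiK, intEval] at h
  rw [h, IsRoot.def, eval_mul, eval_sub, eval_X, eval_C, sub_self, zero_mul]

/-- the two coordinate functions of level `N0 q` -/
def jK (N0 q : ℕ) [NeZero N0] [NeZero q] [NeZero (N0 * q)] : Fin 2 → FK H (N0 * q) :=
  ![j0K H (N0 * q), j1K H N0 q]

include hmonic hΦ in
/-- **pairwise integrality at level `N0 q`**, over `ℤ` -/
theorem jK_mem_chart_int (hq : q.Prime) (i k : Fin 2) :
    jK H N0 q i ∈ chart ℤ (jK H N0 q k) := by
  fin_cases i <;> fin_cases k
  · exact self_mem_chart _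
  · exact j0K_mem_chart_j1K H hmonic hΦ hq
  · exact j1K_mem_chart_j0K H hmonic hΦ
  · exact self_mem_chart _

end LevelOne

/-! ### level `N0 q q` -/

section LevelTwo

variable [NeZero (N0 * q * q)]

/-- `j = j(t)` at level `N0 q q` -/
def j0L (N0 q : ℕ) [NeZero N0] [NeZero q] [NeZero (N0 * q)] [NeZero (N0 * q * q)] :
    FK H (N0 * q * q) := j0K H (N0 * q * q)

/-- `j₁ = j(t^q)` at level `N0 q q` -/
def j1L (N0 q : ℕ) [NeZero N0] [NeZero q] [NeZero (N0 * q)] [NeZero (N0 * q * q)] :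
    FK H (N0 * q * q) := alphaK H (N0 * q) q (j1K H N0 q)

/-- `j₂ = j(t^(q²))` at level `N0 q q` -/
def j2L (N0 q : ℕ) [NeZero N0] [NeZero q] [NeZero (N0 * q)] [NeZero (N0 * q * q)] :
    FK H (N0 * q * q) := j2K H N0 q

theorem alphaK_j0K : alphaK H (N0 * q) q (j0K H (N0 * q)) = j0L H N0 q := by
  apply Subtype.ext
  rw [coe_alphaK, j0L, coe_j0K, coe_j0K]

theorem alphaK_j1K : alphaK H (N0 * q) q (j1K H N0 q) = j1L H N0 q := rfl

theorem betaK_j0K : betaK H (N0 * q) q (j0K H (N0 * q)) = j1L H N0 q := by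
  apply Subtype.ext
  rw [coe_betaK, j1L, coe_alphaK, j1K, coe_betaK, coe_j0K, coe_j0K]

theorem betaK_j1K : betaK H (N0 * q) q (j1K H N0 q) = j2L H N0 q := rfl

variable {Φ : Polynomial (Polynomial ℤ)} (hmonic : Φ.Monic)
  (hΦ : Φ.map (evalL ℤ (jqModC ℤ)) = rPoly q ℤ)

include hmonic hΦ in
theorem j1L_mem_chart_j0L : j1L H N0 q ∈ chart ℤ (j0L H N0 q) := by
  have h := map_mem_chart_int (alphaK H (N0 * q) q) (j1K_mem_chart_j0K H (N0 := N0) hmonic hΦ)
  rwa [alphaK_j0K, alphaK_j1K] at h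

include hmonic hΦ in
theorem j0L_mem_chart_j1L (hq : q.Prime) : j0L H N0 q ∈ chart ℤ (j1L H N0 q) := by
  have h := map_mem_chart_int (alphaK H (N0 * q) q) (j0K_mem_chart_j1K H (N0 := N0) hmonic hΦ hq)
  rwa [alphaK_j0K, alphaK_j1K] at h

include hmonic hΦ in
theorem j2L_mem_chart_j1L : j2L H N0 q ∈ chart ℤ (j1L H N0 q) := by
  have h := map_mem_chart_int (betaK H (N0 * q) q) (j1K_mem_chart_j0K H (N0 := N0) hmonic hΦ)
  rwa [betaK_j0K, betaK_j1K] at h

include hmonic hΦ in
theorem j1L_mem_chart_j2L (hq : q.Prime) : j1L H N0 q ∈ chart ℤ (j2L H N0 q) := by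
  have h := map_mem_chart_int (betaK H (N0 * q) q) (j0K_mem_chart_j1K H (N0 := N0) hmonic hΦ hq)
  rwa [betaK_j0K, betaK_j1K] at h

include hmonic hΦ in
theorem j2L_mem_chart_j0L : j2L H N0 q ∈ chart ℤ (j0L H N0 q) :=
  mem_chart_of_mem_chart (j1L_mem_chart_j0L H hmonic hΦ) (j2L_mem_chart_j1L H hmonic hΦ)

include hmonic hΦ in
theorem j0L_mem_chart_j2L (hq : q.Prime) : j0L H N0 q ∈ chart ℤ (j2L H N0 q) :=
  mem_chart_of_mem_chart (j1L_mem_chart_j2L H hmonic hΦ hq) (j0L_mem_chart_j1L H hmonic hΦ hq)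

/-- the three coordinate functions of level `N0 q q` -/
def jL (N0 q : ℕ) [NeZero N0] [NeZero q] [NeZero (N0 * q)] [NeZero (N0 * q * q)] :
    Fin 3 → FK H (N0 * q * q) :=
  ![j0L H N0 q, j1L H N0 q, j2L H N0 q]

include hmonic hΦ in
/-- **pairwise integrality at level `N0 q q`**, over `ℤ` -/
theorem jL_mem_chart_int (hq : q.Prime) (i k : Fin 3) :
    jL H N0 q i ∈ chart ℤ (jL H N0 q k) := by
  fin_cases i <;> fin_cases k
  · exact self_mem_chart _
  · exact j0L_mem_chart_j1L H hmonic hΦ hq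
  · exact j0L_mem_chart_j2L H hmonic hΦ hq
  · exact j1L_mem_chart_j0L H hmonic hΦ
  · exact self_mem_chart _
  · exact j1L_mem_chart_j2L H hmonic hΦ hq
  · exact j2L_mem_chart_j0L H hmonic hΦ
  · exact j2L_mem_chart_j1L H hmonic hΦ
  · exact self_mem_chart _

end LevelTwo

/-! ### hypothesis-free exports -/

section Export

/-- **pairwise integrality of `j, j(t^q), j(t^(q²))` at level `N0 q q`**, over any base ring -/
theorem jL_mem_chart [NeZero (N0 * q * q)] (hq : q.Prime) (O : Type*) [CommRing O]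
    [Algebra O (FK H (N0 * q * q))]
    (i k : Fin 3) : jL H N0 q i ∈ chart O (jL H N0 q k) := by
  haveI : Fact q.Prime := ⟨hq⟩
  obtain ⟨Φ, hmonic, -, hΦ, -⟩ := Fermat.Agent.S34.Kronecker.kronecker q
  exact mem_chart_of_mem_chart_int (jL_mem_chart_int H hmonic hΦ hq i k)

/-- **pairwise integrality of `j, j(t^q)` at level `N0 q`**, over any base ring -/
theorem jK_mem_chart (hq : q.Prime) (O : Type*) [CommRing O] [Algebra O (FK H (N0 * q))]
    (i k : Fin 2) : jK H N0 q i ∈ chart O (jK H N0 q k) := by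
  haveI : Fact q.Prime := ⟨hq⟩
  obtain ⟨Φ, hmonic, -, hΦ, -⟩ := Fermat.Agent.S34.Kronecker.kronecker q
  exact mem_chart_of_mem_chart_int (jK_mem_chart_int H hmonic hΦ hq i k)

/-- the `hint` hypothesis of `S36/SymChart` (`mem_chart_prod`, `map_mem_chart_prod`, …) for the
family `jL = ![j, j(t^q), j(t^(q²))]` at level `N0 q q` -/
theorem jL_isIntegral [NeZero (N0 * q * q)] (hq : q.Prime) (O : Type*) [CommRing O]
    [Algebra O (FK H (N0 * q * q))] (i k : Fin 3) :
    IsIntegral (Algebra.adjoin O ({jL H N0 q i} : Set (FK H (N0 * q * q)))) (jL H N0 q k) :=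
  jL_mem_chart H hq O k i

/-- the `hint` hypothesis of `S36/SymChart` for the family `jK = ![j, j(t^q)]` at level `N0 q` -/
theorem jK_isIntegral (hq : q.Prime) (O : Type*) [CommRing O] [Algebra O (FK H (N0 * q))]
    (i k : Fin 2) :
    IsIntegral (Algebra.adjoin O ({jK H N0 q i} : Set (FK H (N0 * q)))) (jK H N0 q k) :=
  jK_mem_chart H hq O k i

@[simp] theorem jL_zero [NeZero (N0 * q * q)] : jL H N0 q 0 = j0L H N0 q := rfl
@[simp] theorem jL_one [NeZero (N0 * q * q)] : jL H N0 q 1 = j1L H N0 q := rfl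
@[simp] theorem jL_two [NeZero (N0 * q * q)] : jL H N0 q 2 = j2L H N0 q := rfl
@[simp] theorem jK_zero : jK H N0 q 0 = j0K H (N0 * q) := rfl
@[simp] theorem jK_one : jK H N0 q 1 = j1K H N0 q := rfl

/-- the chart function `x₂ = j · j(t^q) · j(t^(q²))` of level `N0 q q` -/
theorem prod_jL [NeZero (N0 * q * q)] :
    ∏ i, jL H N0 q i = j0L H N0 q * j1L H N0 q * j2L H N0 q := by
  rw [jL, Fin.prod_univ_three]
  rfl

/-- the chart function `x₁ = j · j(t^q)` of level `N0 q` -/
theorem prod_jK : ∏ i, jK H N0 q i = j0K H (N0 * q) * j1K H N0 q := by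
  rw [jK, Fin.prod_univ_two]
  rfl

/-- `α` maps the family of level `N0 q` to the first two members of the family of level
`N0 q q`, `β` to the last two -/
theorem alphaK_jK [NeZero (N0 * q * q)] (i : Fin 2) :
    alphaK H (N0 * q) q (jK H N0 q i) = jL H N0 q (Fin.castSucc i) := by
  fin_cases i
  · exact alphaK_j0K H
  · exact alphaK_j1K H

theorem betaK_jK [NeZero (N0 * q * q)] (i : Fin 2) :
    betaK H (N0 * q) q (jK H N0 q i) = jL H N0 q (Fin.succ i) := by
  fin_cases i
  · exact betaK_j0K H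
  · exact betaK_j1K H

end Export

end Fermat.Agent.S36.JIntegral
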