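/-
S36 (project V), slice V-SymChart (helper2) = erratum (E1) of CHAIN v1.1: THE SYMMETRIC CHARTS.

Setting: `O` a commutative ring, `F` a field, `Algebra O F`; a finite family `j : ι → F` which is
PAIRWISE INTEGRAL: `j k` is integral over `O[j i]` for all `i k` (at `X₀(N₀ q²)`: `j₀ j₁ j₂`, by the
symmetry of the modular polynomial); `x := ∏ i, j i`.

* `mem_chart_iff` : the valuative criterion for `ChartRing.chart O φ = integralClosure O[φ] F`;
* (S1) `mem_of_prod_mem` : `x ∈ W → j k ∈ W` for every valuation subring `W ⊇ O`;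
* (S3) `inv_mem_of_inv_prod_mem` : `x⁻¹ ∈ W → (j k)⁻¹ ∈ W`; `inv_prod_mem_of_inv_prod_mem`;
* `mem_chart_prod`, `inv_prod_mem_chart_inv_prod`, `prod_mem_chart`, `mem_chart_prod_iff`
  (`chart O x = chart O (j i₀)` as sets);
* (S5) `map_mem_chart` : a ring hom `a : F' → F` over `O` with `a φ' ∈ chart O φ` maps `chart O φ'`
  into `chart O φ`; the symmetric corollaries `map_mem_chart_prod`, `map_mem_chart_inv_prod`;
* (S6) `vertical_of_prod`, `vertical_of_inv_prod` : over a DVR `O`, a valuation subring `W` with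
  `π` a non-unit in which the `O`-primitive polynomials in `x` (resp. in `x⁻¹`) are units is
  vertical for every `j k` (the `O`-primitive polynomials in `j k` are units of `W`).
-/
import Mathlib
import Fermat.Agent.S36.ChartRing

set_option autoImplicit false
set_option linter.unusedSectionVars false
set_option linter.unusedVariables false
set_option linter.style.haveILetI false

noncomputable section

namespace Fermat.Agent.S36.SymChart

open Polynomial Fermat.Agent.S36.ChartRing

/-! ### the valuative criterion -/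

section Valuative

variable {O : Type*} [CommRing O] {F : Type*} [Field F] [Algebra O F]

/-- a valuation subring containing `O` and `φ` contains `O[φ]` -/
theorem adjoin_mem (W : ValuationSubring F) (hO : ∀ c : O, algebraMap O F c ∈ W) {φ : F}
    (hφ : φ ∈ W) (b : Algebra.adjoin O ({φ} : Set F)) : (b : F) ∈ W := by
  have hle : Algebra.adjoin O ({φ} : Set F) ≤
      (⟨W.toSubring.toSubsemiring, fun c => hO c⟩ : Subalgebra O F) :=
    Algebra.adjoin_le (by
      rw [Set.singleton_subset_iff]
      exact hφ)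
  exact hle b.2

/-- integral elements over `O[φ]` lie in every valuation subring containing `O` and `φ` -/
theorem mem_of_isIntegral_adjoin (W : ValuationSubring F) (hO : ∀ c : O, algebraMap O F c ∈ W)
    {φ : F} (hφ : φ ∈ W) {x : F} (hx : IsIntegral (Algebra.adjoin O ({φ} : Set F)) x) : x ∈ W :=
  mem_of_isIntegral W (fun b => adjoin_mem W hO hφ b) hx

/-- **the valuative criterion for the chart ring** -/
theorem mem_chart_iff (φ x : F) :
    x ∈ chart O φ ↔
      ∀ W : ValuationSubring F, (∀ c : O, algebraMap O F c ∈ W) → φ ∈ W → x ∈ W := by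
  constructor
  · intro hx W hO hφ
    exact mem_of_isIntegral_adjoin W hO hφ hx
  · intro h
    by_contra hx
    have hx' : x ∉ (integralClosure (Algebra.adjoin O ({φ} : Set F)) F).toSubring := hx
    obtain ⟨V, hV, hxV⟩ := Subring.exists_le_valuationSubring_of_isIntegrallyClosedIn hx'
    refine hxV (h V (fun c => hV ?_) (hV ?_))
    · have : IsIntegral (Algebra.adjoin O ({φ} : Set F)) (algebraMap O F c) := by
        have : algebraMap O F c =
            algebraMap (Algebra.adjoin O ({φ} : Set F)) F (algebraMap O _ c) := rfl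
        rw [this]
        exact isIntegral_algebraMap
      exact this
    · have : IsIntegral (Algebra.adjoin O ({φ} : Set F)) φ := by
        have : φ = algebraMap (Algebra.adjoin O ({φ} : Set F)) F
            ⟨φ, Algebra.subset_adjoin (Set.mem_singleton φ)⟩ := rfl
        rw [this]
        exact isIntegral_algebraMap
      exact this

theorem isIntegral_adjoin_iff (φ x : F) :
    IsIntegral (Algebra.adjoin O ({φ} : Set F)) x ↔
      ∀ W : ValuationSubring F, (∀ c : O, algebraMap O F c ∈ W) → φ ∈ W → x ∈ W :=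
  mem_chart_iff φ x

/-- integrality over `ℤ[a]` gives integrality over `O[a]` -/
theorem isIntegral_adjoin_of_int {a b : F}
    (h : IsIntegral (Algebra.adjoin ℤ ({a} : Set F)) b) :
    IsIntegral (Algebra.adjoin O ({a} : Set F)) b :=
  (isIntegral_adjoin_iff a b).2 fun W _ ha =>
    (isIntegral_adjoin_iff (O := ℤ) a b).1 h W (fun c => by
      rw [eq_intCast]
      exact intCast_mem W c) ha

/-- integrality over `R[a]` from a bivariate polynomial, monic in the outer variable -/
theorem isIntegral_adjoin_of_eval {R : Type*} [CommRing R] [Algebra R F] (P : R[X][X])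
    (hP : P.Monic) (a b : F)
    (h : (P.map ((aeval a : R[X] →ₐ[R] F) : R[X] →+* F)).eval b = 0) :
    IsIntegral (Algebra.adjoin R ({a} : Set F)) b := by
  have hmem : ∀ p : R[X], aeval a p ∈ Algebra.adjoin R ({a} : Set F) := fun p => by
    rw [Algebra.adjoin_singleton_eq_range_aeval]
    exact ⟨p, rfl⟩
  let g : R[X] →+* Algebra.adjoin R ({a} : Set F) :=
    ((aeval a : R[X] →ₐ[R] F) : R[X] →+* F).codRestrict (Algebra.adjoin R ({a} : Set F)) hmem
  refine ⟨P.map g, hP.map g, ?_⟩
  rw [eval₂_map]
  have hcomp : (algebraMap (Algebra.adjoin R ({a} : Set F)) F).comp g =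
      ((aeval a : R[X] →ₐ[R] F) : R[X] →+* F) := by
    ext p <;> rfl
  rw [hcomp, eval₂_eq_eval_map]
  exact h

end Valuative

/-! ### (S1), (S3): the symmetric family -/

section Sym

variable {O : Type*} [CommRing O] {F : Type*} [Field F] [Algebra O F]
variable {ι : Type*} [Fintype ι] [DecidableEq ι] {j : ι → F}

/-- **(S1)** if the product of a pairwise integral family lies in a valuation subring, so does
every member -/
theorem mem_of_prod_mem
    (hint : ∀ i k, IsIntegral (Algebra.adjoin O ({j i} : Set F)) (j k))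
    (W : ValuationSubring F) (hO : ∀ c : O, algebraMap O F c ∈ W)
    (hx : ∏ i, j i ∈ W) (k : ι) : j k ∈ W := by
  by_contra hk
  have hall : ∀ i, j i ∉ W := fun i hi => hk (mem_of_isIntegral_adjoin W hO hi (hint i k))
  have hinv : ∀ i, (j i)⁻¹ ∈ W := fun i => (W.mem_or_inv_mem (j i)).resolve_left (hall i)
  have hne : ∀ i, j i ≠ 0 := fun i h0 => hall i (h0 ▸ W.zero_mem)
  have hk' : j k = (∏ i, j i) * ∏ i ∈ Finset.univ.erase k, (j i)⁻¹ := by
    rw [← Finset.mul_prod_erase Finset.univ j (Finset.mem_univ k), mul_assoc,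
      ← Finset.prod_mul_distrib]
    rw [Finset.prod_eq_one (fun i _ => mul_inv_cancel₀ (hne i)), mul_one]
  apply hk
  rw [hk']
  exact W.mul_mem _ _ hx (W.toSubring.prod_mem fun i _ => hinv i)

/-- **(S3)** if the inverse of the product lies in a valuation subring, so does the inverse of
every member (the members being nonzero) -/
theorem inv_mem_of_inv_prod_mem
    (hint : ∀ i k, IsIntegral (Algebra.adjoin O ({j i} : Set F)) (j k)) (hne : ∀ i, j i ≠ 0)
    (W : ValuationSubring F) (hO : ∀ c : O, algebraMap O F c ∈ W)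
    (hx : (∏ i, j i)⁻¹ ∈ W) (k : ι) : (j k)⁻¹ ∈ W := by
  by_contra hk
  have hjk : j k ∈ W := (W.mem_or_inv_mem (j k)).resolve_right hk
  have hall : ∀ i, j i ∈ W := fun i => mem_of_isIntegral_adjoin W hO hjk (hint k i)
  have h0 : ∏ i ∈ Finset.univ.erase k, j i ≠ 0 := Finset.prod_ne_zero_iff.2 fun i _ => hne i
  have hk' : (j k)⁻¹ = (∏ i, j i)⁻¹ * ∏ i ∈ Finset.univ.erase k, j i := by
    rw [← Finset.mul_prod_erase Finset.univ j (Finset.mem_univ k), mul_inv, mul_assoc,
      inv_mul_cancel₀ h0, mul_one]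
  apply hk
  rw [hk']
  exact W.mul_mem _ _ hx (W.toSubring.prod_mem fun i _ => hall i)

/-- (S3) for partial products -/
theorem inv_prod_mem_of_inv_prod_mem
    (hint : ∀ i k, IsIntegral (Algebra.adjoin O ({j i} : Set F)) (j k)) (hne : ∀ i, j i ≠ 0)
    (W : ValuationSubring F) (hO : ∀ c : O, algebraMap O F c ∈ W)
    (hx : (∏ i, j i)⁻¹ ∈ W) (t : Finset ι) : (∏ i ∈ t, j i)⁻¹ ∈ W := by
  rw [← Finset.prod_inv_distrib]
  exact W.toSubring.prod_mem fun i _ => inv_mem_of_inv_prod_mem hint hne W hO hx i

/-- (S1) for partial products -/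
theorem prod_mem_of_prod_mem
    (hint : ∀ i k, IsIntegral (Algebra.adjoin O ({j i} : Set F)) (j k))
    (W : ValuationSubring F) (hO : ∀ c : O, algebraMap O F c ∈ W)
    (hx : ∏ i, j i ∈ W) (t : Finset ι) : ∏ i ∈ t, j i ∈ W :=
  W.toSubring.prod_mem fun i _ => mem_of_prod_mem hint W hO hx i

/-! ### the charts of the product -/

/-- every member lies in the chart of the product -/
theorem mem_chart_prod (hint : ∀ i k, IsIntegral (Algebra.adjoin O ({j i} : Set F)) (j k))
    (k : ι) : j k ∈ chart O (∏ i, j i) :=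
  (mem_chart_iff _ _).2 fun W hO hx => mem_of_prod_mem hint W hO hx k

/-- partial products lie in the chart of the product -/
theorem prod_mem_chart_prod (hint : ∀ i k, IsIntegral (Algebra.adjoin O ({j i} : Set F)) (j k))
    (t : Finset ι) : ∏ i ∈ t, j i ∈ chart O (∏ i, j i) :=
  (mem_chart_iff _ _).2 fun W hO hx => prod_mem_of_prod_mem hint W hO hx t

/-- inverses of partial products lie in the chart of the inverse of the product -/
theorem inv_prod_mem_chart_inv_prod
    (hint : ∀ i k, IsIntegral (Algebra.adjoin O ({j i} : Set F)) (j k)) (hne : ∀ i, j i ≠ 0)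
    (t : Finset ι) : (∏ i ∈ t, j i)⁻¹ ∈ chart O (∏ i, j i)⁻¹ :=
  (mem_chart_iff _ _).2 fun W hO hx => inv_prod_mem_of_inv_prod_mem hint hne W hO hx t

/-- the inverse of a member lies in the chart of the inverse of the product -/
theorem inv_mem_chart_inv_prod
    (hint : ∀ i k, IsIntegral (Algebra.adjoin O ({j i} : Set F)) (j k)) (hne : ∀ i, j i ≠ 0)
    (k : ι) : (j k)⁻¹ ∈ chart O (∏ i, j i)⁻¹ :=
  (mem_chart_iff _ _).2 fun W hO hx => inv_mem_of_inv_prod_mem hint hne W hO hx k

/-- the product lies in the chart of every member -/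
theorem prod_mem_chart (hint : ∀ i k, IsIntegral (Algebra.adjoin O ({j i} : Set F)) (j k))
    (i₀ : ι) : ∏ i, j i ∈ chart O (j i₀) :=
  (mem_chart_iff _ _).2 fun W hO hx =>
    W.toSubring.prod_mem fun i _ => mem_of_isIntegral_adjoin W hO hx (hint i₀ i)

/-- **the chart of the product is the chart of any member** (as sets) -/
theorem mem_chart_prod_iff (hint : ∀ i k, IsIntegral (Algebra.adjoin O ({j i} : Set F)) (j k))
    (i₀ : ι) (x : F) : x ∈ chart O (∏ i, j i) ↔ x ∈ chart O (j i₀) := by
  rw [mem_chart_iff, mem_chart_iff]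
  constructor
  · intro h W hO hi
    exact h W hO (W.toSubring.prod_mem fun i _ => mem_of_isIntegral_adjoin W hO hi (hint i₀ i))
  · intro h W hO hx
    exact h W hO (mem_of_prod_mem hint W hO hx i₀)

theorem chart_prod_toSubring_eq
    (hint : ∀ i k, IsIntegral (Algebra.adjoin O ({j i} : Set F)) (j k)) (i₀ : ι) :
    (chart O (∏ i, j i)).toSubring = (chart O (j i₀)).toSubring :=
  Subring.ext fun x => mem_chart_prod_iff hint i₀ x

end Sym

/-! ### (S5): transport of charts along field homomorphisms -/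

section Transport

variable {O : Type*} [CommRing O] {F : Type*} [Field F] [Algebra O F]
variable {F' : Type*} [Field F'] [Algebra O F']

/-- **(S5)** a ring hom `a : F' → F` over `O` with `a φ' ∈ chart O φ` maps `chart O φ'` into
`chart O φ` -/
theorem map_mem_chart (a : F' →+* F) (ha : ∀ c : O, a (algebraMap O F' c) = algebraMap O F c)
    {φ' : F'} {φ : F} (hφ : a φ' ∈ chart O φ) {y : F'} (hy : y ∈ chart O φ') :
    a y ∈ chart O φ := by
  rw [mem_chart_iff] at hφ hy ⊢
  intro W hO hW
  have h1 : y ∈ W.comap a := by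
    refine hy (W.comap a) (fun c => ?_) ?_
    · change a (algebraMap O F' c) ∈ W
      rw [ha]
      exact hO c
    · exact hφ W hO hW
  exact h1

variable {ι : Type*} [Fintype ι] [DecidableEq ι] {j : ι → F}

/-- the finite chart: `a φ'` a partial product -/
theorem map_mem_chart_prod (hint : ∀ i k, IsIntegral (Algebra.adjoin O ({j i} : Set F)) (j k))
    (a : F' →+* F) (ha : ∀ c : O, a (algebraMap O F' c) = algebraMap O F c)
    {φ' : F'} (t : Finset ι) (hφ : a φ' = ∏ i ∈ t, j i) {y : F'} (hy : y ∈ chart O φ') :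
    a y ∈ chart O (∏ i, j i) :=
  map_mem_chart a ha (hφ ▸ prod_mem_chart_prod hint t) hy

/-- the infinite chart: `a φ'⁻¹` the inverse of a partial product -/
theorem map_mem_chart_inv_prod
    (hint : ∀ i k, IsIntegral (Algebra.adjoin O ({j i} : Set F)) (j k)) (hne : ∀ i, j i ≠ 0)
    (a : F' →+* F) (ha : ∀ c : O, a (algebraMap O F' c) = algebraMap O F c)
    {φ' : F'} (t : Finset ι) (hφ : a φ' = ∏ i ∈ t, j i) {y : F'} (hy : y ∈ chart O φ'⁻¹) :
    a y ∈ chart O (∏ i, j i)⁻¹ := by
  refine map_mem_chart a ha ?_ hy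
  rw [map_inv₀, hφ]
  exact inv_prod_mem_chart_inv_prod hint hne t

end Transport

/-! ### (S6): vertical valuation subrings -/

section Vertical

open IsLocalRing

variable {O : Type*} [CommRing O] [IsDomain O] [IsDiscreteValuationRing O]
variable {F : Type*} [Field F] [Algebra O F]

/-- the structure map `O → W` -/
def toW (W : ValuationSubring F) (hO : ∀ c : O, algebraMap O F c ∈ W) : O →+* W :=
  (algebraMap O F).codRestrict W.toSubring hO

@[simp] theorem coe_toW (W : ValuationSubring F) (hO : ∀ c : O, algebraMap O F c ∈ W) (c : O) :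
    ((toW W hO c : W) : F) = algebraMap O F c := rfl

/-- a unit of `W` has its inverse in `W` -/
theorem inv_mem_of_isUnit (W : ValuationSubring F) {u : W} (hu : IsUnit u) :
    ((u : W) : F)⁻¹ ∈ W := by
  obtain ⟨v, hv⟩ := hu.exists_right_inv
  have h1 : ((u : W) : F) * ((v : W) : F) = 1 := by
    have := congrArg (fun w : W => (w : F)) hv
    simpa using this
  rw [inv_eq_of_mul_eq_one_right h1]
  exact v.2

/-- an element of `W` whose inverse lies in `W` is a unit -/
theorem isUnit_of_inv_mem (W : ValuationSubring F) {z : F} (hz : z ∈ W) (hz0 : z ≠ 0)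
    (hinv : z⁻¹ ∈ W) : IsUnit (⟨z, hz⟩ : W) := by
  refine IsUnit.of_mul_eq_one (⟨z⁻¹, hinv⟩ : W) ?_
  apply Subtype.ext
  change z * z⁻¹ = 1
  exact mul_inv_cancel₀ hz0

/-- `O → W` is a local homomorphism as soon as the uniformiser is a non-unit of `W` -/
theorem isLocalHom_toW (W : ValuationSubring F) (hO : ∀ c : O, algebraMap O F c ∈ W) {π : O}
    (hπ : Irreducible π) (hπW : (algebraMap O F π)⁻¹ ∉ W) : IsLocalHom (toW W hO) := by
  refine ⟨fun a ha => ?_⟩
  by_contra hna
  have hmem : a ∈ maximalIdeal O := (mem_maximalIdeal a).2 hna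
  rw [hπ.maximalIdeal_eq, Ideal.mem_span_singleton'] at hmem
  obtain ⟨b, rfl⟩ := hmem
  rw [map_mul] at ha
  have hπu : IsUnit (toW W hO π) := isUnit_of_mul_isUnit_right ha
  exact hπW (inv_mem_of_isUnit W hπu)

variable (W : ValuationSubring F) (hO : ∀ c : O, algebraMap O F c ∈ W) {π : O}
  (hπ : Irreducible π) (hπW : (algebraMap O F π)⁻¹ ∉ W)

/-- the residue field of `W` as an algebra over the residue field of `O` -/
@[instance_reducible]
def resAlgebra : Algebra (ResidueField O) (ResidueField W) :=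
  haveI := isLocalHom_toW W hO hπ hπW
  (ResidueField.map (toW W hO)).toAlgebra

theorem resAlgebra_algebraMap_residue (c : O) :
    letI := resAlgebra W hO hπ hπW
    algebraMap (ResidueField O) (ResidueField W) (residue O c) = residue W (toW W hO c) := by
  letI := resAlgebra W hO hπ hπW
  haveI := isLocalHom_toW W hO hπ hπW
  change ResidueField.map (toW W hO) (residue O c) = _
  rw [ResidueField.map_residue]

/-- evaluation of a polynomial over `O` at an element of `W`, in `W` -/
theorem coe_eval₂_toW {z : F} (hz : z ∈ W) (s : O[X]) :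
    ((s.eval₂ (toW W hO) ⟨z, hz⟩ : W) : F) = aeval z s := by
  have h := Polynomial.hom_eval₂ s (toW W hO) W.subtype ⟨z, hz⟩
  rw [aeval_def]
  exact h

include hO in
theorem aeval_mem {z : F} (hz : z ∈ W) (s : O[X]) : aeval z s ∈ W := by
  rw [← coe_eval₂_toW W hO hz s]
  exact (s.eval₂ (toW W hO) ⟨z, hz⟩).2

/-- the reduction of `s(z)` is `s̄(z̄)` -/
theorem residue_aeval {z : F} (hz : z ∈ W) (s : O[X]) :
    letI := resAlgebra W hO hπ hπW
    residue W ⟨aeval z s, aeval_mem W hO hz s⟩ =
      aeval (residue W ⟨z, hz⟩) (s.map (residue O)) := by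
  letI := resAlgebra W hO hπ hπW
  have h1 : (⟨aeval z s, aeval_mem W hO hz s⟩ : W) = s.eval₂ (toW W hO) ⟨z, hz⟩ :=
    Subtype.ext (coe_eval₂_toW W hO hz s).symm
  rw [h1, Polynomial.hom_eval₂, aeval_def, eval₂_map]
  congr 1

/-- **Lemma A**: a primitive polynomial relation modulo `m_W` makes the residue integral -/
theorem isIntegral_residue_of_not_inv_mem {z : F} (hz : z ∈ W) {s : O[X]}
    (hs : ∃ i, IsUnit (s.coeff i)) (hsz : (aeval z s)⁻¹ ∉ W) :
    letI := resAlgebra W hO hπ hπW
    IsIntegral (ResidueField O) (residue W ⟨z, hz⟩) := by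
  letI := resAlgebra W hO hπ hπW
  have hne : s.map (residue O) ≠ 0 := by
    obtain ⟨i, hi⟩ := hs
    intro h0
    have : (s.map (residue O)).coeff i = 0 := by rw [h0, coeff_zero]
    rw [coeff_map] at this
    exact ((residue_eq_zero_iff _).1 this) hi
  have hzero : residue W ⟨aeval z s, aeval_mem W hO hz s⟩ = 0 := by
    rw [residue_eq_zero_iff, mem_maximalIdeal]
    intro hu
    exact hsz (inv_mem_of_isUnit W hu)
  rw [residue_aeval W hO hπ hπW hz s] at hzero
  exact IsAlgebraic.isIntegral ⟨_, hne, hzero⟩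

/-- **Lemma B**: an integral residue of a transcendental element gives a primitive polynomial
which is not a unit of `W` -/
theorem exists_not_inv_mem_of_isIntegral_residue {z : F} (hz : z ∈ W)
    (htr : Transcendental O z)
    (hint : letI := resAlgebra W hO hπ hπW
      IsIntegral (ResidueField O) (residue W ⟨z, hz⟩)) :
    ∃ s : O[X], (∃ i, IsUnit (s.coeff i)) ∧ (aeval z s)⁻¹ ∉ W := by
  letI := resAlgebra W hO hπ hπW
  obtain ⟨p, hp, hpz⟩ := hint
  obtain ⟨s, hs⟩ := Polynomial.map_surjective (residue O) residue_surjective p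
  refine ⟨s, ⟨p.natDegree, ?_⟩, fun hinv => ?_⟩
  · have h1 : residue O (s.coeff p.natDegree) = 1 := by
      rw [← coeff_map, hs]
      exact hp.coeff_natDegree
    by_contra hnu
    have : residue O (s.coeff p.natDegree) = 0 :=
      (residue_eq_zero_iff _).2 ((mem_maximalIdeal _).2 hnu)
    rw [h1] at this
    exact one_ne_zero this
  · have hs0 : s ≠ 0 := by
      rintro rfl
      rw [Polynomial.map_zero] at hs
      exact hp.ne_zero hs.symm
    have hne : aeval z s ≠ 0 := fun h0 => hs0 (transcendental_iff.1 htr s h0)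
    have hu : IsUnit (⟨aeval z s, aeval_mem W hO hz s⟩ : W) :=
      isUnit_of_inv_mem W _ hne hinv
    have hres : residue W ⟨aeval z s, aeval_mem W hO hz s⟩ ≠ 0 := by
      intro h0
      rw [residue_eq_zero_iff, mem_maximalIdeal] at h0
      exact h0 hu
    apply hres
    rw [residue_aeval W hO hπ hπW hz s, hs, aeval_def]
    exact hpz

/-- **Lemma C**: integrality over `O[z]` passes to the residues -/
theorem isIntegral_residue_of_isIntegral_adjoin {z y : F} (hz : z ∈ W) (hy : y ∈ W)
    (hyz : IsIntegral (Algebra.adjoin O ({z} : Set F)) y)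
    (hzint : letI := resAlgebra W hO hπ hπW
      IsIntegral (ResidueField O) (residue W ⟨z, hz⟩)) :
    letI := resAlgebra W hO hπ hπW
    IsIntegral (ResidueField O) (residue W ⟨y, hy⟩) := by
  letI := resAlgebra W hO hπ hπW
  set C : Subalgebra (ResidueField O) (ResidueField W) :=
    integralClosure (ResidueField O) (ResidueField W) with hC
  -- the inclusion `O[z] → W`
  let incl : Algebra.adjoin O ({z} : Set F) →+* W :=
    (algebraMap (Algebra.adjoin O ({z} : Set F)) F).codRestrict W.toSubring
      (fun b => adjoin_mem W hO hz b)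
  have hincl : ∀ b, ((incl b : W) : F) = (b : F) := fun b => rfl
  -- its reduction lands in `C`
  have hmem : ∀ b : Algebra.adjoin O ({z} : Set F), residue W (incl b) ∈ C := by
    rintro ⟨b, hb⟩
    induction hb using Algebra.adjoin_induction with
    | mem x hx =>
      rw [Set.mem_singleton_iff] at hx
      subst hx
      exact hzint
    | algebraMap c =>
      have : incl ⟨algebraMap O F c, Subalgebra.algebraMap_mem _ c⟩ = toW W hO c :=
        Subtype.ext rfl
      rw [this, ← resAlgebra_algebraMap_residue W hO hπ hπW c]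
      exact Subalgebra.algebraMap_mem C _
    | add x y hx hy hx' hy' =>
      have : incl ⟨x + y, Subalgebra.add_mem _ hx hy⟩ = incl ⟨x, hx⟩ + incl ⟨y, hy⟩ :=
        Subtype.ext rfl
      rw [this, map_add]
      exact C.add_mem hx' hy'
    | mul x y hx hy hx' hy' =>
      have : incl ⟨x * y, Subalgebra.mul_mem _ hx hy⟩ = incl ⟨x, hx⟩ * incl ⟨y, hy⟩ :=
        Subtype.ext rfl
      rw [this, map_mul]
      exact C.mul_mem hx' hy'
  let h' : Algebra.adjoin O ({z} : Set F) →+* C :=
    ((residue W).comp incl).codRestrict C (fun b => hmem b)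
  obtain ⟨P, hP, hPy⟩ := hyz
  have hyC : IsIntegral C (residue W ⟨y, hy⟩) := by
    refine ⟨P.map h', hP.map h', ?_⟩
    rw [eval₂_map]
    have hcomp : (algebraMap C (ResidueField W)).comp h' = (residue W).comp incl := by
      ext b
      rfl
    rw [hcomp, ← Polynomial.hom_eval₂]
    have h0 : P.eval₂ incl ⟨y, hy⟩ = 0 := by
      apply Subtype.ext
      have := Polynomial.hom_eval₂ P incl W.subtype ⟨y, hy⟩
      change W.subtype (P.eval₂ incl ⟨y, hy⟩) = 0
      rw [this]
      exact hPy
    rw [h0, map_zero]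
  exact isIntegral_trans (R := ResidueField O) (A := C) _ hyC

variable {ι : Type*} [Fintype ι] [DecidableEq ι] {j : ι → F}

/-- the residues of all members are integral as soon as one is -/
theorem isIntegral_residue_prod
    (hint : ∀ i k, IsIntegral (Algebra.adjoin O ({j i} : Set F)) (j k))
    (hj : ∀ i, j i ∈ W) (hx : ∏ i, j i ∈ W) (k : ι)
    (hk : letI := resAlgebra W hO hπ hπW
      IsIntegral (ResidueField O) (residue W ⟨j k, hj k⟩)) :
    letI := resAlgebra W hO hπ hπW
    IsIntegral (ResidueField O) (residue W ⟨∏ i, j i, hx⟩) := by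
  letI := resAlgebra W hO hπ hπW
  have hall : ∀ i, IsIntegral (ResidueField O) (residue W ⟨j i, hj i⟩) := fun i =>
    isIntegral_residue_of_isIntegral_adjoin W hO hπ hπW (hj k) (hj i) (hint k i) hk
  have h1 : (⟨∏ i, j i, hx⟩ : W) = ∏ i, (⟨j i, hj i⟩ : W) := by
    apply Subtype.ext
    change _ = W.subtype _
    rw [map_prod]
    rfl
  rw [h1, map_prod]
  exact IsIntegral.prod _ fun i _ => hall i

include hO hπ hπW in
/-- **(S6), finite chart**: a valuation subring in which `π` is a non-unit and the `O`-primitive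
polynomials in `x = ∏ j` are units is vertical for every member `j k` -/
theorem vertical_of_prod
    (hint : ∀ i k, IsIntegral (Algebra.adjoin O ({j i} : Set F)) (j k))
    (htr : Transcendental O (∏ i, j i)) (hx : ∏ i, j i ∈ W)
    (hprim : ∀ s : O[X], (∃ i, IsUnit (s.coeff i)) → (aeval (∏ i, j i) s)⁻¹ ∈ W)
    (k : ι) (s : O[X]) (hs : ∃ i, IsUnit (s.coeff i)) : (aeval (j k) s)⁻¹ ∈ W := by
  by_contra hsk
  have hj : ∀ i, j i ∈ W := fun i => mem_of_prod_mem hint W hO hx i
  have hk := isIntegral_residue_of_not_inv_mem W hO hπ hπW (hj k) hs hsk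
  have hxint := isIntegral_residue_prod W hO hπ hπW hint hj hx k hk
  obtain ⟨p, hp, hpx⟩ := exists_not_inv_mem_of_isIntegral_residue W hO hπ hπW hx htr hxint
  exact hpx (hprim p hp)

include hO hπ hπW in
/-- **(S6), infinite chart**: a valuation subring in which `π` is a non-unit and the
`O`-primitive polynomials in `x⁻¹ = (∏ j)⁻¹` are units contains every `j k` and is vertical for
every member `j k` -/
theorem vertical_of_inv_prod
    (hint : ∀ i k, IsIntegral (Algebra.adjoin O ({j i} : Set F)) (j k))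
    (htr : Transcendental O (∏ i, j i)⁻¹)
    (hprim : ∀ s : O[X], (∃ i, IsUnit (s.coeff i)) → (aeval (∏ i, j i)⁻¹ s)⁻¹ ∈ W)
    (hxinv : (∏ i, j i)⁻¹ ∈ W) (k : ι) :
    j k ∈ W ∧ ∀ s : O[X], (∃ i, IsUnit (s.coeff i)) → (aeval (j k) s)⁻¹ ∈ W := by
  have hx : ∏ i, j i ∈ W := by
    have h := hprim X ⟨1, by simp⟩
    rwa [aeval_X, inv_inv] at h
  have hj : ∀ i, j i ∈ W := fun i => mem_of_prod_mem hint W hO hx i
  refine ⟨hj k, fun s hs => ?_⟩
  by_contra hsk
  letI := resAlgebra W hO hπ hπW
  have hk := isIntegral_residue_of_not_inv_mem W hO hπ hπW (hj k) hs hsk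
  have hxint := isIntegral_residue_prod W hO hπ hπW hint hj hx k hk
  have hx0 : (∏ i, j i)⁻¹ ≠ 0 := by
    intro h0
    have h1 : aeval (∏ i, j i)⁻¹ (X : O[X]) = 0 := by rw [aeval_X, h0]
    exact X_ne_zero (transcendental_iff.1 htr X h1)
  have hmul : residue W ⟨(∏ i, j i)⁻¹, hxinv⟩ * residue W ⟨∏ i, j i, hx⟩ = 1 := by
    rw [← map_mul]
    have : (⟨(∏ i, j i)⁻¹, hxinv⟩ : W) * ⟨∏ i, j i, hx⟩ = 1 := by
      apply Subtype.ext
      change (∏ i, j i)⁻¹ * ∏ i, j i = 1
      exact inv_mul_cancel₀ (fun h => hx0 (by rw [h, inv_zero]))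
    rw [this, map_one]
  have hinvint : IsIntegral (ResidueField O) (residue W ⟨(∏ i, j i)⁻¹, hxinv⟩) := by
    rw [eq_inv_of_mul_eq_one_left hmul]
    exact hxint.inv
  obtain ⟨p, hp, hpx⟩ :=
    exists_not_inv_mem_of_isIntegral_residue W hO hπ hπW hxinv htr hinvint
  exact hpx (hprim p hp)

end Vertical

/-! ### explicit families of two and three elements -/

section Explicit

variable {O : Type*} [CommRing O] {F : Type*} [Field F] [Algebra O F]

theorem isIntegral_adjoin_self (a : F) : IsIntegral (Algebra.adjoin O ({a} : Set F)) a := by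
  have : a = algebraMap (Algebra.adjoin O ({a} : Set F)) F
      ⟨a, Algebra.subset_adjoin (Set.mem_singleton a)⟩ := rfl
  rw [this]
  exact isIntegral_algebraMap

/-- the pairwise integrality hypothesis for `![j₀, j₁]` -/
theorem pairwise_two {j₀ j₁ : F}
    (h01 : IsIntegral (Algebra.adjoin O ({j₀} : Set F)) j₁)
    (h10 : IsIntegral (Algebra.adjoin O ({j₁} : Set F)) j₀) (i k : Fin 2) :
    IsIntegral (Algebra.adjoin O ({![j₀, j₁] i} : Set F)) (![j₀, j₁] k) := by
  fin_cases i <;> fin_cases k
  · exact isIntegral_adjoin_self j₀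
  · exact h01
  · exact h10
  · exact isIntegral_adjoin_self j₁

/-- the pairwise integrality hypothesis for `![j₀, j₁, j₂]` -/
theorem pairwise_three {j₀ j₁ j₂ : F}
    (h01 : IsIntegral (Algebra.adjoin O ({j₀} : Set F)) j₁)
    (h02 : IsIntegral (Algebra.adjoin O ({j₀} : Set F)) j₂)
    (h10 : IsIntegral (Algebra.adjoin O ({j₁} : Set F)) j₀)
    (h12 : IsIntegral (Algebra.adjoin O ({j₁} : Set F)) j₂)
    (h20 : IsIntegral (Algebra.adjoin O ({j₂} : Set F)) j₀)
    (h21 : IsIntegral (Algebra.adjoin O ({j₂} : Set F)) j₁) (i k : Fin 3) :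
    IsIntegral (Algebra.adjoin O ({![j₀, j₁, j₂] i} : Set F)) (![j₀, j₁, j₂] k) := by
  fin_cases i <;> fin_cases k
  · exact isIntegral_adjoin_self j₀
  · exact h01
  · exact h02
  · exact h10
  · exact isIntegral_adjoin_self j₁
  · exact h12
  · exact h20
  · exact h21
  · exact isIntegral_adjoin_self j₂

/-- transitivity of integrality over adjoined elements (to get `h02`, `h20` from the
neighbouring relations) -/
theorem isIntegral_adjoin_trans {a b c : F}
    (hab : IsIntegral (Algebra.adjoin O ({a} : Set F)) b)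
    (hbc : IsIntegral (Algebra.adjoin O ({b} : Set F)) c) :
    IsIntegral (Algebra.adjoin O ({a} : Set F)) c :=
  (isIntegral_adjoin_iff a c).2 fun W hO ha =>
    (isIntegral_adjoin_iff b c).1 hbc W hO ((isIntegral_adjoin_iff a b).1 hab W hO ha)

theorem prod_two (j₀ j₁ : F) : ∏ i, ![j₀, j₁] i = j₀ * j₁ := by
  simp [Fin.prod_univ_two]

theorem prod_three (j₀ j₁ j₂ : F) : ∏ i, ![j₀, j₁, j₂] i = j₀ * j₁ * j₂ := by
  simp [Fin.prod_univ_three]

end Explicit

end Fermat.Agent.S36.SymChart
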