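/-
PROJECT V (S36), slice V-CompNormal = chain (V8), the `X₀` WIRING (helper26), hypotheses first:
**the reductions of the two symmetric charts of level `N0 q q` along the three vertical valuations
`W₂₀ W₁₁ W₀₂` are ONTO the two charts of the component.**

Input: `Y : ThreeValX0.Hyp H N0 q κ` (the three valuation rings of `F₂ = F_K(N0 q q)`, their residue
maps and the level-`q` normalisation (D5)), a base ring `O` acting compatibly on the three levels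
(`O = O₀ = W A` at `X₀`, instances of `S36/ChartX0`), `π : O →+* k`, and the `K₀`-rational lift with
pole control at level `N0` (slice V-LiftK0, `S36/LiftK0Chart`): `Base.hlift`, `Base.hlift'`.

Chart function (ruling #2590 (1)): `x₂ = j · j(t^q) · j(t^(q²)) = ∏ i, jL i` (`S36/JIntegral`).

Output: `branch₂₀ branch₁₁ : Branch Y O π W r (a₀ H N0 q) 0` (through `a₀ = α ∘ α₀`) and
`branch₀₂ : Branch Y O π Y.W₀₂ Y.r₀₂ (a₂ H N0 q) 2` (through `a₂ = β ∘ β₀`), and for every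
`B : Branch Y O π W r a i₀`:
* `B.algebraMap_mem`, `B.r_algebraMap` : the constants (`hO`, `hr` of `CompNormal.rho`);
* `B.jL_mem`, `B.x2_mem`, `B.x2_inv_mem`, `B.exists_r_x2` (`r_W x₂` is a power of `J`); the nine
  values `r₂₀_jL0 … r₀₂_jL2` (`J, J^q, J^(q²)` / `J, J^q, J` / `J^(q²), J^q, J`);
* `B.r_x2_mem_chart`, `B.r_x2_inv_mem_chart` (`hJ` of `CompNormal.rho`, both charts);
* **`B.hlift`, `B.hlift_inv`** : the lifting property in the literal shape of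
  `CompNormal.rho_surjective` / `CompNormalAway.range_chart`;
* `B.rho_surjective`, `B.rho_inv_surjective` : surjectivity of the bundled reductions;
  `B.range_chart`, `B.range_chart_inv` : `r_W (chart O x₂) = chart k J`,
  `r_W (chart O x₂⁻¹) = chart k J⁻¹` as subrings of `κ`;
* `B.dimensionLEOne_range_away`, `B.root_mem_range_away` (+ `_inv`) : the two `BranchRings` fields
  of chain (V17) `OpenData` for the principal opens `D(g)` of both charts.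
-/
import Mathlib
import Fermat.Agent.S36.CompNormal
import Fermat.Agent.S36.CompNormalAway
import Fermat.Agent.S36.SymChart
import Fermat.Agent.S36.JIntegral
import Fermat.Agent.S36.ThreeValX0

set_option autoImplicit false
set_option linter.unusedSectionVars false
set_option linter.unusedVariables false
set_option linter.style.haveILetI false

noncomputable section

namespace Fermat.Agent.S36.CompNormalX0

open Fermat.Agent.S36.ChartRing Fermat.Agent.S36.CompNormal Fermat.Agent.S36.PowerBasisK0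
open Fermat.Agent.S36.JIntegral

local notation "Kb" => AlgebraicClosure ℚ

variable {H : Subgroup (Kb ≃ₐ[ℚ] Kb)}
variable {N0 q : ℕ} [NeZero N0] [NeZero q] [NeZero (N0 * q)] [NeZero (N0 * q * q)]

/-! ### the two level maps `F₀ → F₂` -/

variable (H N0 q) in
/-- `a₀ = α ∘ α₀ : F_K(N0) → F_K(N0 q q)`, `g(t) ↦ g(t)` -/
def a₀ : FK H N0 →+* FK H (N0 * q * q) := (alphaK H (N0 * q) q).comp (alphaK H N0 q)

variable (H N0 q) in
/-- `a₂ = β ∘ β₀ : F_K(N0) → F_K(N0 q q)`, `g(t) ↦ g(t^(q²))` -/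
def a₂ : FK H N0 →+* FK H (N0 * q * q) := (betaK H (N0 * q) q).comp (betaK H N0 q)

theorem a₀_apply (g : FK H N0) : a₀ H N0 q g = alphaK H (N0 * q) q (alphaK H N0 q g) := rfl

theorem a₂_apply (g : FK H N0) : a₂ H N0 q g = betaK H (N0 * q) q (betaK H N0 q g) := rfl

theorem a₀_j0K : a₀ H N0 q (j0K H N0) = jL H N0 q 0 := by
  rw [a₀_apply, ThreeValX0.alphaK_j0K, JIntegral.alphaK_j0K]
  rfl

theorem a₂_j0K : a₂ H N0 q (j0K H N0) = jL H N0 q 2 := rfl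

/-- the chart function of level `N0 q q` -/
abbrev x2 (H : Subgroup (Kb ≃ₐ[ℚ] Kb)) (N0 q : ℕ) [NeZero N0] [NeZero q] [NeZero (N0 * q)]
    [NeZero (N0 * q * q)] : FK H (N0 * q * q) := ∏ i, jL H N0 q i

/-! ### the hypotheses on the base ring and the level-`N0` lift -/

variable {κ : Type} [Field κ] (Y : ThreeValX0.Hyp H N0 q κ)
variable (O : Type*) [CommRing O] [Algebra O (FK H N0)] [Algebra O (FK H (N0 * q))]
  [Algebra O (FK H (N0 * q * q))]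
variable {k : Type*} [Field k] [Algebra k κ]

/-- **What the base ring and the level-`N0` slices deliver**: `O` acts compatibly with the level
maps, lands in the Gauss ring `O₀` with reduction `π`, and every element of the two charts of the
component lifts to the corresponding chart of level `N0` inside the Gauss ring (V-LiftK0). -/
structure Base (π : O →+* k) : Prop where
  hα₀ : ∀ c : O, alphaK H N0 q (algebraMap O (FK H N0) c) = algebraMap O (FK H (N0 * q)) c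
  hβ₀ : ∀ c : O, betaK H N0 q (algebraMap O (FK H N0) c) = algebraMap O (FK H (N0 * q)) c
  hα : ∀ c : O, alphaK H (N0 * q) q (algebraMap O (FK H (N0 * q)) c)
    = algebraMap O (FK H (N0 * q * q)) c
  hβ : ∀ c : O, betaK H (N0 * q) q (algebraMap O (FK H (N0 * q)) c)
    = algebraMap O (FK H (N0 * q * q)) c
  hO₀ : ∀ c : O, algebraMap O (FK H N0) c ∈ Y.O₀
  hr₀ : ∀ c : O, Y.red₀ ⟨algebraMap O (FK H N0) c, hO₀ c⟩ = algebraMap k κ (π c)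
  hlift : ∀ b ∈ (chart k Y.J : Set κ), ∃ g : FK H N0, g ∈ chart O (j0K H N0) ∧
    ∃ hg : g ∈ Y.O₀, Y.red₀ ⟨g, hg⟩ = b
  hlift' : ∀ b ∈ (chart k Y.J⁻¹ : Set κ), ∃ g : FK H N0, g ∈ chart O (j0K H N0)⁻¹ ∧
    ∃ hg : g ∈ Y.O₀, Y.red₀ ⟨g, hg⟩ = b

/-! ### formal facts from `Y` -/

section Formal

theorem J_ne_zero : Y.J ≠ 0 := by
  intro h
  apply Y.hJ
  show Y.J = Y.J ^ (q ^ 2)
  rw [h, zero_pow (pow_ne_zero 2 (NeZero.ne q))]

include Y in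
theorem j0K_ne_zero : j0K H N0 ≠ 0 := by
  intro h
  apply J_ne_zero Y
  show Y.red₀ ⟨j0K H N0, Y.hj⟩ = 0
  have e : (⟨j0K H N0, Y.hj⟩ : ↥Y.O₀) = 0 := Subtype.ext h
  rw [e, map_zero]

include Y in
theorem jL_ne_zero (i : Fin 3) : jL H N0 q i ≠ 0 := by
  have h0 := j0K_ne_zero Y
  fin_cases i
  · show jL H N0 q 0 ≠ 0
    rw [← a₀_j0K]
    exact (map_ne_zero _).mpr h0
  · show alphaK H (N0 * q) q (betaK H N0 q (j0K H N0)) ≠ 0
    exact (map_ne_zero _).mpr ((map_ne_zero _).mpr h0)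
  · show jL H N0 q 2 ≠ 0
    rw [← a₂_j0K]
    exact (map_ne_zero _).mpr h0

include Y in
theorem x2_ne_zero : x2 H N0 q ≠ 0 :=
  Finset.prod_ne_zero_iff.mpr fun i _ => jL_ne_zero Y i

theorem φ_J_pow (e : ℕ) : Y.φ (Y.J ^ e) = Y.J ^ (q * e) := by
  rw [map_pow, show Y.φ Y.J = Y.J ^ q from Y.hφJ, ← pow_mul]

/-- `α₀ O₀ ⊆ V₁` -/
theorem α₀_mem_V₁ {g : FK H N0} (hg : g ∈ Y.O₀) : alphaK H N0 q g ∈ Y.V₁ := by
  rw [← ValuationSubring.mem_comap, Y.comap₁α]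
  exact hg

/-- `β₀ O₀ ⊆ V₂` -/
theorem β₀_mem_V₂ {g : FK H N0} (hg : g ∈ Y.O₀) : betaK H N0 q g ∈ Y.V₂ := by
  rw [← ValuationSubring.mem_comap, Y.comap₂β]
  exact hg

theorem α_mem_W₂₀ {c : FK H (N0 * q)} (hc : c ∈ Y.V₁) : alphaK H (N0 * q) q c ∈ Y.W₂₀ := by
  rw [← ValuationSubring.mem_comap, Y.comap_α_W₂₀]
  exact hc

theorem β_mem_W₂₀ {c : FK H (N0 * q)} (hc : c ∈ Y.V₁) : betaK H (N0 * q) q c ∈ Y.W₂₀ := by
  rw [← ValuationSubring.mem_comap, Y.comap_β_W₂₀]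
  exact hc

theorem α_mem_W₁₁ {c : FK H (N0 * q)} (hc : c ∈ Y.V₁) : alphaK H (N0 * q) q c ∈ Y.W₁₁ := by
  rw [← ValuationSubring.mem_comap, Y.comap_α_W₁₁]
  exact hc

theorem β_mem_W₁₁ {c : FK H (N0 * q)} (hc : c ∈ Y.V₂) : betaK H (N0 * q) q c ∈ Y.W₁₁ := by
  rw [← ValuationSubring.mem_comap, Y.comap_β_W₁₁]
  exact hc

theorem α_mem_W₀₂ {c : FK H (N0 * q)} (hc : c ∈ Y.V₂) : alphaK H (N0 * q) q c ∈ Y.W₀₂ := by
  rw [← ValuationSubring.mem_comap, Y.comap_α_W₀₂]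
  exact hc

theorem β_mem_W₀₂ {c : FK H (N0 * q)} (hc : c ∈ Y.V₂) : betaK H (N0 * q) q c ∈ Y.W₀₂ := by
  rw [← ValuationSubring.mem_comap, Y.comap_β_W₀₂]
  exact hc

/-- `a₀ O₀ ⊆ W₂₀` -/
theorem a₀_mem_W₂₀ (g : FK H N0) (hg : g ∈ Y.O₀) : a₀ H N0 q g ∈ Y.W₂₀ :=
  α_mem_W₂₀ Y (α₀_mem_V₁ Y hg)

/-- `a₀ O₀ ⊆ W₁₁` -/
theorem a₀_mem_W₁₁ (g : FK H N0) (hg : g ∈ Y.O₀) : a₀ H N0 q g ∈ Y.W₁₁ :=
  α_mem_W₁₁ Y (α₀_mem_V₁ Y hg)

/-- `a₂ O₀ ⊆ W₀₂` -/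
theorem a₂_mem_W₀₂ (g : FK H N0) (hg : g ∈ Y.O₀) : a₂ H N0 q g ∈ Y.W₀₂ :=
  β_mem_W₀₂ Y (β₀_mem_V₂ Y hg)

/-- `r₂₀ ∘ a₀ = red₀` -/
theorem r₂₀_a₀ (g : FK H N0) (hg : g ∈ Y.O₀) :
    Y.r₂₀ ⟨a₀ H N0 q g, a₀_mem_W₂₀ Y g hg⟩ = Y.red₀ ⟨g, hg⟩ := by
  have h1 := Y.r₂₀_α ⟨alphaK H N0 q g, α₀_mem_V₁ Y hg⟩ (a₀_mem_W₂₀ Y g hg)
  have h2 := Y.red₁_α₀ ⟨g, hg⟩ (α₀_mem_V₁ Y hg)
  exact h1.trans h2

/-- `r₁₁ ∘ a₀ = red₀` -/
theorem r₁₁_a₀ (g : FK H N0) (hg : g ∈ Y.O₀) :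
    Y.r₁₁ ⟨a₀ H N0 q g, a₀_mem_W₁₁ Y g hg⟩ = Y.red₀ ⟨g, hg⟩ := by
  have h1 := Y.r₁₁_α ⟨alphaK H N0 q g, α₀_mem_V₁ Y hg⟩ (a₀_mem_W₁₁ Y g hg)
  have h2 := Y.red₁_α₀ ⟨g, hg⟩ (α₀_mem_V₁ Y hg)
  exact h1.trans h2

/-- `r₀₂ ∘ a₂ = red₀` -/
theorem r₀₂_a₂ (g : FK H N0) (hg : g ∈ Y.O₀) :
    Y.r₀₂ ⟨a₂ H N0 q g, a₂_mem_W₀₂ Y g hg⟩ = Y.red₀ ⟨g, hg⟩ := by
  have h1 := Y.r₀₂_β ⟨betaK H N0 q g, β₀_mem_V₂ Y hg⟩ (a₂_mem_W₀₂ Y g hg)
  have h2 := Y.red₂_β₀ ⟨g, hg⟩ (β₀_mem_V₂ Y hg)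
  exact h1.trans h2

end Formal

/-! ### one branch: a vertical valuation ring reached through a level map `a : F₀ → F₂` -/

/-- a vertical valuation ring `W` of `F₂` with reduction `r`, reached from the Gauss ring of `F₀`
through the level map `a` (`a j = jL i₀`), with the values of the three coordinate functions -/
structure Branch (π : O →+* k) (W : ValuationSubring (FK H (N0 * q * q))) (r : ↥W →+* κ)
    (a : FK H N0 →+* FK H (N0 * q * q)) (i₀ : Fin 3) : Prop where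
  base : Base Y O π
  ha : ∀ c : O, a (algebraMap O (FK H N0) c) = algebraMap O (FK H (N0 * q * q)) c
  haW : ∀ g : FK H N0, g ∈ Y.O₀ → a g ∈ W
  hra : ∀ (g : FK H N0) (hg : g ∈ Y.O₀), r ⟨a g, haW g hg⟩ = Y.red₀ ⟨g, hg⟩
  hi₀ : a (j0K H N0) = jL H N0 q i₀
  hker : ∀ z : ↥W, r z = 0 ↔ (z : FK H (N0 * q * q)) ∈ W.nonunits
  hval : ∀ (i : Fin 3) (h : jL H N0 q i ∈ W), ∃ e : ℕ, r ⟨jL H N0 q i, h⟩ = Y.J ^ e

namespace Branch

variable {Y O}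
variable {π : O →+* k} {W : ValuationSubring (FK H (N0 * q * q))} {r : ↥W →+* κ}
  {a : FK H N0 →+* FK H (N0 * q * q)} {i₀ : Fin 3} (B : Branch Y O π W r a i₀)

include B

/-- `hO` of `CompNormal.rho` -/
theorem algebraMap_mem (c : O) : algebraMap O (FK H (N0 * q * q)) c ∈ W := by
  rw [← B.ha c]
  exact B.haW _ (B.base.hO₀ c)

/-- `hr` of `CompNormal.rho` -/
theorem r_algebraMap (c : O) :
    r ⟨algebraMap O (FK H (N0 * q * q)) c, B.algebraMap_mem c⟩ = algebraMap k κ (π c) := by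
  have e : (⟨algebraMap O (FK H (N0 * q * q)) c, B.algebraMap_mem c⟩ : ↥W)
      = ⟨a (algebraMap O (FK H N0) c), B.haW _ (B.base.hO₀ c)⟩ := Subtype.ext (B.ha c).symm
  rw [e, B.hra _ (B.base.hO₀ c), B.base.hr₀]

theorem jL_i₀_mem : jL H N0 q i₀ ∈ W := by
  rw [← B.hi₀]
  exact B.haW _ Y.hj

theorem r_jL_i₀ : r ⟨jL H N0 q i₀, B.jL_i₀_mem⟩ = Y.J := by
  have e : (⟨jL H N0 q i₀, B.jL_i₀_mem⟩ : ↥W) = ⟨a (j0K H N0), B.haW _ Y.hj⟩ :=
    Subtype.ext B.hi₀.symm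
  rw [e, B.hra]
  rfl

theorem jL_mem (i : Fin 3) : jL H N0 q i ∈ W :=
  mem_of_mem_chart' W B.algebraMap_mem B.jL_i₀_mem (jL_mem_chart H Y.prime O i i₀)

theorem x2_mem : x2 H N0 q ∈ W :=
  W.toSubring.prod_mem fun i _ => B.jL_mem i

/-- the value of the chart function: a power of `J` -/
theorem exists_r_x2 : ∃ e : ℕ, r ⟨x2 H N0 q, B.x2_mem⟩ = Y.J ^ e := by
  choose e he using fun i => B.hval i (B.jL_mem i)
  refine ⟨∑ i, e i, ?_⟩
  have h : r ⟨x2 H N0 q, B.x2_mem⟩ = ∏ i, r ⟨jL H N0 q i, B.jL_mem i⟩ := by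
    rw [← map_prod]
    congr 1
  rw [h, Finset.prod_congr rfl fun i _ => he i, Finset.prod_pow_eq_pow_sum]

theorem r_x2_ne_zero : r ⟨x2 H N0 q, B.x2_mem⟩ ≠ 0 := by
  obtain ⟨e, he⟩ := B.exists_r_x2
  rw [he]
  exact pow_ne_zero _ (J_ne_zero Y)

theorem x2_inv_mem : (x2 H N0 q)⁻¹ ∈ W := by
  have h : x2 H N0 q ∉ W.nonunits := fun h => B.r_x2_ne_zero ((B.hker ⟨_, B.x2_mem⟩).mpr h)
  have h2 : W.valuation (x2 H N0 q) = 1 := by
    rcases lt_or_eq_of_le ((W.valuation_le_one_iff _).mpr B.x2_mem) with h1 | h1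
    · exact absurd (W.mem_nonunits_iff.mpr h1) h
    · exact h1
  rw [← W.valuation_le_one_iff, map_inv₀, h2, inv_one]

/-- `hJ` of `CompNormal.rho`, finite chart -/
theorem r_x2_mem_chart : r ⟨x2 H N0 q, B.x2_mem⟩ ∈ chart k Y.J := by
  obtain ⟨e, he⟩ := B.exists_r_x2
  rw [he]
  exact Subalgebra.pow_mem _ (self_mem_chart Y.J) e

/-- `hJ` of `CompNormal.rho`, chart at infinity -/
theorem r_x2_inv_mem_chart : r ⟨(x2 H N0 q)⁻¹, B.x2_inv_mem⟩ ∈ chart k Y.J⁻¹ := by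
  obtain ⟨e, he⟩ := B.exists_r_x2
  have h1 : r ⟨(x2 H N0 q)⁻¹, B.x2_inv_mem⟩ * r ⟨x2 H N0 q, B.x2_mem⟩ = 1 := by
    rw [← map_mul]
    have : (⟨(x2 H N0 q)⁻¹, B.x2_inv_mem⟩ : ↥W) * ⟨x2 H N0 q, B.x2_mem⟩ = 1 := by
      apply Subtype.ext
      show (x2 H N0 q)⁻¹ * x2 H N0 q = 1
      exact inv_mul_cancel₀ (x2_ne_zero Y)
    rw [this, map_one]
  have h2 : r ⟨(x2 H N0 q)⁻¹, B.x2_inv_mem⟩ = Y.J⁻¹ ^ e := by
    rw [inv_pow, ← he]
    exact eq_inv_of_mul_eq_one_left h1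
  rw [h2]
  exact Subalgebra.pow_mem _ (self_mem_chart Y.J⁻¹) e

/-- **the lifting property, finite chart**, in the shape of `CompNormal.rho_surjective` -/
theorem hlift : ∀ b ∈ (chart k Y.J : Set κ), ∃ x : FK H (N0 * q * q),
    x ∈ chart O (x2 H N0 q) ∧ ∃ hx : x ∈ W, r ⟨x, hx⟩ = b := by
  refine exists_mem_chart_red_eq a B.ha Y.O₀ Y.red₀ W r B.haW B.hra ?_ _ B.base.hlift
  rw [B.hi₀]
  exact SymChart.mem_chart_prod (jL_isIntegral H Y.prime O) i₀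

/-- **the lifting property, chart at infinity** -/
theorem hlift_inv : ∀ b ∈ (chart k Y.J⁻¹ : Set κ), ∃ x : FK H (N0 * q * q),
    x ∈ chart O (x2 H N0 q)⁻¹ ∧ ∃ hx : x ∈ W, r ⟨x, hx⟩ = b := by
  refine exists_mem_chart_red_eq a B.ha Y.O₀ Y.red₀ W r B.haW B.hra ?_ _ B.base.hlift'
  rw [map_inv₀, B.hi₀]
  exact SymChart.inv_mem_chart_inv_prod (jL_isIntegral H Y.prime O) (jL_ne_zero Y) i₀

/-- **surjectivity of the reduction of the finite chart** -/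
theorem rho_surjective :
    Function.Surjective (rho π W r B.algebraMap_mem B.r_algebraMap B.x2_mem B.r_x2_mem_chart) :=
  CompNormal.rho_surjective π W r _ _ _ _ B.hlift

/-- **surjectivity of the reduction of the chart at infinity** -/
theorem rho_inv_surjective :
    Function.Surjective
      (rho π W r B.algebraMap_mem B.r_algebraMap B.x2_inv_mem B.r_x2_inv_mem_chart) :=
  CompNormal.rho_surjective π W r _ _ _ _ B.hlift_inv

/-- **`r_W (chart O x₂) = chart k J`** as subrings of `κ` -/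
theorem range_chart :
    (r.comp (Subring.inclusion
      (CompNormalAway.chart_le W B.algebraMap_mem B.x2_mem))).range = (chart k Y.J).toSubring :=
  CompNormalAway.range_chart π W r B.algebraMap_mem B.r_algebraMap B.x2_mem B.r_x2_mem_chart
    B.hlift

/-- **`r_W (chart O x₂⁻¹) = chart k J⁻¹`** as subrings of `κ` -/
theorem range_chart_inv :
    (r.comp (Subring.inclusion
      (CompNormalAway.chart_le W B.algebraMap_mem B.x2_inv_mem))).range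
      = (chart k Y.J⁻¹).toSubring :=
  CompNormalAway.range_chart π W r B.algebraMap_mem B.r_algebraMap B.x2_inv_mem
    B.r_x2_inv_mem_chart B.hlift_inv

/-! #### the two `BranchRings` fields of chain (V17) for the principal opens of both charts -/

open Fermat.Agent.S36.FormalLift in
/-- `BranchRings.dim` for `D(g)` in the finite chart -/
theorem dimensionLEOne_range_away {g : FK H (N0 * q * q)}
    (hg : g ∈ (chart O (x2 H N0 q)).toSubring) (hg0 : g ≠ 0)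
    (hS : awaySubring (chart O (x2 H N0 q)).toSubring g hg ≤ W.toSubring) :
    Ring.DimensionLEOne ↥(r.comp (Subring.inclusion hS)).range :=
  CompNormalAway.dimensionLEOne_range_chart_away π W r B.algebraMap_mem B.r_algebraMap B.x2_mem
    B.r_x2_mem_chart hg hS hg0 B.hlift

open Fermat.Agent.S36.FormalLift in
/-- `BranchRings.root` for `D(g)` in the finite chart -/
theorem root_mem_range_away {g : FK H (N0 * q * q)}
    (hg : g ∈ (chart O (x2 H N0 q)).toSubring) (hg0 : g ≠ 0)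
    (hS : awaySubring (chart O (x2 H N0 q)).toSubring g hg ≤ W.toSubring)
    {n : ℕ} (hn : n ≠ 0) {z : κ} (hz : z ^ n ∈ (r.comp (Subring.inclusion hS)).range) :
    z ∈ (r.comp (Subring.inclusion hS)).range :=
  CompNormalAway.root_mem_range_chart_away π W r B.algebraMap_mem B.r_algebraMap B.x2_mem
    B.r_x2_mem_chart hg hS hg0 B.hlift hn hz

open Fermat.Agent.S36.FormalLift in
/-- `BranchRings.dim` for `D(g)` in the chart at infinity -/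
theorem dimensionLEOne_range_away_inv {g : FK H (N0 * q * q)}
    (hg : g ∈ (chart O (x2 H N0 q)⁻¹).toSubring) (hg0 : g ≠ 0)
    (hS : awaySubring (chart O (x2 H N0 q)⁻¹).toSubring g hg ≤ W.toSubring) :
    Ring.DimensionLEOne ↥(r.comp (Subring.inclusion hS)).range :=
  CompNormalAway.dimensionLEOne_range_chart_away π W r B.algebraMap_mem B.r_algebraMap
    B.x2_inv_mem B.r_x2_inv_mem_chart hg hS hg0 B.hlift_inv

open Fermat.Agent.S36.FormalLift in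
/-- `BranchRings.root` for `D(g)` in the chart at infinity -/
theorem root_mem_range_away_inv {g : FK H (N0 * q * q)}
    (hg : g ∈ (chart O (x2 H N0 q)⁻¹).toSubring) (hg0 : g ≠ 0)
    (hS : awaySubring (chart O (x2 H N0 q)⁻¹).toSubring g hg ≤ W.toSubring)
    {n : ℕ} (hn : n ≠ 0) {z : κ} (hz : z ^ n ∈ (r.comp (Subring.inclusion hS)).range) :
    z ∈ (r.comp (Subring.inclusion hS)).range :=
  CompNormalAway.root_mem_range_chart_away π W r B.algebraMap_mem B.r_algebraMap B.x2_inv_mem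
    B.r_x2_inv_mem_chart hg hS hg0 B.hlift_inv hn hz

end Branch

/-! ### the nine values -/

section Values

theorem r₂₀_jL0 (h : jL H N0 q 0 ∈ Y.W₂₀) : Y.r₂₀ ⟨jL H N0 q 0, h⟩ = Y.J := by
  have e : (⟨jL H N0 q 0, h⟩ : ↥Y.W₂₀) = ⟨a₀ H N0 q (j0K H N0), a₀_mem_W₂₀ Y _ Y.hj⟩ :=
    Subtype.ext a₀_j0K.symm
  rw [e, r₂₀_a₀]
  rfl

theorem r₂₀_jL1 (h : jL H N0 q 1 ∈ Y.W₂₀) : Y.r₂₀ ⟨jL H N0 q 1, h⟩ = Y.J ^ q :=
  (Y.r₂₀_α Y.y₁ h).trans Y.red₁_y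

theorem r₂₀_jL2 (h : jL H N0 q 2 ∈ Y.W₂₀) : Y.r₂₀ ⟨jL H N0 q 2, h⟩ = Y.J ^ (q * q) := by
  have h1 := Y.r₂₀_β Y.y₁ h
  rw [Y.red₁_y, φ_J_pow] at h1
  exact h1

theorem r₁₁_jL0 (h : jL H N0 q 0 ∈ Y.W₁₁) : Y.r₁₁ ⟨jL H N0 q 0, h⟩ = Y.J := by
  have e : (⟨jL H N0 q 0, h⟩ : ↥Y.W₁₁) = ⟨a₀ H N0 q (j0K H N0), a₀_mem_W₁₁ Y _ Y.hj⟩ :=
    Subtype.ext a₀_j0K.symm
  rw [e, r₁₁_a₀]
  rfl

theorem r₁₁_jL1 (h : jL H N0 q 1 ∈ Y.W₁₁) : Y.r₁₁ ⟨jL H N0 q 1, h⟩ = Y.J ^ q :=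
  (Y.r₁₁_α Y.y₁ h).trans Y.red₁_y

theorem r₁₁_jL2 (h : jL H N0 q 2 ∈ Y.W₁₁) : Y.r₁₁ ⟨jL H N0 q 2, h⟩ = Y.J :=
  (Y.r₁₁_β Y.y₂ h).trans Y.red₂_y

theorem r₀₂_jL0 (h : jL H N0 q 0 ∈ Y.W₀₂) : Y.r₀₂ ⟨jL H N0 q 0, h⟩ = Y.J ^ (q * q) := by
  have hx : alphaK H (N0 * q) q ((Y.x₂ : ↥Y.V₂) : FK H (N0 * q)) ∈ Y.W₀₂ :=
    α_mem_W₀₂ Y Y.x₂.2
  have e : (⟨jL H N0 q 0, h⟩ : ↥Y.W₀₂) = ⟨_, hx⟩ :=
    Subtype.ext (JIntegral.alphaK_j0K H).symm
  rw [e, Y.r₀₂_α Y.x₂ hx, Y.red₂_x, φ_J_pow]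

theorem r₀₂_jL1 (h : jL H N0 q 1 ∈ Y.W₀₂) : Y.r₀₂ ⟨jL H N0 q 1, h⟩ = Y.J ^ q := by
  have h1 := Y.r₀₂_α Y.y₂ h
  rw [Y.red₂_y] at h1
  exact h1.trans Y.hφJ

theorem r₀₂_jL2 (h : jL H N0 q 2 ∈ Y.W₀₂) : Y.r₀₂ ⟨jL H N0 q 2, h⟩ = Y.J :=
  (Y.r₀₂_β Y.y₂ h).trans Y.red₂_y

end Values

/-! ### the three branches -/

section Three

variable {Y O} {π : O →+* k} (hB : Base Y O π)

include hB

theorem ha₀ (c : O) :
    a₀ H N0 q (algebraMap O (FK H N0) c) = algebraMap O (FK H (N0 * q * q)) c := by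
  rw [a₀_apply, hB.hα₀, hB.hα]

theorem ha₂ (c : O) :
    a₂ H N0 q (algebraMap O (FK H N0) c) = algebraMap O (FK H (N0 * q * q)) c := by
  rw [a₂_apply, hB.hβ₀, hB.hβ]

/-- **the thin branch `W₂₀`**, reached through `a₀`; values `J, J^q, J^(q²)` -/
theorem branch₂₀ : Branch Y O π Y.W₂₀ Y.r₂₀ (a₀ H N0 q) 0 where
  base := hB
  ha := ha₀ hB
  haW := a₀_mem_W₂₀ Y
  hra := r₂₀_a₀ Y
  hi₀ := a₀_j0K
  hker := Y.r₂₀_eq_zero_iff
  hval := by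
    intro i
    fin_cases i
    · intro h
      exact ⟨1, (r₂₀_jL0 Y h).trans (pow_one _).symm⟩
    · intro h
      exact ⟨q, r₂₀_jL1 Y h⟩
    · intro h
      exact ⟨q * q, r₂₀_jL2 Y h⟩

/-- **the thick branch `W₁₁`**, reached through `a₀`; values `J, J^q, J` -/
theorem branch₁₁ : Branch Y O π Y.W₁₁ Y.r₁₁ (a₀ H N0 q) 0 where
  base := hB
  ha := ha₀ hB
  haW := a₀_mem_W₁₁ Y
  hra := r₁₁_a₀ Y
  hi₀ := a₀_j0K
  hker := Y.r₁₁_eq_zero_iff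
  hval := by
    intro i
    fin_cases i
    · intro h
      exact ⟨1, (r₁₁_jL0 Y h).trans (pow_one _).symm⟩
    · intro h
      exact ⟨q, r₁₁_jL1 Y h⟩
    · intro h
      exact ⟨1, (r₁₁_jL2 Y h).trans (pow_one _).symm⟩

/-- **the thin branch `W₀₂`**, reached through `a₂`; values `J^(q²), J^q, J` -/
theorem branch₀₂ : Branch Y O π Y.W₀₂ Y.r₀₂ (a₂ H N0 q) 2 where
  base := hB
  ha := ha₂ hB
  haW := a₂_mem_W₀₂ Y
  hra := r₀₂_a₂ Y
  hi₀ := a₂_j0K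
  hker := Y.r₀₂_eq_zero_iff
  hval := by
    intro i
    fin_cases i
    · intro h
      exact ⟨q * q, r₀₂_jL0 Y h⟩
    · intro h
      exact ⟨q, r₀₂_jL1 Y h⟩
    · intro h
      exact ⟨1, (r₀₂_jL2 Y h).trans (pow_one _).symm⟩

end Three

end Fermat.Agent.S36.CompNormalX0
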