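/-
PROJECT V (S36), slice V-BranchKappaX0 (helper14), ruling #2658 (3): **the `κ`-side and the level-`q`
side of `BranchCoreT.PDatum` at `X₀`**, hypotheses first over helper21's `ThreeValX0.Hyp` and
helper26's `CompNormalX0.Base`.

THIS FILE = Part A : the level-`N0 q` twin `Branch1` of `CompNormalX0.Branch`: the reductions of
the two symmetric charts `chart O x₁^{±1}` (`x₁ = j · j(t^q) = ∏ i, jK i = VertX0.x1`) of level
`N0 q` along `V₁` (through `α₀`, values `J, J^q`) and `V₂` (through `β₀`, values `J^q, J`) are ONTO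
`chart k J^{±1}`: `branch₁`, `branch₂`, and for `B : Branch1 Y O π V r a i₀`:
`B.algebraMap_mem`, `B.r_algebraMap` (`hO`, `hr` of `CompNormal.rho`), `B.x1_mem`, `B.x1_inv_mem`,
`B.exists_r_x1`, `B.r_x1_mem_chart`, `B.r_x1_inv_mem_chart` (`hJ`), `B.hlift`, `B.hlift_inv`,
`B.rho_surjective`, `B.rho_inv_surjective` (= `red1_surj`, `red2_surj` of `BranchCoreT.PDatum`),
`B.range_chart`, `B.range_chart_inv` (subring form); `red₁_eq_zero_iff`, `red₂_eq_zero_iff`.
The chart-to-chart maps, the six compatibilities and the `κ`-side are in the companion files.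
-/
import Mathlib
import Fermat.Agent.S36.CompNormalX0

set_option autoImplicit false
set_option linter.unusedSectionVars false
set_option linter.unusedVariables false
set_option linter.style.haveILetI false

noncomputable section

namespace Fermat.Agent.S36.BranchKappaX0

open Fermat.Agent.S36.ChartRing Fermat.Agent.S36.CompNormal Fermat.Agent.S36.PowerBasisK0
open Fermat.Agent.S36.JIntegral Fermat.Agent.S36.CompNormalX0

local notation "Kb" => AlgebraicClosure ℚ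

variable {H : Subgroup (Kb ≃ₐ[ℚ] Kb)}
variable {N0 q : ℕ} [NeZero N0] [NeZero q] [NeZero (N0 * q)] [NeZero (N0 * q * q)]

/-- the chart function of level `N0 q` -/
abbrev x1 (H : Subgroup (Kb ≃ₐ[ℚ] Kb)) (N0 q : ℕ) [NeZero N0] [NeZero q] [NeZero (N0 * q)] :
    FK H (N0 * q) := ∏ i, jK H N0 q i

variable {κ : Type} [Field κ] (Y : ThreeValX0.Hyp H N0 q κ)
variable (O : Type*) [CommRing O] [Algebra O (FK H N0)] [Algebra O (FK H (N0 * q))]
  [Algebra O (FK H (N0 * q * q))]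
variable {k : Type*} [Field k] [Algebra k κ]

/-! ### Part A: one branch at level `N0 q` -/

/-- a vertical valuation ring `V` of `F₁` with reduction `r`, reached from the Gauss ring of `F₀`
through the level map `a` (`a j = jK i₀`), with the values of the two coordinate functions -/
structure Branch1 (π : O →+* k) (V : ValuationSubring (FK H (N0 * q))) (r : ↥V →+* κ)
    (a : FK H N0 →+* FK H (N0 * q)) (i₀ : Fin 2) : Prop where
  base : Base Y O π
  ha : ∀ c : O, a (algebraMap O (FK H N0) c) = algebraMap O (FK H (N0 * q)) c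
  haV : ∀ g : FK H N0, g ∈ Y.O₀ → a g ∈ V
  hra : ∀ (g : FK H N0) (hg : g ∈ Y.O₀), r ⟨a g, haV g hg⟩ = Y.red₀ ⟨g, hg⟩
  hi₀ : a (j0K H N0) = jK H N0 q i₀
  hker : ∀ z : ↥V, r z = 0 ↔ (z : FK H (N0 * q)) ∈ V.nonunits
  hval : ∀ (i : Fin 2) (h : jK H N0 q i ∈ V), ∃ e : ℕ, r ⟨jK H N0 q i, h⟩ = Y.J ^ e

include Y in
theorem jK_ne_zero (i : Fin 2) : jK H N0 q i ≠ 0 := by
  have h0 := j0K_ne_zero Y
  fin_cases i
  · show j0K H (N0 * q) ≠ 0
    rw [← ThreeValX0.alphaK_j0K]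
    exact (map_ne_zero _).mpr h0
  · show betaK H N0 q (j0K H N0) ≠ 0
    exact (map_ne_zero _).mpr h0

include Y in
theorem x1_ne_zero : x1 H N0 q ≠ 0 :=
  Finset.prod_ne_zero_iff.mpr fun i _ => jK_ne_zero Y i

namespace Branch1

variable {Y O}
variable {π : O →+* k} {V : ValuationSubring (FK H (N0 * q))} {r : ↥V →+* κ}
  {a : FK H N0 →+* FK H (N0 * q)} {i₀ : Fin 2} (B : Branch1 Y O π V r a i₀)

include B

/-- `hO` of `CompNormal.rho` -/
theorem algebraMap_mem (c : O) : algebraMap O (FK H (N0 * q)) c ∈ V := by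
  rw [← B.ha c]
  exact B.haV _ (B.base.hO₀ c)

/-- `hr` of `CompNormal.rho` -/
theorem r_algebraMap (c : O) :
    r ⟨algebraMap O (FK H (N0 * q)) c, B.algebraMap_mem c⟩ = algebraMap k κ (π c) := by
  have e : (⟨algebraMap O (FK H (N0 * q)) c, B.algebraMap_mem c⟩ : ↥V)
      = ⟨a (algebraMap O (FK H N0) c), B.haV _ (B.base.hO₀ c)⟩ := Subtype.ext (B.ha c).symm
  rw [e, B.hra _ (B.base.hO₀ c), B.base.hr₀]

theorem jK_i₀_mem : jK H N0 q i₀ ∈ V := by
  rw [← B.hi₀]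
  exact B.haV _ Y.hj

theorem r_jK_i₀ : r ⟨jK H N0 q i₀, B.jK_i₀_mem⟩ = Y.J := by
  have e : (⟨jK H N0 q i₀, B.jK_i₀_mem⟩ : ↥V) = ⟨a (j0K H N0), B.haV _ Y.hj⟩ :=
    Subtype.ext B.hi₀.symm
  rw [e, B.hra]
  rfl

theorem jK_mem (i : Fin 2) : jK H N0 q i ∈ V :=
  mem_of_mem_chart' V B.algebraMap_mem B.jK_i₀_mem (jK_mem_chart H Y.prime O i i₀)

theorem x1_mem : x1 H N0 q ∈ V :=
  V.toSubring.prod_mem fun i _ => B.jK_mem i

/-- the value of the chart function: a power of `J` -/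
theorem exists_r_x1 : ∃ e : ℕ, r ⟨x1 H N0 q, B.x1_mem⟩ = Y.J ^ e := by
  choose e he using fun i => B.hval i (B.jK_mem i)
  refine ⟨∑ i, e i, ?_⟩
  have h : r ⟨x1 H N0 q, B.x1_mem⟩ = ∏ i, r ⟨jK H N0 q i, B.jK_mem i⟩ := by
    rw [← map_prod]
    congr 1
  rw [h, Finset.prod_congr rfl fun i _ => he i, Finset.prod_pow_eq_pow_sum]

theorem r_x1_ne_zero : r ⟨x1 H N0 q, B.x1_mem⟩ ≠ 0 := by
  obtain ⟨e, he⟩ := B.exists_r_x1
  rw [he]
  exact pow_ne_zero _ (J_ne_zero Y)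

theorem x1_inv_mem : (x1 H N0 q)⁻¹ ∈ V := by
  have h : x1 H N0 q ∉ V.nonunits := fun h => B.r_x1_ne_zero ((B.hker ⟨_, B.x1_mem⟩).mpr h)
  have h2 : V.valuation (x1 H N0 q) = 1 := by
    rcases lt_or_eq_of_le ((V.valuation_le_one_iff _).mpr B.x1_mem) with h1 | h1
    · exact absurd (V.mem_nonunits_iff.mpr h1) h
    · exact h1
  rw [← V.valuation_le_one_iff, map_inv₀, h2, inv_one]

/-- `hJ` of `CompNormal.rho`, finite chart -/
theorem r_x1_mem_chart : r ⟨x1 H N0 q, B.x1_mem⟩ ∈ chart k Y.J := by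
  obtain ⟨e, he⟩ := B.exists_r_x1
  rw [he]
  exact Subalgebra.pow_mem _ (self_mem_chart Y.J) e

/-- `hJ` of `CompNormal.rho`, chart at infinity -/
theorem r_x1_inv_mem_chart : r ⟨(x1 H N0 q)⁻¹, B.x1_inv_mem⟩ ∈ chart k Y.J⁻¹ := by
  obtain ⟨e, he⟩ := B.exists_r_x1
  have h1 : r ⟨(x1 H N0 q)⁻¹, B.x1_inv_mem⟩ * r ⟨x1 H N0 q, B.x1_mem⟩ = 1 := by
    rw [← map_mul]
    have : (⟨(x1 H N0 q)⁻¹, B.x1_inv_mem⟩ : ↥V) * ⟨x1 H N0 q, B.x1_mem⟩ = 1 := by
      apply Subtype.ext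
      show (x1 H N0 q)⁻¹ * x1 H N0 q = 1
      exact inv_mul_cancel₀ (x1_ne_zero Y)
    rw [this, map_one]
  have h2 : r ⟨(x1 H N0 q)⁻¹, B.x1_inv_mem⟩ = Y.J⁻¹ ^ e := by
    rw [inv_pow, ← he]
    exact eq_inv_of_mul_eq_one_left h1
  rw [h2]
  exact Subalgebra.pow_mem _ (self_mem_chart Y.J⁻¹) e

/-- **the lifting property, finite chart**, in the shape of `CompNormal.rho_surjective` -/
theorem hlift : ∀ b ∈ (chart k Y.J : Set κ), ∃ x : FK H (N0 * q),
    x ∈ chart O (x1 H N0 q) ∧ ∃ hx : x ∈ V, r ⟨x, hx⟩ = b := by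
  refine exists_mem_chart_red_eq a B.ha Y.O₀ Y.red₀ V r B.haV B.hra ?_ _ B.base.hlift
  rw [B.hi₀]
  exact SymChart.mem_chart_prod (jK_isIntegral H Y.prime O) i₀

/-- **the lifting property, chart at infinity** -/
theorem hlift_inv : ∀ b ∈ (chart k Y.J⁻¹ : Set κ), ∃ x : FK H (N0 * q),
    x ∈ chart O (x1 H N0 q)⁻¹ ∧ ∃ hx : x ∈ V, r ⟨x, hx⟩ = b := by
  refine exists_mem_chart_red_eq a B.ha Y.O₀ Y.red₀ V r B.haV B.hra ?_ _ B.base.hlift'
  rw [map_inv₀, B.hi₀]
  exact SymChart.inv_mem_chart_inv_prod (jK_isIntegral H Y.prime O) (jK_ne_zero Y) i₀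

/-- **surjectivity of the reduction of the finite chart** -/
theorem rho_surjective :
    Function.Surjective (rho π V r B.algebraMap_mem B.r_algebraMap B.x1_mem B.r_x1_mem_chart) :=
  CompNormal.rho_surjective π V r _ _ _ _ B.hlift

/-- **surjectivity of the reduction of the chart at infinity** -/
theorem rho_inv_surjective :
    Function.Surjective
      (rho π V r B.algebraMap_mem B.r_algebraMap B.x1_inv_mem B.r_x1_inv_mem_chart) :=
  CompNormal.rho_surjective π V r _ _ _ _ B.hlift_inv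

/-- **`r_V (chart O x₁) = chart k J`** as subrings of `κ` -/
theorem range_chart :
    (r.comp (Subring.inclusion
      (CompNormalAway.chart_le V B.algebraMap_mem B.x1_mem))).range = (chart k Y.J).toSubring :=
  CompNormalAway.range_chart π V r B.algebraMap_mem B.r_algebraMap B.x1_mem B.r_x1_mem_chart
    B.hlift

/-- **`r_V (chart O x₁⁻¹) = chart k J⁻¹`** as subrings of `κ` -/
theorem range_chart_inv :
    (r.comp (Subring.inclusion
      (CompNormalAway.chart_le V B.algebraMap_mem B.x1_inv_mem))).range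
      = (chart k Y.J⁻¹).toSubring :=
  CompNormalAway.range_chart π V r B.algebraMap_mem B.r_algebraMap B.x1_inv_mem
    B.r_x1_inv_mem_chart B.hlift_inv

end Branch1

/-! ### the two branches of level `N0 q` -/

section Two

theorem red₁_eq_zero_iff (z : ↥Y.V₁) : Y.red₁ z = 0 ↔ (z : FK H (N0 * q)) ∈ Y.V₁.nonunits :=
  ThreeVal.eq_zero_iff_of_surjective _ _ Y.inputs.surj₁ z

theorem red₂_eq_zero_iff (z : ↥Y.V₂) : Y.red₂ z = 0 ↔ (z : FK H (N0 * q)) ∈ Y.V₂.nonunits :=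
  ThreeVal.eq_zero_iff_of_surjective _ _ Y.inputs.surj₂ z

variable {Y O} {π : O →+* k} (hB : Base Y O π)

include hB

/-- **the branch `V₁`**, reached through `α₀`; values `J, J^q` -/
theorem branch₁ : Branch1 Y O π Y.V₁ Y.red₁ (alphaK H N0 q) 0 where
  base := hB
  ha := hB.hα₀
  haV := fun g hg => α₀_mem_V₁ Y hg
  hra := fun g hg => Y.red₁_α₀ ⟨g, hg⟩ (α₀_mem_V₁ Y hg)
  hi₀ := ThreeValX0.alphaK_j0K H N0 q
  hker := red₁_eq_zero_iff Y
  hval := by
    intro i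
    fin_cases i
    · intro h
      exact ⟨1, Y.red₁_x.trans (pow_one _).symm⟩
    · intro h
      exact ⟨q, Y.red₁_y⟩

/-- **the branch `V₂`**, reached through `β₀`; values `J^q, J` -/
theorem branch₂ : Branch1 Y O π Y.V₂ Y.red₂ (betaK H N0 q) 1 where
  base := hB
  ha := hB.hβ₀
  haV := fun g hg => β₀_mem_V₂ Y hg
  hra := fun g hg => Y.red₂_β₀ ⟨g, hg⟩ (β₀_mem_V₂ Y hg)
  hi₀ := rfl
  hker := red₂_eq_zero_iff Y
  hval := by
    intro i
    fin_cases i
    · intro h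
      exact ⟨q, Y.red₂_x⟩
    · intro h
      exact ⟨1, Y.red₂_y.trans (pow_one _).symm⟩

end Two

end Fermat.Agent.S36.BranchKappaX0
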