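import Mathlib

/-!
# PROJECT V (S36), slice V-PairLiftK0 (chain v1.1 (N2)): the `node` field of `BranchCore.Datum`

Ring language, Mathlib only.  `A₀ →α₀ A₁` the chart rings of levels `M''`, `q M''`, `B` the coordinate
ring of the component curve, `red0 : A₀ →+* B` (onto), `red1 red2 : A₁ →+* B` with the (D5)
normalisations `red1 ∘ α₀ = red0`, `red2 ∘ α₀ = φ ∘ red0`.  The node description of the level-`q`
fibre in U's orientation

  `n'.comap red1 = n.comap red2 ↔ n ∈ S ∧ n' = n.comap φ`      (`BranchCore.Datum.node`)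

follows from

* **(GLUE)** for `n ∈ S` : `red1 g ∈ n.comap φ ↔ red2 g ∈ n` for every `g : A₁`
  (the two branches of a node carry the same values: `S34/PcgCusp.Hyp.glue0`,
  `S36/NodesDesc.glue_of_mem`);
* **(SEP)** for `n ∉ S` : some `g : A₁` has `red1 g ∈ n.comap φ`, `red2 g ∉ n`
  (`S36/NodesDesc.exists_pair_of_not_mem` over `ℚ̄`, made `K₀`-rational by
  `S36/PairDescent.Pair.exists_rational_lift_of_finrank`).

The implication `n' = n.comap φ` is free (apply `comap α₀`).
-/

set_option autoImplicit false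

namespace Fermat.Agent.S36.NodeField

variable {A₀ A₁ B : Type*} [CommRing A₀] [CommRing A₁] [CommRing B]
variable (α₀ : A₀ →+* A₁) (red0 : A₀ →+* B) (red1 red2 : A₁ →+* B) (φ : B →+* B)

/-- equality of the two closed points forces `n' = fr n` -/
theorem eq_comap_of_comap_eq (hred0 : Function.Surjective red0)
    (h1 : ∀ g, red1 (α₀ g) = red0 g) (h2 : ∀ g, red2 (α₀ g) = φ (red0 g))
    {n' n : Ideal B} (h : n'.comap red1 = n.comap red2) : n' = n.comap φ := by
  apply Ideal.comap_injective_of_surjective red0 hred0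
  ext g
  have := congrArg (fun I : Ideal A₁ => α₀ g ∈ I) h
  simp only [Ideal.mem_comap, h1, h2] at this
  simp only [Ideal.mem_comap]
  exact Iff.of_eq this

/-- **the `node` field** from (GLUE) and (SEP) -/
theorem node_iff (S : Set (Ideal B)) (hred0 : Function.Surjective red0)
    (h1 : ∀ g, red1 (α₀ g) = red0 g) (h2 : ∀ g, red2 (α₀ g) = φ (red0 g))
    (hglue : ∀ n ∈ S, ∀ g : A₁, red1 g ∈ n.comap φ ↔ red2 g ∈ n)
    (hsep : ∀ n : Ideal B, n.IsMaximal → n ∉ S → ∃ g : A₁, red1 g ∈ n.comap φ ∧ red2 g ∉ n)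
    (n' n : Ideal B) (hn : n.IsMaximal) :
    n'.comap red1 = n.comap red2 ↔ n ∈ S ∧ n' = n.comap φ := by
  constructor
  · intro h
    have hn' : n' = n.comap φ := eq_comap_of_comap_eq α₀ red0 red1 red2 φ hred0 h1 h2 h
    refine ⟨?_, hn'⟩
    by_contra hS
    obtain ⟨g, hg1, hg2⟩ := hsep n hn hS
    apply hg2
    have : g ∈ n'.comap red1 := by
      rw [hn']
      exact hg1
    rw [h] at this
    exact this
  · rintro ⟨hS, rfl⟩
    ext g
    exact hglue n hS g

end Fermat.Agent.S36.NodeField
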