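/-
PROJECT V (S36), slice V-BranchKappaX0 (helper14), part B: **the ring-language skeleton of
`BranchCoreT.PDatum` at `X₀`, both charts**, hypotheses first over helper21's `ThreeValX0.Hyp` and
helper26's `CompNormalX0.Base`.

* `alphaK_mem_chart`, `betaK_mem_chart` (+ `_inv`), `alphaK₀_mem_chart` (+ `_inv`) : the level maps
  send charts to charts; bundled `αc βc : chart O x₁ →+* chart O x₂`, `αc' βc'` (charts at
  infinity), `α₀c : chart O j →+* chart O x₁`, `α₀c'`.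
* the reductions with values in `chart k J'` for ANY `J'` with `hJ' : Y.J = J'` (at `X₀`:
  `J' = jk k N0`, the ring of `SpecDictOne` / `PairLiftChart` / `PairGlueChart`; `CompNormal.rho` is
  generic in `J`, so nothing is transported): `ρ₀ ρ₁ ρ₂ ρ₂₀ ρ₁₁ ρ₀₂` and `ρ₀' … ρ₀₂'` (infinity),
  all SURJECTIVE, with `coe_ρ…` (`rfl`).
* the six compatibilities `r20_α … r02_β` and `h1 h2` of `NodeField.node_iff`, for any
  `φB : chart k J' →+* chart k J'` restricting `Y.φ`.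
* `pdatumFin`, `pdatumInf : BranchCoreT.PDatum ↥(chart O x₁^{±1}) ↥(chart O x₂^{±1}) ↥(chart k J'^{±1})`
  from the remaining fields (`φ_pow`, `S`, `node`, `S_fr`, `fr_fr`, `ϖ`, `ker_inf`).
-/
import Mathlib
import Fermat.Agent.S36.BranchKappaX0
import Fermat.Agent.S36.BranchCoreT
import Fermat.Agent.S36.NodeField

set_option autoImplicit false
set_option linter.unusedSectionVars false
set_option linter.unusedVariables false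
set_option linter.style.haveILetI false

noncomputable section

namespace Fermat.Agent.S36.BranchKappaX0

open Fermat.Agent.S36.ChartRing Fermat.Agent.S36.CompNormal Fermat.Agent.S36.PowerBasisK0
open Fermat.Agent.S36.JIntegral Fermat.Agent.S36.CompNormalX0

local notation "Kb" => AlgebraicClosure ℚ

variable {H : Subgroup (Kb ≃ₐ[ℚ] Kb)}
variable {N0 q : ℕ} [NeZero N0] [NeZero q] [NeZero (N0 * q)] [NeZero (N0 * q * q)]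
variable {κ : Type} [Field κ] {Y : ThreeValX0.Hyp H N0 q κ}
variable {O : Type*} [CommRing O] [Algebra O (FK H N0)] [Algebra O (FK H (N0 * q))]
  [Algebra O (FK H (N0 * q * q))]
variable {k : Type*} [Field k] [Algebra k κ]

/-! ### the level maps send charts to charts -/

section Charts

theorem alphaK_x1 : alphaK H (N0 * q) q (x1 H N0 q)
    = ∏ i ∈ Finset.univ.map ⟨Fin.castSucc, Fin.castSucc_injective 2⟩, jL H N0 q i := by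
  rw [map_prod, Finset.prod_map]
  exact Finset.prod_congr rfl fun i _ => alphaK_jK H i

theorem betaK_x1 : betaK H (N0 * q) q (x1 H N0 q)
    = ∏ i ∈ Finset.univ.map ⟨Fin.succ, Fin.succ_injective 2⟩, jL H N0 q i := by
  rw [map_prod, Finset.prod_map]
  exact Finset.prod_congr rfl fun i _ => betaK_jK H i

variable {π : O →+* k} (hB : Base Y O π)

include hB

theorem alphaK_mem_chart {y : FK H (N0 * q)} (hy : y ∈ chart O (x1 H N0 q)) :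
    alphaK H (N0 * q) q y ∈ chart O (x2 H N0 q) :=
  SymChart.map_mem_chart_prod (jL_isIntegral H Y.prime O) (alphaK H (N0 * q) q) hB.hα _
    alphaK_x1 hy

theorem betaK_mem_chart {y : FK H (N0 * q)} (hy : y ∈ chart O (x1 H N0 q)) :
    betaK H (N0 * q) q y ∈ chart O (x2 H N0 q) :=
  SymChart.map_mem_chart_prod (jL_isIntegral H Y.prime O) (betaK H (N0 * q) q) hB.hβ _
    betaK_x1 hy

theorem alphaK_mem_chart_inv {y : FK H (N0 * q)} (hy : y ∈ chart O (x1 H N0 q)⁻¹) :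
    alphaK H (N0 * q) q y ∈ chart O (x2 H N0 q)⁻¹ :=
  SymChart.map_mem_chart_inv_prod (jL_isIntegral H Y.prime O) (jL_ne_zero Y)
    (alphaK H (N0 * q) q) hB.hα _ alphaK_x1 hy

theorem betaK_mem_chart_inv {y : FK H (N0 * q)} (hy : y ∈ chart O (x1 H N0 q)⁻¹) :
    betaK H (N0 * q) q y ∈ chart O (x2 H N0 q)⁻¹ :=
  SymChart.map_mem_chart_inv_prod (jL_isIntegral H Y.prime O) (jL_ne_zero Y)
    (betaK H (N0 * q) q) hB.hβ _ betaK_x1 hy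

theorem alphaK₀_mem_chart {g : FK H N0} (hg : g ∈ chart O (j0K H N0)) :
    alphaK H N0 q g ∈ chart O (x1 H N0 q) := by
  refine map_mem_chart_of_mem (alphaK H N0 q) hB.hα₀ ?_ hg
  rw [ThreeValX0.alphaK_j0K]
  exact SymChart.mem_chart_prod (jK_isIntegral H Y.prime O) (0 : Fin 2)

theorem alphaK₀_mem_chart_inv {g : FK H N0} (hg : g ∈ chart O (j0K H N0)⁻¹) :
    alphaK H N0 q g ∈ chart O (x1 H N0 q)⁻¹ := by
  refine map_mem_chart_of_mem (alphaK H N0 q) hB.hα₀ ?_ hg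
  rw [map_inv₀, ThreeValX0.alphaK_j0K]
  exact SymChart.inv_mem_chart_inv_prod (jK_isIntegral H Y.prime O) (jK_ne_zero Y) (0 : Fin 2)

/-- `α : chart O x₁ →+* chart O x₂` -/
def αc : ↥(chart O (x1 H N0 q)) →+* ↥(chart O (x2 H N0 q)) :=
  ((alphaK H (N0 * q) q).comp (algebraMap ↥(chart O (x1 H N0 q)) (FK H (N0 * q)))).codRestrict
    (chart O (x2 H N0 q)) (fun y => alphaK_mem_chart hB y.2)

/-- `β : chart O x₁ →+* chart O x₂` -/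
def βc : ↥(chart O (x1 H N0 q)) →+* ↥(chart O (x2 H N0 q)) :=
  ((betaK H (N0 * q) q).comp (algebraMap ↥(chart O (x1 H N0 q)) (FK H (N0 * q)))).codRestrict
    (chart O (x2 H N0 q)) (fun y => betaK_mem_chart hB y.2)

/-- `α : chart O x₁⁻¹ →+* chart O x₂⁻¹` -/
def αc' : ↥(chart O (x1 H N0 q)⁻¹) →+* ↥(chart O (x2 H N0 q)⁻¹) :=
  ((alphaK H (N0 * q) q).comp (algebraMap ↥(chart O (x1 H N0 q)⁻¹) (FK H (N0 * q)))).codRestrict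
    (chart O (x2 H N0 q)⁻¹) (fun y => alphaK_mem_chart_inv hB y.2)

/-- `β : chart O x₁⁻¹ →+* chart O x₂⁻¹` -/
def βc' : ↥(chart O (x1 H N0 q)⁻¹) →+* ↥(chart O (x2 H N0 q)⁻¹) :=
  ((betaK H (N0 * q) q).comp (algebraMap ↥(chart O (x1 H N0 q)⁻¹) (FK H (N0 * q)))).codRestrict
    (chart O (x2 H N0 q)⁻¹) (fun y => betaK_mem_chart_inv hB y.2)

/-- `α₀ : chart O j →+* chart O x₁` -/
def α₀c : ↥(chart O (j0K H N0)) →+* ↥(chart O (x1 H N0 q)) :=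
  ((alphaK H N0 q).comp (algebraMap ↥(chart O (j0K H N0)) (FK H N0))).codRestrict
    (chart O (x1 H N0 q)) (fun y => alphaK₀_mem_chart hB y.2)

/-- `α₀ : chart O j⁻¹ →+* chart O x₁⁻¹` -/
def α₀c' : ↥(chart O (j0K H N0)⁻¹) →+* ↥(chart O (x1 H N0 q)⁻¹) :=
  ((alphaK H N0 q).comp (algebraMap ↥(chart O (j0K H N0)⁻¹) (FK H N0))).codRestrict
    (chart O (x1 H N0 q)⁻¹) (fun y => alphaK₀_mem_chart_inv hB y.2)

@[simp] theorem coe_αc (y : ↥(chart O (x1 H N0 q))) :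
    ((αc hB y : ↥(chart O (x2 H N0 q))) : FK H (N0 * q * q))
      = alphaK H (N0 * q) q (y : FK H (N0 * q)) := rfl

@[simp] theorem coe_βc (y : ↥(chart O (x1 H N0 q))) :
    ((βc hB y : ↥(chart O (x2 H N0 q))) : FK H (N0 * q * q))
      = betaK H (N0 * q) q (y : FK H (N0 * q)) := rfl

@[simp] theorem coe_αc' (y : ↥(chart O (x1 H N0 q)⁻¹)) :
    ((αc' hB y : ↥(chart O (x2 H N0 q)⁻¹)) : FK H (N0 * q * q))
      = alphaK H (N0 * q) q (y : FK H (N0 * q)) := rfl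

@[simp] theorem coe_βc' (y : ↥(chart O (x1 H N0 q)⁻¹)) :
    ((βc' hB y : ↥(chart O (x2 H N0 q)⁻¹)) : FK H (N0 * q * q))
      = betaK H (N0 * q) q (y : FK H (N0 * q)) := rfl

@[simp] theorem coe_α₀c (y : ↥(chart O (j0K H N0))) :
    ((α₀c hB y : ↥(chart O (x1 H N0 q))) : FK H (N0 * q)) = alphaK H N0 q (y : FK H N0) := rfl

@[simp] theorem coe_α₀c' (y : ↥(chart O (j0K H N0)⁻¹)) :
    ((α₀c' hB y : ↥(chart O (x1 H N0 q)⁻¹)) : FK H (N0 * q)) = alphaK H N0 q (y : FK H N0) := rfl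

end Charts

/-! ### the reductions, with values in `chart k J'` for any `J' = Y.J` -/

section Reductions

variable {π : O →+* k} (hB : Base Y O π) {J' : κ} (hJ' : Y.J = J')

include hB hJ'

theorem r_x2_mem_chart' {W : ValuationSubring (FK H (N0 * q * q))} {r : ↥W →+* κ}
    {a : FK H N0 →+* FK H (N0 * q * q)} {i₀ : Fin 3} (B : Branch Y O π W r a i₀) :
    r ⟨x2 H N0 q, B.x2_mem⟩ ∈ chart k J' := by
  subst hJ'
  exact B.r_x2_mem_chart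

theorem r_x2_inv_mem_chart' {W : ValuationSubring (FK H (N0 * q * q))} {r : ↥W →+* κ}
    {a : FK H N0 →+* FK H (N0 * q * q)} {i₀ : Fin 3} (B : Branch Y O π W r a i₀) :
    r ⟨(x2 H N0 q)⁻¹, B.x2_inv_mem⟩ ∈ chart k J'⁻¹ := by
  subst hJ'
  exact B.r_x2_inv_mem_chart

theorem r_x1_mem_chart' {V : ValuationSubring (FK H (N0 * q))} {r : ↥V →+* κ}
    {a : FK H N0 →+* FK H (N0 * q)} {i₀ : Fin 2} (B : Branch1 Y O π V r a i₀) :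
    r ⟨x1 H N0 q, B.x1_mem⟩ ∈ chart k J' := by
  subst hJ'
  exact B.r_x1_mem_chart

theorem r_x1_inv_mem_chart' {V : ValuationSubring (FK H (N0 * q))} {r : ↥V →+* κ}
    {a : FK H N0 →+* FK H (N0 * q)} {i₀ : Fin 2} (B : Branch1 Y O π V r a i₀) :
    r ⟨(x1 H N0 q)⁻¹, B.x1_inv_mem⟩ ∈ chart k J'⁻¹ := by
  subst hJ'
  exact B.r_x1_inv_mem_chart

theorem red₀_j_mem_chart' : Y.red₀ ⟨j0K H N0, Y.hj⟩ ∈ chart k J' := by
  subst hJ'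
  exact self_mem_chart Y.J

theorem red₀_eq_zero_iff (z : ↥Y.O₀) : Y.red₀ z = 0 ↔ (z : FK H N0) ∈ Y.O₀.nonunits :=
  ThreeVal.eq_zero_iff_of_surjective _ _ Y.surj₀ z

theorem j_inv_mem : (j0K H N0)⁻¹ ∈ Y.O₀ := by
  have h : j0K H N0 ∉ Y.O₀.nonunits := fun h =>
    J_ne_zero Y ((red₀_eq_zero_iff hB hJ' ⟨_, Y.hj⟩).mpr h)
  have h2 : Y.O₀.valuation (j0K H N0) = 1 := by
    rcases lt_or_eq_of_le ((Y.O₀.valuation_le_one_iff _).mpr Y.hj) with h1 | h1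
    · exact absurd (Y.O₀.mem_nonunits_iff.mpr h1) h
    · exact h1
  rw [← Y.O₀.valuation_le_one_iff, map_inv₀, h2, inv_one]

theorem red₀_j_inv : Y.red₀ ⟨(j0K H N0)⁻¹, j_inv_mem hB hJ'⟩ = J'⁻¹ := by
  have h1 : Y.red₀ ⟨(j0K H N0)⁻¹, j_inv_mem hB hJ'⟩ * Y.red₀ ⟨j0K H N0, Y.hj⟩ = 1 := by
    rw [← map_mul]
    have : (⟨(j0K H N0)⁻¹, j_inv_mem hB hJ'⟩ : ↥Y.O₀) * ⟨j0K H N0, Y.hj⟩ = 1 := by
      apply Subtype.ext
      show (j0K H N0)⁻¹ * j0K H N0 = 1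
      exact inv_mul_cancel₀ (j0K_ne_zero Y)
    rw [this, map_one]
  subst hJ'
  exact eq_inv_of_mul_eq_one_left h1

theorem red₀_j_inv_mem_chart' : Y.red₀ ⟨(j0K H N0)⁻¹, j_inv_mem hB hJ'⟩ ∈ chart k J'⁻¹ := by
  rw [red₀_j_inv hB hJ']
  exact self_mem_chart _

/-- level `N0`, finite chart -/
def ρ₀ : ↥(chart O (j0K H N0)) →+* ↥(chart k J') :=
  rho π Y.O₀ Y.red₀ hB.hO₀ hB.hr₀ Y.hj (red₀_j_mem_chart' hB hJ')

/-- level `N0`, chart at infinity -/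
def ρ₀' : ↥(chart O (j0K H N0)⁻¹) →+* ↥(chart k J'⁻¹) :=
  rho π Y.O₀ Y.red₀ hB.hO₀ hB.hr₀ (j_inv_mem hB hJ') (red₀_j_inv_mem_chart' hB hJ')

/-- level `N0 q` along `V₁`, finite chart (`PDatum.red1`) -/
def ρ₁ : ↥(chart O (x1 H N0 q)) →+* ↥(chart k J') :=
  rho π Y.V₁ Y.red₁ (branch₁ hB).algebraMap_mem (branch₁ hB).r_algebraMap (branch₁ hB).x1_mem
    (r_x1_mem_chart' hB hJ' (branch₁ hB))

/-- level `N0 q` along `V₂`, finite chart (`PDatum.red2`) -/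
def ρ₂ : ↥(chart O (x1 H N0 q)) →+* ↥(chart k J') :=
  rho π Y.V₂ Y.red₂ (branch₂ hB).algebraMap_mem (branch₂ hB).r_algebraMap (branch₂ hB).x1_mem
    (r_x1_mem_chart' hB hJ' (branch₂ hB))

/-- level `N0 q` along `V₁`, chart at infinity -/
def ρ₁' : ↥(chart O (x1 H N0 q)⁻¹) →+* ↥(chart k J'⁻¹) :=
  rho π Y.V₁ Y.red₁ (branch₁ hB).algebraMap_mem (branch₁ hB).r_algebraMap
    (branch₁ hB).x1_inv_mem (r_x1_inv_mem_chart' hB hJ' (branch₁ hB))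

/-- level `N0 q` along `V₂`, chart at infinity -/
def ρ₂' : ↥(chart O (x1 H N0 q)⁻¹) →+* ↥(chart k J'⁻¹) :=
  rho π Y.V₂ Y.red₂ (branch₂ hB).algebraMap_mem (branch₂ hB).r_algebraMap
    (branch₂ hB).x1_inv_mem (r_x1_inv_mem_chart' hB hJ' (branch₂ hB))

/-- level `N0 q q` along `W₂₀`, finite chart (`PDatum.r20`) -/
def ρ₂₀ : ↥(chart O (x2 H N0 q)) →+* ↥(chart k J') :=
  rho π Y.W₂₀ Y.r₂₀ (branch₂₀ hB).algebraMap_mem (branch₂₀ hB).r_algebraMap (branch₂₀ hB).x2_mem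
    (r_x2_mem_chart' hB hJ' (branch₂₀ hB))

/-- level `N0 q q` along `W₁₁`, finite chart (`PDatum.r11`) -/
def ρ₁₁ : ↥(chart O (x2 H N0 q)) →+* ↥(chart k J') :=
  rho π Y.W₁₁ Y.r₁₁ (branch₁₁ hB).algebraMap_mem (branch₁₁ hB).r_algebraMap (branch₁₁ hB).x2_mem
    (r_x2_mem_chart' hB hJ' (branch₁₁ hB))

/-- level `N0 q q` along `W₀₂`, finite chart (`PDatum.r02`) -/
def ρ₀₂ : ↥(chart O (x2 H N0 q)) →+* ↥(chart k J') :=
  rho π Y.W₀₂ Y.r₀₂ (branch₀₂ hB).algebraMap_mem (branch₀₂ hB).r_algebraMap (branch₀₂ hB).x2_mem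
    (r_x2_mem_chart' hB hJ' (branch₀₂ hB))

/-- level `N0 q q` along `W₂₀`, chart at infinity -/
def ρ₂₀' : ↥(chart O (x2 H N0 q)⁻¹) →+* ↥(chart k J'⁻¹) :=
  rho π Y.W₂₀ Y.r₂₀ (branch₂₀ hB).algebraMap_mem (branch₂₀ hB).r_algebraMap
    (branch₂₀ hB).x2_inv_mem (r_x2_inv_mem_chart' hB hJ' (branch₂₀ hB))

/-- level `N0 q q` along `W₁₁`, chart at infinity -/
def ρ₁₁' : ↥(chart O (x2 H N0 q)⁻¹) →+* ↥(chart k J'⁻¹) :=
  rho π Y.W₁₁ Y.r₁₁ (branch₁₁ hB).algebraMap_mem (branch₁₁ hB).r_algebraMap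
    (branch₁₁ hB).x2_inv_mem (r_x2_inv_mem_chart' hB hJ' (branch₁₁ hB))

/-- level `N0 q q` along `W₀₂`, chart at infinity -/
def ρ₀₂' : ↥(chart O (x2 H N0 q)⁻¹) →+* ↥(chart k J'⁻¹) :=
  rho π Y.W₀₂ Y.r₀₂ (branch₀₂ hB).algebraMap_mem (branch₀₂ hB).r_algebraMap
    (branch₀₂ hB).x2_inv_mem (r_x2_inv_mem_chart' hB hJ' (branch₀₂ hB))

/-! #### surjectivity -/

theorem ρ₀_surjective : Function.Surjective (ρ₀ hB hJ') := by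
  subst hJ'
  exact CompNormal.rho_surjective π Y.O₀ Y.red₀ _ _ _ _ hB.hlift

theorem ρ₀'_surjective : Function.Surjective (ρ₀' hB hJ') := by
  subst hJ'
  exact CompNormal.rho_surjective π Y.O₀ Y.red₀ _ _ _ _ hB.hlift'

theorem ρ₁_surjective : Function.Surjective (ρ₁ hB hJ') := by
  subst hJ'
  exact (branch₁ hB).rho_surjective

theorem ρ₂_surjective : Function.Surjective (ρ₂ hB hJ') := by
  subst hJ'
  exact (branch₂ hB).rho_surjective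

theorem ρ₁'_surjective : Function.Surjective (ρ₁' hB hJ') := by
  subst hJ'
  exact (branch₁ hB).rho_inv_surjective

theorem ρ₂'_surjective : Function.Surjective (ρ₂' hB hJ') := by
  subst hJ'
  exact (branch₂ hB).rho_inv_surjective

theorem ρ₂₀_surjective : Function.Surjective (ρ₂₀ hB hJ') := by
  subst hJ'
  exact (branch₂₀ hB).rho_surjective

theorem ρ₁₁_surjective : Function.Surjective (ρ₁₁ hB hJ') := by
  subst hJ'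
  exact (branch₁₁ hB).rho_surjective

theorem ρ₀₂_surjective : Function.Surjective (ρ₀₂ hB hJ') := by
  subst hJ'
  exact (branch₀₂ hB).rho_surjective

theorem ρ₂₀'_surjective : Function.Surjective (ρ₂₀' hB hJ') := by
  subst hJ'
  exact (branch₂₀ hB).rho_inv_surjective

theorem ρ₁₁'_surjective : Function.Surjective (ρ₁₁' hB hJ') := by
  subst hJ'
  exact (branch₁₁ hB).rho_inv_surjective

theorem ρ₀₂'_surjective : Function.Surjective (ρ₀₂' hB hJ') := by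
  subst hJ'
  exact (branch₀₂ hB).rho_inv_surjective

/-! #### the compatibilities (D5), subtype form -/

variable (φB : ↥(chart k J') →+* ↥(chart k J'))
  (hφB : ∀ b : ↥(chart k J'), ((φB b : ↥(chart k J')) : κ) = Y.φ (b : κ))
variable (φB' : ↥(chart k J'⁻¹) →+* ↥(chart k J'⁻¹))
  (hφB' : ∀ b : ↥(chart k J'⁻¹), ((φB' b : ↥(chart k J'⁻¹)) : κ) = Y.φ (b : κ))

theorem ρ₂₀_αc (g : ↥(chart O (x1 H N0 q))) : ρ₂₀ hB hJ' (αc hB g) = ρ₁ hB hJ' g :=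
  Subtype.ext (Y.r₂₀_α ⟨(g : FK H (N0 * q)), _⟩ _)

theorem ρ₁₁_αc (g : ↥(chart O (x1 H N0 q))) : ρ₁₁ hB hJ' (αc hB g) = ρ₁ hB hJ' g :=
  Subtype.ext (Y.r₁₁_α ⟨(g : FK H (N0 * q)), _⟩ _)

include hφB in
theorem ρ₀₂_αc (g : ↥(chart O (x1 H N0 q))) : ρ₀₂ hB hJ' (αc hB g) = φB (ρ₂ hB hJ' g) :=
  Subtype.ext ((Y.r₀₂_α ⟨(g : FK H (N0 * q)), _⟩ _).trans (hφB (ρ₂ hB hJ' g)).symm)

include hφB in
theorem ρ₂₀_βc (g : ↥(chart O (x1 H N0 q))) : ρ₂₀ hB hJ' (βc hB g) = φB (ρ₁ hB hJ' g) :=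
  Subtype.ext ((Y.r₂₀_β ⟨(g : FK H (N0 * q)), _⟩ _).trans (hφB (ρ₁ hB hJ' g)).symm)

theorem ρ₁₁_βc (g : ↥(chart O (x1 H N0 q))) : ρ₁₁ hB hJ' (βc hB g) = ρ₂ hB hJ' g :=
  Subtype.ext (Y.r₁₁_β ⟨(g : FK H (N0 * q)), _⟩ _)

theorem ρ₀₂_βc (g : ↥(chart O (x1 H N0 q))) : ρ₀₂ hB hJ' (βc hB g) = ρ₂ hB hJ' g :=
  Subtype.ext (Y.r₀₂_β ⟨(g : FK H (N0 * q)), _⟩ _)

theorem ρ₁_α₀c (g : ↥(chart O (j0K H N0))) : ρ₁ hB hJ' (α₀c hB g) = ρ₀ hB hJ' g :=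
  Subtype.ext (Y.red₁_α₀ ⟨(g : FK H N0), _⟩ _)

include hφB in
theorem ρ₂_α₀c (g : ↥(chart O (j0K H N0))) : ρ₂ hB hJ' (α₀c hB g) = φB (ρ₀ hB hJ' g) :=
  Subtype.ext ((Y.red₂_α₀ ⟨(g : FK H N0), _⟩ _).trans (hφB (ρ₀ hB hJ' g)).symm)

theorem ρ₂₀'_αc' (g : ↥(chart O (x1 H N0 q)⁻¹)) : ρ₂₀' hB hJ' (αc' hB g) = ρ₁' hB hJ' g :=
  Subtype.ext (Y.r₂₀_α ⟨(g : FK H (N0 * q)), _⟩ _)

theorem ρ₁₁'_αc' (g : ↥(chart O (x1 H N0 q)⁻¹)) : ρ₁₁' hB hJ' (αc' hB g) = ρ₁' hB hJ' g :=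
  Subtype.ext (Y.r₁₁_α ⟨(g : FK H (N0 * q)), _⟩ _)

include hφB' in
theorem ρ₀₂'_αc' (g : ↥(chart O (x1 H N0 q)⁻¹)) :
    ρ₀₂' hB hJ' (αc' hB g) = φB' (ρ₂' hB hJ' g) :=
  Subtype.ext ((Y.r₀₂_α ⟨(g : FK H (N0 * q)), _⟩ _).trans (hφB' (ρ₂' hB hJ' g)).symm)

include hφB' in
theorem ρ₂₀'_βc' (g : ↥(chart O (x1 H N0 q)⁻¹)) :
    ρ₂₀' hB hJ' (βc' hB g) = φB' (ρ₁' hB hJ' g) :=
  Subtype.ext ((Y.r₂₀_β ⟨(g : FK H (N0 * q)), _⟩ _).trans (hφB' (ρ₁' hB hJ' g)).symm)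

theorem ρ₁₁'_βc' (g : ↥(chart O (x1 H N0 q)⁻¹)) : ρ₁₁' hB hJ' (βc' hB g) = ρ₂' hB hJ' g :=
  Subtype.ext (Y.r₁₁_β ⟨(g : FK H (N0 * q)), _⟩ _)

theorem ρ₀₂'_βc' (g : ↥(chart O (x1 H N0 q)⁻¹)) : ρ₀₂' hB hJ' (βc' hB g) = ρ₂' hB hJ' g :=
  Subtype.ext (Y.r₀₂_β ⟨(g : FK H (N0 * q)), _⟩ _)

theorem ρ₁'_α₀c' (g : ↥(chart O (j0K H N0)⁻¹)) : ρ₁' hB hJ' (α₀c' hB g) = ρ₀' hB hJ' g :=
  Subtype.ext (Y.red₁_α₀ ⟨(g : FK H N0), _⟩ _)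

include hφB' in
theorem ρ₂'_α₀c' (g : ↥(chart O (j0K H N0)⁻¹)) :
    ρ₂' hB hJ' (α₀c' hB g) = φB' (ρ₀' hB hJ' g) :=
  Subtype.ext ((Y.red₂_α₀ ⟨(g : FK H N0), _⟩ _).trans (hφB' (ρ₀' hB hJ' g)).symm)

end Reductions

/-! ### the `PDatum` on the two charts -/

section PDatum

variable {π : O →+* k} (hB : Base Y O π) {J' : κ} (hJ' : Y.J = J')

/-- **the field `node`** on the finite chart from (GLUE) and (SEP) (`NodeField.node_iff`) -/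
theorem node_fin (φB : ↥(chart k J') →+* ↥(chart k J'))
    (hφB : ∀ b : ↥(chart k J'), ((φB b : ↥(chart k J')) : κ) = Y.φ (b : κ))
    (S : Set (Ideal ↥(chart k J')))
    (hglue : ∀ n ∈ S, ∀ g : ↥(chart O (x1 H N0 q)),
      ρ₁ hB hJ' g ∈ n.comap φB ↔ ρ₂ hB hJ' g ∈ n)
    (hsep : ∀ n : Ideal ↥(chart k J'), n.IsMaximal → n ∉ S →
      ∃ g : ↥(chart O (x1 H N0 q)), ρ₁ hB hJ' g ∈ n.comap φB ∧ ρ₂ hB hJ' g ∉ n)
    (n' n : Ideal ↥(chart k J')) (hn' : n'.IsMaximal) (hn : n.IsMaximal) :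
    n'.comap (ρ₁ hB hJ') = n.comap (ρ₂ hB hJ') ↔ n ∈ S ∧ n' = n.comap φB :=
  NodeField.node_iff (A₀ := ↥(chart O (j0K H N0))) (A₁ := ↥(chart O (x1 H N0 q)))
    (B := ↥(chart k J')) (α₀c hB) (ρ₀ hB hJ') (ρ₁ hB hJ') (ρ₂ hB hJ') φB S (ρ₀_surjective hB hJ')
    (ρ₁_α₀c hB hJ') (ρ₂_α₀c hB hJ' φB hφB) hglue hsep n' n hn

/-- **the field `node`** on the chart at infinity -/
theorem node_inf (φB' : ↥(chart k J'⁻¹) →+* ↥(chart k J'⁻¹))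
    (hφB' : ∀ b : ↥(chart k J'⁻¹), ((φB' b : ↥(chart k J'⁻¹)) : κ) = Y.φ (b : κ))
    (S : Set (Ideal ↥(chart k J'⁻¹)))
    (hglue : ∀ n ∈ S, ∀ g : ↥(chart O (x1 H N0 q)⁻¹),
      ρ₁' hB hJ' g ∈ n.comap φB' ↔ ρ₂' hB hJ' g ∈ n)
    (hsep : ∀ n : Ideal ↥(chart k J'⁻¹), n.IsMaximal → n ∉ S →
      ∃ g : ↥(chart O (x1 H N0 q)⁻¹), ρ₁' hB hJ' g ∈ n.comap φB' ∧ ρ₂' hB hJ' g ∉ n)
    (n' n : Ideal ↥(chart k J'⁻¹)) (hn' : n'.IsMaximal) (hn : n.IsMaximal) :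
    n'.comap (ρ₁' hB hJ') = n.comap (ρ₂' hB hJ') ↔ n ∈ S ∧ n' = n.comap φB' :=
  NodeField.node_iff (A₀ := ↥(chart O (j0K H N0)⁻¹)) (A₁ := ↥(chart O (x1 H N0 q)⁻¹))
    (B := ↥(chart k J'⁻¹)) (α₀c' hB) (ρ₀' hB hJ') (ρ₁' hB hJ') (ρ₂' hB hJ') φB' S
    (ρ₀'_surjective hB hJ') (ρ₁'_α₀c' hB hJ') (ρ₂'_α₀c' hB hJ' φB' hφB') hglue hsep n' n hn

/-- **`BranchCoreT.PDatum` on the finite charts** `chart O x₁`, `chart O x₂`, `chart k J'` -/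
def pdatumFin (φB : ↥(chart k J') →+* ↥(chart k J'))
    (hφB : ∀ b : ↥(chart k J'), ((φB b : ↥(chart k J')) : κ) = Y.φ (b : κ))
    (hpow : ∀ z : ↥(chart k J'), ∃ c : ↥(chart k J'), φB c = z ^ q)
    (S : Set (Ideal ↥(chart k J')))
    (hnode : ∀ n' n : Ideal ↥(chart k J'), n'.IsMaximal → n.IsMaximal →
      (n'.comap (ρ₁ hB hJ') = n.comap (ρ₂ hB hJ') ↔ n ∈ S ∧ n' = n.comap φB))
    (hSfr : ∀ n ∈ S, n.comap φB ∈ S) (hfrfr : ∀ n ∈ S, (n.comap φB).comap φB = n)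
    (ϖ : ↥(chart O (x2 H N0 q)))
    (hker : RingHom.ker (ρ₂₀ hB hJ') ⊓ RingHom.ker (ρ₁₁ hB hJ') ⊓ RingHom.ker (ρ₀₂ hB hJ')
      = (Ideal.span {ϖ}).radical) :
    BranchCoreT.PDatum ↥(chart O (x1 H N0 q)) ↥(chart O (x2 H N0 q)) ↥(chart k J') where
  α := αc hB
  β := βc hB
  red1 := ρ₁ hB hJ'
  red2 := ρ₂ hB hJ'
  r20 := ρ₂₀ hB hJ'
  r11 := ρ₁₁ hB hJ'
  r02 := ρ₀₂ hB hJ'
  φ := φB
  q := q
  ϖ := ϖ
  S := S
  red1_surj := ρ₁_surjective hB hJ'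
  red2_surj := ρ₂_surjective hB hJ'
  r20_surj := ρ₂₀_surjective hB hJ'
  r11_surj := ρ₁₁_surjective hB hJ'
  r02_surj := ρ₀₂_surjective hB hJ'
  q_pos := Nat.pos_of_ne_zero (NeZero.ne q)
  φ_pow := hpow
  r20_α := ρ₂₀_αc hB hJ'
  r11_α := ρ₁₁_αc hB hJ'
  r02_α := ρ₀₂_αc hB hJ' φB hφB
  r20_β := ρ₂₀_βc hB hJ' φB hφB
  r11_β := ρ₁₁_βc hB hJ'
  r02_β := ρ₀₂_βc hB hJ'
  node := hnode
  S_fr := hSfr
  fr_fr := hfrfr
  ker_inf := hker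

/-- **`BranchCoreT.PDatum` on the charts at infinity** `chart O x₁⁻¹`, `chart O x₂⁻¹`,
`chart k J'⁻¹` -/
def pdatumInf (φB' : ↥(chart k J'⁻¹) →+* ↥(chart k J'⁻¹))
    (hφB' : ∀ b : ↥(chart k J'⁻¹), ((φB' b : ↥(chart k J'⁻¹)) : κ) = Y.φ (b : κ))
    (hpow : ∀ z : ↥(chart k J'⁻¹), ∃ c : ↥(chart k J'⁻¹), φB' c = z ^ q)
    (S : Set (Ideal ↥(chart k J'⁻¹)))
    (hnode : ∀ n' n : Ideal ↥(chart k J'⁻¹), n'.IsMaximal → n.IsMaximal →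
      (n'.comap (ρ₁' hB hJ') = n.comap (ρ₂' hB hJ') ↔ n ∈ S ∧ n' = n.comap φB'))
    (hSfr : ∀ n ∈ S, n.comap φB' ∈ S) (hfrfr : ∀ n ∈ S, (n.comap φB').comap φB' = n)
    (ϖ : ↥(chart O (x2 H N0 q)⁻¹))
    (hker : RingHom.ker (ρ₂₀' hB hJ') ⊓ RingHom.ker (ρ₁₁' hB hJ') ⊓ RingHom.ker (ρ₀₂' hB hJ')
      = (Ideal.span {ϖ}).radical) :
    BranchCoreT.PDatum ↥(chart O (x1 H N0 q)⁻¹) ↥(chart O (x2 H N0 q)⁻¹) ↥(chart k J'⁻¹) where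
  α := αc' hB
  β := βc' hB
  red1 := ρ₁' hB hJ'
  red2 := ρ₂' hB hJ'
  r20 := ρ₂₀' hB hJ'
  r11 := ρ₁₁' hB hJ'
  r02 := ρ₀₂' hB hJ'
  φ := φB'
  q := q
  ϖ := ϖ
  S := S
  red1_surj := ρ₁'_surjective hB hJ'
  red2_surj := ρ₂'_surjective hB hJ'
  r20_surj := ρ₂₀'_surjective hB hJ'
  r11_surj := ρ₁₁'_surjective hB hJ'
  r02_surj := ρ₀₂'_surjective hB hJ'
  q_pos := Nat.pos_of_ne_zero (NeZero.ne q)
  φ_pow := hpow
  r20_α := ρ₂₀'_αc' hB hJ'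
  r11_α := ρ₁₁'_αc' hB hJ'
  r02_α := ρ₀₂'_αc' hB hJ' φB' hφB'
  r20_β := ρ₂₀'_βc' hB hJ' φB' hφB'
  r11_β := ρ₁₁'_βc' hB hJ'
  r02_β := ρ₀₂'_βc' hB hJ'
  node := hnode
  S_fr := hSfr
  fr_fr := hfrfr
  ker_inf := hker

/-- **`BranchCoreT.TDatum` on the finite charts**: the coincidence of the three branches at the
points of `S` from helper21's norm formulas `Y.norm₁_V₁`, `Y.norm₁_V₂`, as soon as the norm along
`α` maps `chart O x₂` into `chart O x₁` (`hnorm`; integrality of the norm). -/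
def tdatumFin (φB : ↥(chart k J') →+* ↥(chart k J'))
    (hφB : ∀ b : ↥(chart k J'), ((φB b : ↥(chart k J')) : κ) = Y.φ (b : κ))
    (hpow : ∀ z : ↥(chart k J'), ∃ c : ↥(chart k J'), φB c = z ^ q)
    (S : Set (Ideal ↥(chart k J')))
    (hnode : ∀ n' n : Ideal ↥(chart k J'), n'.IsMaximal → n.IsMaximal →
      (n'.comap (ρ₁ hB hJ') = n.comap (ρ₂ hB hJ') ↔ n ∈ S ∧ n' = n.comap φB))
    (hSfr : ∀ n ∈ S, n.comap φB ∈ S) (hfrfr : ∀ n ∈ S, (n.comap φB).comap φB = n)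
    (ϖ : ↥(chart O (x2 H N0 q)))
    (hker : RingHom.ker (ρ₂₀ hB hJ') ⊓ RingHom.ker (ρ₁₁ hB hJ') ⊓ RingHom.ker (ρ₀₂ hB hJ')
      = (Ideal.span {ϖ}).radical)
    (hnorm : ∀ y ∈ chart O (x2 H N0 q),
      ThreeVal.normAlong (alphaK H (N0 * q) q) y ∈ chart O (x1 H N0 q)) :
    BranchCoreT.TDatum ↥(chart O (x1 H N0 q)) ↥(chart O (x2 H N0 q)) ↥(chart k J') :=
  (pdatumFin hB hJ' φB hφB hpow S hnode hSfr hfrfr ϖ hker).toTDatum_of_norm (by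
    intro n hn hS a
    have h₂₀ : (a : FK H (N0 * q * q)) ∈ Y.W₂₀ :=
      mem_of_mem_chart' _ (branch₂₀ hB).algebraMap_mem (branch₂₀ hB).x2_mem a.2
    have h₁₁ : (a : FK H (N0 * q * q)) ∈ Y.W₁₁ :=
      mem_of_mem_chart' _ (branch₁₁ hB).algebraMap_mem (branch₁₁ hB).x2_mem a.2
    have h₀₂ : (a : FK H (N0 * q * q)) ∈ Y.W₀₂ :=
      mem_of_mem_chart' _ (branch₀₂ hB).algebraMap_mem (branch₀₂ hB).x2_mem a.2
    obtain ⟨m₁, e₁⟩ := Y.norm₁_V₁ (a : FK H (N0 * q * q)) h₂₀ h₁₁ h₀₂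
    obtain ⟨m₂, e₂⟩ := Y.norm₁_V₂ (a : FK H (N0 * q * q)) h₂₀ h₁₁ h₀₂
    refine ⟨⟨_, hnorm _ a.2⟩, 1, 1, q - 1, q, Nat.sub_pos_of_lt Y.prime.one_lt, ?_, ?_, ?_⟩
    · exact fun h => hn.ne_top ((Ideal.eq_top_iff_one n).mpr h)
    · rw [one_mul]
      exact Subtype.ext e₁
    · rw [one_mul]
      apply Subtype.ext
      exact (hφB _).trans e₂)

end PDatum

end Fermat.Agent.S36.BranchKappaX0
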