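/-
PROJECT V (S36), slice V-LiftK0 (helper25), abstract half: **Galois descent of subspaces**
(Artin independence), Mathlib only.

`Γ` a group acting on a field `L` by ring automorphisms (`MulSemiringAction`), `E` an `L`-vector
space with additive maps `ρ g : E → E` which are `Γ`-semilinear
(`ρ g (c • z) = (g • c) • ρ g z`).  `fixedSet ρ` is the set of vectors fixed by every `ρ g`.

* `artin_family` : Artin independence in family form
  (`FixedPoints.linearIndependent_smul_of_linearIndependent`).
* `mem_of_sum_smul_mem` : `V` a `Γ`-stable subspace, `x i` fixed, `c i` linearly independent over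
  the fixed field: `∑ c i • x i ∈ V` forces every `x i ∈ V`.
* `mem_span_fixed` : a vector of a stable subspace `V` lying in the span of the fixed vectors
  lies in the span of the fixed vectors OF `V`.
* `exists_fixed_basis` : a finite-dimensional stable subspace inside the span of the fixed
  vectors has a basis of fixed vectors.
* `coeff_fixed` : coordinates of a fixed vector in an independent family of fixed vectors are
  fixed scalars.
* `exists_fixed_multiple` : over an algebraic extension `L / K` every nonzero polynomial over `L`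
  divides a nonzero polynomial over `K` (rational denominators).

Application (`S36/LiftK0*.lean`): `L = ℚ̄`, `Γ` = inertia group, `E = ℚ̄(X₀(N))`,
`V = L(m (j)_∞)`: the Riemann-Roch space is spanned by its `K0`-rational elements.
-/
import Mathlib

set_option autoImplicit false
set_option linter.unusedSectionVars false
set_option linter.style.haveILetI false

namespace Fermat.Agent.S36.RRDescent

open Polynomial

section Artin

variable {Γ : Type*} [Group Γ] {L : Type*} [Field L] [MulSemiringAction Γ L]

/-- **Artin independence**, family form: if `(c i)_{i ∈ s}` is linearly independent over the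
fixed field and `∑ a i * g • c i = 0` for all `g`, then all `a i` vanish. -/
theorem artin_family {ι : Type*} (s : Finset ι) (c : ι → L)
    (hc : LinearIndepOn (FixedPoints.subfield Γ L) c (s : Set ι)) (a : ι → L)
    (ha : ∀ g : Γ, ∑ i ∈ s, a i * g • c i = 0) : ∀ i ∈ s, a i = 0 := by
  classical
  have hinj : Set.InjOn c (s : Set ι) := hc.injOn
  have h1 : LinearIndepOn (FixedPoints.subfield Γ L) id ((s.image c : Finset L) : Set L) := by
    rw [Finset.coe_image]; exact hc.id_image
  have h2 := FixedPoints.linearIndependent_smul_of_linearIndependent Γ L h1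
  rw [Finset.coe_image] at h2
  have h3 : LinearIndepOn L (MulAction.toFun Γ L ∘ c) (s : Set ι) := h2.comp_of_image hinj
  rw [linearIndepOn_finset_iff] at h3
  refine h3 a ?_
  funext g
  simp only [Finset.sum_apply, Pi.smul_apply, Function.comp_apply, smul_eq_mul, Pi.zero_apply]
  exact ha g

variable {E : Type*} [AddCommGroup E] [Module L E]
variable (ρ : Γ → E →+ E) (hρ : ∀ (g : Γ) (c : L) (z : E), ρ g (c • z) = (g • c) • ρ g z)

/-- the vectors fixed by the semilinear action -/
def fixedSet : Set E := {z | ∀ g, ρ g z = z}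

theorem mem_fixedSet {z : E} : z ∈ fixedSet ρ ↔ ∀ g, ρ g z = z := Iff.rfl

theorem sub_mem_fixedSet {z w : E} (hz : z ∈ fixedSet ρ) (hw : w ∈ fixedSet ρ) :
    z - w ∈ fixedSet ρ := fun g => by rw [map_sub, hz g, hw g]

include hρ

theorem smul_mem_fixedSet {k : L} (hk : ∀ g : Γ, g • k = k) {z : E} (hz : z ∈ fixedSet ρ) :
    k • z ∈ fixedSet ρ := fun g => by rw [hρ, hk g, hz g]

/-- **Descent of membership**: `V` a `Γ`-stable subspace, `x i` fixed vectors, `c i` linearly
independent over the fixed field: `∑ c i • x i ∈ V` forces every `x i ∈ V`. -/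
theorem mem_of_sum_smul_mem (V : Submodule L E) (hV : ∀ g, ∀ z ∈ V, ρ g z ∈ V)
    {ι : Type*} (s : Finset ι) (c : ι → L)
    (hc : LinearIndepOn (FixedPoints.subfield Γ L) c (s : Set ι)) (x : ι → E)
    (hx : ∀ i ∈ s, ∀ g, ρ g (x i) = x i) (hsum : ∑ i ∈ s, c i • x i ∈ V) :
    ∀ i ∈ s, x i ∈ V := by
  intro i₀ hi₀
  by_contra hnot
  obtain ⟨φ, hφ, hφV⟩ := Submodule.exists_dual_map_eq_bot_of_notMem hnot inferInstance
  have hφ0 : ∀ z ∈ V, φ z = 0 := by
    intro z hz
    have : φ z ∈ V.map φ := Submodule.mem_map_of_mem hz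
    rw [hφV] at this
    simpa using this
  have hrel : ∀ g : Γ, ∑ i ∈ s, φ (x i) * g • c i = 0 := by
    intro g
    have h1 : ρ g (∑ i ∈ s, c i • x i) = ∑ i ∈ s, (g • c i) • x i := by
      rw [map_sum]
      refine Finset.sum_congr rfl fun i hi => ?_
      rw [hρ, hx i hi]
    have h2 := hφ0 _ (hV g _ hsum)
    rw [h1, map_sum] at h2
    rw [← h2]
    refine Finset.sum_congr rfl fun i _ => ?_
    rw [map_smul, smul_eq_mul, mul_comm]
  exact hφ (artin_family s c hc (fun i => φ (x i)) hrel i₀ hi₀)

/-- **A stable subspace is spanned by its fixed vectors**, as far as it lies in the span of the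
fixed vectors: sums form (induction on the number of terms; a dependence relation between the
coefficients shortens the sum). -/
theorem sum_mem_span_fixed (V : Submodule L E) (hV : ∀ g, ∀ z ∈ V, ρ g z ∈ V) :
    ∀ (n : ℕ) {ι : Type*} (s : Finset ι) (c : ι → L) (x : ι → E), s.card = n →
      (∀ i ∈ s, x i ∈ fixedSet ρ) → ∑ i ∈ s, c i • x i ∈ V →
      ∑ i ∈ s, c i • x i ∈ Submodule.span L {z | z ∈ V ∧ z ∈ fixedSet ρ} := by
  classical
  intro n
  induction n with
  | zero =>
    intro ι s c x hs _ _
    rw [Finset.card_eq_zero] at hs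
    rw [hs, Finset.sum_empty]
    exact Submodule.zero_mem _
  | succ n ih =>
    intro ι s c x hs hx hsum
    by_cases hc : LinearIndepOn (FixedPoints.subfield Γ L) c (s : Set ι)
    · have hmem := mem_of_sum_smul_mem ρ hρ V hV s c hc x (fun i hi => hx i hi) hsum
      exact Submodule.sum_mem _ fun i hi =>
        Submodule.smul_mem _ _ (Submodule.subset_span ⟨hmem i hi, hx i hi⟩)
    · rw [linearIndepOn_finset_iff] at hc
      push Not at hc
      obtain ⟨k, hk, i₀, hi₀, hki₀⟩ := hc
      -- the new family
      set r : ι → FixedPoints.subfield Γ L := fun i => k i / k i₀ with hr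
      set x' : ι → E := fun i => x i - ((r i : FixedPoints.subfield Γ L) : L) • x i₀ with hx'
      have hx'fix : ∀ i ∈ s.erase i₀, x' i ∈ fixedSet ρ := by
        intro i hi
        refine sub_mem_fixedSet ρ (hx i (Finset.mem_of_mem_erase hi)) ?_
        exact smul_mem_fixedSet ρ hρ (fun g => (r i).2 g) (hx i₀ hi₀)
      -- `c i₀ = - ∑_{i ≠ i₀} r i * c i`
      have hci₀ : c i₀ = - ∑ i ∈ s.erase i₀, ((r i : FixedPoints.subfield Γ L) : L) * c i := by
        have h1 : ∑ i ∈ s, ((k i : FixedPoints.subfield Γ L) : L) * c i = 0 := by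
          have := hk
          simpa [Subfield.smul_def] using this
        rw [← Finset.add_sum_erase s _ hi₀] at h1
        have hk0 : ((k i₀ : FixedPoints.subfield Γ L) : L) ≠ 0 := by
          simpa using hki₀
        have h2 : c i₀ = - (∑ i ∈ s.erase i₀, ((k i : FixedPoints.subfield Γ L) : L) * c i) /
            ((k i₀ : FixedPoints.subfield Γ L) : L) := by
          field_simp
          linear_combination h1
        rw [h2, neg_div, Finset.sum_div]
        congr 1
        refine Finset.sum_congr rfl fun i _ => ?_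
        simp only [hr, Subfield.coe_div]
        field_simp
      have hsum' : ∑ i ∈ s, c i • x i = ∑ i ∈ s.erase i₀, c i • x' i := by
        rw [← Finset.add_sum_erase s _ hi₀, hci₀]
        simp only [hx', smul_sub, Finset.sum_sub_distrib, neg_smul, Finset.sum_smul, smul_smul]
        have : ∑ i ∈ s.erase i₀, (c i * ((r i : FixedPoints.subfield Γ L) : L)) • x i₀ =
            ∑ i ∈ s.erase i₀, (((r i : FixedPoints.subfield Γ L) : L) * c i) • x i₀ :=
          Finset.sum_congr rfl fun i _ => by rw [mul_comm]
        rw [this]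
        abel
      rw [hsum'] at hsum ⊢
      refine ih (s.erase i₀) c x' ?_ hx'fix hsum
      rw [Finset.card_erase_of_mem hi₀, hs]
      rfl

/-- **A stable subspace is spanned by its fixed vectors**, as far as it lies in the span of the
fixed vectors. -/
theorem mem_span_fixed (V : Submodule L E) (hV : ∀ g, ∀ z ∈ V, ρ g z ∈ V) {y : E} (hyV : y ∈ V)
    (hy : y ∈ Submodule.span L (fixedSet ρ)) :
    y ∈ Submodule.span L {z | z ∈ V ∧ z ∈ fixedSet ρ} := by
  obtain ⟨n, f, g, rfl⟩ := Submodule.mem_span_set'.mp hy
  exact sum_mem_span_fixed ρ hρ V hV _ Finset.univ f (fun i => (g i : E)) rfl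
    (fun i _ => (g i).2) hyV

/-- **A finite-dimensional stable subspace inside the span of the fixed vectors has a basis of
fixed vectors.** -/
theorem exists_fixed_basis (V : Submodule L E) [FiniteDimensional L V]
    (hV : ∀ g, ∀ z ∈ V, ρ g z ∈ V) (hspan : ∀ y ∈ V, y ∈ Submodule.span L (fixedSet ρ)) :
    ∃ f : Fin (Module.finrank L V) → E, (∀ l, f l ∈ V ∧ f l ∈ fixedSet ρ) ∧
      LinearIndependent L f := by
  classical
  set S : Set V := {v | (v : E) ∈ fixedSet ρ} with hS
  have hsp : ⊤ ≤ Submodule.span L S := by
    rintro ⟨y, hyV⟩ -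
    have h1 := mem_span_fixed ρ hρ V hV hyV (hspan y hyV)
    have h2 : Submodule.span L {z | z ∈ V ∧ z ∈ fixedSet ρ} ≤
        (Submodule.span L S).map V.subtype := by
      rw [Submodule.span_le]
      rintro z ⟨hzV, hzf⟩
      exact ⟨⟨z, hzV⟩, Submodule.subset_span hzf, rfl⟩
    obtain ⟨w, hw, hwy⟩ := h2 h1
    have : w = ⟨y, hyV⟩ := Subtype.ext hwy
    rwa [this] at hw
  let B := Module.Basis.ofSpan hsp
  have hsub := Module.Basis.ofSpan_subset hsp
  haveI : Fintype ((linearIndepOn_empty L id).extend (Set.empty_subset S)) :=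
    FiniteDimensional.fintypeBasisIndex B
  have hcard : Fintype.card ((linearIndepOn_empty L id).extend (Set.empty_subset S)) =
      Module.finrank L V := (Module.finrank_eq_card_basis B).symm
  let e : Fin (Module.finrank L V) ≃ ((linearIndepOn_empty L id).extend (Set.empty_subset S)) :=
    (Fintype.equivFinOfCardEq hcard).symm
  refine ⟨fun l => ((B (e l) : V) : E), fun l => ⟨(B (e l)).2, ?_⟩, ?_⟩
  · exact hsub ⟨e l, rfl⟩
  · have h1 : LinearIndependent L fun l => B (e l) :=
      B.linearIndependent.comp _ e.injective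
    exact h1.map' V.subtype (Submodule.ker_subtype V)

/-- **Coordinates of a fixed vector in an independent family of fixed vectors are fixed.** -/
theorem coeff_fixed {ι : Type*} (s : Finset ι) (w : ι → E) (hw : ∀ i ∈ s, w i ∈ fixedSet ρ)
    (hli : LinearIndepOn L w (s : Set ι)) (c : ι → L)
    (hz : ∑ i ∈ s, c i • w i ∈ fixedSet ρ) : ∀ i ∈ s, ∀ g : Γ, g • c i = c i := by
  intro i hi g
  have h1 : ρ g (∑ i ∈ s, c i • w i) = ∑ i ∈ s, (g • c i) • w i := by
    rw [map_sum]
    exact Finset.sum_congr rfl fun i hi => by rw [hρ, hw i hi g]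
  have h2 : ∑ i ∈ s, (g • c i - c i) • w i = 0 := by
    simp only [sub_smul, Finset.sum_sub_distrib]
    rw [← h1, hz g, sub_self]
  rw [linearIndepOn_finset_iff] at hli
  exact sub_eq_zero.mp (hli _ h2 i hi)

end Artin

section Denominator

attribute [local instance] Polynomial.algebra in
/-- **Rational denominators**: over an algebraic extension `L / K` every nonzero polynomial
over `L` divides a nonzero polynomial over `K`. -/
theorem exists_fixed_multiple {K L : Type*} [Field K] [Field L] [Algebra K L]
    [Algebra.IsAlgebraic K L] (q : L[X]) (hq : q ≠ 0) :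
    ∃ Q : K[X], Q ≠ 0 ∧ q ∣ Q.map (algebraMap K L) := by
  haveI : Algebra.IsIntegral K L := Algebra.IsAlgebraic.isIntegral
  have halg : IsAlgebraic K[X] q := (Algebra.IsIntegral.isIntegral (R := K[X]) q).isAlgebraic
  obtain ⟨Q, hQ0, hQ⟩ := halg.exists_nonzero_dvd (mem_nonZeroDivisors_of_ne_zero hq)
  exact ⟨Q, hQ0, hQ⟩

end Denominator

end Fermat.Agent.S36.RRDescent
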