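/-
PROJECT V (S36), slice V-LiftK0 (helper25), abstract core: **rational lifting through a Gauss
datum**.

`G : GaussDatum A π FL Fk` a Gauss datum over a valued field `(L, A)` (`S37/Deuring/Core`), `Γ` a
group acting on `L` and (by ring endomorphisms `ρ g`, semilinearly) on `FL`, `K` a subfield of `L`
containing the `Γ`-fixed scalars over which `L` is algebraic.  Assume an orthonormal family
`x, u i` of FIXED Gauss-integral elements (`red x` transcendental, `red (u i)` independent over
`k(red x)`, `u i` spanning `FL` over `L(x)`).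

* `exists_rat_denominator` : finitely many functions have a common FIXED Gauss-unit denominator
  `y = Q(x)`, `Q ∈ (A ∩ K)[X]` primitive, bringing them into the `L[x]`-span of the `u i`.
* `exists_fixed_independent` : a finite-dimensional `Γ`-stable subspace `V` spanned by fixed
  vectors contains `dim V` FIXED Gauss-integral elements with `k`-linearly independent reductions
  (echelon lemma of `S37/Deuring/OrthoBasis` over the valuation ring `A ∩ K` of `K`, in the
  coordinates of a fixed basis of `V` -- `RRDescent.exists_fixed_basis` -- which are `K`-rational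
  by `RRDescent.coeff_fixed`).
* `exists_fixed_lift` : if moreover `A ∩ K → k` is onto, every Gauss-integral `f ∈ V` has the same
  reduction as a FIXED Gauss-integral `g ∈ V`.

No discreteness of the value group of `K`, no structure theory of the extension `L / K` is used
(averaging over `Γ` would fail for wildly ramified constants).
-/
import Mathlib
import Fermat.Agent.S37.Deuring.OrthoBasis
import Fermat.Agent.S36.RRDescent

set_option autoImplicit false
set_option linter.unusedSectionVars false
set_option linter.style.haveILetI false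
set_option linter.unusedVariables false

noncomputable section

namespace Fermat.Agent.S36.LiftK0Core

open Polynomial IntermediateField
open Fermat.Agent.S37.Deuring.Core Fermat.Agent.S37.Deuring.GaussLemmas
open Fermat.Agent.S37.Deuring.OrthoBasis Fermat.Agent.S36.RRDescent

variable {L : Type*} [Field L] {k : Type*} [Field k]
variable {A : ValuationSubring L} {π : A →+* k}
variable {FL : Type*} [Field FL] [Algebra L FL] {Fk : Type*} [Field Fk] [Algebra k Fk]
variable (G : GaussDatum A π FL Fk)
variable {K : Type*} [Field K] [Algebra K L]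

def ratRing (K : Type*) [Field K] [Algebra K L] (A : ValuationSubring L) : ValuationSubring K :=
  A.comap (algebraMap K L)

def ratIncl (K : Type*) [Field K] [Algebra K L] (A : ValuationSubring L) : ratRing K A →+* A where
  toFun a := ⟨algebraMap K L (a : K), a.2⟩
  map_one' := Subtype.ext (map_one _)
  map_mul' a b := Subtype.ext (map_mul _ _ _)
  map_zero' := Subtype.ext (map_zero _)
  map_add' a b := Subtype.ext (map_add _ _ _)

@[simp] theorem coe_ratIncl (a : ratRing K A) : ((ratIncl K A a : A) : L) = algebraMap K L (a : K) :=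
  rfl

def ratPi (K : Type*) [Field K] [Algebra K L] (π : A →+* k) : ratRing K A →+* k :=
  π.comp (ratIncl K A)

theorem subtype_comp_ratIncl :
    (A.subtype).comp (ratIncl K A) = (algebraMap K L).comp (ratRing K A).subtype :=
  RingHom.ext fun _ => rfl

variable {Γ : Type*} [Group Γ] [MulSemiringAction Γ L]
variable (ρ : Γ → FL →+* FL)

def addAct : Γ → FL →+ FL := fun g => (ρ g).toAddMonoidHom

@[simp] theorem addAct_apply (g : Γ) (z : FL) : addAct ρ g z = ρ g z := rfl

variable (hρ : ∀ (g : Γ) (c : L), ρ g (algebraMap L FL c) = algebraMap L FL (g • c))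

include hρ in
theorem addAct_smul (g : Γ) (c : L) (z : FL) : addAct ρ g (c • z) = (g • c) • addAct ρ g z := by
  simp only [addAct_apply, Algebra.smul_def, map_mul, hρ]

variable (hK' : ∀ (a : K) (g : Γ), g • algebraMap K L a = algebraMap K L a)

include hρ hK' in
theorem aeval_map_fixed {x : FL} (hx : ∀ g, ρ g x = x) (P : K[X]) (g : Γ) :
    ρ g (aeval x (P.map (algebraMap K L))) = aeval x (P.map (algebraMap K L)) := by
  rw [aeval_def, eval₂_map, hom_eval₂, hx g]
  congr 1
  refine RingHom.ext fun a => ?_
  simp only [RingHom.comp_apply]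
  rw [hρ, hK']

/-! ### a rational Gauss-unit denominator -/

include hρ hK' in
theorem exists_rat_denominator [Algebra.IsAlgebraic K L] (x : G.O)
    (hx : Transcendental k (G.red x)) (hxfix : ∀ g, ρ g (x : FL) = x) {n : ℕ} (u : Fin n → G.O)
    (hii : ⊤ ≤ Submodule.span L⟮(x : FL)⟯ (Set.range fun i => ((u i : G.O) : FL)))
    {d : ℕ} (f : Fin d → FL) :
    ∃ y : G.O, IsUnit y ∧ (∀ g, ρ g (y : FL) = y) ∧
      ∀ l, (y : FL) * f l ∈ polySpan (L := L) (x : FL) fun i => ((u i : G.O) : FL) := by
  classical
  have hden := fun l => exists_denominator (K := L) (x : FL) (fun i => ((u i : G.O) : FL)) hii (f l)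
  choose q hq0 hq using hden
  -- common denominator
  have hprod : ∀ l, aeval (x : FL) (∏ j, q j) * f l ∈
      polySpan (L := L) (x : FL) fun i => ((u i : G.O) : FL) := by
    intro l
    rw [← Finset.mul_prod_erase Finset.univ q (Finset.mem_univ l), map_mul,
      mul_comm (aeval (x : FL) (q l)), mul_assoc]
    exact aeval_mul_mem_polySpan _ _ _ (hq l)
  have hprod0 : (∏ j, q j) ≠ 0 := Finset.prod_ne_zero_iff.mpr fun j _ => hq0 j
  obtain ⟨Q, hQ0, r, hr⟩ := exists_fixed_multiple (K := K) (∏ j, q j) hprod0
  have hQmem : ∀ l, aeval (x : FL) (Q.map (algebraMap K L)) * f l ∈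
      polySpan (L := L) (x : FL) fun i => ((u i : G.O) : FL) := by
    intro l
    rw [hr, map_mul, mul_comm (aeval (x : FL) (∏ j, q j)), mul_assoc]
    exact aeval_mul_mem_polySpan _ _ _ (hprod l)
  obtain ⟨c, hc, Q₀, hQ₀, hQ₀π⟩ :=
    exists_scale_one (A := ratRing K A) (π := ratPi K π) Q hQ0
  set QA : A[X] := Q₀.map (ratIncl K A) with hQA
  have hQAsub : QA.map A.subtype = (C c * Q).map (algebraMap K L) := by
    rw [hQA, Polynomial.map_map, subtype_comp_ratIncl, ← Polynomial.map_map, hQ₀]
  have hQAπ : QA.map π = Q₀.map (ratPi K π) := by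
    rw [hQA, Polynomial.map_map]
    rfl
  set y : G.O := evalO G x QA with hy
  have hycoe : (y : FL) = aeval (x : FL) ((C c * Q).map (algebraMap K L)) := by
    rw [hy, coe_evalO, hQAsub]
  have hyred : G.red y ≠ 0 := by
    rw [hy, red_evalO, hQAπ]
    exact fun h => hQ₀π ((transcendental_iff.mp hx) _ h)
  have hyu : IsUnit y := by
    by_contra h
    exact hyred ((G.red_eq_zero_iff y).mpr h)
  refine ⟨y, hyu, fun g => ?_, fun l => ?_⟩
  · rw [hycoe]
    exact aeval_map_fixed ρ hρ hK' hxfix _ g
  · rw [hycoe, Polynomial.map_mul, Polynomial.map_C, map_mul, aeval_C, mul_assoc,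
      ← Algebra.smul_def]
    exact Submodule.smul_mem _ _ (hQmem l)

/-! ### the rational echelon -/

include hρ hK' in
/-- **Rational orthonormal lifting**: a finite-dimensional stable subspace `V` spanned by fixed
vectors contains `dim V` fixed Gauss-integral elements with linearly independent reductions. -/
theorem exists_fixed_independent [Algebra.IsAlgebraic K L]
    (hK : ∀ c : L, (∀ g : Γ, g • c = c) → c ∈ Set.range (algebraMap K L))
    (x : G.O) (hx : Transcendental k (G.red x)) (hxfix : ∀ g, ρ g (x : FL) = x)
    {n : ℕ} (u : Fin n → G.O) (hufix : ∀ g i, ρ g ((u i : G.O) : FL) = (u i : G.O))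
    (hi : LinearIndependent k⟮G.red x⟯ fun i => G.red (u i))
    (hii : ⊤ ≤ Submodule.span L⟮(x : FL)⟯ (Set.range fun i => ((u i : G.O) : FL)))
    (V : Submodule L FL) [FiniteDimensional L V] (hV : ∀ g, ∀ z ∈ V, ρ g z ∈ V)
    (hspan : ∀ y ∈ V, y ∈ Submodule.span L (fixedSet (addAct ρ))) :
    ∃ g : Fin (Module.finrank L V) → G.O,
      (∀ l, ((g l : G.O) : FL) ∈ V ∧ ∀ γ, ρ γ ((g l : G.O) : FL) = (g l : G.O)) ∧
      LinearIndependent k fun l => G.red (g l) := by
  classical
  obtain ⟨f, hf, hfli⟩ := exists_fixed_basis (addAct ρ) (addAct_smul ρ hρ) V hV hspan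
  obtain ⟨y, hyu, hyfix, hymem⟩ := exists_rat_denominator G ρ hρ hK' x hx hxfix u hii f
  have hy0 : (y : FL) ≠ 0 := by
    intro h
    have : y = 0 := Subtype.ext h
    rw [this] at hyu
    exact not_isUnit_zero hyu
  -- the monomials
  set w : Fin n × ℕ → G.O := fun p => x ^ p.2 * u p.1 with hw
  have hwcoe : ∀ p, ((w p : G.O) : FL) = (x : FL) ^ p.2 * ((u p.1 : G.O) : FL) := fun p => rfl
  have hwli : LinearIndependent k fun p => G.red (w p) := by
    have : (fun p => G.red (w p)) = fun p : Fin n × ℕ => G.red x ^ p.2 * G.red (u p.1) := by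
      funext p
      rw [hw, map_mul, map_pow]
    rw [this]
    exact linearIndependent_monomials hx _ hi
  have hwfix : ∀ g p, ρ g ((w p : G.O) : FL) = (w p : G.O) := by
    intro g p
    rw [hwcoe, map_mul, map_pow, hxfix, hufix]
  -- coordinates of `y * f l`
  have hz : ∀ l, ∃ c : (Fin n × ℕ) →₀ L,
      (c.sum fun p a => a • ((w p : G.O) : FL)) = (y : FL) * f l := fun l =>
    Finsupp.mem_span_range_iff_exists_finsupp.mp (hymem l)
  choose c hc using hz
  set T : Finset (Fin n × ℕ) := Finset.univ.biUnion fun l => (c l).support with hT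
  have hzT : ∀ l, ∑ p ∈ T, c l p • ((w p : G.O) : FL) = (y : FL) * f l := by
    intro l
    rw [← hc l, Finsupp.sum]
    symm
    refine Finset.sum_subset ?_ fun p _ hp => ?_
    · intro p hp
      exact Finset.mem_biUnion.mpr ⟨l, Finset.mem_univ l, hp⟩
    · rw [Finsupp.notMem_support_iff.mp hp, zero_smul]
  have hwT : LinearIndepOn L (fun p => ((w p : G.O) : FL)) (T : Set (Fin n × ℕ)) :=
    G.linearIndependent_of_red (fun p : T => w p) (hwli.comp _ Subtype.val_injective)
  have hcK : ∀ l, ∀ p ∈ T, ∃ a : K, algebraMap K L a = c l p := by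
    intro l p hp
    have hfix := coeff_fixed (addAct ρ) (addAct_smul ρ hρ) T (fun p => ((w p : G.O) : FL))
      (fun p _ g => hwfix g p) hwT (c l) (by
        rw [hzT l]
        intro g
        rw [addAct_apply, map_mul, hyfix g]
        congr 1
        exact (hf l).2 g) p hp
    obtain ⟨a, ha⟩ := hK _ hfix
    exact ⟨a, ha⟩
  choose! a ha using hcK
  -- the coordinate map
  set M : (Fin (Module.finrank L V) → K) →ₗ[K] (T → K) :=
    Fintype.linearCombination K fun l => fun p : T => a l p with hM
  have hMapply : ∀ b (p : T), M b p = ∑ l, b l * a l p := by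
    intro b p
    rw [hM, Fintype.linearCombination_apply, Finset.sum_apply]
    rfl
  have hkey : ∀ b : Fin (Module.finrank L V) → K,
      ∑ p : T, algebraMap K L (M b p) • ((w p : G.O) : FL) =
        (y : FL) * ∑ l, algebraMap K L (b l) • f l := by
    intro b
    have h1 : ∀ p : T, algebraMap K L (M b p) • ((w p : G.O) : FL) =
        ∑ l, algebraMap K L (b l) • (c l p • ((w p : G.O) : FL)) := by
      intro p
      rw [hMapply, map_sum, Finset.sum_smul]
      refine Finset.sum_congr rfl fun l _ => ?_
      rw [map_mul, ha l p p.2, smul_smul]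
    rw [Finset.sum_congr rfl fun p _ => h1 p, Finset.sum_comm, Finset.mul_sum]
    refine Finset.sum_congr rfl fun l _ => ?_
    rw [← Finset.smul_sum, Finset.sum_coe_sort T fun p => c l p • ((w p : G.O) : FL), hzT l,
      mul_smul_comm]
  have hMinj : Function.Injective M := by
    rw [injective_iff_map_eq_zero]
    intro b hb
    have h1 := hkey b
    rw [hb] at h1
    simp only [Pi.zero_apply, map_zero, zero_smul, Finset.sum_const_zero] at h1
    have h2 : ∑ l, algebraMap K L (b l) • f l = 0 := by
      rcases mul_eq_zero.mp h1.symm with h | h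
      · exact absurd h hy0
      · exact h
    funext l
    have := (Fintype.linearIndependent_iff.mp hfli) (fun l => algebraMap K L (b l)) h2 l
    exact (map_eq_zero _).mp this
  have hrank : Module.finrank K (LinearMap.range M) = Module.finrank L V := by
    rw [LinearMap.finrank_range_of_inj hMinj, Module.finrank_fin_fun]
  obtain ⟨g₀, hg₀W, hg₀li⟩ := exists_echelon (ratPi K π) _ (LinearMap.range M) hrank
  choose b hb using hg₀W
  -- the lifted elements
  set h : Fin (Module.finrank L V) → G.O := fun j =>
    ∑ p : T, constHom G (ratIncl K A (g₀ j p)) * w p with hh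
  have hhcoe : ∀ j, ((h j : G.O) : FL) =
      (y : FL) * ∑ l, algebraMap K L (b j l) • f l := by
    intro j
    rw [← hkey (b j), hb j]
    rw [show ((h j : G.O) : FL) = G.O.subtype (h j) from rfl, hh, map_sum]
    refine Finset.sum_congr rfl fun p _ => ?_
    rw [Algebra.smul_def]
    rfl
  set yi : G.O := ((hyu.unit⁻¹ : G.Oˣ) : G.O) with hyi
  have hyiy : yi * y = 1 := hyu.val_inv_mul
  have hyiycoe : (yi : FL) * (y : FL) = 1 := congrArg Subtype.val hyiy
  have hgcoe : ∀ j, ((yi * h j : G.O) : FL) = ∑ l, algebraMap K L (b j l) • f l := by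
    intro j
    rw [show ((yi * h j : G.O) : FL) = (yi : FL) * (h j : FL) from rfl, hhcoe, ← mul_assoc,
      hyiycoe, one_mul]
  refine ⟨fun j => yi * h j, fun j => ⟨?_, fun γ => ?_⟩, ?_⟩
  · rw [hgcoe]
    exact Submodule.sum_mem _ fun l _ => Submodule.smul_mem _ _ (hf l).1
  · rw [hgcoe, map_sum]
    refine Finset.sum_congr rfl fun l _ => ?_
    rw [Algebra.smul_def, map_mul, hρ, hK']
    congr 1
    exact (hf l).2 γ
  · -- independence of the reductions
    set Φk : (T → k) →ₗ[k] Fk := Fintype.linearCombination k fun p : T => G.red (w p) with hΦk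
    have hΦkinj : Function.Injective Φk :=
      linearIndependent_iff_injective_fintypeLinearCombination.mp
        (hwli.comp _ Subtype.val_injective)
    have hredh : (fun j => G.red (h j)) = Φk ∘ fun j => fun p => ratPi K π (g₀ j p) := by
      funext j
      rw [Function.comp_apply, hΦk, Fintype.linearCombination_apply, hh, map_sum]
      refine Finset.sum_congr rfl fun p _ => ?_
      rw [map_mul, red_constHom, Algebra.smul_def]
      rfl
    have hlih : LinearIndependent k fun j => G.red (h j) := by
      rw [hredh]
      exact hg₀li.map' Φk (LinearMap.ker_eq_bot.mpr hΦkinj)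
    have hyired : G.red yi * G.red y = 1 := by rw [← map_mul, hyiy, map_one]
    have hyired0 : G.red yi ≠ 0 := left_ne_zero_of_mul_eq_one hyired
    have : (fun j => G.red (yi * h j)) =
        (LinearMap.mulLeft k (G.red yi)) ∘ fun j => G.red (h j) := by
      funext j
      rw [Function.comp_apply, LinearMap.mulLeft_apply, map_mul]
    rw [this]
    refine hlih.map' _ (LinearMap.ker_eq_bot.mpr ?_)
    intro b₁ b₂ hb12
    simp only [LinearMap.mulLeft_apply] at hb12
    exact mul_left_cancel₀ hyired0 hb12

include hρ hK' in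
/-- **Rational lifting**: in the situation of `exists_fixed_independent`, if moreover the residue
field of `A ∩ K` is all of `k`, every Gauss-integral element of `V` has the same reduction as a
FIXED Gauss-integral element of `V`. -/
theorem exists_fixed_lift [Algebra.IsAlgebraic K L]
    (hK : ∀ c : L, (∀ g : Γ, g • c = c) → c ∈ Set.range (algebraMap K L))
    (hres : Function.Surjective (ratPi K π))
    (x : G.O) (hx : Transcendental k (G.red x)) (hxfix : ∀ g, ρ g (x : FL) = x)
    {n : ℕ} (u : Fin n → G.O) (hufix : ∀ g i, ρ g ((u i : G.O) : FL) = (u i : G.O))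
    (hi : LinearIndependent k⟮G.red x⟯ fun i => G.red (u i))
    (hii : ⊤ ≤ Submodule.span L⟮(x : FL)⟯ (Set.range fun i => ((u i : G.O) : FL)))
    (V : Submodule L FL) [FiniteDimensional L V] (hV : ∀ g, ∀ z ∈ V, ρ g z ∈ V)
    (hspan : ∀ y ∈ V, y ∈ Submodule.span L (fixedSet (addAct ρ)))
    (f : G.O) (hfV : ((f : G.O) : FL) ∈ V) :
    ∃ g : G.O, ((g : G.O) : FL) ∈ V ∧ (∀ γ, ρ γ ((g : G.O) : FL) = (g : G.O)) ∧
      G.red g = G.red f := by
  classical
  obtain ⟨g, hg, hgli⟩ :=
    exists_fixed_independent G ρ hρ hK' hK x hx hxfix u hufix hi hii V hV hspan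
  -- `red f` lies in the span of the `red (g l)`
  have hmem : G.red f ∈ Submodule.span k (Set.range fun l => G.red (g l)) := by
    by_contra hnot
    have hli : LinearIndependent k (Fin.cons (G.red f) (fun l => G.red (g l)) :
        Fin (Module.finrank L V + 1) → Fk) := linearIndependent_finCons.mpr ⟨hgli, hnot⟩
    have hli' : LinearIndependent k fun j => G.red ((Fin.cons f g : Fin (Module.finrank L V + 1) → G.O) j) := by
      have : (fun j => G.red ((Fin.cons f g : Fin (Module.finrank L V + 1) → G.O) j)) =
          (Fin.cons (G.red f) (fun l => G.red (g l)) : Fin (Module.finrank L V + 1) → Fk) := by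
        funext j
        refine Fin.cases ?_ (fun l => ?_) j <;> simp
      rw [this]
      exact hli
    have hL := G.linearIndependent_of_red _ hli'
    let F : Fin (Module.finrank L V + 1) → V := fun j =>
      ⟨(((Fin.cons f g : Fin (Module.finrank L V + 1) → G.O) j : G.O) : FL), by
        refine Fin.cases ?_ (fun l => ?_) j
        · simpa using hfV
        · simpa using (hg l).1⟩
    have hF : LinearIndependent L F := by
      apply LinearIndependent.of_comp V.subtype
      exact hL
    have := hF.fintype_card_le_finrank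
    rw [Fintype.card_fin] at this
    omega
  obtain ⟨c, hc⟩ := (Submodule.mem_span_range_iff_exists_fun k).mp hmem
  choose a ha using fun l => hres (c l)
  refine ⟨∑ l, constHom G (ratIncl K A (a l)) * g l, ?_, fun γ => ?_, ?_⟩
  · rw [show ((∑ l, constHom G (ratIncl K A (a l)) * g l : G.O) : FL) =
        G.O.subtype (∑ l, constHom G (ratIncl K A (a l)) * g l) from rfl, map_sum]
    refine Submodule.sum_mem _ fun l _ => ?_
    have : G.O.subtype (constHom G (ratIncl K A (a l)) * g l) =
        algebraMap K L (a l : K) • ((g l : G.O) : FL) := by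
      rw [Algebra.smul_def]
      rfl
    rw [this]
    exact Submodule.smul_mem _ _ (hg l).1
  · rw [show ((∑ l, constHom G (ratIncl K A (a l)) * g l : G.O) : FL) =
        G.O.subtype (∑ l, constHom G (ratIncl K A (a l)) * g l) from rfl, map_sum, map_sum]
    refine Finset.sum_congr rfl fun l _ => ?_
    have : G.O.subtype (constHom G (ratIncl K A (a l)) * g l) =
        algebraMap L FL (algebraMap K L (a l : K)) * ((g l : G.O) : FL) := rfl
    rw [this, map_mul, hρ, hK', (hg l).2 γ]
  · rw [map_sum, ← hc]
    refine Finset.sum_congr rfl fun l _ => ?_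
    rw [map_mul, red_constHom, Algebra.smul_def, ← ha l]
    rfl

end Fermat.Agent.S36.LiftK0Core
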