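/-
PROJECT V (S36), slice V-LiftK0 (helper25): **`K0`-rational lifting with pole control at level
`M`, `q ∤ M`** -- the X0 input of chain (V8) CompNormal and of the point type (i) `surj` of
`NakElement`.

`A` a valuation subring of `ℚ̄` over `q ∤ M`, `G = gaussDatum M A` the Gauss datum of
`ℚ̄(X₀(M))` (`S37/Gauss/Datum`), `I` a subgroup of `G_ℚ`, `K0 = fixedField I`,
`F0 = laurentBaseChange K0 (modularFunctionFieldFull M)` the `K0`-form of the function field
(`KummerNew.F0 I M`), `toBar : F0 → ℚ̄(X₀(M))` (`K0Fixed.toBar`, `= KummerNew.toE I M`).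
Hypothesis `hres`: the integers of `K0` surject onto the residue field of `A`
(`ratPi_surjective_inertia`: true for the inertia group, by `S18/C/SmallDVR`).

* `exists_orthonormal_rational` : the orthonormal basis `j, u i` of `S37/Gauss/OrthoBasisX0`
  consists of `ℚ`-rational functions `u i = embBar (t i)`.
* `rho N I σ` : the coefficientwise action of `σ ∈ I` (ring endomorphism); `rho_toBar`,
  `exists_toBar_eq_of_fixed` (fixed `=` in the range of `toBar`), `mem_span_fixedSet`
  (`ℚ̄(X₀(N))` is spanned by the fixed functions), `rho_mem_rr` (invariant divisors have stable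
  Riemann-Roch spaces), `smul_eq_of_ord`.
* `exists_K0_lift_of_mem` : for an `I`-invariant `D` with `L(D)` finite-dimensional, every
  Gauss-integral `f ∈ L(D)` has the reduction of `toBar g₀`, `g₀ ∈ F0`, `toBar g₀ ∈ L(D) ∩ G.O`.
* `exists_lift_off_cusps_K0`, `exists_lift_off_zeros_K0` : the `K0`-rational forms of
  `S34/LevelMSurjX0.exists_lift_off_cusps / exists_lift_off_zeros`.

Proof: `S36/LiftK0Core.exists_fixed_lift` (Artin independence + echelon over `A ∩ K0`); plain
averaging over inertia is not available (wild ramification of the constants).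
-/
import Mathlib
import Fermat.Agent.S37.Gauss.OrthoBasisX0
import Fermat.Agent.S34.LevelMSurjX0
import Fermat.Agent.S36.K0Fixed
import Fermat.Agent.S36.LiftK0Core
import Fermat.Agent.S18.C.SmallDVR

set_option autoImplicit false
set_option linter.unusedSectionVars false
set_option linter.style.haveILetI false

noncomputable section

namespace Fermat.Agent.S36.LiftK0

open HahnSeries ModularCurve IsLocalRing IntermediateField AlgebraicCurve
open Fermat.Agent.S18.GaussFromH Fermat.Agent.S18.C Fermat.Agent.S18.A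
open Fermat.Agent.S24.DegreeAlg (jgen)
open Fermat.Agent.S18.B.FkBasics (jk transcendental_jk)
open Fermat.Agent.S28.GaussFull (OwFull redwFull)
open Fermat.Agent.S37.Gauss Fermat.Agent.S37.Gauss.OrthoBasisX0
open Fermat.Agent.S37.Deuring.Core

local notation "Kb" => AlgebraicClosure ℚ
local notation "GQ" => (AlgebraicClosure ℚ ≃ₐ[ℚ] AlgebraicClosure ℚ)

set_option synthInstance.maxHeartbeats 400000

section Ortho

variable {ℓ : ℕ} [Fact ℓ.Prime] {N : ℕ} [NeZero N] {A : ValuationSubring Kb}
variable (hA : A.LiesOverPrime ℓ) (hℓN : ¬ ℓ ∣ N)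

/-- **The orthonormal basis of `ℚ̄(X₀(N))` consists of `ℚ`-rational functions.** -/
theorem exists_basis_O_rational :
    ∃ (n : ℕ) (t : Fin n → ↥(modularFunctionFieldFull N))
      (hmem : ∀ i, Forms.embBar N (t i) ∈ (Datum.gaussDatum N A hA hℓN).O)
      (bL : Module.Basis (Fin n) (RatFunc Kb) ↥(modularFunctionFieldBar N))
      (bk : Module.Basis (Fin n) (RatFunc (ResidueField ↥A))
        ↥(modularFunctionFieldFullC (ResidueField ↥A) N)),
      (∀ i, bL i = Forms.embBar N (t i)) ∧
      (∀ i, bk i = (Datum.gaussDatum N A hA hℓN).red ⟨Forms.embBar N (t i), hmem i⟩) := by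
  have : CharP (ResidueField ↥A) ℓ := S18.ResidueBasics.charP_residueField A hA
  have : IsAlgClosed (ResidueField ↥A) := S18.ResidueBasics.isAlgClosed_residueField A
  let _ : Algebra (ZMod ℓ) (ResidueField ↥A) := ZMod.algebra _ ℓ
  obtain ⟨n, t, bL, bk, hbL, hbk⟩ := HasRep.exists_bases ℓ N (ResidueField ↥A) hℓN
  choose α β hβ hLαβ hKαβ using fun i =>
    HasRep.exists_rep_OwFull N A (residue ↥A) hA hℓN (t i)
  have hmem : ∀ i, Forms.embBar N ((t i : ↥(OwFull ℓ N)) : ↥(modularFunctionFieldFull N)) ∈
      (Datum.gaussDatum N A hA hℓN).O := fun i =>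
    (Datum.mem_O_iff hA hℓN).mpr ⟨α i, β i, hβ i, hLαβ i⟩
  refine ⟨n, fun i => ((t i : ↥(OwFull ℓ N)) : ↥(modularFunctionFieldFull N)), hmem, bL, bk,
    fun i => hbL i, fun i => ?_⟩
  rw [hbk i, Datum.red_eq hA hℓN ⟨_, hmem i⟩ (hβ i) (hLαβ i), ← hKαβ i, mul_div_assoc,
    div_self (hβ i), mul_one]

set_option maxHeartbeats 1600000 in
/-- **The orthonormal basis in the shape of `Deuring.OrthoBasis.ob_of_basis`, made of
`ℚ`-rational functions.** -/
theorem exists_orthonormal_rational :
    ∃ (n : ℕ) (t : Fin n → ↥(modularFunctionFieldFull N))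
      (hmem : ∀ i, Forms.embBar N (t i) ∈ (Datum.gaussDatum N A hA hℓN).O),
      LinearIndependent (ResidueField ↥A)⟮(Datum.gaussDatum N A hA hℓN).red (xO hA hℓN)⟯
        (fun i => (Datum.gaussDatum N A hA hℓN).red ⟨Forms.embBar N (t i), hmem i⟩) ∧
      ⊤ ≤ Submodule.span Kb⟮((xO hA hℓN : ↥(Datum.gaussDatum N A hA hℓN).O) :
          ↥(modularFunctionFieldBar N))⟯
        (Set.range fun i => ((⟨Forms.embBar N (t i), hmem i⟩ :
          ↥(Datum.gaussDatum N A hA hℓN).O) : ↥(modularFunctionFieldBar N))) := by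
  obtain ⟨n, t, hmem, bL, bk, hbL, hbk⟩ := exists_basis_O_rational hA hℓN
  refine ⟨n, t, hmem, ?_, ?_⟩
  · have h2 : (fun i => (Datum.gaussDatum N A hA hℓN).red ⟨Forms.embBar N (t i), hmem i⟩) = ⇑bk :=
      funext fun i => (hbk i).symm
    rw [h2]
    exact linearIndependent_adjoin (K := ResidueField ↥A)
      (F := ↥(modularFunctionFieldFullC (ResidueField ↥A) N)) (x := jk (ResidueField ↥A) N)
      (transcendental_jk (ResidueField ↥A) N)
      (ModularInst.algebraMap_Fk N (ResidueField ↥A)) ⇑bk bk.linearIndependent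
      ((Datum.gaussDatum N A hA hℓN).red (xO hA hℓN)) (red_xO hA hℓN).symm
  · have h2 : (fun i => ((⟨Forms.embBar N (t i), hmem i⟩ :
        ↥(Datum.gaussDatum N A hA hℓN).O) : ↥(modularFunctionFieldBar N))) = ⇑bL :=
      funext fun i => (hbL i).symm
    rw [h2]
    exact top_le_span_adjoin (K := Kb) (F := ↥(modularFunctionFieldBar N)) (x := jgen N)
      (ModularInst.transcendental_jgen N) (ModularInst.algebraMap_FL N) bL

end Ortho

/-! ### the coefficientwise action of a subgroup of `G_ℚ` -/

section Action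

open Fermat.Agent.S36.K0Fixed Fermat.Agent.S36.LiftK0Core Fermat.Agent.S36.RRDescent
open Fermat.Agent.S30.Descent.ConstExt

variable (N : ℕ) [NeZero N] (I : Subgroup GQ)

/-- the coefficientwise action of `σ ∈ I` on `ℚ̄(X₀(N))`, as a ring endomorphism -/
def rho (σ : I) : ↥(modularFunctionFieldBar N) →+* ↥(modularFunctionFieldBar N) :=
  (arithmeticRingAut (modularFunctionFieldFull N) (σ : GQ)).toRingHom

theorem rho_apply (σ : I) (z : ↥(modularFunctionFieldBar N)) :
    rho N I σ z = arithmeticGalois (modularFunctionFieldFull N) (σ : GQ) • z := rfl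

theorem coe_rho_apply (σ : I) (z : ↥(modularFunctionFieldBar N)) :
    ((rho N I σ z : ↥(modularFunctionFieldBar N)) : LaurentSeries Kb) =
      coeffMap ((σ : GQ) : Kb →+* Kb) (z : LaurentSeries Kb) := rfl

theorem rho_algebraMap (σ : I) (c : Kb) :
    rho N I σ (algebraMap Kb ↥(modularFunctionFieldBar N) c) =
      algebraMap Kb ↥(modularFunctionFieldBar N) (σ • c) :=
  arithmeticRingAut_algebraMap (modularFunctionFieldFull N) (σ : GQ) c

theorem rho_embBar (σ : I) (x : ↥(modularFunctionFieldFull N)) :
    rho N I σ (Forms.embBar N x) = Forms.embBar N x := by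
  apply Subtype.ext
  rw [coe_rho_apply, Forms.coe_embBar]
  exact coeffMap_coeffEmb (σ : GQ) _

theorem rho_toBar (σ : I)
    (x : ↥(laurentBaseChange (IntermediateField.fixedField I) (modularFunctionFieldFull N))) :
    rho N I σ (toBar (modularFunctionFieldFull N) (IntermediateField.fixedField I) x) =
      toBar (modularFunctionFieldFull N) (IntermediateField.fixedField I) x :=
  arithmeticGalois_smul_toBar (modularFunctionFieldFull N) _ (σ : GQ)
    (fun c : IntermediateField.fixedField I => c.2 ⟨(σ : GQ), σ.2⟩) x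

theorem exists_toBar_eq_of_fixed {z : ↥(modularFunctionFieldBar N)}
    (hz : ∀ σ : I, rho N I σ z = z) :
    ∃ z₀ : ↥(laurentBaseChange (IntermediateField.fixedField I) (modularFunctionFieldFull N)),
      toBar (modularFunctionFieldFull N) (IntermediateField.fixedField I) z₀ = z := by
  have h : z ∈ {x : ↥(modularFunctionFieldBar N) |
      ∀ σ ∈ I, arithmeticGalois (modularFunctionFieldFull N) σ • x = x} :=
    fun σ hσ => hz ⟨σ, hσ⟩
  rw [← range_toBar_fixedField (L := Kb) (modularFunctionFieldFull N) I] at h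
  exact h

/-- every function is a `ℚ̄`-linear combination of `I`-fixed functions -/
theorem mem_span_fixedSet (z : ↥(modularFunctionFieldBar N)) :
    z ∈ Submodule.span Kb (fixedSet (addAct (rho N I))) := by
  have : Algebra.IsAlgebraic (IntermediateField.fixedField I) Kb :=
    Algebra.IsAlgebraic.tower_top (K := ℚ) (IntermediateField.fixedField I)
  have hE : constExt Kb (laurentBaseChange (IntermediateField.fixedField I)
      (modularFunctionFieldFull N)) = modularFunctionFieldBar N :=
    constExt_laurentBaseChange (modularFunctionFieldFull N)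
  have hzm : (z : LaurentSeries Kb) ∈ constExt Kb (laurentBaseChange
      (IntermediateField.fixedField I) (modularFunctionFieldFull N)) := by
    rw [hE]; exact z.2
  obtain ⟨l, hl⟩ := exists_lsum_eq (K' := Kb) (F := laurentBaseChange
      (IntermediateField.fixedField I) (modularFunctionFieldFull N)) ⟨(z : LaurentSeries Kb), hzm⟩
  have hcoe := congrArg (fun w : constExt Kb (laurentBaseChange
      (IntermediateField.fixedField I) (modularFunctionFieldFull N)) => (w : LaurentSeries Kb)) hl
  simp only [coe_lsum] at hcoe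
  have hz : z = (l.map fun p => p.1 •
      toBar (modularFunctionFieldFull N) (IntermediateField.fixedField I) p.2).sum := by
    apply Subtype.ext
    rw [← hcoe]
    clear hl hcoe
    induction l with
    | nil => simp
    | cons p l ih =>
      rw [List.map_cons, List.sum_cons, List.map_cons, List.sum_cons, ih]
      change _ = ((p.1 • toBar (modularFunctionFieldFull N) (IntermediateField.fixedField I) p.2 :
            ↥(modularFunctionFieldBar N)) : LaurentSeries Kb) +
          (((l.map fun p => p.1 • toBar (modularFunctionFieldFull N)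
            (IntermediateField.fixedField I) p.2).sum : ↥(modularFunctionFieldBar N)) :
            LaurentSeries Kb)
      congr 1
  rw [hz]
  refine list_sum_mem ?_
  intro w hw
  obtain ⟨p, -, rfl⟩ := List.mem_map.mp hw
  exact Submodule.smul_mem _ _ (Submodule.subset_span fun σ => rho_toBar N I σ p.2)

end Action

/-! ### invariant divisors and their Riemann-Roch spaces -/

section RR

open Fermat.Agent.S36.K0Fixed Fermat.Agent.S36.LiftK0Core Fermat.Agent.S36.RRDescent

variable {N : ℕ} [NeZero N] (I : Subgroup GQ)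

/-- an `I`-invariant divisor has an `I`-stable Riemann-Roch space -/
theorem rho_mem_rr {D : Divisor Kb ↥(modularFunctionFieldBar N)}
    (hD : ∀ σ ∈ I, arithmeticGalois (modularFunctionFieldFull N) σ • D = D) (σ : I)
    {z : ↥(modularFunctionFieldBar N)} (hz : z ∈ riemannRochSpace D) :
    rho N I σ z ∈ riemannRochSpace D := by
  rw [mem_riemannRochSpace_iff] at hz ⊢
  intro v
  set g := arithmeticGalois (modularFunctionFieldFull N) (σ : GQ) with hg
  rcases hz (g⁻¹ • v) with h | h
  · left
    rw [h, map_zero]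
  · right
    have h1 : v.ord (g • z) = (g⁻¹ • v).ord z := by
      have := SemilinearAut.ord_smul g (g⁻¹ • v) z
      rwa [smul_inv_smul] at this
    have h2 : D (g⁻¹ • v) = D v := by
      have := SemilinearAut.divisor_smul_apply g D v
      rw [hD (σ : GQ) σ.2] at this
      exact this.symm
    rw [rho_apply, h1, ← h2]
    exact h

/-- a divisor defined by the orders of an `I`-fixed function is `I`-invariant -/
theorem smul_eq_of_ord {x : ↥(modularFunctionFieldBar N)} (hx : ∀ σ : I, rho N I σ x = x)
    {D : Divisor Kb ↥(modularFunctionFieldBar N)} {φ : ℤ → ℤ}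
    (hD : ∀ v : Place Kb ↥(modularFunctionFieldBar N), D v = φ (v.ord x)) :
    ∀ σ ∈ I, arithmeticGalois (modularFunctionFieldFull N) σ • D = D := by
  intro σ hσ
  ext v
  set g := arithmeticGalois (modularFunctionFieldFull N) σ with hg
  rw [SemilinearAut.divisor_smul_apply, hD, hD]
  congr 1
  have h1 := SemilinearAut.ord_smul g (g⁻¹ • v) x
  rw [smul_inv_smul] at h1
  rw [← h1]
  congr 1
  exact hx ⟨σ, hσ⟩

end RR

/-! ### the `K0`-rational lift -/

section Main

open Fermat.Agent.S36.K0Fixed Fermat.Agent.S36.LiftK0Core Fermat.Agent.S36.RRDescent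
open Fermat.Agent.S18.NonSpecial

variable {q : ℕ} [Fact q.Prime] {M : ℕ} [NeZero M] {A : ValuationSubring Kb}
variable (hA : A.LiesOverPrime q) (hqM : ¬ q ∣ M) (I : Subgroup GQ)

/-- **`K0`-rational lifting in an invariant Riemann-Roch space.**  `I` a subgroup of `G_ℚ` whose
fixed field `K0` has the full residue field (`hres`), `D` an `I`-invariant divisor of
`ℚ̄(X₀(M))` (`q ∤ M`) with finite-dimensional `L(D)`.  Every Gauss-integral `f ∈ L(D)` has the same
reduction as `toBar g₀` for some `g₀` in the `K0`-form of the function field with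
`toBar g₀ ∈ L(D)` Gauss-integral. -/
theorem exists_K0_lift_of_mem
    (hres : Function.Surjective (ratPi (IntermediateField.fixedField I) (residue ↥A)))
    (D : Divisor Kb ↥(modularFunctionFieldBar M))
    [FiniteDimensional Kb (riemannRochSpace D)]
    (hD : ∀ σ ∈ I, arithmeticGalois (modularFunctionFieldFull M) σ • D = D)
    (f : ↥(Datum.gaussDatum M A hA hqM).O)
    (hf : ((f : ↥(Datum.gaussDatum M A hA hqM).O) : ↥(modularFunctionFieldBar M)) ∈
      riemannRochSpace D) :
    ∃ (g₀ : ↥(laurentBaseChange (IntermediateField.fixedField I) (modularFunctionFieldFull M)))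
      (h₀ : toBar (modularFunctionFieldFull M) (IntermediateField.fixedField I) g₀ ∈
        (Datum.gaussDatum M A hA hqM).O),
      toBar (modularFunctionFieldFull M) (IntermediateField.fixedField I) g₀ ∈
        riemannRochSpace D ∧
      (Datum.gaussDatum M A hA hqM).red ⟨_, h₀⟩ = (Datum.gaussDatum M A hA hqM).red f := by
  have : Algebra.IsAlgebraic (IntermediateField.fixedField I) Kb :=
    Algebra.IsAlgebraic.tower_top (K := ℚ) (IntermediateField.fixedField I)
  obtain ⟨n, t, hmem, hi, hii⟩ := exists_orthonormal_rational hA hqM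
  have hxfix : ∀ σ : I, rho M I σ
      ((xO hA hqM : ↥(Datum.gaussDatum M A hA hqM).O) : ↥(modularFunctionFieldBar M)) =
      ((xO hA hqM : ↥(Datum.gaussDatum M A hA hqM).O) : ↥(modularFunctionFieldBar M)) := by
    intro σ
    rw [coe_xO, ← Forms.embBar_jFull M]
    exact rho_embBar M I σ _
  obtain ⟨g, hgV, hgfix, hgred⟩ := exists_fixed_lift (Datum.gaussDatum M A hA hqM)
    (K := IntermediateField.fixedField I) (rho M I) (rho_algebraMap M I)
    (fun a σ => a.2 σ) (fun c hc => ⟨⟨c, hc⟩, rfl⟩) hres
    (xO hA hqM) (transcendental_red_xO hA hqM) hxfix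
    (fun i => ⟨Forms.embBar M (t i), hmem i⟩) (fun σ i => rho_embBar M I σ (t i)) hi hii
    (riemannRochSpace D) (fun σ z hz => rho_mem_rr I hD σ hz)
    (fun y _ => mem_span_fixedSet M I y) f hf
  obtain ⟨g₀, hg₀⟩ := exists_toBar_eq_of_fixed M I hgfix
  refine ⟨g₀, hg₀ ▸ g.2, hg₀ ▸ hgV, ?_⟩
  rw [← hgred]
  congr 1
  exact Subtype.ext hg₀

variable {gL gk : ℕ}

open Fermat.Agent.S34.LevelMSurj Fermat.Agent.S34.LevelMSurjX0 in
/-- **Chart `j ≠ ∞`, `K0`-rational**: every `ḡ ∈ F_k(M)` regular off the poles of `j̄` is the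
reduction of `toBar g₀` for some `g₀` of the `K0`-form with `toBar g₀` Gauss-integral and regular
off the cusps (the poles of `j`). -/
theorem exists_lift_off_cusps_K0
    (hres : Function.Surjective (ratPi (IntermediateField.fixedField I) (residue ↥A)))
    (H : Hyp (Datum.gaussDatum M A hA hqM) gL gk)
    (y : ↥(modularFunctionFieldFullC (ResidueField ↥A) M))
    (hy : ∀ Q : Place (ResidueField ↥A) ↥(modularFunctionFieldFullC (ResidueField ↥A) M),
      0 ≤ Q.ord (jk (ResidueField ↥A) M) → y = 0 ∨ 0 ≤ Q.ord y) :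
    ∃ (g₀ : ↥(laurentBaseChange (IntermediateField.fixedField I) (modularFunctionFieldFull M)))
      (h₀ : toBar (modularFunctionFieldFull M) (IntermediateField.fixedField I) g₀ ∈
        (Datum.gaussDatum M A hA hqM).O),
      (Datum.gaussDatum M A hA hqM).red ⟨_, h₀⟩ = y ∧
      ∀ P : Place Kb ↥(modularFunctionFieldBar M), 0 ≤ P.ord (jgen M) →
        toBar (modularFunctionFieldFull M) (IntermediateField.fixedField I) g₀ = 0 ∨
          0 ≤ P.ord (toBar (modularFunctionFieldFull M) (IntermediateField.fixedField I) g₀) := by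
  haveI := Fermat.Agent.S18.GaussFromHBar.hasPrincipalDivisors_bar M
  obtain ⟨f, hfy, hfP⟩ := exists_lift_off_cusps hA hqM H y hy
  set E : Divisor Kb ↥(modularFunctionFieldBar M) :=
    FibreSep.poleDiv (Instances.isFF_jgen M) (Instances.isSeparable_jgen M) with hE
  have hEapp : ∀ v, E v = max (-v.ord (jgen M)) 0 := fun v =>
    FibreSep.poleDiv_apply (Instances.isFF_jgen M) (Instances.isSeparable_jgen M) v
  have hE0 : 0 ≤ E := by
    rw [Finsupp.le_def]
    intro v
    rw [hEapp]
    simp
  obtain ⟨m, hm⟩ := exists_mem_nsmul hE0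
    ((f : ↥(Datum.gaussDatum M A hA hqM).O) : ↥(modularFunctionFieldBar M)) (fun P hP => by
      apply hfP P
      have := hEapp P
      rw [hP] at this
      omega)
  have hfm := hm m le_rfl
  haveI : FiniteDimensional Kb (riemannRochSpace (m • E)) := H.riemannL.finite (m • E)
  have hxfix : ∀ σ : I, rho M I σ (jgen M) = jgen M := by
    intro σ
    rw [← Forms.embBar_jFull M]
    exact rho_embBar M I σ _
  have hinv : ∀ σ ∈ I, arithmeticGalois (modularFunctionFieldFull M) σ • (m • E) = m • E :=
    smul_eq_of_ord I hxfix (φ := fun n => (m : ℤ) * max (-n) 0) (fun v => by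
      rw [Finsupp.smul_apply, hEapp, nsmul_eq_mul])
  obtain ⟨g₀, h₀, hg₀, hred⟩ := exists_K0_lift_of_mem hA hqM I hres (m • E) hinv f hfm
  refine ⟨g₀, h₀, hred.trans hfy, fun P hP => ?_⟩
  rcases (mem_riemannRochSpace_iff.mp hg₀) P with h | h
  · exact Or.inl h
  · right
    rw [Finsupp.smul_apply, hEapp P] at h
    have : max (-P.ord (jgen M)) 0 = 0 := by omega
    rw [this] at h
    simpa using h

open Fermat.Agent.S34.LevelMSurj Fermat.Agent.S34.LevelMSurjX0 in
/-- **Chart `j ≠ 0`, `K0`-rational**: every `ḡ ∈ F_k(M)` regular off the zeros of `j̄` is the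
reduction of `toBar g₀` for some `g₀` of the `K0`-form with `toBar g₀` Gauss-integral and regular
off the zeros of `j`. -/
theorem exists_lift_off_zeros_K0
    (hres : Function.Surjective (ratPi (IntermediateField.fixedField I) (residue ↥A)))
    (H : Hyp (Datum.gaussDatum M A hA hqM) gL gk)
    (y : ↥(modularFunctionFieldFullC (ResidueField ↥A) M))
    (hy : ∀ Q : Place (ResidueField ↥A) ↥(modularFunctionFieldFullC (ResidueField ↥A) M),
      Q.ord (jk (ResidueField ↥A) M) ≤ 0 → y = 0 ∨ 0 ≤ Q.ord y) :
    ∃ (g₀ : ↥(laurentBaseChange (IntermediateField.fixedField I) (modularFunctionFieldFull M)))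
      (h₀ : toBar (modularFunctionFieldFull M) (IntermediateField.fixedField I) g₀ ∈
        (Datum.gaussDatum M A hA hqM).O),
      (Datum.gaussDatum M A hA hqM).red ⟨_, h₀⟩ = y ∧
      ∀ P : Place Kb ↥(modularFunctionFieldBar M), P.ord (jgen M) ≤ 0 →
        toBar (modularFunctionFieldFull M) (IntermediateField.fixedField I) g₀ = 0 ∨
          0 ≤ P.ord (toBar (modularFunctionFieldFull M) (IntermediateField.fixedField I) g₀) := by
  haveI := Fermat.Agent.S18.GaussFromHBar.hasPrincipalDivisors_bar M
  obtain ⟨f, hfy, hfP⟩ := exists_lift_off_zeros hA hqM H y hy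
  set E : Divisor Kb ↥(modularFunctionFieldBar M) :=
    FibreSep.zeroDiv (Instances.isFF_jgen M) (Instances.isSeparable_jgen M) with hE
  have hEapp : ∀ v, E v = max (v.ord (jgen M)) 0 := fun v =>
    FibreSep.zeroDiv_apply (Instances.isFF_jgen M) (Instances.isSeparable_jgen M) v
  have hE0 : 0 ≤ E := by
    rw [Finsupp.le_def]
    intro v
    rw [hEapp]
    simp
  obtain ⟨m, hm⟩ := exists_mem_nsmul hE0
    ((f : ↥(Datum.gaussDatum M A hA hqM).O) : ↥(modularFunctionFieldBar M)) (fun P hP => by
      apply hfP P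
      have := hEapp P
      rw [hP] at this
      omega)
  have hfm := hm m le_rfl
  haveI : FiniteDimensional Kb (riemannRochSpace (m • E)) := H.riemannL.finite (m • E)
  have hxfix : ∀ σ : I, rho M I σ (jgen M) = jgen M := by
    intro σ
    rw [← Forms.embBar_jFull M]
    exact rho_embBar M I σ _
  have hinv : ∀ σ ∈ I, arithmeticGalois (modularFunctionFieldFull M) σ • (m • E) = m • E :=
    smul_eq_of_ord I hxfix (φ := fun n => (m : ℤ) * max n 0) (fun v => by
      rw [Finsupp.smul_apply, hEapp, nsmul_eq_mul])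
  obtain ⟨g₀, h₀, hg₀, hred⟩ := exists_K0_lift_of_mem hA hqM I hres (m • E) hinv f hfm
  refine ⟨g₀, h₀, hred.trans hfy, fun P hP => ?_⟩
  rcases (mem_riemannRochSpace_iff.mp hg₀) P with h | h
  · exact Or.inl h
  · right
    rw [Finsupp.smul_apply, hEapp P] at h
    have : max (P.ord (jgen M)) 0 = 0 := by omega
    rw [this] at h
    simpa using h

/-! ### the inertia field -/

include hA in
/-- the residue field of the inertia field `K0 = ℚ̄^I`, `I` the inertia group of `A`, is the full
residue field of `A` (`S18/C/SmallDVR`) -/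
theorem ratPi_surjective_inertia :
    Function.Surjective
      (ratPi (IntermediateField.fixedField (A.inertiaSubgroupIn ℚ)) (residue ↥A)) := by
  intro c
  obtain ⟨w, hw⟩ := SmallDVR.exists_residue_toA_eq hA c
  exact ⟨w, hw⟩

end Main

end Fermat.Agent.S36.LiftK0
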