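/-
PROJECT V (S36), slice V-PairLiftK0 (chain v1.1 (N2)), abstract core: **rational lifting through a
REDUCTION RING** (`S34/OrthoLattice.RedRing`: a subring `R` of `FL` over the valuation ring `A` of
`L` with a reduction map `red : R → Fk` to a `k`-ALGEBRA, e.g. `R = V₁ ∩ V₂ → κ × κ` for the two
vertical valuations of `X₀(q M)`).

This is helper25's `S36/LiftK0Core` (one Gauss valuation, `Fk` a field) run for a reduction ring:
`Γ` a group acting on `L` and semilinearly (by ring endomorphisms `ρ g`) on `FL`, `K` a subfield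
of `L` containing the `Γ`-fixed scalars over which `L` is algebraic, `x, u i ∈ R` FIXED with

* `(hx)` every nonzero polynomial in `red x` is a unit of `Fk`,
* `(hi)` the `red (u i)` are independent over `k[red x]`,
* `(hii)` the `u i` span `FL` over `L(x)`.

Then:

* `exists_rat_denominator` : finitely many functions have a common FIXED unit denominator
  `y = Q(x)`, `Q ∈ (A ∩ K)[X]` primitive, bringing them into the `L[x]`-span of the `u i`;
* `exists_fixed_independent` : a finite-dimensional `Γ`-stable subspace `V` spanned by fixed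
  vectors contains `dim V` FIXED elements of `R` with `k`-linearly independent reductions;
* `exists_fixed_lift` : if moreover `A ∩ K → k` is onto, every `f ∈ V ∩ R` has the same reduction
  as a FIXED `g ∈ V ∩ R`.

No discreteness, no structure theory of `L / K`.
-/
import Mathlib
import Fermat.Agent.S34.OrthoLattice
import Fermat.Agent.S36.LiftK0Core

set_option autoImplicit false
set_option linter.unusedSectionVars false
set_option linter.style.haveILetI false
set_option linter.unusedVariables false

noncomputable section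

namespace Fermat.Agent.S36.PairLiftCore

open Polynomial IntermediateField
open Fermat.Agent.S37.Deuring.Core Fermat.Agent.S37.Deuring.GaussLemmas
open Fermat.Agent.S37.Deuring.OrthoBasis Fermat.Agent.S36.RRDescent
open Fermat.Agent.S34.OrthoLattice Fermat.Agent.S36.LiftK0Core

variable {L : Type*} [Field L] {k : Type*} [Field k]
variable {A : ValuationSubring L} {π : A →+* k}
variable {FL : Type*} [Field FL] [Algebra L FL] {Fk : Type*} [CommRing Fk] [Algebra k Fk]
variable (RR : RedRing A π FL Fk)
variable {K : Type*} [Field K] [Algebra K L]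
variable {Γ : Type*} [Group Γ] [MulSemiringAction Γ L]
variable (ρ : Γ → FL →+* FL)
variable (hρ : ∀ (g : Γ) (c : L), ρ g (algebraMap L FL c) = algebraMap L FL (g • c))
variable (hK' : ∀ (a : K) (g : Γ), g • algebraMap K L a = algebraMap K L a)

/-! ### a rational unit denominator -/

include hρ hK' in
theorem exists_rat_denominator [Algebra.IsAlgebraic K L] (x : RR.R)
    (hx : ∀ Q : k[X], Q ≠ 0 → IsUnit (aeval (RR.red x) Q)) (hxfix : ∀ g, ρ g (x : FL) = x)
    {ι : Type*} [Fintype ι] (u : ι → RR.R)
    (hii : ⊤ ≤ Submodule.span L⟮(x : FL)⟯ (Set.range fun i => ((u i : RR.R) : FL)))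
    {d : ℕ} (f : Fin d → FL) :
    ∃ y : RR.R, IsUnit y ∧ (∀ g, ρ g (y : FL) = y) ∧
      ∀ l, (y : FL) * f l ∈ polySpan (L := L) (x : FL) fun i => ((u i : RR.R) : FL) := by
  classical
  have hden := fun l => exists_denominator (K := L) (x : FL) (fun i => ((u i : RR.R) : FL)) hii (f l)
  choose q hq0 hq using hden
  -- common denominator
  have hprod : ∀ l, aeval (x : FL) (∏ j, q j) * f l ∈
      polySpan (L := L) (x : FL) fun i => ((u i : RR.R) : FL) := by
    intro l
    rw [← Finset.mul_prod_erase Finset.univ q (Finset.mem_univ l), map_mul,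
      mul_comm (aeval (x : FL) (q l)), mul_assoc]
    exact aeval_mul_mem_polySpan _ _ _ (hq l)
  have hprod0 : (∏ j, q j) ≠ 0 := Finset.prod_ne_zero_iff.mpr fun j _ => hq0 j
  obtain ⟨Q, hQ0, r, hr⟩ := exists_fixed_multiple (K := K) (∏ j, q j) hprod0
  have hQmem : ∀ l, aeval (x : FL) (Q.map (algebraMap K L)) * f l ∈
      polySpan (L := L) (x : FL) fun i => ((u i : RR.R) : FL) := by
    intro l
    rw [hr, map_mul, mul_comm (aeval (x : FL) (∏ j, q j)), mul_assoc]
    exact aeval_mul_mem_polySpan _ _ _ (hprod l)
  obtain ⟨c, hc, Q₀, hQ₀, hQ₀π⟩ :=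
    exists_scale_one (A := ratRing K A) (π := ratPi K π) Q hQ0
  set QA : A[X] := Q₀.map (ratIncl K A) with hQA
  have hQAsub : QA.map A.subtype = (C c * Q).map (algebraMap K L) := by
    rw [hQA, Polynomial.map_map, subtype_comp_ratIncl, ← Polynomial.map_map, hQ₀]
  have hQAπ : QA.map π = Q₀.map (ratPi K π) := by
    rw [hQA, Polynomial.map_map]
    rfl
  set y : RR.R := RR.evalR x QA with hy
  have hycoe : (y : FL) = aeval (x : FL) ((C c * Q).map (algebraMap K L)) := by
    rw [hy, RR.coe_evalR, hQAsub]
  have hyred : IsUnit (RR.red y) := by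
    rw [hy, RR.red_evalR, hQAπ]
    exact hx _ hQ₀π
  have hyu : IsUnit y := RR.isUnit_of_red y hyred
  refine ⟨y, hyu, fun g => ?_, fun l => ?_⟩
  · rw [hycoe]
    exact aeval_map_fixed ρ hρ hK' hxfix _ g
  · rw [hycoe, Polynomial.map_mul, Polynomial.map_C, map_mul, aeval_C, mul_assoc,
      ← Algebra.smul_def]
    exact Submodule.smul_mem _ _ (hQmem l)

/-! ### the rational echelon -/

include hρ hK' in
/-- **Rational orthonormal lifting for a reduction ring**: a finite-dimensional stable subspace
`V` spanned by fixed vectors contains `dim V` fixed elements of `R` with linearly independent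
reductions. -/
theorem exists_fixed_independent [Nontrivial Fk] [Algebra.IsAlgebraic K L]
    (hK : ∀ c : L, (∀ g : Γ, g • c = c) → c ∈ Set.range (algebraMap K L))
    (x : RR.R) (hx : ∀ Q : k[X], Q ≠ 0 → IsUnit (aeval (RR.red x) Q))
    (hxfix : ∀ g, ρ g (x : FL) = x)
    {ι : Type*} [Fintype ι] (u : ι → RR.R)
    (hufix : ∀ g i, ρ g ((u i : RR.R) : FL) = (u i : RR.R))
    (hi : ∀ P : ι → k[X], ∑ p, aeval (RR.red x) (P p) * RR.red (u p) = 0 → ∀ p, P p = 0)
    (hii : ⊤ ≤ Submodule.span L⟮(x : FL)⟯ (Set.range fun i => ((u i : RR.R) : FL)))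
    (V : Submodule L FL) [FiniteDimensional L V] (hV : ∀ g, ∀ z ∈ V, ρ g z ∈ V)
    (hspan : ∀ y ∈ V, y ∈ Submodule.span L (fixedSet (addAct ρ))) :
    ∃ g : Fin (Module.finrank L V) → RR.R,
      (∀ l, ((g l : RR.R) : FL) ∈ V ∧ ∀ γ, ρ γ ((g l : RR.R) : FL) = (g l : RR.R)) ∧
      LinearIndependent k fun l => RR.red (g l) := by
  classical
  obtain ⟨f, hf, hfli⟩ := exists_fixed_basis (addAct ρ) (addAct_smul ρ hρ) V hV hspan
  obtain ⟨y, hyu, hyfix, hymem⟩ := exists_rat_denominator RR ρ hρ hK' x hx hxfix u hii f
  have hy0 : (y : FL) ≠ 0 := by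
    intro h
    have : y = 0 := Subtype.ext h
    rw [this] at hyu
    exact not_isUnit_zero hyu
  -- the monomials
  set w : ι × ℕ → RR.R := fun p => x ^ p.2 * u p.1 with hw
  have hwcoe : ∀ p, ((w p : RR.R) : FL) = (x : FL) ^ p.2 * ((u p.1 : RR.R) : FL) := fun p => rfl
  have hwli : LinearIndependent k fun p => RR.red (w p) := by
    have : (fun p => RR.red (w p)) = fun p : ι × ℕ => RR.red x ^ p.2 * RR.red (u p.1) := by
      funext p
      rw [hw, map_mul, map_pow]
    rw [this]
    exact linearIndependent_monomials_of_aeval _ _ hi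
  have hwfix : ∀ g p, ρ g ((w p : RR.R) : FL) = (w p : RR.R) := by
    intro g p
    rw [hwcoe, map_mul, map_pow, hxfix, hufix]
  -- coordinates of `y * f l`
  have hz : ∀ l, ∃ c : (ι × ℕ) →₀ L,
      (c.sum fun p a => a • ((w p : RR.R) : FL)) = (y : FL) * f l := fun l =>
    Finsupp.mem_span_range_iff_exists_finsupp.mp (hymem l)
  choose c hc using hz
  set T : Finset (ι × ℕ) := Finset.univ.biUnion fun l => (c l).support with hT
  have hzT : ∀ l, ∑ p ∈ T, c l p • ((w p : RR.R) : FL) = (y : FL) * f l := by
    intro l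
    rw [← hc l, Finsupp.sum]
    symm
    refine Finset.sum_subset ?_ fun p _ hp => ?_
    · intro p hp
      exact Finset.mem_biUnion.mpr ⟨l, Finset.mem_univ l, hp⟩
    · rw [Finsupp.notMem_support_iff.mp hp, zero_smul]
  have hwT : LinearIndepOn L (fun p => ((w p : RR.R) : FL)) (T : Set (ι × ℕ)) :=
    linearIndependent_of_red RR (fun p : T => w p) (hwli.comp _ Subtype.val_injective)
  have hcK : ∀ l, ∀ p ∈ T, ∃ a : K, algebraMap K L a = c l p := by
    intro l p hp
    have hfix := coeff_fixed (addAct ρ) (addAct_smul ρ hρ) T (fun p => ((w p : RR.R) : FL))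
      (fun p _ g => hwfix g p) hwT (c l) (by
        rw [hzT l]
        intro g
        rw [addAct_apply, map_mul, hyfix g]
        congr 1
        exact (hf l).2 g) p hp
    obtain ⟨a, ha⟩ := hK _ hfix
    exact ⟨a, ha⟩
  choose! a ha using hcK
  -- the coordinate map
  set M : (Fin (Module.finrank L V) → K) →ₗ[K] (T → K) :=
    Fintype.linearCombination K fun l => fun p : T => a l p with hM
  have hMapply : ∀ b (p : T), M b p = ∑ l, b l * a l p := by
    intro b p
    rw [hM, Fintype.linearCombination_apply, Finset.sum_apply]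
    rfl
  have hkey : ∀ b : Fin (Module.finrank L V) → K,
      ∑ p : T, algebraMap K L (M b p) • ((w p : RR.R) : FL) =
        (y : FL) * ∑ l, algebraMap K L (b l) • f l := by
    intro b
    have h1 : ∀ p : T, algebraMap K L (M b p) • ((w p : RR.R) : FL) =
        ∑ l, algebraMap K L (b l) • (c l p • ((w p : RR.R) : FL)) := by
      intro p
      rw [hMapply, map_sum, Finset.sum_smul]
      refine Finset.sum_congr rfl fun l _ => ?_
      rw [map_mul, ha l p p.2, smul_smul]
    rw [Finset.sum_congr rfl fun p _ => h1 p, Finset.sum_comm, Finset.mul_sum]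
    refine Finset.sum_congr rfl fun l _ => ?_
    rw [← Finset.smul_sum, Finset.sum_coe_sort T fun p => c l p • ((w p : RR.R) : FL), hzT l,
      mul_smul_comm]
  have hMinj : Function.Injective M := by
    rw [injective_iff_map_eq_zero]
    intro b hb
    have h1 := hkey b
    rw [hb] at h1
    simp only [Pi.zero_apply, map_zero, zero_smul, Finset.sum_const_zero] at h1
    have h2 : ∑ l, algebraMap K L (b l) • f l = 0 := by
      rcases mul_eq_zero.mp h1.symm with h | h
      · exact absurd h hy0
      · exact h
    funext l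
    have := (Fintype.linearIndependent_iff.mp hfli) (fun l => algebraMap K L (b l)) h2 l
    exact (map_eq_zero _).mp this
  have hrank : Module.finrank K (LinearMap.range M) = Module.finrank L V := by
    rw [LinearMap.finrank_range_of_inj hMinj, Module.finrank_fin_fun]
  obtain ⟨g₀, hg₀W, hg₀li⟩ := exists_echelon (ratPi K π) _ (LinearMap.range M) hrank
  choose b hb using hg₀W
  -- the lifted elements
  set h : Fin (Module.finrank L V) → RR.R := fun j =>
    ∑ p : T, RR.constHom (ratIncl K A (g₀ j p)) * w p with hh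
  have hhcoe : ∀ j, ((h j : RR.R) : FL) =
      (y : FL) * ∑ l, algebraMap K L (b j l) • f l := by
    intro j
    rw [← hkey (b j), hb j]
    rw [show ((h j : RR.R) : FL) = RR.R.subtype (h j) from rfl, hh, map_sum]
    refine Finset.sum_congr rfl fun p _ => ?_
    rw [Algebra.smul_def]
    rfl
  set yi : RR.R := ((hyu.unit⁻¹ : (RR.R)ˣ) : RR.R) with hyi
  have hyiy : yi * y = 1 := hyu.val_inv_mul
  have hyiycoe : (yi : FL) * (y : FL) = 1 := congrArg Subtype.val hyiy
  have hgcoe : ∀ j, ((yi * h j : RR.R) : FL) = ∑ l, algebraMap K L (b j l) • f l := by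
    intro j
    rw [show ((yi * h j : RR.R) : FL) = (yi : FL) * (h j : FL) from rfl, hhcoe, ← mul_assoc,
      hyiycoe, one_mul]
  refine ⟨fun j => yi * h j, fun j => ⟨?_, fun γ => ?_⟩, ?_⟩
  · rw [hgcoe]
    exact Submodule.sum_mem _ fun l _ => Submodule.smul_mem _ _ (hf l).1
  · rw [hgcoe, map_sum]
    refine Finset.sum_congr rfl fun l _ => ?_
    rw [Algebra.smul_def, map_mul, hρ, hK']
    congr 1
    exact (hf l).2 γ
  · -- independence of the reductions
    set Φk : (T → k) →ₗ[k] Fk := Fintype.linearCombination k fun p : T => RR.red (w p) with hΦk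
    have hΦkinj : Function.Injective Φk :=
      linearIndependent_iff_injective_fintypeLinearCombination.mp
        (hwli.comp _ Subtype.val_injective)
    have hredh : (fun j => RR.red (h j)) = Φk ∘ fun j => fun p => ratPi K π (g₀ j p) := by
      funext j
      rw [Function.comp_apply, hΦk, Fintype.linearCombination_apply, hh, map_sum]
      refine Finset.sum_congr rfl fun p _ => ?_
      rw [map_mul, RR.red_constHom, Algebra.smul_def]
      rfl
    have hlih : LinearIndependent k fun j => RR.red (h j) := by
      rw [hredh]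
      exact hg₀li.map' Φk (LinearMap.ker_eq_bot.mpr hΦkinj)
    have hyired : RR.red yi * RR.red y = 1 := by rw [← map_mul, hyiy, map_one]
    have hyiredu : IsUnit (RR.red yi) := IsUnit.of_mul_eq_one _ hyired
    have : (fun j => RR.red (yi * h j)) =
        (LinearMap.mulLeft k (RR.red yi)) ∘ fun j => RR.red (h j) := by
      funext j
      rw [Function.comp_apply, LinearMap.mulLeft_apply, map_mul]
    rw [this]
    refine hlih.map' _ (LinearMap.ker_eq_bot.mpr ?_)
    intro b₁ b₂ hb12
    simp only [LinearMap.mulLeft_apply] at hb12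
    exact hyiredu.mul_right_injective hb12

include hρ hK' in
/-- **Rational lifting for a reduction ring**: in the situation of `exists_fixed_independent`, if
moreover the residue field of `A ∩ K` is all of `k`, every element of `V ∩ R` has the same
reduction as a FIXED element of `V ∩ R`. -/
theorem exists_fixed_lift [Nontrivial Fk] [Algebra.IsAlgebraic K L]
    (hK : ∀ c : L, (∀ g : Γ, g • c = c) → c ∈ Set.range (algebraMap K L))
    (hres : Function.Surjective (ratPi K π))
    (x : RR.R) (hx : ∀ Q : k[X], Q ≠ 0 → IsUnit (aeval (RR.red x) Q))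
    (hxfix : ∀ g, ρ g (x : FL) = x)
    {ι : Type*} [Fintype ι] (u : ι → RR.R)
    (hufix : ∀ g i, ρ g ((u i : RR.R) : FL) = (u i : RR.R))
    (hi : ∀ P : ι → k[X], ∑ p, aeval (RR.red x) (P p) * RR.red (u p) = 0 → ∀ p, P p = 0)
    (hii : ⊤ ≤ Submodule.span L⟮(x : FL)⟯ (Set.range fun i => ((u i : RR.R) : FL)))
    (V : Submodule L FL) [FiniteDimensional L V] (hV : ∀ g, ∀ z ∈ V, ρ g z ∈ V)
    (hspan : ∀ y ∈ V, y ∈ Submodule.span L (fixedSet (addAct ρ)))
    (f : RR.R) (hfV : ((f : RR.R) : FL) ∈ V) :
    ∃ g : RR.R, ((g : RR.R) : FL) ∈ V ∧ (∀ γ, ρ γ ((g : RR.R) : FL) = (g : RR.R)) ∧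
      RR.red g = RR.red f := by
  classical
  obtain ⟨g, hg, hgli⟩ :=
    exists_fixed_independent RR ρ hρ hK' hK x hx hxfix u hufix hi hii V hV hspan
  -- `red f` lies in the span of the `red (g l)`
  have hmem : RR.red f ∈ Submodule.span k (Set.range fun l => RR.red (g l)) := by
    by_contra hnot
    have hli : LinearIndependent k (Fin.cons (RR.red f) (fun l => RR.red (g l)) :
        Fin (Module.finrank L V + 1) → Fk) := linearIndependent_finCons.mpr ⟨hgli, hnot⟩
    have hli' : LinearIndependent k fun j =>
        RR.red ((Fin.cons f g : Fin (Module.finrank L V + 1) → RR.R) j) := by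
      have : (fun j => RR.red ((Fin.cons f g : Fin (Module.finrank L V + 1) → RR.R) j)) =
          (Fin.cons (RR.red f) (fun l => RR.red (g l)) : Fin (Module.finrank L V + 1) → Fk) := by
        funext j
        refine Fin.cases ?_ (fun l => ?_) j <;> simp
      rw [this]
      exact hli
    have hL := linearIndependent_of_red RR _ hli'
    let F : Fin (Module.finrank L V + 1) → V := fun j =>
      ⟨(((Fin.cons f g : Fin (Module.finrank L V + 1) → RR.R) j : RR.R) : FL), by
        refine Fin.cases ?_ (fun l => ?_) j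
        · simpa using hfV
        · simpa using (hg l).1⟩
    have hF : LinearIndependent L F := by
      apply LinearIndependent.of_comp V.subtype
      exact hL
    have := hF.fintype_card_le_finrank
    rw [Fintype.card_fin] at this
    omega
  obtain ⟨c, hc⟩ := (Submodule.mem_span_range_iff_exists_fun k).mp hmem
  choose a ha using fun l => hres (c l)
  refine ⟨∑ l, RR.constHom (ratIncl K A (a l)) * g l, ?_, fun γ => ?_, ?_⟩
  · rw [show ((∑ l, RR.constHom (ratIncl K A (a l)) * g l : RR.R) : FL) =
        RR.R.subtype (∑ l, RR.constHom (ratIncl K A (a l)) * g l) from rfl, map_sum]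
    refine Submodule.sum_mem _ fun l _ => ?_
    have : RR.R.subtype (RR.constHom (ratIncl K A (a l)) * g l) =
        algebraMap K L (a l : K) • ((g l : RR.R) : FL) := by
      rw [Algebra.smul_def]
      rfl
    rw [this]
    exact Submodule.smul_mem _ _ (hg l).1
  · rw [show ((∑ l, RR.constHom (ratIncl K A (a l)) * g l : RR.R) : FL) =
        RR.R.subtype (∑ l, RR.constHom (ratIncl K A (a l)) * g l) from rfl, map_sum, map_sum]
    refine Finset.sum_congr rfl fun l _ => ?_
    have : RR.R.subtype (RR.constHom (ratIncl K A (a l)) * g l) =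
        algebraMap L FL (algebraMap K L (a l : K)) * ((g l : RR.R) : FL) := rfl
    rw [this, map_mul, hρ, hK', (hg l).2 γ]
  · rw [map_sum, ← hc]
    refine Finset.sum_congr rfl fun l _ => ?_
    rw [map_mul, RR.red_constHom, Algebra.smul_def, ← ha l]
    rfl

end Fermat.Agent.S36.PairLiftCore
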