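/-
PROJECT V (S36), slice V-PairLiftK0 (chain v1.1 (N2)), X0 half: **`K0`-RATIONAL (SEP) FOR THE TWO
VERTICAL VALUATIONS OF `X₀(M q)`** -- the `hsep` hypothesis of `S36/NodeField.node_iff` (the `node`
field of `BranchCore.Datum`), on BOTH charts `x ≠ ∞`, `x ≠ 0` (`x = j j_q`), with NO dependence
on `LevelQK0`: only the `ℚ̄`-objects of project U (`G1X0`, `G2X0`, `pairX0`) and helper25's
fixed-vector machinery (`S36/LiftK0`, `S36/RRDescent`) run for the reduction ring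
`V₁ ∩ V₂ → κ × κ` (`S36/PairLiftCore`).

`I` a subgroup of `G_ℚ`, `K0 = fixedField I`, `FK = laurentBaseChange K0 (full (M q))` the
`K0`-form of the function field of level `M q`, `toBar : FK → ℚ̄(X₀(M q))`; `hres` : the integers
of `K0` surject onto the residue field of `A` (`LiftK0.ratPi_surjective_inertia` for inertia).

* `exists_K0_lift_pair` : every `f ∈ V₁ ∩ V₂` in an `I`-stable finite-dimensional `V` has the
  reductions `(red₁, red₂)` of `toBar g₀`, `g₀ ∈ FK`, `toBar g₀ ∈ V ∩ V₁ ∩ V₂`;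
  `exists_K0_lift_pair_rr` : the same for `V = L(r (x)_∞)`.
* `exists_sep_fin(_K0)` **chart `x ≠ ∞`**: for a non-cuspidal place `b ∉ S` (`S` any set with U's
  description `NodesDesc.Desc`) a `K0`-rational `g₀` with `toBar g₀ ∈ V₁ ∩ V₂`, `red₁ g₀ = 0`,
  `(red₂ g₀)(b) = 1`, regular wherever `x` is (at every `ℚ̄`-place, resp. every `K0`-place: the
  `hhor` of `ChartPlaces.mem_chart_of_places`).
* `exists_sep_inf`, `exists_sep_cusp`, `exists_sep_inf_K0` **chart `x ≠ 0`**: for `b ∉ S` with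
  `j̄(b) ≠ 0`, cusps included (there `g = 1 - j_q / j^q`, explicitly rational), a `K0`-rational
  `g₁` with `red₁ g₁ = 0`, `red₂ g₁` a unit at `b`, regular wherever `1/x` is.
* `G1X0_O`, `G1X0_red`, `G2X0_O`, `G2X0_red` : `G1X0`, `G2X0` are `GaussPairX0.V₁ V₂ red₁ red₂`.
-/
import Mathlib
import Fermat.Agent.S36.PairLiftCore
import Fermat.Agent.S36.LiftK0
import Fermat.Agent.S36.EulerExact.X0
import Fermat.Agent.S36.NodesDesc
import Fermat.Agent.S36.PowerBasisK0
import Fermat.Agent.S36.K0PlacesExt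
import Fermat.Agent.S34.GaussPairBridge

set_option autoImplicit false
set_option linter.unusedSectionVars false
set_option linter.style.haveILetI false
set_option synthInstance.maxHeartbeats 400000

noncomputable section

namespace Fermat.Agent.S36.PairLiftK0

open ModularCurve AlgebraicCurve IsLocalRing IntermediateField
open Fermat.Agent.S24.DegreeAlg (jgen)
open Fermat.Agent.S18.B.FkBasics (jk)
open Fermat.Agent.S18.NonSpecial Fermat.Agent.S37.Deuring.Core
open Fermat.Agent.S37.Gauss.Datum Fermat.Agent.S37.Gauss.OrthoBasisX0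
open Fermat.Agent.S34.PowerBasisX0 Fermat.Agent.S34.EulerX0
open Fermat.Agent.S34.EulerClosedX0
open Fermat.Agent.S34.TwoGaussX0 Fermat.Agent.S34.OrthoPairTwoExt
open Fermat.Agent.S36.EulerExact.X0
open Fermat.Agent.S36.K0Fixed Fermat.Agent.S36.LiftK0Core Fermat.Agent.S36.RRDescent
open Fermat.Agent.S36.LiftK0 Fermat.Agent.S18.C
open Fermat.Agent.S34.FrobK Fermat.Agent.S34.Euler.Places Fermat.Agent.S34.Euler.Value
  Fermat.Agent.S34.Euler.FrobSide Fermat.Agent.S36.NodesDesc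

local notation "Kb" => AlgebraicClosure ℚ
local notation "GQ" => (AlgebraicClosure ℚ ≃ₐ[ℚ] AlgebraicClosure ℚ)

attribute [local instance 2000] Fermat.Agent.S34.EulerX0.algResFk
attribute [local instance] Fermat.Agent.S34.OrthoPairX0.isScalarTowerFE
attribute [local instance] algFE

local instance instACk (A : ValuationSubring Kb) : IsAlgClosed (ResidueField ↥A) :=
  Fermat.Agent.S18.ResidueBasics.isAlgClosed_residueField A

local instance instNeZeroMul (M q : ℕ) [NeZero M] [NeZero q] : NeZero (M * q) :=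
  ⟨Nat.mul_ne_zero (NeZero.ne M) (NeZero.ne q)⟩

variable {q : ℕ} [hq : Fact q.Prime] [NeZero q] {M : ℕ} [NeZero M]
variable {A : ValuationSubring Kb} (hA : A.LiesOverPrime q) (hqM : ¬ q ∣ M)
variable [CharP (ResidueField ↥A) q] (I : Subgroup GQ)


/-- the coefficientwise action commutes with `α` -/
theorem rho_alpha (σ : I) (z : ↥(modularFunctionFieldBar M)) :
    rho (M * q) I σ (heckeAlphaBar Kb M q z) = heckeAlphaBar Kb M q (rho M I σ z) :=
  Fermat.Agent.S36.PowerBasisK0.sig_alpha M q (σ : GQ) z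

/-- the coefficientwise action commutes with `β` -/
theorem rho_beta (σ : I) (z : ↥(modularFunctionFieldBar M)) :
    rho (M * q) I σ (heckeBetaBar Kb M q z) = heckeBetaBar Kb M q (rho M I σ z) :=
  Fermat.Agent.S36.PowerBasisK0.sig_beta M q (σ : GQ) z

theorem rho_jgen (N : ℕ) [NeZero N] (σ : I) : rho N I σ (jgen N) = jgen N := by
  rw [← Forms.embBar_jFull N]
  exact rho_embBar N I σ _

theorem rho_jl (σ : I) : rho (M * q) I σ (jl M q) = jl M q := by
  have h : jl M q = heckeBetaBar Kb M q (jgen M) := rfl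
  rw [h, rho_beta, rho_jgen]

set_option maxHeartbeats 1600000 in
/-- **`K0`-rational lifting for the pair `(V₁, V₂)` of `X₀(M q)`** -/
theorem exists_K0_lift_pair
    (hres : Function.Surjective (ratPi (IntermediateField.fixedField I) (residue ↥A)))
    (V : Submodule Kb ↥(modularFunctionFieldBar (M * q))) [FiniteDimensional Kb V]
    (hV : ∀ σ : I, ∀ z ∈ V, rho (M * q) I σ z ∈ V)
    {f : ↥(modularFunctionFieldBar (M * q))} (m₁ : f ∈ (G1X0 hA hqM).O)
    (m₂ : f ∈ (G2X0 hA hqM).O) (hf : f ∈ V) :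
    ∃ (g₀ : ↥(laurentBaseChange (IntermediateField.fixedField I)
        (modularFunctionFieldFull (M * q))))
      (h₁ : toBar (modularFunctionFieldFull (M * q)) (IntermediateField.fixedField I) g₀ ∈
        (G1X0 hA hqM).O)
      (h₂ : toBar (modularFunctionFieldFull (M * q)) (IntermediateField.fixedField I) g₀ ∈
        (G2X0 hA hqM).O),
      toBar (modularFunctionFieldFull (M * q)) (IntermediateField.fixedField I) g₀ ∈ V ∧
      (G1X0 hA hqM).red ⟨_, h₁⟩ = (G1X0 hA hqM).red ⟨f, m₁⟩ ∧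
      (G2X0 hA hqM).red ⟨_, h₂⟩ = (G2X0 hA hqM).red ⟨f, m₂⟩ := by
  have : Algebra.IsAlgebraic (IntermediateField.fixedField I) Kb :=
    Algebra.IsAlgebraic.tower_top (K := ℚ) (IntermediateField.fixedField I)
  obtain ⟨n, t, hmem, hi, hii⟩ := exists_orthonormal_rational hA hqM
  set D := pairX0 hA hqM with hD
  set e : Fin n → ↥(gaussDatum M A hA hqM).O := fun i => ⟨Forms.embBar M (t i), hmem i⟩ with he
  have hx := transcendental_red_xO hA hqM
  have hxfix : ∀ σ : I, rho (M * q) I σ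
      ((D.ofO (xO hA hqM) : D.redRing.R) : ↥(modularFunctionFieldBar (M * q))) =
      ((D.ofO (xO hA hqM) : D.redRing.R) : ↥(modularFunctionFieldBar (M * q))) := by
    intro σ
    have h1 : ((D.ofO (xO hA hqM) : D.redRing.R) : ↥(modularFunctionFieldBar (M * q))) =
        heckeAlphaBar Kb M q (jgen M) := rfl
    rw [h1, rho_alpha, rho_jgen]
  have hufix : ∀ (σ : I) (p : Fin n × Fin (setupX0 hA hqM).Φ.natDegree), rho (M * q) I σ
      ((u D e p : D.redRing.R) : ↥(modularFunctionFieldBar (M * q))) =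
      ((u D e p : D.redRing.R) : ↥(modularFunctionFieldBar (M * q))) := by
    intro σ p
    have h1 : ((u D e p : D.redRing.R) : ↥(modularFunctionFieldBar (M * q))) =
        heckeAlphaBar Kb M q (Forms.embBar M (t p.1)) * jl M q ^ (p.2 : ℕ) := rfl
    rw [h1, map_mul, map_pow, rho_alpha, rho_embBar, rho_jl]
  obtain ⟨g, hgV, hgfix, hgred⟩ := Fermat.Agent.S36.PairLiftCore.exists_fixed_lift D.redRing
    (K := IntermediateField.fixedField I) (rho (M * q) I) (rho_algebraMap (M * q) I)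
    (fun a σ => a.2 σ) (fun c hc => ⟨⟨c, hc⟩, rfl⟩) hres
    (D.ofO (xO hA hqM)) (isUnit_aeval D _ hx) hxfix (u D e) hufix
    (indep D _ e
      (Fermat.Agent.S37.Deuring.GaussLemmas.aeval_eq_zero_of_linearIndependent_field _ hx _ hi))
    (span_top D _ e hii) V hV (fun y _ => mem_span_fixedSet (M * q) I y)
    ⟨f, (D.mem_R_iff f).mpr ⟨m₁, m₂⟩⟩ hf
  obtain ⟨g₀, hg₀⟩ := exists_toBar_eq_of_fixed (M * q) I hgfix
  have hg12 := (D.mem_R_iff _).mp g.2
  have hred := hgred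
  rw [D.red_apply, D.red_apply] at hred
  refine ⟨g₀, hg₀ ▸ hg12.1, hg₀ ▸ hg12.2, hg₀ ▸ hgV, ?_, ?_⟩
  · have h1 := congrArg Prod.fst hred
    simp only at h1
    refine Eq.trans ?_ h1
    show (G1X0 hA hqM).red _ = (G1X0 hA hqM).red _
    congr 1
    exact Subtype.ext hg₀
  · have h2 := congrArg Prod.snd hred
    simp only at h2
    refine Eq.trans ?_ h2
    show (G2X0 hA hqM).red _ = (G2X0 hA hqM).red _
    congr 1
    exact Subtype.ext hg₀


/-! ### invariant Riemann-Roch spaces: `L(r (x)_∞)`, `x = j j_q` -/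

theorem rho_xE (σ : I) : rho (M * q) I σ (xE M q) = xE M q := by
  rw [xE, map_mul, rho_jgen, rho_jl]

theorem smul_nsmul_D (r : ℕ) : ∀ σ ∈ I,
    arithmeticGalois (modularFunctionFieldFull (M * q)) σ • (r • D hqM) = r • D hqM :=
  smul_eq_of_ord I (rho_xE I) (φ := fun n => (r : ℤ) * max 0 (-n)) (fun v => by
    rw [Finsupp.smul_apply, isPoleDiv_xE hqM v, nsmul_eq_mul])

/-- **`K0`-rational lifting for the pair in `L(r (x)_∞)`** -/
theorem exists_K0_lift_pair_rr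
    (hres : Function.Surjective (ratPi (IntermediateField.fixedField I) (residue ↥A)))
    (r : ℕ) {f : ↥(modularFunctionFieldBar (M * q))} (m₁ : f ∈ (G1X0 hA hqM).O)
    (m₂ : f ∈ (G2X0 hA hqM).O) (hf : f ∈ riemannRochSpace (r • D hqM)) :
    ∃ (g₀ : ↥(laurentBaseChange (IntermediateField.fixedField I)
        (modularFunctionFieldFull (M * q))))
      (h₁ : toBar (modularFunctionFieldFull (M * q)) (IntermediateField.fixedField I) g₀ ∈
        (G1X0 hA hqM).O)
      (h₂ : toBar (modularFunctionFieldFull (M * q)) (IntermediateField.fixedField I) g₀ ∈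
        (G2X0 hA hqM).O),
      toBar (modularFunctionFieldFull (M * q)) (IntermediateField.fixedField I) g₀ ∈
        riemannRochSpace (r • D hqM) ∧
      (G1X0 hA hqM).red ⟨_, h₁⟩ = (G1X0 hA hqM).red ⟨f, m₁⟩ ∧
      (G2X0 hA hqM).red ⟨_, h₂⟩ = (G2X0 hA hqM).red ⟨f, m₂⟩ := by
  obtain ⟨g, HL⟩ := Fermat.Agent.S18.A.RiemannFk.exists_riemannHyp_FL (M * q)
  haveI := HL.finite (r • D hqM)
  exact exists_K0_lift_pair hA hqM I hres _
    (fun σ z hz => rho_mem_rr I (smul_nsmul_D hqM I r) σ hz) m₁ m₂ hf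


/-! ### values and orders -/

/-- a function with a nonzero value at `v` is a unit at `v` -/
theorem ne_zero_and_ord_eq_zero_of_hasValue {K F : Type*} [Field K] [Field F] [Algebra K F]
    {v : Place K F} {h : F} {c : K} (hc : c ≠ 0) (hv : HasValue v h c) :
    h ≠ 0 ∧ v.ord h = 0 := by
  have ha : algebraMap K F c ≠ 0 := (map_ne_zero_iff _ (algebraMap K F).injective).mpr hc
  have hoa : v.ord (algebraMap K F c) = 0 := Fermat.Agent.S24.Ord.ord_algebraMap v c
  rcases eq_or_ne (h - algebraMap K F c) 0 with h0 | h0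
  · rw [sub_eq_zero.mp h0]
    exact ⟨ha, hoa⟩
  · have hpos : 0 < v.ord (h - algebraMap K F c) :=
      (Fermat.Agent.S24.Ord.ord_pos_iff v h0).mpr hv
    have h1 := Fermat.Agent.S18.CoreOrd.ord_add_eq_of_lt v ha h0 (by rw [hoa]; exact hpos)
    rw [add_sub_cancel, hoa] at h1
    refine ⟨?_, h1⟩
    rintro rfl
    rw [zero_sub, Fermat.Agent.S18.CoreOrd.ord_neg', hoa] at hpos
    exact lt_irrefl _ hpos

/-! ### (SEP) over `K0`, finite chart -/

set_option maxHeartbeats 1600000 in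
/-- **(SEP) over `K0`, chart `x ≠ ∞`**: a non-cuspidal place `b ∉ S` is separated from the first
component by a `K0`-RATIONAL function `g₀` integral for both vertical valuations and regular
wherever `x = j j_q` is: `red₁ g₀ = 0`, `(red₂ g₀)(b) = 1`. -/
theorem exists_sep_fin
    (hres : Function.Surjective (ratPi (IntermediateField.fixedField I) (residue ↥A)))
    {S : Finset (Place (ResidueField ↥A) ↥(modularFunctionFieldFullC (ResidueField ↥A) M))}
    (hS : ∀ b ∈ S, b ∉ P0 (ResidueField ↥A) M) (hbS : Desc hA hqM S)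
    {b : Place (ResidueField ↥A) ↥(modularFunctionFieldFullC (ResidueField ↥A) M)}
    (hb : b ∉ S) (hbP : b ∉ P0 (ResidueField ↥A) M) :
    ∃ (g₀ : ↥(laurentBaseChange (IntermediateField.fixedField I)
        (modularFunctionFieldFull (M * q))))
      (h₁ : toBar (modularFunctionFieldFull (M * q)) (IntermediateField.fixedField I) g₀ ∈
        (G1X0 hA hqM).O)
      (h₂ : toBar (modularFunctionFieldFull (M * q)) (IntermediateField.fixedField I) g₀ ∈
        (G2X0 hA hqM).O),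
      (G1X0 hA hqM).red ⟨_, h₁⟩ = 0 ∧ HasValue b ((G2X0 hA hqM).red ⟨_, h₂⟩) 1 ∧
      ∀ P : Place Kb ↥(modularFunctionFieldBar (M * q)), 0 ≤ P.ord (xE M q) →
        toBar (modularFunctionFieldFull (M * q)) (IntermediateField.fixedField I) g₀ = 0 ∨
          0 ≤ P.ord (toBar (modularFunctionFieldFull (M * q)) (IntermediateField.fixedField I) g₀) := by
  obtain ⟨gM, HM⟩ := Fermat.Agent.S18.A.RiemannFk.exists_riemannHyp_Fk' (ResidueField ↥A) M
    (Fermat.Agent.S18.B.SeparableFk.isSeparable_jk (ResidueField ↥A) M)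
  obtain ⟨r, f, m₁, m₂, hf, hf1, hf2⟩ := exists_pair_of_not_mem HM hS hbS hb hbP
  obtain ⟨g₀, h₁, h₂, hg, hr1, hr2⟩ := exists_K0_lift_pair_rr hA hqM I hres r m₁ m₂ hf
  refine ⟨g₀, h₁, h₂, hr1.trans hf1, hr2 ▸ hf2, fun P hP => ?_⟩
  rcases (mem_riemannRochSpace_iff.mp hg) P with h | h
  · exact Or.inl h
  · right
    rw [Finsupp.smul_apply, isPoleDiv_xE hqM P, max_eq_left (by omega), smul_zero, neg_zero] at h
    exact h


/-! ### (SEP) over `K0`, chart `x ≠ 0` -/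

open Fermat.Agent.S36.PowerBasisK0 in
/-- `x = j j_q` in the `K0`-form of the function field -/
def xK : ↥(laurentBaseChange (IntermediateField.fixedField I) (modularFunctionFieldFull (M * q))) :=
  j0K I (M * q) * j1K I M q

open Fermat.Agent.S36.PowerBasisK0 in
theorem toBar_xK :
    toBar (modularFunctionFieldFull (M * q)) (IntermediateField.fixedField I) (xK (M := M) (q := q) I)
      = xE M q := by
  have h0 := tB_j0K I (M * q)
  have h1 := tB_j1K (H := I) (N0 := M) (q := q)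
  rw [xK, map_mul, xE]
  exact congrArg₂ (· * ·) h0 h1

theorem xE_pow_mem₁ (r : ℕ) : xE M q ^ r ∈ (G1X0 hA hqM).O :=
  (G1X0 hA hqM).O.pow_mem (pairRedX0 hA hqM).xE_mem₁ r

theorem xE_pow_mem₂ (r : ℕ) : xE M q ^ r ∈ (G2X0 hA hqM).O :=
  (G2X0 hA hqM).O.pow_mem (pairRedX0 hA hqM).xE_mem₂ r

theorem red₁_xE_pow (r : ℕ) :
    (G1X0 hA hqM).red ⟨xE M q ^ r, xE_pow_mem₁ hA hqM r⟩ =
      (jk (ResidueField ↥A) M ^ (q + 1)) ^ r := by
  have e : (⟨xE M q ^ r, xE_pow_mem₁ hA hqM r⟩ : (G1X0 hA hqM).O) =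
      ⟨xE M q, (pairRedX0 hA hqM).xE_mem₁⟩ ^ r := rfl
  rw [e, map_pow, (pairRedX0 hA hqM).red₁_xE]

theorem red₂_xE_pow (r : ℕ) :
    (G2X0 hA hqM).red ⟨xE M q ^ r, xE_pow_mem₂ hA hqM r⟩ =
      (jk (ResidueField ↥A) M ^ (q + 1)) ^ r := by
  have e : (⟨xE M q ^ r, xE_pow_mem₂ hA hqM r⟩ : (G2X0 hA hqM).O) =
      ⟨xE M q, (pairRedX0 hA hqM).xE_mem₂⟩ ^ r := rfl
  rw [e, map_pow, (pairRedX0 hA hqM).red₂_xE]

theorem jk_pow_ne_zero (r : ℕ) : (jk (ResidueField ↥A) M ^ (q + 1)) ^ r ≠ 0 :=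
  pow_ne_zero _ (pow_ne_zero _ (jk_ne_zero (A := A) (M := M)))

theorem inv_xE_pow_mem₁ (r : ℕ) : (xE M q ^ r)⁻¹ ∈ (G1X0 hA hqM).O :=
  inv_mem_of_red_ne_zero _ (xE_pow_mem₁ hA hqM r) (by
    rw [red₁_xE_pow]; exact jk_pow_ne_zero r)

theorem inv_xE_pow_mem₂ (r : ℕ) : (xE M q ^ r)⁻¹ ∈ (G2X0 hA hqM).O :=
  inv_mem_of_red_ne_zero _ (xE_pow_mem₂ hA hqM r) (by
    rw [red₂_xE_pow]; exact jk_pow_ne_zero r)

theorem red₂_inv_xE_pow (r : ℕ) :
    (G2X0 hA hqM).red ⟨(xE M q ^ r)⁻¹, inv_xE_pow_mem₂ hA hqM r⟩ =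
      ((jk (ResidueField ↥A) M ^ (q + 1)) ^ r)⁻¹ := by
  have hne : xE M q ^ r ≠ 0 := pow_ne_zero _ xE_ne_zero
  have e : (⟨(xE M q ^ r)⁻¹, inv_xE_pow_mem₂ hA hqM r⟩ : (G2X0 hA hqM).O) *
      ⟨xE M q ^ r, xE_pow_mem₂ hA hqM r⟩ = 1 := Subtype.ext (inv_mul_cancel₀ hne)
  have h := congrArg (G2X0 hA hqM).red e
  rw [map_mul, map_one, red₂_xE_pow] at h
  exact eq_inv_of_mul_eq_one_left h


set_option maxHeartbeats 1600000 in
/-- (SEP) over `K0` with the Riemann-Roch bound kept -/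
theorem exists_sep_rr
    (hres : Function.Surjective (ratPi (IntermediateField.fixedField I) (residue ↥A)))
    {S : Finset (Place (ResidueField ↥A) ↥(modularFunctionFieldFullC (ResidueField ↥A) M))}
    (hS : ∀ b ∈ S, b ∉ P0 (ResidueField ↥A) M) (hbS : Desc hA hqM S)
    {b : Place (ResidueField ↥A) ↥(modularFunctionFieldFullC (ResidueField ↥A) M)}
    (hb : b ∉ S) (hbP : b ∉ P0 (ResidueField ↥A) M) :
    ∃ (r : ℕ) (g₀ : ↥(laurentBaseChange (IntermediateField.fixedField I)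
        (modularFunctionFieldFull (M * q))))
      (h₁ : toBar (modularFunctionFieldFull (M * q)) (IntermediateField.fixedField I) g₀ ∈
        (G1X0 hA hqM).O)
      (h₂ : toBar (modularFunctionFieldFull (M * q)) (IntermediateField.fixedField I) g₀ ∈
        (G2X0 hA hqM).O),
      toBar (modularFunctionFieldFull (M * q)) (IntermediateField.fixedField I) g₀ ∈
        riemannRochSpace (r • D hqM) ∧
      (G1X0 hA hqM).red ⟨_, h₁⟩ = 0 ∧ HasValue b ((G2X0 hA hqM).red ⟨_, h₂⟩) 1 := by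
  obtain ⟨gM, HM⟩ := Fermat.Agent.S18.A.RiemannFk.exists_riemannHyp_Fk' (ResidueField ↥A) M
    (Fermat.Agent.S18.B.SeparableFk.isSeparable_jk (ResidueField ↥A) M)
  obtain ⟨r, f, m₁, m₂, hf, hf1, hf2⟩ := exists_pair_of_not_mem HM hS hbS hb hbP
  obtain ⟨g₀, h₁, h₂, hg, hr1, hr2⟩ := exists_K0_lift_pair_rr hA hqM I hres r m₁ m₂ hf
  exact ⟨r, g₀, h₁, h₂, hg, hr1.trans hf1, hr2 ▸ hf2⟩

set_option maxHeartbeats 1600000 in
/-- **(SEP) over `K0`, chart `x ≠ 0`, non-cuspidal points**: a non-cuspidal place `b ∉ S` with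
`j̄(b) ≠ 0` is separated from the first component by a `K0`-RATIONAL function `g₁` integral for
both vertical valuations and regular wherever `1/x` is (`x = j j_q`): `red₁ g₁ = 0`,
`red₂ g₁` a unit at `b`. -/
theorem exists_sep_inf
    (hres : Function.Surjective (ratPi (IntermediateField.fixedField I) (residue ↥A)))
    {S : Finset (Place (ResidueField ↥A) ↥(modularFunctionFieldFullC (ResidueField ↥A) M))}
    (hS : ∀ b ∈ S, b ∉ P0 (ResidueField ↥A) M) (hbS : Desc hA hqM S)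
    {b : Place (ResidueField ↥A) ↥(modularFunctionFieldFullC (ResidueField ↥A) M)}
    (hb : b ∉ S) (hbJ : b.ord (jk (ResidueField ↥A) M) = 0) :
    ∃ (g₁ : ↥(laurentBaseChange (IntermediateField.fixedField I)
        (modularFunctionFieldFull (M * q))))
      (h₁ : toBar (modularFunctionFieldFull (M * q)) (IntermediateField.fixedField I) g₁ ∈
        (G1X0 hA hqM).O)
      (h₂ : toBar (modularFunctionFieldFull (M * q)) (IntermediateField.fixedField I) g₁ ∈
        (G2X0 hA hqM).O),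
      (G1X0 hA hqM).red ⟨_, h₁⟩ = 0 ∧
      ((G2X0 hA hqM).red ⟨_, h₂⟩ ≠ 0 ∧ b.ord ((G2X0 hA hqM).red ⟨_, h₂⟩) = 0) ∧
      ∀ P : Place Kb ↥(modularFunctionFieldBar (M * q)), P.ord (xE M q) ≤ 0 →
        toBar (modularFunctionFieldFull (M * q)) (IntermediateField.fixedField I) g₁ = 0 ∨
          0 ≤ P.ord (toBar (modularFunctionFieldFull (M * q)) (IntermediateField.fixedField I) g₁) := by
  have hbP : b ∉ P0 (ResidueField ↥A) M := by
    intro h
    have h' : b.ord (jk (ResidueField ↥A) M) < 0 := h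
    omega
  obtain ⟨r, g₀, h₁, h₂, hg, hr1, hr2⟩ := exists_sep_rr hA hqM I hres hS hbS hb hbP
  set T := toBar (modularFunctionFieldFull (M * q)) (IntermediateField.fixedField I) with hT
  have hne : xE M q ^ r ≠ 0 := pow_ne_zero _ xE_ne_zero
  have hT1 : T (g₀ * (xK I ^ r)⁻¹) = T g₀ * (xE M q ^ r)⁻¹ := by
    rw [map_mul, map_inv₀, map_pow, hT, toBar_xK]
  have hm₁ : T (g₀ * (xK I ^ r)⁻¹) ∈ (G1X0 hA hqM).O := by
    rw [hT1]
    exact (G1X0 hA hqM).O.mul_mem _ _ h₁ (inv_xE_pow_mem₁ hA hqM r)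
  have hm₂ : T (g₀ * (xK I ^ r)⁻¹) ∈ (G2X0 hA hqM).O := by
    rw [hT1]
    exact (G2X0 hA hqM).O.mul_mem _ _ h₂ (inv_xE_pow_mem₂ hA hqM r)
  refine ⟨g₀ * (xK I ^ r)⁻¹, hm₁, hm₂, ?_, ?_, fun P hP => ?_⟩
  · have e : (⟨T (g₀ * (xK I ^ r)⁻¹), hm₁⟩ : (G1X0 hA hqM).O) =
        ⟨T g₀, h₁⟩ * ⟨(xE M q ^ r)⁻¹, inv_xE_pow_mem₁ hA hqM r⟩ := Subtype.ext hT1
    rw [e, map_mul, hr1, zero_mul]
  · have e : (⟨T (g₀ * (xK I ^ r)⁻¹), hm₂⟩ : (G2X0 hA hqM).O) =
        ⟨T g₀, h₂⟩ * ⟨(xE M q ^ r)⁻¹, inv_xE_pow_mem₂ hA hqM r⟩ := Subtype.ext hT1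
    rw [e, map_mul, red₂_inv_xE_pow]
    obtain ⟨hh0, hho⟩ := ne_zero_and_ord_eq_zero_of_hasValue one_ne_zero hr2
    have hJ0 : ((jk (ResidueField ↥A) M ^ (q + 1)) ^ r)⁻¹ ≠ 0 :=
      inv_ne_zero (jk_pow_ne_zero r)
    refine ⟨mul_ne_zero hh0 hJ0, ?_⟩
    rw [b.ord_mul hh0 hJ0, hho, b.ord_inv, Fermat.Agent.S18.CoreOrd.ord_pow,
      Fermat.Agent.S18.CoreOrd.ord_pow, hbJ]
    simp
  · rcases eq_or_ne (T g₀) 0 with h0 | h0
    · left
      rw [hT1, h0, zero_mul]
    · right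
      rw [hT1, P.ord_mul h0 (inv_ne_zero hne), P.ord_inv, Fermat.Agent.S18.CoreOrd.ord_pow]
      rcases (mem_riemannRochSpace_iff.mp hg) P with h | h
      · exact absurd h h0
      · rw [Finsupp.smul_apply, isPoleDiv_xE hqM P, max_eq_right (by omega), nsmul_eq_mul] at h
        linarith


/-! ### (SEP) at the cusps: the explicit `K0`-rational function `1 - j_q / j^q` -/

/-- the reduction of the inverse of a Gauss unit -/
theorem red_inv_of_red_ne_zero {L : Type*} [Field L] {k : Type*} [Field k]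
    {A : ValuationSubring L} {π : A →+* k} {FL : Type*} [Field FL] [Algebra L FL] {κ : Type*}
    [Field κ] [Algebra k κ] (G : GaussDatum A π FL κ) {y : FL} (hy : y ∈ G.O)
    (h : G.red ⟨y, hy⟩ ≠ 0) (hy' : y⁻¹ ∈ G.O) : G.red ⟨y⁻¹, hy'⟩ = (G.red ⟨y, hy⟩)⁻¹ := by
  have hy0 : y ≠ 0 := by
    rintro rfl
    apply h
    have : (⟨0, hy⟩ : G.O) = 0 := rfl
    rw [this, map_zero]
  have e : (⟨y⁻¹, hy'⟩ : G.O) * ⟨y, hy⟩ = 1 := Subtype.ext (inv_mul_cancel₀ hy0)
  have h1 := congrArg G.red e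
  rw [map_mul, map_one] at h1
  exact eq_inv_of_mul_eq_one_left h1

open Fermat.Agent.S36.PowerBasisK0 in
/-- `j_q / j^q` in the `K0`-form of the function field -/
def cK : ↥(laurentBaseChange (IntermediateField.fixedField I) (modularFunctionFieldFull (M * q))) :=
  j1K I M q * (j0K I (M * q) ^ q)⁻¹

open Fermat.Agent.S36.PowerBasisK0 in
theorem toBar_cK :
    toBar (modularFunctionFieldFull (M * q)) (IntermediateField.fixedField I) (cK (M := M) (q := q) I)
      = jl M q * (jgen (M * q) ^ q)⁻¹ := by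
  have h0 := tB_j0K I (M * q)
  have h1 := tB_j1K (H := I) (N0 := M) (q := q)
  rw [cK, map_mul, map_inv₀, map_pow]
  exact congrArg₂ (fun a b => a * (b ^ q)⁻¹) h1 h0

theorem jgen_pow_mem₁ : jgen (M * q) ^ q ∈ (G1X0 hA hqM).O :=
  (G1X0 hA hqM).O.pow_mem (pairRedX0 hA hqM).j_mem₁ q

theorem jgen_pow_mem₂ : jgen (M * q) ^ q ∈ (G2X0 hA hqM).O :=
  (G2X0 hA hqM).O.pow_mem (pairRedX0 hA hqM).j_mem₂ q

theorem red₁_jgen_pow :
    (G1X0 hA hqM).red ⟨jgen (M * q) ^ q, jgen_pow_mem₁ hA hqM⟩ = jk (ResidueField ↥A) M ^ q := by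
  have e : (⟨jgen (M * q) ^ q, jgen_pow_mem₁ hA hqM⟩ : (G1X0 hA hqM).O) =
      ⟨jgen (M * q), (pairRedX0 hA hqM).j_mem₁⟩ ^ q := rfl
  rw [e, map_pow, (pairRedX0 hA hqM).red₁_j]

theorem red₂_jgen_pow :
    (G2X0 hA hqM).red ⟨jgen (M * q) ^ q, jgen_pow_mem₂ hA hqM⟩ =
      (jk (ResidueField ↥A) M ^ q) ^ q := by
  have e : (⟨jgen (M * q) ^ q, jgen_pow_mem₂ hA hqM⟩ : (G2X0 hA hqM).O) =
      ⟨jgen (M * q), (pairRedX0 hA hqM).j_mem₂⟩ ^ q := rfl
  rw [e, map_pow, (pairRedX0 hA hqM).red₂_j]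

theorem inv_jgen_pow_mem₁ : (jgen (M * q) ^ q)⁻¹ ∈ (G1X0 hA hqM).O :=
  inv_mem_of_red_ne_zero _ (jgen_pow_mem₁ hA hqM) (by
    rw [red₁_jgen_pow]; exact pow_ne_zero _ (jk_ne_zero (A := A) (M := M)))

theorem inv_jgen_pow_mem₂ : (jgen (M * q) ^ q)⁻¹ ∈ (G2X0 hA hqM).O :=
  inv_mem_of_red_ne_zero _ (jgen_pow_mem₂ hA hqM) (by
    rw [red₂_jgen_pow]; exact pow_ne_zero _ (pow_ne_zero _ (jk_ne_zero (A := A) (M := M))))

theorem c_mem₁ : jl M q * (jgen (M * q) ^ q)⁻¹ ∈ (G1X0 hA hqM).O :=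
  (G1X0 hA hqM).O.mul_mem _ _ (pairRedX0 hA hqM).jl_mem₁ (inv_jgen_pow_mem₁ hA hqM)

theorem c_mem₂ : jl M q * (jgen (M * q) ^ q)⁻¹ ∈ (G2X0 hA hqM).O :=
  (G2X0 hA hqM).O.mul_mem _ _ (pairRedX0 hA hqM).jl_mem₂ (inv_jgen_pow_mem₂ hA hqM)

theorem red₁_c : (G1X0 hA hqM).red ⟨_, c_mem₁ hA hqM⟩ = 1 := by
  have e : (⟨jl M q * (jgen (M * q) ^ q)⁻¹, c_mem₁ hA hqM⟩ : (G1X0 hA hqM).O) =
      ⟨jl M q, (pairRedX0 hA hqM).jl_mem₁⟩ * ⟨(jgen (M * q) ^ q)⁻¹, inv_jgen_pow_mem₁ hA hqM⟩ := rfl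
  have hne : jk (ResidueField ↥A) M ^ q ≠ 0 := pow_ne_zero _ (jk_ne_zero (A := A) (M := M))
  rw [e, map_mul, (pairRedX0 hA hqM).red₁_jl,
    red_inv_of_red_ne_zero _ (jgen_pow_mem₁ hA hqM) (by rw [red₁_jgen_pow]; exact hne),
    red₁_jgen_pow, mul_inv_cancel₀ hne]

theorem red₂_c : (G2X0 hA hqM).red ⟨_, c_mem₂ hA hqM⟩ =
    jk (ResidueField ↥A) M * ((jk (ResidueField ↥A) M ^ q) ^ q)⁻¹ := by
  have e : (⟨jl M q * (jgen (M * q) ^ q)⁻¹, c_mem₂ hA hqM⟩ : (G2X0 hA hqM).O) =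
      ⟨jl M q, (pairRedX0 hA hqM).jl_mem₂⟩ * ⟨(jgen (M * q) ^ q)⁻¹, inv_jgen_pow_mem₂ hA hqM⟩ := rfl
  have hne : (jk (ResidueField ↥A) M ^ q) ^ q ≠ 0 :=
    pow_ne_zero _ (pow_ne_zero _ (jk_ne_zero (A := A) (M := M)))
  rw [e, map_mul, (pairRedX0 hA hqM).red₂_jl,
    red_inv_of_red_ne_zero _ (jgen_pow_mem₂ hA hqM) (by rw [red₂_jgen_pow]; exact hne),
    red₂_jgen_pow]

/-- `j_q / j^q` is regular wherever `1/x` is, `x = j j_q` -/
theorem ord_c_nonneg (P : Place Kb ↥(modularFunctionFieldBar (M * q))) (hP : P.ord (xE M q) ≤ 0) :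
    0 ≤ P.ord (jl M q * (jgen (M * q) ^ q)⁻¹) := by
  have hj : jgen (M * q) ≠ 0 := jgen_ne_zero (M * q)
  have hjE : Fermat.Agent.S34.CuspRegular.jE M q = jgen (M * q) := alpha_jgen
  rw [P.ord_mul jl_ne_zero (inv_ne_zero (pow_ne_zero _ hj)), P.ord_inv,
    Fermat.Agent.S18.CoreOrd.ord_pow]
  rw [xE, P.ord_mul hj jl_ne_zero] at hP
  rcases lt_or_ge (P.ord (jgen (M * q))) 0 with h | h
  · have h3 := Fermat.Agent.S34.CuspRegular.ord_jl_ge (M := M) (q := q) P (by rw [hjE]; exact h)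
    rw [hjE] at h3
    linarith
  · have h3 := Fermat.Agent.S34.CuspRegular.ord_jl_nonneg (M := M) (q := q) P
      (by rw [hjE]; exact h)
    have h4 : P.ord (jgen (M * q)) = 0 := by omega
    rw [h4]
    simpa using h3


set_option maxHeartbeats 1600000 in
/-- **(SEP) over `K0` at the cusps** (chart `x ≠ 0`): every cusp `b` of the second component is
separated from the first component by the `K0`-RATIONAL function `g = 1 - j_q / j^q`, integral for
both vertical valuations and regular wherever `1/x` is: `red₁ g = 0`, `(red₂ g)(b) = 1`. -/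
theorem exists_sep_cusp
    {b : Place (ResidueField ↥A) ↥(modularFunctionFieldFullC (ResidueField ↥A) M)}
    (hbP : b ∈ P0 (ResidueField ↥A) M) :
    ∃ (g₁ : ↥(laurentBaseChange (IntermediateField.fixedField I)
        (modularFunctionFieldFull (M * q))))
      (h₁ : toBar (modularFunctionFieldFull (M * q)) (IntermediateField.fixedField I) g₁ ∈
        (G1X0 hA hqM).O)
      (h₂ : toBar (modularFunctionFieldFull (M * q)) (IntermediateField.fixedField I) g₁ ∈
        (G2X0 hA hqM).O),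
      (G1X0 hA hqM).red ⟨_, h₁⟩ = 0 ∧ HasValue b ((G2X0 hA hqM).red ⟨_, h₂⟩) 1 ∧
      ∀ P : Place Kb ↥(modularFunctionFieldBar (M * q)), P.ord (xE M q) ≤ 0 →
        0 ≤ P.ord (toBar (modularFunctionFieldFull (M * q)) (IntermediateField.fixedField I) g₁) := by
  set T := toBar (modularFunctionFieldFull (M * q)) (IntermediateField.fixedField I) with hT
  have hT1 : T (1 - cK I) = 1 - jl M q * (jgen (M * q) ^ q)⁻¹ := by
    rw [map_sub, map_one, hT, toBar_cK]
  have hm₁ : T (1 - cK I) ∈ (G1X0 hA hqM).O := by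
    rw [hT1]
    exact (G1X0 hA hqM).O.sub_mem (G1X0 hA hqM).O.one_mem (c_mem₁ hA hqM)
  have hm₂ : T (1 - cK I) ∈ (G2X0 hA hqM).O := by
    rw [hT1]
    exact (G2X0 hA hqM).O.sub_mem (G2X0 hA hqM).O.one_mem (c_mem₂ hA hqM)
  refine ⟨1 - cK I, hm₁, hm₂, ?_, ?_, fun P hP => ?_⟩
  · have e : (⟨T (1 - cK I), hm₁⟩ : (G1X0 hA hqM).O) = 1 - ⟨_, c_mem₁ hA hqM⟩ := Subtype.ext hT1
    rw [e, map_sub, map_one, red₁_c, sub_self]
  · have e : (⟨T (1 - cK I), hm₂⟩ : (G2X0 hA hqM).O) = 1 - ⟨_, c_mem₂ hA hqM⟩ := Subtype.ext hT1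
    rw [e, map_sub, map_one, red₂_c]
    have hJ : b.ord (jk (ResidueField ↥A) M) < 0 := hbP
    have hJ0 : jk (ResidueField ↥A) M ≠ 0 := jk_ne_zero (A := A) (M := M)
    have hne : (jk (ResidueField ↥A) M ^ q) ^ q ≠ 0 := pow_ne_zero _ (pow_ne_zero _ hJ0)
    have hw0 : jk (ResidueField ↥A) M * ((jk (ResidueField ↥A) M ^ q) ^ q)⁻¹ ≠ 0 :=
      mul_ne_zero hJ0 (inv_ne_zero hne)
    have hword : 0 < b.ord (jk (ResidueField ↥A) M * ((jk (ResidueField ↥A) M ^ q) ^ q)⁻¹) := by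
      rw [b.ord_mul hJ0 (inv_ne_zero hne), b.ord_inv, Fermat.Agent.S18.CoreOrd.ord_pow,
        Fermat.Agent.S18.CoreOrd.ord_pow]
      have hq2 : (2 : ℤ) ≤ q := by exact_mod_cast hq.out.two_le
      set x := b.ord (jk (ResidueField ↥A) M) with hx
      have h1 : 2 * (-x) ≤ (q : ℤ) * (-x) := by nlinarith
      have h2 : 2 * ((q : ℤ) * (-x)) ≤ (q : ℤ) * ((q : ℤ) * (-x)) := by nlinarith
      nlinarith
    have hv0 : HasValue b (jk (ResidueField ↥A) M * ((jk (ResidueField ↥A) M ^ q) ^ q)⁻¹) 0 :=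
      (hasValue_zero_iff b).mpr ((Fermat.Agent.S24.Ord.ord_pos_iff b hw0).mp hword)
    have hv1 : HasValue b (1 : ↥(modularFunctionFieldFullC (ResidueField ↥A) M)) 1 := by
      have := hasValue_const b (1 : ResidueField ↥A)
      rwa [map_one] at this
    have := hv1.sub hv0
    rwa [sub_zero] at this
  · rw [hT1]
    exact Fermat.Agent.S18.CoreOrd.ord_sub_nonneg P (by rw [Place.ord_one])
      (ord_c_nonneg P hP)


/-! ### `K0`-places -/

open Fermat.Agent.S36.K0PlacesX0 Fermat.Agent.S36.K0PlacesExt in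
/-- from `ℚ̄`-places to `K0`-places: the `hhor` hypothesis of `ChartPlaces.mem_chart_of_places` -/
theorem mem_place_of_forall_ord {N : ℕ}
    {g φ : ↥(laurentBaseChange (IntermediateField.fixedField I) (modularFunctionFieldFull N))}
    (hφ : φ ≠ 0)
    (h : ∀ P : Place Kb ↥(modularFunctionFieldBar N),
      0 ≤ P.ord (toBar (modularFunctionFieldFull N) (IntermediateField.fixedField I) φ) →
        toBar (modularFunctionFieldFull N) (IntermediateField.fixedField I) g = 0 ∨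
          0 ≤ P.ord (toBar (modularFunctionFieldFull N) (IntermediateField.fixedField I) g))
    (v : Place (IntermediateField.fixedField I)
      ↥(laurentBaseChange (IntermediateField.fixedField I) (modularFunctionFieldFull N)))
    (hv : φ ∈ v.toValuationSubring) : g ∈ v.toValuationSubring := by
  obtain ⟨w, rfl⟩ := exists_restrX0_eq N (IntermediateField.fixedField I) v
  rw [mem_restrX0] at hv ⊢
  have hφ' : toBar (modularFunctionFieldFull N) (IntermediateField.fixedField I) φ ≠ 0 :=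
    (map_ne_zero_iff _ (toBar_injective _ _)).mpr hφ
  rw [Fermat.Agent.S24.Ord.mem_iff] at hv ⊢
  rw [w.adicValuation_le_one_iff]
  exact h w ((Fermat.Agent.S24.Ord.ord_nonneg_iff w hφ').mpr hv)

theorem xK_ne_zero : xK (M := M) (q := q) I ≠ 0 := by
  intro h
  have := toBar_xK (M := M) (q := q) I
  rw [h, map_zero] at this
  exact xE_ne_zero this.symm


set_option maxHeartbeats 1600000 in
/-- **(SEP) over `K0`, chart `x ≠ ∞`, `K0`-place form**: for a non-cuspidal place `b ∉ S` a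
`K0`-RATIONAL `g₀`, integral for both vertical valuations, regular at every `K0`-place finite at
`x = j j_q`, with `red₁ g₀ = 0` and `(red₂ g₀)(b) = 1`. -/
theorem exists_sep_fin_K0
    (hres : Function.Surjective (ratPi (IntermediateField.fixedField I) (residue ↥A)))
    {S : Finset (Place (ResidueField ↥A) ↥(modularFunctionFieldFullC (ResidueField ↥A) M))}
    (hS : ∀ b ∈ S, b ∉ P0 (ResidueField ↥A) M) (hbS : Desc hA hqM S)
    {b : Place (ResidueField ↥A) ↥(modularFunctionFieldFullC (ResidueField ↥A) M)}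
    (hb : b ∉ S) (hbP : b ∉ P0 (ResidueField ↥A) M) :
    ∃ (g₀ : ↥(laurentBaseChange (IntermediateField.fixedField I)
        (modularFunctionFieldFull (M * q))))
      (h₁ : toBar (modularFunctionFieldFull (M * q)) (IntermediateField.fixedField I) g₀ ∈
        (G1X0 hA hqM).O)
      (h₂ : toBar (modularFunctionFieldFull (M * q)) (IntermediateField.fixedField I) g₀ ∈
        (G2X0 hA hqM).O),
      (G1X0 hA hqM).red ⟨_, h₁⟩ = 0 ∧ HasValue b ((G2X0 hA hqM).red ⟨_, h₂⟩) 1 ∧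
      ∀ v : Place (IntermediateField.fixedField I)
        ↥(laurentBaseChange (IntermediateField.fixedField I) (modularFunctionFieldFull (M * q))),
        xK I ∈ v.toValuationSubring → g₀ ∈ v.toValuationSubring := by
  obtain ⟨g₀, h₁, h₂, hr1, hr2, hreg⟩ := exists_sep_fin hA hqM I hres hS hbS hb hbP
  refine ⟨g₀, h₁, h₂, hr1, hr2, fun v hv => ?_⟩
  refine mem_place_of_forall_ord I (xK_ne_zero I) (fun P hP => ?_) v hv
  rw [toBar_xK] at hP
  exact hreg P hP

set_option maxHeartbeats 1600000 in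
/-- **(SEP) over `K0`, chart `x ≠ 0`, `K0`-place form**: for a place `b ∉ S` with `j̄(b) ≠ 0`
(cusps included) a `K0`-RATIONAL `g₁`, integral for both vertical valuations, regular at every
`K0`-place finite at `1/x`, `x = j j_q`, with `red₁ g₁ = 0` and `red₂ g₁` a unit at `b`. -/
theorem exists_sep_inf_K0
    (hres : Function.Surjective (ratPi (IntermediateField.fixedField I) (residue ↥A)))
    {S : Finset (Place (ResidueField ↥A) ↥(modularFunctionFieldFullC (ResidueField ↥A) M))}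
    (hS : ∀ b ∈ S, b ∉ P0 (ResidueField ↥A) M) (hbS : Desc hA hqM S)
    {b : Place (ResidueField ↥A) ↥(modularFunctionFieldFullC (ResidueField ↥A) M)}
    (hb : b ∉ S) (hbJ : b.ord (jk (ResidueField ↥A) M) ≤ 0) :
    ∃ (g₁ : ↥(laurentBaseChange (IntermediateField.fixedField I)
        (modularFunctionFieldFull (M * q))))
      (h₁ : toBar (modularFunctionFieldFull (M * q)) (IntermediateField.fixedField I) g₁ ∈
        (G1X0 hA hqM).O)
      (h₂ : toBar (modularFunctionFieldFull (M * q)) (IntermediateField.fixedField I) g₁ ∈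
        (G2X0 hA hqM).O),
      (G1X0 hA hqM).red ⟨_, h₁⟩ = 0 ∧
      ((G2X0 hA hqM).red ⟨_, h₂⟩ ≠ 0 ∧ b.ord ((G2X0 hA hqM).red ⟨_, h₂⟩) = 0) ∧
      ∀ v : Place (IntermediateField.fixedField I)
        ↥(laurentBaseChange (IntermediateField.fixedField I) (modularFunctionFieldFull (M * q))),
        (xK I)⁻¹ ∈ v.toValuationSubring → g₁ ∈ v.toValuationSubring := by
  have key : ∀ (g₁ : ↥(laurentBaseChange (IntermediateField.fixedField I)
        (modularFunctionFieldFull (M * q)))),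
      (∀ P : Place Kb ↥(modularFunctionFieldBar (M * q)), P.ord (xE M q) ≤ 0 →
        toBar (modularFunctionFieldFull (M * q)) (IntermediateField.fixedField I) g₁ = 0 ∨
          0 ≤ P.ord (toBar (modularFunctionFieldFull (M * q)) (IntermediateField.fixedField I) g₁)) →
      ∀ v : Place (IntermediateField.fixedField I)
        ↥(laurentBaseChange (IntermediateField.fixedField I) (modularFunctionFieldFull (M * q))),
        (xK I)⁻¹ ∈ v.toValuationSubring → g₁ ∈ v.toValuationSubring := by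
    intro g₁ hreg v hv
    refine mem_place_of_forall_ord I (inv_ne_zero (xK_ne_zero I)) (fun P hP => ?_) v hv
    rw [map_inv₀, toBar_xK, P.ord_inv] at hP
    exact hreg P (by omega)
  rcases lt_or_eq_of_le hbJ with hlt | heq
  · obtain ⟨g₁, h₁, h₂, hr1, hr2, hreg⟩ := exists_sep_cusp hA hqM I (b := b) hlt
    exact ⟨g₁, h₁, h₂, hr1, ne_zero_and_ord_eq_zero_of_hasValue one_ne_zero hr2,
      key g₁ fun P hP => Or.inr (hreg P hP)⟩
  · obtain ⟨g₁, h₁, h₂, hr1, hr2, hreg⟩ := exists_sep_inf hA hqM I hres hS hbS hb heq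
    exact ⟨g₁, h₁, h₂, hr1, hr2, key g₁ hreg⟩


/-! ### identification with `GaussPairX0.V₁ V₂ red₁ red₂` (the rings `LevelQK0` pulls back) -/

theorem G1X0_O : (G1X0 hA hqM).O = Fermat.Agent.S34.GaussPairX0.V₁ hA hqM := rfl

theorem G1X0_red : (G1X0 hA hqM).red = Fermat.Agent.S34.GaussPairX0.red₁ hA hqM := rfl

theorem G2X0_O : (G2X0 hA hqM).O = Fermat.Agent.S34.GaussPairX0.V₂ hA hqM := by
  ext x
  show Fermat.Agent.S34.WqGalois.wq M q hq.out hqM x ∈ Fermat.Agent.S34.GaussPairX0.V₁ hA hqM ↔ _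
  rw [← Fermat.Agent.S34.GaussPairBridge.wq_eq]
  rfl

theorem G2X0_red (x : ↥(modularFunctionFieldBar (M * q))) (h : x ∈ (G2X0 hA hqM).O)
    (h' : x ∈ Fermat.Agent.S34.GaussPairX0.V₂ hA hqM) :
    (G2X0 hA hqM).red ⟨x, h⟩ = Fermat.Agent.S34.GaussPairX0.red₂ hA hqM ⟨x, h'⟩ := by
  rw [Fermat.Agent.S34.GaussPairX0.red₂_apply]
  show Fermat.Agent.S34.GaussPairX0.red₁ hA hqM
    ⟨Fermat.Agent.S34.WqGalois.wq M q hq.out hqM x, h⟩ = _
  congr 1
  apply Subtype.ext
  show Fermat.Agent.S34.WqGalois.wq M q hq.out hqM x = Fermat.Agent.S34.GaussPairX0.wq hqM x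
  rw [Fermat.Agent.S34.GaussPairBridge.wq_eq]

end Fermat.Agent.S36.PairLiftK0
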