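/-
PROJECT V (S36), slice V-PairGlueK0 (helper14): **the (GLUE) half of the `node` field over `K0`**,
the twin of `S36/PairLiftK0` (SEP).  Same objects: `G1X0`, `G2X0` (U's two Gauss data of
`ℚ̄(X₀(M q))`), `x = xE M q = j j_q`, `xK I` its `K0`-form, `Desc` (`S36/NodesDesc`), values in the
sense of `S34.Euler.Value.HasValue`.

For a function `f ∈ V₁ ∩ V₂` which is regular on a chart of the model and whose two reductions are
regular on the corresponding chart of the component, the two reductions take THE SAME VALUE at the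
two branches `Fr b`, `b` of every node `b ∈ S`:

* `glue_fin` : chart `x ≠ ∞` (`f` regular where `x` is, reductions regular off the cusps);
* `hasValue_of_mul` : division of values (`X` has the value `d ≠ 0`, `X F` has the value `c`);
* `glue_inf` : chart `x ≠ 0` for `b` with `j̄(b) ≠ 0`: `x ^ r f` regular where `x` is, the reductions
  of `x ^ r f` regular off the cusps (`r` from the overlap of the two charts);
* `glue_fin_K0`, `glue_inf_K0` : the same for `toBar g₀`, `g₀` in the `K0`-form, regularity at the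
  `K0`-places (`hhor` of `ChartPlaces.mem_chart_of_places`, the last clause of
  `PairLiftK0.exists_sep_fin_K0`);
* `ord_toBar_nonneg_of_forall_mem` : `K0`-places `→` `ℚ̄`-places;
* `mem_regOff_P0_of_isIntegral`, `mem_regOff_P0_of_mem_chart` : elements of the component chart
  `chart k J` are regular off the cusps.
-/
import Mathlib
import Fermat.Agent.S36.PairLiftK0
import Fermat.Agent.S36.SpecDictOne

set_option autoImplicit false
set_option linter.unusedSectionVars false
set_option linter.style.haveILetI false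
set_option linter.unusedVariables false
set_option synthInstance.maxHeartbeats 400000

noncomputable section

namespace Fermat.Agent.S36.PairGlueK0

open ModularCurve AlgebraicCurve IsLocalRing IntermediateField
open Fermat.Agent.S24.DegreeAlg (jgen)
open Fermat.Agent.S18.B.FkBasics (jk)
open Fermat.Agent.S18.NonSpecial Fermat.Agent.S37.Deuring.Core
open Fermat.Agent.S37.Gauss.Datum Fermat.Agent.S37.Gauss.OrthoBasisX0
open Fermat.Agent.S34.PowerBasisX0 Fermat.Agent.S34.EulerX0
open Fermat.Agent.S34.EulerClosedX0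
open Fermat.Agent.S34.TwoGaussX0 Fermat.Agent.S34.OrthoPairTwoExt
open Fermat.Agent.S36.EulerExact.X0
open Fermat.Agent.S36.K0Fixed Fermat.Agent.S36.LiftK0Core Fermat.Agent.S36.RRDescent
open Fermat.Agent.S36.LiftK0 Fermat.Agent.S18.C
open Fermat.Agent.S34.FrobK Fermat.Agent.S34.Euler.Places Fermat.Agent.S34.Euler.Value
  Fermat.Agent.S34.Euler.FrobSide Fermat.Agent.S36.NodesDesc
open Fermat.Agent.S36.PairLiftK0

local notation "Kb" => AlgebraicClosure ℚ
local notation "GQ" => (AlgebraicClosure ℚ ≃ₐ[ℚ] AlgebraicClosure ℚ)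

attribute [local instance 2000] Fermat.Agent.S34.EulerX0.algResFk
attribute [local instance] Fermat.Agent.S34.OrthoPairX0.isScalarTowerFE
attribute [local instance] algFE

local instance instACk (A : ValuationSubring Kb) : IsAlgClosed (ResidueField ↥A) :=
  Fermat.Agent.S18.ResidueBasics.isAlgClosed_residueField A

local instance instNeZeroMul (M q : ℕ) [NeZero M] [NeZero q] : NeZero (M * q) :=
  ⟨Nat.mul_ne_zero (NeZero.ne M) (NeZero.ne q)⟩

local instance instPDBar (N : ℕ) [NeZero N] :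
    HasPrincipalDivisors Kb ↥(modularFunctionFieldBar N) :=
  Fermat.Agent.S18.A.Instances.hasPrincipalDivisors_bar N

variable {q : ℕ} [hq : Fact q.Prime] [NeZero q] {M : ℕ} [NeZero M]
variable {A : ValuationSubring Kb} (hA : A.LiesOverPrime q) (hqM : ¬ q ∣ M)
variable [CharP (ResidueField ↥A) q] (I : Subgroup GQ)

/-! ### chart `x ≠ ∞` -/

/-- **(GLUE), chart `x ≠ ∞`**: a function of `V₁ ∩ V₂` regular wherever `x = j j_q` is, with
reductions regular off the cusps, has the same value at the two branches of every node. -/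
theorem glue_fin
    {S : Finset (Place (ResidueField ↥A) ↥(modularFunctionFieldFullC (ResidueField ↥A) M))}
    (hbS : Desc hA hqM S) {f : ↥(modularFunctionFieldBar (M * q))}
    (m₁ : f ∈ (G1X0 hA hqM).O) (m₂ : f ∈ (G2X0 hA hqM).O)
    (hf : ∀ P : Place Kb ↥(modularFunctionFieldBar (M * q)), 0 ≤ P.ord (xE M q) →
      f = 0 ∨ 0 ≤ P.ord f)
    (h₁ : (G1X0 hA hqM).red ⟨f, m₁⟩ ∈ regOff (P0 (ResidueField ↥A) M))
    (h₂ : (G2X0 hA hqM).red ⟨f, m₂⟩ ∈ regOff (P0 (ResidueField ↥A) M))
    {b : Place (ResidueField ↥A) ↥(modularFunctionFieldFullC (ResidueField ↥A) M)} (hb : b ∈ S) :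
    ∃ c : ResidueField ↥A,
      HasValue (Fr (ResidueField ↥A) M q b) ((G1X0 hA hqM).red ⟨f, m₁⟩) c ∧
        HasValue b ((G2X0 hA hqM).red ⟨f, m₂⟩) c := by
  obtain ⟨r, hr⟩ := Fermat.Agent.S34.LevelMSurj.exists_mem_nsmul (isPoleDiv_xE hqM).nonneg f
    (fun P hP => hf P (by
      have := isPoleDiv_xE hqM P
      rw [hP] at this
      have h0 : max 0 (-(P.ord (xE M q))) = 0 := this.symm
      have := le_max_right 0 (-(P.ord (xE M q)))
      omega))
  exact glue_of_mem hbS m₁ m₂ (hr r le_rfl) h₁ h₂ hb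

/-! ### division of values -/

/-- a function with a nonzero value has adic valuation one -/
theorem adicValuation_eq_one_of_hasValue {K F : Type*} [Field K] [Field F] [Algebra K F]
    {v : Place K F} {h : F} {c : K} (hc : c ≠ 0) (hv : HasValue v h c) :
    v.adicValuation h = 1 := by
  obtain ⟨h0, hord⟩ := ne_zero_and_ord_eq_zero_of_hasValue hc hv
  rw [Fermat.Agent.S24.Ord.adicValuation_eq v h0, hord, neg_zero, WithZero.exp_zero]

/-- **division of values**: if `X` has the value `d ≠ 0` and `X * F` the value `c` at `v`, then `F`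
has the value `c / d` at `v` -/
theorem hasValue_of_mul {K F : Type*} [Field K] [Field F] [Algebra K F]
    {v : Place K F} {X Fn : F} {d c : K} (hd : d ≠ 0) (hX : HasValue v X d)
    (hXF : HasValue v (X * Fn) c) : HasValue v Fn (c / d) := by
  obtain ⟨hX0, -⟩ := ne_zero_and_ord_eq_zero_of_hasValue hd hX
  have hvX : v.adicValuation X = 1 := adicValuation_eq_one_of_hasValue hd hX
  have hconst : v.adicValuation (algebraMap K F (c / d)) ≤ 1 :=
    (Fermat.Agent.S24.Ord.mem_iff v _).mp (v.algebraMap_mem' _)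
  have key : Fn - algebraMap K F (c / d) =
      ((X * Fn - algebraMap K F c) - (X - algebraMap K F d) * algebraMap K F (c / d)) * X⁻¹ := by
    have hdF : algebraMap K F d ≠ 0 := (map_ne_zero_iff _ (algebraMap K F).injective).mpr hd
    rw [map_div₀]
    field_simp
    ring
  unfold HasValue at hX hXF ⊢
  rw [key, map_mul, map_inv₀, hvX, inv_one, mul_one]
  refine lt_of_le_of_lt (Valuation.map_sub _ _ _) (max_lt hXF ?_)
  rw [map_mul]
  calc v.adicValuation (X - algebraMap K F d) * v.adicValuation (algebraMap K F (c / d))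
      ≤ v.adicValuation (X - algebraMap K F d) * 1 := by gcongr
    _ = v.adicValuation (X - algebraMap K F d) := mul_one _
    _ < 1 := hX

/-! ### regularity off the cusps -/

/-- `j̄` is regular off the cusps -/
theorem jk_mem_regOff_P0 :
    jk (ResidueField ↥A) M ∈ regOff (P0 (ResidueField ↥A) M) := by
  rw [mem_regOff]
  intro v hv
  have h0 : 0 ≤ v.ord (jk (ResidueField ↥A) M) := not_lt.mp hv
  exact (Fermat.Agent.S24.Ord.ord_nonneg_iff v (jk_ne_zero (A := A) (M := M))).mp h0

/-- an element integral over `k[x]`, `x` regular off the cusps, is regular off the cusps -/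
theorem mem_regOff_P0_of_mem_chart {x z : ↥(modularFunctionFieldFullC (ResidueField ↥A) M)}
    (hx : x ∈ regOff (P0 (ResidueField ↥A) M))
    (hz : z ∈ Fermat.Agent.S36.ChartRing.chart (ResidueField ↥A) x) :
    z ∈ regOff (P0 (ResidueField ↥A) M) := by
  rw [mem_regOff] at hx ⊢
  intro v hv
  have hxv : x ∈ v.toValuationSubring := (Fermat.Agent.S24.Ord.mem_iff v x).mpr (hx v hv)
  exact (Fermat.Agent.S24.Ord.mem_iff v z).mp
    (Fermat.Agent.S36.SpecDictOne.coe_mem v hxv ⟨z, hz⟩)

/-- the component chart `chart k J` consists of functions regular off the cusps -/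
theorem mem_regOff_P0_of_mem_chart_jk {z : ↥(modularFunctionFieldFullC (ResidueField ↥A) M)}
    (hz : z ∈ Fermat.Agent.S36.ChartRing.chart (ResidueField ↥A) (jk (ResidueField ↥A) M)) :
    z ∈ regOff (P0 (ResidueField ↥A) M) :=
  mem_regOff_P0_of_mem_chart jk_mem_regOff_P0 hz

/-! ### chart `x ≠ 0` -/

/-- at a place where `j̄` is a unit, `j̄` has a nonzero value -/
theorem exists_hasValue_jk_ne_zero
    {b : Place (ResidueField ↥A) ↥(modularFunctionFieldFullC (ResidueField ↥A) M)}
    (hbP : b ∉ P0 (ResidueField ↥A) M) (hbJ : b.ord (jk (ResidueField ↥A) M) ≤ 0) :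
    ∃ γ : ResidueField ↥A, γ ≠ 0 ∧ HasValue b (jk (ResidueField ↥A) M) γ := by
  have h0 : 0 ≤ b.ord (jk (ResidueField ↥A) M) := not_lt.mp hbP
  have hJ0 : jk (ResidueField ↥A) M ≠ 0 := jk_ne_zero (A := A) (M := M)
  have hle : b.adicValuation (jk (ResidueField ↥A) M) ≤ 1 :=
    (Fermat.Agent.S24.Ord.ord_nonneg_iff b hJ0).mp h0
  have hdeg : b.deg = 1 :=
    Fermat.Agent.S24.Ord.deg_eq_one (Fermat.Agent.S18.B.FkBasics.isFF (ResidueField ↥A) M) b
  obtain ⟨γ, hγ⟩ := exists_hasValue b hdeg hle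
  refine ⟨γ, ?_, hγ⟩
  rintro rfl
  have hlt : b.adicValuation (jk (ResidueField ↥A) M) < 1 := (hasValue_zero_iff b).mp hγ
  have hpos : 0 < b.ord (jk (ResidueField ↥A) M) :=
    (Fermat.Agent.S24.Ord.ord_pos_iff b hJ0).mpr hlt
  omega

set_option maxHeartbeats 1600000 in
/-- **(GLUE), chart `x ≠ 0`**: `f ∈ V₁ ∩ V₂` such that `x ^ r f` is regular wherever `x = j j_q` is
and the reductions of `x ^ r f` are regular off the cusps (`f` in the chart `x ≠ 0`, `r` from the
overlap of the two charts) has the same value at the two branches of every node `b` with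
`j̄(b) ≠ 0`. -/
theorem glue_inf
    {S : Finset (Place (ResidueField ↥A) ↥(modularFunctionFieldFullC (ResidueField ↥A) M))}
    (hbS : Desc hA hqM S) {f : ↥(modularFunctionFieldBar (M * q))}
    (m₁ : f ∈ (G1X0 hA hqM).O) (m₂ : f ∈ (G2X0 hA hqM).O) (r : ℕ)
    (hf : ∀ P : Place Kb ↥(modularFunctionFieldBar (M * q)), 0 ≤ P.ord (xE M q) →
      xE M q ^ r * f = 0 ∨ 0 ≤ P.ord (xE M q ^ r * f))
    (h₁ : (jk (ResidueField ↥A) M ^ (q + 1)) ^ r * (G1X0 hA hqM).red ⟨f, m₁⟩ ∈
      regOff (P0 (ResidueField ↥A) M))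
    (h₂ : (jk (ResidueField ↥A) M ^ (q + 1)) ^ r * (G2X0 hA hqM).red ⟨f, m₂⟩ ∈
      regOff (P0 (ResidueField ↥A) M))
    {b : Place (ResidueField ↥A) ↥(modularFunctionFieldFullC (ResidueField ↥A) M)} (hb : b ∈ S)
    (hbP : b ∉ P0 (ResidueField ↥A) M) (hbJ : b.ord (jk (ResidueField ↥A) M) ≤ 0) :
    ∃ c : ResidueField ↥A,
      HasValue (Fr (ResidueField ↥A) M q b) ((G1X0 hA hqM).red ⟨f, m₁⟩) c ∧
        HasValue b ((G2X0 hA hqM).red ⟨f, m₂⟩) c := by
  set J' := (jk (ResidueField ↥A) M ^ (q + 1)) ^ r with hJ'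
  -- the function `x ^ r f`
  have hm₁ : xE M q ^ r * f ∈ (G1X0 hA hqM).O :=
    (G1X0 hA hqM).O.mul_mem _ _ (xE_pow_mem₁ hA hqM r) m₁
  have hm₂ : xE M q ^ r * f ∈ (G2X0 hA hqM).O :=
    (G2X0 hA hqM).O.mul_mem _ _ (xE_pow_mem₂ hA hqM r) m₂
  have e₁ : (G1X0 hA hqM).red ⟨xE M q ^ r * f, hm₁⟩ = J' * (G1X0 hA hqM).red ⟨f, m₁⟩ := by
    have e : (⟨xE M q ^ r * f, hm₁⟩ : (G1X0 hA hqM).O) =
        ⟨xE M q ^ r, xE_pow_mem₁ hA hqM r⟩ * ⟨f, m₁⟩ := rfl
    rw [e, map_mul, red₁_xE_pow]
  have e₂ : (G2X0 hA hqM).red ⟨xE M q ^ r * f, hm₂⟩ = J' * (G2X0 hA hqM).red ⟨f, m₂⟩ := by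
    have e : (⟨xE M q ^ r * f, hm₂⟩ : (G2X0 hA hqM).O) =
        ⟨xE M q ^ r, xE_pow_mem₂ hA hqM r⟩ * ⟨f, m₂⟩ := rfl
    rw [e, map_mul, red₂_xE_pow]
  obtain ⟨c', hc1, hc2⟩ := glue_fin hA hqM hbS hm₁ hm₂ hf (by rw [e₁]; exact h₁)
    (by rw [e₂]; exact h₂) hb
  rw [e₁] at hc1
  rw [e₂] at hc2
  -- the function `x ^ r`
  have hJreg : J' ∈ regOff (P0 (ResidueField ↥A) M) :=
    pow_mem (pow_mem jk_mem_regOff_P0 _) _
  have hxreg : ∀ P : Place Kb ↥(modularFunctionFieldBar (M * q)), 0 ≤ P.ord (xE M q) →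
      xE M q ^ r = 0 ∨ 0 ≤ P.ord (xE M q ^ r) := by
    intro P hP
    right
    rw [Fermat.Agent.S18.CoreOrd.ord_pow]
    positivity
  obtain ⟨d, hd1, hd2⟩ := glue_fin hA hqM hbS (xE_pow_mem₁ hA hqM r) (xE_pow_mem₂ hA hqM r) hxreg
    (by rw [red₁_xE_pow]; exact hJreg) (by rw [red₂_xE_pow]; exact hJreg) hb
  rw [red₁_xE_pow] at hd1
  rw [red₂_xE_pow] at hd2
  -- `d ≠ 0`
  obtain ⟨γ, hγ0, hγ⟩ := exists_hasValue_jk_ne_zero hbP hbJ
  have hd : d = (γ ^ (q + 1)) ^ r := hd2.unique ((hγ.pow (q + 1)).pow r)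
  have hd0 : d ≠ 0 := by
    rw [hd]
    exact pow_ne_zero _ (pow_ne_zero _ hγ0)
  exact ⟨c' / d, hasValue_of_mul hd0 hd1 hc1, hasValue_of_mul hd0 hd2 hc2⟩

/-! ### `K0`-forms -/

open Fermat.Agent.S36.K0PlacesX0 in
/-- from `K0`-places to `ℚ̄`-places: a `K0`-rational function lying in every `K0`-place that
contains `φ` is regular at every `ℚ̄`-place at which `toBar φ` is -/
theorem ord_toBar_nonneg_of_forall_mem {N : ℕ}
    {g φ : ↥(laurentBaseChange (IntermediateField.fixedField I) (modularFunctionFieldFull N))}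
    (hφ : φ ≠ 0)
    (hhor : ∀ v : Place (IntermediateField.fixedField I)
      ↥(laurentBaseChange (IntermediateField.fixedField I) (modularFunctionFieldFull N)),
      φ ∈ v.toValuationSubring → g ∈ v.toValuationSubring)
    (P : Place Kb ↥(modularFunctionFieldBar N))
    (hP : 0 ≤ P.ord (toBar (modularFunctionFieldFull N) (IntermediateField.fixedField I) φ)) :
    toBar (modularFunctionFieldFull N) (IntermediateField.fixedField I) g = 0 ∨
      0 ≤ P.ord (toBar (modularFunctionFieldFull N) (IntermediateField.fixedField I) g) := by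
  have hφ' : toBar (modularFunctionFieldFull N) (IntermediateField.fixedField I) φ ≠ 0 :=
    (map_ne_zero_iff _ (toBar_injective _ _)).mpr hφ
  have hv : φ ∈ (restrX0 N (IntermediateField.fixedField I) P).toValuationSubring := by
    rw [mem_restrX0, Fermat.Agent.S24.Ord.mem_iff]
    exact (Fermat.Agent.S24.Ord.ord_nonneg_iff P hφ').mp hP
  have hg := hhor _ hv
  rw [mem_restrX0, Fermat.Agent.S24.Ord.mem_iff, P.adicValuation_le_one_iff] at hg
  exact hg

set_option maxHeartbeats 1600000 in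
/-- **(GLUE) over `K0`, chart `x ≠ ∞`, `K0`-place form**: `g₀` in the `K0`-form, integral for both
vertical valuations, regular at every `K0`-place finite at `x = j j_q` (`g₀ ∈ Afin₁`), with
reductions regular off the cusps. -/
theorem glue_fin_K0
    {S : Finset (Place (ResidueField ↥A) ↥(modularFunctionFieldFullC (ResidueField ↥A) M))}
    (hbS : Desc hA hqM S)
    (g₀ : ↥(laurentBaseChange (IntermediateField.fixedField I)
      (modularFunctionFieldFull (M * q))))
    (h₁ : toBar (modularFunctionFieldFull (M * q)) (IntermediateField.fixedField I) g₀ ∈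
      (G1X0 hA hqM).O)
    (h₂ : toBar (modularFunctionFieldFull (M * q)) (IntermediateField.fixedField I) g₀ ∈
      (G2X0 hA hqM).O)
    (hhor : ∀ v : Place (IntermediateField.fixedField I)
      ↥(laurentBaseChange (IntermediateField.fixedField I) (modularFunctionFieldFull (M * q))),
      xK I ∈ v.toValuationSubring → g₀ ∈ v.toValuationSubring)
    (hr₁ : (G1X0 hA hqM).red ⟨_, h₁⟩ ∈ regOff (P0 (ResidueField ↥A) M))
    (hr₂ : (G2X0 hA hqM).red ⟨_, h₂⟩ ∈ regOff (P0 (ResidueField ↥A) M))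
    {b : Place (ResidueField ↥A) ↥(modularFunctionFieldFullC (ResidueField ↥A) M)} (hb : b ∈ S) :
    ∃ c : ResidueField ↥A,
      HasValue (Fr (ResidueField ↥A) M q b) ((G1X0 hA hqM).red ⟨_, h₁⟩) c ∧
        HasValue b ((G2X0 hA hqM).red ⟨_, h₂⟩) c := by
  refine glue_fin hA hqM hbS h₁ h₂ (fun P hP => ?_) hr₁ hr₂ hb
  refine ord_toBar_nonneg_of_forall_mem I (xK_ne_zero I) hhor P ?_
  rw [toBar_xK]
  exact hP

set_option maxHeartbeats 1600000 in
/-- **(GLUE) over `K0`, chart `x ≠ 0`, `K0`-place form**: `g₁` in the `K0`-form, integral for both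
vertical valuations, with `x ^ r g₁` regular at every `K0`-place finite at `x` (`g₁ ∈ Ainf₁`, `r`
from the overlap), the reductions of `x ^ r g₁` regular off the cusps; `b` a node with
`j̄(b) ≠ 0`. -/
theorem glue_inf_K0
    {S : Finset (Place (ResidueField ↥A) ↥(modularFunctionFieldFullC (ResidueField ↥A) M))}
    (hbS : Desc hA hqM S)
    (g₁ : ↥(laurentBaseChange (IntermediateField.fixedField I)
      (modularFunctionFieldFull (M * q))))
    (h₁ : toBar (modularFunctionFieldFull (M * q)) (IntermediateField.fixedField I) g₁ ∈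
      (G1X0 hA hqM).O)
    (h₂ : toBar (modularFunctionFieldFull (M * q)) (IntermediateField.fixedField I) g₁ ∈
      (G2X0 hA hqM).O) (r : ℕ)
    (hhor : ∀ v : Place (IntermediateField.fixedField I)
      ↥(laurentBaseChange (IntermediateField.fixedField I) (modularFunctionFieldFull (M * q))),
      xK I ∈ v.toValuationSubring → xK I ^ r * g₁ ∈ v.toValuationSubring)
    (hr₁ : (jk (ResidueField ↥A) M ^ (q + 1)) ^ r * (G1X0 hA hqM).red ⟨_, h₁⟩ ∈
      regOff (P0 (ResidueField ↥A) M))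
    (hr₂ : (jk (ResidueField ↥A) M ^ (q + 1)) ^ r * (G2X0 hA hqM).red ⟨_, h₂⟩ ∈
      regOff (P0 (ResidueField ↥A) M))
    {b : Place (ResidueField ↥A) ↥(modularFunctionFieldFullC (ResidueField ↥A) M)} (hb : b ∈ S)
    (hbP : b ∉ P0 (ResidueField ↥A) M) (hbJ : b.ord (jk (ResidueField ↥A) M) ≤ 0) :
    ∃ c : ResidueField ↥A,
      HasValue (Fr (ResidueField ↥A) M q b) ((G1X0 hA hqM).red ⟨_, h₁⟩) c ∧
        HasValue b ((G2X0 hA hqM).red ⟨_, h₂⟩) c := by
  refine glue_inf hA hqM hbS h₁ h₂ r (fun P hP => ?_) hr₁ hr₂ hb hbP hbJ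
  have := ord_toBar_nonneg_of_forall_mem I (xK_ne_zero I) hhor P (by rw [toBar_xK]; exact hP)
  rwa [map_mul, map_pow, toBar_xK] at this

end Fermat.Agent.S36.PairGlueK0
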