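/-
PROJECT V (S36), slice V-BranchKappaX0 (helper14), chain v1.1 (N2) / (V9), last step of (GLUE):
**the hypothesis `hglue` of `NodeField.node_iff` (= the `node` field of `BranchCoreT.PDatum`) at
`X₀`, in ring language, for BOTH charts of level `M q`.**  The twin of helper23's
`S36/PairLiftChart` (`hsep`), with the same objects and the same `(A₁, red1, red2)` interface.

On top of `S36/PairGlueK0` (`glue_fin_K0`, `glue_inf_K0`), `ThetaK0` (`V1K V2K red1K red2K`),
`ChartOverlap` (`chart O φ⁻¹ ⊆ ⋃ₙ φ⁻ⁿ chart O φ`), `SpecDictOne.glue_of_values`.  `I` ANY subgroup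
of `G_ℚ`, `K0 = fixedField I`, `x₁ = xK I = j₀ j₁`, `O` ANY commutative ring acting on `FK I (M q)`
through `K0`.

* `mem_place_of_mem_chart` : an element of `chart O φ` lies in every `K0`-place containing `φ`;
* `glue_values_fin`, `glue_values_inf` : LITERALLY the hypothesis `h` of
  `SpecDictOne.glue_of_values` for `x = J` resp. `x = J⁻¹`, for ANY type `A₁` with two maps
  `red1 red2 : A₁ → chart k x` all of whose values are the two reductions of ONE element of
  `chart O x₁^{±1} ∩ V1K ∩ V2K` (`hdesc`; for `A₁ := ↥(chart O x₁^{±1})` with the restrictions of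
  `red1K red2K` it is `fun a => ⟨a, a.2, h₁, h₂, rfl, rfl⟩`);
* `hglue_fin`, `hglue_inf` : LITERALLY `hglue` of `NodeField.node_iff` with `B = chart k J^{±1}`,
  `φ = SpecDictOne.phiB`, `S = SpecDictOne.nodeSet k M ↑S`;
* `node_fin`, `node_inf` : LITERALLY the field `node` of `BranchCoreT.PDatum` (conclusion of
  `NodeField.node_iff`) from `hdesc` (GLUE) and helper23's `hlift` (SEP).
-/
import Mathlib
import Fermat.Agent.S36.PairGlueK0
import Fermat.Agent.S36.PairLiftChart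
import Fermat.Agent.S36.ChartOverlap

set_option autoImplicit false
set_option linter.unusedSectionVars false
set_option linter.style.haveILetI false
set_option linter.unusedVariables false
set_option synthInstance.maxHeartbeats 400000

noncomputable section

namespace Fermat.Agent.S36.PairGlueChart

open ModularCurve AlgebraicCurve IsLocalRing IntermediateField Polynomial
open Fermat.Agent.S24.DegreeAlg (jgen)
open Fermat.Agent.S18.B.FkBasics (jk)
open Fermat.Agent.S18.NonSpecial Fermat.Agent.S37.Deuring.Core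
open Fermat.Agent.S34.EulerX0 Fermat.Agent.S34.EulerClosedX0
open Fermat.Agent.S36.K0Fixed Fermat.Agent.S36.LiftK0Core
open Fermat.Agent.S34.FrobK Fermat.Agent.S34.Euler.Value Fermat.Agent.S34.Euler.FrobSide
open Fermat.Agent.S34.Euler.Places
open Fermat.Agent.S36.NodesDesc Fermat.Agent.S36.PairLiftK0 Fermat.Agent.S36.PowerBasisK0
open Fermat.Agent.S36.ThetaK0 Fermat.Agent.S36.ChartRing
open Fermat.Agent.S36.PairLiftChart Fermat.Agent.S36.PairGlueK0

local notation "Kb" => AlgebraicClosure ℚ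
local notation "GQ" => (AlgebraicClosure ℚ ≃ₐ[ℚ] AlgebraicClosure ℚ)

attribute [local instance 2000] Fermat.Agent.S34.EulerX0.algResFk

local instance instACk (A : ValuationSubring Kb) : IsAlgClosed (ResidueField ↥A) :=
  Fermat.Agent.S18.ResidueBasics.isAlgClosed_residueField A

local instance instNeZeroMul (M q : ℕ) [NeZero M] [NeZero q] : NeZero (M * q) :=
  ⟨Nat.mul_ne_zero (NeZero.ne M) (NeZero.ne q)⟩

variable {q : ℕ} [hq : Fact q.Prime] [NeZero q] {M : ℕ} [NeZero M]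
variable {A : ValuationSubring Kb} (hA : A.LiesOverPrime q) (hqM : ¬ q ∣ M)
variable [CharP (ResidueField ↥A) q] (I : Subgroup GQ)

variable {O : Type*} [CommRing O]
  [Algebra O ↥(IntermediateField.fixedField I)]
  [Algebra O (FK I (M * q))] [IsScalarTower O ↥(IntermediateField.fixedField I) (FK I (M * q))]

/-- an element of the chart ring of `φ` lies in every `K0`-place containing `φ` -/
theorem mem_place_of_mem_chart {φ g : FK I (M * q)} (hg : g ∈ chart O φ)
    (v : Place (IntermediateField.fixedField I) (FK I (M * q)))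
    (hφ : φ ∈ v.toValuationSubring) : g ∈ v.toValuationSubring := by
  refine Fermat.Agent.S36.CompNormal.mem_of_mem_chart' v.toValuationSubring (fun c => ?_) hφ hg
  rw [IsScalarTower.algebraMap_apply O ↥(IntermediateField.fixedField I) (FK I (M * q))]
  exact v.algebraMap_mem' _

set_option maxHeartbeats 1600000 in
/-- the hypothesis `h` of `SpecDictOne.glue_of_values`, chart `x = J` -/
theorem glue_values_fin
    {S : Finset (Place (ResidueField ↥A) ↥(modularFunctionFieldFullC (ResidueField ↥A) M))}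
    (hbS : Desc hA hqM S)
    {A₁ : Type*} (red1 red2 : A₁ → chart (ResidueField ↥A) (jk (ResidueField ↥A) M))
    (hdesc : ∀ a : A₁, ∃ g ∈ chart O (xK (M := M) (q := q) I), ∃ (h₁ : g ∈ V1K I hA hqM)
      (h₂ : g ∈ V2K I hA hqM),
        ((red1 a : chart (ResidueField ↥A) (jk (ResidueField ↥A) M)) :
          ↥(modularFunctionFieldFullC (ResidueField ↥A) M)) = red1K I hA hqM ⟨g, h₁⟩ ∧
        ((red2 a : chart (ResidueField ↥A) (jk (ResidueField ↥A) M)) :
          ↥(modularFunctionFieldFullC (ResidueField ↥A) M)) = red2K I hA hqM ⟨g, h₂⟩) :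
    ∀ v ∈ (S : Set (Place (ResidueField ↥A) ↥(modularFunctionFieldFullC (ResidueField ↥A) M))),
      jk (ResidueField ↥A) M ∈ v.toValuationSubring → ∀ g : A₁, ∃ c : ResidueField ↥A,
        HasValue (Fr (ResidueField ↥A) M q v)
          ((red1 g : chart (ResidueField ↥A) (jk (ResidueField ↥A) M)) :
            ↥(modularFunctionFieldFullC (ResidueField ↥A) M)) c ∧
        HasValue v ((red2 g : chart (ResidueField ↥A) (jk (ResidueField ↥A) M)) :
            ↥(modularFunctionFieldFullC (ResidueField ↥A) M)) c := by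
  intro v hvS hv a
  obtain ⟨g, hg, h₁, h₂, e1, e2⟩ := hdesc a
  have h₂' : tB I (M * q) g ∈ (G2X0 hA hqM).O := (mem_V2K_iff hA hqM I g).mp h₂
  have hr₁ : (G1X0 hA hqM).red ⟨tB I (M * q) g, h₁⟩ ∈ regOff (P0 (ResidueField ↥A) M) := by
    have : (G1X0 hA hqM).red ⟨tB I (M * q) g, h₁⟩ = red1K I hA hqM ⟨g, h₁⟩ := rfl
    rw [this, ← e1]
    exact mem_regOff_P0_of_mem_chart_jk (red1 a).2
  have hr₂ : (G2X0 hA hqM).red ⟨tB I (M * q) g, h₂'⟩ ∈ regOff (P0 (ResidueField ↥A) M) := by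
    rw [← red2K_eq hA hqM I g h₂ h₂', ← e2]
    exact mem_regOff_P0_of_mem_chart_jk (red2 a).2
  obtain ⟨c, hc1, hc2⟩ := glue_fin_K0 hA hqM I hbS g h₁ h₂'
    (fun v' hv' => mem_place_of_mem_chart I hg v' hv') hr₁ hr₂ (Finset.mem_coe.mp hvS)
  refine ⟨c, ?_, ?_⟩
  · rw [e1]
    exact hc1
  · rw [e2, red2K_eq hA hqM I g h₂ h₂']
    exact hc2

/-- `chart k J⁻¹ ⊆ ⋃ₙ J⁻ⁿ chart k J` -/
theorem exists_pow_mul_mem_chart {K F : Type*} [CommRing K] [Field F] [Algebra K F] {φ z : F}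
    (hφ : φ ≠ 0) (hz : z ∈ chart K φ⁻¹) : ∃ n : ℕ, φ ^ n * z ∈ chart K φ :=
  (Fermat.Agent.S36.ChartOverlap.mem_overlap_iff hφ z).mp
    (Fermat.Agent.S36.ChartOverlap.chart_inv_le_overlap hφ hz)

/-- more powers do not hurt -/
theorem pow_mul_mem_chart_of_le {K F : Type*} [CommRing K] [Field F] [Algebra K F] {φ z : F}
    {n m : ℕ} (hnm : n ≤ m) (hz : φ ^ n * z ∈ chart K φ) : φ ^ m * z ∈ chart K φ := by
  obtain ⟨d, rfl⟩ := Nat.exists_eq_add_of_le hnm
  have : φ ^ (n + d) * z = φ ^ d * (φ ^ n * z) := by ring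
  rw [this]
  exact Subalgebra.mul_mem _
    (Subalgebra.pow_mem _ (Fermat.Agent.S36.CompNormal.self_mem_chart φ) d) hz

set_option maxHeartbeats 1600000 in
/-- the hypothesis `h` of `SpecDictOne.glue_of_values`, chart `x = J⁻¹` -/
theorem glue_values_inf
    {S : Finset (Place (ResidueField ↥A) ↥(modularFunctionFieldFullC (ResidueField ↥A) M))}
    (hS : ∀ b ∈ S, b ∉ P0 (ResidueField ↥A) M) (hbS : Desc hA hqM S)
    {A₁ : Type*} (red1 red2 : A₁ → chart (ResidueField ↥A) (jk (ResidueField ↥A) M)⁻¹)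
    (hdesc : ∀ a : A₁, ∃ g ∈ chart O (xK (M := M) (q := q) I)⁻¹, ∃ (h₁ : g ∈ V1K I hA hqM)
      (h₂ : g ∈ V2K I hA hqM),
        ((red1 a : chart (ResidueField ↥A) (jk (ResidueField ↥A) M)⁻¹) :
          ↥(modularFunctionFieldFullC (ResidueField ↥A) M)) = red1K I hA hqM ⟨g, h₁⟩ ∧
        ((red2 a : chart (ResidueField ↥A) (jk (ResidueField ↥A) M)⁻¹) :
          ↥(modularFunctionFieldFullC (ResidueField ↥A) M)) = red2K I hA hqM ⟨g, h₂⟩) :
    ∀ v ∈ (S : Set (Place (ResidueField ↥A) ↥(modularFunctionFieldFullC (ResidueField ↥A) M))),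
      (jk (ResidueField ↥A) M)⁻¹ ∈ v.toValuationSubring → ∀ g : A₁, ∃ c : ResidueField ↥A,
        HasValue (Fr (ResidueField ↥A) M q v)
          ((red1 g : chart (ResidueField ↥A) (jk (ResidueField ↥A) M)⁻¹) :
            ↥(modularFunctionFieldFullC (ResidueField ↥A) M)) c ∧
        HasValue v ((red2 g : chart (ResidueField ↥A) (jk (ResidueField ↥A) M)⁻¹) :
            ↥(modularFunctionFieldFullC (ResidueField ↥A) M)) c := by
  intro v hvS hv a
  obtain ⟨g, hg, h₁, h₂, e1, e2⟩ := hdesc a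
  have h₂' : tB I (M * q) g ∈ (G2X0 hA hqM).O := (mem_V2K_iff hA hqM I g).mp h₂
  have hJ0 : jk (ResidueField ↥A) M ≠ 0 := Fermat.Agent.S36.EulerExact.X0.jk_ne_zero
  -- the three exponents
  obtain ⟨r0, hr0⟩ : ∃ n : ℕ, xK (M := M) (q := q) I ^ n * g ∈ chart O (xK (M := M) (q := q) I) :=
    exists_pow_mul_mem_chart (xK_ne_zero (M := M) (q := q) I) hg
  obtain ⟨s1, hs1⟩ : ∃ n : ℕ, jk (ResidueField ↥A) M ^ n *
      ((red1 a : chart (ResidueField ↥A) (jk (ResidueField ↥A) M)⁻¹) :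
        ↥(modularFunctionFieldFullC (ResidueField ↥A) M)) ∈
        chart (ResidueField ↥A) (jk (ResidueField ↥A) M) :=
    exists_pow_mul_mem_chart hJ0 (red1 a).2
  obtain ⟨s2, hs2⟩ : ∃ n : ℕ, jk (ResidueField ↥A) M ^ n *
      ((red2 a : chart (ResidueField ↥A) (jk (ResidueField ↥A) M)⁻¹) :
        ↥(modularFunctionFieldFullC (ResidueField ↥A) M)) ∈
        chart (ResidueField ↥A) (jk (ResidueField ↥A) M) :=
    exists_pow_mul_mem_chart hJ0 (red2 a).2
  have hle0 : r0 ≤ r0 + s1 + s2 := by omega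
  have hle1 : s1 ≤ (q + 1) * (r0 + s1 + s2) := by
    calc s1 ≤ r0 + s1 + s2 := by omega
      _ = 1 * (r0 + s1 + s2) := (one_mul _).symm
      _ ≤ (q + 1) * (r0 + s1 + s2) := Nat.mul_le_mul_right _ (Nat.le_add_left 1 q)
  have hle2 : s2 ≤ (q + 1) * (r0 + s1 + s2) := by
    calc s2 ≤ r0 + s1 + s2 := by omega
      _ = 1 * (r0 + s1 + s2) := (one_mul _).symm
      _ ≤ (q + 1) * (r0 + s1 + s2) := Nat.mul_le_mul_right _ (Nat.le_add_left 1 q)
  have hhor : ∀ v' : Place (IntermediateField.fixedField I) (FK I (M * q)),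
      xK (M := M) (q := q) I ∈ v'.toValuationSubring →
      xK (M := M) (q := q) I ^ (r0 + s1 + s2) * g ∈ v'.toValuationSubring := fun v' hv' =>
    mem_place_of_mem_chart I (pow_mul_mem_chart_of_le hle0 hr0) v' hv'
  have hpow : (jk (ResidueField ↥A) M ^ (q + 1)) ^ (r0 + s1 + s2)
      = jk (ResidueField ↥A) M ^ ((q + 1) * (r0 + s1 + s2)) := (pow_mul _ _ _).symm
  have hr₁ : (jk (ResidueField ↥A) M ^ (q + 1)) ^ (r0 + s1 + s2) *
      (G1X0 hA hqM).red ⟨tB I (M * q) g, h₁⟩ ∈ regOff (P0 (ResidueField ↥A) M) := by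
    have : (G1X0 hA hqM).red ⟨tB I (M * q) g, h₁⟩ = red1K I hA hqM ⟨g, h₁⟩ := rfl
    rw [this, ← e1, hpow]
    exact mem_regOff_P0_of_mem_chart_jk (pow_mul_mem_chart_of_le hle1 hs1)
  have hr₂ : (jk (ResidueField ↥A) M ^ (q + 1)) ^ (r0 + s1 + s2) *
      (G2X0 hA hqM).red ⟨tB I (M * q) g, h₂'⟩ ∈ regOff (P0 (ResidueField ↥A) M) := by
    rw [← red2K_eq hA hqM I g h₂ h₂', ← e2, hpow]
    exact mem_regOff_P0_of_mem_chart_jk (pow_mul_mem_chart_of_le hle2 hs2)
  have hvS' : v ∈ S := Finset.mem_coe.mp hvS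
  obtain ⟨c, hc1, hc2⟩ := glue_inf_K0 hA hqM I hbS g h₁ h₂' (r0 + s1 + s2) hhor hr₁ hr₂ hvS' (hS v hvS')
    ((jk_inv_mem_iff v).mp hv)
  refine ⟨c, ?_, ?_⟩
  · rw [e1]
    exact hc1
  · rw [e2, red2K_eq hA hqM I g h₂ h₂']
    exact hc2

open Fermat.Agent.S36.SpecDictOne in
set_option maxHeartbeats 1600000 in
/-- **`hglue` of `NodeField.node_iff`, chart `x = J`**, in the literal shape
(`B = chart k J`, `φ = SpecDictOne.phiB`, `S = SpecDictOne.nodeSet`) -/
theorem hglue_fin [PerfectField (ResidueField ↥A)]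
    {S : Finset (Place (ResidueField ↥A) ↥(modularFunctionFieldFullC (ResidueField ↥A) M))}
    (hbS : Desc hA hqM S)
    {A₁ : Type*} (red1 red2 : A₁ → chart (ResidueField ↥A) (jk (ResidueField ↥A) M))
    (hdesc : ∀ a : A₁, ∃ g ∈ chart O (xK (M := M) (q := q) I), ∃ (h₁ : g ∈ V1K I hA hqM)
      (h₂ : g ∈ V2K I hA hqM),
        ((red1 a : chart (ResidueField ↥A) (jk (ResidueField ↥A) M)) :
          ↥(modularFunctionFieldFullC (ResidueField ↥A) M)) = red1K I hA hqM ⟨g, h₁⟩ ∧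
        ((red2 a : chart (ResidueField ↥A) (jk (ResidueField ↥A) M)) :
          ↥(modularFunctionFieldFullC (ResidueField ↥A) M)) = red2K I hA hqM ⟨g, h₂⟩) :
    ∀ n ∈ nodeSet (ResidueField ↥A) M (x := jk (ResidueField ↥A) M)
        (S : Set (Place (ResidueField ↥A) ↥(modularFunctionFieldFullC (ResidueField ↥A) M))),
      ∀ g : A₁, red1 g ∈ n.comap (phiB (ResidueField ↥A) M q (phi_jk (ResidueField ↥A) M q)
          (Fermat.Agent.S18.B.FkBasics.isFF (ResidueField ↥A) M)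
          (Fermat.Agent.S18.B.SeparableFk.isSeparable_jk (ResidueField ↥A) M)) ↔ red2 g ∈ n :=
  glue_of_values (ResidueField ↥A) M q (phi_jk (ResidueField ↥A) M q)
    (Fermat.Agent.S18.B.FkBasics.isFF (ResidueField ↥A) M)
    (Fermat.Agent.S18.B.SeparableFk.isSeparable_jk (ResidueField ↥A) M) red1 red2 _
    (glue_values_fin hA hqM I hbS red1 red2 hdesc)

open Fermat.Agent.S36.SpecDictOne in
set_option maxHeartbeats 1600000 in
/-- **`hglue` of `NodeField.node_iff`, chart `x = J⁻¹`** -/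
theorem hglue_inf [PerfectField (ResidueField ↥A)]
    {S : Finset (Place (ResidueField ↥A) ↥(modularFunctionFieldFullC (ResidueField ↥A) M))}
    (hS : ∀ b ∈ S, b ∉ P0 (ResidueField ↥A) M) (hbS : Desc hA hqM S)
    {A₁ : Type*} (red1 red2 : A₁ → chart (ResidueField ↥A) (jk (ResidueField ↥A) M)⁻¹)
    (hdesc : ∀ a : A₁, ∃ g ∈ chart O (xK (M := M) (q := q) I)⁻¹, ∃ (h₁ : g ∈ V1K I hA hqM)
      (h₂ : g ∈ V2K I hA hqM),
        ((red1 a : chart (ResidueField ↥A) (jk (ResidueField ↥A) M)⁻¹) :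
          ↥(modularFunctionFieldFullC (ResidueField ↥A) M)) = red1K I hA hqM ⟨g, h₁⟩ ∧
        ((red2 a : chart (ResidueField ↥A) (jk (ResidueField ↥A) M)⁻¹) :
          ↥(modularFunctionFieldFullC (ResidueField ↥A) M)) = red2K I hA hqM ⟨g, h₂⟩) :
    ∀ n ∈ nodeSet (ResidueField ↥A) M (x := (jk (ResidueField ↥A) M)⁻¹)
        (S : Set (Place (ResidueField ↥A) ↥(modularFunctionFieldFullC (ResidueField ↥A) M))),
      ∀ g : A₁, red1 g ∈ n.comap (phiB (ResidueField ↥A) M q (phi_jk_inv (ResidueField ↥A) M q)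
          (isFF_jk_inv (ResidueField ↥A) M) (isSeparable_jk_inv (ResidueField ↥A) M)) ↔
        red2 g ∈ n :=
  glue_of_values (ResidueField ↥A) M q (phi_jk_inv (ResidueField ↥A) M q)
    (isFF_jk_inv (ResidueField ↥A) M) (isSeparable_jk_inv (ResidueField ↥A) M) red1 red2 _
    (glue_values_inf hA hqM I hS hbS red1 red2 hdesc)

end Fermat.Agent.S36.PairGlueChart
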