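/-
PROJECT V (S36), slice V-BranchKappaX0 (helper14), part C: **`BranchCoreT.PDatum` at `X₀` on both
charts, with the `κ`-side fields `φ`, `S`, `φ_pow`, `S_fr`, `fr_fr` and (GLUE) DISCHARGED**;
hypotheses first.

Objects: `A` a valuation subring of `ℚ̄` over `q`, `k = ResidueField A`, `κ = F_k(M)`,
`I` ANY subgroup of `G_ℚ`, `K0 = fixedField I`, `Y : ThreeValX0.Hyp I M q κ` linked to project U by
the five equations of `GlueNormX0.Link` (`hV₁ hV₂ h₁ h₂ hφ`, taken one by one so that this file does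
not import `GlueNormX0`), `O` a commutative ring acting compatibly on the three levels through `K0`
(`O = W A` at `X₀`), `hB : CompNormalX0.Base Y O π`, the node set `S` (a `Finset` of places of `κ`
off the cusps, `Fr`-stable with `Fr² = id`, `NodesDesc.Desc`).

* `J_eq_jk` : `Y.J = jk k M`;
* `φfin`, `φinf` := `SpecDictOne.phiB` on `chart k J`, `chart k J⁻¹`; `coe_φfin`, `coe_φinf`
  (`= Y.φ`);
* `hdesc_fin/inf`, `hlift_fin/inf` : the `(A₁, red1, red2)` interfaces of `PairGlueChart` and of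
  helper23's `PairLiftChart` for `A₁ := chart O x₁^{±1}`, `red1 red2 := ρ₁ ρ₂` of
  `BranchKappaX0Maps`;
* `hglue_fin`, `hglue_inf` : (GLUE) for `ρ₁ ρ₂`;
* `node_fin_X0`, `node_inf_X0` : the field `node` from (SEP) in the literal shape of
  `PairLiftChart.hsep_fin / hsep_inf` for `red1 red2 := ρ₁ ρ₂`;
* `pdatumFinX0`, `pdatumInfX0` : the `PDatum`s; remaining inputs = (SEP), `ϖ`, `ker_inf`;
  `tdatumFinX0` (+ `hnorm`);
* `hdict_fin`, `hdict_inf` : the dictionary `n ∈ D.S ⟹ ∃ b ∈ S, ∀ z, z ∈ n ↔ z(b) = 0`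
  (`NodalDefs.HasValue`, the `hdict` of `BranchPt.pt_of_tdatum`).
-/
import Mathlib
import Fermat.Agent.S36.BranchKappaX0Maps
import Fermat.Agent.S36.PairGlueChart

set_option autoImplicit false
set_option linter.unusedSectionVars false
set_option linter.style.haveILetI false
set_option linter.unusedVariables false
set_option synthInstance.maxHeartbeats 400000

noncomputable section

namespace Fermat.Agent.S36.BranchNodeX0

open ModularCurve AlgebraicCurve IsLocalRing IntermediateField Polynomial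
open Fermat.Agent.S18.B.FkBasics (jk)
open Fermat.Agent.S34.EulerX0 Fermat.Agent.S34.EulerClosedX0
open Fermat.Agent.S34.FrobK Fermat.Agent.S34.Euler.Value Fermat.Agent.S34.Euler.FrobSide
open Fermat.Agent.S34.GaussPairX0
open Fermat.Agent.S36.NodesDesc Fermat.Agent.S36.PairLiftK0 Fermat.Agent.S36.PowerBasisK0
open Fermat.Agent.S36.ThetaK0 Fermat.Agent.S36.ChartRing Fermat.Agent.S36.CompNormal
open Fermat.Agent.S36.PairLiftChart Fermat.Agent.S36.SpecDictOne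
open Fermat.Agent.S36.CompNormalX0 Fermat.Agent.S36.BranchKappaX0

local notation "Kb" => AlgebraicClosure ℚ
local notation "GQ" => (AlgebraicClosure ℚ ≃ₐ[ℚ] AlgebraicClosure ℚ)

/-! ### the dictionary `n ↔ b` (the `hdict` of `BranchPt.pt_of_tdatum`) -/

section Dict

/-- `z ∈ n_v ↔ z(v) = 0` (`NodalDefs.HasValue`) -/
theorem mem_pointOf_iff_nodal {K F : Type*} [Field K] [Field F] [Algebra K F] {x : F}
    (v : Place K F) (hv : x ∈ v.toValuationSubring) (z : ↥(chart K x)) :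
    z ∈ pointOf v hv ↔ Fermat.Agent.S34.NodalDefs.HasValue v (z : F) 0 := by
  rw [SpecDictOne.hasValue_iff v hv z 0, map_zero, sub_zero]

/-- every point of `nodeSet S` on the chart of `x` is the ideal of the functions vanishing at some
`b ∈ S` -/
theorem hdict (k : Type*) [Field k] (N : ℕ) [NeZero N]
    {S : Set (Place k ↥(modularFunctionFieldFullC k N))}
    {x : ↥(modularFunctionFieldFullC k N)} (n : Ideal ↥(chart k x))
    (hn : n ∈ nodeSet k N (x := x) S) :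
    ∃ b ∈ S, ∀ z : ↥(chart k x),
      z ∈ n ↔ Fermat.Agent.S34.NodalDefs.HasValue b (z : ↥(modularFunctionFieldFullC k N)) 0 := by
  obtain ⟨v, hvS, hv, rfl⟩ := hn
  exact ⟨v, hvS, fun z => mem_pointOf_iff_nodal v hv z⟩

end Dict

attribute [local instance 2000] Fermat.Agent.S34.EulerX0.algResFk

local instance instACk (A : ValuationSubring Kb) : IsAlgClosed (ResidueField ↥A) :=
  Fermat.Agent.S18.ResidueBasics.isAlgClosed_residueField A

variable {q : ℕ} [hq : Fact q.Prime] [NeZero q] {M : ℕ} [NeZero M] [NeZero (M * q)]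
  [NeZero (M * q * q)]
variable {A : ValuationSubring Kb} (hA : A.LiesOverPrime q) (hqM : ¬ q ∣ M)
variable [CharP (ResidueField ↥A) q] [PerfectField (ResidueField ↥A)] (I : Subgroup GQ)

variable (Y : ThreeValX0.Hyp I M q ↥(modularFunctionFieldFullC (ResidueField ↥A) M))

/-- the five equations of `GlueNormX0.Link` -/
structure LinkQ : Prop where
  hV₁ : Y.V₁ = V1K I hA hqM
  hV₂ : Y.V₂ = V2K I hA hqM
  h₁ : ∀ (x : FK I (M * q)) (h : x ∈ Y.V₁) (h' : tB I (M * q) x ∈ V₁ hA hqM),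
    Y.red₁ ⟨x, h⟩ = red₁ hA hqM ⟨tB I (M * q) x, h'⟩
  h₂ : ∀ (x : FK I (M * q)) (h : x ∈ Y.V₂) (h' : tB I (M * q) x ∈ V₂ hA hqM),
    Y.red₂ ⟨x, h⟩ = red₂ hA hqM ⟨tB I (M * q) x, h'⟩
  hφ : Y.φ = ((phi (ResidueField ↥A) M q : _ →ₐ[ResidueField ↥A] _) : _ →+* _)

variable {hA hqM I Y}

namespace LinkQ

variable (L : LinkQ hA hqM I Y)

include L

theorem mem_V1K {x : FK I (M * q)} (h : x ∈ Y.V₁) : x ∈ V1K I hA hqM := L.hV₁ ▸ h

theorem mem_V2K {x : FK I (M * q)} (h : x ∈ Y.V₂) : x ∈ V2K I hA hqM := L.hV₂ ▸ h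

theorem red₁_eq {x : FK I (M * q)} (h : x ∈ Y.V₁) :
    Y.red₁ ⟨x, h⟩ = red1K I hA hqM ⟨x, L.mem_V1K h⟩ :=
  L.h₁ x h (ValuationSubring.mem_comap.mp (L.mem_V1K h))

theorem red₂_eq {x : FK I (M * q)} (h : x ∈ Y.V₂) :
    Y.red₂ ⟨x, h⟩ = red2K I hA hqM ⟨x, L.mem_V2K h⟩ :=
  L.h₂ x h (ValuationSubring.mem_comap.mp (L.mem_V2K h))

/-- **`Y.J = jk k M`** -/
theorem J_eq_jk : Y.J = jk (ResidueField ↥A) M := by
  rw [← Y.red₁_x]
  exact (L.red₁_eq Y.x₁.2).trans (red1K_x I hA hqM)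

theorem φ_apply (z : ↥(modularFunctionFieldFullC (ResidueField ↥A) M)) :
    Y.φ z = phi (ResidueField ↥A) M q z := by
  rw [L.hφ]
  rfl

end LinkQ

/-! ### the Frobenius of the two component charts -/

/-- `phiB` on `chart k J` -/
abbrev φfin (A : ValuationSubring Kb) (M q : ℕ) [NeZero M] [Fact q.Prime]
    [CharP (ResidueField ↥A) q] [PerfectField (ResidueField ↥A)] :
    ↥(chart (ResidueField ↥A) (jk (ResidueField ↥A) M)) →+*
      ↥(chart (ResidueField ↥A) (jk (ResidueField ↥A) M)) :=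
  phiB (ResidueField ↥A) M q (phi_jk (ResidueField ↥A) M q)
    (Fermat.Agent.S18.B.FkBasics.isFF (ResidueField ↥A) M)
    (Fermat.Agent.S18.B.SeparableFk.isSeparable_jk (ResidueField ↥A) M)

/-- `phiB` on `chart k J⁻¹` -/
abbrev φinf (A : ValuationSubring Kb) (M q : ℕ) [NeZero M] [Fact q.Prime]
    [CharP (ResidueField ↥A) q] [PerfectField (ResidueField ↥A)] :
    ↥(chart (ResidueField ↥A) (jk (ResidueField ↥A) M)⁻¹) →+*
      ↥(chart (ResidueField ↥A) (jk (ResidueField ↥A) M)⁻¹) :=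
  phiB (ResidueField ↥A) M q (phi_jk_inv (ResidueField ↥A) M q)
    (isFF_jk_inv (ResidueField ↥A) M) (isSeparable_jk_inv (ResidueField ↥A) M)

theorem coe_φfin (L : LinkQ hA hqM I Y)
    (b : ↥(chart (ResidueField ↥A) (jk (ResidueField ↥A) M))) :
    ((φfin A M q b : ↥(chart (ResidueField ↥A) (jk (ResidueField ↥A) M))) :
      ↥(modularFunctionFieldFullC (ResidueField ↥A) M)) = Y.φ (b : _) :=
  (L.φ_apply _).symm

theorem coe_φinf (L : LinkQ hA hqM I Y)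
    (b : ↥(chart (ResidueField ↥A) (jk (ResidueField ↥A) M)⁻¹)) :
    ((φinf A M q b : ↥(chart (ResidueField ↥A) (jk (ResidueField ↥A) M)⁻¹)) :
      ↥(modularFunctionFieldFullC (ResidueField ↥A) M)) = Y.φ (b : _) :=
  (L.φ_apply _).symm

/-! ### the `(A₁, red1, red2)` interfaces of `PairGlueChart` / `PairLiftChart` -/

section Interfaces

variable {O : Type*} [CommRing O] [Algebra O (FK I M)] [Algebra O (FK I (M * q))]
  [Algebra O (FK I (M * q * q))]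
variable {π : O →+* ResidueField ↥A} (hB : Base Y O π) (L : LinkQ hA hqM I Y)

theorem x1_eq_xK : x1 I M q = xK (M := M) (q := q) I := (xK_eq_prod_jK I).symm

theorem mem_chart_xK {g : FK I (M * q)} (hg : g ∈ chart O (x1 I M q)) :
    g ∈ chart O (xK (M := M) (q := q) I) := by
  rw [← x1_eq_xK]
  exact hg

theorem mem_chart_x1 {g : FK I (M * q)} (hg : g ∈ chart O (xK (M := M) (q := q) I)) :
    g ∈ chart O (x1 I M q) := by
  rw [x1_eq_xK]
  exact hg

theorem mem_chart_xK_inv {g : FK I (M * q)} (hg : g ∈ chart O (x1 I M q)⁻¹) :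
    g ∈ chart O (xK (M := M) (q := q) I)⁻¹ := by
  rw [← x1_eq_xK]
  exact hg

theorem mem_chart_x1_inv {g : FK I (M * q)} (hg : g ∈ chart O (xK (M := M) (q := q) I)⁻¹) :
    g ∈ chart O (x1 I M q)⁻¹ := by
  rw [x1_eq_xK]
  exact hg

include hB in
theorem coe_mem_V₁ (a : ↥(chart O (x1 I M q))) : (a : FK I (M * q)) ∈ Y.V₁ :=
  mem_of_mem_chart' Y.V₁ (branch₁ hB).algebraMap_mem (branch₁ hB).x1_mem a.2

include hB in
theorem coe_mem_V₂ (a : ↥(chart O (x1 I M q))) : (a : FK I (M * q)) ∈ Y.V₂ :=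
  mem_of_mem_chart' Y.V₂ (branch₂ hB).algebraMap_mem (branch₂ hB).x1_mem a.2

include hB in
theorem coe_mem_V₁' (a : ↥(chart O (x1 I M q)⁻¹)) : (a : FK I (M * q)) ∈ Y.V₁ :=
  mem_of_mem_chart' Y.V₁ (branch₁ hB).algebraMap_mem (branch₁ hB).x1_inv_mem a.2

include hB in
theorem coe_mem_V₂' (a : ↥(chart O (x1 I M q)⁻¹)) : (a : FK I (M * q)) ∈ Y.V₂ :=
  mem_of_mem_chart' Y.V₂ (branch₂ hB).algebraMap_mem (branch₂ hB).x1_inv_mem a.2

include L in
/-- the interface `hdesc` of `PairGlueChart.glue_values_fin / hglue_fin` -/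
theorem hdesc_fin (a : ↥(chart O (x1 I M q))) :
    ∃ g ∈ chart O (xK (M := M) (q := q) I), ∃ (h₁ : g ∈ V1K I hA hqM) (h₂ : g ∈ V2K I hA hqM),
      ((ρ₁ hB L.J_eq_jk a : ↥(chart (ResidueField ↥A) (jk (ResidueField ↥A) M))) :
        ↥(modularFunctionFieldFullC (ResidueField ↥A) M)) = red1K I hA hqM ⟨g, h₁⟩ ∧
      ((ρ₂ hB L.J_eq_jk a : ↥(chart (ResidueField ↥A) (jk (ResidueField ↥A) M))) :
        ↥(modularFunctionFieldFullC (ResidueField ↥A) M)) = red2K I hA hqM ⟨g, h₂⟩ :=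
  ⟨(a : FK I (M * q)), mem_chart_xK a.2, L.mem_V1K (coe_mem_V₁ hB a), L.mem_V2K (coe_mem_V₂ hB a),
    L.red₁_eq (coe_mem_V₁ hB a), L.red₂_eq (coe_mem_V₂ hB a)⟩

include L in
/-- the interface `hlift` of `PairLiftChart.sep_values_fin / hsep_fin` -/
theorem hlift_fin : ∀ g ∈ chart O (xK (M := M) (q := q) I), ∀ (h₁ : g ∈ V1K I hA hqM)
    (h₂ : g ∈ V2K I hA hqM), ∃ a : ↥(chart O (x1 I M q)),
      ((ρ₁ hB L.J_eq_jk a : ↥(chart (ResidueField ↥A) (jk (ResidueField ↥A) M))) :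
        ↥(modularFunctionFieldFullC (ResidueField ↥A) M)) = red1K I hA hqM ⟨g, h₁⟩ ∧
      ((ρ₂ hB L.J_eq_jk a : ↥(chart (ResidueField ↥A) (jk (ResidueField ↥A) M))) :
        ↥(modularFunctionFieldFullC (ResidueField ↥A) M)) = red2K I hA hqM ⟨g, h₂⟩ :=
  fun g hg h₁ h₂ => ⟨⟨g, mem_chart_x1 hg⟩, L.red₁_eq (coe_mem_V₁ hB ⟨g, mem_chart_x1 hg⟩),
    L.red₂_eq (coe_mem_V₂ hB ⟨g, mem_chart_x1 hg⟩)⟩

include L in
/-- the interface `hdesc` of `PairGlueChart.glue_values_inf / hglue_inf` -/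
theorem hdesc_inf (a : ↥(chart O (x1 I M q)⁻¹)) :
    ∃ g ∈ chart O (xK (M := M) (q := q) I)⁻¹, ∃ (h₁ : g ∈ V1K I hA hqM)
      (h₂ : g ∈ V2K I hA hqM),
      ((ρ₁' hB L.J_eq_jk a : ↥(chart (ResidueField ↥A) (jk (ResidueField ↥A) M)⁻¹)) :
        ↥(modularFunctionFieldFullC (ResidueField ↥A) M)) = red1K I hA hqM ⟨g, h₁⟩ ∧
      ((ρ₂' hB L.J_eq_jk a : ↥(chart (ResidueField ↥A) (jk (ResidueField ↥A) M)⁻¹)) :
        ↥(modularFunctionFieldFullC (ResidueField ↥A) M)) = red2K I hA hqM ⟨g, h₂⟩ :=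
  ⟨(a : FK I (M * q)), mem_chart_xK_inv a.2, L.mem_V1K (coe_mem_V₁' hB a),
    L.mem_V2K (coe_mem_V₂' hB a), L.red₁_eq (coe_mem_V₁' hB a), L.red₂_eq (coe_mem_V₂' hB a)⟩

include L in
/-- the interface `hlift` of `PairLiftChart.sep_values_inf / hsep_inf` -/
theorem hlift_inf : ∀ g ∈ chart O (xK (M := M) (q := q) I)⁻¹, ∀ (h₁ : g ∈ V1K I hA hqM)
    (h₂ : g ∈ V2K I hA hqM), ∃ a : ↥(chart O (x1 I M q)⁻¹),
      ((ρ₁' hB L.J_eq_jk a : ↥(chart (ResidueField ↥A) (jk (ResidueField ↥A) M)⁻¹)) :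
        ↥(modularFunctionFieldFullC (ResidueField ↥A) M)) = red1K I hA hqM ⟨g, h₁⟩ ∧
      ((ρ₂' hB L.J_eq_jk a : ↥(chart (ResidueField ↥A) (jk (ResidueField ↥A) M)⁻¹)) :
        ↥(modularFunctionFieldFullC (ResidueField ↥A) M)) = red2K I hA hqM ⟨g, h₂⟩ :=
  fun g hg h₁ h₂ => ⟨⟨g, mem_chart_x1_inv hg⟩,
    L.red₁_eq (coe_mem_V₁' hB ⟨g, mem_chart_x1_inv hg⟩),
    L.red₂_eq (coe_mem_V₂' hB ⟨g, mem_chart_x1_inv hg⟩)⟩

end Interfaces

/-! ### (GLUE), the `node` field, the `PDatum`s -/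

section Node

variable {O : Type*} [CommRing O] [Algebra O (FK I M)] [Algebra O (FK I (M * q))]
  [Algebra O (FK I (M * q * q))]
  [Algebra O ↥(IntermediateField.fixedField I)]
  [IsScalarTower O ↥(IntermediateField.fixedField I) (FK I (M * q))]
variable {π : O →+* ResidueField ↥A} (hB : Base Y O π) (L : LinkQ hA hqM I Y)
variable {S : Finset (Place (ResidueField ↥A) ↥(modularFunctionFieldFullC (ResidueField ↥A) M))}
  (hS : ∀ b ∈ S, b ∉ P0 (ResidueField ↥A) M) (hbS : Desc hA hqM S)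

include L hbS in
/-- **(GLUE) on the finite chart** for `ρ₁ ρ₂` -/
theorem hglue_fin :
    ∀ n ∈ nodeSet (ResidueField ↥A) M (x := jk (ResidueField ↥A) M)
        (S : Set (Place (ResidueField ↥A) ↥(modularFunctionFieldFullC (ResidueField ↥A) M))),
      ∀ g : ↥(chart O (x1 I M q)),
        ρ₁ hB L.J_eq_jk g ∈ n.comap (φfin A M q) ↔ ρ₂ hB L.J_eq_jk g ∈ n :=
  PairGlueChart.hglue_fin hA hqM I hbS (fun a => ρ₁ hB L.J_eq_jk a) (fun a => ρ₂ hB L.J_eq_jk a)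
    (hdesc_fin hB L)

include L hS hbS in
/-- **(GLUE) on the chart at infinity** for `ρ₁' ρ₂'` -/
theorem hglue_inf :
    ∀ n ∈ nodeSet (ResidueField ↥A) M (x := (jk (ResidueField ↥A) M)⁻¹)
        (S : Set (Place (ResidueField ↥A) ↥(modularFunctionFieldFullC (ResidueField ↥A) M))),
      ∀ g : ↥(chart O (x1 I M q)⁻¹),
        ρ₁' hB L.J_eq_jk g ∈ n.comap (φinf A M q) ↔ ρ₂' hB L.J_eq_jk g ∈ n :=
  PairGlueChart.hglue_inf hA hqM I hS hbS (fun a => ρ₁' hB L.J_eq_jk a)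
    (fun a => ρ₂' hB L.J_eq_jk a) (hdesc_inf hB L)

include L hbS in
/-- **the field `node` of `BranchCoreT.PDatum`, finite chart**, from (SEP) in the literal shape of
`PairLiftChart.hsep_fin` -/
theorem node_fin_X0
    (hsep : ∀ n : Ideal ↥(chart (ResidueField ↥A) (jk (ResidueField ↥A) M)), n.IsMaximal →
      n ∉ nodeSet (ResidueField ↥A) M (x := jk (ResidueField ↥A) M)
        (S : Set (Place (ResidueField ↥A) ↥(modularFunctionFieldFullC (ResidueField ↥A) M))) →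
      ∃ g : ↥(chart O (x1 I M q)),
        ρ₁ hB L.J_eq_jk g ∈ n.comap (φfin A M q) ∧ ρ₂ hB L.J_eq_jk g ∉ n)
    (n' n : Ideal ↥(chart (ResidueField ↥A) (jk (ResidueField ↥A) M)))
    (hn' : n'.IsMaximal) (hn : n.IsMaximal) :
    n'.comap (ρ₁ hB L.J_eq_jk) = n.comap (ρ₂ hB L.J_eq_jk) ↔
      n ∈ nodeSet (ResidueField ↥A) M (x := jk (ResidueField ↥A) M)
        (S : Set (Place (ResidueField ↥A) ↥(modularFunctionFieldFullC (ResidueField ↥A) M))) ∧
      n' = n.comap (φfin A M q) :=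
  node_fin hB L.J_eq_jk (φfin A M q) (coe_φfin L) _ (hglue_fin hB L hbS) hsep n' n hn' hn

include L hS hbS in
/-- **the field `node` of `BranchCoreT.PDatum`, chart at infinity** -/
theorem node_inf_X0
    (hsep : ∀ n : Ideal ↥(chart (ResidueField ↥A) (jk (ResidueField ↥A) M)⁻¹), n.IsMaximal →
      n ∉ nodeSet (ResidueField ↥A) M (x := (jk (ResidueField ↥A) M)⁻¹)
        (S : Set (Place (ResidueField ↥A) ↥(modularFunctionFieldFullC (ResidueField ↥A) M))) →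
      ∃ g : ↥(chart O (x1 I M q)⁻¹),
        ρ₁' hB L.J_eq_jk g ∈ n.comap (φinf A M q) ∧ ρ₂' hB L.J_eq_jk g ∉ n)
    (n' n : Ideal ↥(chart (ResidueField ↥A) (jk (ResidueField ↥A) M)⁻¹))
    (hn' : n'.IsMaximal) (hn : n.IsMaximal) :
    n'.comap (ρ₁' hB L.J_eq_jk) = n.comap (ρ₂' hB L.J_eq_jk) ↔
      n ∈ nodeSet (ResidueField ↥A) M (x := (jk (ResidueField ↥A) M)⁻¹)
        (S : Set (Place (ResidueField ↥A) ↥(modularFunctionFieldFullC (ResidueField ↥A) M))) ∧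
      n' = n.comap (φinf A M q) :=
  node_inf hB L.J_eq_jk (φinf A M q) (coe_φinf L) _ (hglue_inf hB L hS hbS) hsep n' n hn' hn

variable (hFr : ∀ b ∈ S, Fr (ResidueField ↥A) M q b ∈ S)
  (hFr2 : ∀ b ∈ S, Fr (ResidueField ↥A) M q (Fr (ResidueField ↥A) M q b) = b)

/-- **`BranchCoreT.PDatum` at `X₀`, finite charts.**  Remaining inputs: (SEP) (helper23's
`PairLiftChart.hsep_fin` with `hlift := hlift_fin hB L`), `ϖ`, `ker_inf`. -/
def pdatumFinX0
    (hsep : ∀ n : Ideal ↥(chart (ResidueField ↥A) (jk (ResidueField ↥A) M)), n.IsMaximal →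
      n ∉ nodeSet (ResidueField ↥A) M (x := jk (ResidueField ↥A) M)
        (S : Set (Place (ResidueField ↥A) ↥(modularFunctionFieldFullC (ResidueField ↥A) M))) →
      ∃ g : ↥(chart O (x1 I M q)),
        ρ₁ hB L.J_eq_jk g ∈ n.comap (φfin A M q) ∧ ρ₂ hB L.J_eq_jk g ∉ n)
    (ϖ : ↥(chart O (x2 I M q)))
    (hker : RingHom.ker (ρ₂₀ hB L.J_eq_jk) ⊓ RingHom.ker (ρ₁₁ hB L.J_eq_jk) ⊓
      RingHom.ker (ρ₀₂ hB L.J_eq_jk) = (Ideal.span {ϖ}).radical) :
    BranchCoreT.PDatum ↥(chart O (x1 I M q)) ↥(chart O (x2 I M q))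
      ↥(chart (ResidueField ↥A) (jk (ResidueField ↥A) M)) :=
  pdatumFin hB L.J_eq_jk (φfin A M q) (coe_φfin L)
    (phiB_pow (ResidueField ↥A) M q _ _ _)
    (nodeSet (ResidueField ↥A) M (x := jk (ResidueField ↥A) M)
      (S : Set (Place (ResidueField ↥A) ↥(modularFunctionFieldFullC (ResidueField ↥A) M))))
    (node_fin_X0 hB L hbS hsep)
    (nodeSet_fr (ResidueField ↥A) M q _ _ _ _ (fun v hv => Finset.mem_coe.mpr (hFr v hv)))
    (nodeSet_fr_fr (ResidueField ↥A) M q _ _ _ _ (fun v hv => hFr2 v hv)) ϖ hker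

/-- **`BranchCoreT.TDatum` at `X₀`, finite charts**: `pdatumFinX0` + the coincidence of the three
branches from helper21's norm formulas, given that the norm along `α` maps `chart O x₂` into
`chart O x₁` (`hnorm`). -/
def tdatumFinX0
    (hsep : ∀ n : Ideal ↥(chart (ResidueField ↥A) (jk (ResidueField ↥A) M)), n.IsMaximal →
      n ∉ nodeSet (ResidueField ↥A) M (x := jk (ResidueField ↥A) M)
        (S : Set (Place (ResidueField ↥A) ↥(modularFunctionFieldFullC (ResidueField ↥A) M))) →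
      ∃ g : ↥(chart O (x1 I M q)),
        ρ₁ hB L.J_eq_jk g ∈ n.comap (φfin A M q) ∧ ρ₂ hB L.J_eq_jk g ∉ n)
    (ϖ : ↥(chart O (x2 I M q)))
    (hker : RingHom.ker (ρ₂₀ hB L.J_eq_jk) ⊓ RingHom.ker (ρ₁₁ hB L.J_eq_jk) ⊓
      RingHom.ker (ρ₀₂ hB L.J_eq_jk) = (Ideal.span {ϖ}).radical)
    (hnorm : ∀ y ∈ chart O (x2 I M q),
      ThreeVal.normAlong (alphaK I (M * q) q) y ∈ chart O (x1 I M q)) :
    BranchCoreT.TDatum ↥(chart O (x1 I M q)) ↥(chart O (x2 I M q))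
      ↥(chart (ResidueField ↥A) (jk (ResidueField ↥A) M)) :=
  tdatumFin hB L.J_eq_jk (φfin A M q) (coe_φfin L)
    (phiB_pow (ResidueField ↥A) M q _ _ _)
    (nodeSet (ResidueField ↥A) M (x := jk (ResidueField ↥A) M)
      (S : Set (Place (ResidueField ↥A) ↥(modularFunctionFieldFullC (ResidueField ↥A) M))))
    (node_fin_X0 hB L hbS hsep)
    (nodeSet_fr (ResidueField ↥A) M q _ _ _ _ (fun v hv => Finset.mem_coe.mpr (hFr v hv)))
    (nodeSet_fr_fr (ResidueField ↥A) M q _ _ _ _ (fun v hv => hFr2 v hv)) ϖ hker hnorm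

/-- **`BranchCoreT.PDatum` at `X₀`, charts at infinity.** -/
def pdatumInfX0
    (hsep : ∀ n : Ideal ↥(chart (ResidueField ↥A) (jk (ResidueField ↥A) M)⁻¹), n.IsMaximal →
      n ∉ nodeSet (ResidueField ↥A) M (x := (jk (ResidueField ↥A) M)⁻¹)
        (S : Set (Place (ResidueField ↥A) ↥(modularFunctionFieldFullC (ResidueField ↥A) M))) →
      ∃ g : ↥(chart O (x1 I M q)⁻¹),
        ρ₁' hB L.J_eq_jk g ∈ n.comap (φinf A M q) ∧ ρ₂' hB L.J_eq_jk g ∉ n)
    (ϖ : ↥(chart O (x2 I M q)⁻¹))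
    (hker : RingHom.ker (ρ₂₀' hB L.J_eq_jk) ⊓ RingHom.ker (ρ₁₁' hB L.J_eq_jk) ⊓
      RingHom.ker (ρ₀₂' hB L.J_eq_jk) = (Ideal.span {ϖ}).radical) :
    BranchCoreT.PDatum ↥(chart O (x1 I M q)⁻¹) ↥(chart O (x2 I M q)⁻¹)
      ↥(chart (ResidueField ↥A) (jk (ResidueField ↥A) M)⁻¹) :=
  pdatumInf hB L.J_eq_jk (φinf A M q) (coe_φinf L)
    (phiB_pow (ResidueField ↥A) M q _ _ _)
    (nodeSet (ResidueField ↥A) M (x := (jk (ResidueField ↥A) M)⁻¹)
      (S : Set (Place (ResidueField ↥A) ↥(modularFunctionFieldFullC (ResidueField ↥A) M))))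
    (node_inf_X0 hB L hS hbS hsep)
    (nodeSet_fr (ResidueField ↥A) M q _ _ _ _ (fun v hv => Finset.mem_coe.mpr (hFr v hv)))
    (nodeSet_fr_fr (ResidueField ↥A) M q _ _ _ _ (fun v hv => hFr2 v hv)) ϖ hker

end Node

end Fermat.Agent.S36.BranchNodeX0
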