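import Mathlib
import Fermat.Agent.S36.CompNormalX0
import Fermat.Agent.S36.BranchCoreT
import Fermat.Agent.S36.ChartOverlap

/-!
# PROJECT V (S36), slice V-BranchX0, part 1: the `PDatum` of chain (V9) on the `X₀` charts

Hypotheses first, over `Y : ThreeValX0.Hyp H N0 q κ` and `hB : CompNormalX0.Base Y O π`.

* `normAlong_mem_chart` (abstract): the norm along `α : F₁ →+* F₂` maps `chart O (α φ)` into
  `chart O φ` (`Algebra.isIntegral_norm`).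
* `x1 = j · j(t^q)` the chart function of level `N0 q`; its values `red₁ x₁ = red₂ x₁ = J^(q+1)`.
* `ChartPair hB φ₁ φ₂ Jc` : a chart `chart O φ₁` of level `N0 q`, a chart `chart O φ₂` of level
  `N0 q q` and a chart `chart k Jc` of the component, compatible with `α β` and with the five
  reductions `red₁ red₂ r₂₀ r₁₁ r₀₂`, all five onto.  For a pair `P`: the bundled maps `P.red1 P.red2
  P.r20 P.r11 P.r02 P.αc P.βc`, `P.ker_inf` (from the ring form `hrad` of (V7)) and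
  **`P.pdatum : BranchCoreT.PDatum (chart O φ₁) (chart O φ₂) (chart k Jc)`** from the Frobenius
  stability of `chart k Jc`, the node description `node` (`NodeField.node_iff` from (GLUE)+(SEP)),
  `S_fr`, `fr_fr` (`SpecDictOne.nodeSet_fr`, `nodeSet_fr_fr`) and `hrad`.
* `finPair hB : ChartPair hB x₁ x₂ J` (the charts `{x ≠ ∞}`) and
  `infPair hB : ChartPair hB x₁⁻¹ x₂⁻¹ J⁻¹` (the charts `{x ≠ 0}`).

Part 2 (`S36/BranchX0T.lean`): the `TDatum` on both pairs from the norm formulas (NF).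
-/

set_option autoImplicit false
set_option linter.style.haveILetI false
set_option linter.unusedSectionVars false
set_option linter.unusedVariables false

noncomputable section

namespace Fermat.Agent.S36.BranchX0

open Polynomial Fermat.Agent.S36.ChartRing Fermat.Agent.S36.ThreeVal
open Fermat.Agent.S36.CompNormal Fermat.Agent.S36.PowerBasisK0 Fermat.Agent.S36.JIntegral
open Fermat.Agent.S36.CompNormalX0 Fermat.Agent.S36.BranchCoreT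

/-! ### the norm of a chart ring -/

section Norm

/-- integrality of the norm, ring-hom form -/
theorem isIntegral_norm_of_isIntegralElem {R K L : Type*} [CommRing R] [Field K] [Field L]
    [Algebra K L] [Algebra R K] {x : L}
    (hx : ((algebraMap K L).comp (algebraMap R K)).IsIntegralElem x) :
    IsIntegral R (Algebra.norm K x) := by
  letI : Algebra R L := ((algebraMap K L).comp (algebraMap R K)).toAlgebra
  haveI : IsScalarTower R K L := IsScalarTower.of_algebraMap_eq fun _ => rfl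
  exact Algebra.isIntegral_norm K hx

variable {O : Type*} [CommRing O] {F₁ F₂ : Type*} [Field F₁] [Field F₂] [Algebra O F₁]
  [Algebra O F₂]

/-- the norm along `α` maps `chart O (α φ)` into `chart O φ` -/
theorem normAlong_mem_chart (α : F₁ →+* F₂)
    (hα : ∀ c : O, α (algebraMap O F₁ c) = algebraMap O F₂ c) {φ : F₁} {a : F₂}
    (ha : a ∈ chart O (α φ)) : normAlong α a ∈ chart O φ := by
  classical
  -- the base ring `R = O[φ]` and its image `S' = O[α φ]`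
  let αO : F₁ →ₐ[O] F₂ := { α with commutes' := hα }
  have hmap : (Algebra.adjoin O ({φ} : Set F₁)).map αO = Algebra.adjoin O ({α φ} : Set F₂) :=
    AlgHom.map_adjoin_singleton αO φ
  have hmem : ∀ b : Algebra.adjoin O ({φ} : Set F₁),
      α (b : F₁) ∈ Algebra.adjoin O ({α φ} : Set F₂) := fun b => by
    rw [← hmap]
    exact ⟨(b : F₁), b.2, rfl⟩
  let θ : Algebra.adjoin O ({φ} : Set F₁) →+* Algebra.adjoin O ({α φ} : Set F₂) :=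
    { toFun := fun b => ⟨α (b : F₁), hmem b⟩
      map_one' := Subtype.ext (map_one α)
      map_mul' := fun x y => Subtype.ext (map_mul α _ _)
      map_zero' := Subtype.ext (map_zero α)
      map_add' := fun x y => Subtype.ext (map_add α _ _) }
  have hθ : Function.Surjective θ := by
    rintro ⟨y, hy⟩
    rw [← hmap] at hy
    obtain ⟨b, hb, rfl⟩ := hy
    exact ⟨⟨b, hb⟩, rfl⟩
  refine isIntegral_norm_of_isIntegralElem (K := F₁) (L := S35.NormRed.Via α) (x := a) ?_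
  obtain ⟨p, hp, hpa⟩ := ha
  obtain ⟨p', hp', -, hmonic⟩ := Polynomial.lifts_and_natDegree_eq_and_monic
    ((Polynomial.mem_lifts p).2 (Polynomial.map_surjective θ hθ p)) hp
  refine ⟨p', hmonic, ?_⟩
  have h2 : eval₂ ((algebraMap (Algebra.adjoin O ({α φ} : Set F₂)) F₂).comp θ) a p' = 0 := by
    rw [← Polynomial.eval₂_map, hp']
    exact hpa
  exact h2

end Norm

local notation "Kb" => AlgebraicClosure ℚ

variable {H : Subgroup (Kb ≃ₐ[ℚ] Kb)}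
variable {N0 q : ℕ} [NeZero N0] [NeZero q] [NeZero (N0 * q)] [NeZero (N0 * q * q)]
variable {κ : Type} [Field κ] {Y : ThreeValX0.Hyp H N0 q κ}
variable {O : Type*} [CommRing O] [Algebra O (FK H N0)] [Algebra O (FK H (N0 * q))]
  [Algebra O (FK H (N0 * q * q))]
variable {k : Type*} [Field k] [Algebra k κ] {π : O →+* k}

/-- the chart function of level `N0 q` -/
abbrev x1 (H : Subgroup (Kb ≃ₐ[ℚ] Kb)) (N0 q : ℕ) [NeZero N0] [NeZero q] [NeZero (N0 * q)] :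
    FK H (N0 * q) := ∏ i, jK H N0 q i

/-! ### level `N0 q`: constants -/

section LevelOne

variable (hB : Base Y O π)
include hB

theorem algebraMap_mem_V₁ (c : O) : algebraMap O (FK H (N0 * q)) c ∈ Y.V₁ := by
  rw [← hB.hα₀ c]
  exact α₀_mem_V₁ Y (hB.hO₀ c)

theorem algebraMap_mem_V₂ (c : O) : algebraMap O (FK H (N0 * q)) c ∈ Y.V₂ := by
  rw [← hB.hβ₀ c]
  exact β₀_mem_V₂ Y (hB.hO₀ c)

theorem red₁_algebraMap (c : O) :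
    Y.red₁ ⟨algebraMap O (FK H (N0 * q)) c, algebraMap_mem_V₁ hB c⟩ = algebraMap k κ (π c) := by
  have e : (⟨algebraMap O (FK H (N0 * q)) c, algebraMap_mem_V₁ hB c⟩ : ↥Y.V₁)
      = ⟨alphaK H N0 q ((⟨algebraMap O (FK H N0) c, hB.hO₀ c⟩ : ↥Y.O₀) : FK H N0),
        α₀_mem_V₁ Y (hB.hO₀ c)⟩ := Subtype.ext (hB.hα₀ c).symm
  rw [e, Y.red₁_α₀, hB.hr₀]

theorem red₂_algebraMap (c : O) :
    Y.red₂ ⟨algebraMap O (FK H (N0 * q)) c, algebraMap_mem_V₂ hB c⟩ = algebraMap k κ (π c) := by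
  have e : (⟨algebraMap O (FK H (N0 * q)) c, algebraMap_mem_V₂ hB c⟩ : ↥Y.V₂)
      = ⟨betaK H N0 q ((⟨algebraMap O (FK H N0) c, hB.hO₀ c⟩ : ↥Y.O₀) : FK H N0),
        β₀_mem_V₂ Y (hB.hO₀ c)⟩ := Subtype.ext (hB.hβ₀ c).symm
  rw [e, Y.red₂_β₀, hB.hr₀]

end LevelOne


/-! ### a pair of charts (level `N0 q`, level `N0 q q`) over one chart of the component -/

/-- a chart `chart O φ₁` of level `N0 q`, a chart `chart O φ₂` of level `N0 q q` and a chart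
`chart k Jc` of the component, compatible with the level maps and the five reductions, the five
reductions being onto -/
structure ChartPair (hB : Base Y O π) (φ₁ : FK H (N0 * q)) (φ₂ : FK H (N0 * q * q)) (Jc : κ) :
    Prop where
  hα : ∀ y ∈ chart O φ₁, alphaK H (N0 * q) q y ∈ chart O φ₂
  hβ : ∀ y ∈ chart O φ₁, betaK H (N0 * q) q y ∈ chart O φ₂
  h₁ : φ₁ ∈ Y.V₁
  h₂ : φ₁ ∈ Y.V₂
  hJ₁ : Y.red₁ ⟨φ₁, h₁⟩ ∈ chart k Jc
  hJ₂ : Y.red₂ ⟨φ₁, h₂⟩ ∈ chart k Jc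
  h₂₀ : φ₂ ∈ Y.W₂₀
  h₁₁ : φ₂ ∈ Y.W₁₁
  h₀₂ : φ₂ ∈ Y.W₀₂
  hJ₂₀ : Y.r₂₀ ⟨φ₂, h₂₀⟩ ∈ chart k Jc
  hJ₁₁ : Y.r₁₁ ⟨φ₂, h₁₁⟩ ∈ chart k Jc
  hJ₀₂ : Y.r₀₂ ⟨φ₂, h₀₂⟩ ∈ chart k Jc
  lift₁ : ∀ b ∈ (chart k Jc : Set κ), ∃ x : FK H (N0 * q),
    x ∈ chart O φ₁ ∧ ∃ hx : x ∈ Y.V₁, Y.red₁ ⟨x, hx⟩ = b
  lift₂ : ∀ b ∈ (chart k Jc : Set κ), ∃ x : FK H (N0 * q),
    x ∈ chart O φ₁ ∧ ∃ hx : x ∈ Y.V₂, Y.red₂ ⟨x, hx⟩ = b
  lift₂₀ : ∀ b ∈ (chart k Jc : Set κ), ∃ x : FK H (N0 * q * q),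
    x ∈ chart O φ₂ ∧ ∃ hx : x ∈ Y.W₂₀, Y.r₂₀ ⟨x, hx⟩ = b
  lift₁₁ : ∀ b ∈ (chart k Jc : Set κ), ∃ x : FK H (N0 * q * q),
    x ∈ chart O φ₂ ∧ ∃ hx : x ∈ Y.W₁₁, Y.r₁₁ ⟨x, hx⟩ = b
  lift₀₂ : ∀ b ∈ (chart k Jc : Set κ), ∃ x : FK H (N0 * q * q),
    x ∈ chart O φ₂ ∧ ∃ hx : x ∈ Y.W₀₂, Y.r₀₂ ⟨x, hx⟩ = b

namespace ChartPair

variable {hB : Base Y O π} {φ₁ : FK H (N0 * q)} {φ₂ : FK H (N0 * q * q)} {Jc : κ}
  (P : ChartPair hB φ₁ φ₂ Jc)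

/-- the reduction of the level-`N0 q` chart along `V₁` -/
def red1 : ↥(chart O φ₁) →+* ↥(chart k Jc) :=
  rho π Y.V₁ Y.red₁ (algebraMap_mem_V₁ hB) (red₁_algebraMap hB) P.h₁ P.hJ₁

/-- the reduction of the level-`N0 q` chart along `V₂` -/
def red2 : ↥(chart O φ₁) →+* ↥(chart k Jc) :=
  rho π Y.V₂ Y.red₂ (algebraMap_mem_V₂ hB) (red₂_algebraMap hB) P.h₂ P.hJ₂

/-- the reduction of the level-`N0 q q` chart along `W₂₀` -/
def r20 : ↥(chart O φ₂) →+* ↥(chart k Jc) :=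
  rho π Y.W₂₀ Y.r₂₀ (branch₂₀ hB).algebraMap_mem (branch₂₀ hB).r_algebraMap P.h₂₀ P.hJ₂₀

/-- the reduction of the level-`N0 q q` chart along `W₁₁` -/
def r11 : ↥(chart O φ₂) →+* ↥(chart k Jc) :=
  rho π Y.W₁₁ Y.r₁₁ (branch₁₁ hB).algebraMap_mem (branch₁₁ hB).r_algebraMap P.h₁₁ P.hJ₁₁

/-- the reduction of the level-`N0 q q` chart along `W₀₂` -/
def r02 : ↥(chart O φ₂) →+* ↥(chart k Jc) :=
  rho π Y.W₀₂ Y.r₀₂ (branch₀₂ hB).algebraMap_mem (branch₀₂ hB).r_algebraMap P.h₀₂ P.hJ₀₂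

include P in
theorem mem_V₁ (g : ↥(chart O φ₁)) : (g : FK H (N0 * q)) ∈ Y.V₁ :=
  mem_of_mem_chart' Y.V₁ (algebraMap_mem_V₁ hB) P.h₁ g.2

include P in
theorem mem_V₂ (g : ↥(chart O φ₁)) : (g : FK H (N0 * q)) ∈ Y.V₂ :=
  mem_of_mem_chart' Y.V₂ (algebraMap_mem_V₂ hB) P.h₂ g.2

include P in
theorem mem_W₂₀ (a : ↥(chart O φ₂)) : (a : FK H (N0 * q * q)) ∈ Y.W₂₀ :=
  mem_of_mem_chart' Y.W₂₀ (branch₂₀ hB).algebraMap_mem P.h₂₀ a.2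

include P in
theorem mem_W₁₁ (a : ↥(chart O φ₂)) : (a : FK H (N0 * q * q)) ∈ Y.W₁₁ :=
  mem_of_mem_chart' Y.W₁₁ (branch₁₁ hB).algebraMap_mem P.h₁₁ a.2

include P in
theorem mem_W₀₂ (a : ↥(chart O φ₂)) : (a : FK H (N0 * q * q)) ∈ Y.W₀₂ :=
  mem_of_mem_chart' Y.W₀₂ (branch₀₂ hB).algebraMap_mem P.h₀₂ a.2

theorem coe_red1 (g : ↥(chart O φ₁)) : ((P.red1 g : ↥(chart k Jc)) : κ) = Y.red₁ ⟨g, P.mem_V₁ g⟩ :=
  rfl

theorem coe_red2 (g : ↥(chart O φ₁)) : ((P.red2 g : ↥(chart k Jc)) : κ) = Y.red₂ ⟨g, P.mem_V₂ g⟩ :=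
  rfl

theorem coe_r20 (a : ↥(chart O φ₂)) : ((P.r20 a : ↥(chart k Jc)) : κ) = Y.r₂₀ ⟨a, P.mem_W₂₀ a⟩ :=
  rfl

theorem coe_r11 (a : ↥(chart O φ₂)) : ((P.r11 a : ↥(chart k Jc)) : κ) = Y.r₁₁ ⟨a, P.mem_W₁₁ a⟩ :=
  rfl

theorem coe_r02 (a : ↥(chart O φ₂)) : ((P.r02 a : ↥(chart k Jc)) : κ) = Y.r₀₂ ⟨a, P.mem_W₀₂ a⟩ :=
  rfl

theorem red1_surjective : Function.Surjective P.red1 :=
  rho_surjective π Y.V₁ Y.red₁ _ _ _ _ P.lift₁

theorem red2_surjective : Function.Surjective P.red2 :=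
  rho_surjective π Y.V₂ Y.red₂ _ _ _ _ P.lift₂

theorem r20_surjective : Function.Surjective P.r20 :=
  rho_surjective π Y.W₂₀ Y.r₂₀ _ _ _ _ P.lift₂₀

theorem r11_surjective : Function.Surjective P.r11 :=
  rho_surjective π Y.W₁₁ Y.r₁₁ _ _ _ _ P.lift₁₁

theorem r02_surjective : Function.Surjective P.r02 :=
  rho_surjective π Y.W₀₂ Y.r₀₂ _ _ _ _ P.lift₀₂

/-- `α` on the charts -/
def αc : ↥(chart O φ₁) →+* ↥(chart O φ₂) :=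
  (alphaK H (N0 * q) q).restrict (chart O φ₁) (chart O φ₂) P.hα

/-- `β` on the charts -/
def βc : ↥(chart O φ₁) →+* ↥(chart O φ₂) :=
  (betaK H (N0 * q) q).restrict (chart O φ₁) (chart O φ₂) P.hβ

theorem coe_αc (g : ↥(chart O φ₁)) :
    ((P.αc g : ↥(chart O φ₂)) : FK H (N0 * q * q)) = alphaK H (N0 * q) q (g : FK H (N0 * q)) :=
  rfl

theorem coe_βc (g : ↥(chart O φ₁)) :
    ((P.βc g : ↥(chart O φ₂)) : FK H (N0 * q * q)) = betaK H (N0 * q) q (g : FK H (N0 * q)) :=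
  rfl


/-- Frobenius on the chart of the component -/
def φB (hφB : ∀ z ∈ chart k Jc, Y.φ z ∈ chart k Jc) : ↥(chart k Jc) →+* ↥(chart k Jc) :=
  Y.φ.restrict (chart k Jc) (chart k Jc) hφB

theorem coe_φB (hφB : ∀ z ∈ chart k Jc, Y.φ z ∈ chart k Jc) (z : ↥(chart k Jc)) :
    ((φB hφB z : ↥(chart k Jc)) : κ) = Y.φ (z : κ) := rfl

include P in
/-- `q = 0` on the component -/
theorem natCast_q_eq_zero : ((q : ℕ) : ↥(chart k Jc)) = 0 := by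
  haveI := Y.charκ
  apply Subtype.ext
  have h1 : (((q : ℕ) : ↥(chart k Jc)) : κ) = ((q : ℕ) : κ) := by
    simp
  rw [h1, CharP.cast_eq_zero]
  rfl

/-- **(ker_inf)** from the ring form of (V7): the three vertical valuations cut out the reduced
special fibre of the chart -/
theorem ker_inf
    (hrad : ∀ a ∈ chart O φ₂, a ∈ Y.W₂₀.nonunits → a ∈ Y.W₁₁.nonunits → a ∈ Y.W₀₂.nonunits →
      ∃ N : ℕ, ∃ y ∈ chart O φ₂, a ^ N = (q : FK H (N0 * q * q)) * y) :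
    RingHom.ker P.r20 ⊓ RingHom.ker P.r11 ⊓ RingHom.ker P.r02
      = (Ideal.span {((q : ℕ) : ↥(chart O φ₂))}).radical := by
  apply le_antisymm
  · rintro a ⟨⟨h20, h11⟩, h02⟩
    have e20 := (rho_eq_zero_iff π Y.W₂₀ Y.r₂₀ (branch₂₀ hB).algebraMap_mem
      (branch₂₀ hB).r_algebraMap P.h₂₀ P.hJ₂₀ Y.r₂₀_eq_zero_iff a).mp h20
    have e11 := (rho_eq_zero_iff π Y.W₁₁ Y.r₁₁ (branch₁₁ hB).algebraMap_mem
      (branch₁₁ hB).r_algebraMap P.h₁₁ P.hJ₁₁ Y.r₁₁_eq_zero_iff a).mp h11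
    have e02 := (rho_eq_zero_iff π Y.W₀₂ Y.r₀₂ (branch₀₂ hB).algebraMap_mem
      (branch₀₂ hB).r_algebraMap P.h₀₂ P.hJ₀₂ Y.r₀₂_eq_zero_iff a).mp h02
    obtain ⟨N, y, hy, hN⟩ := hrad (a : FK H (N0 * q * q)) a.2 e20 e11 e02
    refine ⟨N, Ideal.mem_span_singleton'.mpr ⟨⟨y, hy⟩, ?_⟩⟩
    apply Subtype.ext
    have h1 : (((⟨y, hy⟩ : ↥(chart O φ₂)) * ((q : ℕ) : ↥(chart O φ₂)) : ↥(chart O φ₂)) :
        FK H (N0 * q * q)) = y * (q : FK H (N0 * q * q)) := by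
      simp
    rw [h1]
    exact (mul_comm y _).trans hN.symm
  · intro a ha
    obtain ⟨N, hN⟩ := ha
    obtain ⟨y, hy⟩ := Ideal.mem_span_singleton'.mp hN
    have key : ∀ r : ↥(chart O φ₂) →+* ↥(chart k Jc), r a = 0 := by
      intro r
      have h1 : r a ^ N = 0 := by
        rw [← map_pow, ← hy, map_mul, map_natCast, P.natCast_q_eq_zero, mul_zero]
      exact pow_eq_zero_iff (fun h0 => by
        subst h0
        rw [pow_zero] at h1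
        exact one_ne_zero h1) |>.mp h1
    exact ⟨⟨key _, key _⟩, key _⟩

/-- **the `PDatum` of chain (V9) on a pair of charts** -/
def pdatum (hφB : ∀ z ∈ chart k Jc, Y.φ z ∈ chart k Jc)
    (hφpow : ∀ z ∈ chart k Jc, ∃ c ∈ chart k Jc, Y.φ c = z ^ q)
    (S : Set (Ideal ↥(chart k Jc)))
    (node : ∀ n' n : Ideal ↥(chart k Jc), n'.IsMaximal → n.IsMaximal →
      (n'.comap P.red1 = n.comap P.red2 ↔ n ∈ S ∧ n' = n.comap (φB hφB)))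
    (S_fr : ∀ n ∈ S, n.comap (φB hφB) ∈ S)
    (fr_fr : ∀ n ∈ S, (n.comap (φB hφB)).comap (φB hφB) = n)
    (hrad : ∀ a ∈ chart O φ₂, a ∈ Y.W₂₀.nonunits → a ∈ Y.W₁₁.nonunits → a ∈ Y.W₀₂.nonunits →
      ∃ N : ℕ, ∃ y ∈ chart O φ₂, a ^ N = (q : FK H (N0 * q * q)) * y) :
    PDatum ↥(chart O φ₁) ↥(chart O φ₂) ↥(chart k Jc) where
  α := P.αc
  β := P.βc
  red1 := P.red1
  red2 := P.red2
  r20 := P.r20
  r11 := P.r11
  r02 := P.r02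
  φ := φB hφB
  q := q
  ϖ := ((q : ℕ) : ↥(chart O φ₂))
  S := S
  red1_surj := P.red1_surjective
  red2_surj := P.red2_surjective
  r20_surj := P.r20_surjective
  r11_surj := P.r11_surjective
  r02_surj := P.r02_surjective
  q_pos := Y.prime.pos
  φ_pow := fun z => by
    obtain ⟨c, hc, h⟩ := hφpow z z.2
    exact ⟨⟨c, hc⟩, Subtype.ext h⟩
  r20_α := fun g => Subtype.ext (Y.r₂₀_α ⟨g, P.mem_V₁ g⟩ (P.mem_W₂₀ (P.αc g)))
  r11_α := fun g => Subtype.ext (Y.r₁₁_α ⟨g, P.mem_V₁ g⟩ (P.mem_W₁₁ (P.αc g)))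
  r02_α := fun g => Subtype.ext (Y.r₀₂_α ⟨g, P.mem_V₂ g⟩ (P.mem_W₀₂ (P.αc g)))
  r20_β := fun g => Subtype.ext (Y.r₂₀_β ⟨g, P.mem_V₁ g⟩ (P.mem_W₂₀ (P.βc g)))
  r11_β := fun g => Subtype.ext (Y.r₁₁_β ⟨g, P.mem_V₂ g⟩ (P.mem_W₁₁ (P.βc g)))
  r02_β := fun g => Subtype.ext (Y.r₀₂_β ⟨g, P.mem_V₂ g⟩ (P.mem_W₀₂ (P.βc g)))
  node := node
  S_fr := S_fr
  fr_fr := fr_fr
  ker_inf := P.ker_inf hrad

end ChartPair


/-! ### units of a valuation ring and their reductions -/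

section Units

variable {K : Type*} [Field K] (V : ValuationSubring K) (r : ↥V →+* κ)

theorem inv_mem_of_red_ne_zero (hker : ∀ z : ↥V, r z = 0 ↔ (z : K) ∈ V.nonunits) {x : K}
    (hx : x ∈ V) (h : r ⟨x, hx⟩ ≠ 0) : x⁻¹ ∈ V := by
  have h1 : x ∉ V.nonunits := fun h1 => h ((hker ⟨x, hx⟩).mpr h1)
  have h2 : V.valuation x = 1 := by
    rcases lt_or_eq_of_le ((V.valuation_le_one_iff _).mpr hx) with h3 | h3
    · exact absurd (V.mem_nonunits_iff.mpr h3) h1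
    · exact h3
  rw [← V.valuation_le_one_iff, map_inv₀, h2, inv_one]

theorem red_inv {x : K} (hx : x ∈ V) (hxi : x⁻¹ ∈ V) (hx0 : x ≠ 0) :
    r ⟨x⁻¹, hxi⟩ = (r ⟨x, hx⟩)⁻¹ := by
  apply eq_inv_of_mul_eq_one_left
  rw [← map_mul]
  have : (⟨x⁻¹, hxi⟩ : ↥V) * ⟨x, hx⟩ = 1 := Subtype.ext (inv_mul_cancel₀ hx0)
  rw [this, map_one]

end Units

/-! ### the chart functions of level `N0 q` -/

section XOne

variable (Y)

theorem x1_eq : x1 H N0 q = j0K H (N0 * q) * j1K H N0 q := prod_jK H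

theorem x1_mem_V₁ : x1 H N0 q ∈ Y.V₁ := by
  rw [x1_eq]
  exact Y.V₁.mul_mem _ _ Y.x_mem_V₁ Y.y_mem_V₁

theorem x1_mem_V₂ : x1 H N0 q ∈ Y.V₂ := by
  rw [x1_eq]
  exact Y.V₂.mul_mem _ _ Y.x_mem_V₂ Y.y_mem_V₂

theorem red₁_x1 : Y.red₁ ⟨x1 H N0 q, x1_mem_V₁ Y⟩ = Y.J ^ (q + 1) := by
  have e : (⟨x1 H N0 q, x1_mem_V₁ Y⟩ : ↥Y.V₁) = Y.x₁ * Y.y₁ := Subtype.ext (x1_eq (H := H))
  rw [e, map_mul, Y.red₁_x, Y.red₁_y, pow_succ']

theorem red₂_x1 : Y.red₂ ⟨x1 H N0 q, x1_mem_V₂ Y⟩ = Y.J ^ (q + 1) := by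
  have e : (⟨x1 H N0 q, x1_mem_V₂ Y⟩ : ↥Y.V₂) = Y.x₂ * Y.y₂ := Subtype.ext (x1_eq (H := H))
  rw [e, map_mul, Y.red₂_x, Y.red₂_y, pow_succ]

theorem red₁_eq_zero_iff (z : ↥Y.V₁) : Y.red₁ z = 0 ↔ (z : FK H (N0 * q)) ∈ Y.V₁.nonunits :=
  eq_zero_iff_of_surjective _ _ Y.inputs.surj₁ z

theorem red₂_eq_zero_iff (z : ↥Y.V₂) : Y.red₂ z = 0 ↔ (z : FK H (N0 * q)) ∈ Y.V₂.nonunits :=
  eq_zero_iff_of_surjective _ _ Y.inputs.surj₂ z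

theorem x1_inv_mem_V₁ : (x1 H N0 q)⁻¹ ∈ Y.V₁ :=
  inv_mem_of_red_ne_zero Y.V₁ Y.red₁ (red₁_eq_zero_iff Y) (x1_mem_V₁ Y) (by
    rw [red₁_x1]
    exact pow_ne_zero _ (J_ne_zero Y))

theorem x1_inv_mem_V₂ : (x1 H N0 q)⁻¹ ∈ Y.V₂ :=
  inv_mem_of_red_ne_zero Y.V₂ Y.red₂ (red₂_eq_zero_iff Y) (x1_mem_V₂ Y) (by
    rw [red₂_x1]
    exact pow_ne_zero _ (J_ne_zero Y))

include Y in
theorem jK_ne_zero (i : Fin 2) : jK H N0 q i ≠ 0 := by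
  have h0 := j0K_ne_zero Y
  fin_cases i
  · show j0K H (N0 * q) ≠ 0
    rw [← ThreeValX0.alphaK_j0K]
    exact (_root_.map_ne_zero _).mpr h0
  · show betaK H N0 q (j0K H N0) ≠ 0
    exact (_root_.map_ne_zero _).mpr h0

include Y in
theorem x1_ne_zero : x1 H N0 q ≠ 0 :=
  Finset.prod_ne_zero_iff.mpr fun i _ => jK_ne_zero Y i

theorem red₁_x1_inv : Y.red₁ ⟨(x1 H N0 q)⁻¹, x1_inv_mem_V₁ Y⟩ = (Y.J⁻¹) ^ (q + 1) := by
  rw [red_inv Y.V₁ Y.red₁ (x1_mem_V₁ Y) (x1_inv_mem_V₁ Y) (x1_ne_zero Y), red₁_x1, inv_pow]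

theorem red₂_x1_inv : Y.red₂ ⟨(x1 H N0 q)⁻¹, x1_inv_mem_V₂ Y⟩ = (Y.J⁻¹) ^ (q + 1) := by
  rw [red_inv Y.V₂ Y.red₂ (x1_mem_V₂ Y) (x1_inv_mem_V₂ Y) (x1_ne_zero Y), red₂_x1, inv_pow]

theorem alphaK_x1 :
    alphaK H (N0 * q) q (x1 H N0 q) = ∏ i ∈ ({0, 1} : Finset (Fin 3)), jL H N0 q i := by
  rw [x1, map_prod, Fin.prod_univ_two, alphaK_jK, alphaK_jK, Finset.prod_pair (by decide)]
  rfl

theorem betaK_x1 :
    betaK H (N0 * q) q (x1 H N0 q) = ∏ i ∈ ({1, 2} : Finset (Fin 3)), jL H N0 q i := by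
  rw [x1, map_prod, Fin.prod_univ_two, betaK_jK, betaK_jK, Finset.prod_pair (by decide)]
  rfl

end XOne

/-! ### the two pairs of charts -/

section Pairs

variable (hB : Base Y O π)

/-- **the finite charts** `{x₁ ≠ ∞}`, `{x₂ ≠ ∞}`, `{J ≠ ∞}` -/
theorem finPair : ChartPair hB (x1 H N0 q) (x2 H N0 q) Y.J where
  hα := fun y hy => SymChart.map_mem_chart_prod (jL_isIntegral H Y.prime O) _ hB.hα _
    (alphaK_x1 (H := H)) hy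
  hβ := fun y hy => SymChart.map_mem_chart_prod (jL_isIntegral H Y.prime O) _ hB.hβ _
    (betaK_x1 (H := H)) hy
  h₁ := x1_mem_V₁ Y
  h₂ := x1_mem_V₂ Y
  hJ₁ := by
    rw [red₁_x1]
    exact Subalgebra.pow_mem _ (self_mem_chart Y.J) _
  hJ₂ := by
    rw [red₂_x1]
    exact Subalgebra.pow_mem _ (self_mem_chart Y.J) _
  h₂₀ := (branch₂₀ hB).x2_mem
  h₁₁ := (branch₁₁ hB).x2_mem
  h₀₂ := (branch₀₂ hB).x2_mem
  hJ₂₀ := (branch₂₀ hB).r_x2_mem_chart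
  hJ₁₁ := (branch₁₁ hB).r_x2_mem_chart
  hJ₀₂ := (branch₀₂ hB).r_x2_mem_chart
  lift₁ := by
    refine exists_mem_chart_red_eq (alphaK H N0 q) hB.hα₀ Y.O₀ Y.red₀ Y.V₁ Y.red₁
      (fun g hg => α₀_mem_V₁ Y hg) (fun g hg => Y.red₁_α₀ ⟨g, hg⟩ _) ?_ _ hB.hlift
    rw [ThreeValX0.alphaK_j0K]
    exact SymChart.mem_chart_prod (jK_isIntegral H Y.prime O) 0
  lift₂ := by
    refine exists_mem_chart_red_eq (betaK H N0 q) hB.hβ₀ Y.O₀ Y.red₀ Y.V₂ Y.red₂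
      (fun g hg => β₀_mem_V₂ Y hg) (fun g hg => Y.red₂_β₀ ⟨g, hg⟩ _) ?_ _ hB.hlift
    exact SymChart.mem_chart_prod (jK_isIntegral H Y.prime O) 1
  lift₂₀ := (branch₂₀ hB).hlift
  lift₁₁ := (branch₁₁ hB).hlift
  lift₀₂ := (branch₀₂ hB).hlift

/-- **the charts at infinity** `{x₁ ≠ 0}`, `{x₂ ≠ 0}`, `{J ≠ 0}` -/
theorem infPair : ChartPair hB (x1 H N0 q)⁻¹ (x2 H N0 q)⁻¹ Y.J⁻¹ where
  hα := fun y hy => SymChart.map_mem_chart_inv_prod (jL_isIntegral H Y.prime O) (jL_ne_zero Y)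
    _ hB.hα _ (alphaK_x1 (H := H)) hy
  hβ := fun y hy => SymChart.map_mem_chart_inv_prod (jL_isIntegral H Y.prime O) (jL_ne_zero Y)
    _ hB.hβ _ (betaK_x1 (H := H)) hy
  h₁ := x1_inv_mem_V₁ Y
  h₂ := x1_inv_mem_V₂ Y
  hJ₁ := by
    rw [red₁_x1_inv]
    exact Subalgebra.pow_mem _ (self_mem_chart Y.J⁻¹) _
  hJ₂ := by
    rw [red₂_x1_inv]
    exact Subalgebra.pow_mem _ (self_mem_chart Y.J⁻¹) _
  h₂₀ := (branch₂₀ hB).x2_inv_mem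
  h₁₁ := (branch₁₁ hB).x2_inv_mem
  h₀₂ := (branch₀₂ hB).x2_inv_mem
  hJ₂₀ := (branch₂₀ hB).r_x2_inv_mem_chart
  hJ₁₁ := (branch₁₁ hB).r_x2_inv_mem_chart
  hJ₀₂ := (branch₀₂ hB).r_x2_inv_mem_chart
  lift₁ := by
    refine exists_mem_chart_red_eq (alphaK H N0 q) hB.hα₀ Y.O₀ Y.red₀ Y.V₁ Y.red₁
      (fun g hg => α₀_mem_V₁ Y hg) (fun g hg => Y.red₁_α₀ ⟨g, hg⟩ _) ?_ _ hB.hlift'
    rw [map_inv₀, ThreeValX0.alphaK_j0K]
    exact SymChart.inv_mem_chart_inv_prod (jK_isIntegral H Y.prime O) (jK_ne_zero Y) 0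
  lift₂ := by
    refine exists_mem_chart_red_eq (betaK H N0 q) hB.hβ₀ Y.O₀ Y.red₀ Y.V₂ Y.red₂
      (fun g hg => β₀_mem_V₂ Y hg) (fun g hg => Y.red₂_β₀ ⟨g, hg⟩ _) ?_ _ hB.hlift'
    rw [map_inv₀]
    exact SymChart.inv_mem_chart_inv_prod (jK_isIntegral H Y.prime O) (jK_ne_zero Y) 1
  lift₂₀ := (branch₂₀ hB).hlift_inv
  lift₁₁ := (branch₁₁ hB).hlift_inv
  lift₀₂ := (branch₀₂ hB).hlift_inv

end Pairs

end Fermat.Agent.S36.BranchX0
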