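import Mathlib
import Fermat.Agent.S36.BranchX0

/-!
# PROJECT V (S36), slice V-BranchX0, part 2: the `TDatum` of chain (V9) on BOTH `X₀` charts

Hypotheses first, over `Y : ThreeValX0.Hyp H N0 q κ` and `hB : CompNormalX0.Base Y O π`
(part 1 = `S36/BranchX0.lean`: `ChartPair`, `finPair`, `infPair`, `ChartPair.pdatum`).

* `normAlong_mem_chart_x1` : `N_α (chart O x₂) ⊆ chart O x₁` (`chart O x₂ = chart O (α j₀)` by
  `SymChart.mem_chart_prod_iff`, then `normAlong_mem_chart`).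
* `finPair_norm` : for `a ∈ chart O x₂`, `g = N_α a` has `red1 g = r20 a * r11 a ^ (q - 1)` and
  `φ (red2 g) = r02 a ^ q` (the formulas (NF) `ThreeValX0.Hyp.norm₁_V₁`, `norm₁_V₂`).
* **`finTDatum hB hφB hφpow S node S_fr fr_fr hrad :
  BranchCoreT.TDatum (chart O x₁) (chart O x₂) (chart k J)`**.
* `infPair_norm` : for `a ∈ chart O x₂⁻¹`, `g = x₁^(-L) · N_α (x₂^M a)` (`M`, `L` from
  `ChartOverlap.mem_overlap_iff`, `mem_overlap_iff_inv`) has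
  `red1 g = J⁻¹ ^ d * (r20 a * r11 a ^ (q - 1))`, `φ (red2 g) = J⁻¹ ^ d' * r02 a ^ q`.
* **`infTDatum hB hφB hφpow S hSJ node S_fr fr_fr hrad :
  BranchCoreT.TDatum (chart O x₁⁻¹) (chart O x₂⁻¹) (chart k J⁻¹)`**, with `hSJ : J⁻¹ ∉ n` for
  `n ∈ S` (the nodes are not cusps).  `Ainf₂` is not integral over `α Ainf₁`: this is why chain (V9)
  uses `TDatum` and not `BranchCore.Datum`.

The remaining hypotheses are those of `ChartPair.pdatum`: Frobenius stability of the chart of the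
component (`SpecDictOne.phi_mem_chart_iff`, `phiB_pow`), the node description (`NodeField.node_iff`
from (GLUE) + (SEP)), `S_fr`, `fr_fr` (`SpecDictOne.nodeSet_fr`, `nodeSet_fr_fr`) and the ring form
`hrad` of (V7).  Both data are accepted by `BranchPt.pt_of_tdatum` with
`𝒜 := (chart O x₂^{±1}).toSubring`, `ℬ := (chart k J^{±1}).toSubring` (definitional unfolding).
-/

set_option autoImplicit false
set_option linter.style.haveILetI false
set_option linter.unusedSectionVars false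
set_option linter.unusedVariables false

noncomputable section

namespace Fermat.Agent.S36.BranchX0

open Polynomial Fermat.Agent.S36.ChartRing Fermat.Agent.S36.ThreeVal
open Fermat.Agent.S36.CompNormal Fermat.Agent.S36.PowerBasisK0 Fermat.Agent.S36.JIntegral
open Fermat.Agent.S36.CompNormalX0 Fermat.Agent.S36.BranchCoreT

local notation "Kb" => AlgebraicClosure ℚ

variable {H : Subgroup (Kb ≃ₐ[ℚ] Kb)}
variable {N0 q : ℕ} [NeZero N0] [NeZero q] [NeZero (N0 * q)] [NeZero (N0 * q * q)]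
variable {κ : Type} [Field κ] {Y : ThreeValX0.Hyp H N0 q κ}
variable {O : Type*} [CommRing O] [Algebra O (FK H N0)] [Algebra O (FK H (N0 * q))]
  [Algebra O (FK H (N0 * q * q))]
variable {k : Type*} [Field k] [Algebra k κ] {π : O →+* k}

section Fin

variable (hB : Base Y O π)

include hB in
/-- **the norm along `α` maps the finite chart of level `N0 q q` into the finite chart of level
`N0 q`** -/
theorem normAlong_mem_chart_x1 {a : FK H (N0 * q * q)} (ha : a ∈ chart O (x2 H N0 q)) :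
    normAlong (alphaK H (N0 * q) q) a ∈ chart O (x1 H N0 q) := by
  have h1 : a ∈ chart O (jL H N0 q 0) :=
    (SymChart.mem_chart_prod_iff (jL_isIntegral H Y.prime O) 0 a).1 ha
  have h2 : jL H N0 q 0 = alphaK H (N0 * q) q (jK H N0 q 0) := (alphaK_jK H 0).symm
  rw [h2] at h1
  exact (SymChart.mem_chart_prod_iff (jK_isIntegral H Y.prime O) 0 _).2
    (normAlong_mem_chart (alphaK H (N0 * q) q) hB.hα h1)

/-- **the norm formula on the finite charts** (hypothesis of `PDatum.toTDatum_of_norm`, uniformly in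
the point) -/
theorem finPair_norm (a : ↥(chart O (x2 H N0 q))) :
    ∃ g : ↥(chart O (x1 H N0 q)),
      (finPair hB).red1 g = (finPair hB).r20 a * (finPair hB).r11 a ^ (q - 1) ∧
      Y.φ (((finPair hB).red2 g : ↥(chart k Y.J)) : κ)
        = (((finPair hB).r02 a : ↥(chart k Y.J)) : κ) ^ q := by
  have h20 := (finPair hB).mem_W₂₀ a
  have h11 := (finPair hB).mem_W₁₁ a
  have h02 := (finPair hB).mem_W₀₂ a
  refine ⟨⟨normAlong (alphaK H (N0 * q) q) (a : FK H (N0 * q * q)),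
    normAlong_mem_chart_x1 hB a.2⟩, ?_, ?_⟩
  · obtain ⟨m, hm⟩ := Y.norm₁_V₁ (a : FK H (N0 * q * q)) h20 h11 h02
    apply Subtype.ext
    exact hm
  · obtain ⟨m, hm⟩ := Y.norm₁_V₂ (a : FK H (N0 * q * q)) h20 h11 h02
    exact hm


/-- **the `TDatum` of chain (V9) on the finite charts** `{x₁ ≠ ∞}`, `{x₂ ≠ ∞}`, `{J ≠ ∞}`: the three
branches at a point of `S` pass through one point, by the norm formulas (NF) (no going-down) -/
def finTDatum (hφB : ∀ z ∈ chart k Y.J, Y.φ z ∈ chart k Y.J)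
    (hφpow : ∀ z ∈ chart k Y.J, ∃ c ∈ chart k Y.J, Y.φ c = z ^ q)
    (S : Set (Ideal ↥(chart k Y.J)))
    (node : ∀ n' n : Ideal ↥(chart k Y.J), n'.IsMaximal → n.IsMaximal →
      (n'.comap (finPair hB).red1 = n.comap (finPair hB).red2 ↔ n ∈ S ∧ n' = n.comap (ChartPair.φB hφB)))
    (S_fr : ∀ n ∈ S, n.comap (ChartPair.φB hφB) ∈ S)
    (fr_fr : ∀ n ∈ S, (n.comap (ChartPair.φB hφB)).comap (ChartPair.φB hφB) = n)
    (hrad : ∀ a ∈ chart O (x2 H N0 q), a ∈ Y.W₂₀.nonunits → a ∈ Y.W₁₁.nonunits →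
      a ∈ Y.W₀₂.nonunits →
      ∃ N : ℕ, ∃ y ∈ chart O (x2 H N0 q), a ^ N = (q : FK H (N0 * q * q)) * y) :
    TDatum ↥(chart O (x1 H N0 q)) ↥(chart O (x2 H N0 q)) ↥(chart k Y.J) :=
  ((finPair hB).pdatum hφB hφpow S node S_fr fr_fr hrad).toTDatum_of_norm (fun n hn hS a => by
    obtain ⟨g, h1, h2⟩ := finPair_norm hB a
    refine ⟨g, 1, 1, q - 1, q, ?_, ?_, ?_, ?_⟩
    · have := Y.prime.two_le
      omega
    · exact fun h => hn.ne_top ((Ideal.eq_top_iff_one n).mpr h)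
    · rw [one_mul]
      exact h1
    · rw [one_mul]
      exact Subtype.ext h2)

end Fin


/-! ### the charts at infinity -/

section Inf

theorem red_pow_mul {K : Type*} [Field K] (V : ValuationSubring K) (r : ↥V →+* κ) {x y : K}
    (hx : x ∈ V) (hy : y ∈ V) (L : ℕ) (h : x ^ L * y ∈ V) :
    r ⟨x ^ L * y, h⟩ = r ⟨x, hx⟩ ^ L * r ⟨y, hy⟩ := by
  have e : (⟨x ^ L * y, h⟩ : ↥V) = ⟨x, hx⟩ ^ L * ⟨y, hy⟩ := Subtype.ext rfl
  rw [e, map_mul, map_pow]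

theorem inv_pow_mul_pow {J : κ} (hJ : J ≠ 0) {a b : ℕ} (hba : b ≤ a) :
    J⁻¹ ^ a * J ^ b = J⁻¹ ^ (a - b) := by
  have h1 : J⁻¹ ^ a = J⁻¹ ^ (a - b) * J⁻¹ ^ b := by
    rw [← pow_add, Nat.sub_add_cancel hba]
  rw [h1, mul_assoc, ← mul_pow, inv_mul_cancel₀ hJ, one_pow, mul_one]

variable (hB : Base Y O π)

/-- `J⁻¹` as an element of the chart at infinity of the component -/
def Jinv (Y : ThreeValX0.Hyp H N0 q κ) (k : Type*) [Field k] [Algebra k κ] : ↥(chart k Y.J⁻¹) :=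
  ⟨Y.J⁻¹, self_mem_chart Y.J⁻¹⟩

set_option maxHeartbeats 1600000 in
/-- **the norm formula on the charts at infinity**: up to powers of `J⁻¹` (a unit at every point of
`S`), the formulas (NF) for `g = x₁^(-L) · N_α (x₂^M a)` -/
theorem infPair_norm (a : ↥(chart O (x2 H N0 q)⁻¹)) :
    ∃ (g : ↥(chart O (x1 H N0 q)⁻¹)) (d d' : ℕ),
      (infPair hB).red1 g
        = Jinv Y k ^ d * ((infPair hB).r20 a * (infPair hB).r11 a ^ (q - 1)) ∧
      Y.φ (((infPair hB).red2 g : ↥(chart k Y.J⁻¹)) : κ)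
        = Y.J⁻¹ ^ d' * (((infPair hB).r02 a : ↥(chart k Y.J⁻¹)) : κ) ^ q := by
  have hx2 : x2 H N0 q ≠ 0 := x2_ne_zero Y
  have hx1 : x1 H N0 q ≠ 0 := x1_ne_zero Y
  have hJ0 : Y.J ≠ 0 := J_ne_zero Y
  -- `b = x₂^M a` lies in the finite chart
  obtain ⟨M, hM⟩ := (ChartOverlap.mem_overlap_iff (O := O) hx2 (a : FK H (N0 * q * q))).1
    (ChartOverlap.chart_inv_le_overlap hx2 a.2)
  set b : FK H (N0 * q * q) := x2 H N0 q ^ M * (a : FK H (N0 * q * q)) with hb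
  have hb20 := (finPair hB).mem_W₂₀ ⟨b, hM⟩
  have hb11 := (finPair hB).mem_W₁₁ ⟨b, hM⟩
  have hb02 := (finPair hB).mem_W₀₂ ⟨b, hM⟩
  have ha20 := (infPair hB).mem_W₂₀ a
  have ha11 := (infPair hB).mem_W₁₁ a
  have ha02 := (infPair hB).mem_W₀₂ a
  -- its norm lies in the finite chart of level `N0 q`
  set h : FK H (N0 * q) := normAlong (alphaK H (N0 * q) q) b with hh
  have hh1 : h ∈ chart O (x1 H N0 q) := normAlong_mem_chart_x1 hB hM
  obtain ⟨m1, hm1⟩ := Y.norm₁_V₁ b hb20 hb11 hb02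
  obtain ⟨m2, hm2⟩ := Y.norm₁_V₂ b hb20 hb11 hb02
  obtain ⟨L0, hL0⟩ := (ChartOverlap.mem_overlap_iff_inv (O := O) hx1 h).1
    (ChartOverlap.chart_le_overlap _ hh1)
  -- the values of `x₂`
  obtain ⟨e20, he20⟩ := (branch₂₀ hB).exists_r_x2
  obtain ⟨e11, he11⟩ := (branch₁₁ hB).exists_r_x2
  obtain ⟨e02, he02⟩ := (branch₀₂ hB).exists_r_x2
  -- the exponent `L`
  set T : ℕ := (e20 + e11 * (q - 1) + e02) * M with hT
  set L : ℕ := L0 + T with hL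
  have hgmem : (x1 H N0 q)⁻¹ ^ L * h ∈ chart O (x1 H N0 q)⁻¹ := by
    have e : (x1 H N0 q)⁻¹ ^ L * h = (x1 H N0 q)⁻¹ ^ T * ((x1 H N0 q)⁻¹ ^ L0 * h) := by
      rw [hL, pow_add]
      ring
    rw [e]
    exact Subalgebra.mul_mem _ (Subalgebra.pow_mem _ (self_mem_chart _) _) hL0
  -- the reductions of `b`
  have r20b : Y.r₂₀ ⟨b, hb20⟩ = Y.J ^ (e20 * M) * Y.r₂₀ ⟨a, ha20⟩ := by
    rw [red_pow_mul Y.W₂₀ Y.r₂₀ (branch₂₀ hB).x2_mem ha20 M hb20, he20, ← pow_mul]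
  have r11b : Y.r₁₁ ⟨b, hb11⟩ = Y.J ^ (e11 * M) * Y.r₁₁ ⟨a, ha11⟩ := by
    rw [red_pow_mul Y.W₁₁ Y.r₁₁ (branch₁₁ hB).x2_mem ha11 M hb11, he11, ← pow_mul]
  have r02b : Y.r₀₂ ⟨b, hb02⟩ = Y.J ^ (e02 * M) * Y.r₀₂ ⟨a, ha02⟩ := by
    rw [red_pow_mul Y.W₀₂ Y.r₀₂ (branch₀₂ hB).x2_mem ha02 M hb02, he02, ← pow_mul]
  have hLT : T ≤ L := Nat.le_add_left _ _
  have hq1 : 1 ≤ q := Y.prime.one_le
  refine ⟨⟨(x1 H N0 q)⁻¹ ^ L * h, hgmem⟩, (q + 1) * L - (e20 * M + e11 * M * (q - 1)),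
    q * (q + 1) * L - e02 * M * q, ?_, ?_⟩
  · apply Subtype.ext
    have hle : e20 * M + e11 * M * (q - 1) ≤ (q + 1) * L := by
      have h1 : e20 * M + e11 * M * (q - 1) ≤ T := by
        rw [hT]
        nlinarith [Nat.zero_le (e02 * M)]
      calc e20 * M + e11 * M * (q - 1) ≤ T := h1
        _ ≤ L := hLT
        _ ≤ (q + 1) * L := Nat.le_mul_of_pos_left _ (Nat.succ_pos _)
    show Y.red₁ ⟨(x1 H N0 q)⁻¹ ^ L * h, _⟩
      = Y.J⁻¹ ^ ((q + 1) * L - (e20 * M + e11 * M * (q - 1)))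
        * (Y.r₂₀ ⟨a, ha20⟩ * Y.r₁₁ ⟨a, ha11⟩ ^ (q - 1))
    rw [red_pow_mul Y.V₁ Y.red₁ (x1_inv_mem_V₁ Y) m1 L, red₁_x1_inv, hm1, r20b, r11b,
      ← inv_pow_mul_pow hJ0 hle]
    ring
  · have hle : e02 * M * q ≤ q * (q + 1) * L := by
      have h1 : e02 * M ≤ T := by
        rw [hT]
        nlinarith [Nat.zero_le (e20 * M), Nat.zero_le (e11 * (q - 1) * M)]
      have h2 : e02 * M ≤ (q + 1) * L :=
        (h1.trans hLT).trans (Nat.le_mul_of_pos_left _ (Nat.succ_pos _))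
      calc e02 * M * q ≤ (q + 1) * L * q := Nat.mul_le_mul_right _ h2
        _ = q * (q + 1) * L := by ring
    show Y.φ (Y.red₂ ⟨(x1 H N0 q)⁻¹ ^ L * h, _⟩)
      = Y.J⁻¹ ^ (q * (q + 1) * L - e02 * M * q) * Y.r₀₂ ⟨a, ha02⟩ ^ q
    have hφJi : Y.φ (Y.J⁻¹ ^ (q + 1)) = Y.J⁻¹ ^ (q * (q + 1)) := by
      rw [inv_pow, map_inv₀, φ_J_pow, inv_pow]
    rw [red_pow_mul Y.V₂ Y.red₂ (x1_inv_mem_V₂ Y) m2 L, red₂_x1_inv, map_mul, map_pow, hφJi, hm2,
      r02b, ← inv_pow_mul_pow hJ0 hle]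
    ring


/-- **the `TDatum` of chain (V9) on the charts at infinity** `{x₁ ≠ 0}`, `{x₂ ≠ 0}`, `{J ≠ 0}`
(`Ainf₂` is NOT integral over `α Ainf₁`: no going-down; the norm formulas (NF) up to powers of
`J⁻¹`, which is a unit at the points of `S`) -/
def infTDatum (hφB : ∀ z ∈ chart k Y.J⁻¹, Y.φ z ∈ chart k Y.J⁻¹)
    (hφpow : ∀ z ∈ chart k Y.J⁻¹, ∃ c ∈ chart k Y.J⁻¹, Y.φ c = z ^ q)
    (S : Set (Ideal ↥(chart k Y.J⁻¹)))
    (hSJ : ∀ n ∈ S, Jinv Y k ∉ n)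
    (node : ∀ n' n : Ideal ↥(chart k Y.J⁻¹), n'.IsMaximal → n.IsMaximal →
      (n'.comap (infPair hB).red1 = n.comap (infPair hB).red2
        ↔ n ∈ S ∧ n' = n.comap (ChartPair.φB hφB)))
    (S_fr : ∀ n ∈ S, n.comap (ChartPair.φB hφB) ∈ S)
    (fr_fr : ∀ n ∈ S, (n.comap (ChartPair.φB hφB)).comap (ChartPair.φB hφB) = n)
    (hrad : ∀ a ∈ chart O (x2 H N0 q)⁻¹, a ∈ Y.W₂₀.nonunits → a ∈ Y.W₁₁.nonunits →
      a ∈ Y.W₀₂.nonunits →
      ∃ N : ℕ, ∃ y ∈ chart O (x2 H N0 q)⁻¹, a ^ N = (q : FK H (N0 * q * q)) * y) :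
    TDatum ↥(chart O (x1 H N0 q)⁻¹) ↥(chart O (x2 H N0 q)⁻¹) ↥(chart k Y.J⁻¹) :=
  ((infPair hB).pdatum hφB hφpow S node S_fr fr_fr hrad).toTDatum_of_norm (fun n hn hS a => by
    obtain ⟨g, d, d', h1, h2⟩ := infPair_norm hB a
    refine ⟨g, Jinv Y k ^ d, Jinv Y k ^ d', q - 1, q, ?_, ?_, h1, Subtype.ext h2⟩
    · have := Y.prime.two_le
      omega
    · exact fun h => hSJ n hS (hn.isPrime.mem_of_pow_mem _ h))

end Inf

end Fermat.Agent.S36.BranchX0
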