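import Mathlib
import Fermat.Agent.S36.BranchX0T

/-!
# PROJECT V (S36), slice V-BranchX0, part 3: the `TDatum`s for ANY coordinate of the component

`S36/BranchX0T.lean` builds the `TDatum`s of chain (V9) on `chart k Y.J` and `chart k Y.J⁻¹`.  The
`κ`-side files (`SpecDictOne`, `PairLiftX0`, `PairGlueK0`) live on `chart k (jk k M)`, and
`Y.J = jk k M` only propositionally.  `ChartPair hB φ₁ φ₂ Jc` is generic in `Jc`, so:

* `ChartPair.norm_fin (P : ChartPair hB x₁ x₂ Jc)` , **`ChartPair.finTDatumOf`** : the `TDatum` on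
  the finite charts for ANY `Jc` (e.g. `P := hYJ ▸ finPair hB`, `Jc = jk k M`);
* `ChartPair.norm_inf (P : ChartPair hB x₁⁻¹ x₂⁻¹ Jc) (hJc : Y.J⁻¹ ∈ chart k Jc)`,
  **`ChartPair.infTDatumOf`** : the same on the charts at infinity (`Jc = (jk k M)⁻¹`);
* `ChartPair.cast` : transport of a pair along `Jc = Jc'`;
* the link facts for `BranchPt` / `LeafT0`: `ChartPair.le_W`, `ChartPair.coe_pdatum_*`, `coe_ϖ`.
-/

set_option autoImplicit false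
set_option linter.style.haveILetI false
set_option linter.unusedSectionVars false
set_option linter.unusedVariables false

noncomputable section

namespace Fermat.Agent.S36.BranchX0

open Polynomial Fermat.Agent.S36.ChartRing Fermat.Agent.S36.ThreeVal
open Fermat.Agent.S36.CompNormal Fermat.Agent.S36.PowerBasisK0 Fermat.Agent.S36.JIntegral
open Fermat.Agent.S36.CompNormalX0 Fermat.Agent.S36.BranchCoreT

local notation "Kb" => AlgebraicClosure ℚ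

variable {H : Subgroup (Kb ≃ₐ[ℚ] Kb)}
variable {N0 q : ℕ} [NeZero N0] [NeZero q] [NeZero (N0 * q)] [NeZero (N0 * q * q)]
variable {κ : Type} [Field κ] {Y : ThreeValX0.Hyp H N0 q κ}
variable {O : Type*} [CommRing O] [Algebra O (FK H N0)] [Algebra O (FK H (N0 * q))]
  [Algebra O (FK H (N0 * q * q))]
variable {k : Type*} [Field k] [Algebra k κ] {π : O →+* k}

namespace ChartPair

variable {hB : Base Y O π}

/-- transport of a pair of charts along an equality of the coordinates of the component -/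
theorem cast {φ₁ : FK H (N0 * q)} {φ₂ : FK H (N0 * q * q)} {Jc Jc' : κ}
    (P : ChartPair hB φ₁ φ₂ Jc) (h : Jc = Jc') : ChartPair hB φ₁ φ₂ Jc' := h ▸ P

/-! ### the finite charts -/

section Fin

variable {Jc : κ} (P : ChartPair hB (x1 H N0 q) (x2 H N0 q) Jc)

/-- **the norm formula on the finite charts**, any coordinate `Jc` of the component -/
theorem norm_fin (a : ↥(chart O (x2 H N0 q))) :
    ∃ g : ↥(chart O (x1 H N0 q)),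
      P.red1 g = P.r20 a * P.r11 a ^ (q - 1) ∧
      Y.φ ((P.red2 g : ↥(chart k Jc)) : κ) = ((P.r02 a : ↥(chart k Jc)) : κ) ^ q := by
  have h20 := P.mem_W₂₀ a
  have h11 := P.mem_W₁₁ a
  have h02 := P.mem_W₀₂ a
  refine ⟨⟨normAlong (alphaK H (N0 * q) q) (a : FK H (N0 * q * q)),
    normAlong_mem_chart_x1 hB a.2⟩, ?_, ?_⟩
  · obtain ⟨m, hm⟩ := Y.norm₁_V₁ (a : FK H (N0 * q * q)) h20 h11 h02
    apply Subtype.ext
    exact hm
  · obtain ⟨m, hm⟩ := Y.norm₁_V₂ (a : FK H (N0 * q * q)) h20 h11 h02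
    exact hm

/-- **the `TDatum` of chain (V9) on the finite charts, any coordinate `Jc` of the component** -/
def finTDatumOf (hφB : ∀ z ∈ chart k Jc, Y.φ z ∈ chart k Jc)
    (hφpow : ∀ z ∈ chart k Jc, ∃ c ∈ chart k Jc, Y.φ c = z ^ q)
    (S : Set (Ideal ↥(chart k Jc)))
    (node : ∀ n' n : Ideal ↥(chart k Jc), n'.IsMaximal → n.IsMaximal →
      (n'.comap P.red1 = n.comap P.red2 ↔ n ∈ S ∧ n' = n.comap (φB hφB)))
    (S_fr : ∀ n ∈ S, n.comap (φB hφB) ∈ S)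
    (fr_fr : ∀ n ∈ S, (n.comap (φB hφB)).comap (φB hφB) = n)
    (hrad : ∀ a ∈ chart O (x2 H N0 q), a ∈ Y.W₂₀.nonunits → a ∈ Y.W₁₁.nonunits →
      a ∈ Y.W₀₂.nonunits →
      ∃ N : ℕ, ∃ y ∈ chart O (x2 H N0 q), a ^ N = (q : FK H (N0 * q * q)) * y) :
    TDatum ↥(chart O (x1 H N0 q)) ↥(chart O (x2 H N0 q)) ↥(chart k Jc) :=
  (P.pdatum hφB hφpow S node S_fr fr_fr hrad).toTDatum_of_norm (fun n hn hS a => by
    obtain ⟨g, h1, h2⟩ := P.norm_fin a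
    refine ⟨g, 1, 1, q - 1, q, ?_, ?_, ?_, ?_⟩
    · have := Y.prime.two_le
      omega
    · exact fun h => hn.ne_top ((Ideal.eq_top_iff_one n).mpr h)
    · rw [one_mul]
      exact h1
    · rw [one_mul]
      exact Subtype.ext h2)

end Fin

/-! ### the charts at infinity -/

section Inf

variable {Jc : κ} (P : ChartPair hB (x1 H N0 q)⁻¹ (x2 H N0 q)⁻¹ Jc)

set_option maxHeartbeats 1600000 in
/-- **the norm formula on the charts at infinity**, any coordinate `Jc` of the component with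
`J⁻¹ ∈ chart k Jc` -/
theorem norm_inf (hJc : Y.J⁻¹ ∈ chart k Jc) (a : ↥(chart O (x2 H N0 q)⁻¹)) :
    ∃ (g : ↥(chart O (x1 H N0 q)⁻¹)) (d d' : ℕ),
      P.red1 g = (⟨Y.J⁻¹, hJc⟩ : ↥(chart k Jc)) ^ d * (P.r20 a * P.r11 a ^ (q - 1)) ∧
      Y.φ ((P.red2 g : ↥(chart k Jc)) : κ)
        = Y.J⁻¹ ^ d' * ((P.r02 a : ↥(chart k Jc)) : κ) ^ q := by
  have hx2 : x2 H N0 q ≠ 0 := x2_ne_zero Y
  have hx1 : x1 H N0 q ≠ 0 := x1_ne_zero Y
  have hJ0 : Y.J ≠ 0 := J_ne_zero Y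
  obtain ⟨M, hM⟩ := (ChartOverlap.mem_overlap_iff (O := O) hx2 (a : FK H (N0 * q * q))).1
    (ChartOverlap.chart_inv_le_overlap hx2 a.2)
  set b : FK H (N0 * q * q) := x2 H N0 q ^ M * (a : FK H (N0 * q * q)) with hb
  have hb20 := (finPair hB).mem_W₂₀ ⟨b, hM⟩
  have hb11 := (finPair hB).mem_W₁₁ ⟨b, hM⟩
  have hb02 := (finPair hB).mem_W₀₂ ⟨b, hM⟩
  have ha20 := P.mem_W₂₀ a
  have ha11 := P.mem_W₁₁ a
  have ha02 := P.mem_W₀₂ a
  set h : FK H (N0 * q) := normAlong (alphaK H (N0 * q) q) b with hh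
  have hh1 : h ∈ chart O (x1 H N0 q) := normAlong_mem_chart_x1 hB hM
  obtain ⟨m1, hm1⟩ := Y.norm₁_V₁ b hb20 hb11 hb02
  obtain ⟨m2, hm2⟩ := Y.norm₁_V₂ b hb20 hb11 hb02
  obtain ⟨L0, hL0⟩ := (ChartOverlap.mem_overlap_iff_inv (O := O) hx1 h).1
    (ChartOverlap.chart_le_overlap _ hh1)
  obtain ⟨e20, he20⟩ := (branch₂₀ hB).exists_r_x2
  obtain ⟨e11, he11⟩ := (branch₁₁ hB).exists_r_x2
  obtain ⟨e02, he02⟩ := (branch₀₂ hB).exists_r_x2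
  set T : ℕ := (e20 + e11 * (q - 1) + e02) * M with hT
  set L : ℕ := L0 + T with hL
  have hgmem : (x1 H N0 q)⁻¹ ^ L * h ∈ chart O (x1 H N0 q)⁻¹ := by
    have e : (x1 H N0 q)⁻¹ ^ L * h = (x1 H N0 q)⁻¹ ^ T * ((x1 H N0 q)⁻¹ ^ L0 * h) := by
      rw [hL, pow_add]
      ring
    rw [e]
    exact Subalgebra.mul_mem _ (Subalgebra.pow_mem _ (self_mem_chart _) _) hL0
  have r20b : Y.r₂₀ ⟨b, hb20⟩ = Y.J ^ (e20 * M) * Y.r₂₀ ⟨a, ha20⟩ := by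
    rw [red_pow_mul Y.W₂₀ Y.r₂₀ (branch₂₀ hB).x2_mem ha20 M hb20, he20, ← pow_mul]
  have r11b : Y.r₁₁ ⟨b, hb11⟩ = Y.J ^ (e11 * M) * Y.r₁₁ ⟨a, ha11⟩ := by
    rw [red_pow_mul Y.W₁₁ Y.r₁₁ (branch₁₁ hB).x2_mem ha11 M hb11, he11, ← pow_mul]
  have r02b : Y.r₀₂ ⟨b, hb02⟩ = Y.J ^ (e02 * M) * Y.r₀₂ ⟨a, ha02⟩ := by
    rw [red_pow_mul Y.W₀₂ Y.r₀₂ (branch₀₂ hB).x2_mem ha02 M hb02, he02, ← pow_mul]
  have hLT : T ≤ L := Nat.le_add_left _ _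
  have hq1 : 1 ≤ q := Y.prime.one_le
  refine ⟨⟨(x1 H N0 q)⁻¹ ^ L * h, hgmem⟩, (q + 1) * L - (e20 * M + e11 * M * (q - 1)),
    q * (q + 1) * L - e02 * M * q, ?_, ?_⟩
  · apply Subtype.ext
    have hle : e20 * M + e11 * M * (q - 1) ≤ (q + 1) * L := by
      have h1 : e20 * M + e11 * M * (q - 1) ≤ T := by
        rw [hT]
        nlinarith [Nat.zero_le (e02 * M)]
      calc e20 * M + e11 * M * (q - 1) ≤ T := h1
        _ ≤ L := hLT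
        _ ≤ (q + 1) * L := Nat.le_mul_of_pos_left _ (Nat.succ_pos _)
    show Y.red₁ ⟨(x1 H N0 q)⁻¹ ^ L * h, _⟩
      = Y.J⁻¹ ^ ((q + 1) * L - (e20 * M + e11 * M * (q - 1)))
        * (Y.r₂₀ ⟨a, ha20⟩ * Y.r₁₁ ⟨a, ha11⟩ ^ (q - 1))
    rw [red_pow_mul Y.V₁ Y.red₁ (x1_inv_mem_V₁ Y) m1 L, red₁_x1_inv, hm1, r20b, r11b,
      ← inv_pow_mul_pow hJ0 hle]
    ring
  · have hle : e02 * M * q ≤ q * (q + 1) * L := by
      have h1 : e02 * M ≤ T := by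
        rw [hT]
        nlinarith [Nat.zero_le (e20 * M), Nat.zero_le (e11 * (q - 1) * M)]
      have h2 : e02 * M ≤ (q + 1) * L :=
        (h1.trans hLT).trans (Nat.le_mul_of_pos_left _ (Nat.succ_pos _))
      calc e02 * M * q ≤ (q + 1) * L * q := Nat.mul_le_mul_right _ h2
        _ = q * (q + 1) * L := by ring
    show Y.φ (Y.red₂ ⟨(x1 H N0 q)⁻¹ ^ L * h, _⟩)
      = Y.J⁻¹ ^ (q * (q + 1) * L - e02 * M * q) * Y.r₀₂ ⟨a, ha02⟩ ^ q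
    have hφJi : Y.φ (Y.J⁻¹ ^ (q + 1)) = Y.J⁻¹ ^ (q * (q + 1)) := by
      rw [inv_pow, map_inv₀, φ_J_pow, inv_pow]
    rw [red_pow_mul Y.V₂ Y.red₂ (x1_inv_mem_V₂ Y) m2 L, red₂_x1_inv, map_mul, map_pow, hφJi, hm2,
      r02b, ← inv_pow_mul_pow hJ0 hle]
    ring

/-- **the `TDatum` of chain (V9) on the charts at infinity, any coordinate `Jc` of the
component** with `J⁻¹ ∈ chart k Jc` -/
def infTDatumOf (hJc : Y.J⁻¹ ∈ chart k Jc) (hφB : ∀ z ∈ chart k Jc, Y.φ z ∈ chart k Jc)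
    (hφpow : ∀ z ∈ chart k Jc, ∃ c ∈ chart k Jc, Y.φ c = z ^ q)
    (S : Set (Ideal ↥(chart k Jc)))
    (hSJ : ∀ n ∈ S, (⟨Y.J⁻¹, hJc⟩ : ↥(chart k Jc)) ∉ n)
    (node : ∀ n' n : Ideal ↥(chart k Jc), n'.IsMaximal → n.IsMaximal →
      (n'.comap P.red1 = n.comap P.red2 ↔ n ∈ S ∧ n' = n.comap (φB hφB)))
    (S_fr : ∀ n ∈ S, n.comap (φB hφB) ∈ S)
    (fr_fr : ∀ n ∈ S, (n.comap (φB hφB)).comap (φB hφB) = n)
    (hrad : ∀ a ∈ chart O (x2 H N0 q)⁻¹, a ∈ Y.W₂₀.nonunits → a ∈ Y.W₁₁.nonunits →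
      a ∈ Y.W₀₂.nonunits →
      ∃ N : ℕ, ∃ y ∈ chart O (x2 H N0 q)⁻¹, a ^ N = (q : FK H (N0 * q * q)) * y) :
    TDatum ↥(chart O (x1 H N0 q)⁻¹) ↥(chart O (x2 H N0 q)⁻¹) ↥(chart k Jc) :=
  (P.pdatum hφB hφpow S node S_fr fr_fr hrad).toTDatum_of_norm (fun n hn hS a => by
    obtain ⟨g, d, d', h1, h2⟩ := P.norm_inf hJc a
    refine ⟨g, (⟨Y.J⁻¹, hJc⟩ : ↥(chart k Jc)) ^ d, (⟨Y.J⁻¹, hJc⟩ : ↥(chart k Jc)) ^ d',
      q - 1, q, ?_, ?_, h1, Subtype.ext h2⟩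
    · have := Y.prime.two_le
      omega
    · exact fun h => hSJ n hS (hn.isPrime.mem_of_pow_mem _ h))

end Inf

/-! ### link facts for `BranchPt.pt_of_tdatum'` / `LeafT0` -/

section Links

variable {φ₁ : FK H (N0 * q)} {φ₂ : FK H (N0 * q * q)} {Jc : κ} (P : ChartPair hB φ₁ φ₂ Jc)

include P in
/-- `hle`: the chart lies in the three valuation rings -/
theorem le_W : (chart O φ₂).toSubring ≤ Y.W₂₀.toSubring ∧
    (chart O φ₂).toSubring ≤ Y.W₁₁.toSubring ∧ (chart O φ₂).toSubring ≤ Y.W₀₂.toSubring :=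
  ⟨fun a ha => P.mem_W₂₀ ⟨a, ha⟩, fun a ha => P.mem_W₁₁ ⟨a, ha⟩, fun a ha => P.mem_W₀₂ ⟨a, ha⟩⟩

variable (hφB : ∀ z ∈ chart k Jc, Y.φ z ∈ chart k Jc)
  (hφpow : ∀ z ∈ chart k Jc, ∃ c ∈ chart k Jc, Y.φ c = z ^ q)
  (S : Set (Ideal ↥(chart k Jc)))
  (node : ∀ n' n : Ideal ↥(chart k Jc), n'.IsMaximal → n.IsMaximal →
    (n'.comap P.red1 = n.comap P.red2 ↔ n ∈ S ∧ n' = n.comap (φB hφB)))
  (S_fr : ∀ n ∈ S, n.comap (φB hφB) ∈ S)
  (fr_fr : ∀ n ∈ S, (n.comap (φB hφB)).comap (φB hφB) = n)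
  (hrad : ∀ a ∈ chart O φ₂, a ∈ Y.W₂₀.nonunits → a ∈ Y.W₁₁.nonunits → a ∈ Y.W₀₂.nonunits →
    ∃ N : ℕ, ∃ y ∈ chart O φ₂, a ^ N = (q : FK H (N0 * q * q)) * y)

@[simp] theorem pdatum_S : (P.pdatum hφB hφpow S node S_fr fr_fr hrad).S = S := rfl

@[simp] theorem pdatum_q : (P.pdatum hφB hφpow S node S_fr fr_fr hrad).q = q := rfl

theorem coe_pdatum_ϖ :
    (((P.pdatum hφB hφpow S node S_fr fr_fr hrad).ϖ : ↥(chart O φ₂)) : FK H (N0 * q * q))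
      = (q : FK H (N0 * q * q)) := by
  show (((q : ℕ) : ↥(chart O φ₂)) : FK H (N0 * q * q)) = _
  simp

/-- `hcompat`: the three reductions of the datum are the residue maps of `Y` -/
theorem coe_pdatum_r20 (a : ↥(chart O φ₂)) :
    (((P.pdatum hφB hφpow S node S_fr fr_fr hrad).r20 a : ↥(chart k Jc)) : κ)
      = Y.r₂₀ ⟨a, P.mem_W₂₀ a⟩ := rfl

theorem coe_pdatum_r11 (a : ↥(chart O φ₂)) :
    (((P.pdatum hφB hφpow S node S_fr fr_fr hrad).r11 a : ↥(chart k Jc)) : κ)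
      = Y.r₁₁ ⟨a, P.mem_W₁₁ a⟩ := rfl

theorem coe_pdatum_r02 (a : ↥(chart O φ₂)) :
    (((P.pdatum hφB hφpow S node S_fr fr_fr hrad).r02 a : ↥(chart k Jc)) : κ)
      = Y.r₀₂ ⟨a, P.mem_W₀₂ a⟩ := rfl

theorem coe_pdatum_red1 (g : ↥(chart O φ₁)) :
    (((P.pdatum hφB hφpow S node S_fr fr_fr hrad).red1 g : ↥(chart k Jc)) : κ)
      = Y.red₁ ⟨g, P.mem_V₁ g⟩ := rfl

theorem coe_pdatum_red2 (g : ↥(chart O φ₁)) :
    (((P.pdatum hφB hφpow S node S_fr fr_fr hrad).red2 g : ↥(chart k Jc)) : κ)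
      = Y.red₂ ⟨g, P.mem_V₂ g⟩ := rfl

theorem coe_pdatum_φ (z : ↥(chart k Jc)) :
    (((P.pdatum hφB hφpow S node S_fr fr_fr hrad).φ z : ↥(chart k Jc)) : κ) = Y.φ (z : κ) := rfl

end Links

end ChartPair

end Fermat.Agent.S36.BranchX0
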