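import Mathlib
import Fermat.Agent.S36.BranchX0G
import Fermat.Agent.S36.NodeField

/-!
# PROJECT V (S36), slice V-BranchX0, part 4: the `node` field from (GLUE) + (SEP)

For a pair of charts `P : ChartPair hB φ₁ φ₂ Jc` and a chart `chart O φ₀` of level `N0` with
`α₀ (chart O φ₀) ⊆ chart O φ₁`, `φ₀ ∈ O₀`, `red₀ φ₀ ∈ chart k Jc` and the lifting property
`lift₀` (`CompNormalX0.Base.hlift` / `hlift'`):

* `ChartPair.red0`, `ChartPair.α₀c`, `red0_surjective`, `red1_α₀c`, `red2_α₀c` : the level-`N0`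
  reduction `chart O φ₀ →+* chart k Jc` (onto) and the normalisations (D5) on the charts;
* **`ChartPair.node_of_glue_sep`** : the field `node` of `ChartPair.pdatum` from `hglue`, `hsep` in
  the LITERAL shapes of `NodeField.node_iff` (`PairGlueK0` / `PairLiftX0.hsep_fin_X0`, `hsep_inf_X0`
  with `A₁ := chart O φ₁`, `red1 := P.red1`, `red2 := P.red2`);
* `node_fin` (`φ₀ = j`, `P : ChartPair hB x₁ x₂ Jc`, `J ∈ chart k Jc`) and `node_inf`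
  (`φ₀ = j⁻¹`, `P : ChartPair hB x₁⁻¹ x₂⁻¹ Jc`, `J⁻¹ ∈ chart k Jc`), any coordinate `Jc`;
  `node_finPair`, `node_infPair` : `Jc = Y.J`, `Y.J⁻¹` with `lift₀` from `hB`.
-/

set_option autoImplicit false
set_option linter.style.haveILetI false
set_option linter.unusedSectionVars false
set_option linter.unusedVariables false

noncomputable section

namespace Fermat.Agent.S36.BranchX0

open Polynomial Fermat.Agent.S36.ChartRing Fermat.Agent.S36.ThreeVal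
open Fermat.Agent.S36.CompNormal Fermat.Agent.S36.PowerBasisK0 Fermat.Agent.S36.JIntegral
open Fermat.Agent.S36.CompNormalX0 Fermat.Agent.S36.BranchCoreT

local notation "Kb" => AlgebraicClosure ℚ

variable {H : Subgroup (Kb ≃ₐ[ℚ] Kb)}
variable {N0 q : ℕ} [NeZero N0] [NeZero q] [NeZero (N0 * q)] [NeZero (N0 * q * q)]
variable {κ : Type} [Field κ] {Y : ThreeValX0.Hyp H N0 q κ}
variable {O : Type*} [CommRing O] [Algebra O (FK H N0)] [Algebra O (FK H (N0 * q))]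
  [Algebra O (FK H (N0 * q * q))]
variable {k : Type*} [Field k] [Algebra k κ] {π : O →+* k}

namespace ChartPair

variable {hB : Base Y O π}

section General

variable {φ₁ : FK H (N0 * q)} {φ₂ : FK H (N0 * q * q)} {Jc : κ} (P : ChartPair hB φ₁ φ₂ Jc)
variable {φ₀ : FK H N0}

/-- the reduction of the level-`N0` chart along the Gauss ring `O₀` -/
def red0 (_P : ChartPair hB φ₁ φ₂ Jc) (h₀ : φ₀ ∈ Y.O₀) (hJ₀ : Y.red₀ ⟨φ₀, h₀⟩ ∈ chart k Jc) :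
    ↥(chart O φ₀) →+* ↥(chart k Jc) :=
  rho π Y.O₀ Y.red₀ hB.hO₀ hB.hr₀ h₀ hJ₀

/-- `α₀` on the charts -/
def α₀c (_P : ChartPair hB φ₁ φ₂ Jc)
    (hα₀ : ∀ y ∈ chart O φ₀, alphaK H N0 q y ∈ chart O φ₁) : ↥(chart O φ₀) →+* ↥(chart O φ₁) :=
  (alphaK H N0 q).restrict (chart O φ₀) (chart O φ₁) hα₀

include P in
theorem mem_O₀ (h₀ : φ₀ ∈ Y.O₀) (g : ↥(chart O φ₀)) : (g : FK H N0) ∈ Y.O₀ :=
  mem_of_mem_chart' Y.O₀ hB.hO₀ h₀ g.2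

theorem coe_red0 (h₀ : φ₀ ∈ Y.O₀) (hJ₀ : Y.red₀ ⟨φ₀, h₀⟩ ∈ chart k Jc) (g : ↥(chart O φ₀)) :
    ((P.red0 h₀ hJ₀ g : ↥(chart k Jc)) : κ) = Y.red₀ ⟨g, P.mem_O₀ h₀ g⟩ := rfl

theorem red0_surjective (h₀ : φ₀ ∈ Y.O₀) (hJ₀ : Y.red₀ ⟨φ₀, h₀⟩ ∈ chart k Jc)
    (lift₀ : ∀ b ∈ (chart k Jc : Set κ), ∃ g : FK H N0, g ∈ chart O φ₀ ∧
      ∃ hg : g ∈ Y.O₀, Y.red₀ ⟨g, hg⟩ = b) :
    Function.Surjective (P.red0 h₀ hJ₀) :=
  rho_surjective π Y.O₀ Y.red₀ _ _ _ _ lift₀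

/-- (D5) on the charts: `red1 ∘ α₀ = red0` -/
theorem red1_α₀c (h₀ : φ₀ ∈ Y.O₀) (hJ₀ : Y.red₀ ⟨φ₀, h₀⟩ ∈ chart k Jc)
    (hα₀ : ∀ y ∈ chart O φ₀, alphaK H N0 q y ∈ chart O φ₁) (g : ↥(chart O φ₀)) :
    P.red1 (P.α₀c hα₀ g) = P.red0 h₀ hJ₀ g :=
  Subtype.ext (Y.red₁_α₀ ⟨g, P.mem_O₀ h₀ g⟩ (P.mem_V₁ (P.α₀c hα₀ g)))

/-- (D5) on the charts: `red2 ∘ α₀ = φ ∘ red0` -/
theorem red2_α₀c (h₀ : φ₀ ∈ Y.O₀) (hJ₀ : Y.red₀ ⟨φ₀, h₀⟩ ∈ chart k Jc)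
    (hα₀ : ∀ y ∈ chart O φ₀, alphaK H N0 q y ∈ chart O φ₁)
    (hφB : ∀ z ∈ chart k Jc, Y.φ z ∈ chart k Jc) (g : ↥(chart O φ₀)) :
    P.red2 (P.α₀c hα₀ g) = φB hφB (P.red0 h₀ hJ₀ g) :=
  Subtype.ext (Y.red₂_α₀ ⟨g, P.mem_O₀ h₀ g⟩ (P.mem_V₂ (P.α₀c hα₀ g)))

/-- **the field `node` of `ChartPair.pdatum` from (GLUE) and (SEP)** -/
theorem node_of_glue_sep (h₀ : φ₀ ∈ Y.O₀) (hJ₀ : Y.red₀ ⟨φ₀, h₀⟩ ∈ chart k Jc)
    (hα₀ : ∀ y ∈ chart O φ₀, alphaK H N0 q y ∈ chart O φ₁)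
    (lift₀ : ∀ b ∈ (chart k Jc : Set κ), ∃ g : FK H N0, g ∈ chart O φ₀ ∧
      ∃ hg : g ∈ Y.O₀, Y.red₀ ⟨g, hg⟩ = b)
    (hφB : ∀ z ∈ chart k Jc, Y.φ z ∈ chart k Jc) (S : Set (Ideal ↥(chart k Jc)))
    (hglue : ∀ n ∈ S, ∀ g : ↥(chart O φ₁), P.red1 g ∈ n.comap (φB hφB) ↔ P.red2 g ∈ n)
    (hsep : ∀ n : Ideal ↥(chart k Jc), n.IsMaximal → n ∉ S →
      ∃ g : ↥(chart O φ₁), P.red1 g ∈ n.comap (φB hφB) ∧ P.red2 g ∉ n)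
    (n' n : Ideal ↥(chart k Jc)) (_hn' : n'.IsMaximal) (hn : n.IsMaximal) :
    n'.comap P.red1 = n.comap P.red2 ↔ n ∈ S ∧ n' = n.comap (φB hφB) :=
  NodeField.node_iff (P.α₀c hα₀) (P.red0 h₀ hJ₀) P.red1 P.red2 (φB hφB) S
    (P.red0_surjective h₀ hJ₀ lift₀) (P.red1_α₀c h₀ hJ₀ hα₀) (P.red2_α₀c h₀ hJ₀ hα₀ hφB)
    hglue hsep n' n hn

end General

/-! ### the two charts -/

section Fin

variable {Jc : κ} (P : ChartPair hB (x1 H N0 q) (x2 H N0 q) Jc)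

include P in
theorem alphaK_mem_chart_x1 {y : FK H N0} (hy : y ∈ chart O (j0K H N0)) :
    alphaK H N0 q y ∈ chart O (x1 H N0 q) := by
  refine SymChart.map_mem_chart (alphaK H N0 q) hB.hα₀ ?_ hy
  rw [ThreeValX0.alphaK_j0K]
  exact SymChart.mem_chart_prod (jK_isIntegral H Y.prime O) 0

/-- **`node` on the finite charts**, any coordinate `Jc` of the component with `J ∈ chart k Jc` -/
theorem node_fin (hJc : Y.J ∈ chart k Jc)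
    (lift₀ : ∀ b ∈ (chart k Jc : Set κ), ∃ g : FK H N0, g ∈ chart O (j0K H N0) ∧
      ∃ hg : g ∈ Y.O₀, Y.red₀ ⟨g, hg⟩ = b)
    (hφB : ∀ z ∈ chart k Jc, Y.φ z ∈ chart k Jc) (S : Set (Ideal ↥(chart k Jc)))
    (hglue : ∀ n ∈ S, ∀ g : ↥(chart O (x1 H N0 q)),
      P.red1 g ∈ n.comap (φB hφB) ↔ P.red2 g ∈ n)
    (hsep : ∀ n : Ideal ↥(chart k Jc), n.IsMaximal → n ∉ S →
      ∃ g : ↥(chart O (x1 H N0 q)), P.red1 g ∈ n.comap (φB hφB) ∧ P.red2 g ∉ n)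
    (n' n : Ideal ↥(chart k Jc)) (hn' : n'.IsMaximal) (hn : n.IsMaximal) :
    n'.comap P.red1 = n.comap P.red2 ↔ n ∈ S ∧ n' = n.comap (φB hφB) :=
  P.node_of_glue_sep Y.hj hJc (fun y hy => P.alphaK_mem_chart_x1 hy) lift₀ hφB S hglue hsep
    n' n hn' hn

end Fin

section Inf

variable {Jc : κ} (P : ChartPair hB (x1 H N0 q)⁻¹ (x2 H N0 q)⁻¹ Jc)

variable (Y) in
theorem red₀_eq_zero_iff (z : ↥Y.O₀) : Y.red₀ z = 0 ↔ (z : FK H N0) ∈ Y.O₀.nonunits :=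
  eq_zero_iff_of_surjective _ _ Y.surj₀ z

variable (Y) in
theorem j0K_inv_mem_O₀ : (j0K H N0)⁻¹ ∈ Y.O₀ :=
  inv_mem_of_red_ne_zero Y.O₀ Y.red₀ (red₀_eq_zero_iff Y) Y.hj (J_ne_zero Y)

variable (Y) in
theorem red₀_j0K_inv : Y.red₀ ⟨(j0K H N0)⁻¹, j0K_inv_mem_O₀ Y⟩ = Y.J⁻¹ :=
  red_inv Y.O₀ Y.red₀ Y.hj (j0K_inv_mem_O₀ Y) (j0K_ne_zero Y)

include P in
theorem alphaK_mem_chart_x1_inv {y : FK H N0} (hy : y ∈ chart O (j0K H N0)⁻¹) :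
    alphaK H N0 q y ∈ chart O (x1 H N0 q)⁻¹ := by
  refine SymChart.map_mem_chart (alphaK H N0 q) hB.hα₀ ?_ hy
  rw [map_inv₀, ThreeValX0.alphaK_j0K]
  exact SymChart.inv_mem_chart_inv_prod (jK_isIntegral H Y.prime O) (jK_ne_zero Y) 0

/-- **`node` on the charts at infinity**, any coordinate `Jc` with `J⁻¹ ∈ chart k Jc` -/
theorem node_inf (hJc : Y.J⁻¹ ∈ chart k Jc)
    (lift₀ : ∀ b ∈ (chart k Jc : Set κ), ∃ g : FK H N0, g ∈ chart O (j0K H N0)⁻¹ ∧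
      ∃ hg : g ∈ Y.O₀, Y.red₀ ⟨g, hg⟩ = b)
    (hφB : ∀ z ∈ chart k Jc, Y.φ z ∈ chart k Jc) (S : Set (Ideal ↥(chart k Jc)))
    (hglue : ∀ n ∈ S, ∀ g : ↥(chart O (x1 H N0 q)⁻¹),
      P.red1 g ∈ n.comap (φB hφB) ↔ P.red2 g ∈ n)
    (hsep : ∀ n : Ideal ↥(chart k Jc), n.IsMaximal → n ∉ S →
      ∃ g : ↥(chart O (x1 H N0 q)⁻¹), P.red1 g ∈ n.comap (φB hφB) ∧ P.red2 g ∉ n)
    (n' n : Ideal ↥(chart k Jc)) (hn' : n'.IsMaximal) (hn : n.IsMaximal) :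
    n'.comap P.red1 = n.comap P.red2 ↔ n ∈ S ∧ n' = n.comap (φB hφB) :=
  P.node_of_glue_sep (j0K_inv_mem_O₀ Y) (by rw [red₀_j0K_inv]; exact hJc)
    (fun y hy => P.alphaK_mem_chart_x1_inv hy) lift₀ hφB S hglue hsep n' n hn' hn

end Inf

end ChartPair

/-- **`node` for `finPair hB`** (`Jc = Y.J`) -/
theorem node_finPair (hB : Base Y O π) (hφB : ∀ z ∈ chart k Y.J, Y.φ z ∈ chart k Y.J)
    (S : Set (Ideal ↥(chart k Y.J)))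
    (hglue : ∀ n ∈ S, ∀ g : ↥(chart O (x1 H N0 q)),
      (finPair hB).red1 g ∈ n.comap (ChartPair.φB hφB) ↔ (finPair hB).red2 g ∈ n)
    (hsep : ∀ n : Ideal ↥(chart k Y.J), n.IsMaximal → n ∉ S →
      ∃ g : ↥(chart O (x1 H N0 q)),
        (finPair hB).red1 g ∈ n.comap (ChartPair.φB hφB) ∧ (finPair hB).red2 g ∉ n)
    (n' n : Ideal ↥(chart k Y.J)) (hn' : n'.IsMaximal) (hn : n.IsMaximal) :
    n'.comap (finPair hB).red1 = n.comap (finPair hB).red2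
      ↔ n ∈ S ∧ n' = n.comap (ChartPair.φB hφB) :=
  (finPair hB).node_fin (self_mem_chart Y.J) hB.hlift hφB S hglue hsep n' n hn' hn

/-- **`node` for `infPair hB`** (`Jc = Y.J⁻¹`) -/
theorem node_infPair (hB : Base Y O π) (hφB : ∀ z ∈ chart k Y.J⁻¹, Y.φ z ∈ chart k Y.J⁻¹)
    (S : Set (Ideal ↥(chart k Y.J⁻¹)))
    (hglue : ∀ n ∈ S, ∀ g : ↥(chart O (x1 H N0 q)⁻¹),
      (infPair hB).red1 g ∈ n.comap (ChartPair.φB hφB) ↔ (infPair hB).red2 g ∈ n)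
    (hsep : ∀ n : Ideal ↥(chart k Y.J⁻¹), n.IsMaximal → n ∉ S →
      ∃ g : ↥(chart O (x1 H N0 q)⁻¹),
        (infPair hB).red1 g ∈ n.comap (ChartPair.φB hφB) ∧ (infPair hB).red2 g ∉ n)
    (n' n : Ideal ↥(chart k Y.J⁻¹)) (hn' : n'.IsMaximal) (hn : n.IsMaximal) :
    n'.comap (infPair hB).red1 = n.comap (infPair hB).red2
      ↔ n ∈ S ∧ n' = n.comap (ChartPair.φB hφB) :=
  (infPair hB).node_inf (self_mem_chart Y.J⁻¹) hB.hlift' hφB S hglue hsep n' n hn' hn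

end Fermat.Agent.S36.BranchX0
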