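/-
PROJECT V (S36), slice V-ChartsX0 (helper12): **the symmetric charts of chain v1.1 (E1) on the
concrete objects.**

`A` a valuation subring of `ℚ̄` over the prime `q`, `I := A.inertiaSubgroupIn ℚ` (written
literally), `K := fixedField I` (the inertia field `K₀`), `O₀ := SmallDVR.W A` (a discrete valuation
ring with uniformiser `q` and fraction field `K`), `F N := PowerBasisK0.FK I N = KummerNew.F0 I N`
(the `K₀`-form of the function field of `X₀(N)`), levels `N₀`, `N₁ = N₀ q`, `N₂ = N₀ q q`.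

* the `O₀`-algebra structures are those of helper10's `S36/ChartX0` (`FK0 A N`, `algebraW`,
  `chartX0`); scoped shortcut instances `algKF`, `moduleKF`, `smulKF` for `K → F N` (the default
  search needs ~10⁵ heartbeats);
* `jj0`, `jj1`, `jj2 : F N₂` (`j(t)`, `j(t^q)`, `j(t^(q²))`), `x0 N = j`, `x1 = j₀ j₁ : F N₁`,
  `x2 = j₀ j₁ j₂ : F N₂`, the families `fam1 = ![j₀, j₁]`, `fam2 = ![j₀, j₁, j₂]`;
* `transcendental_x0/x1/x2`, `finiteDimensional_x0/x1/x2` : each `x_i` is a parameter of `F N_i / K`,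
  so that `ChartRing.chart_props` applies to the six rings `chart O₀ x_i`, `chart O₀ x_i⁻¹`;
* `hint1`, `hint2` : the pairwise integrality of the families (Kronecker polynomial), the hypothesis
  of `S36/SymChart`; `fam1_ne_zero`, `fam2_ne_zero`;
* the `SymChart` corollaries: `jj_mem_chart_x2`, `inv_jj_mem_chart_inv_x2`, `mem_chart_x2_iff`
  (`chart O₀ x2 = chart O₀ j₀`), and the level maps `alphaK`, `betaK`, `a0`, `a1`, `a2` map charts to
  charts (both the finite and the infinite ones);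
* over `O₀ = W A`, in helper10's language (`FK0 A N`, `chartX0 A N φ`): `alphaK_algebraMap_W`,
  `betaK_algebraMap_W`, `a0/a1/a2_algebraMap_W` (the level maps are `O₀`-linear), `x1K0`, `x2K0`,
  `transcendental_x1K0`, `transcendental_x2K0` (feed `ChartX0.chartX0_props`,
  `ChartX0.chartData_chartX0`), `fam2_mem_chartX0`, `inv_fam2_mem_chartX0`, `mem_chartX0_x2_iff`,
  level `N₁` analogues, and `alphaK/betaK/a_mem_chartX0_*` (charts to charts).
-/
import Mathlib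
import Fermat.Agent.S18.C.SmallDVR
import Fermat.Agent.S36.GaussL
import Fermat.Agent.S36.PowerBasisK0
import Fermat.Agent.S36.MinpolyK0
import Fermat.Agent.S36.ChartRing
import Fermat.Agent.S36.ChartOverlap
import Fermat.Agent.S36.SymChart
import Fermat.Agent.S36.ChartX0

set_option autoImplicit false
set_option linter.unusedSectionVars false
set_option linter.style.haveILetI false
set_option linter.unusedVariables false

noncomputable section

namespace Fermat.Agent.S36.ChartsX0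

open Polynomial IntermediateField ModularCurve
open Fermat.Agent.S18.C.SmallDVR Fermat.Agent.S36.PowerBasisK0 Fermat.Agent.S36.MinpolyK0
open Fermat.Agent.S36.ChartRing Fermat.Agent.S36.SymChart

local notation "Kb" => AlgebraicClosure ℚ

/-! ### shortcut instances -/

section Shortcuts

variable (H : Subgroup (Kb ≃ₐ[ℚ] Kb)) (N : ℕ)

/-- shortcut (the instance found by the default search, which needs ~10⁵ heartbeats) -/
scoped instance (priority := high) algKF :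
    Algebra ↥(IntermediateField.fixedField H) (FK H N) :=
  SubalgebraClass.toAlgebra
    (laurentBaseChange ↥(IntermediateField.fixedField H) (modularFunctionFieldFull N))

scoped instance (priority := high) moduleKF :
    Module ↥(IntermediateField.fixedField H) (FK H N) := Algebra.toModule

scoped instance (priority := high) smulKF :
    SMul ↥(IntermediateField.fixedField H) (FK H N) := Algebra.toSMul

end Shortcuts


/-! ### generalities -/

section General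

/-- integrality over `ℤ[x]` is transported by ring homomorphisms of fields -/
theorem isIntegral_map {F' F : Type*} [Field F'] [Field F] (a : F' →+* F) {x y : F'}
    (h : IsIntegral (Algebra.adjoin ℤ ({x} : Set F')) y) :
    IsIntegral (Algebra.adjoin ℤ ({a x} : Set F)) (a y) :=
  map_mem_chart (O := ℤ) a (fun c => by simp) (isIntegral_adjoin_self (a x)) h

/-- the product of a pairwise integral family is transcendental as soon as one member is -/
theorem transcendental_prod {K F : Type*} [Field K] [Field F] [Algebra K F] {ι : Type*}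
    [Fintype ι] [DecidableEq ι] {j : ι → F}
    (hint : ∀ i k, IsIntegral (Algebra.adjoin K ({j i} : Set F)) (j k)) (i₀ : ι)
    (h : Transcendental K (j i₀)) : Transcendental K (∏ i, j i) := by
  intro halg
  apply h
  have h1 : IsIntegral (Algebra.adjoin K ({∏ i, j i} : Set F)) (j i₀) := mem_chart_prod hint i₀
  haveI : Algebra.IsIntegral K (Algebra.adjoin K ({∏ i, j i} : Set F)) :=
    Algebra.IsIntegral.adjoin (fun x hx => by
      rw [Set.mem_singleton_iff] at hx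
      rw [hx]
      exact halg.isIntegral)
  exact (isIntegral_trans (R := K) _ h1).isAlgebraic

end General

/-! ### the elements -/

section Elements

variable (H : Subgroup (Kb ≃ₐ[ℚ] Kb))

theorem alphaK_j0K (N ℓ : ℕ) [NeZero N] [NeZero ℓ] [NeZero (N * ℓ)] :
    alphaK H N ℓ (j0K H N) = j0K H (N * ℓ) := by
  apply Subtype.ext
  rw [coe_alphaK, coe_j0K, coe_j0K]

theorem j0K_eq_jL (N : ℕ) [NeZero N] :
    j0K H N = Fermat.Agent.S36.GaussL.jL ↥(IntermediateField.fixedField H) N := by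
  apply Subtype.ext
  rw [Fermat.Agent.S36.GaussL.coe_jL]
  rfl

theorem transcendental_j0K (N : ℕ) [NeZero N] :
    Transcendental ↥(IntermediateField.fixedField H) (j0K H N) := by
  rw [j0K_eq_jL]
  exact Fermat.Agent.S36.GaussL.transcendental_jL _ N

theorem finiteDimensional_j0K (N : ℕ) [NeZero N] :
    FiniteDimensional (↥(IntermediateField.fixedField H))⟮j0K H N⟯ (FK H N) := by
  rw [j0K_eq_jL]
  letI : Algebra ℚ ↥(modularFunctionFieldFull N) := Fermat.Agent.S28.DegreeQ.algF N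
  exact (Fermat.Agent.S36.GaussL.finrank_jL ↥(IntermediateField.fixedField H) N).1

theorem j0K_ne_zero (N : ℕ) [NeZero N] : j0K H N ≠ 0 := by
  intro h0
  apply transcendental_j0K H N
  rw [h0]
  exact isAlgebraic_zero

variable (N0 q : ℕ) [NeZero N0] [NeZero q] [NeZero (N0 * q)] [NeZero (N0 * q * q)]

/-- `j₀ = j(t) ∈ F N₂` -/
def jj0 : FK H (N0 * q * q) := j0K H (N0 * q * q)

/-- `j₁ = j(t^q) ∈ F N₂` -/
def jj1 : FK H (N0 * q * q) := alphaK H (N0 * q) q (j1K H N0 q)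

/-- `j₂ = j(t^(q²)) ∈ F N₂` -/
def jj2 : FK H (N0 * q * q) := j2K H N0 q

theorem jj0_eq_alpha : jj0 H N0 q = alphaK H (N0 * q) q (j0K H (N0 * q)) :=
  (alphaK_j0K H (N0 * q) q).symm

theorem jj1_eq_beta : jj1 H N0 q = betaK H (N0 * q) q (j0K H (N0 * q)) := by
  apply Subtype.ext
  rw [jj1, coe_alphaK, j1K, coe_betaK, coe_betaK, coe_j0K, coe_j0K]

theorem jj2_eq_beta : jj2 H N0 q = betaK H (N0 * q) q (j1K H N0 q) := rfl

/-- `x₁ = j₀ j₁ ∈ F N₁` -/
def x1 : FK H (N0 * q) := j0K H (N0 * q) * j1K H N0 q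

/-- `x₂ = j₀ j₁ j₂ ∈ F N₂` -/
def x2 : FK H (N0 * q * q) := jj0 H N0 q * jj1 H N0 q * jj2 H N0 q

/-- the family `(j₀, j₁)` at level `N₁` -/
def fam1 : Fin 2 → FK H (N0 * q) := ![j0K H (N0 * q), j1K H N0 q]

/-- the family `(j₀, j₁, j₂)` at level `N₂` -/
def fam2 : Fin 3 → FK H (N0 * q * q) := ![jj0 H N0 q, jj1 H N0 q, jj2 H N0 q]

theorem prod_fam1 : ∏ i, fam1 H N0 q i = x1 H N0 q := prod_two _ _

theorem prod_fam2 : ∏ i, fam2 H N0 q i = x2 H N0 q := prod_three _ _ _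

theorem j1K_ne_zero : j1K H N0 q ≠ 0 := by
  rw [j1K, Ne, map_eq_zero]
  exact j0K_ne_zero H N0

theorem jj0_ne_zero : jj0 H N0 q ≠ 0 := j0K_ne_zero H _

theorem jj1_ne_zero : jj1 H N0 q ≠ 0 := by
  rw [jj1, Ne, map_eq_zero]
  exact j1K_ne_zero H N0 q

theorem jj2_ne_zero : jj2 H N0 q ≠ 0 := by
  rw [jj2, j2K, Ne, map_eq_zero]
  exact j1K_ne_zero H N0 q

theorem fam1_ne_zero (i : Fin 2) : fam1 H N0 q i ≠ 0 := by
  fin_cases i
  · exact j0K_ne_zero H _
  · exact j1K_ne_zero H N0 q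

theorem fam2_ne_zero (i : Fin 3) : fam2 H N0 q i ≠ 0 := by
  fin_cases i
  · exact jj0_ne_zero H N0 q
  · exact jj1_ne_zero H N0 q
  · exact jj2_ne_zero H N0 q

end Elements

/-! ### pairwise integrality (Kronecker's polynomial) -/

section Integral

open Fermat.Agent.S28.ModPoly

variable (H : Subgroup (Kb ≃ₐ[ℚ] Kb))
variable {N0 q : ℕ} [NeZero N0] [NeZero q] [NeZero (N0 * q)] [NeZero (N0 * q * q)]

theorem intEval_eq_aeval {N : ℕ} (x : FK H N) :
    intEval H x = ((aeval x : Polynomial ℤ →ₐ[ℤ] FK H N) : Polynomial ℤ →+* FK H N) := by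
  apply Polynomial.ringHom_ext
  · intro a
    simp [intEval]
  · simp [intEval]

variable {Φ : Polynomial (Polynomial ℤ)} (hmonic : Φ.Monic)
  (hΦ : Φ.map (evalL ℤ (jqModC ℤ)) = rPoly q ℤ)

include hmonic hΦ

/-- `j₁` is integral over `ℤ[j₀]` (level `N₁`) -/
theorem isIntegral_j1K_int :
    IsIntegral (Algebra.adjoin ℤ ({j0K H (N0 * q)} : Set (FK H (N0 * q)))) (j1K H N0 q) := by
  refine isIntegral_adjoin_of_eval Φ hmonic _ _ ?_
  rw [← intEval_eq_aeval]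
  change (phiK H Φ (j0K H (N0 * q))).eval (j1K H N0 q) = 0
  rw [phiK_eq_beta H hΦ, eval_mul, eval_sub, eval_X, eval_C, sub_self, zero_mul]

/-- `j₀` is integral over `ℤ[j₁]` (level `N₁`) -/
theorem isIntegral_j0K_int (hq : q.Prime) :
    IsIntegral (Algebra.adjoin ℤ ({j1K H N0 q} : Set (FK H (N0 * q)))) (j0K H (N0 * q)) := by
  refine isIntegral_adjoin_of_eval Φ hmonic _ _ ?_
  rw [← intEval_eq_aeval]
  change (phiK H Φ (j1K H N0 q)).eval (j0K H (N0 * q)) = 0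
  rw [phiK_eq_alpha H hq hΦ, eval_mul, eval_sub, eval_X, eval_C, sub_self, zero_mul]

/-- the pairwise integrality of `(j₀, j₁)` over `ℤ` -/
theorem hint1_int (hq : q.Prime) (i k : Fin 2) :
    IsIntegral (Algebra.adjoin ℤ ({fam1 H N0 q i} : Set (FK H (N0 * q)))) (fam1 H N0 q k) :=
  pairwise_two (isIntegral_j1K_int H hmonic hΦ) (isIntegral_j0K_int H hmonic hΦ hq) i k

theorem isIntegral_jj1_jj0 :
    IsIntegral (Algebra.adjoin ℤ ({jj0 H N0 q} : Set (FK H (N0 * q * q)))) (jj1 H N0 q) := by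
  rw [jj0_eq_alpha, jj1]
  exact isIntegral_map _ (isIntegral_j1K_int H hmonic hΦ)

theorem isIntegral_jj0_jj1 (hq : q.Prime) :
    IsIntegral (Algebra.adjoin ℤ ({jj1 H N0 q} : Set (FK H (N0 * q * q)))) (jj0 H N0 q) := by
  rw [jj0_eq_alpha, jj1]
  exact isIntegral_map _ (isIntegral_j0K_int H hmonic hΦ hq)

theorem isIntegral_jj2_jj1 :
    IsIntegral (Algebra.adjoin ℤ ({jj1 H N0 q} : Set (FK H (N0 * q * q)))) (jj2 H N0 q) := by
  rw [jj1_eq_beta, jj2_eq_beta]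
  exact isIntegral_map _ (isIntegral_j1K_int H hmonic hΦ)

theorem isIntegral_jj1_jj2 (hq : q.Prime) :
    IsIntegral (Algebra.adjoin ℤ ({jj2 H N0 q} : Set (FK H (N0 * q * q)))) (jj1 H N0 q) := by
  rw [jj1_eq_beta, jj2_eq_beta]
  exact isIntegral_map _ (isIntegral_j0K_int H hmonic hΦ hq)

/-- the pairwise integrality of `(j₀, j₁, j₂)` over `ℤ` -/
theorem hint2_int (hq : q.Prime) (i k : Fin 3) :
    IsIntegral (Algebra.adjoin ℤ ({fam2 H N0 q i} : Set (FK H (N0 * q * q)))) (fam2 H N0 q k) :=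
  pairwise_three (isIntegral_jj1_jj0 H hmonic hΦ)
    (isIntegral_adjoin_trans (isIntegral_jj1_jj0 H hmonic hΦ) (isIntegral_jj2_jj1 H hmonic hΦ))
    (isIntegral_jj0_jj1 H hmonic hΦ hq) (isIntegral_jj2_jj1 H hmonic hΦ)
    (isIntegral_adjoin_trans (isIntegral_jj1_jj2 H hmonic hΦ hq)
      (isIntegral_jj0_jj1 H hmonic hΦ hq))
    (isIntegral_jj1_jj2 H hmonic hΦ hq) i k

/-- the pairwise integrality of `(j₀, j₁)` over any base ring -/
theorem hint1 (hq : q.Prime) (O : Type*) [CommRing O] [Algebra O (FK H (N0 * q))] (i k : Fin 2) :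
    IsIntegral (Algebra.adjoin O ({fam1 H N0 q i} : Set (FK H (N0 * q)))) (fam1 H N0 q k) :=
  isIntegral_adjoin_of_int (hint1_int H hmonic hΦ hq i k)

/-- the pairwise integrality of `(j₀, j₁, j₂)` over any base ring -/
theorem hint2 (hq : q.Prime) (O : Type*) [CommRing O] [Algebra O (FK H (N0 * q * q))]
    (i k : Fin 3) :
    IsIntegral (Algebra.adjoin O ({fam2 H N0 q i} : Set (FK H (N0 * q * q)))) (fam2 H N0 q k) :=
  isIntegral_adjoin_of_int (hint2_int H hmonic hΦ hq i k)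

end Integral

/-! ### the `x_i` are parameters -/

section Params

open Fermat.Agent.S28.ModPoly

variable (H : Subgroup (Kb ≃ₐ[ℚ] Kb))
variable {N0 q : ℕ} [NeZero N0] [NeZero q] [NeZero (N0 * q)] [NeZero (N0 * q * q)]

theorem transcendental_inv' {K F : Type*} [Field K] [Field F] [Algebra K F] {φ : F}
    (hφ : Transcendental K φ) : Transcendental K φ⁻¹ := by
  intro h
  exact hφ (by simpa using h.inv)

variable {Φ : Polynomial (Polynomial ℤ)} (hmonic : Φ.Monic)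
  (hΦ : Φ.map (evalL ℤ (jqModC ℤ)) = rPoly q ℤ)

include hmonic hΦ

theorem transcendental_x1 (hq : q.Prime) :
    Transcendental ↥(IntermediateField.fixedField H) (x1 H N0 q) := by
  rw [← prod_fam1]
  exact transcendental_prod (hint1 H hmonic hΦ hq _) 0 (transcendental_j0K H (N0 * q))

theorem transcendental_x2 (hq : q.Prime) :
    Transcendental ↥(IntermediateField.fixedField H) (x2 H N0 q) := by
  rw [← prod_fam2]
  exact transcendental_prod (hint2 H hmonic hΦ hq _) 0 (transcendental_j0K H (N0 * q * q))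

theorem finiteDimensional_x1 (hq : q.Prime) :
    FiniteDimensional (↥(IntermediateField.fixedField H))⟮x1 H N0 q⟯ (FK H (N0 * q)) := by
  haveI := finiteDimensional_j0K H (N0 * q)
  exact finiteDimensional_of_transcendental (j0K H (N0 * q)) _ (transcendental_x1 H hmonic hΦ hq)

theorem finiteDimensional_x2 (hq : q.Prime) :
    FiniteDimensional (↥(IntermediateField.fixedField H))⟮x2 H N0 q⟯ (FK H (N0 * q * q)) := by
  haveI := finiteDimensional_j0K H (N0 * q * q)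
  exact finiteDimensional_of_transcendental (j0K H (N0 * q * q)) _
    (transcendental_x2 H hmonic hΦ hq)

theorem finiteDimensional_x1_inv (hq : q.Prime) :
    FiniteDimensional (↥(IntermediateField.fixedField H))⟮(x1 H N0 q)⁻¹⟯ (FK H (N0 * q)) := by
  haveI := finiteDimensional_j0K H (N0 * q)
  exact finiteDimensional_of_transcendental (j0K H (N0 * q)) _
    (transcendental_inv' (transcendental_x1 H hmonic hΦ hq))

theorem finiteDimensional_x2_inv (hq : q.Prime) :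
    FiniteDimensional (↥(IntermediateField.fixedField H))⟮(x2 H N0 q)⁻¹⟯ (FK H (N0 * q * q)) := by
  haveI := finiteDimensional_j0K H (N0 * q * q)
  exact finiteDimensional_of_transcendental (j0K H (N0 * q * q)) _
    (transcendental_inv' (transcendental_x2 H hmonic hΦ hq))

omit hmonic hΦ in
theorem finiteDimensional_j0K_inv (N : ℕ) [NeZero N] :
    FiniteDimensional (↥(IntermediateField.fixedField H))⟮(j0K H N)⁻¹⟯ (FK H N) := by
  haveI := finiteDimensional_j0K H N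
  exact finiteDimensional_of_transcendental (j0K H N) _
    (transcendental_inv' (transcendental_j0K H N))

end Params

/-! ### the level maps on the families -/

section LevelMaps

variable (H : Subgroup (Kb ≃ₐ[ℚ] Kb))
variable (N0 q : ℕ) [NeZero N0] [NeZero q] [NeZero (N0 * q)] [NeZero (N0 * q * q)]

/-- `a₀ = α α : F N₀ → F N₂`, `g ↦ g(t)` -/
def a0 : FK H N0 →+* FK H (N0 * q * q) := (alphaK H (N0 * q) q).comp (alphaK H N0 q)

/-- `a₁ = α β : F N₀ → F N₂`, `g ↦ g(t^q)` -/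
def a1 : FK H N0 →+* FK H (N0 * q * q) := (alphaK H (N0 * q) q).comp (betaK H N0 q)

/-- `a₂ = β β : F N₀ → F N₂`, `g ↦ g(t^(q²))` -/
def a2 : FK H N0 →+* FK H (N0 * q * q) := (betaK H (N0 * q) q).comp (betaK H N0 q)

theorem a1_eq : a1 H N0 q = (betaK H (N0 * q) q).comp (alphaK H N0 q) := by
  refine RingHom.ext fun x => Subtype.ext ?_
  rw [a1, RingHom.comp_apply, RingHom.comp_apply, coe_alphaK, coe_betaK, coe_betaK, coe_alphaK]

theorem a0_j0K : a0 H N0 q (j0K H N0) = jj0 H N0 q := by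
  rw [a0, RingHom.comp_apply, alphaK_j0K, alphaK_j0K]
  rfl

theorem a1_j0K : a1 H N0 q (j0K H N0) = jj1 H N0 q := rfl

theorem a2_j0K : a2 H N0 q (j0K H N0) = jj2 H N0 q := rfl

theorem alphaK_x0_eq : alphaK H N0 q (j0K H N0) = ∏ i ∈ ({0} : Finset (Fin 2)), fam1 H N0 q i := by
  rw [Finset.prod_singleton, alphaK_j0K]
  rfl

theorem betaK_x0_eq : betaK H N0 q (j0K H N0) = ∏ i ∈ ({1} : Finset (Fin 2)), fam1 H N0 q i := by
  rw [Finset.prod_singleton]
  rfl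

theorem alphaK_x1_eq :
    alphaK H (N0 * q) q (x1 H N0 q) = ∏ i ∈ ({0, 1} : Finset (Fin 3)), fam2 H N0 q i := by
  rw [Finset.prod_pair (by decide), x1, map_mul, alphaK_j0K]
  rfl

theorem betaK_x1_eq :
    betaK H (N0 * q) q (x1 H N0 q) = ∏ i ∈ ({1, 2} : Finset (Fin 3)), fam2 H N0 q i := by
  rw [Finset.prod_pair (by decide), x1, map_mul, ← jj1_eq_beta]
  rfl

theorem a0_x0_eq : a0 H N0 q (j0K H N0) = ∏ i ∈ ({0} : Finset (Fin 3)), fam2 H N0 q i := by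
  rw [Finset.prod_singleton, a0_j0K]
  rfl

theorem a1_x0_eq : a1 H N0 q (j0K H N0) = ∏ i ∈ ({1} : Finset (Fin 3)), fam2 H N0 q i := by
  rw [Finset.prod_singleton]
  rfl

theorem a2_x0_eq : a2 H N0 q (j0K H N0) = ∏ i ∈ ({2} : Finset (Fin 3)), fam2 H N0 q i := by
  rw [Finset.prod_singleton]
  rfl

/-- the level maps are `K`-linear -/
theorem alphaK_algebraMap (N ℓ : ℕ) [NeZero N] [NeZero ℓ]
    (c : ↥(IntermediateField.fixedField H)) :
    alphaK H N ℓ (algebraMap ↥(IntermediateField.fixedField H) (FK H N) c) =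
      algebraMap ↥(IntermediateField.fixedField H) (FK H (N * ℓ)) c :=
  (heckeAlphaBar (↥(IntermediateField.fixedField H)) N ℓ).commutes c

theorem betaK_algebraMap (N ℓ : ℕ) [NeZero N] [NeZero ℓ]
    (c : ↥(IntermediateField.fixedField H)) :
    betaK H N ℓ (algebraMap ↥(IntermediateField.fixedField H) (FK H N) c) =
      algebraMap ↥(IntermediateField.fixedField H) (FK H (N * ℓ)) c :=
  (heckeBetaBar (↥(IntermediateField.fixedField H)) N ℓ).commutes c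

end LevelMaps

/-! ### final forms: no modular polynomial in the statements -/

section Final

variable (H : Subgroup (Kb ≃ₐ[ℚ] Kb))
variable {N0 q : ℕ} [NeZero N0] [NeZero q] [NeZero (N0 * q)] [NeZero (N0 * q * q)]

/-- **pairwise integrality of `(j₀, j₁)`** over any base ring -/
theorem hint1' (hq : q.Prime) (O : Type*) [CommRing O] [Algebra O (FK H (N0 * q))]
    (i k : Fin 2) :
    IsIntegral (Algebra.adjoin O ({fam1 H N0 q i} : Set (FK H (N0 * q)))) (fam1 H N0 q k) := by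
  obtain ⟨Φ, hmonic, -, hΦ⟩ := Fermat.Agent.S28.ModPolyPrime.exists_PhiZ q hq
  exact hint1 H hmonic hΦ hq O i k

/-- **pairwise integrality of `(j₀, j₁, j₂)`** over any base ring -/
theorem hint2' (hq : q.Prime) (O : Type*) [CommRing O] [Algebra O (FK H (N0 * q * q))]
    (i k : Fin 3) :
    IsIntegral (Algebra.adjoin O ({fam2 H N0 q i} : Set (FK H (N0 * q * q))))
      (fam2 H N0 q k) := by
  obtain ⟨Φ, hmonic, -, hΦ⟩ := Fermat.Agent.S28.ModPolyPrime.exists_PhiZ q hq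
  exact hint2 H hmonic hΦ hq O i k

theorem transcendental_x1' (hq : q.Prime) :
    Transcendental ↥(IntermediateField.fixedField H) (x1 H N0 q) := by
  obtain ⟨Φ, hmonic, -, hΦ⟩ := Fermat.Agent.S28.ModPolyPrime.exists_PhiZ q hq
  exact transcendental_x1 H hmonic hΦ hq

theorem transcendental_x2' (hq : q.Prime) :
    Transcendental ↥(IntermediateField.fixedField H) (x2 H N0 q) := by
  obtain ⟨Φ, hmonic, -, hΦ⟩ := Fermat.Agent.S28.ModPolyPrime.exists_PhiZ q hq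
  exact transcendental_x2 H hmonic hΦ hq

theorem finiteDimensional_x1' (hq : q.Prime) :
    FiniteDimensional (↥(IntermediateField.fixedField H))⟮x1 H N0 q⟯ (FK H (N0 * q)) := by
  obtain ⟨Φ, hmonic, -, hΦ⟩ := Fermat.Agent.S28.ModPolyPrime.exists_PhiZ q hq
  exact finiteDimensional_x1 H hmonic hΦ hq

theorem finiteDimensional_x2' (hq : q.Prime) :
    FiniteDimensional (↥(IntermediateField.fixedField H))⟮x2 H N0 q⟯ (FK H (N0 * q * q)) := by
  obtain ⟨Φ, hmonic, -, hΦ⟩ := Fermat.Agent.S28.ModPolyPrime.exists_PhiZ q hq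
  exact finiteDimensional_x2 H hmonic hΦ hq

theorem finiteDimensional_x1_inv' (hq : q.Prime) :
    FiniteDimensional (↥(IntermediateField.fixedField H))⟮(x1 H N0 q)⁻¹⟯ (FK H (N0 * q)) := by
  obtain ⟨Φ, hmonic, -, hΦ⟩ := Fermat.Agent.S28.ModPolyPrime.exists_PhiZ q hq
  exact finiteDimensional_x1_inv H hmonic hΦ hq

theorem finiteDimensional_x2_inv' (hq : q.Prime) :
    FiniteDimensional (↥(IntermediateField.fixedField H))⟮(x2 H N0 q)⁻¹⟯
      (FK H (N0 * q * q)) := by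
  obtain ⟨Φ, hmonic, -, hΦ⟩ := Fermat.Agent.S28.ModPolyPrime.exists_PhiZ q hq
  exact finiteDimensional_x2_inv H hmonic hΦ hq

variable (O : Type*) [CommRing O]

/-! #### level `N₂` -/

section Level2

variable [Algebra O (FK H (N0 * q * q))]

/-- `j₀, j₁, j₂ ∈ Afin₂` -/
theorem fam2_mem_chart_x2 (hq : q.Prime) (k : Fin 3) :
    fam2 H N0 q k ∈ chart O (x2 H N0 q) := by
  rw [← prod_fam2]
  exact mem_chart_prod (hint2' H hq O) k

/-- `1/j₀, 1/j₁, 1/j₂ ∈ Ainf₂` -/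
theorem inv_fam2_mem_chart_inv_x2 (hq : q.Prime) (k : Fin 3) :
    (fam2 H N0 q k)⁻¹ ∈ chart O (x2 H N0 q)⁻¹ := by
  rw [← prod_fam2]
  exact inv_mem_chart_inv_prod (hint2' H hq O) (fam2_ne_zero H N0 q) k

/-- `Afin₂ = chart O j_k` as sets, for each of `j₀, j₁, j₂` -/
theorem mem_chart_x2_iff (hq : q.Prime) (k : Fin 3) (x : FK H (N0 * q * q)) :
    x ∈ chart O (x2 H N0 q) ↔ x ∈ chart O (fam2 H N0 q k) := by
  rw [← prod_fam2]
  exact mem_chart_prod_iff (hint2' H hq O) k x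

/-- a valuation subring containing `O` and `x₂` contains `j₀, j₁, j₂` -/
theorem fam2_mem_of_x2_mem (hq : q.Prime) (W : ValuationSubring (FK H (N0 * q * q)))
    (hO : ∀ c : O, algebraMap O (FK H (N0 * q * q)) c ∈ W) (hx : x2 H N0 q ∈ W) (k : Fin 3) :
    fam2 H N0 q k ∈ W := by
  rw [← prod_fam2] at hx
  exact mem_of_prod_mem (hint2' H hq O) W hO hx k

/-- a valuation subring containing `O` and `1/x₂` contains `1/j₀, 1/j₁, 1/j₂` -/
theorem inv_fam2_mem_of_inv_x2_mem (hq : q.Prime) (W : ValuationSubring (FK H (N0 * q * q)))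
    (hO : ∀ c : O, algebraMap O (FK H (N0 * q * q)) c ∈ W) (hx : (x2 H N0 q)⁻¹ ∈ W)
    (k : Fin 3) : (fam2 H N0 q k)⁻¹ ∈ W := by
  rw [← prod_fam2] at hx
  exact inv_mem_of_inv_prod_mem (hint2' H hq O) (fam2_ne_zero H N0 q) W hO hx k

end Level2

/-! #### level `N₁` -/

section Level1

variable [Algebra O (FK H (N0 * q))]

theorem fam1_mem_chart_x1 (hq : q.Prime) (k : Fin 2) :
    fam1 H N0 q k ∈ chart O (x1 H N0 q) := by
  rw [← prod_fam1]
  exact mem_chart_prod (hint1' H hq O) k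

theorem inv_fam1_mem_chart_inv_x1 (hq : q.Prime) (k : Fin 2) :
    (fam1 H N0 q k)⁻¹ ∈ chart O (x1 H N0 q)⁻¹ := by
  rw [← prod_fam1]
  exact inv_mem_chart_inv_prod (hint1' H hq O) (fam1_ne_zero H N0 q) k

theorem mem_chart_x1_iff (hq : q.Prime) (k : Fin 2) (x : FK H (N0 * q)) :
    x ∈ chart O (x1 H N0 q) ↔ x ∈ chart O (fam1 H N0 q k) := by
  rw [← prod_fam1]
  exact mem_chart_prod_iff (hint1' H hq O) k x

theorem fam1_mem_of_x1_mem (hq : q.Prime) (W : ValuationSubring (FK H (N0 * q)))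
    (hO : ∀ c : O, algebraMap O (FK H (N0 * q)) c ∈ W) (hx : x1 H N0 q ∈ W) (k : Fin 2) :
    fam1 H N0 q k ∈ W := by
  rw [← prod_fam1] at hx
  exact mem_of_prod_mem (hint1' H hq O) W hO hx k

theorem inv_fam1_mem_of_inv_x1_mem (hq : q.Prime) (W : ValuationSubring (FK H (N0 * q)))
    (hO : ∀ c : O, algebraMap O (FK H (N0 * q)) c ∈ W) (hx : (x1 H N0 q)⁻¹ ∈ W)
    (k : Fin 2) : (fam1 H N0 q k)⁻¹ ∈ W := by
  rw [← prod_fam1] at hx
  exact inv_mem_of_inv_prod_mem (hint1' H hq O) (fam1_ne_zero H N0 q) W hO hx k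

end Level1

/-! #### the level maps preserve the charts -/

section Maps

variable [Algebra O (FK H N0)] [Algebra O (FK H (N0 * q))] [Algebra O (FK H (N0 * q * q))]

/-- `α : Afin₀ → Afin₁` -/
theorem alphaK_mem_chart_x1 (hq : q.Prime)
    (hα : ∀ c : O, alphaK H N0 q (algebraMap O _ c) = algebraMap O _ c) {y : FK H N0}
    (hy : y ∈ chart O (j0K H N0)) : alphaK H N0 q y ∈ chart O (x1 H N0 q) := by
  rw [← prod_fam1]
  exact map_mem_chart_prod (hint1' H hq O) _ hα _ (alphaK_x0_eq H N0 q) hy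

/-- `α : Ainf₀ → Ainf₁` -/
theorem alphaK_mem_chart_inv_x1 (hq : q.Prime)
    (hα : ∀ c : O, alphaK H N0 q (algebraMap O _ c) = algebraMap O _ c) {y : FK H N0}
    (hy : y ∈ chart O (j0K H N0)⁻¹) : alphaK H N0 q y ∈ chart O (x1 H N0 q)⁻¹ := by
  rw [← prod_fam1]
  exact map_mem_chart_inv_prod (hint1' H hq O) (fam1_ne_zero H N0 q) _ hα _
    (alphaK_x0_eq H N0 q) hy

/-- `β : Afin₀ → Afin₁` -/
theorem betaK_mem_chart_x1 (hq : q.Prime)
    (hβ : ∀ c : O, betaK H N0 q (algebraMap O _ c) = algebraMap O _ c) {y : FK H N0}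
    (hy : y ∈ chart O (j0K H N0)) : betaK H N0 q y ∈ chart O (x1 H N0 q) := by
  rw [← prod_fam1]
  exact map_mem_chart_prod (hint1' H hq O) _ hβ _ (betaK_x0_eq H N0 q) hy

/-- `β : Ainf₀ → Ainf₁` -/
theorem betaK_mem_chart_inv_x1 (hq : q.Prime)
    (hβ : ∀ c : O, betaK H N0 q (algebraMap O _ c) = algebraMap O _ c) {y : FK H N0}
    (hy : y ∈ chart O (j0K H N0)⁻¹) : betaK H N0 q y ∈ chart O (x1 H N0 q)⁻¹ := by
  rw [← prod_fam1]
  exact map_mem_chart_inv_prod (hint1' H hq O) (fam1_ne_zero H N0 q) _ hβ _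
    (betaK_x0_eq H N0 q) hy

/-- `α : Afin₁ → Afin₂` -/
theorem alphaK_mem_chart_x2 (hq : q.Prime)
    (hα : ∀ c : O, alphaK H (N0 * q) q (algebraMap O _ c) = algebraMap O _ c)
    {y : FK H (N0 * q)} (hy : y ∈ chart O (x1 H N0 q)) :
    alphaK H (N0 * q) q y ∈ chart O (x2 H N0 q) := by
  rw [← prod_fam2]
  exact map_mem_chart_prod (hint2' H hq O) _ hα _ (alphaK_x1_eq H N0 q) hy

/-- `α : Ainf₁ → Ainf₂` -/
theorem alphaK_mem_chart_inv_x2 (hq : q.Prime)
    (hα : ∀ c : O, alphaK H (N0 * q) q (algebraMap O _ c) = algebraMap O _ c)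
    {y : FK H (N0 * q)} (hy : y ∈ chart O (x1 H N0 q)⁻¹) :
    alphaK H (N0 * q) q y ∈ chart O (x2 H N0 q)⁻¹ := by
  rw [← prod_fam2]
  exact map_mem_chart_inv_prod (hint2' H hq O) (fam2_ne_zero H N0 q) _ hα _
    (alphaK_x1_eq H N0 q) hy

/-- `β : Afin₁ → Afin₂` -/
theorem betaK_mem_chart_x2 (hq : q.Prime)
    (hβ : ∀ c : O, betaK H (N0 * q) q (algebraMap O _ c) = algebraMap O _ c)
    {y : FK H (N0 * q)} (hy : y ∈ chart O (x1 H N0 q)) :
    betaK H (N0 * q) q y ∈ chart O (x2 H N0 q) := by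
  rw [← prod_fam2]
  exact map_mem_chart_prod (hint2' H hq O) _ hβ _ (betaK_x1_eq H N0 q) hy

/-- `β : Ainf₁ → Ainf₂` -/
theorem betaK_mem_chart_inv_x2 (hq : q.Prime)
    (hβ : ∀ c : O, betaK H (N0 * q) q (algebraMap O _ c) = algebraMap O _ c)
    {y : FK H (N0 * q)} (hy : y ∈ chart O (x1 H N0 q)⁻¹) :
    betaK H (N0 * q) q y ∈ chart O (x2 H N0 q)⁻¹ := by
  rw [← prod_fam2]
  exact map_mem_chart_inv_prod (hint2' H hq O) (fam2_ne_zero H N0 q) _ hβ _
    (betaK_x1_eq H N0 q) hy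

/-- `a_i : Afin₀ → Afin₂` (`a = a₀, a₁, a₂` with `a j = j_i`) -/
theorem a_mem_chart_x2 (hq : q.Prime) (a : FK H N0 →+* FK H (N0 * q * q))
    (ha : ∀ c : O, a (algebraMap O _ c) = algebraMap O _ c) (i : Fin 3)
    (hai : a (j0K H N0) = fam2 H N0 q i) {y : FK H N0} (hy : y ∈ chart O (j0K H N0)) :
    a y ∈ chart O (x2 H N0 q) := by
  rw [← prod_fam2]
  exact map_mem_chart_prod (hint2' H hq O) a ha {i} (by rw [Finset.prod_singleton, hai]) hy

/-- `a_i : Ainf₀ → Ainf₂` -/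
theorem a_mem_chart_inv_x2 (hq : q.Prime) (a : FK H N0 →+* FK H (N0 * q * q))
    (ha : ∀ c : O, a (algebraMap O _ c) = algebraMap O _ c) (i : Fin 3)
    (hai : a (j0K H N0) = fam2 H N0 q i) {y : FK H N0} (hy : y ∈ chart O (j0K H N0)⁻¹) :
    a y ∈ chart O (x2 H N0 q)⁻¹ := by
  rw [← prod_fam2]
  exact map_mem_chart_inv_prod (hint2' H hq O) (fam2_ne_zero H N0 q) a ha {i}
    (by rw [Finset.prod_singleton, hai]) hy

end Maps

end Final

/-! ### over `O₀ = W A`, in the language of `S36/ChartX0` (helper10) -/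

section Concrete

open Fermat.Agent.S36.ChartX0

variable {q : ℕ} [hq : Fact q.Prime] (A : ValuationSubring Kb)

/-- helper10's `O₀`-algebra structure, on the type written as `PowerBasisK0.FK` -/
local instance algWFK (N : ℕ) : Algebra ↥(W A) (FK (A.inertiaSubgroupIn ℚ) N) := algebraW A N

omit hq in
/-- `α` is `O₀`-linear -/
theorem alphaK_algebraMap_W (N ℓ : ℕ) [NeZero N] [NeZero ℓ] (c : ↥(W A)) :
    alphaK (A.inertiaSubgroupIn ℚ) N ℓ (algebraMap ↥(W A) (FK0 A N) c) =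
      algebraMap ↥(W A) (FK0 A (N * ℓ)) c := by
  rw [algebraMap_W_apply, algebraMap_W_apply]
  exact alphaK_algebraMap (A.inertiaSubgroupIn ℚ) N ℓ _

omit hq in
/-- `β` is `O₀`-linear -/
theorem betaK_algebraMap_W (N ℓ : ℕ) [NeZero N] [NeZero ℓ] (c : ↥(W A)) :
    betaK (A.inertiaSubgroupIn ℚ) N ℓ (algebraMap ↥(W A) (FK0 A N) c) =
      algebraMap ↥(W A) (FK0 A (N * ℓ)) c := by
  rw [algebraMap_W_apply, algebraMap_W_apply]
  exact betaK_algebraMap (A.inertiaSubgroupIn ℚ) N ℓ _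

variable (N0 : ℕ) [NeZero N0] [NeZero q] [NeZero (N0 * q)] [NeZero (N0 * q * q)]

omit hq in
theorem a0_algebraMap_W (c : ↥(W A)) :
    a0 (A.inertiaSubgroupIn ℚ) N0 q (algebraMap ↥(W A) (FK0 A N0) c) =
      algebraMap ↥(W A) (FK0 A (N0 * q * q)) c :=
  (congrArg (alphaK (A.inertiaSubgroupIn ℚ) (N0 * q) q) (alphaK_algebraMap_W A N0 q c)).trans
    (alphaK_algebraMap_W A (N0 * q) q c)

omit hq in
theorem a1_algebraMap_W (c : ↥(W A)) :
    a1 (A.inertiaSubgroupIn ℚ) N0 q (algebraMap ↥(W A) (FK0 A N0) c) =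
      algebraMap ↥(W A) (FK0 A (N0 * q * q)) c :=
  (congrArg (alphaK (A.inertiaSubgroupIn ℚ) (N0 * q) q) (betaK_algebraMap_W A N0 q c)).trans
    (alphaK_algebraMap_W A (N0 * q) q c)

omit hq in
theorem a2_algebraMap_W (c : ↥(W A)) :
    a2 (A.inertiaSubgroupIn ℚ) N0 q (algebraMap ↥(W A) (FK0 A N0) c) =
      algebraMap ↥(W A) (FK0 A (N0 * q * q)) c :=
  (congrArg (betaK (A.inertiaSubgroupIn ℚ) (N0 * q) q) (betaK_algebraMap_W A N0 q c)).trans
    (betaK_algebraMap_W A (N0 * q) q c)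

/-- `x₁ ∈ FK0 A N₁` (helper10's type) -/
abbrev x1K0 : FK0 A (N0 * q) := x1 (A.inertiaSubgroupIn ℚ) N0 q

/-- `x₂ ∈ FK0 A N₂` (helper10's type) -/
abbrev x2K0 : FK0 A (N0 * q * q) := x2 (A.inertiaSubgroupIn ℚ) N0 q

/-- `x₁` is a parameter of `FK0 A N₁` -/
theorem transcendental_x1K0 : Transcendental ↥(K0 A) (x1K0 (q := q) A N0) :=
  transcendental_x1' (A.inertiaSubgroupIn ℚ) hq.out

/-- `x₂` is a parameter of `FK0 A N₂` -/
theorem transcendental_x2K0 : Transcendental ↥(K0 A) (x2K0 (q := q) A N0) :=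
  transcendental_x2' (A.inertiaSubgroupIn ℚ) hq.out

/-- `j₀, j₁, j₂ ∈ Afin₂` -/
theorem fam2_mem_chartX0 (k : Fin 3) :
    (fam2 (A.inertiaSubgroupIn ℚ) N0 q k : FK0 A (N0 * q * q)) ∈
      chartX0 A (N0 * q * q) (x2 (A.inertiaSubgroupIn ℚ) N0 q) :=
  fam2_mem_chart_x2 (A.inertiaSubgroupIn ℚ) ↥(W A) hq.out k

/-- `1/j₀, 1/j₁, 1/j₂ ∈ Ainf₂` -/
theorem inv_fam2_mem_chartX0 (k : Fin 3) :
    (fam2 (A.inertiaSubgroupIn ℚ) N0 q k : FK0 A (N0 * q * q))⁻¹ ∈
      chartX0 A (N0 * q * q) (x2 (A.inertiaSubgroupIn ℚ) N0 q)⁻¹ :=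
  inv_fam2_mem_chart_inv_x2 (A.inertiaSubgroupIn ℚ) ↥(W A) hq.out k

/-- `Afin₂ = chart O₀ j_k` as sets -/
theorem mem_chartX0_x2_iff (k : Fin 3) (x : FK0 A (N0 * q * q)) :
    x ∈ chartX0 A (N0 * q * q) (x2 (A.inertiaSubgroupIn ℚ) N0 q) ↔
      x ∈ chartX0 A (N0 * q * q) (fam2 (A.inertiaSubgroupIn ℚ) N0 q k) :=
  mem_chart_x2_iff (A.inertiaSubgroupIn ℚ) ↥(W A) hq.out k x

/-- `j₀, j₁ ∈ Afin₁` -/
theorem fam1_mem_chartX0 (k : Fin 2) :
    (fam1 (A.inertiaSubgroupIn ℚ) N0 q k : FK0 A (N0 * q)) ∈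
      chartX0 A (N0 * q) (x1 (A.inertiaSubgroupIn ℚ) N0 q) :=
  fam1_mem_chart_x1 (A.inertiaSubgroupIn ℚ) ↥(W A) hq.out k

/-- `1/j₀, 1/j₁ ∈ Ainf₁` -/
theorem inv_fam1_mem_chartX0 (k : Fin 2) :
    (fam1 (A.inertiaSubgroupIn ℚ) N0 q k : FK0 A (N0 * q))⁻¹ ∈
      chartX0 A (N0 * q) (x1 (A.inertiaSubgroupIn ℚ) N0 q)⁻¹ :=
  inv_fam1_mem_chart_inv_x1 (A.inertiaSubgroupIn ℚ) ↥(W A) hq.out k

theorem mem_chartX0_x1_iff (k : Fin 2) (x : FK0 A (N0 * q)) :
    x ∈ chartX0 A (N0 * q) (x1 (A.inertiaSubgroupIn ℚ) N0 q) ↔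
      x ∈ chartX0 A (N0 * q) (fam1 (A.inertiaSubgroupIn ℚ) N0 q k) :=
  mem_chart_x1_iff (A.inertiaSubgroupIn ℚ) ↥(W A) hq.out k x

/-- `α : Afin₀ → Afin₁` -/
theorem alphaK_mem_chartX0_x1 {y : FK0 A N0}
    (hy : y ∈ chartX0 A N0 (j0K (A.inertiaSubgroupIn ℚ) N0)) :
    (alphaK (A.inertiaSubgroupIn ℚ) N0 q y : FK0 A (N0 * q)) ∈
      chartX0 A (N0 * q) (x1 (A.inertiaSubgroupIn ℚ) N0 q) :=
  alphaK_mem_chart_x1 (A.inertiaSubgroupIn ℚ) ↥(W A) hq.out (alphaK_algebraMap_W A N0 q) hy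

/-- `α : Ainf₀ → Ainf₁` -/
theorem alphaK_mem_chartX0_inv_x1 {y : FK0 A N0}
    (hy : y ∈ chartX0 A N0 (j0K (A.inertiaSubgroupIn ℚ) N0)⁻¹) :
    (alphaK (A.inertiaSubgroupIn ℚ) N0 q y : FK0 A (N0 * q)) ∈
      chartX0 A (N0 * q) (x1 (A.inertiaSubgroupIn ℚ) N0 q)⁻¹ :=
  alphaK_mem_chart_inv_x1 (A.inertiaSubgroupIn ℚ) ↥(W A) hq.out (alphaK_algebraMap_W A N0 q) hy

/-- `β : Afin₀ → Afin₁` -/
theorem betaK_mem_chartX0_x1 {y : FK0 A N0}
    (hy : y ∈ chartX0 A N0 (j0K (A.inertiaSubgroupIn ℚ) N0)) :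
    (betaK (A.inertiaSubgroupIn ℚ) N0 q y : FK0 A (N0 * q)) ∈
      chartX0 A (N0 * q) (x1 (A.inertiaSubgroupIn ℚ) N0 q) :=
  betaK_mem_chart_x1 (A.inertiaSubgroupIn ℚ) ↥(W A) hq.out (betaK_algebraMap_W A N0 q) hy

/-- `β : Ainf₀ → Ainf₁` -/
theorem betaK_mem_chartX0_inv_x1 {y : FK0 A N0}
    (hy : y ∈ chartX0 A N0 (j0K (A.inertiaSubgroupIn ℚ) N0)⁻¹) :
    (betaK (A.inertiaSubgroupIn ℚ) N0 q y : FK0 A (N0 * q)) ∈
      chartX0 A (N0 * q) (x1 (A.inertiaSubgroupIn ℚ) N0 q)⁻¹ :=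
  betaK_mem_chart_inv_x1 (A.inertiaSubgroupIn ℚ) ↥(W A) hq.out (betaK_algebraMap_W A N0 q) hy

/-- `α : Afin₁ → Afin₂` -/
theorem alphaK_mem_chartX0_x2 {y : FK0 A (N0 * q)}
    (hy : y ∈ chartX0 A (N0 * q) (x1 (A.inertiaSubgroupIn ℚ) N0 q)) :
    (alphaK (A.inertiaSubgroupIn ℚ) (N0 * q) q y : FK0 A (N0 * q * q)) ∈
      chartX0 A (N0 * q * q) (x2 (A.inertiaSubgroupIn ℚ) N0 q) :=
  alphaK_mem_chart_x2 (A.inertiaSubgroupIn ℚ) ↥(W A) hq.out
    (alphaK_algebraMap_W A (N0 * q) q) hy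

/-- `α : Ainf₁ → Ainf₂` -/
theorem alphaK_mem_chartX0_inv_x2 {y : FK0 A (N0 * q)}
    (hy : y ∈ chartX0 A (N0 * q) (x1 (A.inertiaSubgroupIn ℚ) N0 q)⁻¹) :
    (alphaK (A.inertiaSubgroupIn ℚ) (N0 * q) q y : FK0 A (N0 * q * q)) ∈
      chartX0 A (N0 * q * q) (x2 (A.inertiaSubgroupIn ℚ) N0 q)⁻¹ :=
  alphaK_mem_chart_inv_x2 (A.inertiaSubgroupIn ℚ) ↥(W A) hq.out
    (alphaK_algebraMap_W A (N0 * q) q) hy

/-- `β : Afin₁ → Afin₂` -/
theorem betaK_mem_chartX0_x2 {y : FK0 A (N0 * q)}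
    (hy : y ∈ chartX0 A (N0 * q) (x1 (A.inertiaSubgroupIn ℚ) N0 q)) :
    (betaK (A.inertiaSubgroupIn ℚ) (N0 * q) q y : FK0 A (N0 * q * q)) ∈
      chartX0 A (N0 * q * q) (x2 (A.inertiaSubgroupIn ℚ) N0 q) :=
  betaK_mem_chart_x2 (A.inertiaSubgroupIn ℚ) ↥(W A) hq.out
    (betaK_algebraMap_W A (N0 * q) q) hy

/-- `β : Ainf₁ → Ainf₂` -/
theorem betaK_mem_chartX0_inv_x2 {y : FK0 A (N0 * q)}
    (hy : y ∈ chartX0 A (N0 * q) (x1 (A.inertiaSubgroupIn ℚ) N0 q)⁻¹) :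
    (betaK (A.inertiaSubgroupIn ℚ) (N0 * q) q y : FK0 A (N0 * q * q)) ∈
      chartX0 A (N0 * q * q) (x2 (A.inertiaSubgroupIn ℚ) N0 q)⁻¹ :=
  betaK_mem_chart_inv_x2 (A.inertiaSubgroupIn ℚ) ↥(W A) hq.out
    (betaK_algebraMap_W A (N0 * q) q) hy

/-- `a₀, a₁, a₂ : Afin₀ → Afin₂` -/
theorem a_mem_chartX0_x2 {y : FK0 A N0}
    (hy : y ∈ chartX0 A N0 (j0K (A.inertiaSubgroupIn ℚ) N0)) :
    (a0 (A.inertiaSubgroupIn ℚ) N0 q y : FK0 A (N0 * q * q)) ∈
        chartX0 A (N0 * q * q) (x2 (A.inertiaSubgroupIn ℚ) N0 q) ∧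
      (a1 (A.inertiaSubgroupIn ℚ) N0 q y : FK0 A (N0 * q * q)) ∈
        chartX0 A (N0 * q * q) (x2 (A.inertiaSubgroupIn ℚ) N0 q) ∧
      (a2 (A.inertiaSubgroupIn ℚ) N0 q y : FK0 A (N0 * q * q)) ∈
        chartX0 A (N0 * q * q) (x2 (A.inertiaSubgroupIn ℚ) N0 q) :=
  ⟨a_mem_chart_x2 (A.inertiaSubgroupIn ℚ) ↥(W A) hq.out _ (a0_algebraMap_W A N0) 0
      (a0_j0K _ N0 q) hy,
    a_mem_chart_x2 (A.inertiaSubgroupIn ℚ) ↥(W A) hq.out _ (a1_algebraMap_W A N0) 1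
      (a1_j0K _ N0 q) hy,
    a_mem_chart_x2 (A.inertiaSubgroupIn ℚ) ↥(W A) hq.out _ (a2_algebraMap_W A N0) 2
      (a2_j0K _ N0 q) hy⟩

/-- `a₀, a₁, a₂ : Ainf₀ → Ainf₂` -/
theorem a_mem_chartX0_inv_x2 {y : FK0 A N0}
    (hy : y ∈ chartX0 A N0 (j0K (A.inertiaSubgroupIn ℚ) N0)⁻¹) :
    (a0 (A.inertiaSubgroupIn ℚ) N0 q y : FK0 A (N0 * q * q)) ∈
        chartX0 A (N0 * q * q) (x2 (A.inertiaSubgroupIn ℚ) N0 q)⁻¹ ∧
      (a1 (A.inertiaSubgroupIn ℚ) N0 q y : FK0 A (N0 * q * q)) ∈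
        chartX0 A (N0 * q * q) (x2 (A.inertiaSubgroupIn ℚ) N0 q)⁻¹ ∧
      (a2 (A.inertiaSubgroupIn ℚ) N0 q y : FK0 A (N0 * q * q)) ∈
        chartX0 A (N0 * q * q) (x2 (A.inertiaSubgroupIn ℚ) N0 q)⁻¹ :=
  ⟨a_mem_chart_inv_x2 (A.inertiaSubgroupIn ℚ) ↥(W A) hq.out _ (a0_algebraMap_W A N0) 0
      (a0_j0K _ N0 q) hy,
    a_mem_chart_inv_x2 (A.inertiaSubgroupIn ℚ) ↥(W A) hq.out _ (a1_algebraMap_W A N0) 1
      (a1_j0K _ N0 q) hy,
    a_mem_chart_inv_x2 (A.inertiaSubgroupIn ℚ) ↥(W A) hq.out _ (a2_algebraMap_W A N0) 2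
      (a2_j0K _ N0 q) hy⟩

end Concrete

end Fermat.Agent.S36.ChartsX0
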