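/-
PROJECT V (S36), chain (V7) `ModelVert`, `X₀` INSTANTIATION of helper24's abstract composition
`FormalLift/LatticeVert` (helper25; hedge for the slice V-ModelVert, hypotheses first over
helper21's `ThreeValX0.Hyp`):
**the Gauss-vertical valuation subrings of the two symmetric charts of level `N0 q q` are exactly
`W₂₀, W₁₁, W₀₂`, and those of the two symmetric charts of level `N0 q` are exactly `V₁, V₂`.**

Input: `Y : ThreeValX0.Hyp H N0 q κ`, a discrete valuation ring `O` with uniformiser `π` acting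
compatibly on the three levels (`O = W A`, `π = q` at `X₀`; instances of `S36/ChartX0`,
compatibilities = `CompNormalX0.Base.hα₀`, `.hα`), the transcendence over `O` of the chart
functions `x₂ = ∏ jL` (`CompNormalX0.x2`), `x₁ = ∏ jK` resp. of their inverses, and (U0) at level
`N0` (helper11's `GaussUniqK0`) in helper24's shape
`hU0 : ∀ V₀, ChartVert.IsGaussVert π (j0K H N0) V₀ → V₀ = Y.O₀`.

Output:
* `eq_of_isGaussVert_x2`, `eq_of_isGaussVert_x2_inv` : `W` Gauss-vertical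
  for `x₂` (resp. `x₂⁻¹`) ==> `W = W₂₀ ∨ W = W₁₁ ∨ W = W₀₂`;
* `hvert_x2`, `hvert_x2_inv` : the same in the literal `hvert` / `hvert'` shape of
  `ChartPlaces.mem_chart_of_places`, `Lattice.VCharts.finiteH1 / noeth / const / openData`, for
  ANY family `Ws` containing the three (`![W₂₀, W₁₁, W₀₂]`, `NewInertiaDatum.Wof X`, ...);
* `eq_of_isGaussVert_x1`, `eq_of_isGaussVert_x1_inv`, `hvert_x1`, `hvert_x1_inv` : the level-`N0 q`
  twins (`V = V₁ ∨ V = V₂`, from `Y.only_α`).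
-/
import Mathlib
import Fermat.Agent.S36.FormalLift.LatticeVert
import Fermat.Agent.S36.CompNormalX0

set_option autoImplicit false
set_option linter.unusedSectionVars false
set_option linter.unusedVariables false

noncomputable section

namespace Fermat.Agent.S36.VertX0

open Polynomial Fermat.Agent.S36.ChartVert Fermat.Agent.S36.PowerBasisK0
open Fermat.Agent.S36.JIntegral Fermat.Agent.S36.Lattice
open Fermat.Agent.S36.CompNormalX0 (a₀ a₀_j0K x2)

local notation "Kb" => AlgebraicClosure ℚ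

variable {H : Subgroup (Kb ≃ₐ[ℚ] Kb)}
variable {N0 q : ℕ} [NeZero N0] [NeZero q] [NeZero (N0 * q)] [NeZero (N0 * q * q)]
variable {κ : Type} [Field κ] (Y : ThreeValX0.Hyp H N0 q κ)
variable {O : Type*} [CommRing O] [IsDomain O] [IsDiscreteValuationRing O]
  [Algebra O (FK H N0)] [Algebra O (FK H (N0 * q))] [Algebra O (FK H (N0 * q * q))]

/-- the chart function of level `N0 q` -/
abbrev x1 (H : Subgroup (Kb ≃ₐ[ℚ] Kb)) (N0 q : ℕ) [NeZero N0] [NeZero q] [NeZero (N0 * q)] :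
    FK H (N0 * q) := ∏ i, jK H N0 q i

theorem alphaK_j0K_eq_jK : alphaK H N0 q (j0K H N0) = jK H N0 q 0 :=
  ThreeValX0.alphaK_j0K H N0 q

/-- the three valuation subrings, as a subtype-indexed family -/
theorem range_three :
    Set.range (fun W : {W : ValuationSubring (FK H (N0 * q * q)) //
      W = Y.W₂₀ ∨ W = Y.W₁₁ ∨ W = Y.W₀₂} => (W : ValuationSubring (FK H (N0 * q * q))))
      = {W | W = Y.W₂₀ ∨ W = Y.W₁₁ ∨ W = Y.W₀₂} := Subtype.range_coe

theorem range_two :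
    Set.range (fun V : {V : ValuationSubring (FK H (N0 * q)) // V = Y.V₁ ∨ V = Y.V₂} =>
      (V : ValuationSubring (FK H (N0 * q)))) = {V | V = Y.V₁ ∨ V = Y.V₂} := Subtype.range_coe

section LevelTwo

variable {π : O} (hπ : Irreducible π)
  (hα₀ : ∀ c : O, alphaK H N0 q (algebraMap O (FK H N0) c) = algebraMap O (FK H (N0 * q)) c)
  (hα : ∀ c : O, alphaK H (N0 * q) q (algebraMap O (FK H (N0 * q)) c)
    = algebraMap O (FK H (N0 * q * q)) c)
  (hU0 : ∀ V₀ : ValuationSubring (FK H N0), IsGaussVert π (j0K H N0) V₀ → V₀ = Y.O₀)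

include hα₀ hα in
theorem a₀_algebraMap (c : O) :
    a₀ H N0 q (algebraMap O (FK H N0) c) = algebraMap O (FK H (N0 * q * q)) c := by
  rw [CompNormalX0.a₀_apply, hα₀, hα]

include hπ hα₀ hα hU0 in
/-- **(V7), finite chart of level `N0 q q`**: a Gauss-vertical valuation subring for `x₂` is one
of `W₂₀, W₁₁, W₀₂` -/
theorem eq_of_isGaussVert_x2 (htr : Transcendental O (x2 H N0 q))
    {W : ValuationSubring (FK H (N0 * q * q))} (hW : IsGaussVert π (x2 H N0 q) W) :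
    W = Y.W₂₀ ∨ W = Y.W₁₁ ∨ W = Y.W₀₂ := by
  have h := mem_range_of_isGaussVert_prod hπ (a₀ H N0 q) (a₀_algebraMap hα₀ hα)
    (a₀_j0K (H := H) (N0 := N0) (q := q)) (jL_isIntegral H Y.prime O) htr hU0
    (fun W : {W : ValuationSubring (FK H (N0 * q * q)) //
      W = Y.W₂₀ ∨ W = Y.W₁₁ ∨ W = Y.W₀₂} => (W : ValuationSubring (FK H (N0 * q * q))))
    (fun W h => by rw [range_three]; exact Y.exhaustive_a₀ h) hW
  rwa [range_three] at h

include hπ hα₀ hα hU0 in
/-- **(V7), chart at infinity of level `N0 q q`**: a Gauss-vertical valuation subring for `x₂⁻¹`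
is one of `W₂₀, W₁₁, W₀₂` -/
theorem eq_of_isGaussVert_x2_inv (htr : Transcendental O (x2 H N0 q)⁻¹)
    {W : ValuationSubring (FK H (N0 * q * q))} (hW : IsGaussVert π (x2 H N0 q)⁻¹ W) :
    W = Y.W₂₀ ∨ W = Y.W₁₁ ∨ W = Y.W₀₂ := by
  have h := mem_range_of_isGaussVert_inv_prod hπ (a₀ H N0 q) (a₀_algebraMap hα₀ hα)
    (a₀_j0K (H := H) (N0 := N0) (q := q)) (jL_isIntegral H Y.prime O) htr hU0
    (fun W : {W : ValuationSubring (FK H (N0 * q * q)) //
      W = Y.W₂₀ ∨ W = Y.W₁₁ ∨ W = Y.W₀₂} => (W : ValuationSubring (FK H (N0 * q * q))))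
    (fun W h => by rw [range_three]; exact Y.exhaustive_a₀ h) hW
  rwa [range_three] at h

include hπ hα₀ hα hU0 in
/-- **the literal `hvert` of `Lattice.VCharts` / `ChartPlaces.mem_chart_of_places` at `X₀`**, finite
chart, for any family `Ws` containing `W₂₀, W₁₁, W₀₂` -/
theorem hvert_x2 (htr : Transcendental O (x2 H N0 q)) {𝒲 : Type*}
    (Ws : 𝒲 → ValuationSubring (FK H (N0 * q * q)))
    (h20 : Y.W₂₀ ∈ Set.range Ws) (h11 : Y.W₁₁ ∈ Set.range Ws) (h02 : Y.W₀₂ ∈ Set.range Ws) :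
    ∀ W : ValuationSubring (FK H (N0 * q * q)),
      (∀ c : O, algebraMap O (FK H (N0 * q * q)) c ∈ W) → x2 H N0 q ∈ W →
      (algebraMap O (FK H (N0 * q * q)) π)⁻¹ ∉ W →
      (∀ s : O[X], (∃ i, IsUnit (s.coeff i)) → (aeval (x2 H N0 q) s)⁻¹ ∈ W) →
      W ∈ Set.range Ws := by
  intro W h1 h2 h3 h4
  rcases eq_of_isGaussVert_x2 Y hπ hα₀ hα hU0 htr ⟨h1, h2, h3, h4⟩ with h | h | h
  · exact h ▸ h20
  · exact h ▸ h11
  · exact h ▸ h02

include hπ hα₀ hα hU0 in
/-- **the literal `hvert'` at `X₀`**, chart at infinity -/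
theorem hvert_x2_inv (htr : Transcendental O (x2 H N0 q)⁻¹) {𝒲 : Type*}
    (Ws : 𝒲 → ValuationSubring (FK H (N0 * q * q)))
    (h20 : Y.W₂₀ ∈ Set.range Ws) (h11 : Y.W₁₁ ∈ Set.range Ws) (h02 : Y.W₀₂ ∈ Set.range Ws) :
    ∀ W : ValuationSubring (FK H (N0 * q * q)),
      (∀ c : O, algebraMap O (FK H (N0 * q * q)) c ∈ W) → (x2 H N0 q)⁻¹ ∈ W →
      (algebraMap O (FK H (N0 * q * q)) π)⁻¹ ∉ W →
      (∀ s : O[X], (∃ i, IsUnit (s.coeff i)) → (aeval (x2 H N0 q)⁻¹ s)⁻¹ ∈ W) →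
      W ∈ Set.range Ws := by
  intro W h1 h2 h3 h4
  rcases eq_of_isGaussVert_x2_inv Y hπ hα₀ hα hU0 htr ⟨h1, h2, h3, h4⟩ with h | h | h
  · exact h ▸ h20
  · exact h ▸ h11
  · exact h ▸ h02

end LevelTwo

section LevelOne

variable {π : O} (hπ : Irreducible π)
  (hα₀ : ∀ c : O, alphaK H N0 q (algebraMap O (FK H N0) c) = algebraMap O (FK H (N0 * q)) c)
  (hU0 : ∀ V₀ : ValuationSubring (FK H N0), IsGaussVert π (j0K H N0) V₀ → V₀ = Y.O₀)

include hπ hα₀ hU0 in
/-- **(V7), finite chart of level `N0 q`**: a Gauss-vertical valuation subring for `x₁` is `V₁`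
or `V₂` -/
theorem eq_of_isGaussVert_x1 (htr : Transcendental O (x1 H N0 q))
    {V : ValuationSubring (FK H (N0 * q))} (hV : IsGaussVert π (x1 H N0 q) V) :
    V = Y.V₁ ∨ V = Y.V₂ := by
  have h := mem_range_of_isGaussVert_prod hπ (alphaK H N0 q) hα₀
    (alphaK_j0K_eq_jK (H := H) (N0 := N0) (q := q)) (jK_isIntegral H Y.prime O) htr hU0
    (fun V : {V : ValuationSubring (FK H (N0 * q)) // V = Y.V₁ ∨ V = Y.V₂} =>
      (V : ValuationSubring (FK H (N0 * q))))
    (fun V h => by rw [range_two]; exact Y.only_α V h) hV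
  rwa [range_two] at h

include hπ hα₀ hU0 in
/-- **(V7), chart at infinity of level `N0 q`** -/
theorem eq_of_isGaussVert_x1_inv (htr : Transcendental O (x1 H N0 q)⁻¹)
    {V : ValuationSubring (FK H (N0 * q))} (hV : IsGaussVert π (x1 H N0 q)⁻¹ V) :
    V = Y.V₁ ∨ V = Y.V₂ := by
  have h := mem_range_of_isGaussVert_inv_prod hπ (alphaK H N0 q) hα₀
    (alphaK_j0K_eq_jK (H := H) (N0 := N0) (q := q)) (jK_isIntegral H Y.prime O) htr hU0
    (fun V : {V : ValuationSubring (FK H (N0 * q)) // V = Y.V₁ ∨ V = Y.V₂} =>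
      (V : ValuationSubring (FK H (N0 * q))))
    (fun V h => by rw [range_two]; exact Y.only_α V h) hV
  rwa [range_two] at h

include hπ hα₀ hU0 in
/-- the literal `hvert` at level `N0 q`, finite chart -/
theorem hvert_x1 (htr : Transcendental O (x1 H N0 q)) {𝒲 : Type*}
    (Vs : 𝒲 → ValuationSubring (FK H (N0 * q)))
    (h1 : Y.V₁ ∈ Set.range Vs) (h2 : Y.V₂ ∈ Set.range Vs) :
    ∀ V : ValuationSubring (FK H (N0 * q)),
      (∀ c : O, algebraMap O (FK H (N0 * q)) c ∈ V) → x1 H N0 q ∈ V →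
      (algebraMap O (FK H (N0 * q)) π)⁻¹ ∉ V →
      (∀ s : O[X], (∃ i, IsUnit (s.coeff i)) → (aeval (x1 H N0 q) s)⁻¹ ∈ V) →
      V ∈ Set.range Vs := by
  intro V a b c d
  rcases eq_of_isGaussVert_x1 Y hπ hα₀ hU0 htr ⟨a, b, c, d⟩ with h | h
  · exact h ▸ h1
  · exact h ▸ h2

include hπ hα₀ hU0 in
/-- the literal `hvert'` at level `N0 q`, chart at infinity -/
theorem hvert_x1_inv (htr : Transcendental O (x1 H N0 q)⁻¹) {𝒲 : Type*}
    (Vs : 𝒲 → ValuationSubring (FK H (N0 * q)))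
    (h1 : Y.V₁ ∈ Set.range Vs) (h2 : Y.V₂ ∈ Set.range Vs) :
    ∀ V : ValuationSubring (FK H (N0 * q)),
      (∀ c : O, algebraMap O (FK H (N0 * q)) c ∈ V) → (x1 H N0 q)⁻¹ ∈ V →
      (algebraMap O (FK H (N0 * q)) π)⁻¹ ∉ V →
      (∀ s : O[X], (∃ i, IsUnit (s.coeff i)) → (aeval (x1 H N0 q)⁻¹ s)⁻¹ ∈ V) →
      V ∈ Set.range Vs := by
  intro V a b c d
  rcases eq_of_isGaussVert_x1_inv Y hπ hα₀ hU0 htr ⟨a, b, c, d⟩ with h | h
  · exact h ▸ h1
  · exact h ▸ h2

end LevelOne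

end Fermat.Agent.S36.VertX0
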