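/-
PROJECT V (S36), slice V-ChartsX0Leaf (helper12): **the chart-function leaf facts at `X₀`**, in the
literal shapes consumed by `NewInertiaCharts.Leaf` (`hφ hφ' hfd hfd'`), by `VertX0.hvert_x2(_inv)` /
`LatticeX0.hvert(')` (`htr : Transcendental O x₂^{±1}` over the DVR `O = W A`) and by
`Lattice.VCharts.openData` (`Transcendental K φ`, `FiniteDimensional K⟮φ⟯ F`).

* bridge: `ChartsX0.x2 H N0 q = CompNormalX0.x2 H N0 q` (`= ∏ i, JIntegral.jL H N0 q i`),
  `ChartsX0.fam2 = JIntegral.jL`, `ChartsX0.x1 H N0 q = VertX0.x1 H N0 q`, `fam1 = jK`;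
* generic (`H` any subgroup, `K = fixedField H`): `Transcendental K x₂^{±1}`, `x₁^{±1}`,
  `FiniteDimensional K⟮x_i^{±1}⟯ (F N_i)` for the `CompNormalX0` / `VertX0` spellings;
* `Transcendental O x` from `Transcendental K x` for an injective tower `O → K → F`;
* concrete (`O = W A`, `K = K0 A`, `F = FK0 A N`, helper10's instances of `S36/ChartX0`): the same
  statements over `K0 A` and over `W A`.
-/
import Mathlib
import Fermat.Agent.S36.ChartsX0
import Fermat.Agent.S36.VertX0

set_option autoImplicit false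
set_option linter.unusedSectionVars false
set_option linter.style.haveILetI false
set_option synthInstance.maxHeartbeats 400000
set_option maxHeartbeats 1000000

noncomputable section

namespace Fermat.Agent.S36.ChartsX0Leaf

open Polynomial IntermediateField
open Fermat.Agent.S36.PowerBasisK0 Fermat.Agent.S36.JIntegral Fermat.Agent.S36.ChartsX0
open Fermat.Agent.S18.C.SmallDVR

local notation "Kb" => AlgebraicClosure ℚ

/-! ### generic: transcendence over a subring of the base field -/

/-- `x` transcendental over `K` is transcendental over any `O` with `O → K` injective -/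
theorem transcendental_of_tower {O K F : Type*} [CommRing O] [Field K] [Field F] [Algebra O K]
    [Algebra K F] [Algebra O F] [IsScalarTower O K F]
    (hinj : Function.Injective (algebraMap O K)) {x : F} (h : Transcendental K x) :
    Transcendental O x :=
  h.restrictScalars hinj

/-! ### the bridge between the two spellings of the chart functions -/

section Bridge

variable (H : Subgroup (Kb ≃ₐ[ℚ] Kb))
variable (N0 q : ℕ) [NeZero N0] [NeZero q] [NeZero (N0 * q)] [NeZero (N0 * q * q)]

theorem jj0_eq_j0L : jj0 H N0 q = j0L H N0 q := rfl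

theorem jj1_eq_j1L : jj1 H N0 q = j1L H N0 q := rfl

theorem jj2_eq_j2L : jj2 H N0 q = j2L H N0 q := rfl

/-- the two spellings of the family `(j₀, j₁, j₂)` -/
theorem fam2_eq_jL : fam2 H N0 q = jL H N0 q := rfl

/-- the two spellings of the family `(j₀, j₁)` -/
theorem fam1_eq_jK : fam1 H N0 q = jK H N0 q := rfl

/-- **`x₂`: `ChartsX0` spelling = `CompNormalX0` spelling** -/
theorem x2_eq : x2 H N0 q = CompNormalX0.x2 H N0 q := by
  rw [← prod_fam2, fam2_eq_jL]

/-- **`x₁`: `ChartsX0` spelling = `VertX0` spelling** -/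
theorem x1_eq : x1 H N0 q = VertX0.x1 H N0 q := by
  rw [← prod_fam1, fam1_eq_jK]

end Bridge

/-! ### generic leaf facts, `CompNormalX0` / `VertX0` spellings -/

section Generic

open scoped Fermat.Agent.S36.ChartsX0

variable (H : Subgroup (Kb ≃ₐ[ℚ] Kb))
variable {N0 q : ℕ} [NeZero N0] [NeZero q] [NeZero (N0 * q)] [NeZero (N0 * q * q)]

theorem transcendental_x2 (hq : q.Prime) :
    Transcendental ↥(fixedField H) (CompNormalX0.x2 H N0 q) := by
  rw [← x2_eq]
  exact transcendental_x2' H hq

theorem transcendental_x2_inv (hq : q.Prime) :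
    Transcendental ↥(fixedField H) (CompNormalX0.x2 H N0 q)⁻¹ :=
  transcendental_inv' (transcendental_x2 H hq)

theorem transcendental_x1 (hq : q.Prime) :
    Transcendental ↥(fixedField H) (VertX0.x1 H N0 q) := by
  rw [← x1_eq]
  exact transcendental_x1' H hq

theorem transcendental_x1_inv (hq : q.Prime) :
    Transcendental ↥(fixedField H) (VertX0.x1 H N0 q)⁻¹ :=
  transcendental_inv' (transcendental_x1 H hq)

theorem finiteDimensional_x2 (hq : q.Prime) :
    FiniteDimensional (↥(fixedField H))⟮CompNormalX0.x2 H N0 q⟯ (FK H (N0 * q * q)) := by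
  rw [← x2_eq]
  exact finiteDimensional_x2' H hq

theorem finiteDimensional_x2_inv (hq : q.Prime) :
    FiniteDimensional (↥(fixedField H))⟮(CompNormalX0.x2 H N0 q)⁻¹⟯ (FK H (N0 * q * q)) := by
  rw [← x2_eq]
  exact finiteDimensional_x2_inv' H hq

theorem finiteDimensional_x1 (hq : q.Prime) :
    FiniteDimensional (↥(fixedField H))⟮VertX0.x1 H N0 q⟯ (FK H (N0 * q)) := by
  rw [← x1_eq]
  exact finiteDimensional_x1' H hq

theorem finiteDimensional_x1_inv (hq : q.Prime) :
    FiniteDimensional (↥(fixedField H))⟮(VertX0.x1 H N0 q)⁻¹⟯ (FK H (N0 * q)) := by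
  rw [← x1_eq]
  exact finiteDimensional_x1_inv' H hq

end Generic

/-! ### concrete: `O = W A`, `K = K0 A`, `F = FK0 A N` -/

section Concrete

open Fermat.Agent.S36.ChartX0

variable {q : ℕ} [hq : Fact q.Prime] (A : ValuationSubring Kb)
variable (N0 : ℕ) [NeZero N0] [NeZero q] [NeZero (N0 * q)] [NeZero (N0 * q * q)]

/-- `W A → K0 A` is injective -/
theorem algebraMap_W_K0_injective : Function.Injective (algebraMap ↥(W A) ↥(K0 A)) :=
  Subtype.val_injective

/-- **`Leaf.hφ` at `X₀`** -/
theorem transcendental_x2_K0 :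
    Transcendental (R := ↥(K0 A)) (A := FK0 A (N0 * q * q))
      (CompNormalX0.x2 (A.inertiaSubgroupIn ℚ) N0 q) :=
  transcendental_x2 (A.inertiaSubgroupIn ℚ) hq.out

/-- **`Leaf.hφ'` at `X₀`** -/
theorem transcendental_x2_inv_K0 :
    Transcendental (R := ↥(K0 A)) (A := FK0 A (N0 * q * q))
      (CompNormalX0.x2 (A.inertiaSubgroupIn ℚ) N0 q)⁻¹ :=
  transcendental_x2_inv (A.inertiaSubgroupIn ℚ) hq.out

/-- **`htr` of `VertX0.hvert_x2` / `LatticeX0.hvert` at `X₀`** -/
theorem transcendental_x2_W :
    Transcendental (R := ↥(W A)) (A := FK0 A (N0 * q * q))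
      (CompNormalX0.x2 (A.inertiaSubgroupIn ℚ) N0 q) :=
  transcendental_of_tower (algebraMap_W_K0_injective A) (transcendental_x2_K0 A N0)

/-- **`htr` of `VertX0.hvert_x2_inv` / `LatticeX0.hvert'` at `X₀`** -/
theorem transcendental_x2_inv_W :
    Transcendental (R := ↥(W A)) (A := FK0 A (N0 * q * q))
      (CompNormalX0.x2 (A.inertiaSubgroupIn ℚ) N0 q)⁻¹ :=
  transcendental_of_tower (algebraMap_W_K0_injective A) (transcendental_x2_inv_K0 A N0)

/-- **`Leaf.hfd` at `X₀`** -/
theorem finiteDimensional_x2_K0 :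
    FiniteDimensional
      (IntermediateField.adjoin ↥(K0 A)
        ({CompNormalX0.x2 (A.inertiaSubgroupIn ℚ) N0 q} : Set (FK0 A (N0 * q * q))))
      (FK0 A (N0 * q * q)) :=
  finiteDimensional_of_transcendental A (N0 * q * q) (transcendental_x2_K0 A N0)

/-- **`Leaf.hfd'` at `X₀`** -/
theorem finiteDimensional_x2_inv_K0 :
    FiniteDimensional
      (IntermediateField.adjoin ↥(K0 A)
        ({(CompNormalX0.x2 (A.inertiaSubgroupIn ℚ) N0 q)⁻¹} : Set (FK0 A (N0 * q * q))))
      (FK0 A (N0 * q * q)) :=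
  finiteDimensional_of_transcendental A (N0 * q * q) (transcendental_x2_inv_K0 A N0)

/-! #### level `N₁` -/

theorem transcendental_x1_K0 :
    Transcendental (R := ↥(K0 A)) (A := FK0 A (N0 * q)) (VertX0.x1 (A.inertiaSubgroupIn ℚ) N0 q) :=
  transcendental_x1 (A.inertiaSubgroupIn ℚ) hq.out

theorem transcendental_x1_inv_K0 :
    Transcendental (R := ↥(K0 A)) (A := FK0 A (N0 * q)) (VertX0.x1 (A.inertiaSubgroupIn ℚ) N0 q)⁻¹ :=
  transcendental_x1_inv (A.inertiaSubgroupIn ℚ) hq.out

theorem transcendental_x1_W :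
    Transcendental (R := ↥(W A)) (A := FK0 A (N0 * q)) (VertX0.x1 (A.inertiaSubgroupIn ℚ) N0 q) :=
  transcendental_of_tower (algebraMap_W_K0_injective A) (transcendental_x1_K0 A N0)

theorem transcendental_x1_inv_W :
    Transcendental (R := ↥(W A)) (A := FK0 A (N0 * q)) (VertX0.x1 (A.inertiaSubgroupIn ℚ) N0 q)⁻¹ :=
  transcendental_of_tower (algebraMap_W_K0_injective A) (transcendental_x1_inv_K0 A N0)

theorem finiteDimensional_x1_K0 :
    FiniteDimensional
      (IntermediateField.adjoin ↥(K0 A)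
        ({VertX0.x1 (A.inertiaSubgroupIn ℚ) N0 q} : Set (FK0 A (N0 * q))))
      (FK0 A (N0 * q)) :=
  finiteDimensional_of_transcendental A (N0 * q) (transcendental_x1_K0 A N0)

theorem finiteDimensional_x1_inv_K0 :
    FiniteDimensional
      (IntermediateField.adjoin ↥(K0 A)
        ({(VertX0.x1 (A.inertiaSubgroupIn ℚ) N0 q)⁻¹} : Set (FK0 A (N0 * q))))
      (FK0 A (N0 * q)) :=
  finiteDimensional_of_transcendental A (N0 * q) (transcendental_x1_inv_K0 A N0)

/-! #### level `N₀` : `j` itself over `W A` -/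

omit hq in
theorem transcendental_j0K_W :
    Transcendental (R := ↥(W A)) (A := FK0 A N0) (j0K (A.inertiaSubgroupIn ℚ) N0) := by
  have h : Transcendental (R := ↥(K0 A)) (A := FK0 A N0) (j0K (A.inertiaSubgroupIn ℚ) N0) := by
    rw [← jK0_eq_j0K]
    exact transcendental_jK0 A N0
  exact transcendental_of_tower (algebraMap_W_K0_injective A) h

omit hq in
theorem transcendental_j0K_inv_W :
    Transcendental (R := ↥(W A)) (A := FK0 A N0) (j0K (A.inertiaSubgroupIn ℚ) N0)⁻¹ := by
  have h : Transcendental (R := ↥(K0 A)) (A := FK0 A N0) (j0K (A.inertiaSubgroupIn ℚ) N0) := by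
    rw [← jK0_eq_j0K]
    exact transcendental_jK0 A N0
  exact transcendental_of_tower (algebraMap_W_K0_injective A) (transcendental_inv' h)

end Concrete

end Fermat.Agent.S36.ChartsX0Leaf
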