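/-
PROJECT V (S36), slice V-K0Places (helper18): PLACES OF THE `K0`-FORM VERSUS PLACES OVER `ℚ̄`.

`K ⊆ K'` algebraic separable, `F : IntermediateField K (LaurentSeries K)`, `F' = constExt K' F`
(`S30/Descent/ConstExt`), `bcHom : F → F'`.

Part 1 (pure algebra): `exists_primitive_of_list`, the gcd/cofactor lemma `exists_cofactor` in
`κ[X]` for a separable polynomial, `eval_cofactor_ne_zero`.

Part 2 (core): `V` a valuation subring of `F'` containing `K'`, `O = V.comap bcHom` the ring below,
`τ ∈ O` generating the maximal ideal of `O`, every element of `F` a `τ`-power multiple of an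
element of `O`, and `V` "bounded" (`∀ x ≠ 0, ∃ N, x / τ^N ∉ V`).  Then every nonzero element of
`F'` is `τ^n · unit of V` (`exists_zpow_mul_unit`): **the constant field extension is unramified**.

Part 3 (places): for a place `w` of `F'/K'`: `below_ne_top` (the restriction to `F` is never
trivial), `restrPlace w : Place K F`, `ramIdx_eq_one`, and
`ord_bcHom : w.ord (bcHom f) = (restrPlace w).ord f`.
-/
import Mathlib
import Fermat.Agent.S30.Descent.ExtPlace
import Fermat.Agent.S36.K0Fixed

set_option autoImplicit false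
set_option linter.unusedSectionVars false
set_option linter.style.haveILetI false

noncomputable section

namespace Fermat.Agent.S36.K0Places

open AlgebraicCurve ModularCurve IntermediateField Polynomial IsLocalRing
open Fermat.Agent.S30.Descent.ConstExt Fermat.Agent.S36.K0Fixed

/-! ### Part 1: pure algebra -/

section Algebra

/-- finitely many elements of a separable algebraic extension are polynomials in one element -/
theorem exists_primitive_of_list {K K' : Type*} [Field K] [Field K'] [Algebra K K']
    [Algebra.IsSeparable K K'] (l : List K') :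
    ∃ α : K', ∀ a ∈ l, ∃ A : K[X], aeval α A = a := by
  classical
  have hfin : Finite ↑{a | a ∈ l} := List.finite_toSet l
  have halg : Algebra.IsAlgebraic K K' := Algebra.IsSeparable.isAlgebraic K K'
  haveI : FiniteDimensional K (IntermediateField.adjoin K {a | a ∈ l}) :=
    IntermediateField.finiteDimensional_adjoin fun x _ =>
      (Algebra.IsAlgebraic.isAlgebraic x).isIntegral
  obtain ⟨α, hα⟩ := Field.exists_primitive_element K (IntermediateField.adjoin K {a | a ∈ l})
  refine ⟨(α : K'), fun a ha => ?_⟩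
  have hmem : (⟨a, IntermediateField.subset_adjoin K _ ha⟩ :
      IntermediateField.adjoin K {a | a ∈ l}) ∈ K⟮α⟯ := by
    rw [hα]; exact IntermediateField.mem_top
  have halgα : IsAlgebraic K α := Algebra.IsAlgebraic.isAlgebraic α
  have h2 : (⟨a, IntermediateField.subset_adjoin K _ ha⟩ :
      IntermediateField.adjoin K {a | a ∈ l}) ∈ (K⟮α⟯).toSubalgebra := hmem
  rw [IntermediateField.adjoin_simple_toSubalgebra_of_isAlgebraic halgα,
    Algebra.adjoin_singleton_eq_range_aeval, AlgHom.mem_range] at h2
  obtain ⟨A, hA⟩ := h2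
  refine ⟨A, ?_⟩
  have h3 := Polynomial.aeval_algHom_apply (IntermediateField.adjoin K {a | a ∈ l}).val α A
  rw [hA] at h3
  exact h3

variable {κ : Type*} [Field κ]

/-- **the cofactor lemma**: for `φ` separable and any `S` there are `g, h, c` with `φ = g h`,
`S = g c`, `g` prime to `h` and `c` prime to `h`. -/
theorem exists_cofactor (φ S : κ[X]) (hφ : φ.Separable) :
    ∃ g h c : κ[X], φ = g * h ∧ S = g * c ∧ IsCoprime g h ∧ IsCoprime c h := by
  classical
  have hφ0 : φ ≠ 0 := hφ.ne_zero
  obtain ⟨h, hh⟩ := EuclideanDomain.gcd_dvd_right S φ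
  obtain ⟨c, hc⟩ := EuclideanDomain.gcd_dvd_left S φ
  set g := EuclideanDomain.gcd S φ with hg
  have hg0 : g ≠ 0 := by
    rintro h0
    rw [h0, zero_mul] at hh
    exact hφ0 hh
  refine ⟨g, h, c, hh, hc, ?_, ?_⟩
  · rw [hh] at hφ
    exact hφ.isCoprime
  · have hab := EuclideanDomain.gcd_eq_gcd_ab S φ
    rw [← hg] at hab
    refine ⟨EuclideanDomain.gcdA S φ, EuclideanDomain.gcdB S φ, mul_left_cancel₀ hg0 ?_⟩
    calc g * (EuclideanDomain.gcdA S φ * c + EuclideanDomain.gcdB S φ * h)
        = (g * c) * EuclideanDomain.gcdA S φ + (g * h) * EuclideanDomain.gcdB S φ := by ring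
      _ = S * EuclideanDomain.gcdA S φ + φ * EuclideanDomain.gcdB S φ := by rw [← hc, ← hh]
      _ = g := hab.symm
      _ = g * 1 := (mul_one g).symm

/-- at a root of `S = g c` (`g`, `c` prime to `h`) the cofactor `h` does not vanish -/
theorem eval_cofactor_ne_zero {κ' : Type*} [Field κ'] (e : κ[X] →+* κ') {S g h c : κ[X]}
    (h2 : S = g * c) (hgh : IsCoprime g h) (hch : IsCoprime c h)
    (hS : e S = 0) : e h ≠ 0 := by
  intro hh
  obtain ⟨u, v, huv⟩ := hgh
  obtain ⟨u', v', huv'⟩ := hch
  have e1 := congrArg e huv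
  have e2 := congrArg e huv'
  simp only [map_add, map_mul, map_one, hh, mul_zero, add_zero] at e1 e2
  have hg : e g ≠ 0 := right_ne_zero_of_mul_eq_one e1
  have hc : e c = 0 := by
    rw [h2, map_mul] at hS
    exact (mul_eq_zero.mp hS).resolve_left hg
  rw [hc, mul_zero] at e2
  exact zero_ne_one e2

end Algebra

/-! ### Part 2: the core -/

section Core

variable {K : Type*} {K' : Type*} [Field K] [Field K'] [Algebra K K'] [Algebra.IsSeparable K K']
variable {F : IntermediateField K (LaurentSeries K)}
variable (V : ValuationSubring (constExt K' F))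

/-- the ring below `V` -/
abbrev lowRing : ValuationSubring F := V.comap (bcHom K' F)

/-- the inclusion of the ring below -/
def inc : lowRing V →+* V where
  toFun f := ⟨bcHom K' F (f : F), f.2⟩
  map_one' := Subtype.ext (map_one (bcHom K' F))
  map_mul' a b := Subtype.ext (map_mul (bcHom K' F) (a : F) (b : F))
  map_zero' := Subtype.ext (map_zero (bcHom K' F))
  map_add' a b := Subtype.ext (map_add (bcHom K' F) (a : F) (b : F))

@[simp] theorem coe_inc (f : lowRing V) :
    ((inc V f : V) : constExt K' F) = bcHom K' F (f : F) := rfl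

instance instIsLocalHomInc : IsLocalHom (inc V) := ⟨fun f hf => by
  obtain ⟨u, hu⟩ := isUnit_iff_exists_inv.mp hf
  have h1 : bcHom K' F (f : F) * (u : constExt K' F) = 1 := by
    have := congrArg (fun z : V => (z : constExt K' F)) hu
    simpa using this
  have hf0 : (f : F) ≠ 0 := by
    rintro h0
    rw [h0, map_zero, zero_mul] at h1
    exact zero_ne_one h1
  have hu' : (u : constExt K' F) = bcHom K' F ((f : F)⁻¹) := by
    rw [map_inv₀]
    exact eq_inv_of_mul_eq_one_right h1
  have hmem : (f : F)⁻¹ ∈ lowRing V := by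
    show bcHom K' F ((f : F)⁻¹) ∈ V
    rw [← hu']
    exact u.2
  refine isUnit_iff_exists_inv.mpr ⟨⟨(f : F)⁻¹, hmem⟩, Subtype.ext ?_⟩
  show (f : F) * (f : F)⁻¹ = 1
  exact mul_inv_cancel₀ hf0⟩

variable (hK' : ∀ a : K', algebraMap K' (constExt K' F) a ∈ V)

/-- the constants of `K` in the ring below -/
def cst : K →+* lowRing V where
  toFun c := ⟨algebraMap K F c, by
    show bcHom K' F (algebraMap K F c) ∈ V
    rw [bcHom_algebraMap]
    exact hK' _⟩
  map_one' := Subtype.ext (map_one _)
  map_mul' _ _ := Subtype.ext (map_mul _ _ _)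
  map_zero' := Subtype.ext (map_zero _)
  map_add' _ _ := Subtype.ext (map_add _ _ _)

/-- the constants of `K'` in `V` -/
def cst' : K' →+* V where
  toFun a := ⟨algebraMap K' (constExt K' F) a, hK' a⟩
  map_one' := Subtype.ext (map_one _)
  map_mul' _ _ := Subtype.ext (map_mul _ _ _)
  map_zero' := Subtype.ext (map_zero _)
  map_add' _ _ := Subtype.ext (map_add _ _ _)

theorem inc_comp_cst : (inc V).comp (cst V hK') = (cst' V hK').comp (algebraMap K K') := by
  refine RingHom.ext fun c => Subtype.ext ?_
  exact bcHom_algebraMap (K' := K') F c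

/-- evaluation of polynomials over the ring below at a constant `α ∈ K'` -/
def evV (α : K') : (lowRing V)[X] →+* V := eval₂RingHom (inc V) (cst' V hK' α)

theorem evV_C (α : K') (f : lowRing V) : evV V hK' α (C f) = inc V f := by
  simp [evV]

theorem evV_map_cst (α : K') (A : K[X]) :
    evV V hK' α (A.map (cst V hK')) = cst' V hK' (aeval α A) := by
  rw [evV, coe_eval₂RingHom, eval₂_map, inc_comp_cst, ← Polynomial.hom_eval₂, aeval_def]

/-- the induced map on residue fields -/
abbrev resMap : ResidueField (lowRing V) →+* ResidueField V := ResidueField.map (inc V)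

theorem residue_evV (α : K') (p : (lowRing V)[X]) :
    residue V (evV V hK' α p) =
      eval₂ (resMap V) (residue V (cst' V hK' α)) (p.map (residue (lowRing V))) := by
  rw [eval₂_map, evV, coe_eval₂RingHom, Polynomial.hom_eval₂]
  congr 1

/-- **the step**: an element `S(α)` of the maximal ideal of `V` becomes divisible by the
uniformiser `τ` of the ring below after multiplication by a unit `H(α)`. -/
theorem step (τ : lowRing V) (hgen : ∀ f ∈ maximalIdeal (lowRing V), τ ∣ f) (α : K')
    (S : (lowRing V)[X]) (hS : evV V hK' α S ∈ maximalIdeal V) :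
    ∃ H R : (lowRing V)[X], IsUnit (evV V hK' α H) ∧
      evV V hK' α H * evV V hK' α S = inc V τ * evV V hK' α R := by
  classical
  have hsep : (minpoly K α).Separable := Algebra.IsSeparable.isSeparable K α
  set φO : (lowRing V)[X] := (minpoly K α).map (cst V hK') with hφO
  have hφ0 : evV V hK' α φO = 0 := by
    rw [hφO, evV_map_cst, minpoly.aeval, map_zero]
  set ρ := residue (lowRing V) with hρ
  have hsep' : (φO.map ρ).Separable := by
    rw [hφO, Polynomial.map_map]
    exact hsep.map
  obtain ⟨g, h, c, h1, h2, hgh, hch⟩ := exists_cofactor (φO.map ρ) (S.map ρ) hsep'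
  obtain ⟨H, hH⟩ := Polynomial.map_surjective ρ residue_surjective h
  obtain ⟨Cc, hC⟩ := Polynomial.map_surjective ρ residue_surjective c
  have hzero : (H * S - φO * Cc).map ρ = 0 := by
    rw [Polynomial.map_sub, Polynomial.map_mul, Polynomial.map_mul, hH, hC, h1, h2]
    ring
  have hdvd : C τ ∣ H * S - φO * Cc := by
    rw [Polynomial.C_dvd_iff_dvd_coeff]
    intro i
    apply hgen
    have := congrArg (fun p => p.coeff i) hzero
    simp only [Polynomial.coeff_map, Polynomial.coeff_zero] at this
    exact (residue_eq_zero_iff _).mp this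
  obtain ⟨R, hR⟩ := hdvd
  refine ⟨H, R, ?_, ?_⟩
  · -- `H(α)` is a unit: its residue is the value of the cofactor `h`
    have hres : residue V (evV V hK' α H) ≠ 0 := by
      rw [residue_evV, hH]
      refine eval_cofactor_ne_zero
        (eval₂RingHom (resMap V) (residue V (cst' V hK' α))) h2 hgh hch ?_
      rw [coe_eval₂RingHom, ← residue_evV]
      exact (residue_eq_zero_iff _).mpr hS
    by_contra hnu
    exact hres ((residue_eq_zero_iff _).mpr hnu)
  · have := congrArg (evV V hK' α) hR
    rw [map_sub, map_mul, map_mul, map_mul, hφ0, zero_mul, sub_zero, evV_C] at this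
    exact this

/-- **iteration of the step**: an element `S(α) ≠ 0` which is not divisible by `τ^N` in `V` is
`τ^n · unit`. -/
theorem exists_pow_mul_unit (τ : lowRing V) (hgen : ∀ f ∈ maximalIdeal (lowRing V), τ ∣ f)
    (α : K') : ∀ (N : ℕ) (S : (lowRing V)[X]), evV V hK' α S ≠ 0 →
      (¬ ∃ y : V, evV V hK' α S = inc V τ ^ N * y) →
      ∃ (n : ℕ) (u : Vˣ), evV V hK' α S = inc V τ ^ n * (u : V) := by
  intro N
  induction N with
  | zero =>
    intro S _ h
    exact absurd ⟨evV V hK' α S, by simp⟩ h
  | succ N ih =>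
    intro S h0 hN
    by_cases hu : IsUnit (evV V hK' α S)
    · exact ⟨0, hu.unit, by simp⟩
    · have hS : evV V hK' α S ∈ maximalIdeal V := (mem_maximalIdeal _).mpr hu
      obtain ⟨H, R, hHu, hHR⟩ := step V hK' τ hgen α S hS
      obtain ⟨w, hw⟩ := hHu
      have hS' : evV V hK' α S = (↑w⁻¹ : V) * (inc V τ * evV V hK' α R) := by
        rw [← hHR, ← hw, ← mul_assoc, Units.inv_mul, one_mul]
      have hR0 : evV V hK' α R ≠ 0 := by
        intro h
        rw [h, mul_zero, mul_zero] at hS'
        exact h0 hS'
      have hRN : ¬ ∃ y : V, evV V hK' α R = inc V τ ^ N * y := by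
        rintro ⟨y, hy⟩
        apply hN
        refine ⟨(↑w⁻¹ : V) * y, ?_⟩
        rw [hS', hy, pow_succ]
        ring
      obtain ⟨n, u, hn⟩ := ih R hR0 hRN
      refine ⟨n + 1, u * w⁻¹, ?_⟩
      rw [hS', hn, pow_succ, Units.val_mul]
      ring

/-- a common `τ`-power clears the denominators of a list -/
theorem exists_pow_mul_mem (τ : lowRing V)
    (hτF : ∀ f : F, ∃ k : ℕ, (τ : F) ^ k * f ∈ lowRing V) (l : List (K' × F)) :
    ∃ k : ℕ, ∀ p ∈ l, (τ : F) ^ k * p.2 ∈ lowRing V := by
  induction l with
  | nil => exact ⟨0, by simp⟩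
  | cons p l ih =>
    obtain ⟨k₁, h₁⟩ := ih
    obtain ⟨k₂, h₂⟩ := hτF p.2
    refine ⟨k₁ + k₂, fun q hq => ?_⟩
    rcases List.mem_cons.mp hq with rfl | hq
    · have : (τ : F) ^ (k₁ + k₂) * q.2 = (τ : F) ^ k₁ * ((τ : F) ^ k₂ * q.2) := by ring
      rw [this]
      exact mul_mem (pow_mem τ.2 _) h₂
    · have : (τ : F) ^ (k₁ + k₂) * q.2 = (τ : F) ^ k₂ * ((τ : F) ^ k₁ * q.2) := by ring
      rw [this]
      exact mul_mem (pow_mem τ.2 _) (h₁ q hq)

/-- a linear combination with polynomial coefficients in `α` and `τ^k`-cleared functions is a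
value `S(α)` -/
theorem exists_evV_eq_lsum (τ : lowRing V) (α : K') (k : ℕ) (l : List (K' × F))
    (hl : ∀ p ∈ l, (∃ A : K[X], aeval α A = p.1) ∧ (τ : F) ^ k * p.2 ∈ lowRing V) :
    ∃ S : (lowRing V)[X], ((evV V hK' α S : V) : constExt K' F) =
      bcHom K' F (τ : F) ^ k * lsum F l := by
  induction l with
  | nil => exact ⟨0, by simp⟩
  | cons p l ih =>
    obtain ⟨S, hS⟩ := ih fun q hq => hl q (List.mem_cons_of_mem _ hq)
    obtain ⟨⟨A, hA⟩, hmem⟩ := hl p List.mem_cons_self
    refine ⟨A.map (cst V hK') * C ⟨(τ : F) ^ k * p.2, hmem⟩ + S, ?_⟩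
    have hcoe : ((evV V hK' α (A.map (cst V hK') * C ⟨(τ : F) ^ k * p.2, hmem⟩ + S) : V) :
        constExt K' F) = algebraMap K' (constExt K' F) p.1 * bcHom K' F ((τ : F) ^ k * p.2) +
          ((evV V hK' α S : V) : constExt K' F) := by
      rw [map_add, map_mul, evV_map_cst, evV_C, hA]
      rfl
    rw [hcoe, hS, lsum_cons, map_mul, map_pow]
    ring

variable [Algebra.IsAlgebraic K K']

/-- every element of `F'` is `S(α) / τ^k` -/
theorem exists_evV_eq (τ : lowRing V)
    (hτF : ∀ f : F, ∃ k : ℕ, (τ : F) ^ k * f ∈ lowRing V) (x : constExt K' F) :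
    ∃ (α : K') (k : ℕ) (S : (lowRing V)[X]),
      ((evV V hK' α S : V) : constExt K' F) = bcHom K' F (τ : F) ^ k * x := by
  obtain ⟨l, rfl⟩ := exists_lsum_eq x
  obtain ⟨α, hα⟩ := exists_primitive_of_list (K := K) (l.map Prod.fst)
  obtain ⟨k, hk⟩ := exists_pow_mul_mem V τ hτF l
  obtain ⟨S, hS⟩ := exists_evV_eq_lsum V hK' τ α k l fun p hp =>
    ⟨hα p.1 (List.mem_map.mpr ⟨p, hp, rfl⟩), hk p hp⟩
  exact ⟨α, k, S, hS⟩

include hK' in
/-- **The constant field extension is unramified (core form).**  If `τ` generates the maximal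
ideal of the ring `O` below `V`, every element of `F` is a `τ`-power multiple of an element of
`O`, and no nonzero element of `V` is divisible by all powers of `τ`, then every nonzero element of
`F'` is `τ^n · unit of V`. -/
theorem exists_zpow_mul_unit (O : ValuationSubring F) (hO : O = lowRing V) (τ : O)
    (hτ0 : (τ : F) ≠ 0)
    (hgen : ∀ f ∈ maximalIdeal O, τ ∣ f)
    (hτF : ∀ f : F, ∃ k : ℕ, (τ : F) ^ k * f ∈ O)
    (hB : ∀ y : V, y ≠ 0 → ∃ N : ℕ, ¬ ∃ z : V,
      (y : constExt K' F) = bcHom K' F (τ : F) ^ N * (z : constExt K' F))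
    (x : constExt K' F) (hx : x ≠ 0) :
    ∃ (n : ℤ) (u : Vˣ), x = bcHom K' F (τ : F) ^ n * ((u : V) : constExt K' F) := by
  subst hO
  obtain ⟨α, k, S, hS⟩ := exists_evV_eq V hK' τ hτF x
  have hτ' : bcHom K' F (τ : F) ≠ 0 := (map_ne_zero_iff _ (bcHom_injective F)).mpr hτ0
  have h0 : evV V hK' α S ≠ 0 := by
    intro h
    rw [h] at hS
    exact (mul_ne_zero (pow_ne_zero k hτ') hx) hS.symm
  obtain ⟨N, hN⟩ := hB _ h0
  have hN' : ¬ ∃ y : V, evV V hK' α S = inc V τ ^ N * y := by
    rintro ⟨y, hy⟩
    refine hN ⟨y, ?_⟩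
    rw [hy]
    rfl
  obtain ⟨n, u, hn⟩ := exists_pow_mul_unit V hK' τ hgen α N S h0 hN'
  refine ⟨(n : ℤ) - k, u, ?_⟩
  have h1 : ((evV V hK' α S : V) : constExt K' F) =
      bcHom K' F (τ : F) ^ n * ((u : V) : constExt K' F) := by
    rw [hn]
    rfl
  rw [hS] at h1
  rw [zpow_sub₀ hτ', zpow_natCast, zpow_natCast, div_mul_eq_mul_div, ← h1,
    mul_div_cancel_left₀ _ (pow_ne_zero k hτ')]

end Core

/-! ### Part 3: places -/

section Places

open Fermat.Agent.S30.Descent.ExtPlace Fermat.Agent.S24.Ord

variable {K : Type*} {K' : Type*} [Field K] [Field K'] [Algebra K K'] [Algebra.IsSeparable K K']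
  [Algebra.IsAlgebraic K K']
variable {F : IntermediateField K (LaurentSeries K)}
variable (w : Place K' (constExt K' F))

/-- a place of `F'/K'` is never trivial on `F` -/
theorem below_ne_top : below (bcHom K' F) w ≠ ⊤ := by
  intro htop
  apply w.ne_top'
  have hall : ∀ l : List (K' × F), lsum F l ∈ w.toValuationSubring := by
    intro l
    induction l with
    | nil => exact zero_mem _
    | cons p l ih =>
      rw [lsum_cons]
      refine add_mem (mul_mem (w.algebraMap_mem' p.1) ?_) ih
      have : p.2 ∈ below (bcHom K' F) w := htop ▸ ValuationSubring.mem_top p.2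
      exact this
  refine SetLike.ext fun x => ⟨fun _ => ValuationSubring.mem_top x, fun _ => ?_⟩
  obtain ⟨l, rfl⟩ := exists_lsum_eq x
  exact hall l

/-- **the place of `F/K` below a place of `F'/K'`** -/
def restrPlace : Place K F :=
  restr (bcHom K' F) (fun c => bcHom_algebraMap (K' := K') F c) w (below_ne_top w)

theorem mem_restrPlace (f : F) :
    f ∈ (restrPlace w).toValuationSubring ↔ bcHom K' F f ∈ w.toValuationSubring := Iff.rfl

/-- the uniformiser of the place below (from `ExtPlace`) -/
abbrev unifBelow : (restrPlace w).toValuationSubring :=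
  unif (bcHom K' F) (fun c => bcHom_algebraMap (K' := K') F c) w (below_ne_top w)

theorem irreducible_unifBelow : Irreducible (unifBelow w) :=
  irreducible_unif (bcHom K' F) (fun c => bcHom_algebraMap (K' := K') F c) w (below_ne_top w)

theorem unifBelow_ne_zero : ((unifBelow w : (restrPlace w).toValuationSubring) : F) ≠ 0 :=
  fun h => (irreducible_unifBelow w).ne_zero (Subtype.ext h)

theorem unifBelow_dvd (f : (restrPlace w).toValuationSubring)
    (hf : f ∈ maximalIdeal (restrPlace w).toValuationSubring) : unifBelow w ∣ f := by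
  rw [(irreducible_unifBelow w).maximalIdeal_eq, Ideal.mem_span_singleton] at hf
  exact hf

theorem exists_pow_unifBelow_mul_mem (f : F) :
    ∃ k : ℕ, ((unifBelow w : (restrPlace w).toValuationSubring) : F) ^ k * f ∈
      (restrPlace w).toValuationSubring := by
  have hirr := irreducible_unifBelow w
  have hτ0 := unifBelow_ne_zero w
  rcases eq_or_ne f 0 with rfl | hf
  · exact ⟨0, by simp⟩
  · obtain ⟨u, hu⟩ := (restrPlace w).exists_unit_mul_zpow hf hirr
    generalize (restrPlace w).ord f = m at hu
    refine ⟨m.natAbs, ?_⟩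
    rcases le_or_gt 0 m with hn | hn
    · -- `f` itself is integral
      refine mul_mem (pow_mem (unifBelow w).2 _) ?_
      rw [hu]
      refine mul_mem (u : (restrPlace w).toValuationSubring).2 ?_
      obtain ⟨m', rfl⟩ := Int.eq_ofNat_of_zero_le hn
      rw [zpow_natCast]
      exact pow_mem (unifBelow w).2 _
    · have hk : ((m.natAbs : ℕ) : ℤ) = -m := by
        rw [Int.ofNat_natAbs_of_nonpos hn.le]
      have : ((unifBelow w : (restrPlace w).toValuationSubring) : F) ^ m.natAbs * f =
          ((u : (restrPlace w).toValuationSubring) : F) := by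
        rw [hu, ← zpow_natCast, hk, mul_comm, mul_assoc, ← zpow_add₀ hτ0]
        simp
      rw [this]
      exact (u : (restrPlace w).toValuationSubring).2

theorem ord_bcHom_unifBelow_pos :
    0 < w.ord (bcHom K' F ((unifBelow w : (restrPlace w).toValuationSubring) : F)) :=
  ord_unif_pos (bcHom K' F) (fun c => bcHom_algebraMap (K' := K') F c) w (below_ne_top w)

theorem bounded_unifBelow (y : w.toValuationSubring) (hy : y ≠ 0) :
    ∃ N : ℕ, ¬ ∃ z : w.toValuationSubring, (y : constExt K' F) =
      bcHom K' F ((unifBelow w : (restrPlace w).toValuationSubring) : F) ^ N *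
        (z : constExt K' F) := by
  have hτ0 := unifBelow_ne_zero w
  have hpos := ord_bcHom_unifBelow_pos w
  refine ⟨(w.ord (y : constExt K' F)).toNat + 1, ?_⟩
  rintro ⟨z, h1⟩
  have hyF : (y : constExt K' F) ≠ 0 := fun h => hy (Subtype.ext h)
  have hzF : (z : constExt K' F) ≠ 0 := by
    intro h
    rw [h, mul_zero] at h1
    exact hyF h1
  have hτ' : bcHom K' F ((unifBelow w : (restrPlace w).toValuationSubring) : F) ≠ 0 :=
    (map_ne_zero_iff _ (bcHom_injective F)).mpr hτ0
  have hzn : 0 ≤ w.ord (z : constExt K' F) := by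
    rw [ord_nonneg_iff w hzF, ← mem_iff]
    exact z.2
  have h2 : w.ord (y : constExt K' F) =
      (((w.ord (y : constExt K' F)).toNat + 1 : ℕ) : ℤ) *
        w.ord (bcHom K' F ((unifBelow w : (restrPlace w).toValuationSubring) : F)) +
        w.ord (z : constExt K' F) := by
    conv_lhs => rw [h1]
    rw [w.ord_mul (pow_ne_zero _ hτ') hzF, ← zpow_natCast, w.ord_zpow]
  have h3 : (((w.ord (y : constExt K' F)).toNat + 1 : ℕ) : ℤ) ≤
      (((w.ord (y : constExt K' F)).toNat + 1 : ℕ) : ℤ) *
        w.ord (bcHom K' F ((unifBelow w : (restrPlace w).toValuationSubring) : F)) := by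
    nlinarith [Int.natCast_nonneg ((w.ord (y : constExt K' F)).toNat + 1)]
  have h4 := Int.self_le_toNat (w.ord (y : constExt K' F))
  push_cast at h2 h3
  omega

/-- the uniformiser of the place below is a uniformiser of `w` -/
theorem ord_bcHom_unifBelow :
    w.ord (bcHom K' F ((unifBelow w : (restrPlace w).toValuationSubring) : F)) = 1 := by
  have hτ0 := unifBelow_ne_zero w
  have hpos := ord_bcHom_unifBelow_pos w
  obtain ⟨ϖ, hϖ⟩ := IsDiscreteValuationRing.exists_irreducible w.toValuationSubring
  have hϖ0 : (ϖ : constExt K' F) ≠ 0 := fun h => hϖ.ne_zero (Subtype.ext h)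
  obtain ⟨n, u, hn⟩ := exists_zpow_mul_unit w.toValuationSubring w.algebraMap_mem'
    (restrPlace w).toValuationSubring rfl (unifBelow w) hτ0 (unifBelow_dvd w)
    (exists_pow_unifBelow_mul_mem w) (bounded_unifBelow w) (ϖ : constExt K' F) hϖ0
  have hτ' : bcHom K' F ((unifBelow w : (restrPlace w).toValuationSubring) : F) ≠ 0 :=
    (map_ne_zero_iff _ (bcHom_injective F)).mpr hτ0
  have hu0 : ((u : w.toValuationSubring) : constExt K' F) ≠ 0 := by
    intro h
    rw [h, mul_zero] at hn
    exact hϖ0 hn
  have h1 : w.ord (ϖ : constExt K' F) = 1 := w.ord_coe_irreducible hϖ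
  rw [hn, w.ord_mul (zpow_ne_zero _ hτ') hu0, w.ord_zpow, w.ord_coe_unit, add_zero] at h1
  have hdvd : w.ord (bcHom K' F ((unifBelow w : (restrPlace w).toValuationSubring) : F)) ∣ 1 :=
    ⟨n, by rw [← h1]; ring⟩
  exact Int.eq_one_of_dvd_one hpos.le hdvd

/-- **the constant field extension is unramified** -/
theorem ramIdx_eq_one :
    ramIdx (bcHom K' F) (fun c => bcHom_algebraMap (K' := K') F c) w (below_ne_top w) = 1 := by
  have h := ord_map_unif (bcHom K' F) (fun c => bcHom_algebraMap (K' := K') F c) w
    (below_ne_top w)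
  have h1 := ord_bcHom_unifBelow w
  have : ((ramIdx (bcHom K' F) (fun c => bcHom_algebraMap (K' := K') F c) w
      (below_ne_top w) : ℕ) : ℤ) = 1 := by
    rw [← h]; exact h1
  exact_mod_cast this

/-- **`ord` is preserved by the constant field extension**: `ord_w (bc f) = ord_{w|F} f`. -/
theorem ord_bcHom (f : F) : w.ord (bcHom K' F f) = (restrPlace w).ord f := by
  have h := ord_map (bcHom K' F) (fun c => bcHom_algebraMap (K' := K') F c) w (below_ne_top w) f
  rw [ramIdx_eq_one w] at h
  rw [h, restrPlace]
  simp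

end Places

/-! ### Part 4: transport to a field `F'` equal to `constExt K' F`, and the modular case -/

section Transport

open Fermat.Agent.S30.Descent.ExtPlace Fermat.Agent.S24.Ord

variable {K : Type*} {K' : Type*} [Field K] [Field K'] [Algebra K K'] [Algebra.IsSeparable K K']
  [Algebra.IsAlgebraic K K']
variable (F : IntermediateField K (LaurentSeries K))
variable (F' : IntermediateField K' (LaurentSeries K')) (hF' : constExt K' F = F')

/-- the base change homomorphism into a field `F'` known to be equal to `constExt K' F` -/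
def bcHomTo : F →+* F' where
  toFun f := ⟨bc K K' (f : LaurentSeries K), hF' ▸ bc_mem_constExt F f.2⟩
  map_one' := Subtype.ext (map_one (bc K K'))
  map_mul' a b := Subtype.ext (map_mul (bc K K') (a : LaurentSeries K) (b : LaurentSeries K))
  map_zero' := Subtype.ext (map_zero (bc K K'))
  map_add' a b := Subtype.ext (map_add (bc K K') (a : LaurentSeries K) (b : LaurentSeries K))

@[simp] theorem coe_bcHomTo (f : F) :
    ((bcHomTo F F' hF' f : F') : LaurentSeries K') = bc K K' (f : LaurentSeries K) := rfl

theorem bcHomTo_algebraMap (c : K) :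
    bcHomTo F F' hF' (algebraMap K F c) = algebraMap K' F' (algebraMap K K' c) :=
  Subtype.ext (bc_algebraMap c)

theorem below_bcHomTo_ne_top (w : Place K' F') : below (bcHomTo F F' hF') w ≠ ⊤ := by
  subst hF'
  exact below_ne_top w

/-- **the place of `F/K` below a place of `F'/K'`** -/
def restrPlaceTo (w : Place K' F') : Place K F :=
  restr (bcHomTo F F' hF') (bcHomTo_algebraMap F F' hF') w (below_bcHomTo_ne_top F F' hF' w)

theorem mem_restrPlaceTo (w : Place K' F') (f : F) :
    f ∈ (restrPlaceTo F F' hF' w).toValuationSubring ↔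
      bcHomTo F F' hF' f ∈ w.toValuationSubring := Iff.rfl

/-- **`ord` is preserved by the constant field extension** -/
theorem ord_bcHomTo (w : Place K' F') (f : F) :
    w.ord (bcHomTo F F' hF' f) = (restrPlaceTo F F' hF' w).ord f := by
  subst hF'
  exact ord_bcHom w f

end Transport

section Laurent

variable {L : Type*} [Field L] [Algebra ℚ L] [Algebra.IsAlgebraic ℚ L]
variable (F₀ : IntermediateField ℚ (LaurentSeries ℚ)) (K : IntermediateField ℚ L)

/-- shortcut instance (the generic search for `Algebra ↥K ↥(laurentBaseChange ↥K F₀)` exceeds the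
default instance heartbeats because of failed `IsScalarTower` unifications on `LaurentSeries ↥K`);
this is the instance the generic search finds. -/
instance instAlgebraForm : Algebra K (laurentBaseChange K F₀) :=
  SubalgebraClass.toAlgebra (laurentBaseChange K F₀)

/-- shortcut instance, see `instAlgebraForm` -/
instance instModuleForm : Module K (laurentBaseChange K F₀) := Algebra.toModule

local instance instIsAlgebraicTop : Algebra.IsAlgebraic K L := Algebra.IsAlgebraic.tower_top (K := ℚ) K

local instance instIsSeparableTop : Algebra.IsSeparable K L :=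
  Algebra.IsAlgebraic.isSeparable_of_perfectField

/-- **the place of `K(F₀)` below a place of `L(F₀)`** -/
def restrBar (w : Place L (laurentBaseChange L F₀)) : Place K (laurentBaseChange K F₀) :=
  restrPlaceTo (laurentBaseChange K F₀) (laurentBaseChange L F₀) (constExt_laurentBaseChange F₀) w

theorem toBar_eq_bcHomTo :
    toBar F₀ K = bcHomTo (laurentBaseChange K F₀) (laurentBaseChange L F₀)
      (constExt_laurentBaseChange F₀) := rfl

theorem mem_restrBar (w : Place L (laurentBaseChange L F₀)) (f : laurentBaseChange K F₀) :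
    f ∈ (restrBar F₀ K w).toValuationSubring ↔ toBar F₀ K f ∈ w.toValuationSubring := Iff.rfl

/-- **`ord_w (toBar f) = ord_{w|K(F₀)} f`**: the constant field extension `L(F₀) / K(F₀)` is
unramified at every place. -/
theorem ord_toBar (w : Place L (laurentBaseChange L F₀)) (f : laurentBaseChange K F₀) :
    w.ord (toBar F₀ K f) = (restrBar F₀ K w).ord f :=
  ord_bcHomTo (laurentBaseChange K F₀) (laurentBaseChange L F₀) (constExt_laurentBaseChange F₀) w f

end Laurent

end Fermat.Agent.S36.K0Places
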