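/-
PROJECT V (S36), slice V-K0Places (helper18): the `X₀(N)` instance of `S36/K0Places`.

`restrX0 N K0 w` : the place of the `K0`-form `laurentBaseChange K0 (modularFunctionFieldFull N)`
below a place `w` of `modularFunctionFieldBar N`; `ord_toBar_X0` (unramified);
`exists_kummer_K0form_ord` : the Kummer function `f₀` of an `I`-invariant `n`-torsion class `[D]`
satisfies `ord_{w|F0} f₀ = n · D(w)` at every place `w`.
-/
import Mathlib
import Fermat.Agent.S36.K0Places
import Fermat.Agent.S36.K0FixedX0

set_option autoImplicit false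
set_option linter.unusedSectionVars false
set_option linter.style.haveILetI false

noncomputable section

namespace Fermat.Agent.S36.K0PlacesX0

open AlgebraicCurve ModularCurve HahnSeries
open Fermat.Agent.S36.K0DescentLaurent Fermat.Agent.S36.K0Fixed Fermat.Agent.S36.K0Places

local notation "Kb" => AlgebraicClosure ℚ

/-- `ℚ̄ / ℚ` is algebraic (for the `DivisionRing.toRatAlgebra` structure used by the prelude) -/
theorem isAlgebraic_Kb : Algebra.IsAlgebraic ℚ Kb := AlgebraicClosure.isAlgebraic ℚ

variable (N : ℕ) (K0 : IntermediateField ℚ Kb)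

/-- the place of the `K0`-form of the function field of `X₀(N)` below a `ℚ̄`-place -/
def restrX0 (w : Place Kb (modularFunctionFieldBar N)) :
    Place K0 (laurentBaseChange K0 (modularFunctionFieldFull N)) :=
  haveI := isAlgebraic_Kb
  restrBar (modularFunctionFieldFull N) K0 w

theorem mem_restrX0 (w : Place Kb (modularFunctionFieldBar N))
    (f : laurentBaseChange K0 (modularFunctionFieldFull N)) :
    f ∈ (restrX0 N K0 w).toValuationSubring ↔
      toBar (modularFunctionFieldFull N) K0 f ∈ w.toValuationSubring := Iff.rfl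

/-- **the constant field extension `ℚ̄(X₀(N)) / K0(X₀(N))` is unramified** -/
theorem ord_toBar_X0 (w : Place Kb (modularFunctionFieldBar N))
    (f : laurentBaseChange K0 (modularFunctionFieldFull N)) :
    w.ord (toBar (modularFunctionFieldFull N) K0 f) = (restrX0 N K0 w).ord f :=
  haveI := isAlgebraic_Kb
  ord_toBar (modularFunctionFieldFull N) K0 w f

/-- **Descent to the inertia field, `K0`-form, with orders read on the `K0`-form.** -/
theorem exists_kummer_K0form_ord [NeZero N] (I : Subgroup (Kb ≃ₐ[ℚ] Kb)) {n : ℕ} (y : JZero N)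
    (hy : ∀ σ ∈ I, σ • y = y) (hny : (n : ℤ) • y = 0) :
    ∃ (D : Divisor.degZero (K := Kb) (F := modularFunctionFieldBar N))
      (f₀ : laurentBaseChange (IntermediateField.fixedField I) (modularFunctionFieldFull N)),
      Pic0.mk D = y ∧ f₀ ≠ 0 ∧
      (∀ w : Place Kb (modularFunctionFieldBar N),
        (restrX0 N (IntermediateField.fixedField I) w).ord f₀ =
          n * (D : Divisor Kb (modularFunctionFieldBar N)) w) ∧
      (∀ σ ∈ I, arithmeticGalois (modularFunctionFieldFull N) σ •
        (D : Divisor Kb (modularFunctionFieldBar N)) = (D : Divisor Kb (modularFunctionFieldBar N))) ∧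
      qLead (modularFunctionFieldFull N)
        (toBar (modularFunctionFieldFull N) (IntermediateField.fixedField I) f₀) = 1 := by
  obtain ⟨D, f₀, hD, hf0, hord, hDinv, hlead⟩ :=
    Fermat.Agent.S36.K0FixedX0.exists_kummer_K0form N I y hy hny
  refine ⟨D, f₀, hD, hf0, fun w => ?_, hDinv, hlead⟩
  rw [← ord_toBar_X0, hord w]

end Fermat.Agent.S36.K0PlacesX0
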