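/-
PROJECT V (S36), slice V-K0Places part (iii) (helper18): EXISTENCE OF A PLACE ABOVE.

`K ⊆ K'` algebraic separable, `F' = constExt K' F`.  Every place `v` of `F/K` is the restriction of
a place `w` of `F'/K'` (`exists_restrPlace_eq`): Chevalley (Mathlib
`LocalSubring.exists_le_valuationSubring`) gives a valuation subring `V` of `F'` dominating `bc O_v`;
it contains `K'` (integrality), its ring below is `O_v`, it is BOUNDED (`bounded`: no nonzero element
is divisible by all powers of the uniformiser `τ` of `v`, because `F'` is algebraic over `bc F`), so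
by the core of `S36/K0Places` every nonzero element of `F'` is `τ^n · unit`, hence `V` is a DVR.

Modular form: `exists_restrBar_eq`, and at `X₀(N)`: `exists_restrX0_eq`.
-/
import Mathlib
import Fermat.Agent.S36.K0Places
import Fermat.Agent.S36.K0PlacesX0

set_option autoImplicit false
set_option linter.unusedSectionVars false
set_option linter.style.haveILetI false

noncomputable section

namespace Fermat.Agent.S36.K0PlacesExt

open AlgebraicCurve ModularCurve IntermediateField Polynomial IsLocalRing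
open Fermat.Agent.S30.Descent.ConstExt Fermat.Agent.S36.K0Fixed Fermat.Agent.S36.K0Places

section Core

variable {K : Type*} {K' : Type*} [Field K] [Field K'] [Algebra K K'] [Algebra.IsSeparable K K']
  [Algebra.IsAlgebraic K K']
variable {F : IntermediateField K (LaurentSeries K)}
variable (V : ValuationSubring (constExt K' F))
variable (hK' : ∀ a : K', algebraMap K' (constExt K' F) a ∈ V)

/-- a common power of `τ` moves finitely many elements of `bc F` into `V` -/
theorem exists_pow_mul_coeff_mem (τ : lowRing V)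
    (hτF : ∀ f : F, ∃ k : ℕ, (τ : F) ^ k * f ∈ lowRing V)
    (p : (bcField (K' := K') (F := F))[X]) :
    ∃ M : ℕ, ∀ i : ℕ, bcHom K' F (τ : F) ^ M * ((p.coeff i : bcField (K' := K') (F := F)) :
      constExt K' F) ∈ V := by
  classical
  have hτV : bcHom K' F (τ : F) ∈ V := τ.2
  -- one coefficient
  have hone : ∀ c : bcField (K' := K') (F := F), ∃ k : ℕ,
      bcHom K' F (τ : F) ^ k * (c : constExt K' F) ∈ V := by
    rintro ⟨c, f, rfl⟩
    obtain ⟨k, hk⟩ := hτF f
    refine ⟨k, ?_⟩
    have : bcHom K' F ((τ : F) ^ k * f) ∈ V := hk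
    rwa [map_mul, map_pow] at this
  -- finitely many
  have hfin : ∀ s : Finset ℕ, ∃ M : ℕ, ∀ i ∈ s,
      bcHom K' F (τ : F) ^ M * ((p.coeff i : bcField (K' := K') (F := F)) : constExt K' F) ∈ V := by
    intro s
    induction s using Finset.induction_on with
    | empty => exact ⟨0, by simp⟩
    | insert a s _ ih =>
      obtain ⟨M₁, h₁⟩ := ih
      obtain ⟨M₂, h₂⟩ := hone (p.coeff a)
      refine ⟨M₁ + M₂, fun i hi => ?_⟩
      rcases Finset.mem_insert.mp hi with rfl | hi
      · rw [pow_add, mul_assoc]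
        exact V.mul_mem _ _ (V.pow_mem hτV _) h₂
      · rw [pow_add, mul_comm (_ ^ M₁), mul_assoc]
        exact V.mul_mem _ _ (V.pow_mem hτV _) (h₁ i hi)
  obtain ⟨M, hM⟩ := hfin p.support
  refine ⟨M, fun i => ?_⟩
  by_cases hi : i ∈ p.support
  · exact hM i hi
  · rw [Polynomial.notMem_support_iff.mp hi]
    simp [V.zero_mem]

/-- **boundedness**: `F'` is algebraic over `bc F`, so no nonzero element of `V` is divisible by
all powers of the uniformiser `τ` of the ring below. -/
theorem bounded (τ : lowRing V) (hτ0 : (τ : F) ≠ 0)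
    (hτF : ∀ f : F, ∃ k : ℕ, (τ : F) ^ k * f ∈ lowRing V)
    (hτu : (bcHom K' F (τ : F))⁻¹ ∉ V)
    (hunit : ∀ f : F, f ≠ 0 → ∃ (a b : ℕ) (u : F), u ∈ lowRing V ∧ u⁻¹ ∈ lowRing V ∧
      f * (τ : F) ^ a = u * (τ : F) ^ b)
    (y : V) (hy : y ≠ 0) :
    ∃ N : ℕ, ¬ ∃ z : V, (y : constExt K' F) = bcHom K' F (τ : F) ^ N * (z : constExt K' F) := by
  classical
  set T := bcHom K' F (τ : F) with hT
  have hT0 : T ≠ 0 := (map_ne_zero_iff _ (bcHom_injective F)).mpr hτ0
  have hTV : T ∈ V := τ.2
  have hyF : (y : constExt K' F) ≠ 0 := fun h => hy (Subtype.ext h)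
  -- `y` is algebraic over `bc F`
  have halg : IsAlgebraic (bcField (K' := K') (F := F)) (y : constExt K' F) := by
    obtain ⟨l, hl⟩ := exists_lsum_eq (y : constExt K' F)
    rw [← hl]
    exact isAlgebraic_lsum l
  have hint : IsIntegral (bcField (K' := K') (F := F)) (y : constExt K' F) := halg.isIntegral
  obtain ⟨p, hc0, hroot⟩ : ∃ p : (bcField (K' := K') (F := F))[X], p.coeff 0 ≠ 0 ∧
      eval₂ (algebraMap (bcField (K' := K') (F := F)) (constExt K' F)) (y : constExt K' F) p = 0 :=
    ⟨minpoly (bcField (K' := K') (F := F)) (y : constExt K' F),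
      minpoly.coeff_zero_ne_zero hint hyF, by rw [← aeval_def]; exact minpoly.aeval _ _⟩
  set φE := algebraMap (bcField (K' := K') (F := F)) (constExt K' F) with hφE
  -- split off the constant term
  have hsplit : eval₂ φE (y : constExt K' F) p.divX * (y : constExt K' F) +
      ((p.coeff 0 : bcField (K' := K') (F := F)) : constExt K' F) = 0 := by
    have h := congrArg (eval₂ φE (y : constExt K' F)) (Polynomial.divX_mul_X_add p)
    rw [hroot, eval₂_add, eval₂_mul, eval₂_X, eval₂_C] at h
    exact h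
  obtain ⟨M, hM⟩ := exists_pow_mul_coeff_mem V τ hτF p.divX
  -- `T^M * p.divX(y) ∈ V`
  have hmem : T ^ M * eval₂ φE (y : constExt K' F) p.divX ∈ V := by
    rw [Polynomial.eval₂_eq_sum_range, Finset.mul_sum]
    refine sum_mem fun i _ => ?_
    rw [← mul_assoc]
    exact V.mul_mem _ _ (hM i) (V.pow_mem y.2 _)
  -- the constant term
  obtain ⟨f0, hf0⟩ := (p.coeff 0).2
  have hf00 : f0 ≠ 0 := by
    rintro rfl
    apply hc0
    apply Subtype.ext
    rw [← hf0, map_zero]
    rfl
  obtain ⟨a, b, u, hu, hu', hfu⟩ := hunit f0 hf00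
  refine ⟨M + b + 1, ?_⟩
  rintro ⟨z, hz⟩
  have hu0 : u ≠ 0 := by
    rintro rfl
    rw [zero_mul] at hfu
    exact (mul_ne_zero hf00 (pow_ne_zero a hτ0)) hfu
  -- `bc (f0 τ^a) = bc u * T^b`
  have h1 : ((p.coeff 0 : bcField (K' := K') (F := F)) : constExt K' F) * T ^ a =
      bcHom K' F u * T ^ b := by
    rw [← hf0, hT, ← map_pow, ← map_pow, ← map_mul, ← map_mul, hfu]
  -- put everything together
  set E := eval₂ φE (y : constExt K' F) p.divX with hE
  set t : constExt K' F := -(T ^ M * E) * (z : constExt K' F) with ht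
  have htV : t ∈ V := V.mul_mem _ _ (V.neg_mem _ hmem) z.2
  have h2 : T ^ M * ((p.coeff 0 : bcField (K' := K') (F := F)) : constExt K' F) =
      T ^ (M + b + 1) * t := by
    have : ((p.coeff 0 : bcField (K' := K') (F := F)) : constExt K' F) =
        -(E * (y : constExt K' F)) := eq_neg_of_add_eq_zero_right hsplit
    rw [this, hz, ht]
    ring
  -- hence `T⁻¹ ∈ V`
  apply hτu
  have hbu : bcHom K' F u ≠ 0 := (map_ne_zero_iff _ (bcHom_injective F)).mpr hu0
  have h4 : T ^ M * (bcHom K' F u * T ^ b) = T ^ (M + b + 1) * t * T ^ a := by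
    rw [← h1, ← mul_assoc, h2]
  have h5 : T ^ (M + b) * bcHom K' F u = T ^ (M + b) * (T * T ^ a * t) := by
    calc T ^ (M + b) * bcHom K' F u = T ^ M * (bcHom K' F u * T ^ b) := by ring
      _ = T ^ (M + b + 1) * t * T ^ a := h4
      _ = T ^ (M + b) * (T * T ^ a * t) := by ring
  have h6 := mul_left_cancel₀ (pow_ne_zero (M + b) hT0) h5
  have hne : T ^ a * t ≠ 0 := by
    intro h
    apply hbu
    rw [h6, mul_assoc, h, mul_zero]
  have ht0 : t ≠ 0 := right_ne_zero_of_mul hne
  have h3 : T⁻¹ = T ^ a * (t * bcHom K' F u⁻¹) := by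
    rw [map_inv₀, h6]
    field_simp
  rw [h3]
  exact V.mul_mem _ _ (V.pow_mem hTV _) (V.mul_mem _ _ htV hu')

end Core

/-! ### a valuation subring all of whose elements are `T^n · unit` is a DVR -/

section DVR

variable {E : Type*} [Field E] (V : ValuationSubring E) (T : E)

theorem zpow_mem_iff (hTV : T ∈ V) (hTu : T⁻¹ ∉ V) (n : ℤ) : T ^ n ∈ V ↔ 0 ≤ n := by
  constructor
  · intro h
    by_contra hn
    rw [not_le] at hn
    apply hTu
    obtain ⟨m, hm⟩ : ∃ m : ℕ, n = -((m : ℤ) + 1) := ⟨(-n - 1).toNat, by omega⟩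
    have : T⁻¹ = T ^ m * T ^ n := by
      rcases eq_or_ne T 0 with rfl | hT0
      · exfalso; apply hTu; simp [V.zero_mem]
      · rw [hm, ← zpow_natCast, ← zpow_add₀ hT0]
        have : (m : ℤ) + -((m : ℤ) + 1) = -1 := by ring
        rw [this, zpow_neg_one]
    rw [this]
    exact V.mul_mem _ _ (V.pow_mem hTV _) h
  · intro h
    obtain ⟨m, rfl⟩ := Int.eq_ofNat_of_zero_le h
    rw [zpow_natCast]
    exact V.pow_mem hTV _

/-- **a valuation subring all of whose nonzero elements are `T^n · unit` is principal** -/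
theorem isPrincipalIdealRing_of_zpow (hTV : T ∈ V) (hTu : T⁻¹ ∉ V)
    (h : ∀ x : E, x ≠ 0 → ∃ (n : ℤ) (u : Vˣ), x = T ^ n * ((u : V) : E)) :
    IsPrincipalIdealRing V := by
  classical
  have hT0 : T ≠ 0 := by
    rintro rfl
    apply hTu
    simp [V.zero_mem]
  -- exponents of elements of `V` are natural numbers
  have hnat : ∀ g : V, g ≠ 0 → ∃ (n : ℕ) (u : Vˣ), (g : E) = T ^ n * ((u : V) : E) := by
    intro g hg
    have hgE : (g : E) ≠ 0 := fun h0 => hg (Subtype.ext h0)
    obtain ⟨n, u, hn⟩ := h (g : E) hgE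
    have hmem : T ^ n ∈ V := by
      have : T ^ n = (g : E) * (((u⁻¹ : Vˣ) : V) : E) := by
        rw [hn, mul_assoc]
        have : ((u : V) : E) * (((u⁻¹ : Vˣ) : V) : E) = 1 :=
          congrArg Subtype.val (Units.mul_inv u)
        rw [this, mul_one]
      rw [this]
      exact V.mul_mem _ _ g.2 ((u⁻¹ : Vˣ) : V).2
    obtain ⟨m, rfl⟩ := Int.eq_ofNat_of_zero_le ((zpow_mem_iff V T hTV hTu n).mp hmem)
    exact ⟨m, u, by rw [hn, zpow_natCast]⟩
  refine ⟨fun I => ?_⟩
  by_cases hI : I = ⊥
  · subst hI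
    exact ⟨⟨0, by simp⟩⟩
  · obtain ⟨g₁, hg₁I, hg₁0⟩ := Submodule.exists_mem_ne_zero_of_ne_bot hI
    let S : Set ℕ := {n | ∃ g : V, g ∈ I ∧ g ≠ 0 ∧ ∃ u : Vˣ, (g : E) = T ^ n * ((u : V) : E)}
    have hS : ∃ n, n ∈ S := by
      obtain ⟨n, u, hn⟩ := hnat g₁ hg₁0
      exact ⟨n, g₁, hg₁I, hg₁0, u, hn⟩
    obtain ⟨g, hgI, hg0, u, hgu⟩ := Nat.find_spec hS
    refine ⟨⟨g, le_antisymm (fun x hx => ?_) ?_⟩⟩
    · rw [Submodule.mem_span_singleton]
      rcases eq_or_ne x 0 with rfl | hx0
      · exact ⟨0, by simp⟩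
      · obtain ⟨k, u', hk⟩ := hnat x hx0
        have hmin : Nat.find hS ≤ k := Nat.find_min' hS ⟨x, hx, hx0, u', hk⟩
        obtain ⟨d, hd⟩ := Nat.exists_eq_add_of_le hmin
        refine ⟨⟨T ^ d, V.pow_mem hTV _⟩ * ((u' * u⁻¹ : Vˣ) : V), Subtype.ext ?_⟩
        have huu : ((u : V) : E) * (((u⁻¹ : Vˣ) : V) : E) = 1 :=
          congrArg Subtype.val (Units.mul_inv u)
        show (T ^ d * (((u' * u⁻¹ : Vˣ) : V) : E)) * (g : E) = (x : E)
        rw [hk, hgu, hd, pow_add, Units.val_mul]
        show T ^ d * (((u' : V) : E) * (((u⁻¹ : Vˣ) : V) : E)) * (T ^ Nat.find hS * ((u : V) : E)) = _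
        calc T ^ d * (((u' : V) : E) * (((u⁻¹ : Vˣ) : V) : E)) * (T ^ Nat.find hS * ((u : V) : E))
            = T ^ Nat.find hS * T ^ d * ((u' : V) : E) *
                (((u : V) : E) * (((u⁻¹ : Vˣ) : V) : E)) := by ring
          _ = T ^ Nat.find hS * T ^ d * ((u' : V) : E) := by rw [huu, mul_one]
    · rw [Submodule.span_le, Set.singleton_subset_iff]
      exact hgI

end DVR

/-! ### existence of a place above -/

section Exists

open Fermat.Agent.S30.Descent.ExtPlace Fermat.Agent.S24.Ord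

variable {K : Type*} {K' : Type*} [Field K] [Field K'] [Algebra K K'] [Algebra.IsSeparable K K']
  [Algebra.IsAlgebraic K K']
variable {F : IntermediateField K (LaurentSeries K)}

/-- `bounded` with the ring below given up to equality -/
theorem bounded' (V : ValuationSubring (constExt K' F)) (O : ValuationSubring F)
    (hO : O = lowRing V) (τ : O) (hτ0 : (τ : F) ≠ 0)
    (hτF : ∀ f : F, ∃ k : ℕ, (τ : F) ^ k * f ∈ O)
    (hτu : (bcHom K' F (τ : F))⁻¹ ∉ V)
    (hunit : ∀ f : F, f ≠ 0 → ∃ (a b : ℕ) (u : F), u ∈ O ∧ u⁻¹ ∈ O ∧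
      f * (τ : F) ^ a = u * (τ : F) ^ b)
    (y : V) (hy : y ≠ 0) :
    ∃ N : ℕ, ¬ ∃ z : V, (y : constExt K' F) = bcHom K' F (τ : F) ^ N * (z : constExt K' F) := by
  subst hO
  exact bounded V τ hτ0 hτF hτu hunit y hy

/-- the DVR structure of a place in the form used by the core -/
theorem place_data (v : Place K F) :
    ∃ τ : v.toValuationSubring, Irreducible τ ∧ (τ : F) ≠ 0 ∧
      (∀ f ∈ maximalIdeal v.toValuationSubring, τ ∣ f) ∧
      (∀ f : F, ∃ k : ℕ, (τ : F) ^ k * f ∈ v.toValuationSubring) ∧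
      (∀ f : F, f ≠ 0 → ∃ (a b : ℕ) (u : F), u ∈ v.toValuationSubring ∧
        u⁻¹ ∈ v.toValuationSubring ∧ f * (τ : F) ^ a = u * (τ : F) ^ b) := by
  obtain ⟨τ, hirr⟩ := IsDiscreteValuationRing.exists_irreducible v.toValuationSubring
  have hτ0 : (τ : F) ≠ 0 := fun h => hirr.ne_zero (Subtype.ext h)
  have hunit : ∀ f : F, f ≠ 0 → ∃ (a b : ℕ) (u : F), u ∈ v.toValuationSubring ∧
      u⁻¹ ∈ v.toValuationSubring ∧ f * (τ : F) ^ a = u * (τ : F) ^ b := by
    intro f hf
    obtain ⟨u, hu⟩ := v.exists_unit_mul_zpow hf hirr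
    generalize v.ord f = m at hu
    have huinv : ((u : v.toValuationSubring) : F)⁻¹ ∈ v.toValuationSubring := by
      have h1 : ((u : v.toValuationSubring) : F) * (((u⁻¹ : v.toValuationSubringˣ) :
          v.toValuationSubring) : F) = 1 := congrArg Subtype.val (Units.mul_inv u)
      rw [inv_eq_of_mul_eq_one_right h1]
      exact ((u⁻¹ : v.toValuationSubringˣ) : v.toValuationSubring).2
    rcases le_or_gt 0 m with hn | hn
    · obtain ⟨m', rfl⟩ := Int.eq_ofNat_of_zero_le hn
      exact ⟨0, m', _, (u : v.toValuationSubring).2, huinv, by rw [pow_zero, mul_one, hu, zpow_natCast]⟩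
    · refine ⟨m.natAbs, 0, _, (u : v.toValuationSubring).2, huinv, ?_⟩
      have hk : ((m.natAbs : ℕ) : ℤ) = -m := by rw [Int.ofNat_natAbs_of_nonpos hn.le]
      rw [pow_zero, mul_one, hu, mul_assoc, ← zpow_natCast, hk, ← zpow_add₀ hτ0]
      simp
  refine ⟨τ, hirr, hτ0, ?_, ?_, hunit⟩
  · intro f hf
    rw [hirr.maximalIdeal_eq, Ideal.mem_span_singleton] at hf
    exact hf
  · intro f
    rcases eq_or_ne f 0 with rfl | hf
    · exact ⟨0, by simp⟩
    · obtain ⟨a, b, u, hu, -, hfu⟩ := hunit f hf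
      refine ⟨a, ?_⟩
      rw [mul_comm, hfu]
      exact mul_mem hu (pow_mem τ.2 _)

/-- **every place of `F/K` is the restriction of a place of `F'/K'`** -/
theorem exists_restrPlace_eq (v : Place K F) :
    ∃ w : Place K' (constExt K' F), restrPlace w = v := by
  classical
  set O := v.toValuationSubring with hOdef
  -- Chevalley
  let g : O →+* constExt K' F := (bcHom K' F).comp O.subtype
  obtain ⟨V, hle, hloc⟩ := LocalSubring.exists_le_valuationSubring (LocalSubring.range g)
  have hbcO : ∀ f : F, f ∈ O → bcHom K' F f ∈ V := fun f hf => hle ⟨⟨f, hf⟩, rfl⟩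
  -- the ring below is `O`
  have hO : O = lowRing V := by
    refine SetLike.ext fun f => ⟨fun hf => hbcO f hf, fun hf => ?_⟩
    by_contra hfO
    have hinv : f⁻¹ ∈ O := (O.mem_or_inv_mem f).resolve_left hfO
    have hf0 : f ≠ 0 := fun h => hfO (h ▸ O.zero_mem)
    -- `bc f⁻¹` is a unit of `V`, hence of `bc O`
    let a : (LocalSubring.range g).toSubring := ⟨bcHom K' F f⁻¹, ⟨⟨f⁻¹, hinv⟩, rfl⟩⟩
    have hunitV : IsUnit (Subring.inclusion hle a) := by
      refine IsUnit.of_mul_eq_one ⟨bcHom K' F f, hf⟩ (Subtype.ext ?_)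
      show bcHom K' F f⁻¹ * bcHom K' F f = 1
      rw [← map_mul, inv_mul_cancel₀ hf0, map_one]
    obtain ⟨⟨b, ⟨⟨f', hf'⟩, rfl⟩⟩, hab⟩ := isUnit_iff_exists_inv.mp (hloc.map_nonunit a hunitV)
    have h1 : bcHom K' F f⁻¹ * bcHom K' F f' = 1 := congrArg Subtype.val hab
    rw [← map_mul, ← map_one (bcHom K' F)] at h1
    have h2 := bcHom_injective F h1
    have : f' = f := by
      rw [← mul_one f, ← h2, ← mul_assoc, mul_inv_cancel₀ hf0, one_mul]
    exact hfO (this ▸ hf')
  -- constants
  have hK' : ∀ a : K', algebraMap K' (constExt K' F) a ∈ V := by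
    intro a
    have hint : IsIntegral K a := (Algebra.IsAlgebraic.isAlgebraic a).isIntegral
    obtain ⟨p, hpm, hp⟩ := hint
    -- `K → V`
    let c : K →+* V := (Subring.inclusion hle).comp
      ((g.rangeRestrict).comp ((algebraMap K F).codRestrict O.toSubring v.algebraMap_mem'))
    have hintV : IsIntegral V (algebraMap K' (constExt K' F) a) := by
      refine ⟨p.map c, hpm.map c, ?_⟩
      rw [eval₂_map]
      have hcomp : (algebraMap V (constExt K' F)).comp c =
          (algebraMap K' (constExt K' F)).comp (algebraMap K K') := by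
        refine RingHom.ext fun x => ?_
        exact bcHom_algebraMap (K' := K') F x
      rw [hcomp, ← Polynomial.hom_eval₂, hp, map_zero]
    obtain ⟨y, hy⟩ := IsIntegrallyClosed.isIntegral_iff.mp hintV
    rw [← hy]
    exact y.2
  -- the uniformiser
  obtain ⟨τ, hirr, hτ0, hgen, hτF, hunit⟩ := place_data v
  have hτu : (bcHom K' F (τ : F))⁻¹ ∉ V := by
    intro h
    apply hirr.not_isUnit
    let a : (LocalSubring.range g).toSubring := ⟨bcHom K' F (τ : F), ⟨τ, rfl⟩⟩
    have hunitV : IsUnit (Subring.inclusion hle a) := by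
      refine IsUnit.of_mul_eq_one ⟨(bcHom K' F (τ : F))⁻¹, h⟩ (Subtype.ext ?_)
      show bcHom K' F (τ : F) * (bcHom K' F (τ : F))⁻¹ = 1
      exact mul_inv_cancel₀ ((map_ne_zero_iff _ (bcHom_injective F)).mpr hτ0)
    obtain ⟨⟨b, ⟨f', rfl⟩⟩, hab⟩ := isUnit_iff_exists_inv.mp (hloc.map_nonunit a hunitV)
    have h1 : bcHom K' F (τ : F) * bcHom K' F (f' : F) = 1 := congrArg Subtype.val hab
    rw [← map_mul, ← map_one (bcHom K' F)] at h1
    have h2 := bcHom_injective F h1
    exact IsUnit.of_mul_eq_one f' (Subtype.ext h2)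
  -- every nonzero element is `T^n · unit`
  have hall := exists_zpow_mul_unit V hK' O hO τ hτ0 hgen hτF
    (bounded' V O hO τ hτ0 hτF hτu hunit)
  have hTV : bcHom K' F (τ : F) ∈ V := hbcO _ τ.2
  have hpid : IsPrincipalIdealRing V :=
    isPrincipalIdealRing_of_zpow V (bcHom K' F (τ : F)) hTV hτu hall
  have hne : V ≠ ⊤ := by
    intro htop
    apply hτu
    rw [htop]
    exact ValuationSubring.mem_top _
  refine ⟨⟨V, hK', hne, hpid⟩, Place.ext ?_⟩
  exact hO.symm

end Exists

/-! ### transport and the modular case -/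

section Transport

variable {K : Type*} {K' : Type*} [Field K] [Field K'] [Algebra K K'] [Algebra.IsSeparable K K']
  [Algebra.IsAlgebraic K K']
variable (F : IntermediateField K (LaurentSeries K))
variable (F' : IntermediateField K' (LaurentSeries K')) (hF' : constExt K' F = F')

theorem exists_restrPlaceTo_eq (v : Place K F) :
    ∃ w : Place K' F', restrPlaceTo F F' hF' w = v := by
  subst hF'
  obtain ⟨w, hw⟩ := exists_restrPlace_eq (K' := K') v
  exact ⟨w, Place.ext (congrArg Place.toValuationSubring hw)⟩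

end Transport

section Laurent

variable {L : Type*} [Field L] [Algebra ℚ L] [Algebra.IsAlgebraic ℚ L]
variable (F₀ : IntermediateField ℚ (LaurentSeries ℚ)) (K : IntermediateField ℚ L)

local instance instIsAlgebraicTop' : Algebra.IsAlgebraic K L :=
  Algebra.IsAlgebraic.tower_top (K := ℚ) K

local instance instIsSeparableTop' : Algebra.IsSeparable K L :=
  Algebra.IsAlgebraic.isSeparable_of_perfectField

/-- **every place of `K(F₀)` is the restriction of a place of `L(F₀)`** -/
theorem exists_restrBar_eq (v : Place K (laurentBaseChange K F₀)) :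
    ∃ w : Place L (laurentBaseChange L F₀), restrBar F₀ K w = v :=
  exists_restrPlaceTo_eq (laurentBaseChange K F₀) (laurentBaseChange L F₀)
    (constExt_laurentBaseChange F₀) v

end Laurent

section X0

open Fermat.Agent.S36.K0PlacesX0

local notation "Kb" => AlgebraicClosure ℚ

variable (N : ℕ) (K0 : IntermediateField ℚ Kb)

/-- **every place of the `K0`-form of the function field of `X₀(N)` lies below a `ℚ̄`-place** -/
theorem exists_restrX0_eq (v : Place K0 (laurentBaseChange K0 (modularFunctionFieldFull N))) :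
    ∃ w : Place Kb (modularFunctionFieldBar N), restrX0 N K0 w = v :=
  haveI := isAlgebraic_Kb
  exists_restrBar_eq (modularFunctionFieldFull N) K0 v

/-- a `ℚ̄`-place above a place of the `K0`-form -/
def placeAbove (v : Place K0 (laurentBaseChange K0 (modularFunctionFieldFull N))) :
    Place Kb (modularFunctionFieldBar N) := (exists_restrX0_eq N K0 v).choose

@[simp] theorem restrX0_placeAbove
    (v : Place K0 (laurentBaseChange K0 (modularFunctionFieldFull N))) :
    restrX0 N K0 (placeAbove N K0 v) = v := (exists_restrX0_eq N K0 v).choose_spec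

/-- the divisor on the `K0`-form induced by a divisor over `ℚ̄` (value at a chosen place above) -/
def divBelow (D : Divisor Kb (modularFunctionFieldBar N))
    (v : Place K0 (laurentBaseChange K0 (modularFunctionFieldFull N))) : ℤ :=
  D (placeAbove N K0 v)

variable {N K0}

/-- **`n D = div f₀` reads `v(f₀) = n D₀(v)` on the `K0`-form** -/
theorem ord_eq_mul_divBelow {n : ℤ} {D : Divisor Kb (modularFunctionFieldBar N)}
    {f₀ : laurentBaseChange K0 (modularFunctionFieldFull N)}
    (hord : ∀ w : Place Kb (modularFunctionFieldBar N),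
      w.ord (toBar (modularFunctionFieldFull N) K0 f₀) = n * D w)
    (v : Place K0 (laurentBaseChange K0 (modularFunctionFieldFull N))) :
    v.ord f₀ = n * divBelow N K0 D v := by
  rw [divBelow, ← hord, ord_toBar_X0, restrX0_placeAbove]

/-- a divisor with `n D = div (toBar f₀)`, `n ≠ 0`, is constant on the fibres of the restriction -/
theorem divBelow_restrX0 {n : ℤ} (hn : n ≠ 0) {D : Divisor Kb (modularFunctionFieldBar N)}
    {f₀ : laurentBaseChange K0 (modularFunctionFieldFull N)}
    (hord : ∀ w : Place Kb (modularFunctionFieldBar N),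
      w.ord (toBar (modularFunctionFieldFull N) K0 f₀) = n * D w)
    (w : Place Kb (modularFunctionFieldBar N)) :
    divBelow N K0 D (restrX0 N K0 w) = D w := by
  have h1 := ord_eq_mul_divBelow hord (restrX0 N K0 w)
  rw [← ord_toBar_X0, hord] at h1
  exact (mul_left_cancel₀ hn h1).symm

end X0

end Fermat.Agent.S36.K0PlacesExt
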