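/-
PROJECT V (S36), slice V-LiftK0 (helper25), second file: **the `K0`-rational lifts in the language
of `K0`-places and chart rings.**

`K0` an intermediate field of `ℚ̄ / ℚ`, `F0 = laurentBaseChange K0 (modularFunctionFieldFull M)`
the `K0`-form of the function field of `X₀(M)`, `toBar : F0 → ℚ̄(X₀(M))`; `x₀ : F0` any element with
`toBar x₀ = jgen M` (e.g. `PowerBasisK0.j0K`).

* `mem_place_of_regular_off_poles` : if `toBar g₀` is regular off the poles of `j` (the output
  shape of `LiftK0.exists_lift_off_cusps_K0`), then `g₀` lies in every `K0`-place of `F0` finite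
  at `x₀` (`K0PlacesX0.ord_toBar_X0` + `K0PlacesExt.exists_restrX0_eq`).
* `mem_place_of_regular_off_zeros` : the same off the zeros, for the places with `x₀⁻¹` finite.
* `mem_chart_of_regular_off_poles`, `mem_chart_of_regular_off_zeros` : hence `g₀` lies in the chart
  ring `ChartRing.chart O x₀` (resp. `chart O x₀⁻¹`) as soon as it lies in every vertical valuation
  subring of the chart (hypothesis `hvert`, literally the one of
  `ChartPlaces.mem_chart_of_places`; by uniqueness of the Gauss extension at level `M` it reduces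
  to `toBar g₀ ∈ G.O`).
-/
import Mathlib
import Fermat.Agent.S36.LiftK0
import Fermat.Agent.S36.K0PlacesExt
import Fermat.Agent.S36.ChartPlaces

set_option autoImplicit false
set_option linter.unusedSectionVars false
set_option linter.style.haveILetI false

noncomputable section

namespace Fermat.Agent.S36.LiftK0Places

open ModularCurve AlgebraicCurve IntermediateField Polynomial
open Fermat.Agent.S24.DegreeAlg (jgen)
open Fermat.Agent.S36.K0Fixed Fermat.Agent.S36.K0PlacesX0 Fermat.Agent.S36.K0PlacesExt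

local notation "Kb" => AlgebraicClosure ℚ

variable {M : ℕ} [NeZero M] (K0 : IntermediateField ℚ Kb)

theorem jgen_ne_zero : jgen M ≠ 0 := fun h =>
  (Fermat.Agent.S18.C.ModularInst.transcendental_jgen M) (h ▸ isAlgebraic_zero)

omit [NeZero M] in
/-- membership in the valuation ring of a place, in terms of `ord` -/
theorem mem_place_iff_ord {K F : Type*} [Field K] [Field F] [Algebra K F] (v : Place K F) (f : F) :
    f ∈ v.toValuationSubring ↔ f = 0 ∨ 0 ≤ v.ord f :=
  (Fermat.Agent.S24.Ord.mem_iff v f).trans v.adicValuation_le_one_iff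

/-- **Regular off the cusps, `K0`-place form.** -/
theorem mem_place_of_regular_off_poles
    {g₀ x₀ : ↥(laurentBaseChange K0 (modularFunctionFieldFull M))}
    (hx₀ : toBar (modularFunctionFieldFull M) K0 x₀ = jgen M)
    (hreg : ∀ P : Place Kb ↥(modularFunctionFieldBar M), 0 ≤ P.ord (jgen M) →
      toBar (modularFunctionFieldFull M) K0 g₀ = 0 ∨
        0 ≤ P.ord (toBar (modularFunctionFieldFull M) K0 g₀))
    (v : Place K0 ↥(laurentBaseChange K0 (modularFunctionFieldFull M)))
    (hv : x₀ ∈ v.toValuationSubring) : g₀ ∈ v.toValuationSubring := by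
  obtain ⟨w, rfl⟩ := exists_restrX0_eq M K0 v
  rw [mem_restrX0] at hv ⊢
  rw [hx₀] at hv
  have h1 : 0 ≤ w.ord (jgen M) := ((mem_place_iff_ord w _).mp hv).resolve_left jgen_ne_zero
  exact (mem_place_iff_ord w _).mpr (hreg w h1)

/-- **Regular off the zeros of `j`, `K0`-place form.** -/
theorem mem_place_of_regular_off_zeros
    {g₀ x₀ : ↥(laurentBaseChange K0 (modularFunctionFieldFull M))}
    (hx₀ : toBar (modularFunctionFieldFull M) K0 x₀ = jgen M)
    (hreg : ∀ P : Place Kb ↥(modularFunctionFieldBar M), P.ord (jgen M) ≤ 0 →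
      toBar (modularFunctionFieldFull M) K0 g₀ = 0 ∨
        0 ≤ P.ord (toBar (modularFunctionFieldFull M) K0 g₀))
    (v : Place K0 ↥(laurentBaseChange K0 (modularFunctionFieldFull M)))
    (hv : x₀⁻¹ ∈ v.toValuationSubring) : g₀ ∈ v.toValuationSubring := by
  obtain ⟨w, rfl⟩ := exists_restrX0_eq M K0 v
  rw [mem_restrX0] at hv ⊢
  rw [map_inv₀, hx₀] at hv
  have h1 : 0 ≤ w.ord (jgen M)⁻¹ :=
    ((mem_place_iff_ord w _).mp hv).resolve_left (inv_ne_zero jgen_ne_zero)
  rw [Place.ord_inv] at h1
  exact (mem_place_iff_ord w _).mpr (hreg w (by omega))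

/-! ### chart form -/

section Chart

open Fermat.Agent.S36.ChartRing Fermat.Agent.S36.ChartPlaces

variable {O : Type*} [CommRing O] [IsDomain O] [IsDiscreteValuationRing O]
  [Algebra O K0] [IsFractionRing O K0]
  [Algebra O ↥(laurentBaseChange K0 (modularFunctionFieldFull M))]
  [IsScalarTower O K0 ↥(laurentBaseChange K0 (modularFunctionFieldFull M))]

/-- **The lift lies in the `j`-chart ring**, given its membership in the vertical valuation
subrings of the chart. -/
theorem mem_chart_of_regular_off_poles {π : O} (hπ : Irreducible π)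
    {g₀ x₀ : ↥(laurentBaseChange K0 (modularFunctionFieldFull M))}
    (hx₀ : toBar (modularFunctionFieldFull M) K0 x₀ = jgen M)
    (hx₀t : Transcendental K0 x₀)
    [FiniteDimensional K0⟮x₀⟯ ↥(laurentBaseChange K0 (modularFunctionFieldFull M))]
    (hreg : ∀ P : Place Kb ↥(modularFunctionFieldBar M), 0 ≤ P.ord (jgen M) →
      toBar (modularFunctionFieldFull M) K0 g₀ = 0 ∨
        0 ≤ P.ord (toBar (modularFunctionFieldFull M) K0 g₀))
    (hvert : ∀ W : ValuationSubring ↥(laurentBaseChange K0 (modularFunctionFieldFull M)),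
      (∀ c : O, algebraMap O ↥(laurentBaseChange K0 (modularFunctionFieldFull M)) c ∈ W) →
      x₀ ∈ W →
      (algebraMap O ↥(laurentBaseChange K0 (modularFunctionFieldFull M)) π)⁻¹ ∉ W →
      (∀ s : O[X], (∃ i, IsUnit (s.coeff i)) → (aeval x₀ s)⁻¹ ∈ W) → g₀ ∈ W) :
    g₀ ∈ chart O x₀ :=
  mem_chart_of_places hπ hx₀t g₀ hvert fun v hv =>
    mem_place_of_regular_off_poles K0 hx₀ hreg v hv

/-- **The lift lies in the `j⁻¹`-chart ring**, given its membership in the vertical valuation
subrings of the chart. -/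
theorem mem_chart_of_regular_off_zeros {π : O} (hπ : Irreducible π)
    {g₀ x₀ : ↥(laurentBaseChange K0 (modularFunctionFieldFull M))}
    (hx₀ : toBar (modularFunctionFieldFull M) K0 x₀ = jgen M)
    (hx₀t : Transcendental K0 x₀⁻¹)
    [FiniteDimensional K0⟮x₀⁻¹⟯ ↥(laurentBaseChange K0 (modularFunctionFieldFull M))]
    (hreg : ∀ P : Place Kb ↥(modularFunctionFieldBar M), P.ord (jgen M) ≤ 0 →
      toBar (modularFunctionFieldFull M) K0 g₀ = 0 ∨
        0 ≤ P.ord (toBar (modularFunctionFieldFull M) K0 g₀))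
    (hvert : ∀ W : ValuationSubring ↥(laurentBaseChange K0 (modularFunctionFieldFull M)),
      (∀ c : O, algebraMap O ↥(laurentBaseChange K0 (modularFunctionFieldFull M)) c ∈ W) →
      x₀⁻¹ ∈ W →
      (algebraMap O ↥(laurentBaseChange K0 (modularFunctionFieldFull M)) π)⁻¹ ∉ W →
      (∀ s : O[X], (∃ i, IsUnit (s.coeff i)) → (aeval x₀⁻¹ s)⁻¹ ∈ W) → g₀ ∈ W) :
    g₀ ∈ chart O x₀⁻¹ :=
  mem_chart_of_places hπ hx₀t g₀ hvert fun v hv =>
    mem_place_of_regular_off_zeros K0 hx₀ hreg v hv

end Chart

end Fermat.Agent.S36.LiftK0Places
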