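/-
PROJECT V (S36), slice V-LiftK0 (helper25), third file: **the level-`M` export of (V8)**, in the
literal shape of the hypothesis `hlift` of `CompNormal.exists_mem_chart_red_eq` (helper26 #2569).

`A` a valuation subring of `ℚ̄` over `q`, `q ∤ M`, `K0 = ℚ̄^I` the inertia field, `W A = A ∩ K0`,
`F0 = FK0 A M` the `K0`-form of the function field of `X₀(M)` (helper10's `ChartX0` instances),
`Og0` the Gauss valuation ring of `F0` with reduction `red0z : Og0 →+* F_k(M)` (helper11's
`GaussK0Comap`), `k = ResidueField A`, `j = j0K`, `J = jk k M`.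

* `regular_of_mem_chart` / `regular_of_mem_chart_inv` : `b ∈ chart k J` (resp. `chart k J⁻¹`) is
  regular off the poles (resp. zeros) of `J`;
* `vertical_inv` : a vertical valuation subring of the chart `j⁻¹` is a vertical valuation subring
  of the chart `j` (the primitive polynomials in `j⁻¹` are units ==> so are those in `j`);
* `exists_chart_lift` : **every `b ∈ chart k J` is `red0z g` with `g ∈ chart (W A) j ∩ Og0`**;
* `exists_chart_lift_inv` : **every `b ∈ chart k J⁻¹` is `red0z g` with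
  `g ∈ chart (W A) j⁻¹ ∩ Og0`**.

Hypotheses: Deuring's `Hyp` of `S34/LevelMSurj` (provided by `S37/ReductionInputsX0.hyp_X0`) and
`hU0` = (U0) "`Og0` lies in every vertical valuation subring of the `j`-chart" (uniqueness of the
Gauss extension at level `M`: helper11's `GaussUniqK0`), in the shape of the vertical hypothesis
of `ChartPlaces.mem_chart_of_places`.
-/
import Mathlib
import Fermat.Agent.S36.LiftK0Places
import Fermat.Agent.S36.GaussK0Comap
import Fermat.Agent.S36.ChartX0
import Fermat.Agent.S36.CompNormal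

set_option autoImplicit false
set_option linter.unusedSectionVars false
set_option linter.style.haveILetI false
set_option synthInstance.maxHeartbeats 400000

noncomputable section

namespace Fermat.Agent.S36.LiftK0Chart

open ModularCurve AlgebraicCurve IntermediateField Polynomial IsLocalRing
open Fermat.Agent.S24.DegreeAlg (jgen)
open Fermat.Agent.S18.B.FkBasics (jk)
open Fermat.Agent.S18.C.SmallDVR
open Fermat.Agent.S36.ChartRing Fermat.Agent.S36.ChartX0 Fermat.Agent.S36.GaussK0Comap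
open Fermat.Agent.S36.PowerBasisK0 (j0K tB_j0K)
open Fermat.Agent.S36.LiftK0 Fermat.Agent.S36.LiftK0Places
open Fermat.Agent.S37.Gauss Fermat.Agent.S37.Deuring.Core

local notation "Kb" => AlgebraicClosure ℚ

/-! ### the residue side: chart rings and regularity -/

section Residue

variable {k : Type*} [Field k] {κ : Type*} [Field κ] [Algebra k κ]

/-- an element of the chart ring of `J` is regular at every place where `J` is -/
theorem regular_of_mem_chart {J b : κ} (hb : b ∈ chart k J) (Q : Place k κ)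
    (hQ : 0 ≤ Q.ord J) : b = 0 ∨ 0 ≤ Q.ord b :=
  (mem_place_iff_ord Q b).mp
    (CompNormal.mem_of_mem_chart' Q.toValuationSubring Q.algebraMap_mem'
      ((mem_place_iff_ord Q J).mpr (Or.inr hQ)) hb)

/-- an element of the chart ring of `J⁻¹` is regular at every place where `J⁻¹` is -/
theorem regular_of_mem_chart_inv {J b : κ} (hJ : J ≠ 0) (hb : b ∈ chart k J⁻¹) (Q : Place k κ)
    (hQ : Q.ord J ≤ 0) : b = 0 ∨ 0 ≤ Q.ord b := by
  refine regular_of_mem_chart hb Q ?_
  rw [Place.ord_inv]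
  omega

end Residue

/-! ### vertical valuation subrings of the chart at infinity -/

section Vertical

variable {O : Type*} [CommRing O] [Nontrivial O] {F : Type*} [Field F] [Algebra O F]

/-- **a valuation subring in which the primitive polynomials in `x⁻¹` are units also has the
primitive polynomials in `x` as units** (and contains `x`) -/
theorem vertical_inv {x : F} (hx0 : x ≠ 0) (V : ValuationSubring F)
    (hs : ∀ s : O[X], (∃ i, IsUnit (s.coeff i)) → (aeval x⁻¹ s)⁻¹ ∈ V) :
    x ∈ V ∧ x⁻¹ ∈ V → x ∈ V ∧ ∀ s : O[X], (∃ i, IsUnit (s.coeff i)) → (aeval x s)⁻¹ ∈ V := by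
  rintro ⟨hxV, hxiV⟩
  refine ⟨hxV, fun s ⟨i, hi⟩ => ?_⟩
  have hile : i ≤ s.natDegree := le_natDegree_of_ne_zero hi.ne_zero
  have hrev : ∃ i', IsUnit (s.reverse.coeff i') := by
    refine ⟨s.natDegree - i, ?_⟩
    rw [coeff_reverse, revAt_le (Nat.sub_le _ _), Nat.sub_sub_self hile]
    exact hi
  have h1 := hs s.reverse hrev
  haveI : Invertible x := invertibleOfNonzero hx0
  have h2 : eval₂ (algebraMap O F) (⅟ x) s.reverse * x ^ s.natDegree
      = eval₂ (algebraMap O F) x s := eval₂_reverse_mul_pow (algebraMap O F) x s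
  rw [invOf_eq_inv] at h2
  rw [aeval_def, ← h2, mul_inv, ← inv_pow]
  exact V.mul_mem _ _ h1 (pow_mem hxiV _)

end Vertical

/-! ### the lifts -/

section J

variable (A : ValuationSubring Kb) (M : ℕ) [NeZero M]

theorem transcendental_j0K :
    Transcendental (R := ↥(K0 A)) (A := FK0 A M) (j0K (A.inertiaSubgroupIn ℚ) M) :=
  jK0_eq_j0K A M ▸ transcendental_jK0 A M

theorem j0K_ne_zero : j0K (A.inertiaSubgroupIn ℚ) M ≠ 0 := fun h =>
  (transcendental_j0K A M) (h ▸ isAlgebraic_zero)

theorem transcendental_j0K_inv :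
    Transcendental (R := ↥(K0 A)) (A := FK0 A M) (j0K (A.inertiaSubgroupIn ℚ) M)⁻¹ := fun h =>
  (transcendental_j0K A M) (by
    have h2 := h.inv
    rwa [inv_inv] at h2)

end J

section Main

variable {q : ℕ} [Fact q.Prime] {M : ℕ} [NeZero M] {A : ValuationSubring Kb}
variable (hA : A.LiesOverPrime q) (hqM : ¬ q ∣ M) {gL gk : ℕ}

/-- **(V8) at level `M`, finite chart**: every element of the chart ring `chart k J` of the
reduction is the reduction of an element of `chart (W A) j ∩ Og0`. -/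
theorem exists_chart_lift
    (H : Hyp (Datum.gaussDatum M A hA hqM) gL gk)
    (hU0 : ∀ V : ValuationSubring (FK0 A M),
      (∀ c : ↥(W A), algebraMap ↥(W A) (FK0 A M) c ∈ V) →
      (j0K (A.inertiaSubgroupIn ℚ) M : FK0 A M) ∈ V →
      (algebraMap ↥(W A) (FK0 A M) ((q : ℕ) : ↥(W A)))⁻¹ ∉ V →
      (∀ s : (↥(W A))[X], (∃ i, IsUnit (s.coeff i)) →
        (aeval (A := FK0 A M) (j0K (A.inertiaSubgroupIn ℚ) M) s)⁻¹ ∈ V) →
      ∀ g : FK0 A M, g ∈ Og0 M hA hqM → g ∈ V) :
    ∀ b ∈ (chart (ResidueField ↥A) (jk (ResidueField ↥A) M) :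
        Set ↥(modularFunctionFieldFullC (ResidueField ↥A) M)),
      ∃ g : FK0 A M, g ∈ chart (F := FK0 A M) ↥(W A) (j0K (A.inertiaSubgroupIn ℚ) M) ∧
        ∃ hg : g ∈ Og0 M hA hqM, red0z M hA hqM ⟨g, hg⟩ = b := by
  intro b hb
  obtain ⟨g₀, h₀, hred, hreg⟩ := exists_lift_off_cusps_K0 hA hqM (A.inertiaSubgroupIn ℚ)
    (ratPi_surjective_inertia hA) H b (fun Q hQ => regular_of_mem_chart hb Q hQ)
  haveI := isDVR hA
  haveI := ChartX0.finiteDimensional_of_transcendental A M (transcendental_j0K A M)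
  refine ⟨g₀, ?_, h₀, hred⟩
  exact mem_chart_of_regular_off_poles (K0 A) (irreducible_ell hA)
    (tB_j0K (A.inertiaSubgroupIn ℚ) M) (transcendental_j0K A M) hreg
    (fun V hc hx hπ hs => hU0 V hc hx hπ hs g₀ h₀)

/-- **(V8) at level `M`, chart at infinity**: every element of the chart ring `chart k J⁻¹` of
the reduction is the reduction of an element of `chart (W A) j⁻¹ ∩ Og0`. -/
theorem exists_chart_lift_inv
    (H : Hyp (Datum.gaussDatum M A hA hqM) gL gk)
    (hU0 : ∀ V : ValuationSubring (FK0 A M),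
      (∀ c : ↥(W A), algebraMap ↥(W A) (FK0 A M) c ∈ V) →
      (j0K (A.inertiaSubgroupIn ℚ) M : FK0 A M) ∈ V →
      (algebraMap ↥(W A) (FK0 A M) ((q : ℕ) : ↥(W A)))⁻¹ ∉ V →
      (∀ s : (↥(W A))[X], (∃ i, IsUnit (s.coeff i)) →
        (aeval (A := FK0 A M) (j0K (A.inertiaSubgroupIn ℚ) M) s)⁻¹ ∈ V) →
      ∀ g : FK0 A M, g ∈ Og0 M hA hqM → g ∈ V) :
    ∀ b ∈ (chart (ResidueField ↥A) (jk (ResidueField ↥A) M)⁻¹ :
        Set ↥(modularFunctionFieldFullC (ResidueField ↥A) M)),
      ∃ g : FK0 A M, g ∈ chart (F := FK0 A M) ↥(W A) (j0K (A.inertiaSubgroupIn ℚ) M)⁻¹ ∧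
        ∃ hg : g ∈ Og0 M hA hqM, red0z M hA hqM ⟨g, hg⟩ = b := by
  intro b hb
  have hJ : jk (ResidueField ↥A) M ≠ 0 := fun h =>
    (Fermat.Agent.S18.B.FkBasics.transcendental_jk (ResidueField ↥A) M) (h ▸ isAlgebraic_zero)
  obtain ⟨g₀, h₀, hred, hreg⟩ := exists_lift_off_zeros_K0 hA hqM (A.inertiaSubgroupIn ℚ)
    (ratPi_surjective_inertia hA) H b (fun Q hQ => regular_of_mem_chart_inv hJ hb Q hQ)
  haveI := isDVR hA
  haveI := ChartX0.finiteDimensional_of_transcendental A M (transcendental_j0K_inv A M)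
  refine ⟨g₀, ?_, h₀, hred⟩
  refine mem_chart_of_regular_off_zeros (K0 A) (irreducible_ell hA)
    (tB_j0K (A.inertiaSubgroupIn ℚ) M) (transcendental_j0K_inv A M) hreg
    (fun V hc hx hπ hs => ?_)
  have hX : (∃ i, IsUnit ((X : (↥(W A))[X]).coeff i)) := ⟨1, by rw [coeff_X_one]; exact isUnit_one⟩
  have hxV : (j0K (A.inertiaSubgroupIn ℚ) M : FK0 A M) ∈ V := by
    have := hs X hX
    rwa [aeval_X, inv_inv] at this
  obtain ⟨h1, h2⟩ := vertical_inv (O := ↥(W A)) (F := FK0 A M) (j0K_ne_zero A M) V hs ⟨hxV, hx⟩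
  exact hU0 V hc h1 hπ h2 g₀ h₀

end Main

end Fermat.Agent.S36.LiftK0Chart
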