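/-
PROJECT V (S36), slice V-CompNormal = chain (V8), the LITERAL `Base` at `X₀` (helper26):
for `A` a valuation subring of `ℚ̄` over `q`, `I` its inertia group, `O = W A = A ∩ K₀`
(`S18/C/SmallDVR`, instances of `S36/ChartX0`), `k = ResidueField A`, `κ = F_k(N0)`, and ANY
`Y : ThreeValX0.Hyp I N0 q κ` whose level-`N0` ring and reduction are the Gauss ring `Og0` and
`red0z` of `S36/GaussK0Comap`, the hypothesis bundle `CompNormalX0.Base` holds, given Deuring's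
`Hyp` (`S37/ReductionInputsX0.hyp_X0`) and (U0) (`hU0`, shape of `S36/LiftK0Chart`).

Hence `branch₂₀ / branch₁₁ / branch₀₂` of `S36/CompNormalX0` apply: the reductions of both charts
`chart (W A) x₂^{±1}` along `W₂₀ W₁₁ W₀₂` are onto `chart k J^{±1}`.
-/
import Mathlib
import Fermat.Agent.S36.CompNormalX0
import Fermat.Agent.S36.LiftK0Chart

set_option autoImplicit false
set_option linter.unusedSectionVars false
set_option linter.unusedVariables false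
set_option linter.style.haveILetI false
set_option synthInstance.maxHeartbeats 400000

noncomputable section

namespace Fermat.Agent.S36.CompNormalX0Base

open ModularCurve AlgebraicCurve IntermediateField Polynomial IsLocalRing
open Fermat.Agent.S18.B.FkBasics (jk)
open Fermat.Agent.S18.C.SmallDVR
open Fermat.Agent.S36.ChartRing Fermat.Agent.S36.ChartX0 Fermat.Agent.S36.GaussK0Comap
open Fermat.Agent.S36.PowerBasisK0
open Fermat.Agent.S36.CompNormalX0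
open Fermat.Agent.S37.Gauss Fermat.Agent.S37.Deuring.Core

local notation "Kb" => AlgebraicClosure ℚ

/-! ### the level maps commute with the constants -/

section Const

variable (A : ValuationSubring Kb) (N ℓ : ℕ) [NeZero N] [NeZero ℓ]

theorem alphaK_algebraMap_W (c : ↥(W A)) :
    alphaK (A.inertiaSubgroupIn ℚ) N ℓ (algebraMap ↥(W A) (FK0 A N) c)
      = algebraMap ↥(W A) (FK0 A (N * ℓ)) c :=
  (heckeAlphaBar ↥(K0 A) N ℓ).commutes (algebraMap ↥(W A) ↥(K0 A) c)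

theorem betaK_algebraMap_W (c : ↥(W A)) :
    betaK (A.inertiaSubgroupIn ℚ) N ℓ (algebraMap ↥(W A) (FK0 A N) c)
      = algebraMap ↥(W A) (FK0 A (N * ℓ)) c :=
  (heckeBetaBar ↥(K0 A) N ℓ).commutes (algebraMap ↥(W A) ↥(K0 A) c)

end Const

/-! ### the literal `Base` -/

section Main

variable {q : ℕ} [Fact q.Prime] {N0 : ℕ} [NeZero N0] [NeZero q] [NeZero (N0 * q)]
  [NeZero (N0 * q * q)] {A : ValuationSubring Kb}
variable (hA : A.LiesOverPrime q) (hqN0 : ¬ q ∣ N0) {gL gk : ℕ}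

/-- **`CompNormalX0.Base` at `X₀`.**  `Y` is any instance of `ThreeValX0.Hyp` over the inertia field
whose level-`N0` data are `Og0`, `red0z`. -/
theorem base_X0
    (Y : ThreeValX0.Hyp (A.inertiaSubgroupIn ℚ) N0 q
      ↥(modularFunctionFieldFullC (ResidueField ↥A) N0))
    (hO₀ : Y.O₀ = Og0 N0 hA hqN0)
    (hred₀ : ∀ (g : FK0 A N0) (hg : g ∈ Y.O₀) (hg' : g ∈ Og0 N0 hA hqN0),
      Y.red₀ ⟨g, hg⟩ = red0z N0 hA hqN0 ⟨g, hg'⟩)
    (H : Hyp (Datum.gaussDatum N0 A hA hqN0) gL gk)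
    (hU0 : ∀ V : ValuationSubring (FK0 A N0),
      (∀ c : ↥(W A), algebraMap ↥(W A) (FK0 A N0) c ∈ V) →
      (j0K (A.inertiaSubgroupIn ℚ) N0 : FK0 A N0) ∈ V →
      (algebraMap ↥(W A) (FK0 A N0) ((q : ℕ) : ↥(W A)))⁻¹ ∉ V →
      (∀ s : (↥(W A))[X], (∃ i, IsUnit (s.coeff i)) →
        (aeval (A := FK0 A N0) (j0K (A.inertiaSubgroupIn ℚ) N0) s)⁻¹ ∈ V) →
      ∀ g : FK0 A N0, g ∈ Og0 N0 hA hqN0 → g ∈ V) :
    @Base (A.inertiaSubgroupIn ℚ) N0 q _ _ _ _ _ Y ↥(W A) _ (algebraW A N0) (algebraW A (N0 * q))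
      (algebraW A (N0 * q * q)) (ResidueField ↥A) _ _ (algebraMap ↥(W A) (ResidueField ↥A)) := by
  letI i0 : Algebra ↥(W A) (FK (A.inertiaSubgroupIn ℚ) N0) := algebraW A N0
  letI i1 : Algebra ↥(W A) (FK (A.inertiaSubgroupIn ℚ) (N0 * q)) := algebraW A (N0 * q)
  letI i2 : Algebra ↥(W A) (FK (A.inertiaSubgroupIn ℚ) (N0 * q * q)) := algebraW A (N0 * q * q)
  have hJ : Y.J = jk (ResidueField ↥A) N0 := by
    show Y.red₀ ⟨j0K (A.inertiaSubgroupIn ℚ) N0, Y.hj⟩ = _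
    rw [hred₀ _ Y.hj (j0K_mem_Og0 N0 hA hqN0)]
    exact red0z_j0K N0 hA hqN0
  have hmem : ∀ c : ↥(W A), algebraMap ↥(W A) (FK0 A N0) c ∈ Og0 N0 hA hqN0 := fun c =>
    algebraMap_mem_Og0 N0 hA hqN0 (algebraMap ↥(W A) ↥(K0 A) c) c.2
  refine ⟨alphaK_algebraMap_W A N0 q, betaK_algebraMap_W A N0 q,
    alphaK_algebraMap_W A (N0 * q) q, betaK_algebraMap_W A (N0 * q) q,
    fun c => hO₀ ▸ hmem c, fun c => ?_, ?_, ?_⟩
  · exact (hred₀ _ _ (hmem c)).trans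
      (red0z_algebraMap N0 hA hqN0 (algebraMap ↥(W A) ↥(K0 A) c) c.2)
  · intro b hb
    rw [hJ] at hb
    obtain ⟨g, hgc, hg, hgb⟩ := LiftK0Chart.exists_chart_lift hA hqN0 H hU0 b hb
    exact ⟨g, hgc, hO₀ ▸ hg, (hred₀ g _ hg).trans hgb⟩
  · intro b hb
    rw [hJ] at hb
    obtain ⟨g, hgc, hg, hgb⟩ := LiftK0Chart.exists_chart_lift_inv hA hqN0 H hU0 b hb
    exact ⟨g, hgc, hO₀ ▸ hg, (hred₀ g _ hg).trans hgb⟩

/-- the hypotheses of `base_X0`, bundled, so that the three branches can be stated once -/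
structure Link (hA : A.LiesOverPrime q) (hqN0 : ¬ q ∣ N0) (gL gk : ℕ)
    (Y : ThreeValX0.Hyp (A.inertiaSubgroupIn ℚ) N0 q
      ↥(modularFunctionFieldFullC (ResidueField ↥A) N0)) : Prop where
  hO₀ : Y.O₀ = Og0 N0 hA hqN0
  hred₀ : ∀ (g : FK0 A N0) (hg : g ∈ Y.O₀) (hg' : g ∈ Og0 N0 hA hqN0),
    Y.red₀ ⟨g, hg⟩ = red0z N0 hA hqN0 ⟨g, hg'⟩
  H : Hyp (Datum.gaussDatum N0 A hA hqN0) gL gk
  hU0 : ∀ V : ValuationSubring (FK0 A N0),
    (∀ c : ↥(W A), algebraMap ↥(W A) (FK0 A N0) c ∈ V) →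
    (j0K (A.inertiaSubgroupIn ℚ) N0 : FK0 A N0) ∈ V →
    (algebraMap ↥(W A) (FK0 A N0) ((q : ℕ) : ↥(W A)))⁻¹ ∉ V →
    (∀ s : (↥(W A))[X], (∃ i, IsUnit (s.coeff i)) →
      (aeval (A := FK0 A N0) (j0K (A.inertiaSubgroupIn ℚ) N0) s)⁻¹ ∈ V) →
    ∀ g : FK0 A N0, g ∈ Og0 N0 hA hqN0 → g ∈ V

variable {hA hqN0}
variable {Y : ThreeValX0.Hyp (A.inertiaSubgroupIn ℚ) N0 q
  ↥(modularFunctionFieldFullC (ResidueField ↥A) N0)} (L : Link hA hqN0 gL gk Y)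

include L

theorem Link.base :
    @Base (A.inertiaSubgroupIn ℚ) N0 q _ _ _ _ _ Y ↥(W A) _ (algebraW A N0) (algebraW A (N0 * q))
      (algebraW A (N0 * q * q)) (ResidueField ↥A) _ _ (algebraMap ↥(W A) (ResidueField ↥A)) :=
  base_X0 hA hqN0 Y L.hO₀ L.hred₀ L.H L.hU0

/-- **the thin branch `W₂₀` at `X₀`** -/
theorem Link.branch₂₀ :
    @Branch (A.inertiaSubgroupIn ℚ) N0 q _ _ _ _ _ _ Y ↥(W A) _ (algebraW A N0)
      (algebraW A (N0 * q)) (algebraW A (N0 * q * q)) (ResidueField ↥A) _ _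
      (algebraMap ↥(W A) (ResidueField ↥A)) Y.W₂₀ Y.r₂₀ (a₀ (A.inertiaSubgroupIn ℚ) N0 q) 0 :=
  @CompNormalX0.branch₂₀ (A.inertiaSubgroupIn ℚ) N0 q _ _ _ _ _ _ Y ↥(W A) _ (algebraW A N0)
    (algebraW A (N0 * q)) (algebraW A (N0 * q * q)) (ResidueField ↥A) _ _ _ L.base

/-- **the thick branch `W₁₁` at `X₀`** -/
theorem Link.branch₁₁ :
    @Branch (A.inertiaSubgroupIn ℚ) N0 q _ _ _ _ _ _ Y ↥(W A) _ (algebraW A N0)
      (algebraW A (N0 * q)) (algebraW A (N0 * q * q)) (ResidueField ↥A) _ _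
      (algebraMap ↥(W A) (ResidueField ↥A)) Y.W₁₁ Y.r₁₁ (a₀ (A.inertiaSubgroupIn ℚ) N0 q) 0 :=
  @CompNormalX0.branch₁₁ (A.inertiaSubgroupIn ℚ) N0 q _ _ _ _ _ _ Y ↥(W A) _ (algebraW A N0)
    (algebraW A (N0 * q)) (algebraW A (N0 * q * q)) (ResidueField ↥A) _ _ _ L.base

/-- **the thin branch `W₀₂` at `X₀`** -/
theorem Link.branch₀₂ :
    @Branch (A.inertiaSubgroupIn ℚ) N0 q _ _ _ _ _ _ Y ↥(W A) _ (algebraW A N0)
      (algebraW A (N0 * q)) (algebraW A (N0 * q * q)) (ResidueField ↥A) _ _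
      (algebraMap ↥(W A) (ResidueField ↥A)) Y.W₀₂ Y.r₀₂ (a₂ (A.inertiaSubgroupIn ℚ) N0 q) 2 :=
  @CompNormalX0.branch₀₂ (A.inertiaSubgroupIn ℚ) N0 q _ _ _ _ _ _ Y ↥(W A) _ (algebraW A N0)
    (algebraW A (N0 * q)) (algebraW A (N0 * q * q)) (ResidueField ↥A) _ _ _ L.base

end Main

end Fermat.Agent.S36.CompNormalX0Base
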