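/-
PROJECT V (S36), slice V-GaussUniqK0, part 1 (helper11): **UNIQUENESS OF THE GAUSS EXTENSION**, for
the function field `F_L(N) = laurentBaseChange L (full N)` of `X₀(N)` over ANY field `L ⊇ ℚ`.

`A` a valuation subring of `L` over `ℓ ∤ N`, `π : A →+* k` onto an algebraically closed field with
kernel the maximal ideal, `hrep : HasRep A π N` (`S36/GaussL.hasRepL`), `Ow = OwV A π N hrep` the
Gauss valuation ring of `F_L(N)`, `redV` its reduction onto `F_k(N)`.

* `below_eq_gaussRing` : `Ow ∩ L(j)` is the Gauss ring `S18/C/GaussRing.gaussRing A` of `L(j)`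
  (quotients `a / s` of polynomials in `j` over `A` with `s` primitive);
* `exists_redV_below_eq` : the reduction of `Ow ∩ L(j)` lies in `k(J)`; `redBelow`;
* `exists_hyp` : the unramified package `S18/C/UnramVal.Hyp` over `L(j)`: the rational orthonormal
  basis `GaussL.exists_basesL` has `[F_L(N) : L(j)]` elements of `Ow` whose reductions are linearly
  independent over `k(J)`.  Hence `Ow` is the integral closure of `Ow ∩ L(j)` in `F_L(N)`;
* `eq_OwV_of_comap` : **if `Ow` is archimedean (e.g. a DVR), it is the ONLY valuation subring of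
  `F_L(N)` whose restriction to `L(j)` is the Gauss ring of `L(j)`**;
* `comap_eq_gaussRing_of_vert`, `eq_OwV_of_vert` : the same in polynomial language (no `RatFunc`):
  a valuation subring `V ⊇ A[j]` with `V ∩ L ⊆ A` in which every polynomial in `j` over `A` with a
  unit coefficient is a unit, is `Ow`.

No modular polynomial, no irreducibility modulo `ℓ`: only the rational orthonormal basis.
The instance `RatFunc L → F_L(N)` is `GaussL.algRatL` (`attribute [local instance]`).
-/
import Mathlib
import Fermat.Agent.S36.GaussL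
import Fermat.Agent.S18.C.GaussRing
import Fermat.Agent.S18.C.UnramVal
import Fermat.Agent.S34.WeakApprox

set_option autoImplicit false
set_option linter.unusedSectionVars false
set_option linter.style.haveILetI false
set_option synthInstance.maxHeartbeats 400000

noncomputable section

namespace Fermat.Agent.S36.GaussUniq

open HahnSeries ModularCurve IsLocalRing IntermediateField Polynomial
open Fermat.Agent.S18.GaussFromH Fermat.Agent.S18.C Fermat.Agent.S37.Gauss.HasRep
open Fermat.Agent.S18.C.GaussRing Fermat.Agent.S18.C.Defs Fermat.Agent.S18.C.UnramVal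
open Fermat.Agent.S36.GaussL
open Fermat.Agent.S18.B.FkBasics (jk coe_jk transcendental_jk)
open Fermat.Agent.S28.GaussFull (OwFull redwFull)

variable {L : Type*} [Field L] [Algebra ℚ L] {N : ℕ} [NeZero N]
variable {ℓ : ℕ} [Fact ℓ.Prime] (A : ValuationSubring L) {k : Type*} [Field k] (π : ↥A →+* k)
  [Algebra (ZMod ℓ) k]

attribute [local instance] algRatL

instance : IsScalarTower L (RatFunc L) ↥(laurentBaseChange L (modularFunctionFieldFull N)) :=
  Fermat.Agent.S18.A.Chart.isScalarTower_ratAlgebra (transcendental_jL L N)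

variable (hrep : HasRep A π N)

/-- integral polynomials in `j` lie in the Gauss ring -/
theorem aeval_jL_mem (p : (↥A)[X]) :
    Polynomial.aeval (jL L N) (p.map A.subtype) ∈ OwV A π N hrep := by
  rw [← toFL_evIL A π p]
  exact toFL_mem_OwV hrep _

theorem redV_aeval_jL (p : (↥A)[X]) :
    redV A π N hrep ⟨_, aeval_jL_mem A π hrep p⟩ = Polynomial.aeval (jk k N) (p.map π) := by
  have h : (⟨_, aeval_jL_mem A π hrep p⟩ : ↥(OwV A π N hrep)) =
      ⟨toFL A π N (evIL A π p), toFL_mem_OwV hrep _⟩ := Subtype.ext (toFL_evIL A π p).symm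
  rw [h, redV_toFL, red_evIL]

/-! ### the restriction of the Gauss ring to `L(j)` is the Gauss ring of `L(j)` -/

omit [Algebra (ZMod ℓ) k] [Fact ℓ.Prime] in
/-- a primitive polynomial has nonzero reduction -/
theorem map_ne_zero_of_isPrim {s : L[X]} (hs : IsPrim A s) :
    ∃ s₀ : (↥A)[X], s₀.map A.subtype = s ∧ s₀.map π ≠ 0 := by
  obtain ⟨s₀, hs₀⟩ := hs.1
  obtain ⟨i, hi⟩ := hs.2
  refine ⟨s₀, hs₀, fun h0 => ?_⟩
  have h1 : (s₀.map π).coeff i = 0 := by rw [h0, Polynomial.coeff_zero]
  rw [Polynomial.coeff_map] at h1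
  have h2 : IsUnit (s₀.coeff i) := by
    apply (A.valuation_eq_one_iff _).mpr
    have h3 : ((s₀.coeff i : ↥A) : L) = s.coeff i := by
      rw [← hs₀]
      show _ = ((Polynomial.mapRingHom A.subtype) s₀).coeff i
      rw [Polynomial.coe_mapRingHom, Polynomial.coeff_map]
      rfl
    rw [h3]
    exact hi
  exact (h2.map π).ne_zero h1

/-- a polynomial in `j` over `A` with nonzero reduction is a unit of the Gauss ring -/
theorem inv_aeval_jL_mem (s : (↥A)[X]) (hs : s.map π ≠ 0) :
    (Polynomial.aeval (jL L N) (s.map A.subtype))⁻¹ ∈ OwV A π N hrep := by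
  rw [← toFL_evIL A π s]
  refine inv_mem_Ow_of_redw_ne_zero (A := A) (π := π) (N := N)
    ⟨toFL A π N (evIL A π s), toFL_mem_Ow _⟩ ?_
  rw [redw_toFL]
  exact red_evIL_ne_zero A π hs

/-- a polynomial in `j` over `A` with a unit coefficient is a unit of the Gauss ring -/
theorem inv_aeval_jL_mem_of_isUnit_coeff (s : (↥A)[X]) (hs : ∃ i, IsUnit (s.coeff i)) :
    (Polynomial.aeval (jL L N) (s.map A.subtype))⁻¹ ∈ OwV A π N hrep := by
  refine inv_aeval_jL_mem A π hrep s (fun h0 => ?_)
  obtain ⟨i, hi⟩ := hs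
  have h1 : (s.map π).coeff i = 0 := by rw [h0, Polynomial.coeff_zero]
  rw [Polynomial.coeff_map] at h1
  exact (hi.map π).ne_zero h1

theorem gaussRing_le_below :
    gaussRing A ≤ below (RatFunc L) (OwV A π N hrep) := by
  refine gaussRing_le (V := A) (fun c hc => ?_) ?_ (fun s hs => ?_)
  · rw [mem_below, ← IsScalarTower.algebraMap_apply]
    exact algebraMap_mem_OwV hrep ⟨c, hc⟩
  · rw [mem_below, algebraMap_ratL, Fermat.Agent.S18.A.Chart.evalRat_X]
    have h := aeval_jL_mem A π hrep (X : (↥A)[X])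
    rwa [Polynomial.map_X, Polynomial.aeval_X] at h
  · obtain ⟨s₀, hs₀, hs₀π⟩ := map_ne_zero_of_isPrim A π hs
    rw [mem_below, map_inv₀, algebraMap_ratL_poly, ← hs₀, ← toFL_evIL A π s₀]
    refine inv_mem_Ow_of_redw_ne_zero (A := A) (π := π) (N := N)
      ⟨toFL A π N (evIL A π s₀), toFL_mem_Ow _⟩ ?_
    rw [redw_toFL]
    exact red_evIL_ne_zero A π hs₀π

/-- **`Ow ∩ L(j)` is the Gauss ring of `L(j)`** (`π` kills the non-units of `A`) -/
theorem below_eq_gaussRing (hπ : ∀ a : ↥A, ¬ IsUnit a → π a = 0) :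
    below (RatFunc L) (OwV A π N hrep) = gaussRing A := by
  refine eq_gaussRing_of_le (V := A) (gaussRing_le_below A π hrep) (fun c hc => ?_)
  rw [mem_below, ← IsScalarTower.algebraMap_apply] at hc
  exact mem_of_algebraMap_mem_Ow hπ c hc

/-! ### the reduction of `Ow ∩ L(j)` lies in `k(J)` -/

theorem algebraMap_Fk_poly' (p : k[X]) :
    algebraMap (RatFunc k) ↥(modularFunctionFieldFullC k N) (algebraMap k[X] (RatFunc k) p) =
      Polynomial.aeval (jk k N) p := by
  rw [ModularInst.algebraMap_Fk, Fermat.Agent.S18.A.Chart.evalRat_algebraMap]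

/-- **Lemma R**: the reduction of an element of `Ow ∩ L(j)` is a rational function of `J` -/
theorem exists_redV_below_eq (hπ : ∀ a : ↥A, ¬ IsUnit a → π a = 0)
    (x : ↥(below (RatFunc L) (OwV A π N hrep))) :
    ∃ g : RatFunc k, redV A π N hrep (incl (RatFunc L) (OwV A π N hrep) x) =
      algebraMap (RatFunc k) ↥(modularFunctionFieldFullC k N) g := by
  have hx : (x : RatFunc L) ∈ gaussRing A := by
    rw [← below_eq_gaussRing A π hrep hπ]
    exact x.2
  obtain ⟨a, s, ha, hs, h⟩ := hx
  obtain ⟨a₀, ha₀⟩ := ha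
  obtain ⟨s₀, hs₀, hs₀π⟩ := map_ne_zero_of_isPrim A π hs
  have hb : Fermat.Agent.S18.GaussFromH.red A π N (evIL (N := N) A π s₀) ≠ 0 :=
    red_evIL_ne_zero A π hs₀π
  have hab : ((incl (RatFunc L) (OwV A π N hrep) x : ↥(OwV A π N hrep)) :
      ↥(laurentBaseChange L (modularFunctionFieldFull N))) * toFL A π N (evIL A π s₀) =
      toFL A π N (evIL A π a₀) := by
    rw [toFL_evIL, toFL_evIL, hs₀, coe_incl]
    have ha₀' : a₀.map A.subtype = a := ha₀
    rw [ha₀', ← algebraMap_ratL_poly, ← algebraMap_ratL_poly, ← map_mul, h]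
  refine ⟨algebraMap k[X] (RatFunc k) (a₀.map π) / algebraMap k[X] (RatFunc k) (s₀.map π), ?_⟩
  rw [redV_eq hrep _ hb hab, red_evIL, red_evIL, map_div₀, algebraMap_Fk_poly',
    algebraMap_Fk_poly']

/-! ### the unramified package over `L(j)` -/

variable (L N) in
theorem finiteDimensional_ratL :
    FiniteDimensional (RatFunc L) ↥(laurentBaseChange L (modularFunctionFieldFull N)) :=
  haveI := (finrank_jL L N).1
  (BaseChangeR.finrank_ratAlgebra (transcendental_jL L N)).1

attribute [local instance] finiteDimensional_ratL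

variable (k N) in
/-- `k(J)` inside `F_k(N)` -/
abbrev kJ : Subfield ↥(modularFunctionFieldFullC k N) :=
  (algebraMap (RatFunc k) ↥(modularFunctionFieldFullC k N)).fieldRange

/-- the reduction `Ow ∩ L(j) → k(J)` -/
def redBelow (hπ : ∀ a : ↥A, ¬ IsUnit a → π a = 0) :
    ↥(below (RatFunc L) (OwV A π N hrep)) →+* ↥(kJ N k) :=
  ((redV A π N hrep).comp (incl (RatFunc L) (OwV A π N hrep))).codRestrict (kJ N k) (fun x => by
    obtain ⟨g, hg⟩ := exists_redV_below_eq A π hrep hπ x
    exact ⟨g, hg.symm⟩)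

theorem coe_redBelow (hπ : ∀ a : ↥A, ¬ IsUnit a → π a = 0)
    (x : ↥(below (RatFunc L) (OwV A π N hrep))) :
    ((redBelow A π hrep hπ x : ↥(kJ N k)) : ↥(modularFunctionFieldFullC k N)) =
      redV A π N hrep (incl (RatFunc L) (OwV A π N hrep) x) := rfl

/-- **the unramified package**: rational functions `u i` in the Gauss ring of `F_L(N)`, as many as
the degree `[F_L(N) : L(j)]`, whose reductions are linearly independent over `k(J)`. -/
theorem exists_hyp [IsAlgClosed k] (hA : A.LiesOverPrime ℓ) (hℓN : ¬ ℓ ∣ N)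
    (hπ : ∀ a : ↥A, ¬ IsUnit a → π a = 0) (hπs : Function.Surjective π) :
    ∃ (n : ℕ) (u : Fin n → ↥(OwV A π N hrep)),
      Hyp (RatFunc L) (OwV A π N hrep) (redV A π N hrep) (redBelow A π hrep hπ) u := by
  obtain ⟨n, t, bL, bk, hbL, hbk⟩ := exists_basesL L N ℓ k hℓN
  choose α β hβ hLαβ hKαβ using fun i => exists_rep_OwFullL A π hA hℓN (t i)
  have hmem : ∀ i, embL L N ((t i : ↥(OwFull ℓ N)) : ↥(modularFunctionFieldFull N)) ∈
      OwV A π N hrep := fun i => ⟨α i, β i, hβ i, hLαβ i⟩
  have hred : ∀ i, redV A π N hrep ⟨_, hmem i⟩ = bk i := by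
    intro i
    rw [hbk i, redV_eq hrep ⟨_, hmem i⟩ (hβ i) (hLαβ i), ← hKαβ i, mul_div_assoc,
      div_self (hβ i), mul_one]
  refine ⟨n, fun i => ⟨_, hmem i⟩, redV_eq_zero_iff hrep, redV_surjective hrep hπs,
    fun x => rfl, ?_, ?_⟩
  · -- independence over `k(J)`
    rw [Fintype.linearIndependent_iff]
    intro g hg i
    choose h hh using fun i => (g i).2
    have h1 : ∑ i, h i • bk i = 0 := by
      rw [← hg]
      refine Finset.sum_congr rfl fun i _ => ?_
      rw [Algebra.smul_def, hh i, hred i]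
      rfl
    have h2 := Fintype.linearIndependent_iff.mp bk.linearIndependent h h1 i
    apply Subtype.ext
    rw [← hh i, h2, map_zero]
    rfl
  · rw [Fintype.card_fin, Module.finrank_eq_card_basis bL, Fintype.card_fin]

/-! ### uniqueness of the Gauss extension -/

open Fermat.Agent.S34.WeakApprox in
/-- **Uniqueness of the Gauss extension**: if the Gauss ring `Ow` of `F_L(N)` is archimedean (e.g.
a discrete valuation ring), it is the ONLY valuation subring of `F_L(N)` whose restriction to
`L(j)` is the Gauss ring of `L(j)`. -/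
theorem eq_OwV_of_comap [IsAlgClosed k] (hA : A.LiesOverPrime ℓ) (hℓN : ¬ ℓ ∣ N)
    (hπ : ∀ a : ↥A, ¬ IsUnit a → π a = 0) (hπs : Function.Surjective π)
    (harch : Arch (OwV A π N hrep))
    {V : ValuationSubring ↥(laurentBaseChange L (modularFunctionFieldFull N))}
    (hV : V.comap (algebraMap (RatFunc L) ↥(laurentBaseChange L (modularFunctionFieldFull N))) =
      below (RatFunc L) (OwV A π N hrep)) : V = OwV A π N hrep := by
  obtain ⟨n, u, h⟩ := exists_hyp A π hrep hA hℓN hπ hπs
  have hmemV : ∀ r : ↥(below (RatFunc L) (OwV A π N hrep)),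
      algebraMap (RatFunc L) ↥(laurentBaseChange L (modularFunctionFieldFull N)) (r : RatFunc L) ∈
        V := by
    intro r
    have : (r : RatFunc L) ∈ V.comap
        (algebraMap (RatFunc L) ↥(laurentBaseChange L (modularFunctionFieldFull N))) := by
      rw [hV]; exact r.2
    exact this
  have hle : OwV A π N hrep ≤ V := by
    intro f hf
    obtain ⟨p, hp, hpx⟩ := (h.isIntegralElem_iff_mem f).mpr hf
    have hint := Valuation.integer.integers V.valuation
    let ψ : ↥(below (RatFunc L) (OwV A π N hrep)) →+* V.valuation.integer :=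
      ((algebraMap (RatFunc L) ↥(laurentBaseChange L (modularFunctionFieldFull N))).comp
        (below (RatFunc L) (OwV A π N hrep)).subtype).codRestrict V.valuation.integer
        (fun r => (V.valuation_le_one_iff _).2 (hmemV r))
    have hx' : IsIntegral V.valuation.integer f := by
      refine ⟨p.map ψ, hp.map ψ, ?_⟩
      rw [Polynomial.eval₂_map]
      exact hpx
    exact (V.valuation_le_one_iff _).1 (hint.mem_of_integral hx')
  have hVtop : V ≠ ⊤ := by
    intro htop
    have hℓ0 : ((ℓ : ℕ) : L) ≠ 0 := by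
      haveI : CharZero L := algebraRat.charZero L
      exact Nat.cast_ne_zero.mpr (Fact.out : ℓ.Prime).ne_zero
    have h1 : algebraMap L (RatFunc L) ((ℓ : ℕ) : L)⁻¹ ∈ below (RatFunc L) (OwV A π N hrep) := by
      rw [← hV, htop]
      exact ValuationSubring.mem_top _
    rw [mem_below, ← IsScalarTower.algebraMap_apply] at h1
    have h2 : ((ℓ : ℕ) : L)⁻¹ ∈ A := mem_of_algebraMap_mem_Ow hπ _ h1
    have h3 : ((ℓ : ℕ) : L) ∈ A.nonunits := hA
    rw [A.mem_nonunits_iff] at h3
    have h4 : A.valuation ((ℓ : ℕ) : L)⁻¹ ≤ 1 := (A.valuation_le_one_iff _).mpr h2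
    rw [map_inv₀] at h4
    have h5 : A.valuation ((ℓ : ℕ) : L) ≠ 0 := (_root_.map_ne_zero _).mpr hℓ0
    have h6 : 1 ≤ A.valuation ((ℓ : ℕ) : L) := by
      have := (inv_le_one₀ (zero_lt_iff.mpr h5)).mp h4
      exact this
    exact absurd h3 (not_lt.mpr h6)
  exact le_antisymm (harch.le_of_le hle hVtop) hle

/-- **recognising the Gauss ring of `L(j)` below a valuation subring `V` of `F_L(N)`**: `V` contains
`A` and `j`, `V ∩ L ⊆ A`, and the primitive polynomials in `j` are units of `V`. -/
theorem comap_eq_gaussRing_of_vert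
    {V : ValuationSubring ↥(laurentBaseChange L (modularFunctionFieldFull N))}
    (hbase : ∀ c ∈ A, algebraMap L ↥(laurentBaseChange L (modularFunctionFieldFull N)) c ∈ V)
    (hgen : jL L N ∈ V)
    (hK : ∀ c : L, algebraMap L ↥(laurentBaseChange L (modularFunctionFieldFull N)) c ∈ V → c ∈ A)
    (hprim : ∀ s : L[X], IsPrim A s → (Polynomial.aeval (jL L N) s)⁻¹ ∈ V) :
    V.comap (algebraMap (RatFunc L) ↥(laurentBaseChange L (modularFunctionFieldFull N))) =
      gaussRing A := by
  refine eq_gaussRing_of_le (V := A) (gaussRing_le (V := A) (fun c hc => ?_) ?_ (fun s hs => ?_))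
    (fun c hc => ?_)
  · show algebraMap (RatFunc L) ↥(laurentBaseChange L (modularFunctionFieldFull N))
      (algebraMap L (RatFunc L) c) ∈ V
    rw [← IsScalarTower.algebraMap_apply]
    exact hbase c hc
  · show algebraMap (RatFunc L) ↥(laurentBaseChange L (modularFunctionFieldFull N))
      (RatFunc.X : RatFunc L) ∈ V
    rw [algebraMap_ratL, Fermat.Agent.S18.A.Chart.evalRat_X]
    exact hgen
  · show algebraMap (RatFunc L) ↥(laurentBaseChange L (modularFunctionFieldFull N))
      (algebraMap L[X] (RatFunc L) s)⁻¹ ∈ V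
    rw [map_inv₀, algebraMap_ratL_poly]
    exact hprim s hs
  · have hc' : algebraMap (RatFunc L) ↥(laurentBaseChange L (modularFunctionFieldFull N))
        (algebraMap L (RatFunc L) c) ∈ V := hc
    rw [← IsScalarTower.algebraMap_apply] at hc'
    exact hK c hc'

open Fermat.Agent.S34.WeakApprox in
/-- **Uniqueness of the Gauss extension, polynomial form**: a valuation subring `V` of `F_L(N)`
which contains `A` and `j`, with `V ∩ L ⊆ A`, and in which the primitive polynomials in `j` are
units, is the Gauss ring `Ow` (if the latter is archimedean, e.g. a discrete valuation ring). -/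
theorem eq_OwV_of_vert [IsAlgClosed k] (hA : A.LiesOverPrime ℓ) (hℓN : ¬ ℓ ∣ N)
    (hπ : ∀ a : ↥A, ¬ IsUnit a → π a = 0) (hπs : Function.Surjective π)
    (harch : Arch (OwV A π N hrep))
    {V : ValuationSubring ↥(laurentBaseChange L (modularFunctionFieldFull N))}
    (hbase : ∀ c ∈ A, algebraMap L ↥(laurentBaseChange L (modularFunctionFieldFull N)) c ∈ V)
    (hgen : jL L N ∈ V)
    (hK : ∀ c : L, algebraMap L ↥(laurentBaseChange L (modularFunctionFieldFull N)) c ∈ V → c ∈ A)
    (hprim : ∀ s : (↥A)[X], (∃ i, IsUnit (s.coeff i)) →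
      (Polynomial.aeval (jL L N) (s.map A.subtype))⁻¹ ∈ V) : V = OwV A π N hrep := by
  refine eq_OwV_of_comap A π hrep hA hℓN hπ hπs harch ?_
  rw [below_eq_gaussRing A π hrep hπ]
  refine comap_eq_gaussRing_of_vert A hbase hgen hK (fun s hs => ?_)
  obtain ⟨s₀, hs₀⟩ := hs.1
  obtain ⟨i, hi⟩ := hs.2
  have hs₀' : s₀.map A.subtype = s := hs₀
  rw [← hs₀']
  refine hprim s₀ ⟨i, (A.valuation_eq_one_iff _).mpr ?_⟩
  have h3 : ((s₀.coeff i : ↥A) : L) = s.coeff i := by
    rw [← hs₀', Polynomial.coeff_map]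
    rfl
  rw [h3]
  exact hi

end Fermat.Agent.S36.GaussUniq
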