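/-
PROJECT V (S36), slice V-GaussUniqX0, part 2 (helper11): **(U0) = UNIQUENESS OF THE GAUSS EXTENSION AT
LEVEL `N`, `ℓ ∤ N`, OVER THE INERTIA FIELD** (chain #2528 (V7), level-`N0` half of `ModelVert`; the
hypothesis `hU0` of `S36/LiftK0Chart`, the `hvert` shape of `S36/ChartPlaces.mem_chart_of_places`).

`A` a valuation subring of `ℚ̄` over `ℓ ∤ N`, `K0 = K0 A` its inertia field, `W = W A = A ∩ K0`,
`F0 = laurentBaseChange K0 (full N)`, `O0 = GaussK0.O0` / `Og0 = GaussK0Comap.Og0` the Gauss valuation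
ring of `F0` (a DVR with uniformiser `ℓ`).  From `S36/GaussUniq` (rational orthonormal basis ⟹ `O0` is
the integral closure of the Gauss ring of `K0(j)`; `O0` is a DVR ⟹ archimedean):

* `arch_O0`, `mem_W_of_algebraMap_mem` (`V ⊇ W`, `ℓ⁻¹ ∉ V` ⟹ `V ∩ K0 ⊆ W`);
* on the objects of `S36/GaussK0` (`K0 A`, `W A`, `GaussL.jL`):
  `eq_O0_of_vert` (polynomials over `W A`), `eq_O0_of_vert'` (polynomials over `K0` with `A`-integral
  coefficients), `comap_O0_eq_gaussRing` (`O0 ∩ K0(j)` is `S18/C/GaussRing.gaussRing (W A)`),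
  `eq_O0_of_comap` (`comap` form; instance `GaussL.algRatL`), `inv_natCast_notMem_O0`;
* on the objects of the chain (`fixedField (A.inertiaSubgroupIn ℚ)`, `KummerNew.F0 I N`,
  `PowerBasisK0.j0K I N`, `Og0`): `j0K_eq_jL`, `eq_Og0_of_vert`, `eq_Og0_of_hvert` (ANY model `O` of
  `A ∩ K0`);
* with the instances of `S36/ChartX0` (`O = W A`, `F = FK0 A N`):
  `eq_Og0_of_gaussVert`, **`le_of_gaussVert`** (LITERALLY the hypothesis `hU0` of
  `LiftK0Chart.exists_chart_lift / exists_chart_lift_inv`), `eq_Og0_of_isGaussVert`,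
  `isGaussVert_O0`, `isGaussVert_of_eq_Og0`, **`isGaussVert_iff`** : a valuation subring `V` of `F0`
  is `ChartVert.IsGaussVert ℓ j V` iff `V = Og0`; `forall_isGaussVert_eq_Og0` (LITERALLY the
  hypothesis `hU0` of `S36/VertX0` and `S36/FormalLift/LatticeVert` at `O = W A`).

(helper27's `S36/GaussUniqK0` proves (U0) independently, on its own reducible spellings `O0 A`, `F0 A N`
and `ModelVert.IsVertical`; this file is on the `SmallDVR.W A` / `ChartX0` instances consumed by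
`LiftK0Chart`, `CompNormalX0Base`, `VertX0`.)
-/
import Mathlib
import Fermat.Agent.S36.GaussUniq
import Fermat.Agent.S36.GaussK0Comap
import Fermat.Agent.S36.ThickThin
import Fermat.Agent.S36.ChartX0
import Fermat.Agent.S36.ChartVert

set_option autoImplicit false
set_option linter.unusedSectionVars false
set_option linter.style.haveILetI false
set_option synthInstance.maxHeartbeats 400000

noncomputable section

namespace Fermat.Agent.S36.GaussUniqX0

open HahnSeries ModularCurve IsLocalRing IntermediateField Polynomial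
open Fermat.Agent.S18.C.SmallDVR Fermat.Agent.S18.GaussFromH Fermat.Agent.S36.K0Fixed
open Fermat.Agent.S36.GaussK0 Fermat.Agent.S36.GaussL Fermat.Agent.S36.GaussUniq
open Fermat.Agent.S34.WeakApprox

local notation "Kb" => AlgebraicClosure ℚ

variable {ℓ : ℕ} [hℓ : Fact ℓ.Prime] (N : ℕ) [NeZero N] {A : ValuationSubring Kb}
variable (hA : A.LiesOverPrime ℓ) (hℓN : ¬ ℓ ∣ N)

/-- the Gauss valuation ring of `K0(X₀(N))` is archimedean -/
theorem arch_O0 : Arch (O0 N hA hℓN) :=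
  haveI := isPrincipalIdealRing_O0 N hA hℓN
  Fermat.Agent.S36.ThickThin.arch_of_pid _

include hA in
/-- `V ∩ K0 ⊆ W` as soon as `V ⊇ W` and `ℓ` is not a unit of `V` -/
theorem mem_W_of_algebraMap_mem {F : Type*} [Field F] [Algebra ↥(K0 A) F] {V : ValuationSubring F}
    (hbase : ∀ c : ↥(W A), algebraMap ↥(K0 A) F (c : ↥(K0 A)) ∈ V)
    (hnon : (((ℓ : ℕ) : F))⁻¹ ∉ V) (c : ↥(K0 A)) (hc : algebraMap ↥(K0 A) F c ∈ V) : c ∈ W A := by
  by_contra hcW
  have hc0 : c ≠ 0 := fun h => hcW (h ▸ (W A).zero_mem)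
  have hinv : c⁻¹ ∈ W A := ((W A).mem_or_inv_mem c).resolve_left hcW
  have hinv0 : (⟨c⁻¹, hinv⟩ : ↥(W A)) ≠ 0 := fun h =>
    inv_ne_zero hc0 (congrArg (Subtype.val : ↥(W A) → ↥(K0 A)) h)
  obtain ⟨n, u, hu⟩ := exists_unit_mul_pow hA ⟨c⁻¹, hinv⟩ hinv0
  have hu' : c⁻¹ = ((u : ↥(W A)) : ↥(K0 A)) * ((ℓ : ℕ) : ↥(K0 A)) ^ n := by
    have := congrArg (Subtype.val : ↥(W A) → ↥(K0 A)) hu
    simpa using this
  have hn : n ≠ 0 := by
    rintro rfl
    rw [pow_zero, mul_one] at hu'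
    apply hcW
    have h1 : c = (((u⁻¹ : (↥(W A))ˣ) : ↥(W A)) : ↥(K0 A)) := by
      have h2 : ((u : ↥(W A)) : ↥(K0 A)) * (((u⁻¹ : (↥(W A))ˣ) : ↥(W A)) : ↥(K0 A)) = 1 :=
        congrArg (Subtype.val : ↥(W A) → ↥(K0 A)) u.mul_inv
      rw [← hu'] at h2
      field_simp at h2
      exact h2.symm
    rw [h1]
    exact Subtype.mem _
  obtain ⟨m, rfl⟩ := Nat.exists_eq_succ_of_ne_zero hn
  apply hnon
  have hl0 : ((ℓ : ℕ) : ↥(K0 A)) ≠ 0 := by exact_mod_cast hℓ.out.ne_zero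
  have hu0 : ((u : ↥(W A)) : ↥(K0 A)) ≠ 0 := by
    intro h
    rw [h, zero_mul] at hu'
    exact inv_ne_zero hc0 hu'
  have h3 : (((ℓ : ℕ) : ↥(K0 A)))⁻¹ = c * ((u : ↥(W A)) : ↥(K0 A)) * ((ℓ : ℕ) : ↥(K0 A)) ^ m := by
    have h4 : c = (((u : ↥(W A)) : ↥(K0 A)) * ((ℓ : ℕ) : ↥(K0 A)) ^ (m + 1))⁻¹ := by
      rw [← hu', inv_inv]
    rw [h4, pow_succ]
    field_simp
  have h5 : (((ℓ : ℕ) : F))⁻¹ = algebraMap ↥(K0 A) F (((ℓ : ℕ) : ↥(K0 A)))⁻¹ := by
    rw [map_inv₀, map_natCast]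
  rw [h5, h3, map_mul, map_mul, map_pow, map_natCast]
  exact V.mul_mem _ _ (V.mul_mem _ _ hc (hbase u)) (V.pow_mem (natCast_mem V ℓ) m)

/-- **(U0), polynomial form, on the objects of `S36/GaussK0`**: a valuation subring `V` of
`F0 = K0(X₀(N))` which contains `W = A ∩ K0` and `j`, in which `ℓ` is not a unit and every polynomial
in `j` over `W` with a unit coefficient is a unit, is the Gauss valuation ring `O0`. -/
theorem eq_O0_of_vert
    {V : ValuationSubring ↥(laurentBaseChange ↥(K0 A) (modularFunctionFieldFull N))}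
    (hbase : ∀ c : ↥(W A),
      algebraMap ↥(K0 A) ↥(laurentBaseChange ↥(K0 A) (modularFunctionFieldFull N)) (c : ↥(K0 A)) ∈ V)
    (hgen : jL ↥(K0 A) N ∈ V)
    (hnon : (((ℓ : ℕ) : ↥(laurentBaseChange ↥(K0 A) (modularFunctionFieldFull N))))⁻¹ ∉ V)
    (hprim : ∀ s : (↥(W A))[X], (∃ i, IsUnit (s.coeff i)) →
      (Polynomial.aeval (jL ↥(K0 A) N) (s.map (W A).subtype))⁻¹ ∈ V) :
    V = O0 N hA hℓN := by
  haveI : CharP (ResidueField ↥A) ℓ := Fermat.Agent.S18.ResidueBasics.charP_residueField A hA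
  haveI : IsAlgClosed (ResidueField ↥A) := Fermat.Agent.S18.ResidueBasics.isAlgClosed_residueField A
  letI : Algebra (ZMod ℓ) (ResidueField ↥A) := ZMod.algebra _ ℓ
  exact eq_OwV_of_vert (W A) (piW A) (hasRepW N hA hℓN) (liesOver_W hA) hℓN
    (piW_eq_zero_of_not_isUnit A) (piW_surjective hA) (arch_O0 N hA hℓN)
    (fun c hc => hbase ⟨c, hc⟩) hgen (mem_W_of_algebraMap_mem hA hbase hnon) hprim

attribute [local instance] algRatL

/-- the restriction of `O0` to `K0(j)` is the Gauss ring of `K0(j)` -/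
theorem comap_O0_eq_gaussRing :
    (O0 N hA hℓN).comap
      (algebraMap (RatFunc ↥(K0 A)) ↥(laurentBaseChange ↥(K0 A) (modularFunctionFieldFull N))) =
      Fermat.Agent.S18.C.GaussRing.gaussRing (W A) :=
  below_eq_gaussRing (W A) (piW A) (hasRepW N hA hℓN) (piW_eq_zero_of_not_isUnit A)

/-- **(U0), `comap` form**: `O0` is the ONLY valuation subring of `F0` whose restriction to `K0(j)`
is the Gauss ring of `K0(j)`. -/
theorem eq_O0_of_comap
    {V : ValuationSubring ↥(laurentBaseChange ↥(K0 A) (modularFunctionFieldFull N))}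
    (hV : V.comap
      (algebraMap (RatFunc ↥(K0 A)) ↥(laurentBaseChange ↥(K0 A) (modularFunctionFieldFull N))) =
      Fermat.Agent.S18.C.GaussRing.gaussRing (W A)) : V = O0 N hA hℓN := by
  haveI : CharP (ResidueField ↥A) ℓ := Fermat.Agent.S18.ResidueBasics.charP_residueField A hA
  haveI : IsAlgClosed (ResidueField ↥A) := Fermat.Agent.S18.ResidueBasics.isAlgClosed_residueField A
  letI : Algebra (ZMod ℓ) (ResidueField ↥A) := ZMod.algebra _ ℓ
  exact eq_OwV_of_comap (W A) (piW A) (hasRepW N hA hℓN) (liesOver_W hA) hℓN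
    (piW_eq_zero_of_not_isUnit A) (piW_surjective hA) (arch_O0 N hA hℓN)
    (hV.trans (comap_O0_eq_gaussRing N hA hℓN).symm)

/-- **(U0), polynomial form with coefficients in `K0`**: the same with polynomials over `K0` whose
coefficients are `A`-integral, one of them a unit of `A`. -/
theorem eq_O0_of_vert'
    {V : ValuationSubring ↥(laurentBaseChange ↥(K0 A) (modularFunctionFieldFull N))}
    (hbase : ∀ c : ↥(K0 A), (c : Kb) ∈ A →
      algebraMap ↥(K0 A) ↥(laurentBaseChange ↥(K0 A) (modularFunctionFieldFull N)) c ∈ V)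
    (hgen : jL ↥(K0 A) N ∈ V)
    (hnon : (((ℓ : ℕ) : ↥(laurentBaseChange ↥(K0 A) (modularFunctionFieldFull N))))⁻¹ ∉ V)
    (hprim : ∀ s : (↥(K0 A))[X], (∀ i, ((s.coeff i : ↥(K0 A)) : Kb) ∈ A) →
      (∃ i, A.valuation ((s.coeff i : ↥(K0 A)) : Kb) = 1) →
      (Polynomial.aeval (jL ↥(K0 A) N) s)⁻¹ ∈ V) :
    V = O0 N hA hℓN := by
  refine eq_O0_of_vert N hA hℓN (fun c => hbase (c : ↥(K0 A)) c.2) hgen hnon (fun s hs => ?_)
  refine hprim (s.map (W A).subtype) (fun i => ?_) ?_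
  · rw [Polynomial.coeff_map]
    exact (s.coeff i).2
  · obtain ⟨i, hi⟩ := hs
    refine ⟨i, ?_⟩
    rw [Polynomial.coeff_map]
    exact (isUnit_iff_valuation A _).mp hi

/-! ### the same on the objects of the chain (`fixedField I`, `F0 I N`, `j0K`, `Og0`) -/

section Chain

open Fermat.Agent.S36.GaussK0Comap Fermat.Agent.S36.KummerNew Fermat.Agent.S36.PowerBasisK0

variable (A) in
omit hℓ in
theorem j0K_eq_jL : j0K (A.inertiaSubgroupIn ℚ) N = jL ↥(K0 A) N :=
  Subtype.ext ((coe_j0K (A.inertiaSubgroupIn ℚ) N).trans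
    ((Fermat.Agent.S18.B.Basic.coeffEmb_jq _).symm.trans (coe_jL ↥(K0 A) N).symm))

/-- **(U0) on the objects of the chain**: a valuation subring `V` of `F0 I N` (`I` the inertia group
of `A`) which contains the `A`-integral constants of `K0` and `j`, in which `ℓ` is not a unit and every
polynomial in `j` with `A`-integral coefficients in `K0`, one of them a unit of `A`, is a unit, is the
Gauss valuation ring `Og0`. -/
theorem eq_Og0_of_vert
    {V : ValuationSubring ↥(F0 (A.inertiaSubgroupIn ℚ) N)}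
    (hbase : ∀ c : ↥(IntermediateField.fixedField (A.inertiaSubgroupIn ℚ)), (c : Kb) ∈ A →
      algebraMap ↥(IntermediateField.fixedField (A.inertiaSubgroupIn ℚ))
        ↥(F0 (A.inertiaSubgroupIn ℚ) N) c ∈ V)
    (hgen : j0K (A.inertiaSubgroupIn ℚ) N ∈ V)
    (hnon : (((ℓ : ℕ) : ↥(F0 (A.inertiaSubgroupIn ℚ) N)))⁻¹ ∉ V)
    (hprim : ∀ s : (↥(IntermediateField.fixedField (A.inertiaSubgroupIn ℚ)))[X],
      (∀ i, ((s.coeff i : ↥(IntermediateField.fixedField (A.inertiaSubgroupIn ℚ))) : Kb) ∈ A) →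
      (∃ i, A.valuation
        ((s.coeff i : ↥(IntermediateField.fixedField (A.inertiaSubgroupIn ℚ))) : Kb) = 1) →
      (Polynomial.aeval (j0K (A.inertiaSubgroupIn ℚ) N) s)⁻¹ ∈ V) :
    V = Og0 N hA hℓN := by
  have hgen' : jL ↥(K0 A) N ∈ V := by
    have h := hgen
    rwa [j0K_eq_jL] at h
  have hprim' : ∀ s : (↥(K0 A))[X], (∀ i, ((s.coeff i : ↥(K0 A)) : Kb) ∈ A) →
      (∃ i, A.valuation ((s.coeff i : ↥(K0 A)) : Kb) = 1) →
      (Polynomial.aeval (jL ↥(K0 A) N) s)⁻¹ ∈ V := by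
    intro s h1 h2
    have h := hprim s h1 h2
    rwa [j0K_eq_jL] at h
  exact (eq_O0_of_vert' N hA hℓN hbase hgen' hnon hprim').trans (Og0_eq N hA hℓN).symm

/-- **(U0) in the `hvert` shape of `S36/ChartPlaces.mem_chart_of_places`**: for ANY model `O` of the
ring of `A`-integral constants of `K0` (injective `O → K0` with image `A ∩ K0`), `π : O` mapping to
`ℓ`. -/
theorem eq_Og0_of_hvert {O : Type*} [CommRing O]
    [Algebra O ↥(IntermediateField.fixedField (A.inertiaSubgroupIn ℚ))]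
    [Algebra O ↥(F0 (A.inertiaSubgroupIn ℚ) N)]
    [IsScalarTower O ↥(IntermediateField.fixedField (A.inertiaSubgroupIn ℚ))
      ↥(F0 (A.inertiaSubgroupIn ℚ) N)]
    (hinj : Function.Injective
      (algebraMap O ↥(IntermediateField.fixedField (A.inertiaSubgroupIn ℚ))))
    (hO : ∀ c : ↥(IntermediateField.fixedField (A.inertiaSubgroupIn ℚ)), (c : Kb) ∈ A ↔
      c ∈ Set.range (algebraMap O ↥(IntermediateField.fixedField (A.inertiaSubgroupIn ℚ))))
    {π : O} (hπ : algebraMap O ↥(IntermediateField.fixedField (A.inertiaSubgroupIn ℚ)) π =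
      ((ℓ : ℕ) : ↥(IntermediateField.fixedField (A.inertiaSubgroupIn ℚ))))
    {V : ValuationSubring ↥(F0 (A.inertiaSubgroupIn ℚ) N)}
    (hbase : ∀ c : O, algebraMap O ↥(F0 (A.inertiaSubgroupIn ℚ) N) c ∈ V)
    (hgen : j0K (A.inertiaSubgroupIn ℚ) N ∈ V)
    (hnon : (algebraMap O ↥(F0 (A.inertiaSubgroupIn ℚ) N) π)⁻¹ ∉ V)
    (hprim : ∀ s : O[X], (∃ i, IsUnit (s.coeff i)) →
      (Polynomial.aeval (j0K (A.inertiaSubgroupIn ℚ) N) s)⁻¹ ∈ V) :
    V = Og0 N hA hℓN := by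
  refine eq_Og0_of_vert N hA hℓN (fun c hc => ?_) hgen ?_ (fun s h1 h2 => ?_)
  · obtain ⟨c', rfl⟩ := (hO c).mp hc
    rw [← IsScalarTower.algebraMap_apply]
    exact hbase c'
  · have h : algebraMap O ↥(F0 (A.inertiaSubgroupIn ℚ) N) π =
        ((ℓ : ℕ) : ↥(F0 (A.inertiaSubgroupIn ℚ) N)) := by
      rw [IsScalarTower.algebraMap_apply O
        ↥(IntermediateField.fixedField (A.inertiaSubgroupIn ℚ)) ↥(F0 (A.inertiaSubgroupIn ℚ) N),
        hπ, map_natCast]
    rwa [h] at hnon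
  · have hl : s ∈ Polynomial.lifts
        (algebraMap O ↥(IntermediateField.fixedField (A.inertiaSubgroupIn ℚ))) := by
      rw [Polynomial.lifts_iff_coeff_lifts]
      intro n
      exact (hO _).mp (h1 n)
    obtain ⟨s₀, hs₀⟩ := hl
    have hs₀' : s₀.map (algebraMap O ↥(IntermediateField.fixedField (A.inertiaSubgroupIn ℚ))) = s :=
      hs₀
    have h := hprim s₀ ?_
    · rwa [← Polynomial.aeval_map_algebraMap
        ↥(IntermediateField.fixedField (A.inertiaSubgroupIn ℚ)), hs₀'] at h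
    · obtain ⟨i, hi⟩ := h2
      refine ⟨i, ?_⟩
      have hc : algebraMap O ↥(IntermediateField.fixedField (A.inertiaSubgroupIn ℚ)) (s₀.coeff i) =
          s.coeff i := by rw [← hs₀', Polynomial.coeff_map]
      have hne : s.coeff i ≠ 0 := by
        intro h0
        rw [h0] at hi
        simp at hi
      have hinvA : (((s.coeff i)⁻¹ : ↥(IntermediateField.fixedField (A.inertiaSubgroupIn ℚ))) : Kb)
          ∈ A := by
        rw [← A.valuation_le_one_iff]
        push_cast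
        rw [map_inv₀, hi, inv_one]
      obtain ⟨d, hd⟩ := (hO _).mp hinvA
      refine isUnit_iff_exists_inv.mpr ⟨d, hinj ?_⟩
      rw [map_mul, hc, hd, map_one, mul_inv_cancel₀ hne]

end Chain

/-! ### with the instances of `S36/ChartX0` (`O = W A`, `F = FK0 A N`): the `hvert` / `hU0` shape -/

section ChartX0

open Fermat.Agent.S36.GaussK0Comap Fermat.Agent.S36.KummerNew Fermat.Agent.S36.PowerBasisK0
open Fermat.Agent.S36.ChartX0 Fermat.Agent.S36.ChartVert

/-- **(U0) with the instances of `S36/ChartX0`**: a Gauss-vertical valuation subring of the `j`-chart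
of level `N` (`W A ⊆ V`, `j ∈ V`, `ℓ` not a unit of `V`, the primitive polynomials in `j` over `W A`
units of `V`) is `Og0`. -/
theorem eq_Og0_of_gaussVert {V : ValuationSubring (FK0 A N)}
    (hbase : ∀ c : ↥(W A), algebraMap ↥(W A) (FK0 A N) c ∈ V)
    (hgen : (j0K (A.inertiaSubgroupIn ℚ) N : FK0 A N) ∈ V)
    (hnon : (algebraMap ↥(W A) (FK0 A N) ((ℓ : ℕ) : ↥(W A)))⁻¹ ∉ V)
    (hprim : ∀ s : (↥(W A))[X], (∃ i, IsUnit (s.coeff i)) →
      (Polynomial.aeval (A := FK0 A N) (j0K (A.inertiaSubgroupIn ℚ) N) s)⁻¹ ∈ V) :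
    V = Og0 N hA hℓN := by
  have hgen' : jL ↥(K0 A) N ∈ V := by
    have h := hgen
    rwa [j0K_eq_jL] at h
  have hnon' : (((ℓ : ℕ) : FK0 A N))⁻¹ ∉ V := by
    have h := hnon
    rwa [algebraMap_ell] at h
  have hprim' : ∀ s : (↥(W A))[X], (∃ i, IsUnit (s.coeff i)) →
      (Polynomial.aeval (jL ↥(K0 A) N) (s.map (W A).subtype))⁻¹ ∈ V := by
    intro s hs
    have h := hprim s hs
    rw [j0K_eq_jL] at h
    have h2 : Polynomial.aeval (jL ↥(K0 A) N) (s.map (algebraMap ↥(W A) ↥(K0 A))) =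
        Polynomial.aeval (A := FK0 A N) (jL ↥(K0 A) N) s :=
      Polynomial.aeval_map_algebraMap ↥(K0 A) (jL ↥(K0 A) N) s
    rw [← h2] at h
    exact h
  exact (eq_O0_of_vert N hA hℓN hbase hgen' hnon' hprim').trans (Og0_eq N hA hℓN).symm

/-- **`hU0` of `S36/LiftK0Chart`**, literally: `Og0` lies in (in fact: is) every Gauss-vertical
valuation subring of the `j`-chart. -/
theorem le_of_gaussVert :
    ∀ V : ValuationSubring (FK0 A N),
      (∀ c : ↥(W A), algebraMap ↥(W A) (FK0 A N) c ∈ V) →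
      (j0K (A.inertiaSubgroupIn ℚ) N : FK0 A N) ∈ V →
      (algebraMap ↥(W A) (FK0 A N) ((ℓ : ℕ) : ↥(W A)))⁻¹ ∉ V →
      (∀ s : (↥(W A))[X], (∃ i, IsUnit (s.coeff i)) →
        (Polynomial.aeval (A := FK0 A N) (j0K (A.inertiaSubgroupIn ℚ) N) s)⁻¹ ∈ V) →
      ∀ g : FK0 A N, g ∈ Og0 N hA hℓN → g ∈ V := by
  intro V hc hj hq hs g hg
  rw [eq_Og0_of_gaussVert N hA hℓN hc hj hq hs]
  exact hg

/-- `ℓ` is not a unit of `O0` -/
theorem inv_natCast_notMem_O0 :
    (((ℓ : ℕ) : ↥(laurentBaseChange ↥(K0 A) (modularFunctionFieldFull N))))⁻¹ ∉ O0 N hA hℓN := by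
  intro h
  apply not_isUnit_natCast0 N hA hℓN
  have hl0 : ((ℓ : ℕ) : ↥(laurentBaseChange ↥(K0 A) (modularFunctionFieldFull N))) ≠ 0 := by
    exact_mod_cast hℓ.out.ne_zero
  refine isUnit_iff_exists_inv.mpr ⟨⟨_, h⟩, Subtype.ext ?_⟩
  show (((ℓ : ℕ) : ↥(O0 N hA hℓN)) : ↥(laurentBaseChange ↥(K0 A) (modularFunctionFieldFull N))) *
    (((ℓ : ℕ) : ↥(laurentBaseChange ↥(K0 A) (modularFunctionFieldFull N))))⁻¹ = 1
  push_cast
  exact mul_inv_cancel₀ hl0

/-- **`O0` is Gauss-vertical** (the converse of (U0)) -/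
theorem isGaussVert_O0 :
    IsGaussVert (F := FK0 A N) ((ℓ : ℕ) : ↥(W A)) (j0K (A.inertiaSubgroupIn ℚ) N)
      (O0 N hA hℓN) := by
  refine ⟨fun c => algebraMap_mem_O0 N hA hℓN c, ?_, ?_, fun s hs => ?_⟩
  · rw [j0K_eq_jL]
    have h := aeval_jL_mem (W A) (piW A) (hasRepW N hA hℓN) (X : (↥(W A))[X])
    rwa [Polynomial.map_X, Polynomial.aeval_X] at h
  · rw [algebraMap_ell]
    exact inv_natCast_notMem_O0 N hA hℓN
  · rw [j0K_eq_jL]
    have h2 : Polynomial.aeval (jL ↥(K0 A) N) (s.map (algebraMap ↥(W A) ↥(K0 A))) =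
        Polynomial.aeval (A := FK0 A N) (jL ↥(K0 A) N) s :=
      Polynomial.aeval_map_algebraMap ↥(K0 A) (jL ↥(K0 A) N) s
    rw [← h2]
    exact inv_aeval_jL_mem_of_isUnit_coeff (W A) (piW A) (hasRepW N hA hℓN) s hs

/-- **`Og0` is Gauss-vertical**, stated for a valuation subring `V = Og0` of `FK0 A N` (the two
spellings `K0 A` / `fixedField I` of the base field do not unify at instance transparency) -/
theorem isGaussVert_of_eq_Og0 {V : ValuationSubring (FK0 A N)} (hV : V = Og0 N hA hℓN) :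
    IsGaussVert (F := FK0 A N) ((ℓ : ℕ) : ↥(W A)) (j0K (A.inertiaSubgroupIn ℚ) N) V := by
  have h : V = O0 N hA hℓN := hV.trans (Og0_eq N hA hℓN)
  rw [h]
  exact isGaussVert_O0 N hA hℓN

/-- **(U0) for `ChartVert.IsGaussVert`** -/
theorem eq_Og0_of_isGaussVert {V : ValuationSubring (FK0 A N)}
    (h : IsGaussVert (F := FK0 A N) ((ℓ : ℕ) : ↥(W A)) (j0K (A.inertiaSubgroupIn ℚ) N) V) :
    V = Og0 N hA hℓN :=
  eq_Og0_of_gaussVert N hA hℓN h.base h.gen h.nonunit h.prim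

/-- **the Gauss-vertical valuation subrings of the `j`-chart of level `N` are exactly `Og0`** -/
theorem isGaussVert_iff {V : ValuationSubring (FK0 A N)} :
    IsGaussVert (F := FK0 A N) ((ℓ : ℕ) : ↥(W A)) (j0K (A.inertiaSubgroupIn ℚ) N) V ↔
      V = Og0 N hA hℓN :=
  ⟨eq_Og0_of_isGaussVert N hA hℓN, isGaussVert_of_eq_Og0 N hA hℓN⟩

/-- **`hU0` of `S36/VertX0`, `S36/FormalLift/LatticeVert`**, literally, at `O = W A` with the
instance `ChartX0.algebraW` passed explicitly on the type `FK I N` -/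
theorem forall_isGaussVert_eq_Og0 :
    ∀ V0 : ValuationSubring (FK (A.inertiaSubgroupIn ℚ) N),
      @IsGaussVert ↥(W A) _ (FK (A.inertiaSubgroupIn ℚ) N) _ (algebraW A N)
        ((ℓ : ℕ) : ↥(W A)) (j0K (A.inertiaSubgroupIn ℚ) N) V0 → V0 = Og0 N hA hℓN :=
  fun _ h => eq_Og0_of_isGaussVert N hA hℓN h

end ChartX0

end Fermat.Agent.S36.GaussUniqX0
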