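/-
PROJECT V (S36), chain (V7) AT `X₀` WITH (U0) DISCHARGED (helper25): `S36/VertX0` (the vertical
valuation subrings of the symmetric charts) instantiated at `O = W A`, `π = q` on helper10's
`ChartX0` instances, with its hypothesis `hU0` replaced by helper11's
`GaussUniqX0.forall_isGaussVert_eq_Og0`, for every `Y : ThreeValX0.Hyp` over the inertia field whose
level-`N0` ring is the Gauss ring (`hO₀ : Y.O₀ = Og0 N0 hA hqN0`).

* `link` : `CompNormalX0Base.Link` (hence `Base`, `branch₂₀ / branch₁₁ / branch₀₂`) from the two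
  identifications `Y.O₀ = Og0`, `Y.red₀ = red0z` and Deuring's `Hyp` - no (U0) hypothesis left;
* `hU0_Y` : (U0) for `Y.O₀` in helper24's `IsGaussVert` shape (= `hU0` of `LatticeX0.hvert`);
* `transcendental_W` : transcendence over `K0 A` gives transcendence over `W A` (`htr`);
* `hvert_x2`, `hvert_x2_inv` : the literal `hvert`, `hvert'` of `Lattice.VCharts` /
  `ChartPlaces.mem_chart_of_places` at level `N0 q q` (`W ∈ Set.range Ws` for any family containing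
  `W₂₀, W₁₁, W₀₂`); `hvert_x1`, `hvert_x1_inv` : the level-`N0 q` twins (`V₁, V₂`);
* (MV') `mem_chart_x2`, `mem_chart_x2_inv` : `g ∈ W₂₀ ∩ W₁₁ ∩ W₀₂` lying in every `K0`-place finite
  at `x₂` (resp. `x₂⁻¹`) belongs to `chart (W A) x₂` (resp. `chart (W A) x₂⁻¹`);
  `mem_chart_x1`, `mem_chart_x1_inv` : the same at level `N0 q` with `V₁ ∩ V₂` (the last step of the
  `node` field: `PairLiftK0.exists_sep_fin_K0 / _inf_K0` produce exactly these hypotheses).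
-/
import Mathlib
import Fermat.Agent.S36.GaussUniqX0
import Fermat.Agent.S36.CompNormalX0Base
import Fermat.Agent.S36.VertX0
import Fermat.Agent.S36.ChartPlaces

set_option autoImplicit false
set_option linter.unusedSectionVars false
set_option linter.unusedVariables false
set_option linter.style.haveILetI false
set_option synthInstance.maxHeartbeats 400000

noncomputable section

namespace Fermat.Agent.S36.VertX0Final

open ModularCurve AlgebraicCurve IntermediateField Polynomial IsLocalRing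
open Fermat.Agent.S18.C.SmallDVR
open Fermat.Agent.S36.ChartRing Fermat.Agent.S36.ChartX0 Fermat.Agent.S36.GaussK0Comap
open Fermat.Agent.S36.PowerBasisK0 Fermat.Agent.S36.ChartVert Fermat.Agent.S36.ChartPlaces
open Fermat.Agent.S37.Gauss Fermat.Agent.S37.Deuring.Core
open Fermat.Agent.S36.CompNormalX0 (x2)
open Fermat.Agent.S36.VertX0 (x1)

local notation "Kb" => AlgebraicClosure ℚ

/-- transcendence over the inertia field gives transcendence over its valuation ring `W A` -/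
theorem transcendental_W (A : ValuationSubring Kb) (N : ℕ) {φ : FK0 A N}
    (h : Transcendental ↥(K0 A) φ) : Transcendental ↥(W A) φ :=
  h.restrictScalars (R := ↥(W A)) (S := ↥(K0 A)) (fun a b hab => Subtype.ext hab)

variable {q : ℕ} [Fact q.Prime] {N0 : ℕ} [NeZero N0] [NeZero q] [NeZero (N0 * q)]
  [NeZero (N0 * q * q)] {A : ValuationSubring Kb}
variable (hA : A.LiesOverPrime q) (hqN0 : ¬ q ∣ N0) {gL gk : ℕ}
variable (Y : ThreeValX0.Hyp (A.inertiaSubgroupIn ℚ) N0 q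
  ↥(modularFunctionFieldFullC (ResidueField ↥A) N0))

/-- **`CompNormalX0Base.Link` with (U0) discharged** -/
theorem link (hO₀ : Y.O₀ = Og0 N0 hA hqN0)
    (hred₀ : ∀ (g : FK0 A N0) (hg : g ∈ Y.O₀) (hg' : g ∈ Og0 N0 hA hqN0),
      Y.red₀ ⟨g, hg⟩ = red0z N0 hA hqN0 ⟨g, hg'⟩)
    (H : Hyp (Datum.gaussDatum N0 A hA hqN0) gL gk) :
    CompNormalX0Base.Link hA hqN0 gL gk Y :=
  ⟨hO₀, hred₀, H, GaussUniqX0.le_of_gaussVert N0 hA hqN0⟩

include hA hqN0 in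
/-- (U0) for `Y.O₀`, helper24's shape -/
theorem hU0_Y (hO₀ : Y.O₀ = Og0 N0 hA hqN0) :
    ∀ V₀ : ValuationSubring (FK (A.inertiaSubgroupIn ℚ) N0),
      @IsGaussVert ↥(W A) _ (FK (A.inertiaSubgroupIn ℚ) N0) _ (algebraW A N0)
        ((q : ℕ) : ↥(W A)) (j0K (A.inertiaSubgroupIn ℚ) N0) V₀ → V₀ = Y.O₀ :=
  fun V₀ h => (GaussUniqX0.forall_isGaussVert_eq_Og0 N0 hA hqN0 V₀ h).trans hO₀.symm

/-! ### the literal `hvert` hypotheses -/

/-- **(V7) at `X₀`, finite chart of level `N0 q q`**, the literal `hvert` -/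
theorem hvert_x2 (hO₀ : Y.O₀ = Og0 N0 hA hqN0)
    (htr : Transcendental (R := ↥(K0 A)) (A := FK0 A (N0 * q * q)) (x2 (A.inertiaSubgroupIn ℚ) N0 q))
    {𝒲 : Type*} (Ws : 𝒲 → ValuationSubring (FK (A.inertiaSubgroupIn ℚ) (N0 * q * q)))
    (h20 : Y.W₂₀ ∈ Set.range Ws) (h11 : Y.W₁₁ ∈ Set.range Ws) (h02 : Y.W₀₂ ∈ Set.range Ws) :
    ∀ W' : ValuationSubring (FK0 A (N0 * q * q)),
      (∀ c : ↥(W A), algebraMap ↥(W A) (FK0 A (N0 * q * q)) c ∈ W') →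
      x2 (A.inertiaSubgroupIn ℚ) N0 q ∈ W' →
      (algebraMap ↥(W A) (FK0 A (N0 * q * q)) ((q : ℕ) : ↥(W A)))⁻¹ ∉ W' →
      (∀ s : (↥(W A))[X], (∃ i, IsUnit (s.coeff i)) →
        (aeval (A := FK0 A (N0 * q * q)) (x2 (A.inertiaSubgroupIn ℚ) N0 q) s)⁻¹ ∈ W') →
      W' ∈ Set.range Ws :=
  @VertX0.hvert_x2 (A.inertiaSubgroupIn ℚ) N0 q _ _ _ _ _ _ Y ↥(W A) _ _ (isDVR hA)
    (algebraW A N0) (algebraW A (N0 * q)) (algebraW A (N0 * q * q)) _ (irreducible_ell hA)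
    (CompNormalX0Base.alphaK_algebraMap_W A N0 q)
    (CompNormalX0Base.alphaK_algebraMap_W A (N0 * q) q) (hU0_Y hA hqN0 Y hO₀)
    (transcendental_W A (N0 * q * q) htr) _ Ws h20 h11 h02

/-- **(V7) at `X₀`, chart at infinity of level `N0 q q`**, the literal `hvert'` -/
theorem hvert_x2_inv (hO₀ : Y.O₀ = Og0 N0 hA hqN0)
    (htr : Transcendental (R := ↥(K0 A)) (A := FK0 A (N0 * q * q)) (x2 (A.inertiaSubgroupIn ℚ) N0 q)⁻¹)
    {𝒲 : Type*} (Ws : 𝒲 → ValuationSubring (FK (A.inertiaSubgroupIn ℚ) (N0 * q * q)))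
    (h20 : Y.W₂₀ ∈ Set.range Ws) (h11 : Y.W₁₁ ∈ Set.range Ws) (h02 : Y.W₀₂ ∈ Set.range Ws) :
    ∀ W' : ValuationSubring (FK0 A (N0 * q * q)),
      (∀ c : ↥(W A), algebraMap ↥(W A) (FK0 A (N0 * q * q)) c ∈ W') →
      (x2 (A.inertiaSubgroupIn ℚ) N0 q)⁻¹ ∈ W' →
      (algebraMap ↥(W A) (FK0 A (N0 * q * q)) ((q : ℕ) : ↥(W A)))⁻¹ ∉ W' →
      (∀ s : (↥(W A))[X], (∃ i, IsUnit (s.coeff i)) →
        (aeval (A := FK0 A (N0 * q * q)) (x2 (A.inertiaSubgroupIn ℚ) N0 q)⁻¹ s)⁻¹ ∈ W') →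
      W' ∈ Set.range Ws :=
  @VertX0.hvert_x2_inv (A.inertiaSubgroupIn ℚ) N0 q _ _ _ _ _ _ Y ↥(W A) _ _ (isDVR hA)
    (algebraW A N0) (algebraW A (N0 * q)) (algebraW A (N0 * q * q)) _ (irreducible_ell hA)
    (CompNormalX0Base.alphaK_algebraMap_W A N0 q)
    (CompNormalX0Base.alphaK_algebraMap_W A (N0 * q) q) (hU0_Y hA hqN0 Y hO₀)
    (transcendental_W A (N0 * q * q) htr) _ Ws h20 h11 h02

/-- **(V7) at `X₀`, finite chart of level `N0 q`**, the literal `hvert` -/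
theorem hvert_x1 (hO₀ : Y.O₀ = Og0 N0 hA hqN0)
    (htr : Transcendental (R := ↥(K0 A)) (A := FK0 A (N0 * q)) (x1 (A.inertiaSubgroupIn ℚ) N0 q))
    {𝒲 : Type*} (Vs : 𝒲 → ValuationSubring (FK (A.inertiaSubgroupIn ℚ) (N0 * q)))
    (h1 : Y.V₁ ∈ Set.range Vs) (h2 : Y.V₂ ∈ Set.range Vs) :
    ∀ V : ValuationSubring (FK0 A (N0 * q)),
      (∀ c : ↥(W A), algebraMap ↥(W A) (FK0 A (N0 * q)) c ∈ V) →
      x1 (A.inertiaSubgroupIn ℚ) N0 q ∈ V →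
      (algebraMap ↥(W A) (FK0 A (N0 * q)) ((q : ℕ) : ↥(W A)))⁻¹ ∉ V →
      (∀ s : (↥(W A))[X], (∃ i, IsUnit (s.coeff i)) →
        (aeval (A := FK0 A (N0 * q)) (x1 (A.inertiaSubgroupIn ℚ) N0 q) s)⁻¹ ∈ V) →
      V ∈ Set.range Vs :=
  @VertX0.hvert_x1 (A.inertiaSubgroupIn ℚ) N0 q _ _ _ _ _ _ Y ↥(W A) _ _ (isDVR hA)
    (algebraW A N0) (algebraW A (N0 * q)) (algebraW A (N0 * q * q)) _ (irreducible_ell hA)
    (CompNormalX0Base.alphaK_algebraMap_W A N0 q) (hU0_Y hA hqN0 Y hO₀)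
    (transcendental_W A (N0 * q) htr) _ Vs h1 h2

/-- **(V7) at `X₀`, chart at infinity of level `N0 q`**, the literal `hvert'` -/
theorem hvert_x1_inv (hO₀ : Y.O₀ = Og0 N0 hA hqN0)
    (htr : Transcendental (R := ↥(K0 A)) (A := FK0 A (N0 * q)) (x1 (A.inertiaSubgroupIn ℚ) N0 q)⁻¹)
    {𝒲 : Type*} (Vs : 𝒲 → ValuationSubring (FK (A.inertiaSubgroupIn ℚ) (N0 * q)))
    (h1 : Y.V₁ ∈ Set.range Vs) (h2 : Y.V₂ ∈ Set.range Vs) :
    ∀ V : ValuationSubring (FK0 A (N0 * q)),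
      (∀ c : ↥(W A), algebraMap ↥(W A) (FK0 A (N0 * q)) c ∈ V) →
      (x1 (A.inertiaSubgroupIn ℚ) N0 q)⁻¹ ∈ V →
      (algebraMap ↥(W A) (FK0 A (N0 * q)) ((q : ℕ) : ↥(W A)))⁻¹ ∉ V →
      (∀ s : (↥(W A))[X], (∃ i, IsUnit (s.coeff i)) →
        (aeval (A := FK0 A (N0 * q)) (x1 (A.inertiaSubgroupIn ℚ) N0 q)⁻¹ s)⁻¹ ∈ V) →
      V ∈ Set.range Vs :=
  @VertX0.hvert_x1_inv (A.inertiaSubgroupIn ℚ) N0 q _ _ _ _ _ _ Y ↥(W A) _ _ (isDVR hA)
    (algebraW A N0) (algebraW A (N0 * q)) (algebraW A (N0 * q * q)) _ (irreducible_ell hA)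
    (CompNormalX0Base.alphaK_algebraMap_W A N0 q) (hU0_Y hA hqN0 Y hO₀)
    (transcendental_W A (N0 * q) htr) _ Vs h1 h2

/-! ### (MV'): membership in the chart rings -/

/-- **(MV') at level `N0 q q`, finite chart**: an element of `W₂₀ ∩ W₁₁ ∩ W₀₂` which lies in every
`K0`-place finite at `x₂` belongs to `chart (W A) x₂`. -/
theorem mem_chart_x2 (hO₀ : Y.O₀ = Og0 N0 hA hqN0)
    (htr : Transcendental (R := ↥(K0 A)) (A := FK0 A (N0 * q * q)) (x2 (A.inertiaSubgroupIn ℚ) N0 q))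
    {g : FK0 A (N0 * q * q)} (h20 : g ∈ Y.W₂₀) (h11 : g ∈ Y.W₁₁) (h02 : g ∈ Y.W₀₂)
    (hhor : ∀ v : Place ↥(K0 A) (FK0 A (N0 * q * q)),
      x2 (A.inertiaSubgroupIn ℚ) N0 q ∈ v.toValuationSubring → g ∈ v.toValuationSubring) :
    g ∈ chart (F := FK0 A (N0 * q * q)) ↥(W A) (x2 (A.inertiaSubgroupIn ℚ) N0 q) := by
  haveI := isDVR hA
  haveI := ChartX0.finiteDimensional_of_transcendental A (N0 * q * q) htr
  refine mem_chart_of_places (irreducible_ell hA) htr g (fun W' a b c d => ?_) hhor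
  obtain ⟨⟨V, hV⟩, rfl⟩ := hvert_x2 hA hqN0 Y hO₀ htr
    (fun W : {W : ValuationSubring (FK (A.inertiaSubgroupIn ℚ) (N0 * q * q)) // g ∈ W} =>
      (W : ValuationSubring (FK (A.inertiaSubgroupIn ℚ) (N0 * q * q))))
    ⟨⟨_, h20⟩, rfl⟩ ⟨⟨_, h11⟩, rfl⟩ ⟨⟨_, h02⟩, rfl⟩ W' a b c d
  exact hV

/-- **(MV') at level `N0 q q`, chart at infinity** -/
theorem mem_chart_x2_inv (hO₀ : Y.O₀ = Og0 N0 hA hqN0)
    (htr : Transcendental (R := ↥(K0 A)) (A := FK0 A (N0 * q * q)) (x2 (A.inertiaSubgroupIn ℚ) N0 q)⁻¹)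
    {g : FK0 A (N0 * q * q)} (h20 : g ∈ Y.W₂₀) (h11 : g ∈ Y.W₁₁) (h02 : g ∈ Y.W₀₂)
    (hhor : ∀ v : Place ↥(K0 A) (FK0 A (N0 * q * q)),
      (x2 (A.inertiaSubgroupIn ℚ) N0 q)⁻¹ ∈ v.toValuationSubring → g ∈ v.toValuationSubring) :
    g ∈ chart (F := FK0 A (N0 * q * q)) ↥(W A) (x2 (A.inertiaSubgroupIn ℚ) N0 q)⁻¹ := by
  haveI := isDVR hA
  haveI := ChartX0.finiteDimensional_of_transcendental A (N0 * q * q) htr
  refine mem_chart_of_places (irreducible_ell hA) htr g (fun W' a b c d => ?_) hhor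
  obtain ⟨⟨V, hV⟩, rfl⟩ := hvert_x2_inv hA hqN0 Y hO₀ htr
    (fun W : {W : ValuationSubring (FK (A.inertiaSubgroupIn ℚ) (N0 * q * q)) // g ∈ W} =>
      (W : ValuationSubring (FK (A.inertiaSubgroupIn ℚ) (N0 * q * q))))
    ⟨⟨_, h20⟩, rfl⟩ ⟨⟨_, h11⟩, rfl⟩ ⟨⟨_, h02⟩, rfl⟩ W' a b c d
  exact hV

/-- **(MV') at level `N0 q`, finite chart**: an element of `V₁ ∩ V₂` which lies in every `K0`-place
finite at `x₁` belongs to `chart (W A) x₁`. -/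
theorem mem_chart_x1 (hO₀ : Y.O₀ = Og0 N0 hA hqN0)
    (htr : Transcendental (R := ↥(K0 A)) (A := FK0 A (N0 * q)) (x1 (A.inertiaSubgroupIn ℚ) N0 q))
    {g : FK0 A (N0 * q)} (h1 : g ∈ Y.V₁) (h2 : g ∈ Y.V₂)
    (hhor : ∀ v : Place ↥(K0 A) (FK0 A (N0 * q)),
      x1 (A.inertiaSubgroupIn ℚ) N0 q ∈ v.toValuationSubring → g ∈ v.toValuationSubring) :
    g ∈ chart (F := FK0 A (N0 * q)) ↥(W A) (x1 (A.inertiaSubgroupIn ℚ) N0 q) := by
  haveI := isDVR hA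
  haveI := ChartX0.finiteDimensional_of_transcendental A (N0 * q) htr
  refine mem_chart_of_places (irreducible_ell hA) htr g (fun W' a b c d => ?_) hhor
  obtain ⟨⟨V, hV⟩, rfl⟩ := hvert_x1 hA hqN0 Y hO₀ htr
    (fun W : {W : ValuationSubring (FK (A.inertiaSubgroupIn ℚ) (N0 * q)) // g ∈ W} =>
      (W : ValuationSubring (FK (A.inertiaSubgroupIn ℚ) (N0 * q))))
    ⟨⟨_, h1⟩, rfl⟩ ⟨⟨_, h2⟩, rfl⟩ W' a b c d
  exact hV

/-- **(MV') at level `N0 q`, chart at infinity** -/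
theorem mem_chart_x1_inv (hO₀ : Y.O₀ = Og0 N0 hA hqN0)
    (htr : Transcendental (R := ↥(K0 A)) (A := FK0 A (N0 * q)) (x1 (A.inertiaSubgroupIn ℚ) N0 q)⁻¹)
    {g : FK0 A (N0 * q)} (h1 : g ∈ Y.V₁) (h2 : g ∈ Y.V₂)
    (hhor : ∀ v : Place ↥(K0 A) (FK0 A (N0 * q)),
      (x1 (A.inertiaSubgroupIn ℚ) N0 q)⁻¹ ∈ v.toValuationSubring → g ∈ v.toValuationSubring) :
    g ∈ chart (F := FK0 A (N0 * q)) ↥(W A) (x1 (A.inertiaSubgroupIn ℚ) N0 q)⁻¹ := by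
  haveI := isDVR hA
  haveI := ChartX0.finiteDimensional_of_transcendental A (N0 * q) htr
  refine mem_chart_of_places (irreducible_ell hA) htr g (fun W' a b c d => ?_) hhor
  obtain ⟨⟨V, hV⟩, rfl⟩ := hvert_x1_inv hA hqN0 Y hO₀ htr
    (fun W : {W : ValuationSubring (FK (A.inertiaSubgroupIn ℚ) (N0 * q)) // g ∈ W} =>
      (W : ValuationSubring (FK (A.inertiaSubgroupIn ℚ) (N0 * q))))
    ⟨⟨_, h1⟩, rfl⟩ ⟨⟨_, h2⟩, rfl⟩ W' a b c d
  exact hV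

end Fermat.Agent.S36.VertX0Final
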