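import Mathlib
import Fermat.Agent.S36.FormalLift.KerInfX0
import Fermat.Agent.S36.BranchX0T
import Fermat.Agent.S36.ChartsX0Leaf
import Fermat.Agent.S36.VertX0Final

/-!
# PROJECT V (S36), chain (V9) at `X₀` (helper12): the hypothesis `hrad` of `BranchX0`

helper1's `BranchX0.ChartPair.ker_inf`, `ChartPair.pdatum`, `BranchX0.finTDatum`, `infTDatum` take
the ring form of (V7) as a hypothesis

  `hrad : ∀ a ∈ chart O x₂^{±1}, a ∈ W₂₀.nonunits → a ∈ W₁₁.nonunits → a ∈ W₀₂.nonunits →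
      ∃ N, ∃ y ∈ chart O x₂^{±1}, a ^ N = (q : F₂) * y`.

This file gives it in that LITERAL shape.

* `hrad_fin`, `hrad_inf` : generic (`O` a DVR, `K = Frac O`), from helper24's
  `KerInfX0.exists_pow_eq_mul_fin`, `exists_pow_eq_mul_inf` (same side hypotheses `hq hφ htr hU0`);
* `hrad_fin_W`, `hrad_inf_W` : concrete at `O = W A` (helper10's `ChartX0` instances), with
  `hq` (`irreducible_ell`), `hφ`, `htr`, finite dimensionality (`ChartsX0Leaf`) and (U0)
  (`VertX0Final.hU0_Y`, from `hO₀ : Y.O₀ = Og0`) discharged: the only inputs are `Y`,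
  `hB : CompNormalX0.Base Y (W A) π` and `hO₀`.
-/

set_option autoImplicit false
set_option linter.unusedSectionVars false
set_option linter.unusedVariables false
set_option linter.style.haveILetI false
set_option synthInstance.maxHeartbeats 400000

noncomputable section

namespace Fermat.Agent.S36.BranchX0Rad

open Polynomial IntermediateField Fermat.Agent.S36.PowerBasisK0 Fermat.Agent.S36.JIntegral
  Fermat.Agent.S36.CompNormalX0 Fermat.Agent.S36.NewInertiaDatum Fermat.Agent.S36.ChartVert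
  Fermat.Agent.S36.ChartRing Fermat.Agent.S36.LatticeX0

local notation "Kb" => AlgebraicClosure ℚ

section Generic

variable {H : Subgroup (Kb ≃ₐ[ℚ] Kb)}
variable {N0 q : ℕ} [NeZero N0] [NeZero q] [NeZero (N0 * q)] [NeZero (N0 * q * q)]
variable {κ : Type} [Field κ] (Y : ThreeValX0.Hyp H N0 q κ)

/-- the three non-unit conditions, as one statement on the family `Wfam` -/
theorem val_lt_one_of_nonunits {a : FK H (N0 * q * q)} (h20 : a ∈ Y.W₂₀.nonunits)
    (h11 : a ∈ Y.W₁₁.nonunits) (h02 : a ∈ Y.W₀₂.nonunits) :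
    ∀ w, (Wfam Y w).valuation a < 1 := by
  intro w
  cases w
  · exact Y.W₂₀.mem_nonunits_iff.mp h20
  · exact Y.W₁₁.mem_nonunits_iff.mp h11
  · exact Y.W₀₂.mem_nonunits_iff.mp h02

variable {O : Type*} [CommRing O] [IsDomain O] [IsDiscreteValuationRing O]
  [Algebra O (FK H N0)] [Algebra O (FK H (N0 * q))] [Algebra O (FK H (N0 * q * q))]
  {K : Type*} [Field K] [Algebra O K] [IsFractionRing O K] [CharZero K]
  [Algebra K (FK H (N0 * q * q))] [IsScalarTower O K (FK H (N0 * q * q))]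
  {k : Type*} [Field k] [Algebra k κ] [IsAlgClosed k] {π : O →+* k} (hB : Base Y O π)

include hB

/-- **`hrad` on the chart `{x₂ ≠ ∞}`**, the literal hypothesis of `BranchX0.finTDatum` -/
theorem hrad_fin (hq : Irreducible ((q : ℕ) : O))
    (hφ : Transcendental K (x2 H N0 q)) [FiniteDimensional K⟮x2 H N0 q⟯ (FK H (N0 * q * q))]
    (htr : Transcendental O (x2 H N0 q))
    (hU0 : ∀ V₀ : ValuationSubring (FK H N0),
      IsGaussVert ((q : ℕ) : O) (j0K H N0) V₀ → V₀ = Y.O₀) :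
    ∀ a ∈ chart O (x2 H N0 q), a ∈ Y.W₂₀.nonunits → a ∈ Y.W₁₁.nonunits →
      a ∈ Y.W₀₂.nonunits →
      ∃ N : ℕ, ∃ y ∈ chart O (x2 H N0 q), a ^ N = (q : FK H (N0 * q * q)) * y := by
  intro a ha h20 h11 h02
  obtain ⟨N, b, hb, hN⟩ := KerInfX0.exists_pow_eq_mul_fin (K := K) Y hB hq hφ htr hU0 ha
    (val_lt_one_of_nonunits Y h20 h11 h02)
  exact ⟨N, b, hb, by rw [hN, map_natCast]⟩

/-- **`hrad` on the chart `{x₂ ≠ 0}`**, the literal hypothesis of `BranchX0.infTDatum` -/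
theorem hrad_inf (hq : Irreducible ((q : ℕ) : O))
    (hφ : Transcendental K (x2 H N0 q)⁻¹)
    [FiniteDimensional K⟮(x2 H N0 q)⁻¹⟯ (FK H (N0 * q * q))]
    (htr : Transcendental O (x2 H N0 q)⁻¹)
    (hU0 : ∀ V₀ : ValuationSubring (FK H N0),
      IsGaussVert ((q : ℕ) : O) (j0K H N0) V₀ → V₀ = Y.O₀) :
    ∀ a ∈ chart O (x2 H N0 q)⁻¹, a ∈ Y.W₂₀.nonunits → a ∈ Y.W₁₁.nonunits →
      a ∈ Y.W₀₂.nonunits →
      ∃ N : ℕ, ∃ y ∈ chart O (x2 H N0 q)⁻¹, a ^ N = (q : FK H (N0 * q * q)) * y := by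
  intro a ha h20 h11 h02
  obtain ⟨N, b, hb, hN⟩ := KerInfX0.exists_pow_eq_mul_inf (K := K) Y hB hq hφ htr hU0 ha
    (val_lt_one_of_nonunits Y h20 h11 h02)
  exact ⟨N, b, hb, by rw [hN, map_natCast]⟩

end Generic

/-! ### concrete: `O = W A` -/

section Concrete

open Fermat.Agent.S36.ChartX0 Fermat.Agent.S36.GaussK0Comap IsLocalRing
open Fermat.Agent.S18.C.SmallDVR

variable {q : ℕ} [hq : Fact q.Prime] {N0 : ℕ} [NeZero N0] [NeZero q] [NeZero (N0 * q)]
  [NeZero (N0 * q * q)] {A : ValuationSubring Kb}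
variable (hA : A.LiesOverPrime q) (hqN0 : ¬ q ∣ N0)
variable {κ : Type} [Field κ] (Y : ThreeValX0.Hyp (A.inertiaSubgroupIn ℚ) N0 q κ)

/-- the instances of `ChartX0` in the `fixedField I` / `FK I N` spelling (local to this section) -/
local instance instAlgWFK (N : ℕ) : Algebra ↥(W A) (FK (A.inertiaSubgroupIn ℚ) N) := algebraW A N

local instance instAlgWK :
    Algebra ↥(W A) ↥(IntermediateField.fixedField (A.inertiaSubgroupIn ℚ)) :=
  (inferInstance : Algebra ↥(W A) ↥(K0 A))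

local instance instFracWK :
    IsFractionRing ↥(W A) ↥(IntermediateField.fixedField (A.inertiaSubgroupIn ℚ)) :=
  isFractionRing_W_K0 A

local instance instTowerW (N : ℕ) : IsScalarTower ↥(W A)
    ↥(IntermediateField.fixedField (A.inertiaSubgroupIn ℚ)) (FK (A.inertiaSubgroupIn ℚ) N) :=
  isScalarTowerW A N

variable {k : Type*} [Field k] [Algebra k κ] [IsAlgClosed k] {π : ↥(W A) →+* k}
  (hB : Base Y ↥(W A) π)

include hA hqN0 hB in
/-- **`hrad` of `BranchX0.finTDatum` at `O = W A`**: only `Y`, `hB` and `hO₀` are left -/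
theorem hrad_fin_W (hO₀ : Y.O₀ = Og0 N0 hA hqN0) :
    ∀ a ∈ chart ↥(W A) (x2 (A.inertiaSubgroupIn ℚ) N0 q), a ∈ Y.W₂₀.nonunits →
      a ∈ Y.W₁₁.nonunits → a ∈ Y.W₀₂.nonunits →
      ∃ N : ℕ, ∃ y ∈ chart ↥(W A) (x2 (A.inertiaSubgroupIn ℚ) N0 q),
        a ^ N = (q : FK (A.inertiaSubgroupIn ℚ) (N0 * q * q)) * y := by
  haveI := isDVR hA
  haveI := ChartsX0Leaf.finiteDimensional_x2 (N0 := N0) (A.inertiaSubgroupIn ℚ) hq.out
  exact hrad_fin (K := ↥(IntermediateField.fixedField (A.inertiaSubgroupIn ℚ))) Y hB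
    (irreducible_ell hA) (ChartsX0Leaf.transcendental_x2 (A.inertiaSubgroupIn ℚ) hq.out)
    (ChartsX0Leaf.transcendental_x2_W A N0)
    (fun V₀ h => (GaussUniqX0.forall_isGaussVert_eq_Og0 N0 hA hqN0 V₀ h).trans hO₀.symm)

include hA hqN0 hB in
/-- **`hrad` of `BranchX0.infTDatum` at `O = W A`**: only `Y`, `hB` and `hO₀` are left -/
theorem hrad_inf_W (hO₀ : Y.O₀ = Og0 N0 hA hqN0) :
    ∀ a ∈ chart ↥(W A) (x2 (A.inertiaSubgroupIn ℚ) N0 q)⁻¹, a ∈ Y.W₂₀.nonunits →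
      a ∈ Y.W₁₁.nonunits → a ∈ Y.W₀₂.nonunits →
      ∃ N : ℕ, ∃ y ∈ chart ↥(W A) (x2 (A.inertiaSubgroupIn ℚ) N0 q)⁻¹,
        a ^ N = (q : FK (A.inertiaSubgroupIn ℚ) (N0 * q * q)) * y := by
  haveI := isDVR hA
  haveI := ChartsX0Leaf.finiteDimensional_x2_inv (N0 := N0) (A.inertiaSubgroupIn ℚ) hq.out
  exact hrad_inf (K := ↥(IntermediateField.fixedField (A.inertiaSubgroupIn ℚ))) Y hB
    (irreducible_ell hA) (ChartsX0Leaf.transcendental_x2_inv (A.inertiaSubgroupIn ℚ) hq.out)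
    (ChartsX0Leaf.transcendental_x2_inv_W A N0)
    (fun V₀ h => (GaussUniqX0.forall_isGaussVert_eq_Og0 N0 hA hqN0 V₀ h).trans hO₀.symm)

end Concrete

end Fermat.Agent.S36.BranchX0Rad
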