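/-
PROJECT V (S36), slice V-PairLiftChart (helper23; chain v1.1 (N2) / (V9), last step of (SEP)):
**the hypothesis `hsep` of `NodeField.node_iff` (= the `node` field of `BranchCoreT.PDatum`) at
`X₀`, in ring language, for BOTH charts of level `M q`.**

On top of `S36/PairLiftK0` (the `K0`-rational separating functions `exists_sep_fin_K0`,
`exists_sep_inf_K0`), `ThetaK0` (`V1K V2K red1K red2K`), `ChartPlaces.mem_chart_of_places`,
`SpecDictOne.sep_of_values`.  `I` ANY subgroup of `G_ℚ`, `K0 = fixedField I`, `FK I (M q)` the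
`K0`-form of level `M q`, `x₁ = xK I = j₀ j₁` (`xK_eq_prod_jK`: `= ∏ i, jK I M q i = VertX0.x1`).

* dictionary: `mem_V1K_iff`, `mem_V2K_iff`, `red1K_eq` (rfl), `red2K_eq` : `V1K V2K red1K red2K`
  are `(G1X0).O (G2X0).O (G1X0).red (G2X0).red` along `tB`;
* `exists_sep_fin_V`, `exists_sep_inf_V` : (SEP) of `PairLiftK0` restated on `V1K V2K red1K red2K`;
* `mem_chart_of_mem_V` : `O` ANY DVR with fraction field `K0` acting on `FK I (M q)`; if `V1K`,
  `V2K` are the only Gauss-vertical valuation subrings for `φ` (`hvert` =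
  `VertX0.eq_of_isGaussVert_x1 / _x1_inv` with `Y.V₁ = V1K`, `Y.V₂ = V2K`), then
  `g ∈ V1K ∩ V2K` regular at the `K0`-places finite at `φ` lies in `chart O φ`;
* `exists_sep_fin_chart`, `exists_sep_inf_chart` : the separating function lies in `chart O x₁`
  resp. `chart O x₁⁻¹`;
* `sep_values_fin`, `sep_values_inf` : LITERALLY the hypothesis `h` of
  `SpecDictOne.sep_of_values` for `x = J` resp. `x = J⁻¹`, for ANY type `A₁` with two maps
  `red1 red2 : A₁ → chart k x` through which the elements of `chart O x₁^{±1} ∩ V1K ∩ V2K` can be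
  evaluated (`hlift`; for `A₁ := ↥(chart O x₁)` with the restrictions of `red1K red2K` it is
  `fun g hg h₁ h₂ => ⟨⟨g, hg⟩, rfl, rfl⟩`);
* `hsep_fin`, `hsep_inf` : LITERALLY `hsep` of `NodeField.node_iff` with `B = chart k J^{±1}`,
  `φ = SpecDictOne.phiB`, `S = SpecDictOne.nodeSet k M ↑S`.

Inputs left to the caller (all on main): `hres = LiftK0.ratPi_surjective_inertia hA` (for
`I` = inertia), `hS hbS` = the node set (`NodesFrStable` / `NodesDesc.Desc`), `hπ hφ` and the
`FiniteDimensional` instance (`ChartsX0`), `hvert` (`VertX0` + `GaussUniqX0`).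
-/
import Mathlib
import Fermat.Agent.S36.PairLiftK0
import Fermat.Agent.S36.ThetaK0
import Fermat.Agent.S36.JIntegral
import Fermat.Agent.S36.ChartVert
import Fermat.Agent.S36.ChartPlaces
import Fermat.Agent.S36.SpecDictOne
import Fermat.Agent.S36.NodeField

set_option autoImplicit false
set_option linter.unusedSectionVars false
set_option linter.style.haveILetI false
set_option synthInstance.maxHeartbeats 400000

noncomputable section

namespace Fermat.Agent.S36.PairLiftChart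

open ModularCurve AlgebraicCurve IsLocalRing IntermediateField Polynomial
open Fermat.Agent.S24.DegreeAlg (jgen)
open Fermat.Agent.S18.B.FkBasics (jk)
open Fermat.Agent.S18.NonSpecial Fermat.Agent.S37.Deuring.Core
open Fermat.Agent.S34.EulerX0 Fermat.Agent.S34.EulerClosedX0
open Fermat.Agent.S36.K0Fixed Fermat.Agent.S36.LiftK0Core
open Fermat.Agent.S34.FrobK Fermat.Agent.S34.Euler.Value Fermat.Agent.S34.Euler.FrobSide
open Fermat.Agent.S36.NodesDesc Fermat.Agent.S36.PairLiftK0 Fermat.Agent.S36.PowerBasisK0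
open Fermat.Agent.S36.ThetaK0 Fermat.Agent.S36.ChartRing Fermat.Agent.S36.ChartVert
  Fermat.Agent.S36.ChartPlaces

local notation "Kb" => AlgebraicClosure ℚ
local notation "GQ" => (AlgebraicClosure ℚ ≃ₐ[ℚ] AlgebraicClosure ℚ)

attribute [local instance 2000] Fermat.Agent.S34.EulerX0.algResFk

local instance instACk (A : ValuationSubring Kb) : IsAlgClosed (ResidueField ↥A) :=
  Fermat.Agent.S18.ResidueBasics.isAlgClosed_residueField A

local instance instNeZeroMul (M q : ℕ) [NeZero M] [NeZero q] : NeZero (M * q) :=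
  ⟨Nat.mul_ne_zero (NeZero.ne M) (NeZero.ne q)⟩

variable {q : ℕ} [hq : Fact q.Prime] [NeZero q] {M : ℕ} [NeZero M]
variable {A : ValuationSubring Kb} (hA : A.LiesOverPrime q) (hqM : ¬ q ∣ M)
variable [CharP (ResidueField ↥A) q] (I : Subgroup GQ)

/-! ### the dictionary `G1X0 G2X0` ↔ `V1K V2K red1K red2K` -/

theorem mem_V1K_iff (g : FK I (M * q)) :
    g ∈ V1K I hA hqM ↔ tB I (M * q) g ∈ (G1X0 hA hqM).O := Iff.rfl

theorem mem_V2K_iff (g : FK I (M * q)) :
    g ∈ V2K I hA hqM ↔ tB I (M * q) g ∈ (G2X0 hA hqM).O := by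
  rw [G2X0_O]
  exact Iff.rfl

theorem red1K_eq (g : FK I (M * q)) (h : g ∈ V1K I hA hqM) :
    red1K I hA hqM ⟨g, h⟩ = (G1X0 hA hqM).red ⟨tB I (M * q) g, h⟩ := rfl

theorem red2K_eq (g : FK I (M * q)) (h : g ∈ V2K I hA hqM)
    (h' : tB I (M * q) g ∈ (G2X0 hA hqM).O) :
    red2K I hA hqM ⟨g, h⟩ = (G2X0 hA hqM).red ⟨tB I (M * q) g, h'⟩ :=
  (G2X0_red hA hqM _ h' h).symm

theorem xK_eq_prod_jK : xK (M := M) (q := q) I = ∏ i, Fermat.Agent.S36.JIntegral.jK I M q i :=
  (Fermat.Agent.S36.JIntegral.prod_jK (H := I) (N0 := M) (q := q)).symm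


/-! ### (SEP) in the language of `V1K V2K red1K red2K` -/

set_option maxHeartbeats 1600000 in
/-- **(SEP) over `K0`, chart `x ≠ ∞`**, objects of `ThetaK0` / `LevelQK0` -/
theorem exists_sep_fin_V
    (hres : Function.Surjective (ratPi (IntermediateField.fixedField I) (residue ↥A)))
    {S : Finset (Place (ResidueField ↥A) ↥(modularFunctionFieldFullC (ResidueField ↥A) M))}
    (hS : ∀ b ∈ S, b ∉ P0 (ResidueField ↥A) M) (hbS : Desc hA hqM S)
    {b : Place (ResidueField ↥A) ↥(modularFunctionFieldFullC (ResidueField ↥A) M)}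
    (hb : b ∉ S) (hbP : b ∉ P0 (ResidueField ↥A) M) :
    ∃ (g₀ : FK I (M * q)) (h₁ : g₀ ∈ V1K I hA hqM) (h₂ : g₀ ∈ V2K I hA hqM),
      red1K I hA hqM ⟨g₀, h₁⟩ = 0 ∧ HasValue b (red2K I hA hqM ⟨g₀, h₂⟩) 1 ∧
      ∀ v : Place (IntermediateField.fixedField I) (FK I (M * q)),
        xK I ∈ v.toValuationSubring → g₀ ∈ v.toValuationSubring := by
  obtain ⟨g₀, h₁, h₂, hr1, hr2, hhor⟩ := exists_sep_fin_K0 hA hqM I hres hS hbS hb hbP
  have h₂' : g₀ ∈ V2K I hA hqM := (mem_V2K_iff hA hqM I g₀).mpr h₂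
  refine ⟨g₀, h₁, h₂', hr1, ?_, hhor⟩
  rw [red2K_eq hA hqM I g₀ h₂' h₂]
  exact hr2

set_option maxHeartbeats 1600000 in
/-- **(SEP) over `K0`, chart `x ≠ 0`** (cusps included), objects of `ThetaK0` / `LevelQK0` -/
theorem exists_sep_inf_V
    (hres : Function.Surjective (ratPi (IntermediateField.fixedField I) (residue ↥A)))
    {S : Finset (Place (ResidueField ↥A) ↥(modularFunctionFieldFullC (ResidueField ↥A) M))}
    (hS : ∀ b ∈ S, b ∉ P0 (ResidueField ↥A) M) (hbS : Desc hA hqM S)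
    {b : Place (ResidueField ↥A) ↥(modularFunctionFieldFullC (ResidueField ↥A) M)}
    (hb : b ∉ S) (hbJ : b.ord (jk (ResidueField ↥A) M) ≤ 0) :
    ∃ (g₁ : FK I (M * q)) (h₁ : g₁ ∈ V1K I hA hqM) (h₂ : g₁ ∈ V2K I hA hqM),
      red1K I hA hqM ⟨g₁, h₁⟩ = 0 ∧ ¬ HasValue b (red2K I hA hqM ⟨g₁, h₂⟩) 0 ∧
      ∀ v : Place (IntermediateField.fixedField I) (FK I (M * q)),
        (xK I)⁻¹ ∈ v.toValuationSubring → g₁ ∈ v.toValuationSubring := by
  obtain ⟨g₁, h₁, h₂, hr1, ⟨hne, hord⟩, hhor⟩ := exists_sep_inf_K0 hA hqM I hres hS hbS hb hbJ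
  have h₂' : g₁ ∈ V2K I hA hqM := (mem_V2K_iff hA hqM I g₁).mpr h₂
  refine ⟨g₁, h₁, h₂', hr1, ?_, hhor⟩
  rw [red2K_eq hA hqM I g₁ h₂' h₂, hasValue_zero_iff,
    ← Fermat.Agent.S24.Ord.ord_pos_iff b hne, hord]
  exact lt_irrefl 0

/-! ### membership in the chart rings of level `M q` -/

section Chart

variable {O : Type*} [CommRing O] [IsDomain O] [IsDiscreteValuationRing O]
  [Algebra O ↥(IntermediateField.fixedField I)] [IsFractionRing O ↥(IntermediateField.fixedField I)]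
  [Algebra O (FK I (M * q))] [IsScalarTower O ↥(IntermediateField.fixedField I) (FK I (M * q))]

/-- an element of `V1K ∩ V2K` regular at the `K0`-places finite at `φ` lies in the chart ring of
`φ`, as soon as `V1K`, `V2K` are the only Gauss-vertical valuation subrings for `φ`
(`VertX0.eq_of_isGaussVert_x1 / _x1_inv`) -/
theorem mem_chart_of_mem_V {π : O} (hπ : Irreducible π) {φ : FK I (M * q)}
    (hφ : Transcendental ↥(IntermediateField.fixedField I) φ)
    [FiniteDimensional (↥(IntermediateField.fixedField I))⟮φ⟯ (FK I (M * q))]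
    (hvert : ∀ V : ValuationSubring (FK I (M * q)), IsGaussVert π φ V →
      V = V1K I hA hqM ∨ V = V2K I hA hqM)
    {g : FK I (M * q)} (h₁ : g ∈ V1K I hA hqM) (h₂ : g ∈ V2K I hA hqM)
    (hhor : ∀ v : Place (IntermediateField.fixedField I) (FK I (M * q)),
      φ ∈ v.toValuationSubring → g ∈ v.toValuationSubring) :
    g ∈ chart O φ := by
  refine mem_chart_of_places hπ hφ g (fun W a b c d => ?_) hhor
  rcases hvert W ⟨a, b, c, d⟩ with h | h
  · rw [h]; exact h₁
  · rw [h]; exact h₂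

set_option maxHeartbeats 1600000 in
/-- **(SEP), chart `x ≠ ∞` of level `M q`**: the separating function lies in `chart O x₁` -/
theorem exists_sep_fin_chart {π : O} (hπ : Irreducible π)
    (hφ : Transcendental ↥(IntermediateField.fixedField I) (xK (M := M) (q := q) I))
    [FiniteDimensional (↥(IntermediateField.fixedField I))⟮xK (M := M) (q := q) I⟯
      (FK I (M * q))]
    (hvert : ∀ V : ValuationSubring (FK I (M * q)), IsGaussVert π (xK (M := M) (q := q) I) V →
      V = V1K I hA hqM ∨ V = V2K I hA hqM)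
    (hres : Function.Surjective (ratPi (IntermediateField.fixedField I) (residue ↥A)))
    {S : Finset (Place (ResidueField ↥A) ↥(modularFunctionFieldFullC (ResidueField ↥A) M))}
    (hS : ∀ b ∈ S, b ∉ P0 (ResidueField ↥A) M) (hbS : Desc hA hqM S)
    {b : Place (ResidueField ↥A) ↥(modularFunctionFieldFullC (ResidueField ↥A) M)}
    (hb : b ∉ S) (hbP : b ∉ P0 (ResidueField ↥A) M) :
    ∃ (g₀ : FK I (M * q)) (_ : g₀ ∈ chart O (xK (M := M) (q := q) I))
      (h₁ : g₀ ∈ V1K I hA hqM) (h₂ : g₀ ∈ V2K I hA hqM),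
      red1K I hA hqM ⟨g₀, h₁⟩ = 0 ∧ HasValue b (red2K I hA hqM ⟨g₀, h₂⟩) 1 := by
  obtain ⟨g₀, h₁, h₂, hr1, hr2, hhor⟩ := exists_sep_fin_V hA hqM I hres hS hbS hb hbP
  exact ⟨g₀, mem_chart_of_mem_V hA hqM I hπ hφ hvert h₁ h₂ hhor, h₁, h₂, hr1, hr2⟩

set_option maxHeartbeats 1600000 in
/-- **(SEP), chart `x ≠ 0` of level `M q`** (cusps included): the separating function lies in
`chart O x₁⁻¹` -/
theorem exists_sep_inf_chart {π : O} (hπ : Irreducible π)
    (hφ : Transcendental ↥(IntermediateField.fixedField I) (xK (M := M) (q := q) I)⁻¹)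
    [FiniteDimensional (↥(IntermediateField.fixedField I))⟮(xK (M := M) (q := q) I)⁻¹⟯
      (FK I (M * q))]
    (hvert : ∀ V : ValuationSubring (FK I (M * q)), IsGaussVert π (xK (M := M) (q := q) I)⁻¹ V →
      V = V1K I hA hqM ∨ V = V2K I hA hqM)
    (hres : Function.Surjective (ratPi (IntermediateField.fixedField I) (residue ↥A)))
    {S : Finset (Place (ResidueField ↥A) ↥(modularFunctionFieldFullC (ResidueField ↥A) M))}
    (hS : ∀ b ∈ S, b ∉ P0 (ResidueField ↥A) M) (hbS : Desc hA hqM S)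
    {b : Place (ResidueField ↥A) ↥(modularFunctionFieldFullC (ResidueField ↥A) M)}
    (hb : b ∉ S) (hbJ : b.ord (jk (ResidueField ↥A) M) ≤ 0) :
    ∃ (g₁ : FK I (M * q)) (_ : g₁ ∈ chart O (xK (M := M) (q := q) I)⁻¹)
      (h₁ : g₁ ∈ V1K I hA hqM) (h₂ : g₁ ∈ V2K I hA hqM),
      red1K I hA hqM ⟨g₁, h₁⟩ = 0 ∧ ¬ HasValue b (red2K I hA hqM ⟨g₁, h₂⟩) 0 := by
  obtain ⟨g₁, h₁, h₂, hr1, hr2, hhor⟩ := exists_sep_inf_V hA hqM I hres hS hbS hb hbJ
  exact ⟨g₁, mem_chart_of_mem_V hA hqM I hπ hφ hvert h₁ h₂ hhor, h₁, h₂, hr1, hr2⟩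

/-! ### the literal hypothesis `h` of `SpecDictOne.sep_of_values`, and `hsep` of
`NodeField.node_iff`

`A₁` is ANY type with two maps `red1 red2 : A₁ → chart k x` (`x = J` resp. `J⁻¹`) through which
every element of `chart O x₁ ∩ V1K ∩ V2K` (resp. `chart O x₁⁻¹ ∩ ..`) can be evaluated
(`hlift`; for `A₁ := ↥(chart O x₁)` and the restrictions of `red1K red2K` this is
`fun g hg h₁ h₂ => ⟨⟨g, hg⟩, rfl, rfl⟩`). -/

theorem jk_mem_iff
    (b : Place (ResidueField ↥A) ↥(modularFunctionFieldFullC (ResidueField ↥A) M)) :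
    jk (ResidueField ↥A) M ∈ b.toValuationSubring ↔ b ∉ P0 (ResidueField ↥A) M := by
  rw [Fermat.Agent.S24.Ord.mem_iff,
    ← Fermat.Agent.S24.Ord.ord_nonneg_iff b (jk_ne_zero (ResidueField ↥A) M)]
  show _ ↔ ¬ (b.ord (jk (ResidueField ↥A) M) < 0)
  exact not_lt.symm

theorem jk_inv_mem_iff
    (b : Place (ResidueField ↥A) ↥(modularFunctionFieldFullC (ResidueField ↥A) M)) :
    (jk (ResidueField ↥A) M)⁻¹ ∈ b.toValuationSubring ↔ b.ord (jk (ResidueField ↥A) M) ≤ 0 := by
  rw [Fermat.Agent.S24.Ord.mem_iff,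
    ← Fermat.Agent.S24.Ord.ord_nonneg_iff b (inv_ne_zero (jk_ne_zero (ResidueField ↥A) M)),
    Place.ord_inv]
  omega

set_option maxHeartbeats 1600000 in
/-- the hypothesis `h` of `SpecDictOne.sep_of_values`, chart `x = J` -/
theorem sep_values_fin {π : O} (hπ : Irreducible π)
    (hφ : Transcendental ↥(IntermediateField.fixedField I) (xK (M := M) (q := q) I))
    [FiniteDimensional (↥(IntermediateField.fixedField I))⟮xK (M := M) (q := q) I⟯
      (FK I (M * q))]
    (hvert : ∀ V : ValuationSubring (FK I (M * q)), IsGaussVert π (xK (M := M) (q := q) I) V →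
      V = V1K I hA hqM ∨ V = V2K I hA hqM)
    (hres : Function.Surjective (ratPi (IntermediateField.fixedField I) (residue ↥A)))
    {S : Finset (Place (ResidueField ↥A) ↥(modularFunctionFieldFullC (ResidueField ↥A) M))}
    (hS : ∀ b ∈ S, b ∉ P0 (ResidueField ↥A) M) (hbS : Desc hA hqM S)
    {A₁ : Type*} (red1 red2 : A₁ → chart (ResidueField ↥A) (jk (ResidueField ↥A) M))
    (hlift : ∀ g ∈ chart O (xK (M := M) (q := q) I), ∀ (h₁ : g ∈ V1K I hA hqM)
      (h₂ : g ∈ V2K I hA hqM), ∃ a : A₁,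
        ((red1 a : chart (ResidueField ↥A) (jk (ResidueField ↥A) M)) :
          ↥(modularFunctionFieldFullC (ResidueField ↥A) M)) = red1K I hA hqM ⟨g, h₁⟩ ∧
        ((red2 a : chart (ResidueField ↥A) (jk (ResidueField ↥A) M)) :
          ↥(modularFunctionFieldFullC (ResidueField ↥A) M)) = red2K I hA hqM ⟨g, h₂⟩) :
    ∀ v : Place (ResidueField ↥A) ↥(modularFunctionFieldFullC (ResidueField ↥A) M),
      jk (ResidueField ↥A) M ∈ v.toValuationSubring →
      v ∉ (S : Set (Place (ResidueField ↥A) ↥(modularFunctionFieldFullC (ResidueField ↥A) M))) →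
      ∃ g : A₁,
        HasValue (Fr (ResidueField ↥A) M q v)
          ((red1 g : chart (ResidueField ↥A) (jk (ResidueField ↥A) M)) :
            ↥(modularFunctionFieldFullC (ResidueField ↥A) M)) 0 ∧
        ¬ HasValue v ((red2 g : chart (ResidueField ↥A) (jk (ResidueField ↥A) M)) :
            ↥(modularFunctionFieldFullC (ResidueField ↥A) M)) 0 := by
  intro v hv hvS
  have hvS' : v ∉ S := fun h => hvS (Finset.mem_coe.mpr h)
  obtain ⟨g₀, hg, h₁, h₂, hr1, hr2⟩ := exists_sep_fin_chart hA hqM I hπ hφ hvert hres hS hbS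
    hvS' ((jk_mem_iff v).mp hv)
  obtain ⟨a, ha1, ha2⟩ := hlift g₀ hg h₁ h₂
  refine ⟨a, ?_, ?_⟩
  · rw [ha1, hr1, hasValue_zero_iff, map_zero]
    exact zero_lt_one
  · rw [ha2]
    intro h0
    exact one_ne_zero (hr2.unique h0)

set_option maxHeartbeats 1600000 in
/-- the hypothesis `h` of `SpecDictOne.sep_of_values`, chart `x = J⁻¹` -/
theorem sep_values_inf {π : O} (hπ : Irreducible π)
    (hφ : Transcendental ↥(IntermediateField.fixedField I) (xK (M := M) (q := q) I)⁻¹)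
    [FiniteDimensional (↥(IntermediateField.fixedField I))⟮(xK (M := M) (q := q) I)⁻¹⟯
      (FK I (M * q))]
    (hvert : ∀ V : ValuationSubring (FK I (M * q)), IsGaussVert π (xK (M := M) (q := q) I)⁻¹ V →
      V = V1K I hA hqM ∨ V = V2K I hA hqM)
    (hres : Function.Surjective (ratPi (IntermediateField.fixedField I) (residue ↥A)))
    {S : Finset (Place (ResidueField ↥A) ↥(modularFunctionFieldFullC (ResidueField ↥A) M))}
    (hS : ∀ b ∈ S, b ∉ P0 (ResidueField ↥A) M) (hbS : Desc hA hqM S)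
    {A₁ : Type*} (red1 red2 : A₁ → chart (ResidueField ↥A) (jk (ResidueField ↥A) M)⁻¹)
    (hlift : ∀ g ∈ chart O (xK (M := M) (q := q) I)⁻¹, ∀ (h₁ : g ∈ V1K I hA hqM)
      (h₂ : g ∈ V2K I hA hqM), ∃ a : A₁,
        ((red1 a : chart (ResidueField ↥A) (jk (ResidueField ↥A) M)⁻¹) :
          ↥(modularFunctionFieldFullC (ResidueField ↥A) M)) = red1K I hA hqM ⟨g, h₁⟩ ∧
        ((red2 a : chart (ResidueField ↥A) (jk (ResidueField ↥A) M)⁻¹) :
          ↥(modularFunctionFieldFullC (ResidueField ↥A) M)) = red2K I hA hqM ⟨g, h₂⟩) :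
    ∀ v : Place (ResidueField ↥A) ↥(modularFunctionFieldFullC (ResidueField ↥A) M),
      (jk (ResidueField ↥A) M)⁻¹ ∈ v.toValuationSubring →
      v ∉ (S : Set (Place (ResidueField ↥A) ↥(modularFunctionFieldFullC (ResidueField ↥A) M))) →
      ∃ g : A₁,
        HasValue (Fr (ResidueField ↥A) M q v)
          ((red1 g : chart (ResidueField ↥A) (jk (ResidueField ↥A) M)⁻¹) :
            ↥(modularFunctionFieldFullC (ResidueField ↥A) M)) 0 ∧
        ¬ HasValue v ((red2 g : chart (ResidueField ↥A) (jk (ResidueField ↥A) M)⁻¹) :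
            ↥(modularFunctionFieldFullC (ResidueField ↥A) M)) 0 := by
  intro v hv hvS
  have hvS' : v ∉ S := fun h => hvS (Finset.mem_coe.mpr h)
  obtain ⟨g₁, hg, h₁, h₂, hr1, hr2⟩ := exists_sep_inf_chart hA hqM I hπ hφ hvert hres hS hbS
    hvS' ((jk_inv_mem_iff v).mp hv)
  obtain ⟨a, ha1, ha2⟩ := hlift g₁ hg h₁ h₂
  refine ⟨a, ?_, ?_⟩
  · rw [ha1, hr1, hasValue_zero_iff, map_zero]
    exact zero_lt_one
  · rw [ha2]
    exact hr2

open Fermat.Agent.S36.SpecDictOne in
set_option maxHeartbeats 1600000 in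
/-- **`hsep` of `NodeField.node_iff`, chart `x = J`**, in the literal shape
(`B = chart k J`, `φ = SpecDictOne.phiB`, `S = SpecDictOne.nodeSet`) -/
theorem hsep_fin [PerfectField (ResidueField ↥A)] {π : O} (hπ : Irreducible π)
    (hφ : Transcendental ↥(IntermediateField.fixedField I) (xK (M := M) (q := q) I))
    [FiniteDimensional (↥(IntermediateField.fixedField I))⟮xK (M := M) (q := q) I⟯
      (FK I (M * q))]
    (hvert : ∀ V : ValuationSubring (FK I (M * q)), IsGaussVert π (xK (M := M) (q := q) I) V →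
      V = V1K I hA hqM ∨ V = V2K I hA hqM)
    (hres : Function.Surjective (ratPi (IntermediateField.fixedField I) (residue ↥A)))
    {S : Finset (Place (ResidueField ↥A) ↥(modularFunctionFieldFullC (ResidueField ↥A) M))}
    (hS : ∀ b ∈ S, b ∉ P0 (ResidueField ↥A) M) (hbS : Desc hA hqM S)
    {A₁ : Type*} (red1 red2 : A₁ → chart (ResidueField ↥A) (jk (ResidueField ↥A) M))
    (hlift : ∀ g ∈ chart O (xK (M := M) (q := q) I), ∀ (h₁ : g ∈ V1K I hA hqM)
      (h₂ : g ∈ V2K I hA hqM), ∃ a : A₁,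
        ((red1 a : chart (ResidueField ↥A) (jk (ResidueField ↥A) M)) :
          ↥(modularFunctionFieldFullC (ResidueField ↥A) M)) = red1K I hA hqM ⟨g, h₁⟩ ∧
        ((red2 a : chart (ResidueField ↥A) (jk (ResidueField ↥A) M)) :
          ↥(modularFunctionFieldFullC (ResidueField ↥A) M)) = red2K I hA hqM ⟨g, h₂⟩) :
    ∀ n : Ideal (chart (ResidueField ↥A) (jk (ResidueField ↥A) M)), n.IsMaximal →
      n ∉ nodeSet (ResidueField ↥A) M (x := jk (ResidueField ↥A) M)
        (S : Set (Place (ResidueField ↥A) ↥(modularFunctionFieldFullC (ResidueField ↥A) M))) →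
      ∃ g : A₁, red1 g ∈ n.comap (phiB (ResidueField ↥A) M q (phi_jk (ResidueField ↥A) M q)
          (Fermat.Agent.S18.B.FkBasics.isFF (ResidueField ↥A) M)
          (Fermat.Agent.S18.B.SeparableFk.isSeparable_jk (ResidueField ↥A) M)) ∧ red2 g ∉ n :=
  sep_of_values (ResidueField ↥A) M q (phi_jk (ResidueField ↥A) M q)
    (Fermat.Agent.S18.B.FkBasics.isFF (ResidueField ↥A) M)
    (Fermat.Agent.S18.B.SeparableFk.isSeparable_jk (ResidueField ↥A) M) red1 red2 _
    (sep_values_fin hA hqM I hπ hφ hvert hres hS hbS red1 red2 hlift)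

open Fermat.Agent.S36.SpecDictOne in
set_option maxHeartbeats 1600000 in
/-- **`hsep` of `NodeField.node_iff`, chart `x = J⁻¹`** -/
theorem hsep_inf [PerfectField (ResidueField ↥A)] {π : O} (hπ : Irreducible π)
    (hφ : Transcendental ↥(IntermediateField.fixedField I) (xK (M := M) (q := q) I)⁻¹)
    [FiniteDimensional (↥(IntermediateField.fixedField I))⟮(xK (M := M) (q := q) I)⁻¹⟯
      (FK I (M * q))]
    (hvert : ∀ V : ValuationSubring (FK I (M * q)), IsGaussVert π (xK (M := M) (q := q) I)⁻¹ V →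
      V = V1K I hA hqM ∨ V = V2K I hA hqM)
    (hres : Function.Surjective (ratPi (IntermediateField.fixedField I) (residue ↥A)))
    {S : Finset (Place (ResidueField ↥A) ↥(modularFunctionFieldFullC (ResidueField ↥A) M))}
    (hS : ∀ b ∈ S, b ∉ P0 (ResidueField ↥A) M) (hbS : Desc hA hqM S)
    {A₁ : Type*} (red1 red2 : A₁ → chart (ResidueField ↥A) (jk (ResidueField ↥A) M)⁻¹)
    (hlift : ∀ g ∈ chart O (xK (M := M) (q := q) I)⁻¹, ∀ (h₁ : g ∈ V1K I hA hqM)
      (h₂ : g ∈ V2K I hA hqM), ∃ a : A₁,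
        ((red1 a : chart (ResidueField ↥A) (jk (ResidueField ↥A) M)⁻¹) :
          ↥(modularFunctionFieldFullC (ResidueField ↥A) M)) = red1K I hA hqM ⟨g, h₁⟩ ∧
        ((red2 a : chart (ResidueField ↥A) (jk (ResidueField ↥A) M)⁻¹) :
          ↥(modularFunctionFieldFullC (ResidueField ↥A) M)) = red2K I hA hqM ⟨g, h₂⟩) :
    ∀ n : Ideal (chart (ResidueField ↥A) (jk (ResidueField ↥A) M)⁻¹), n.IsMaximal →
      n ∉ nodeSet (ResidueField ↥A) M (x := (jk (ResidueField ↥A) M)⁻¹)
        (S : Set (Place (ResidueField ↥A) ↥(modularFunctionFieldFullC (ResidueField ↥A) M))) →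
      ∃ g : A₁, red1 g ∈ n.comap (phiB (ResidueField ↥A) M q (phi_jk_inv (ResidueField ↥A) M q)
          (isFF_jk_inv (ResidueField ↥A) M) (isSeparable_jk_inv (ResidueField ↥A) M)) ∧
        red2 g ∉ n :=
  sep_of_values (ResidueField ↥A) M q (phi_jk_inv (ResidueField ↥A) M q)
    (isFF_jk_inv (ResidueField ↥A) M) (isSeparable_jk_inv (ResidueField ↥A) M) red1 red2 _
    (sep_values_inf hA hqM I hπ hφ hvert hres hS hbS red1 red2 hlift)

end Chart

end Fermat.Agent.S36.PairLiftChart
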