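/-
PROJECT V (S36), slice V-PairLiftX0 (helper23; chain v1.1 (N2) / (V9)): **`hsep` of
`NodeField.node_iff` (= the `node` field of `BranchCoreT.PDatum`) at `X₀` over `O = W A`, with
every model-side hypothesis of `S36/PairLiftChart` DISCHARGED.**

`A` over `q`, `q ∤ M`, `I = A.inertiaSubgroupIn ℚ`, `K0 = ℚ̄^I`, `W A = A ∩ K0` (helper10's
`ChartX0` instances `algebraW`, `isScalarTowerW`), `k = ResidueField A`, `κ = F_k(M)`.  Inputs:

* `Y : ThreeValX0.Hyp I M q κ` with the three links `hV1 : Y.V₁ = V1K I hA hqM`,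
  `hV2 : Y.V₂ = V2K I hA hqM` (`= GlueNormX0.Link.hV1 hV2`), `hO0 : Y.O₀ = Og0 M hA hqM`
  (`= CompNormalX0Base.Link.hO0`) — all `rfl` for the canonical filling;
* the node set `S : Finset (Place k κ)` off the cusps with `NodesDesc.Desc hA hqM S`;
* the caller's bundling `(A₁, red1, red2, hlift)` as in `PairLiftChart`.

Discharged here: `hπ = ChartX0.irreducible_ell hA`, `hφ` and the `FiniteDimensional` instance
(`ChartsX0.transcendental_x1'`, `finiteDimensional_x1'`, `finiteDimensional_x1_inv'`), `hvert`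
(`hvert_fin`, `hvert_inf` = `VertX0.eq_of_isGaussVert_x1 / _x1_inv` with
`hU0 = GaussUniqX0.forall_isGaussVert_eq_Og0`, `hα₀ = ChartsX0.alphaK_algebraMap_W`,
`htr = transcendental_W`), `hres = LiftK0.ratPi_surjective_inertia hA`.

* `xK_eq_x1` (rfl), `xK_eq_vert_x1` : `PairLiftK0.xK = ChartsX0.x1 = VertX0.x1`;
* `transcendental_W` : transcendental over `K0 A` ⇒ transcendental over `W A`;
* `hvert_fin`, `hvert_inf`;
* `exists_sep_fin_X0`, `exists_sep_inf_X0` : the separating function in `chartX0 A (M q) x₁^{±1}`;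
* `sep_values_fin_X0`, `sep_values_inf_X0` : the hypothesis `h` of `SpecDictOne.sep_of_values`;
* `hsep_fin_X0`, `hsep_inf_X0` : LITERALLY `hsep` of `NodeField.node_iff` (`B = chart k J^{±1}`,
  `φ = SpecDictOne.phiB`, `S = SpecDictOne.nodeSet k M ↑S`).
-/
import Mathlib
import Fermat.Agent.S36.PairLiftChart
import Fermat.Agent.S36.VertX0
import Fermat.Agent.S36.GaussUniqX0
import Fermat.Agent.S36.ChartsX0

set_option autoImplicit false
set_option linter.unusedSectionVars false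
set_option linter.style.haveILetI false
set_option synthInstance.maxHeartbeats 400000

noncomputable section

namespace Fermat.Agent.S36.PairLiftX0

open ModularCurve AlgebraicCurve IsLocalRing IntermediateField Polynomial
open Fermat.Agent.S18.B.FkBasics (jk)
open Fermat.Agent.S18.C.SmallDVR
open Fermat.Agent.S34.EulerX0 Fermat.Agent.S34.EulerClosedX0
open Fermat.Agent.S34.FrobK Fermat.Agent.S34.Euler.Value Fermat.Agent.S34.Euler.FrobSide
open Fermat.Agent.S36.NodesDesc Fermat.Agent.S36.PairLiftK0 Fermat.Agent.S36.PowerBasisK0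
open Fermat.Agent.S36.ThetaK0 Fermat.Agent.S36.ChartRing Fermat.Agent.S36.ChartVert
open Fermat.Agent.S36.ChartX0 Fermat.Agent.S36.GaussK0Comap Fermat.Agent.S36.PairLiftChart

local notation "Kb" => AlgebraicClosure ℚ
local notation "GQ" => (AlgebraicClosure ℚ ≃ₐ[ℚ] AlgebraicClosure ℚ)

attribute [local instance 2000] Fermat.Agent.S34.EulerX0.algResFk

local instance instACk (A : ValuationSubring Kb) : IsAlgClosed (ResidueField ↥A) :=
  Fermat.Agent.S18.ResidueBasics.isAlgClosed_residueField A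

local instance instNeZeroMul (M q : ℕ) [NeZero M] [NeZero q] : NeZero (M * q) :=
  ⟨Nat.mul_ne_zero (NeZero.ne M) (NeZero.ne q)⟩

variable {q : ℕ} [hq : Fact q.Prime] [NeZero q] {M : ℕ} [NeZero M]
variable {A : ValuationSubring Kb} (hA : A.LiesOverPrime q) (hqM : ¬ q ∣ M)
variable [CharP (ResidueField ↥A) q]

/-- `PairLiftK0.xK`, `ChartsX0.x1` and `VertX0.x1` are the same chart function `j₀ j₁` -/
theorem xK_eq_x1 (I : Subgroup GQ) :
    xK (M := M) (q := q) I = Fermat.Agent.S36.ChartsX0.x1 I M q := rfl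

theorem xK_eq_vert_x1 (I : Subgroup GQ) :
    xK (M := M) (q := q) I = Fermat.Agent.S36.VertX0.x1 I M q := xK_eq_prod_jK I

variable (Y : Fermat.Agent.S36.ThreeValX0.Hyp (A.inertiaSubgroupIn ℚ) M q
  ↥(modularFunctionFieldFullC (ResidueField ↥A) M))

include hA in
theorem transcendental_W {N : ℕ} {φ : FK0 A N} (h : Transcendental ↥(K0 A) φ) :
    Transcendental ↥(W A) φ :=
  h.restrictScalars (IsFractionRing.injective ↥(W A) ↥(K0 A))

/-- **`hvert` of `PairLiftChart` at `X₀`, chart `x₁ ≠ ∞`** -/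
theorem hvert_fin [NeZero (M * q * q)] (hV1 : Y.V₁ = V1K (A.inertiaSubgroupIn ℚ) hA hqM)
    (hV2 : Y.V₂ = V2K (A.inertiaSubgroupIn ℚ) hA hqM) (hO0 : Y.O₀ = Og0 M hA hqM) :
    ∀ V : ValuationSubring (FK (A.inertiaSubgroupIn ℚ) (M * q)),
      @IsGaussVert ↥(W A) _ (FK (A.inertiaSubgroupIn ℚ) (M * q)) _ (algebraW A (M * q))
        ((q : ℕ) : ↥(W A)) (xK (M := M) (q := q) (A.inertiaSubgroupIn ℚ)) V →
      V = V1K (A.inertiaSubgroupIn ℚ) hA hqM ∨ V = V2K (A.inertiaSubgroupIn ℚ) hA hqM := by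
  intro V hV
  haveI := isDVR hA
  letI i0 : Algebra ↥(W A) (FK (A.inertiaSubgroupIn ℚ) M) := algebraW A M
  letI i1 : Algebra ↥(W A) (FK (A.inertiaSubgroupIn ℚ) (M * q)) := algebraW A (M * q)
  letI i2 : Algebra ↥(W A) (FK (A.inertiaSubgroupIn ℚ) (M * q * q)) := algebraW A (M * q * q)
  have htr : Transcendental ↥(W A) (Fermat.Agent.S36.VertX0.x1 (A.inertiaSubgroupIn ℚ) M q) := by
    rw [← xK_eq_vert_x1]
    exact transcendental_W hA (Fermat.Agent.S36.ChartsX0.transcendental_x1K0 (q := q) A M)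
  have hU0 : ∀ V₀ : ValuationSubring (FK (A.inertiaSubgroupIn ℚ) M),
      IsGaussVert ((q : ℕ) : ↥(W A)) (j0K (A.inertiaSubgroupIn ℚ) M) V₀ → V₀ = Y.O₀ := by
    intro V₀ h
    rw [hO0]
    exact Fermat.Agent.S36.GaussUniqX0.forall_isGaussVert_eq_Og0 M hA hqM V₀ h
  have hV' : IsGaussVert ((q : ℕ) : ↥(W A))
      (Fermat.Agent.S36.VertX0.x1 (A.inertiaSubgroupIn ℚ) M q) V := by
    rw [← xK_eq_vert_x1]
    exact hV
  have := Fermat.Agent.S36.VertX0.eq_of_isGaussVert_x1 Y (irreducible_ell hA)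
    (Fermat.Agent.S36.ChartsX0.alphaK_algebraMap_W A M q) hU0 htr hV'
  rwa [hV1, hV2] at this

/-- **`hvert` of `PairLiftChart` at `X₀`, chart `x₁ ≠ 0`** -/
theorem hvert_inf [NeZero (M * q * q)] (hV1 : Y.V₁ = V1K (A.inertiaSubgroupIn ℚ) hA hqM)
    (hV2 : Y.V₂ = V2K (A.inertiaSubgroupIn ℚ) hA hqM) (hO0 : Y.O₀ = Og0 M hA hqM) :
    ∀ V : ValuationSubring (FK (A.inertiaSubgroupIn ℚ) (M * q)),
      @IsGaussVert ↥(W A) _ (FK (A.inertiaSubgroupIn ℚ) (M * q)) _ (algebraW A (M * q))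
        ((q : ℕ) : ↥(W A)) (xK (M := M) (q := q) (A.inertiaSubgroupIn ℚ))⁻¹ V →
      V = V1K (A.inertiaSubgroupIn ℚ) hA hqM ∨ V = V2K (A.inertiaSubgroupIn ℚ) hA hqM := by
  intro V hV
  haveI := isDVR hA
  letI i0 : Algebra ↥(W A) (FK (A.inertiaSubgroupIn ℚ) M) := algebraW A M
  letI i1 : Algebra ↥(W A) (FK (A.inertiaSubgroupIn ℚ) (M * q)) := algebraW A (M * q)
  letI i2 : Algebra ↥(W A) (FK (A.inertiaSubgroupIn ℚ) (M * q * q)) := algebraW A (M * q * q)
  have htr : Transcendental ↥(W A)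
      (Fermat.Agent.S36.VertX0.x1 (A.inertiaSubgroupIn ℚ) M q)⁻¹ := by
    rw [← xK_eq_vert_x1]
    exact transcendental_W hA (Fermat.Agent.S36.ChartsX0.transcendental_inv'
      (Fermat.Agent.S36.ChartsX0.transcendental_x1K0 (q := q) A M))
  have hU0 : ∀ V₀ : ValuationSubring (FK (A.inertiaSubgroupIn ℚ) M),
      IsGaussVert ((q : ℕ) : ↥(W A)) (j0K (A.inertiaSubgroupIn ℚ) M) V₀ → V₀ = Y.O₀ := by
    intro V₀ h
    rw [hO0]
    exact Fermat.Agent.S36.GaussUniqX0.forall_isGaussVert_eq_Og0 M hA hqM V₀ h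
  have hV' : IsGaussVert ((q : ℕ) : ↥(W A))
      (Fermat.Agent.S36.VertX0.x1 (A.inertiaSubgroupIn ℚ) M q)⁻¹ V := by
    rw [← xK_eq_vert_x1]
    exact hV
  have := Fermat.Agent.S36.VertX0.eq_of_isGaussVert_x1_inv Y (irreducible_ell hA)
    (Fermat.Agent.S36.ChartsX0.alphaK_algebraMap_W A M q) hU0 htr hV'
  rwa [hV1, hV2] at this

/-! ### (SEP) at `X₀`: everything discharged except `Y` and its three links -/

set_option maxHeartbeats 1600000 in
/-- **(SEP), chart `x₁ ≠ ∞`, at `X₀`** -/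
theorem exists_sep_fin_X0 [NeZero (M * q * q)]
    (hV1 : Y.V₁ = V1K (A.inertiaSubgroupIn ℚ) hA hqM)
    (hV2 : Y.V₂ = V2K (A.inertiaSubgroupIn ℚ) hA hqM) (hO0 : Y.O₀ = Og0 M hA hqM)
    {S : Finset (Place (ResidueField ↥A) ↥(modularFunctionFieldFullC (ResidueField ↥A) M))}
    (hS : ∀ b ∈ S, b ∉ P0 (ResidueField ↥A) M) (hbS : Desc hA hqM S)
    {b : Place (ResidueField ↥A) ↥(modularFunctionFieldFullC (ResidueField ↥A) M)}
    (hb : b ∉ S) (hbP : b ∉ P0 (ResidueField ↥A) M) :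
    ∃ (g₀ : FK0 A (M * q))
      (_ : g₀ ∈ chartX0 A (M * q) (xK (M := M) (q := q) (A.inertiaSubgroupIn ℚ)))
      (h₁ : g₀ ∈ V1K (A.inertiaSubgroupIn ℚ) hA hqM)
      (h₂ : g₀ ∈ V2K (A.inertiaSubgroupIn ℚ) hA hqM),
      red1K (A.inertiaSubgroupIn ℚ) hA hqM ⟨g₀, h₁⟩ = 0 ∧
        HasValue b (red2K (A.inertiaSubgroupIn ℚ) hA hqM ⟨g₀, h₂⟩) 1 := by
  haveI := isDVR hA
  letI a0 : Algebra ↥(W A) ↥(IntermediateField.fixedField (A.inertiaSubgroupIn ℚ)) :=
    (inferInstance : Algebra ↥(W A) ↥(K0 A))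
  haveI f0 : IsFractionRing ↥(W A) ↥(IntermediateField.fixedField (A.inertiaSubgroupIn ℚ)) :=
    isFractionRing_W_K0 A
  letI a1 : Algebra ↥(W A) (FK (A.inertiaSubgroupIn ℚ) (M * q)) := algebraW A (M * q)
  haveI t1 : IsScalarTower ↥(W A) ↥(IntermediateField.fixedField (A.inertiaSubgroupIn ℚ))
      (FK (A.inertiaSubgroupIn ℚ) (M * q)) := isScalarTowerW A (M * q)
  haveI fd : FiniteDimensional
      (↥(IntermediateField.fixedField (A.inertiaSubgroupIn ℚ)))⟮xK (M := M) (q := q)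
        (A.inertiaSubgroupIn ℚ)⟯ (FK (A.inertiaSubgroupIn ℚ) (M * q)) :=
    Fermat.Agent.S36.ChartsX0.finiteDimensional_x1' (A.inertiaSubgroupIn ℚ) hq.out
  exact exists_sep_fin_chart hA hqM (A.inertiaSubgroupIn ℚ) (irreducible_ell hA)
    (Fermat.Agent.S36.ChartsX0.transcendental_x1' (A.inertiaSubgroupIn ℚ) hq.out)
    (hvert_fin hA hqM Y hV1 hV2 hO0)
    (Fermat.Agent.S36.LiftK0.ratPi_surjective_inertia hA) hS hbS hb hbP

set_option maxHeartbeats 1600000 in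
/-- **(SEP), chart `x₁ ≠ 0` (cusps included), at `X₀`** -/
theorem exists_sep_inf_X0 [NeZero (M * q * q)]
    (hV1 : Y.V₁ = V1K (A.inertiaSubgroupIn ℚ) hA hqM)
    (hV2 : Y.V₂ = V2K (A.inertiaSubgroupIn ℚ) hA hqM) (hO0 : Y.O₀ = Og0 M hA hqM)
    {S : Finset (Place (ResidueField ↥A) ↥(modularFunctionFieldFullC (ResidueField ↥A) M))}
    (hS : ∀ b ∈ S, b ∉ P0 (ResidueField ↥A) M) (hbS : Desc hA hqM S)
    {b : Place (ResidueField ↥A) ↥(modularFunctionFieldFullC (ResidueField ↥A) M)}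
    (hb : b ∉ S) (hbJ : b.ord (jk (ResidueField ↥A) M) ≤ 0) :
    ∃ (g₁ : FK0 A (M * q))
      (_ : g₁ ∈ chartX0 A (M * q) (xK (M := M) (q := q) (A.inertiaSubgroupIn ℚ))⁻¹)
      (h₁ : g₁ ∈ V1K (A.inertiaSubgroupIn ℚ) hA hqM)
      (h₂ : g₁ ∈ V2K (A.inertiaSubgroupIn ℚ) hA hqM),
      red1K (A.inertiaSubgroupIn ℚ) hA hqM ⟨g₁, h₁⟩ = 0 ∧
        ¬ HasValue b (red2K (A.inertiaSubgroupIn ℚ) hA hqM ⟨g₁, h₂⟩) 0 := by
  haveI := isDVR hA
  letI a0 : Algebra ↥(W A) ↥(IntermediateField.fixedField (A.inertiaSubgroupIn ℚ)) :=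
    (inferInstance : Algebra ↥(W A) ↥(K0 A))
  haveI f0 : IsFractionRing ↥(W A) ↥(IntermediateField.fixedField (A.inertiaSubgroupIn ℚ)) :=
    isFractionRing_W_K0 A
  letI a1 : Algebra ↥(W A) (FK (A.inertiaSubgroupIn ℚ) (M * q)) := algebraW A (M * q)
  haveI t1 : IsScalarTower ↥(W A) ↥(IntermediateField.fixedField (A.inertiaSubgroupIn ℚ))
      (FK (A.inertiaSubgroupIn ℚ) (M * q)) := isScalarTowerW A (M * q)
  haveI fd : FiniteDimensional
      (↥(IntermediateField.fixedField (A.inertiaSubgroupIn ℚ)))⟮(xK (M := M) (q := q)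
        (A.inertiaSubgroupIn ℚ))⁻¹⟯ (FK (A.inertiaSubgroupIn ℚ) (M * q)) :=
    Fermat.Agent.S36.ChartsX0.finiteDimensional_x1_inv' (A.inertiaSubgroupIn ℚ) hq.out
  exact exists_sep_inf_chart hA hqM (A.inertiaSubgroupIn ℚ) (irreducible_ell hA)
    (Fermat.Agent.S36.ChartsX0.transcendental_inv'
      (Fermat.Agent.S36.ChartsX0.transcendental_x1' (A.inertiaSubgroupIn ℚ) hq.out))
    (hvert_inf hA hqM Y hV1 hV2 hO0)
    (Fermat.Agent.S36.LiftK0.ratPi_surjective_inertia hA) hS hbS hb hbJ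

set_option maxHeartbeats 1600000 in
/-- **the hypothesis `h` of `SpecDictOne.sep_of_values` at `X₀`, chart `x = J`** -/
theorem sep_values_fin_X0 [NeZero (M * q * q)]
    (hV1 : Y.V₁ = V1K (A.inertiaSubgroupIn ℚ) hA hqM)
    (hV2 : Y.V₂ = V2K (A.inertiaSubgroupIn ℚ) hA hqM) (hO0 : Y.O₀ = Og0 M hA hqM)
    {S : Finset (Place (ResidueField ↥A) ↥(modularFunctionFieldFullC (ResidueField ↥A) M))}
    (hS : ∀ b ∈ S, b ∉ P0 (ResidueField ↥A) M) (hbS : Desc hA hqM S)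
    {A₁ : Type*} (red1 red2 : A₁ → chart (ResidueField ↥A) (jk (ResidueField ↥A) M))
    (hlift : ∀ g ∈ chartX0 A (M * q) (xK (M := M) (q := q) (A.inertiaSubgroupIn ℚ)),
      ∀ (h₁ : g ∈ V1K (A.inertiaSubgroupIn ℚ) hA hqM)
        (h₂ : g ∈ V2K (A.inertiaSubgroupIn ℚ) hA hqM), ∃ a : A₁,
        ((red1 a : chart (ResidueField ↥A) (jk (ResidueField ↥A) M)) :
          ↥(modularFunctionFieldFullC (ResidueField ↥A) M)) =
            red1K (A.inertiaSubgroupIn ℚ) hA hqM ⟨g, h₁⟩ ∧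
        ((red2 a : chart (ResidueField ↥A) (jk (ResidueField ↥A) M)) :
          ↥(modularFunctionFieldFullC (ResidueField ↥A) M)) =
            red2K (A.inertiaSubgroupIn ℚ) hA hqM ⟨g, h₂⟩) :
    ∀ v : Place (ResidueField ↥A) ↥(modularFunctionFieldFullC (ResidueField ↥A) M),
      (jk (ResidueField ↥A) M) ∈ v.toValuationSubring →
      v ∉ (S : Set (Place (ResidueField ↥A) ↥(modularFunctionFieldFullC (ResidueField ↥A) M))) →
      ∃ g : A₁,
        HasValue (Fr (ResidueField ↥A) M q v)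
          ((red1 g : chart (ResidueField ↥A) (jk (ResidueField ↥A) M)) :
            ↥(modularFunctionFieldFullC (ResidueField ↥A) M)) 0 ∧
        ¬ HasValue v ((red2 g : chart (ResidueField ↥A) (jk (ResidueField ↥A) M)) :
            ↥(modularFunctionFieldFullC (ResidueField ↥A) M)) 0 := by
  haveI := isDVR hA
  letI a0 : Algebra ↥(W A) ↥(IntermediateField.fixedField (A.inertiaSubgroupIn ℚ)) :=
    (inferInstance : Algebra ↥(W A) ↥(K0 A))
  haveI f0 : IsFractionRing ↥(W A) ↥(IntermediateField.fixedField (A.inertiaSubgroupIn ℚ)) :=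
    isFractionRing_W_K0 A
  letI a1 : Algebra ↥(W A) (FK (A.inertiaSubgroupIn ℚ) (M * q)) := algebraW A (M * q)
  haveI t1 : IsScalarTower ↥(W A) ↥(IntermediateField.fixedField (A.inertiaSubgroupIn ℚ))
      (FK (A.inertiaSubgroupIn ℚ) (M * q)) := isScalarTowerW A (M * q)
  haveI fd : FiniteDimensional
      (↥(IntermediateField.fixedField (A.inertiaSubgroupIn ℚ)))⟮xK (M := M) (q := q)
        (A.inertiaSubgroupIn ℚ)⟯ (FK (A.inertiaSubgroupIn ℚ) (M * q)) :=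
    Fermat.Agent.S36.ChartsX0.finiteDimensional_x1' (A.inertiaSubgroupIn ℚ) hq.out
  exact sep_values_fin hA hqM (A.inertiaSubgroupIn ℚ) (irreducible_ell hA)
    (Fermat.Agent.S36.ChartsX0.transcendental_x1' (A.inertiaSubgroupIn ℚ) hq.out)
    (hvert_fin hA hqM Y hV1 hV2 hO0)
    (Fermat.Agent.S36.LiftK0.ratPi_surjective_inertia hA) hS hbS red1 red2 hlift

set_option maxHeartbeats 1600000 in
/-- **the hypothesis `h` of `SpecDictOne.sep_of_values` at `X₀`, chart `x = J⁻¹`** -/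
theorem sep_values_inf_X0 [NeZero (M * q * q)]
    (hV1 : Y.V₁ = V1K (A.inertiaSubgroupIn ℚ) hA hqM)
    (hV2 : Y.V₂ = V2K (A.inertiaSubgroupIn ℚ) hA hqM) (hO0 : Y.O₀ = Og0 M hA hqM)
    {S : Finset (Place (ResidueField ↥A) ↥(modularFunctionFieldFullC (ResidueField ↥A) M))}
    (hS : ∀ b ∈ S, b ∉ P0 (ResidueField ↥A) M) (hbS : Desc hA hqM S)
    {A₁ : Type*} (red1 red2 : A₁ → chart (ResidueField ↥A) (jk (ResidueField ↥A) M)⁻¹)
    (hlift : ∀ g ∈ chartX0 A (M * q) (xK (M := M) (q := q) (A.inertiaSubgroupIn ℚ))⁻¹,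
      ∀ (h₁ : g ∈ V1K (A.inertiaSubgroupIn ℚ) hA hqM)
        (h₂ : g ∈ V2K (A.inertiaSubgroupIn ℚ) hA hqM), ∃ a : A₁,
        ((red1 a : chart (ResidueField ↥A) (jk (ResidueField ↥A) M)⁻¹) :
          ↥(modularFunctionFieldFullC (ResidueField ↥A) M)) =
            red1K (A.inertiaSubgroupIn ℚ) hA hqM ⟨g, h₁⟩ ∧
        ((red2 a : chart (ResidueField ↥A) (jk (ResidueField ↥A) M)⁻¹) :
          ↥(modularFunctionFieldFullC (ResidueField ↥A) M)) =
            red2K (A.inertiaSubgroupIn ℚ) hA hqM ⟨g, h₂⟩) :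
    ∀ v : Place (ResidueField ↥A) ↥(modularFunctionFieldFullC (ResidueField ↥A) M),
      (jk (ResidueField ↥A) M)⁻¹ ∈ v.toValuationSubring →
      v ∉ (S : Set (Place (ResidueField ↥A) ↥(modularFunctionFieldFullC (ResidueField ↥A) M))) →
      ∃ g : A₁,
        HasValue (Fr (ResidueField ↥A) M q v)
          ((red1 g : chart (ResidueField ↥A) (jk (ResidueField ↥A) M)⁻¹) :
            ↥(modularFunctionFieldFullC (ResidueField ↥A) M)) 0 ∧
        ¬ HasValue v ((red2 g : chart (ResidueField ↥A) (jk (ResidueField ↥A) M)⁻¹) :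
            ↥(modularFunctionFieldFullC (ResidueField ↥A) M)) 0 := by
  haveI := isDVR hA
  letI a0 : Algebra ↥(W A) ↥(IntermediateField.fixedField (A.inertiaSubgroupIn ℚ)) :=
    (inferInstance : Algebra ↥(W A) ↥(K0 A))
  haveI f0 : IsFractionRing ↥(W A) ↥(IntermediateField.fixedField (A.inertiaSubgroupIn ℚ)) :=
    isFractionRing_W_K0 A
  letI a1 : Algebra ↥(W A) (FK (A.inertiaSubgroupIn ℚ) (M * q)) := algebraW A (M * q)
  haveI t1 : IsScalarTower ↥(W A) ↥(IntermediateField.fixedField (A.inertiaSubgroupIn ℚ))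
      (FK (A.inertiaSubgroupIn ℚ) (M * q)) := isScalarTowerW A (M * q)
  haveI fd : FiniteDimensional
      (↥(IntermediateField.fixedField (A.inertiaSubgroupIn ℚ)))⟮(xK (M := M) (q := q)
        (A.inertiaSubgroupIn ℚ))⁻¹⟯ (FK (A.inertiaSubgroupIn ℚ) (M * q)) :=
    Fermat.Agent.S36.ChartsX0.finiteDimensional_x1_inv' (A.inertiaSubgroupIn ℚ) hq.out
  exact sep_values_inf hA hqM (A.inertiaSubgroupIn ℚ) (irreducible_ell hA)
    (Fermat.Agent.S36.ChartsX0.transcendental_inv'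
      (Fermat.Agent.S36.ChartsX0.transcendental_x1' (A.inertiaSubgroupIn ℚ) hq.out))
    (hvert_inf hA hqM Y hV1 hV2 hO0)
    (Fermat.Agent.S36.LiftK0.ratPi_surjective_inertia hA) hS hbS red1 red2 hlift

open Fermat.Agent.S36.SpecDictOne in
set_option maxHeartbeats 1600000 in
/-- **`hsep` of `NodeField.node_iff` at `X₀`, chart `x = J`** -/
theorem hsep_fin_X0 [NeZero (M * q * q)] [PerfectField (ResidueField ↥A)]
    (hV1 : Y.V₁ = V1K (A.inertiaSubgroupIn ℚ) hA hqM)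
    (hV2 : Y.V₂ = V2K (A.inertiaSubgroupIn ℚ) hA hqM) (hO0 : Y.O₀ = Og0 M hA hqM)
    {S : Finset (Place (ResidueField ↥A) ↥(modularFunctionFieldFullC (ResidueField ↥A) M))}
    (hS : ∀ b ∈ S, b ∉ P0 (ResidueField ↥A) M) (hbS : Desc hA hqM S)
    {A₁ : Type*} (red1 red2 : A₁ → chart (ResidueField ↥A) (jk (ResidueField ↥A) M))
    (hlift : ∀ g ∈ chartX0 A (M * q) (xK (M := M) (q := q) (A.inertiaSubgroupIn ℚ)),
      ∀ (h₁ : g ∈ V1K (A.inertiaSubgroupIn ℚ) hA hqM)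
        (h₂ : g ∈ V2K (A.inertiaSubgroupIn ℚ) hA hqM), ∃ a : A₁,
        ((red1 a : chart (ResidueField ↥A) (jk (ResidueField ↥A) M)) :
          ↥(modularFunctionFieldFullC (ResidueField ↥A) M)) =
            red1K (A.inertiaSubgroupIn ℚ) hA hqM ⟨g, h₁⟩ ∧
        ((red2 a : chart (ResidueField ↥A) (jk (ResidueField ↥A) M)) :
          ↥(modularFunctionFieldFullC (ResidueField ↥A) M)) =
            red2K (A.inertiaSubgroupIn ℚ) hA hqM ⟨g, h₂⟩) :
    ∀ n : Ideal (chart (ResidueField ↥A) (jk (ResidueField ↥A) M)), n.IsMaximal →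
      n ∉ nodeSet (ResidueField ↥A) M (x := jk (ResidueField ↥A) M)
        (S : Set (Place (ResidueField ↥A) ↥(modularFunctionFieldFullC (ResidueField ↥A) M))) →
      ∃ g : A₁, red1 g ∈ n.comap (phiB (ResidueField ↥A) M q (phi_jk (ResidueField ↥A) M q)
          (Fermat.Agent.S18.B.FkBasics.isFF (ResidueField ↥A) M)
          (Fermat.Agent.S18.B.SeparableFk.isSeparable_jk (ResidueField ↥A) M)) ∧ red2 g ∉ n := by
  haveI := isDVR hA
  letI a0 : Algebra ↥(W A) ↥(IntermediateField.fixedField (A.inertiaSubgroupIn ℚ)) :=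
    (inferInstance : Algebra ↥(W A) ↥(K0 A))
  haveI f0 : IsFractionRing ↥(W A) ↥(IntermediateField.fixedField (A.inertiaSubgroupIn ℚ)) :=
    isFractionRing_W_K0 A
  letI a1 : Algebra ↥(W A) (FK (A.inertiaSubgroupIn ℚ) (M * q)) := algebraW A (M * q)
  haveI t1 : IsScalarTower ↥(W A) ↥(IntermediateField.fixedField (A.inertiaSubgroupIn ℚ))
      (FK (A.inertiaSubgroupIn ℚ) (M * q)) := isScalarTowerW A (M * q)
  haveI fd : FiniteDimensional
      (↥(IntermediateField.fixedField (A.inertiaSubgroupIn ℚ)))⟮xK (M := M) (q := q)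
        (A.inertiaSubgroupIn ℚ)⟯ (FK (A.inertiaSubgroupIn ℚ) (M * q)) :=
    Fermat.Agent.S36.ChartsX0.finiteDimensional_x1' (A.inertiaSubgroupIn ℚ) hq.out
  exact hsep_fin hA hqM (A.inertiaSubgroupIn ℚ) (irreducible_ell hA)
    (Fermat.Agent.S36.ChartsX0.transcendental_x1' (A.inertiaSubgroupIn ℚ) hq.out)
    (hvert_fin hA hqM Y hV1 hV2 hO0)
    (Fermat.Agent.S36.LiftK0.ratPi_surjective_inertia hA) hS hbS red1 red2 hlift

open Fermat.Agent.S36.SpecDictOne in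
set_option maxHeartbeats 1600000 in
/-- **`hsep` of `NodeField.node_iff` at `X₀`, chart `x = J⁻¹`** -/
theorem hsep_inf_X0 [NeZero (M * q * q)] [PerfectField (ResidueField ↥A)]
    (hV1 : Y.V₁ = V1K (A.inertiaSubgroupIn ℚ) hA hqM)
    (hV2 : Y.V₂ = V2K (A.inertiaSubgroupIn ℚ) hA hqM) (hO0 : Y.O₀ = Og0 M hA hqM)
    {S : Finset (Place (ResidueField ↥A) ↥(modularFunctionFieldFullC (ResidueField ↥A) M))}
    (hS : ∀ b ∈ S, b ∉ P0 (ResidueField ↥A) M) (hbS : Desc hA hqM S)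
    {A₁ : Type*} (red1 red2 : A₁ → chart (ResidueField ↥A) (jk (ResidueField ↥A) M)⁻¹)
    (hlift : ∀ g ∈ chartX0 A (M * q) (xK (M := M) (q := q) (A.inertiaSubgroupIn ℚ))⁻¹,
      ∀ (h₁ : g ∈ V1K (A.inertiaSubgroupIn ℚ) hA hqM)
        (h₂ : g ∈ V2K (A.inertiaSubgroupIn ℚ) hA hqM), ∃ a : A₁,
        ((red1 a : chart (ResidueField ↥A) (jk (ResidueField ↥A) M)⁻¹) :
          ↥(modularFunctionFieldFullC (ResidueField ↥A) M)) =
            red1K (A.inertiaSubgroupIn ℚ) hA hqM ⟨g, h₁⟩ ∧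
        ((red2 a : chart (ResidueField ↥A) (jk (ResidueField ↥A) M)⁻¹) :
          ↥(modularFunctionFieldFullC (ResidueField ↥A) M)) =
            red2K (A.inertiaSubgroupIn ℚ) hA hqM ⟨g, h₂⟩) :
    ∀ n : Ideal (chart (ResidueField ↥A) (jk (ResidueField ↥A) M)⁻¹), n.IsMaximal →
      n ∉ nodeSet (ResidueField ↥A) M (x := (jk (ResidueField ↥A) M)⁻¹)
        (S : Set (Place (ResidueField ↥A) ↥(modularFunctionFieldFullC (ResidueField ↥A) M))) →
      ∃ g : A₁, red1 g ∈ n.comap (phiB (ResidueField ↥A) M q (phi_jk_inv (ResidueField ↥A) M q)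
          (isFF_jk_inv (ResidueField ↥A) M) (isSeparable_jk_inv (ResidueField ↥A) M)) ∧
        red2 g ∉ n := by
  haveI := isDVR hA
  letI a0 : Algebra ↥(W A) ↥(IntermediateField.fixedField (A.inertiaSubgroupIn ℚ)) :=
    (inferInstance : Algebra ↥(W A) ↥(K0 A))
  haveI f0 : IsFractionRing ↥(W A) ↥(IntermediateField.fixedField (A.inertiaSubgroupIn ℚ)) :=
    isFractionRing_W_K0 A
  letI a1 : Algebra ↥(W A) (FK (A.inertiaSubgroupIn ℚ) (M * q)) := algebraW A (M * q)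
  haveI t1 : IsScalarTower ↥(W A) ↥(IntermediateField.fixedField (A.inertiaSubgroupIn ℚ))
      (FK (A.inertiaSubgroupIn ℚ) (M * q)) := isScalarTowerW A (M * q)
  haveI fd : FiniteDimensional
      (↥(IntermediateField.fixedField (A.inertiaSubgroupIn ℚ)))⟮(xK (M := M) (q := q)
        (A.inertiaSubgroupIn ℚ))⁻¹⟯ (FK (A.inertiaSubgroupIn ℚ) (M * q)) :=
    Fermat.Agent.S36.ChartsX0.finiteDimensional_x1_inv' (A.inertiaSubgroupIn ℚ) hq.out
  exact hsep_inf hA hqM (A.inertiaSubgroupIn ℚ) (irreducible_ell hA)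
    (Fermat.Agent.S36.ChartsX0.transcendental_inv'
      (Fermat.Agent.S36.ChartsX0.transcendental_x1' (A.inertiaSubgroupIn ℚ) hq.out))
    (hvert_inf hA hqM Y hV1 hV2 hO0)
    (Fermat.Agent.S36.LiftK0.ratPi_surjective_inertia hA) hS hbS red1 red2 hlift

end Fermat.Agent.S36.PairLiftX0
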