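/-
PROJECT V (S36), slice V-ThreeValX0Inst, part 2 (helper11): **the links of the actual `Y`**
(`ThreeValX0Inst.hypX0`) with the hypotheses-first `X₀` files:

* `glueLink : GlueNormX0.Link I hA hqM (hypX0 hA hqM)` (helper8; all five fields `rfl`);
* `compLink (H : Deuring.Core.Hyp (gaussDatum M A hA hqM) gL gk) :
    CompNormalX0Base.Link hA hqM gL gk (hypX0 hA hqM)` (helper26/helper25; (U0) discharged by
  `S36/GaussUniqX0` through `VertX0Final.link`);
* `hU0_hypX0` : (U0) in helper24's shape for `(hypX0 hA hqM).O₀`.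
-/
import Mathlib
import Fermat.Agent.S36.ThreeValX0Inst
import Fermat.Agent.S36.GlueNormX0
import Fermat.Agent.S36.VertX0Final

set_option autoImplicit false
set_option linter.unusedSectionVars false
set_option linter.style.haveILetI false
set_option synthInstance.maxHeartbeats 400000
set_option maxHeartbeats 1000000

noncomputable section

namespace Fermat.Agent.S36.ThreeValX0InstLinks

open Polynomial ModularCurve AlgebraicCurve IsLocalRing
open Fermat.Agent.S18.C.SmallDVR
open Fermat.Agent.S36.PowerBasisK0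
open Fermat.Agent.S36.ThreeValX0 Fermat.Agent.S36.ThreeValX0Inst
open Fermat.Agent.S36.ChartX0 Fermat.Agent.S36.ChartVert

local notation "Kb" => AlgebraicClosure ℚ

variable {q : ℕ} [hq : Fact q.Prime] {M : ℕ} [NeZero M] {A : ValuationSubring Kb}
variable (hA : A.LiesOverPrime q) (hqM : ¬ q ∣ M) [NeZero q] [NeZero (M * q)]

local notation "Iq" => A.inertiaSubgroupIn ℚ

/-- helper8's link: the level-`q` objects of `hypX0` are those of project U restricted to `K0` -/
theorem glueLink [CharP (ResidueField ↥A) q] :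
    Fermat.Agent.S36.GlueNormX0.Link Iq hA hqM (hypX0 hA hqM) :=
  ⟨rfl, rfl, fun _ _ _ => rfl, fun _ _ _ => rfl, rfl⟩

/-- helper26's link, with (U0) discharged: only Deuring's `Hyp` is left -/
theorem compLink {gL gk : ℕ}
    (H : Fermat.Agent.S37.Deuring.Core.Hyp
      (Fermat.Agent.S37.Gauss.Datum.gaussDatum M A hA hqM) gL gk) :
    Fermat.Agent.S36.CompNormalX0Base.Link hA hqM gL gk (hypX0 hA hqM) :=
  Fermat.Agent.S36.VertX0Final.link hA hqM (hypX0 hA hqM) (hypX0_O₀ hA hqM)
    (hypX0_red₀ hA hqM) H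

/-- (U0) for `(hypX0 hA hqM).O₀`, helper24's shape -/
theorem hU0_hypX0 :
    ∀ V₀ : ValuationSubring (FK Iq M),
      @IsGaussVert ↥(W A) _ (FK Iq M) _ (algebraW A M)
        ((q : ℕ) : ↥(W A)) (j0K Iq M) V₀ → V₀ = (hypX0 hA hqM).O₀ :=
  Fermat.Agent.S36.VertX0Final.hU0_Y hA hqM (hypX0 hA hqM) (hypX0_O₀ hA hqM)

end Fermat.Agent.S36.ThreeValX0InstLinks
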