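/-
PROJECT V (S36), slice V-BranchFinX0 (helper27; rulings #2730 (2), #2760 (d)), chain (V9) at `X₀`:
**THE ACTUAL `BranchCoreT.TDatum` ON THE FIN CHART `{x₂ ≠ ∞}`, NO HYPOTHESIS LEFT** but `Y`, the
links of `Y` with project U, and the node set.

helper1's `BranchX0.ChartPair.finTDatumOf` (S36/BranchX0G) builds the `TDatum` on
`chart O x₁ → chart O x₂ ⇉ chart k Jc` from the hypotheses

  `hφB hφpow S node S_fr fr_fr hrad`.

Here they are DISCHARGED at `O = W A`, `k = ResidueField A`, `Jc = jk k M`, `S = nodeSet k M ↑S₀`: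

* `pairFin` : the pair of charts with the coordinate `jk k M` (`(finPair hB).cast LQ.J_eq_jk`);
* `hφB`, `hφpow`, `φB_eq` : Frobenius stability of `chart k (jk k M)`; `ChartPair.φB = SpecDictOne.phiB`
  (helper14's `φfin`);
* `S_fr`, `fr_fr` : `SpecDictOne.nodeSet_fr`, `nodeSet_fr_fr`;
* `hglue` (helper14 `PairGlueChart.hglue_fin`), `hsep` (helper23 `PairLiftX0.hsep_fin_X0`),
  `node` (helper1 `ChartPair.node_fin`);
* `hrad` : helper12 `BranchX0Rad.hrad_fin_W`;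
* **`finTDatumX0 hA hqM hB LQ hO₀ hS hbS hFr hFr2`** : the `TDatum`, for a VARIABLE `Y` with
  `hB : CompNormalX0.Base Y (W A) π`, `LQ : BranchNodeX0.LinkQ hA hqM I Y` (= the five equations of
  `GlueNormX0.Link`), `hO₀ : Y.O₀ = Og0 M hA hqM`, and a finite set `S₀` of places of `κ` off the
  cusps, `Fr`-stable, `Fr² = id`, with `NodesDesc.Desc`;
  link facts: `finTDatumX0_S` (`rfl`), `coe_finTDatumX0_ϖ`, `le_W`, `coe_finTDatumX0_r20 / r11 / r02`
  (`rfl`), `coe_finTDatumX0_red1 / red2 / φ`;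
* `finTDatumOfLinks` : the same from `L : CompNormalX0Base.Link ..` and `lk : GlueNormX0.Link ..`;
* at the ACTUAL objects (`Y = ThreeValX0Inst.hypX0 hA hqM`, `X = LeafXInst.datumY hA hqM HM`,
  `S₀ = (LeafX.nodesD hA hqM HM).S`): **`finTDatumY hA hqM HM`** and **`exists_tdatum_fin`** : the
  package (P1) of `NewInertiaFinal` on the fin chart in the (P-subring) convention
  (`𝒜 = (chart (W A) x₂).toSubring`, `ℬ = (chart k (jk k M)).toSubring`):
  `∃ D : TDatum A₁ 𝒜 ℬ, hle ∧ hcompat ∧ hdict ∧ hconv ∧ hne` in the literal shapes of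
  `BranchPt.pt_of_tdatum'` / `LeafT0.t0_fields`, plus `(D.ϖ : F₂) = q` and `D.S = nodeSet ..`.
-/
import Mathlib
import Fermat.Agent.S36.BranchX0Node
import Fermat.Agent.S36.BranchX0Rad
import Fermat.Agent.S36.BranchNodeX0
import Fermat.Agent.S36.PairLiftX0
import Fermat.Agent.S36.GlueNormX0
import Fermat.Agent.S36.CompNormalX0Base
import Fermat.Agent.S36.BranchLinksX0
import Fermat.Agent.S36.ThreeValX0InstLinks
import Fermat.Agent.S36.LeafXInst

set_option autoImplicit false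
set_option linter.unusedSectionVars false
set_option linter.style.haveILetI false
set_option linter.unusedVariables false
set_option synthInstance.maxHeartbeats 400000

noncomputable section

namespace Fermat.Agent.S36.BranchFinX0

open ModularCurve AlgebraicCurve IsLocalRing IntermediateField Polynomial
open Fermat.Agent.S18.B.FkBasics (jk)
open Fermat.Agent.S18.C.SmallDVR
open Fermat.Agent.S34.EulerX0 Fermat.Agent.S34.EulerClosedX0
open Fermat.Agent.S34.FrobK Fermat.Agent.S34.Euler.Value Fermat.Agent.S34.Euler.FrobSide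
open Fermat.Agent.S36.NodesDesc Fermat.Agent.S36.PairLiftK0 Fermat.Agent.S36.PowerBasisK0
open Fermat.Agent.S36.ThetaK0 Fermat.Agent.S36.ChartRing Fermat.Agent.S36.CompNormal
open Fermat.Agent.S36.SpecDictOne Fermat.Agent.S36.CompNormalX0
open Fermat.Agent.S36.ChartX0 Fermat.Agent.S36.GaussK0Comap
open Fermat.Agent.S36.BranchCoreT Fermat.Agent.S36.BranchX0 Fermat.Agent.S36.BranchNodeX0

local notation "Kb" => AlgebraicClosure ℚ
local notation "GQ" => (AlgebraicClosure ℚ ≃ₐ[ℚ] AlgebraicClosure ℚ)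

attribute [local instance 2000] Fermat.Agent.S34.EulerX0.algResFk

local instance instACkBF (A : ValuationSubring Kb) : IsAlgClosed (ResidueField ↥A) :=
  Fermat.Agent.S18.ResidueBasics.isAlgClosed_residueField A

local instance instNeZeroMulBF (M q : ℕ) [NeZero M] [NeZero q] : NeZero (M * q) :=
  ⟨Nat.mul_ne_zero (NeZero.ne M) (NeZero.ne q)⟩

variable {q : ℕ} [hq : Fact q.Prime] [NeZero q] {M : ℕ} [NeZero M]
variable {A : ValuationSubring Kb} (hA : A.LiesOverPrime q) (hqM : ¬ q ∣ M)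
variable [CharP (ResidueField ↥A) q] [PerfectField (ResidueField ↥A)]

/-- the instances of `ChartX0` in the `fixedField I` / `FK I N` spelling (local to this file) -/
local instance instAlgWFKBF (N : ℕ) : Algebra ↥(W A) (FK (A.inertiaSubgroupIn ℚ) N) := algebraW A N

local instance instAlgWKBF :
    Algebra ↥(W A) ↥(IntermediateField.fixedField (A.inertiaSubgroupIn ℚ)) :=
  (inferInstance : Algebra ↥(W A) ↥(K0 A))

local instance instFracWKBF :
    IsFractionRing ↥(W A) ↥(IntermediateField.fixedField (A.inertiaSubgroupIn ℚ)) :=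
  isFractionRing_W_K0 A

local instance instTowerWBF (N : ℕ) : IsScalarTower ↥(W A)
    ↥(IntermediateField.fixedField (A.inertiaSubgroupIn ℚ)) (FK (A.inertiaSubgroupIn ℚ) N) :=
  isScalarTowerW A N

/-! ### Part 1: a variable `Y` with its links -/

section Variable

variable {Y : ThreeValX0.Hyp (A.inertiaSubgroupIn ℚ) M q
  ↥(modularFunctionFieldFullC (ResidueField ↥A) M)}
variable {π : ↥(W A) →+* ResidueField ↥A}

/-- the pair of the finite charts, with the coordinate `jk k M` of the component -/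
theorem pairFin (hB : Base Y ↥(W A) π) (LQ : LinkQ hA hqM (A.inertiaSubgroupIn ℚ) Y) :
    ChartPair hB (BranchX0.x1 (A.inertiaSubgroupIn ℚ) M q) (x2 (A.inertiaSubgroupIn ℚ) M q)
      (jk (ResidueField ↥A) M) :=
  (finPair hB).cast LQ.J_eq_jk

/-- Frobenius stability of the chart of the component (`hφB` of `finTDatumOf`) -/
theorem hφB (LQ : LinkQ hA hqM (A.inertiaSubgroupIn ℚ) Y) :
    ∀ z ∈ chart (ResidueField ↥A) (jk (ResidueField ↥A) M),
      Y.φ z ∈ chart (ResidueField ↥A) (jk (ResidueField ↥A) M) := by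
  intro z hz
  rw [← coe_φfin LQ ⟨z, hz⟩]
  exact (φfin A M q ⟨z, hz⟩).2

/-- `hφpow` of `finTDatumOf` -/
theorem hφpow (LQ : LinkQ hA hqM (A.inertiaSubgroupIn ℚ) Y) :
    ∀ z ∈ chart (ResidueField ↥A) (jk (ResidueField ↥A) M),
      ∃ c ∈ chart (ResidueField ↥A) (jk (ResidueField ↥A) M), Y.φ c = z ^ q := by
  intro z hz
  obtain ⟨c, hc⟩ := phiB_pow (ResidueField ↥A) M q (phi_jk (ResidueField ↥A) M q)
    (Fermat.Agent.S18.B.FkBasics.isFF (ResidueField ↥A) M)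
    (Fermat.Agent.S18.B.SeparableFk.isSeparable_jk (ResidueField ↥A) M) ⟨z, hz⟩
  refine ⟨(c : ↥(modularFunctionFieldFullC (ResidueField ↥A) M)), c.2, ?_⟩
  rw [← coe_φfin LQ c]
  exact congrArg Subtype.val hc

/-- helper1's restriction of `Y.φ` is helper14's `SpecDictOne.phiB` -/
theorem φB_eq (LQ : LinkQ hA hqM (A.inertiaSubgroupIn ℚ) Y) :
    ChartPair.φB (hφB hA hqM LQ) = φfin A M q :=
  RingHom.ext fun z => Subtype.ext (coe_φfin LQ z).symm

variable {S : Finset (Place (ResidueField ↥A) ↥(modularFunctionFieldFullC (ResidueField ↥A) M))}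

/-- `S_fr` of `finTDatumOf` -/
theorem S_fr (LQ : LinkQ hA hqM (A.inertiaSubgroupIn ℚ) Y)
    (hFr : ∀ b ∈ S, Fr (ResidueField ↥A) M q b ∈ S) :
    ∀ n ∈ nodeSet (ResidueField ↥A) M (x := jk (ResidueField ↥A) M)
        (S : Set (Place (ResidueField ↥A) ↥(modularFunctionFieldFullC (ResidueField ↥A) M))),
      n.comap (ChartPair.φB (hφB hA hqM LQ)) ∈ nodeSet (ResidueField ↥A) M
        (x := jk (ResidueField ↥A) M)
        (S : Set (Place (ResidueField ↥A) ↥(modularFunctionFieldFullC (ResidueField ↥A) M))) := by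
  rw [φB_eq hA hqM LQ]
  exact nodeSet_fr (ResidueField ↥A) M q _ _ _ _ (fun v hv => Finset.mem_coe.mpr (hFr v hv))

/-- `fr_fr` of `finTDatumOf` -/
theorem fr_fr (LQ : LinkQ hA hqM (A.inertiaSubgroupIn ℚ) Y)
    (hFr2 : ∀ b ∈ S, Fr (ResidueField ↥A) M q (Fr (ResidueField ↥A) M q b) = b) :
    ∀ n ∈ nodeSet (ResidueField ↥A) M (x := jk (ResidueField ↥A) M)
        (S : Set (Place (ResidueField ↥A) ↥(modularFunctionFieldFullC (ResidueField ↥A) M))),
      (n.comap (ChartPair.φB (hφB hA hqM LQ))).comap (ChartPair.φB (hφB hA hqM LQ)) = n := by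
  rw [φB_eq hA hqM LQ]
  exact nodeSet_fr_fr (ResidueField ↥A) M q _ _ _ _ (fun v hv => hFr2 v hv)

/-- (GLUE) for the reductions of helper1's pair: helper14's `PairGlueChart.hglue_fin` -/
theorem hglue (hB : Base Y ↥(W A) π) (LQ : LinkQ hA hqM (A.inertiaSubgroupIn ℚ) Y)
    (hbS : Desc hA hqM S) :
    ∀ n ∈ nodeSet (ResidueField ↥A) M (x := jk (ResidueField ↥A) M)
        (S : Set (Place (ResidueField ↥A) ↥(modularFunctionFieldFullC (ResidueField ↥A) M))),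
      ∀ g : ↥(chart ↥(W A) (BranchX0.x1 (A.inertiaSubgroupIn ℚ) M q)),
        (pairFin hA hqM hB LQ).red1 g ∈ n.comap (ChartPair.φB (hφB hA hqM LQ)) ↔
          (pairFin hA hqM hB LQ).red2 g ∈ n := by
  rw [φB_eq hA hqM LQ]
  exact PairGlueChart.hglue_fin hA hqM (A.inertiaSubgroupIn ℚ) hbS
    (fun a => (pairFin hA hqM hB LQ).red1 a) (fun a => (pairFin hA hqM hB LQ).red2 a)
    (fun a => ⟨(a : FK (A.inertiaSubgroupIn ℚ) (M * q)), mem_chart_xK a.2,
      LQ.mem_V1K ((pairFin hA hqM hB LQ).mem_V₁ a), LQ.mem_V2K ((pairFin hA hqM hB LQ).mem_V₂ a),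
      LQ.red₁_eq ((pairFin hA hqM hB LQ).mem_V₁ a), LQ.red₂_eq ((pairFin hA hqM hB LQ).mem_V₂ a)⟩)

/-- (SEP) for the reductions of helper1's pair: helper23's `PairLiftX0.hsep_fin_X0` -/
theorem hsep (hB : Base Y ↥(W A) π) (LQ : LinkQ hA hqM (A.inertiaSubgroupIn ℚ) Y)
    (hO₀ : Y.O₀ = Og0 M hA hqM) (hS : ∀ b ∈ S, b ∉ P0 (ResidueField ↥A) M)
    (hbS : Desc hA hqM S) :
    ∀ n : Ideal ↥(chart (ResidueField ↥A) (jk (ResidueField ↥A) M)), n.IsMaximal →
      n ∉ nodeSet (ResidueField ↥A) M (x := jk (ResidueField ↥A) M)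
        (S : Set (Place (ResidueField ↥A) ↥(modularFunctionFieldFullC (ResidueField ↥A) M))) →
      ∃ g : ↥(chart ↥(W A) (BranchX0.x1 (A.inertiaSubgroupIn ℚ) M q)),
        (pairFin hA hqM hB LQ).red1 g ∈ n.comap (ChartPair.φB (hφB hA hqM LQ)) ∧
          (pairFin hA hqM hB LQ).red2 g ∉ n := by
  rw [φB_eq hA hqM LQ]
  exact Fermat.Agent.S36.PairLiftX0.hsep_fin_X0 hA hqM Y LQ.hV₁ LQ.hV₂ hO₀ hS hbS
    (fun a => (pairFin hA hqM hB LQ).red1 a) (fun a => (pairFin hA hqM hB LQ).red2 a)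
    (fun g hg h₁ h₂ =>
      ⟨⟨g, mem_chart_x1 (O := ↥(W A)) (I := A.inertiaSubgroupIn ℚ) hg⟩,
        LQ.red₁_eq ((pairFin hA hqM hB LQ).mem_V₁ ⟨g, mem_chart_x1 (O := ↥(W A))
          (I := A.inertiaSubgroupIn ℚ) hg⟩),
        LQ.red₂_eq ((pairFin hA hqM hB LQ).mem_V₂ ⟨g, mem_chart_x1 (O := ↥(W A))
          (I := A.inertiaSubgroupIn ℚ) hg⟩)⟩)

/-- the field `node` of `finTDatumOf` -/
theorem node (hB : Base Y ↥(W A) π) (LQ : LinkQ hA hqM (A.inertiaSubgroupIn ℚ) Y)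
    (hO₀ : Y.O₀ = Og0 M hA hqM) (hS : ∀ b ∈ S, b ∉ P0 (ResidueField ↥A) M)
    (hbS : Desc hA hqM S)
    (n' n : Ideal ↥(chart (ResidueField ↥A) (jk (ResidueField ↥A) M)))
    (hn' : n'.IsMaximal) (hn : n.IsMaximal) :
    n'.comap (pairFin hA hqM hB LQ).red1 = n.comap (pairFin hA hqM hB LQ).red2 ↔
      n ∈ nodeSet (ResidueField ↥A) M (x := jk (ResidueField ↥A) M)
        (S : Set (Place (ResidueField ↥A) ↥(modularFunctionFieldFullC (ResidueField ↥A) M))) ∧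
      n' = n.comap (ChartPair.φB (hφB hA hqM LQ)) := by
  have hJc : Y.J ∈ chart (ResidueField ↥A) (jk (ResidueField ↥A) M) := by
    rw [LQ.J_eq_jk]
    exact self_mem_chart _
  have lift₀ : ∀ b ∈ (chart (ResidueField ↥A) (jk (ResidueField ↥A) M) :
      Set ↥(modularFunctionFieldFullC (ResidueField ↥A) M)),
      ∃ g : FK (A.inertiaSubgroupIn ℚ) M, g ∈ chart ↥(W A) (j0K (A.inertiaSubgroupIn ℚ) M) ∧
        ∃ hg : g ∈ Y.O₀, Y.red₀ ⟨g, hg⟩ = b := by
    have h := hB.hlift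
    rw [LQ.J_eq_jk] at h
    exact h
  exact (pairFin hA hqM hB LQ).node_fin hJc lift₀ (hφB hA hqM LQ) _ (hglue hA hqM hB LQ hbS)
    (hsep hA hqM hB LQ hO₀ hS hbS) n' n hn' hn

/-- **THE `TDatum` OF CHAIN (V9) ON THE FIN CHART AT `X₀`**, variable `Y` with its links -/
def finTDatumX0 (hB : Base Y ↥(W A) π) (LQ : LinkQ hA hqM (A.inertiaSubgroupIn ℚ) Y)
    (hO₀ : Y.O₀ = Og0 M hA hqM) (hS : ∀ b ∈ S, b ∉ P0 (ResidueField ↥A) M)
    (hbS : Desc hA hqM S) (hFr : ∀ b ∈ S, Fr (ResidueField ↥A) M q b ∈ S)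
    (hFr2 : ∀ b ∈ S, Fr (ResidueField ↥A) M q (Fr (ResidueField ↥A) M q b) = b) :
    TDatum ↥(chart ↥(W A) (BranchX0.x1 (A.inertiaSubgroupIn ℚ) M q))
      ↥(chart ↥(W A) (x2 (A.inertiaSubgroupIn ℚ) M q))
      ↥(chart (ResidueField ↥A) (jk (ResidueField ↥A) M)) :=
  (pairFin hA hqM hB LQ).finTDatumOf (hφB hA hqM LQ) (hφpow hA hqM LQ)
    (nodeSet (ResidueField ↥A) M (x := jk (ResidueField ↥A) M)
      (S : Set (Place (ResidueField ↥A) ↥(modularFunctionFieldFullC (ResidueField ↥A) M))))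
    (node hA hqM hB LQ hO₀ hS hbS) (S_fr hA hqM LQ hFr) (fr_fr hA hqM LQ hFr2)
    (Fermat.Agent.S36.BranchX0Rad.hrad_fin_W hA hqM Y hB hO₀)

/-! #### link facts -/

section Links

variable (hB : Base Y ↥(W A) π) (LQ : LinkQ hA hqM (A.inertiaSubgroupIn ℚ) Y)
  (hO₀ : Y.O₀ = Og0 M hA hqM) (hS : ∀ b ∈ S, b ∉ P0 (ResidueField ↥A) M)
  (hbS : Desc hA hqM S) (hFr : ∀ b ∈ S, Fr (ResidueField ↥A) M q b ∈ S)
  (hFr2 : ∀ b ∈ S, Fr (ResidueField ↥A) M q (Fr (ResidueField ↥A) M q b) = b)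

/-- the node set of the datum is `SpecDictOne.nodeSet` of the given set of places -/
theorem finTDatumX0_S : (finTDatumX0 hA hqM hB LQ hO₀ hS hbS hFr hFr2).S =
    nodeSet (ResidueField ↥A) M (x := jk (ResidueField ↥A) M)
      (S : Set (Place (ResidueField ↥A) ↥(modularFunctionFieldFullC (ResidueField ↥A) M))) := rfl

theorem finTDatumX0_q : (finTDatumX0 hA hqM hB LQ hO₀ hS hbS hFr hFr2).q = q := rfl

/-- the uniformiser of the datum is `q` -/
theorem coe_finTDatumX0_ϖ :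
    (((finTDatumX0 hA hqM hB LQ hO₀ hS hbS hFr hFr2).ϖ :
      ↥(chart ↥(W A) (x2 (A.inertiaSubgroupIn ℚ) M q))) : FK (A.inertiaSubgroupIn ℚ) (M * q * q))
      = (q : FK (A.inertiaSubgroupIn ℚ) (M * q * q)) :=
  (pairFin hA hqM hB LQ).coe_pdatum_ϖ (hφB hA hqM LQ) (hφpow hA hqM LQ)
    (nodeSet (ResidueField ↥A) M (x := jk (ResidueField ↥A) M)
      (S : Set (Place (ResidueField ↥A) ↥(modularFunctionFieldFullC (ResidueField ↥A) M))))
    (node hA hqM hB LQ hO₀ hS hbS) (S_fr hA hqM LQ hFr) (fr_fr hA hqM LQ hFr2)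
    (Fermat.Agent.S36.BranchX0Rad.hrad_fin_W hA hqM Y hB hO₀)

/-- `hle`: the chart lies in the three valuation rings -/
theorem le_W (hB : Base Y ↥(W A) π) (LQ : LinkQ hA hqM (A.inertiaSubgroupIn ℚ) Y) :
    (chart ↥(W A) (x2 (A.inertiaSubgroupIn ℚ) M q)).toSubring ≤ Y.W₂₀.toSubring ∧
    (chart ↥(W A) (x2 (A.inertiaSubgroupIn ℚ) M q)).toSubring ≤ Y.W₁₁.toSubring ∧
    (chart ↥(W A) (x2 (A.inertiaSubgroupIn ℚ) M q)).toSubring ≤ Y.W₀₂.toSubring :=
  (pairFin hA hqM hB LQ).le_W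

/-- `hcompat`: the three reductions of the datum are the residue maps of `Y` -/
theorem coe_finTDatumX0_r20 (a : ↥(chart ↥(W A) (x2 (A.inertiaSubgroupIn ℚ) M q))) :
    (((finTDatumX0 hA hqM hB LQ hO₀ hS hbS hFr hFr2).r20 a :
      ↥(chart (ResidueField ↥A) (jk (ResidueField ↥A) M))) :
        ↥(modularFunctionFieldFullC (ResidueField ↥A) M))
      = Y.r₂₀ ⟨a, (pairFin hA hqM hB LQ).mem_W₂₀ a⟩ := rfl

theorem coe_finTDatumX0_r11 (a : ↥(chart ↥(W A) (x2 (A.inertiaSubgroupIn ℚ) M q))) :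
    (((finTDatumX0 hA hqM hB LQ hO₀ hS hbS hFr hFr2).r11 a :
      ↥(chart (ResidueField ↥A) (jk (ResidueField ↥A) M))) :
        ↥(modularFunctionFieldFullC (ResidueField ↥A) M))
      = Y.r₁₁ ⟨a, (pairFin hA hqM hB LQ).mem_W₁₁ a⟩ := rfl

theorem coe_finTDatumX0_r02 (a : ↥(chart ↥(W A) (x2 (A.inertiaSubgroupIn ℚ) M q))) :
    (((finTDatumX0 hA hqM hB LQ hO₀ hS hbS hFr hFr2).r02 a :
      ↥(chart (ResidueField ↥A) (jk (ResidueField ↥A) M))) :
        ↥(modularFunctionFieldFullC (ResidueField ↥A) M))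
      = Y.r₀₂ ⟨a, (pairFin hA hqM hB LQ).mem_W₀₂ a⟩ := rfl

theorem coe_finTDatumX0_red1 (g : ↥(chart ↥(W A) (BranchX0.x1 (A.inertiaSubgroupIn ℚ) M q))) :
    (((finTDatumX0 hA hqM hB LQ hO₀ hS hbS hFr hFr2).red1 g :
      ↥(chart (ResidueField ↥A) (jk (ResidueField ↥A) M))) :
        ↥(modularFunctionFieldFullC (ResidueField ↥A) M))
      = Y.red₁ ⟨g, (pairFin hA hqM hB LQ).mem_V₁ g⟩ := rfl

theorem coe_finTDatumX0_red2 (g : ↥(chart ↥(W A) (BranchX0.x1 (A.inertiaSubgroupIn ℚ) M q))) :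
    (((finTDatumX0 hA hqM hB LQ hO₀ hS hbS hFr hFr2).red2 g :
      ↥(chart (ResidueField ↥A) (jk (ResidueField ↥A) M))) :
        ↥(modularFunctionFieldFullC (ResidueField ↥A) M))
      = Y.red₂ ⟨g, (pairFin hA hqM hB LQ).mem_V₂ g⟩ := rfl

theorem coe_finTDatumX0_φ (z : ↥(chart (ResidueField ↥A) (jk (ResidueField ↥A) M))) :
    (((finTDatumX0 hA hqM hB LQ hO₀ hS hbS hFr hFr2).φ z :
      ↥(chart (ResidueField ↥A) (jk (ResidueField ↥A) M))) :
        ↥(modularFunctionFieldFullC (ResidueField ↥A) M))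
      = Y.φ (z : ↥(modularFunctionFieldFullC (ResidueField ↥A) M)) := rfl

/-- the Frobenius of the datum is `SpecDictOne.phiB` -/
theorem finTDatumX0_φ : (finTDatumX0 hA hqM hB LQ hO₀ hS hbS hFr hFr2).φ = φfin A M q :=
  φB_eq hA hqM LQ

end Links

/-- **the same from the two `Link`s** (`CompNormalX0Base.Link`, `GlueNormX0.Link`) -/
def finTDatumOfLinks {gL gk : ℕ} (L : Fermat.Agent.S36.CompNormalX0Base.Link hA hqM gL gk Y)
    (lk : Fermat.Agent.S36.GlueNormX0.Link (A.inertiaSubgroupIn ℚ) hA hqM Y)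
    (hS : ∀ b ∈ S, b ∉ P0 (ResidueField ↥A) M)
    (hbS : Desc hA hqM S) (hFr : ∀ b ∈ S, Fr (ResidueField ↥A) M q b ∈ S)
    (hFr2 : ∀ b ∈ S, Fr (ResidueField ↥A) M q (Fr (ResidueField ↥A) M q b) = b) :
    TDatum ↥(chart ↥(W A) (BranchX0.x1 (A.inertiaSubgroupIn ℚ) M q))
      ↥(chart ↥(W A) (x2 (A.inertiaSubgroupIn ℚ) M q))
      ↥(chart (ResidueField ↥A) (jk (ResidueField ↥A) M)) :=
  finTDatumX0 hA hqM L.base ⟨lk.hV₁, lk.hV₂, lk.h₁, lk.h₂, lk.hφ⟩ L.hO₀ hS hbS hFr hFr2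

end Variable

/-! ### Part 2: the actual objects -/

section Actual

open Fermat.Agent.S18.NonSpecial
open Fermat.Agent.S36.LeafX Fermat.Agent.S36.LeafXInst Fermat.Agent.S36.ThreeValX0Inst
open Fermat.Agent.S36.NewInertiaDatum Fermat.Agent.S36.BranchPt
open Fermat.Agent.S34.CoreZX0OfGeneric (HX0)

variable {gM : ℕ}
variable (HM : RiemannHyp (ResidueField ↥A) ↥(modularFunctionFieldFullC (ResidueField ↥A) M) gM)

include HM in
/-- `CompNormalX0.Base` at the actual `Y` -/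
theorem baseY : Base (hypX0 hA hqM) ↥(W A) (algebraMap ↥(W A) (ResidueField ↥A)) :=
  (Fermat.Agent.S36.ThreeValX0InstLinks.compLink hA hqM (HX0 hA hqM HM)).base

/-- the five link equations at the actual `Y` (all `rfl`) -/
theorem linkQY : LinkQ hA hqM (A.inertiaSubgroupIn ℚ) (hypX0 hA hqM) :=
  ⟨rfl, rfl, fun _ _ _ => rfl, fun _ _ _ => rfl, rfl⟩

/-- **THE ACTUAL `TDatum` ON THE FIN CHART**: `Y = hypX0`, node set = the nodes of `datumY` -/
def finTDatumY : TDatum ↥(chart ↥(W A) (BranchX0.x1 (A.inertiaSubgroupIn ℚ) M q))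
    ↥(chart ↥(W A) (x2 (A.inertiaSubgroupIn ℚ) M q))
    ↥(chart (ResidueField ↥A) (jk (ResidueField ↥A) M)) :=
  finTDatumX0 hA hqM (baseY hA hqM HM) (linkQY hA hqM) (hypX0_O₀ hA hqM)
    (nodesD_off_cusps hA hqM HM) (nodesD_desc hA hqM HM) (nodesD_fr_mem hA hqM HM)
    (nodesD_fr_fr hA hqM HM)

/-- the node set of `finTDatumY` is `nodeSet` of the node set of `datumY` -/
theorem finTDatumY_S : (finTDatumY hA hqM HM).S =
    nodeSet (ResidueField ↥A) M (x := jk (ResidueField ↥A) M) (datumY hA hqM HM).S := rfl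

theorem finTDatumY_q : (finTDatumY hA hqM HM).q = q := rfl

/-- `hle` of `BranchPt.pt_of_tdatum'` / `LeafT0.t0_fields` at `X = datumY` -/
theorem hle_finY : ∀ w : Comp,
    (chart ↥(W A) (x2 (A.inertiaSubgroupIn ℚ) M q)).toSubring ≤
      (Wof (datumY hA hqM HM) w).toSubring := by
  intro w
  cases w
  · exact (le_W hA hqM (baseY hA hqM HM) (linkQY hA hqM)).1
  · exact (le_W hA hqM (baseY hA hqM HM) (linkQY hA hqM)).2.1
  · exact (le_W hA hqM (baseY hA hqM HM) (linkQY hA hqM)).2.2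

/-- `hcompat` of `BranchPt.pt_of_tdatum'` / `LeafT0.t0_fields` at `X = datumY` -/
theorem hcompat_finY : ∀ (w : Comp) (a : ↥(chart ↥(W A) (x2 (A.inertiaSubgroupIn ℚ) M q))),
    ((rD (finTDatumY hA hqM HM).toPDatum w a :
        ↥(chart (ResidueField ↥A) (jk (ResidueField ↥A) M))) :
      ↥(modularFunctionFieldFullC (ResidueField ↥A) M))
      = rof (datumY hA hqM HM) w
          ⟨(a : FK (A.inertiaSubgroupIn ℚ) (M * q * q)), hle_finY hA hqM HM w a.2⟩ := by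
  intro w a
  cases w <;> rfl

/-- **PACKAGE (P1) ON THE FIN CHART** in the (P-subring) convention: the `TDatum` with all the link
facts of `BranchPt.pt_of_tdatum'` / `LeafT0.t0_fields` at `X = LeafXInst.datumY hA hqM HM`. -/
theorem exists_tdatum_fin (𝒜 : Subring (FK0 A (M * q * q)))
    (h𝒜 : 𝒜 = (chart ↥(W A) (x2 (A.inertiaSubgroupIn ℚ) M q : FK0 A (M * q * q))).toSubring)
    (ℬ : Subring ↥(modularFunctionFieldFullC (ResidueField ↥A) M))
    (hℬ : ℬ = (chart (ResidueField ↥A) (jk (ResidueField ↥A) M)).toSubring) :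
    ∃ D : TDatum ↥(chart ↥(W A) (BranchX0.x1 (A.inertiaSubgroupIn ℚ) M q)) ↥𝒜 ↥ℬ,
      D.q = q ∧ ((D.ϖ : ↥𝒜) : FK0 A (M * q * q)) = (q : FK0 A (M * q * q)) ∧
      ∃ hle : ∀ w : Comp, 𝒜 ≤ (Wof (datumY hA hqM HM) w).toSubring,
        (∀ (w : Comp) (a : ↥𝒜),
          ((rD D.toPDatum w a : ↥ℬ) : ↥(modularFunctionFieldFullC (ResidueField ↥A) M))
            = rof (datumY hA hqM HM) w ⟨(a : FK0 A (M * q * q)), hle w a.2⟩) ∧
        (∀ n : Ideal ↥ℬ, n.IsMaximal → n ∈ D.S →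
          ∃ b ∈ (datumY hA hqM HM).S, ∀ z : ↥ℬ, z ∈ n ↔
            (datumY hA hqM HM).E.val b
              (z : ↥(modularFunctionFieldFullC (ResidueField ↥A) M)) 0) ∧
        (∀ b ∈ (datumY hA hqM HM).S, ∃ n : Ideal ↥ℬ, n.IsMaximal ∧ n ∈ D.S ∧
          ∀ z : ↥ℬ, z ∈ n ↔ (datumY hA hqM HM).E.val b
            (z : ↥(modularFunctionFieldFullC (ResidueField ↥A) M)) 0) ∧
        ∃ n : Ideal ↥ℬ, n.IsMaximal ∧ n ∈ D.S := by
  subst h𝒜 hℬ
  obtain ⟨hdict, hconv, hne⟩ := Fermat.Agent.S36.BranchLinksX0.links_fin_datumY_nodeSet hA hqM HM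
    (𝒜 := (chart ↥(W A) (x2 (A.inertiaSubgroupIn ℚ) M q : FK0 A (M * q * q))).toSubring)
    (finTDatumY hA hqM HM) (finTDatumY_S hA hqM HM)
  exact ⟨finTDatumY hA hqM HM, rfl,
    coe_finTDatumX0_ϖ hA hqM (baseY hA hqM HM) (linkQY hA hqM) (hypX0_O₀ hA hqM)
      (nodesD_off_cusps hA hqM HM) (nodesD_desc hA hqM HM) (nodesD_fr_mem hA hqM HM)
      (nodesD_fr_fr hA hqM HM),
    hle_finY hA hqM HM, hcompat_finY hA hqM HM, hdict, hconv, hne⟩

end Actual

end Fermat.Agent.S36.BranchFinX0
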