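/-
PROJECT V (S36), slice V-BranchInfX0 (helper24), chain (V9) at `X₀`, the charts at infinity:
**the ACTUAL `BranchCoreT.TDatum` on `chart (W A) x₁⁻¹`, `chart (W A) x₂⁻¹`, `chart k (jk k M)⁻¹`,
with every hypothesis of helper1's `ChartPair.infTDatumOf` discharged.**

`A` a valuation subring of `ℚ̄` over `q`, `q ∤ M`, `I = A.inertiaSubgroupIn ℚ`, `O = W A`,
`k = ResidueField A`, `κ = F_k(M)`, `Y : ThreeValX0.Hyp I M q κ` (VARIABLE) with
`L : BranchNodeX0.LinkQ hA hqM I Y` (the five equations of `GlueNormX0.Link`),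
`hO0 : Y.O₀ = Og0 M hA hqM`, `hB : CompNormalX0.Base Y (W A) π`, and the node set
`S0 : Finset (Place k κ)` off the cusps, `Fr`-stable with `Fr² = id`, `NodesDesc.Desc`.

* `pairInf hB L : ChartPair hB x₁⁻¹ x₂⁻¹ (jk k M)⁻¹`  (`(infPair hB).cast _`, `Y.J = jk k M`);
* `J_inv_mem`, `hφB`, `φB_eq` (`ChartPair.φB = SpecDictOne.phiB`), `hφpow`, `S_fr`, `fr_fr`, `hSJ`
  (the Frobenius / node set hypotheses for `S := SpecDictOne.nodeSet k M (x := (jk k M)⁻¹) ↑S0`);
* `hdesc`, `hlift`, `hglue`, `hsep`, `node` : the `node` field from `PairGlueChart.hglue_inf`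
  (GLUE) and `PairLiftX0.hsep_inf_X0` (SEP) through `ChartPair.node_inf`;
* `hrad` : the radical hypothesis from `KerInfX0.exists_pow_eq_mul_inf` at `O = W A`;
* **`infTDatumX0`** : the `TDatum`; `infTDatumX0_S` (`= nodeSet`, `rfl`), `le_W`,
  `coe_r20 / r11 / r02 / red1 / red2 / φ` (`rfl`), `coe_ϖ`.
-/
import Mathlib
import Fermat.Agent.S36.BranchX0Node
import Fermat.Agent.S36.BranchNodeX0
import Fermat.Agent.S36.PairLiftX0
import Fermat.Agent.S36.FormalLift.KerInfX0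
import Fermat.Agent.S36.ChartsX0Leaf
import Fermat.Agent.S36.VertX0Final

set_option autoImplicit false
set_option linter.unusedSectionVars false
set_option linter.style.haveILetI false
set_option linter.unusedVariables false
set_option synthInstance.maxHeartbeats 400000

noncomputable section

namespace Fermat.Agent.S36.BranchInfX0

open ModularCurve AlgebraicCurve IsLocalRing IntermediateField Polynomial
open Fermat.Agent.S18.B.FkBasics (jk)
open Fermat.Agent.S18.C.SmallDVR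
open Fermat.Agent.S34.EulerX0 Fermat.Agent.S34.EulerClosedX0
open Fermat.Agent.S34.FrobK Fermat.Agent.S34.Euler.Value Fermat.Agent.S34.Euler.FrobSide
open Fermat.Agent.S36.NodesDesc Fermat.Agent.S36.PairLiftK0 Fermat.Agent.S36.PowerBasisK0
open Fermat.Agent.S36.ThetaK0 Fermat.Agent.S36.ChartRing Fermat.Agent.S36.CompNormal
open Fermat.Agent.S36.SpecDictOne
open Fermat.Agent.S36.CompNormalX0 Fermat.Agent.S36.BranchX0 Fermat.Agent.S36.BranchNodeX0
open Fermat.Agent.S36.ChartX0 Fermat.Agent.S36.GaussK0Comap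

local notation "Kb" => AlgebraicClosure ℚ
local notation "GQ" => (AlgebraicClosure ℚ ≃ₐ[ℚ] AlgebraicClosure ℚ)

attribute [local instance 2000] Fermat.Agent.S34.EulerX0.algResFk

local instance instACkInf (A : ValuationSubring Kb) : IsAlgClosed (ResidueField ↥A) :=
  Fermat.Agent.S18.ResidueBasics.isAlgClosed_residueField A

variable {q : ℕ} [hq : Fact q.Prime] [NeZero q] {M : ℕ} [NeZero M] [NeZero (M * q)]
  [NeZero (M * q * q)]
variable {A : ValuationSubring Kb} {hA : A.LiesOverPrime q} {hqM : ¬ q ∣ M}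
variable [CharP (ResidueField ↥A) q] [PerfectField (ResidueField ↥A)]

/-! ### the Frobenius / node set hypotheses (any subgroup `I`, any base ring `O`) -/

section Generic

variable {I : Subgroup GQ}
variable {Y : ThreeValX0.Hyp I M q ↥(modularFunctionFieldFullC (ResidueField ↥A) M)}
variable {O : Type*} [CommRing O] [Algebra O (FK I M)] [Algebra O (FK I (M * q))]
  [Algebra O (FK I (M * q * q))]
variable {π : O →+* ResidueField ↥A} (hB : Base Y O π) (L : LinkQ hA hqM I Y)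

include L in
/-- `J⁻¹` lies in the chart of `(jk k M)⁻¹` -/
theorem J_inv_mem : Y.J⁻¹ ∈ chart (ResidueField ↥A) (jk (ResidueField ↥A) M)⁻¹ := by
  rw [L.J_eq_jk]
  exact self_mem_chart _

include L in
/-- **the pair of charts at infinity in the coordinate `(jk k M)⁻¹`** -/
theorem pairInf : ChartPair hB (x1 I M q)⁻¹ (x2 I M q)⁻¹ (jk (ResidueField ↥A) M)⁻¹ :=
  (infPair hB).cast (congrArg (fun z => z⁻¹) L.J_eq_jk)

include L in
/-- the Frobenius stability of the component chart -/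
theorem hφB : ∀ z ∈ chart (ResidueField ↥A) (jk (ResidueField ↥A) M)⁻¹,
    Y.φ z ∈ chart (ResidueField ↥A) (jk (ResidueField ↥A) M)⁻¹ := fun z hz => by
  rw [← coe_φinf L ⟨z, hz⟩]
  exact (φinf A M q ⟨z, hz⟩).2

/-- helper1's Frobenius of the chart is `SpecDictOne.phiB` -/
theorem φB_eq : ChartPair.φB (hφB L) = φinf A M q :=
  RingHom.ext fun z => Subtype.ext (coe_φinf L z).symm

include L in
theorem hφpow : ∀ z ∈ chart (ResidueField ↥A) (jk (ResidueField ↥A) M)⁻¹,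
    ∃ c ∈ chart (ResidueField ↥A) (jk (ResidueField ↥A) M)⁻¹, Y.φ c = z ^ q := fun z hz => by
  obtain ⟨c, hc⟩ := phiB_pow (ResidueField ↥A) M q (phi_jk_inv (ResidueField ↥A) M q)
    (isFF_jk_inv (ResidueField ↥A) M) (isSeparable_jk_inv (ResidueField ↥A) M) ⟨z, hz⟩
  refine ⟨c, c.2, ?_⟩
  rw [← coe_φinf L c]
  exact congrArg Subtype.val hc

variable (S0 : Finset (Place (ResidueField ↥A) ↥(modularFunctionFieldFullC (ResidueField ↥A) M)))

/-- the node set on the chart `J ≠ 0` -/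
abbrev nodesInf : Set (Ideal ↥(chart (ResidueField ↥A) (jk (ResidueField ↥A) M)⁻¹)) :=
  nodeSet (ResidueField ↥A) M (x := (jk (ResidueField ↥A) M)⁻¹)
    (S0 : Set (Place (ResidueField ↥A) ↥(modularFunctionFieldFullC (ResidueField ↥A) M)))

variable {S0}

set_option maxHeartbeats 1600000 in
theorem S_fr (hFr : ∀ b ∈ S0, Fr (ResidueField ↥A) M q b ∈ S0) :
    ∀ n ∈ nodesInf (A := A) (M := M) S0, n.comap (ChartPair.φB (hφB L)) ∈ nodesInf S0 := by
  rw [φB_eq L]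
  exact nodeSet_fr (ResidueField ↥A) M q _ _ _ _ (fun v hv => Finset.mem_coe.mpr (hFr v hv))

set_option maxHeartbeats 1600000 in
theorem fr_fr (hFr2 : ∀ b ∈ S0, Fr (ResidueField ↥A) M q (Fr (ResidueField ↥A) M q b) = b) :
    ∀ n ∈ nodesInf (A := A) (M := M) S0,
      (n.comap (ChartPair.φB (hφB L))).comap (ChartPair.φB (hφB L)) = n := by
  rw [φB_eq L]
  exact nodeSet_fr_fr (ResidueField ↥A) M q _ _ _ _ (fun v hv => hFr2 v hv)

/-- the nodes are not cusps: `J⁻¹` does not vanish at a node -/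
theorem hSJ (hS : ∀ b ∈ S0, b ∉ P0 (ResidueField ↥A) M) :
    ∀ n ∈ nodesInf (A := A) (M := M) S0,
      (⟨Y.J⁻¹, J_inv_mem L⟩ : ↥(chart (ResidueField ↥A) (jk (ResidueField ↥A) M)⁻¹)) ∉ n := by
  rintro n ⟨v, hvS, hv, rfl⟩ hmem
  rw [mem_pointOf_iff] at hmem
  have hJ0 : jk (ResidueField ↥A) M ≠ 0 := Fermat.Agent.S36.EulerExact.X0.jk_ne_zero
  rcases hmem with h0 | hpos
  · have : (Y.J⁻¹ : ↥(modularFunctionFieldFullC (ResidueField ↥A) M)) = 0 :=
      congrArg Subtype.val h0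
    rw [L.J_eq_jk] at this
    exact inv_ne_zero hJ0 this
  · have h1 : (0 : ℤ) < v.ord (jk (ResidueField ↥A) M)⁻¹ := by
      have := hpos
      simp only [L.J_eq_jk] at this
      exact this
    rw [Place.ord_inv] at h1
    exact hS v (Finset.mem_coe.mp hvS) (show v.ord (jk (ResidueField ↥A) M) < 0 by omega)

end Generic


/-! ### (GLUE) and (SEP) for the reductions of `pairInf` -/

section Node

variable {I : Subgroup GQ}
variable {Y : ThreeValX0.Hyp I M q ↥(modularFunctionFieldFullC (ResidueField ↥A) M)}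
variable {O : Type*} [CommRing O] [Algebra O (FK I M)] [Algebra O (FK I (M * q))]
  [Algebra O (FK I (M * q * q))]
variable {π : O →+* ResidueField ↥A} (hB : Base Y O π) (L : LinkQ hA hqM I Y)

/-- the interface `hdesc` of `PairGlueChart.hglue_inf` for `(pairInf hB L).red1 / red2` -/
theorem hdesc (a : ↥(chart O (x1 I M q)⁻¹)) :
    ∃ g ∈ chart O (xK (M := M) (q := q) I)⁻¹, ∃ (h₁ : g ∈ V1K I hA hqM)
      (h₂ : g ∈ V2K I hA hqM),
      (((pairInf hB L).red1 a : ↥(chart (ResidueField ↥A) (jk (ResidueField ↥A) M)⁻¹)) :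
        ↥(modularFunctionFieldFullC (ResidueField ↥A) M)) = red1K I hA hqM ⟨g, h₁⟩ ∧
      (((pairInf hB L).red2 a : ↥(chart (ResidueField ↥A) (jk (ResidueField ↥A) M)⁻¹)) :
        ↥(modularFunctionFieldFullC (ResidueField ↥A) M)) = red2K I hA hqM ⟨g, h₂⟩ :=
  ⟨(a : FK I (M * q)), mem_chart_xK_inv a.2, L.mem_V1K ((pairInf hB L).mem_V₁ a),
    L.mem_V2K ((pairInf hB L).mem_V₂ a), L.red₁_eq ((pairInf hB L).mem_V₁ a),
    L.red₂_eq ((pairInf hB L).mem_V₂ a)⟩

/-- the interface `hlift` of `PairLiftChart.hsep_inf` / `PairLiftX0.hsep_inf_X0` -/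
theorem hlift : ∀ g ∈ chart O (xK (M := M) (q := q) I)⁻¹, ∀ (h₁ : g ∈ V1K I hA hqM)
    (h₂ : g ∈ V2K I hA hqM), ∃ a : ↥(chart O (x1 I M q)⁻¹),
      (((pairInf hB L).red1 a : ↥(chart (ResidueField ↥A) (jk (ResidueField ↥A) M)⁻¹)) :
        ↥(modularFunctionFieldFullC (ResidueField ↥A) M)) = red1K I hA hqM ⟨g, h₁⟩ ∧
      (((pairInf hB L).red2 a : ↥(chart (ResidueField ↥A) (jk (ResidueField ↥A) M)⁻¹)) :
        ↥(modularFunctionFieldFullC (ResidueField ↥A) M)) = red2K I hA hqM ⟨g, h₂⟩ :=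
  fun g hg h₁ h₂ => ⟨⟨g, mem_chart_x1_inv hg⟩,
    L.red₁_eq ((pairInf hB L).mem_V₁ ⟨g, mem_chart_x1_inv hg⟩),
    L.red₂_eq ((pairInf hB L).mem_V₂ ⟨g, mem_chart_x1_inv hg⟩)⟩

variable {S0 : Finset (Place (ResidueField ↥A) ↥(modularFunctionFieldFullC (ResidueField ↥A) M))}

set_option maxHeartbeats 1600000 in
/-- **(GLUE) on the charts at infinity**, in the literal shape of `ChartPair.node_inf` -/
theorem hglue [Algebra O ↥(IntermediateField.fixedField I)]
    [IsScalarTower O ↥(IntermediateField.fixedField I) (FK I (M * q))]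
    (hS : ∀ b ∈ S0, b ∉ P0 (ResidueField ↥A) M) (hbS : Desc hA hqM S0) :
    ∀ n ∈ nodesInf (A := A) (M := M) S0, ∀ g : ↥(chart O (x1 I M q)⁻¹),
      (pairInf hB L).red1 g ∈ n.comap (ChartPair.φB (hφB L)) ↔ (pairInf hB L).red2 g ∈ n := by
  rw [φB_eq L]
  exact PairGlueChart.hglue_inf hA hqM I hS hbS (fun a => (pairInf hB L).red1 a)
    (fun a => (pairInf hB L).red2 a) (hdesc hB L)

end Node


/-! ### the actual objects: `I = A.inertiaSubgroupIn ℚ`, `O = W A` -/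

section Concrete

/-- helper10's `W A`-algebra structure, on the type written as `PowerBasisK0.FK` -/
local instance algWFKinf (N : ℕ) : Algebra ↥(W A) (FK (A.inertiaSubgroupIn ℚ) N) := algebraW A N

local instance algWK0inf :
    Algebra ↥(W A) ↥(IntermediateField.fixedField (A.inertiaSubgroupIn ℚ)) :=
  (inferInstance : Algebra ↥(W A) ↥(K0 A))

local instance towerWinf (N : ℕ) :
    IsScalarTower ↥(W A) ↥(IntermediateField.fixedField (A.inertiaSubgroupIn ℚ))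
      (FK (A.inertiaSubgroupIn ℚ) N) := isScalarTowerW A N

variable {Y : ThreeValX0.Hyp (A.inertiaSubgroupIn ℚ) M q
  ↥(modularFunctionFieldFullC (ResidueField ↥A) M)}
variable {π : ↥(W A) →+* ResidueField ↥A} (hB : Base Y ↥(W A) π)
  (L : LinkQ hA hqM (A.inertiaSubgroupIn ℚ) Y) (hO0 : Y.O₀ = Og0 M hA hqM)
variable {S0 : Finset (Place (ResidueField ↥A) ↥(modularFunctionFieldFullC (ResidueField ↥A) M))}
  (hS : ∀ b ∈ S0, b ∉ P0 (ResidueField ↥A) M) (hbS : Desc hA hqM S0)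

include hO0 hS hbS in
set_option maxHeartbeats 1600000 in
/-- **(SEP) on the charts at infinity**, in the literal shape of `ChartPair.node_inf` -/
theorem hsep :
    ∀ n : Ideal ↥(chart (ResidueField ↥A) (jk (ResidueField ↥A) M)⁻¹), n.IsMaximal →
      n ∉ nodesInf (A := A) (M := M) S0 →
      ∃ g : ↥(chart ↥(W A) (x1 (A.inertiaSubgroupIn ℚ) M q)⁻¹),
        (pairInf hB L).red1 g ∈ n.comap (ChartPair.φB (hφB L)) ∧ (pairInf hB L).red2 g ∉ n := by
  rw [φB_eq L]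
  exact Fermat.Agent.S36.PairLiftX0.hsep_inf_X0 hA hqM Y L.hV₁ L.hV₂ hO0 hS hbS
    (fun a => (pairInf hB L).red1 a) (fun a => (pairInf hB L).red2 a) (hlift hB L)

include hO0 hS hbS in
/-- **the field `node` of `ChartPair.pdatum` / `infTDatumOf` on the charts at infinity** -/
theorem node (n' n : Ideal ↥(chart (ResidueField ↥A) (jk (ResidueField ↥A) M)⁻¹))
    (hn' : n'.IsMaximal) (hn : n.IsMaximal) :
    n'.comap (pairInf hB L).red1 = n.comap (pairInf hB L).red2 ↔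
      n ∈ nodesInf (A := A) (M := M) S0 ∧ n' = n.comap (ChartPair.φB (hφB L)) :=
  (pairInf hB L).node_inf (J_inv_mem L) (L.J_eq_jk ▸ hB.hlift') (hφB L) (nodesInf S0)
    (hglue hB L hS hbS) (hsep hB L hO0 hS hbS) n' n hn' hn


include hB hO0 in
set_option maxHeartbeats 1600000 in
/-- **the radical hypothesis `hrad` of `ChartPair.pdatum` / `infTDatumOf`** at `O = W A`, from
`KerInfX0.exists_pow_eq_mul_inf` -/
theorem hrad : ∀ a ∈ chart ↥(W A) (x2 (A.inertiaSubgroupIn ℚ) M q)⁻¹,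
    a ∈ Y.W₂₀.nonunits → a ∈ Y.W₁₁.nonunits → a ∈ Y.W₀₂.nonunits →
    ∃ N : ℕ, ∃ y ∈ chart ↥(W A) (x2 (A.inertiaSubgroupIn ℚ) M q)⁻¹,
      a ^ N = (q : FK (A.inertiaSubgroupIn ℚ) (M * q * q)) * y := by
  intro a ha h20 h11 h02
  haveI := isDVR hA
  haveI f0 : IsFractionRing ↥(W A) ↥(IntermediateField.fixedField (A.inertiaSubgroupIn ℚ)) :=
    isFractionRing_W_K0 A
  letI aK : Algebra ↥(IntermediateField.fixedField (A.inertiaSubgroupIn ℚ))
      (FK (A.inertiaSubgroupIn ℚ) (M * q * q)) := algebraK0 A (M * q * q)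
  haveI tw : IsScalarTower ↥(W A) ↥(IntermediateField.fixedField (A.inertiaSubgroupIn ℚ))
      (FK (A.inertiaSubgroupIn ℚ) (M * q * q)) := isScalarTowerW A (M * q * q)
  haveI fd : FiniteDimensional
      (↥(IntermediateField.fixedField (A.inertiaSubgroupIn ℚ)))⟮(x2 (A.inertiaSubgroupIn ℚ) M q)⁻¹⟯
      (FK (A.inertiaSubgroupIn ℚ) (M * q * q)) :=
    Fermat.Agent.S36.ChartsX0Leaf.finiteDimensional_x2_inv_K0 A M
  obtain ⟨N, b, hb, hN⟩ := Fermat.Agent.S36.KerInfX0.exists_pow_eq_mul_inf (O := ↥(W A))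
    (K := ↥(IntermediateField.fixedField (A.inertiaSubgroupIn ℚ))) Y hB (irreducible_ell hA)
    (Fermat.Agent.S36.ChartsX0Leaf.transcendental_x2_inv_K0 A M)
    (Fermat.Agent.S36.ChartsX0Leaf.transcendental_x2_inv_W A M)
    (Fermat.Agent.S36.VertX0Final.hU0_Y hA hqM Y hO0) ha (fun w => by
      cases w
      · exact (ValuationSubring.mem_nonunits_iff (A := Y.W₂₀)).mp h20
      · exact (ValuationSubring.mem_nonunits_iff (A := Y.W₁₁)).mp h11
      · exact (ValuationSubring.mem_nonunits_iff (A := Y.W₀₂)).mp h02)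
  refine ⟨N, b, hb, ?_⟩
  rw [hN, map_natCast]


variable (hFr : ∀ b ∈ S0, Fr (ResidueField ↥A) M q b ∈ S0)
  (hFr2 : ∀ b ∈ S0, Fr (ResidueField ↥A) M q (Fr (ResidueField ↥A) M q b) = b)

/-- **THE `TDatum` OF CHAIN (V9) ON THE CHARTS AT INFINITY, AT THE ACTUAL OBJECTS**: helper1's
`ChartPair.infTDatumOf` for `pairInf hB L` with every hypothesis discharged. -/
def infTDatumX0 :
    BranchCoreT.TDatum ↥(chart ↥(W A) (x1 (A.inertiaSubgroupIn ℚ) M q)⁻¹)
      ↥(chart ↥(W A) (x2 (A.inertiaSubgroupIn ℚ) M q)⁻¹)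
      ↥(chart (ResidueField ↥A) (jk (ResidueField ↥A) M)⁻¹) :=
  (pairInf hB L).infTDatumOf (J_inv_mem L) (hφB L) (hφpow L) (nodesInf S0) (hSJ L hS)
    (node hB L hO0 hS hbS) (S_fr L hFr) (fr_fr L hFr2) (hrad hB hO0)

/-! ### link facts (all `rfl` except `le_W`, `coe_ϖ`) -/

@[simp] theorem infTDatumX0_S :
    (infTDatumX0 hB L hO0 hS hbS hFr hFr2).S =
      nodeSet (ResidueField ↥A) M (x := (jk (ResidueField ↥A) M)⁻¹)
        (S0 : Set (Place (ResidueField ↥A) ↥(modularFunctionFieldFullC (ResidueField ↥A) M))) :=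
  rfl

@[simp] theorem infTDatumX0_q : (infTDatumX0 hB L hO0 hS hbS hFr hFr2).q = q := rfl

theorem infTDatumX0_eq :
    infTDatumX0 hB L hO0 hS hbS hFr hFr2 =
      (pairInf hB L).infTDatumOf (J_inv_mem L) (hφB L) (hφpow L) (nodesInf S0) (hSJ L hS)
        (node hB L hO0 hS hbS) (S_fr L hFr) (fr_fr L hFr2) (hrad hB hO0) := rfl

include hB L in
/-- `hle`: the chart at infinity lies in the three valuation rings -/
theorem le_W : (chart ↥(W A) (x2 (A.inertiaSubgroupIn ℚ) M q)⁻¹).toSubring ≤ Y.W₂₀.toSubring ∧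
    (chart ↥(W A) (x2 (A.inertiaSubgroupIn ℚ) M q)⁻¹).toSubring ≤ Y.W₁₁.toSubring ∧
    (chart ↥(W A) (x2 (A.inertiaSubgroupIn ℚ) M q)⁻¹).toSubring ≤ Y.W₀₂.toSubring :=
  (pairInf hB L).le_W

theorem coe_ϖ :
    (((infTDatumX0 hB L hO0 hS hbS hFr hFr2).ϖ :
      ↥(chart ↥(W A) (x2 (A.inertiaSubgroupIn ℚ) M q)⁻¹)) :
        FK (A.inertiaSubgroupIn ℚ) (M * q * q)) = (q : FK (A.inertiaSubgroupIn ℚ) (M * q * q)) :=
  (pairInf hB L).coe_pdatum_ϖ (hφB L) (hφpow L) (nodesInf S0) (node hB L hO0 hS hbS)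
    (S_fr L hFr) (fr_fr L hFr2) (hrad hB hO0)

/-- `hcompat` -/
theorem coe_r20 (a : ↥(chart ↥(W A) (x2 (A.inertiaSubgroupIn ℚ) M q)⁻¹)) :
    (((infTDatumX0 hB L hO0 hS hbS hFr hFr2).r20 a :
      ↥(chart (ResidueField ↥A) (jk (ResidueField ↥A) M)⁻¹)) :
        ↥(modularFunctionFieldFullC (ResidueField ↥A) M)) =
      Y.r₂₀ ⟨a, (pairInf hB L).mem_W₂₀ a⟩ := rfl

theorem coe_r11 (a : ↥(chart ↥(W A) (x2 (A.inertiaSubgroupIn ℚ) M q)⁻¹)) :
    (((infTDatumX0 hB L hO0 hS hbS hFr hFr2).r11 a :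
      ↥(chart (ResidueField ↥A) (jk (ResidueField ↥A) M)⁻¹)) :
        ↥(modularFunctionFieldFullC (ResidueField ↥A) M)) =
      Y.r₁₁ ⟨a, (pairInf hB L).mem_W₁₁ a⟩ := rfl

theorem coe_r02 (a : ↥(chart ↥(W A) (x2 (A.inertiaSubgroupIn ℚ) M q)⁻¹)) :
    (((infTDatumX0 hB L hO0 hS hbS hFr hFr2).r02 a :
      ↥(chart (ResidueField ↥A) (jk (ResidueField ↥A) M)⁻¹)) :
        ↥(modularFunctionFieldFullC (ResidueField ↥A) M)) =
      Y.r₀₂ ⟨a, (pairInf hB L).mem_W₀₂ a⟩ := rfl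

theorem coe_red1 (g : ↥(chart ↥(W A) (x1 (A.inertiaSubgroupIn ℚ) M q)⁻¹)) :
    (((infTDatumX0 hB L hO0 hS hbS hFr hFr2).red1 g :
      ↥(chart (ResidueField ↥A) (jk (ResidueField ↥A) M)⁻¹)) :
        ↥(modularFunctionFieldFullC (ResidueField ↥A) M)) =
      Y.red₁ ⟨g, (pairInf hB L).mem_V₁ g⟩ := rfl

theorem coe_red2 (g : ↥(chart ↥(W A) (x1 (A.inertiaSubgroupIn ℚ) M q)⁻¹)) :
    (((infTDatumX0 hB L hO0 hS hbS hFr hFr2).red2 g :
      ↥(chart (ResidueField ↥A) (jk (ResidueField ↥A) M)⁻¹)) :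
        ↥(modularFunctionFieldFullC (ResidueField ↥A) M)) =
      Y.red₂ ⟨g, (pairInf hB L).mem_V₂ g⟩ := rfl

theorem coe_φ (z : ↥(chart (ResidueField ↥A) (jk (ResidueField ↥A) M)⁻¹)) :
    (((infTDatumX0 hB L hO0 hS hbS hFr hFr2).φ z :
      ↥(chart (ResidueField ↥A) (jk (ResidueField ↥A) M)⁻¹)) :
        ↥(modularFunctionFieldFullC (ResidueField ↥A) M)) =
      Y.φ (z : ↥(modularFunctionFieldFullC (ResidueField ↥A) M)) := rfl

/-- the Frobenius of the datum is `SpecDictOne.phiB` -/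
theorem infTDatumX0_φ : (infTDatumX0 hB L hO0 hS hbS hFr hFr2).φ = φinf A M q := φB_eq L

end Concrete

end Fermat.Agent.S36.BranchInfX0
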