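/-
PROJECT V (S36), slice V-BranchInfY (helper27), chain (V9) at `X₀`: **THE ACTUAL
`BranchCoreT.TDatum` ON THE CHARTS AT INFINITY AT THE ACTUAL OBJECTS, WITH ITS LINK FACTS**
= the inf twin of `S36/BranchFinX0` Part 2.

helper24's `BranchInfX0.infTDatumX0 hB L hO0 hS hbS hFr hFr2` (variable `Y` with its links) is
instantiated at `Y = ThreeValX0Inst.hypX0 hA hqM`, `hB = BranchFinX0.baseY hA hqM HM`,
`L = BranchFinX0.linkQY hA hqM`, `hO0 = hypX0_O₀`, `S0 = (LeafX.nodesD hA hqM HM).S`: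

* **`infTDatumY hA hqM HM`** : `TDatum (chart (W A) x₁⁻¹) (chart (W A) x₂⁻¹) (chart k (jk k M)⁻¹)`,
  no hypothesis; `infTDatumY_S` (`rfl`: the node set is `SpecDictOne.nodeSet` of the node set of
  `LeafXInst.datumY`), `infTDatumY_q`, `coe_infTDatumY_ϖ`;
* `hle_infY`, `hcompat_infY` : `hle'`, `hcompat'` of `LeafT0.t0_fields` at `X = datumY`;
* **`exists_tdatum_inf`** : the package (P1) of `NewInertiaFinal` on the chart at infinity in the
  (P-subring) convention (`𝒜' = (chart (W A) x₂⁻¹).toSubring`, `ℬ' = (chart k (jk k M)⁻¹).toSubring`):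
  `∃ D' : TDatum A₁' 𝒜' ℬ', D'.q = q ∧ (D'.ϖ : F₂) = q ∧ ∃ hle', hcompat' ∧ hdict'` in the literal
  shapes of `LeafT0.t0_fields` (`hdict'` through helper16's
  `BranchLinksX0.hdict_inf_datumY_nodeSet`).
-/
import Mathlib
import Fermat.Agent.S36.BranchFinX0
import Fermat.Agent.S36.BranchInfX0

set_option autoImplicit false
set_option linter.unusedSectionVars false
set_option linter.style.haveILetI false
set_option linter.unusedVariables false
set_option synthInstance.maxHeartbeats 400000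

noncomputable section

namespace Fermat.Agent.S36.BranchInfY

open ModularCurve AlgebraicCurve IsLocalRing IntermediateField Polynomial
open Fermat.Agent.S18.B.FkBasics (jk)
open Fermat.Agent.S18.C.SmallDVR Fermat.Agent.S18.NonSpecial
open Fermat.Agent.S34.EulerX0 Fermat.Agent.S34.EulerClosedX0
open Fermat.Agent.S34.FrobK Fermat.Agent.S34.Euler.Value Fermat.Agent.S34.Euler.FrobSide
open Fermat.Agent.S36.NodesDesc Fermat.Agent.S36.PowerBasisK0
open Fermat.Agent.S36.ChartRing Fermat.Agent.S36.CompNormal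
open Fermat.Agent.S36.SpecDictOne Fermat.Agent.S36.CompNormalX0
open Fermat.Agent.S36.ChartX0 Fermat.Agent.S36.GaussK0Comap
open Fermat.Agent.S36.BranchCoreT Fermat.Agent.S36.BranchX0 Fermat.Agent.S36.BranchNodeX0
open Fermat.Agent.S36.LeafX Fermat.Agent.S36.LeafXInst Fermat.Agent.S36.ThreeValX0Inst
open Fermat.Agent.S36.NewInertiaDatum Fermat.Agent.S36.BranchPt
open Fermat.Agent.S36.BranchFinX0 (baseY linkQY)
open Fermat.Agent.S36.BranchInfX0 (infTDatumX0)

local notation "Kb" => AlgebraicClosure ℚ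

attribute [local instance 2000] Fermat.Agent.S34.EulerX0.algResFk

local instance instACkBI (A : ValuationSubring Kb) : IsAlgClosed (ResidueField ↥A) :=
  Fermat.Agent.S18.ResidueBasics.isAlgClosed_residueField A

local instance instNeZeroMulBI (M q : ℕ) [NeZero M] [NeZero q] : NeZero (M * q) :=
  ⟨Nat.mul_ne_zero (NeZero.ne M) (NeZero.ne q)⟩

variable {q : ℕ} [hq : Fact q.Prime] [NeZero q] {M : ℕ} [NeZero M]
variable {A : ValuationSubring Kb} (hA : A.LiesOverPrime q) (hqM : ¬ q ∣ M)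
variable [CharP (ResidueField ↥A) q] [PerfectField (ResidueField ↥A)]

/-- helper10's `W A`-algebra structure, on the type written as `PowerBasisK0.FK` -/
local instance instAlgWFKBI (N : ℕ) : Algebra ↥(W A) (FK (A.inertiaSubgroupIn ℚ) N) := algebraW A N

variable {gM : ℕ}
variable (HM : RiemannHyp (ResidueField ↥A) ↥(modularFunctionFieldFullC (ResidueField ↥A) M) gM)

/-- **THE ACTUAL `TDatum` ON THE CHARTS AT INFINITY**: `Y = hypX0`, node set = the nodes of
`datumY` -/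
def infTDatumY : TDatum ↥(chart ↥(W A) (BranchX0.x1 (A.inertiaSubgroupIn ℚ) M q)⁻¹)
    ↥(chart ↥(W A) (x2 (A.inertiaSubgroupIn ℚ) M q)⁻¹)
    ↥(chart (ResidueField ↥A) (jk (ResidueField ↥A) M)⁻¹) :=
  infTDatumX0 (baseY hA hqM HM) (linkQY hA hqM) (hypX0_O₀ hA hqM)
    (nodesD_off_cusps hA hqM HM) (nodesD_desc hA hqM HM) (nodesD_fr_mem hA hqM HM)
    (nodesD_fr_fr hA hqM HM)

/-- the node set of `infTDatumY` is `nodeSet` of the node set of `datumY` -/
theorem infTDatumY_S : (infTDatumY hA hqM HM).S =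
    nodeSet (ResidueField ↥A) M (x := (jk (ResidueField ↥A) M)⁻¹) (datumY hA hqM HM).S := rfl

theorem infTDatumY_q : (infTDatumY hA hqM HM).q = q := rfl

/-- the uniformiser of `infTDatumY` is `q` -/
theorem coe_infTDatumY_ϖ :
    (((infTDatumY hA hqM HM).ϖ : ↥(chart ↥(W A) (x2 (A.inertiaSubgroupIn ℚ) M q)⁻¹)) :
      FK (A.inertiaSubgroupIn ℚ) (M * q * q)) = (q : FK (A.inertiaSubgroupIn ℚ) (M * q * q)) :=
  Fermat.Agent.S36.BranchInfX0.coe_ϖ (baseY hA hqM HM) (linkQY hA hqM) (hypX0_O₀ hA hqM)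
    (nodesD_off_cusps hA hqM HM) (nodesD_desc hA hqM HM) (nodesD_fr_mem hA hqM HM)
    (nodesD_fr_fr hA hqM HM)

/-- `hle'` of `LeafT0.t0_fields` at `X = datumY` -/
theorem hle_infY : ∀ w : Comp,
    (chart ↥(W A) (x2 (A.inertiaSubgroupIn ℚ) M q)⁻¹).toSubring ≤
      (Wof (datumY hA hqM HM) w).toSubring := by
  intro w
  cases w
  · exact (Fermat.Agent.S36.BranchInfX0.le_W (baseY hA hqM HM) (linkQY hA hqM)).1
  · exact (Fermat.Agent.S36.BranchInfX0.le_W (baseY hA hqM HM) (linkQY hA hqM)).2.1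
  · exact (Fermat.Agent.S36.BranchInfX0.le_W (baseY hA hqM HM) (linkQY hA hqM)).2.2

/-- `hcompat'` of `LeafT0.t0_fields` at `X = datumY` -/
theorem hcompat_infY : ∀ (w : Comp) (a : ↥(chart ↥(W A) (x2 (A.inertiaSubgroupIn ℚ) M q)⁻¹)),
    ((rD (infTDatumY hA hqM HM).toPDatum w a :
        ↥(chart (ResidueField ↥A) (jk (ResidueField ↥A) M)⁻¹)) :
      ↥(modularFunctionFieldFullC (ResidueField ↥A) M))
      = rof (datumY hA hqM HM) w
          ⟨(a : FK (A.inertiaSubgroupIn ℚ) (M * q * q)), hle_infY hA hqM HM w a.2⟩ := by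
  intro w a
  cases w <;> rfl

/-- **PACKAGE (P1) ON THE CHART AT INFINITY** in the (P-subring) convention: the `TDatum` with the
link facts `hle' hcompat' hdict'` of `LeafT0.t0_fields` at `X = LeafXInst.datumY hA hqM HM`. -/
theorem exists_tdatum_inf (𝒜' : Subring (FK0 A (M * q * q)))
    (h𝒜' : 𝒜' =
      (chart ↥(W A) (x2 (A.inertiaSubgroupIn ℚ) M q : FK0 A (M * q * q))⁻¹).toSubring)
    (ℬ' : Subring ↥(modularFunctionFieldFullC (ResidueField ↥A) M))
    (hℬ' : ℬ' = (chart (ResidueField ↥A) (jk (ResidueField ↥A) M)⁻¹).toSubring) :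
    ∃ D' : TDatum ↥(chart ↥(W A) (BranchX0.x1 (A.inertiaSubgroupIn ℚ) M q)⁻¹) ↥𝒜' ↥ℬ',
      D'.q = q ∧ ((D'.ϖ : ↥𝒜') : FK0 A (M * q * q)) = (q : FK0 A (M * q * q)) ∧
      ∃ hle' : ∀ w : Comp, 𝒜' ≤ (Wof (datumY hA hqM HM) w).toSubring,
        (∀ (w : Comp) (a : ↥𝒜'),
          ((rD D'.toPDatum w a : ↥ℬ') : ↥(modularFunctionFieldFullC (ResidueField ↥A) M))
            = rof (datumY hA hqM HM) w ⟨(a : FK0 A (M * q * q)), hle' w a.2⟩) ∧
        (∀ n : Ideal ↥ℬ', n.IsMaximal → n ∈ D'.S →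
          ∃ b ∈ (datumY hA hqM HM).S, ∀ z : ↥ℬ', z ∈ n ↔
            (datumY hA hqM HM).E.val b
              (z : ↥(modularFunctionFieldFullC (ResidueField ↥A) M)) 0) := by
  subst h𝒜' hℬ'
  have hdict := Fermat.Agent.S36.BranchLinksX0.hdict_inf_datumY_nodeSet hA hqM HM
    (𝒜 := (chart ↥(W A) (x2 (A.inertiaSubgroupIn ℚ) M q : FK0 A (M * q * q))⁻¹).toSubring)
    (infTDatumY hA hqM HM) (infTDatumY_S hA hqM HM)
  exact ⟨infTDatumY hA hqM HM, rfl, coe_infTDatumY_ϖ hA hqM HM, hle_infY hA hqM HM,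
    hcompat_infY hA hqM HM, hdict⟩

end Fermat.Agent.S36.BranchInfY
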