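import Mathlib
import Fermat.Agent.S36.NewInertiaDatum

/-!
# PROJECT V (S36), chain (V17): the common value at a triple point (field `hv₀` of the assembly)

`X : GlueNorm.Datum`, `S` a subring of `F` contained in the three `W`, `𝔪` a maximal ideal of `S`
which is a triple point over `b` (`u ∈ 𝔪 ↔ (r_W u)(b) = 0` for the three `W`), with residue field
`k` (every `u ∈ S` is congruent to a constant modulo `𝔪`).

* `exists_common_value` : `u ∈ S \ 𝔪` has ONE nonzero value at `b` on the three branches;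
* `common_value_of_local` : the same for `v ∈ F` with `v * u₂ = u₁`, `u₁ u₂ ∈ S \ 𝔪`
  (a unit of the local ring `S_𝔪`);
* `hv₀_of_local` : the field `hv₀` of `NewInertiaDatum.Input` / `NewInertiaCharts.Leaf` from such a
  presentation of `v₀ = f ^ (q - 1) * t₀ ^ n` at a triple point over every `b ∈ X.S`.
-/

set_option autoImplicit false
set_option linter.unusedSectionVars false

namespace Fermat.Agent.S36.NewInertiaValue

open Fermat.Agent.S36.GlueNorm Fermat.Agent.S36.OpenLift Fermat.Agent.S36.TripleValues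
open Fermat.Agent.S36.NewInertiaDatum

variable {k κ F' F Pt : Type*} [Field k] [Field κ] [Algebra k κ] [Field F'] [Field F]
  {R0 : Type*} [CommRing R0] [Algebra R0 F]
  {X : Datum k κ F' F Pt} {π : R0 →+* k} {n : ℕ}

/-- an element of `S` outside a triple point has one nonzero value on the three branches -/
theorem exists_common_value (hE : ValGood X.E n)
    (hπ : ∀ (w : Comp) (x : R0) (m : algebraMap R0 F x ∈ Wof X w),
      rof X w ⟨algebraMap R0 F x, m⟩ = algebraMap k κ (π x))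
    {S : Subring F} {𝔪 : Ideal ↥S}
    (hconst : ∀ u : ↥S, ∃ (c : R0) (hc : algebraMap R0 F c ∈ S),
      u - ⟨algebraMap R0 F c, hc⟩ ∈ 𝔪)
    {b : Pt} (hall : ∀ w : Comp, S ≤ (Wof X w).toSubring)
    (hmem : ∀ (w : Comp) (u : ↥S),
      u ∈ 𝔪 ↔ X.E.val b (resHom S (Wof X w) (rof X w) (hall w) u) 0)
    {u : ↥S} (hu : u ∉ 𝔪) :
    ∃ e : k, e ≠ 0 ∧ ∀ w : Comp, X.E.val b (resHom S (Wof X w) (rof X w) (hall w) u) e := by
  obtain ⟨c, hcS, hc⟩ := hconst u
  have hval_u : ∀ w : Comp, X.E.val b (resHom S (Wof X w) (rof X w) (hall w) u) (π c) := by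
    intro w
    have h1 := (hmem w _).mp hc
    rw [map_sub, resHom_apply S _ _ _ ⟨algebraMap R0 F c, hcS⟩, hπ] at h1
    have h2 := hE.val_add h1 (X.E.val_const b (π c))
    rwa [sub_add_cancel, zero_add] at h2
  refine ⟨π c, fun h0 => hu ?_, hval_u⟩
  have := hval_u Comp.c20
  rw [h0] at this
  exact (hmem Comp.c20 u).mpr this

/-- a unit of the local ring at a triple point has one nonzero value on the three branches -/
theorem common_value_of_local (hE : ValGood X.E n)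
    (hπ : ∀ (w : Comp) (x : R0) (m : algebraMap R0 F x ∈ Wof X w),
      rof X w ⟨algebraMap R0 F x, m⟩ = algebraMap k κ (π x))
    {S : Subring F} {𝔪 : Ideal ↥S}
    (hconst : ∀ u : ↥S, ∃ (c : R0) (hc : algebraMap R0 F c ∈ S),
      u - ⟨algebraMap R0 F c, hc⟩ ∈ 𝔪)
    {b : Pt} (hall : ∀ w : Comp, S ≤ (Wof X w).toSubring)
    (hmem : ∀ (w : Comp) (u : ↥S),
      u ∈ 𝔪 ↔ X.E.val b (resHom S (Wof X w) (rof X w) (hall w) u) 0)
    {v : F} {u₁ u₂ : ↥S} (hu₁ : u₁ ∉ 𝔪) (hu₂ : u₂ ∉ 𝔪) (h : v * (u₂ : F) = (u₁ : F)) :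
    ∃ c : k, c ≠ 0 ∧ ∀ (w : Comp) (m : v ∈ Wof X w), X.E.val b (rof X w ⟨v, m⟩) c := by
  obtain ⟨e₁, he₁, hv₁⟩ := exists_common_value hE hπ hconst hall hmem hu₁
  obtain ⟨e₂, he₂, hv₂⟩ := exists_common_value hE hπ hconst hall hmem hu₂
  refine ⟨e₁ / e₂, div_ne_zero he₁ he₂, fun w m => ?_⟩
  refine hE.val_div b _ _ _ _ ?_ (hv₂ w) he₂
  have h1 : rof X w ⟨v, m⟩ * resHom S (Wof X w) (rof X w) (hall w) u₂
      = resHom S (Wof X w) (rof X w) (hall w) u₁ := by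
    rw [resHom_apply, resHom_apply,
      ← rof_mul X w m (hall w u₂.2) ((Wof X w).mul_mem _ _ m (hall w u₂.2))]
    exact rof_congr X w _ _ h
  rw [h1]
  exact hv₁ w

/-- **the field `hv₀`** from a presentation of `v₀` as a unit of the local ring of a triple point
over every `b ∈ X.S` -/
theorem hv₀_of_local (hE : ValGood X.E n)
    (hπ : ∀ (w : Comp) (x : R0) (m : algebraMap R0 F x ∈ Wof X w),
      rof X w ⟨algebraMap R0 F x, m⟩ = algebraMap k κ (π x))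
    (v₀ : F)
    (H : ∀ b ∈ X.S, ∃ (S : Subring F) (𝔪 : Ideal ↥S) (hall : ∀ w : Comp, S ≤ (Wof X w).toSubring),
      (∀ u : ↥S, ∃ (c : R0) (hc : algebraMap R0 F c ∈ S), u - ⟨algebraMap R0 F c, hc⟩ ∈ 𝔪) ∧
      (∀ (w : Comp) (u : ↥S),
        u ∈ 𝔪 ↔ X.E.val b (resHom S (Wof X w) (rof X w) (hall w) u) 0) ∧
      ∃ u₁ u₂ : ↥S, u₁ ∉ 𝔪 ∧ u₂ ∉ 𝔪 ∧ v₀ * (u₂ : F) = (u₁ : F)) :
    ∀ b ∈ X.S, ∃ c : k, c ≠ 0 ∧
      (∀ m, X.E.val b (X.r₂₀ ⟨v₀, m⟩) c) ∧
      (∀ m, X.E.val b (X.r₁₁ ⟨v₀, m⟩) c) ∧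
      (∀ m, X.E.val b (X.r₀₂ ⟨v₀, m⟩) c) := by
  intro b hb
  obtain ⟨S, 𝔪, hall, hconst, hmem, u₁, u₂, hu₁, hu₂, h⟩ := H b hb
  obtain ⟨c, hc, hv⟩ := common_value_of_local hE hπ hconst hall hmem hu₁ hu₂ h
  exact ⟨c, hc, fun m => hv Comp.c20 m, fun m => hv Comp.c11 m, fun m => hv Comp.c02 m⟩

end Fermat.Agent.S36.NewInertiaValue
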