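/-
PROJECT V (S36), slice V-CommonGen, part (A) (helper7): **`LocPrincipal` is intrinsic to the local
ring.**

`A` a noetherian integrally closed domain with fraction field `F`, `m` a prime ideal.

* `Br m` : the set of valuation subrings `A_P ⊆ F`, `P ≤ m` a conductor prime
  (the prime divisors through the point `m`).
* `mem_locSubring_iff_forall_mem_Br` : `A_m = ⋂ Br m` (local Krull intersection).
* `LP ℬ` : every `V ∈ ℬ` has a uniformiser `π ∈ ⋂ ℬ` which is a unit of every other member of `ℬ`.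
* `locPrincipal_iff_LP` : `LocalGenCore.LocPrincipal m ↔ LP (Br m)`.
* `Br_subset_of_locSubring_eq`, `Br_eq_of_locSubring_eq` : **transfer of the conductor primes**: if
  two noetherian integrally closed domains `A`, `A''` with the same fraction field have the same
  local ring `A_m = A''_m''` inside `F`, then `Br m = Br m''`.
* `locPrincipal_of_locSubring_eq` : hence `LocPrincipal m → LocPrincipal m''`.
* `contract`, `locSubring_contract_eq` : **the same local ring in another chart**: if `A'' ⊆ A_m`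
  and `A ⊆ A''_m''` for `m'' := m A_m ∩ A''`, then `A_m = A''_m''`.
-/
import Mathlib
import Fermat.Agent.S36.LocalGenCore
import Fermat.Agent.S36.LocalGenOrd

set_option autoImplicit false
set_option linter.unusedSectionVars false
set_option linter.style.haveILetI false
set_option linter.unusedVariables false

namespace Fermat.Agent.S36.LocalIntrinsic

open Fermat.Agent.S36.KrullInter Fermat.Agent.S36.CentreCore Fermat.Agent.S36.LocalGenOrd

/-! ### The prime divisors through a point -/

section One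

variable {A : Type*} [CommRing A] [IsDomain A] {F : Type*} [Field F] [Algebra A F]
  [IsFractionRing A F] [IsNoetherianRing A] [IsIntegrallyClosed A]

local notation "ι" => algebraMap A F

/-- the prime divisors through `m` : the localisations of `A` at the conductor primes `P ≤ m` -/
def Br (m : Ideal A) : Set (ValuationSubring F) :=
  {V | ∃ (P : Ideal A) (y : F) (h : IsCond P y), P ≤ m ∧ h.valuationSubring = V}

theorem locSubring_le_of_le {P m : Ideal A} [hP : P.IsPrime] [hm : m.IsPrime] (h : P ≤ m) {z : F}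
    (hz : z ∈ locSubring (F := F) m) : z ∈ locSubring (F := F) P := by
  obtain ⟨s, hs, a, ha⟩ := hz
  exact ⟨s, fun hsP => hs (h hsP), a, ha⟩

/-- **local Krull intersection**: `A_m` is the intersection of the prime divisors through `m` -/
theorem mem_locSubring_iff_forall_mem_Br (m : Ideal A) [hm : m.IsPrime] (z : F) :
    z ∈ locSubring (F := F) m ↔ ∀ V ∈ Br (F := F) m, z ∈ V := by
  constructor
  · rintro hz V ⟨P, y, h, hPm, rfl⟩
    haveI := h.prime
    exact locSubring_le_of_le hPm hz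
  · intro hz
    apply mem_locSubring_of_forall_isCond m z
    intro P y h hPm
    exact hz _ ⟨P, y, h, hPm, rfl⟩

theorem algebraMap_mem_of_mem_Br {m : Ideal A} {V : ValuationSubring F} (hV : V ∈ Br (F := F) m)
    (a : A) : ι a ∈ V := by
  obtain ⟨P, y, h, -, rfl⟩ := hV
  exact h.algebraMap_mem a

/-- elements outside `m` are units of every prime divisor through `m` -/
theorem inv_mem_of_mem_Br {m : Ideal A} {V : ValuationSubring F} (hV : V ∈ Br (F := F) m)
    {s : A} (hs : s ∉ m) : (ι s)⁻¹ ∈ V := by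
  obtain ⟨P, y, h, hPm, rfl⟩ := hV
  haveI := h.prime
  exact inv_mem_locSubring (fun hsP => hs (hPm hsP))

/-- **the intrinsic form of local principality** of a set of valuation subrings -/
def LP (ℬ : Set (ValuationSubring F)) : Prop :=
  ∀ V ∈ ℬ, ∃ π : F, (∀ V' ∈ ℬ, π ∈ V') ∧ IsUnif V π ∧ ∀ V' ∈ ℬ, V' ≠ V → π⁻¹ ∈ V'

/-- `LocPrincipal m` only depends on the set of prime divisors through `m` -/
theorem locPrincipal_iff_LP (m : Ideal A) [hm : m.IsPrime] :
    LocalGenCore.LocPrincipal (F := F) m ↔ LP (Br (F := F) m) := by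
  constructor
  · intro hloc V hVmem
    obtain ⟨P, y, h, hPm, rfl⟩ := hVmem
    haveI := h.prime
    obtain ⟨g, hg⟩ := hloc P y h hPm
    have hgl : CentreCore.LocPrincipal m P g := ⟨hg.1, hg.2⟩
    refine ⟨ι g, fun V' hV' => algebraMap_mem_of_mem_Br hV' g,
      isUnif_of_locPrincipal hgl h hPm, ?_⟩
    intro V' hV'mem hne
    obtain ⟨P', y', h', hP'm, rfl⟩ := hV'mem
    haveI := h'.prime
    have hPP' : P' ≠ P := by
      rintro rfl
      exact hne (valuationSubring_eq h' h)
    have hnot : g ∉ P' :=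
      hgl.not_mem_of_ne h.ne_bot hP'm (fun Q hQ hQP => h'.eq_bot_or_eq_of_le Q hQP) hPP'
    exact inv_mem_locSubring hnot
  · intro hLP P z h hPm
    haveI := h.prime
    set V := h.valuationSubring with hV
    have hVB : V ∈ Br (F := F) m := ⟨P, z, h, hPm, rfl⟩
    obtain ⟨π, hπall, hπunif, hπother⟩ := hLP V hVB
    have hπ0 : π ≠ 0 := hπunif.ne_zero
    -- `π ∈ A_m`
    obtain ⟨s, hs, a, ha⟩ := (mem_locSubring_iff_forall_mem_Br m π).2 hπall
    have hs0 : s ≠ 0 := fun h0 => hs (h0 ▸ m.zero_mem)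
    have hιs : ι s ≠ 0 := algebraMap_ne_zero' hs0
    have ha0 : a ≠ 0 := by
      rintro rfl
      rw [map_zero] at ha
      exact (mul_ne_zero hιs hπ0) ha
    have hsV : (ι s)⁻¹ ∈ V := inv_mem_of_mem_Br hVB hs
    have haP : a ∈ P := by
      rw [h.mem_iff_inv_not_mem ha0]
      intro hinv
      apply hπunif.inv_not_mem
      have : π⁻¹ = ι s * (ι a)⁻¹ := by
        rw [← ha, mul_inv, ← mul_assoc, mul_inv_cancel₀ hιs, one_mul]
      rw [this]
      exact V.mul_mem _ _ (h.algebraMap_mem s) hinv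
    refine ⟨a, haP, fun b hb => ?_⟩
    rcases eq_or_ne b 0 with rfl | hb0
    · exact ⟨1, fun h1 => hm.ne_top ((Ideal.eq_top_iff_one m).2 h1), 0, by
        rw [mul_zero, zero_mul]⟩
    -- `ι b / π ∈ A_m`
    have hw : ι b * π⁻¹ ∈ locSubring (F := F) m := by
      rw [mem_locSubring_iff_forall_mem_Br]
      intro V' hV'
      by_cases hVV' : V' = V
      · rw [hVV']
        rcases hπunif.unit_or_div (ι b) (h.algebraMap_mem b) with h1 | h1
        · exact absurd h1 ((h.mem_iff_inv_not_mem hb0).1 hb)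
        · exact h1
      · exact V'.mul_mem _ _ (algebraMap_mem_of_mem_Br hV' b) (hπother V' hV' hVV')
    obtain ⟨s', hs', c, hc⟩ := hw
    refine ⟨s * s', fun hmem => (hm.mem_or_mem hmem).elim hs hs', c, ?_⟩
    apply IsFractionRing.injective A F
    rw [map_mul, map_mul, map_mul, ← ha, ← hc]
    field_simp

end One

/-! ### Transfer between two rings with the same local ring -/

section Two

variable {A : Type*} [CommRing A] [IsDomain A] {F : Type*} [Field F] [Algebra A F]
  [IsFractionRing A F] [IsNoetherianRing A] [IsIntegrallyClosed A]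
  {A' : Type*} [CommRing A'] [IsDomain A'] [Algebra A' F]
  [IsFractionRing A' F] [IsNoetherianRing A'] [IsIntegrallyClosed A']

local notation "ι" => algebraMap A F
local notation "ι'" => algebraMap A' F

/-- **transfer of the conductor primes**: the prime divisors through `m` are prime divisors
through `m'` as soon as `A_m = A'_m'`. -/
theorem Br_subset_of_locSubring_eq (m : Ideal A) [hm : m.IsPrime] (m' : Ideal A')
    [hm' : m'.IsPrime]
    (hR : ∀ z : F, z ∈ locSubring (F := F) m ↔ z ∈ locSubring (F := F) m') :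
    Br (F := F) m ⊆ Br (F := F) m' := by
  classical
  rintro V ⟨P, y, h, hPm, rfl⟩
  haveI := h.prime
  set V := h.valuationSubring with hV
  have hRV : ∀ z : F, z ∈ locSubring (F := F) m' → z ∈ V := fun z hz =>
    locSubring_le_of_le hPm ((hR z).2 hz)
  have hle' : ∀ a' : A', ι' a' ∈ V := fun a' => hRV _ (algebraMap_mem_locSubring m' a')
  have hunit' : ∀ s' : A', s' ∉ m' → (ι' s')⁻¹ ∈ V := fun s' hs' =>
    hRV _ (inv_mem_locSubring hs')
  -- the centre of `V` on `A'`
  set P' : Ideal A' := centre V hle' with hP'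
  have hP'm' : P' ≤ m' := by
    intro a' ha'
    by_contra hnot
    have h1 : ι' a' ∈ V.nonunits := ha'
    rw [ValuationSubring.mem_nonunits_iff_or] at h1
    rcases h1 with h1 | h1
    · have : a' = 0 := (IsFractionRing.injective A' F) (by rw [h1, map_zero])
      exact hnot (this ▸ m'.zero_mem)
    · exact h1 (hunit' a' hnot)
  -- every element of `P'` is multiplied into `A'` by `y`, up to a denominator outside `m'`
  have hmul : ∀ r' ∈ P', ∃ s' : A', s' ∉ m' ∧ ∃ c' : A', ι' s' * (ι' r' * y) = ι' c' := by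
    intro r' hr'
    rcases eq_or_ne r' 0 with rfl | hr'0
    · exact ⟨1, fun h1 => hm'.ne_top ((Ideal.eq_top_iff_one m').2 h1), 0, by
        rw [map_zero, zero_mul, mul_zero]⟩
    have hr'R : ι' r' ∈ locSubring (F := F) m := (hR _).2 (algebraMap_mem_locSubring m' r')
    obtain ⟨σ, hσ, a, ha⟩ := hr'R
    have hσ0 : σ ≠ 0 := fun h0 => hσ (h0 ▸ m.zero_mem)
    have hισ : ι σ ≠ 0 := algebraMap_ne_zero' hσ0
    have hιr' : ι' r' ≠ 0 := algebraMap_ne_zero' hr'0
    have ha0 : a ≠ 0 := by
      rintro rfl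
      rw [map_zero] at ha
      exact (mul_ne_zero hισ hιr') ha
    have haP : a ∈ P := by
      rw [h.mem_iff_inv_not_mem ha0]
      intro hinv
      have h1 : ι' r' ∈ V.nonunits := hr'
      rw [ValuationSubring.mem_nonunits_iff_or] at h1
      rcases h1 with h1 | h1
      · exact hιr' h1
      · apply h1
        have : (ι' r')⁻¹ = ι σ * (ι a)⁻¹ := by
          rw [← ha, mul_inv, ← mul_assoc, mul_inv_cancel₀ hισ, one_mul]
        rw [this]
        exact V.mul_mem _ _ (h.algebraMap_mem σ) hinv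
    obtain ⟨b, hb⟩ := (h.mem_iff a).1 haP
    have hmem : ι' r' * y ∈ locSubring (F := F) m := by
      refine ⟨σ, hσ, b, ?_⟩
      rw [← mul_assoc, ha, hb]
    exact (hR _).1 hmem
  -- a uniform denominator
  obtain ⟨S, hS⟩ := (IsNoetherian.noetherian P' : P'.FG)
  have hSP : ∀ x ∈ S, x ∈ P' := fun x hx => hS ▸ Submodule.subset_span hx
  have hex : ∀ x : A', ∃ s' : A', x ∈ S → s' ∉ m' ∧ ∃ c' : A', ι' s' * (ι' x * y) = ι' c' := by
    intro x
    by_cases hx : x ∈ S
    · obtain ⟨s', hs', hc'⟩ := hmul x (hSP x hx)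
      exact ⟨s', fun _ => ⟨hs', hc'⟩⟩
    · exact ⟨1, fun hh => absurd hh hx⟩
  choose sx hsx using hex
  set s' : A' := ∏ x ∈ S, sx x with hs'
  have hs'm' : s' ∉ m' := by
    intro hmem
    obtain ⟨x, hxS, hx⟩ := Ideal.IsPrime.prod_mem_iff.1 hmem
    exact (hsx x hxS).1 hx
  have huni : ∀ r' ∈ P', ∃ c' : A', ι' r' * (ι' s' * y) = ι' c' := by
    intro r' hr'
    rw [← hS] at hr'
    induction hr' using Submodule.span_induction with
    | mem x hxS =>
      obtain ⟨-, c', hc'⟩ := hsx x hxS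
      refine ⟨(∏ x' ∈ S.erase x, sx x') * c', ?_⟩
      rw [hs', ← Finset.mul_prod_erase S _ hxS, map_mul, map_mul, ← hc']
      ring
    | zero => exact ⟨0, by rw [map_zero, zero_mul]⟩
    | add x x' _ _ hx hx' =>
      obtain ⟨c, hc⟩ := hx
      obtain ⟨c', hc'⟩ := hx'
      exact ⟨c + c', by rw [map_add, add_mul, hc, hc', map_add]⟩
    | smul d x _ hx =>
      obtain ⟨c, hc⟩ := hx
      exact ⟨d * c, by rw [smul_eq_mul, map_mul, mul_assoc, hc, map_mul]⟩
  -- `P'` is the conductor of `ι' s' * y`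
  have hcond : IsCond P' (ι' s' * y) := by
    refine ⟨inferInstance, fun r' => ⟨fun hr' => huni r' hr', ?_⟩⟩
    rintro ⟨c', hc'⟩
    by_contra hr'
    -- `ι' r'` is a unit of `V`
    have hr'0 : r' ≠ 0 := fun h0 => hr' (h0 ▸ P'.zero_mem)
    have hunit : (ι' r')⁻¹ ∈ V := by
      by_contra hnot
      apply hr'
      show ι' r' ∈ V.nonunits
      rw [ValuationSubring.mem_nonunits_iff_or]
      exact Or.inr hnot
    apply h.not_mem
    have hιr' : ι' r' ≠ 0 := algebraMap_ne_zero' hr'0
    have hs'0 : s' ≠ 0 := fun h0 => hs'm' (h0 ▸ m'.zero_mem)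
    have hιs' : ι' s' ≠ 0 := algebraMap_ne_zero' hs'0
    have : y = (ι' r')⁻¹ * (ι' s')⁻¹ * ι' c' := by
      rw [← hc']
      field_simp
    have hmem : (ι' r')⁻¹ * (ι' s')⁻¹ * ι' c' ∈ V :=
      V.mul_mem _ _ (V.mul_mem _ _ hunit (hunit' s' hs'm')) (hle' c')
    have key : ∀ w : F, w = (ι' r')⁻¹ * (ι' s')⁻¹ * ι' c' → w ∈ V := fun w hw => hw ▸ hmem
    exact key y this
  exact ⟨P', ι' s' * y, hcond, hP'm', (eq_valuationSubring_of_centre V hle' hcond rfl).symm⟩

theorem Br_eq_of_locSubring_eq (m : Ideal A) [hm : m.IsPrime] (m' : Ideal A') [hm' : m'.IsPrime]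
    (hR : ∀ z : F, z ∈ locSubring (F := F) m ↔ z ∈ locSubring (F := F) m') :
    Br (F := F) m = Br (F := F) m' :=
  Set.Subset.antisymm (Br_subset_of_locSubring_eq m m' hR)
    (Br_subset_of_locSubring_eq m' m fun z => (hR z).symm)

/-- **`LocPrincipal` transfers between two rings with the same local ring.** -/
theorem locPrincipal_of_locSubring_eq (m : Ideal A) [hm : m.IsPrime] (m' : Ideal A')
    [hm' : m'.IsPrime]
    (hR : ∀ z : F, z ∈ locSubring (F := F) m ↔ z ∈ locSubring (F := F) m')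
    (h : LocalGenCore.LocPrincipal (F := F) m) : LocalGenCore.LocPrincipal (F := F) m' := by
  rw [locPrincipal_iff_LP] at h ⊢
  rwa [← Br_eq_of_locSubring_eq m m' hR]

/-! ### The same point in another chart -/

/-- the contraction `m A_m ∩ A'` of the maximal ideal of `A_m` to a ring `A' ⊆ A_m` -/
def contract (m : Ideal A) [hm : m.IsPrime]
    (hle : ∀ a' : A', ι' a' ∈ locSubring (F := F) m) : Ideal A' where
  carrier := {a' | ∃ s : A, s ∉ m ∧ ∃ a ∈ m, ι s * ι' a' = ι a}
  add_mem' := by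
    rintro x y ⟨s, hs, a, ha, hsa⟩ ⟨t, ht, b, hb, htb⟩
    refine ⟨s * t, fun hmem => (hm.mem_or_mem hmem).elim hs ht, t * a + s * b,
      m.add_mem (m.mul_mem_left t ha) (m.mul_mem_left s hb), ?_⟩
    rw [map_add, map_mul, map_add, map_mul, map_mul, ← hsa, ← htb]
    ring
  zero_mem' := ⟨1, fun h1 => hm.ne_top ((Ideal.eq_top_iff_one m).2 h1), 0, m.zero_mem, by
    rw [map_zero, mul_zero, map_zero]⟩
  smul_mem' := by
    rintro c x ⟨s, hs, a, ha, hsa⟩
    obtain ⟨t, ht, b, hb⟩ := hle c
    refine ⟨s * t, fun hmem => (hm.mem_or_mem hmem).elim hs ht, b * a, m.mul_mem_left b ha, ?_⟩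
    rw [smul_eq_mul, map_mul, map_mul, map_mul, ← hsa, ← hb]
    ring

omit [IsNoetherianRing A] [IsIntegrallyClosed A] [IsNoetherianRing A'] [IsIntegrallyClosed A'] in
theorem mem_contract {m : Ideal A} [hm : m.IsPrime]
    {hle : ∀ a' : A', ι' a' ∈ locSubring (F := F) m} {a' : A'} :
    a' ∈ contract m hle ↔ ∃ s : A, s ∉ m ∧ ∃ a ∈ m, ι s * ι' a' = ι a := Iff.rfl

omit [IsNoetherianRing A] [IsIntegrallyClosed A] [IsNoetherianRing A'] [IsIntegrallyClosed A'] in
/-- outside the contraction: units of `A_m` -/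
theorem not_mem_contract_iff {m : Ideal A} [hm : m.IsPrime]
    {hle : ∀ a' : A', ι' a' ∈ locSubring (F := F) m} {a' : A'} :
    a' ∉ contract m hle ↔ a' ≠ 0 ∧ (ι' a')⁻¹ ∈ locSubring (F := F) m := by
  constructor
  · intro hnot
    have ha'0 : a' ≠ 0 := fun h0 => hnot (h0 ▸ (contract m hle).zero_mem)
    refine ⟨ha'0, ?_⟩
    obtain ⟨s, hs, a, ha⟩ := hle a'
    have ham : a ∉ m := fun ham => hnot ⟨s, hs, a, ham, ha⟩
    have hs0 : s ≠ 0 := fun h0 => hs (h0 ▸ m.zero_mem)
    have hιs : ι s ≠ 0 := algebraMap_ne_zero' hs0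
    have hιa' : ι' a' ≠ 0 := algebraMap_ne_zero' ha'0
    refine ⟨a, ham, s, ?_⟩
    rw [← ha]
    field_simp
  · rintro ⟨ha'0, t, ht, b, hb⟩ ⟨s, hs, a, ha, hsa⟩
    -- `ι t = ι b * ι' a'` and `ι s * ι' a' = ι a` give `s t = b a ∈ m`
    have hιa' : ι' a' ≠ 0 := algebraMap_ne_zero' ha'0
    have h1 : ι (s * t) = ι (b * a) := by
      rw [map_mul, map_mul, ← hsa, ← hb]
      field_simp
    have h2 : s * t = b * a := IsFractionRing.injective A F h1
    have h3 : s * t ∈ m := by rw [h2]; exact m.mul_mem_left b ha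
    exact (hm.mem_or_mem h3).elim hs ht

omit [IsNoetherianRing A] [IsIntegrallyClosed A] [IsNoetherianRing A'] [IsIntegrallyClosed A'] in
theorem contract_isPrime (m : Ideal A) [hm : m.IsPrime]
    (hle : ∀ a' : A', ι' a' ∈ locSubring (F := F) m) : (contract m hle).IsPrime := by
  refine ⟨?_, ?_⟩
  · intro htop
    have h1 : (1 : A') ∈ contract m hle := htop ▸ Submodule.mem_top
    have := (not_mem_contract_iff (m := m) (hle := hle) (a' := 1)).2 ⟨one_ne_zero, by
      rw [map_one, inv_one]; exact Subring.one_mem _⟩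
    exact this h1
  · intro x y hxy
    by_contra hcon
    push Not at hcon
    obtain ⟨hx, hy⟩ := hcon
    obtain ⟨hx0, hxinv⟩ := not_mem_contract_iff.1 hx
    obtain ⟨hy0, hyinv⟩ := not_mem_contract_iff.1 hy
    have : x * y ∉ contract m hle := by
      rw [not_mem_contract_iff]
      refine ⟨mul_ne_zero hx0 hy0, ?_⟩
      rw [map_mul, mul_inv]
      exact Subring.mul_mem _ hxinv hyinv
    exact this hxy

omit [IsNoetherianRing A] [IsIntegrallyClosed A] [IsNoetherianRing A'] [IsIntegrallyClosed A'] in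
/-- **the same local ring**: `A' ⊆ A_m` and `A ⊆ A'_m'` for `m' = m A_m ∩ A'` give `A_m = A'_m'`. -/
theorem locSubring_contract_eq (m : Ideal A) [hm : m.IsPrime]
    (hle : ∀ a' : A', ι' a' ∈ locSubring (F := F) m)
    (hge : haveI := contract_isPrime m hle
      ∀ a : A, ι a ∈ locSubring (F := F) (contract m hle)) (z : F) :
    haveI := contract_isPrime m hle
    z ∈ locSubring (F := F) m ↔ z ∈ locSubring (F := F) (contract m hle) := by
  haveI := contract_isPrime m hle
  constructor
  · rintro ⟨s, hs, a, ha⟩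
    have hs0 : s ≠ 0 := fun h0 => hs (h0 ▸ m.zero_mem)
    have hιs : ι s ≠ 0 := algebraMap_ne_zero' hs0
    -- `ι s` is a unit of `A'_m'`
    obtain ⟨σ', hσ', b', hb'⟩ := hge s
    have hb'not : b' ∉ contract m hle := by
      rw [not_mem_contract_iff]
      obtain ⟨hσ'0, hσ'inv⟩ := not_mem_contract_iff.1 hσ'
      have hb'0 : b' ≠ 0 := by
        rintro rfl
        rw [map_zero] at hb'
        exact (mul_ne_zero (algebraMap_ne_zero' hσ'0) hιs) hb'
      refine ⟨hb'0, ?_⟩
      rw [← hb', mul_inv]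
      exact Subring.mul_mem _ hσ'inv (inv_mem_locSubring hs)
    have hsinv : (ι s)⁻¹ ∈ locSubring (F := F) (contract m hle) := by
      have hσ'0 : σ' ≠ 0 := (not_mem_contract_iff.1 hσ').1
      have : (ι s)⁻¹ = ι' σ' * (ι' b')⁻¹ := by
        rw [← hb', mul_inv, ← mul_assoc, mul_inv_cancel₀ (algebraMap_ne_zero' hσ'0), one_mul]
      rw [this]
      exact Subring.mul_mem _ (algebraMap_mem_locSubring _ σ') (inv_mem_locSubring hb'not)
    have : z = (ι s)⁻¹ * ι a := by
      rw [← ha, ← mul_assoc, inv_mul_cancel₀ hιs, one_mul]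
    rw [this]
    exact Subring.mul_mem _ hsinv (hge a)
  · rintro ⟨s', hs', a', ha'⟩
    obtain ⟨hs'0, hs'inv⟩ := not_mem_contract_iff.1 hs'
    have : z = (ι' s')⁻¹ * ι' a' := by
      rw [← ha', ← mul_assoc, inv_mul_cancel₀ (algebraMap_ne_zero' hs'0), one_mul]
    rw [this]
    exact Subring.mul_mem _ hs'inv (hle a')

end Two

end Fermat.Agent.S36.LocalIntrinsic
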