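/-
PROJECT V (S36), slice V-CommonGen, part (C) (helper7): **semi-local generator of a divisor, in
`HasOrd` form.**

`A` a noetherian integrally closed domain with fraction field `F`, `T` a finite set of prime ideals
of `A` (closed points, not necessarily maximal, not necessarily incomparable), every `m ∈ T`
`LocalGenCore.LocPrincipal`, `n : ValuationSubring F → ℤ` a divisor with finite support.

* `exists_avoid` : prime avoidance for pairwise incomparable primes.
* `exists_semilocal_prime_generator` : a conductor prime `P` has ONE generator `g ∈ P` which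
  generates `P A_m` at every `m ∈ T` containing `P` and is a unit at every `m ∈ T` not containing
  `P` (`T` pairwise incomparable).
* `exists_semilocal_generator` : ONE `t ≠ 0` with `HasOrd V t (n V)` at every prime divisor
  `V ∈ Br m` through every point `m ∈ T`.
-/
import Mathlib
import Fermat.Agent.S36.LocalIntrinsic

set_option autoImplicit false
set_option linter.unusedSectionVars false
set_option linter.style.haveILetI false
set_option linter.unusedVariables false

namespace Fermat.Agent.S36.SemiLocalOrd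

open Fermat.Agent.S36.KrullInter Fermat.Agent.S36.CentreCore Fermat.Agent.S36.LocalGenOrd
  Fermat.Agent.S36.LocalIntrinsic

variable {A : Type*} [CommRing A] [IsDomain A] {F : Type*} [Field F] [Algebra A F]
  [IsFractionRing A F] [IsNoetherianRing A] [IsIntegrallyClosed A]

local notation "ι" => algebraMap A F

/-- **prime avoidance** for pairwise incomparable primes -/
theorem exists_avoid (T : Finset (Ideal A)) (hT : ∀ p ∈ T, p.IsPrime)
    (hinc : ∀ p ∈ T, ∀ q ∈ T, q ≤ p → q = p) (p : Ideal A) (hp : p ∈ T) :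
    ∃ r : A, r ∉ p ∧ ∀ q ∈ T, q ≠ p → r ∈ q := by
  classical
  haveI := hT p hp
  have hex : ∀ q : Ideal A, ∃ x : A, q ∈ T → q ≠ p → x ∈ q ∧ x ∉ p := by
    intro q
    by_cases hq : q ∈ T ∧ q ≠ p
    · have hnle : ¬ q ≤ p := fun hle => hq.2 (hinc p hp q hq.1 hle)
      obtain ⟨x, hxq, hxp⟩ := Set.not_subset.1 hnle
      exact ⟨x, fun _ _ => ⟨hxq, hxp⟩⟩
    · exact ⟨1, fun h1 h2 => absurd ⟨h1, h2⟩ hq⟩
  choose x hx using hex
  refine ⟨∏ q ∈ T.erase p, x q, ?_, ?_⟩
  · intro hmem
    obtain ⟨q, hq, hxq⟩ := Ideal.IsPrime.prod_mem_iff.1 hmem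
    exact (hx q (Finset.mem_of_mem_erase hq) (Finset.ne_of_mem_erase hq)).2 hxq
  · intro q hq hqp
    have hqe : q ∈ T.erase p := Finset.mem_erase.2 ⟨hqp, hq⟩
    rw [← Finset.mul_prod_erase _ _ hqe]
    exact Ideal.mul_mem_right _ _ (hx q hq hqp).1

/-- **semi-local generator of a conductor prime** -/
theorem exists_semilocal_prime_generator (T : Finset (Ideal A)) (hT : ∀ p ∈ T, p.IsPrime)
    (hinc : ∀ p ∈ T, ∀ q ∈ T, q ≤ p → q = p)
    (hloc : ∀ m ∈ T, LocalGenCore.LocPrincipal (F := F) m) {P : Ideal A} {y : F}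
    (h : IsCond P y) :
    ∃ g ∈ P, (∀ m ∈ T, P ≤ m → CentreCore.LocPrincipal m P g) ∧ ∀ m ∈ T, ¬ P ≤ m → g ∉ m := by
  classical
  haveI := h.prime
  -- local data at each point
  have hu : ∀ m : Ideal A, ∃ u : A, m ∈ T → u ∈ P ∧
      (P ≤ m → CentreCore.LocPrincipal m P u) ∧ (¬ P ≤ m → u ∉ m) := by
    intro m
    by_cases hm : m ∈ T
    · by_cases hPm : P ≤ m
      · obtain ⟨g, hg⟩ := hloc m hm P y h hPm
        exact ⟨g, fun _ => ⟨hg.1, fun _ => ⟨hg.1, hg.2⟩, fun hn => absurd hPm hn⟩⟩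
      · obtain ⟨u, huP, hum⟩ := Set.not_subset.1 hPm
        exact ⟨u, fun _ => ⟨huP, fun hh => absurd hh hPm, fun _ => hum⟩⟩
    · exact ⟨0, fun hh => absurd hh hm⟩
  choose u hu using hu
  have hr : ∀ m : Ideal A, ∃ r : A, m ∈ T → r ∉ m ∧ ∀ q ∈ T, q ≠ m → r ∈ q := by
    intro m
    by_cases hm : m ∈ T
    · obtain ⟨r, hr1, hr2⟩ := exists_avoid T hT hinc m hm
      exact ⟨r, fun _ => ⟨hr1, hr2⟩⟩
    · exact ⟨0, fun hh => absurd hh hm⟩
  choose r hr using hr
  set g : A := ∑ m' ∈ T, r m' * u m' with hg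
  have hgP : g ∈ P := P.sum_mem fun m' hm' => P.mul_mem_left _ (hu m' hm').1
  refine ⟨g, hgP, ?_, ?_⟩
  · -- at a point containing `P`
    intro m hm hPm
    haveI := hT m hm
    have hgm : CentreCore.LocPrincipal m P (u m) := (hu m hm).2.1 hPm
    -- comparison of `u m'` with `u m`
    have hcmp : ∀ m' : Ideal A, ∃ s b : A, m' ∈ T → s ∉ m ∧ s * u m' = b * u m ∧
        (m' = m → s = 1 ∧ b = 1) := by
      intro m'
      by_cases hm' : m' ∈ T
      · by_cases hmm : m' = m
        · subst hmm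
          exact ⟨1, 1, fun _ => ⟨fun h1 => (hT m' hm).ne_top ((Ideal.eq_top_iff_one m').2 h1),
            rfl, fun _ => ⟨rfl, rfl⟩⟩⟩
        · obtain ⟨s, hs, b, hb⟩ := hgm.2 (u m') (hu m' hm').1
          exact ⟨s, b, fun _ => ⟨hs, hb, fun hh => absurd hh hmm⟩⟩
      · exact ⟨1, 1, fun hh => absurd hh hm'⟩
    choose s b hsb using hcmp
    set σ : A := ∏ l ∈ T, s l with hσ
    have hσm : σ ∉ m := by
      intro hmem
      obtain ⟨l, hl, hsl⟩ := Ideal.IsPrime.prod_mem_iff.1 hmem
      exact (hsb l hl).1 hsl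
    set c : A := ∑ m' ∈ T, r m' * ((∏ l ∈ T.erase m', s l) * b m') with hc
    have hσg : σ * g = c * u m := by
      rw [hg, hc, Finset.mul_sum, Finset.sum_mul]
      refine Finset.sum_congr rfl fun m' hm' => ?_
      rw [hσ, ← Finset.mul_prod_erase T s hm']
      have := (hsb m' hm').2.1
      calc (s m' * ∏ l ∈ T.erase m', s l) * (r m' * u m')
          = r m' * (∏ l ∈ T.erase m', s l) * (s m' * u m') := by ring
        _ = r m' * (∏ l ∈ T.erase m', s l) * (b m' * u m) := by rw [this]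
        _ = r m' * ((∏ l ∈ T.erase m', s l) * b m') * u m := by ring
    have hcm : c ∉ m := by
      intro hmem
      have hrest : ∑ m' ∈ T.erase m, r m' * ((∏ l ∈ T.erase m', s l) * b m') ∈ m :=
        m.sum_mem fun m' hm' =>
          m.mul_mem_right _ ((hr m' (Finset.mem_of_mem_erase hm')).2 m hm
            (Finset.ne_of_mem_erase hm').symm)
      have hsplit : c = r m * ((∏ l ∈ T.erase m, s l) * b m) +
          ∑ m' ∈ T.erase m, r m' * ((∏ l ∈ T.erase m', s l) * b m') := by
        rw [hc]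
        exact (Finset.add_sum_erase T
          (fun m' => r m' * ((∏ l ∈ T.erase m', s l) * b m')) hm).symm
      rw [hsplit] at hmem
      have h1 : r m * ((∏ l ∈ T.erase m, s l) * b m) ∈ m := by
        have := m.sub_mem hmem hrest
        rwa [add_sub_cancel_right] at this
      rw [((hsb m hm).2.2 rfl).2, mul_one] at h1
      rcases (hT m hm).mem_or_mem h1 with h2 | h2
      · exact (hr m hm).1 h2
      · obtain ⟨l, hl, hsl⟩ := Ideal.IsPrime.prod_mem_iff.1 h2
        exact (hsb l (Finset.mem_of_mem_erase hl)).1 hsl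
    refine ⟨hgP, fun v hv => ?_⟩
    obtain ⟨sv, hsv, bv, hbv⟩ := hgm.2 v hv
    refine ⟨c * sv, fun hmem => ((hT m hm).mem_or_mem hmem).elim hcm hsv, bv * σ, ?_⟩
    calc c * sv * v = c * (sv * v) := by ring
      _ = c * (bv * u m) := by rw [hbv]
      _ = bv * (c * u m) := by ring
      _ = bv * (σ * g) := by rw [hσg]
      _ = bv * σ * g := by ring
  · -- at a point not containing `P`
    intro m hm hPm hgm
    haveI := hT m hm
    have hrest : ∑ m' ∈ T.erase m, r m' * u m' ∈ m :=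
      m.sum_mem fun m' hm' =>
        m.mul_mem_right _ ((hr m' (Finset.mem_of_mem_erase hm')).2 m hm
          (Finset.ne_of_mem_erase hm').symm)
    have hsplit : g = r m * u m + ∑ m' ∈ T.erase m, r m' * u m' := by
      rw [hg]
      exact (Finset.add_sum_erase T (fun m' => r m' * u m') hm).symm
    rw [hsplit] at hgm
    have h1 : r m * u m ∈ m := by
      have := m.sub_mem hgm hrest
      rwa [add_sub_cancel_right] at this
    rcases (hT m hm).mem_or_mem h1 with h2 | h2
    · exact (hr m hm).1 h2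
    · exact (hu m hm).2.2 hPm h2

/-- **semi-local generator of a divisor**, `HasOrd` form -/
theorem exists_semilocal_generator (T : Finset (Ideal A)) (hT : ∀ p ∈ T, p.IsPrime)
    (hloc : ∀ m ∈ T, LocalGenCore.LocPrincipal (F := F) m) (n : ValuationSubring F → ℤ)
    (hfin : {V : ValuationSubring F | n V ≠ 0}.Finite) :
    ∃ t : F, t ≠ 0 ∧ ∀ m ∈ T, ∀ V ∈ Br (F := F) m, HasOrd V t (n V) := by
  classical
  -- the maximal elements of `T`
  set Tm : Finset (Ideal A) := T.filter (fun p => ∀ q ∈ T, p ≤ q → q = p) with hTm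
  have hTmT : ∀ p ∈ Tm, p ∈ T := fun p hp => (Finset.mem_filter.1 hp).1
  have hTmprime : ∀ p ∈ Tm, p.IsPrime := fun p hp => hT p (hTmT p hp)
  have hTminc : ∀ p ∈ Tm, ∀ q ∈ Tm, q ≤ p → q = p := by
    intro p hp q hq hqp
    exact ((Finset.mem_filter.1 hq).2 p (hTmT p hp) hqp).symm
  have hTmloc : ∀ m ∈ Tm, LocalGenCore.LocPrincipal (F := F) m := fun m hm =>
    hloc m (hTmT m hm)
  have hTmle : ∀ p ∈ T, ∃ q ∈ Tm, p ≤ q := by
    intro p hp
    obtain ⟨q, hpq, hq⟩ := T.exists_le_maximal hp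
    refine ⟨q, Finset.mem_filter.2 ⟨hq.1, fun q' hq' hqq' => ?_⟩, hpq⟩
    exact le_antisymm (hq.2 hq' hqq') hqq'
  -- the support
  set 𝒱 : Finset (ValuationSubring F) := hfin.toFinset with h𝒱
  have hmem𝒱 : ∀ V, V ∈ 𝒱 ↔ n V ≠ 0 := fun V => hfin.mem_toFinset
  set 𝒱' : Finset (ValuationSubring F) := 𝒱.filter (fun V => ∃ m ∈ Tm, V ∈ Br (F := F) m)
    with h𝒱'
  -- the chosen generators
  let Good : ValuationSubring F → A → Prop := fun V g =>
    g ∈ cen (A := A) V ∧ (∀ m ∈ Tm, cen (A := A) V ≤ m → CentreCore.LocPrincipal m (cen (A := A) V) g) ∧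
      ∀ m ∈ Tm, ¬ cen (A := A) V ≤ m → g ∉ m
  let π : ValuationSubring F → A := fun V =>
    if hV : ∃ g : A, Good V g then Classical.choose hV else 1
  have hπ : ∀ (P : Ideal A) (y : F) (h : IsCond P y), Good h.valuationSubring (π h.valuationSubring) := by
    intro P y h
    have hex : ∃ g : A, Good h.valuationSubring g := by
      obtain ⟨g, hgP, h1, h2⟩ := exists_semilocal_prime_generator Tm hTmprime hTminc hTmloc h
      refine ⟨g, ?_, ?_, ?_⟩
      · rw [cen_valuationSubring h]; exact hgP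
      · rw [cen_valuationSubring h]; exact h1
      · rw [cen_valuationSubring h]; exact h2
    have : π h.valuationSubring = Classical.choose hex := dif_pos hex
    rw [this]
    exact Classical.choose_spec hex
  have hπ' : ∀ (P : Ideal A) (y : F) (h : IsCond P y), π h.valuationSubring ∈ P ∧
      (∀ m ∈ Tm, P ≤ m → CentreCore.LocPrincipal m P (π h.valuationSubring)) ∧
      ∀ m ∈ Tm, ¬ P ≤ m → π h.valuationSubring ∉ m := by
    intro P y h
    have := hπ P y h
    simp only [Good] at this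
    rw [cen_valuationSubring h] at this
    exact this
  have hπ0 : ∀ V ∈ 𝒱', π V ≠ 0 := by
    intro V hV
    obtain ⟨m, hm, P, y, h, hPm, rfl⟩ := (Finset.mem_filter.1 hV).2
    haveI := hTmprime m hm
    have h1 : CentreCore.LocPrincipal m P (π h.valuationSubring) := (hπ' P y h).2.1 m hm hPm
    exact h1.ne_zero h.ne_bot
  set t : F := ∏ V ∈ 𝒱', (ι (π V)) ^ (n V) with ht
  have ht0 : t ≠ 0 := by
    rw [ht, Finset.prod_ne_zero_iff]
    intro V hV
    exact zpow_ne_zero _ (algebraMap_ne_zero' (hπ0 V hV))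
  refine ⟨t, ht0, ?_⟩
  intro m₀ hm₀ W hW
  -- reduce to a maximal element
  obtain ⟨q, hq, hm₀q⟩ := hTmle m₀ hm₀
  obtain ⟨Q, z, hQ, hQm₀, rfl⟩ := hW
  have hQq : Q ≤ q := hQm₀.trans hm₀q
  haveI := hQ.prime
  haveI := hTmprime q hq
  set W := hQ.valuationSubring with hWdef
  have hWBr : W ∈ Br (F := F) q := ⟨Q, z, hQ, hQq, rfl⟩
  have hunif : IsUnif W z⁻¹ := isUnif_of_isCond hQ
  have hsum : ∑ V ∈ 𝒱', (if V = W then n V else 0) = n W := by
    rw [Finset.sum_ite_eq' 𝒱' W]
    by_cases hW𝒱' : W ∈ 𝒱'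
    · rw [if_pos hW𝒱']
    · rw [if_neg hW𝒱']
      by_contra hne
      apply hW𝒱'
      rw [h𝒱', Finset.mem_filter]
      exact ⟨(hmem𝒱 W).2 (Ne.symm hne), q, hq, hWBr⟩
  rw [← hsum, ht]
  apply HasOrd.prod 𝒱' _ _ hunif
  intro V hV
  obtain ⟨m, hm, P, y, h, hPm, hVeq⟩ := (Finset.mem_filter.1 hV).2
  haveI := h.prime
  have hgood := hπ' P y h
  rw [hVeq] at hgood
  by_cases hVW : V = W
  · rw [if_pos hVW]
    have hPQ : P = Q := eq_of_valuationSubring_eq h hQ (hVeq.trans hVW)
    have hloc1 : CentreCore.LocPrincipal q Q (π V) := by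
      have := hgood.2.1 q hq (hPQ ▸ hQq)
      exact locPrincipal_of_eq this hPQ
    have h1 : HasOrd W (ι (π V)) 1 := HasOrd.of_isUnif (isUnif_of_locPrincipal hloc1 hQ hQq)
    have h2 := h1.zpow (n V)
    rwa [mul_one] at h2
  · rw [if_neg hVW]
    have hPQ : Q ≠ P := by
      intro hQP
      apply hVW
      rw [← hVeq]
      exact valuationSubring_eq_of_eq h hQ hQP.symm
    have hnot : π V ∉ Q := by
      by_cases hPq : P ≤ q
      · have hloc1 : CentreCore.LocPrincipal q P (π V) := hgood.2.1 q hq hPq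
        exact hloc1.not_mem_of_ne h.ne_bot hQq (fun Q' hQ' hQ'Q => hQ.eq_bot_or_eq_of_le Q' hQ'Q)
          hPQ
      · exact fun hmem => hgood.2.2 q hq hPq (hQq hmem)
    have h1 : HasOrd W (ι (π V)) 0 := HasOrd.of_isUnitOf (isUnitOf_algebraMap hQ hnot) hunif
    have h2 := h1.zpow (n V)
    rwa [mul_zero] at h2

end Fermat.Agent.S36.SemiLocalOrd
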