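/-
PROJECT V (S36), slice V-CommonGen, parts (B)(D) (helper7): **one common generator `t₀` of `O(D̄)`
at a finite set of closed points meeting BOTH charts.**

`O` a discrete valuation ring, `K = Frac O` of characteristic zero, `F / K(φ)` finite, `φ`
transcendental.  The two charts `U = {φ ≠ ∞}`, `U' = {φ ≠ 0}` are presented by noetherian integrally
closed domains `A₁`, `A₂` with `range (A₁ → F) = chart O φ`, `range (A₂ → F) = chart O φ⁻¹`.
A semi-local generator lives on ONE ring; the finite set of bad closed points (triple points,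
points with a bad `j`-value, cusps) meets both charts.  Solution: the THIRD CHART
`ψ = (φ - c)⁻¹`, `c : O` avoiding the finitely many values of `φ` at the points: `chart O ψ`
contains all the points, with the same local rings (`LocalIntrinsic.locSubring_contract_eq`), local
principality is intrinsic to the local ring (`LocalIntrinsic.locPrincipal_of_locSubring_eq`), and
`SemiLocalOrd.exists_semilocal_generator` applies on `chart O ψ`.

* `le_locSubring`, `le_locSubring_contract` : the two inclusions `chart O ψ ⊆ A_m`,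
  `A ⊆ (chart O ψ)_m''` for a chart `A` (`range = chart O φ₁`) and a point `m` at which `ψ` is
  regular and `φ₁ = u / w` with `u, w ∈ chart O ψ`, `w` a unit at `m`.
* `exists_common_generator` : `t ≠ 0` with `HasOrd V t (n V)` for every prime divisor `V` through
  every point of `T₁ ⊆ Spec A₁` (`φ - c ∉ m`) and of `T₂ ⊆ Spec A₂` (`1 - c φ⁻¹ ∉ m`, automatic if
  `φ⁻¹ ∈ m`).
-/
import Mathlib
import Fermat.Agent.S36.SemiLocalOrd
import Fermat.Agent.S36.Centre

set_option autoImplicit false
set_option linter.unusedSectionVars false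
set_option linter.style.haveILetI false
set_option linter.unusedVariables false

namespace Fermat.Agent.S36.CommonGen

open Polynomial IntermediateField
open Fermat.Agent.S36.KrullInter Fermat.Agent.S36.CentreCore Fermat.Agent.S36.LocalGenOrd
  Fermat.Agent.S36.LocalIntrinsic Fermat.Agent.S36.ChartRing Fermat.Agent.S36.Centre

variable {O : Type*} [CommRing O] [IsDomain O] [IsDiscreteValuationRing O] {K : Type*} [Field K]
  [Algebra O K] [IsFractionRing O K] [CharZero K] {F : Type*} [Field F] [Algebra K F]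
  [Algebra O F] [IsScalarTower O K F]

/-! ### The same point in the third chart -/

section SamePoint

variable {A : Type*} [CommRing A] [IsDomain A] [Algebra A F] [IsFractionRing A F]
  [IsNoetherianRing A] [IsIntegrallyClosed A]

local notation "ι" => algebraMap A F

theorem algebraMap_mem_chart (φ : F) (c : O) : algebraMap O F c ∈ chart O φ := by
  rw [← coe_constChart φ c]
  exact (constChart φ c).2

theorem self_mem_chart (φ : F) : φ ∈ chart O φ := by
  have h : ((toChart (O := O) φ X : chart O φ) : F) = φ := by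
    rw [coe_toChart, aeval_X]
  have h2 := (toChart (O := O) φ X).2
  rwa [h] at h2

/-- `chart O ψ ⊆ A_m` as soon as `ψ` is regular at `m` -/
theorem le_locSubring {φ₁ ψ : F} (hA : ∀ x : F, (∃ a : A, ι a = x) ↔ x ∈ chart O φ₁)
    (m : Ideal A) [hm : m.IsPrime] (hψm : ψ ∈ locSubring (F := F) m) (a'' : chart O ψ) :
    algebraMap (chart O ψ) F a'' ∈ locSubring (F := F) m := by
  rw [mem_locSubring_iff_forall_mem_Br]
  intro V hV
  refine mem_of_mem_chart a''.2 V (fun c => ?_) ((mem_locSubring_iff_forall_mem_Br m ψ).1 hψm V hV)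
  obtain ⟨a, ha⟩ := (hA _).2 (algebraMap_mem_chart φ₁ c)
  rw [← ha]
  exact algebraMap_mem_of_mem_Br hV a

/-- `A ⊆ (chart O ψ)_m''` for `m'' = m A_m ∩ chart O ψ`, as soon as `φ₁ = u / w` with
`u, w ∈ chart O ψ` and `w` a unit at `m` -/
theorem le_locSubring_contract {φ₁ ψ : F} (hA : ∀ x : F, (∃ a : A, ι a = x) ↔ x ∈ chart O φ₁)
    [IsNoetherianRing (chart O ψ)] [IsIntegrallyClosed (chart O ψ)]
    [IsFractionRing (chart O ψ) F] (m : Ideal A) [hm : m.IsPrime]
    (hle : ∀ a'' : chart O ψ, algebraMap (chart O ψ) F a'' ∈ locSubring (F := F) m)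
    {u w : F} (hu : u ∈ chart O ψ) (hw : w ∈ chart O ψ) (hw0 : w ≠ 0) (hφ₁ : φ₁ * w = u)
    (hwm : w⁻¹ ∈ locSubring (F := F) m) (a : A) :
    haveI := contract_isPrime m hle
    ι a ∈ locSubring (F := F) (contract m hle) := by
  haveI := contract_isPrime m hle
  rw [mem_locSubring_iff_forall_mem_Br]
  intro V hV
  have hwnot : (⟨w, hw⟩ : chart O ψ) ∉ contract m hle := by
    rw [not_mem_contract_iff]
    exact ⟨fun h0 => hw0 (congrArg Subtype.val h0), hwm⟩
  have hwV : w⁻¹ ∈ V := inv_mem_of_mem_Br hV hwnot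
  have huV : u ∈ V := algebraMap_mem_of_mem_Br hV (⟨u, hu⟩ : chart O ψ)
  have hφ₁V : φ₁ ∈ V := by
    have : φ₁ = u * w⁻¹ := by rw [← hφ₁, mul_assoc, mul_inv_cancel₀ hw0, mul_one]
    rw [this]
    exact V.mul_mem _ _ huV hwV
  refine mem_of_mem_chart ((hA _).1 ⟨a, rfl⟩) V (fun c => ?_) hφ₁V
  have h1 := algebraMap_mem_of_mem_Br hV (constChart (O := O) ψ c)
  rwa [show algebraMap (chart O ψ) F (constChart ψ c) = algebraMap O F c from
    coe_constChart ψ c] at h1

end SamePoint

/-! ### Transcendence of the third chart function -/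

omit [IsDomain O] [IsDiscreteValuationRing O] [IsFractionRing O K] [CharZero K] in
theorem sub_ne_zero_of_transcendental {φ : F} (hφ : Transcendental K φ) (c : O) :
    φ - algebraMap O F c ≠ 0 := by
  intro h0
  apply hφ
  have : φ = algebraMap K F (algebraMap O K c) := by
    rw [← IsScalarTower.algebraMap_apply O K F]
    exact sub_eq_zero.1 h0
  rw [this]
  exact isAlgebraic_algebraMap _

omit [IsDomain O] [IsDiscreteValuationRing O] [IsFractionRing O K] [CharZero K] in
theorem transcendental_inv_sub {φ : F} (hφ : Transcendental K φ) (c : O) :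
    Transcendental K (φ - algebraMap O F c)⁻¹ := by
  intro halg
  apply hφ
  have h1 : IsAlgebraic K (φ - algebraMap O F c) := by
    have := halg.inv
    rwa [inv_inv] at this
  have h2 : IsAlgebraic K (algebraMap O F c) := by
    rw [IsScalarTower.algebraMap_apply O K F]
    exact isAlgebraic_algebraMap _
  have := h1.add h2
  rwa [sub_add_cancel] at this

/-! ### The common generator -/

section Main

variable {A₁ : Type*} [CommRing A₁] [IsDomain A₁] [Algebra A₁ F] [IsFractionRing A₁ F]
  [IsNoetherianRing A₁] [IsIntegrallyClosed A₁]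
  {A₂ : Type*} [CommRing A₂] [IsDomain A₂] [Algebra A₂ F] [IsFractionRing A₂ F]
  [IsNoetherianRing A₂] [IsIntegrallyClosed A₂]

/-- **The common generator across the two charts.** -/
theorem exists_common_generator {φ : F} (hφ : Transcendental K φ) [FiniteDimensional K⟮φ⟯ F]
    (hA₁ : ∀ x : F, (∃ a : A₁, algebraMap A₁ F a = x) ↔ x ∈ chart O φ)
    (hA₂ : ∀ x : F, (∃ a : A₂, algebraMap A₂ F a = x) ↔ x ∈ chart O φ⁻¹) (c : O)
    (T₁ : Finset (Ideal A₁))
    (hT₁ : ∀ m ∈ T₁, m.IsPrime ∧ LocalGenCore.LocPrincipal (F := F) m ∧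
      ∀ a : A₁, algebraMap A₁ F a = φ - algebraMap O F c → a ∉ m)
    (T₂ : Finset (Ideal A₂))
    (hT₂ : ∀ m ∈ T₂, m.IsPrime ∧ LocalGenCore.LocPrincipal (F := F) m ∧
      ∀ a : A₂, algebraMap A₂ F a = 1 - algebraMap O F c * φ⁻¹ → a ∉ m)
    (n : ValuationSubring F → ℤ) (hfin : {V : ValuationSubring F | n V ≠ 0}.Finite) :
    ∃ t : F, t ≠ 0 ∧ (∀ m ∈ T₁, ∀ V ∈ Br (F := F) m, HasOrd V t (n V)) ∧
      ∀ m ∈ T₂, ∀ V ∈ Br (F := F) m, HasOrd V t (n V) := by
  classical
  have hφc : φ - algebraMap O F c ≠ 0 := sub_ne_zero_of_transcendental hφ c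
  have hφ0 : φ ≠ 0 := by
    have := sub_ne_zero_of_transcendental hφ (0 : O)
    rwa [map_zero, sub_zero] at this
  set ψ : F := (φ - algebraMap O F c)⁻¹ with hψdef
  have hψ0 : ψ ≠ 0 := inv_ne_zero hφc
  have hψ : Transcendental K ψ := transcendental_inv_sub hφ c
  haveI : FiniteDimensional K⟮ψ⟯ F := finiteDimensional_of_transcendental φ ψ hψ
  haveI := chart_isNoetherianRing (O := O) hψ
  haveI := chart_isIntegrallyClosed (O := O) hψ
  haveI := chart_isFractionRing (O := O) hψ
  -- elements of the third chart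
  have hψmem : ψ ∈ chart O ψ := self_mem_chart ψ
  have h1cψ : 1 + algebraMap O F c * ψ ∈ chart O ψ :=
    Subalgebra.add_mem _ (Subalgebra.one_mem _)
      (Subalgebra.mul_mem _ (algebraMap_mem_chart ψ c) hψmem)
  have hφψ : φ * ψ = 1 + algebraMap O F c * ψ := by
    have : φ = (φ - algebraMap O F c) + algebraMap O F c := by ring
    conv_lhs => rw [this]
    rw [add_mul, hψdef, mul_inv_cancel₀ hφc]
  -- the points of the first chart in the third chart
  have h₁ : ∀ m ∈ T₁, ∃ (m'' : Ideal (chart O ψ)) (hm'' : m''.IsPrime),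
      LocalGenCore.LocPrincipal (F := F) m'' ∧ Br (F := F) m = Br (F := F) m'' := by
    intro m hm
    obtain ⟨hmp, hmloc, hmc⟩ := hT₁ m hm
    haveI := hmp
    obtain ⟨a₀, ha₀⟩ := (hA₁ _).2 (show φ - algebraMap O F c ∈ chart O φ from
      Subalgebra.sub_mem _ (self_mem_chart φ) (algebraMap_mem_chart φ c))
    have ha₀m : a₀ ∉ m := hmc a₀ ha₀
    have hψm : ψ ∈ locSubring (F := F) m := by
      rw [hψdef, ← ha₀]
      exact inv_mem_locSubring ha₀m
    have hle := le_locSubring (O := O) hA₁ m hψm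
    have hwm : ψ⁻¹ ∈ locSubring (F := F) m := by
      rw [hψdef, inv_inv, ← ha₀]
      exact algebraMap_mem_locSubring m a₀
    have hge := le_locSubring_contract (O := O) hA₁ m hle h1cψ hψmem hψ0 hφψ hwm
    haveI := contract_isPrime m hle
    have hR := locSubring_contract_eq m hle hge
    exact ⟨contract m hle, contract_isPrime m hle,
      locPrincipal_of_locSubring_eq m (contract m hle) hR hmloc,
      Br_eq_of_locSubring_eq m (contract m hle) hR⟩
  -- the points of the second chart in the third chart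
  have h₂ : ∀ m ∈ T₂, ∃ (m'' : Ideal (chart O ψ)) (hm'' : m''.IsPrime),
      LocalGenCore.LocPrincipal (F := F) m'' ∧ Br (F := F) m = Br (F := F) m'' := by
    intro m hm
    obtain ⟨hmp, hmloc, hmc⟩ := hT₂ m hm
    haveI := hmp
    obtain ⟨a₁, ha₁⟩ := (hA₂ _).2 (self_mem_chart (O := O) φ⁻¹)
    obtain ⟨a₂, ha₂⟩ := (hA₂ _).2 (show 1 - algebraMap O F c * φ⁻¹ ∈ chart O φ⁻¹ from
      Subalgebra.sub_mem _ (Subalgebra.one_mem _)
        (Subalgebra.mul_mem _ (algebraMap_mem_chart φ⁻¹ c) (self_mem_chart φ⁻¹)))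
    have ha₂m : a₂ ∉ m := hmc a₂ ha₂
    have hkey : ψ = φ⁻¹ * (1 - algebraMap O F c * φ⁻¹)⁻¹ := by
      rw [hψdef, ← mul_inv]
      congr 1
      field_simp
    have hψm : ψ ∈ locSubring (F := F) m := by
      rw [hkey, show φ⁻¹ * (1 - algebraMap O F c * φ⁻¹)⁻¹ =
        algebraMap A₂ F a₁ * (algebraMap A₂ F a₂)⁻¹ by rw [ha₁, ha₂]]
      exact Subring.mul_mem _ (algebraMap_mem_locSubring m a₁) (inv_mem_locSubring ha₂m)
    have hle := le_locSubring (O := O) hA₂ m hψm
    have hw0 : 1 + algebraMap O F c * ψ ≠ 0 := by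
      rw [← hφψ]
      exact mul_ne_zero hφ0 hψ0
    have hrel : φ⁻¹ * (1 + algebraMap O F c * ψ) = ψ := by
      rw [← hφψ, ← mul_assoc, inv_mul_cancel₀ hφ0, one_mul]
    have hwm : (1 + algebraMap O F c * ψ)⁻¹ ∈ locSubring (F := F) m := by
      have : (1 + algebraMap O F c * ψ)⁻¹ = 1 - algebraMap O F c * φ⁻¹ := by
        rw [← hφψ, hψdef]
        field_simp
      rw [this, ← ha₂]
      exact algebraMap_mem_locSubring m a₂
    have hge := le_locSubring_contract (O := O) hA₂ m hle hψmem h1cψ hw0 hrel hwm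
    haveI := contract_isPrime m hle
    have hR := locSubring_contract_eq m hle hge
    exact ⟨contract m hle, contract_isPrime m hle,
      locPrincipal_of_locSubring_eq m (contract m hle) hR hmloc,
      Br_eq_of_locSubring_eq m (contract m hle) hR⟩
  -- the finite set of points of the third chart
  let f₁ : Ideal A₁ → Ideal (chart O ψ) := fun m =>
    if hm : m ∈ T₁ then Classical.choose (h₁ m hm) else ⊥
  let f₂ : Ideal A₂ → Ideal (chart O ψ) := fun m =>
    if hm : m ∈ T₂ then Classical.choose (h₂ m hm) else ⊥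
  have hf₁ : ∀ m (hm : m ∈ T₁), (f₁ m).IsPrime ∧ LocalGenCore.LocPrincipal (F := F) (f₁ m) ∧
      Br (F := F) m = Br (F := F) (f₁ m) := by
    intro m hm
    have : f₁ m = Classical.choose (h₁ m hm) := dif_pos hm
    rw [this]
    obtain ⟨hp, hl, hb⟩ := Classical.choose_spec (h₁ m hm)
    exact ⟨hp, hl, hb⟩
  have hf₂ : ∀ m (hm : m ∈ T₂), (f₂ m).IsPrime ∧ LocalGenCore.LocPrincipal (F := F) (f₂ m) ∧
      Br (F := F) m = Br (F := F) (f₂ m) := by
    intro m hm
    have : f₂ m = Classical.choose (h₂ m hm) := dif_pos hm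
    rw [this]
    obtain ⟨hp, hl, hb⟩ := Classical.choose_spec (h₂ m hm)
    exact ⟨hp, hl, hb⟩
  set T : Finset (Ideal (chart O ψ)) := T₁.image f₁ ∪ T₂.image f₂ with hT
  have hTp : ∀ p ∈ T, p.IsPrime ∧ LocalGenCore.LocPrincipal (F := F) p := by
    intro p hp
    rcases Finset.mem_union.1 hp with h | h
    · obtain ⟨m, hm, rfl⟩ := Finset.mem_image.1 h
      exact ⟨(hf₁ m hm).1, (hf₁ m hm).2.1⟩
    · obtain ⟨m, hm, rfl⟩ := Finset.mem_image.1 h
      exact ⟨(hf₂ m hm).1, (hf₂ m hm).2.1⟩
  obtain ⟨t, ht0, ht⟩ := SemiLocalOrd.exists_semilocal_generator (F := F) T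
    (fun p hp => (hTp p hp).1) (fun p hp => (hTp p hp).2) n hfin
  refine ⟨t, ht0, fun m hm V hV => ?_, fun m hm V hV => ?_⟩
  · rw [(hf₁ m hm).2.2] at hV
    exact ht (f₁ m) (Finset.mem_union_left _ (Finset.mem_image_of_mem f₁ hm)) V hV
  · rw [(hf₂ m hm).2.2] at hV
    exact ht (f₂ m) (Finset.mem_union_right _ (Finset.mem_image_of_mem f₂ hm)) V hV

end Main

end Fermat.Agent.S36.CommonGen
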