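/-
PROJECT V (S36), slice V-LocalGenV (helper7): **the (V14) → (V16) adapter: valuative local
generators of `O(D̄)` on a finite cover of the special fibre of a chart.**

Setting of `FormalLift/Lattice.lean` (helper24): `O → K → F`, vertical valuation subrings `Vert`,
horizontal places `S ⊆ Place K F`, chart ring `ring Vert S ⊆ F`.  The chart ring is presented by an
abstract noetherian integrally closed domain `A` with `Frac A = F` and
`range (A → F) = ring Vert S` (`A = ChartRing.chart O φ`, or `ring Vert S` itself).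

Inputs:
* `(L)`  `LocalGenCore.LocPrincipal m` at every maximal ideal `m ∋ q` of `A`
  (`AllPoints.locPrincipal_of_isMaximal`: every closed point of the special fibre is factorial);
* `(DV)` every `V ∈ Vert` is the localisation of `A` at a conductor prime
  (`exists_isCond_valuationSubring_eq`: true when the centre of `V` has a generic local equation);
* `(DH)` every place `v ∈ S` is the localisation of `A` at a conductor prime
  (`horizontal_dict`: true under `CentreCore.HDim q`);
* `(N)`  `q` is a unit of every place and of no `V ∈ Vert`.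

Output (`exists_valuative_generators`): LITERALLY the fields `g`, `hg0`, `hcover`, `s`, `hs0`,
`hsW`, `hsv` of `Lattice.VInput` (and `i₀` for any `w₀`).  Engine: helper10's
`LocalGenOrd.exists_finite_cover` (exact orders at EVERY conductor prime off `g`), applied to the
divisor function `nOf D V := -D v` if `V = v.toValuationSubring`, `0` otherwise, and the bridge
`ord_eq_of_hasOrd : HasOrd v.toValuationSubring t m → v.ord t = m` for the Prelude `Place`.
-/
import Mathlib
import Fermat.Agent.S36.LocalGenCore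
import Fermat.Agent.S36.LocalGenOrd
import Fermat.Agent.S36.FormalLift.Lattice

set_option autoImplicit false
set_option linter.unusedSectionVars false
set_option linter.style.haveILetI false
set_option linter.unusedVariables false

namespace Fermat.Agent.S36.LocalGenV

open AlgebraicCurve Fermat.Agent.S36.KrullInter Fermat.Agent.S36.CentreCore
  Fermat.Agent.S36.LocalGenOrd

/-! ### The bridge `HasOrd → Place.ord` -/

section Bridge

variable {K F : Type*} [Field K] [Field F] [Algebra K F]

theorem ord_eq_zero_of_isUnitOf (v : Place K F) {u : F}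
    (hu : IsUnitOf v.toValuationSubring u) : v.ord u = 0 := by
  have h1 : 0 ≤ v.ord u := (Lattice.mem_iff_ord v hu.1).1 hu.2.1
  have h2 : 0 ≤ v.ord u⁻¹ := (Lattice.mem_iff_ord v (inv_ne_zero hu.1)).1 hu.2.2
  rw [v.ord_inv] at h2
  omega

/-- a place has an element of order one -/
theorem exists_ord_eq_one (v : Place K F) :
    ∃ π : F, π ∈ v.toValuationSubring ∧ v.ord π = 1 := by
  obtain ⟨π, hπ⟩ := IsDiscreteValuationRing.exists_irreducible v.toValuationSubring
  refine ⟨(π : F), π.2, ?_⟩
  rw [Fermat.Agent.S24.Ord.ord_eq, v.adicValuation_coe_irreducible hπ, WithZero.log_exp]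
  norm_num

/-- a uniformiser of the valuation subring of a place has order one -/
theorem ord_eq_one_of_isUnif (v : Place K F) {ϖ : F} (h : IsUnif v.toValuationSubring ϖ) :
    v.ord ϖ = 1 := by
  have h0 := h.ne_zero
  have h1 : 0 ≤ v.ord ϖ := (Lattice.mem_iff_ord v h0).1 h.mem
  have h2 : ¬ 0 ≤ v.ord ϖ⁻¹ := fun hh =>
    h.inv_not_mem ((Lattice.mem_iff_ord v (inv_ne_zero h0)).2 hh)
  rw [v.ord_inv] at h2
  obtain ⟨π, hπV, hπ1⟩ := exists_ord_eq_one v
  have hπ0 : π ≠ 0 := by
    rintro rfl
    rw [v.ord_zero] at hπ1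
    exact absurd hπ1 (by norm_num)
  rcases h.unit_or_div π hπV with h3 | h3
  · have := (Lattice.mem_iff_ord v (inv_ne_zero hπ0)).1 h3
    rw [v.ord_inv, hπ1] at this
    omega
  · have := (Lattice.mem_iff_ord v (mul_ne_zero hπ0 (inv_ne_zero h0))).1 h3
    rw [v.ord_mul hπ0 (inv_ne_zero h0), v.ord_inv, hπ1] at this
    omega

theorem ord_zpow (v : Place K F) (f : F) (k : ℤ) : v.ord (f ^ k) = k * v.ord f := by
  cases k with
  | ofNat k =>
    rw [Int.ofNat_eq_natCast, zpow_natCast, Fermat.Agent.S18.CoreOrd.ord_pow]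
  | negSucc k =>
    rw [zpow_negSucc, v.ord_inv, Fermat.Agent.S18.CoreOrd.ord_pow, Int.negSucc_eq]
    push_cast
    ring

/-- **The bridge**: an order in the sense of `LocalGenOrd.HasOrd` at the valuation subring of a
place is the order of the place. -/
theorem ord_eq_of_hasOrd (v : Place K F) {t : F} {m : ℤ}
    (h : HasOrd v.toValuationSubring t m) : v.ord t = m := by
  obtain ⟨ϖ, hϖ, hu⟩ := h
  have h0 := ord_eq_zero_of_isUnitOf v hu
  have ht0 : t ≠ 0 := left_ne_zero_of_mul hu.1
  have hϖ0 := hϖ.ne_zero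
  rw [v.ord_mul ht0 (zpow_ne_zero _ hϖ0), ord_zpow, ord_eq_one_of_isUnif v hϖ] at h0
  omega

/-- a function of order zero at a place is a unit of its valuation subring -/
theorem inv_mem_of_ord_eq_zero (v : Place K F) {g : F} (hg0 : g ≠ 0) (h : v.ord g = 0) :
    g⁻¹ ∈ v.toValuationSubring := by
  rw [Lattice.mem_iff_ord v (inv_ne_zero hg0), v.ord_inv, h]
  norm_num

/-! ### The divisor as a function on valuation subrings -/

/-- `-D v` at the valuation subring of the place `v`, zero elsewhere -/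
noncomputable def nOf (D : Place K F → ℤ) (V : ValuationSubring F) : ℤ := by
  classical
  exact if h : ∃ v : Place K F, v.toValuationSubring = V then -D (Classical.choose h) else 0

theorem nOf_place (D : Place K F → ℤ) (v : Place K F) : nOf D v.toValuationSubring = -D v := by
  have h : ∃ w : Place K F, w.toValuationSubring = v.toValuationSubring := ⟨v, rfl⟩
  unfold nOf
  rw [dif_pos h, Place.toValuationSubring_injective (Classical.choose_spec h)]

theorem nOf_eq_zero (D : Place K F → ℤ) {V : ValuationSubring F}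
    (h : ¬ ∃ v : Place K F, v.toValuationSubring = V) : nOf D V = 0 := by
  unfold nOf
  rw [dif_neg h]

theorem nOf_finite (D : Place K F → ℤ) (hD : {v : Place K F | D v ≠ 0}.Finite) :
    {V : ValuationSubring F | nOf D V ≠ 0}.Finite := by
  apply (hD.image Place.toValuationSubring).subset
  intro V hV
  by_cases h : ∃ v : Place K F, v.toValuationSubring = V
  · obtain ⟨v, rfl⟩ := h
    change nOf D v.toValuationSubring ≠ 0 at hV
    rw [nOf_place] at hV
    exact ⟨v, fun h0 => hV (by rw [h0, neg_zero]), rfl⟩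
  · exact absurd (nOf_eq_zero D h) hV

/-- a divisor has finite support -/
theorem finite_support_divisor (D : Divisor K F) : {v : Place K F | D v ≠ 0}.Finite :=
  D.support.finite_toSet.subset fun v hv => Finset.mem_coe.2 (Finsupp.mem_support_iff.2 hv)

end Bridge

/-! ### The dictionary: vertical and horizontal valuation subrings are localisations -/

section Dict

variable {A : Type*} [CommRing A] [IsDomain A] {F : Type*} [Field F] [Algebra A F]
  [IsFractionRing A F] [IsNoetherianRing A] [IsIntegrallyClosed A]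

local notation "ι" => algebraMap A F

omit [IsIntegrallyClosed A] in
/-- **a prime with a generic local equation is a conductor prime**: `P A_P = y A_P`. -/
theorem exists_isCond_of_generic_equation (P : Ideal A) [hP : P.IsPrime] {y : A} (hy0 : y ≠ 0)
    (hyP : y ∈ P) (e : ∀ a ∈ P, ∃ s : A, s ∉ P ∧ ∃ b : A, s * a = b * y) :
    ∃ z : F, IsCond P z := by
  classical
  obtain ⟨S, hS⟩ := (IsNoetherian.noetherian P : P.FG)
  have hSP : ∀ x ∈ S, x ∈ P := fun x hx => hS ▸ Submodule.subset_span hx
  have hex : ∀ x : A, ∃ s : A, x ∈ S → s ∉ P ∧ ∃ b : A, s * x = b * y := by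
    intro x
    by_cases hx : x ∈ S
    · obtain ⟨s, hs, hb⟩ := e x (hSP x hx)
      exact ⟨s, fun _ => ⟨hs, hb⟩⟩
    · exact ⟨1, fun h => absurd h hx⟩
  choose sx hsx using hex
  set s : A := ∏ x ∈ S, sx x with hs
  have hsP : s ∉ P := by
    intro hmem
    obtain ⟨x, hxS, hx⟩ := Ideal.IsPrime.prod_mem_iff.1 hmem
    exact (hsx x hxS).1 hx
  have hsmul : ∀ a ∈ P, ∃ b : A, s * a = b * y := by
    intro a ha
    rw [← hS] at ha
    induction ha using Submodule.span_induction with
    | mem x hxS =>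
      obtain ⟨-, b, hb⟩ := hsx x hxS
      refine ⟨(∏ x' ∈ S.erase x, sx x') * b, ?_⟩
      rw [hs, ← Finset.mul_prod_erase S _ hxS, mul_assoc, mul_comm (∏ x' ∈ S.erase x, sx x') x,
        ← mul_assoc, hb]
      ring
    | zero => exact ⟨0, by rw [mul_zero, zero_mul]⟩
    | add x x' _ _ hx hx' =>
      obtain ⟨b, hb⟩ := hx
      obtain ⟨b', hb'⟩ := hx'
      exact ⟨b + b', by rw [mul_add, hb, hb', add_mul]⟩
    | smul c x _ hx =>
      obtain ⟨b, hb⟩ := hx
      exact ⟨c * b, by rw [smul_eq_mul, mul_left_comm, hb, mul_assoc]⟩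
  have hιy : ι y ≠ 0 := algebraMap_ne_zero' hy0
  refine ⟨ι s / ι y, hP, fun r => ⟨fun hr => ?_, ?_⟩⟩
  · obtain ⟨b, hb⟩ := hsmul r hr
    refine ⟨b, ?_⟩
    rw [mul_div_assoc', div_eq_iff hιy, ← map_mul, ← map_mul, mul_comm r s, hb]
  · rintro ⟨a, ha⟩
    rw [mul_div_assoc', div_eq_iff hιy, ← map_mul, ← map_mul] at ha
    have h1 : r * s = a * y := IsFractionRing.injective A F ha
    have h2 : r * s ∈ P := by rw [h1]; exact P.mul_mem_left a hyP
    exact (hP.mem_or_mem h2).resolve_right hsP

/-- **vertical dictionary**: a valuation subring `V ⊇ A` whose centre `P` has a generic local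
equation is the localisation of `A` at the conductor prime `P`. -/
theorem exists_isCond_valuationSubring_eq (V : ValuationSubring F) (hle : ∀ a : A, ι a ∈ V)
    (P : Ideal A) [hP : P.IsPrime] (hc : centre V hle = P) {y : A} (hy0 : y ≠ 0) (hyP : y ∈ P)
    (e : ∀ a ∈ P, ∃ s : A, s ∉ P ∧ ∃ b : A, s * a = b * y) :
    ∃ (P' : Ideal A) (z : F) (h : IsCond P' z), h.valuationSubring = V := by
  obtain ⟨z, hz⟩ := exists_isCond_of_generic_equation (F := F) P hy0 hyP e
  exact ⟨P, z, hz, (eq_valuationSubring_of_centre V hle hz hc).symm⟩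

/-- **horizontal dictionary**: under `HDim q` a valuation subring `v ⊇ A`, `v ≠ ⊤`, of which `q` is
a unit is the localisation of `A` at a conductor prime. -/
theorem horizontal_dict {q : A} (hq0 : q ≠ 0) (hd : HDim q) (v : ValuationSubring F)
    (hle : ∀ a : A, ι a ∈ v) (htop : v ≠ ⊤) (hq : (ι q)⁻¹ ∈ v) :
    ∃ (P : Ideal A) (z : F) (h : IsCond P z), h.valuationSubring = v := by
  have hh : Horizontal q v := ⟨hle, htop, hq⟩
  obtain ⟨y, hc, hv⟩ := hh.exists_eq_valuationSubring hq0 hd
  exact ⟨_, y, hc, hv.symm⟩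

end Dict

/-! ### The adapter -/

section Adapter

variable {O K F : Type*} [CommRing O] [Field K] [Field F] [Algebra O K] [Algebra K F]
  [Algebra O F] [IsScalarTower O K F]

variable {A : Type*} [CommRing A] [IsDomain A] [Algebra A F] [IsFractionRing A F]
  [IsNoetherianRing A] [IsIntegrallyClosed A]

local notation "ι" => algebraMap A F

/-- **(V14) → (V16), general form.**  `A` presents the chart ring `ring Vert S`; `q : A` is a unit
of every place and of no vertical valuation subring; every closed point of `{q = 0}` is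
`LocPrincipal`; vertical and horizontal valuation subrings are localisations at conductor primes.
Then the special fibre has a finite cover by principal opens `D(g i)` carrying valuative
generators `s i` of `O(D̄)`. -/
theorem exists_valuative_generators_aux (Vert : Set (ValuationSubring F)) (S : Set (Place K F))
    (hA : ∀ x : F, x ∈ Lattice.ring Vert S ↔ ∃ a : A, ι a = x)
    (q : A) (hq0 : q ≠ 0)
    (hqK : ∀ v : Place K F, (ι q)⁻¹ ∈ v.toValuationSubring)
    (hqV : ∀ V ∈ Vert, (ι q)⁻¹ ∉ V)
    (D : Place K F → ℤ) (hD : {v : Place K F | D v ≠ 0}.Finite)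
    (hloc : ∀ m : Ideal A, m.IsMaximal → q ∈ m → LocalGenCore.LocPrincipal (F := F) m)
    (hV : ∀ V ∈ Vert, ∃ (P : Ideal A) (y : F) (h : IsCond P y), h.valuationSubring = V)
    (hS : ∀ v ∈ S, ∃ (P : Ideal A) (y : F) (h : IsCond P y),
      h.valuationSubring = v.toValuationSubring) :
    ∃ (r : ℕ) (g : Fin r → A) (s : Fin r → F),
      (∀ i, g i ≠ 0) ∧
      Ideal.span (Set.range g) ⊔ Ideal.span {q} = ⊤ ∧
      (∀ i, s i ≠ 0) ∧
      (∀ i, ∀ V ∈ Vert, (ι (g i))⁻¹ ∈ V → s i ∈ V ∧ (s i)⁻¹ ∈ V) ∧
      (∀ i, ∀ v ∈ S, v.ord (ι (g i)) = 0 → v.ord (s i) = -D v) ∧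
      (∀ V ∈ Vert, ∃ i, (ι (g i))⁻¹ ∈ V) := by
  classical
  -- the finite cover by pieces
  obtain ⟨T, hT, hspan⟩ := LocalGenOrd.exists_finite_cover (F := F) q (nOf D) (nOf_finite D hD)
    (fun x hx hqx P y h hPx _ => by
      obtain ⟨g, hg⟩ := hloc x hx hqx P y h hPx
      exact ⟨g, hg.1, hg.2⟩)
  -- drop the pieces with `g = 0`
  set T' : Finset (A × F) := T.filter (fun p => p.1 ≠ 0) with hT'
  have hspan' : Ideal.span (insert q ((fun p : A × F => p.1) '' (T' : Set (A × F)))) = ⊤ := by
    rw [eq_top_iff, ← hspan]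
    apply Ideal.span_le.2
    rintro a (rfl | ⟨p, hp, rfl⟩)
    · exact Ideal.subset_span (Set.mem_insert _ _)
    · by_cases hp0 : p.1 = 0
      · show p.1 ∈ _
        rw [hp0]
        exact Ideal.zero_mem _
      · apply Ideal.subset_span
        apply Set.mem_insert_of_mem
        exact ⟨p, Finset.mem_coe.2 (Finset.mem_filter.2 ⟨Finset.mem_coe.1 hp, hp0⟩), rfl⟩
  let e : Fin T'.card ≃ T' := T'.equivFin.symm
  have hmemT : ∀ i, (e i : A × F) ∈ T := fun i => (Finset.mem_filter.1 (e i).2).1
  have hne : ∀ i, (e i : A × F).1 ≠ 0 := fun i => (Finset.mem_filter.1 (e i).2).2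
  have hpiece : ∀ i, IsPiece (nOf D) (e i : A × F).1 (e i : A × F).2 := fun i => hT _ (hmemT i)
  have hcover : Ideal.span (Set.range fun i => (e i : A × F).1) ⊔ Ideal.span {q} = ⊤ := by
    rw [eq_top_iff, ← hspan']
    apply Ideal.span_le.2
    rintro a (rfl | ⟨p, hp, rfl⟩)
    · exact Ideal.mem_sup_right (Ideal.subset_span (Set.mem_singleton _))
    · apply Ideal.mem_sup_left
      apply Ideal.subset_span
      refine ⟨e.symm ⟨p, Finset.mem_coe.1 hp⟩, ?_⟩
      show ((e (e.symm ⟨p, Finset.mem_coe.1 hp⟩) : T') : A × F).1 = p.1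
      rw [Equiv.apply_symm_apply]
  -- vertical valuation subrings are not places
  have hnotplace : ∀ V ∈ Vert, ¬ ∃ v : Place K F, v.toValuationSubring = V := by
    rintro V hVm ⟨v, rfl⟩
    exact hqV _ hVm (hqK v)
  refine ⟨T'.card, fun i => (e i : A × F).1, fun i => (e i : A × F).2, hne, hcover,
    fun i => (hpiece i).1, ?_, ?_, ?_⟩
  · -- units at the vertical valuation subrings meeting `D(g i)`
    intro i V hVm hgV
    obtain ⟨P, y, h, rfl⟩ := hV V hVm
    haveI := h.prime
    have hgP : (e i : A × F).1 ∉ P := fun hmem =>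
      (h.mem_iff_inv_not_mem (hne i)).1 hmem hgV
    have h1 := (hpiece i).2 P y h hgP
    rw [nOf_eq_zero D (hnotplace _ hVm)] at h1
    have h2 := h1.of_unif (isUnif_of_isCond h)
    rw [neg_zero, zpow_zero, mul_one] at h2
    exact ⟨h2.2.1, h2.2.2⟩
  · -- exact orders at the places meeting `D(g i)`
    intro i v hvS hgv
    obtain ⟨P, y, h, hv⟩ := hS v hvS
    haveI := h.prime
    have hg0 : ι (e i : A × F).1 ≠ 0 := algebraMap_ne_zero' (hne i)
    have hinv : (ι (e i : A × F).1)⁻¹ ∈ h.valuationSubring := by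
      rw [hv]
      exact inv_mem_of_ord_eq_zero v hg0 hgv
    have hgP : (e i : A × F).1 ∉ P := fun hmem =>
      (h.mem_iff_inv_not_mem (hne i)).1 hmem hinv
    have h1 := (hpiece i).2 P y h hgP
    rw [hv, nOf_place] at h1
    exact ord_eq_of_hasOrd v h1
  · -- every vertical valuation subring meets some `D(g i)`
    intro V hVm
    obtain ⟨P, y, h, rfl⟩ := hV V hVm
    haveI := h.prime
    have hqP : q ∈ P := (h.mem_iff_inv_not_mem hq0).2 (hqV _ hVm)
    by_contra hcon
    push Not at hcon
    have hle : Ideal.span (Set.range fun i => (e i : A × F).1) ⊔ Ideal.span {q} ≤ P := by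
      apply sup_le
      · apply Ideal.span_le.2
        rintro _ ⟨i, rfl⟩
        by_contra hgP
        exact hcon i (inv_mem_locSubring hgP)
      · rw [Ideal.span_le, Set.singleton_subset_iff]
        exact hqP
    rw [hcover] at hle
    exact h.prime.ne_top (top_le_iff.1 hle)

/-- **(V14) → (V16), in the literal shape of `Lattice.VInput`.**  The fields `g`, `hg0`, `hcover`,
`s`, `hs0`, `hsW`, `hsv` (index type `Fin r`), and an index `i₀` for every vertical `w₀`. -/
theorem exists_valuative_generators (Vert : Set (ValuationSubring F)) (S : Set (Place K F))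
    (hO : ∀ W ∈ Vert, ∀ c : O, algebraMap O F c ∈ W)
    (hA : ∀ x : F, x ∈ Lattice.ring Vert S ↔ ∃ a : A, ι a = x)
    (ϖ : O) (hϖ0 : algebraMap O F ϖ ≠ 0)
    (q : A) (hq : ι q = algebraMap O F ϖ)
    (hqV : ∀ V ∈ Vert, (algebraMap O F ϖ)⁻¹ ∉ V)
    (D : Place K F → ℤ) (hD : {v : Place K F | D v ≠ 0}.Finite)
    (hloc : ∀ m : Ideal A, m.IsMaximal → q ∈ m → LocalGenCore.LocPrincipal (F := F) m)
    (hV : ∀ V ∈ Vert, ∃ (P : Ideal A) (y : F) (h : IsCond P y), h.valuationSubring = V)
    (hS : ∀ v ∈ S, ∃ (P : Ideal A) (y : F) (h : IsCond P y),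
      h.valuationSubring = v.toValuationSubring) :
    ∃ (r : ℕ) (g : Fin r → Lattice.ring Vert S) (s : Fin r → F),
      (∀ i, (g i : F) ≠ 0) ∧
      Ideal.span (Set.range g) ⊔ Ideal.span
        {(⟨algebraMap O F ϖ, Lattice.algebraMap_mem_ring Vert hO S ϖ⟩ : Lattice.ring Vert S)} = ⊤ ∧
      (∀ i, s i ≠ 0) ∧
      (∀ i, ∀ V ∈ Vert, (g i : F)⁻¹ ∈ V → s i ∈ V ∧ (s i)⁻¹ ∈ V) ∧
      (∀ i, ∀ v ∈ S, v.ord (g i : F) = 0 → v.ord (s i) = -D v) ∧
      (∀ V ∈ Vert, ∃ i, (g i : F)⁻¹ ∈ V) := by
  have hq0 : q ≠ 0 := by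
    rintro rfl
    rw [map_zero] at hq
    exact hϖ0 hq.symm
  have hqK : ∀ v : Place K F, (ι q)⁻¹ ∈ v.toValuationSubring := by
    intro v
    rw [hq, IsScalarTower.algebraMap_apply O K F, ← map_inv₀]
    exact v.algebraMap_mem' _
  obtain ⟨r, g, s, hg0, hcover, hs0, hsW, hsv, hi0⟩ :=
    exists_valuative_generators_aux (A := A) Vert S hA q hq0 hqK
      (fun V hVm => by rw [hq]; exact hqV V hVm) D hD hloc hV hS
  -- transport the cover to `ring Vert S`
  let φ : A →+* Lattice.ring Vert S :=
    (algebraMap A F).codRestrict (Lattice.ring Vert S) (fun a => (hA _).2 ⟨a, rfl⟩)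
  have hφsurj : Function.Surjective φ := by
    rintro ⟨x, hx⟩
    obtain ⟨a, ha⟩ := (hA x).1 hx
    exact ⟨a, Subtype.ext ha⟩
  have hφq : φ q = (⟨algebraMap O F ϖ, Lattice.algebraMap_mem_ring Vert hO S ϖ⟩ :
      Lattice.ring Vert S) := Subtype.ext hq
  refine ⟨r, fun i => φ (g i), s, fun i => algebraMap_ne_zero' (hg0 i), ?_, hs0, hsW, hsv, hi0⟩
  have h1 := congrArg (Ideal.map φ) hcover
  rw [Ideal.map_sup, Ideal.map_span, Ideal.map_span, Ideal.map_top, Set.image_singleton, hφq,
    ← Set.range_comp] at h1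
  exact h1

end Adapter

end Fermat.Agent.S36.LocalGenV
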