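/-
PROJECT V (S36), slice V-CommonGen, part (E) (helper7): **comparison of the local generators `s i`
of the cover with the common generator `t₀`** (the last clause of `NewInertiaDatum.OpenData.pt`),
and the valuation form of the common generator.

* `exists_piece_cover` : `LocalGenV.exists_valuative_generators_aux` with the pieces themselves as
  output: `LocalGenOrd.IsPiece n (g i) (s i)` (exact `HasOrd` of `s i` on all of `D(g i)`).
* `IsPiece.mem_and_inv_mem`, `IsPiece.ord_eq` : the valuative properties `hsW`, `hsv` of ONE piece.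
* `exists_valuative_generators_piece` : the fields of `Lattice.VInput` / `VCharts` AND the pieces.
* `hasOrd_of_isPiece` : a piece `(g, s)` with `g ∉ m` has `HasOrd V s (n V)` on `Br m`.
* `exists_units_mul_eq` : `s`, `T` with the same orders on `Br m` differ by a unit of `A_m`:
  `∃ u₁ u₂ ∈ A ∖ m, s u₂ = u₁ T`; `exists_units_mul_eq_subring` : the same inside any subring
  `𝒮 ⊇ A` of `F` at a prime `𝔪` of `𝒮` (for `𝒮 = A[1/g]`, literally the last clause of `pt`).
* `nOf_nsmul`, `HasOrd.pow` : `T = t₀ ^ k` generates `O(k D̄)`.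
* `mem_and_inv_mem_of_hasOrd_nOf`, `ord_eq_of_hasOrd_nOf` : valuation form of a generator:
  unit of the vertical valuation subrings, `v.ord t = -D v` at the places.
-/
import Mathlib
import Fermat.Agent.S36.LocalGenV
import Fermat.Agent.S36.LocalIntrinsic

set_option autoImplicit false
set_option linter.unusedSectionVars false
set_option linter.style.haveILetI false
set_option linter.unusedVariables false

namespace Fermat.Agent.S36.CommonGenV

open AlgebraicCurve Fermat.Agent.S36.KrullInter Fermat.Agent.S36.CentreCore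
  Fermat.Agent.S36.LocalGenOrd Fermat.Agent.S36.LocalGenV Fermat.Agent.S36.LocalIntrinsic

/-! ### Ring language -/

section Ring

variable {A : Type*} [CommRing A] [IsDomain A] {F : Type*} [Field F] [Algebra A F]
  [IsFractionRing A F] [IsNoetherianRing A] [IsIntegrallyClosed A]

local notation "ι" => algebraMap A F

/-- **finite cover of `{q = 0}` by pieces**, indexed by `Fin r`, no piece with `g = 0` -/
theorem exists_piece_cover (q : A) (n : ValuationSubring F → ℤ)
    (hfin : {V : ValuationSubring F | n V ≠ 0}.Finite)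
    (hloc : ∀ m : Ideal A, m.IsMaximal → q ∈ m → LocalGenCore.LocPrincipal (F := F) m) :
    ∃ (r : ℕ) (g : Fin r → A) (s : Fin r → F), (∀ i, g i ≠ 0) ∧
      Ideal.span (Set.range g) ⊔ Ideal.span {q} = ⊤ ∧ ∀ i, IsPiece n (g i) (s i) := by
  classical
  obtain ⟨T, hT, hspan⟩ := LocalGenOrd.exists_finite_cover (F := F) q n hfin
    (fun x hx hqx P y h hPx _ => by
      obtain ⟨g, hg⟩ := hloc x hx hqx P y h hPx
      exact ⟨g, hg.1, hg.2⟩)
  set T' : Finset (A × F) := T.filter (fun p => p.1 ≠ 0) with hT'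
  have hspan' : Ideal.span (insert q ((fun p : A × F => p.1) '' (T' : Set (A × F)))) = ⊤ := by
    rw [eq_top_iff, ← hspan]
    apply Ideal.span_le.2
    rintro a (rfl | ⟨p, hp, rfl⟩)
    · exact Ideal.subset_span (Set.mem_insert _ _)
    · by_cases hp0 : p.1 = 0
      · show p.1 ∈ _
        rw [hp0]
        exact Ideal.zero_mem _
      · apply Ideal.subset_span
        apply Set.mem_insert_of_mem
        exact ⟨p, Finset.mem_coe.2 (Finset.mem_filter.2 ⟨Finset.mem_coe.1 hp, hp0⟩), rfl⟩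
  let e : Fin T'.card ≃ T' := T'.equivFin.symm
  have hmemT : ∀ i, (e i : A × F) ∈ T := fun i => (Finset.mem_filter.1 (e i).2).1
  have hne : ∀ i, (e i : A × F).1 ≠ 0 := fun i => (Finset.mem_filter.1 (e i).2).2
  refine ⟨T'.card, fun i => (e i : A × F).1, fun i => (e i : A × F).2, hne, ?_,
    fun i => hT _ (hmemT i)⟩
  rw [eq_top_iff, ← hspan']
  apply Ideal.span_le.2
  rintro a (rfl | ⟨p, hp, rfl⟩)
  · exact Ideal.mem_sup_right (Ideal.subset_span (Set.mem_singleton _))
  · apply Ideal.mem_sup_left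
    apply Ideal.subset_span
    refine ⟨e.symm ⟨p, Finset.mem_coe.1 hp⟩, ?_⟩
    show ((e (e.symm ⟨p, Finset.mem_coe.1 hp⟩) : T') : A × F).1 = p.1
    rw [Equiv.apply_symm_apply]

/-- a piece `(g, s)` with `g ∉ m` has the exact orders on the prime divisors through `m` -/
theorem hasOrd_of_isPiece {n : ValuationSubring F → ℤ} {g : A} {s : F} (hp : IsPiece n g s)
    {m : Ideal A} (hg : g ∉ m) : ∀ V ∈ Br (F := F) m, HasOrd V s (n V) := by
  rintro V ⟨P, y, h, hPm, rfl⟩
  exact hp.2 P y h fun hgP => hg (hPm hgP)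

/-- **two generators differ by a unit of `A_m`** -/
theorem exists_units_mul_eq (m : Ideal A) [hm : m.IsPrime] {s T : F}
    {n : ValuationSubring F → ℤ} (hs : ∀ V ∈ Br (F := F) m, HasOrd V s (n V))
    (hT : ∀ V ∈ Br (F := F) m, HasOrd V T (n V)) (hs0 : s ≠ 0) (hT0 : T ≠ 0) :
    ∃ u₁ u₂ : A, u₁ ∉ m ∧ u₂ ∉ m ∧ s * ι u₂ = ι u₁ * T := by
  have h0 : ∀ V ∈ Br (F := F) m, HasOrd V (s * T⁻¹) 0 := by
    intro V hV
    have := (hs V hV).mul (hT V hV).inv
    rwa [add_neg_cancel] at this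
  have hx : s * T⁻¹ ∈ locSubring (F := F) m := by
    rw [mem_locSubring_iff_forall_mem_Br]
    intro V hV
    exact (h0 V hV).mem_iff.2 le_rfl
  have hx' : (s * T⁻¹)⁻¹ ∈ locSubring (F := F) m := by
    rw [mem_locSubring_iff_forall_mem_Br]
    intro V hV
    have := (h0 V hV).inv
    rw [neg_zero] at this
    exact this.mem_iff.2 le_rfl
  obtain ⟨σ, hσ, a, ha⟩ := hx
  obtain ⟨τ, hτ, b, hb⟩ := hx'
  have hx0 : s * T⁻¹ ≠ 0 := mul_ne_zero hs0 (inv_ne_zero hT0)
  have hab : σ * τ = a * b := by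
    apply IsFractionRing.injective A F
    rw [map_mul, map_mul, ← ha, ← hb]
    field_simp
  have ham : a ∉ m := by
    intro hmem
    have : σ * τ ∈ m := by rw [hab]; exact m.mul_mem_right b hmem
    exact (hm.mem_or_mem this).elim hσ hτ
  refine ⟨a, σ, ham, hσ, ?_⟩
  rw [← ha]
  field_simp

/-- the same inside a subring `𝒮 ⊇ A` of `F`, at a prime `𝔪` of `𝒮` (`m = 𝔪 ∩ A`) -/
theorem exists_units_mul_eq_subring (𝒮 : Subring F) (hA𝒮 : ∀ a : A, ι a ∈ 𝒮) (𝔪 : Ideal 𝒮)
    [h𝔪 : 𝔪.IsPrime] {s T : F} {n : ValuationSubring F → ℤ}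
    (hs : ∀ V ∈ Br (F := F) (𝔪.comap ((algebraMap A F).codRestrict 𝒮 hA𝒮)), HasOrd V s (n V))
    (hT : ∀ V ∈ Br (F := F) (𝔪.comap ((algebraMap A F).codRestrict 𝒮 hA𝒮)), HasOrd V T (n V))
    (hs0 : s ≠ 0) (hT0 : T ≠ 0) :
    ∃ u₁ u₂ : 𝒮, u₁ ∉ 𝔪 ∧ u₂ ∉ 𝔪 ∧ s * (u₂ : F) = (u₁ : F) * T := by
  haveI : (𝔪.comap ((algebraMap A F).codRestrict 𝒮 hA𝒮)).IsPrime := Ideal.comap_isPrime _ _
  obtain ⟨u₁, u₂, h1, h2, h⟩ := exists_units_mul_eq _ hs hT hs0 hT0
  exact ⟨⟨ι u₁, hA𝒮 u₁⟩, ⟨ι u₂, hA𝒮 u₂⟩, h1, h2, h⟩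

end Ring

/-! ### Valuation language -/

section Val

variable {K F : Type*} [Field K] [Field F] [Algebra K F]

theorem nOf_nsmul (D : Place K F → ℤ) (k : ℕ) (V : ValuationSubring F) :
    nOf (fun v => (k : ℤ) * D v) V = (k : ℤ) * nOf D V := by
  by_cases h : ∃ v : Place K F, v.toValuationSubring = V
  · obtain ⟨v, rfl⟩ := h
    rw [nOf_place, nOf_place]
    ring
  · rw [nOf_eq_zero _ h, nOf_eq_zero _ h, mul_zero]

/-- a generator is a unit of the valuation subrings which are not places -/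
theorem mem_and_inv_mem_of_hasOrd_nOf (D : Place K F → ℤ) {V : ValuationSubring F} {t : F}
    (hV : ¬ ∃ v : Place K F, v.toValuationSubring = V) (h : HasOrd V t (nOf D V)) :
    t ∈ V ∧ t⁻¹ ∈ V := by
  rw [nOf_eq_zero D hV] at h
  obtain ⟨ϖ, hϖ, hu⟩ := id h
  have h2 := h.of_unif hϖ
  rw [neg_zero, zpow_zero, mul_one] at h2
  exact ⟨h2.2.1, h2.2.2⟩

/-- a generator has order `-D v` at the places -/
theorem ord_eq_of_hasOrd_nOf (D : Place K F → ℤ) (v : Place K F) {t : F}
    (h : HasOrd v.toValuationSubring t (nOf D v.toValuationSubring)) : v.ord t = -D v := by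
  rw [nOf_place] at h
  exact ord_eq_of_hasOrd v h

variable {A : Type*} [CommRing A] [IsDomain A] [Algebra A F] [IsFractionRing A F]
  [IsNoetherianRing A] [IsIntegrallyClosed A]

local notation "ι" => algebraMap A F

/-- `hsW` of ONE piece -/
theorem IsPiece.mem_and_inv_mem {D : Place K F → ℤ} {g : A} {s : F}
    (hp : IsPiece (nOf D) g s) (hg0 : g ≠ 0) {V : ValuationSubring F}
    (hV : ∃ (P : Ideal A) (y : F) (h : IsCond P y), h.valuationSubring = V)
    (hnot : ¬ ∃ v : Place K F, v.toValuationSubring = V) (hgV : (ι g)⁻¹ ∈ V) :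
    s ∈ V ∧ s⁻¹ ∈ V := by
  obtain ⟨P, y, h, rfl⟩ := hV
  haveI := h.prime
  have hgP : g ∉ P := fun hmem => (h.mem_iff_inv_not_mem hg0).1 hmem hgV
  exact mem_and_inv_mem_of_hasOrd_nOf D hnot (hp.2 P y h hgP)

/-- `hsv` of ONE piece -/
theorem IsPiece.ord_eq {D : Place K F → ℤ} {g : A} {s : F} (hp : IsPiece (nOf D) g s)
    (hg0 : g ≠ 0) (v : Place K F)
    (hv : ∃ (P : Ideal A) (y : F) (h : IsCond P y), h.valuationSubring = v.toValuationSubring)
    (hgv : v.ord (ι g) = 0) : v.ord s = -D v := by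
  obtain ⟨P, y, h, hv⟩ := hv
  haveI := h.prime
  have hinv : (ι g)⁻¹ ∈ h.valuationSubring := by
    rw [hv]
    exact inv_mem_of_ord_eq_zero v (algebraMap_ne_zero' hg0) hgv
  have hgP : g ∉ P := fun hmem => (h.mem_iff_inv_not_mem hg0).1 hmem hinv
  have h1 := hp.2 P y h hgP
  rw [hv] at h1
  exact ord_eq_of_hasOrd_nOf D v h1

end Val

/-! ### The cover with its pieces, in the shape of `Lattice.VInput` -/

section Adapter

variable {O K F : Type*} [CommRing O] [Field K] [Field F] [Algebra O K] [Algebra K F]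
  [Algebra O F] [IsScalarTower O K F]

variable {A : Type*} [CommRing A] [IsDomain A] [Algebra A F] [IsFractionRing A F]
  [IsNoetherianRing A] [IsIntegrallyClosed A]

local notation "ι" => algebraMap A F

/-- **`LocalGenV.exists_valuative_generators` with the pieces**: the fields `g`, `hg0`, `hcover`,
`s`, `hs0`, `hsW`, `hsv` of `Lattice.VInput` (index type `Fin r`) together with `g₀ i : A`,
`ι (g₀ i) = g i`, and `IsPiece (nOf D) (g₀ i) (s i)`. -/
theorem exists_valuative_generators_piece (Vert : Set (ValuationSubring F))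
    (S : Set (Place K F)) (hO : ∀ W ∈ Vert, ∀ c : O, algebraMap O F c ∈ W)
    (hA : ∀ x : F, x ∈ Lattice.ring Vert S ↔ ∃ a : A, ι a = x)
    (ϖ : O) (hϖ0 : algebraMap O F ϖ ≠ 0) (q : A) (hq : ι q = algebraMap O F ϖ)
    (hqV : ∀ V ∈ Vert, (algebraMap O F ϖ)⁻¹ ∉ V)
    (D : Place K F → ℤ) (hD : {v : Place K F | D v ≠ 0}.Finite)
    (hloc : ∀ m : Ideal A, m.IsMaximal → q ∈ m → LocalGenCore.LocPrincipal (F := F) m)
    (hV : ∀ V ∈ Vert, ∃ (P : Ideal A) (y : F) (h : IsCond P y), h.valuationSubring = V)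
    (hS : ∀ v ∈ S, ∃ (P : Ideal A) (y : F) (h : IsCond P y),
      h.valuationSubring = v.toValuationSubring) :
    ∃ (r : ℕ) (g₀ : Fin r → A) (g : Fin r → Lattice.ring Vert S) (s : Fin r → F),
      (∀ i, (g i : F) = ι (g₀ i)) ∧
      (∀ i, IsPiece (nOf D) (g₀ i) (s i)) ∧
      (∀ i, (g i : F) ≠ 0) ∧
      Ideal.span (Set.range g) ⊔ Ideal.span
        {(⟨algebraMap O F ϖ, Lattice.algebraMap_mem_ring Vert hO S ϖ⟩ : Lattice.ring Vert S)} = ⊤ ∧
      (∀ i, s i ≠ 0) ∧
      (∀ i, ∀ V ∈ Vert, (g i : F)⁻¹ ∈ V → s i ∈ V ∧ (s i)⁻¹ ∈ V) ∧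
      (∀ i, ∀ v ∈ S, v.ord (g i : F) = 0 → v.ord (s i) = -D v) ∧
      (∀ V ∈ Vert, ∃ i, (g i : F)⁻¹ ∈ V) := by
  have hq0 : q ≠ 0 := by
    rintro rfl
    rw [map_zero] at hq
    exact hϖ0 hq.symm
  have hqK : ∀ v : Place K F, (ι q)⁻¹ ∈ v.toValuationSubring := by
    intro v
    rw [hq, IsScalarTower.algebraMap_apply O K F, ← map_inv₀]
    exact v.algebraMap_mem' _
  have hnotplace : ∀ V ∈ Vert, ¬ ∃ v : Place K F, v.toValuationSubring = V := by
    rintro V hVm ⟨v, rfl⟩
    exact hqV _ hVm (hq ▸ hqK v)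
  obtain ⟨r, g₀, s, hne, hcover, hpiece⟩ :=
    exists_piece_cover (F := F) q (nOf D) (nOf_finite D hD) hloc
  let φ : A →+* Lattice.ring Vert S :=
    (algebraMap A F).codRestrict (Lattice.ring Vert S) (fun a => (hA _).2 ⟨a, rfl⟩)
  have hφq : φ q = (⟨algebraMap O F ϖ, Lattice.algebraMap_mem_ring Vert hO S ϖ⟩ :
      Lattice.ring Vert S) := Subtype.ext hq
  refine ⟨r, g₀, fun i => φ (g₀ i), s, fun i => rfl, hpiece,
    fun i => algebraMap_ne_zero' (hne i), ?_, fun i => (hpiece i).1, ?_, ?_, ?_⟩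
  · have h1 := congrArg (Ideal.map φ) hcover
    rw [Ideal.map_sup, Ideal.map_span, Ideal.map_span, Ideal.map_top, Set.image_singleton, hφq,
      ← Set.range_comp] at h1
    exact h1
  · intro i V hVm hgV
    exact IsPiece.mem_and_inv_mem (hpiece i) (hne i) (hV V hVm) (hnotplace V hVm) hgV
  · intro i v hvS hgv
    exact IsPiece.ord_eq (hpiece i) (hne i) v (hS v hvS) hgv
  · intro V hVm
    obtain ⟨P, y, h, rfl⟩ := hV V hVm
    haveI := h.prime
    have hqP : q ∈ P := (h.mem_iff_inv_not_mem hq0).2 (hq ▸ hqV _ hVm)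
    by_contra hcon
    push Not at hcon
    have hle : Ideal.span (Set.range g₀) ⊔ Ideal.span {q} ≤ P := by
      apply sup_le
      · apply Ideal.span_le.2
        rintro _ ⟨i, rfl⟩
        by_contra hgP
        exact hcon i (inv_mem_locSubring hgP)
      · rw [Ideal.span_le, Set.singleton_subset_iff]
        exact hqP
    rw [hcover] at hle
    exact h.prime.ne_top (top_le_iff.1 hle)

end Adapter

end Fermat.Agent.S36.CommonGenV
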