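/-
PROJECT V (S36), slice V-VChartsOfLoc (helper7): **the end product of chain (V14), abstract**.

`O` a discrete valuation ring with uniformiser `ϖ`, `K = Frac O`, `F / K` a function field,
`φ : F` transcendental, `W : 𝒲 → ValuationSubring F` the Gauss-vertical valuation subrings of both
charts `chart O φ`, `chart O φ⁻¹`.

* `exists_chart_generators` : on ONE chart, `LocPrincipal` at the closed points of `{ϖ = 0}` gives
  the fields `g hg0 hcover s hs0 hsW hsv` of `Lattice.VCharts` together with the pieces.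
* `exists_vcharts` : the record `Lattice.VCharts` itself, with prescribed `W ϖ φ D`.
* `mem_vert_or_place`, `mem_vert_of_mem_Br` : every prime divisor of the chart is one of the
  vertical valuation subrings or a place of the chart (`mem_range_of_mem_Br_chart` on the chart).
* `exists_mul_eq_of_hasOrd` (`exists_mul_eq_chart`) : `f ^ e * t₀ ^ n` is a unit of the local ring
  at a point where `t₀` generates, in `(s, r)` form.
* `mem_Br_of_nonunits_le`, `mem_and_inv_mem_of_through` : `t₀` is a unit of the vertical valuation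
  subrings through such a point (`t₂₀`, `t₁₁`, `t₀₂`).
* `exists_units_mul_pow_eq`, `exists_units_mul_pow_eq_S`, `exists_units_mul_pow_eq_S'` : the last
  clause of `NewInertiaDatum.OpenData.pt` on the opens of the two covers (`T = t₀ ^ k`).
* `chart_dict` : the dictionary hypotheses `hA hV hS hnotplace` for `A = chart O φ`.
-/
import Mathlib
import Fermat.Agent.S36.CommonGenV
import Fermat.Agent.S36.CommonGen
import Fermat.Agent.S36.Centre
import Fermat.Agent.S36.ChartVert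
import Fermat.Agent.S36.FormalLift.LatticeOpen

set_option autoImplicit false
set_option linter.unusedSectionVars false
set_option linter.style.haveILetI false
set_option linter.unusedVariables false

namespace Fermat.Agent.S36.VChartsOfLoc

open AlgebraicCurve Polynomial IntermediateField
  Fermat.Agent.S36.KrullInter Fermat.Agent.S36.CentreCore Fermat.Agent.S36.Centre
  Fermat.Agent.S36.LocalGenOrd Fermat.Agent.S36.LocalGenV Fermat.Agent.S36.LocalIntrinsic
  Fermat.Agent.S36.CommonGenV Fermat.Agent.S36.ChartRing Fermat.Agent.S36.ChartVert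
  Fermat.Agent.S36.Lattice Fermat.Agent.S36.FormalLift

/-! ### One chart -/

section OneChart

variable {O : Type*} [CommRing O] [IsDomain O] [IsDiscreteValuationRing O] {K : Type*} [Field K]
  [Algebra O K] [IsFractionRing O K] [CharZero K] {F : Type*} [Field F] [Algebra K F]
  [Algebra O F] [IsScalarTower O K F] {𝒲 : Type*}

/-- the chart ring presents the lattice ring -/
theorem mem_ring_iff_chart (W : 𝒲 → ValuationSubring F) {ϖ : O} (hϖ : Irreducible ϖ) {φ : F}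
    (hφ : Transcendental K φ) [FiniteDimensional K⟮φ⟯ F]
    (hgauss : ∀ w, IsGaussVert ϖ φ (W w))
    (hvert : ∀ V : ValuationSubring F, (∀ c : O, algebraMap O F c ∈ V) → φ ∈ V →
      (algebraMap O F ϖ)⁻¹ ∉ V →
      (∀ s : O[X], (∃ i, IsUnit (s.coeff i)) → (aeval φ s)⁻¹ ∈ V) → V ∈ Set.range W) (x : F) :
    x ∈ Lattice.ring (Set.range W) (finiteAt (K := K) φ) ↔
      ∃ a : chart O φ, algebraMap (chart O φ) F a = x := by
  constructor
  · intro hx
    exact ⟨⟨x, ring_le_chart (Set.range W) hϖ hφ hvert hx⟩, rfl⟩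
  · rintro ⟨a, rfl⟩
    refine chart_le_ring (Set.range W) ?_ ?_ a.2
    · rintro _ ⟨w, rfl⟩ c
      exact (hgauss w).base c
    · rintro _ ⟨w, rfl⟩
      exact (hgauss w).gen

/-- **one chart**: the fields of `Lattice.VCharts` for the chart `{φ ≠ ∞}`, with the pieces. -/
theorem exists_chart_generators (W : 𝒲 → ValuationSubring F) {ϖ : O} (hϖ : Irreducible ϖ)
    {φ : F} (hφ : Transcendental K φ) [FiniteDimensional K⟮φ⟯ F]
    (hgauss : ∀ w, IsGaussVert ϖ φ (W w))
    (hvert : ∀ V : ValuationSubring F, (∀ c : O, algebraMap O F c ∈ V) → φ ∈ V →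
      (algebraMap O F ϖ)⁻¹ ∉ V →
      (∀ s : O[X], (∃ i, IsUnit (s.coeff i)) → (aeval φ s)⁻¹ ∈ V) → V ∈ Set.range W)
    (hO : ∀ V ∈ Set.range W, ∀ c : O, algebraMap O F c ∈ V)
    (D : Place K F → ℤ) (hD : {v : Place K F | D v ≠ 0}.Finite)
    (hloc : haveI := chart_isFractionRing (O := O) hφ
      ∀ m : Ideal (chart O φ), m.IsMaximal → piChart φ ϖ ∈ m →
        LocalGenCore.LocPrincipal (F := F) m) :
    haveI := chart_isFractionRing (O := O) hφ
    haveI := chart_isNoetherianRing (O := O) hφ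
    haveI := chart_isIntegrallyClosed (O := O) hφ
    ∃ (r : ℕ) (g₀ : Fin r → chart O φ)
      (g : Fin r → Lattice.ring (Set.range W) (finiteAt (K := K) φ)) (s : Fin r → F),
      (∀ i, (g i : F) = (g₀ i : F)) ∧
      (∀ i, IsPiece (nOf D) (g₀ i) (s i)) ∧
      (∀ i, (g i : F) ≠ 0) ∧
      Ideal.span (Set.range g) ⊔ Ideal.span
        {(⟨algebraMap O F ϖ, Lattice.algebraMap_mem_ring (Set.range W) hO _ ϖ⟩ :
          Lattice.ring (Set.range W) (finiteAt (K := K) φ))} = ⊤ ∧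
      (∀ i, s i ≠ 0) ∧
      (∀ i, ∀ V ∈ Set.range W, (g i : F)⁻¹ ∈ V → s i ∈ V ∧ (s i)⁻¹ ∈ V) ∧
      (∀ i, ∀ v ∈ finiteAt (K := K) φ, v.ord (g i : F) = 0 → v.ord (s i) = -D v) ∧
      (∀ V ∈ Set.range W, ∃ i, (g i : F)⁻¹ ∈ V) := by
  haveI := chart_isFractionRing (O := O) hφ
  haveI := chart_isNoetherianRing (O := O) hφ
  haveI := chart_isIntegrallyClosed (O := O) hφ
  have hϖ0 : algebraMap O F ϖ ≠ 0 := algebraMap_ne_zero_of_ne_zero (K := K) hϖ.ne_zero
  have hC : ChartData K F (piChart φ ϖ : chart O φ) := chartData_chart (K := K) hϖ φ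
  exact exists_valuative_generators_piece (A := chart O φ) (Set.range W) (finiteAt (K := K) φ) hO
    (mem_ring_iff_chart W hϖ hφ hgauss hvert) ϖ hϖ0 (piChart φ ϖ) (coe_piChart φ ϖ)
    (by rintro _ ⟨w, rfl⟩; exact (hgauss w).nonunit) D hD hloc
    (by
      rintro _ ⟨w, rfl⟩
      obtain ⟨Q, z, h, hW, -⟩ := exists_isCond_of_isGaussVert hϖ hφ (hgauss w)
      exact ⟨Q, z, h, hW.symm⟩)
    (by
      intro v hv
      have hfin : FiniteOn (chart O φ) v := (finiteOn_chart_iff (O := O) φ v).2 hv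
      obtain ⟨y, hc, hv'⟩ := hC.exists_isCond hfin
      exact ⟨_, y, hc, hv'.symm⟩)

end OneChart

/-! ### Both charts: the record `Lattice.VCharts` -/

section TwoCharts

variable {O : Type*} [CommRing O] [IsDomain O] [IsDiscreteValuationRing O] {K : Type*} [Field K]
  [Algebra O K] [IsFractionRing O K] [CharZero K] {F : Type*} [Field F] [Algebra K F]
  [Algebra O F] [IsScalarTower O K F] {𝒲 : Type*}

set_option maxHeartbeats 800000 in
/-- **(V14), end product**: the record `Lattice.VCharts` with prescribed vertical family `W`,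
uniformiser `ϖ`, chart function `φ` and divisor `D`, from `LocPrincipal` at the closed points of the
special fibre of the two charts; the local generators come with their pieces. -/
theorem exists_vcharts [Nonempty 𝒲] (W : 𝒲 → ValuationSubring F) {ϖ : O} (hϖ : Irreducible ϖ)
    {φ : F} (hφ : Transcendental K φ) (hφ' : Transcendental K φ⁻¹)
    [FiniteDimensional K⟮φ⟯ F] [FiniteDimensional K⟮φ⁻¹⟯ F]
    (hgauss : ∀ w, IsGaussVert ϖ φ (W w)) (hgauss' : ∀ w, IsGaussVert ϖ φ⁻¹ (W w))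
    (hvert : ∀ V : ValuationSubring F, (∀ c : O, algebraMap O F c ∈ V) → φ ∈ V →
      (algebraMap O F ϖ)⁻¹ ∉ V →
      (∀ s : O[X], (∃ i, IsUnit (s.coeff i)) → (aeval φ s)⁻¹ ∈ V) → V ∈ Set.range W)
    (hvert' : ∀ V : ValuationSubring F, (∀ c : O, algebraMap O F c ∈ V) → φ⁻¹ ∈ V →
      (algebraMap O F ϖ)⁻¹ ∉ V →
      (∀ s : O[X], (∃ i, IsUnit (s.coeff i)) → (aeval φ⁻¹ s)⁻¹ ∈ V) → V ∈ Set.range W)
    (hrank : ∀ V ∈ Set.range W, ∀ g ∈ V, g⁻¹ ∉ V → ∀ y : F, ∃ e : ℕ, g ^ e * y ∈ V)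
    (hfinAll : ∀ f : F, f ≠ 0 → {v : Place K F | v.ord f ≠ 0}.Finite)
    (D : Divisor K F)
    (hloc : haveI := chart_isFractionRing (O := O) hφ
      ∀ m : Ideal (chart O φ), m.IsMaximal → piChart φ ϖ ∈ m →
        LocalGenCore.LocPrincipal (F := F) m)
    (hloc' : haveI := chart_isFractionRing (O := O) hφ'
      ∀ m : Ideal (chart O φ⁻¹), m.IsMaximal → piChart φ⁻¹ ϖ ∈ m →
        LocalGenCore.LocPrincipal (F := F) m) :
    haveI := chart_isFractionRing (O := O) hφ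
    haveI := chart_isNoetherianRing (O := O) hφ
    haveI := chart_isIntegrallyClosed (O := O) hφ
    haveI := chart_isFractionRing (O := O) hφ'
    haveI := chart_isNoetherianRing (O := O) hφ'
    haveI := chart_isIntegrallyClosed (O := O) hφ'
    ∃ (r r' : ℕ) (V : VCharts O K F 𝒲 (Fin r) (Fin r')),
      V.W = W ∧ V.ϖ = ϖ ∧ V.φ = φ ∧ V.D = D ∧
      (∃ g₀ : Fin r → chart O φ, ∀ i, (V.g i : F) = (g₀ i : F) ∧
        IsPiece (nOf (D : Place K F → ℤ)) (g₀ i) (V.s i)) ∧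
      (∃ g₀' : Fin r' → chart O φ⁻¹, ∀ j, (V.g' j : F) = (g₀' j : F) ∧
        IsPiece (nOf (D : Place K F → ℤ)) (g₀' j) (V.s' j)) := by
  haveI := chart_isFractionRing (O := O) hφ
  haveI := chart_isNoetherianRing (O := O) hφ
  haveI := chart_isIntegrallyClosed (O := O) hφ
  haveI := chart_isFractionRing (O := O) hφ'
  haveI := chart_isNoetherianRing (O := O) hφ'
  haveI := chart_isIntegrallyClosed (O := O) hφ'
  have hO : ∀ V ∈ Set.range W, ∀ c : O, algebraMap O F c ∈ V := by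
    rintro _ ⟨w, rfl⟩ c
    exact (hgauss w).base c
  have hϖ0 : algebraMap O F ϖ ≠ 0 := algebraMap_ne_zero_of_ne_zero (K := K) hϖ.ne_zero
  have hφ0 : φ ≠ 0 := by
    rintro rfl
    exact hφ (isAlgebraic_zero)
  obtain ⟨r, g₀, g, s, hgg, hpiece, hg0, hcover, hs0, hsW, hsv, hall⟩ :=
    exists_chart_generators W hϖ hφ hgauss hvert hO (D : Place K F → ℤ)
      (finite_support_divisor D) hloc
  obtain ⟨r', g₀', g', s', hgg', hpiece', hg0', hcover', hs0', hsW', hsv', hall'⟩ :=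
    exists_chart_generators W hϖ hφ' hgauss' hvert' hO (D : Place K F → ℤ)
      (finite_support_divisor D) hloc'
  obtain ⟨w₀⟩ := ‹Nonempty 𝒲›
  obtain ⟨i₀, hi₀⟩ := hall (W w₀) ⟨w₀, rfl⟩
  refine ⟨r, r',
    { W := W
      hO := hO
      hrank := hrank
      hfinAll := hfinAll
      ϖ := ϖ
      hϖ0 := hϖ0
      φ := φ
      hφ0 := hφ0
      hφV := by rintro _ ⟨w, rfl⟩; exact (hgauss w).gen
      hφV' := by rintro _ ⟨w, rfl⟩; exact (hgauss' w).gen
      D := D
      g := g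
      hg0 := hg0
      hcover := hcover
      g' := g'
      hg0' := hg0'
      hcover' := hcover'
      s := s
      hs0 := hs0
      hsW := hsW
      hsv := hsv
      s' := s'
      hs0' := hs0'
      hsW' := hsW'
      hsv' := hsv'
      i₀ := i₀
      w₀ := w₀
      hi₀ := hi₀
      hw₀ := (hgauss w₀).nonunit }, rfl, rfl, rfl, rfl,
    ⟨g₀, fun i => ⟨hgg i, hpiece i⟩⟩, ⟨g₀', fun j => ⟨hgg' j, hpiece' j⟩⟩⟩

end TwoCharts

/-! ### The prime divisors of a chart: vertical ones and places -/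

section Dichotomy

variable {O K F : Type*} [CommRing O] [Field K] [Field F] [Algebra O K] [Algebra K F]
  [Algebra O F] [IsScalarTower O K F]

variable {A : Type*} [CommRing A] [IsDomain A] [Algebra A F] [IsFractionRing A F]
  [IsNoetherianRing A] [IsIntegrallyClosed A]

local notation "ι" => algebraMap A F

/-- **every prime divisor of the chart is vertical or a place of the chart**: if `A` presents the
lattice ring `ring Vert S` and the members of `Vert`, `S` are prime divisors of `A`, there is no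
other prime divisor (its conductor element would lie in `A`). -/
theorem mem_vert_or_place (Vert : Set (ValuationSubring F)) (S : Set (Place K F))
    (hA : ∀ x : F, x ∈ Lattice.ring Vert S ↔ ∃ a : A, ι a = x)
    (hV : ∀ V ∈ Vert, ∃ (P : Ideal A) (y : F) (h : IsCond P y), h.valuationSubring = V)
    (hS : ∀ v ∈ S, ∃ (P : Ideal A) (y : F) (h : IsCond P y),
      h.valuationSubring = v.toValuationSubring)
    {P : Ideal A} {y : F} (h : IsCond P y) :
    h.valuationSubring ∈ Vert ∨ ∃ v ∈ S, v.toValuationSubring = h.valuationSubring := by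
  by_contra hcon
  push Not at hcon
  obtain ⟨hnV, hnS⟩ := hcon
  haveI := h.prime
  -- `y` lies in every other prime divisor
  have key : ∀ (Q : Ideal A) (z : F) (h' : IsCond Q z), h'.valuationSubring ≠ h.valuationSubring →
      y ∈ h'.valuationSubring := by
    intro Q z h' hne
    haveI := h'.prime
    have hPQ : ¬ P ≤ Q := by
      intro hle
      rcases h'.eq_bot_or_eq_of_le P hle with h0 | h0
      · exact h.ne_bot h0
      · exact hne (valuationSubring_eq_of_eq h' h h0.symm)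
    obtain ⟨a, haP, haQ⟩ := Set.not_subset.1 hPQ
    obtain ⟨b, hb⟩ := (h.mem_iff a).1 haP
    exact ⟨a, haQ, b, hb⟩
  have hy : y ∈ Lattice.ring Vert S := by
    refine (Lattice.mem_ring Vert).2 ⟨fun V hVm => ?_, fun v hv => ?_⟩
    · obtain ⟨Q, z, h', rfl⟩ := hV V hVm
      exact key Q z h' fun heq => hnV (heq ▸ hVm)
    · obtain ⟨Q, z, h', hv'⟩ := hS v hv
      rw [← hv']
      exact key Q z h' fun heq => hnS v hv (hv'.symm.trans heq)
  obtain ⟨a, ha⟩ := (hA y).1 hy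
  exact h.not_mem_range ⟨a, ha.symm⟩

/-- **`f ^ e * t₀ ^ n` is a unit of the local ring at `m`**, when `t₀` generates `O(D̄₁)` at `m`,
`e · div f = n · D₁` at the places and `f` is a unit of the vertical prime divisors.  In
`(s, r)` form: `∃ s r ∉ m, ι s * (f ^ e * t₀ ^ n) = ι r`. -/
theorem exists_mul_eq_of_hasOrd (Vert : Set (ValuationSubring F)) (S : Set (Place K F))
    (hA : ∀ x : F, x ∈ Lattice.ring Vert S ↔ ∃ a : A, ι a = x)
    (hV : ∀ V ∈ Vert, ∃ (P : Ideal A) (y : F) (h : IsCond P y), h.valuationSubring = V)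
    (hS : ∀ v ∈ S, ∃ (P : Ideal A) (y : F) (h : IsCond P y),
      h.valuationSubring = v.toValuationSubring)
    (hnotplace : ∀ V ∈ Vert, ¬ ∃ v : Place K F, v.toValuationSubring = V)
    (m : Ideal A) [hm : m.IsPrime] {t₀ f : F} {n e : ℕ} (D₁ : Place K F → ℤ) (ht₀0 : t₀ ≠ 0)
    (ht₀ : ∀ V ∈ Br (F := F) m, HasOrd V t₀ (nOf D₁ V))
    (hf0 : f ≠ 0) (hfD : ∀ v : Place K F, (e : ℤ) * v.ord f = n * D₁ v)
    (hfV : ∀ V ∈ Vert, f ∈ V ∧ f⁻¹ ∈ V) :
    ∃ s r : A, s ∉ m ∧ r ∉ m ∧ ι s * (f ^ e * t₀ ^ n) = ι r := by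
  set u : F := f ^ e * t₀ ^ n with hu
  have hu0 : u ≠ 0 := mul_ne_zero (pow_ne_zero _ hf0) (pow_ne_zero _ ht₀0)
  have huinv : u⁻¹ = f⁻¹ ^ e * t₀⁻¹ ^ n := by
    rw [hu, mul_inv, inv_pow, inv_pow]
  have hunit : ∀ V ∈ Br (F := F) m, u ∈ V ∧ u⁻¹ ∈ V := by
    intro V hVB
    obtain ⟨P, y, h, hPm, rfl⟩ := id hVB
    rcases mem_vert_or_place Vert S hA hV hS h with hvert | ⟨v, hvS, hv⟩
    · obtain ⟨h1, h2⟩ := hfV _ hvert
      obtain ⟨h3, h4⟩ := mem_and_inv_mem_of_hasOrd_nOf D₁ (hnotplace _ hvert) (ht₀ _ hVB)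
      refine ⟨?_, ?_⟩
      · exact h.valuationSubring.mul_mem _ _ (pow_mem h1 e) (pow_mem h3 n)
      · rw [huinv]
        exact h.valuationSubring.mul_mem _ _ (pow_mem h2 e) (pow_mem h4 n)
    · have ht := ht₀ _ hVB
      rw [← hv] at ht ⊢
      have h1 : v.ord t₀ = -D₁ v := ord_eq_of_hasOrd_nOf D₁ v ht
      have h2 : v.ord u = 0 := by
        rw [hu, v.ord_mul (pow_ne_zero _ hf0) (pow_ne_zero _ ht₀0),
          Fermat.Agent.S18.CoreOrd.ord_pow, Fermat.Agent.S18.CoreOrd.ord_pow, h1, hfD v]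
        ring
      refine ⟨(Lattice.mem_iff_ord v hu0).2 h2.ge, inv_mem_of_ord_eq_zero v hu0 h2⟩
  have hmem : u ∈ locSubring (F := F) m :=
    (mem_locSubring_iff_forall_mem_Br m u).2 fun V hVB => (hunit V hVB).1
  have hmem' : u⁻¹ ∈ locSubring (F := F) m :=
    (mem_locSubring_iff_forall_mem_Br m u⁻¹).2 fun V hVB => (hunit V hVB).2
  obtain ⟨s, hs, a, ha⟩ := hmem
  obtain ⟨s', hs', a', ha'⟩ := hmem'
  refine ⟨s, a, hs, fun ham => ?_, ha⟩
  have hprod : s * s' = a * a' := by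
    apply IsFractionRing.injective A F
    rw [map_mul, map_mul, ← ha, ← ha']
    field_simp
  have : s * s' ∈ m := hprod ▸ m.mul_mem_right a' ham
  exact (hm.mem_or_mem this).elim hs hs'


/-- a prime divisor through `m` which is not a place is vertical -/
theorem mem_vert_of_mem_Br (Vert : Set (ValuationSubring F)) (S : Set (Place K F))
    (hA : ∀ x : F, x ∈ Lattice.ring Vert S ↔ ∃ a : A, ι a = x)
    (hV : ∀ V ∈ Vert, ∃ (P : Ideal A) (y : F) (h : IsCond P y), h.valuationSubring = V)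
    (hS : ∀ v ∈ S, ∃ (P : Ideal A) (y : F) (h : IsCond P y),
      h.valuationSubring = v.toValuationSubring)
    {m : Ideal A} {V : ValuationSubring F} (hVB : V ∈ Br (F := F) m)
    (hnot : ¬ ∃ v : Place K F, v.toValuationSubring = V) : V ∈ Vert := by
  obtain ⟨P, y, h, hPm, rfl⟩ := hVB
  rcases mem_vert_or_place Vert S hA hV hS h with h1 | ⟨v, -, hv⟩
  · exact h1
  · exact absurd ⟨v, hv⟩ hnot

/-- a prime divisor of `A` passes through `m` when its centre lies in `m` -/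
theorem mem_Br_of_nonunits_le {V : ValuationSubring F}
    (hV : ∃ (P : Ideal A) (y : F) (h : IsCond P y), h.valuationSubring = V) (m : Ideal A)
    (hle : ∀ a : A, ι a ∈ V.nonunits → a ∈ m) : V ∈ Br (F := F) m := by
  obtain ⟨P, y, h, rfl⟩ := hV
  refine ⟨P, y, h, fun a haP => hle a ?_, rfl⟩
  rw [← centre_valuationSubring h] at haP
  exact haP

/-- **`t₂₀`, `t₁₁`, `t₀₂`**: a generator of `O(D̄₁)` at a point `m` is a unit of every vertical
prime divisor through `m`. -/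
theorem mem_and_inv_mem_of_through {V : ValuationSubring F}
    (hV : ∃ (P : Ideal A) (y : F) (h : IsCond P y), h.valuationSubring = V)
    (hnot : ¬ ∃ v : Place K F, v.toValuationSubring = V) (m : Ideal A)
    (hle : ∀ a : A, ι a ∈ V.nonunits → a ∈ m) (D₁ : Place K F → ℤ) {t₀ : F}
    (ht₀ : ∀ V ∈ Br (F := F) m, HasOrd V t₀ (nOf D₁ V)) : t₀ ∈ V ∧ t₀⁻¹ ∈ V :=
  mem_and_inv_mem_of_hasOrd_nOf D₁ hnot (ht₀ V (mem_Br_of_nonunits_le hV m hle))

/-- **the last clause of `OpenData.pt`** at a point of an open `𝒮 ⊇ A` on which the piece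
`(g₀, s)` lives (`g₀` a unit of `𝒮`), when `t₀` generates `O(D̄₁)` at the point and `D = k D₁`. -/
theorem exists_units_mul_pow_eq (𝒮 : Subring F) (hA𝒮 : ∀ a : A, ι a ∈ 𝒮) (𝔪 : Ideal 𝒮)
    [h𝔪 : 𝔪.IsPrime] {D D₁ : Place K F → ℤ} {k : ℕ} (hD : ∀ v, D v = (k : ℤ) * D₁ v)
    {g₀ : A} {s : F} (hp : IsPiece (nOf D) g₀ s) (hne : ι g₀ ≠ 0) (hg : (ι g₀)⁻¹ ∈ 𝒮) {t₀ : F}
    (ht₀0 : t₀ ≠ 0)
    (ht₀ : ∀ V ∈ Br (F := F) (𝔪.comap ((algebraMap A F).codRestrict 𝒮 hA𝒮)),
      HasOrd V t₀ (nOf D₁ V)) :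
    ∃ u₁ u₂ : 𝒮, u₁ ∉ 𝔪 ∧ u₂ ∉ 𝔪 ∧ s * (u₂ : F) = (u₁ : F) * t₀ ^ k := by
  have hg0 : g₀ ∉ 𝔪.comap ((algebraMap A F).codRestrict 𝒮 hA𝒮) := by
    intro hmem
    have h1 : ((algebraMap A F).codRestrict 𝒮 hA𝒮 g₀) ∈ 𝔪 := hmem
    have h2 : ((algebraMap A F).codRestrict 𝒮 hA𝒮 g₀) * ⟨(ι g₀)⁻¹, hg⟩ ∈ 𝔪 :=
      𝔪.mul_mem_right _ h1
    have h3 : ((algebraMap A F).codRestrict 𝒮 hA𝒮 g₀) * ⟨(ι g₀)⁻¹, hg⟩ = 1 := by
      apply Subtype.ext
      show ι g₀ * (ι g₀)⁻¹ = 1
      exact mul_inv_cancel₀ hne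
    rw [h3] at h2
    exact h𝔪.ne_top ((Ideal.eq_top_iff_one 𝔪).2 h2)
  have hs := hasOrd_of_isPiece hp hg0
  have hT : ∀ V ∈ Br (F := F) (𝔪.comap ((algebraMap A F).codRestrict 𝒮 hA𝒮)),
      HasOrd V (t₀ ^ k) (nOf D V) := by
    intro V hVB
    have h1 := (ht₀ V hVB).pow k
    have h2 : nOf D V = (k : ℤ) * nOf D₁ V := by
      rw [← nOf_nsmul]
      congr 1
      funext v
      exact hD v
    rwa [h2]
  exact exists_units_mul_eq_subring 𝒮 hA𝒮 𝔪 hs hT hp.1 (pow_ne_zero _ ht₀0)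

end Dichotomy

/-! ### The chart instances of the dictionary -/

section ChartDict

variable {O : Type*} [CommRing O] [IsDomain O] [IsDiscreteValuationRing O] {K : Type*} [Field K]
  [Algebra O K] [IsFractionRing O K] [CharZero K] {F : Type*} [Field F] [Algebra K F]
  [Algebra O F] [IsScalarTower O K F] {𝒲 : Type*}

/-- **the dictionary hypotheses `hA hV hS hnotplace` for `A = chart O φ`** -/
theorem chart_dict (W : 𝒲 → ValuationSubring F) {ϖ : O} (hϖ : Irreducible ϖ)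
    {φ : F} (hφ : Transcendental K φ) [FiniteDimensional K⟮φ⟯ F]
    (hgauss : ∀ w, IsGaussVert ϖ φ (W w))
    (hvert : ∀ V : ValuationSubring F, (∀ c : O, algebraMap O F c ∈ V) → φ ∈ V →
      (algebraMap O F ϖ)⁻¹ ∉ V →
      (∀ s : O[X], (∃ i, IsUnit (s.coeff i)) → (aeval φ s)⁻¹ ∈ V) → V ∈ Set.range W) :
    haveI := chart_isFractionRing (O := O) hφ
    haveI := chart_isNoetherianRing (O := O) hφ
    haveI := chart_isIntegrallyClosed (O := O) hφ
    (∀ x : F, x ∈ Lattice.ring (Set.range W) (finiteAt (K := K) φ) ↔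
      ∃ a : chart O φ, algebraMap (chart O φ) F a = x) ∧
    (∀ V ∈ Set.range W, ∃ (P : Ideal (chart O φ)) (y : F) (h : IsCond P y),
      h.valuationSubring = V) ∧
    (∀ v ∈ finiteAt (K := K) φ, ∃ (P : Ideal (chart O φ)) (y : F) (h : IsCond P y),
      h.valuationSubring = v.toValuationSubring) ∧
    (∀ V ∈ Set.range W, ¬ ∃ v : Place K F, v.toValuationSubring = V) := by
  haveI := chart_isFractionRing (O := O) hφ
  haveI := chart_isNoetherianRing (O := O) hφ
  haveI := chart_isIntegrallyClosed (O := O) hφ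
  have hC : ChartData K F (piChart φ ϖ : chart O φ) := chartData_chart (K := K) hϖ φ
  refine ⟨mem_ring_iff_chart W hϖ hφ hgauss hvert, ?_, ?_, ?_⟩
  · rintro _ ⟨w, rfl⟩
    obtain ⟨Q, z, h, hW, -⟩ := exists_isCond_of_isGaussVert hϖ hφ (hgauss w)
    exact ⟨Q, z, h, hW.symm⟩
  · intro v hv
    have hfin : FiniteOn (chart O φ) v := (finiteOn_chart_iff (O := O) φ v).2 hv
    obtain ⟨y, hc, hv'⟩ := hC.exists_isCond hfin
    exact ⟨_, y, hc, hv'.symm⟩
  · rintro _ ⟨w, rfl⟩ ⟨v, hv⟩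
    apply (hgauss w).nonunit
    rw [← hv, IsScalarTower.algebraMap_apply O K F, ← map_inv₀]
    exact v.algebraMap_mem' _

/-- **on the chart: a prime divisor through `m` is a place or one of the `W w`** (the hypothesis
`hvert_i` of `RegFinal.reg_of_hasOrd_nOf`) -/
theorem mem_range_of_mem_Br_chart (W : 𝒲 → ValuationSubring F) {ϖ : O} (hϖ : Irreducible ϖ)
    {φ : F} (hφ : Transcendental K φ) [FiniteDimensional K⟮φ⟯ F]
    (hgauss : ∀ w, IsGaussVert ϖ φ (W w))
    (hvert : ∀ V : ValuationSubring F, (∀ c : O, algebraMap O F c ∈ V) → φ ∈ V →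
      (algebraMap O F ϖ)⁻¹ ∉ V →
      (∀ s : O[X], (∃ i, IsUnit (s.coeff i)) → (aeval φ s)⁻¹ ∈ V) → V ∈ Set.range W) :
    haveI := chart_isFractionRing (O := O) hφ
    haveI := chart_isNoetherianRing (O := O) hφ
    haveI := chart_isIntegrallyClosed (O := O) hφ
    ∀ (m : Ideal (chart O φ)) (V : ValuationSubring F), V ∈ Br (F := F) m →
      (¬ ∃ v : Place K F, v.toValuationSubring = V) → V ∈ Set.range W := by
  haveI := chart_isFractionRing (O := O) hφ
  haveI := chart_isNoetherianRing (O := O) hφ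
  haveI := chart_isIntegrallyClosed (O := O) hφ
  obtain ⟨hA, hV, hS, -⟩ := chart_dict W hϖ hφ hgauss hvert
  intro m V hVB hnot
  exact mem_vert_of_mem_Br (Set.range W) (finiteAt (K := K) φ) hA hV hS hVB hnot

/-- **on the chart: `f ^ e * t₀ ^ n` is a unit of the local ring at `m`**, in `(s, r)` form (the
local hypothesis of `RegFinal.reg_of_local`, the input of `NewInertiaValue.hv0_of_local`) -/
theorem exists_mul_eq_chart (W : 𝒲 → ValuationSubring F) {ϖ : O} (hϖ : Irreducible ϖ)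
    {φ : F} (hφ : Transcendental K φ) [FiniteDimensional K⟮φ⟯ F]
    (hgauss : ∀ w, IsGaussVert ϖ φ (W w))
    (hvert : ∀ V : ValuationSubring F, (∀ c : O, algebraMap O F c ∈ V) → φ ∈ V →
      (algebraMap O F ϖ)⁻¹ ∉ V →
      (∀ s : O[X], (∃ i, IsUnit (s.coeff i)) → (aeval φ s)⁻¹ ∈ V) → V ∈ Set.range W)
    {t₀ f : F} {n e : ℕ} (D₁ : Place K F → ℤ) (ht₀0 : t₀ ≠ 0) (hf0 : f ≠ 0)
    (hfD : ∀ v : Place K F, (e : ℤ) * v.ord f = n * D₁ v)
    (hfW : ∀ w, f ∈ W w ∧ f⁻¹ ∈ W w) :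
    haveI := chart_isFractionRing (O := O) hφ
    haveI := chart_isNoetherianRing (O := O) hφ
    haveI := chart_isIntegrallyClosed (O := O) hφ
    ∀ (m : Ideal (chart O φ)) [m.IsPrime],
      (∀ V ∈ Br (F := F) m, HasOrd V t₀ (nOf D₁ V)) →
      ∃ s r : chart O φ, s ∉ m ∧ r ∉ m ∧ (s : F) * (f ^ e * t₀ ^ n) = (r : F) := by
  haveI := chart_isFractionRing (O := O) hφ
  haveI := chart_isNoetherianRing (O := O) hφ
  haveI := chart_isIntegrallyClosed (O := O) hφ
  obtain ⟨hA, hV, hS, hnp⟩ := chart_dict W hϖ hφ hgauss hvert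
  intro m hm ht₀
  exact exists_mul_eq_of_hasOrd (Set.range W) (finiteAt (K := K) φ) hA hV hS hnp m D₁ ht₀0 ht₀ hf0
    hfD (by rintro _ ⟨w, rfl⟩; exact hfW w)

end ChartDict

/-! ### The last clause of `pt` on the opens of a `VCharts` -/

section OpenClause

variable {O : Type*} [CommRing O] [IsDomain O] [IsDiscreteValuationRing O] {K : Type*} [Field K]
  [Algebra O K] [IsFractionRing O K] [CharZero K] {F : Type*} [Field F] [Algebra K F]
  [Algebra O F] [IsScalarTower O K F] {𝒲 ι ι' : Type*}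

/-- the chart ring of `φ = V.φ` lies in every open of the first cover -/
theorem chart_le_S (V : VCharts O K F 𝒲 ι ι') {φ : F} (hVφ : V.φ = φ) (i : ι)
    (a : chart O φ) : (a : F) ∈ V.charts.S i := by
  subst hVφ
  exact le_awaySubring _ _ _ (chart_le_ring (Set.range V.W) V.hO V.hφV a.2)

/-- the chart ring of `φ⁻¹ = V.φ⁻¹` lies in every open of the second cover -/
theorem chart_le_S' (V : VCharts O K F 𝒲 ι ι') {φ : F} (hVφ : V.φ = φ) (j : ι')
    (a : chart O φ⁻¹) : (a : F) ∈ V.charts.S' j := by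
  subst hVφ
  exact le_awaySubring _ _ _ (chart_le_ring (Set.range V.W) V.hO V.hφV' a.2)

/-- **the last clause of `OpenData.pt` on `D(g i)`**: `V.s i * u₂ = u₁ * t₀ ^ k` with
`u₁ u₂ ∈ S i ∖ 𝔪`, when `t₀` generates `O(D̄₁)` at the point `𝔪 ∩ chart O φ` and `D = k D₁` (`D = V.D` in the
application). -/
theorem exists_units_mul_pow_eq_S (V : VCharts O K F 𝒲 ι ι') {φ : F} (hVφ : V.φ = φ)
    (hφ : Transcendental K φ) [FiniteDimensional K⟮φ⟯ F] (i : ι) {g₀ : chart O φ}
    (hg : (V.g i : F) = (g₀ : F)) {D D₁ : Place K F → ℤ} {k : ℕ}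
    (hD : ∀ v, D v = (k : ℤ) * D₁ v)
    (hp : haveI := chart_isFractionRing (O := O) hφ
      haveI := chart_isNoetherianRing (O := O) hφ
      haveI := chart_isIntegrallyClosed (O := O) hφ
      IsPiece (nOf D) g₀ (V.s i))
    (𝔪 : Ideal (V.charts.S i)) [h𝔪 : 𝔪.IsPrime] {t₀ : F} (ht₀0 : t₀ ≠ 0)
    (ht₀ : haveI := chart_isFractionRing (O := O) hφ
      haveI := chart_isNoetherianRing (O := O) hφ
      haveI := chart_isIntegrallyClosed (O := O) hφ
      ∀ V' ∈ Br (F := F) (𝔪.comap ((algebraMap (chart O φ) F).codRestrict (V.charts.S i)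
        (chart_le_S V hVφ i))), HasOrd V' t₀ (nOf D₁ V')) :
    ∃ u₁ u₂ : V.charts.S i, u₁ ∉ 𝔪 ∧ u₂ ∉ 𝔪 ∧ V.s i * (u₂ : F) = (u₁ : F) * t₀ ^ k := by
  haveI := chart_isFractionRing (O := O) hφ
  haveI := chart_isNoetherianRing (O := O) hφ
  haveI := chart_isIntegrallyClosed (O := O) hφ
  refine exists_units_mul_pow_eq (A := chart O φ) (V.charts.S i) (chart_le_S V hVφ i) 𝔪 hD hp ?_ ?_
    ht₀0 ht₀
  · show (g₀ : F) ≠ 0
    rw [← hg]
    exact V.hg0 i
  · show (g₀ : F)⁻¹ ∈ V.charts.S i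
    rw [← hg]
    exact inv_mem_awaySubring _ (V.g i).2

/-- **the last clause of `OpenData.pt` on `D(g' j)`** -/
theorem exists_units_mul_pow_eq_S' (V : VCharts O K F 𝒲 ι ι') {φ : F} (hVφ : V.φ = φ)
    (hφ : Transcendental K φ⁻¹) [FiniteDimensional K⟮φ⁻¹⟯ F] (j : ι') {g₀ : chart O φ⁻¹}
    (hg : (V.g' j : F) = (g₀ : F)) {D D₁ : Place K F → ℤ} {k : ℕ}
    (hD : ∀ v, D v = (k : ℤ) * D₁ v)
    (hp : haveI := chart_isFractionRing (O := O) hφ
      haveI := chart_isNoetherianRing (O := O) hφ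
      haveI := chart_isIntegrallyClosed (O := O) hφ
      IsPiece (nOf D) g₀ (V.s' j))
    (𝔪 : Ideal (V.charts.S' j)) [h𝔪 : 𝔪.IsPrime] {t₀ : F} (ht₀0 : t₀ ≠ 0)
    (ht₀ : haveI := chart_isFractionRing (O := O) hφ
      haveI := chart_isNoetherianRing (O := O) hφ
      haveI := chart_isIntegrallyClosed (O := O) hφ
      ∀ V' ∈ Br (F := F) (𝔪.comap ((algebraMap (chart O φ⁻¹) F).codRestrict (V.charts.S' j)
        (chart_le_S' V hVφ j))), HasOrd V' t₀ (nOf D₁ V')) :
    ∃ u₁ u₂ : V.charts.S' j, u₁ ∉ 𝔪 ∧ u₂ ∉ 𝔪 ∧ V.s' j * (u₂ : F) = (u₁ : F) * t₀ ^ k := by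
  haveI := chart_isFractionRing (O := O) hφ
  haveI := chart_isNoetherianRing (O := O) hφ
  haveI := chart_isIntegrallyClosed (O := O) hφ
  refine exists_units_mul_pow_eq (A := chart O φ⁻¹) (V.charts.S' j) (chart_le_S' V hVφ j) 𝔪 hD hp
    ?_ ?_ ht₀0 ht₀
  · show (g₀ : F) ≠ 0
    rw [← hg]
    exact V.hg0' j
  · show (g₀ : F)⁻¹ ∈ V.charts.S' j
    rw [← hg]
    exact inv_mem_awaySubring _ (V.g' j).2

end OpenClause

end Fermat.Agent.S36.VChartsOfLoc
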