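/-
PROJECT V (S36), slice V-LeafT0 (helper7): **the `t₀`-side of `NewInertiaCharts.Leaf`**.

Abstract (no X₀ names).  `X : GlueNorm.Datum`, `O` a DVR with algebraically closed residue field,
`K = Frac O`, `F / K`; `V : Lattice.VCharts` with its pieces (`VChartsOfLoc.exists_vcharts`);
`BranchCoreT.TDatum`s on the two chart rings in the presentation `𝒜 = (chart O φ).toSubring`
(`BranchPt` convention: `hle hcompat hdict`); a common generator `t₀` of `O(D̄₁)` at the points of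
`S₁`, `S₂` (`RegT0.exists_t0` / `CommonGen`), these sets containing the triple points.

* `comap_isMaximal_of_const` : the contraction of a closed point of an open to the chart.
* `constHomChart`, `finiteType_constHomChart`, `exists_const_sub_mem_chart` : residue classes at
  the closed points of the special fibre of the chart are constants (Zariski).
* `pt_of_tdatum_t0` : `BranchPt.pt_of_tdatum'` with the common-generator clause `hgen` discharged.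
* `mem_x20_of_nonunits`, `hv₀_of_tdatum` : the field `hv₀`.
* `t₀_mem_of_tdatum` : the fields `t₂₀ t₁₁ t₀₂`.
* `ptCond_S`, `ptCond_S'` : the fields `pt`, `pt'` on the opens of `V`.
* `t0_fields` : all of them at once, for ANY presentation `𝒜`, `𝒜'` with
  `h𝒜 : 𝒜 = (chart O φ).toSubring`.
-/
import Mathlib
import Fermat.Agent.S36.VChartsOfLoc
import Fermat.Agent.S36.BranchPt
import Fermat.Agent.S36.NewInertiaValue
import Fermat.Agent.S36.NewInertiaCharts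

set_option autoImplicit false
set_option linter.unusedSectionVars false
set_option linter.style.haveILetI false
set_option linter.unusedVariables false

namespace Fermat.Agent.S36.LeafT0

open AlgebraicCurve Polynomial IntermediateField
  Fermat.Agent.S36.KrullInter Fermat.Agent.S36.CentreCore Fermat.Agent.S36.Centre
  Fermat.Agent.S36.LocalGenOrd Fermat.Agent.S36.LocalGenV Fermat.Agent.S36.LocalIntrinsic
  Fermat.Agent.S36.CommonGenV Fermat.Agent.S36.ChartRing Fermat.Agent.S36.ChartVert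
  Fermat.Agent.S36.Lattice Fermat.Agent.S36.FormalLift Fermat.Agent.S36.VChartsOfLoc
  Fermat.Agent.S36.GlueNorm Fermat.Agent.S36.OpenLift Fermat.Agent.S36.TripleValues
  Fermat.Agent.S36.NewInertiaDatum Fermat.Agent.S36.BranchCoreT Fermat.Agent.S36.BranchPt
  Fermat.Agent.S36.SoftCoreInput

/-! ### The contraction of a closed point of an open to the chart is a closed point -/

section Contraction

variable {O : Type*} [CommRing O] {F : Type*} [Field F] [Algebra O F]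
  {A : Type*} [CommRing A] [Algebra A F]

/-- the contraction of a maximal ideal `𝔪` of `𝒮 ⊇ A` whose residue classes are represented by
constants which lie in `A` is a maximal ideal of `A` -/
theorem comap_isMaximal_of_const (𝒮 : Subring F) (hA𝒮 : ∀ a : A, algebraMap A F a ∈ 𝒮)
    (const : O → A) (hconstA : ∀ c : O, algebraMap A F (const c) = algebraMap O F c)
    (𝔪 : Ideal 𝒮) (h𝔪 : 𝔪.IsMaximal)
    (hconst : ∀ u : 𝒮, ∃ (c : O) (hc : algebraMap O F c ∈ 𝒮), u - ⟨algebraMap O F c, hc⟩ ∈ 𝔪) :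
    (𝔪.comap ((algebraMap A F).codRestrict 𝒮 hA𝒮)).IsMaximal := by
  set incl : A →+* 𝒮 := (algebraMap A F).codRestrict 𝒮 hA𝒮 with hincl
  set m : Ideal A := 𝔪.comap incl with hm
  have hmem_m : ∀ a : A, a ∈ m ↔ incl a ∈ 𝔪 := fun a => Iff.rfl
  rw [Ideal.isMaximal_iff]
  refine ⟨fun h1 => h𝔪.ne_top ((Ideal.eq_top_iff_one 𝔪).mpr (by
    have := (hmem_m 1).mp h1
    rwa [map_one] at this)), fun J a hmJ ha haJ => ?_⟩
  obtain ⟨u, i, hi, hui⟩ := h𝔪.exists_inv ((hmem_m a).not.mp ha)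
  obtain ⟨c, hc, hcu⟩ := hconst u
  have hc'' : incl (const c) = ⟨algebraMap O F c, hc⟩ := Subtype.ext (hconstA c)
  have hmem : const c * a - 1 ∈ m := by
    rw [hmem_m]
    have h1 : incl (const c * a - 1) = -(u - ⟨algebraMap O F c, hc⟩) * incl a - i := by
      rw [map_sub, map_mul, map_one, hc'']
      linear_combination hui
    rw [h1]
    exact 𝔪.sub_mem (𝔪.mul_mem_right _ (𝔪.neg_mem hcu)) hi
  have h2 : (1 : A) = const c * a - (const c * a - 1) := by ring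
  rw [h2]
  exact J.sub_mem (J.mul_mem_left _ haJ) (hmJ hmem)

end Contraction

/-! ### Residue classes at the closed points of the special fibre of the chart -/

section Const

variable {O : Type*} [CommRing O] [IsDomain O] [IsDiscreteValuationRing O] {K : Type*} [Field K]
  [Algebra O K] [IsFractionRing O K] [CharZero K] {F : Type*} [Field F] [Algebra K F]
  [Algebra O F] [IsScalarTower O K F]

/-- the constants, as a ring homomorphism into the chart ring -/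
noncomputable def constHomChart (φ : F) : O →+* chart O φ := (toChart φ).comp C

theorem constHomChart_apply (φ : F) (c : O) : constHomChart φ c = constChart φ c := rfl

theorem finiteType_constHomChart {φ : F} (hφ : Transcendental K φ) [FiniteDimensional K⟮φ⟯ F] :
    (constHomChart (O := O) φ).FiniteType := by
  have h1 : (C : O →+* O[X]).FiniteType := by
    have : (algebraMap O O[X]).FiniteType := RingHom.finiteType_algebraMap.2 inferInstance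
    rwa [Polynomial.algebraMap_eq] at this
  have h2 : (toAdjoinRing (O := O) φ).FiniteType :=
    RingHom.FiniteType.of_surjective _ (toAdjoinRing_surjective φ)
  have h3 : (algebraMap (Algebra.adjoin O ({φ} : Set F)) (chart O φ)).FiniteType := by
    have := chart_finite (O := O) (K := K) hφ
    exact RingHom.finiteType_algebraMap.2 inferInstance
  exact (h3.comp h2).comp h1

/-- **every function on the chart is congruent to a constant at a closed point of the special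
fibre** (residue field of `O` algebraically closed) -/
theorem exists_const_sub_mem_chart [IsAlgClosed (IsLocalRing.ResidueField O)] {ϖ : O}
    (hϖ : Irreducible ϖ) {φ : F} (hφ : Transcendental K φ) [FiniteDimensional K⟮φ⟯ F]
    (m : Ideal (chart O φ)) (hm : m.IsMaximal) (hϖm : piChart φ ϖ ∈ m) (u : chart O φ) :
    ∃ c : O, u - constChart φ c ∈ m := by
  haveI := hm
  refine Lattice.exists_const_sub_mem (constHomChart φ) (finiteType_constHomChart hφ) m ?_ u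
  intro c hc
  rw [hϖ.maximalIdeal_eq, Ideal.mem_span_singleton] at hc
  obtain ⟨d, rfl⟩ := hc
  rw [map_mul]
  exact m.mul_mem_right _ hϖm

end Const

/-! ### The field `pt` on an open of a chart -/

section Pt

variable {k κ F' F Pt : Type*} [Field k] [Field κ] [Algebra k κ] [Field F'] [Field F]
  {O : Type*} [CommRing O] [IsDomain O] [IsDiscreteValuationRing O] {K : Type*} [Field K]
  [Algebra O K] [IsFractionRing O K] [CharZero K] [Algebra K F] [Algebra O F]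
  [IsScalarTower O K F] {A₁ : Type*} [CommRing A₁]

/-- the constants lie in the chart ring -/
theorem algebraMap_mem_chart_toSubring (φ : F) (c : O) :
    algebraMap O F c ∈ (chart O φ).toSubring := by
  have := (constChart φ c : chart O φ).2
  rwa [coe_constChart] at this

set_option maxHeartbeats 800000 in
/-- **`pt` at a closed point of an open `S = 𝒜[1/g₀]` of the chart `𝒜 = chart O φ`**, with the
common-generator clause discharged: `s` is a piece for `D = e D₁` on `D(g₀)`, `t₀` generates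
`O(D̄₁)` at the points of `S₁`, and `S₁` contains the triple points of the chart. -/
theorem pt_of_tdatum_t0 (X : Datum k κ F' F Pt) (π : O →+* k) {n₀ : ℕ} (hE : ValGood X.E n₀)
    (hr : ∀ (w : Comp) (x : ↥(Wof X w)), rof X w x = 0 ↔ (Wof X w).valuation (x : F) < 1)
    (hπ : ∀ (w : Comp) (x : O) (m : algebraMap O F x ∈ Wof X w),
      rof X w ⟨algebraMap O F x, m⟩ = algebraMap k κ (π x))
    {φ : F} (hφ : Transcendental K φ) [FiniteDimensional K⟮φ⟯ F]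
    (ℬ : Subring κ) (D : TDatum A₁ ↥(chart O φ).toSubring ↥ℬ)
    (hle : ∀ w : Comp, (chart O φ).toSubring ≤ (Wof X w).toSubring)
    (hcompat : ∀ (w : Comp) (a : ↥(chart O φ).toSubring),
      ((rD D.toPDatum w a : ↥ℬ) : κ) = rof X w ⟨(a : F), hle w a.2⟩)
    (hdict : ∀ n : Ideal ↥ℬ, n.IsMaximal → n ∈ D.S →
      ∃ b ∈ X.S, ∀ z : ↥ℬ, z ∈ n ↔ X.E.val b (z : κ) 0)
    {g₀ : chart O φ} (hg0 : (g₀ : F) ≠ 0) (S : Subring F)
    (h𝒜S : (chart O φ).toSubring ≤ S) (hginvS : (g₀ : F)⁻¹ ∈ S)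
    (hSfrac : ∀ x ∈ S, ∃ E : ℕ, (g₀ : F) ^ E * x ∈ (chart O φ).toSubring)
    {s : F} {Dv D₁ : Place K F → ℤ} {e : ℕ} (hD : ∀ v, Dv v = (e : ℤ) * D₁ v)
    (hp : haveI := chart_isFractionRing (O := O) hφ
      haveI := chart_isNoetherianRing (O := O) hφ
      haveI := chart_isIntegrallyClosed (O := O) hφ
      IsPiece (nOf Dv) g₀ s)
    {t₀ : F} (ht₀0 : t₀ ≠ 0) (S₁ : Set (Ideal (chart O φ)))
    (ht₀ : haveI := chart_isFractionRing (O := O) hφ
      haveI := chart_isNoetherianRing (O := O) hφ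
      haveI := chart_isIntegrallyClosed (O := O) hφ
      ∀ m ∈ S₁, ∀ V' ∈ Br (F := F) m, HasOrd V' t₀ (nOf D₁ V'))
    (htrip : ∀ m : Ideal (chart O φ), m.IsMaximal →
      (∀ (w : Comp) (a : chart O φ), (a : F) ∈ (Wof X w).nonunits → a ∈ m) → m ∈ S₁)
    (𝔪 : Ideal ↥S) (h𝔪 : 𝔪.IsMaximal)
    (hconst : ∀ u : ↥S, ∃ (c : O) (hc : algebraMap O F c ∈ S),
      u - ⟨algebraMap O F c, hc⟩ ∈ 𝔪) :
    (∀ (w w' : Comp) (hw : S ≤ (Wof X w).toSubring) (hw' : S ≤ (Wof X w').toSubring),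
      RingHom.ker (resHom S (Wof X w) (rof X w) hw) ≤ 𝔪 →
      RingHom.ker (resHom S (Wof X w') (rof X w') hw') ≤ 𝔪 → w = w') ∨
    (∃ b ∈ X.S, (∀ w : Comp, S ≤ (Wof X w).toSubring) ∧
      (∀ (w : Comp) (hw : S ≤ (Wof X w).toSubring) (u : ↥S),
        u ∈ 𝔪 ↔ X.E.val b (resHom S (Wof X w) (rof X w) hw u) 0) ∧
      ∃ u₁ u₂ : ↥S, u₁ ∉ 𝔪 ∧ u₂ ∉ 𝔪 ∧ s * (u₂ : F) = (u₁ : F) * t₀ ^ e) := by
  haveI := chart_isFractionRing (O := O) hφ
  haveI := chart_isNoetherianRing (O := O) hφ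
  haveI := chart_isIntegrallyClosed (O := O) hφ
  refine pt_of_tdatum' X π hE hr hπ (chart O φ).toSubring ℬ D hle hcompat
    (algebraMap_mem_chart_toSubring φ) hdict (g := (g₀ : F)) g₀.2 hg0 S h𝒜S hginvS hSfrac s
    (t₀ ^ e) 𝔪 h𝔪 hconst ?_
  intro hall hker
  haveI : 𝔪.IsPrime := h𝔪.isPrime
  have hA𝒮 : ∀ a : chart O φ, algebraMap (chart O φ) F a ∈ S := fun a => h𝒜S a.2
  refine exists_units_mul_pow_eq (A := chart O φ) S hA𝒮 𝔪 hD hp hg0 hginvS ht₀0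
    (ht₀ _ (htrip _ ?_ ?_))
  · exact comap_isMaximal_of_const S hA𝒮 (constChart φ) (coe_constChart φ) 𝔪 h𝔪 hconst
  · intro w a ha
    apply hker w (hall w)
    rw [RingHom.mem_ker, resHom_apply]
    exact (hr w _).2 ((ValuationSubring.mem_nonunits_iff _).1 ha)

end Pt

/-! ### The field `hv₀` -/

section Value

variable {k κ F' F Pt : Type*} [Field k] [Field κ] [Algebra k κ] [Field F'] [Field F]
  {O : Type*} [CommRing O] [IsDomain O] [IsDiscreteValuationRing O] {K : Type*} [Field K]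
  [Algebra O K] [IsFractionRing O K] [CharZero K] [Algebra K F] [Algebra O F]
  [IsScalarTower O K F] {A₁ : Type*} [CommRing A₁]

/-- the three branches pass through the point `x₂₀(n)`, `n ∈ D.S`, in valuation language -/
theorem mem_x20_of_nonunits (X : Datum k κ F' F Pt)
    (hr : ∀ (w : Comp) (x : ↥(Wof X w)), rof X w x = 0 ↔ (Wof X w).valuation (x : F) < 1)
    {φ : F} (ℬ : Subring κ) (D : TDatum A₁ ↥(chart O φ).toSubring ↥ℬ)
    (hle : ∀ w : Comp, (chart O φ).toSubring ≤ (Wof X w).toSubring)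
    (hcompat : ∀ (w : Comp) (a : ↥(chart O φ).toSubring),
      ((rD D.toPDatum w a : ↥ℬ) : κ) = rof X w ⟨(a : F), hle w a.2⟩)
    {n : Ideal ↥ℬ} (hn : n.IsMaximal) (hnS : n ∈ D.S) (w : Comp)
    (a : ↥(chart O φ).toSubring) (ha : (a : F) ∈ (Wof X w).nonunits) : a ∈ D.x20 n := by
  have h0 : rD D.toPDatum w a = 0 := by
    apply Subtype.ext
    rw [hcompat w a]
    exact (hr w _).2 ((ValuationSubring.mem_nonunits_iff _).1 ha)
  obtain ⟨h20, h11, h02⟩ := D.ker_le_x20_of_mem hn hnS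
  cases w
  · exact h20 ((RingHom.mem_ker).2 h0)
  · exact h11 ((RingHom.mem_ker).2 h0)
  · exact h02 ((RingHom.mem_ker).2 h0)

set_option maxHeartbeats 800000 in
/-- **`hv₀`**: `v₀ = f ^ e * t₀ ^ n` has ONE nonzero value on the three branches at every
`b ∈ X.S`, when every `b ∈ X.S` is the place of a point of `D.S`, `t₀` generates `O(D̄₁)` at the
triple points and `e · div f = n · D₁`. -/
theorem hv₀_of_tdatum [IsAlgClosed (IsLocalRing.ResidueField O)] (X : Datum k κ F' F Pt)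
    (π : O →+* k) {n₀ : ℕ} (hE : ValGood X.E n₀)
    (hr : ∀ (w : Comp) (x : ↥(Wof X w)), rof X w x = 0 ↔ (Wof X w).valuation (x : F) < 1)
    (hπ : ∀ (w : Comp) (x : O) (m : algebraMap O F x ∈ Wof X w),
      rof X w ⟨algebraMap O F x, m⟩ = algebraMap k κ (π x))
    {ϖ : O} (hϖ : Irreducible ϖ) {φ : F} (hφ : Transcendental K φ) [FiniteDimensional K⟮φ⟯ F]
    (hgauss : ∀ w, IsGaussVert ϖ φ (Wof X w))
    (hvert : ∀ V : ValuationSubring F, (∀ c : O, algebraMap O F c ∈ V) → φ ∈ V →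
      (algebraMap O F ϖ)⁻¹ ∉ V →
      (∀ s : O[X], (∃ i, IsUnit (s.coeff i)) → (aeval φ s)⁻¹ ∈ V) → V ∈ Set.range (Wof X))
    (ℬ : Subring κ) (D : TDatum A₁ ↥(chart O φ).toSubring ↥ℬ)
    (hle : ∀ w : Comp, (chart O φ).toSubring ≤ (Wof X w).toSubring)
    (hcompat : ∀ (w : Comp) (a : ↥(chart O φ).toSubring),
      ((rD D.toPDatum w a : ↥ℬ) : κ) = rof X w ⟨(a : F), hle w a.2⟩)
    (hconv : ∀ b ∈ X.S, ∃ n : Ideal ↥ℬ, n.IsMaximal ∧ n ∈ D.S ∧
      ∀ z : ↥ℬ, z ∈ n ↔ X.E.val b (z : κ) 0)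
    {t₀ f : F} {n e : ℕ} (D₁ : Place K F → ℤ) (ht₀0 : t₀ ≠ 0) (hf0 : f ≠ 0)
    (hfD : ∀ v : Place K F, (e : ℤ) * v.ord f = n * D₁ v)
    (hfW : ∀ w, f ∈ Wof X w ∧ f⁻¹ ∈ Wof X w)
    (S₁ : Set (Ideal (chart O φ)))
    (ht₀ : haveI := chart_isFractionRing (O := O) hφ
      haveI := chart_isNoetherianRing (O := O) hφ
      haveI := chart_isIntegrallyClosed (O := O) hφ
      ∀ m ∈ S₁, ∀ V' ∈ Br (F := F) m, HasOrd V' t₀ (nOf D₁ V'))
    (htrip : ∀ m : Ideal (chart O φ), m.IsMaximal →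
      (∀ (w : Comp) (a : chart O φ), (a : F) ∈ (Wof X w).nonunits → a ∈ m) → m ∈ S₁) :
    ∀ b ∈ X.S, ∃ c : k, c ≠ 0 ∧
      (∀ m, X.E.val b (X.r₂₀ ⟨f ^ e * t₀ ^ n, m⟩) c) ∧
      (∀ m, X.E.val b (X.r₁₁ ⟨f ^ e * t₀ ^ n, m⟩) c) ∧
      (∀ m, X.E.val b (X.r₀₂ ⟨f ^ e * t₀ ^ n, m⟩) c) := by
  haveI := chart_isFractionRing (O := O) hφ
  haveI := chart_isNoetherianRing (O := O) hφ
  haveI := chart_isIntegrallyClosed (O := O) hφ
  refine NewInertiaValue.hv₀_of_local hE hπ (f ^ e * t₀ ^ n) ?_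
  intro b hb
  obtain ⟨nb, hnb, hnS, hval⟩ := hconv b hb
  set m : Ideal (chart O φ) := D.x20 nb with hm
  have hm_max : m.IsMaximal := D.x20_isMaximal hnb
  haveI : m.IsPrime := hm_max.isPrime
  have hthrough : ∀ (w : Comp) (a : chart O φ), (a : F) ∈ (Wof X w).nonunits → a ∈ m :=
    fun w a ha => mem_x20_of_nonunits X hr ℬ D hle hcompat hnb hnS w a ha
  have hmS₁ : m ∈ S₁ := htrip m hm_max hthrough
  obtain ⟨s, r, hs, hr', hsr⟩ :=
    exists_mul_eq_chart (Wof X) hϖ hφ hgauss hvert D₁ ht₀0 hf0 hfD hfW m (ht₀ m hmS₁)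
  have hϖm : piChart φ ϖ ∈ m := by
    apply hthrough Comp.c20
    rw [coe_piChart]
    exact (hgauss Comp.c20).nonunit |> fun h => by
      rw [ValuationSubring.mem_nonunits_iff_or]
      exact Or.inr h
  refine ⟨(chart O φ).toSubring, m, hle, ?_, ?_, ⟨r, s, hr', hs, ?_⟩⟩
  · intro u
    obtain ⟨c, hc⟩ := exists_const_sub_mem_chart hϖ hφ m hm_max hϖm u
    refine ⟨c, algebraMap_mem_chart_toSubring φ c, ?_⟩
    have : (constChart φ c : chart O φ) =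
        (⟨algebraMap O F c, algebraMap_mem_chart_toSubring φ c⟩ : ↥(chart O φ).toSubring) :=
      Subtype.ext (coe_constChart φ c)
    rw [← this]
    exact hc
  · intro w u
    rw [resHom_apply, ← hcompat w u, ← hval]
    cases w
    · exact Iff.rfl
    · rw [hm, D.x20_eq_x11 hnb hnS]
      exact Iff.rfl
    · rw [hm, D.x20_eq_x02 hnb hnS]
      exact Iff.rfl
  · rw [mul_comm]
    exact hsr

end Value

/-! ### `t₂₀`, `t₁₁`, `t₀₂` -/

section Mem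

variable {k κ F' F Pt : Type*} [Field k] [Field κ] [Algebra k κ] [Field F'] [Field F]
  {O : Type*} [CommRing O] [IsDomain O] [IsDiscreteValuationRing O] {K : Type*} [Field K]
  [Algebra O K] [IsFractionRing O K] [CharZero K] [Algebra K F] [Algebra O F]
  [IsScalarTower O K F] {A₁ : Type*} [CommRing A₁]

/-- **`t₀` is a unit of the three vertical valuation subrings**, as soon as the chart has a
triple point -/
theorem t₀_mem_of_tdatum (X : Datum k κ F' F Pt)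
    (hr : ∀ (w : Comp) (x : ↥(Wof X w)), rof X w x = 0 ↔ (Wof X w).valuation (x : F) < 1)
    {ϖ : O} (hϖ : Irreducible ϖ) {φ : F} (hφ : Transcendental K φ) [FiniteDimensional K⟮φ⟯ F]
    (hgauss : ∀ w, IsGaussVert ϖ φ (Wof X w))
    (hvert : ∀ V : ValuationSubring F, (∀ c : O, algebraMap O F c ∈ V) → φ ∈ V →
      (algebraMap O F ϖ)⁻¹ ∉ V →
      (∀ s : O[X], (∃ i, IsUnit (s.coeff i)) → (aeval φ s)⁻¹ ∈ V) → V ∈ Set.range (Wof X))
    (ℬ : Subring κ) (D : TDatum A₁ ↥(chart O φ).toSubring ↥ℬ)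
    (hle : ∀ w : Comp, (chart O φ).toSubring ≤ (Wof X w).toSubring)
    (hcompat : ∀ (w : Comp) (a : ↥(chart O φ).toSubring),
      ((rD D.toPDatum w a : ↥ℬ) : κ) = rof X w ⟨(a : F), hle w a.2⟩)
    (hne : ∃ n : Ideal ↥ℬ, n.IsMaximal ∧ n ∈ D.S)
    {t₀ : F} (D₁ : Place K F → ℤ) (S₁ : Set (Ideal (chart O φ)))
    (ht₀ : haveI := chart_isFractionRing (O := O) hφ
      haveI := chart_isNoetherianRing (O := O) hφ
      haveI := chart_isIntegrallyClosed (O := O) hφ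
      ∀ m ∈ S₁, ∀ V' ∈ Br (F := F) m, HasOrd V' t₀ (nOf D₁ V'))
    (htrip : ∀ m : Ideal (chart O φ), m.IsMaximal →
      (∀ (w : Comp) (a : chart O φ), (a : F) ∈ (Wof X w).nonunits → a ∈ m) → m ∈ S₁)
    (w : Comp) : t₀ ∈ Wof X w ∧ t₀⁻¹ ∈ Wof X w := by
  haveI := chart_isFractionRing (O := O) hφ
  haveI := chart_isNoetherianRing (O := O) hφ
  haveI := chart_isIntegrallyClosed (O := O) hφ
  obtain ⟨nb, hnb, hnS⟩ := hne
  set m : Ideal (chart O φ) := D.x20 nb with hm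
  have hm_max : m.IsMaximal := D.x20_isMaximal hnb
  have hthrough : ∀ (w : Comp) (a : chart O φ), (a : F) ∈ (Wof X w).nonunits → a ∈ m :=
    fun w a ha => mem_x20_of_nonunits X hr ℬ D hle hcompat hnb hnS w a ha
  obtain ⟨-, hV, -, hnp⟩ := chart_dict (Wof X) hϖ hφ hgauss hvert
  exact mem_and_inv_mem_of_through (A := chart O φ) (hV _ ⟨w, rfl⟩) (hnp _ ⟨w, rfl⟩) m
    (hthrough w) D₁ (ht₀ m (htrip m hm_max hthrough))

end Mem

/-! ### The `t₀`-side of `NewInertiaCharts.Leaf` -/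

section Leaf

variable {k κ F' F Pt : Type*} [Field k] [Field κ] [Algebra k κ] [Field F'] [Field F]
  {O : Type*} [CommRing O] [IsDomain O] [IsDiscreteValuationRing O] {K : Type*} [Field K]
  [Algebra O K] [IsFractionRing O K] [CharZero K] [Algebra K F] [Algebra O F]
  [IsScalarTower O K F] {A₁ A₁' : Type*} [CommRing A₁] [CommRing A₁'] {ι ι' : Type*}

open Fermat.Agent.S36.NewInertiaCharts

set_option maxHeartbeats 1600000 in
/-- **`Leaf.pt`** -/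
theorem ptCond_S [IsAlgClosed (IsLocalRing.ResidueField O)] (X : Datum k κ F' F Pt)
    (π : O →+* k) {n₀ : ℕ} (hE : ValGood X.E n₀)
    (hr : ∀ (w : Comp) (x : ↥(Wof X w)), rof X w x = 0 ↔ (Wof X w).valuation (x : F) < 1)
    (hπ : ∀ (w : Comp) (x : O) (m : algebraMap O F x ∈ Wof X w),
      rof X w ⟨algebraMap O F x, m⟩ = algebraMap k κ (π x))
    (V : VCharts O K F Comp ι ι') {ϖ : O} (hVϖ : V.ϖ = ϖ) {φ : F} (hVφ : V.φ = φ)
    (hϖ : Irreducible ϖ) (hφ : Transcendental K φ) [FiniteDimensional K⟮φ⟯ F]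
    (hvert : ∀ W : ValuationSubring F, (∀ c : O, algebraMap O F c ∈ W) → φ ∈ W →
      (algebraMap O F ϖ)⁻¹ ∉ W →
      (∀ s : O[X], (∃ i, IsUnit (s.coeff i)) → (aeval φ s)⁻¹ ∈ W) → W ∈ Set.range V.W)
    (ℬ : Subring κ) (D : TDatum A₁ ↥(chart O φ).toSubring ↥ℬ)
    (hle : ∀ w : Comp, (chart O φ).toSubring ≤ (Wof X w).toSubring)
    (hcompat : ∀ (w : Comp) (a : ↥(chart O φ).toSubring),
      ((rD D.toPDatum w a : ↥ℬ) : κ) = rof X w ⟨(a : F), hle w a.2⟩)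
    (hdict : ∀ n : Ideal ↥ℬ, n.IsMaximal → n ∈ D.S →
      ∃ b ∈ X.S, ∀ z : ↥ℬ, z ∈ n ↔ X.E.val b (z : κ) 0)
    (i : ι) {g₀ : chart O φ} (hg : (V.g i : F) = (g₀ : F))
    {Dv D₁ : Place K F → ℤ} {e : ℕ} (hD : ∀ v, Dv v = (e : ℤ) * D₁ v)
    (hp : haveI := chart_isFractionRing (O := O) hφ
      haveI := chart_isNoetherianRing (O := O) hφ
      haveI := chart_isIntegrallyClosed (O := O) hφ
      IsPiece (nOf Dv) g₀ (V.s i))
    {t₀ : F} (ht₀0 : t₀ ≠ 0) (S₁ : Set (Ideal (chart O φ)))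
    (ht₀ : haveI := chart_isFractionRing (O := O) hφ
      haveI := chart_isNoetherianRing (O := O) hφ
      haveI := chart_isIntegrallyClosed (O := O) hφ
      ∀ m ∈ S₁, ∀ V' ∈ Br (F := F) m, HasOrd V' t₀ (nOf D₁ V'))
    (htrip : ∀ m : Ideal (chart O φ), m.IsMaximal →
      (∀ (w : Comp) (a : chart O φ), (a : F) ∈ (Wof X w).nonunits → a ∈ m) → m ∈ S₁) :
    PtCond X V.charts.ϖF (V.charts.S i) (V.charts.algebraMap_mem_S i V.charts.ϖ) (V.s i)
      (t₀ ^ e) := by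
  subst hVϖ hVφ
  intro 𝔪 h𝔪 hϖ𝔪
  refine pt_of_tdatum_t0 X π hE hr hπ hφ ℬ D hle hcompat hdict (g₀ := g₀) ?_ (V.charts.S i)
    (fun x hx => chart_le_S V rfl i ⟨x, hx⟩) ?_ ?_ hD hp ht₀0 S₁ ht₀ htrip 𝔪 h𝔪
    (V.const hϖ hφ hvert i 𝔪 h𝔪 hϖ𝔪)
  · rw [← hg]
    exact V.hg0 i
  · rw [← hg]
    exact inv_mem_awaySubring _ (V.g i).2
  · intro x hx
    obtain ⟨E, hE'⟩ := hx
    refine ⟨E, ?_⟩
    rw [← hg]
    exact ring_le_chart (Set.range V.W) hϖ hφ hvert hE'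

set_option maxHeartbeats 1600000 in
/-- **`Leaf.pt'`** -/
theorem ptCond_S' [IsAlgClosed (IsLocalRing.ResidueField O)] (X : Datum k κ F' F Pt)
    (π : O →+* k) {n₀ : ℕ} (hE : ValGood X.E n₀)
    (hr : ∀ (w : Comp) (x : ↥(Wof X w)), rof X w x = 0 ↔ (Wof X w).valuation (x : F) < 1)
    (hπ : ∀ (w : Comp) (x : O) (m : algebraMap O F x ∈ Wof X w),
      rof X w ⟨algebraMap O F x, m⟩ = algebraMap k κ (π x))
    (V : VCharts O K F Comp ι ι') {ϖ : O} (hVϖ : V.ϖ = ϖ) {φ : F} (hVφ : V.φ = φ)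
    (hϖ : Irreducible ϖ) (hφ : Transcendental K φ⁻¹) [FiniteDimensional K⟮φ⁻¹⟯ F]
    (hvert' : ∀ W : ValuationSubring F, (∀ c : O, algebraMap O F c ∈ W) → φ⁻¹ ∈ W →
      (algebraMap O F ϖ)⁻¹ ∉ W →
      (∀ s : O[X], (∃ i, IsUnit (s.coeff i)) → (aeval φ⁻¹ s)⁻¹ ∈ W) → W ∈ Set.range V.W)
    (ℬ : Subring κ) (D : TDatum A₁ ↥(chart O φ⁻¹).toSubring ↥ℬ)
    (hle : ∀ w : Comp, (chart O φ⁻¹).toSubring ≤ (Wof X w).toSubring)
    (hcompat : ∀ (w : Comp) (a : ↥(chart O φ⁻¹).toSubring),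
      ((rD D.toPDatum w a : ↥ℬ) : κ) = rof X w ⟨(a : F), hle w a.2⟩)
    (hdict : ∀ n : Ideal ↥ℬ, n.IsMaximal → n ∈ D.S →
      ∃ b ∈ X.S, ∀ z : ↥ℬ, z ∈ n ↔ X.E.val b (z : κ) 0)
    (j : ι') {g₀ : chart O φ⁻¹} (hg : (V.g' j : F) = (g₀ : F))
    {Dv D₁ : Place K F → ℤ} {e : ℕ} (hD : ∀ v, Dv v = (e : ℤ) * D₁ v)
    (hp : haveI := chart_isFractionRing (O := O) hφ
      haveI := chart_isNoetherianRing (O := O) hφ
      haveI := chart_isIntegrallyClosed (O := O) hφ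
      IsPiece (nOf Dv) g₀ (V.s' j))
    {t₀ : F} (ht₀0 : t₀ ≠ 0) (S₂ : Set (Ideal (chart O φ⁻¹)))
    (ht₀ : haveI := chart_isFractionRing (O := O) hφ
      haveI := chart_isNoetherianRing (O := O) hφ
      haveI := chart_isIntegrallyClosed (O := O) hφ
      ∀ m ∈ S₂, ∀ V' ∈ Br (F := F) m, HasOrd V' t₀ (nOf D₁ V'))
    (htrip : ∀ m : Ideal (chart O φ⁻¹), m.IsMaximal →
      (∀ (w : Comp) (a : chart O φ⁻¹), (a : F) ∈ (Wof X w).nonunits → a ∈ m) → m ∈ S₂) :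
    PtCond X V.charts.ϖF (V.charts.S' j) (V.charts.algebraMap_mem_S' j V.charts.ϖ) (V.s' j)
      (t₀ ^ e) := by
  subst hVϖ hVφ
  intro 𝔪 h𝔪 hϖ𝔪
  refine pt_of_tdatum_t0 X π hE hr hπ hφ ℬ D hle hcompat hdict (g₀ := g₀) ?_ (V.charts.S' j)
    (fun x hx => chart_le_S' V rfl j ⟨x, hx⟩) ?_ ?_ hD hp ht₀0 S₂ ht₀ htrip 𝔪 h𝔪
    (V.const' hϖ hφ hvert' j 𝔪 h𝔪 hϖ𝔪)
  · rw [← hg]
    exact V.hg0' j
  · rw [← hg]
    exact inv_mem_awaySubring _ (V.g' j).2
  · intro x hx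
    obtain ⟨E, hE'⟩ := hx
    refine ⟨E, ?_⟩
    rw [← hg]
    exact ring_le_chart (Set.range V.W) hϖ hφ hvert' hE'


set_option maxHeartbeats 1600000 in
/-- **the `t₀`-side of `NewInertiaCharts.Leaf`** (fields `t₂₀ t₁₁ t₀₂ hv₀ pt pt'`; `hR₁ hR₂` come
with `t₀` from `RegT0.exists_t0`), for ANY presentation `𝒜`, `𝒜'` of the two chart rings as
subrings of `F` carrying the `TDatum`s. -/
theorem t0_fields [IsAlgClosed (IsLocalRing.ResidueField O)] (X : Datum k κ F' F Pt)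
    (π : O →+* k) {n₀ : ℕ} (hE : ValGood X.E n₀)
    (hr : ∀ (w : Comp) (x : ↥(Wof X w)), rof X w x = 0 ↔ (Wof X w).valuation (x : F) < 1)
    (hπ : ∀ (w : Comp) (x : O) (m : algebraMap O F x ∈ Wof X w),
      rof X w ⟨algebraMap O F x, m⟩ = algebraMap k κ (π x))
    (V : VCharts O K F Comp ι ι') (hW : V.W = Wof X) {ϖ : O} (hVϖ : V.ϖ = ϖ) {φ : F}
    (hVφ : V.φ = φ) (hϖ : Irreducible ϖ) (hφ : Transcendental K φ)
    (hφ' : Transcendental K φ⁻¹) [FiniteDimensional K⟮φ⟯ F] [FiniteDimensional K⟮φ⁻¹⟯ F]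
    (hgauss : ∀ w, IsGaussVert ϖ φ (Wof X w))
    (hvert : ∀ W : ValuationSubring F, (∀ c : O, algebraMap O F c ∈ W) → φ ∈ W →
      (algebraMap O F ϖ)⁻¹ ∉ W →
      (∀ s : O[X], (∃ i, IsUnit (s.coeff i)) → (aeval φ s)⁻¹ ∈ W) → W ∈ Set.range (Wof X))
    (hvert' : ∀ W : ValuationSubring F, (∀ c : O, algebraMap O F c ∈ W) → φ⁻¹ ∈ W →
      (algebraMap O F ϖ)⁻¹ ∉ W →
      (∀ s : O[X], (∃ i, IsUnit (s.coeff i)) → (aeval φ⁻¹ s)⁻¹ ∈ W) → W ∈ Set.range (Wof X))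
    -- the chart `{φ ≠ ∞}`
    (𝒜 : Subring F) (h𝒜 : 𝒜 = (chart O φ).toSubring) (ℬ : Subring κ) (D : TDatum A₁ ↥𝒜 ↥ℬ)
    (hle : ∀ w : Comp, 𝒜 ≤ (Wof X w).toSubring)
    (hcompat : ∀ (w : Comp) (a : ↥𝒜),
      ((rD D.toPDatum w a : ↥ℬ) : κ) = rof X w ⟨(a : F), hle w a.2⟩)
    (hdict : ∀ n : Ideal ↥ℬ, n.IsMaximal → n ∈ D.S →
      ∃ b ∈ X.S, ∀ z : ↥ℬ, z ∈ n ↔ X.E.val b (z : κ) 0)
    (hconv : ∀ b ∈ X.S, ∃ n : Ideal ↥ℬ, n.IsMaximal ∧ n ∈ D.S ∧
      ∀ z : ↥ℬ, z ∈ n ↔ X.E.val b (z : κ) 0)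
    (hne : ∃ n : Ideal ↥ℬ, n.IsMaximal ∧ n ∈ D.S)
    -- the chart `{φ ≠ 0}`
    (𝒜' : Subring F) (h𝒜' : 𝒜' = (chart O φ⁻¹).toSubring) (ℬ' : Subring κ)
    (D' : TDatum A₁' ↥𝒜' ↥ℬ')
    (hle' : ∀ w : Comp, 𝒜' ≤ (Wof X w).toSubring)
    (hcompat' : ∀ (w : Comp) (a : ↥𝒜'),
      ((rD D'.toPDatum w a : ↥ℬ') : κ) = rof X w ⟨(a : F), hle' w a.2⟩)
    (hdict' : ∀ n : Ideal ↥ℬ', n.IsMaximal → n ∈ D'.S →
      ∃ b ∈ X.S, ∀ z : ↥ℬ', z ∈ n ↔ X.E.val b (z : κ) 0)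
    -- the pieces of the two covers
    {Dv D₁ : Place K F → ℤ} {e : ℕ} (hD : ∀ v, Dv v = (e : ℤ) * D₁ v)
    (hpieces : haveI := chart_isFractionRing (O := O) hφ
      haveI := chart_isNoetherianRing (O := O) hφ
      haveI := chart_isIntegrallyClosed (O := O) hφ
      ∃ g₀ : ι → chart O φ, ∀ i, (V.g i : F) = (g₀ i : F) ∧ IsPiece (nOf Dv) (g₀ i) (V.s i))
    (hpieces' : haveI := chart_isFractionRing (O := O) hφ'
      haveI := chart_isNoetherianRing (O := O) hφ'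
      haveI := chart_isIntegrallyClosed (O := O) hφ'
      ∃ g₀' : ι' → chart O φ⁻¹, ∀ j, (V.g' j : F) = (g₀' j : F) ∧
        IsPiece (nOf Dv) (g₀' j) (V.s' j))
    -- the Kummer function
    {f : F} {n ef : ℕ} (hf0 : f ≠ 0) (hfD : ∀ v : Place K F, (ef : ℤ) * v.ord f = n * D₁ v)
    (hfW : ∀ w, f ∈ Wof X w ∧ f⁻¹ ∈ Wof X w)
    -- the common generator
    {t₀ : F} (ht₀0 : t₀ ≠ 0) (S₁ : Set (Ideal (chart O φ)))
    (ht₀ : haveI := chart_isFractionRing (O := O) hφ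
      haveI := chart_isNoetherianRing (O := O) hφ
      haveI := chart_isIntegrallyClosed (O := O) hφ
      ∀ m ∈ S₁, ∀ V' ∈ Br (F := F) m, HasOrd V' t₀ (nOf D₁ V'))
    (htrip : ∀ m : Ideal (chart O φ), m.IsMaximal →
      (∀ (w : Comp) (a : chart O φ), (a : F) ∈ (Wof X w).nonunits → a ∈ m) → m ∈ S₁)
    (S₂ : Set (Ideal (chart O φ⁻¹)))
    (ht₀' : haveI := chart_isFractionRing (O := O) hφ'
      haveI := chart_isNoetherianRing (O := O) hφ'
      haveI := chart_isIntegrallyClosed (O := O) hφ'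
      ∀ m ∈ S₂, ∀ V' ∈ Br (F := F) m, HasOrd V' t₀ (nOf D₁ V'))
    (htrip' : ∀ m : Ideal (chart O φ⁻¹), m.IsMaximal →
      (∀ (w : Comp) (a : chart O φ⁻¹), (a : F) ∈ (Wof X w).nonunits → a ∈ m) → m ∈ S₂) :
    (t₀ ∈ X.W₂₀ ∧ t₀ ∈ X.W₁₁ ∧ t₀ ∈ X.W₀₂) ∧
    (∀ b ∈ X.S, ∃ c : k, c ≠ 0 ∧
      (∀ m, X.E.val b (X.r₂₀ ⟨f ^ ef * t₀ ^ n, m⟩) c) ∧
      (∀ m, X.E.val b (X.r₁₁ ⟨f ^ ef * t₀ ^ n, m⟩) c) ∧
      (∀ m, X.E.val b (X.r₀₂ ⟨f ^ ef * t₀ ^ n, m⟩) c)) ∧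
    (∀ i : ι, PtCond X V.charts.ϖF (V.charts.S i) (V.charts.algebraMap_mem_S i V.charts.ϖ)
      (V.s i) (t₀ ^ e)) ∧
    (∀ j : ι', PtCond X V.charts.ϖF (V.charts.S' j) (V.charts.algebraMap_mem_S' j V.charts.ϖ)
      (V.s' j) (t₀ ^ e)) := by
  subst h𝒜 h𝒜'
  obtain ⟨g₀, hg₀⟩ := hpieces
  obtain ⟨g₀', hg₀'⟩ := hpieces'
  have hvertV : ∀ W : ValuationSubring F, (∀ c : O, algebraMap O F c ∈ W) → φ ∈ W →
      (algebraMap O F ϖ)⁻¹ ∉ W →
      (∀ s : O[X], (∃ i, IsUnit (s.coeff i)) → (aeval φ s)⁻¹ ∈ W) → W ∈ Set.range V.W := by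
    rw [hW]; exact hvert
  have hvertV' : ∀ W : ValuationSubring F, (∀ c : O, algebraMap O F c ∈ W) → φ⁻¹ ∈ W →
      (algebraMap O F ϖ)⁻¹ ∉ W →
      (∀ s : O[X], (∃ i, IsUnit (s.coeff i)) → (aeval φ⁻¹ s)⁻¹ ∈ W) → W ∈ Set.range V.W := by
    rw [hW]; exact hvert'
  have hmem := t₀_mem_of_tdatum X hr hϖ hφ hgauss hvert ℬ D hle hcompat hne D₁ S₁ ht₀ htrip
  refine ⟨⟨(hmem Comp.c20).1, (hmem Comp.c11).1, (hmem Comp.c02).1⟩, ?_, ?_, ?_⟩
  · exact hv₀_of_tdatum X π hE hr hπ hϖ hφ hgauss hvert ℬ D hle hcompat hconv D₁ ht₀0 hf0 hfD hfW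
      S₁ ht₀ htrip
  · intro i
    exact ptCond_S X π hE hr hπ V hVϖ hVφ hϖ hφ hvertV ℬ D hle hcompat hdict i (hg₀ i).1 hD
      (hg₀ i).2 ht₀0 S₁ ht₀ htrip
  · intro j
    exact ptCond_S' X π hE hr hπ V hVϖ hVφ hϖ hφ' hvertV' ℬ' D' hle' hcompat' hdict' j (hg₀' j).1
      hD (hg₀' j).2 ht₀0 S₂ ht₀' htrip'


end Leaf

end Fermat.Agent.S36.LeafT0
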