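/-
PROJECT V (S36), slice V-SpecLink (helper18), part 4: **finiteness of the exceptional set of closed
points** (chain v1.1 (N1)/(R3)).  Mathlib + `S36/BranchCore`.

* `finite_maximal_of_mem` : in a noetherian domain of dimension `≤ 1` a nonzero element lies in
  finitely many maximal ideals;
* `finite_comap_of_surjective` : the same pulled back along a surjection;
* `finite_maximal_datum` : for the chart datum of chain (V9) with `B` a noetherian domain
  of dimension `≤ 1` (`Bfin`, `Binf` are Dedekind) and `h : A` whose three reductions are nonzero: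
  `{x maximal | ϖ ∈ x ∧ h ∈ x}` is finite.  (With `h = ∏ (j₀ - c_γ)` resp. `1 / j₀`, `ϖ = q`: the set
  `T` of closed points at which the common local generator of `SpecLocal` has to generate.)
-/
import Mathlib
import Fermat.Agent.S36.BranchCore

set_option autoImplicit false

namespace Fermat.Agent.S36.SpecFinite

/-- in a noetherian domain of dimension `≤ 1` a nonzero element lies in finitely many maximal
ideals -/
theorem finite_maximal_of_mem {B : Type*} [CommRing B] [IsDomain B] [IsNoetherianRing B]
    [Ring.DimensionLEOne B] {b : B} (hb : b ≠ 0) :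
    {n : Ideal B | n.IsMaximal ∧ b ∈ n}.Finite := by
  refine (Ideal.finite_minimalPrimes_of_isNoetherianRing B (Ideal.span {b})).subset ?_
  rintro n ⟨hn, hbn⟩
  have hle : Ideal.span {b} ≤ n := (Ideal.span_singleton_le_iff_mem _).mpr hbn
  refine ⟨⟨hn.isPrime, hle⟩, fun p ⟨hp, hbp⟩ hpn => ?_⟩
  have hp0 : p ≠ ⊥ := by
    rintro rfl
    exact hb (by simpa using hbp (Ideal.mem_span_singleton_self b))
  have := hp
  have hpmax : p.IsMaximal := Ring.DimensionLEOne.maximalOfPrime hp0 hp
  exact (hpmax.eq_of_le hn.ne_top hpn).ge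

/-- the maximal ideals of `A` of the form `n.comap r` (`r` onto a noetherian domain of dimension
`≤ 1`) which contain an element with nonzero image are finitely many -/
theorem finite_comap_of_surjective {A B : Type*} [CommRing A] [CommRing B] [IsDomain B]
    [IsNoetherianRing B] [Ring.DimensionLEOne B] (r : A →+* B) {h : A} (hh : r h ≠ 0) :
    {x : Ideal A | ∃ n : Ideal B, n.IsMaximal ∧ x = n.comap r ∧ h ∈ x}.Finite := by
  refine ((finite_maximal_of_mem hh).image (Ideal.comap r)).subset ?_
  rintro x ⟨n, hn, rfl, hx⟩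
  exact ⟨n, ⟨hn, hx⟩, rfl⟩

/-- **the exceptional set of closed points is finite** -/
theorem finite_maximal_datum {A₁ A B : Type*} [CommRing A₁]
    [CommRing A] [CommRing B] [IsDomain B] [IsNoetherianRing B] [Ring.DimensionLEOne B]
    (D : BranchCore.Datum A₁ A B) {h : A} (h20 : D.r20 h ≠ 0) (h11 : D.r11 h ≠ 0)
    (h02 : D.r02 h ≠ 0) :
    {x : Ideal A | x.IsMaximal ∧ D.ϖ ∈ x ∧ h ∈ x}.Finite := by
  refine (((finite_comap_of_surjective D.r20 h20).union
    (finite_comap_of_surjective D.r11 h11)).union
    (finite_comap_of_surjective D.r02 h02)).subset ?_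
  rintro x ⟨hx, hϖ, hh⟩
  obtain ⟨n, hn, h1 | h1 | h1⟩ := D.exists_eq_comap x hx hϖ
  · exact Or.inl (Or.inl ⟨n, hn, h1, hh⟩)
  · exact Or.inl (Or.inr ⟨n, hn, h1, hh⟩)
  · exact Or.inr ⟨n, hn, h1, hh⟩

end Fermat.Agent.S36.SpecFinite
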