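/-
PROJECT V (S36), slice V-CommonGenPoints (helper18): **the inputs of
`CommonGen.exists_common_generator` from finite sets of closed points** (chain v1.1 (R3), step (ii)),
X₀-free.

`CommonGen.exists_common_generator` (helper7) wants two FINSETS `T₁ ⊆ Spec A₁`, `T₂ ⊆ Spec A₂` of
locally principal primes and ONE constant `c : O` with `φ - c ∉ m` on `T₁` and `1 - c φ⁻¹ ∉ m` on
`T₂`.  Here:

* `exists_avoid_residue` : in a local ring with infinite residue field, for finitely many
  `a`'s and `d`'s there is `c` with all `c - a` and all `1 - c d` units;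
* `exists_common_generator_of_finite` : **`t ≠ 0` with `HasOrd V t (n V)` at every prime divisor
  through the points of two finite sets `S₁`, `S₂` of closed points with residue field
  `O / 𝔪_O` and `LocPrincipal`** (the constant `c` is chosen here);
* `finite_maximal_pdatum` : for a `BranchCoreT.PDatum` (valid on BOTH charts) with `B` a noetherian
  domain of dimension `≤ 1` and `h : A` with nonzero reductions on the three components,
  `V(ϖ, h)` is a finite set of closed points (`SpecFinite.finite_maximal_datum` for `PDatum`).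
-/
import Mathlib
import Fermat.Agent.S36.CommonGen
import Fermat.Agent.S36.BranchCoreT
import Fermat.Agent.S36.SpecFinite

set_option autoImplicit false
set_option linter.unusedSectionVars false
set_option linter.style.haveILetI false
set_option linter.unusedVariables false

namespace Fermat.Agent.S36.CommonGenPoints

open Polynomial IntermediateField IsLocalRing
open Fermat.Agent.S36.KrullInter Fermat.Agent.S36.LocalGenOrd Fermat.Agent.S36.LocalIntrinsic
  Fermat.Agent.S36.ChartRing

/-! ### Avoiding finitely many residues -/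

/-- **finite avoidance**: in a local ring with infinite residue field there is `c` such that
`c - a` (`a ∈ s₁`) and `1 - c d` (`d ∈ s₂`) are all units -/
theorem exists_avoid_residue {O : Type*} [CommRing O] [IsLocalRing O]
    [Infinite (ResidueField O)] (s₁ s₂ : Finset O) :
    ∃ c : O, (∀ a ∈ s₁, IsUnit (c - a)) ∧ ∀ d ∈ s₂, IsUnit (1 - c * d) := by
  classical
  obtain ⟨γ, hγ⟩ := Infinite.exists_notMem_finset
    (s₁.image (residue O) ∪ s₂.image (fun d => (residue O d)⁻¹))
  obtain ⟨c, rfl⟩ := residue_surjective γ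
  refine ⟨c, fun a ha => ?_, fun d hd => ?_⟩
  · rw [← residue_ne_zero_iff_isUnit, map_sub, sub_ne_zero]
    intro h
    exact hγ (Finset.mem_union_left _ (Finset.mem_image.2 ⟨a, ha, h.symm⟩))
  · rw [← residue_ne_zero_iff_isUnit, map_sub, map_one, map_mul]
    intro h
    have h1 : residue O c * residue O d = 1 := (sub_eq_zero.1 h).symm
    have hd0 : residue O d ≠ 0 := by
      rintro h0
      rw [h0, mul_zero] at h1
      exact zero_ne_one h1
    exact hγ (Finset.mem_union_right _ (Finset.mem_image.2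
      ⟨d, hd, (eq_inv_of_mul_eq_one_left h1).symm⟩))

/-! ### The common generator at two finite sets of closed points -/

section Main

variable {O : Type*} [CommRing O] [IsDomain O] [IsDiscreteValuationRing O] {K : Type*} [Field K]
  [Algebra O K] [IsFractionRing O K] [CharZero K] {F : Type*} [Field F] [Algebra K F]
  [Algebra O F] [IsScalarTower O K F]

variable {A₁ : Type*} [CommRing A₁] [IsDomain A₁] [Algebra A₁ F] [IsFractionRing A₁ F]
  [IsNoetherianRing A₁] [IsIntegrallyClosed A₁] [Algebra O A₁] [IsScalarTower O A₁ F]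
  {A₂ : Type*} [CommRing A₂] [IsDomain A₂] [Algebra A₂ F] [IsFractionRing A₂ F]
  [IsNoetherianRing A₂] [IsIntegrallyClosed A₂] [Algebra O A₂] [IsScalarTower O A₂ F]

/-- **The common generator at two finite sets of closed points.**  `S₁` (resp. `S₂`) is a finite
set of maximal ideals of the chart `A₁` of `φ` (resp. `A₂` of `φ⁻¹`) whose residue classes are
represented by constants of `O`, all locally principal.  The residue field of `O` is infinite. -/
theorem exists_common_generator_of_finite [Infinite (ResidueField O)] {φ : F}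
    (hφ : Transcendental K φ) [FiniteDimensional K⟮φ⟯ F]
    (hA₁ : ∀ x : F, (∃ a : A₁, algebraMap A₁ F a = x) ↔ x ∈ chart O φ)
    (hA₂ : ∀ x : F, (∃ a : A₂, algebraMap A₂ F a = x) ↔ x ∈ chart O φ⁻¹)
    (S₁ : Set (Ideal A₁)) (hS₁ : S₁.Finite) (hmax₁ : ∀ m ∈ S₁, m.IsMaximal)
    (hconst₁ : ∀ m ∈ S₁, ∀ u : A₁, ∃ c : O, u - algebraMap O A₁ c ∈ m)
    (hloc₁ : ∀ m ∈ S₁, LocalGenCore.LocPrincipal (F := F) m)
    (S₂ : Set (Ideal A₂)) (hS₂ : S₂.Finite) (hmax₂ : ∀ m ∈ S₂, m.IsMaximal)
    (hconst₂ : ∀ m ∈ S₂, ∀ u : A₂, ∃ c : O, u - algebraMap O A₂ c ∈ m)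
    (hloc₂ : ∀ m ∈ S₂, LocalGenCore.LocPrincipal (F := F) m)
    (n : ValuationSubring F → ℤ) (hfin : {V : ValuationSubring F | n V ≠ 0}.Finite) :
    ∃ t : F, t ≠ 0 ∧ (∀ m ∈ S₁, ∀ V ∈ Br (F := F) m, HasOrd V t (n V)) ∧
      ∀ m ∈ S₂, ∀ V ∈ Br (F := F) m, HasOrd V t (n V) := by
  classical
  -- the chart functions as elements of the two rings
  obtain ⟨φ₁, hφ₁⟩ := (hA₁ φ).2 (CommonGen.self_mem_chart (O := O) φ)
  obtain ⟨ψ₂, hψ₂⟩ := (hA₂ φ⁻¹).2 (CommonGen.self_mem_chart (O := O) φ⁻¹)
  -- their residues at the points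
  have hc₁ : ∀ m : Ideal A₁, ∃ c : O, m ∈ S₁ → φ₁ - algebraMap O A₁ c ∈ m := fun m => by
    by_cases hm : m ∈ S₁
    · obtain ⟨c, hc⟩ := hconst₁ m hm φ₁
      exact ⟨c, fun _ => hc⟩
    · exact ⟨0, fun h => absurd h hm⟩
  have hd₂ : ∀ m : Ideal A₂, ∃ d : O, m ∈ S₂ → ψ₂ - algebraMap O A₂ d ∈ m := fun m => by
    by_cases hm : m ∈ S₂
    · obtain ⟨d, hd⟩ := hconst₂ m hm ψ₂
      exact ⟨d, fun _ => hd⟩
    · exact ⟨0, fun h => absurd h hm⟩
  choose cm hcm using hc₁
  choose dm hdm using hd₂
  obtain ⟨c, hca, hcd⟩ := exists_avoid_residue (hS₁.toFinset.image cm) (hS₂.toFinset.image dm)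
  refine CommonGen.exists_common_generator (O := O) (K := K) hφ hA₁ hA₂ c hS₁.toFinset ?_
    hS₂.toFinset ?_ n hfin |>.imp fun t ht => ⟨ht.1, fun m hm => ht.2.1 m (hS₁.mem_toFinset.2 hm),
      fun m hm => ht.2.2 m (hS₂.mem_toFinset.2 hm)⟩
  · intro m hm
    have hmS : m ∈ S₁ := hS₁.mem_toFinset.1 hm
    haveI := hmax₁ m hmS
    refine ⟨(hmax₁ m hmS).isPrime, hloc₁ m hmS, fun a ha hmem => ?_⟩
    have hu : IsUnit (c - cm m) := hca _ (Finset.mem_image.2 ⟨m, hm, rfl⟩)
    have ha' : a = φ₁ - algebraMap O A₁ c := by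
      apply IsFractionRing.injective A₁ F
      rw [ha, map_sub, hφ₁, ← IsScalarTower.algebraMap_apply]
    have h1 : algebraMap O A₁ (c - cm m) ∈ m := by
      have : algebraMap O A₁ (c - cm m) = (φ₁ - algebraMap O A₁ (cm m)) - a := by
        rw [ha', map_sub]; ring
      rw [this]
      exact m.sub_mem (hcm m hmS) hmem
    exact (hmax₁ m hmS).ne_top (Ideal.eq_top_of_isUnit_mem _ h1 (hu.map _))
  · intro m hm
    have hmS : m ∈ S₂ := hS₂.mem_toFinset.1 hm
    haveI := hmax₂ m hmS
    refine ⟨(hmax₂ m hmS).isPrime, hloc₂ m hmS, fun a ha hmem => ?_⟩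
    have hu : IsUnit (1 - c * dm m) := hcd _ (Finset.mem_image.2 ⟨m, hm, rfl⟩)
    have ha' : a = 1 - algebraMap O A₂ c * ψ₂ := by
      apply IsFractionRing.injective A₂ F
      rw [ha, map_sub, map_one, map_mul, hψ₂, ← IsScalarTower.algebraMap_apply]
    have h1 : algebraMap O A₂ (1 - c * dm m) ∈ m := by
      have : algebraMap O A₂ (1 - c * dm m)
          = a + algebraMap O A₂ c * (ψ₂ - algebraMap O A₂ (dm m)) := by
        rw [ha', map_sub, map_one, map_mul]; ring
      rw [this]
      exact m.add_mem hmem (m.mul_mem_left _ (hdm m hmS))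
    exact (hmax₂ m hmS).ne_top (Ideal.eq_top_of_isUnit_mem _ h1 (hu.map _))

end Main

/-! ### Finiteness of `V(ϖ, h)` on a chart with three components -/

/-- **the exceptional set of closed points is finite**, `PDatum` form (both charts) -/
theorem finite_maximal_pdatum {A₁ A B : Type*} [CommRing A₁]
    [CommRing A] [CommRing B] [IsDomain B] [IsNoetherianRing B] [Ring.DimensionLEOne B]
    (D : BranchCoreT.PDatum A₁ A B) {h : A} (h20 : D.r20 h ≠ 0) (h11 : D.r11 h ≠ 0)
    (h02 : D.r02 h ≠ 0) :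
    {x : Ideal A | x.IsMaximal ∧ D.ϖ ∈ x ∧ h ∈ x}.Finite := by
  refine (((SpecFinite.finite_comap_of_surjective D.r20 h20).union
    (SpecFinite.finite_comap_of_surjective D.r11 h11)).union
    (SpecFinite.finite_comap_of_surjective D.r02 h02)).subset ?_
  rintro x ⟨hx, hϖ, hh⟩
  obtain ⟨n, hn, h1 | h1 | h1⟩ := D.exists_eq_comap x hx hϖ
  · exact Or.inl (Or.inl ⟨n, hn, h1, hh⟩)
  · exact Or.inl (Or.inr ⟨n, hn, h1, hh⟩)
  · exact Or.inr ⟨n, hn, h1, hh⟩

end Fermat.Agent.S36.CommonGenPoints
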