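/-
PROJECT V (S36), slice V-SpecLink (helper18), part 2: **values of functions at `ℚ̄`-places and their
reductions** (chain v1.1 (N1)/(SD2)).

Part A (generic).  `K` a field with a valuation subring `A`, `E` a function field over `K`,
`w : Place K E` of degree one.  The *composite valuation ring*
`compSubring A w = {g | g is regular at w and g(w) ∈ A}` and its residue map
`evalC A w : compSubring A w →+* ResidueField A`, `g ↦ g(w) mod 𝔪_A`.

Part B (`X₀(M)`, over `ℚ̄`).  `IsChartInt A φ g`: the valuative form of "`g` is integral over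
`A[φ]`".  For `g` chart-integral with respect to `j` and a place `PM` of `ℚ̄(X₀(M))` specialising to
a non-cuspidal place `Q` of the special fibre: `g` is Gauss-integral, has a value in `A` at `PM`, and
the reduction of the value is the value of the reduction at `Q` (`hasVal_red_of_isChartInt`); the
twin for `1 / j` and places where `j̄` has no zero (`hasVal_red_of_isChartInt_inv`).

Part C (the tube lemmas): the `j`-value of a place in the disc of `Q`.
-/
import Fermat.Agent.S34.Generic.FibValueX0
import Fermat.Agent.S34.CuspRedX0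

set_option autoImplicit false
set_option linter.unusedSectionVars false
set_option linter.style.haveILetI false
set_option linter.unusedVariables false
set_option synthInstance.maxHeartbeats 400000

noncomputable section

namespace Fermat.Agent.S36.SpecValue

open AlgebraicCurve IsLocalRing
open Fermat.Agent.S24.Ord Fermat.Agent.S34.Generic.Dich

/-! ## Part A: the composite valuation ring of a place of degree one -/

section Composite

variable {K E : Type*} [Field K] [Field E] [Algebra K E]

/-- a function with a nonzero value has valuation one -/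
theorem HasVal.adicValuation_eq_one {P : Place K E} {y : E} {c : K} (h : HasVal P y c)
    (hc : c ≠ 0) : P.adicValuation y = 1 := by
  have h1 : y = (y - algebraMap K E c) + algebraMap K E c := by ring
  rw [h1, Valuation.map_add_eq_of_lt_right, adicValuation_algebraMap P hc]
  rw [adicValuation_algebraMap P hc]
  exact h

/-- the value of the inverse -/
theorem HasVal.inv {P : Place K E} {y : E} {c : K} (h : HasVal P y c) (hc : c ≠ 0) :
    HasVal P y⁻¹ c⁻¹ := by
  have hy1 := HasVal.adicValuation_eq_one h hc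
  have hy0 : y ≠ 0 := by
    rintro rfl
    rw [map_zero] at hy1
    exact zero_ne_one hy1
  have hc0 : algebraMap K E c ≠ 0 := (map_ne_zero_iff _ (algebraMap K E).injective).mpr hc
  unfold HasVal at h ⊢
  have h1 : y⁻¹ - algebraMap K E c⁻¹ = -((y - algebraMap K E c) * (y⁻¹ * (algebraMap K E c)⁻¹)) := by
    rw [map_inv₀]
    field_simp
    ring
  rw [h1, Valuation.map_neg, map_mul, map_mul, map_inv₀, map_inv₀, hy1,
    adicValuation_algebraMap P hc, inv_one, mul_one, mul_one]
  exact h

/-- **the composite valuation ring** of a place `w` of degree one with a valuation subring `A` of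
the constant field: the functions which are regular at `w` with value in `A` -/
def compSubring (A : ValuationSubring K) (w : Place K E) (hw : w.deg = 1) :
    ValuationSubring E where
  carrier := {g | ∃ c : K, c ∈ A ∧ HasVal w g c}
  mul_mem' := by
    rintro a b ⟨c, hc, hac⟩ ⟨d, hd, hbd⟩
    exact ⟨c * d, A.mul_mem _ _ hc hd, hac.mul hbd⟩
  one_mem' := ⟨1, A.one_mem, hasVal_one w⟩
  add_mem' := by
    rintro a b ⟨c, hc, hac⟩ ⟨d, hd, hbd⟩
    exact ⟨c + d, A.add_mem _ _ hc hd, hac.add hbd⟩
  zero_mem' := ⟨0, A.zero_mem, hasVal_zero w⟩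
  neg_mem' := by
    rintro a ⟨c, hc, hac⟩
    exact ⟨-c, A.neg_mem _ hc, hac.neg⟩
  mem_or_inv_mem' := by
    intro g
    rcases lt_trichotomy (w.adicValuation g) 1 with h | h | h
    · left
      refine ⟨0, A.zero_mem, ?_⟩
      unfold HasVal
      rwa [map_zero, sub_zero]
    · obtain ⟨c, hc⟩ := exists_hasVal w hw h.le
      have hc0 : c ≠ 0 := by
        rintro rfl
        unfold HasVal at hc
        rw [map_zero, sub_zero, h] at hc
        exact lt_irrefl _ hc
      rcases A.mem_or_inv_mem c with hcA | hcA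
      · exact Or.inl ⟨c, hcA, hc⟩
      · exact Or.inr ⟨c⁻¹, hcA, HasVal.inv hc hc0⟩
    · right
      refine ⟨0, A.zero_mem, ?_⟩
      unfold HasVal
      rw [map_zero, sub_zero, map_inv₀]
      exact inv_lt_one_of_one_lt₀ h

theorem mem_compSubring {A : ValuationSubring K} {w : Place K E} {hw : w.deg = 1} {g : E} :
    g ∈ compSubring A w hw ↔ ∃ c : K, c ∈ A ∧ HasVal w g c := Iff.rfl

/-- the value of an element of the composite valuation ring, as an element of `A` -/
def valA (A : ValuationSubring K) (w : Place K E) (hw : w.deg = 1) (g : compSubring A w hw) : A :=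
  ⟨g.2.choose, g.2.choose_spec.1⟩

theorem hasVal_valA (A : ValuationSubring K) (w : Place K E) (hw : w.deg = 1)
    (g : compSubring A w hw) : HasVal w (g : E) ((valA A w hw g : A) : K) :=
  g.2.choose_spec.2

theorem valA_eq {A : ValuationSubring K} {w : Place K E} {hw : w.deg = 1}
    (g : compSubring A w hw) {c : K} (hc : HasVal w (g : E) c) : ((valA A w hw g : A) : K) = c :=
  (hasVal_valA A w hw g).unique hc

/-- **evaluation at `w`**, as a ring homomorphism `compSubring A w → A` -/
def evalA (A : ValuationSubring K) (w : Place K E) (hw : w.deg = 1) :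
    compSubring A w hw →+* A where
  toFun := valA A w hw
  map_one' := Subtype.ext (valA_eq _ (hasVal_one w))
  map_mul' x y := Subtype.ext (valA_eq _ ((hasVal_valA A w hw x).mul (hasVal_valA A w hw y)))
  map_zero' := Subtype.ext (valA_eq _ (hasVal_zero w))
  map_add' x y := Subtype.ext (valA_eq _ ((hasVal_valA A w hw x).add (hasVal_valA A w hw y)))

theorem hasVal_evalA (A : ValuationSubring K) (w : Place K E) (hw : w.deg = 1)
    (g : compSubring A w hw) : HasVal w (g : E) ((evalA A w hw g : A) : K) :=
  hasVal_valA A w hw g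

theorem evalA_eq {A : ValuationSubring K} {w : Place K E} {hw : w.deg = 1}
    (g : compSubring A w hw) {c : K} (hc : HasVal w (g : E) c) : ((evalA A w hw g : A) : K) = c :=
  valA_eq g hc

/-- **evaluation at `w` modulo `𝔪_A`** -/
def evalC (A : ValuationSubring K) (w : Place K E) (hw : w.deg = 1) :
    compSubring A w hw →+* ResidueField A :=
  (residue A).comp (evalA A w hw)

theorem evalC_apply (A : ValuationSubring K) (w : Place K E) (hw : w.deg = 1)
    (g : compSubring A w hw) : evalC A w hw g = residue A (evalA A w hw g) := rfl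

/-- constants of `A` lie in the composite ring, with the obvious value -/
theorem algebraMap_mem_compSubring (A : ValuationSubring K) (w : Place K E) (hw : w.deg = 1)
    (a : A) : algebraMap K E (a : K) ∈ compSubring A w hw :=
  ⟨a, a.2, hasVal_const w a⟩

theorem evalA_algebraMap (A : ValuationSubring K) (w : Place K E) (hw : w.deg = 1) (a : A) :
    evalA A w hw ⟨_, algebraMap_mem_compSubring A w hw a⟩ = a :=
  Subtype.ext (evalA_eq _ (hasVal_const w (a : K)))

/-- a function vanishing at `w` is killed by the evaluation -/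
theorem evalA_eq_zero_of_lt_one {A : ValuationSubring K} {w : Place K E} {hw : w.deg = 1}
    (g : compSubring A w hw) (h : w.adicValuation (g : E) < 1) : evalA A w hw g = 0 := by
  have h0 : HasVal w (g : E) 0 := by
    unfold HasVal
    rwa [map_zero, sub_zero]
  exact Subtype.ext (evalA_eq g h0)

/-- the composite ring is contained in the ring of the place -/
theorem compSubring_le (A : ValuationSubring K) (w : Place K E) (hw : w.deg = 1) :
    compSubring A w hw ≤ w.toValuationSubring := by
  rintro g ⟨c, -, hc⟩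
  exact (mem_iff w g).mpr hc.le_one

end Composite

/-! ## Part B: chart-integral functions at `X₀(M)` -/

section X0

open ModularCurve
open Fermat.Agent.S24.DegreeAlg (jgen)
open Fermat.Agent.S18.B.FkBasics (jk)
open Fermat.Agent.S18.Disc
open Fermat.Agent.S37.Deuring.Core Fermat.Agent.S37.Deuring.HypX0 Fermat.Agent.S37.Gauss.Datum
  Fermat.Agent.S34.CuspRedX0

local notation "Kb" => AlgebraicClosure ℚ

/-- **valuative form of "`g` is integral over `A[φ]`"**: `g` lies in every valuation subring of
`ℚ̄(X₀(N))` containing the constants of `A` and `φ`.  (`toBar` of an element of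
`ChartRing.chart O0 φ₀` satisfies it with `φ = toBar φ₀`, by `ChartRing.mem_of_mem_chart`.) -/
def IsChartInt (A : ValuationSubring Kb) {N : ℕ} (φ g : ↥(modularFunctionFieldBar N)) : Prop :=
  ∀ V : ValuationSubring ↥(modularFunctionFieldBar N),
    (∀ a : A, algebraMap Kb ↥(modularFunctionFieldBar N) (a : Kb) ∈ V) → φ ∈ V → g ∈ V

namespace IsChartInt

variable {A : ValuationSubring Kb} {N : ℕ} {φ g g' : ↥(modularFunctionFieldBar N)}

theorem self : IsChartInt A φ φ := fun _ _ h => h

theorem const (a : A) : IsChartInt A φ (algebraMap Kb ↥(modularFunctionFieldBar N) (a : Kb)) :=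
  fun _ h _ => h a

theorem add (h : IsChartInt A φ g) (h' : IsChartInt A φ g') : IsChartInt A φ (g + g') :=
  fun V hV hφ => V.add_mem _ _ (h V hV hφ) (h' V hV hφ)

theorem mul (h : IsChartInt A φ g) (h' : IsChartInt A φ g') : IsChartInt A φ (g * g') :=
  fun V hV hφ => V.mul_mem _ _ (h V hV hφ) (h' V hV hφ)

theorem neg (h : IsChartInt A φ g) : IsChartInt A φ (-g) :=
  fun V hV hφ => V.neg_mem _ (h V hV hφ)

theorem sub (h : IsChartInt A φ g) (h' : IsChartInt A φ g') : IsChartInt A φ (g - g') :=
  fun V hV hφ => sub_mem (h V hV hφ) (h' V hV hφ)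

theorem one : IsChartInt A φ (1 : ↥(modularFunctionFieldBar N)) := fun V _ _ => V.one_mem

theorem zero : IsChartInt A φ (0 : ↥(modularFunctionFieldBar N)) := fun V _ _ => V.zero_mem

theorem pow (h : IsChartInt A φ g) (n : ℕ) : IsChartInt A φ (g ^ n) :=
  fun V hV hφ => pow_mem (h V hV hφ) n

/-- transitivity: chart-integral over a chart-integral function -/
theorem trans {ψ : ↥(modularFunctionFieldBar N)} (hψ : IsChartInt A φ ψ) (h : IsChartInt A ψ g) :
    IsChartInt A φ g := fun V hV hφ => h V hV (hψ V hV hφ)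

/-- a chart-integral function has a value in `A` at every place where `φ` has one -/
theorem mem_compSubring (h : IsChartInt A φ g) (w : Place Kb ↥(modularFunctionFieldBar N))
    (hw : w.deg = 1) (hφ : φ ∈ compSubring A w hw) : g ∈ compSubring A w hw :=
  h _ (algebraMap_mem_compSubring A w hw) hφ

end IsChartInt

variable {q : ℕ} [hq : Fact q.Prime] {M : ℕ} [NeZero M] {A : ValuationSubring Kb}
variable (hA : A.LiesOverPrime q) (hqM : ¬ q ∣ M)

/-- all places of `ℚ̄(X₀(M))` have degree one -/
theorem deg_eq_one_bar (N : ℕ) [NeZero N] (P : Place Kb ↥(modularFunctionFieldBar N)) :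
    P.deg = 1 :=
  Fermat.Agent.S24.Ord.deg_eq_one (Fermat.Agent.S24.Degree.isFF N) P

/-- a function chart-integral with respect to `j` is Gauss-integral -/
theorem mem_O_of_isChartInt {g : ↥(modularFunctionFieldBar M)} (hg : IsChartInt A (jgen M) g) :
    g ∈ (gaussDatum M A hA hqM).O :=
  hg _ (gaussDatum M A hA hqM).algebraMap_mem (jO hA hqM).2

variable [HasPrincipalDivisors Kb ↥(modularFunctionFieldBar M)]
  [HasPrincipalDivisors (ResidueField ↥A) ↥(modularFunctionFieldFullC (ResidueField ↥A) M)]
  [Infinite (ResidueField ↥A)]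
variable {gL gk : ℕ} (H : Hyp (gaussDatum M A hA hqM) gL gk)

/-- **(SD2), `j`-chart.**  Let `g` be chart-integral with respect to `j` and `PM` a place of
`ℚ̄(X₀(M))` specialising to a non-cuspidal place `Q`.  Then `g` has a value `c ∈ A` at `PM`, and
the value of `red g` at `Q` is the residue class of `c`. -/
theorem hasVal_red_of_isChartInt {g : ↥(modularFunctionFieldBar M)}
    (hg : IsChartInt A (jgen M) g) (PM : Place Kb ↥(modularFunctionFieldBar M))
    (hQ : 0 ≤ (placeMap H PM).ord (jk (ResidueField ↥A) M)) :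
    ∃ c : ↥A, HasVal PM g (c : Kb) ∧
      HasVal (placeMap H PM)
        ((gaussDatum M A hA hqM).red ⟨g, mem_O_of_isChartInt hA hqM hg⟩) (residue ↥A c) := by
  have hj := regOn_jgen hA hqM H (placeMap H PM) hQ
  have hreg : RegOn (placeMap H) g (placeMap H PM) := fun P hP =>
    (mem_iff P g).mp (hg P.toValuationSubring (fun a => P.algebraMap_mem' _)
      ((mem_iff P _).mpr (hj P hP)))
  exact exists_hasVal_of_regOn (redDatum H) (deg_eq_one_bar M)
    (⟨g, mem_O_of_isChartInt hA hqM hg⟩ : (redDatum H).O) hreg rfl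

/-- **(SD2), `1 / j`-chart.**  The same for functions chart-integral with respect to `1 / j` and
places specialising to a place where `j̄` has no zero (in particular to a cusp). -/
theorem hasVal_red_of_isChartInt_inv {g : ↥(modularFunctionFieldBar M)}
    (hg : IsChartInt A (jgen M)⁻¹ g) (PM : Place Kb ↥(modularFunctionFieldBar M))
    (hQ : (placeMap H PM).ord (jk (ResidueField ↥A) M) ≤ 0) :
    ∃ (hgO : g ∈ (gaussDatum M A hA hqM).O) (c : ↥A), HasVal PM g (c : Kb) ∧
      HasVal (placeMap H PM) ((gaussDatum M A hA hqM).red ⟨g, hgO⟩) (residue ↥A c) := by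
  have hgO : g ∈ (gaussDatum M A hA hqM).O :=
    hg _ (gaussDatum M A hA hqM).algebraMap_mem (inv_jgen_mem_O hA hqM H)
  have hj := regOn_inv_jgen hA hqM H (placeMap H PM) hQ
  have hreg : RegOn (placeMap H) g (placeMap H PM) := fun P hP =>
    (mem_iff P g).mp (hg P.toValuationSubring (fun a => P.algebraMap_mem' _)
      ((mem_iff P _).mpr (hj P hP)))
  exact ⟨hgO, exists_hasVal_of_regOn (redDatum H) (deg_eq_one_bar M)
    (⟨g, hgO⟩ : (redDatum H).O) hreg rfl⟩

/-! ## Part C: the same at a higher level, and the tube lemmas -/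

open Fermat.Agent.S34.Generic.RestrAlong

variable {N' : ℕ}

/-- **(SD2) at a higher level**: for `φ : ℚ̄(X₀(M)) → ℚ̄(X₀(N'))`, a place `w` of `ℚ̄(X₀(N'))` whose
restriction along `φ` specialises to a non-cuspidal place `Q`, and `g` chart-integral with respect
to `j`: `φ g` has a value `c ∈ A` at `w`, and `red g` has the value `c mod 𝔪_A` at `Q`. -/
theorem hasVal_map_of_isChartInt (φ : ↥(modularFunctionFieldBar M) →ₐ[Kb]
      ↥(modularFunctionFieldBar N')) (hφ : φ.toRingHom.IsIntegral)
    (w : Place Kb ↥(modularFunctionFieldBar N')) {g : ↥(modularFunctionFieldBar M)}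
    (hg : IsChartInt A (jgen M) g)
    (hQ : 0 ≤ (placeMap H (resAlong φ hφ w)).ord (jk (ResidueField ↥A) M)) :
    ∃ c : ↥A, HasVal w (φ g) (c : Kb) ∧
      HasVal (placeMap H (resAlong φ hφ w))
        ((gaussDatum M A hA hqM).red ⟨g, mem_O_of_isChartInt hA hqM hg⟩) (residue ↥A c) := by
  obtain ⟨c, h1, h2⟩ := hasVal_red_of_isChartInt hA hqM H hg (resAlong φ hφ w) hQ
  exact ⟨c, hasVal_of_restr (restrAlong φ hφ) φ.commutes h1, h2⟩

/-- the twin for the `1 / j`-chart -/
theorem hasVal_map_of_isChartInt_inv (φ : ↥(modularFunctionFieldBar M) →ₐ[Kb]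
      ↥(modularFunctionFieldBar N')) (hφ : φ.toRingHom.IsIntegral)
    (w : Place Kb ↥(modularFunctionFieldBar N')) {g : ↥(modularFunctionFieldBar M)}
    (hg : IsChartInt A (jgen M)⁻¹ g)
    (hQ : (placeMap H (resAlong φ hφ w)).ord (jk (ResidueField ↥A) M) ≤ 0) :
    ∃ (hgO : g ∈ (gaussDatum M A hA hqM).O) (c : ↥A), HasVal w (φ g) (c : Kb) ∧
      HasVal (placeMap H (resAlong φ hφ w))
        ((gaussDatum M A hA hqM).red ⟨g, hgO⟩) (residue ↥A c) := by
  obtain ⟨hgO, c, h1, h2⟩ := hasVal_red_of_isChartInt_inv hA hqM H hg (resAlong φ hφ w) hQ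
  exact ⟨hgO, c, hasVal_of_restr (restrAlong φ hφ) φ.commutes h1, h2⟩

/-- **(TUBE), non-cuspidal**: if the restriction of `w` along `φ` specialises to a place `Q` at
which `j̄` has the value `γ`, and `c₀ ∈ A` lifts `γ`, then `φ j - c₀` has a value in `𝔪_A` at `w`. -/
theorem hasVal_map_jgen_sub (φ : ↥(modularFunctionFieldBar M) →ₐ[Kb]
      ↥(modularFunctionFieldBar N')) (hφ : φ.toRingHom.IsIntegral)
    (w : Place Kb ↥(modularFunctionFieldBar N')) {γ : ResidueField ↥A}
    (hγ : HasVal (placeMap H (resAlong φ hφ w)) (jk (ResidueField ↥A) M) γ) {c₀ : ↥A}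
    (hc₀ : residue ↥A c₀ = γ) :
    ∃ d : ↥A, residue ↥A d = 0 ∧
      HasVal w (φ (jgen M) - algebraMap Kb ↥(modularFunctionFieldBar N') (c₀ : Kb)) (d : Kb) := by
  obtain ⟨c, hc, hcγ⟩ := Fermat.Agent.S34.Generic.FibValueX0.exists_jvalue hA hqM H hγ rfl
  have h1 : HasVal (resAlong φ hφ w) (jgen M) (c : Kb) := hc
  have h2 := hasVal_of_restr (restrAlong φ hφ) φ.commutes h1
  refine ⟨c - c₀, by rw [map_sub, hcγ, hc₀, sub_self], ?_⟩
  exact h2.sub (hasVal_const w (c₀ : Kb))

/-- **(TUBE), cuspidal**: if the restriction of `w` along `φ` specialises to a pole of `j̄`, then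
`φ (1 / j)` has a value in `𝔪_A` at `w`. -/
theorem hasVal_map_inv_jgen (φ : ↥(modularFunctionFieldBar M) →ₐ[Kb]
      ↥(modularFunctionFieldBar N')) (hφ : φ.toRingHom.IsIntegral)
    (w : Place Kb ↥(modularFunctionFieldBar N'))
    (hQ : (placeMap H (resAlong φ hφ w)).ord (jk (ResidueField ↥A) M) < 0) :
    ∃ d : ↥A, residue ↥A d = 0 ∧ HasVal w (φ (jgen M)⁻¹) (d : Kb) := by
  obtain ⟨hgO, c, h1, h2⟩ := hasVal_map_of_isChartInt_inv hA hqM H φ hφ w
    (IsChartInt.self (A := A) (φ := (jgen M)⁻¹)) hQ.le
  refine ⟨c, ?_, h1⟩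
  rw [red_inv_jgen hA hqM H hgO] at h2
  have hjk : jk (ResidueField ↥A) M ≠ 0 := by
    intro h0
    rw [h0, Place.ord_zero] at hQ
    exact lt_irrefl 0 hQ
  have h0 : HasVal (placeMap H (resAlong φ hφ w)) (jk (ResidueField ↥A) M)⁻¹ 0 := by
    unfold HasVal
    rw [map_zero, sub_zero, ← ord_pos_iff _ (inv_ne_zero hjk), Place.ord_inv]
    omega
  exact h2.unique h0

end X0

end Fermat.Agent.S36.SpecValue
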