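/-
PROJECT V (S36), slice V-SpecLink (helper18), part 3: **from the local rings of a chart to the
`j`-value hypothesis of `RegOfPoles`** (chain v1.1 (N1)/(R3): the ring side of `Reg (g_i N_i t)`).

Part A (generic; setting of `SpecValue` Part A).  `ι : R →+* E` a ring homomorphism from a commutative
ring into a function field such that all `ι r` have values in `A` at the place `w` ("`R` is centred
at `w`"; in the application `R` is a chart ring of the `K₀`-form and `ι` is `toE`).  `evalR : R →+* ResidueField A`, `evalCentre := ker evalR` (a maximal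
ideal as soon as the constants of `R` fill the residue field; it contains every `r` with
`ι r` vanishing at `w`, i.e. the horizontal prime of `w`), and
`mem_compSubring_of_local` : **an element `v` of `E` which lies in the localisation of `R` at
`evalCentre` (`ι s * v = ι r`, `s ∉ evalCentre`) is regular at `w`, with value in `A`.**

Part B (`X₀(M q²)`).  `RegOfPoles.regX0_of_jvalues_alpha/beta` ask: at every pole `P'` of
`v` the function `j₀ = α'(α j)` has an `A`-integral value whose residue is not a bad value.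
`exists_jvalue_of_local_family` : this holds as soon as there is a family of "charts"
`(R i, ι i, g i)` (rings mapping to `ℚ̄(X₀(M q²))` with a test element) such that every BAD place is
centred on some `R i` with `g i` in its evaluation centre, and `v` lies in the local ring of `R i`
at every maximal ideal containing `q` and `g i`.  `exists_jvalue_of_local_two` : the two-chart form (`Rfin` centred where
`j₀` is `A`-integral, `Rinf` where it is not), with the standard test elements
`∏ (j₀ - c_γ)` (`hasVal_prod_sub`) and `1 / j₀` (`hasVal_inv_of_not_mem`).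
-/
import Fermat.Agent.S36.SpecValue
import Fermat.Agent.S36.RegOfPoles
import Fermat.Agent.S36.ChartRing

set_option autoImplicit false
set_option linter.unusedSectionVars false
set_option linter.style.haveILetI false
set_option linter.unusedVariables false
set_option synthInstance.maxHeartbeats 400000

noncomputable section

namespace Fermat.Agent.S36.SpecLocal

open AlgebraicCurve IsLocalRing
open Fermat.Agent.S24.Ord Fermat.Agent.S34.Generic.Dich Fermat.Agent.S36.SpecValue

/-! ## Part A: the evaluation centre -/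

section Local

variable {K E R : Type*} [Field K] [Field E] [Algebra K E] [CommRing R]
variable (A : ValuationSubring K) (w : Place K E) (hw : w.deg = 1) (ι : R →+* E)
variable (hR : ∀ r : R, ι r ∈ compSubring A w hw)

/-- `ι` with values in the composite ring, for a ring centred at `w` -/
def toComp : R →+* compSubring A w hw :=
  ι.codRestrict (compSubring A w hw).toSubring hR

@[simp] theorem coe_toComp (r : R) : ((toComp A w hw ι hR r : compSubring A w hw) : E) = ι r :=
  rfl

/-- **evaluation at `w` modulo `𝔪_A`** on a subring centred at `w` -/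
def evalR : R →+* ResidueField A := (evalC A w hw).comp (toComp A w hw ι hR)

/-- **the evaluation centre** of `w` on `R` (the closed point of `Spec R` at which `w` is centred) -/
def evalCentre : Ideal R := RingHom.ker (evalR A w hw ι hR)

theorem evalR_eq {r : R} {c : A} (hc : HasVal w (ι r) (c : K)) :
    evalR A w hw ι hR r = residue A c := by
  show residue A (evalA A w hw (toComp A w hw ι hR r)) = residue A c
  congr 1
  exact Subtype.ext (evalA_eq _ hc)

theorem mem_evalCentre_iff (r : R) :
    r ∈ evalCentre A w hw ι hR ↔ ∃ d : A, residue A d = 0 ∧ HasVal w (ι r) (d : K) := by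
  constructor
  · intro h
    refine ⟨evalA A w hw (toComp A w hw ι hR r), h, ?_⟩
    exact hasVal_evalA A w hw (toComp A w hw ι hR r)
  · rintro ⟨d, hd, hr⟩
    show evalR A w hw ι hR r = 0
    rw [evalR_eq A w hw ι hR hr, hd]

/-- the evaluation centre contains the horizontal prime of `w` -/
theorem mem_evalCentre_of_lt_one {r : R} (h : w.adicValuation (ι r) < 1) :
    r ∈ evalCentre A w hw ι hR := by
  refine (mem_evalCentre_iff A w hw ι hR r).mpr ⟨0, map_zero _, ?_⟩
  unfold HasVal
  rwa [ZeroMemClass.coe_zero, map_zero, sub_zero]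

theorem evalCentre_isPrime : (evalCentre A w hw ι hR).IsPrime :=
  RingHom.ker_isPrime _

/-- the evaluation centre is a maximal ideal as soon as the evaluation is onto the residue field
(e.g. `R` contains constants filling the residue field) -/
theorem evalCentre_isMaximal (hsurj : Function.Surjective (evalR A w hw ι hR)) :
    (evalCentre A w hw ι hR).IsMaximal :=
  RingHom.ker_isMaximal_of_surjective _ hsurj

/-- surjectivity of the evaluation from constants -/
theorem evalR_surjective_of_const
    (hconst : ∀ γ : ResidueField A, ∃ (r : R) (a : A),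
      ι r = algebraMap K E (a : K) ∧ residue A a = γ) :
    Function.Surjective (evalR A w hw ι hR) := by
  intro γ
  obtain ⟨r, a, hra, haγ⟩ := hconst γ
  refine ⟨r, ?_⟩
  rw [evalR_eq A w hw ι hR (r := r) (c := a), haγ]
  rw [hra]
  exact hasVal_const w (a : K)

/-- **an element of the local ring of `R` at the evaluation centre of `w` is regular at `w`, with
value in `A`** -/
theorem mem_compSubring_of_local {v : E} {s r : R}
    (hs : s ∉ evalCentre A w hw ι hR) (h : ι s * v = ι r) :
    v ∈ compSubring A w hw := by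
  set a : A := evalA A w hw (toComp A w hw ι hR s) with ha
  have hsa : HasVal w (ι s) (a : K) := hasVal_evalA A w hw (toComp A w hw ι hR s)
  have hres : residue A a ≠ 0 := fun h0 => hs h0
  have hau : IsUnit a := by
    by_contra hnu
    exact hres ((residue_eq_zero_iff a).mpr (by rwa [mem_maximalIdeal, mem_nonunits_iff]))
  have ha0 : (a : K) ≠ 0 := by
    intro h0
    apply hres
    have : a = 0 := Subtype.ext h0
    rw [this, map_zero]
  have hinvA : (a : K)⁻¹ ∈ A := by
    obtain ⟨u, hu⟩ := hau
    have h1 : ((u⁻¹ : Aˣ) : A) * a = 1 := by rw [← hu]; exact u.inv_mul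
    have h2 : (((u⁻¹ : Aˣ) : A) : K) * (a : K) = 1 := congrArg Subtype.val h1
    have h3 : (a : K)⁻¹ = (((u⁻¹ : Aˣ) : A) : K) :=
      (eq_inv_of_mul_eq_one_left h2).symm
    rw [h3]
    exact ((u⁻¹ : Aˣ) : A).2
  have hsinv : (ι s)⁻¹ ∈ compSubring A w hw := ⟨(a : K)⁻¹, hinvA, HasVal.inv hsa ha0⟩
  have hs0 : ι s ≠ 0 := by
    intro h0
    rw [h0] at hsa
    exact ha0 (HasVal.unique hsa (hasVal_zero w))
  have hv : v = (ι s)⁻¹ * ι r := by
    rw [← h, ← mul_assoc, inv_mul_cancel₀ hs0, one_mul]
  rw [hv]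
  exact (compSubring A w hw).mul_mem _ _ hsinv (hR r)

end Local

/-- **discharge of the centredness hypotheses for a chart ring** `ChartRing.chart O φ` of a field
`F` mapped to `E` by `ι`: a valuation subring of `E` containing the images of the constants of `O`
and of `φ` contains the image of the chart ring. -/
theorem map_mem_of_mem_chart {O F E : Type*} [CommRing O] [Field F] [Algebra O F] [Field E]
    (ι : F →+* E) (V : ValuationSubring E) {φ : F} (hO : ∀ c : O, ι (algebraMap O F c) ∈ V)
    (hφ : ι φ ∈ V) {x : F} (hx : x ∈ ChartRing.chart O φ) : ι x ∈ V := by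
  refine ChartRing.mem_of_isIntegral (V.comap ι) (fun b => ?_) hx
  have hle : Algebra.adjoin O ({φ} : Set F) ≤
      (⟨(V.comap ι).toSubring.toSubsemiring, fun c => hO c⟩ : Subalgebra O F) :=
    Algebra.adjoin_le (by
      rw [Set.singleton_subset_iff]
      exact hφ)
  exact hle b.2

/-! ## Part B: the `j`-value hypothesis of `RegOfPoles` from local rings of charts -/

section X0

open ModularCurve
open Fermat.Agent.S24.DegreeAlg (jgen)
open Fermat.Agent.S18.B.FkBasics (jk)
open Fermat.Agent.S37.Deuring.Core Fermat.Agent.S37.Gauss.Datum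
open Fermat.Agent.S34.CoreZX0Assembly Fermat.Agent.S34.CoreZX0Build
open Fermat.Agent.S35.LevelMaps Fermat.Agent.S36.RegOfPoles

local notation "Kb" => AlgebraicClosure ℚ

local instance instNeZeroMulSLoc (M q : ℕ) [NeZero M] [NeZero q] : NeZero (M * q) :=
  ⟨Nat.mul_ne_zero (NeZero.ne M) (NeZero.ne q)⟩

variable {q : ℕ} [hq : Fact q.Prime] {M : ℕ} [NeZero M] {A : ValuationSubring Kb} [NeZero q]
variable {hA : A.LiesOverPrime q} {hqM : ¬ q ∣ M}
variable {gL gk : ℕ} {H : Hyp (gaussDatum M A hA hqM) gL gk}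
variable [CharP (ResidueField ↥A) q]

/-- `j₀ = j(τ)` on `X₀(M q²)` -/
abbrev j0 (M q : ℕ) [NeZero M] [NeZero q] : E (M * q * q) :=
  heckeAlphaBar Kb (M * q) q (heckeAlphaBar Kb M q (jgen M))

/-- **a place of `X₀(M q²)` is BAD** if `j₀` does not have there an `A`-integral value whose
residue is a good value (`RegOfPoles` asks that no pole of `v` is bad) -/
def Bad (X : Inputs hA hqM H) (w : Place Kb (E (M * q * q))) : Prop :=
  ¬ ∃ c : ↥A, HasVal w (j0 M q) (c : Kb) ∧ residue ↥A c ∉ badValues X

/-- a bad place: either `j₀` is not `A`-integral there, or its value has a bad residue -/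
theorem Bad.cases {X : Inputs hA hqM H} {w : Place Kb (E (M * q * q))} (h : Bad X w) :
    j0 M q ∉ compSubring A w (deg_eq_one_bar _ w) ∨
      ∃ c : ↥A, HasVal w (j0 M q) (c : Kb) ∧ residue ↥A c ∈ badValues X := by
  by_cases hj : j0 M q ∈ compSubring A w (deg_eq_one_bar _ w)
  · right
    obtain ⟨c, hcA, hc⟩ := hj
    refine ⟨⟨c, hcA⟩, hc, ?_⟩
    by_contra hbad
    exact h ⟨⟨c, hcA⟩, hc, hbad⟩
  · exact Or.inl hj

/-- **(R3), one chart at one place**: if the ring `R` (with `ι : R → ℚ̄(X₀(M q²))`) is centred at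
`w`, the test element `g` lies in the evaluation centre, and `v` lies in the local ring of `R` at
every maximal ideal containing `q` and `g`, then `v` is regular at `w`. -/
theorem ord_nonneg_of_chart (hA' : A.LiesOverPrime q) {R : Type*} [CommRing R]
    (ι : R →+* E (M * q * q)) (g : R)
    (hconst : ∀ γ : ResidueField ↥A, ∃ (r : R) (a : ↥A),
      ι r = algebraMap Kb (E (M * q * q)) (a : Kb) ∧ residue ↥A a = γ)
    (w : Place Kb (E (M * q * q)))
    (hR : ∀ r : R, ι r ∈ compSubring A w (deg_eq_one_bar _ w))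
    (hg : ∃ d : ↥A, residue ↥A d = 0 ∧ HasVal w (ι g) (d : Kb))
    (v : E (M * q * q))
    (hloc : ∀ x : Ideal R, x.IsMaximal → ((q : ℕ) : R) ∈ x → g ∈ x →
      ∃ s r : R, s ∉ x ∧ ι s * v = ι r) :
    0 ≤ w.ord v := by
  obtain ⟨d, hd, hgd⟩ := hg
  have hw := deg_eq_one_bar (M * q * q) w
  have hmax := evalCentre_isMaximal A w hw ι hR
    (evalR_surjective_of_const A w hw ι hR hconst)
  have hq' : ((q : ℕ) : R) ∈ evalCentre A w hw ι hR := by
    refine (mem_evalCentre_iff A w hw ι hR _).mpr ⟨((q : ℕ) : ↥A), ?_, ?_⟩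
    · rw [map_natCast]
      exact Fermat.Agent.S18.ResidueBasics.residue_natCast_eq_zero A hA'
    · have e : ι ((q : ℕ) : R) = algebraMap Kb (E (M * q * q)) (((q : ℕ) : ↥A) : Kb) := by
        simp
      rw [e]
      exact hasVal_const w _
  have hg' : g ∈ evalCentre A w hw ι hR :=
    (mem_evalCentre_iff A w hw ι hR _).mpr ⟨d, hd, hgd⟩
  obtain ⟨s, r, hs, hsr⟩ := hloc _ hmax hq' hg'
  have hmem := mem_compSubring_of_local A w hw ι hR hs hsr
  have hreg : w.adicValuation v ≤ 1 :=
    (mem_iff w _).mp (compSubring_le A w hw hmem)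
  rcases eq_or_ne v 0 with h0 | h0
  · rw [h0, Place.ord_zero]
  · exact (ord_nonneg_iff w h0).mpr hreg

/-- **(R3), general form.**  Let `(R i, ι i, g i)` be a family of "charts": commutative rings with a
homomorphism to `ℚ̄(X₀(M q²))` (chart rings of the `K₀`-form with `toE`) and a test element, such
that every bad place `w` is centred on some `R i` (all `ι i r` have values in `A` at `w`) with `g i`
in the evaluation centre.  If `v` lies in the local ring of `R i` at every maximal ideal containing
`q` and `g i`, then no pole of `v` is bad: the hypothesis of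
`RegOfPoles.regX0_of_jvalues_alpha/beta`. -/
theorem exists_jvalue_of_local_family (X : Inputs hA hqM H) {κ : Type*} (R : κ → Type*)
    [∀ i, CommRing (R i)] (ι : ∀ i, R i →+* E (M * q * q)) (g : ∀ i, R i)
    (hconst : ∀ i, ∀ γ : ResidueField ↥A, ∃ (r : R i) (a : ↥A),
      ι i r = algebraMap Kb (E (M * q * q)) (a : Kb) ∧ residue ↥A a = γ)
    (hcover : ∀ w : Place Kb (E (M * q * q)), Bad X w → ∃ i,
      (∀ r : R i, ι i r ∈ compSubring A w (deg_eq_one_bar _ w)) ∧
        ∃ d : ↥A, residue ↥A d = 0 ∧ HasVal w (ι i (g i)) (d : Kb))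
    (v : E (M * q * q))
    (hloc : ∀ i, ∀ x : Ideal (R i), x.IsMaximal → ((q : ℕ) : R i) ∈ x → g i ∈ x →
      ∃ s r : R i, s ∉ x ∧ ι i s * v = ι i r) :
    ∀ P' : Place Kb (E (M * q * q)), P'.ord v < 0 →
      ∃ c : ↥A, HasVal P' (j0 M q) (c : Kb) ∧ residue ↥A c ∉ badValues X := by
  intro P' hP'
  by_contra hbad
  obtain ⟨i, hR, hg⟩ := hcover P' hbad
  have := ord_nonneg_of_chart hA (ι i) (g i) (hconst i) P' hR hg v (hloc i)
  omega

/-! ### the standard test elements -/

/-- values of finite products -/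
theorem hasVal_prod {K' E' : Type*} [Field K'] [Field E'] [Algebra K' E'] (w : Place K' E')
    {ι' : Type*} (S : Finset ι') (f : ι' → E') (c : ι' → K')
    (h : ∀ i ∈ S, HasVal w (f i) (c i)) : HasVal w (∏ i ∈ S, f i) (∏ i ∈ S, c i) := by
  classical
  induction S using Finset.induction_on with
  | empty => simpa using hasVal_one w
  | insert a S ha ih =>
    rw [Finset.prod_insert ha, Finset.prod_insert ha]
    exact (h a (Finset.mem_insert_self a S)).mul
      (ih fun i hi => h i (Finset.mem_insert_of_mem hi))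

/-- **the test element of the finite chart**: if `x` has at `w` an `A`-integral value whose
residue lies in the finite set `S`, then `∏_{γ ∈ S} (x - c_γ)` (`c_γ ∈ A` lifting `γ`) has a value
in `𝔪_A` at `w` -/
theorem hasVal_prod_sub {N : ℕ} (w : Place Kb (E N)) (x : E N) (S : Finset (ResidueField ↥A))
    (lift : ResidueField ↥A → ↥A) (hlift : ∀ γ, residue ↥A (lift γ) = γ) {c : ↥A}
    (hc : HasVal w x (c : Kb)) (hmem : residue ↥A c ∈ S) :
    ∃ d : ↥A, residue ↥A d = 0 ∧
      HasVal w (∏ γ ∈ S, (x - algebraMap Kb (E N) ((lift γ : ↥A) : Kb))) (d : Kb) := by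
  refine ⟨∏ γ ∈ S, (c - lift γ), ?_, ?_⟩
  · rw [map_prod]
    refine Finset.prod_eq_zero hmem ?_
    rw [map_sub, hlift, sub_self]
  · have h1 := hasVal_prod w S (fun γ => x - algebraMap Kb (E N) ((lift γ : ↥A) : Kb))
      (fun γ => (c : Kb) - ((lift γ : ↥A) : Kb)) fun γ _ => hc.sub (hasVal_const w _)
    have e : ((∏ γ ∈ S, (c - lift γ) : ↥A) : Kb) = ∏ γ ∈ S, ((c : Kb) - ((lift γ : ↥A) : Kb)) := by
      push_cast
      rfl
    rw [e]
    exact h1

/-- **the test element of the chart at infinity**: if `x` is not `A`-integral at `w`, then `1 / x`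
has a value in `𝔪_A` at `w` -/
theorem hasVal_inv_of_not_mem {N : ℕ} (w : Place Kb (E N)) (hw : w.deg = 1) {x : E N}
    (hx : x ∉ compSubring A w hw) :
    ∃ d : ↥A, residue ↥A d = 0 ∧ HasVal w x⁻¹ (d : Kb) := by
  obtain ⟨d, hdA, hd⟩ := ((compSubring A w hw).mem_or_inv_mem x).resolve_left hx
  refine ⟨⟨d, hdA⟩, ?_, hd⟩
  by_contra hres
  have hu : IsUnit (⟨d, hdA⟩ : ↥A) := by
    by_contra hnu
    exact hres ((residue_eq_zero_iff _).mpr (by rwa [mem_maximalIdeal, mem_nonunits_iff]))
  have hd0 : d ≠ 0 := by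
    rintro rfl
    exact hres (by
      have : (⟨0, hdA⟩ : ↥A) = 0 := rfl
      rw [this, map_zero])
  have hinvA : d⁻¹ ∈ A := by
    obtain ⟨u, hu'⟩ := hu
    have h1 : ((u⁻¹ : (↥A)ˣ) : ↥A) * ⟨d, hdA⟩ = 1 := by rw [← hu']; exact u.inv_mul
    have h2 : (((u⁻¹ : (↥A)ˣ) : ↥A) : Kb) * d = 1 := congrArg Subtype.val h1
    rw [← eq_inv_of_mul_eq_one_left h2]
    exact ((u⁻¹ : (↥A)ˣ) : ↥A).2
  have := HasVal.inv hd hd0
  rw [inv_inv] at this
  exact hx ⟨d⁻¹, hinvA, this⟩

/-- **(R3), two charts.**  `Rfin` is centred wherever `j₀` is `A`-integral, `Rinf` wherever it is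
not; `gfin` vanishes (modulo `𝔪_A`) where the value of `j₀` has a bad residue, `ginf` where `j₀` is
not `A`-integral.  (Standard choices: `Rfin = chart O₀ x₂`, `gfin = ∏ (j₀ - c_γ)` over the bad
values, `hasVal_prod_sub`; `Rinf = chart O₀ x₂⁻¹`, `ginf = 1 / j₀`, `hasVal_inv_of_not_mem`.) -/
theorem exists_jvalue_of_local_two (X : Inputs hA hqM H) {Rfin Rinf : Type*} [CommRing Rfin]
    [CommRing Rinf] (ιfin : Rfin →+* E (M * q * q)) (ιinf : Rinf →+* E (M * q * q))
    (gfin : Rfin) (ginf : Rinf)
    (hconst_fin : ∀ γ : ResidueField ↥A, ∃ (r : Rfin) (a : ↥A),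
      ιfin r = algebraMap Kb (E (M * q * q)) (a : Kb) ∧ residue ↥A a = γ)
    (hconst_inf : ∀ γ : ResidueField ↥A, ∃ (r : Rinf) (a : ↥A),
      ιinf r = algebraMap Kb (E (M * q * q)) (a : Kb) ∧ residue ↥A a = γ)
    (hfinV : ∀ V : ValuationSubring (E (M * q * q)),
      (∀ a : ↥A, algebraMap Kb (E (M * q * q)) (a : Kb) ∈ V) → j0 M q ∈ V → ∀ r : Rfin, ιfin r ∈ V)
    (hinfV : ∀ V : ValuationSubring (E (M * q * q)),
      (∀ a : ↥A, algebraMap Kb (E (M * q * q)) (a : Kb) ∈ V) → j0 M q ∉ V → ∀ r : Rinf, ιinf r ∈ V)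
    (hgfin : ∀ (w : Place Kb (E (M * q * q))) (c : ↥A), HasVal w (j0 M q) (c : Kb) →
      residue ↥A c ∈ badValues X → ∃ d : ↥A, residue ↥A d = 0 ∧ HasVal w (ιfin gfin) (d : Kb))
    (hginf : ∀ w : Place Kb (E (M * q * q)), j0 M q ∉ compSubring A w (deg_eq_one_bar _ w) →
      ∃ d : ↥A, residue ↥A d = 0 ∧ HasVal w (ιinf ginf) (d : Kb))
    (v : E (M * q * q))
    (hloc_fin : ∀ x : Ideal Rfin, x.IsMaximal → ((q : ℕ) : Rfin) ∈ x → gfin ∈ x →
      ∃ s r : Rfin, s ∉ x ∧ ιfin s * v = ιfin r)
    (hloc_inf : ∀ x : Ideal Rinf, x.IsMaximal → ((q : ℕ) : Rinf) ∈ x → ginf ∈ x →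
      ∃ s r : Rinf, s ∉ x ∧ ιinf s * v = ιinf r) :
    ∀ P' : Place Kb (E (M * q * q)), P'.ord v < 0 →
      ∃ c : ↥A, HasVal P' (j0 M q) (c : Kb) ∧ residue ↥A c ∉ badValues X := by
  intro P' hP'
  by_contra hbad
  have hw := deg_eq_one_bar (M * q * q) P'
  rcases Bad.cases (X := X) hbad with hj | ⟨c, hc, hcb⟩
  · have := ord_nonneg_of_chart hA ιinf ginf hconst_inf P'
      (hinfV _ (algebraMap_mem_compSubring A P' hw) hj) (hginf P' hj) v hloc_inf
    omega
  · have hjm : j0 M q ∈ compSubring A P' hw := ⟨c, c.2, hc⟩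
    have := ord_nonneg_of_chart hA ιfin gfin hconst_fin P'
      (hfinV _ (algebraMap_mem_compSubring A P' hw) hjm) (hgfin P' c hc hcb) v hloc_fin
    omega

end X0

end Fermat.Agent.S36.SpecLocal
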