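/-
PROJECT V (S36), slice V-RegFinal (helper18): **the two regularity fields `hR₁`, `hR₂` of
`NewInertiaDatum.Input`, in their literal shape, from a common generator** (chain v1.1 (R3), last
step; everything upstream is on main: `RegOfPoles` (helper8), `SpecLocal` (helper18),
`LocalIntrinsic` / `CommonGen` (helper7)).

Part A (abstract, `GlueNorm.Datum`): for a Kummer datum `Y : X.Kummer n` and ANY `t₀`:
`(g_i ^ (q - 1) * N_i t₀) ^ n = N_i (f ^ (q - 1) * t₀ ^ n)` (`Kummer.pow_norm₁`, `pow_norm₂`).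

Part B (abstract, one chart ring `A₁` with fraction field `F`): orders add up
(`mem_of_hasOrd` : `HasOrd V f a`, `HasOrd V t b`, `0 ≤ e a + n b` ⟹ `f ^ e * t ^ n ∈ V`), an
element lying in every prime divisor through `m` lies in the local ring at `m`, in the `(s, r)`
form consumed by `SpecLocal` after applying a ring homomorphism `τ : F →+* E`
(`exists_mul_eq_of_forall_mem_Br`).

Part C (`X₀`): `τ : F →+* ℚ̄(X₀(M q²))` (`= toE` on the `K₀`-form), `A₁ A₂` the two chart rings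
(`chart O₀ x₂`, `chart O₀ x₂⁻¹`), test elements `gfin`, `ginf`:
* `exists_jvalue_of_forall_mem_Br` : if `v₀ ∈ F` lies in every prime divisor through every closed
  point of `V(q, gfin) ⊆ Spec A₁` and of `V(q, ginf) ⊆ Spec A₂` then `τ v₀` satisfies the hypothesis
  `h` of `RegOfPoles.regX0_of_jvalues_alpha/beta`;
* `regX0_alpha_of_forall_mem_Br`, `regX0_beta_of_forall_mem_Br` : hence `RegX0 X Y w` for every `w`
  with `w ^ n = N_{α'} (τ v₀)` resp. `N_{β'} (τ v₀)`;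
* `exists_jvalue_of_local`, **`reg_of_local`** : the same with the local hypothesis in `(s, r)` form
  inside `F` (`∃ s r : A_i, s ∉ m ∧ ι s * v₀ = ι r`: the output of helper7's `unit_at`);
* `reg_of_common_generator_places` (dictionary form: every prime divisor through the points is one
  of the three `W` or a `K₀`-place with `0 ≤ e ord f + n ord t₀`), **`reg_of_hasOrd_nOf`** (from the
  LITERAL output of `CommonGen.exists_common_generator` with `n = nOf ((q - 1) D0)`,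
  `ord_v f = n D0 v`, and (V7) at the points);
* **`reg_of_common_generator`** : the literal fields
  `X.Reg (Y.g₁ ^ (X.q - 1) * X.N₁ t₀)` and `X.Reg (Y.g₂ ^ (X.q - 1) * X.N₂ t₀)`
  for a `GlueNorm.Datum` `D` with `D.Reg = RegX0 X Y`, `D.N₁ = N_{α'} ∘ τ`, `D.N₂ = N_{β'} ∘ τ`
  (helper8 `GlueThreeVal.datum_Reg`, `datum_N₁` + helper19 `NormK0`), from the output of
  `CommonGen.exists_common_generator` : `HasOrd V t₀ (nt V)` on `Br m` for the points `m` of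
  `V(q, gfin)`, `V(q, ginf)`, together with `HasOrd V f (nf V)` and `0 ≤ (q - 1) nf V + n nt V`.
-/
import Fermat.Agent.S36.SpecLocal
import Fermat.Agent.S36.LocalIntrinsic
import Fermat.Agent.S36.GlueNorm
import Fermat.Agent.S36.FormalLift.Lattice
import Fermat.Agent.S36.CommonGenV

set_option autoImplicit false
set_option linter.unusedSectionVars false
set_option linter.style.haveILetI false
set_option linter.unusedVariables false
set_option synthInstance.maxHeartbeats 400000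

noncomputable section

namespace Fermat.Agent.S36.RegFinal

open AlgebraicCurve IsLocalRing
open Fermat.Agent.S36.GlueNorm Fermat.Agent.S36.KrullInter Fermat.Agent.S36.LocalGenOrd
  Fermat.Agent.S36.LocalIntrinsic

/-! ### Part A: the norm identity -/

section Norm

variable {k κ F' F Pt : Type*} [Field k] [Field κ] [Algebra k κ] [Field F'] [Field F]
  {X : Datum k κ F' F Pt} {n : ℕ}

/-- `(g₁ ^ e * N₁ t₀) ^ n = N₁ (f ^ e * t₀ ^ n)` -/
theorem pow_norm₁ (Y : X.Kummer n) (e : ℕ) (t₀ : F) :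
    (Y.g₁ ^ e * X.N₁ t₀) ^ n = X.N₁ (Y.f ^ e * t₀ ^ n) := by
  rw [map_mul, map_pow, map_pow, Y.norm₁, mul_pow, ← pow_mul, ← pow_mul, mul_comm e n]

/-- `(g₂ ^ e * N₂ t₀) ^ n = N₂ (f ^ e * t₀ ^ n)` -/
theorem pow_norm₂ (Y : X.Kummer n) (e : ℕ) (t₀ : F) :
    (Y.g₂ ^ e * X.N₂ t₀) ^ n = X.N₂ (Y.f ^ e * t₀ ^ n) := by
  rw [map_mul, map_pow, map_pow, Y.norm₂, mul_pow, ← pow_mul, ← pow_mul, mul_comm e n]

end Norm

/-! ### Part B: orders and local rings -/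

section Local

variable {F : Type*} [Field F]

/-- orders add up: `f ^ e * t ^ n` is integral at `V` as soon as `0 ≤ e a + n b` -/
theorem mem_of_hasOrd {V : ValuationSubring F} {f t : F} {a b : ℤ} (hf : HasOrd V f a)
    (ht : HasOrd V t b) (e n : ℕ) (h : 0 ≤ (e : ℤ) * a + (n : ℤ) * b) : f ^ e * t ^ n ∈ V :=
  ((hf.pow e).mul (ht.pow n)).mem_iff.2 h

variable {A : Type*} [CommRing A] [IsDomain A] [Algebra A F] [IsFractionRing A F]
  [IsNoetherianRing A] [IsIntegrallyClosed A]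

/-- **local Krull intersection, `(s, r)` form after a ring homomorphism**: an element lying in
every prime divisor through `m` is a fraction with denominator outside `m` -/
theorem exists_mul_eq_of_forall_mem_Br {E : Type*} [Field E] (τ : F →+* E) (m : Ideal A)
    [hm : m.IsPrime] (v : F) (h : ∀ V ∈ Br (F := F) m, v ∈ V) :
    ∃ s r : A, s ∉ m ∧ (τ.comp (algebraMap A F)) s * τ v = (τ.comp (algebraMap A F)) r := by
  obtain ⟨s, hs, r, hr⟩ := (mem_locSubring_iff_forall_mem_Br m v).2 h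
  exact ⟨s, r, hs, by rw [RingHom.comp_apply, RingHom.comp_apply, ← map_mul, hr]⟩

end Local

/-! ### Part C: `X₀` -/

section X0

open ModularCurve
open Fermat.Agent.S24.DegreeAlg (jgen)
open Fermat.Agent.S18.B.FkBasics (jk)
open Fermat.Agent.S37.Deuring.Core Fermat.Agent.S37.Gauss.Datum
open Fermat.Agent.S34.CoreZX0Assembly Fermat.Agent.S34.CoreZX0Build
open Fermat.Agent.S34.Generic.Dich
open Fermat.Agent.S35.LevelMaps Fermat.Agent.S35.PushKummer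
open Fermat.Agent.S36.RegOfPoles Fermat.Agent.S36.GlueLevelQ
open Fermat.Agent.S36.SpecValue Fermat.Agent.S36.SpecLocal

local notation "Kb" => AlgebraicClosure ℚ

local instance instNeZeroMulRF (M q : ℕ) [NeZero M] [NeZero q] : NeZero (M * q) :=
  ⟨Nat.mul_ne_zero (NeZero.ne M) (NeZero.ne q)⟩

variable {q : ℕ} [hq : Fact q.Prime] {M : ℕ} [NeZero M] {A : ValuationSubring Kb} [NeZero q]
variable {hA : A.LiesOverPrime q} {hqM : ¬ q ∣ M}
variable {gL gk : ℕ} {H : Hyp (gaussDatum M A hA hqM) gL gk}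
variable [CharP (ResidueField ↥A) q]

variable {F : Type*} [Field F] (τ : F →+* E (M * q * q))
  {A₁ : Type*} [CommRing A₁] [IsDomain A₁] [Algebra A₁ F] [IsFractionRing A₁ F]
  [IsNoetherianRing A₁] [IsIntegrallyClosed A₁]
  {A₂ : Type*} [CommRing A₂] [IsDomain A₂] [Algebra A₂ F] [IsFractionRing A₂ F]
  [IsNoetherianRing A₂] [IsIntegrallyClosed A₂]

/-- **the chart hypotheses of (R3)** for two chart rings `A₁` (where `j₀` is integral) and `A₂`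
(where it is not) of the `K₀`-form `F`, with test elements `gfin`, `ginf`; every field is
discharged on main objects (`SpecLocal.map_mem_of_mem_chart`, `hasVal_prod_sub`,
`hasVal_inv_of_not_mem`, `SmallDVR.exists_residue_toA_eq`). -/
structure ChartHyp (X : Inputs hA hqM H) (τ : F →+* E (M * q * q)) (A₁ A₂ : Type*) [CommRing A₁]
    [CommRing A₂] [Algebra A₁ F] [Algebra A₂ F] (gfin : A₁) (ginf : A₂) : Prop where
  const_fin : ∀ γ : ResidueField ↥A, ∃ (r : A₁) (a : ↥A),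
    τ (algebraMap A₁ F r) = algebraMap Kb (E (M * q * q)) (a : Kb) ∧ residue ↥A a = γ
  const_inf : ∀ γ : ResidueField ↥A, ∃ (r : A₂) (a : ↥A),
    τ (algebraMap A₂ F r) = algebraMap Kb (E (M * q * q)) (a : Kb) ∧ residue ↥A a = γ
  finV : ∀ V : ValuationSubring (E (M * q * q)),
    (∀ a : ↥A, algebraMap Kb (E (M * q * q)) (a : Kb) ∈ V) → j0 M q ∈ V →
      ∀ r : A₁, τ (algebraMap A₁ F r) ∈ V
  infV : ∀ V : ValuationSubring (E (M * q * q)),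
    (∀ a : ↥A, algebraMap Kb (E (M * q * q)) (a : Kb) ∈ V) → j0 M q ∉ V →
      ∀ r : A₂, τ (algebraMap A₂ F r) ∈ V
  gfin : ∀ (w : Place Kb (E (M * q * q))) (c : ↥A), HasVal w (j0 M q) (c : Kb) →
    residue ↥A c ∈ badValues X →
      ∃ d : ↥A, residue ↥A d = 0 ∧ HasVal w (τ (algebraMap A₁ F gfin)) (d : Kb)
  ginf : ∀ w : Place Kb (E (M * q * q)), j0 M q ∉ compSubring A w (deg_eq_one_bar _ w) →
    ∃ d : ↥A, residue ↥A d = 0 ∧ HasVal w (τ (algebraMap A₂ F ginf)) (d : Kb)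

variable {X : Inputs hA hqM H} {gfin : A₁} {ginf : A₂}

/-- **(R3), `j`-value form, `(s, r)` hypotheses in `F`**: an element of the `K₀`-form lying in the
local rings of the closed points of `V(q, gfin)` and `V(q, ginf)` has no bad pole. -/
theorem exists_jvalue_of_local (hC : ChartHyp X τ A₁ A₂ gfin ginf) (v₀ : F)
    (h₁ : ∀ m : Ideal A₁, m.IsMaximal → ((q : ℕ) : A₁) ∈ m → gfin ∈ m →
      ∃ s r : A₁, s ∉ m ∧ algebraMap A₁ F s * v₀ = algebraMap A₁ F r)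
    (h₂ : ∀ m : Ideal A₂, m.IsMaximal → ((q : ℕ) : A₂) ∈ m → ginf ∈ m →
      ∃ s r : A₂, s ∉ m ∧ algebraMap A₂ F s * v₀ = algebraMap A₂ F r) :
    ∀ P' : Place Kb (E (M * q * q)), P'.ord (τ v₀) < 0 →
      ∃ c : ↥A, HasVal P' (j0 M q) (c : Kb) ∧ residue ↥A c ∉ badValues X := by
  refine exists_jvalue_of_local_two X (τ.comp (algebraMap A₁ F)) (τ.comp (algebraMap A₂ F))
    gfin ginf hC.const_fin hC.const_inf hC.finV hC.infV hC.gfin hC.ginf (τ v₀) ?_ ?_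
  · intro m hm hqm hgm
    obtain ⟨s, r, hs, hsr⟩ := h₁ m hm hqm hgm
    exact ⟨s, r, hs, by rw [RingHom.comp_apply, RingHom.comp_apply, ← map_mul, hsr]⟩
  · intro m hm hqm hgm
    obtain ⟨s, r, hs, hsr⟩ := h₂ m hm hqm hgm
    exact ⟨s, r, hs, by rw [RingHom.comp_apply, RingHom.comp_apply, ← map_mul, hsr]⟩

/-- **The fields `hR₁`, `hR₂` of `NewInertiaDatum.Input`, `(s, r)` form**: `v₀ = f ^ (q - 1) * t₀ ^ n`
lies in the local ring of every closed point of `V(q, gfin)`, `V(q, ginf)`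
(e.g. from helper7's `unit_at`). -/
theorem reg_of_local {k κ Pt : Type*} [Field k] [Field κ] [Algebra k κ]
    (D : Datum k κ (E (M * q)) F Pt) (Y : NodesC X) (hReg : D.Reg = RegX0 X Y)
    (hN₁ : ∀ y : F, D.N₁ y = normAlong (heckeAlphaBar Kb (M * q) q) (τ y))
    (hN₂ : ∀ y : F, D.N₂ y = normAlong (heckeBetaBar Kb (M * q) q) (τ y))
    {n : ℕ} (hn : n ≠ 0) (Z : D.Kummer n) (hC : ChartHyp X τ A₁ A₂ gfin ginf) (t₀ : F)
    (h₁ : ∀ m : Ideal A₁, m.IsMaximal → ((q : ℕ) : A₁) ∈ m → gfin ∈ m →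
      ∃ s r : A₁, s ∉ m ∧
        algebraMap A₁ F s * (Z.f ^ (D.q - 1) * t₀ ^ n) = algebraMap A₁ F r)
    (h₂ : ∀ m : Ideal A₂, m.IsMaximal → ((q : ℕ) : A₂) ∈ m → ginf ∈ m →
      ∃ s r : A₂, s ∉ m ∧
        algebraMap A₂ F s * (Z.f ^ (D.q - 1) * t₀ ^ n) = algebraMap A₂ F r) :
    D.Reg (Z.g₁ ^ (D.q - 1) * D.N₁ t₀) ∧ D.Reg (Z.g₂ ^ (D.q - 1) * D.N₂ t₀) := by
  have h := exists_jvalue_of_local τ hC _ h₁ h₂
  rw [hReg]
  refine ⟨regX0_of_jvalues_alpha X Y hn ?_ h, regX0_of_jvalues_beta X Y hn ?_ h⟩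
  · rw [pow_norm₁ Z (D.q - 1) t₀, hN₁]
  · rw [pow_norm₂ Z (D.q - 1) t₀, hN₂]

/-- **(R3), `j`-value form**: an element of the `K₀`-form lying in every prime divisor through the
closed points of `V(q, gfin)` and `V(q, ginf)` has no bad pole. -/
theorem exists_jvalue_of_forall_mem_Br (hC : ChartHyp X τ A₁ A₂ gfin ginf) (v₀ : F)
    (h₁ : ∀ m : Ideal A₁, m.IsMaximal → ((q : ℕ) : A₁) ∈ m → gfin ∈ m →
      ∀ V ∈ Br (F := F) m, v₀ ∈ V)
    (h₂ : ∀ m : Ideal A₂, m.IsMaximal → ((q : ℕ) : A₂) ∈ m → ginf ∈ m →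
      ∀ V ∈ Br (F := F) m, v₀ ∈ V) :
    ∀ P' : Place Kb (E (M * q * q)), P'.ord (τ v₀) < 0 →
      ∃ c : ↥A, HasVal P' (j0 M q) (c : Kb) ∧ residue ↥A c ∉ badValues X := by
  refine exists_jvalue_of_local_two X (τ.comp (algebraMap A₁ F)) (τ.comp (algebraMap A₂ F))
    gfin ginf hC.const_fin hC.const_inf hC.finV hC.infV hC.gfin hC.ginf (τ v₀) ?_ ?_
  · intro m hm hqm hgm
    haveI := hm.isPrime
    exact exists_mul_eq_of_forall_mem_Br τ m v₀ (h₁ m hm hqm hgm)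
  · intro m hm hqm hgm
    haveI := hm.isPrime
    exact exists_mul_eq_of_forall_mem_Br τ m v₀ (h₂ m hm hqm hgm)

/-- **(R3) along `α'`** -/
theorem regX0_alpha_of_forall_mem_Br (Y : NodesC X) (hC : ChartHyp X τ A₁ A₂ gfin ginf) (v₀ : F)
    (h₁ : ∀ m : Ideal A₁, m.IsMaximal → ((q : ℕ) : A₁) ∈ m → gfin ∈ m →
      ∀ V ∈ Br (F := F) m, v₀ ∈ V)
    (h₂ : ∀ m : Ideal A₂, m.IsMaximal → ((q : ℕ) : A₂) ∈ m → ginf ∈ m →
      ∀ V ∈ Br (F := F) m, v₀ ∈ V)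
    {w : E (M * q)} {n : ℕ} (hn : n ≠ 0)
    (hwv : w ^ n = normAlong (heckeAlphaBar Kb (M * q) q) (τ v₀)) : RegX0 X Y w :=
  regX0_of_jvalues_alpha X Y hn hwv (exists_jvalue_of_forall_mem_Br τ hC v₀ h₁ h₂)

/-- **(R3) along `β'`** -/
theorem regX0_beta_of_forall_mem_Br (Y : NodesC X) (hC : ChartHyp X τ A₁ A₂ gfin ginf) (v₀ : F)
    (h₁ : ∀ m : Ideal A₁, m.IsMaximal → ((q : ℕ) : A₁) ∈ m → gfin ∈ m →
      ∀ V ∈ Br (F := F) m, v₀ ∈ V)
    (h₂ : ∀ m : Ideal A₂, m.IsMaximal → ((q : ℕ) : A₂) ∈ m → ginf ∈ m →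
      ∀ V ∈ Br (F := F) m, v₀ ∈ V)
    {w : E (M * q)} {n : ℕ} (hn : n ≠ 0)
    (hwv : w ^ n = normAlong (heckeBetaBar Kb (M * q) q) (τ v₀)) : RegX0 X Y w :=
  regX0_of_jvalues_beta X Y hn hwv (exists_jvalue_of_forall_mem_Br τ hC v₀ h₁ h₂)

/-- **The fields `hR₁`, `hR₂` of `NewInertiaDatum.Input` from a common generator.**
`D` is the two-level datum (`D.Reg = RegX0 X Y`, norms `= N ∘ τ`), `Z` the Kummer datum, `t₀` the
common generator: `HasOrd V t₀ (nt V)` at the prime divisors through the closed points of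
`V(q, gfin)`, `V(q, ginf)` (`CommonGen.exists_common_generator`), `HasOrd V f (nf V)` there, and
`0 ≤ e nf + n nt` (`e = D.q - 1`; in the application `nf = n D'`, `nt = -e D'`, equality). -/
theorem reg_of_common_generator {k κ Pt : Type*} [Field k] [Field κ] [Algebra k κ]
    (D : Datum k κ (E (M * q)) F Pt) (Y : NodesC X) (hReg : D.Reg = RegX0 X Y)
    (hN₁ : ∀ y : F, D.N₁ y = normAlong (heckeAlphaBar Kb (M * q) q) (τ y))
    (hN₂ : ∀ y : F, D.N₂ y = normAlong (heckeBetaBar Kb (M * q) q) (τ y))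
    {n : ℕ} (hn : n ≠ 0) (Z : D.Kummer n) (hC : ChartHyp X τ A₁ A₂ gfin ginf) (t₀ : F)
    (nf nt : ValuationSubring F → ℤ)
    (hpos : ∀ V, 0 ≤ ((D.q - 1 : ℕ) : ℤ) * nf V + (n : ℤ) * nt V)
    (h₁ : ∀ m : Ideal A₁, m.IsMaximal → ((q : ℕ) : A₁) ∈ m → gfin ∈ m →
      ∀ V ∈ Br (F := F) m, HasOrd V Z.f (nf V) ∧ HasOrd V t₀ (nt V))
    (h₂ : ∀ m : Ideal A₂, m.IsMaximal → ((q : ℕ) : A₂) ∈ m → ginf ∈ m →
      ∀ V ∈ Br (F := F) m, HasOrd V Z.f (nf V) ∧ HasOrd V t₀ (nt V)) :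
    D.Reg (Z.g₁ ^ (D.q - 1) * D.N₁ t₀) ∧ D.Reg (Z.g₂ ^ (D.q - 1) * D.N₂ t₀) := by
  have h₁' : ∀ m : Ideal A₁, m.IsMaximal → ((q : ℕ) : A₁) ∈ m → gfin ∈ m →
      ∀ V ∈ Br (F := F) m, Z.f ^ (D.q - 1) * t₀ ^ n ∈ V := fun m hm hqm hgm V hV =>
    mem_of_hasOrd (h₁ m hm hqm hgm V hV).1 (h₁ m hm hqm hgm V hV).2 _ _ (hpos V)
  have h₂' : ∀ m : Ideal A₂, m.IsMaximal → ((q : ℕ) : A₂) ∈ m → ginf ∈ m →
      ∀ V ∈ Br (F := F) m, Z.f ^ (D.q - 1) * t₀ ^ n ∈ V := fun m hm hqm hgm V hV =>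
    mem_of_hasOrd (h₂ m hm hqm hgm V hV).1 (h₂ m hm hqm hgm V hV).2 _ _ (hpos V)
  rw [hReg]
  refine ⟨regX0_alpha_of_forall_mem_Br τ Y hC _ h₁' h₂' hn ?_,
    regX0_beta_of_forall_mem_Br τ Y hC _ h₁' h₂' hn ?_⟩
  · rw [pow_norm₁ Z (D.q - 1) t₀, hN₁]
  · rw [pow_norm₂ Z (D.q - 1) t₀, hN₂]

/-- **The fields `hR₁`, `hR₂` of `NewInertiaDatum.Input`, dictionary form.**  Every prime divisor
through a closed point of `V(q, gfin)`, `V(q, ginf)` is one of the three vertical valuation rings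
(`f`, `t₀` lie in them: `Kummer.f₂₀ …`, `Input.t₂₀ …`) or the valuation ring of a place `v` of the
`K₀`-form with `0 ≤ e ord_v f + n ord_v t₀` (in the application `ord_v f = n D' v`,
`ord_v t₀ = -e D' v`: the output (E3) of `CommonGen`). -/
theorem reg_of_common_generator_places {K₀ : Type*} [Field K₀] [Algebra K₀ F]
    {k κ Pt : Type*} [Field k] [Field κ] [Algebra k κ]
    (D : Datum k κ (E (M * q)) F Pt) (Y : NodesC X) (hReg : D.Reg = RegX0 X Y)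
    (hN₁ : ∀ y : F, D.N₁ y = normAlong (heckeAlphaBar Kb (M * q) q) (τ y))
    (hN₂ : ∀ y : F, D.N₂ y = normAlong (heckeBetaBar Kb (M * q) q) (τ y))
    {n : ℕ} (hn : n ≠ 0) (Z : D.Kummer n) (hC : ChartHyp X τ A₁ A₂ gfin ginf) (t₀ : F)
    (t₂₀ : t₀ ∈ D.W₂₀) (t₁₁ : t₀ ∈ D.W₁₁) (t₀₂ : t₀ ∈ D.W₀₂)
    (h₁ : ∀ m : Ideal A₁, m.IsMaximal → ((q : ℕ) : A₁) ∈ m → gfin ∈ m →
      ∀ V ∈ Br (F := F) m, (V = D.W₂₀ ∨ V = D.W₁₁ ∨ V = D.W₀₂) ∨
        ∃ v : Place K₀ F, v.toValuationSubring = V ∧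
          0 ≤ ((D.q - 1 : ℕ) : ℤ) * v.ord Z.f + (n : ℤ) * v.ord t₀)
    (h₂ : ∀ m : Ideal A₂, m.IsMaximal → ((q : ℕ) : A₂) ∈ m → ginf ∈ m →
      ∀ V ∈ Br (F := F) m, (V = D.W₂₀ ∨ V = D.W₁₁ ∨ V = D.W₀₂) ∨
        ∃ v : Place K₀ F, v.toValuationSubring = V ∧
          0 ≤ ((D.q - 1 : ℕ) : ℤ) * v.ord Z.f + (n : ℤ) * v.ord t₀) :
    D.Reg (Z.g₁ ^ (D.q - 1) * D.N₁ t₀) ∧ D.Reg (Z.g₂ ^ (D.q - 1) * D.N₂ t₀) := by
  have key : ∀ V : ValuationSubring F, ((V = D.W₂₀ ∨ V = D.W₁₁ ∨ V = D.W₀₂) ∨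
      ∃ v : Place K₀ F, v.toValuationSubring = V ∧
        0 ≤ ((D.q - 1 : ℕ) : ℤ) * v.ord Z.f + (n : ℤ) * v.ord t₀) →
      Z.f ^ (D.q - 1) * t₀ ^ n ∈ V := by
    rintro V ((rfl | rfl | rfl) | ⟨v, rfl, hv⟩)
    · exact ValuationSubring.mul_mem _ _ _ (pow_mem Z.f₂₀ _) (pow_mem t₂₀ _)
    · exact ValuationSubring.mul_mem _ _ _ (pow_mem Z.f₁₁ _) (pow_mem t₁₁ _)
    · exact ValuationSubring.mul_mem _ _ _ (pow_mem Z.f₀₂ _) (pow_mem t₀₂ _)
    · by_cases h0 : Z.f ^ (D.q - 1) * t₀ ^ n = 0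
      · rw [h0]; exact ValuationSubring.zero_mem _
      · have hf0 : Z.f ^ (D.q - 1) ≠ 0 := left_ne_zero_of_mul h0
        have ht0 : t₀ ^ n ≠ 0 := right_ne_zero_of_mul h0
        rw [Lattice.mem_iff_ord v h0, v.ord_mul hf0 ht0, Fermat.Agent.S18.CoreOrd.ord_pow,
          Fermat.Agent.S18.CoreOrd.ord_pow]
        exact hv
  have h₁' : ∀ m : Ideal A₁, m.IsMaximal → ((q : ℕ) : A₁) ∈ m → gfin ∈ m →
      ∀ V ∈ Br (F := F) m, Z.f ^ (D.q - 1) * t₀ ^ n ∈ V := fun m hm hqm hgm V hV =>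
    key V (h₁ m hm hqm hgm V hV)
  have h₂' : ∀ m : Ideal A₂, m.IsMaximal → ((q : ℕ) : A₂) ∈ m → ginf ∈ m →
      ∀ V ∈ Br (F := F) m, Z.f ^ (D.q - 1) * t₀ ^ n ∈ V := fun m hm hqm hgm V hV =>
    key V (h₂ m hm hqm hgm V hV)
  rw [hReg]
  refine ⟨regX0_alpha_of_forall_mem_Br τ Y hC _ h₁' h₂' hn ?_,
    regX0_beta_of_forall_mem_Br τ Y hC _ h₁' h₂' hn ?_⟩
  · rw [pow_norm₁ Z (D.q - 1) t₀, hN₁]
  · rw [pow_norm₂ Z (D.q - 1) t₀, hN₂]

/-- **The fields `hR₁`, `hR₂` of `NewInertiaDatum.Input` from the literal output of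
`CommonGen.exists_common_generator`.**  `D0` is the divisor of the Kummer function
(`ord_v f = n D0 v` at every `K₀`-place), `t₀` has `HasOrd V t₀ (nOf ((q - 1) D0) V)` at the prime
divisors through the points of `T₁ ⊇ V(q, gfin)`, `T₂ ⊇ V(q, ginf)`, and the prime divisors through
these points which are not places are among the three vertical valuation rings ((V7)). -/
theorem reg_of_hasOrd_nOf {K₀ : Type*} [Field K₀] [Algebra K₀ F]
    {k κ Pt : Type*} [Field k] [Field κ] [Algebra k κ]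
    (D : Datum k κ (E (M * q)) F Pt) (Y : NodesC X) (hReg : D.Reg = RegX0 X Y)
    (hN₁ : ∀ y : F, D.N₁ y = normAlong (heckeAlphaBar Kb (M * q) q) (τ y))
    (hN₂ : ∀ y : F, D.N₂ y = normAlong (heckeBetaBar Kb (M * q) q) (τ y))
    {n : ℕ} (hn : n ≠ 0) (Z : D.Kummer n) (hC : ChartHyp X τ A₁ A₂ gfin ginf) (t₀ : F)
    (D0 : Place K₀ F → ℤ) (hf : ∀ v : Place K₀ F, v.ord Z.f = (n : ℤ) * D0 v)
    (T₁ : Set (Ideal A₁)) (T₂ : Set (Ideal A₂))
    (hT₁ : ∀ m : Ideal A₁, m.IsMaximal → ((q : ℕ) : A₁) ∈ m → gfin ∈ m → m ∈ T₁)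
    (hT₂ : ∀ m : Ideal A₂, m.IsMaximal → ((q : ℕ) : A₂) ∈ m → ginf ∈ m → m ∈ T₂)
    (ht₁ : ∀ m ∈ T₁, ∀ V ∈ Br (F := F) m,
      HasOrd V t₀ (LocalGenV.nOf (fun v : Place K₀ F => ((D.q - 1 : ℕ) : ℤ) * D0 v) V))
    (ht₂ : ∀ m ∈ T₂, ∀ V ∈ Br (F := F) m,
      HasOrd V t₀ (LocalGenV.nOf (fun v : Place K₀ F => ((D.q - 1 : ℕ) : ℤ) * D0 v) V))
    (hvert₁ : ∀ m ∈ T₁, ∀ V ∈ Br (F := F) m,
      (¬ ∃ v : Place K₀ F, v.toValuationSubring = V) → V = D.W₂₀ ∨ V = D.W₁₁ ∨ V = D.W₀₂)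
    (hvert₂ : ∀ m ∈ T₂, ∀ V ∈ Br (F := F) m,
      (¬ ∃ v : Place K₀ F, v.toValuationSubring = V) → V = D.W₂₀ ∨ V = D.W₁₁ ∨ V = D.W₀₂) :
    D.Reg (Z.g₁ ^ (D.q - 1) * D.N₁ t₀) ∧ D.Reg (Z.g₂ ^ (D.q - 1) * D.N₂ t₀) := by
  have key : ∀ V : ValuationSubring F,
      HasOrd V t₀ (LocalGenV.nOf (fun v : Place K₀ F => ((D.q - 1 : ℕ) : ℤ) * D0 v) V) →
      ((¬ ∃ v : Place K₀ F, v.toValuationSubring = V) → V = D.W₂₀ ∨ V = D.W₁₁ ∨ V = D.W₀₂) →
      Z.f ^ (D.q - 1) * t₀ ^ n ∈ V := by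
    intro V hV hvert
    by_cases hpl : ∃ v : Place K₀ F, v.toValuationSubring = V
    · obtain ⟨v, rfl⟩ := hpl
      have ht := CommonGenV.ord_eq_of_hasOrd_nOf _ v hV
      by_cases h0 : Z.f ^ (D.q - 1) * t₀ ^ n = 0
      · rw [h0]; exact ValuationSubring.zero_mem _
      · have hf0 : Z.f ^ (D.q - 1) ≠ 0 := left_ne_zero_of_mul h0
        have ht0 : t₀ ^ n ≠ 0 := right_ne_zero_of_mul h0
        rw [Lattice.mem_iff_ord v h0, v.ord_mul hf0 ht0, Fermat.Agent.S18.CoreOrd.ord_pow,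
          Fermat.Agent.S18.CoreOrd.ord_pow, hf v, ht]
        apply le_of_eq
        ring
    · have htV := (CommonGenV.mem_and_inv_mem_of_hasOrd_nOf _ hpl hV).1
      rcases hvert hpl with rfl | rfl | rfl
      · exact ValuationSubring.mul_mem _ _ _ (pow_mem Z.f₂₀ _) (pow_mem htV _)
      · exact ValuationSubring.mul_mem _ _ _ (pow_mem Z.f₁₁ _) (pow_mem htV _)
      · exact ValuationSubring.mul_mem _ _ _ (pow_mem Z.f₀₂ _) (pow_mem htV _)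
  have h₁' : ∀ m : Ideal A₁, m.IsMaximal → ((q : ℕ) : A₁) ∈ m → gfin ∈ m →
      ∀ V ∈ Br (F := F) m, Z.f ^ (D.q - 1) * t₀ ^ n ∈ V := fun m hm hqm hgm V hV =>
    key V (ht₁ m (hT₁ m hm hqm hgm) V hV) (hvert₁ m (hT₁ m hm hqm hgm) V hV)
  have h₂' : ∀ m : Ideal A₂, m.IsMaximal → ((q : ℕ) : A₂) ∈ m → ginf ∈ m →
      ∀ V ∈ Br (F := F) m, Z.f ^ (D.q - 1) * t₀ ^ n ∈ V := fun m hm hqm hgm V hV =>
    key V (ht₂ m (hT₂ m hm hqm hgm) V hV) (hvert₂ m (hT₂ m hm hqm hgm) V hV)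
  rw [hReg]
  refine ⟨regX0_alpha_of_forall_mem_Br τ Y hC _ h₁' h₂' hn ?_,
    regX0_beta_of_forall_mem_Br τ Y hC _ h₁' h₂' hn ?_⟩
  · rw [pow_norm₁ Z (D.q - 1) t₀, hN₁]
  · rw [pow_norm₂ Z (D.q - 1) t₀, hN₂]

end X0

end Fermat.Agent.S36.RegFinal
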