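/-
PROJECT V (S36), slice V-CommonGenPoints (helper18), part 2: **the common generator `t₀` together
with the fields `hR₁`, `hR₂` of `NewInertiaDatum.Input`, in one call** (chain v1.1 (R3)).

`exists_t0` composes `CommonGenPoints.exists_common_generator_of_finite` (the constant `c` of the
third chart is chosen there) with `RegFinal.reg_of_hasOrd_nOf`:

INPUT: the two charts `A₁ A₂` of `φ`, `φ⁻¹` over the DVR `O` (infinite residue field); two finite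
sets `S₁ S₂` of closed points, locally principal, with residue classes represented by constants,
containing `V(q, gfin)` resp. `V(q, ginf)` (and whatever else: the triple points), at which every
prime divisor which is not a `K`-place is one of the three `W`; the divisor `D0` of the Kummer
function (`ord_v f = n D0 v`); `RegFinal.ChartHyp`; the identifications `D.Reg = RegX0`,
`D.N_i = N ∘ τ`.

OUTPUT: `t₀ ≠ 0` with `HasOrd V t₀ (nOf ((q - 1) D0) V)` at every prime divisor through every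
point of `S₁`, `S₂` (so `t₀ ∈ W`, `ord_v t₀ = -(q - 1) D0 v`: `CommonGenV`) and
`D.Reg (g₁ ^ (q - 1) * N₁ t₀)`, `D.Reg (g₂ ^ (q - 1) * N₂ t₀)`.
-/
import Fermat.Agent.S36.RegFinal
import Fermat.Agent.S36.CommonGenPoints

set_option autoImplicit false
set_option linter.unusedSectionVars false
set_option linter.style.haveILetI false
set_option linter.unusedVariables false
set_option synthInstance.maxHeartbeats 400000

noncomputable section

namespace Fermat.Agent.S36.RegT0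

open AlgebraicCurve IsLocalRing IntermediateField
open Fermat.Agent.S36.GlueNorm Fermat.Agent.S36.KrullInter Fermat.Agent.S36.LocalGenOrd
  Fermat.Agent.S36.LocalIntrinsic Fermat.Agent.S36.ChartRing
open ModularCurve
open Fermat.Agent.S37.Deuring.Core Fermat.Agent.S37.Gauss.Datum
open Fermat.Agent.S34.CoreZX0Assembly Fermat.Agent.S34.CoreZX0Build
open Fermat.Agent.S35.LevelMaps Fermat.Agent.S35.PushKummer
open Fermat.Agent.S36.RegOfPoles Fermat.Agent.S36.GlueLevelQ Fermat.Agent.S36.RegFinal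

local notation "Kb" => AlgebraicClosure ℚ

local instance instNeZeroMulRT (M q : ℕ) [NeZero M] [NeZero q] : NeZero (M * q) :=
  ⟨Nat.mul_ne_zero (NeZero.ne M) (NeZero.ne q)⟩

variable {q : ℕ} [hq : Fact q.Prime] {M : ℕ} [NeZero M] {A : ValuationSubring Kb} [NeZero q]
variable {hA : A.LiesOverPrime q} {hqM : ¬ q ∣ M}
variable {gL gk : ℕ} {H : Hyp (gaussDatum M A hA hqM) gL gk}
variable [CharP (ResidueField ↥A) q]

variable {O : Type*} [CommRing O] [IsDomain O] [IsDiscreteValuationRing O] {K : Type*} [Field K]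
  [Algebra O K] [IsFractionRing O K] [CharZero K] {F : Type*} [Field F] [Algebra K F]
  [Algebra O F] [IsScalarTower O K F]

variable {A₁ : Type*} [CommRing A₁] [IsDomain A₁] [Algebra A₁ F] [IsFractionRing A₁ F]
  [IsNoetherianRing A₁] [IsIntegrallyClosed A₁] [Algebra O A₁] [IsScalarTower O A₁ F]
  {A₂ : Type*} [CommRing A₂] [IsDomain A₂] [Algebra A₂ F] [IsFractionRing A₂ F]
  [IsNoetherianRing A₂] [IsIntegrallyClosed A₂] [Algebra O A₂] [IsScalarTower O A₂ F]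

/-- **the common generator with `hR₁`, `hR₂`** -/
theorem exists_t0 [Infinite (ResidueField O)] {X : Inputs hA hqM H} (Y : NodesC X)
    (τ : F →+* E (M * q * q)) {φ : F} (hφ : Transcendental K φ) [FiniteDimensional K⟮φ⟯ F]
    (hA₁ : ∀ x : F, (∃ a : A₁, algebraMap A₁ F a = x) ↔ x ∈ chart O φ)
    (hA₂ : ∀ x : F, (∃ a : A₂, algebraMap A₂ F a = x) ↔ x ∈ chart O φ⁻¹)
    {gfin : A₁} {ginf : A₂} (hC : ChartHyp X τ A₁ A₂ gfin ginf)
    {k κ Pt : Type*} [Field k] [Field κ] [Algebra k κ]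
    (D : Datum k κ (E (M * q)) F Pt) (hReg : D.Reg = RegX0 X Y)
    (hN₁ : ∀ y : F, D.N₁ y = normAlong (heckeAlphaBar Kb (M * q) q) (τ y))
    (hN₂ : ∀ y : F, D.N₂ y = normAlong (heckeBetaBar Kb (M * q) q) (τ y))
    {n : ℕ} (hn : n ≠ 0) (Z : D.Kummer n)
    (D0 : Place K F → ℤ) (hD0 : {v : Place K F | D0 v ≠ 0}.Finite)
    (hf : ∀ v : Place K F, v.ord Z.f = (n : ℤ) * D0 v)
    (S₁ : Set (Ideal A₁)) (hS₁ : S₁.Finite) (hmax₁ : ∀ m ∈ S₁, m.IsMaximal)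
    (hconst₁ : ∀ m ∈ S₁, ∀ u : A₁, ∃ c : O, u - algebraMap O A₁ c ∈ m)
    (hloc₁ : ∀ m ∈ S₁, LocalGenCore.LocPrincipal (F := F) m)
    (hT₁ : ∀ m : Ideal A₁, m.IsMaximal → ((q : ℕ) : A₁) ∈ m → gfin ∈ m → m ∈ S₁)
    (hvert₁ : ∀ m ∈ S₁, ∀ V ∈ Br (F := F) m,
      (¬ ∃ v : Place K F, v.toValuationSubring = V) → V = D.W₂₀ ∨ V = D.W₁₁ ∨ V = D.W₀₂)
    (S₂ : Set (Ideal A₂)) (hS₂ : S₂.Finite) (hmax₂ : ∀ m ∈ S₂, m.IsMaximal)
    (hconst₂ : ∀ m ∈ S₂, ∀ u : A₂, ∃ c : O, u - algebraMap O A₂ c ∈ m)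
    (hloc₂ : ∀ m ∈ S₂, LocalGenCore.LocPrincipal (F := F) m)
    (hT₂ : ∀ m : Ideal A₂, m.IsMaximal → ((q : ℕ) : A₂) ∈ m → ginf ∈ m → m ∈ S₂)
    (hvert₂ : ∀ m ∈ S₂, ∀ V ∈ Br (F := F) m,
      (¬ ∃ v : Place K F, v.toValuationSubring = V) → V = D.W₂₀ ∨ V = D.W₁₁ ∨ V = D.W₀₂) :
    ∃ t₀ : F, t₀ ≠ 0 ∧
      (∀ m ∈ S₁, ∀ V ∈ Br (F := F) m,
        HasOrd V t₀ (LocalGenV.nOf (fun v : Place K F => ((D.q - 1 : ℕ) : ℤ) * D0 v) V)) ∧
      (∀ m ∈ S₂, ∀ V ∈ Br (F := F) m,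
        HasOrd V t₀ (LocalGenV.nOf (fun v : Place K F => ((D.q - 1 : ℕ) : ℤ) * D0 v) V)) ∧
      D.Reg (Z.g₁ ^ (D.q - 1) * D.N₁ t₀) ∧ D.Reg (Z.g₂ ^ (D.q - 1) * D.N₂ t₀) := by
  have hfin : {v : Place K F | ((D.q - 1 : ℕ) : ℤ) * D0 v ≠ 0}.Finite :=
    hD0.subset fun v hv h0 => hv (by rw [h0, mul_zero])
  obtain ⟨t₀, ht0, h₁, h₂⟩ := CommonGenPoints.exists_common_generator_of_finite (O := O) (K := K)
    hφ hA₁ hA₂ S₁ hS₁ hmax₁ hconst₁ hloc₁ S₂ hS₂ hmax₂ hconst₂ hloc₂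
    (LocalGenV.nOf (fun v : Place K F => ((D.q - 1 : ℕ) : ℤ) * D0 v))
    (LocalGenV.nOf_finite _ hfin)
  exact ⟨t₀, ht0, h₁, h₂, reg_of_hasOrd_nOf τ D Y hReg hN₁ hN₂ hn Z hC t₀ D0 hf S₁ S₂ hT₁ hT₂
    h₁ h₂ hvert₁ hvert₂⟩

end Fermat.Agent.S36.RegT0
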