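/-
PROJECT V (S36), slice V-LeafT0Sets (helper7): **the finite sets `S₁`, `S₂` of closed points at
which the common generator `t₀` is built, and the whole `t₀`-block of `NewInertiaCharts.Leaf` in
one call**.

`RegT0.exists_t0` (helper18) produces `t₀` with `HasOrd` data and `hR₁ hR₂` from two finite sets
`S₁ ⊆ Spec (chart O φ)`, `S₂ ⊆ Spec (chart O φ⁻¹)` of closed points (locally principal, residue
classes represented by constants, containing `V(q, gfin)` resp. `V(q, ginf)`, all non-place prime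
divisors through them among the three `W`).  `LeafT0.t0_fields` needs moreover that these sets
contain the triple points.  Here (sections `Sets`, abstract, one chart):

* `excSet X ϖ φ g` : the closed points `m` of the special fibre of `chart O φ` with `g ∈ m` or
  through which the three branches pass (triple points);
* `excSet_finite` : it is finite (`CommonGenPoints.finite_maximal_pdatum`; the triple points are
  the `x₂₀(n)`, `n ∈ D.S`, and `D.S` is finite: `finite_S_of_dict`);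
* `isMaximal_of_mem_excSet`, `hconst_excSet`, `hloc_excSet`, `mem_excSet_of_mem`,
  `hvert_excSet`, `mem_excSet_of_triple` : the hypotheses `hmax hconst hloc hT hvert` of
  `RegT0.exists_t0` and `htrip` of `LeafT0.t0_fields` in their literal shapes.

Section `Block` (setting of `RegFinal` / `RegT0`):

* `exists_t0_fields` : `RegT0.exists_t0` composed with `LeafT0.t0_fields` : `∃ t₀ ≠ 0` with the
  fields `hR₁ hR₂ t₂₀ t₁₁ t₀₂ hv₀ pt pt'` of `NewInertiaCharts.Leaf` in their literal shapes.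
-/
import Mathlib
import Fermat.Agent.S36.LeafT0
import Fermat.Agent.S36.RegT0

set_option autoImplicit false
set_option linter.unusedSectionVars false
set_option linter.style.haveILetI false
set_option linter.unusedVariables false

namespace Fermat.Agent.S36.LeafT0Sets

open AlgebraicCurve Polynomial IntermediateField
  Fermat.Agent.S36.KrullInter Fermat.Agent.S36.CentreCore Fermat.Agent.S36.Centre
  Fermat.Agent.S36.LocalGenOrd Fermat.Agent.S36.LocalGenV Fermat.Agent.S36.LocalIntrinsic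
  Fermat.Agent.S36.CommonGenV Fermat.Agent.S36.ChartRing Fermat.Agent.S36.ChartVert
  Fermat.Agent.S36.Lattice Fermat.Agent.S36.FormalLift Fermat.Agent.S36.VChartsOfLoc
  Fermat.Agent.S36.GlueNorm Fermat.Agent.S36.OpenLift Fermat.Agent.S36.TripleValues
  Fermat.Agent.S36.NewInertiaDatum Fermat.Agent.S36.BranchCoreT Fermat.Agent.S36.BranchPt
  Fermat.Agent.S36.SoftCoreInput Fermat.Agent.S36.LeafT0

/-! ### The exceptional set of closed points of a chart -/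

section Sets

variable {k κ F' F Pt : Type*} [Field k] [Field κ] [Algebra k κ] [Field F'] [Field F]
  {O : Type*} [CommRing O] [IsDomain O] [IsDiscreteValuationRing O] {K : Type*} [Field K]
  [Algebra O K] [IsFractionRing O K] [CharZero K] [Algebra K F] [Algebra O F]
  [IsScalarTower O K F] {A₁ : Type*} [CommRing A₁]

/-- **the exceptional closed points of the chart `{φ ≠ ∞}`**: the closed points of the special
fibre on `V(g)` and the triple points -/
def excSet (X : Datum k κ F' F Pt) (ϖ : O) (φ : F) (g : chart O φ) : Set (Ideal (chart O φ)) :=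
  {m | m.IsMaximal ∧ piChart φ ϖ ∈ m ∧
    (g ∈ m ∨ ∀ (w : Comp) (a : chart O φ), (a : F) ∈ (Wof X w).nonunits → a ∈ m)}

variable {X : Datum k κ F' F Pt} {ϖ : O} {φ : F} {g : chart O φ}

theorem isMaximal_of_mem_excSet {m : Ideal (chart O φ)} (h : m ∈ excSet X ϖ φ g) :
    m.IsMaximal := h.1

theorem piChart_mem_of_mem_excSet {m : Ideal (chart O φ)} (h : m ∈ excSet X ϖ φ g) :
    piChart φ ϖ ∈ m := h.2.1

/-- `hT` of `RegT0.exists_t0` (with `piChart φ ϖ` for `q`) -/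
theorem mem_excSet_of_mem {m : Ideal (chart O φ)} (hm : m.IsMaximal) (hϖm : piChart φ ϖ ∈ m)
    (hg : g ∈ m) : m ∈ excSet X ϖ φ g := ⟨hm, hϖm, Or.inl hg⟩

/-- `htrip` of `LeafT0.t0_fields` -/
theorem mem_excSet_of_triple (hgauss : ∀ w, IsGaussVert ϖ φ (Wof X w))
    {m : Ideal (chart O φ)} (hm : m.IsMaximal)
    (ht : ∀ (w : Comp) (a : chart O φ), (a : F) ∈ (Wof X w).nonunits → a ∈ m) :
    m ∈ excSet X ϖ φ g := by
  refine ⟨hm, ?_, Or.inr ht⟩
  apply ht Comp.c20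
  rw [coe_piChart]
  exact (hgauss Comp.c20).nonunit |> fun h => by
    rw [ValuationSubring.mem_nonunits_iff_or]
    exact Or.inr h

/-- `hconst` of `RegT0.exists_t0` -/
theorem hconst_excSet [IsAlgClosed (IsLocalRing.ResidueField O)] (hϖ : Irreducible ϖ)
    (hφ : Transcendental K φ) [FiniteDimensional K⟮φ⟯ F] :
    ∀ m ∈ excSet X ϖ φ g, ∀ u : chart O φ, ∃ c : O, u - algebraMap O (chart O φ) c ∈ m := by
  intro m hm u
  obtain ⟨c, hc⟩ := exists_const_sub_mem_chart hϖ hφ m hm.1 hm.2.1 u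
  refine ⟨c, ?_⟩
  have : (constChart φ c : chart O φ) = algebraMap O (chart O φ) c :=
    Subtype.ext (coe_constChart φ c)
  rw [← this]
  exact hc

/-- `hloc` of `RegT0.exists_t0` from (V12) on the chart -/
theorem hloc_excSet (hφ : Transcendental K φ) [FiniteDimensional K⟮φ⟯ F]
    (hloc : haveI := chart_isFractionRing (O := O) hφ
      haveI := chart_isNoetherianRing (O := O) hφ
      haveI := chart_isIntegrallyClosed (O := O) hφ
      ∀ m : Ideal (chart O φ), m.IsMaximal → piChart φ ϖ ∈ m →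
        LocalGenCore.LocPrincipal (F := F) m) :
    haveI := chart_isFractionRing (O := O) hφ
    haveI := chart_isNoetherianRing (O := O) hφ
    haveI := chart_isIntegrallyClosed (O := O) hφ
    ∀ m ∈ excSet X ϖ φ g, LocalGenCore.LocPrincipal (F := F) m :=
  fun m hm => hloc m hm.1 hm.2.1

/-- `hvert` of `RegT0.exists_t0` from (V7) on the chart -/
theorem hvert_excSet (hϖ : Irreducible ϖ) (hφ : Transcendental K φ) [FiniteDimensional K⟮φ⟯ F]
    (hgauss : ∀ w, IsGaussVert ϖ φ (Wof X w))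
    (hvert : ∀ V : ValuationSubring F, (∀ c : O, algebraMap O F c ∈ V) → φ ∈ V →
      (algebraMap O F ϖ)⁻¹ ∉ V →
      (∀ s : O[X], (∃ i, IsUnit (s.coeff i)) → (aeval φ s)⁻¹ ∈ V) → V ∈ Set.range (Wof X)) :
    haveI := chart_isFractionRing (O := O) hφ
    haveI := chart_isNoetherianRing (O := O) hφ
    haveI := chart_isIntegrallyClosed (O := O) hφ
    ∀ m ∈ excSet X ϖ φ g, ∀ V ∈ Br (F := F) m,
      (¬ ∃ v : Place K F, v.toValuationSubring = V) → V = X.W₂₀ ∨ V = X.W₁₁ ∨ V = X.W₀₂ := by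
  haveI := chart_isFractionRing (O := O) hφ
  haveI := chart_isNoetherianRing (O := O) hφ
  haveI := chart_isIntegrallyClosed (O := O) hφ
  intro m _ V hV hnot
  obtain ⟨w, rfl⟩ := mem_range_of_mem_Br_chart (Wof X) hϖ hφ hgauss hvert m V hV hnot
  cases w
  · exact Or.inl rfl
  · exact Or.inr (Or.inl rfl)
  · exact Or.inr (Or.inr rfl)

/-- the places of `D.S` are finitely many when `X.S` is finite -/
theorem finite_S_of_dict (X : Datum k κ F' F Pt) {A : Type*} [CommRing A] (ℬ : Subring κ)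
    (D : TDatum A₁ A ↥ℬ)
    (hdict : ∀ n : Ideal ↥ℬ, n.IsMaximal → n ∈ D.S →
      ∃ b ∈ X.S, ∀ z : ↥ℬ, z ∈ n ↔ X.E.val b (z : κ) 0)
    (hXS : X.S.Finite) : {n : Ideal ↥ℬ | n.IsMaximal ∧ n ∈ D.S}.Finite := by
  refine Set.Finite.of_finite_image (f := fun n : Ideal ↥ℬ => (n : Set ↥ℬ)) ?_
    (fun a _ b _ h => SetLike.coe_injective h)
  refine (hXS.image (fun b => {z : ↥ℬ | X.E.val b (z : κ) 0})).subset ?_
  rintro _ ⟨n, ⟨hn, hnS⟩, rfl⟩
  obtain ⟨b, hb, hbn⟩ := hdict n hn hnS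
  refine ⟨b, hb, ?_⟩
  ext z
  exact (hbn z).symm

/-- **the exceptional set is finite** -/
theorem excSet_finite (X : Datum k κ F' F Pt)
    (hr : ∀ (w : Comp) (x : ↥(Wof X w)), rof X w x = 0 ↔ (Wof X w).valuation (x : F) < 1)
    (ℬ : Subring κ) [IsNoetherianRing ↥ℬ] [Ring.DimensionLEOne ↥ℬ]
    (D : TDatum A₁ ↥(chart O φ).toSubring ↥ℬ)
    (hle : ∀ w : Comp, (chart O φ).toSubring ≤ (Wof X w).toSubring)
    (hcompat : ∀ (w : Comp) (a : ↥(chart O φ).toSubring),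
      ((rD D.toPDatum w a : ↥ℬ) : κ) = rof X w ⟨(a : F), hle w a.2⟩)
    (hDϖ : ((D.ϖ : ↥(chart O φ).toSubring) : F) = algebraMap O F ϖ)
    (hDS : {n : Ideal ↥ℬ | n.IsMaximal ∧ n ∈ D.S}.Finite)
    (g : chart O φ) (hgW : ∀ w : Comp, ¬ (Wof X w).valuation (g : F) < 1) :
    (excSet X ϖ φ g).Finite := by
  have hne : ∀ w : Comp, rD D.toPDatum w g ≠ 0 := by
    intro w h0
    apply hgW w
    rw [← hr w ⟨(g : F), hle w g.2⟩, ← hcompat w g, h0]
    rfl
  have hker : ∀ (w : Comp) (a : ↥(chart O φ).toSubring), rD D.toPDatum w a = 0 →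
      (a : F) ∈ (Wof X w).nonunits := by
    intro w a h0
    rw [ValuationSubring.mem_nonunits_iff]
    rw [← hr w ⟨(a : F), hle w a.2⟩, ← hcompat w a, h0]
    rfl
  have hϖeq : (D.ϖ : ↥(chart O φ).toSubring) = piChart φ ϖ :=
    Subtype.ext (hDϖ.trans (coe_piChart φ ϖ).symm)
  have h1 := CommonGenPoints.finite_maximal_pdatum D.toPDatum (h := g) (hne Comp.c20)
    (hne Comp.c11) (hne Comp.c02)
  refine (h1.union (hDS.image (fun n => D.x20 n))).subset ?_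
  rintro x ⟨hx, hϖx, hg | ht⟩
  · exact Or.inl ⟨hx, hϖeq ▸ hϖx, hg⟩
  · right
    have h20 : RingHom.ker D.r20 ≤ x := fun a ha =>
      ht Comp.c20 a (hker Comp.c20 a ((RingHom.mem_ker).1 ha))
    have h11 : RingHom.ker D.r11 ≤ x := fun a ha =>
      ht Comp.c11 a (hker Comp.c11 a ((RingHom.mem_ker).1 ha))
    obtain ⟨n, hn, hnS, hxn, -, -⟩ := D.exists_mem_S_of_two_le x hx (Or.inl ⟨h20, h11⟩)
    exact ⟨n, ⟨hn, hnS⟩, hxn.symm⟩

end Sets

/-! ### The `t₀`-block of `NewInertiaCharts.Leaf` -/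

section Block

set_option synthInstance.maxHeartbeats 400000

open IsLocalRing ModularCurve
open Fermat.Agent.S37.Deuring.Core Fermat.Agent.S37.Gauss.Datum
open Fermat.Agent.S34.CoreZX0Assembly Fermat.Agent.S34.CoreZX0Build
open Fermat.Agent.S35.LevelMaps Fermat.Agent.S35.PushKummer
open Fermat.Agent.S36.RegOfPoles Fermat.Agent.S36.GlueLevelQ Fermat.Agent.S36.RegFinal

local notation "Kb" => AlgebraicClosure ℚ

local instance instNeZeroMulLS (M q : ℕ) [NeZero M] [NeZero q] : NeZero (M * q) :=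
  ⟨Nat.mul_ne_zero (NeZero.ne M) (NeZero.ne q)⟩

variable {q : ℕ} [hq : Fact q.Prime] {M : ℕ} [NeZero M] {A : ValuationSubring Kb} [NeZero q]
variable {hA : A.LiesOverPrime q} {hqM : ¬ q ∣ M}
variable {gL gk : ℕ} {H : Hyp (gaussDatum M A hA hqM) gL gk}
variable [CharP (ResidueField ↥A) q]

variable {O : Type*} [CommRing O] [IsDomain O] [IsDiscreteValuationRing O] {K : Type*} [Field K]
  [Algebra O K] [IsFractionRing O K] [CharZero K] {F : Type*} [Field F] [Algebra K F]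
  [Algebra O F] [IsScalarTower O K F]
  {k κ Pt : Type*} [Field k] [Field κ] [Algebra k κ]
  {A₁ A₁' : Type*} [CommRing A₁] [CommRing A₁'] {ι ι' : Type*}

open Fermat.Agent.S36.NewInertiaCharts

set_option maxHeartbeats 1600000 in
set_option synthInstance.maxHeartbeats 400000 in
/-- **the `t₀`-block of `NewInertiaCharts.Leaf`**: `RegT0.exists_t0` at the exceptional sets
`S₁ = excSet D ϖ φ gfin`, `S₂ = excSet D ϖ φ⁻¹ ginf` composed with `LeafT0.t0_fields`. -/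
theorem exists_t0_fields [IsAlgClosed (ResidueField O)] {X : Inputs hA hqM H} (Y : NodesC X)
    (τ : F →+* E (M * q * q)) (D : Datum k κ (E (M * q)) F Pt)
    (π : O →+* k) {n₀ : ℕ} (hE : ValGood D.E n₀)
    (hr : ∀ (w : Comp) (x : ↥(Wof D w)), rof D w x = 0 ↔ (Wof D w).valuation (x : F) < 1)
    (hπ : ∀ (w : Comp) (x : O) (m : algebraMap O F x ∈ Wof D w),
      rof D w ⟨algebraMap O F x, m⟩ = algebraMap k κ (π x))
    (V : VCharts O K F Comp ι ι') (hW : V.W = Wof D) {ϖ : O} (hVϖ : V.ϖ = ϖ) {φ : F}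
    (hVφ : V.φ = φ) (hϖ : Irreducible ϖ) (hφ : Transcendental K φ)
    (hφ' : Transcendental K φ⁻¹) [FiniteDimensional K⟮φ⟯ F] [FiniteDimensional K⟮φ⁻¹⟯ F]
    (hgauss : ∀ w, IsGaussVert ϖ φ (Wof D w)) (hgauss' : ∀ w, IsGaussVert ϖ φ⁻¹ (Wof D w))
    (hvert : ∀ W : ValuationSubring F, (∀ c : O, algebraMap O F c ∈ W) → φ ∈ W →
      (algebraMap O F ϖ)⁻¹ ∉ W →
      (∀ s : O[X], (∃ i, IsUnit (s.coeff i)) → (aeval φ s)⁻¹ ∈ W) → W ∈ Set.range (Wof D))
    (hvert' : ∀ W : ValuationSubring F, (∀ c : O, algebraMap O F c ∈ W) → φ⁻¹ ∈ W →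
      (algebraMap O F ϖ)⁻¹ ∉ W →
      (∀ s : O[X], (∃ i, IsUnit (s.coeff i)) → (aeval φ⁻¹ s)⁻¹ ∈ W) → W ∈ Set.range (Wof D))
    (hϖq : algebraMap O F ϖ = ((q : ℕ) : F))
    -- (R3): the chart hypotheses and the identifications of `Reg`, `N₁`, `N₂`
    {gfin : chart O φ} {ginf : chart O φ⁻¹}
    (hC : haveI := chart_isFractionRing (O := O) hφ
      haveI := chart_isFractionRing (O := O) hφ'
      ChartHyp X τ (chart O φ) (chart O φ⁻¹) gfin ginf)
    (hgfin : ∀ w : Comp, ¬ (Wof D w).valuation (gfin : F) < 1)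
    (hginf : ∀ w : Comp, ¬ (Wof D w).valuation (ginf : F) < 1)
    (hReg : D.Reg = RegX0 X Y)
    (hN₁ : ∀ y : F, D.N₁ y = normAlong (heckeAlphaBar Kb (M * q) q) (τ y))
    (hN₂ : ∀ y : F, D.N₂ y = normAlong (heckeBetaBar Kb (M * q) q) (τ y))
    {n : ℕ} (hn : n ≠ 0) (Z : D.Kummer n)
    (D0 : Place K F → ℤ) (hD0 : {v : Place K F | D0 v ≠ 0}.Finite)
    (hf : ∀ v : Place K F, v.ord Z.f = (n : ℤ) * D0 v)
    -- (V12): every closed point of the special fibre of the two charts is locally principal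
    (hloc : haveI := chart_isFractionRing (O := O) hφ
      haveI := chart_isNoetherianRing (O := O) hφ
      haveI := chart_isIntegrallyClosed (O := O) hφ
      ∀ m : Ideal (chart O φ), m.IsMaximal → piChart φ ϖ ∈ m →
        LocalGenCore.LocPrincipal (F := F) m)
    (hloc' : haveI := chart_isFractionRing (O := O) hφ'
      haveI := chart_isNoetherianRing (O := O) hφ'
      haveI := chart_isIntegrallyClosed (O := O) hφ'
      ∀ m : Ideal (chart O φ⁻¹), m.IsMaximal → piChart φ⁻¹ ϖ ∈ m →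
        LocalGenCore.LocPrincipal (F := F) m)
    (hXS : D.S.Finite)
    -- the chart `{φ ≠ ∞}`
    (𝒜 : Subring F) (h𝒜 : 𝒜 = (chart O φ).toSubring) (ℬ : Subring κ)
    [IsNoetherianRing ↥ℬ] [Ring.DimensionLEOne ↥ℬ] (DT : TDatum A₁ ↥𝒜 ↥ℬ)
    (hle : ∀ w : Comp, 𝒜 ≤ (Wof D w).toSubring)
    (hcompat : ∀ (w : Comp) (a : ↥𝒜),
      ((rD DT.toPDatum w a : ↥ℬ) : κ) = rof D w ⟨(a : F), hle w a.2⟩)
    (hdict : ∀ n : Ideal ↥ℬ, n.IsMaximal → n ∈ DT.S →
      ∃ b ∈ D.S, ∀ z : ↥ℬ, z ∈ n ↔ D.E.val b (z : κ) 0)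
    (hconv : ∀ b ∈ D.S, ∃ n : Ideal ↥ℬ, n.IsMaximal ∧ n ∈ DT.S ∧
      ∀ z : ↥ℬ, z ∈ n ↔ D.E.val b (z : κ) 0)
    (hne : ∃ n : Ideal ↥ℬ, n.IsMaximal ∧ n ∈ DT.S)
    (hDϖ : ((DT.ϖ : ↥𝒜) : F) = algebraMap O F ϖ)
    -- the chart `{φ ≠ 0}`
    (𝒜' : Subring F) (h𝒜' : 𝒜' = (chart O φ⁻¹).toSubring) (ℬ' : Subring κ)
    [IsNoetherianRing ↥ℬ'] [Ring.DimensionLEOne ↥ℬ'] (DT' : TDatum A₁' ↥𝒜' ↥ℬ')
    (hle' : ∀ w : Comp, 𝒜' ≤ (Wof D w).toSubring)
    (hcompat' : ∀ (w : Comp) (a : ↥𝒜'),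
      ((rD DT'.toPDatum w a : ↥ℬ') : κ) = rof D w ⟨(a : F), hle' w a.2⟩)
    (hdict' : ∀ n : Ideal ↥ℬ', n.IsMaximal → n ∈ DT'.S →
      ∃ b ∈ D.S, ∀ z : ↥ℬ', z ∈ n ↔ D.E.val b (z : κ) 0)
    (hDϖ' : ((DT'.ϖ : ↥𝒜') : F) = algebraMap O F ϖ)
    -- the pieces of the two covers
    {Dv : Place K F → ℤ} {e : ℕ}
    (hD : ∀ v, Dv v = (e : ℤ) * (((D.q - 1 : ℕ) : ℤ) * D0 v))
    (hpieces : haveI := chart_isFractionRing (O := O) hφ
      haveI := chart_isNoetherianRing (O := O) hφ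
      haveI := chart_isIntegrallyClosed (O := O) hφ
      ∃ g₀ : ι → chart O φ, ∀ i, (V.g i : F) = (g₀ i : F) ∧ IsPiece (nOf Dv) (g₀ i) (V.s i))
    (hpieces' : haveI := chart_isFractionRing (O := O) hφ'
      haveI := chart_isNoetherianRing (O := O) hφ'
      haveI := chart_isIntegrallyClosed (O := O) hφ'
      ∃ g₀' : ι' → chart O φ⁻¹, ∀ j, (V.g' j : F) = (g₀' j : F) ∧
        IsPiece (nOf Dv) (g₀' j) (V.s' j)) :
    ∃ t₀ : F, t₀ ≠ 0 ∧
      D.Reg (Z.g₁ ^ (D.q - 1) * D.N₁ t₀) ∧ D.Reg (Z.g₂ ^ (D.q - 1) * D.N₂ t₀) ∧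
      (t₀ ∈ D.W₂₀ ∧ t₀ ∈ D.W₁₁ ∧ t₀ ∈ D.W₀₂) ∧
      (∀ b ∈ D.S, ∃ c : k, c ≠ 0 ∧
        (∀ m, D.E.val b (D.r₂₀ ⟨Z.f ^ (D.q - 1) * t₀ ^ n, m⟩) c) ∧
        (∀ m, D.E.val b (D.r₁₁ ⟨Z.f ^ (D.q - 1) * t₀ ^ n, m⟩) c) ∧
        (∀ m, D.E.val b (D.r₀₂ ⟨Z.f ^ (D.q - 1) * t₀ ^ n, m⟩) c)) ∧
      (∀ i : ι, PtCond D V.charts.ϖF (V.charts.S i) (V.charts.algebraMap_mem_S i V.charts.ϖ)
        (V.s i) (t₀ ^ e)) ∧
      (∀ j : ι', PtCond D V.charts.ϖF (V.charts.S' j)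
        (V.charts.algebraMap_mem_S' j V.charts.ϖ) (V.s' j) (t₀ ^ e)) := by
  haveI := chart_isFractionRing (O := O) hφ
  haveI := chart_isNoetherianRing (O := O) hφ
  haveI := chart_isIntegrallyClosed (O := O) hφ
  haveI := chart_isFractionRing (O := O) hφ'
  haveI := chart_isNoetherianRing (O := O) hφ'
  haveI := chart_isIntegrallyClosed (O := O) hφ'
  haveI : FiniteDimensional K⟮φ⁻¹⁻¹⟯ F := by rw [inv_inv]; infer_instance
  haveI : Infinite (ResidueField O) := IsAlgClosed.instInfinite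
  subst h𝒜 h𝒜'
  -- the Kummer function is a unit of the three `W`
  have hfval : ∀ w : Comp, (Wof D w).valuation Z.f = 1 := by
    intro w
    have hmem : Z.f ∈ Wof D w := by
      cases w
      · exact Z.f₂₀
      · exact Z.f₁₁
      · exact Z.f₀₂
    refine le_antisymm (((Wof D w).valuation_le_one_iff _).mpr hmem) (not_lt.mp fun hlt => ?_)
    have h0 := (hr w ⟨Z.f, hmem⟩).mpr hlt
    cases w
    · exact Z.r₂₀_ne h0
    · exact Z.r₁₁_ne h0
    · exact Z.r₀₂_ne h0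
  have hf0 : Z.f ≠ 0 := by
    intro h0
    have := hfval Comp.c20
    rw [h0, map_zero] at this
    exact zero_ne_one this
  have hfW : ∀ w, Z.f ∈ Wof D w ∧ Z.f⁻¹ ∈ Wof D w := by
    intro w
    refine ⟨((Wof D w).valuation_le_one_iff _).mp (hfval w).le, ?_⟩
    rw [← (Wof D w).valuation_le_one_iff, map_inv₀, hfval w, inv_one]
  -- the two exceptional sets
  have hS₁fin : (excSet D ϖ φ gfin).Finite :=
    excSet_finite D hr ℬ DT hle hcompat hDϖ (finite_S_of_dict D ℬ DT hdict hXS) gfin hgfin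
  have hS₂fin : (excSet D ϖ φ⁻¹ ginf).Finite :=
    excSet_finite D hr ℬ' DT' hle' hcompat' hDϖ' (finite_S_of_dict D ℬ' DT' hdict' hXS) ginf
      hginf
  have hqϖ : ∀ ψ : F, ((q : ℕ) : chart O ψ) = piChart ψ ϖ := fun ψ =>
    Subtype.ext (by rw [coe_piChart, hϖq]; simp)
  obtain ⟨t₀, ht₀0, h₁, h₂, hR₁, hR₂⟩ := RegT0.exists_t0 (O := O) (K := K) Y τ hφ
    (A₁ := chart O φ) (A₂ := chart O φ⁻¹)
    (fun x => ⟨fun ⟨a, ha⟩ => ha ▸ a.2, fun hx => ⟨⟨x, hx⟩, rfl⟩⟩)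
    (fun x => ⟨fun ⟨a, ha⟩ => ha ▸ a.2, fun hx => ⟨⟨x, hx⟩, rfl⟩⟩)
    hC D hReg hN₁ hN₂ hn Z D0 hD0 hf
    (excSet D ϖ φ gfin) hS₁fin (fun m hm => hm.1) (hconst_excSet hϖ hφ)
    (hloc_excSet hφ hloc)
    (fun m hm hqm hg => mem_excSet_of_mem hm (hqϖ φ ▸ hqm) hg)
    (hvert_excSet hϖ hφ hgauss hvert)
    (excSet D ϖ φ⁻¹ ginf) hS₂fin (fun m hm => hm.1) (hconst_excSet hϖ hφ')
    (hloc_excSet hφ' hloc')
    (fun m hm hqm hg => mem_excSet_of_mem hm (hqϖ φ⁻¹ ▸ hqm) hg)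
    (hvert_excSet hϖ hφ' hgauss' hvert')
  refine ⟨t₀, ht₀0, hR₁, hR₂, ?_⟩
  exact t0_fields D π hE hr hπ V hW hVϖ hVφ hϖ hφ hφ' hgauss hvert hvert'
    _ rfl ℬ DT hle hcompat hdict hconv hne _ rfl ℬ' DT' hle' hcompat' hdict'
    (D₁ := fun v => ((D.q - 1 : ℕ) : ℤ) * D0 v) hD hpieces hpieces' (ef := D.q - 1) hf0
    (fun v => by rw [hf v]; ring) hfW ht₀0
    (excSet D ϖ φ gfin) h₁ (fun m hm ht => mem_excSet_of_triple hgauss hm ht)
    (excSet D ϖ φ⁻¹ ginf) h₂ (fun m hm ht => mem_excSet_of_triple hgauss' hm ht)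

end Block

end Fermat.Agent.S36.LeafT0Sets
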