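/-
PROJECT V (S36), chain (V8) -> (V17) ADAPTER (helper26): **the fields `br`, `br'` of
`NewInertiaCharts.Leaf`** (`∀ i, OpenLift.BranchRings W r (C.S i) n`, `∀ j, … (C.S' j) n`) from the
surjectivity statements of `S36/CompNormal` / `S36/CompNormalX0`.

* `branchRings_awaySubring` : for ANY subring `𝒜 ≤ F` whose reductions `r_w(𝒜) = B w` are of
  dimension `≤ 1` and integrally closed in `κ` (only the `w` with `𝒜 ≤ W w` matter);
* `branchRings_chart` : for `𝒜 = (chart O φ).toSubring` (as an EQUALITY of subrings, e.g.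
  `Lattice.VCharts.coe_charts_𝒜`) from the lifting property `hlift` of `CompNormal.rho_surjective`;
* `branchRings_S`, `branchRings_S'` : for the opens of a `SoftCore.Charts`;
* `branchRings_S_of_branch`, `branchRings_S'_of_branch` : at `X₀`, from
  `CompNormalX0.Branch Y O π (W w) (r w) a i₀` for every `w` (`φ = x₂ = ∏ jL`).
-/
import Mathlib
import Fermat.Agent.S36.OpenLift
import Fermat.Agent.S36.FormalLift.SoftCore
import Fermat.Agent.S36.CompNormalX0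

set_option autoImplicit false
set_option linter.unusedSectionVars false
set_option linter.unusedVariables false
set_option linter.style.haveILetI false

namespace Fermat.Agent.S36.BranchRingsCharts

open Fermat.Agent.S36.ChartRing Fermat.Agent.S36.CompNormal Fermat.Agent.S36.CompNormalAway
open Fermat.Agent.S36.FormalLift Fermat.Agent.S36.OpenLift Fermat.Agent.S36.SoftCore

variable {F : Type*} [Field F] {κ : Type*} [Field κ] {𝒲 : Type*}

/-- the range of the reduction only depends on the subring -/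
theorem range_comp_inclusion_congr {𝒜 𝒜' : Subring F} (h : 𝒜 = 𝒜') (W : ValuationSubring F)
    (r : ↥W →+* κ) (h1 : 𝒜 ≤ W.toSubring) (h2 : 𝒜' ≤ W.toSubring) :
    (r.comp (Subring.inclusion h1)).range = (r.comp (Subring.inclusion h2)).range := by
  subst h
  rfl

/-- **`BranchRings` for `𝒜[1/g]`**, any subring `𝒜` -/
theorem branchRings_awaySubring (W : 𝒲 → ValuationSubring F) (r : ∀ w, ↥(W w) →+* κ)
    (𝒜 : Subring F) (B : 𝒲 → Subring κ)
    (hB : ∀ w (h : 𝒜 ≤ (W w).toSubring), ((r w).comp (Subring.inclusion h)).range = B w)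
    (hdim : ∀ w, 𝒜 ≤ (W w).toSubring → Ring.DimensionLEOne ↥(B w))
    (hic : ∀ w, 𝒜 ≤ (W w).toSubring → ∀ z : κ, IsIntegral ↥(B w) z → z ∈ B w)
    {g : F} (hg : g ∈ 𝒜) (hg0 : g ≠ 0) {n : ℕ} (hn : n ≠ 0) :
    BranchRings W r (awaySubring 𝒜 g hg) n where
  dim w h := by
    have h𝒜 : 𝒜 ≤ (W w).toSubring := (le_awaySubring 𝒜 g hg).trans h
    haveI := hdim w h𝒜
    exact dimensionLEOne_range_awaySubring (W w) (r w) 𝒜 hg h hg0 (B w) (hB w _)
  root w h z hz :=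
    root_mem_range_awaySubring (W w) (r w) 𝒜 hg h hg0 (B w) (hB w _)
      (hic w ((le_awaySubring 𝒜 g hg).trans h)) hn hz

section Chart

variable {O : Type*} [CommRing O] [Algebra O F] {k : Type*} [Field k] [Algebra k κ]

/-- **`BranchRings` for `D(g)` in a chart ring** `𝒜 = (chart O φ).toSubring` -/
theorem branchRings_chart (π : O →+* k) (W : 𝒲 → ValuationSubring F) (r : ∀ w, ↥(W w) →+* κ)
    {φ : F} (J : 𝒲 → κ)
    (hO : ∀ w (c : O), algebraMap O F c ∈ W w)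
    (hr : ∀ w (c : O), r w ⟨algebraMap O F c, hO w c⟩ = algebraMap k κ (π c))
    (hφ : ∀ w, φ ∈ W w) (hJ : ∀ w, r w ⟨φ, hφ w⟩ ∈ chart k (J w))
    (hlift : ∀ w, ∀ b ∈ (chart k (J w) : Set κ),
      ∃ x : F, x ∈ chart O φ ∧ ∃ hx : x ∈ W w, r w ⟨x, hx⟩ = b)
    (𝒜 : Subring F) (h𝒜 : 𝒜 = (chart O φ).toSubring) {g : F} (hg : g ∈ 𝒜) (hg0 : g ≠ 0)
    {n : ℕ} (hn : n ≠ 0) : BranchRings W r (awaySubring 𝒜 g hg) n := by
  refine branchRings_awaySubring W r 𝒜 (fun w => (chart k (J w)).toSubring) (fun w h => ?_)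
    (fun w _ => dimensionLEOne_chart k (J w))
    (fun w _ z hz => mem_chart_of_isIntegral_chart k hz) hg hg0 hn
  rw [range_comp_inclusion_congr h𝒜 (W w) (r w) h (chart_le (W w) (hO w) (hφ w))]
  exact range_chart π (W w) (r w) (hO w) (hr w) (hφ w) (hJ w) (hlift w)

variable {ι ι' : Type*}

/-- **the field `br` of `NewInertiaCharts.Leaf`** -/
theorem branchRings_S (C : Charts O F ι ι') (π : O →+* k) (W : 𝒲 → ValuationSubring F)
    (r : ∀ w, ↥(W w) →+* κ) {φ : F} (J : 𝒲 → κ)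
    (hO : ∀ w (c : O), algebraMap O F c ∈ W w)
    (hr : ∀ w (c : O), r w ⟨algebraMap O F c, hO w c⟩ = algebraMap k κ (π c))
    (hφ : ∀ w, φ ∈ W w) (hJ : ∀ w, r w ⟨φ, hφ w⟩ ∈ chart k (J w))
    (hlift : ∀ w, ∀ b ∈ (chart k (J w) : Set κ),
      ∃ x : F, x ∈ chart O φ ∧ ∃ hx : x ∈ W w, r w ⟨x, hx⟩ = b)
    (h𝒜 : C.𝒜 = (chart O φ).toSubring) (hg0 : ∀ i, ((C.g i : ↥C.𝒜) : F) ≠ 0)
    {n : ℕ} (hn : n ≠ 0) (i : ι) : BranchRings W r (C.S i) n :=
  branchRings_chart π W r J hO hr hφ hJ hlift C.𝒜 h𝒜 (C.g i).2 (hg0 i) hn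

/-- **the field `br'` of `NewInertiaCharts.Leaf`** (`φ'` is the chart function of `U'`, i.e.
`C.φ⁻¹`) -/
theorem branchRings_S' (C : Charts O F ι ι') (π : O →+* k) (W : 𝒲 → ValuationSubring F)
    (r : ∀ w, ↥(W w) →+* κ) {φ' : F} (J' : 𝒲 → κ)
    (hO : ∀ w (c : O), algebraMap O F c ∈ W w)
    (hr : ∀ w (c : O), r w ⟨algebraMap O F c, hO w c⟩ = algebraMap k κ (π c))
    (hφ : ∀ w, φ' ∈ W w) (hJ : ∀ w, r w ⟨φ', hφ w⟩ ∈ chart k (J' w))
    (hlift : ∀ w, ∀ b ∈ (chart k (J' w) : Set κ),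
      ∃ x : F, x ∈ chart O φ' ∧ ∃ hx : x ∈ W w, r w ⟨x, hx⟩ = b)
    (h𝒜' : C.𝒜' = (chart O φ').toSubring) (hg0' : ∀ j, ((C.g' j : ↥C.𝒜') : F) ≠ 0)
    {n : ℕ} (hn : n ≠ 0) (j : ι') : BranchRings W r (C.S' j) n :=
  branchRings_chart π W r J' hO hr hφ hJ hlift C.𝒜' h𝒜' (C.g' j).2 (hg0' j) hn

end Chart

/-! ### at `X₀` -/

section X0

open Fermat.Agent.S36.PowerBasisK0 Fermat.Agent.S36.CompNormalX0

local notation "Kb" => AlgebraicClosure ℚ

variable {H : Subgroup (Kb ≃ₐ[ℚ] Kb)}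
variable {N0 q : ℕ} [NeZero N0] [NeZero q] [NeZero (N0 * q)] [NeZero (N0 * q * q)]
variable {κ' : Type} [Field κ'] {Y : ThreeValX0.Hyp H N0 q κ'}
variable {O : Type*} [CommRing O] [Algebra O (FK H N0)] [Algebra O (FK H (N0 * q))]
  [Algebra O (FK H (N0 * q * q))]
variable {k : Type*} [Field k] [Algebra k κ'] {π : O →+* k} {ι ι' : Type*}

/-- **`Leaf.br` at `X₀`**: every vertical valuation ring of the family is a `CompNormalX0.Branch` -/
theorem branchRings_S_of_branch (C : Charts O (FK H (N0 * q * q)) ι ι')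
    (W : 𝒲 → ValuationSubring (FK H (N0 * q * q))) (r : ∀ w, ↥(W w) →+* κ')
    (hB : ∀ w, ∃ a i₀, Branch Y O π (W w) (r w) a i₀)
    (h𝒜 : C.𝒜 = (chart O (x2 H N0 q)).toSubring)
    (hg0 : ∀ i, ((C.g i : ↥C.𝒜) : FK H (N0 * q * q)) ≠ 0)
    {n : ℕ} (hn : n ≠ 0) (i : ι) : BranchRings W r (C.S i) n := by
  choose a i₀ B using hB
  exact branchRings_S C π W r (fun _ => Y.J) (fun w => (B w).algebraMap_mem)
    (fun w => (B w).r_algebraMap) (fun w => (B w).x2_mem) (fun w => (B w).r_x2_mem_chart)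
    (fun w => (B w).hlift) h𝒜 hg0 hn i

/-- **`Leaf.br'` at `X₀`** -/
theorem branchRings_S'_of_branch (C : Charts O (FK H (N0 * q * q)) ι ι')
    (W : 𝒲 → ValuationSubring (FK H (N0 * q * q))) (r : ∀ w, ↥(W w) →+* κ')
    (hB : ∀ w, ∃ a i₀, Branch Y O π (W w) (r w) a i₀)
    (h𝒜' : C.𝒜' = (chart O (x2 H N0 q)⁻¹).toSubring)
    (hg0' : ∀ j, ((C.g' j : ↥C.𝒜') : FK H (N0 * q * q)) ≠ 0)
    {n : ℕ} (hn : n ≠ 0) (j : ι') : BranchRings W r (C.S' j) n := by
  choose a i₀ B using hB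
  exact branchRings_S' C π W r (fun _ => Y.J⁻¹) (fun w => (B w).algebraMap_mem)
    (fun w => (B w).r_algebraMap) (fun w => (B w).x2_inv_mem)
    (fun w => (B w).r_x2_inv_mem_chart) (fun w => (B w).hlift_inv) h𝒜' hg0' hn j

end X0

end Fermat.Agent.S36.BranchRingsCharts
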