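/-
PROJECT V (S36), slice V-EvalCentre (helper10): **the evaluation point of a composite valuation
ring on a chart** - the abstract half of (R3)/(SD3) ("a pole of `f t₀ⁿ` has a good `j`-value").

Setting: `A` a domain with fraction field `F` (a chart ring), `V ≤ v` two valuation subrings of `F`
containing `A`.  At `X₀`: `v` is the `K0`-place under a `ℚ̄`-place `w` and `V` is the composite
ring `{g | g has a value in the valuation ring of ℚ̄ at w}` (pulled back to the `K0`-form), whose
residue field is the residue field `k` of the small discrete valuation ring `O`.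

* `centre_le_of_le` : centres are antitone, `centre v ≤ centre V`.
* `mem_of_centre_le`, `mem_of_le_of_mem_locSubring` : `u ∈ A_x`, `centre v ≤ x` ⟹ `u ∈ v`
  ("a function regular at the closed point `x` has no pole at a place specialising to `x`").
* `centre_isMaximal` : if the residue field of `V` is that of the local ring `O` (every element of
  `A` is congruent to a constant modulo `𝔪_V`), then `centre V` is a MAXIMAL ideal of `A`
  (the evaluation point); `mem_nonunits_comap` to pull composite rings back along `toE`.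
* `prod_sub_mem_centre` : `G(a) ∈ centre V` as soon as the value of `a` reduces to a root of `G`.
* `finite_maximal_of_detects`, `finite_maximal_of_isDedekindDomain` : the closed points of
  `V(π, h)` are finitely many, from surjections onto branch rings detecting `π`.
* `mem_of_forall_mem_locSubring` : **the contrapositive consumed by `RegOfPoles`**: if `u ∈ A_x` for
  every closed point `x` of `V(π, h)` then `u ∈ v` for every `v ≥ V` with `π, h ∈ 𝔪_V`.
-/
import Mathlib
import Fermat.Agent.S36.CentreCore

set_option autoImplicit false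
set_option linter.unusedSectionVars false
set_option linter.unusedVariables false

noncomputable section

namespace Fermat.Agent.S36.EvalCentre

open Fermat.Agent.S36.KrullInter Fermat.Agent.S36.CentreCore

variable {A : Type*} [CommRing A] [IsDomain A] {F : Type*} [Field F] [Algebra A F]
  [IsFractionRing A F]

local notation "ι" => algebraMap A F

/-! ### Centres are antitone; regular at the point ⟹ regular at the place -/

/-- A bigger valuation subring has a smaller centre. -/
theorem centre_le_of_le {V v : ValuationSubring F} (hle : V ≤ v) (hV : ∀ a : A, ι a ∈ V) :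
    centre v (fun a => hle (hV a)) ≤ centre V hV := by
  intro a ha
  by_cases ha0 : a = 0
  · rw [ha0]; exact (centre V hV).zero_mem
  rw [mem_centre_iff ha0] at ha ⊢
  exact fun h => ha (hle h)

/-- An element of `A_x` lies in every valuation subring whose centre is contained in `x`. -/
theorem mem_of_centre_le (v : ValuationSubring F) (hv : ∀ a : A, ι a ∈ v) (x : Ideal A)
    [hx : x.IsPrime] (hle : centre v hv ≤ x) {u : F} (hu : u ∈ locSubring (F := F) x) :
    u ∈ v := by
  obtain ⟨s, hs, a, ha⟩ := hu
  have hs' : s ∉ centre v hv := fun h => hs (hle h)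
  obtain ⟨hs0, hsinv⟩ := not_mem_centre_iff.1 hs'
  have : u = (ι s)⁻¹ * ι a := by
    rw [← ha, ← mul_assoc, inv_mul_cancel₀ (algebraMap_ne_zero' hs0), one_mul]
  rw [this]
  exact v.mul_mem _ _ hsinv (hv a)

/-- `u ∈ A_(centre V)` and `V ≤ v` ⟹ `u ∈ v`. -/
theorem mem_of_le_of_mem_locSubring {V v : ValuationSubring F} (hle : V ≤ v)
    (hV : ∀ a : A, ι a ∈ V) {u : F} (hu : u ∈ locSubring (F := F) (centre V hV)) : u ∈ v :=
  mem_of_centre_le v (fun a => hle (hV a)) (centre V hV) (centre_le_of_le hle hV) hu

/-- Non-units of a pulled-back valuation subring. -/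
theorem mem_nonunits_comap {E : Type*} [Field E] (f : F →+* E) (V : ValuationSubring E) (x : F) :
    x ∈ (V.comap f).nonunits ↔ f x ∈ V.nonunits := by
  rw [ValuationSubring.mem_nonunits_iff_or, ValuationSubring.mem_nonunits_iff_or,
    ValuationSubring.mem_comap, map_inv₀, map_eq_zero]

/-! ### The evaluation point is a closed point -/

section Residue

variable {O : Type*} [CommRing O] [IsLocalRing O] (c : O →+* A)

/-- If every element of `A` is congruent modulo `centre V` to a constant from the local ring `O`,
whose maximal ideal lands in `centre V`, then `centre V` is a maximal ideal. -/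
theorem centre_isMaximal (V : ValuationSubring F) (hV : ∀ a : A, ι a ∈ V)
    (hm : ∀ z ∈ IsLocalRing.maximalIdeal O, c z ∈ centre V hV)
    (hres : ∀ a : A, ∃ z : O, a - c z ∈ centre V hV) : (centre V hV).IsMaximal := by
  rw [Ideal.isMaximal_iff]
  refine ⟨fun h1 => (centre_isPrime V hV).ne_top ((Ideal.eq_top_iff_one _).2 h1), ?_⟩
  intro J a hle haP haJ
  obtain ⟨z, hz⟩ := hres a
  have hzu : IsUnit z := by
    by_contra hnu
    have h1 := hm z ((IsLocalRing.mem_maximalIdeal z).2 hnu)
    apply haP
    have : a = (a - c z) + c z := by ring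
    rw [this]
    exact Ideal.add_mem _ hz h1
  obtain ⟨z', hz'⟩ := hzu.exists_right_inv
  have : (1 : A) = a * c z' - (a - c z) * c z' := by
    rw [sub_mul, sub_sub_cancel, ← map_mul, hz', map_one]
  rw [this]
  exact J.sub_mem (J.mul_mem_right _ haJ) (J.mul_mem_right _ (hle hz))

/-- Valuation form of `centre_isMaximal`. -/
theorem centre_isMaximal' (V : ValuationSubring F) (hV : ∀ a : A, ι a ∈ V)
    (hm : ∀ z ∈ IsLocalRing.maximalIdeal O, ι (c z) ∈ V.nonunits)
    (hres : ∀ a : A, ∃ z : O, ι a - ι (c z) ∈ V.nonunits) : (centre V hV).IsMaximal := by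
  refine centre_isMaximal c V hV hm ?_
  intro a
  obtain ⟨z, hz⟩ := hres a
  refine ⟨z, ?_⟩
  rw [mem_centre, map_sub]
  exact hz

/-- `G(a) ∈ centre V` for `G = ∏ (X - γ i)` as soon as `a ≡ z` modulo `centre V` and
`z ≡ γ i` modulo `𝔪_O` for some `i`. -/
theorem prod_sub_mem_centre (V : ValuationSubring F) (hV : ∀ a : A, ι a ∈ V)
    (hm : ∀ z ∈ IsLocalRing.maximalIdeal O, c z ∈ centre V hV)
    {κ : Type*} (s : Finset κ) (γ : κ → O) (a : A) (z : O) (ha : a - c z ∈ centre V hV)
    {i : κ} (hi : i ∈ s) (hz : z - γ i ∈ IsLocalRing.maximalIdeal O) :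
    ∏ i ∈ s, (a - c (γ i)) ∈ centre V hV := by
  have h1 : a - c (γ i) ∈ centre V hV := by
    have : a - c (γ i) = (a - c z) + c (z - γ i) := by rw [map_sub]; ring
    rw [this]
    exact Ideal.add_mem _ ha (hm _ hz)
  exact Ideal.mem_of_dvd _ (Finset.dvd_prod_of_mem _ hi) h1

end Residue

/-! ### Finiteness of `V(π, h)` -/

section Finite

variable {R : Type*} [CommRing R]

/-- In a Dedekind domain a nonzero element lies in finitely many maximal ideals. -/
theorem finite_maximal_of_isDedekindDomain {B : Type*} [CommRing B] [IsDedekindDomain B] {b : B}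
    (hb : b ≠ 0) : {n : Ideal B | n.IsMaximal ∧ b ∈ n}.Finite := by
  have hI : Ideal.span {b} ≠ 0 := by
    rw [Ne, Ideal.zero_eq_bot, Ideal.span_singleton_eq_bot]
    exact hb
  refine ((Ideal.finite_factors hI).image
    (fun v : IsDedekindDomain.HeightOneSpectrum B => v.asIdeal)).subset ?_
  rintro n ⟨hn, hbn⟩
  have hn0 : n ≠ ⊥ := by
    rintro rfl
    exact hb (by simpa using hbn)
  refine ⟨⟨n, hn.isPrime, hn0⟩, ?_, rfl⟩
  show n ∣ Ideal.span {b}
  rw [Ideal.dvd_span_singleton]
  exact hbn

/-- **Finiteness of the bad set.**  If finitely many surjections `r i : R → B i` detect `π`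
(every prime containing `π` contains some `ker (r i)`) and `r i h` lies in finitely many maximal
ideals of `B i`, then `π` and `h` lie in finitely many common maximal ideals of `R`. -/
theorem finite_maximal_of_detects {J : Type*} [Finite J] {B : J → Type*} [∀ i, CommRing (B i)]
    (r : ∀ i, R →+* B i) (hsurj : ∀ i, Function.Surjective (r i)) (π h : R)
    (hdet : ∀ x : Ideal R, x.IsPrime → π ∈ x → ∃ i, RingHom.ker (r i) ≤ x)
    (hfin : ∀ i, {n : Ideal (B i) | n.IsMaximal ∧ r i h ∈ n}.Finite) :
    {x : Ideal R | x.IsMaximal ∧ π ∈ x ∧ h ∈ x}.Finite := by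
  refine (Set.finite_iUnion fun i => (hfin i).image (Ideal.comap (r i))).subset ?_
  rintro x ⟨hxm, hπ, hh⟩
  obtain ⟨i, hi⟩ := hdet x hxm.isPrime hπ
  have hcm : Ideal.comap (r i) (Ideal.map (r i) x) = x := by
    rw [Ideal.comap_map_of_surjective (r i) (hsurj i)]
    exact sup_eq_left.2 hi
  have hmax : (Ideal.map (r i) x).IsMaximal := by
    rcases Ideal.map_eq_top_or_isMaximal_of_surjective (r i) (hsurj i) hxm with h1 | h1
    · exfalso
      rw [h1, Ideal.comap_top] at hcm
      exact hxm.ne_top hcm.symm
    · exact h1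
  exact Set.mem_iUnion.2 ⟨i, Ideal.map (r i) x, ⟨hmax, Ideal.mem_map_of_mem _ hh⟩, hcm⟩

/-- The same with Dedekind branch rings and `r i h ≠ 0`. -/
theorem finite_maximal_of_detects_dedekind {J : Type*} [Finite J] {B : J → Type*}
    [∀ i, CommRing (B i)] [∀ i, IsDedekindDomain (B i)]
    (r : ∀ i, R →+* B i) (hsurj : ∀ i, Function.Surjective (r i)) (π h : R)
    (hdet : ∀ x : Ideal R, x.IsPrime → π ∈ x → ∃ i, RingHom.ker (r i) ≤ x)
    (hh : ∀ i, r i h ≠ 0) : {x : Ideal R | x.IsMaximal ∧ π ∈ x ∧ h ∈ x}.Finite :=
  finite_maximal_of_detects r hsurj π h hdet fun i => finite_maximal_of_isDedekindDomain (hh i)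

end Finite

/-! ### The contrapositive consumed by `RegOfPoles` -/

section Main

variable {O : Type*} [CommRing O] [IsLocalRing O] (c : O →+* A)

/-- **No pole outside the bad points.**  `T` contains every closed point of `V(π, h)` of the chart
`A`, and `u ∈ A_x` for all `x ∈ T`.  Let `V ≤ v` be valuation subrings of `F` containing `A` such
that the residue field of `V` is that of `O` and `π, h ∈ 𝔪_V` (the evaluation point of `V` is a bad
point).  Then `u ∈ v`. -/
theorem mem_of_forall_mem_locSubring (π h : A) (T : Set (Ideal A))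
    (hT : ∀ x : Ideal A, x.IsMaximal → π ∈ x → h ∈ x → x ∈ T) {u : F}
    (hu : ∀ (x : Ideal A) [hx : x.IsPrime], x ∈ T → u ∈ locSubring (F := F) x)
    {V v : ValuationSubring F} (hle : V ≤ v) (hV : ∀ a : A, ι a ∈ V)
    (hm : ∀ z ∈ IsLocalRing.maximalIdeal O, ι (c z) ∈ V.nonunits)
    (hres : ∀ a : A, ∃ z : O, ι a - ι (c z) ∈ V.nonunits)
    (hπ : ι π ∈ V.nonunits) (hh : ι h ∈ V.nonunits) : u ∈ v := by
  have hmax := centre_isMaximal' c V hV hm hres
  exact mem_of_le_of_mem_locSubring hle hV (hu (centre V hV) (hT _ hmax hπ hh))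

end Main

end Fermat.Agent.S36.EvalCentre
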