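/-
PROJECT V (S36), slice V-EvalCentreX0 (helper10): **(R3)/(SD3), `K0` side: a pole of `toE u` has a
good `j`-value as soon as `u` is regular at the bad closed points of the two charts.**

* Part A (`compRing`): for a valuation subring `Av` of `L`, a field `E / L` and a place `P` of `E`
  of degree one, the COMPOSITE valuation ring `{g | g has a value in Av at P}` of `E`; its non-units
  are the functions with a value in `𝔪_Av`; it is contained in the valuation ring of `P`.
* Part B (`ConstHyp`, `toE_mem_of_forall_mem_locSubring`): `toE : F → E` a field embedding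
  (the `K0`-form inside the `ℚ̄`-form), `O` a local ring of constants of `F` with
  `toE (const z) = const (cO z)`, `cO z ∈ Av`, `𝔪_O → 𝔪_Av`, and `O → Av / 𝔪_Av` onto.  If `toE φ`
  has a value in `Av` at `P`, then the whole chart `chart O φ` has values in `Av` at `P`, the
  evaluation point is a closed point `x` of the chart, and `u ∈ (chart O φ)_x ⟹ toE u` is regular
  at `P`.
* Part C (`X₀`): `O = W A`, `L = ℚ̄`, `F = FK0 A N`, `E = ℚ̄(X₀(N))`, `toE = toBar`:
  `constHyp hA N`; `exists_jvalue_of_pole` : the hypothesis `h` of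
  `RegOfPoles.regX0_of_jvalues_alpha/beta` from regularity of `u` at the closed points of
  `V(ℓ, G(j))` on `chart (W A) φ` and of `V(ℓ, φ⁻¹)` on `chart (W A) φ⁻¹` (`φ` any chart function
  with `j ∈ chart O φ`, `φ ∈ chart O j`, e.g. `φ = x₂ = j₀ j₁ j₂`).
-/
import Mathlib
import Fermat.Agent.S34.Generic.Dich
import Fermat.Agent.S36.SymChart
import Fermat.Agent.S36.EvalCentre
import Fermat.Agent.S36.LocalGenOrd
import Fermat.Agent.S36.ChartX0

set_option autoImplicit false
set_option synthInstance.maxHeartbeats 400000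
set_option linter.unusedSectionVars false
set_option linter.unusedVariables false
set_option linter.style.haveILetI false

noncomputable section

namespace Fermat.Agent.S36.EvalCentreX0

open AlgebraicCurve Polynomial
open Fermat.Agent.S34.Generic.Dich Fermat.Agent.S36.ChartRing Fermat.Agent.S36.KrullInter
open Fermat.Agent.S36.CentreCore Fermat.Agent.S36.EvalCentre Fermat.Agent.S36.Centre

/-! ## Part A: the composite valuation ring of a place of degree one -/

section Comp

variable {L E : Type*} [Field L] [Field E] [Algebra L E]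

/-- the value of an inverse -/
theorem hasVal_inv {P : Place L E} {g : E} {c : L} (h : HasVal P g c) (hc : c ≠ 0) :
    HasVal P g⁻¹ c⁻¹ := by
  unfold HasVal at h ⊢
  have hc1 : P.adicValuation (algebraMap L E c) = 1 :=
    Fermat.Agent.S24.Ord.adicValuation_algebraMap P hc
  have hg1 : P.adicValuation g = 1 := by
    have : g = (g - algebraMap L E c) + algebraMap L E c := by ring
    rw [this, Valuation.map_add_eq_of_lt_right _ (by rw [hc1]; exact h)]
    exact hc1
  have hg0 : g ≠ 0 := by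
    intro h0
    rw [h0, map_zero] at hg1
    exact zero_ne_one hg1
  have hc0 : algebraMap L E c ≠ 0 := by
    intro h0
    rw [h0, map_zero] at hc1
    exact zero_ne_one hc1
  have e : g⁻¹ - algebraMap L E c⁻¹ =
      -(g - algebraMap L E c) * (g⁻¹ * (algebraMap L E c)⁻¹) := by
    rw [map_inv₀]
    field_simp
    ring
  rw [e, map_mul, Valuation.map_neg, map_mul, map_inv₀, map_inv₀, hg1, hc1, inv_one, mul_one,
    mul_one]
  exact h

variable (Av : ValuationSubring L) (P : Place L E) (hP : P.deg = 1)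

/-- **The composite valuation ring** of a valuation subring `Av` of the constants and a place `P`
of degree one: the functions having at `P` a value in `Av`. -/
def compRing : ValuationSubring E where
  carrier := {g | ∃ c : L, c ∈ Av ∧ HasVal P g c}
  mul_mem' := by
    rintro a b ⟨c, hc, h⟩ ⟨d, hd, h'⟩
    exact ⟨c * d, Av.mul_mem _ _ hc hd, h.mul h'⟩
  one_mem' := ⟨1, Av.one_mem, hasVal_one P⟩
  add_mem' := by
    rintro a b ⟨c, hc, h⟩ ⟨d, hd, h'⟩
    exact ⟨c + d, Av.add_mem _ _ hc hd, h.add h'⟩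
  zero_mem' := ⟨0, Av.zero_mem, hasVal_zero P⟩
  neg_mem' := by
    rintro a ⟨c, hc, h⟩
    exact ⟨-c, Av.neg_mem _ hc, h.neg⟩
  mem_or_inv_mem' := by
    intro g
    by_cases hg : P.adicValuation g ≤ 1
    · obtain ⟨c, hc⟩ := exists_hasVal P hP hg
      by_cases hcA : c ∈ Av
      · exact Or.inl ⟨c, hcA, hc⟩
      · have hc0 : c ≠ 0 := fun h => hcA (h ▸ Av.zero_mem)
        exact Or.inr ⟨c⁻¹, (Av.mem_or_inv_mem c).resolve_left hcA, hasVal_inv hc hc0⟩
    · right
      refine ⟨0, Av.zero_mem, ?_⟩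
      unfold HasVal
      rw [map_zero, sub_zero, map_inv₀]
      rw [not_le] at hg
      exact inv_lt_one_of_one_lt₀ hg

theorem mem_compRing {g : E} : g ∈ compRing Av P hP ↔ ∃ c : L, c ∈ Av ∧ HasVal P g c := Iff.rfl

theorem algebraMap_mem_compRing {c : L} (hc : c ∈ Av) : algebraMap L E c ∈ compRing Av P hP :=
  ⟨c, hc, hasVal_const P c⟩

/-- the composite ring lies inside the valuation ring of the place -/
theorem compRing_le : compRing Av P hP ≤ P.toValuationSubring := by
  rintro g ⟨c, hc, h⟩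
  exact (Fermat.Agent.S24.Ord.mem_iff P g).2 h.le_one

/-- the non-units of the composite ring: the functions with a value in `𝔪_Av` -/
theorem mem_nonunits_compRing {g : E} :
    g ∈ (compRing Av P hP).nonunits ↔ ∃ c : L, c ∈ Av.nonunits ∧ HasVal P g c := by
  constructor
  · intro hg
    have hg' := hg
    rw [ValuationSubring.mem_nonunits_iff_or] at hg'
    obtain ⟨c, hc, h⟩ : g ∈ compRing Av P hP := ValuationSubring.nonunits_subset hg
    refine ⟨c, ?_, h⟩
    rw [ValuationSubring.mem_nonunits_iff_or]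
    by_contra hcon
    push Not at hcon
    obtain ⟨hc0, hcinv⟩ := hcon
    rcases hg' with hg0 | hginv
    · rw [hg0] at h
      exact hc0 (h.unique (hasVal_zero P))
    · exact hginv ⟨c⁻¹, hcinv, hasVal_inv h hc0⟩
  · rintro ⟨c, hc, h⟩
    rw [ValuationSubring.mem_nonunits_iff_or]
    by_cases hg0 : g = 0
    · exact Or.inl hg0
    right
    rintro ⟨d, hd, h'⟩
    have h1 : HasVal P (1 : E) (c * d) := by
      have := h.mul h'
      rwa [mul_inv_cancel₀ hg0] at this
    have e : c * d = 1 := h1.unique (hasVal_one P)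
    rw [ValuationSubring.mem_nonunits_iff_or] at hc
    rcases hc with hc0 | hcinv
    · rw [hc0, zero_mul] at e
      exact zero_ne_one e
    · apply hcinv
      have : c⁻¹ = d := by
        rw [inv_eq_of_mul_eq_one_right e]
      rw [this]
      exact hd

/-- values of finite products -/
theorem hasVal_prod {κ : Type*} (s : Finset κ) (f : κ → E) (g : κ → L)
    (h : ∀ i ∈ s, HasVal P (f i) (g i)) : HasVal P (∏ i ∈ s, f i) (∏ i ∈ s, g i) := by
  classical
  induction s using Finset.induction_on with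
  | empty => simpa using hasVal_one P
  | insert a s ha ih =>
    rw [Finset.prod_insert ha, Finset.prod_insert ha]
    exact (h a (Finset.mem_insert_self a s)).mul
      (ih fun i hi => h i (Finset.mem_insert_of_mem hi))

end Comp

/-! ## Part B: the chart inside the composite ring, and the evaluation point -/

section Wire

variable {L E : Type*} [Field L] [Field E] [Algebra L E]
variable {F : Type*} [Field F] (toE : F →+* E)
variable {O : Type*} [CommRing O] [IsDomain O] [IsLocalRing O] [Algebra O F]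
variable (Av : ValuationSubring L) (cO : O →+* L)

/-- The constants: `toE` sends the constants of `O` to constants of `Av`, non-units to non-units,
and `O → Av / 𝔪_Av` is onto. -/
structure ConstHyp : Prop where
  toE_const : ∀ z : O, toE (algebraMap O F z) = algebraMap L E (cO z)
  mem : ∀ z : O, cO z ∈ Av
  nonunit : ∀ z ∈ IsLocalRing.maximalIdeal O, cO z ∈ Av.nonunits
  res : ∀ c ∈ Av, ∃ z : O, c - cO z ∈ Av.nonunits

variable {toE Av cO} (H : ConstHyp toE Av cO) (P : Place L E) (hP : P.deg = 1)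

include H in
/-- if `toE φ` has a value in `Av` at `P` then so has `toE x` for every `x` of the chart of `φ` -/
theorem toE_mem_compRing_of_mem_chart {φ x : F} (hφ : toE φ ∈ compRing Av P hP)
    (hx : x ∈ chart O φ) : toE x ∈ compRing Av P hP := by
  have h := (Fermat.Agent.S36.SymChart.mem_chart_iff (O := O) φ x).1 hx
    ((compRing Av P hP).comap toE) ?_ hφ
  · exact h
  · intro z
    show toE (algebraMap O F z) ∈ compRing Av P hP
    rw [H.toE_const]
    exact algebraMap_mem_compRing Av P hP (H.mem z)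

/-- the constants of `O` in the chart ring, as a ring homomorphism -/
def constHom (φ : F) : O →+* chart O φ := (toChart φ).comp Polynomial.C

theorem coe_constHom (φ : F) (z : O) : ((constHom φ z : chart O φ) : F) = algebraMap O F z := by
  unfold constHom
  rw [RingHom.comp_apply, coe_toChart, aeval_C]

include H in
/-- **No pole outside the bad points (one chart).**  `toE φ` has a value in `Av` at `P`; `π h` are
elements of the chart of `φ` with values in `𝔪_Av` at `P`; `T` contains every closed point of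
`V(π, h)`; `u ∈ (chart O φ)_x` for all `x ∈ T`.  Then `toE u` is regular at `P`. -/
theorem toE_mem_of_forall_mem_locSubring {φ : F} [IsFractionRing ↥(chart O φ) F]
    (π h : ↥(chart O φ)) (T : Set (Ideal ↥(chart O φ)))
    (hT : ∀ x : Ideal ↥(chart O φ), x.IsMaximal → π ∈ x → h ∈ x → x ∈ T) {u : F}
    (hu : ∀ (x : Ideal ↥(chart O φ)) [hx : x.IsPrime], x ∈ T → u ∈ locSubring (F := F) x)
    (hφ : toE φ ∈ compRing Av P hP)
    (hπ : toE (π : F) ∈ (compRing Av P hP).nonunits)
    (hh : toE (h : F) ∈ (compRing Av P hP).nonunits) :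
    toE u ∈ P.toValuationSubring := by
  have hle : (compRing Av P hP).comap toE ≤ P.toValuationSubring.comap toE :=
    fun x hx => compRing_le Av P hP hx
  have hV : ∀ a : ↥(chart O φ), algebraMap ↥(chart O φ) F a ∈ (compRing Av P hP).comap toE :=
    fun a => toE_mem_compRing_of_mem_chart H P hP hφ a.2
  have hm : ∀ z ∈ IsLocalRing.maximalIdeal O,
      algebraMap ↥(chart O φ) F (constHom φ z) ∈ ((compRing Av P hP).comap toE).nonunits := by
    intro z hz
    rw [mem_nonunits_comap]
    have : algebraMap ↥(chart O φ) F (constHom φ z) = algebraMap O F z := coe_constHom φ z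
    rw [this, H.toE_const, mem_nonunits_compRing]
    exact ⟨cO z, H.nonunit z hz, hasVal_const P _⟩
  have hres : ∀ a : ↥(chart O φ), ∃ z : O,
      algebraMap ↥(chart O φ) F a - algebraMap ↥(chart O φ) F (constHom φ z) ∈
        ((compRing Av P hP).comap toE).nonunits := by
    intro a
    obtain ⟨c, hc, hac⟩ := hV a
    obtain ⟨z, hz⟩ := H.res c hc
    refine ⟨z, ?_⟩
    rw [mem_nonunits_comap]
    have : algebraMap ↥(chart O φ) F (constHom φ z) = algebraMap O F z := coe_constHom φ z
    rw [this, map_sub, H.toE_const, mem_nonunits_compRing]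
    exact ⟨c - cO z, hz, hac.sub (hasVal_const P _)⟩
  have hπ' : algebraMap ↥(chart O φ) F π ∈ ((compRing Av P hP).comap toE).nonunits :=
    (mem_nonunits_comap toE _ _).2 hπ
  have hh' : algebraMap ↥(chart O φ) F h ∈ ((compRing Av P hP).comap toE).nonunits :=
    (mem_nonunits_comap toE _ _).2 hh
  exact mem_of_forall_mem_locSubring (constHom φ) π h T hT hu hle hV hm hres hπ' hh'

end Wire

/-! ## A local Krull lemma: order zero at every prime divisor through `x` ⟹ unit of `A_x` -/

section Local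

open Fermat.Agent.S36.LocalGenOrd

variable {A : Type*} [CommRing A] [IsDomain A] {F : Type*} [Field F] [Algebra A F]
  [IsFractionRing A F] [IsNoetherianRing A] [IsIntegrallyClosed A]

/-- A function of order zero at every conductor prime inside `x` is a unit of `A_x`. -/
theorem mem_locSubring_of_hasOrd_zero (x : Ideal A) [hx : x.IsPrime] (z : F)
    (hz : ∀ (P : Ideal A) (y : F) (h : IsCond P y), P ≤ x → HasOrd h.valuationSubring z 0) :
    z ∈ locSubring (F := F) x ∧ z⁻¹ ∈ locSubring (F := F) x := by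
  constructor
  · apply mem_locSubring_of_forall_isCond x z
    intro P y h hPx
    have h1 := (hz P y h hPx).of_unif (isUnif_of_isCond h)
    rw [neg_zero, zpow_zero, mul_one] at h1
    exact h1.2.1
  · apply mem_locSubring_of_forall_isCond x z⁻¹
    intro P y h hPx
    have h1 := (hz P y h hPx).of_unif (isUnif_of_isCond h)
    rw [neg_zero, zpow_zero, mul_one] at h1
    exact h1.2.2

end Local

/-! ## Part C: `X₀(N)` over the inertia field -/

section X0

open ModularCurve IntermediateField IsLocalRing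
open Fermat.Agent.S18.C.SmallDVR Fermat.Agent.S36.ChartX0 Fermat.Agent.S36.K0Fixed

local notation "Kb" => AlgebraicClosure ℚ

variable (A : ValuationSubring Kb)

/-- the constants `W A → ℚ̄` -/
def cW : ↥(W A) →+* Kb := (algebraMap ↥(K0 A) Kb).comp (W A).subtype

theorem cW_apply (z : ↥(W A)) : cW A z = (((z : ↥(K0 A)) : Kb)) := rfl

/-- the coefficientwise embedding of the `K0`-form into the `ℚ̄`-form (`= KummerNew.toE`,
`PowerBasisK0.tB` for `I` the inertia group) -/
abbrev toEK0 (N : ℕ) : FK0 A N →+* ↥(modularFunctionFieldBar N) :=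
  toBar (modularFunctionFieldFull N) (K0 A)

theorem toEK0_jK0 (N : ℕ) [NeZero N] :
    toEK0 A N (jK0 A N) = Fermat.Agent.S24.DegreeAlg.jgen N := by
  rw [jK0_eq_j0K]
  exact Fermat.Agent.S36.PowerBasisK0.tB_j0K (A.inertiaSubgroupIn ℚ) N

variable {A} {ℓ : ℕ} [hℓ : Fact ℓ.Prime] (hA : A.LiesOverPrime ℓ)

omit hℓ in
theorem coe_mem_nonunits_of_mem_maximalIdeal {z : ↥(W A)} (hz : z ∈ maximalIdeal ↥(W A)) :
    cW A z ∈ A.nonunits := by
  rw [ValuationSubring.mem_nonunits_iff_exists_mem_maximalIdeal]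
  refine ⟨coe_mem A z, ?_⟩
  rw [mem_maximalIdeal, mem_nonunits_iff] at hz ⊢
  intro hu
  apply hz
  have : IsUnit (toA A z) := hu
  exact (isUnit_map_iff (toA A) z).1 this

include hA in
/-- **the constants at `X₀`** -/
theorem constHyp (N : ℕ) : ConstHyp (toEK0 A N) A (cW A) where
  toE_const z := by
    rw [algebraMap_W_apply]
    exact toBar_algebraMap (modularFunctionFieldFull N) (K0 A) _
  mem z := coe_mem A z
  nonunit z hz := coe_mem_nonunits_of_mem_maximalIdeal hz
  res c hc := by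
    obtain ⟨w, hw⟩ := exists_residue_toA_eq hA (residue ↥A ⟨c, hc⟩)
    refine ⟨w, ?_⟩
    rw [ValuationSubring.mem_nonunits_iff_exists_mem_maximalIdeal]
    refine ⟨A.sub_mem hc (coe_mem A w), ?_⟩
    have : (⟨c - cW A w, A.sub_mem hc (coe_mem A w)⟩ : ↥A) = ⟨c, hc⟩ - toA A w := rfl
    rw [this, ← residue_eq_zero_iff, map_sub, hw, sub_self]

/-- places of `ℚ̄(X₀(N))` have degree one -/
theorem deg_eq_one (N : ℕ) [NeZero N] (P : Place Kb ↥(modularFunctionFieldBar N)) : P.deg = 1 :=
  Fermat.Agent.S24.Ord.deg_eq_one (Fermat.Agent.S24.Degree.isFF N) P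

variable (N : ℕ) [NeZero N]

/-- the element `G(j) = ∏_{z ∈ s} (j - z)` of the chart of `φ` (`s` a finite set of lifts of the bad
`j`-values) -/
def badElt {φ : FK0 A N} (hjφ : jK0 A N ∈ chart ↥(W A) φ) (s : Finset ↥(W A)) :
    ↥(chart ↥(W A) φ) :=
  ∏ z ∈ s, ((⟨jK0 A N, hjφ⟩ : ↥(chart ↥(W A) φ)) - constHom φ z)

theorem coe_badElt {φ : FK0 A N} (hjφ : jK0 A N ∈ chart ↥(W A) φ) (s : Finset ↥(W A)) :
    ((badElt N hjφ s : ↥(chart ↥(W A) φ)) : FK0 A N) =
      ∏ z ∈ s, (jK0 A N - algebraMap ↥(W A) (FK0 A N) z) := by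
  unfold badElt
  rw [SubmonoidClass.coe_finsetProd]
  refine Finset.prod_congr rfl fun z hz => ?_
  rw [Subalgebra.coe_sub, coe_constHom]

theorem self_mem_chart (φ : FK0 A N) : φ ∈ chart ↥(W A) φ :=
  (Fermat.Agent.S36.SymChart.mem_chart_iff (O := ↥(W A)) φ φ).2 fun W _ h => h

theorem transcendental_inv {φ : FK0 A N} (hφ : Transcendental ↥(K0 A) φ) :
    Transcendental ↥(K0 A) φ⁻¹ := by
  intro h
  apply hφ
  have := h.inv
  rwa [inv_inv] at this

include hA in
/-- **(R3), `K0` side.**  `φ` a chart function at level `N` with `j ∈ chart O φ`, `φ ∈ chart O j`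
(`φ = j` or `φ = x₂`); `bad` a set of residues with lifts `s`; `u` regular at the closed points of
`V(ℓ, G(j))` on the chart of `φ` and of `V(ℓ, φ⁻¹)` on the chart of `φ⁻¹`.  Then at every pole `P`
of `toE u` the function `j` has an `A`-integral value whose residue is not bad. -/
theorem exists_jvalue_of_pole {φ : FK0 A N} (hφ : Transcendental ↥(K0 A) φ)
    (hjφ : jK0 A N ∈ chart ↥(W A) φ) (hφj : φ ∈ chart ↥(W A) (jK0 A N))
    (bad : Set (ResidueField ↥A)) (s : Finset ↥(W A))
    (hs : ∀ γ ∈ bad, ∃ z ∈ s, residue ↥A (toA A z) = γ) (u : FK0 A N)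
    (hfin : ∀ (x : Ideal ↥(chart ↥(W A) φ)) [hx : x.IsPrime], x.IsMaximal →
      piChart φ ((ℓ : ℕ) : ↥(W A)) ∈ x → badElt N hjφ s ∈ x →
        u ∈ locSubring (F := FK0 A N) x)
    (hinf : ∀ (x : Ideal ↥(chart ↥(W A) φ⁻¹)) [hx : x.IsPrime], x.IsMaximal →
      piChart φ⁻¹ ((ℓ : ℕ) : ↥(W A)) ∈ x →
        (⟨φ⁻¹, self_mem_chart N φ⁻¹⟩ : ↥(chart ↥(W A) φ⁻¹)) ∈ x →
          u ∈ locSubring (F := FK0 A N) x)
    (P : Place Kb ↥(modularFunctionFieldBar N)) (hpole : P.ord (toEK0 A N u) < 0) :
    ∃ c : ↥A, HasVal P (Fermat.Agent.S24.DegreeAlg.jgen N) (c : Kb) ∧ residue ↥A c ∉ bad := by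
  by_contra hcon
  push Not at hcon
  have hP := deg_eq_one N P
  have H := constHyp hA N
  haveI := isDVR hA
  -- it suffices to show that `toE u` is regular at `P`
  suffices hreg : toEK0 A N u ∈ P.toValuationSubring by
    have hu0 : toEK0 A N u ≠ 0 := by
      intro h0
      rw [h0, Place.ord_zero] at hpole
      exact lt_irrefl _ hpole
    have := (Fermat.Agent.S24.Ord.ord_nonneg_iff P hu0).2
      ((Fermat.Agent.S24.Ord.mem_iff P _).1 hreg)
    omega
  -- the uniformiser `ℓ` has a value in `𝔪_A`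
  have hℓm : ((ℓ : ℕ) : ↥(W A)) ∈ maximalIdeal ↥(W A) := by
    rw [maximalIdeal_W_eq hA]
    exact Ideal.mem_span_singleton_self _
  have hπval : ∀ ψ : FK0 A N, toEK0 A N ((piChart ψ ((ℓ : ℕ) : ↥(W A)) : ↥(chart ↥(W A) ψ)) :
      FK0 A N) ∈ (compRing A P hP).nonunits := by
    intro ψ
    rw [coe_piChart, H.toE_const, mem_nonunits_compRing]
    exact ⟨_, H.nonunit _ hℓm, hasVal_const P _⟩
  by_cases hj : toEK0 A N (jK0 A N) ∈ compRing A P hP
  · -- `j` has a value `c ∈ A`, necessarily bad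
    obtain ⟨c, hc, hjc⟩ := hj
    have hjc' : HasVal P (Fermat.Agent.S24.DegreeAlg.jgen N) c := by
      rw [← toEK0_jK0 A N]; exact hjc
    obtain ⟨z₀, hz₀s, hz₀⟩ := hs _ (hcon ⟨c, hc⟩ hjc')
    haveI : IsFractionRing ↥(chart ↥(W A) φ) (FK0 A N) := (chartX0_props hA N hφ).2.2
    have hφc : toEK0 A N φ ∈ compRing A P hP :=
      toE_mem_compRing_of_mem_chart H P hP ⟨c, hc, hjc⟩ hφj
    refine toE_mem_of_forall_mem_locSubring H P hP (piChart φ ((ℓ : ℕ) : ↥(W A)))
      (badElt N hjφ s) {x | x.IsMaximal ∧ piChart φ ((ℓ : ℕ) : ↥(W A)) ∈ x ∧ badElt N hjφ s ∈ x}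
      (fun x hx h1 h2 => ⟨hx, h1, h2⟩) (fun x hx hxT => hfin x hxT.1 hxT.2.1 hxT.2.2) hφc
      (hπval φ) ?_
    -- the value of `G(j)` at `P`
    rw [coe_badElt, map_prod, mem_nonunits_compRing]
    refine ⟨∏ z ∈ s, (c - cW A z), ?_, ?_⟩
    · rw [← Finset.mul_prod_erase s _ hz₀s, mul_comm]
      refine mul_mem_nonunits A ?_ ?_
      · exact Subring.prod_mem _ fun z _ => A.sub_mem hc (coe_mem A z)
      · rw [ValuationSubring.mem_nonunits_iff_exists_mem_maximalIdeal]
        refine ⟨A.sub_mem hc (coe_mem A z₀), ?_⟩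
        have : (⟨c - cW A z₀, A.sub_mem hc (coe_mem A z₀)⟩ : ↥A) = ⟨c, hc⟩ - toA A z₀ := rfl
        rw [this, ← residue_eq_zero_iff, map_sub, hz₀, sub_self]
    · refine hasVal_prod P s _ _ fun z _ => ?_
      rw [map_sub, H.toE_const]
      exact hjc.sub (hasVal_const P _)
  · -- `j` has no value in `A`: the inverse of `φ` has a value in `𝔪_A`
    have hφn : toEK0 A N φ ∉ compRing A P hP := fun h =>
      hj (toE_mem_compRing_of_mem_chart H P hP h hjφ)
    have hinv : toEK0 A N φ⁻¹ ∈ (compRing A P hP).nonunits := by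
      rw [ValuationSubring.mem_nonunits_iff_or, map_inv₀, inv_inv]
      exact Or.inr hφn
    haveI : IsFractionRing ↥(chart ↥(W A) φ⁻¹) (FK0 A N) :=
      (chartX0_props hA N (transcendental_inv N hφ)).2.2
    exact toE_mem_of_forall_mem_locSubring H P hP (piChart φ⁻¹ ((ℓ : ℕ) : ↥(W A)))
      (⟨φ⁻¹, self_mem_chart N φ⁻¹⟩ : ↥(chart ↥(W A) φ⁻¹))
      {x | x.IsMaximal ∧ piChart φ⁻¹ ((ℓ : ℕ) : ↥(W A)) ∈ x ∧
        (⟨φ⁻¹, self_mem_chart N φ⁻¹⟩ : ↥(chart ↥(W A) φ⁻¹)) ∈ x}
      (fun x hx h1 h2 => ⟨hx, h1, h2⟩) (fun x hx hxT => hinf x hxT.1 hxT.2.1 hxT.2.2)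
      (ValuationSubring.nonunits_subset hinv) (hπval φ⁻¹) hinv

include hA in
/-- finitely many residues have a finite set of lifts to `W A` -/
theorem exists_lifts {bad : Set (ResidueField ↥A)} (hbad : bad.Finite) :
    ∃ s : Finset ↥(W A), ∀ γ ∈ bad, ∃ z ∈ s, residue ↥A (toA A z) = γ := by
  classical
  choose lift hlift using fun γ : ResidueField ↥A => exists_residue_toA_eq hA γ
  refine ⟨hbad.toFinset.image lift, fun γ hγ => ⟨lift γ, ?_, hlift γ⟩⟩
  exact Finset.mem_image_of_mem _ (hbad.mem_toFinset.2 hγ)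

/-- `α' (α j) = j` at level `M q²` -/
theorem alpha_alpha_jgen (M q : ℕ) [NeZero M] [NeZero q] :
    heckeAlphaBar Kb (M * q) q (heckeAlphaBar Kb M q (Fermat.Agent.S24.DegreeAlg.jgen M)) =
      Fermat.Agent.S24.DegreeAlg.jgen (M * q * q) := by
  apply Subtype.ext
  rw [coe_heckeAlphaBar, coe_heckeAlphaBar, Fermat.Agent.S18.B.Basic.coe_jgen_eq,
    Fermat.Agent.S18.B.Basic.coe_jgen_eq]

include hA in
/-- **(R3), `K0` side, in the literal shape of the hypothesis `h` of
`RegOfPoles.regX0_of_jvalues_alpha/beta`** (level `M q²`). -/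
theorem exists_jvalue_of_pole_alpha (M q : ℕ) [NeZero M] [NeZero q] {φ : FK0 A (M * q * q)}
    (hφ : Transcendental ↥(K0 A) φ)
    (hjφ : jK0 A (M * q * q) ∈ chart ↥(W A) φ) (hφj : φ ∈ chart ↥(W A) (jK0 A (M * q * q)))
    (bad : Set (ResidueField ↥A)) (s : Finset ↥(W A))
    (hs : ∀ γ ∈ bad, ∃ z ∈ s, residue ↥A (toA A z) = γ) (u : FK0 A (M * q * q))
    (hfin : ∀ (x : Ideal ↥(chart ↥(W A) φ)) [hx : x.IsPrime], x.IsMaximal →
      piChart φ ((ℓ : ℕ) : ↥(W A)) ∈ x → badElt (M * q * q) hjφ s ∈ x →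
        u ∈ locSubring (F := FK0 A (M * q * q)) x)
    (hinf : ∀ (x : Ideal ↥(chart ↥(W A) φ⁻¹)) [hx : x.IsPrime], x.IsMaximal →
      piChart φ⁻¹ ((ℓ : ℕ) : ↥(W A)) ∈ x →
        (⟨φ⁻¹, self_mem_chart (M * q * q) φ⁻¹⟩ : ↥(chart ↥(W A) φ⁻¹)) ∈ x →
          u ∈ locSubring (F := FK0 A (M * q * q)) x) :
    ∀ P' : Place Kb ↥(modularFunctionFieldBar (M * q * q)),
      P'.ord (toEK0 A (M * q * q) u) < 0 → ∃ c : ↥A,
        HasVal P' (heckeAlphaBar Kb (M * q) q
          (heckeAlphaBar Kb M q (Fermat.Agent.S24.DegreeAlg.jgen M))) (c : Kb) ∧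
          residue ↥A c ∉ bad := by
  intro P' hpole
  rw [alpha_alpha_jgen]
  exact exists_jvalue_of_pole hA (M * q * q) hφ hjφ hφj bad s hs u hfin hinf P' hpole

end X0

end Fermat.Agent.S36.EvalCentreX0
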