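/-
PROJECT V (S36), slice V-ChartHypX0 (helper10): **(R3)(i): the chart hypotheses `RegFinal.ChartHyp`
at `X₀(M q²)` over the inertia field** (helper18's target for the `K0` instantiation).

`A` over `q`, `O = W A`, `F = FK0 A (M q²)`, `τ = toEK0 A (M q²)` (`= KummerNew.toE`), `φ : F` ANY
chart function with `j ∈ chart O φ` and `φ ∈ chart O j` (`φ = j`, or `φ = x₂ = j₀ j₁ j₂` by
`ChartsX0` / `SymChart`), `A₁ = chart O φ`, `A₂ = chart O φ⁻¹`,
`gfin = ∏_{z ∈ s} (j - z)` (`s` lifts of the bad values, `EvalCentreX0.badElt`), `ginf = φ⁻¹`: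

* `chartHyp hA X hjφ hφj s hs : RegFinal.ChartHyp X τ A₁ A₂ gfin ginf`;
* `natCast_eq_piChart` : the integer `q` of the chart ring is `Centre.piChart φ q`;
* `exists_lifts_badValues` : a finite set of lifts of `RegOfPoles.badValues X`;
* the instances needed by `RegFinal` on the two chart rings: `chart_instances`.
-/
import Mathlib
import Fermat.Agent.S36.RegFinal
import Fermat.Agent.S36.EvalCentreX0

set_option autoImplicit false
set_option synthInstance.maxHeartbeats 400000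
set_option linter.unusedSectionVars false
set_option linter.unusedVariables false
set_option linter.style.haveILetI false

noncomputable section

namespace Fermat.Agent.S36.ChartHypX0

open AlgebraicCurve ModularCurve IsLocalRing
open Fermat.Agent.S24.DegreeAlg (jgen)
open Fermat.Agent.S37.Deuring.Core Fermat.Agent.S37.Gauss.Datum
open Fermat.Agent.S34.CoreZX0Assembly Fermat.Agent.S34.CoreZX0Build
open Fermat.Agent.S34.Generic.Dich
open Fermat.Agent.S35.LevelMaps
open Fermat.Agent.S36.RegOfPoles Fermat.Agent.S36.SpecValue Fermat.Agent.S36.SpecLocal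
open Fermat.Agent.S36.RegFinal
open Fermat.Agent.S18.C.SmallDVR Fermat.Agent.S36.ChartX0 Fermat.Agent.S36.ChartRing
open Fermat.Agent.S36.Centre Fermat.Agent.S36.EvalCentreX0

local notation "Kb" => AlgebraicClosure ℚ

local instance instNeZeroMulCH (M q : ℕ) [NeZero M] [NeZero q] : NeZero (M * q) :=
  ⟨Nat.mul_ne_zero (NeZero.ne M) (NeZero.ne q)⟩

variable {q : ℕ} {M : ℕ} [NeZero M] {A : ValuationSubring Kb} [NeZero q]

/-- the integer `q` of the chart ring is the constant `q` of `W A` -/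
theorem natCast_eq_piChart {N : ℕ} (φ : FK0 A N) (n : ℕ) :
    ((n : ℕ) : ↥(chart ↥(W A) φ)) = piChart φ ((n : ℕ) : ↥(W A)) := by
  apply Subtype.ext
  rw [coe_piChart, map_natCast]
  rfl

/-- `τ j = j₀` -/
theorem toEK0_jK0_eq_j0 : toEK0 A (M * q * q) (jK0 A (M * q * q)) = j0 M q := by
  rw [toEK0_jK0, j0, alpha_alpha_jgen]

/-- the image of a constant of `W A` -/
theorem toEK0_algebraMap_W (N : ℕ) (z : ↥(W A)) :
    toEK0 A N (algebraMap ↥(W A) (FK0 A N) z) =
      algebraMap Kb ↥(modularFunctionFieldBar N) ((toA A z : ↥A) : Kb) := by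
  rw [algebraMap_W_apply]
  exact Fermat.Agent.S36.K0Fixed.toBar_algebraMap (modularFunctionFieldFull N) (K0 A) _

variable [hq : Fact q.Prime] (hA : A.LiesOverPrime q) {hqM : ¬ q ∣ M}
variable {gL gk : ℕ} {H : Hyp (gaussDatum M A hA hqM) gL gk}
variable [CharP (ResidueField ↥A) q]

include hA in
/-- a finite set of lifts of the bad values -/
theorem exists_lifts_badValues (X : Inputs hA hqM H) :
    ∃ s : Finset ↥(W A), ∀ γ ∈ badValues X, ∃ z ∈ s, residue ↥A (toA A z) = γ :=
  exists_lifts hA (finite_badValues X)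

include hA in
/-- **the chart hypotheses of (R3) at `X₀(M q²)`** -/
theorem chartHyp (X : Inputs hA hqM H) {φ : FK0 A (M * q * q)}
    (hjφ : jK0 A (M * q * q) ∈ chart ↥(W A) φ) (hφj : φ ∈ chart ↥(W A) (jK0 A (M * q * q)))
    (s : Finset ↥(W A)) (hs : ∀ γ ∈ badValues X, ∃ z ∈ s, residue ↥A (toA A z) = γ) :
    ChartHyp X (toEK0 A (M * q * q)) ↥(chart ↥(W A) φ) ↥(chart ↥(W A) φ⁻¹)
      (badElt (M * q * q) hjφ s)
      (⟨φ⁻¹, self_mem_chart (M * q * q) φ⁻¹⟩ : ↥(chart ↥(W A) φ⁻¹)) := by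
  -- constants
  have hconst : ∀ (ψ : FK0 A (M * q * q)) (γ : ResidueField ↥A), ∃ (r : ↥(chart ↥(W A) ψ)) (a : ↥A),
      toEK0 A (M * q * q) (algebraMap ↥(chart ↥(W A) ψ) (FK0 A (M * q * q)) r) =
        algebraMap Kb (E (M * q * q)) (a : Kb) ∧ residue ↥A a = γ := by
    intro ψ γ
    obtain ⟨z, hz⟩ := exists_residue_toA_eq hA γ
    refine ⟨constHom ψ z, toA A z, ?_, hz⟩
    have : algebraMap ↥(chart ↥(W A) ψ) (FK0 A (M * q * q)) (constHom ψ z) =
        algebraMap ↥(W A) (FK0 A (M * q * q)) z := coe_constHom ψ z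
    rw [this]
    exact toEK0_algebraMap_W (M * q * q) z
  -- a valuation subring containing the `A`-constants contains the images of the `W A`-constants
  have hO : ∀ V : ValuationSubring (E (M * q * q)),
      (∀ a : ↥A, algebraMap Kb (E (M * q * q)) (a : Kb) ∈ V) →
        ∀ z : ↥(W A), toEK0 A (M * q * q) (algebraMap ↥(W A) (FK0 A (M * q * q)) z) ∈ V := by
    intro V hV z
    rw [toEK0_algebraMap_W]
    exact hV _
  refine ⟨hconst φ, hconst φ⁻¹, ?_, ?_, ?_, ?_⟩
  · -- finV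
    intro V hV hj r
    have hjV : toEK0 A (M * q * q) (jK0 A (M * q * q)) ∈ V := by
      rw [toEK0_jK0_eq_j0]; exact hj
    have hφV : toEK0 A (M * q * q) φ ∈ V :=
      map_mem_of_mem_chart (toEK0 A (M * q * q)) V (hO V hV) hjV hφj
    exact map_mem_of_mem_chart (toEK0 A (M * q * q)) V (hO V hV) hφV r.2
  · -- infV
    intro V hV hj r
    have hφV : toEK0 A (M * q * q) φ ∉ V := by
      intro h
      apply hj
      rw [← toEK0_jK0_eq_j0]
      exact map_mem_of_mem_chart (toEK0 A (M * q * q)) V (hO V hV) h hjφ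
    have hinvV : toEK0 A (M * q * q) φ⁻¹ ∈ V := by
      rw [map_inv₀]
      exact (V.mem_or_inv_mem _).resolve_left hφV
    exact map_mem_of_mem_chart (toEK0 A (M * q * q)) V (hO V hV) hinvV r.2
  · -- gfin
    intro w c hc hbad
    obtain ⟨z₀, hz₀s, hz₀⟩ := hs _ hbad
    have hjc : HasVal w (toEK0 A (M * q * q) (jK0 A (M * q * q))) (c : Kb) := by
      rw [toEK0_jK0_eq_j0]; exact hc
    refine ⟨∏ z ∈ s, (c - toA A z), ?_, ?_⟩
    · rw [map_prod]
      refine Finset.prod_eq_zero hz₀s ?_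
      rw [map_sub, hz₀, sub_self]
    · have e1 : algebraMap ↥(chart ↥(W A) φ) (FK0 A (M * q * q)) (badElt (M * q * q) hjφ s) =
          ∏ z ∈ s, (jK0 A (M * q * q) - algebraMap ↥(W A) (FK0 A (M * q * q)) z) :=
        coe_badElt (M * q * q) hjφ s
      rw [e1, map_prod]
      have e2 : ((∏ z ∈ s, (c - toA A z) : ↥A) : Kb) =
          ∏ z ∈ s, ((c : Kb) - ((toA A z : ↥A) : Kb)) := by
        push_cast
        rfl
      rw [e2]
      refine Fermat.Agent.S36.SpecLocal.hasVal_prod w s _ _ fun z _ => ?_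
      rw [map_sub, toEK0_algebraMap_W]
      exact hjc.sub (hasVal_const w _)
  · -- ginf
    intro w hj
    have hw := deg_eq_one_bar (M * q * q) w
    have hφV : toEK0 A (M * q * q) φ ∉ compSubring A w hw := by
      intro h
      apply hj
      rw [← toEK0_jK0_eq_j0]
      refine map_mem_of_mem_chart (toEK0 A (M * q * q)) (compSubring A w hw) ?_ h hjφ
      exact hO _ fun a => algebraMap_mem_compSubring A w hw a
    obtain ⟨d, hd0, hd⟩ := hasVal_inv_of_not_mem w hw hφV
    refine ⟨d, hd0, ?_⟩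
    have : algebraMap ↥(chart ↥(W A) φ⁻¹) (FK0 A (M * q * q))
        (⟨φ⁻¹, self_mem_chart (M * q * q) φ⁻¹⟩ : ↥(chart ↥(W A) φ⁻¹)) = φ⁻¹ := rfl
    rw [this, map_inv₀]
    exact hd

include hA in
/-- the instances `RegFinal` asks of the two chart rings -/
theorem chart_instances {N : ℕ} [NeZero N] {φ : FK0 A N} (hφ : Transcendental ↥(K0 A) φ) :
    (IsNoetherianRing ↥(chart ↥(W A) φ) ∧ IsIntegrallyClosed ↥(chart ↥(W A) φ) ∧
      IsFractionRing ↥(chart ↥(W A) φ) (FK0 A N)) ∧
    (IsNoetherianRing ↥(chart ↥(W A) φ⁻¹) ∧ IsIntegrallyClosed ↥(chart ↥(W A) φ⁻¹) ∧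
      IsFractionRing ↥(chart ↥(W A) φ⁻¹) (FK0 A N)) :=
  ⟨chartX0_props hA N hφ, chartX0_props hA N (transcendental_inv N hφ)⟩

end Fermat.Agent.S36.ChartHypX0
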