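/-
PROJECT V (S36), top layer (helper6): **the auxiliary level `m`**.

`newInertiaHyp_of_mul` : for a prime `q ‖ M'` and any `m ≠ 0` prime to `q`,
`NewInertiaHyp (M' * m) q p → NewInertiaHyp M' q p`
(same valuation ring `A`, constant `k * [ℚ̄(X₀(M' m q)) : ℚ̄(X₀(M' q))]`).

So the geometric part of PROJECT V may assume that the level `q² M''` satisfies any condition that
can be reached by multiplying it by a number prime to `q` (`forall_newInertiaHyp_of_mul`), e.g.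
* it is divisible (exactly once) by an auxiliary prime `r ≡ 11 mod 12`, `r ∤ M' q p`
  (`forall_newInertiaHyp_of_aux_prime`, Dirichlet), or
* it is divisible by `4` (`q` odd), resp. by `9` (`q = 2`) (`forall_newInertiaHyp_of_four_nine`):
then `X₀(M'')` has no elliptic points in characteristic `0` and `q`.

Ingredients: the pull-back `pullJ : J₀(N) → J₀(N')` (Prelude's `Pic0.pullbackHom`),
`φ_* φ^* = deg φ` (`S35/BaseChangeAlong`), Galois-equivariance of `φ^*`, and the base change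
squares `(π_m^*, (α_q)_*)`, `(π_m^*, (β_q)_*)` (`S35/BaseChangeAlong` with the power bases of
`S36/LevelDvd`, as in `S36/DegHecke`).
-/
import Mathlib
import Fermat.Agent.S36.DegHecke
import Fermat.Agent.S35.DegeneracyGalois

set_option autoImplicit false
set_option linter.unusedSectionVars false
set_option linter.style.haveILetI false

noncomputable section

namespace Fermat.Agent.S36.AuxPrime

open ModularCurve AlgebraicCurve
open Fermat.Agent.S24.DegreeAlg Fermat.Agent.S24.FF Fermat.Agent.S18.A.Instances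
open Fermat.Agent.S37.Hecke.Integral Fermat.Agent.S35.LevelMaps Fermat.Agent.S35.BaseChangeAlong
open Fermat.Agent.S35.DegeneracyHecke Fermat.Agent.S35.DegeneracyGalois
open Fermat.Agent.S36.LevelDvd Fermat.Agent.S36.OfNewInertia

local notation "Kb" => AlgebraicClosure ℚ
local notation "GQ" => (AlgebraicClosure ℚ ≃ₐ[ℚ] AlgebraicClosure ℚ)

/-! ### The pull-back on `J₀` -/

section PullJ

variable {N N' : ℕ} [NeZero N] [NeZero N']

/-- the fundamental identity along any homomorphism between the `E N` -/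
theorem fundId_hom (φ : E N →ₐ[Kb] E N') :
    haveI := hasPrincipalDivisors_bar N'
    FundamentalIdentityAlong Kb φ (isIntegral_hom φ) :=
  haveI := hasPrincipalDivisors_bar N'
  Fermat.Agent.S37.Hecke.Inputs.fundamentalIdentityAlong φ (isIntegral_hom φ)
    (finiteAlong_hom φ) (isFF_jgen N) (isFF_jgen N')

/-- pull-back `J₀(N) → J₀(N')` along a homomorphism `ℚ̄(X₀(N)) → ℚ̄(X₀(N'))` -/
def pullJ (φ : E N →ₐ[Kb] E N') : JZero N →+ JZero N' :=
  letI := algebraAlong φ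
  haveI := isScalarTower_along φ
  haveI := isIntegral_along φ (isIntegral_hom φ)
  haveI := hasPrincipalDivisors_bar N'
  haveI : FundamentalIdentity Kb (E N) (E N') := fundId_hom φ
  Pic0.pullbackHom (E N')

theorem coe_degZero_of_pullJ_mk (φ : E N →ₐ[Kb] E N')
    (D : Divisor.degZero (K := Kb) (F := E N)) :
    ∃ D' : Divisor.degZero (K := Kb) (F := E N'),
      pullJ φ (Pic0.mk D) = Pic0.mk D' ∧
        (D' : Divisor Kb (E N')) = pull φ (D : Divisor Kb (E N)) := by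
  letI := algebraAlong φ
  haveI := isScalarTower_along φ
  haveI := isIntegral_along φ (isIntegral_hom φ)
  haveI := hasPrincipalDivisors_bar N'
  haveI : FundamentalIdentity Kb (E N) (E N') := fundId_hom φ
  exact ⟨Pic0.pullbackDegZeroHom (E N') D, rfl, rfl⟩

/-- `φ_* φ^* = deg φ` on divisors -/
theorem push_pull (φ : E N →ₐ[Kb] E N') (D : Divisor Kb (E N)) :
    push φ (pull φ D) = (finrankAlong Kb φ : ℤ) • D := by
  haveI := hasPrincipalDivisors_bar N'
  exact pushforwardAlong_pullbackAlong φ (isIntegral_hom φ) (finiteAlong_hom φ) (isFF_jgen N)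
    (isFF_jgen N') D

/-- **`φ_* φ^* = deg φ` on `J₀`** -/
theorem pushJ_pullJ (φ : E N →ₐ[Kb] E N') (y : JZero N) :
    pushJ φ (pullJ φ y) = finrankAlong Kb φ • y := by
  obtain ⟨D, rfl⟩ := Pic0.mk_surjective y
  obtain ⟨D1, h1, h1'⟩ := coe_degZero_of_pullJ_mk φ D
  obtain ⟨D2, h2, h2'⟩ := coe_degZero_of_pushJ_mk φ D1
  rw [h1, h2]
  have h3 : finrankAlong Kb φ • Pic0.mk D = Pic0.mk (finrankAlong Kb φ • D) :=
    (QuotientAddGroup.mk_nsmul _ _ _).symm
  rw [h3]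
  congr 1
  apply Subtype.ext
  rw [h2', h1', push_pull, AddSubgroup.coe_nsmul, natCast_zsmul]

theorem finrankAlong_ne_zero (φ : E N →ₐ[Kb] E N') : finrankAlong Kb φ ≠ 0 := by
  letI := algebraAlong φ
  haveI : Module.Finite (E N) (E N') := finiteAlong_hom φ
  exact (Module.finrank_pos (R := E N) (M := E N')).ne'

/-- **pull-back `J₀(N) → J₀(N')` along an equivariant homomorphism is `G_ℚ`-equivariant** -/
theorem pullJ_smul {φ : E N →ₐ[Kb] E N'} {σ : GQ} (h : Equivariant φ σ) (y : JZero N) :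
    pullJ φ (σ • y) = σ • pullJ φ y := by
  obtain ⟨D, rfl⟩ := Pic0.mk_surjective y
  rw [galois_smul_pic0_def, SemilinearAut.pic0_smul_mk]
  obtain ⟨D1, h1, h1'⟩ := coe_degZero_of_pullJ_mk φ
    (SemilinearAut.degZeroSMulHom (arithmeticGalois (modularFunctionFieldFull N) σ) D)
  obtain ⟨D2, h2, h2'⟩ := coe_degZero_of_pullJ_mk φ D
  rw [h1, h2, galois_smul_pic0_def, SemilinearAut.pic0_smul_mk]
  congr 1
  apply Subtype.ext
  rw [h1', SemilinearAut.coe_degZeroSMulHom, SemilinearAut.coe_degZeroSMulHom, h2']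
  exact pull_smul h _

end PullJ

/-! ### The two base change squares -/

section Squares

variable {M : ℕ} [NeZero M] {q m : ℕ} [NeZero q] [NeZero m]
  [NeZero (M * q)] [NeZero (M * m)] [NeZero (M * m * q)]

theorem dvd_top : M * q ∣ M * m * q := ⟨m, by ring⟩

variable (M q m) in
/-- the inclusion `ℚ̄(X₀(M q)) → ℚ̄(X₀(M m q))` -/
def inclTop : E (M * q) →ₐ[Kb] E (M * m * q) := incl dvd_top

variable (M m) in
/-- the inclusion `ℚ̄(X₀(M)) → ℚ̄(X₀(M m))` -/
def inclBot : E M →ₐ[Kb] E (M * m) := incl (Dvd.intro m rfl)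

theorem isIncl_inclTop : IsIncl (inclTop M q m) := isIncl_incl _

theorem isIncl_inclBot : IsIncl (inclBot M m) := isIncl_incl _

theorem coe_inclTop (x : E (M * q)) :
    ((inclTop M q m x : E (M * m * q)) : LaurentSeries Kb) = x :=
  isIncl_incl _ x

theorem coe_inclBot (x : E M) : ((inclBot M m x : E (M * m)) : LaurentSeries Kb) = x :=
  isIncl_incl _ x

/-- **Base change in the square `(π_m^*, (α_q)_*)`**, `q ‖ M`, `q ∤ m`. -/
theorem pull_push_alpha (hq : q.Prime) (hqM : q ∣ M) (hq2 : ¬ q ^ 2 ∣ M) (hqm : ¬ q ∣ m)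
    (D : Divisor Kb (E (M * q))) :
    pull (inclBot M m) (push (heckeAlphaBar Kb M q) D)
      = push (heckeAlphaBar Kb (M * m) q) (pull (inclTop M q m) D) := by
  haveI := hasPrincipalDivisors_bar (M * m)
  haveI := hasPrincipalDivisors_bar (M * q)
  haveI := hasPrincipalDivisors_bar (M * m * q)
  obtain ⟨N0, hN0⟩ : ∃ N0, M = N0 * q := ⟨M / q, (Nat.div_mul_cancel hqM).symm⟩
  have hN00 : N0 ≠ 0 := fun h => NeZero.ne M (by rw [hN0, h, zero_mul])
  haveI : NeZero N0 := ⟨hN00⟩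
  haveI : NeZero (N0 * m) := ⟨Nat.mul_ne_zero hN00 (NeZero.ne m)⟩
  have hqN0 : ¬ q ∣ N0 := fun h => hq2 (by
    rw [hN0, pow_two]; exact Nat.mul_dvd_mul_right h q)
  have hqN0m : ¬ q ∣ N0 * m := fun h => by
    rcases (Nat.Prime.dvd_mul hq).mp h with h | h
    · exact hqN0 h
    · exact hqm h
  obtain ⟨y, hy⟩ := Fermat.Agent.S36.DegHecke.exists_jq2 (M := M) (q := q) hqM
  obtain ⟨b, hb⟩ := exists_basis_pow_of_isIncl_dvd hq hN0 hqN0 rfl (heckeAlphaBar Kb M q)
    (isIncl_alpha M q) y hy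
  obtain ⟨b', hb'⟩ := exists_basis_pow_of_isIncl_dvd (N := M * m) (N' := M * m * q)
    (N0 := N0 * m) hq (by rw [hN0]; ring) hqN0m rfl (heckeAlphaBar Kb (M * m) q)
    (isIncl_alpha (M * m) q) (inclTop M q m y) (by rw [coe_inclTop, hy])
  exact pullbackAlong_pushforwardAlong_eq (inclBot M m) (heckeAlphaBar Kb M q)
    (heckeAlphaBar Kb (M * m) q) (inclTop M q m)
    (fun x => Subtype.ext (by rw [coe_inclTop, coe_heckeAlphaBar, coe_heckeAlphaBar,
      coe_inclBot]))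
    (isIntegral_hom _) (isIntegral_hom _) (isIntegral_hom _) (isIntegral_hom _)
    (finiteAlong_hom _) (finiteAlong_hom _)
    (isFF_jgen M) (isFF_jgen (M * m)) (isFF_jgen (M * q)) (isFF_jgen (M * m * q))
    b b' (fun i => by rw [hb', hb, map_pow]) D

/-- **Base change in the square `(π_m^*, (β_q)_*)`**, `q ∣ M`. -/
theorem pull_push_beta (hq : q.Prime) (hqM : q ∣ M) (D : Divisor Kb (E (M * q))) :
    pull (inclBot M m) (push (heckeBetaBar Kb M q) D)
      = push (heckeBetaBar Kb (M * m) q) (pull (inclTop M q m) D) := by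
  haveI := hasPrincipalDivisors_bar (M * m)
  haveI := hasPrincipalDivisors_bar (M * q)
  haveI := hasPrincipalDivisors_bar (M * m * q)
  obtain ⟨b, hb⟩ := exists_basis_pow_of_isDil_dvd hq hqM rfl (heckeBetaBar Kb M q)
    (isDil_beta M q) (jgen (M * q)) (Fermat.Agent.S18.B.Basic.coe_jgen_eq (M * q))
  obtain ⟨b', hb'⟩ := exists_basis_pow_of_isDil_dvd (N := M * m) (N' := M * m * q) hq
    (hqM.trans (Dvd.intro m rfl)) rfl (heckeBetaBar Kb (M * m) q) (isDil_beta (M * m) q)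
    (inclTop M q m (jgen (M * q)))
    (by rw [coe_inclTop, Fermat.Agent.S18.B.Basic.coe_jgen_eq])
  exact pullbackAlong_pushforwardAlong_eq (inclBot M m) (heckeBetaBar Kb M q)
    (heckeBetaBar Kb (M * m) q) (inclTop M q m)
    (fun x => Subtype.ext (by rw [coe_inclTop, coe_heckeBetaBar, coe_heckeBetaBar,
      coe_inclBot]))
    (isIntegral_hom _) (isIntegral_hom _) (isIntegral_hom _) (isIntegral_hom _)
    (finiteAlong_hom _) (finiteAlong_hom _)
    (isFF_jgen M) (isFF_jgen (M * m)) (isFF_jgen (M * q)) (isFF_jgen (M * m * q))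
    b b' (fun i => by rw [hb', hb, map_pow]) D

/-- `(α_q)_* π_m^* = π_m^* (α_q)_*` on `J₀`, `q ‖ M`, `q ∤ m`. -/
theorem alphaPush_pullJ (hq : q.Prime) (hqM : q ∣ M) (hq2 : ¬ q ^ 2 ∣ M) (hqm : ¬ q ∣ m)
    (y : JZero (M * q)) :
    alphaPush (M * m) q (pullJ (inclTop M q m) y)
      = pullJ (inclBot M m) (alphaPush M q y) := by
  obtain ⟨D, rfl⟩ := Pic0.mk_surjective y
  obtain ⟨D1, h1, h1'⟩ := coe_degZero_of_pullJ_mk (inclTop M q m) D
  obtain ⟨D2, h2, h2'⟩ := coe_degZero_of_pushJ_mk (heckeAlphaBar Kb (M * m) q) D1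
  obtain ⟨D3, h3, h3'⟩ := coe_degZero_of_pushJ_mk (heckeAlphaBar Kb M q) D
  obtain ⟨D4, h4, h4'⟩ := coe_degZero_of_pullJ_mk (inclBot M m) D3
  rw [alphaPush, alphaPush, h1, h2, h3, h4]
  congr 1
  apply Subtype.ext
  rw [h2', h1', h4', h3']
  exact (pull_push_alpha hq hqM hq2 hqm _).symm

/-- `(β_q)_* π_m^* = π_m^* (β_q)_*` on `J₀`, `q ∣ M`. -/
theorem betaPush_pullJ (hq : q.Prime) (hqM : q ∣ M) (y : JZero (M * q)) :
    betaPush (M * m) q (pullJ (inclTop M q m) y)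
      = pullJ (inclBot M m) (betaPush M q y) := by
  obtain ⟨D, rfl⟩ := Pic0.mk_surjective y
  obtain ⟨D1, h1, h1'⟩ := coe_degZero_of_pullJ_mk (inclTop M q m) D
  obtain ⟨D2, h2, h2'⟩ := coe_degZero_of_pushJ_mk (heckeBetaBar Kb (M * m) q) D1
  obtain ⟨D3, h3, h3'⟩ := coe_degZero_of_pushJ_mk (heckeBetaBar Kb M q) D
  obtain ⟨D4, h4, h4'⟩ := coe_degZero_of_pullJ_mk (inclBot M m) D3
  rw [betaPush, betaPush, h1, h2, h3, h4]
  congr 1
  apply Subtype.ext
  rw [h2', h1', h4', h3']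
  exact (pull_push_beta hq hqM _).symm

end Squares

/-! ### The reduction -/

section Main

variable {M' : ℕ} [NeZero M'] {q m : ℕ} [NeZero q] [NeZero m]
  [NeZero (M' * q)] [NeZero (M' * m)] [NeZero (M' * m * q)]

/-- **The auxiliary level**: `(NEW-I)` at level `M' m q` implies `(NEW-I)` at level `M' q`
(`q ∤ m`). -/
theorem newInertiaHyp_of_mul {p : ℕ} (hq : q.Prime) (hqM' : q ∣ M') (hq2 : ¬ q ^ 2 ∣ M')
    (hqm : ¬ q ∣ m) (H : NewInertiaHyp (M' * m) q p) : NewInertiaHyp M' q p := by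
  obtain ⟨A, hA, k, hk, hgeo⟩ := H
  refine ⟨A, hA, k * finrankAlong Kb (inclTop M' q m),
    Nat.mul_ne_zero hk (finrankAlong_ne_zero _), ?_⟩
  intro y hy hα hβ hI
  have h0 : k • pullJ (inclTop M' q m) y = 0 := by
    refine hgeo (pullJ (inclTop M' q m) y) ?_ ?_ ?_ ?_
    · obtain ⟨n, hn⟩ := hy
      exact ⟨n, by rw [← map_nsmul, hn, map_zero]⟩
    · rw [alphaPush_pullJ hq hqM' hq2 hqm, hα, map_zero]
    · rw [betaPush_pullJ hq hqM', hβ, map_zero]
    · intro s hs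
      rw [← pullJ_smul (φ := inclTop M' q m) (equivariant_of_isIncl isIncl_inclTop s), hI s hs]
  have h1 := congrArg (pushJ (inclTop M' q m)) h0
  rw [map_nsmul, pushJ_pullJ, map_zero, smul_smul] at h1
  exact h1

end Main

/-- **The input `HI` of `DegHecke.s36_of_newInertia'` from `(NEW-I)` at the levels satisfying an
auxiliary condition `P`** which can be reached by multiplying the level by a number prime to
`q`. -/
theorem forall_newInertiaHyp_of_mul (P : ℕ → ℕ → ℕ → Prop)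
    (hP : ∀ M' q p : ℕ, M' ≠ 0 → q.Prime → p.Prime → ∃ m : ℕ, m ≠ 0 ∧ ¬ q ∣ m ∧ P (M' * m) q p)
    (H : ∀ (M1 q p : ℕ) [NeZero M1] [NeZero q] [NeZero (M1 * q)],
      q.Prime → p.Prime → q ∣ M1 → ¬ q ^ 2 ∣ M1 → q ≠ p → P M1 q p → NewInertiaHyp M1 q p)
    (M' q p : ℕ) [NeZero M'] [NeZero q] [NeZero (M' * q)] (hq : q.Prime) (hp : p.Prime)
    (hqM' : q ∣ M') (hq2 : ¬ q ^ 2 ∣ M') (hqp : q ≠ p) : NewInertiaHyp M' q p := by
  obtain ⟨m, hm0, hqm, hPm⟩ := hP M' q p (NeZero.ne M') hq hp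
  haveI : NeZero m := ⟨hm0⟩
  haveI : NeZero (M' * m) := ⟨Nat.mul_ne_zero (NeZero.ne M') hm0⟩
  haveI : NeZero (M' * m * q) := ⟨Nat.mul_ne_zero (NeZero.ne (M' * m)) (NeZero.ne q)⟩
  refine newInertiaHyp_of_mul hq hqM' hq2 hqm
    (H (M' * m) q p hq hp (hqM'.mul_right m) (fun h => ?_) hqp hPm)
  -- `q² ∣ M' m`, `q ∤ m` ⟹ `q² ∣ M'`
  exact hq2 ((Nat.Coprime.pow_left 2
    ((Nat.Prime.coprime_iff_not_dvd hq).mpr hqm)).dvd_of_dvd_mul_right h)

/-! ### Two choices of the auxiliary level -/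

/-- **Dirichlet**: a prime `r ≡ 11 mod 12` not dividing a given nonzero number. -/
theorem exists_aux_prime (n : ℕ) (hn : n ≠ 0) : ∃ r : ℕ, r.Prime ∧ r % 12 = 11 ∧ ¬ r ∣ n := by
  have hu : IsUnit ((11 : ℕ) : ZMod 12) := (ZMod.isUnit_iff_coprime 11 12).mpr (by decide)
  obtain ⟨r, hrn, hr, hmod⟩ := Nat.forall_exists_prime_gt_and_eq_mod hu n
  refine ⟨r, hr, ?_, fun hd => ?_⟩
  · have := (ZMod.natCast_eq_natCast_iff' r 11 12).mp hmod
    simpa using this
  · exact absurd (Nat.le_of_dvd (Nat.pos_of_ne_zero hn) hd) (not_le.mpr hrn)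

/-- **(NEW-I) everywhere from (NEW-I) at the levels `M0 r`, `r ≡ 11 mod 12` a prime not dividing
`M0 q p`.** -/
theorem forall_newInertiaHyp_of_aux_prime
    (H : ∀ (M0 q p r : ℕ) [NeZero M0] [NeZero q] [NeZero (M0 * r)] [NeZero (M0 * r * q)],
      q.Prime → p.Prime → q ∣ M0 → ¬ q ^ 2 ∣ M0 → q ≠ p → r.Prime → r % 12 = 11 →
      ¬ r ∣ M0 * q * p → NewInertiaHyp (M0 * r) q p)
    (M' q p : ℕ) [NeZero M'] [NeZero q] [NeZero (M' * q)] (hq : q.Prime) (hp : p.Prime)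
    (hqM' : q ∣ M') (hq2 : ¬ q ^ 2 ∣ M') (hqp : q ≠ p) : NewInertiaHyp M' q p := by
  obtain ⟨r, hr, hr12, hrn⟩ := exists_aux_prime (M' * q * p)
    (Nat.mul_ne_zero (NeZero.ne (M' * q)) hp.ne_zero)
  haveI : NeZero r := ⟨hr.ne_zero⟩
  haveI : NeZero (M' * r) := ⟨Nat.mul_ne_zero (NeZero.ne M') hr.ne_zero⟩
  haveI : NeZero (M' * r * q) := ⟨Nat.mul_ne_zero (NeZero.ne (M' * r)) (NeZero.ne q)⟩
  have hqr : ¬ q ∣ r := fun h =>
    hrn (((Nat.prime_dvd_prime_iff_eq hq hr).mp h) ▸ (Dvd.intro_left M' rfl).mul_right p)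
  exact newInertiaHyp_of_mul hq hqM' hq2 hqr (H M' q p r hq hp hqM' hq2 hqp hr hr12 hrn)

/-- **(NEW-I) everywhere from (NEW-I) at the levels divisible by `4` (`q` odd), resp. by `9`
(`q = 2`)**: `Γ₀(4)`, `Γ₀(9)` have no elliptic elements. -/
theorem forall_newInertiaHyp_of_four_nine
    (H : ∀ (M1 q p : ℕ) [NeZero M1] [NeZero q] [NeZero (M1 * q)],
      q.Prime → p.Prime → q ∣ M1 → ¬ q ^ 2 ∣ M1 → q ≠ p → (if q = 2 then 9 else 4) ∣ M1 →
      NewInertiaHyp M1 q p)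
    (M' q p : ℕ) [NeZero M'] [NeZero q] [NeZero (M' * q)] (hq : q.Prime) (hp : p.Prime)
    (hqM' : q ∣ M') (hq2 : ¬ q ^ 2 ∣ M') (hqp : q ≠ p) : NewInertiaHyp M' q p := by
  refine forall_newInertiaHyp_of_mul (fun M1 q _ => (if q = 2 then 9 else 4) ∣ M1) ?_ H
    M' q p hq hp hqM' hq2 hqp
  intro M' q p _ hq _
  refine ⟨if q = 2 then 9 else 4, ?_, ?_, Dvd.intro_left M' rfl⟩
  · split_ifs <;> norm_num
  · split_ifs with h2
    · subst h2; norm_num
    · intro hd
      have h4 : q ∣ 2 ^ 2 := by simpa using hd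
      exact h2 ((Nat.prime_dvd_prime_iff_eq hq Nat.prime_two).mp (hq.dvd_of_dvd_pow h4))

end Fermat.Agent.S36.AuxPrime
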