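import Mathlib
import Fermat.Agent.S36.AuxPrime

/-!
# PROJECT V (S36), top layer (helper6): the level in the form `M * q`

The X₀-slices of the chain are written at the levels `M`, `M * q`, `M * q * q` with `q ∤ M`
(`M = M''`).  `forall_newInertiaHyp_of_levelForm` reduces the input `HI` of
`DegHecke.s36_of_newInertia'` to `(NEW-I)` at the levels `M * q`, `q ∤ M`, with an auxiliary prime
`r ≡ 11 mod 12`, `r ∣ M`, `r ≠ q`, `r ≠ p` (chain decision (D1)).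
-/

set_option autoImplicit false
set_option linter.unusedSectionVars false
set_option linter.style.haveILetI false

namespace Fermat.Agent.S36.LevelForm

open Fermat.Agent.S36.OfNewInertia Fermat.Agent.S36.AuxPrime

/-- the auxiliary condition on the level `M1` (`q ‖ M1`): `M1 = M * q` with `q ∤ M` and an auxiliary
prime `r ≡ 11 mod 12` dividing `M`, different from `q` and `p` -/
def AuxLevel (M1 q p : ℕ) : Prop :=
  q ∣ M1 → ¬ q ^ 2 ∣ M1 → ∃ M r : ℕ, M1 = M * q ∧ M ≠ 0 ∧ ¬ q ∣ M ∧ r.Prime ∧ r % 12 = 11 ∧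
    r ∣ M ∧ r ≠ q ∧ r ≠ p

theorem exists_auxLevel (M' q p : ℕ) (hM' : M' ≠ 0) (hq : q.Prime) (hp : p.Prime) :
    ∃ m : ℕ, m ≠ 0 ∧ ¬ q ∣ m ∧ AuxLevel (M' * m) q p := by
  obtain ⟨r, hr, hr12, hrn⟩ := exists_aux_prime (M' * q * p)
    (Nat.mul_ne_zero (Nat.mul_ne_zero hM' hq.ne_zero) hp.ne_zero)
  have hrq : r ≠ q := fun h => hrn (h ▸ (Dvd.intro_left M' rfl).mul_right p)
  have hrp : r ≠ p := fun h => hrn (h ▸ Dvd.intro_left (M' * q) rfl)
  have hqr : ¬ q ∣ r := fun h => hrq ((Nat.prime_dvd_prime_iff_eq hq hr).mp h).symm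
  refine ⟨r, hr.ne_zero, hqr, fun hqM hq2 => ?_⟩
  -- `q ∣ M' r`, `q ∤ r` ⟹ `q ∣ M'`
  have hqM' : q ∣ M' := (hq.dvd_mul.mp hqM).resolve_right hqr
  obtain ⟨M0, hM0⟩ := hqM'
  refine ⟨M0 * r, r, ?_, ?_, ?_, hr, hr12, Dvd.intro_left M0 rfl, hrq, hrp⟩
  · rw [hM0]; ring
  · have hM00 : M0 ≠ 0 := by
      rintro rfl
      rw [mul_zero] at hM0
      exact hM' hM0
    exact Nat.mul_ne_zero hM00 hr.ne_zero
  · intro hd
    apply hq2
    have h1 : q ∣ M0 := (hq.dvd_mul.mp hd).resolve_right hqr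
    obtain ⟨M00, hM00⟩ := h1
    refine ⟨M00 * r, ?_⟩
    rw [hM0, hM00]; ring

/-- **The input `HI` of `DegHecke.s36_of_newInertia'` from `(NEW-I)` at the levels `M * q`,
`q ∤ M`, `r ∣ M` an auxiliary prime.** -/
theorem forall_newInertiaHyp_of_levelForm
    (H : ∀ (M q p r : ℕ) [NeZero M] [NeZero q] [NeZero (M * q)] [NeZero (M * q * q)],
      q.Prime → p.Prime → ¬ q ∣ M → q ≠ p → r.Prime → r % 12 = 11 → r ∣ M → r ≠ q → r ≠ p →
      NewInertiaHyp (M * q) q p)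
    (M' q p : ℕ) [NeZero M'] [NeZero q] [NeZero (M' * q)] (hq : q.Prime) (hp : p.Prime)
    (hqM' : q ∣ M') (hq2 : ¬ q ^ 2 ∣ M') (hqp : q ≠ p) : NewInertiaHyp M' q p := by
  refine forall_newInertiaHyp_of_mul AuxLevel
    (fun M' q p hM' hq hp => exists_auxLevel M' q p hM' hq hp) ?_ M' q p hq hp hqM' hq2 hqp
  intro M1 q p _ _ _ hq hp hqM1 hq2 hqp hP
  obtain ⟨M, r, rfl, hM0, hqM, hr, hr12, hrM, hrq, hrp⟩ := hP hqM1 hq2
  haveI : NeZero M := ⟨hM0⟩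
  exact H M q p r hq hp hqM hqp hr hr12 hrM hrq hrp

end Fermat.Agent.S36.LevelForm
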