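import Mathlib
import Fermat.Agent.S36.GlobalSectionBar

/-!
# PROJECT V (S36), chain (V17): small facts for the final assembly

* `divisorBelow_nsmul`, `divisorBelow_nsmul_apply` : the divisor below is additive in the divisor
  above (`divisorBelow (m • D) = m • divisorBelow D`), so that the divisor
  `divisorBelow ((q - 1) (q² - 1) • D)` of the lattice charts is `(q² - 1) • ((q - 1) • D₀)` with
  `D₀ = divisorBelow D` (shape of the common generator `t₀ ^ (q² - 1)`).
-/

set_option autoImplicit false
set_option linter.unusedSectionVars false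

noncomputable section

namespace Fermat.Agent.S36.NewInertiaAux

open AlgebraicCurve ModularCurve
open Fermat.Agent.S36.GlobalSectionBar Fermat.Agent.S36.K0PlacesExt

local notation "Kb" => AlgebraicClosure ℚ

variable {N : ℕ} {K0 : IntermediateField ℚ Kb}

theorem divisorBelow_nsmul_apply (m : ℕ) (D : Divisor Kb (modularFunctionFieldBar N))
    (v : Place K0 (laurentBaseChange K0 (modularFunctionFieldFull N))) :
    divisorBelow N K0 (m • D) v = (m : ℤ) * divisorBelow N K0 D v := by
  rw [divisorBelow_apply, divisorBelow_apply]
  show (m • D) (placeAbove N K0 v) = (m : ℤ) * D (placeAbove N K0 v)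
  rw [Finsupp.smul_apply, nsmul_eq_mul]

theorem divisorBelow_nsmul (m : ℕ) (D : Divisor Kb (modularFunctionFieldBar N)) :
    divisorBelow N K0 (m • D) = m • divisorBelow N K0 D := by
  ext v
  rw [divisorBelow_nsmul_apply, Finsupp.smul_apply, nsmul_eq_mul]

theorem divisorBelow_mul_nsmul (m m' : ℕ) (D : Divisor Kb (modularFunctionFieldBar N)) :
    divisorBelow N K0 ((m * m') • D) = m' • (m • divisorBelow N K0 D) := by
  rw [divisorBelow_nsmul, mul_nsmul]

end Fermat.Agent.S36.NewInertiaAux
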