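import Mathlib
import Fermat.Agent.S36.NewInertiaLeaf
import Fermat.Agent.S36.NewInertiaAux
import Fermat.Agent.S36.LeafX
import Fermat.Agent.S36.LeafXInst
import Fermat.Agent.S36.LeafT0
import Fermat.Agent.S36.RegT0
import Fermat.Agent.S36.ChartHypX0
import Fermat.Agent.S36.VChartsOfLoc
import Fermat.Agent.S36.ThreeValX0InstLinks
import Fermat.Agent.S36.ChartsX0Leaf
import Fermat.Agent.S36.VertX0Final
import Fermat.Agent.S36.FormalLift.LatticeX0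
import Fermat.Agent.S36.FormalLift.LatticeSep
import Fermat.Agent.S36.FormalLift.LatticeOpenData
import Fermat.Agent.S36.BranchRingsCharts
import Fermat.Agent.S36.ValDatumNorm
import Fermat.Agent.S36.LevelForm

/-!
# PROJECT V (S36), chain (V17), layer 7: the final assembly at `X₀`

`O = W A`, `K = K0 A` (the inertia field), `F = FK0 A (M q q)`, `k = ResidueField A`,
`κ = F_k(X₀(M))`, `ϖ = q`, `φ = φ₂ = x₂ = j₀ j₁ j₂`, `X = LeafX.datumD hA hqM HM Z lk` for a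
`ThreeValX0.Hyp` `Z` with its links `lk : GlueNormX0.Link`, `L : CompNormalX0Base.Link`.

* section `Soft` : the soft-core inputs of `VChartsOfLoc.exists_vcharts` and of
  `NewInertiaCharts.Leaf` (`irreducible_q`, `transcendental_φ₂(_inv)`, `finiteDimensional_φ₂(_inv)`,
  `hgauss(')`, `hvert(')`, `hrank`, `hfinAll`, `hinj`, `hBranch`), all for the family `Wof X`;
* `leaf_of_t0`, `T0Concl`, `leaf_of_t0Concl` : the record `Leaf X Vc Ku π` for ANY lattice charts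
  `Vc` with `Vc.W = Wof X`, `Vc.ϖ = q`, `Vc.φ = x₂`, from `div (f ^ e) = n Vc.D` and the `t₀`-block
  (`t₀` with `t₂₀ t₁₁ t₀₂ hR₁ hR₂ hv₀ pt pt'`);
* `Pieces`, `Pieces'`, `exists_leaf` : `VChartsOfLoc.exists_vcharts` for the divisor
  `(q² - 1) • ((q - 1) • D0)` from (P2) `LocPrincipal` at the closed points of the special fibre of
  the two charts, then the leaf from the `t₀`-block for these charts;
* `compLinkY`, `leafHyp_of_blocks` : **`LeafXInst.LeafHyp hA hqM HM p` at the actual `Y`**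
  (`ThreeValX0Inst.hypX0`) from (P2) and the `t₀`-block; with `LeafXInst.newInertiaHyp_of_leafY`
  this is (NEW-I) at level `M q`.
-/

set_option autoImplicit false
set_option linter.unusedSectionVars false
set_option linter.style.haveILetI false
set_option linter.unusedVariables false
set_option synthInstance.maxHeartbeats 400000

noncomputable section

namespace Fermat.Agent.S36.NewInertiaFinal

open Polynomial ModularCurve AlgebraicCurve IsLocalRing IntermediateField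
open Fermat.Agent.S18.C.SmallDVR Fermat.Agent.S36.ChartX0 Fermat.Agent.S36.ChartRing
open Fermat.Agent.S36.PowerBasisK0 (FK tB)
open Fermat.Agent.S36.GlueNorm Fermat.Agent.S36.NewInertiaDatum Fermat.Agent.S36.TripleValues
open Fermat.Agent.S36.SoftCore Fermat.Agent.S36.SoftCoreInput Fermat.Agent.S36.OpenLift
open Fermat.Agent.S36.Lattice Fermat.Agent.S36.FormalLift Fermat.Agent.S36.ChartVert
open Fermat.Agent.S36.NewInertiaCharts
open Fermat.Agent.S36.CompNormalX0 (x2)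

local notation "Kb" => AlgebraicClosure ℚ

local instance instACkNF (A : ValuationSubring Kb) : IsAlgClosed (ResidueField ↥A) :=
  Fermat.Agent.S18.ResidueBasics.isAlgClosed_residueField A

local instance instNeZeroMulNF (M q : ℕ) [NeZero M] [NeZero q] : NeZero (M * q) :=
  ⟨Nat.mul_ne_zero (NeZero.ne M) (NeZero.ne q)⟩

variable {q : ℕ} [hq : Fact q.Prime] {M : ℕ} [NeZero M] {A : ValuationSubring Kb} [NeZero q]
variable [CharP (ResidueField ↥A) q]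
variable (hA : A.LiesOverPrime q) (hqM : ¬ q ∣ M)
variable {gM : ℕ}
  (HM : Fermat.Agent.S18.NonSpecial.RiemannHyp (ResidueField ↥A)
    ↥(modularFunctionFieldFullC (ResidueField ↥A) M) gM)
  (Z : ThreeValX0.Hyp (A.inertiaSubgroupIn ℚ) M q
    ↥(modularFunctionFieldFullC (ResidueField ↥A) M))
  (lk : GlueNormX0.Link (A.inertiaSubgroupIn ℚ) hA hqM Z)
  {gL gk : ℕ} (L : CompNormalX0Base.Link hA hqM gL gk Z)

/-- the chart function `x₂ = j₀ j₁ j₂`, typed in the `ChartX0` spelling -/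
abbrev φ₂ (A : ValuationSubring Kb) (M q : ℕ) [NeZero M] [NeZero q] : FK0 A (M * q * q) :=
  x2 (A.inertiaSubgroupIn ℚ) M q

local notation "XD" => LeafX.datumD hA hqM HM Z lk

/-! ### the soft-core inputs -/

section Soft

include hA in
theorem irreducible_q : Irreducible ((q : ℕ) : ↥(W A)) := irreducible_ell hA

theorem transcendental_φ₂ : Transcendental ↥(K0 A) (φ₂ A M q) :=
  ChartsX0Leaf.transcendental_x2_K0 A M

theorem transcendental_φ₂_inv : Transcendental ↥(K0 A) (φ₂ A M q)⁻¹ :=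
  ChartsX0Leaf.transcendental_x2_inv_K0 A M

theorem finiteDimensional_φ₂ : FiniteDimensional (↥(K0 A))⟮φ₂ A M q⟯ (FK0 A (M * q * q)) :=
  ChartsX0Leaf.finiteDimensional_x2_K0 A M

theorem finiteDimensional_φ₂_inv :
    FiniteDimensional (↥(K0 A))⟮(φ₂ A M q)⁻¹⟯ (FK0 A (M * q * q)) :=
  ChartsX0Leaf.finiteDimensional_x2_inv_K0 A M

include L in
theorem hgauss (w : Comp) : IsGaussVert ((q : ℕ) : ↥(W A)) (φ₂ A M q) (Wof XD w) := by
  have h := @LatticeX0.isGaussVert_Wfam (A.inertiaSubgroupIn ℚ) M q _ _ _ _ _ _ Z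
    (ResidueField ↥A) _ _ _ ↥(W A) _ (algebraW A M) (algebraW A (M * q)) (algebraW A (M * q * q))
    _ L.base
  cases w
  · exact h Comp.c20
  · exact h Comp.c11
  · exact h Comp.c02

include L in
theorem hgauss' (w : Comp) : IsGaussVert ((q : ℕ) : ↥(W A)) (φ₂ A M q)⁻¹ (Wof XD w) := by
  have h := @LatticeX0.isGaussVert_Wfam_inv (A.inertiaSubgroupIn ℚ) M q _ _ _ _ _ _ Z
    (ResidueField ↥A) _ _ _ ↥(W A) _ (algebraW A M) (algebraW A (M * q)) (algebraW A (M * q * q))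
    _ L.base
  cases w
  · exact h Comp.c20
  · exact h Comp.c11
  · exact h Comp.c02

include L in
theorem hvert : ∀ W' : ValuationSubring (FK0 A (M * q * q)),
    (∀ c : ↥(W A), algebraMap ↥(W A) (FK0 A (M * q * q)) c ∈ W') → φ₂ A M q ∈ W' →
    (algebraMap ↥(W A) (FK0 A (M * q * q)) ((q : ℕ) : ↥(W A)))⁻¹ ∉ W' →
    (∀ s : (↥(W A))[X], (∃ i, IsUnit (s.coeff i)) →
      (aeval (A := FK0 A (M * q * q)) (φ₂ A M q) s)⁻¹ ∈ W') →
    W' ∈ Set.range (Wof XD) :=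
  VertX0Final.hvert_x2 hA hqM Z L.hO₀ (transcendental_φ₂ (A := A) (M := M)) (Wof XD)
    ⟨Comp.c20, rfl⟩ ⟨Comp.c11, rfl⟩ ⟨Comp.c02, rfl⟩

include L in
theorem hvert' : ∀ W' : ValuationSubring (FK0 A (M * q * q)),
    (∀ c : ↥(W A), algebraMap ↥(W A) (FK0 A (M * q * q)) c ∈ W') → (φ₂ A M q)⁻¹ ∈ W' →
    (algebraMap ↥(W A) (FK0 A (M * q * q)) ((q : ℕ) : ↥(W A)))⁻¹ ∉ W' →
    (∀ s : (↥(W A))[X], (∃ i, IsUnit (s.coeff i)) →
      (aeval (A := FK0 A (M * q * q)) (φ₂ A M q)⁻¹ s)⁻¹ ∈ W') →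
    W' ∈ Set.range (Wof XD) :=
  VertX0Final.hvert_x2_inv hA hqM Z L.hO₀ (transcendental_φ₂_inv (A := A) (M := M)) (Wof XD)
    ⟨Comp.c20, rfl⟩ ⟨Comp.c11, rfl⟩ ⟨Comp.c02, rfl⟩

theorem hrank : ∀ V ∈ Set.range (Wof XD), ∀ g ∈ V, g⁻¹ ∉ V →
    ∀ y : FK0 A (M * q * q), ∃ e : ℕ, g ^ e * y ∈ V := by
  rw [← LeafX.Wfam_eq_Wof_datumD]
  exact LatticeX0.hrank_Wfam Z

theorem hfinAll : ∀ f : FK0 A (M * q * q), f ≠ 0 →
    {v : Place ↥(K0 A) (FK0 A (M * q * q)) | v.ord f ≠ 0}.Finite :=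
  fun _ hf => GlobalSectionBar.finite_ord_ne_zero_K0 hf

theorem hinj : Function.Injective (Wof XD) := by
  rw [← LeafX.Wfam_eq_Wof_datumD]
  exact LatticeX0.Wfam_injective Z

include L in
theorem hBranch (w : Comp) : ∃ a i₀, @CompNormalX0.Branch (A.inertiaSubgroupIn ℚ) M q _ _ _ _ _ _ Z
    ↥(W A) _ (algebraW A M) (algebraW A (M * q)) (algebraW A (M * q * q)) (ResidueField ↥A) _ _
    (algebraMap ↥(W A) (ResidueField ↥A)) (Wof XD w) (rof XD w) a i₀ := by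
  cases w
  · exact ⟨_, _, L.branch₂₀⟩
  · exact ⟨_, _, L.branch₁₁⟩
  · exact ⟨_, _, L.branch₀₂⟩

end Soft

/-! ### the record `Leaf` from the lattice charts and the `t₀`-block -/

section LeafAssembly

variable {ι ι' : Type*} [IsDiscreteValuationRing ↥(W A)]

set_option maxHeartbeats 1600000 in
include L in
/-- **`NewInertiaCharts.Leaf` at `X₀`**: the lattice charts `Vc` have the vertical family of the
datum, uniformiser `q`, chart function `x₂`; the Kummer function has `div (f ^ e) = n Vc.D`; the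
common generator `t₀` comes with the `t₀`-block (`RegT0.exists_t0` + `LeafT0.t0_fields`). -/
theorem leaf_of_t0 (Vc : VCharts ↥(W A) ↥(K0 A) (FK0 A (M * q * q)) Comp ι ι')
    (hW : Vc.W = Wof XD) (hVϖ : Vc.ϖ = ((q : ℕ) : ↥(W A))) (hVφ : Vc.φ = φ₂ A M q)
    {n : ℕ} (hn0 : n ≠ 0) (hnq : Nat.Coprime n q) (Ku : (XD).Kummer n)
    (hfD : ∀ v : Place ↥(K0 A) (FK0 A (M * q * q)),
      v.ord (Ku.f ^ (((XD).q - 1) * ((XD).q ^ 2 - 1))) = n * Vc.D v)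
    (t₀ : FK0 A (M * q * q))
    (ht : t₀ ∈ (XD).W₂₀ ∧ t₀ ∈ (XD).W₁₁ ∧ t₀ ∈ (XD).W₀₂)
    (hR₁ : (XD).Reg (Ku.g₁ ^ ((XD).q - 1) * (XD).N₁ t₀))
    (hR₂ : (XD).Reg (Ku.g₂ ^ ((XD).q - 1) * (XD).N₂ t₀))
    (hv₀ : ∀ b ∈ (XD).S, ∃ c : ResidueField ↥A, c ≠ 0 ∧
      (∀ m, (XD).E.val b ((XD).r₂₀ ⟨Ku.f ^ ((XD).q - 1) * t₀ ^ n, m⟩) c) ∧
      (∀ m, (XD).E.val b ((XD).r₁₁ ⟨Ku.f ^ ((XD).q - 1) * t₀ ^ n, m⟩) c) ∧
      (∀ m, (XD).E.val b ((XD).r₀₂ ⟨Ku.f ^ ((XD).q - 1) * t₀ ^ n, m⟩) c))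
    (pt : ∀ i : ι, PtCond XD Vc.charts.ϖF (Vc.charts.S i)
      (Vc.charts.algebraMap_mem_S i Vc.charts.ϖ) (Vc.s i) (t₀ ^ ((XD).q ^ 2 - 1)))
    (pt' : ∀ j : ι', PtCond XD Vc.charts.ϖF (Vc.charts.S' j)
      (Vc.charts.algebraMap_mem_S' j Vc.charts.ϖ) (Vc.s' j) (t₀ ^ ((XD).q ^ 2 - 1))) :
    Nonempty (Leaf XD Vc Ku (algebraMap ↥(W A) (ResidueField ↥A))) := by
  have hϖ : Irreducible Vc.ϖ := hVϖ ▸ irreducible_q hA
  have hφ : Transcendental ↥(K0 A) Vc.φ := hVφ ▸ transcendental_φ₂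
  have hφ' : Transcendental ↥(K0 A) Vc.φ⁻¹ := hVφ ▸ transcendental_φ₂_inv
  haveI hfd : FiniteDimensional (↥(K0 A))⟮Vc.φ⟯ (FK0 A (M * q * q)) :=
    hVφ ▸ finiteDimensional_φ₂
  haveI hfd' : FiniteDimensional (↥(K0 A))⟮Vc.φ⁻¹⟯ (FK0 A (M * q * q)) :=
    hVφ ▸ finiteDimensional_φ₂_inv
  have hv : ∀ W' : ValuationSubring (FK0 A (M * q * q)),
      (∀ c : ↥(W A), algebraMap ↥(W A) (FK0 A (M * q * q)) c ∈ W') → Vc.φ ∈ W' →
      (algebraMap ↥(W A) (FK0 A (M * q * q)) Vc.ϖ)⁻¹ ∉ W' →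
      (∀ s : (↥(W A))[X], (∃ i, IsUnit (s.coeff i)) → (aeval Vc.φ s)⁻¹ ∈ W') →
      W' ∈ Set.range Vc.W := by
    rw [hW, hVϖ, hVφ]
    exact hvert hA hqM HM Z lk L
  have hv' : ∀ W' : ValuationSubring (FK0 A (M * q * q)),
      (∀ c : ↥(W A), algebraMap ↥(W A) (FK0 A (M * q * q)) c ∈ W') → Vc.φ⁻¹ ∈ W' →
      (algebraMap ↥(W A) (FK0 A (M * q * q)) Vc.ϖ)⁻¹ ∉ W' →
      (∀ s : (↥(W A))[X], (∃ i, IsUnit (s.coeff i)) → (aeval Vc.φ⁻¹ s)⁻¹ ∈ W') →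
      W' ∈ Set.range Vc.W := by
    rw [hW, hVϖ, hVφ]
    exact hvert' hA hqM HM Z lk L
  have hinjV : Function.Injective Vc.W := hW ▸ hinj hA hqM HM Z lk
  have hgV : ∀ w, IsGaussVert Vc.ϖ Vc.φ (Vc.W w) := by
    rw [hW, hVϖ, hVφ]
    exact hgauss hA hqM HM Z lk L
  have hgV' : ∀ w, IsGaussVert Vc.ϖ Vc.φ⁻¹ (Vc.W w) := by
    rw [hW, hVϖ, hVφ]
    exact hgauss' hA hqM HM Z lk L
  have h𝒜 : Vc.charts.𝒜 = (chart ↥(W A) (φ₂ A M q)).toSubring := by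
    rw [← hVφ]
    exact Vc.coe_charts_𝒜 hϖ hφ hv
  have h𝒜' : Vc.charts.𝒜' = (chart ↥(W A) (φ₂ A M q)⁻¹).toSubring := by
    rw [← hVφ]
    exact Vc.coe_charts_𝒜' hϖ hφ' hv'
  exact ⟨
    { LeafX.xSide_datumD hA hqM HM Z lk hn0 hnq with
      hW := hW
      hϖ := hϖ
      hφ := hφ
      hφ' := hφ'
      hfd := hfd
      hfd' := hfd'
      hvert := hv
      hvert' := hv'
      hfD := hfD
      hϖW := hVϖ ▸ (LeafX.xSide_datumD hA hqM HM Z lk hn0 hnq).hϖW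
      t₀ := t₀
      t₂₀ := ht.1
      t₁₁ := ht.2.1
      t₀₂ := ht.2.2
      hR₁ := hR₁
      hR₂ := hR₂
      hv₀ := hv₀
      sep := fun i => hW ▸ Vc.sep hϖ hφ hinjV hgV i
      sep' := fun j => hW ▸ Vc.sep' hϖ hφ' hinjV hgV' j
      br := fun i => @BranchRingsCharts.branchRings_S_of_branch Comp (A.inertiaSubgroupIn ℚ) M q
        _ _ _ _ _ _ Z ↥(W A) _ (algebraW A M) (algebraW A (M * q)) (algebraW A (M * q * q))
        (ResidueField ↥A) _ _ (algebraMap ↥(W A) (ResidueField ↥A)) ι ι' Vc.charts (Wof XD) (rof XD)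
        (hBranch hA hqM HM Z lk L) h𝒜 (fun i => Vc.hg0 i) n hn0 i
      br' := fun j => @BranchRingsCharts.branchRings_S'_of_branch Comp (A.inertiaSubgroupIn ℚ) M q
        _ _ _ _ _ _ Z ↥(W A) _ (algebraW A M) (algebraW A (M * q)) (algebraW A (M * q * q))
        (ResidueField ↥A) _ _ (algebraMap ↥(W A) (ResidueField ↥A)) ι ι' Vc.charts (Wof XD) (rof XD)
        (hBranch hA hqM HM Z lk L) h𝒜' (fun j => Vc.hg0' j) n hn0 j
      pt := pt
      pt' := pt' }⟩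

/-- **the conclusion of the `t₀`-block** for lattice charts `Vc` and a Kummer function `Ku`: the
common generator with the fields `t₂₀ t₁₁ t₀₂ hR₁ hR₂ hv₀ pt pt'` of `NewInertiaCharts.Leaf` -/
def T0Concl (Vc : VCharts ↥(W A) ↥(K0 A) (FK0 A (M * q * q)) Comp ι ι') {n : ℕ}
    (Ku : (XD).Kummer n) : Prop :=
  ∃ t₀ : FK0 A (M * q * q),
    (t₀ ∈ (XD).W₂₀ ∧ t₀ ∈ (XD).W₁₁ ∧ t₀ ∈ (XD).W₀₂) ∧
    (XD).Reg (Ku.g₁ ^ ((XD).q - 1) * (XD).N₁ t₀) ∧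
    (XD).Reg (Ku.g₂ ^ ((XD).q - 1) * (XD).N₂ t₀) ∧
    (∀ b ∈ (XD).S, ∃ c : ResidueField ↥A, c ≠ 0 ∧
      (∀ m, (XD).E.val b ((XD).r₂₀ ⟨Ku.f ^ ((XD).q - 1) * t₀ ^ n, m⟩) c) ∧
      (∀ m, (XD).E.val b ((XD).r₁₁ ⟨Ku.f ^ ((XD).q - 1) * t₀ ^ n, m⟩) c) ∧
      (∀ m, (XD).E.val b ((XD).r₀₂ ⟨Ku.f ^ ((XD).q - 1) * t₀ ^ n, m⟩) c)) ∧
    (∀ i : ι, PtCond XD Vc.charts.ϖF (Vc.charts.S i)
      (Vc.charts.algebraMap_mem_S i Vc.charts.ϖ) (Vc.s i) (t₀ ^ ((XD).q ^ 2 - 1))) ∧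
    (∀ j : ι', PtCond XD Vc.charts.ϖF (Vc.charts.S' j)
      (Vc.charts.algebraMap_mem_S' j Vc.charts.ϖ) (Vc.s' j) (t₀ ^ ((XD).q ^ 2 - 1)))

include L in
theorem leaf_of_t0Concl (Vc : VCharts ↥(W A) ↥(K0 A) (FK0 A (M * q * q)) Comp ι ι')
    (hW : Vc.W = Wof XD) (hVϖ : Vc.ϖ = ((q : ℕ) : ↥(W A))) (hVφ : Vc.φ = φ₂ A M q)
    {n : ℕ} (hn0 : n ≠ 0) (hnq : Nat.Coprime n q) (Ku : (XD).Kummer n)
    (hfD : ∀ v : Place ↥(K0 A) (FK0 A (M * q * q)),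
      v.ord (Ku.f ^ (((XD).q - 1) * ((XD).q ^ 2 - 1))) = n * Vc.D v)
    (h : T0Concl hA hqM HM Z lk Vc Ku) :
    Nonempty (Leaf XD Vc Ku (algebraMap ↥(W A) (ResidueField ↥A))) := by
  obtain ⟨t₀, ht, hR₁, hR₂, hv₀, pt, pt'⟩ := h
  exact leaf_of_t0 hA hqM HM Z lk L Vc hW hVϖ hVφ hn0 hnq Ku hfD t₀ ht hR₁ hR₂ hv₀ pt pt'

end LeafAssembly

/-! ### the lattice charts from `LocPrincipal`, then the leaf -/

section Charts

open Fermat.Agent.S36.Centre Fermat.Agent.S36.LocalGenOrd Fermat.Agent.S36.LocalGenV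
  Fermat.Agent.S36.LocalIntrinsic Fermat.Agent.S36.KrullInter

variable [IsDiscreteValuationRing ↥(W A)]

/-- shortcut instances for the two chart rings of `x₂` (all propositions) -/
local instance instFDφ₂ : FiniteDimensional (↥(K0 A))⟮φ₂ A M q⟯ (FK0 A (M * q * q)) :=
  finiteDimensional_φ₂

local instance instFDφ₂' : FiniteDimensional (↥(K0 A))⟮(φ₂ A M q)⁻¹⟯ (FK0 A (M * q * q)) :=
  finiteDimensional_φ₂_inv

local instance instFracChart :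
    IsFractionRing ↥(chart ↥(W A) (φ₂ A M q)) (FK0 A (M * q * q)) :=
  chart_isFractionRing (O := ↥(W A)) transcendental_φ₂

local instance instNoethChart : IsNoetherianRing ↥(chart ↥(W A) (φ₂ A M q)) :=
  chart_isNoetherianRing (O := ↥(W A)) transcendental_φ₂

local instance instIntClChart : IsIntegrallyClosed ↥(chart ↥(W A) (φ₂ A M q)) :=
  chart_isIntegrallyClosed (O := ↥(W A)) transcendental_φ₂

local instance instFracChart' :
    IsFractionRing ↥(chart ↥(W A) (φ₂ A M q)⁻¹) (FK0 A (M * q * q)) :=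
  chart_isFractionRing (O := ↥(W A)) transcendental_φ₂_inv

local instance instNoethChart' : IsNoetherianRing ↥(chart ↥(W A) (φ₂ A M q)⁻¹) :=
  chart_isNoetherianRing (O := ↥(W A)) transcendental_φ₂_inv

local instance instIntClChart' : IsIntegrallyClosed ↥(chart ↥(W A) (φ₂ A M q)⁻¹) :=
  chart_isIntegrallyClosed (O := ↥(W A)) transcendental_φ₂_inv

/-- the local generators of the first cover of `Vc` come from chart pieces for the divisor `De`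
(literal shape of the conclusion of `VChartsOfLoc.exists_vcharts`) -/
def Pieces {ι ι' : Type*} (Vc : VCharts ↥(W A) ↥(K0 A) (FK0 A (M * q * q)) Comp ι ι')
    (De : Place ↥(K0 A) (FK0 A (M * q * q)) → ℤ) : Prop :=
  ∃ g₀ : ι → chart ↥(W A) (φ₂ A M q), ∀ i, (Vc.g i : FK0 A (M * q * q)) = (g₀ i : FK0 A (M * q * q)) ∧
    IsPiece (nOf De) (g₀ i) (Vc.s i)

/-- the same for the second cover -/
def Pieces' {ι ι' : Type*} (Vc : VCharts ↥(W A) ↥(K0 A) (FK0 A (M * q * q)) Comp ι ι')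
    (De : Place ↥(K0 A) (FK0 A (M * q * q)) → ℤ) : Prop :=
  ∃ g₀' : ι' → chart ↥(W A) (φ₂ A M q)⁻¹, ∀ j,
    (Vc.g' j : FK0 A (M * q * q)) = (g₀' j : FK0 A (M * q * q)) ∧
    IsPiece (nOf De) (g₀' j) (Vc.s' j)

set_option maxHeartbeats 1600000 in
include L in
/-- **lattice charts and leaf facts for one Kummer function**, from `LocPrincipal` at the closed
points of the special fibre of the two charts (P2) and the `t₀`-block -/
theorem exists_leaf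
    (hloc : ∀ m : Ideal ↥(chart ↥(W A) (φ₂ A M q)), m.IsMaximal →
      piChart (φ₂ A M q) ((q : ℕ) : ↥(W A)) ∈ m →
      LocalGenCore.LocPrincipal (F := FK0 A (M * q * q)) m)
    (hloc' : ∀ m : Ideal ↥(chart ↥(W A) (φ₂ A M q)⁻¹), m.IsMaximal →
      piChart (φ₂ A M q)⁻¹ ((q : ℕ) : ↥(W A)) ∈ m →
      LocalGenCore.LocPrincipal (F := FK0 A (M * q * q)) m)
    {n : ℕ} (hn0 : n ≠ 0) (hnq : Nat.Coprime n q) (Ku : (XD).Kummer n)
    (D0 : Divisor ↥(K0 A) (FK0 A (M * q * q)))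
    (hf : ∀ v : Place ↥(K0 A) (FK0 A (M * q * q)), v.ord Ku.f = (n : ℤ) * D0 v)
    (ht0 : ∀ (r r' : ℕ)
      (Vc : VCharts ↥(W A) ↥(K0 A) (FK0 A (M * q * q)) Comp (Fin r) (Fin r')),
      Vc.W = Wof XD → Vc.ϖ = ((q : ℕ) : ↥(W A)) → Vc.φ = φ₂ A M q →
      Vc.D = (q ^ 2 - 1) • ((q - 1) • D0) →
      Pieces Vc (((q ^ 2 - 1) • ((q - 1) • D0) : Divisor ↥(K0 A) (FK0 A (M * q * q))) :
        Place ↥(K0 A) (FK0 A (M * q * q)) → ℤ) →
      Pieces' Vc (((q ^ 2 - 1) • ((q - 1) • D0) : Divisor ↥(K0 A) (FK0 A (M * q * q))) :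
        Place ↥(K0 A) (FK0 A (M * q * q)) → ℤ) →
      T0Concl hA hqM HM Z lk Vc Ku) :
    ∃ (r r' : ℕ) (Vc : VCharts ↥(W A) ↥(K0 A) (FK0 A (M * q * q)) Comp (Fin r) (Fin r')),
      Vc.D = (q ^ 2 - 1) • ((q - 1) • D0) ∧
      Nonempty (Leaf XD Vc Ku (algebraMap ↥(W A) (ResidueField ↥A))) := by
  haveI : Nonempty Comp := ⟨Comp.c20⟩
  obtain ⟨r, r', Vc, hW, hVϖ, hVφ, hVD, hp, hp'⟩ :=
    VChartsOfLoc.exists_vcharts (O := ↥(W A)) (K := ↥(K0 A)) (Wof XD) (irreducible_q hA)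
      (transcendental_φ₂ (A := A) (M := M) (q := q)) transcendental_φ₂_inv
      (hgauss hA hqM HM Z lk L) (hgauss' hA hqM HM Z lk L)
      (hvert hA hqM HM Z lk L) (hvert' hA hqM HM Z lk L) (hrank hA hqM HM Z lk)
      hfinAll ((q ^ 2 - 1) • ((q - 1) • D0)) hloc hloc'
  refine ⟨r, r', Vc, hVD, ?_⟩
  refine leaf_of_t0Concl hA hqM HM Z lk L Vc hW hVϖ hVφ hn0 hnq Ku ?_
    (ht0 r r' Vc hW hVϖ hVφ hVD hp hp')
  intro v
  rw [hVD, Fermat.Agent.S34.KummerZ.ord_pow, hf v, Finsupp.smul_apply, Finsupp.smul_apply,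
    nsmul_eq_mul, nsmul_eq_mul]
  show (((q - 1) * (q ^ 2 - 1) : ℕ) : ℤ) * ((n : ℤ) * D0 v) = _
  push_cast
  ring

end Charts

/-! ### `LeafXInst.LeafHyp` at the actual `Y` -/

section Final

open Fermat.Agent.S36.Centre Fermat.Agent.S36.LeafXInst Fermat.Agent.S36.ThreeValX0Inst

include HM in
/-- the `CompNormalX0Base.Link` of the actual `Y` -/
theorem compLinkY : CompNormalX0Base.Link hA hqM gM gM (hypX0 hA hqM) :=
  ThreeValX0InstLinks.compLink hA hqM (Fermat.Agent.S34.CoreZX0OfGeneric.HX0 hA hqM HM)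

set_option maxHeartbeats 1600000 in
/-- **`LeafHyp` from (P2) `LocPrincipal` on the two charts and the `t₀`-block** -/
theorem leafHyp_of_blocks (p : ℕ) (hp : p.Prime) (hpq : p ≠ q)
    (hloc : ∀ m : Ideal ↥(chart ↥(W A) (φ₂ A M q)), m.IsMaximal →
      piChart (φ₂ A M q) ((q : ℕ) : ↥(W A)) ∈ m →
      LocalGenCore.LocPrincipal (F := FK0 A (M * q * q)) m)
    (hloc' : ∀ m : Ideal ↥(chart ↥(W A) (φ₂ A M q)⁻¹), m.IsMaximal →
      piChart (φ₂ A M q)⁻¹ ((q : ℕ) : ↥(W A)) ∈ m →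
      LocalGenCore.LocPrincipal (F := FK0 A (M * q * q)) m)
    (ht0 : haveI := isDVR hA
      ∀ (a : ℕ) (Ku : (datumY hA hqM HM).Kummer (p ^ a))
      (D0 : Divisor ↥(K0 A) (FK0 A (M * q * q))),
      (∀ v : Place ↥(K0 A) (FK0 A (M * q * q)), v.ord Ku.f = ((p ^ a : ℕ) : ℤ) * D0 v) →
      ∀ (r r' : ℕ)
      (Vc : VCharts ↥(W A) ↥(K0 A) (FK0 A (M * q * q)) Comp (Fin r) (Fin r')),
      Vc.W = Wof (datumY hA hqM HM) → Vc.ϖ = ((q : ℕ) : ↥(W A)) → Vc.φ = φ₂ A M q →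
      Vc.D = (q ^ 2 - 1) • ((q - 1) • D0) →
      Pieces Vc (((q ^ 2 - 1) • ((q - 1) • D0) : Divisor ↥(K0 A) (FK0 A (M * q * q))) :
        Place ↥(K0 A) (FK0 A (M * q * q)) → ℤ) →
      Pieces' Vc (((q ^ 2 - 1) • ((q - 1) • D0) : Divisor ↥(K0 A) (FK0 A (M * q * q))) :
        Place ↥(K0 A) (FK0 A (M * q * q)) → ℤ) →
      T0Concl hA hqM HM (hypX0 hA hqM) (linkY hA hqM) Vc Ku) :
    LeafHyp hA hqM HM p := by
  haveI := isDVR hA
  intro a D _ _ Ku hord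
  have hn0 : p ^ a ≠ 0 := pow_ne_zero _ hp.ne_zero
  have hnq : Nat.Coprime (p ^ a) q :=
    Nat.Coprime.pow_left a ((Nat.coprime_primes hp hq.out).2 hpq)
  have hf : ∀ v : Place ↥(K0 A) (FK0 A (M * q * q)),
      v.ord Ku.f = ((p ^ a : ℕ) : ℤ) * GlobalSectionBar.divisorBelow (M * q * q) (K0 A) D v :=
    fun v => GlobalSectionBar.ord_eq_mul_divisorBelow (N := M * q * q) (K0 := K0 A)
      (n := ((p ^ a : ℕ) : ℤ)) (D := D) (f₀ := Ku.f) hord v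
  obtain ⟨r, r', Vc, hVD, hLeaf⟩ := exists_leaf hA hqM HM (hypX0 hA hqM) (linkY hA hqM)
    (compLinkY hA hqM HM) hloc hloc' hn0 hnq Ku
    (GlobalSectionBar.divisorBelow (M * q * q) (K0 A) D) hf
    (ht0 a Ku (GlobalSectionBar.divisorBelow (M * q * q) (K0 A) D) hf)
  refine ⟨Fin r, Fin r', inferInstance, inferInstance, Vc, ?_, hLeaf⟩
  intro v
  rw [hVD, NewInertiaAux.divisorBelow_mul_nsmul]

end Final

end Fermat.Agent.S36.NewInertiaFinal
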