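/-
PROJECT V (S36), slice V-NormChartX0 (helper12): **norms of chart elements land in charts.**

This is the element `g : A₁` asked by `BranchCoreT.PDatum.toTDatum_of_norm` (chain (V9), helper1
#2624) on BOTH symmetric charts of level `N₀ q q`:

* abstract (`normAlong_mem_chart`): for fields `F₁ →φ F₂`, `O` acting compatibly, `x : F₁`:
  `a ∈ chart O (φ x) → ThreeVal.normAlong φ a ∈ chart O x`  (Mathlib `Algebra.isIntegral_norm`;
  no finiteness, no separability);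
* `X₀`, finite charts: `a ∈ chart O x₂ → N_α a ∈ chart O x₁`, `N_β a ∈ chart O x₁`
  (`Afin₂ = chart O (α j₀) = chart O (β j₀)` as sets, `Afin₁ = chart O j₀`); one level down
  `a ∈ chart O x₁ → N_{α₀} a, N_{β₀} a ∈ chart O j`;
* `X₀`, charts at infinity (NO integrality of `Ainf₂` over `α(Ainf₁)` is used, it is false):
  `a ∈ chart O x₂⁻¹ → ∃ N₀, ∀ N ≥ N₀, x₂ ^ N * a ∈ chart O x₂ ∧
     ∃ M₀, ∀ M ≥ M₀, x₁⁻¹ ^ M * N_α (x₂ ^ N * a) ∈ chart O x₁⁻¹` (same for `β`);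
* the concrete versions over `O₀ = W A` in helper10's `ChartX0` types.
-/
import Mathlib
import Fermat.Agent.S36.ChartsX0
import Fermat.Agent.S36.ChartOverlap
import Fermat.Agent.S36.ThreeVal

set_option autoImplicit false
set_option linter.unusedSectionVars false
set_option linter.style.haveILetI false
set_option linter.unusedVariables false
set_option synthInstance.maxHeartbeats 400000
set_option maxHeartbeats 1000000

noncomputable section

namespace Fermat.Agent.S36.NormChartX0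

open Polynomial
open Fermat.Agent.S36.ChartRing Fermat.Agent.S36.ChartOverlap Fermat.Agent.S36.PowerBasisK0
open Fermat.Agent.S36.ChartsX0 Fermat.Agent.S36.ThreeVal
open Fermat.Agent.S18.C.SmallDVR

local notation "Kb" => AlgebraicClosure ℚ

/-! ### abstract: the norm of an element integral over `O[φ x]` is integral over `O[x]` -/

section Abstract

variable {O : Type*} [CommRing O] {F₁ F₂ : Type*} [Field F₁] [Field F₂] [Algebra O F₁]
  [Algebra O F₂]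

/-- `φ` maps `O[x]` into `O[φ x]` -/
theorem map_mem_adjoin (φ : F₁ →+* F₂)
    (hφ : ∀ c : O, φ (algebraMap O F₁ c) = algebraMap O F₂ c) (x : F₁) {r : F₁}
    (hr : r ∈ Algebra.adjoin O ({x} : Set F₁)) : φ r ∈ Algebra.adjoin O ({φ x} : Set F₂) := by
  induction hr using Algebra.adjoin_induction with
  | mem y hy =>
    rw [Set.mem_singleton_iff] at hy
    subst hy
    exact Algebra.self_mem_adjoin_singleton O _
  | algebraMap c =>
    rw [hφ]
    exact Subalgebra.algebraMap_mem _ c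
  | add y z _ _ hy hz =>
    rw [map_add]
    exact Subalgebra.add_mem _ hy hz
  | mul y z _ _ hy hz =>
    rw [map_mul]
    exact Subalgebra.mul_mem _ hy hz

/-- every element of `O[φ x]` is the image of an element of `O[x]` -/
theorem exists_map_eq_of_mem_adjoin (φ : F₁ →+* F₂)
    (hφ : ∀ c : O, φ (algebraMap O F₁ c) = algebraMap O F₂ c) (x : F₁) {s : F₂}
    (hs : s ∈ Algebra.adjoin O ({φ x} : Set F₂)) :
    ∃ r ∈ Algebra.adjoin O ({x} : Set F₁), φ r = s := by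
  induction hs using Algebra.adjoin_induction with
  | mem y hy =>
    rw [Set.mem_singleton_iff] at hy
    subst hy
    exact ⟨x, Algebra.self_mem_adjoin_singleton O _, rfl⟩
  | algebraMap c => exact ⟨algebraMap O F₁ c, Subalgebra.algebraMap_mem _ c, hφ c⟩
  | add y z _ _ hy hz =>
    obtain ⟨r, hr, rfl⟩ := hy
    obtain ⟨r', hr', rfl⟩ := hz
    exact ⟨r + r', Subalgebra.add_mem _ hr hr', map_add _ _ _⟩
  | mul y z _ _ hy hz =>
    obtain ⟨r, hr, rfl⟩ := hy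
    obtain ⟨r', hr', rfl⟩ := hz
    exact ⟨r * r', Subalgebra.mul_mem _ hr hr', map_mul _ _ _⟩

/-- **the norm of a chart element lies in the lower chart**: if `a` is integral over `O[φ x]`
then `N_φ a` is integral over `O[x]` -/
theorem normAlong_mem_chart (φ : F₁ →+* F₂)
    (hφ : ∀ c : O, φ (algebraMap O F₁ c) = algebraMap O F₂ c) {x : F₁} {a : F₂}
    (ha : a ∈ chart O (φ x)) : normAlong φ a ∈ chart O x := by
  -- the restriction `O[x] → O[φ x]` of `φ`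
  let f : ↥(Algebra.adjoin O ({x} : Set F₁)) →+* ↥(Algebra.adjoin O ({φ x} : Set F₂)) :=
    (φ.comp (Algebra.adjoin O ({x} : Set F₁)).val.toRingHom).codRestrict
      (Algebra.adjoin O ({φ x} : Set F₂)).toSubring fun r => map_mem_adjoin φ hφ x r.2
  have hf : Function.Surjective f := by
    rintro ⟨s, hs⟩
    obtain ⟨r, hr, rfl⟩ := exists_map_eq_of_mem_adjoin φ hφ x hs
    exact ⟨⟨r, hr⟩, rfl⟩
  letI i1 : Algebra F₁ F₂ := φ.toAlgebra
  letI i2 : Algebra ↥(Algebra.adjoin O ({x} : Set F₁)) ↥(Algebra.adjoin O ({φ x} : Set F₂)) :=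
    f.toAlgebra
  letI i3 : Algebra ↥(Algebra.adjoin O ({x} : Set F₁)) F₂ :=
    (φ.comp (algebraMap ↥(Algebra.adjoin O ({x} : Set F₁)) F₁)).toAlgebra
  -- NB: no type ascription: the `SMul` instances must be the `Algebra.toSMul` ones
  haveI i4 := IsScalarTower.of_algebraMap_eq (R := ↥(Algebra.adjoin O ({x} : Set F₁)))
    (S := ↥(Algebra.adjoin O ({φ x} : Set F₂))) (A := F₂) fun r => rfl
  haveI i5 := IsScalarTower.of_algebraMap_eq (R := ↥(Algebra.adjoin O ({x} : Set F₁)))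
    (S := F₁) (A := F₂) fun r => rfl
  haveI : Algebra.IsIntegral ↥(Algebra.adjoin O ({x} : Set F₁))
      ↥(Algebra.adjoin O ({φ x} : Set F₂)) := Algebra.isIntegral_of_surjective hf
  have ha' : IsIntegral ↥(Algebra.adjoin O ({φ x} : Set F₂)) a := ha
  have h1 : IsIntegral ↥(Algebra.adjoin O ({x} : Set F₁)) a := isIntegral_trans a ha'
  have h2 : IsIntegral ↥(Algebra.adjoin O ({x} : Set F₁)) (Algebra.norm F₁ a) :=
    Algebra.isIntegral_norm F₁ h1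
  exact h2

end Abstract

/-! ### `X₀`: the finite charts -/

section Fin

variable (H : Subgroup (Kb ≃ₐ[ℚ] Kb))
variable {N0 q : ℕ} [NeZero N0] [NeZero q] [NeZero (N0 * q)] [NeZero (N0 * q * q)]
variable (O : Type*) [CommRing O]
variable [Algebra O (FK H N0)] [Algebra O (FK H (N0 * q))] [Algebra O (FK H (N0 * q * q))]

/-- `N_α : Afin₂ → Afin₁` -/
theorem normAlong_alphaK_mem_chart_x1 (hq : q.Prime)
    (hα : ∀ c : O, alphaK H (N0 * q) q (algebraMap O _ c) = algebraMap O _ c)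
    {a : FK H (N0 * q * q)} (ha : a ∈ chart O (x2 H N0 q)) :
    normAlong (alphaK H (N0 * q) q) a ∈ chart O (x1 H N0 q) := by
  have h1 : a ∈ chart O (alphaK H (N0 * q) q (j0K H (N0 * q))) := by
    rw [← jj0_eq_alpha]
    exact (mem_chart_x2_iff H O hq 0 a).mp ha
  exact (mem_chart_x1_iff H O hq 0 _).mpr (normAlong_mem_chart _ hα h1)

/-- `N_β : Afin₂ → Afin₁` -/
theorem normAlong_betaK_mem_chart_x1 (hq : q.Prime)
    (hβ : ∀ c : O, betaK H (N0 * q) q (algebraMap O _ c) = algebraMap O _ c)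
    {a : FK H (N0 * q * q)} (ha : a ∈ chart O (x2 H N0 q)) :
    normAlong (betaK H (N0 * q) q) a ∈ chart O (x1 H N0 q) := by
  have h1 : a ∈ chart O (betaK H (N0 * q) q (j0K H (N0 * q))) := by
    rw [← jj1_eq_beta]
    exact (mem_chart_x2_iff H O hq 1 a).mp ha
  exact (mem_chart_x1_iff H O hq 0 _).mpr (normAlong_mem_chart _ hβ h1)

/-- `N_{α₀} : Afin₁ → Afin₀` -/
theorem normAlong_alphaK_mem_chart_x0 (hq : q.Prime)
    (hα : ∀ c : O, alphaK H N0 q (algebraMap O _ c) = algebraMap O _ c)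
    {a : FK H (N0 * q)} (ha : a ∈ chart O (x1 H N0 q)) :
    normAlong (alphaK H N0 q) a ∈ chart O (j0K H N0) := by
  have h1 : a ∈ chart O (alphaK H N0 q (j0K H N0)) := by
    rw [ChartsX0.alphaK_j0K]
    exact (mem_chart_x1_iff H O hq 0 a).mp ha
  exact normAlong_mem_chart _ hα h1

/-- `N_{β₀} : Afin₁ → Afin₀` -/
theorem normAlong_betaK_mem_chart_x0 (hq : q.Prime)
    (hβ : ∀ c : O, betaK H N0 q (algebraMap O _ c) = algebraMap O _ c)
    {a : FK H (N0 * q)} (ha : a ∈ chart O (x1 H N0 q)) :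
    normAlong (betaK H N0 q) a ∈ chart O (j0K H N0) := by
  have h1 : a ∈ chart O (betaK H N0 q (j0K H N0)) := (mem_chart_x1_iff H O hq 1 a).mp ha
  exact normAlong_mem_chart _ hβ h1

end Fin

/-! ### passing between the two charts of one level -/

section Overlap

variable {O : Type*} [CommRing O] {F : Type*} [Field F] [Algebra O F]

/-- the chart function lies in its chart ring -/
theorem gen_mem_chart (φ : F) : φ ∈ chart O φ := by
  have h : IsIntegral (Algebra.adjoin O ({φ} : Set F))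
      (algebraMap (Algebra.adjoin O ({φ} : Set F)) F
        ⟨φ, Algebra.subset_adjoin (Set.mem_singleton φ)⟩) := isIntegral_algebraMap
  exact h

/-- `a ∈ A_{1/φ}` ⟹ `φ ^ N * a ∈ A_φ` for all large `N` -/
theorem exists_forall_pow_mul_mem_chart {φ : F} (hφ0 : φ ≠ 0) {a : F}
    (ha : a ∈ chart O φ⁻¹) : ∃ N₀ : ℕ, ∀ N, N₀ ≤ N → φ ^ N * a ∈ chart O φ := by
  obtain ⟨n, hn⟩ := (mem_overlap_iff (O := O) hφ0 a).mp (chart_inv_le_overlap hφ0 ha)
  refine ⟨n, fun N hN => ?_⟩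
  have h : φ ^ N * a = φ ^ (N - n) * (φ ^ n * a) := by
    rw [← mul_assoc, ← pow_add, Nat.sub_add_cancel hN]
  rw [h]
  exact Subalgebra.mul_mem _ (Subalgebra.pow_mem _ (gen_mem_chart φ) _) hn

/-- `y ∈ A_φ` ⟹ `φ⁻¹ ^ M * y ∈ A_{1/φ}` for all large `M` -/
theorem exists_forall_inv_pow_mul_mem_chart {φ : F} (hφ0 : φ ≠ 0) {y : F}
    (hy : y ∈ chart O φ) : ∃ M₀ : ℕ, ∀ M, M₀ ≤ M → φ⁻¹ ^ M * y ∈ chart O φ⁻¹ := by
  obtain ⟨m, hm⟩ := (mem_overlap_iff_inv (O := O) hφ0 y).mp (chart_le_overlap φ hy)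
  refine ⟨m, fun M hM => ?_⟩
  have h : φ⁻¹ ^ M * y = φ⁻¹ ^ (M - m) * (φ⁻¹ ^ m * y) := by
    rw [← mul_assoc, ← pow_add, Nat.sub_add_cancel hM]
  rw [h]
  exact Subalgebra.mul_mem _ (Subalgebra.pow_mem _ (gen_mem_chart φ⁻¹) _) hm

end Overlap

/-! ### `X₀`: the charts at infinity -/

section Inf

variable (H : Subgroup (Kb ≃ₐ[ℚ] Kb))
variable {N0 q : ℕ} [NeZero N0] [NeZero q] [NeZero (N0 * q)] [NeZero (N0 * q * q)]
variable (O : Type*) [CommRing O]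
variable [Algebra O (FK H N0)] [Algebra O (FK H (N0 * q))] [Algebra O (FK H (N0 * q * q))]

theorem x1_ne_zero : x1 H N0 q ≠ 0 := by
  rw [← prod_fam1]
  exact Finset.prod_ne_zero_iff.mpr fun i _ => fam1_ne_zero H N0 q i

theorem x2_ne_zero : x2 H N0 q ≠ 0 := by
  rw [← prod_fam2]
  exact Finset.prod_ne_zero_iff.mpr fun i _ => fam2_ne_zero H N0 q i

/-- **the element `g` of `toTDatum_of_norm` on the chart `{x₂ ≠ 0}`, along `α`**:
`g = x₁⁻¹ ^ M * N_α (x₂ ^ N * a) ∈ Ainf₁` for `a ∈ Ainf₂`, all large `N` and then all large `M` -/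
theorem exists_normAlong_alphaK_mem_chart_inv_x1 (hq : q.Prime)
    (hα : ∀ c : O, alphaK H (N0 * q) q (algebraMap O _ c) = algebraMap O _ c)
    {a : FK H (N0 * q * q)} (ha : a ∈ chart O (x2 H N0 q)⁻¹) :
    ∃ N₀ : ℕ, ∀ N, N₀ ≤ N → x2 H N0 q ^ N * a ∈ chart O (x2 H N0 q) ∧
      ∃ M₀ : ℕ, ∀ M, M₀ ≤ M →
        (x1 H N0 q)⁻¹ ^ M * normAlong (alphaK H (N0 * q) q) (x2 H N0 q ^ N * a) ∈
          chart O (x1 H N0 q)⁻¹ := by
  obtain ⟨N₀, hN₀⟩ := exists_forall_pow_mul_mem_chart (O := O) (x2_ne_zero H) ha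
  refine ⟨N₀, fun N hN => ⟨hN₀ N hN, ?_⟩⟩
  exact exists_forall_inv_pow_mul_mem_chart (x1_ne_zero H)
    (normAlong_alphaK_mem_chart_x1 H O hq hα (hN₀ N hN))

/-- the same along `β` -/
theorem exists_normAlong_betaK_mem_chart_inv_x1 (hq : q.Prime)
    (hβ : ∀ c : O, betaK H (N0 * q) q (algebraMap O _ c) = algebraMap O _ c)
    {a : FK H (N0 * q * q)} (ha : a ∈ chart O (x2 H N0 q)⁻¹) :
    ∃ N₀ : ℕ, ∀ N, N₀ ≤ N → x2 H N0 q ^ N * a ∈ chart O (x2 H N0 q) ∧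
      ∃ M₀ : ℕ, ∀ M, M₀ ≤ M →
        (x1 H N0 q)⁻¹ ^ M * normAlong (betaK H (N0 * q) q) (x2 H N0 q ^ N * a) ∈
          chart O (x1 H N0 q)⁻¹ := by
  obtain ⟨N₀, hN₀⟩ := exists_forall_pow_mul_mem_chart (O := O) (x2_ne_zero H) ha
  refine ⟨N₀, fun N hN => ⟨hN₀ N hN, ?_⟩⟩
  exact exists_forall_inv_pow_mul_mem_chart (x1_ne_zero H)
    (normAlong_betaK_mem_chart_x1 H O hq hβ (hN₀ N hN))

/-- one level down, along `α₀` -/
theorem exists_normAlong_alphaK_mem_chart_inv_x0 (hq : q.Prime)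
    (hα : ∀ c : O, alphaK H N0 q (algebraMap O _ c) = algebraMap O _ c)
    {a : FK H (N0 * q)} (ha : a ∈ chart O (x1 H N0 q)⁻¹) :
    ∃ N₀ : ℕ, ∀ N, N₀ ≤ N → x1 H N0 q ^ N * a ∈ chart O (x1 H N0 q) ∧
      ∃ M₀ : ℕ, ∀ M, M₀ ≤ M →
        (j0K H N0)⁻¹ ^ M * normAlong (alphaK H N0 q) (x1 H N0 q ^ N * a) ∈
          chart O (j0K H N0)⁻¹ := by
  obtain ⟨N₀, hN₀⟩ := exists_forall_pow_mul_mem_chart (O := O) (x1_ne_zero H) ha
  refine ⟨N₀, fun N hN => ⟨hN₀ N hN, ?_⟩⟩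
  exact exists_forall_inv_pow_mul_mem_chart (j0K_ne_zero H N0)
    (normAlong_alphaK_mem_chart_x0 H O hq hα (hN₀ N hN))

/-- one level down, along `β₀` -/
theorem exists_normAlong_betaK_mem_chart_inv_x0 (hq : q.Prime)
    (hβ : ∀ c : O, betaK H N0 q (algebraMap O _ c) = algebraMap O _ c)
    {a : FK H (N0 * q)} (ha : a ∈ chart O (x1 H N0 q)⁻¹) :
    ∃ N₀ : ℕ, ∀ N, N₀ ≤ N → x1 H N0 q ^ N * a ∈ chart O (x1 H N0 q) ∧
      ∃ M₀ : ℕ, ∀ M, M₀ ≤ M →
        (j0K H N0)⁻¹ ^ M * normAlong (betaK H N0 q) (x1 H N0 q ^ N * a) ∈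
          chart O (j0K H N0)⁻¹ := by
  obtain ⟨N₀, hN₀⟩ := exists_forall_pow_mul_mem_chart (O := O) (x1_ne_zero H) ha
  refine ⟨N₀, fun N hN => ⟨hN₀ N hN, ?_⟩⟩
  exact exists_forall_inv_pow_mul_mem_chart (j0K_ne_zero H N0)
    (normAlong_betaK_mem_chart_x0 H O hq hβ (hN₀ N hN))

end Inf

/-! ### concrete: `O₀ = W A`, helper10's `ChartX0` types -/

section Concrete

open Fermat.Agent.S36.ChartX0

variable {q : ℕ} [hq : Fact q.Prime] (A : ValuationSubring Kb)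
variable (N0 : ℕ) [NeZero N0] [NeZero q] [NeZero (N0 * q)] [NeZero (N0 * q * q)]

/-- helper10's `O₀`-algebra structure, on the type written as `PowerBasisK0.FK` -/
local instance algWFK (N : ℕ) : Algebra ↥(W A) (FK (A.inertiaSubgroupIn ℚ) N) := algebraW A N

/-- `N_α : Afin₂ → Afin₁` over `O₀` -/
theorem normAlong_alphaK_mem_chartX0_x1 {a : FK0 A (N0 * q * q)}
    (ha : a ∈ chartX0 A (N0 * q * q) (x2 (A.inertiaSubgroupIn ℚ) N0 q)) :
    (normAlong (alphaK (A.inertiaSubgroupIn ℚ) (N0 * q) q) a : FK0 A (N0 * q)) ∈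
      chartX0 A (N0 * q) (x1 (A.inertiaSubgroupIn ℚ) N0 q) :=
  normAlong_alphaK_mem_chart_x1 (A.inertiaSubgroupIn ℚ) ↥(W A) hq.out
    (alphaK_algebraMap_W A (N0 * q) q) ha

/-- `N_β : Afin₂ → Afin₁` over `O₀` -/
theorem normAlong_betaK_mem_chartX0_x1 {a : FK0 A (N0 * q * q)}
    (ha : a ∈ chartX0 A (N0 * q * q) (x2 (A.inertiaSubgroupIn ℚ) N0 q)) :
    (normAlong (betaK (A.inertiaSubgroupIn ℚ) (N0 * q) q) a : FK0 A (N0 * q)) ∈
      chartX0 A (N0 * q) (x1 (A.inertiaSubgroupIn ℚ) N0 q) :=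
  normAlong_betaK_mem_chart_x1 (A.inertiaSubgroupIn ℚ) ↥(W A) hq.out
    (betaK_algebraMap_W A (N0 * q) q) ha

/-- `N_{α₀} : Afin₁ → Afin₀` over `O₀` -/
theorem normAlong_alphaK_mem_chartX0_x0 {a : FK0 A (N0 * q)}
    (ha : a ∈ chartX0 A (N0 * q) (x1 (A.inertiaSubgroupIn ℚ) N0 q)) :
    (normAlong (alphaK (A.inertiaSubgroupIn ℚ) N0 q) a : FK0 A N0) ∈
      chartX0 A N0 (j0K (A.inertiaSubgroupIn ℚ) N0) :=
  normAlong_alphaK_mem_chart_x0 (A.inertiaSubgroupIn ℚ) ↥(W A) hq.out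
    (alphaK_algebraMap_W A N0 q) ha

/-- `N_{β₀} : Afin₁ → Afin₀` over `O₀` -/
theorem normAlong_betaK_mem_chartX0_x0 {a : FK0 A (N0 * q)}
    (ha : a ∈ chartX0 A (N0 * q) (x1 (A.inertiaSubgroupIn ℚ) N0 q)) :
    (normAlong (betaK (A.inertiaSubgroupIn ℚ) N0 q) a : FK0 A N0) ∈
      chartX0 A N0 (j0K (A.inertiaSubgroupIn ℚ) N0) :=
  normAlong_betaK_mem_chart_x0 (A.inertiaSubgroupIn ℚ) ↥(W A) hq.out
    (betaK_algebraMap_W A N0 q) ha

/-- `N_α`, typed in helper10's `FK0` -/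
abbrev normAlphaK0 (a : FK0 A (N0 * q * q)) : FK0 A (N0 * q) :=
  normAlong (alphaK (A.inertiaSubgroupIn ℚ) (N0 * q) q) a

/-- `N_β`, typed in helper10's `FK0` -/
abbrev normBetaK0 (a : FK0 A (N0 * q * q)) : FK0 A (N0 * q) :=
  normAlong (betaK (A.inertiaSubgroupIn ℚ) (N0 * q) q) a

/-- **`g` of `toTDatum_of_norm` on `{x₂ ≠ 0}` over `O₀`, along `α`** -/
theorem exists_normAlong_alphaK_mem_chartX0_inv_x1 {a : FK0 A (N0 * q * q)}
    (ha : a ∈ chartX0 A (N0 * q * q) (x2K0 (q := q) A N0)⁻¹) :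
    ∃ N₀ : ℕ, ∀ N, N₀ ≤ N →
      x2K0 (q := q) A N0 ^ N * a ∈ chartX0 A (N0 * q * q) (x2K0 (q := q) A N0) ∧
      ∃ M₀ : ℕ, ∀ M, M₀ ≤ M →
        (x1K0 (q := q) A N0)⁻¹ ^ M * normAlphaK0 A N0 (x2K0 (q := q) A N0 ^ N * a) ∈
          chartX0 A (N0 * q) (x1K0 (q := q) A N0)⁻¹ :=
  exists_normAlong_alphaK_mem_chart_inv_x1 (A.inertiaSubgroupIn ℚ) ↥(W A) hq.out
    (alphaK_algebraMap_W A (N0 * q) q) ha

/-- the same along `β` -/
theorem exists_normAlong_betaK_mem_chartX0_inv_x1 {a : FK0 A (N0 * q * q)}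
    (ha : a ∈ chartX0 A (N0 * q * q) (x2K0 (q := q) A N0)⁻¹) :
    ∃ N₀ : ℕ, ∀ N, N₀ ≤ N →
      x2K0 (q := q) A N0 ^ N * a ∈ chartX0 A (N0 * q * q) (x2K0 (q := q) A N0) ∧
      ∃ M₀ : ℕ, ∀ M, M₀ ≤ M →
        (x1K0 (q := q) A N0)⁻¹ ^ M * normBetaK0 A N0 (x2K0 (q := q) A N0 ^ N * a) ∈
          chartX0 A (N0 * q) (x1K0 (q := q) A N0)⁻¹ :=
  exists_normAlong_betaK_mem_chart_inv_x1 (A.inertiaSubgroupIn ℚ) ↥(W A) hq.out
    (betaK_algebraMap_W A (N0 * q) q) ha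

end Concrete

end Fermat.Agent.S36.NormChartX0
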