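/-
PROJECT V (S36), slice V-NormTripleX0 (helper12): **the `κ`-level content of the hypothesis `hN` of
`BranchCoreT.PDatum.toTDatum_of_norm`** (chain (V9): the three branches through a node coincide),
on BOTH symmetric charts of level `N₀ q q`, hypotheses-first on `Y : ThreeValX0.Hyp H N0 q κ`.
No `PDatum` inside: the consumer (`BranchX0` / `BranchFinX0` / `BranchInfX0`) only wraps the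
statements into its subtypes.

* values of the chart functions (any membership proofs): `r₂₀ x₂ = J^(1+q+q²)`, `r₁₁ x₂ = J^(q+2)`,
  `r₀₂ x₂ = J^(q²+q+1)`, `red₁ x₁ = red₂ x₁ = J^(q+1)`; memberships `x₂ ∈ W₂₀ W₁₁ W₀₂`,
  `x₁, x₁⁻¹ ∈ V₁ V₂`;
* `hN_fin` : `a ∈ chart O x₂ ∩ W₂₀ ∩ W₁₁ ∩ W₀₂`, `g := N_α a` ⟹ `g ∈ chart O x₁`,
  `red₁ g = r₂₀ a * r₁₁ a ^ (q-1)`, `φ (red₂ g) = r₀₂ a ^ q`   (`c = c' = 1`, `e = q-1`, `e' = q`);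
* `norm_inf` (no chart): `g := x₁⁻¹ ^ M * N_α (x₂ ^ N * a)`, `M ≥ N (2 q² + 3 q + 1)` ⟹
  `red₁ g = (J⁻¹)^e₁ * (r₂₀ a * r₁₁ a ^ (q-1))`, `φ (red₂ g) = (J⁻¹)^e₂ * r₀₂ a ^ q`;
* `hN_inf` : the same with `a ∈ chart O x₂⁻¹`, `x₂ ^ N * a ∈ chart O x₂`, `g ∈ chart O x₁⁻¹`
  (`c = (J⁻¹)^e₁`, `c' = (J⁻¹)^e₂ ∈ chart k J⁻¹`; `c' ∉ n` as soon as `J⁻¹ ∉ n`, i.e. `n` is not a cusp).
-/
import Mathlib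
import Fermat.Agent.S36.NormChartX0
import Fermat.Agent.S36.ChartsX0Leaf
import Fermat.Agent.S36.BranchKappaX0

set_option autoImplicit false
set_option linter.unusedSectionVars false
set_option linter.style.haveILetI false
set_option linter.unusedVariables false
set_option synthInstance.maxHeartbeats 400000
set_option maxHeartbeats 1000000

noncomputable section

namespace Fermat.Agent.S36.NormTripleX0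

open Polynomial
open Fermat.Agent.S36.ChartRing Fermat.Agent.S36.PowerBasisK0 Fermat.Agent.S36.JIntegral
open Fermat.Agent.S36.ThreeVal Fermat.Agent.S36.CompNormalX0

local notation "Kb" => AlgebraicClosure ℚ

variable {H : Subgroup (Kb ≃ₐ[ℚ] Kb)}
variable {N0 q : ℕ} [NeZero N0] [NeZero q] [NeZero (N0 * q)] [NeZero (N0 * q * q)]
variable {κ : Type} [Field κ] (Y : ThreeValX0.Hyp H N0 q κ)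

/-! ### elementary -/

theorem inv_pow_add_mul_pow {K : Type*} [Field K] {J : K} (hJ : J ≠ 0) (e T : ℕ) :
    J⁻¹ ^ (e + T) * J ^ T = J⁻¹ ^ e := by
  rw [pow_add, mul_assoc, ← mul_pow, inv_mul_cancel₀ hJ, one_pow, mul_one]

/-! ### the coordinates at level `N₀ q q` : memberships and values -/

theorem jL_mem_W₂₀ (i : Fin 3) : jL H N0 q i ∈ Y.W₂₀ := by
  fin_cases i
  · show jL H N0 q 0 ∈ Y.W₂₀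
    rw [← a₀_j0K]
    exact a₀_mem_W₂₀ Y _ Y.hj
  · exact α_mem_W₂₀ Y Y.y₁.2
  · exact β_mem_W₂₀ Y Y.y₁.2

theorem jL_mem_W₁₁ (i : Fin 3) : jL H N0 q i ∈ Y.W₁₁ := by
  fin_cases i
  · show jL H N0 q 0 ∈ Y.W₁₁
    rw [← a₀_j0K]
    exact a₀_mem_W₁₁ Y _ Y.hj
  · exact α_mem_W₁₁ Y Y.y₁.2
  · exact β_mem_W₁₁ Y Y.y₂.2

theorem jL_mem_W₀₂ (i : Fin 3) : jL H N0 q i ∈ Y.W₀₂ := by
  fin_cases i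
  · show jL H N0 q 0 ∈ Y.W₀₂
    have h : jL H N0 q 0 = alphaK H (N0 * q) q ((Y.x₂ : ↥Y.V₂) : FK H (N0 * q)) :=
      (JIntegral.alphaK_j0K H).symm
    rw [h]
    exact α_mem_W₀₂ Y Y.x₂.2
  · exact α_mem_W₀₂ Y Y.y₂.2
  · exact β_mem_W₀₂ Y Y.y₂.2

theorem x2_eq_mul : x2 H N0 q = jL H N0 q 0 * jL H N0 q 1 * jL H N0 q 2 :=
  Fin.prod_univ_three _

theorem x2_mem_W₂₀ : x2 H N0 q ∈ Y.W₂₀ := by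
  rw [x2_eq_mul]
  exact Y.W₂₀.mul_mem _ _ (Y.W₂₀.mul_mem _ _ (jL_mem_W₂₀ Y 0) (jL_mem_W₂₀ Y 1)) (jL_mem_W₂₀ Y 2)

theorem x2_mem_W₁₁ : x2 H N0 q ∈ Y.W₁₁ := by
  rw [x2_eq_mul]
  exact Y.W₁₁.mul_mem _ _ (Y.W₁₁.mul_mem _ _ (jL_mem_W₁₁ Y 0) (jL_mem_W₁₁ Y 1)) (jL_mem_W₁₁ Y 2)

theorem x2_mem_W₀₂ : x2 H N0 q ∈ Y.W₀₂ := by
  rw [x2_eq_mul]
  exact Y.W₀₂.mul_mem _ _ (Y.W₀₂.mul_mem _ _ (jL_mem_W₀₂ Y 0) (jL_mem_W₀₂ Y 1)) (jL_mem_W₀₂ Y 2)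

/-- `r₂₀ x₂ = J^(1 + q + q²)` -/
theorem r₂₀_x2 (h : x2 H N0 q ∈ Y.W₂₀) :
    Y.r₂₀ ⟨x2 H N0 q, h⟩ = Y.J ^ (1 + q + q * q) := by
  have e : (⟨x2 H N0 q, h⟩ : ↥Y.W₂₀) =
      ⟨jL H N0 q 0, jL_mem_W₂₀ Y 0⟩ * ⟨jL H N0 q 1, jL_mem_W₂₀ Y 1⟩ *
        ⟨jL H N0 q 2, jL_mem_W₂₀ Y 2⟩ := Subtype.ext x2_eq_mul
  rw [e, map_mul, map_mul, r₂₀_jL0, r₂₀_jL1, r₂₀_jL2, pow_add, pow_add, pow_one]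

/-- `r₁₁ x₂ = J^(q + 2)` -/
theorem r₁₁_x2 (h : x2 H N0 q ∈ Y.W₁₁) :
    Y.r₁₁ ⟨x2 H N0 q, h⟩ = Y.J ^ (1 + q + 1) := by
  have e : (⟨x2 H N0 q, h⟩ : ↥Y.W₁₁) =
      ⟨jL H N0 q 0, jL_mem_W₁₁ Y 0⟩ * ⟨jL H N0 q 1, jL_mem_W₁₁ Y 1⟩ *
        ⟨jL H N0 q 2, jL_mem_W₁₁ Y 2⟩ := Subtype.ext x2_eq_mul
  rw [e, map_mul, map_mul, r₁₁_jL0, r₁₁_jL1, r₁₁_jL2, pow_add, pow_add, pow_one]

/-- `r₀₂ x₂ = J^(q² + q + 1)` -/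
theorem r₀₂_x2 (h : x2 H N0 q ∈ Y.W₀₂) :
    Y.r₀₂ ⟨x2 H N0 q, h⟩ = Y.J ^ (q * q + q + 1) := by
  have e : (⟨x2 H N0 q, h⟩ : ↥Y.W₀₂) =
      ⟨jL H N0 q 0, jL_mem_W₀₂ Y 0⟩ * ⟨jL H N0 q 1, jL_mem_W₀₂ Y 1⟩ *
        ⟨jL H N0 q 2, jL_mem_W₀₂ Y 2⟩ := Subtype.ext x2_eq_mul
  rw [e, map_mul, map_mul, r₀₂_jL0, r₀₂_jL1, r₀₂_jL2, pow_add, pow_add, pow_one]

/-! ### the coordinates at level `N₀ q` -/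

open Fermat.Agent.S36.BranchKappaX0 (x1 red₁_eq_zero_iff red₂_eq_zero_iff)

theorem x1_eq_mul : x1 H N0 q = j0K H (N0 * q) * j1K H N0 q := prod_jK H

theorem x1_mem_V₁ : x1 H N0 q ∈ Y.V₁ := by
  rw [x1_eq_mul]
  exact Y.V₁.mul_mem _ _ Y.x_mem_V₁ Y.y_mem_V₁

theorem x1_mem_V₂ : x1 H N0 q ∈ Y.V₂ := by
  rw [x1_eq_mul]
  exact Y.V₂.mul_mem _ _ Y.x_mem_V₂ Y.y_mem_V₂

/-- `red₁ x₁ = J^(1 + q)` -/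
theorem red₁_x1 (h : x1 H N0 q ∈ Y.V₁) : Y.red₁ ⟨x1 H N0 q, h⟩ = Y.J ^ (1 + q) := by
  have e : (⟨x1 H N0 q, h⟩ : ↥Y.V₁) = Y.x₁ * Y.y₁ := Subtype.ext x1_eq_mul
  rw [e, map_mul, Y.red₁_x, Y.red₁_y, pow_add, pow_one]

/-- `red₂ x₁ = J^(q + 1)` -/
theorem red₂_x1 (h : x1 H N0 q ∈ Y.V₂) : Y.red₂ ⟨x1 H N0 q, h⟩ = Y.J ^ (q + 1) := by
  have e : (⟨x1 H N0 q, h⟩ : ↥Y.V₂) = Y.x₂ * Y.y₂ := Subtype.ext x1_eq_mul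
  rw [e, map_mul, Y.red₂_x, Y.red₂_y, pow_add, pow_one]

/-- a nonunit-free element of a valuation subring has its inverse in it -/
theorem inv_mem_of_red_ne_zero {F : Type*} [Field F] (V : ValuationSubring F) (r : ↥V →+* κ)
    (hr : ∀ z : ↥V, r z = 0 ↔ (z : F) ∈ V.nonunits) {x : F} (hx : x ∈ V)
    (h0 : r ⟨x, hx⟩ ≠ 0) : x⁻¹ ∈ V := by
  have h1 : x ∉ V.nonunits := fun h => h0 ((hr ⟨x, hx⟩).mpr h)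
  have h2 : V.valuation x = 1 := by
    exact le_antisymm ((V.valuation_le_one_iff x).mpr hx) (not_lt.mp fun hlt => h1 hlt)
  rw [← V.valuation_le_one_iff, map_inv₀, h2, inv_one]

/-- `r (x⁻¹) = (r x)⁻¹` -/
theorem red_inv {F : Type*} [Field F] (V : ValuationSubring F) (r : ↥V →+* κ) {x : F}
    (hx : x ∈ V) (hx' : x⁻¹ ∈ V) (h0 : x ≠ 0) : r ⟨x⁻¹, hx'⟩ = (r ⟨x, hx⟩)⁻¹ := by
  have h1 : (⟨x⁻¹, hx'⟩ : ↥V) * ⟨x, hx⟩ = 1 := Subtype.ext (inv_mul_cancel₀ h0)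
  have h2 : r ⟨x⁻¹, hx'⟩ * r ⟨x, hx⟩ = 1 := by rw [← map_mul, h1, map_one]
  exact eq_inv_of_mul_eq_one_left h2

theorem x1_inv_mem_V₁ : (x1 H N0 q)⁻¹ ∈ Y.V₁ :=
  inv_mem_of_red_ne_zero Y.V₁ Y.red₁ (red₁_eq_zero_iff Y) (x1_mem_V₁ Y)
    (by rw [red₁_x1]; exact pow_ne_zero _ (J_ne_zero Y))

theorem x1_inv_mem_V₂ : (x1 H N0 q)⁻¹ ∈ Y.V₂ :=
  inv_mem_of_red_ne_zero Y.V₂ Y.red₂ (red₂_eq_zero_iff Y) (x1_mem_V₂ Y)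
    (by rw [red₂_x1]; exact pow_ne_zero _ (J_ne_zero Y))

theorem red₁_x1_inv (h : (x1 H N0 q)⁻¹ ∈ Y.V₁) :
    Y.red₁ ⟨(x1 H N0 q)⁻¹, h⟩ = Y.J⁻¹ ^ (1 + q) := by
  rw [red_inv Y.V₁ Y.red₁ (x1_mem_V₁ Y) h (BranchKappaX0.x1_ne_zero Y), red₁_x1, inv_pow]

theorem red₂_x1_inv (h : (x1 H N0 q)⁻¹ ∈ Y.V₂) :
    Y.red₂ ⟨(x1 H N0 q)⁻¹, h⟩ = Y.J⁻¹ ^ (q + 1) := by
  rw [red_inv Y.V₂ Y.red₂ (x1_mem_V₂ Y) h (BranchKappaX0.x1_ne_zero Y), red₂_x1, inv_pow]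

/-! ### the norm formula for `g = x₁⁻¹ ^ M * N_α (x₂ ^ N * a)` -/

/-- `x₂ ^ N * a` stays in the three valuation rings -/
theorem pow_mul_mem_W₂₀ {a : FK H (N0 * q * q)} (h : a ∈ Y.W₂₀) (N : ℕ) :
    x2 H N0 q ^ N * a ∈ Y.W₂₀ := Y.W₂₀.mul_mem _ _ (Y.W₂₀.pow_mem (x2_mem_W₂₀ Y) N) h

theorem pow_mul_mem_W₁₁ {a : FK H (N0 * q * q)} (h : a ∈ Y.W₁₁) (N : ℕ) :
    x2 H N0 q ^ N * a ∈ Y.W₁₁ := Y.W₁₁.mul_mem _ _ (Y.W₁₁.pow_mem (x2_mem_W₁₁ Y) N) h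

theorem pow_mul_mem_W₀₂ {a : FK H (N0 * q * q)} (h : a ∈ Y.W₀₂) (N : ℕ) :
    x2 H N0 q ^ N * a ∈ Y.W₀₂ := Y.W₀₂.mul_mem _ _ (Y.W₀₂.pow_mem (x2_mem_W₀₂ Y) N) h

theorem r₂₀_pow_mul {a : FK H (N0 * q * q)} (h : a ∈ Y.W₂₀) (N : ℕ) :
    Y.r₂₀ ⟨x2 H N0 q ^ N * a, pow_mul_mem_W₂₀ Y h N⟩ =
      (Y.J ^ (1 + q + q * q)) ^ N * Y.r₂₀ ⟨a, h⟩ := by
  have e : (⟨x2 H N0 q ^ N * a, pow_mul_mem_W₂₀ Y h N⟩ : ↥Y.W₂₀) =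
      ⟨x2 H N0 q, x2_mem_W₂₀ Y⟩ ^ N * ⟨a, h⟩ := Subtype.ext rfl
  rw [e, map_mul, map_pow, r₂₀_x2]

theorem r₁₁_pow_mul {a : FK H (N0 * q * q)} (h : a ∈ Y.W₁₁) (N : ℕ) :
    Y.r₁₁ ⟨x2 H N0 q ^ N * a, pow_mul_mem_W₁₁ Y h N⟩ =
      (Y.J ^ (1 + q + 1)) ^ N * Y.r₁₁ ⟨a, h⟩ := by
  have e : (⟨x2 H N0 q ^ N * a, pow_mul_mem_W₁₁ Y h N⟩ : ↥Y.W₁₁) =
      ⟨x2 H N0 q, x2_mem_W₁₁ Y⟩ ^ N * ⟨a, h⟩ := Subtype.ext rfl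
  rw [e, map_mul, map_pow, r₁₁_x2]

theorem r₀₂_pow_mul {a : FK H (N0 * q * q)} (h : a ∈ Y.W₀₂) (N : ℕ) :
    Y.r₀₂ ⟨x2 H N0 q ^ N * a, pow_mul_mem_W₀₂ Y h N⟩ =
      (Y.J ^ (q * q + q + 1)) ^ N * Y.r₀₂ ⟨a, h⟩ := by
  have e : (⟨x2 H N0 q ^ N * a, pow_mul_mem_W₀₂ Y h N⟩ : ↥Y.W₀₂) =
      ⟨x2 H N0 q, x2_mem_W₀₂ Y⟩ ^ N * ⟨a, h⟩ := Subtype.ext rfl
  rw [e, map_mul, map_pow, r₀₂_x2]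

/-- **the norm formula on the chart `{x₂ ≠ 0}`, `κ`-level**: for
`g = x₁⁻¹ ^ M * N_α (x₂ ^ N * a)` and `M ≥ N (2 q² + 3 q + 1)` the two reductions of `g` are the
reductions of `a`, up to nonnegative powers of `J⁻¹` -/
theorem norm_inf {a : FK H (N0 * q * q)} (h₂₀ : a ∈ Y.W₂₀) (h₁₁ : a ∈ Y.W₁₁) (h₀₂ : a ∈ Y.W₀₂)
    (N M : ℕ) (hM : N * ((1 + q + q * q) + (1 + q + 1) * q) ≤ M) :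
    ∃ (e₁ e₂ : ℕ)
      (m₁ : (x1 H N0 q)⁻¹ ^ M * normAlong (alphaK H (N0 * q) q) (x2 H N0 q ^ N * a) ∈ Y.V₁)
      (m₂ : (x1 H N0 q)⁻¹ ^ M * normAlong (alphaK H (N0 * q) q) (x2 H N0 q ^ N * a) ∈ Y.V₂),
      Y.red₁ ⟨_, m₁⟩ = Y.J⁻¹ ^ e₁ * (Y.r₂₀ ⟨a, h₂₀⟩ * Y.r₁₁ ⟨a, h₁₁⟩ ^ (q - 1)) ∧
      Y.φ (Y.red₂ ⟨_, m₂⟩) = Y.J⁻¹ ^ e₂ * Y.r₀₂ ⟨a, h₀₂⟩ ^ q := by
  have hJ := J_ne_zero Y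
  obtain ⟨n₁, hn₁⟩ := Y.norm₁_V₁ _ (pow_mul_mem_W₂₀ Y h₂₀ N) (pow_mul_mem_W₁₁ Y h₁₁ N)
    (pow_mul_mem_W₀₂ Y h₀₂ N)
  obtain ⟨n₂, hn₂⟩ := Y.norm₁_V₂ _ (pow_mul_mem_W₂₀ Y h₂₀ N) (pow_mul_mem_W₁₁ Y h₁₁ N)
    (pow_mul_mem_W₀₂ Y h₀₂ N)
  have m₁ : (x1 H N0 q)⁻¹ ^ M * normAlong (alphaK H (N0 * q) q) (x2 H N0 q ^ N * a) ∈ Y.V₁ :=
    Y.V₁.mul_mem _ _ (Y.V₁.pow_mem (x1_inv_mem_V₁ Y) M) n₁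
  have m₂ : (x1 H N0 q)⁻¹ ^ M * normAlong (alphaK H (N0 * q) q) (x2 H N0 q ^ N * a) ∈ Y.V₂ :=
    Y.V₂.mul_mem _ _ (Y.V₂.pow_mem (x1_inv_mem_V₂ Y) M) n₂
  -- the exponents
  set T₁ : ℕ := N * ((1 + q + q * q) + (1 + q + 1) * (q - 1)) with hT₁
  set T₂ : ℕ := q * (N * (q * q + q + 1)) with hT₂
  have hq1 : 1 ≤ q := Nat.one_le_iff_ne_zero.mpr (NeZero.ne q)
  have hT₁M : T₁ ≤ (1 + q) * M := by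
    have h1 : T₁ ≤ N * ((1 + q + q * q) + (1 + q + 1) * q) :=
      Nat.mul_le_mul_left _ (Nat.add_le_add_left (Nat.mul_le_mul_left _ (Nat.sub_le q 1)) _)
    calc T₁ ≤ M := h1.trans hM
      _ ≤ (1 + q) * M := Nat.le_mul_of_pos_left _ (by omega)
  have hT₂M : T₂ ≤ q * ((q + 1) * M) := by
    refine Nat.mul_le_mul_left _ ?_
    have h1 : N * (q * q + q + 1) ≤ N * ((1 + q + q * q) + (1 + q + 1) * q) :=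
      Nat.mul_le_mul_left _ (by nlinarith)
    calc N * (q * q + q + 1) ≤ M := h1.trans hM
      _ ≤ (q + 1) * M := Nat.le_mul_of_pos_left _ (by omega)
  refine ⟨(1 + q) * M - T₁, q * ((q + 1) * M) - T₂, m₁, m₂, ?_, ?_⟩
  · have e : (⟨_, m₁⟩ : ↥Y.V₁) = ⟨(x1 H N0 q)⁻¹, x1_inv_mem_V₁ Y⟩ ^ M * ⟨_, n₁⟩ :=
      Subtype.ext rfl
    rw [e, map_mul, map_pow, red₁_x1_inv, hn₁, r₂₀_pow_mul Y h₂₀ N, r₁₁_pow_mul Y h₁₁ N, mul_pow]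
    have h3 : (Y.J⁻¹ ^ (1 + q)) ^ M = Y.J⁻¹ ^ (((1 + q) * M - T₁) + T₁) := by
      rw [← pow_mul, Nat.sub_add_cancel hT₁M]
    have h4 : (Y.J ^ (1 + q + q * q)) ^ N * ((Y.J ^ (1 + q + 1)) ^ N) ^ (q - 1) = Y.J ^ T₁ := by
      rw [hT₁, ← pow_mul, ← pow_mul, ← pow_mul, ← pow_add]
      congr 1
      ring
    calc (Y.J⁻¹ ^ (1 + q)) ^ M * ((Y.J ^ (1 + q + q * q)) ^ N * Y.r₂₀ ⟨a, h₂₀⟩ *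
          (((Y.J ^ (1 + q + 1)) ^ N) ^ (q - 1) * Y.r₁₁ ⟨a, h₁₁⟩ ^ (q - 1)))
        = (Y.J⁻¹ ^ (1 + q)) ^ M * ((Y.J ^ (1 + q + q * q)) ^ N *
            ((Y.J ^ (1 + q + 1)) ^ N) ^ (q - 1)) *
            (Y.r₂₀ ⟨a, h₂₀⟩ * Y.r₁₁ ⟨a, h₁₁⟩ ^ (q - 1)) := by ring
      _ = Y.J⁻¹ ^ ((1 + q) * M - T₁) * (Y.r₂₀ ⟨a, h₂₀⟩ * Y.r₁₁ ⟨a, h₁₁⟩ ^ (q - 1)) := by
        rw [h3, h4, inv_pow_add_mul_pow hJ]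
  · have e : (⟨_, m₂⟩ : ↥Y.V₂) = ⟨(x1 H N0 q)⁻¹, x1_inv_mem_V₂ Y⟩ ^ M * ⟨_, n₂⟩ :=
      Subtype.ext rfl
    rw [e, map_mul, map_mul, hn₂, map_pow, map_pow, red₂_x1_inv, r₀₂_pow_mul Y h₀₂ N, mul_pow]
    have h5 : Y.φ (Y.J⁻¹ ^ (q + 1)) = Y.J⁻¹ ^ (q * (q + 1)) := by
      rw [inv_pow, map_inv₀, φ_J_pow, inv_pow]
    have h3 : (Y.J⁻¹ ^ (q * (q + 1))) ^ M = Y.J⁻¹ ^ ((q * ((q + 1) * M) - T₂) + T₂) := by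
      rw [← pow_mul, Nat.sub_add_cancel hT₂M, mul_assoc]
    have h4 : ((Y.J ^ (q * q + q + 1)) ^ N) ^ q = Y.J ^ T₂ := by
      rw [hT₂, ← pow_mul, ← pow_mul]
      congr 1
      ring
    rw [h5, h3, h4, ← mul_assoc, inv_pow_add_mul_pow hJ]

/-! ### with the chart memberships -/

section Charts

open Fermat.Agent.S36.ChartsX0Leaf

variable (O : Type*) [CommRing O]
variable [Algebra O (FK H N0)] [Algebra O (FK H (N0 * q))] [Algebra O (FK H (N0 * q * q))]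

/-- **`hN` on the chart `{x₂ ≠ ∞}`, `κ`-level**: `g = N_α a`, `c = c' = 1`, `e = q - 1`, `e' = q` -/
theorem hN_fin (hα : ∀ c : O, alphaK H (N0 * q) q (algebraMap O _ c) = algebraMap O _ c)
    {a : FK H (N0 * q * q)} (ha : a ∈ chart O (x2 H N0 q))
    (h₂₀ : a ∈ Y.W₂₀) (h₁₁ : a ∈ Y.W₁₁) (h₀₂ : a ∈ Y.W₀₂) :
    normAlong (alphaK H (N0 * q) q) a ∈ chart O (x1 H N0 q) ∧
      ∃ (m₁ : normAlong (alphaK H (N0 * q) q) a ∈ Y.V₁)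
        (m₂ : normAlong (alphaK H (N0 * q) q) a ∈ Y.V₂),
        Y.red₁ ⟨_, m₁⟩ = Y.r₂₀ ⟨a, h₂₀⟩ * Y.r₁₁ ⟨a, h₁₁⟩ ^ (q - 1) ∧
        Y.φ (Y.red₂ ⟨_, m₂⟩) = Y.r₀₂ ⟨a, h₀₂⟩ ^ q := by
  obtain ⟨m₁, hm₁⟩ := Y.norm₁_V₁ a h₂₀ h₁₁ h₀₂
  obtain ⟨m₂, hm₂⟩ := Y.norm₁_V₂ a h₂₀ h₁₁ h₀₂
  refine ⟨?_, m₁, m₂, hm₁, hm₂⟩
  have h := NormChartX0.normAlong_alphaK_mem_chart_x1 H O Y.prime hα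
    (a := a) (by rw [x2_eq]; exact ha)
  rw [x1_eq] at h
  exact h

/-- **`hN` on the chart `{x₂ ≠ 0}`, `κ`-level**: `g = x₁⁻¹ ^ M * N_α (x₂ ^ N * a)`,
`c = (J⁻¹)^e₁`, `c' = (J⁻¹)^e₂`, `e = q - 1`, `e' = q` -/
theorem hN_inf (hα : ∀ c : O, alphaK H (N0 * q) q (algebraMap O _ c) = algebraMap O _ c)
    {a : FK H (N0 * q * q)} (ha : a ∈ chart O (x2 H N0 q)⁻¹)
    (h₂₀ : a ∈ Y.W₂₀) (h₁₁ : a ∈ Y.W₁₁) (h₀₂ : a ∈ Y.W₀₂) :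
    ∃ (N M e₁ e₂ : ℕ), x2 H N0 q ^ N * a ∈ chart O (x2 H N0 q) ∧
      (x1 H N0 q)⁻¹ ^ M * normAlong (alphaK H (N0 * q) q) (x2 H N0 q ^ N * a) ∈
        chart O (x1 H N0 q)⁻¹ ∧
      ∃ (m₁ : (x1 H N0 q)⁻¹ ^ M * normAlong (alphaK H (N0 * q) q) (x2 H N0 q ^ N * a) ∈ Y.V₁)
        (m₂ : (x1 H N0 q)⁻¹ ^ M * normAlong (alphaK H (N0 * q) q) (x2 H N0 q ^ N * a) ∈ Y.V₂),
        Y.red₁ ⟨_, m₁⟩ = Y.J⁻¹ ^ e₁ * (Y.r₂₀ ⟨a, h₂₀⟩ * Y.r₁₁ ⟨a, h₁₁⟩ ^ (q - 1)) ∧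
        Y.φ (Y.red₂ ⟨_, m₂⟩) = Y.J⁻¹ ^ e₂ * Y.r₀₂ ⟨a, h₀₂⟩ ^ q := by
  obtain ⟨N, hN⟩ := NormChartX0.exists_normAlong_alphaK_mem_chart_inv_x1 H O Y.prime hα
    (a := a) (by rw [x2_eq]; exact ha)
  obtain ⟨h1, M₀, hM₀⟩ := hN N le_rfl
  set M : ℕ := max M₀ (N * ((1 + q + q * q) + (1 + q + 1) * q)) with hM
  obtain ⟨e₁, e₂, m₁, m₂, hr₁, hr₂⟩ := norm_inf Y h₂₀ h₁₁ h₀₂ N M (le_max_right _ _)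
  have h2 := hM₀ M (le_max_left _ _)
  rw [x2_eq] at h1 h2
  rw [x1_eq] at h2
  exact ⟨N, M, e₁, e₂, h1, h2, m₁, m₂, hr₁, hr₂⟩

end Charts

end Fermat.Agent.S36.NormTripleX0
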