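/-
PROJECT V (S36), slice V-LeafT0X0 (helper7): **block (B4) of the final assembly at the actual
objects**: the `t₀`-block of `NewInertiaCharts.Leaf` for `X := LeafXInst.datumY hA hqM HM`,
`O = W A`, `K = K0 A`, `F = FK0 A (M q q)`, `ϖ = q`, `φ = x₂ = j₀ j₁ j₂`.

= `LeafT0Sets.exists_t0_fields` with DISCHARGED: `hE hr hπ` (`LeafX.xSide_datumD`),
`hϖ hφ hφ' hgauss hgauss' hvert hvert'` (`NewInertiaFinal`, section `Soft`), `ChartHyp` at
`gfin = ∏_{z ∈ s} (j - z)`, `ginf = x₂⁻¹` (`ChartHypX0.chartHyp`; `j ∈ chart O x₂`,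
`x₂ ∈ chart O j` from `ChartsX0`), `gfin`, `ginf` units of the three `W` (new), `hReg hN₁ hN₂`
(`LeafX.datumD_Reg`, `datumD_N₁_eq`, `datumD_N₂_eq`), finiteness of the node set.

The conclusion is `NewInertiaFinal.T0Concl` = the binder `ht0` of
`NewInertiaFinal.leafHyp_of_blocks`.  Remaining binders: the lattice charts `Vc` with its pieces
(`NewInertiaFinal.Pieces`, `Pieces'`), `hloc hloc'` (P2), the two `TDatum`s with their link facts
(P1: `BranchX0G` / `BranchLinksX0`), the Kummer function with its divisor.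
-/
import Mathlib
import Fermat.Agent.S36.LeafT0Sets
import Fermat.Agent.S36.NewInertiaFinal
import Fermat.Agent.S36.NormTripleX0

set_option autoImplicit false
set_option linter.unusedSectionVars false
set_option linter.style.haveILetI false
set_option linter.unusedVariables false
set_option synthInstance.maxHeartbeats 400000

noncomputable section

namespace Fermat.Agent.S36.LeafT0X0

open ModularCurve AlgebraicCurve IsLocalRing IntermediateField Polynomial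

/-! ### Two abstract facts on units of a valuation subring -/

section Abstract

variable {F κ k O : Type*} [Field F] [Field κ] [Field k] [Algebra k κ] [CommRing O] [Algebra O F]

/-- `∏ (j - z)` is a unit of `W` when the reduction of `j` is transcendental over the constants -/
theorem not_val_lt_one_prod_sub (W : ValuationSubring F) (r : ↥W →+* κ)
    (hr0 : ∀ x : ↥W, r x = 0 ↔ W.valuation (x : F) < 1) (π : O →+* k)
    (hconst : ∀ c : O, algebraMap O F c ∈ W)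
    (hrc : ∀ (c : O) (m : algebraMap O F c ∈ W), r ⟨algebraMap O F c, m⟩ = algebraMap k κ (π c))
    {j : F} (hj : j ∈ W) (hjt : Transcendental k (r ⟨j, hj⟩)) (s : Finset O) :
    ¬ W.valuation (∏ z ∈ s, (j - algebraMap O F z)) < 1 := by
  classical
  have hmem : ∀ z : O, j - algebraMap O F z ∈ W := fun z => sub_mem hj (hconst z)
  have hprod : ∏ z ∈ s, (j - algebraMap O F z) ∈ W := prod_mem fun z _ => hmem z
  intro hlt
  have h0 : r ⟨_, hprod⟩ = 0 := (hr0 ⟨_, hprod⟩).2 hlt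
  have e : (⟨_, hprod⟩ : ↥W) = ∏ z ∈ s, (⟨j - algebraMap O F z, hmem z⟩ : ↥W) := by
    apply Subtype.ext
    rw [SubmonoidClass.coe_finsetProd]
  rw [e, map_prod, Finset.prod_eq_zero_iff] at h0
  obtain ⟨z, -, hz⟩ := h0
  have e2 : (⟨j - algebraMap O F z, hmem z⟩ : ↥W) = ⟨j, hj⟩ - ⟨algebraMap O F z, hconst z⟩ := rfl
  rw [e2, map_sub, hrc, sub_eq_zero] at hz
  exact hjt (hz ▸ isAlgebraic_algebraMap _)

/-- `φ⁻¹` is not in the maximal ideal of `W ∋ φ` -/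
theorem not_val_inv_lt_one (W : ValuationSubring F) {φ : F} (hφ : φ ∈ W) (h0 : φ ≠ 0) :
    ¬ W.valuation φ⁻¹ < 1 := by
  intro hlt
  have h1 : W.valuation φ ≤ 1 := (W.valuation_le_one_iff _).2 hφ
  have h2 : W.valuation φ * W.valuation φ⁻¹ = 1 := by
    rw [← map_mul, mul_inv_cancel₀ h0, map_one]
  have h3 : W.valuation φ * W.valuation φ⁻¹ < 1 :=
    calc _ ≤ 1 * W.valuation φ⁻¹ := mul_le_mul' h1 le_rfl
      _ = _ := one_mul _
      _ < 1 := hlt
  rw [h2] at h3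
  exact lt_irrefl _ h3

end Abstract

/-! ### At `X₀` -/

section X0

open Fermat.Agent.S34.NodalDefs
open Fermat.Agent.S37.Deuring.Core Fermat.Agent.S37.Gauss.Datum
open Fermat.Agent.S34.CoreZX0Assembly Fermat.Agent.S34.CoreZX0Build
open Fermat.Agent.S34.CoreZX0OfGeneric Fermat.Agent.S34.GaussPairX0
open Fermat.Agent.S36.GlueNorm Fermat.Agent.S36.GlueLevelQ Fermat.Agent.S36.GlueNormX0
open Fermat.Agent.S36.PowerBasisK0 (FK tB alphaK betaK j0K)
open Fermat.Agent.S35.LevelMaps Fermat.Agent.S35.PushKummer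
open Fermat.Agent.S18.C.SmallDVR Fermat.Agent.S36.ChartX0 Fermat.Agent.S36.ChartRing
open Fermat.Agent.S18.NonSpecial
open Fermat.Agent.S36.LeafX
open Fermat.Agent.S36.RegOfPoles Fermat.Agent.S36.RegFinal
open Fermat.Agent.S36.KrullInter Fermat.Agent.S36.LocalGenOrd Fermat.Agent.S36.LocalIntrinsic
open Fermat.Agent.S36.NewInertiaDatum Fermat.Agent.S36.Lattice
open Fermat.Agent.S36.Centre Fermat.Agent.S36.LocalGenV Fermat.Agent.S36.BranchCoreT
open Fermat.Agent.S36.BranchPt Fermat.Agent.S36.NewInertiaCharts Fermat.Agent.S36.TripleValues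
open Fermat.Agent.S36.ChartVert Fermat.Agent.S36.FormalLift Fermat.Agent.S36.OpenLift
open Fermat.Agent.S36.NewInertiaFinal
open Fermat.Agent.S36.CompNormalX0 (x2)
open Fermat.Agent.S36.EvalCentreX0 (badElt coe_badElt toEK0)

local notation "Kb" => AlgebraicClosure ℚ

attribute [local instance 2000] Fermat.Agent.S34.EulerX0.algResFk

local instance instNeZeroMulLTX (M q : ℕ) [NeZero M] [NeZero q] : NeZero (M * q) :=
  ⟨Nat.mul_ne_zero (NeZero.ne M) (NeZero.ne q)⟩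

local instance instACkLTX (A : ValuationSubring Kb) : IsAlgClosed (ResidueField ↥A) :=
  Fermat.Agent.S18.ResidueBasics.isAlgClosed_residueField A

variable {q : ℕ} [hq : Fact q.Prime] {M : ℕ} [NeZero M] {A : ValuationSubring Kb} [NeZero q]
variable [CharP (ResidueField ↥A) q]
variable (hA : A.LiesOverPrime q) (hqM : ¬ q ∣ M)
variable {gM : ℕ}
  (HM : RiemannHyp (ResidueField ↥A) ↥(modularFunctionFieldFullC (ResidueField ↥A) M) gM)
  (Z : ThreeValX0.Hyp (A.inertiaSubgroupIn ℚ) M q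
    ↥(modularFunctionFieldFullC (ResidueField ↥A) M))
  (lk : GlueNormX0.Link (A.inertiaSubgroupIn ℚ) hA hqM Z)
  {gL gk : ℕ} (L : Fermat.Agent.S36.CompNormalX0Base.Link hA hqM gL gk Z)

local notation "XD" => LeafX.datumD hA hqM HM Z lk

omit [CharP (ResidueField ↥A) q] in
/-- `j ∈ chart O x₂` -/
theorem jK0_mem_chart_x2 :
    jK0 A (M * q * q) ∈ chart (F := FK0 A (M * q * q)) ↥(W A) (φ₂ A M q) := by
  show jK0 A (M * q * q) ∈ chart (F := FK0 A (M * q * q)) ↥(W A)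
    (x2 (A.inertiaSubgroupIn ℚ) M q)
  rw [← Fermat.Agent.S36.ChartsX0Leaf.x2_eq, jK0_eq_j0K]
  exact Fermat.Agent.S36.ChartsX0.fam2_mem_chartX0 (A := A) (N0 := M) (q := q) 0

omit [CharP (ResidueField ↥A) q] in
/-- `x₂ ∈ chart O j` -/
theorem x2_mem_chart_jK0 :
    φ₂ A M q ∈ chart (F := FK0 A (M * q * q)) ↥(W A) (jK0 A (M * q * q)) := by
  show x2 (A.inertiaSubgroupIn ℚ) M q ∈ chart (F := FK0 A (M * q * q)) ↥(W A)
    (jK0 A (M * q * q))
  rw [← Fermat.Agent.S36.ChartsX0Leaf.x2_eq, jK0_eq_j0K]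
  exact (Fermat.Agent.S36.ChartsX0.mem_chartX0_x2_iff (A := A) (N0 := M) (q := q) 0 _).1
    (Fermat.Agent.S36.EvalCentreX0.self_mem_chart (M * q * q) _)

/-- the reduction of `j` on each of the three components is transcendental over `k` -/
theorem exists_transcendental_rof_j (j' : FK0 A (M * q * q))
    (hj' : j' = Fermat.Agent.S36.JIntegral.jL (A.inertiaSubgroupIn ℚ) M q 0) (w : Comp) :
    ∃ hj : j' ∈ Wof XD w, Transcendental (ResidueField ↥A) (rof XD w ⟨j', hj⟩) := by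
  subst hj'
  cases w
  · refine ⟨Fermat.Agent.S36.NormTripleX0.jL_mem_W₂₀ Z 0, ?_⟩
    show Transcendental (ResidueField ↥A) (Z.r₂₀ ⟨_, _⟩)
    rw [Fermat.Agent.S36.CompNormalX0.r₂₀_jL0]
    exact Fermat.Agent.S36.LatticeX0.transcendental_J Z
  · refine ⟨Fermat.Agent.S36.NormTripleX0.jL_mem_W₁₁ Z 0, ?_⟩
    show Transcendental (ResidueField ↥A) (Z.r₁₁ ⟨_, _⟩)
    rw [Fermat.Agent.S36.CompNormalX0.r₁₁_jL0]
    exact Fermat.Agent.S36.LatticeX0.transcendental_J Z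
  · refine ⟨Fermat.Agent.S36.NormTripleX0.jL_mem_W₀₂ Z 0, ?_⟩
    show Transcendental (ResidueField ↥A) (Z.r₀₂ ⟨_, _⟩)
    rw [Fermat.Agent.S36.CompNormalX0.r₀₂_jL0]
    exact (Fermat.Agent.S36.LatticeX0.transcendental_J Z).pow
      (Nat.mul_pos (Nat.pos_of_ne_zero (NeZero.ne q)) (Nat.pos_of_ne_zero (NeZero.ne q)))

include L in
/-- **`gfin = ∏ (j - z)` is a unit of the three `W`** -/
theorem hgfin_D (s : Finset ↥(W A)) (w : Comp) :
    ¬ (Wof XD w).valuation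
      ((badElt (M * q * q) (jK0_mem_chart_x2 (A := A) (M := M) (q := q)) s :
        ↥(chart ↥(W A) (φ₂ A M q))) : FK0 A (M * q * q)) < 1 := by
  have xs := xSide_datumD hA hqM HM Z lk one_ne_zero (Nat.coprime_one_left q)
  rw [coe_badElt]
  obtain ⟨hj, hjt⟩ := exists_transcendental_rof_j hA hqM HM Z lk (jK0 A (M * q * q))
    (jK0_eq_j0K (A := A) (M * q * q)) w
  exact not_val_lt_one_prod_sub (Wof XD w) (rof XD w) (xs.hr w)
    (algebraMap ↥(W A) (ResidueField ↥A)) (hgauss hA hqM HM Z lk L w).base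
    (fun c m => xs.hπ w c m) hj hjt s

include L in
/-- **`ginf = x₂⁻¹` is a unit of the three `W`** -/
theorem hginf_D (w : Comp) :
    ¬ (Wof XD w).valuation (φ₂ A M q)⁻¹ < 1 :=
  not_val_inv_lt_one (Wof XD w) (hgauss hA hqM HM Z lk L w).gen
    (Fermat.Agent.S36.CompNormalX0.x2_ne_zero Z)

section Block

variable [IsDiscreteValuationRing ↥(W A)]

set_option maxHeartbeats 3200000 in
include L in
/-- **the `t₀`-block at `X₀`**: the binder `ht0` of `NewInertiaFinal.leafHyp_of_blocks` from (P2)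
(`hloc hloc'`) and (P1) (the two `TDatum`s on the charts of `x₂`, `x₂⁻¹` with their link
facts). -/
theorem t0Concl_of_tdatums {A₁ A₁' : Type*} [CommRing A₁] [CommRing A₁'] {ι ι' : Type*}
    -- (P2)
    (hloc : ∀ m : Ideal ↥(chart ↥(W A) (φ₂ A M q)), m.IsMaximal →
      piChart (φ₂ A M q) ((q : ℕ) : ↥(W A)) ∈ m →
      LocalGenCore.LocPrincipal (F := (FK0 A (M * q * q))) m)
    (hloc' : ∀ m : Ideal ↥(chart ↥(W A) (φ₂ A M q)⁻¹), m.IsMaximal →
      piChart (φ₂ A M q)⁻¹ ((q : ℕ) : ↥(W A)) ∈ m →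
      LocalGenCore.LocPrincipal (F := (FK0 A (M * q * q))) m)
    -- (P1), the chart `{x₂ ≠ ∞}`
    (𝒜 : Subring (FK0 A (M * q * q))) (h𝒜 : 𝒜 = (chart ↥(W A) (φ₂ A M q)).toSubring) (ℬ : Subring ↥(modularFunctionFieldFullC (ResidueField ↥A) M))
    [IsNoetherianRing ↥ℬ] [Ring.DimensionLEOne ↥ℬ] (DT : TDatum A₁ ↥𝒜 ↥ℬ)
    (hle : ∀ w : Comp, 𝒜 ≤ (Wof XD w).toSubring)
    (hcompat : ∀ (w : Comp) (a : ↥𝒜),
      ((rD DT.toPDatum w a : ↥ℬ) : ↥(modularFunctionFieldFullC (ResidueField ↥A) M)) = rof XD w ⟨(a : (FK0 A (M * q * q))), hle w a.2⟩)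
    (hdict : ∀ n : Ideal ↥ℬ, n.IsMaximal → n ∈ DT.S →
      ∃ b ∈ (XD).S, ∀ z : ↥ℬ, z ∈ n ↔ (XD).E.val b (z : ↥(modularFunctionFieldFullC (ResidueField ↥A) M)) 0)
    (hconv : ∀ b ∈ (XD).S, ∃ n : Ideal ↥ℬ, n.IsMaximal ∧ n ∈ DT.S ∧
      ∀ z : ↥ℬ, z ∈ n ↔ (XD).E.val b (z : ↥(modularFunctionFieldFullC (ResidueField ↥A) M)) 0)
    (hne : ∃ n : Ideal ↥ℬ, n.IsMaximal ∧ n ∈ DT.S)
    (hDϖ : ((DT.ϖ : ↥𝒜) : (FK0 A (M * q * q))) = algebraMap ↥(W A) (FK0 A (M * q * q)) ((q : ℕ) : ↥(W A)))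
    -- (P1), the chart `{x₂ ≠ 0}`
    (𝒜' : Subring (FK0 A (M * q * q))) (h𝒜' : 𝒜' = (chart ↥(W A) (φ₂ A M q)⁻¹).toSubring) (ℬ' : Subring ↥(modularFunctionFieldFullC (ResidueField ↥A) M))
    [IsNoetherianRing ↥ℬ'] [Ring.DimensionLEOne ↥ℬ'] (DT' : TDatum A₁' ↥𝒜' ↥ℬ')
    (hle' : ∀ w : Comp, 𝒜' ≤ (Wof XD w).toSubring)
    (hcompat' : ∀ (w : Comp) (a : ↥𝒜'),
      ((rD DT'.toPDatum w a : ↥ℬ') : ↥(modularFunctionFieldFullC (ResidueField ↥A) M)) = rof XD w ⟨(a : (FK0 A (M * q * q))), hle' w a.2⟩)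
    (hdict' : ∀ n : Ideal ↥ℬ', n.IsMaximal → n ∈ DT'.S →
      ∃ b ∈ (XD).S, ∀ z : ↥ℬ', z ∈ n ↔ (XD).E.val b (z : ↥(modularFunctionFieldFullC (ResidueField ↥A) M)) 0)
    (hDϖ' : ((DT'.ϖ : ↥𝒜') : (FK0 A (M * q * q))) = algebraMap ↥(W A) (FK0 A (M * q * q)) ((q : ℕ) : ↥(W A)))
    -- the Kummer function and the lattice charts
    {n : ℕ} (hn0 : n ≠ 0) (hnq : Nat.Coprime n q) (Ku : (XD).Kummer n)
    (D0 : Divisor ↥(K0 A) (FK0 A (M * q * q)))
    (hf : ∀ v : Place ↥(K0 A) (FK0 A (M * q * q)), v.ord Ku.f = (n : ℤ) * D0 v)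
    (Vc : VCharts ↥(W A) ↥(K0 A) (FK0 A (M * q * q)) Comp ι ι')
    (hW : Vc.W = Wof XD) (hVϖ : Vc.ϖ = ((q : ℕ) : ↥(W A))) (hVφ : Vc.φ = φ₂ A M q)
    (hp : Pieces Vc (((q ^ 2 - 1) • ((q - 1) • D0) : Divisor ↥(K0 A) (FK0 A (M * q * q))) :
      Place ↥(K0 A) (FK0 A (M * q * q)) → ℤ))
    (hp' : Pieces' Vc (((q ^ 2 - 1) • ((q - 1) • D0) : Divisor ↥(K0 A) (FK0 A (M * q * q))) :
      Place ↥(K0 A) (FK0 A (M * q * q)) → ℤ)) :
    T0Concl hA hqM HM Z lk Vc Ku := by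
  haveI := Fermat.Agent.S36.X0Base.isAlgClosed_residueField_W hA
  haveI := finiteDimensional_φ₂ (A := A) (M := M) (q := q)
  haveI := finiteDimensional_φ₂_inv (A := A) (M := M) (q := q)
  have xs := xSide_datumD hA hqM HM Z lk hn0 hnq
  obtain ⟨s, hs⟩ := Fermat.Agent.S36.ChartHypX0.exists_lifts_badValues hA
    (inputsX0 (Fermat.Agent.S34.CoreZX0.genericX0 hA hqM (HX0 hA hqM HM)))
  have hC := Fermat.Agent.S36.ChartHypX0.chartHyp hA
    (inputsX0 (Fermat.Agent.S34.CoreZX0.genericX0 hA hqM (HX0 hA hqM HM)))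
    (jK0_mem_chart_x2 (A := A) (M := M) (q := q)) (x2_mem_chart_jK0 (A := A) (M := M) (q := q))
    s hs
  have hXS : (XD).S.Finite := (nodesD hA hqM HM).S.finite_toSet
  have hD : ∀ v : Place ↥(K0 A) (FK0 A (M * q * q)),
      (((q ^ 2 - 1) • ((q - 1) • D0) : Divisor ↥(K0 A) (FK0 A (M * q * q))) : Place ↥(K0 A) (FK0 A (M * q * q)) → ℤ) v
        = (((XD).q ^ 2 - 1 : ℕ) : ℤ) * ((((XD).q - 1 : ℕ) : ℤ) * D0 v) := by
    intro v
    rw [Finsupp.smul_apply, Finsupp.smul_apply, nsmul_eq_mul, nsmul_eq_mul]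
    rfl
  obtain ⟨t₀, -, hR₁, hR₂, ht, hv₀, pt, pt'⟩ :=
    LeafT0Sets.exists_t0_fields (O := ↥(W A)) (K := ↥(K0 A)) (nodesD hA hqM HM)
      (toEK0 A (M * q * q)) XD (algebraMap ↥(W A) (ResidueField ↥A)) xs.hE xs.hr xs.hπ
      Vc hW hVϖ hVφ (irreducible_q hA) (transcendental_φ₂ (A := A) (M := M) (q := q))
      transcendental_φ₂_inv (hgauss hA hqM HM Z lk L) (hgauss' hA hqM HM Z lk L)
      (hvert hA hqM HM Z lk L) (hvert' hA hqM HM Z lk L) (map_natCast _ _) hC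
      (hgfin_D hA hqM HM Z lk L s) (hginf_D hA hqM HM Z lk L)
      (datumD_Reg hA hqM HM Z lk) (datumD_N₁_eq hA hqM HM Z lk) (datumD_N₂_eq hA hqM HM Z lk)
      hn0 Ku D0 (D0.support.finite_toSet.subset fun v hv => Finsupp.mem_support_iff.2 hv) hf hloc
      hloc' hXS
      𝒜 h𝒜 ℬ DT hle hcompat hdict hconv hne hDϖ
      𝒜' h𝒜' ℬ' DT' hle' hcompat' hdict' hDϖ'
      (e := (XD).q ^ 2 - 1) hD hp hp'
  exact ⟨t₀, ht, hR₁, hR₂, hv₀, pt, pt'⟩

end Block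

end X0

end Fermat.Agent.S36.LeafT0X0
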