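/-
PROJECT V (S36), slice V-ReducedBranch (helper7): **chain (V12)(i)(ii)(ii') in ring language:
a closed point lying on ONE branch whose local equation is known is a factorial point.**

No valuation is visible in the statement (`BranchCore` language):

* `A` a noetherian integrally closed domain (chart ring), `m` a prime ideal (the closed point),
* `P ≤ m` a prime ideal (the branch through the point: `ker r_W`), `y ∈ P`, `y ≠ 0` (the local
  equation: `q` on `C₂₀`, `C₀₂`; `a₂(a) - a₀(a)` on `C₁₁`; `a₂(a)/a₀(a) - 1` at the middle cusps),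
* `(e)` `P A_P = y A_P` : every `a ∈ P` satisfies `s a = b y` with `s ∉ P`,
* `(u)` every prime `Q` with `y ∈ Q ≤ m` contains `P` (no other branch, no horizontal zero of `y`
  through the point),
* `r : A → B` surjective with kernel `P`, `n` a prime of `B`, `m = r⁻¹ n`, and `B` is locally
  principal at `n` (`LocPID n`; true when `B` is a Dedekind domain: chain (V8)).

Output: `yAm_eq` (`y A_m = P A_m`), `locPrincipal` (`LocalGenCore.LocPrincipal m`: every height-one
prime through the point is principal there, the input of chain (V14)), `ufd`.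
-/
import Mathlib
import Fermat.Agent.S36.KrullInter
import Fermat.Agent.S36.NakElement
import Fermat.Agent.S36.LocalGenCore

set_option autoImplicit false
set_option linter.unusedSectionVars false
set_option linter.style.haveILetI false
set_option linter.unusedVariables false

namespace Fermat.Agent.S36.ReducedBranch

open Fermat.Agent.S36.KrullInter Fermat.Agent.S36.LocalGenCore

/-! ### Local principality of all ideals at a prime, elementwise -/

/-- every ideal of `B` is principal in the localisation at `n` -/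
def LocPID {B : Type*} [CommRing B] (n : Ideal B) : Prop :=
  ∀ I : Ideal B, ∃ g ∈ I, ∀ a ∈ I, ∃ s : B, s ∉ n ∧ ∃ b : B, s * a = b * g

/-- a Dedekind domain is locally principal at every nonzero prime -/
theorem locPID_of_isDedekindDomain {B : Type*} [CommRing B] [IsDedekindDomain B] (n : Ideal B)
    [hn : n.IsPrime] (hn0 : n ≠ ⊥) : LocPID n := by
  intro I
  haveI : IsDiscreteValuationRing (Localization.AtPrime n) :=
    IsLocalization.AtPrime.isDiscreteValuationRing_of_dedekind_domain B hn0 _
  obtain ⟨g', hg'⟩ := IsPrincipalIdealRing.principal (I.map (algebraMap B (Localization.AtPrime n)))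
  have hg'mem : g' ∈ I.map (algebraMap B (Localization.AtPrime n)) := by
    rw [hg']
    exact Submodule.mem_span_singleton_self g'
  obtain ⟨⟨g₀, s₀⟩, hg₀⟩ := (IsLocalization.mem_map_algebraMap_iff n.primeCompl _).1 hg'mem
  refine ⟨g₀, g₀.2, fun a ha => ?_⟩
  have hamem : algebraMap B (Localization.AtPrime n) a ∈
      I.map (algebraMap B (Localization.AtPrime n)) := Ideal.mem_map_of_mem _ ha
  rw [hg'] at hamem
  obtain ⟨r, hr⟩ := Submodule.mem_span_singleton.1 hamem
  obtain ⟨b, s, rfl⟩ := IsLocalization.exists_mk'_eq n.primeCompl r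
  refine ⟨(s : B) * (s₀ : B), fun hmem => (hn.mem_or_mem hmem).elim s.2 s₀.2, b, ?_⟩
  have hinj : Function.Injective (algebraMap B (Localization.AtPrime n)) :=
    IsLocalization.injective _ n.primeCompl_le_nonZeroDivisors
  apply hinj
  rw [map_mul, map_mul, map_mul, ← hr, ← hg₀, smul_eq_mul]
  have h1 : IsLocalization.mk' (Localization.AtPrime n) b s *
      algebraMap B (Localization.AtPrime n) (s : B) = algebraMap B (Localization.AtPrime n) b :=
    IsLocalization.mk'_spec _ b s
  rw [← h1]
  ring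

/-- the localisation of `B` at `n` inside a fraction field is a principal ideal ring -/
theorem isPrincipalIdealRing_locSubring {B : Type*} [CommRing B] [IsDomain B] {κ : Type*}
    [Field κ] [Algebra B κ] [IsFractionRing B κ] (n : Ideal B) [hn : n.IsPrime]
    (h : LocPID n) : IsPrincipalIdealRing (locSubring (F := κ) n) := by
  refine ⟨fun J => ?_⟩
  let toLoc : B →+* locSubring (F := κ) n :=
    (algebraMap B κ).codRestrict (locSubring (F := κ) n) (algebraMap_mem_locSubring n)
  have htoLoc : ∀ b : B, ((toLoc b : locSubring (F := κ) n) : κ) = algebraMap B κ b := fun _ => rfl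
  obtain ⟨g, hgJ, hgen⟩ := h (J.comap toLoc)
  rw [Ideal.mem_comap] at hgJ
  refine ⟨⟨toLoc g, le_antisymm ?_ ?_⟩⟩
  · rintro ⟨t, s, hs, a, hat⟩ htJ
    -- `ι a = ι s * t ∈ J`
    have haJ : toLoc a ∈ J := by
      have := J.mul_mem_left (toLoc s) htJ
      convert this using 1
      exact Subtype.ext hat.symm
    obtain ⟨s', hs', b, hb⟩ := hgen a (Ideal.mem_comap.2 haJ)
    have hs0 : s ≠ 0 := fun h0 => hs (h0 ▸ n.zero_mem)
    have hs'0 : s' ≠ 0 := fun h0 => hs' (h0 ▸ n.zero_mem)
    have hιs : algebraMap B κ s ≠ 0 := algebraMap_ne_zero' hs0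
    have hιs' : algebraMap B κ s' ≠ 0 := algebraMap_ne_zero' hs'0
    rw [Submodule.mem_span_singleton]
    have hcT : algebraMap B κ b * (algebraMap B κ s')⁻¹ * (algebraMap B κ s)⁻¹ ∈
        locSubring (F := κ) n :=
      Subring.mul_mem _ (Subring.mul_mem _ (algebraMap_mem_locSubring n b)
        (inv_mem_locSubring hs')) (inv_mem_locSubring hs)
    refine ⟨⟨_, hcT⟩, Subtype.ext ?_⟩
    show algebraMap B κ b * (algebraMap B κ s')⁻¹ * (algebraMap B κ s)⁻¹ * algebraMap B κ g = t
    have h1 : algebraMap B κ s' * algebraMap B κ a = algebraMap B κ b * algebraMap B κ g := by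
      rw [← map_mul, ← map_mul, hb]
    have h2 : t = (algebraMap B κ s)⁻¹ * algebraMap B κ a := by
      rw [← hat, ← mul_assoc, inv_mul_cancel₀ hιs, one_mul]
    rw [h2]
    have h3 : algebraMap B κ a = (algebraMap B κ s')⁻¹ * (algebraMap B κ b * algebraMap B κ g) := by
      rw [← h1, ← mul_assoc, inv_mul_cancel₀ hιs', one_mul]
    rw [h3]
    ring
  · change Ideal.span {toLoc g} ≤ J
    rw [Ideal.span_le, Set.singleton_subset_iff]
    exact hgJ

/-! ### The reduced-branch theorem -/

variable {A : Type*} [CommRing A] [IsDomain A] {F : Type*} [Field F] [Algebra A F]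
  [IsFractionRing A F] [IsNoetherianRing A] [IsIntegrallyClosed A]

local notation "ι" => algebraMap A F

/-- **The input of chain (V12)(i)(ii)(ii')**: the branch `P` through the point `m` has the local
equation `y`, and no other prime containing `y` passes through `m`. -/
structure Input (m P : Ideal A) (y : A) : Prop where
  prime : P.IsPrime
  le : P ≤ m
  ne_zero : y ≠ 0
  mem : y ∈ P
  /-- `P A_P = y A_P` -/
  e : ∀ a ∈ P, ∃ s : A, s ∉ P ∧ ∃ b : A, s * a = b * y
  /-- only the branch `P` contains `y` at `m` -/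
  u : ∀ Q : Ideal A, Q.IsPrime → y ∈ Q → Q ≤ m → P ≤ Q

namespace Input

variable {m P : Ideal A} {y : A}

omit [IsDomain A] [IsNoetherianRing A] [IsIntegrallyClosed A] in
/-- **the input from the fibre structure** (`BranchCore.Datum.ker_inf`): the radical of `(ϖ)` is the
intersection of three branches `P`, `P'`, `P''`, only `P` passes through `m`, and every prime
containing `y` inside `m` contains `ϖ` (trivial for `y = ϖ`; for `y ^ k s = ϖ c`, `c ∉ m`). -/
theorem mk_of_inf (hP : P.IsPrime) (hPm : P ≤ m) (hy0 : y ≠ 0) (hyP : y ∈ P)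
    (e : ∀ a ∈ P, ∃ s : A, s ∉ P ∧ ∃ b : A, s * a = b * y) {ϖ : A} {P' P'' : Ideal A}
    (hinf : P ⊓ P' ⊓ P'' ≤ (Ideal.span {ϖ}).radical) (h' : ¬ P' ≤ m) (h'' : ¬ P'' ≤ m)
    (hϖ : ∀ Q : Ideal A, Q.IsPrime → y ∈ Q → Q ≤ m → ϖ ∈ Q) : Input m P y where
  prime := hP
  le := hPm
  ne_zero := hy0
  mem := hyP
  e := e
  u := by
    intro Q hQ hyQ hQm
    have h1 : (Ideal.span {ϖ}).radical ≤ Q :=
      hQ.radical_le_iff.2 ((Ideal.span_singleton_le_iff_mem _).2 (hϖ Q hQ hyQ hQm))
    have h2 : P ⊓ P' ⊓ P'' ≤ Q := hinf.trans h1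
    rcases hQ.inf_le.1 h2 with h3 | h3
    · rcases hQ.inf_le.1 h3 with h4 | h4
      · exact h4
      · exact absurd (h4.trans hQm) h'
    · exact absurd (h3.trans hQm) h''

omit [IsDomain A] [IsNoetherianRing A] [IsIntegrallyClosed A] in
/-- the condition `hϖ` of `mk_of_inf` from a relation `s y ^ k = ϖ c` with `c ∉ m` -/
theorem mem_of_pow_eq {ϖ s c : A} {k : ℕ} (hc : c ∉ m) (hrel : s * y ^ k = ϖ * c) (hk : 0 < k)
    (Q : Ideal A) (hQ : Q.IsPrime) (hyQ : y ∈ Q) (hQm : Q ≤ m) : ϖ ∈ Q := by
  have h1 : ϖ * c ∈ Q := by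
    rw [← hrel]
    exact Q.mul_mem_left s (Ideal.pow_mem_of_mem Q hyQ k hk)
  exact (hQ.mem_or_mem h1).resolve_right fun hcQ => hc (hQm hcQ)

omit [IsIntegrallyClosed A] in
/-- a uniform `s ∉ P` with `s P ⊆ y A` -/
theorem exists_uniform_mul (I : Input m P y) :
    ∃ s : A, s ∉ P ∧ ∀ a ∈ P, ∃ b : A, s * a = b * y := by
  classical
  haveI := I.prime
  obtain ⟨S, hS⟩ := (IsNoetherian.noetherian P : P.FG)
  have hSP : ∀ x ∈ S, x ∈ P := fun x hx => hS ▸ Submodule.subset_span hx
  have hex : ∀ x : A, ∃ s : A, x ∈ S → s ∉ P ∧ ∃ b : A, s * x = b * y := by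
    intro x
    by_cases hx : x ∈ S
    · obtain ⟨s, hs, hb⟩ := I.e x (hSP x hx)
      exact ⟨s, fun _ => ⟨hs, hb⟩⟩
    · exact ⟨1, fun h => absurd h hx⟩
  choose sx hsx using hex
  refine ⟨∏ x ∈ S, sx x, ?_, ?_⟩
  · intro hmem
    obtain ⟨x, hxS, hx⟩ := Ideal.IsPrime.prod_mem_iff.1 hmem
    exact (hsx x hxS).1 hx
  · intro a ha
    rw [← hS] at ha
    induction ha using Submodule.span_induction with
    | mem x hxS =>
      obtain ⟨-, b, hb⟩ := hsx x hxS
      refine ⟨(∏ x' ∈ S.erase x, sx x') * b, ?_⟩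
      rw [← Finset.mul_prod_erase S _ hxS, mul_assoc, mul_comm (∏ x' ∈ S.erase x, sx x') x,
        ← mul_assoc, hb]
      ring
    | zero => exact ⟨0, by rw [mul_zero, zero_mul]⟩
    | add x x' _ _ hx hx' =>
      obtain ⟨b, hb⟩ := hx
      obtain ⟨b', hb'⟩ := hx'
      exact ⟨b + b', by rw [mul_add, hb, hb', add_mul]⟩
    | smul c x _ hx =>
      obtain ⟨b, hb⟩ := hx
      exact ⟨c * b, by rw [smul_eq_mul, mul_left_comm, hb, mul_assoc]⟩

omit [IsNoetherianRing A] [IsIntegrallyClosed A] in
/-- `P` is the conductor of `s / y` -/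
theorem isCond_of_uniform (I : Input m P y) {s : A} (hs : s ∉ P)
    (hsP : ∀ a ∈ P, ∃ b : A, s * a = b * y) : IsCond P (ι s / ι y) := by
  have hιy : ι y ≠ 0 := algebraMap_ne_zero' I.ne_zero
  refine ⟨I.prime, fun r => ⟨fun hr => ?_, ?_⟩⟩
  · obtain ⟨b, hb⟩ := hsP r hr
    refine ⟨b, ?_⟩
    rw [mul_div_assoc', div_eq_iff hιy, ← map_mul, ← map_mul, mul_comm r s, hb]
  · rintro ⟨a, ha⟩
    rw [mul_div_assoc', div_eq_iff hιy, ← map_mul, ← map_mul] at ha
    have h1 : r * s = a * y := IsFractionRing.injective A F ha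
    have h2 : r * s ∈ P := by rw [h1]; exact P.mul_mem_left a I.mem
    exact (I.prime.mem_or_mem h2).resolve_right hs

/-- **the Nakayama datum of a reduced branch** -/
theorem exists_datum (I : Input m P y) :
    ∃ (z : F) (h : IsCond P z), NakElement.Datum m y h.valuationSubring := by
  haveI := I.prime
  obtain ⟨s, hs, hsP⟩ := I.exists_uniform_mul
  have h : IsCond P (ι s / ι y) := I.isCond_of_uniform hs hsP
  have hιy : ι y ≠ 0 := algebraMap_ne_zero' I.ne_zero
  have hs0 : s ≠ 0 := fun h0 => hs (h0 ▸ P.zero_mem)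
  have hιs : ι s ≠ 0 := algebraMap_ne_zero' hs0
  refine ⟨ι s / ι y, h, ?_⟩
  refine ⟨I.ne_zero, I.le I.mem, h.algebraMap_mem, (h.mem_iff_inv_not_mem I.ne_zero).1 I.mem,
    ?_, ?_⟩
  · intro w hw
    rcases h.unit_or_div' hw with h1 | h1
    · exact Or.inl h1
    · right
      have : w * (ι y)⁻¹ = (w * (ι s / ι y)) * (ι s)⁻¹ := by
        field_simp
      rw [this]
      exact Subring.mul_mem _ h1 (inv_mem_locSubring hs)
  · intro Q z₂ h₂ hQm hyQ w hw
    haveI := h₂.prime
    have hPQ : P ≤ Q := I.u Q h₂.prime hyQ hQm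
    have hPbot : P ≠ ⊥ := fun hbot => I.ne_zero (by
      have := I.mem
      rwa [hbot, Ideal.mem_bot] at this)
    have hPeq : P = Q := (h₂.eq_bot_or_eq_of_le P hPQ).resolve_left hPbot
    obtain ⟨s', hs', a, ha⟩ := hw
    exact ⟨s', fun hmem => hs' (hPeq ▸ hmem), a, ha⟩

/-- `y A_m = P A_m` -/
theorem yAm_eq (I : Input m P y) [hm : m.IsPrime] :
    ∀ a ∈ P, ∃ s : A, s ∉ m ∧ ∃ b : A, s * a = b * y := by
  haveI := I.prime
  obtain ⟨z, h, D⟩ := I.exists_datum (F := FractionRing A)
  intro a ha
  by_cases ha0 : a = 0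
  · exact ⟨1, fun h1 => hm.ne_top ((Ideal.eq_top_iff_one m).2 h1), 0, by
      rw [ha0, mul_zero, zero_mul]⟩
  · exact D.exists_mul_eq ((h.mem_iff_inv_not_mem ha0).1 ha)

section Reduction

variable {B : Type*} [CommRing B] [IsDomain B]

/-- **the reduction of a reduced branch** onto the local ring of the component curve -/
theorem exists_red (I : Input m P y) [hm : m.IsPrime] (r : A →+* B)
    (hr : Function.Surjective r) (hker : RingHom.ker r = P) (n : Ideal B) [hn : n.IsPrime]
    (hmn : m = n.comap r) :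
    ∃ (z : F) (h : IsCond P z) (D : NakElement.Datum m y h.valuationSubring),
      D.Red ((algebraMap B (FractionRing B)).comp r) (locSubring (F := FractionRing B) n) := by
  haveI := I.prime
  obtain ⟨z, h, D⟩ := I.exists_datum (F := F)
  refine ⟨z, h, D, ?_⟩
  have hinj : Function.Injective (algebraMap B (FractionRing B)) :=
    IsFractionRing.injective B (FractionRing B)
  refine ⟨fun a => ?_, fun a => algebraMap_mem_locSubring n (r a), fun a ha => ?_, ?_⟩
  · have h1 : ((algebraMap B (FractionRing B)).comp r) a = 0 ↔ a ∈ P := by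
      rw [RingHom.comp_apply, map_eq_zero_iff _ hinj, ← hker, RingHom.mem_ker]
    rw [h1]
    constructor
    · intro ha
      by_cases ha0 : a = 0
      · exact Or.inl ha0
      · exact Or.inr ((h.mem_iff_inv_not_mem ha0).1 ha)
    · rintro (rfl | ha)
      · exact P.zero_mem
      · by_contra haP
        exact ha (inv_mem_locSubring haP)
  · apply inv_mem_locSubring
    intro hmem
    apply ha
    rw [hmn]
    exact hmem
  · rintro t ⟨s', hs', b, hb⟩
    obtain ⟨a, rfl⟩ := hr b
    obtain ⟨s, rfl⟩ := hr s'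
    refine ⟨a, s, ?_, hb⟩
    intro hsm
    rw [hmn] at hsm
    exact hs' hsm

/-- **(V12)(i)(ii)(ii'), ring form**: every conductor prime through `m` is principal at `m` -/
theorem locPrincipal (I : Input m P y) [hm : m.IsPrime] (r : A →+* B)
    (hr : Function.Surjective r) (hker : RingHom.ker r = P) (n : Ideal B) [hn : n.IsPrime]
    (hmn : m = n.comap r) (hpid : LocPID n) : LocPrincipal (F := F) m := by
  obtain ⟨z, h, D, H⟩ := I.exists_red (F := F) r hr hker n hmn
  haveI := isPrincipalIdealRing_locSubring (κ := FractionRing B) n hpid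
  exact locPrincipal_of_red H

/-- the localisation of `A` at `m` is a unique factorisation domain -/
theorem ufd (I : Input m P y) [hm : m.IsPrime] (r : A →+* B)
    (hr : Function.Surjective r) (hker : RingHom.ker r = P) (n : Ideal B) [hn : n.IsPrime]
    (hmn : m = n.comap r) (hpid : LocPID n) :
    UniqueFactorizationMonoid (Localization.AtPrime m) := by
  obtain ⟨z, h, D, H⟩ := I.exists_red (F := FractionRing A) r hr hker n hmn
  haveI := isPrincipalIdealRing_locSubring (κ := FractionRing B) n hpid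
  exact H.ufd

end Reduction

end Input

end Fermat.Agent.S36.ReducedBranch
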