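/-
PROJECT V (S36), slice V-AllPoints (helper7): **chain (V12) ==> (V14) glue: every closed point of
the fibre of a chart is a factorial point**, in the ring language of `BranchCore`.

`D : BranchCore.Datum A₁ A B` (one chart of the level-`q²` model: three surjective reductions
`r20 r11 r02 : A → B` onto the coordinate ring `B` of the component curve, `ker_inf`, the node
set `S`).  `A` noetherian integrally closed domain, `B` a domain which is locally principal at
its maximal ideals (Dedekind).  Inputs: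

* `BranchEq (ker r20) ϖ`, `BranchEq (ker r02) ϖ` : `ϖ` is a local equation of `C₂₀`, `C₀₂`
  generically (`e = 1`: `ϖ` is a uniformiser of `W₂₀`, `W₀₂`);
* for every place `n ∉ S` : a local equation `z` of `C₁₁` at `x₁₁(n)` (`BranchEq (ker r11) z`)
  with `s z ^ k = ϖ c`, `c ∉ x₁₁(n)` (chain (V12)(ii)(ii'): `c = z^(q-1)/ϖ` is a unit at the point);
* for every `n ∈ S` : `LocPrincipal (x(n))` (chain (V12)(iii): the triple points, `TripleCore`).

Output: `locPrincipal_of_isMaximal` : `LocalGenCore.LocPrincipal m` for EVERY maximal ideal `m`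
of `A` containing `ϖ`, the hypothesis of `LocalGenCover.exists_cover_generators`.
-/
import Mathlib
import Fermat.Agent.S36.BranchCore
import Fermat.Agent.S36.ReducedBranch

set_option autoImplicit false
set_option linter.unusedSectionVars false
set_option linter.style.haveILetI false
set_option linter.unusedVariables false

namespace Fermat.Agent.S36.AllPoints

open Fermat.Agent.S36.KrullInter Fermat.Agent.S36.LocalGenCore Fermat.Agent.S36.ReducedBranch
open Fermat.Agent.S36.BranchCore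

/-- `LocPID` at all maximal ideals of a Dedekind domain which is not a field -/
theorem locPID_of_isMaximal {B : Type*} [CommRing B] [IsDedekindDomain B] (hB : ¬ IsField B)
    (n : Ideal B) (hn : n.IsMaximal) : LocPID n := by
  haveI := hn.isPrime
  exact locPID_of_isDedekindDomain n (Ring.ne_bot_of_isMaximal_of_not_isField hn hB)

variable {A₁ A B : Type*} [CommRing A₁] [CommRing A] [CommRing B]
  [IsDomain A] [IsNoetherianRing A] [IsIntegrallyClosed A] [IsDomain B] [IsIntegrallyClosed A₁]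
  {F : Type*} [Field F] [Algebra A F] [IsFractionRing A F]

/-- `y` generates `P` in the localisation at `P` -/
def BranchEq (P : Ideal A) (y : A) : Prop :=
  ∀ a ∈ P, ∃ s : A, s ∉ P ∧ ∃ b : A, s * a = b * y

variable (D : BranchCore.Datum A₁ A B)

theorem ϖ_mem_ker : D.ϖ ∈ RingHom.ker D.r20 ⊓ RingHom.ker D.r11 ⊓ RingHom.ker D.r02 := by
  rw [D.ker_inf]
  exact Ideal.le_radical (Ideal.mem_span_singleton_self D.ϖ)

/-- off `S`, only `C₂₀` passes through `x₂₀(n)` -/
theorem not_le_x20 {n : Ideal B} (hn : n.IsMaximal) (hS : n ∉ D.S) :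
    ¬ RingHom.ker D.r11 ≤ D.x20 n ∧ ¬ RingHom.ker D.r02 ≤ D.x20 n := by
  constructor
  · intro h
    obtain ⟨n', hn', hS', h20, -, -⟩ := D.exists_mem_S_of_two_le (D.x20 n) (D.x20_isMaximal hn)
      (Or.inl ⟨D.ker_r20_le_x20 n, h⟩)
    exact hS (D.x20_injective h20 ▸ hS')
  · intro h
    obtain ⟨n', hn', hS', h20, -, -⟩ := D.exists_mem_S_of_two_le (D.x20 n) (D.x20_isMaximal hn)
      (Or.inr (Or.inl ⟨D.ker_r20_le_x20 n, h⟩))
    exact hS (D.x20_injective h20 ▸ hS')

/-- off `S`, only `C₁₁` passes through `x₁₁(n)` -/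
theorem not_le_x11 {n : Ideal B} (hn : n.IsMaximal) (hS : n ∉ D.S) :
    ¬ RingHom.ker D.r20 ≤ D.x11 n ∧ ¬ RingHom.ker D.r02 ≤ D.x11 n := by
  constructor
  · intro h
    obtain ⟨n', hn', hS', -, h11, -⟩ := D.exists_mem_S_of_two_le (D.x11 n) (D.x11_isMaximal hn)
      (Or.inl ⟨h, D.ker_r11_le_x11 n⟩)
    exact hS (D.x11_injective h11 ▸ hS')
  · intro h
    obtain ⟨n', hn', hS', -, h11, -⟩ := D.exists_mem_S_of_two_le (D.x11 n) (D.x11_isMaximal hn)
      (Or.inr (Or.inr ⟨D.ker_r11_le_x11 n, h⟩))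
    exact hS (D.x11_injective h11 ▸ hS')

/-- off `S`, only `C₀₂` passes through `x₀₂(n)` -/
theorem not_le_x02 {n : Ideal B} (hn : n.IsMaximal) (hS : n ∉ D.S) :
    ¬ RingHom.ker D.r20 ≤ D.x02 n ∧ ¬ RingHom.ker D.r11 ≤ D.x02 n := by
  constructor
  · intro h
    obtain ⟨n', hn', hS', -, -, h02⟩ := D.exists_mem_S_of_two_le (D.x02 n) (D.x02_isMaximal hn)
      (Or.inr (Or.inl ⟨h, D.ker_r02_le_x02 n⟩))
    exact hS (D.x02_injective h02 ▸ hS')
  · intro h
    obtain ⟨n', hn', hS', -, -, h02⟩ := D.exists_mem_S_of_two_le (D.x02 n) (D.x02_isMaximal hn)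
      (Or.inr (Or.inr ⟨h, D.ker_r02_le_x02 n⟩))
    exact hS (D.x02_injective h02 ▸ hS')

/-- **(V12)(i) on `C₂₀`**: the points of `C₂₀` off `S` (cusps included) are factorial -/
theorem locPrincipal_x20 (hϖ0 : D.ϖ ≠ 0) (he : BranchEq (RingHom.ker D.r20) D.ϖ) {n : Ideal B}
    (hn : n.IsMaximal) (hS : n ∉ D.S) (hpid : LocPID n) : LocPrincipal (F := F) (D.x20 n) := by
  haveI := hn.isPrime
  haveI := (D.x20_isMaximal hn).isPrime
  have hmem := ϖ_mem_ker D
  have I : Input (D.x20 n) (RingHom.ker D.r20) D.ϖ :=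
    Input.mk_of_inf (RingHom.ker_isPrime D.r20) (D.ker_r20_le_x20 n) hϖ0 hmem.1.1 he
      D.ker_inf.le (not_le_x20 D hn hS).1 (not_le_x20 D hn hS).2 (fun _ _ hyQ _ => hyQ)
  exact I.locPrincipal D.r20 D.r20_surj rfl n rfl hpid

/-- **(V12)(i) on `C₀₂`** -/
theorem locPrincipal_x02 (hϖ0 : D.ϖ ≠ 0) (he : BranchEq (RingHom.ker D.r02) D.ϖ) {n : Ideal B}
    (hn : n.IsMaximal) (hS : n ∉ D.S) (hpid : LocPID n) : LocPrincipal (F := F) (D.x02 n) := by
  haveI := hn.isPrime
  haveI := (D.x02_isMaximal hn).isPrime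
  have hmem := ϖ_mem_ker D
  have hinf : RingHom.ker D.r02 ⊓ RingHom.ker D.r20 ⊓ RingHom.ker D.r11 ≤
      (Ideal.span {D.ϖ}).radical := by
    rw [← D.ker_inf]
    intro a ha
    exact ⟨⟨ha.1.2, ha.2⟩, ha.1.1⟩
  have I : Input (D.x02 n) (RingHom.ker D.r02) D.ϖ :=
    Input.mk_of_inf (RingHom.ker_isPrime D.r02) (D.ker_r02_le_x02 n) hϖ0 hmem.2 he
      hinf (not_le_x02 D hn hS).1 (not_le_x02 D hn hS).2 (fun _ _ hyQ _ => hyQ)
  exact I.locPrincipal D.r02 D.r02_surj rfl n rfl hpid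

/-- **(V12)(ii)(ii') on `C₁₁`**: a point of `C₁₁` off `S` with a local equation `z` such that
`s z ^ k = ϖ c`, `c` a unit at the point, is factorial -/
theorem locPrincipal_x11 {n : Ideal B} (hn : n.IsMaximal) (hS : n ∉ D.S) (hpid : LocPID n)
    {z : A} (hz0 : z ≠ 0) (hz : z ∈ RingHom.ker D.r11) (he : BranchEq (RingHom.ker D.r11) z)
    {s c : A} {k : ℕ} (hk : 0 < k) (hc : c ∉ D.x11 n) (hrel : s * z ^ k = D.ϖ * c) :
    LocPrincipal (F := F) (D.x11 n) := by
  haveI := hn.isPrime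
  haveI := (D.x11_isMaximal hn).isPrime
  have hinf : RingHom.ker D.r11 ⊓ RingHom.ker D.r20 ⊓ RingHom.ker D.r02 ≤
      (Ideal.span {D.ϖ}).radical := by
    rw [← D.ker_inf]
    intro a ha
    exact ⟨⟨ha.1.2, ha.1.1⟩, ha.2⟩
  have I : Input (D.x11 n) (RingHom.ker D.r11) z :=
    Input.mk_of_inf (RingHom.ker_isPrime D.r11) (D.ker_r11_le_x11 n) hz0 hz he
      hinf (not_le_x11 D hn hS).1 (not_le_x11 D hn hS).2
      (fun Q hQ hyQ hQm => Input.mem_of_pow_eq hc hrel hk Q hQ hyQ hQm)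
  exact I.locPrincipal D.r11 D.r11_surj rfl n rfl hpid

/-- **every closed point of the fibre of the chart is factorial** -/
theorem locPrincipal_of_isMaximal (hϖ0 : D.ϖ ≠ 0)
    (he20 : BranchEq (RingHom.ker D.r20) D.ϖ) (he02 : BranchEq (RingHom.ker D.r02) D.ϖ)
    (hpid : ∀ n : Ideal B, n.IsMaximal → LocPID n)
    (h11 : ∀ n : Ideal B, n.IsMaximal → n ∉ D.S → ∃ z : A, z ≠ 0 ∧ z ∈ RingHom.ker D.r11 ∧
      BranchEq (RingHom.ker D.r11) z ∧
      ∃ (s c : A) (k : ℕ), 0 < k ∧ c ∉ D.x11 n ∧ s * z ^ k = D.ϖ * c)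
    (hS : ∀ n : Ideal B, n.IsMaximal → n ∈ D.S → LocPrincipal (F := F) (D.x20 n))
    (m : Ideal A) (hm : m.IsMaximal) (hϖm : D.ϖ ∈ m) : LocPrincipal (F := F) m := by
  obtain ⟨n, hn, hmn⟩ := D.exists_eq_comap m hm hϖm
  by_cases hnS : n ∈ D.S
  · have h20 : m = D.x20 n := by
      rcases hmn with h | h | h
      · exact h
      · rw [h, D.x20_eq_x11 hn hnS]
      · rw [h, D.x20_eq_x02 hn hnS]
    rw [h20]
    exact hS n hn hnS
  · rcases hmn with h | h | h
    · rw [h]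
      exact locPrincipal_x20 D hϖ0 he20 hn hnS (hpid n hn)
    · rw [h]
      obtain ⟨z, hz0, hz, he, s, c, k, hk, hc, hrel⟩ := h11 n hn hnS
      exact locPrincipal_x11 D hn hnS (hpid n hn) hz0 hz he hk hc hrel
    · rw [h]
      exact locPrincipal_x02 D hϖ0 he02 hn hnS (hpid n hn)

end Fermat.Agent.S36.AllPoints
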