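/-
S36 (project V), slice V-LocTransfer (helper2): `LocalGenCore.LocPrincipal` DEPENDS ONLY ON THE LOCAL
RING, and the overlap dictionary between two charts.

* `locPrincipal_of_locSubring_eq` : `A`, `A'` noetherian integrally closed domains with the same
  fraction field `F`, primes `𝔪 ⊆ A`, `𝔪' ⊆ A'` with the same local ring inside `F`
  (`KrullInter.locSubring 𝔪 = locSubring 𝔪'`): `LocPrincipal 𝔪 → LocPrincipal 𝔪'`.
* `Overlap` : `A' ⊆ A[1/φ]`, `A ⊆ A'[1/ψ]`, `φ ψ = 1` (the two charts `A = chart O φ`,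
  `A' = chart O φ⁻¹`), elementwise.  For a prime `𝔪'` of `A'` with `ψ ∉ 𝔪'` the ideal
  `under 𝔪' := A ∩ 𝔪' A'_{𝔪'}` is prime, does not contain `φ`, and has the same local ring;
  `under_isMaximal` (residue fields are constants), `mem_under_iff_of_const`.
* `Overlap.locPrincipal` : every closed point of `A'` off `ψ = 0` inherits `LocPrincipal` from `A`.

Needed because `TripleCore` (which wants `A` integral over the level-`N₀` chart) fails on the chart
at infinity: there only the cusps are treated directly.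
-/
import Mathlib
import Fermat.Agent.S36.KrullInter
import Fermat.Agent.S36.CentreCore
import Fermat.Agent.S36.LocalGenCore

set_option autoImplicit false
set_option linter.unusedSectionVars false
set_option linter.unusedVariables false
set_option linter.style.haveILetI false

noncomputable section

namespace Fermat.Agent.S36.LocTransfer

open Fermat.Agent.S36.KrullInter Fermat.Agent.S36.CentreCore Fermat.Agent.S36.LocalGenCore

variable {A A' F : Type*} [CommRing A] [IsDomain A] [IsNoetherianRing A] [IsIntegrallyClosed A]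
  [CommRing A'] [IsDomain A'] [IsNoetherianRing A'] [IsIntegrallyClosed A']
  [Field F] [Algebra A F] [IsFractionRing A F] [Algebra A' F] [IsFractionRing A' F]

/-- **`LocPrincipal` depends only on the local ring.** -/
theorem locPrincipal_of_locSubring_eq (m : Ideal A) [hmp : m.IsPrime] (m' : Ideal A')
    [hm'p : m'.IsPrime]
    (hloc : locSubring (F := F) m = locSubring (F := F) m')
    (hm : LocPrincipal (F := F) m) : LocPrincipal (F := F) m' := by
  intro Q' z' hc' hQ'm'
  haveI := hc'.prime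
  set V : ValuationSubring F := hc'.valuationSubring with hV
  -- the local ring lies in `V`
  have hR'V : ∀ x : F, x ∈ locSubring (F := F) m' → x ∈ V := by
    rintro x ⟨s, hs, a, ha⟩
    exact ⟨s, fun h => hs (hQ'm' h), a, ha⟩
  have hRV : ∀ x : F, x ∈ locSubring (F := F) m → x ∈ V := fun x hx => hR'V x (hloc ▸ hx)
  have hAV : ∀ a : A, algebraMap A F a ∈ V := fun a => hRV _ (algebraMap_mem_locSubring m a)
  -- units of the local ring are units of `V`
  have hunit : ∀ t : A, t ∉ m → (algebraMap A F t)⁻¹ ∈ V := fun t ht =>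
    hRV _ (inv_mem_locSubring ht)
  have hunit' : ∀ t : A', t ∉ Q' → (algebraMap A' F t)⁻¹ ∈ V := fun t ht =>
    (inv_mem_locSubring ht : (algebraMap A' F t)⁻¹ ∈ locSubring (F := F) Q')
  set Q : Ideal A := centre V hAV with hQ
  have hQm : Q ≤ m := by
    intro a ha
    by_contra ham
    have ha0 : a ≠ 0 := fun h0 => ham (h0 ▸ m.zero_mem)
    exact (mem_centre_iff ha0).1 ha (hunit a ham)
  have hVtop : V ≠ ⊤ := fun h => hc'.not_mem (by
    have : z' ∈ V := by rw [h]; exact ValuationSubring.mem_top z'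
    exact this)
  have hQ0 : Q ≠ ⊥ := centre_ne_bot V hAV hVtop
  -- `V = A_Q`
  have hVQ : ∀ v : F, v ∈ V → v ∈ locSubring (F := F) Q := by
    rintro v ⟨s', hs', c', hvc⟩
    obtain ⟨t₁, ht₁, s₁, hs₁⟩ : algebraMap A' F s' ∈ locSubring (F := F) m :=
      hloc ▸ algebraMap_mem_locSubring m' s'
    obtain ⟨t₂, ht₂, c₁, hc₁⟩ : algebraMap A' F c' ∈ locSubring (F := F) m :=
      hloc ▸ algebraMap_mem_locSubring m' c'
    refine ⟨t₂ * s₁, ?_, t₁ * c₁, ?_⟩
    · intro hmem
      rcases (centre_isPrime V hAV).mem_or_mem hmem with h | h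
      · exact ht₂ (hQm h)
      · -- `ι s₁ = ι t₁ * ι' s'` is a unit of `V`
        have hs₁0 : s₁ ≠ 0 := by
          rintro rfl
          rw [map_zero] at hs₁
          have ht₁0 : algebraMap A F t₁ ≠ 0 :=
            algebraMap_ne_zero' (fun h0 => ht₁ (h0 ▸ m.zero_mem))
          have hs'0 : algebraMap A' F s' ≠ 0 :=
            algebraMap_ne_zero' (fun h0 => hs' (h0 ▸ Q'.zero_mem))
          exact mul_ne_zero ht₁0 hs'0 hs₁
        apply (mem_centre_iff hs₁0).1 h
        rw [← hs₁, mul_inv]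
        exact V.mul_mem _ _ (hunit t₁ ht₁) (hunit' s' hs')
    · rw [map_mul, map_mul, ← hs₁, ← hc₁, ← hvc]
      ring
  -- `Q` has height one
  have hht : ∀ P : Ideal A, P.IsPrime → P ≤ Q → P = ⊥ ∨ P = Q := by
    intro P hP hPQ
    by_cases hP0 : P = ⊥
    · exact Or.inl hP0
    right
    refine le_antisymm hPQ fun a ha => ?_
    obtain ⟨p, hpP, hp0⟩ := Submodule.exists_mem_ne_zero_of_ne_bot hP0
    -- `ι p = ι' p₁ / ι' t'`
    obtain ⟨t', ht', p₁, hp₁⟩ : algebraMap A F p ∈ locSubring (F := F) m' :=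
      hloc ▸ algebraMap_mem_locSubring m p
    have hιp0 : algebraMap A F p ≠ 0 := algebraMap_ne_zero' hp0
    have ht'0 : algebraMap A' F t' ≠ 0 :=
      algebraMap_ne_zero' (fun h0 => ht' (h0 ▸ m'.zero_mem))
    have hp₁0 : p₁ ≠ 0 := by
      rintro rfl
      rw [map_zero] at hp₁
      exact mul_ne_zero ht'0 hιp0 hp₁
    obtain ⟨n, hn1, hn2⟩ := hc'.exists_pow_of_algebraMap hp₁0
    -- `x := ι a` is divisible by the uniformiser
    set x : F := algebraMap A F a with hx
    have hxV : x ∈ V := hAV a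
    have hxy : x * z' ∈ V := by
      by_cases ha0 : a = 0
      · rw [hx, ha0, map_zero, zero_mul]
        exact V.zero_mem
      · rcases hc'.unit_or_div' hxV with h | h
        · exact absurd h ((mem_centre_iff ha0).1 ha)
        · exact h
    -- `x ^ n = ι p * ε`, `ε ∈ V`
    have hz'0 : z' ≠ 0 := hc'.ne_zero
    set u : F := algebraMap A' F p₁ * z' ^ n with hu
    have hu0 : u ≠ 0 := mul_ne_zero (algebraMap_ne_zero' hp₁0) (pow_ne_zero _ hz'0)
    have hε : x ^ n = algebraMap A F p * (algebraMap A' F t' * u⁻¹ * (x * z') ^ n) := by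
      have : algebraMap A' F p₁ = algebraMap A' F t' * algebraMap A F p := hp₁.symm
      rw [hu, this]
      field_simp
      rw [mul_pow]
    have hεV : algebraMap A' F t' * u⁻¹ * (x * z') ^ n ∈ V :=
      V.mul_mem _ _ (V.mul_mem _ _ (hc'.algebraMap_mem t') hn2) (pow_mem hxy n)
    obtain ⟨s, hs, c, hsc⟩ := hVQ _ hεV
    have hkey : s * a ^ n = p * c := by
      apply IsFractionRing.injective A F
      rw [map_mul, map_mul, map_pow, ← hx, hε, ← hsc]
      ring
    have hmem : s * a ^ n ∈ P := hkey ▸ P.mul_mem_right c hpP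
    rcases hP.mem_or_mem hmem with h | h
    · exact absurd (hPQ h) hs
    · exact hP.mem_of_pow_mem n h
  obtain ⟨z, hc⟩ := exists_isCond_of_height_one (F := F) Q hQ0 hht
  obtain ⟨g, hgQ, hgen⟩ := hm Q z hc hQm
  -- transfer the generator
  obtain ⟨s', hs', g', hg'⟩ : algebraMap A F g ∈ locSubring (F := F) m' :=
    hloc ▸ algebraMap_mem_locSubring m g
  have hcentre' : centre V hc'.algebraMap_mem = Q' := centre_valuationSubring hc'
  refine ⟨g', ?_, fun a' ha' => ?_⟩
  · rw [← hcentre', mem_centre, ← hg']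
    exact mul_mem_nonunits V (hc'.algebraMap_mem s') hgQ
  · -- `ι' a' = ι a₁ / ι t₁`
    obtain ⟨t₁, ht₁, a₁, ha₁⟩ : algebraMap A' F a' ∈ locSubring (F := F) m :=
      hloc ▸ algebraMap_mem_locSubring m' a'
    have ha'V : algebraMap A' F a' ∈ V.nonunits := by
      have : a' ∈ centre V hc'.algebraMap_mem := by
        rw [hcentre']
        exact ha'
      exact this
    have ha₁Q : a₁ ∈ Q := by
      rw [hQ, mem_centre, ← ha₁]
      exact mul_mem_nonunits V (hAV t₁) ha'V
    obtain ⟨s, hs, b, hsb⟩ := hgen a₁ ha₁Q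
    -- `ρ := ι b / (ι s * ι t₁)` lies in the local ring
    have hst : s * t₁ ∉ m := fun h => (hmp.mem_or_mem h).elim hs ht₁
    have hρ : algebraMap A F b * (algebraMap A F (s * t₁))⁻¹ ∈ locSubring (F := F) m' := by
      rw [← hloc]
      exact Subring.mul_mem _ (algebraMap_mem_locSubring m b) (inv_mem_locSubring hst)
    obtain ⟨τ', hτ', c', hc'ρ⟩ := hρ
    refine ⟨τ' * s', fun h => (hm'p.mem_or_mem h).elim hτ' hs', c', ?_⟩
    apply IsFractionRing.injective A' F
    have hst0 : algebraMap A F (s * t₁) ≠ 0 :=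
      algebraMap_ne_zero' (fun h0 => hst (h0 ▸ m.zero_mem))
    have e1 : algebraMap A F s * algebraMap A F a₁ = algebraMap A F b * algebraMap A F g := by
      rw [← map_mul, ← map_mul, hsb]
    have e2 : algebraMap A' F a' =
        algebraMap A F b * (algebraMap A F (s * t₁))⁻¹ * algebraMap A F g := by
      rw [map_mul] at hst0 ⊢
      have hs0 : algebraMap A F s ≠ 0 := left_ne_zero_of_mul hst0
      have ht0 : algebraMap A F t₁ ≠ 0 := right_ne_zero_of_mul hst0
      field_simp
      rw [← e1, ← ha₁]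
      ring
    rw [map_mul, map_mul, map_mul, ← hc'ρ, ← hg', e2]
    ring

/-! ### the overlap of two charts -/

/-- **the overlap of two charts**, elementwise: `A' ⊆ A[1/φ]`, `A ⊆ A'[1/ψ]`, `φ ψ = 1` in `F` -/
structure Overlap (φ : A) (ψ : A') : Prop where
  inv : algebraMap A F φ * algebraMap A' F ψ = 1
  left : ∀ a' : A', ∃ n : ℕ, ∃ a : A,
    (algebraMap A F φ) ^ n * algebraMap A' F a' = algebraMap A F a
  right : ∀ a : A, ∃ n : ℕ, ∃ a' : A',
    (algebraMap A' F ψ) ^ n * algebraMap A F a = algebraMap A' F a'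

namespace Overlap

variable {φ : A} {ψ : A'} (H : Overlap (F := F) φ ψ) (m' : Ideal A') [hm'p : m'.IsPrime]
  (hψ : ψ ∉ m')

include H hψ in
/-- `A` lies in the local ring of `A'` at a prime off `ψ = 0` -/
theorem algebraMap_mem_locSubring' (a : A) : algebraMap A F a ∈ locSubring (F := F) m' := by
  obtain ⟨n, a', ha'⟩ := H.right a
  exact ⟨ψ ^ n, fun h => hψ (hm'p.mem_of_pow_mem n h), a', by rw [map_pow]; exact ha'⟩

/-- the contraction `A ∩ 𝔪' A'_{𝔪'}` of a prime of `A'` off `ψ = 0` -/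
def under : Ideal A where
  carrier := {a | ∃ s' : A', s' ∉ m' ∧ ∃ c' : A', c' ∈ m' ∧
    algebraMap A' F s' * algebraMap A F a = algebraMap A' F c'}
  add_mem' := by
    rintro a b ⟨s₁, hs₁, c₁, hc₁, e₁⟩ ⟨s₂, hs₂, c₂, hc₂, e₂⟩
    refine ⟨s₁ * s₂, fun h => (hm'p.mem_or_mem h).elim hs₁ hs₂, s₂ * c₁ + s₁ * c₂,
      m'.add_mem (m'.mul_mem_left _ hc₁) (m'.mul_mem_left _ hc₂), ?_⟩
    rw [map_mul, map_add, map_add, map_mul, map_mul, ← e₁, ← e₂]
    ring
  zero_mem' := ⟨1, fun h => hm'p.ne_top ((Ideal.eq_top_iff_one _).2 h), 0, m'.zero_mem, by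
    rw [map_zero, map_zero, mul_zero]⟩
  smul_mem' := by
    rintro c a ⟨s₁, hs₁, c₁, hc₁, e₁⟩
    obtain ⟨s₂, hs₂, c₂, e₂⟩ := H.algebraMap_mem_locSubring' m' hψ c
    refine ⟨s₁ * s₂, fun h => (hm'p.mem_or_mem h).elim hs₁ hs₂, c₁ * c₂,
      m'.mul_mem_right _ hc₁, ?_⟩
    rw [smul_eq_mul, map_mul, map_mul, map_mul, ← e₁, ← e₂]
    ring

theorem mem_under {a : A} : a ∈ H.under m' hψ ↔ ∃ s' : A', s' ∉ m' ∧ ∃ c' : A', c' ∈ m' ∧
    algebraMap A' F s' * algebraMap A F a = algebraMap A' F c' := Iff.rfl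

/-- membership in the contraction can be tested on ANY representation -/
theorem mem_under_iff {a : A} {t' c' : A'} (ht' : t' ∉ m')
    (e : algebraMap A' F t' * algebraMap A F a = algebraMap A' F c') :
    a ∈ H.under m' hψ ↔ c' ∈ m' := by
  constructor
  · rintro ⟨s₁, hs₁, c₁, hc₁, e₁⟩
    have h1 : s₁ * c' = t' * c₁ := by
      apply IsFractionRing.injective A' F
      rw [map_mul, map_mul, ← e, ← e₁]
      ring
    have h2 : s₁ * c' ∈ m' := h1 ▸ m'.mul_mem_left _ hc₁
    exact (hm'p.mem_or_mem h2).resolve_left hs₁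
  · intro hc'
    exact ⟨t', ht', c', hc', e⟩

/-- compatible elements: `a ∈ under ↔ a' ∈ 𝔪'` when `ι a = ι' a'` -/
theorem mem_under_iff_of_eq {a : A} {a' : A'} (e : algebraMap A F a = algebraMap A' F a') :
    a ∈ H.under m' hψ ↔ a' ∈ m' :=
  H.mem_under_iff m' hψ (t' := 1) (fun h => hm'p.ne_top ((Ideal.eq_top_iff_one _).2 h))
    (by rw [map_one, one_mul, e])

instance under_isPrime : (H.under m' hψ).IsPrime := by
  refine ⟨?_, ?_⟩
  · intro htop
    have h1 : (1 : A) ∈ H.under m' hψ := htop ▸ Submodule.mem_top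
    have := (H.mem_under_iff_of_eq m' hψ (a := 1) (a' := 1) (by rw [map_one, map_one])).1 h1
    exact hm'p.ne_top ((Ideal.eq_top_iff_one _).2 this)
  · intro a b hab
    obtain ⟨s₁, hs₁, c₁, e₁⟩ := H.algebraMap_mem_locSubring' m' hψ a
    obtain ⟨s₂, hs₂, c₂, e₂⟩ := H.algebraMap_mem_locSubring' m' hψ b
    have e : algebraMap A' F (s₁ * s₂) * algebraMap A F (a * b) = algebraMap A' F (c₁ * c₂) := by
      rw [map_mul, map_mul, map_mul, ← e₁, ← e₂]
      ring
    have h12 : s₁ * s₂ ∉ m' := fun h => (hm'p.mem_or_mem h).elim hs₁ hs₂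
    have hc : c₁ * c₂ ∈ m' := (H.mem_under_iff m' hψ h12 e).1 hab
    rcases hm'p.mem_or_mem hc with h | h
    · exact Or.inl ((H.mem_under_iff m' hψ hs₁ e₁).2 h)
    · exact Or.inr ((H.mem_under_iff m' hψ hs₂ e₂).2 h)

/-- `φ` is a unit at the contraction -/
theorem phi_not_mem_under : φ ∉ H.under m' hψ := by
  rintro ⟨s', hs', c', hc', e⟩
  apply hs'
  have : s' = c' * ψ := by
    apply IsFractionRing.injective A' F
    rw [map_mul, ← e, mul_assoc, H.inv, mul_one]
  rw [this]
  exact m'.mul_mem_right _ hc'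

/-- **the local rings agree** -/
theorem locSubring_under :
    locSubring (F := F) (H.under m' hψ) = locSubring (F := F) m' := by
  ext x
  constructor
  · rintro ⟨s, hs, a, e⟩
    obtain ⟨t₁, ht₁, c₁, e₁⟩ := H.algebraMap_mem_locSubring' m' hψ s
    obtain ⟨t₂, ht₂, c₂, e₂⟩ := H.algebraMap_mem_locSubring' m' hψ a
    have hc₁ : c₁ ∉ m' := fun h => hs ((H.mem_under_iff m' hψ ht₁ e₁).2 h)
    refine ⟨c₁ * t₂, fun h => (hm'p.mem_or_mem h).elim hc₁ ht₂, t₁ * c₂, ?_⟩
    rw [map_mul, map_mul, ← e₁, ← e₂, ← e]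
    ring
  · rintro ⟨s', hs', a', e⟩
    obtain ⟨n, s₁, e₁⟩ := H.left s'
    obtain ⟨k, a₁, e₂⟩ := H.left a'
    have hφ : φ ∉ H.under m' hψ := H.phi_not_mem_under m' hψ
    have hs₁ : s₁ ∉ H.under m' hψ := by
      rintro ⟨t, ht, c, hc, e₃⟩
      have h1 : t * s' = c * ψ ^ n := by
        apply IsFractionRing.injective A' F
        have hinv : (algebraMap A F φ) ^ n * (algebraMap A' F ψ) ^ n = 1 := by
          rw [← mul_pow, H.inv, one_pow]
        calc algebraMap A' F (t * s')
            = algebraMap A' F t * ((algebraMap A F φ) ^ n * algebraMap A' F s') *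
                (algebraMap A' F ψ) ^ n := by
              rw [map_mul]
              calc algebraMap A' F t * algebraMap A' F s'
                  = algebraMap A' F t * algebraMap A' F s' *
                      ((algebraMap A F φ) ^ n * (algebraMap A' F ψ) ^ n) := by
                    rw [hinv, mul_one]
                _ = _ := by ring
          _ = algebraMap A' F (c * ψ ^ n) := by
              rw [e₁, e₃, map_mul, map_pow]
      have h2 : t * s' ∈ m' := h1 ▸ m'.mul_mem_right _ hc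
      exact (hm'p.mem_or_mem h2).elim ht hs'
    refine ⟨s₁ * φ ^ k, fun h => ((H.under_isPrime m' hψ).mem_or_mem h).elim hs₁
      (fun h' => hφ ((H.under_isPrime m' hψ).mem_of_pow_mem k h')), φ ^ n * a₁, ?_⟩
    rw [map_mul, map_mul, map_pow, map_pow, ← e₁, ← e₂, ← e]
    ring

/-- **closed points of `A'` off `ψ = 0` inherit `LocPrincipal` from `A`** -/
theorem locPrincipal (h : LocPrincipal (F := F) (H.under m' hψ)) : LocPrincipal (F := F) m' :=
  locPrincipal_of_locSubring_eq (H.under m' hψ) m' (H.locSubring_under m' hψ) h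

/-- the contraction of a maximal ideal is maximal, when every residue class of `A' / 𝔪'` is
represented by an element of `A` (e.g. a constant) -/
theorem under_isMaximal (hmax : m'.IsMaximal)
    (hres : ∀ a' : A', ∃ a : A, ∃ b' : A', b' ∈ m' ∧
      algebraMap A' F a' = algebraMap A F a + algebraMap A' F b') :
    (H.under m' hψ).IsMaximal := by
  rw [Ideal.isMaximal_iff]
  refine ⟨fun h1 => (H.under_isPrime m' hψ).ne_top ((Ideal.eq_top_iff_one _).2 h1), ?_⟩
  intro J a hle haU haJ
  -- `ι a = ι' c₁ / ι' t₁`, `c₁ ∉ 𝔪'`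
  obtain ⟨t₁, ht₁, c₁, e₁⟩ := H.algebraMap_mem_locSubring' m' hψ a
  have hc₁ : c₁ ∉ m' := fun h => haU ((H.mem_under_iff m' hψ ht₁ e₁).2 h)
  -- inverse of `c₁` modulo `𝔪'`
  obtain ⟨d, hd⟩ := hmax.exists_inv hc₁
  obtain ⟨r, hr, hdr⟩ := hd
  -- `t₁ d ≡ ι b` modulo `𝔪'`
  obtain ⟨b, b', hb', eb⟩ := hres (t₁ * d)
  -- then `1 - a b ∈ under`
  have hmem : 1 - a * b ∈ H.under m' hψ := by
    refine ⟨t₁, ht₁, t₁ * r + c₁ * b', m'.add_mem (m'.mul_mem_left _ hr)
      (m'.mul_mem_left _ hb'), ?_⟩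
    have e2 : algebraMap A F b =
        algebraMap A' F t₁ * algebraMap A' F d - algebraMap A' F b' := by
      rw [← map_mul, eb]
      ring
    have e3 : algebraMap A' F d * algebraMap A' F c₁ + algebraMap A' F r = 1 := by
      rw [← map_mul, ← map_add, hdr, map_one]
    rw [map_sub, map_one, map_mul, map_add, map_mul, map_mul]
    linear_combination (-(algebraMap A F b)) * e₁ + (-(algebraMap A' F c₁)) * e2 +
      (-(algebraMap A' F t₁)) * e3
  have h1 : (1 : A) = (1 - a * b) + a * b := by ring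
  rw [h1]
  exact J.add_mem (hle hmem) (J.mul_mem_right _ haJ)

include H hψ in
/-- **the transfer, in the form consumed by the cover of the second chart** -/
theorem locPrincipal_of_forall (π : A) (π' : A')
    (hππ' : algebraMap A F π = algebraMap A' F π')
    (hA : ∀ m : Ideal A, m.IsMaximal → π ∈ m → LocPrincipal (F := F) m)
    (hmax : m'.IsMaximal) (hπ' : π' ∈ m')
    (hres : ∀ a' : A', ∃ a : A, ∃ b' : A', b' ∈ m' ∧
      algebraMap A' F a' = algebraMap A F a + algebraMap A' F b') :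
    LocPrincipal (F := F) m' :=
  Overlap.locPrincipal H m' hψ (hA _ (H.under_isMaximal m' hψ hmax hres)
    ((H.mem_under_iff_of_eq m' hψ hππ').2 hπ'))

end Overlap

end Fermat.Agent.S36.LocTransfer
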