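/-
PROJECT V (S36), slice V-LocTransfer part 3 (helper2): **`AllPointsT.locPrincipal_of_isMaximal` on
the chart at infinity, with the hypotheses needed ONLY AT THE CUSPS.**

On the second chart `A' = chart O x₂⁻¹` every closed point `m'` of the fibre with `ψ = x₂⁻¹ ∉ m'`
inherits `LocPrincipal` from the first chart (`LocTransfer.Overlap.locPrincipal_of_forall`), so the
`C₁₁`-tuple `h11` is needed only at the places `n` with `r₁₁ ψ ∈ n` (the middle cusps), and no
triple point has to be treated on this chart (`S` is off the cusps).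

* `locPrincipal_of_isMaximal_of_off` : abstract, `hoff` = `LocPrincipal` at the closed points off
  `ψ = 0`;
* `locPrincipal_of_isMaximal_of_overlap` : the same with `hoff` discharged by an `Overlap` with a
  ring `A₀` (the first chart) all of whose closed points of the fibre are `LocPrincipal`.
-/
import Mathlib
import Fermat.Agent.S36.AllPointsT
import Fermat.Agent.S36.LocTransfer

set_option autoImplicit false
set_option linter.unusedSectionVars false
set_option linter.style.haveILetI false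
set_option linter.unusedVariables false

namespace Fermat.Agent.S36.AllPointsInf

open Fermat.Agent.S36.KrullInter Fermat.Agent.S36.LocalGenCore Fermat.Agent.S36.ReducedBranch
open Fermat.Agent.S36.BranchCoreT Fermat.Agent.S36.AllPoints Fermat.Agent.S36.LocTransfer

variable {A₁ A B : Type*} [CommRing A₁] [CommRing A] [CommRing B]
  [IsDomain A] [IsNoetherianRing A] [IsIntegrallyClosed A] [IsDomain B]
  {F : Type*} [Field F] [Algebra A F] [IsFractionRing A F]

variable (D : BranchCoreT.TDatum A₁ A B)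

/-- **every closed point of the fibre of the chart is factorial**, when this is known off `ψ = 0`,
the places of `S` are off `ψ = 0`, and the `C₁₁`-tuple is given at the places where `r₁₁ ψ`
vanishes -/
theorem locPrincipal_of_isMaximal_of_off (ψ : A) (hϖ0 : D.ϖ ≠ 0)
    (he20 : BranchEq (RingHom.ker D.r20) D.ϖ) (he02 : BranchEq (RingHom.ker D.r02) D.ϖ)
    (hpid : ∀ n : Ideal B, n.IsMaximal → LocPID n)
    (hoff : ∀ m : Ideal A, m.IsMaximal → D.ϖ ∈ m → ψ ∉ m → LocPrincipal (F := F) m)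
    (hSψ : ∀ n : Ideal B, n.IsMaximal → n ∈ D.S → D.r20 ψ ∉ n)
    (h11 : ∀ n : Ideal B, n.IsMaximal → n ∉ D.S → D.r11 ψ ∈ n → ∃ z : A, z ≠ 0 ∧
      z ∈ RingHom.ker D.r11 ∧ BranchEq (RingHom.ker D.r11) z ∧
      ∃ (s c : A) (k : ℕ), 0 < k ∧ c ∉ D.x11 n ∧ s * z ^ k = D.ϖ * c)
    (m : Ideal A) (hm : m.IsMaximal) (hϖm : D.ϖ ∈ m) : LocPrincipal (F := F) m := by
  by_cases hψ : ψ ∈ m
  swap
  · exact hoff m hm hϖm hψ
  obtain ⟨n, hn, hmn⟩ := D.exists_eq_comap m hm hϖm
  by_cases hnS : n ∈ D.S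
  · exfalso
    have h20 : m = D.x20 n := by
      rcases hmn with h | h | h
      · exact h
      · rw [h, D.x20_eq_x11 hn hnS]
      · rw [h, D.x20_eq_x02 hn hnS]
    rw [h20] at hψ
    exact hSψ n hn hnS hψ
  · rcases hmn with h | h | h
    · rw [h]
      exact AllPointsT.locPrincipal_x20 D hϖ0 he20 hn hnS (hpid n hn)
    · have hψn : D.r11 ψ ∈ n := by
        rw [h] at hψ
        exact hψ
      rw [h]
      obtain ⟨z, hz0, hz, he, s, c, k, hk, hc, hrel⟩ := h11 n hn hnS hψn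
      exact AllPointsT.locPrincipal_x11 D hn hnS (hpid n hn) hz0 hz he hk hc hrel
    · rw [h]
      exact AllPointsT.locPrincipal_x02 D hϖ0 he02 hn hnS (hpid n hn)

/-- **the chart at infinity**: the same, with the points off `ψ = 0` taken from an overlapping
chart `A₀` (`Overlap φ ψ`) all of whose closed points of the fibre are `LocPrincipal` -/
theorem locPrincipal_of_isMaximal_of_overlap {A₀ : Type*} [CommRing A₀] [IsDomain A₀]
    [IsNoetherianRing A₀] [IsIntegrallyClosed A₀] [Algebra A₀ F] [IsFractionRing A₀ F]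
    {φ : A₀} {ψ : A} (H : Overlap (F := F) φ ψ) (ϖ₀ : A₀)
    (hϖϖ : algebraMap A₀ F ϖ₀ = algebraMap A F D.ϖ)
    (hA₀ : ∀ m₀ : Ideal A₀, m₀.IsMaximal → ϖ₀ ∈ m₀ → LocPrincipal (F := F) m₀)
    (hres : ∀ m : Ideal A, m.IsMaximal → D.ϖ ∈ m → ∀ a : A, ∃ a₀ : A₀, ∃ b : A, b ∈ m ∧
      algebraMap A F a = algebraMap A₀ F a₀ + algebraMap A F b)
    (hϖ0 : D.ϖ ≠ 0)
    (he20 : BranchEq (RingHom.ker D.r20) D.ϖ) (he02 : BranchEq (RingHom.ker D.r02) D.ϖ)
    (hpid : ∀ n : Ideal B, n.IsMaximal → LocPID n)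
    (hSψ : ∀ n : Ideal B, n.IsMaximal → n ∈ D.S → D.r20 ψ ∉ n)
    (h11 : ∀ n : Ideal B, n.IsMaximal → n ∉ D.S → D.r11 ψ ∈ n → ∃ z : A, z ≠ 0 ∧
      z ∈ RingHom.ker D.r11 ∧ BranchEq (RingHom.ker D.r11) z ∧
      ∃ (s c : A) (k : ℕ), 0 < k ∧ c ∉ D.x11 n ∧ s * z ^ k = D.ϖ * c)
    (m : Ideal A) (hm : m.IsMaximal) (hϖm : D.ϖ ∈ m) : LocPrincipal (F := F) m :=
  locPrincipal_of_isMaximal_of_off D ψ hϖ0 he20 he02 hpid
    (fun m' hm' hϖm' hψ' => by
      haveI := hm'.isPrime
      exact H.locPrincipal_of_forall m' hψ' ϖ₀ D.ϖ hϖϖ hA₀ hm' hϖm' (hres m' hm' hϖm'))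
    hSψ h11 m hm hϖm

end Fermat.Agent.S36.AllPointsInf
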