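/-
S36 (project V), slice V-LocTransfer, part 2 (helper2): the `LocTransfer.Overlap` of the two charts
`chart O φ`, `chart O φ⁻¹` (helper12's `ChartRing` / `ChartOverlap`), for ANY presentation of the
two chart rings (a type with an algebra map to `F` whose range is the chart), and for the two
literal presentations (the subalgebra as a type, its `toSubring` as a type).
-/
import Mathlib
import Fermat.Agent.S36.ChartOverlap
import Fermat.Agent.S36.LocTransfer

set_option autoImplicit false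
set_option linter.unusedSectionVars false
set_option linter.unusedVariables false
set_option linter.style.haveILetI false

namespace Fermat.Agent.S36.LocTransferChart

open Fermat.Agent.S36.ChartRing Fermat.Agent.S36.ChartOverlap Fermat.Agent.S36.LocTransfer

variable {O : Type*} [CommRing O] {F : Type*} [Field F] [Algebra O F]

/-- the coordinate lies in its chart -/
theorem gen_mem_chart (φ : F) : φ ∈ chart O φ :=
  isIntegral_algebraMap
    (x := (⟨φ, Algebra.subset_adjoin (Set.mem_singleton φ)⟩ : Algebra.adjoin O ({φ} : Set F)))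

/-- **the overlap of the two charts, for any presentation of the two chart rings** -/
theorem overlap_of_range {A A' : Type*} [CommRing A] [CommRing A'] [Algebra A F] [Algebra A' F]
    {φ : F} (hφ0 : φ ≠ 0)
    (hA : ∀ x : F, (∃ a : A, algebraMap A F a = x) ↔ x ∈ chart O φ)
    (hA' : ∀ x : F, (∃ a' : A', algebraMap A' F a' = x) ↔ x ∈ chart O φ⁻¹)
    {φA : A} (hφA : algebraMap A F φA = φ) {ψA' : A'} (hψA' : algebraMap A' F ψA' = φ⁻¹) :
    Overlap (F := F) φA ψA' := by
  refine ⟨?_, ?_, ?_⟩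
  · rw [hφA, hψA', mul_inv_cancel₀ hφ0]
  · intro a'
    have h1 : algebraMap A' F a' ∈ chart O φ⁻¹ := (hA' _).1 ⟨a', rfl⟩
    obtain ⟨n, hn⟩ := (mem_overlap_iff (O := O) hφ0 _).1 (chart_inv_le_overlap hφ0 h1)
    obtain ⟨a, ha⟩ := (hA _).2 hn
    exact ⟨n, a, by rw [hφA, ha]⟩
  · intro a
    have h1 : algebraMap A F a ∈ chart O φ := (hA _).1 ⟨a, rfl⟩
    obtain ⟨n, hn⟩ := (mem_overlap_iff_inv (O := O) hφ0 _).1 (chart_le_overlap φ h1)
    obtain ⟨a', ha'⟩ := (hA' _).2 hn
    exact ⟨n, a', by rw [hψA', ha']⟩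

/-- the two charts as subalgebra types -/
theorem overlap_chart {φ : F} (hφ0 : φ ≠ 0) :
    Overlap (F := F) (A := chart O φ) (A' := chart O φ⁻¹)
      ⟨φ, gen_mem_chart φ⟩ ⟨φ⁻¹, gen_mem_chart φ⁻¹⟩ :=
  overlap_of_range (O := O) hφ0
    (fun x => ⟨by rintro ⟨a, rfl⟩; exact a.2, fun hx => ⟨⟨x, hx⟩, rfl⟩⟩)
    (fun x => ⟨by rintro ⟨a, rfl⟩; exact a.2, fun hx => ⟨⟨x, hx⟩, rfl⟩⟩) rfl rfl

/-- the two charts as `Subring F` types (the presentation of `Lattice.VCharts.charts.A / A'`) -/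
theorem overlap_chart_toSubring {φ : F} (hφ0 : φ ≠ 0) :
    Overlap (F := F) (A := (chart O φ).toSubring) (A' := (chart O φ⁻¹).toSubring)
      ⟨φ, gen_mem_chart φ⟩ ⟨φ⁻¹, gen_mem_chart φ⁻¹⟩ :=
  overlap_of_range (O := O) hφ0
    (fun x => ⟨by rintro ⟨a, rfl⟩; exact a.2, fun hx => ⟨⟨x, hx⟩, rfl⟩⟩)
    (fun x => ⟨by rintro ⟨a, rfl⟩; exact a.2, fun hx => ⟨⟨x, hx⟩, rfl⟩⟩) rfl rfl

/-- for two subrings of `F` known to BE the two charts -/
theorem overlap_of_subring_eq {φ : F} (hφ0 : φ ≠ 0) {S S' : Subring F}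
    (hS : S = (chart O φ).toSubring) (hS' : S' = (chart O φ⁻¹).toSubring) :
    Overlap (F := F) (A := S) (A' := S')
      ⟨φ, hS ▸ gen_mem_chart (O := O) φ⟩ ⟨φ⁻¹, hS' ▸ gen_mem_chart (O := O) φ⁻¹⟩ := by
  subst hS hS'
  exact overlap_chart_toSubring hφ0

end Fermat.Agent.S36.LocTransferChart
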