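/-
PROJECT V (S36), slice V-LocX0 (helper26, ruling #2685 (S1)): **the LITERAL hypotheses `hloc`,
`hloc'` of `VChartsOfLoc.exists_vcharts`** — every closed point of the special fibre of BOTH charts
`chart O φ`, `chart O φ⁻¹` is locally factorial (`LocalGenCore.LocPrincipal`) — hypotheses first.

`O` a DVR with uniformiser `ϖ` and algebraically closed residue field, `K = Frac O`, `F / K` a
function field, `φ` and `φ⁻¹` transcendental with `F` finite over `K(φ)`, `K(φ⁻¹)`.

Inputs: the branch data of the two charts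
`Dfin : BranchCoreT.TDatum A₁ (chart O φ) Bfin`, `Dinf : BranchCoreT.TDatum A₁' (chart O φ⁻¹) Binf`
(helper1's `BranchX0`) with `D.ϖ = Centre.piChart _ ϖ`, and
* finite chart: `he20 he02` (helper24 `BranchEqV`), `hpid`, the `C₁₁`-tuple `h11` at every place
  off `S`, and `hS` (`LocPrincipal` at the triple points);
* chart at infinity: `he20' he02' hpid'`, `hSψ` (`S` is off the cusps) and the `C₁₁`-tuple ONLY at
  the places where `r₁₁ (φ⁻¹)` vanishes (the middle cusps).

* `hloc_fin` : `AllPointsT.locPrincipal_of_isMaximal` in the shape of `hloc`;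
* `finiteType_constChart`, `exists_const_sub_mem_chart` : the chart ring is an `O`-algebra of finite
  type, hence every function is congruent to a constant at a closed point of the fibre (Zariski's
  lemma, `Lattice.exists_const_sub_mem`);
* `hres_chart` : the hypothesis `hres` of `AllPointsInf.locPrincipal_of_isMaximal_of_overlap`;
* `hloc_inf` : the shape of `hloc'`, from `hloc` on the finite chart through
  `LocTransferChart.overlap_chart`;
* `hloc_both` : the two together; `hpid_of_isDedekindDomain`.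
-/
import Mathlib
import Fermat.Agent.S36.AllPointsInf
import Fermat.Agent.S36.LocTransferChart
import Fermat.Agent.S36.Centre
import Fermat.Agent.S36.FormalLift.LatticeOpen

set_option autoImplicit false
set_option linter.unusedSectionVars false
set_option linter.unusedVariables false
set_option linter.style.haveILetI false

namespace Fermat.Agent.S36.LocX0

open Polynomial IntermediateField
open Fermat.Agent.S36.KrullInter Fermat.Agent.S36.LocalGenCore Fermat.Agent.S36.ReducedBranch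
open Fermat.Agent.S36.BranchCoreT Fermat.Agent.S36.AllPoints Fermat.Agent.S36.LocTransfer
open Fermat.Agent.S36.ChartRing Fermat.Agent.S36.Centre Fermat.Agent.S36.LocTransferChart

variable {O : Type*} [CommRing O] [IsDomain O] [IsDiscreteValuationRing O] {K : Type*} [Field K]
  [Algebra O K] [IsFractionRing O K] [CharZero K] {F : Type*} [Field F] [Algebra K F]
  [Algebra O F] [IsScalarTower O K F]

/-! ### the finite chart -/

section Fin

variable {A₁ B : Type*} [CommRing A₁] [CommRing B] [IsDomain B]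

/-- **`hloc` of `VChartsOfLoc.exists_vcharts`** -/
theorem hloc_fin {ϖ : O} {φ : F} (hφ : Transcendental K φ) [FiniteDimensional K⟮φ⟯ F]
    (D : BranchCoreT.TDatum A₁ (chart O φ) B) (hDϖ : D.ϖ = piChart φ ϖ)
    (hϖ0 : algebraMap O F ϖ ≠ 0)
    (he20 : BranchEq (RingHom.ker D.r20) D.ϖ) (he02 : BranchEq (RingHom.ker D.r02) D.ϖ)
    (hpid : ∀ n : Ideal B, n.IsMaximal → LocPID n)
    (h11 : ∀ n : Ideal B, n.IsMaximal → n ∉ D.S → ∃ z : chart O φ, z ≠ 0 ∧
      z ∈ RingHom.ker D.r11 ∧ BranchEq (RingHom.ker D.r11) z ∧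
      ∃ (s c : chart O φ) (k : ℕ), 0 < k ∧ c ∉ D.x11 n ∧ s * z ^ k = D.ϖ * c)
    (hS : haveI := chart_isFractionRing (O := O) hφ
      ∀ n : Ideal B, n.IsMaximal → n ∈ D.S → LocPrincipal (F := F) (D.x20 n)) :
    haveI := chart_isFractionRing (O := O) hφ
    ∀ m : Ideal (chart O φ), m.IsMaximal → piChart φ ϖ ∈ m → LocPrincipal (F := F) m := by
  haveI := chart_isFractionRing (O := O) hφ
  haveI := chart_isNoetherianRing (O := O) hφ
  haveI := chart_isIntegrallyClosed (O := O) hφ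
  intro m hm hϖm
  have hD0 : D.ϖ ≠ 0 := by
    rw [hDϖ]
    intro h
    apply hϖ0
    rw [← coe_piChart (O := O) φ ϖ, h]
    rfl
  exact AllPointsT.locPrincipal_of_isMaximal D hD0 he20 he02 hpid h11 hS m hm (hDϖ ▸ hϖm)

end Fin

/-! ### the chart ring is of finite type over `O`; Zariski's lemma at the closed points -/

section Zariski

/-- the constants, as a ring homomorphism into the chart ring -/
noncomputable def constChart (φ : F) : O →+* chart O φ :=
  (algebraMap (Algebra.adjoin O ({φ} : Set F)) (chart O φ)).comp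
    (algebraMap O (Algebra.adjoin O ({φ} : Set F)))

omit [IsDomain O] [IsDiscreteValuationRing O] in
@[simp] theorem coe_constChart (φ : F) (c : O) :
    ((constChart (O := O) φ c : chart O φ) : F) = algebraMap O F c := rfl

theorem constChart_eq_piChart (φ : F) (ϖ : O) : constChart (O := O) φ ϖ = piChart φ ϖ :=
  Subtype.ext (by rw [coe_constChart, coe_piChart])

/-- the chart ring is an `O`-algebra of finite type -/
theorem finiteType_constChart {φ : F} (hφ : Transcendental K φ) [FiniteDimensional K⟮φ⟯ F] :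
    (constChart (O := O) φ).FiniteType := by
  have h1 : (algebraMap O (Algebra.adjoin O ({φ} : Set F))).FiniteType :=
    RingHom.finiteType_algebraMap.2 (Algebra.FiniteType.adjoin_of_finite (Set.finite_singleton φ))
  have h2 : (algebraMap (Algebra.adjoin O ({φ} : Set F)) (chart O φ)).FiniteType := by
    have := chart_finite (O := O) (K := K) hφ
    exact RingHom.finiteType_algebraMap.2 inferInstance
  exact h2.comp h1

/-- **every function of the chart is congruent to a constant at a closed point of the special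
fibre** (the residue field of `O` being algebraically closed) -/
theorem exists_const_sub_mem_chart [IsAlgClosed (IsLocalRing.ResidueField O)] {ϖ : O}
    (hϖ : Irreducible ϖ) {φ : F} (hφ : Transcendental K φ) [FiniteDimensional K⟮φ⟯ F]
    (m : Ideal (chart O φ)) (hm : m.IsMaximal) (hϖm : piChart φ ϖ ∈ m) (a : chart O φ) :
    ∃ c : O, a - constChart φ c ∈ m := by
  haveI := hm
  refine Lattice.exists_const_sub_mem (constChart (O := O) φ) (finiteType_constChart hφ) m ?_ a
  intro c hc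
  rw [hϖ.maximalIdeal_eq, Ideal.mem_span_singleton] at hc
  obtain ⟨d, rfl⟩ := hc
  rw [map_mul, constChart_eq_piChart]
  exact m.mul_mem_right _ hϖm

/-- **the hypothesis `hres` of `AllPointsInf.locPrincipal_of_isMaximal_of_overlap`**: modulo a closed
point of the fibre of the chart `ψ`, every function is a function of the chart `φ` (a constant) -/
theorem hres_chart [IsAlgClosed (IsLocalRing.ResidueField O)] {ϖ : O} (hϖ : Irreducible ϖ)
    (φ : F) {ψ : F} (hψ : Transcendental K ψ) [FiniteDimensional K⟮ψ⟯ F]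
    (m : Ideal (chart O ψ)) (hm : m.IsMaximal) (hϖm : piChart ψ ϖ ∈ m) (a : chart O ψ) :
    ∃ a₀ : chart O φ, ∃ b : chart O ψ, b ∈ m ∧
      algebraMap (chart O ψ) F a = algebraMap (chart O φ) F a₀ + algebraMap (chart O ψ) F b := by
  obtain ⟨c, hc⟩ := exists_const_sub_mem_chart hϖ hψ m hm hϖm a
  refine ⟨constChart φ c, a - constChart ψ c, hc, ?_⟩
  show (a : F) = ((constChart (O := O) φ c : chart O φ) : F)
    + ((a - constChart (O := O) ψ c : chart O ψ) : F)
  rw [coe_constChart, AddSubgroupClass.coe_sub, coe_constChart]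
  ring

end Zariski

/-! ### the chart at infinity -/

section Inf

variable {A₁' B' : Type*} [CommRing A₁'] [CommRing B'] [IsDomain B']

/-- **`hloc'` of `VChartsOfLoc.exists_vcharts`**, from `hloc` on the finite chart -/
theorem hloc_inf [IsAlgClosed (IsLocalRing.ResidueField O)] {ϖ : O} (hϖ : Irreducible ϖ) {φ : F}
    (hφ : Transcendental K φ) (hφ' : Transcendental K φ⁻¹)
    [FiniteDimensional K⟮φ⟯ F] [FiniteDimensional K⟮φ⁻¹⟯ F]
    (hloc : haveI := chart_isFractionRing (O := O) hφ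
      ∀ m : Ideal (chart O φ), m.IsMaximal → piChart φ ϖ ∈ m → LocPrincipal (F := F) m)
    (D : BranchCoreT.TDatum A₁' (chart O φ⁻¹) B') (hDϖ : D.ϖ = piChart φ⁻¹ ϖ)
    (hϖ0 : algebraMap O F ϖ ≠ 0)
    (he20 : BranchEq (RingHom.ker D.r20) D.ϖ) (he02 : BranchEq (RingHom.ker D.r02) D.ϖ)
    (hpid : ∀ n : Ideal B', n.IsMaximal → LocPID n)
    (hSψ : ∀ n : Ideal B', n.IsMaximal → n ∈ D.S →
      D.r20 ⟨φ⁻¹, gen_mem_chart (O := O) φ⁻¹⟩ ∉ n)
    (h11 : ∀ n : Ideal B', n.IsMaximal → n ∉ D.S →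
      D.r11 ⟨φ⁻¹, gen_mem_chart (O := O) φ⁻¹⟩ ∈ n → ∃ z : chart O φ⁻¹, z ≠ 0 ∧
      z ∈ RingHom.ker D.r11 ∧ BranchEq (RingHom.ker D.r11) z ∧
      ∃ (s c : chart O φ⁻¹) (k : ℕ), 0 < k ∧ c ∉ D.x11 n ∧ s * z ^ k = D.ϖ * c) :
    haveI := chart_isFractionRing (O := O) hφ'
    ∀ m : Ideal (chart O φ⁻¹), m.IsMaximal → piChart φ⁻¹ ϖ ∈ m → LocPrincipal (F := F) m := by
  haveI := chart_isFractionRing (O := O) hφ
  haveI := chart_isNoetherianRing (O := O) hφ
  haveI := chart_isIntegrallyClosed (O := O) hφ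
  haveI := chart_isFractionRing (O := O) hφ'
  haveI := chart_isNoetherianRing (O := O) hφ'
  haveI := chart_isIntegrallyClosed (O := O) hφ'
  intro m hm hϖm
  have hφ0 : φ ≠ 0 := by
    rintro rfl
    exact hφ isAlgebraic_zero
  have hD0 : D.ϖ ≠ 0 := by
    rw [hDϖ]
    intro h
    apply hϖ0
    rw [← coe_piChart (O := O) φ⁻¹ ϖ, h]
    rfl
  have hϖϖ : algebraMap (chart O φ) F (piChart φ ϖ) = algebraMap (chart O φ⁻¹) F D.ϖ := by
    rw [hDϖ]
    show ((piChart φ ϖ : chart O φ) : F) = ((piChart φ⁻¹ ϖ : chart O φ⁻¹) : F)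
    rw [coe_piChart, coe_piChart]
  exact AllPointsInf.locPrincipal_of_isMaximal_of_overlap D (overlap_chart (O := O) hφ0)
    (piChart φ ϖ) hϖϖ hloc
    (fun m' hm' hϖm' a => hres_chart hϖ φ hφ' m' hm' (hDϖ ▸ hϖm') a)
    hD0 he20 he02 hpid hSψ h11 m hm (hDϖ ▸ hϖm)

end Inf

/-! ### both charts -/

section Both

variable {A₁ B A₁' B' : Type*} [CommRing A₁] [CommRing B] [IsDomain B] [CommRing A₁']
  [CommRing B'] [IsDomain B']

/-- `hpid` for a Dedekind domain which is not a field (`Bfin = chart k J`, `Binf = chart k J⁻¹`) -/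
theorem hpid_of_isDedekindDomain {B : Type*} [CommRing B] [IsDedekindDomain B] (hB : ¬ IsField B) :
    ∀ n : Ideal B, n.IsMaximal → LocPID n :=
  fun n hn => locPID_of_isMaximal hB n hn

/-- **`hloc` and `hloc'` of `VChartsOfLoc.exists_vcharts`** -/
theorem hloc_both [IsAlgClosed (IsLocalRing.ResidueField O)] {ϖ : O} (hϖ : Irreducible ϖ) {φ : F}
    (hφ : Transcendental K φ) (hφ' : Transcendental K φ⁻¹)
    [FiniteDimensional K⟮φ⟯ F] [FiniteDimensional K⟮φ⁻¹⟯ F] (hϖ0 : algebraMap O F ϖ ≠ 0)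
    -- the finite chart
    (Dfin : BranchCoreT.TDatum A₁ (chart O φ) B) (hDϖ : Dfin.ϖ = piChart φ ϖ)
    (he20 : BranchEq (RingHom.ker Dfin.r20) Dfin.ϖ)
    (he02 : BranchEq (RingHom.ker Dfin.r02) Dfin.ϖ)
    (hpid : ∀ n : Ideal B, n.IsMaximal → LocPID n)
    (h11 : ∀ n : Ideal B, n.IsMaximal → n ∉ Dfin.S → ∃ z : chart O φ, z ≠ 0 ∧
      z ∈ RingHom.ker Dfin.r11 ∧ BranchEq (RingHom.ker Dfin.r11) z ∧
      ∃ (s c : chart O φ) (k : ℕ), 0 < k ∧ c ∉ Dfin.x11 n ∧ s * z ^ k = Dfin.ϖ * c)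
    (hS : haveI := chart_isFractionRing (O := O) hφ
      ∀ n : Ideal B, n.IsMaximal → n ∈ Dfin.S → LocPrincipal (F := F) (Dfin.x20 n))
    -- the chart at infinity
    (Dinf : BranchCoreT.TDatum A₁' (chart O φ⁻¹) B') (hDϖ' : Dinf.ϖ = piChart φ⁻¹ ϖ)
    (he20' : BranchEq (RingHom.ker Dinf.r20) Dinf.ϖ)
    (he02' : BranchEq (RingHom.ker Dinf.r02) Dinf.ϖ)
    (hpid' : ∀ n : Ideal B', n.IsMaximal → LocPID n)
    (hSψ : ∀ n : Ideal B', n.IsMaximal → n ∈ Dinf.S →
      Dinf.r20 ⟨φ⁻¹, gen_mem_chart (O := O) φ⁻¹⟩ ∉ n)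
    (h11' : ∀ n : Ideal B', n.IsMaximal → n ∉ Dinf.S →
      Dinf.r11 ⟨φ⁻¹, gen_mem_chart (O := O) φ⁻¹⟩ ∈ n → ∃ z : chart O φ⁻¹, z ≠ 0 ∧
      z ∈ RingHom.ker Dinf.r11 ∧ BranchEq (RingHom.ker Dinf.r11) z ∧
      ∃ (s c : chart O φ⁻¹) (k : ℕ), 0 < k ∧ c ∉ Dinf.x11 n ∧ s * z ^ k = Dinf.ϖ * c) :
    (haveI := chart_isFractionRing (O := O) hφ
      ∀ m : Ideal (chart O φ), m.IsMaximal → piChart φ ϖ ∈ m → LocPrincipal (F := F) m) ∧
    (haveI := chart_isFractionRing (O := O) hφ'
      ∀ m : Ideal (chart O φ⁻¹), m.IsMaximal → piChart φ⁻¹ ϖ ∈ m → LocPrincipal (F := F) m) := by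
  have h1 := hloc_fin hφ Dfin hDϖ hϖ0 he20 he02 hpid h11 hS
  exact ⟨h1, hloc_inf hϖ hφ hφ' h1 Dinf hDϖ' hϖ0 he20' he02' hpid' hSψ h11'⟩

end Both

end Fermat.Agent.S36.LocX0
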