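/-
PROJECT V (S36), slice V-LocX0, part 7 (helper26): **`hpid`, `hpid'`** of `LocX0.hloc_both` /
`LocX0WireE.hloc_X0_E` for the two charts `chart k x`, `chart k x⁻¹` of the component
(`κ / k` a function field with separating element `x`: `S24.FF.IsFF k x`, `hsep`).

* `isDedekindDomain_chart`, `isDedekindDomain_chart_inv` (`S18.A.Defs.isDedekind`);
* `hpid_chart`, `hpid_chart_inv` : `∀ n : Ideal (chart k x^{±1}), n.IsMaximal → LocPID n`
  (`SpecDictOne.not_isField_chart` + `LocX0.hpid_of_isDedekindDomain`);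
* `hpid_chart_of_eq` : the same on `chart k Jc` for any `Jc = x` (e.g. `Jc := Y.J`, `x := jk k M`).
-/
import Mathlib
import Fermat.Agent.S36.LocX0
import Fermat.Agent.S36.SpecDictOne

set_option autoImplicit false
set_option linter.unusedSectionVars false
set_option linter.unusedVariables false
set_option linter.style.haveILetI false

namespace Fermat.Agent.S36.LocX0Pid

open IntermediateField Fermat.Agent.S24.FF
open Fermat.Agent.S36.ReducedBranch Fermat.Agent.S36.ChartRing

universe u w

variable {K : Type w} {F : Type u} [Field K] [Field F] [Algebra K F] {x : F}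

theorem isDedekindDomain_chart (hx : IsFF K x) (hsep : Algebra.IsSeparable K⟮x⟯ F) :
    IsDedekindDomain ↥(chart K x) :=
  Fermat.Agent.S18.A.Defs.isDedekind hx hsep

theorem isDedekindDomain_chart_inv (hx : IsFF K x) (hsep : Algebra.IsSeparable K⟮x⟯ F) :
    IsDedekindDomain ↥(chart K x⁻¹) :=
  Fermat.Agent.S18.A.Defs.isDedekind hx.inv (Fermat.Agent.S18.A.Defs.isSeparable_inv hsep)

/-- **`hpid`** on the finite chart of the component -/
theorem hpid_chart (hx : IsFF K x) (hsep : Algebra.IsSeparable K⟮x⟯ F) :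
    ∀ n : Ideal ↥(chart K x), n.IsMaximal → LocPID n := by
  haveI := isDedekindDomain_chart hx hsep
  exact LocX0.hpid_of_isDedekindDomain (SpecDictOne.not_isField_chart hx)

/-- **`hpid'`** on the chart at infinity of the component -/
theorem hpid_chart_inv (hx : IsFF K x) (hsep : Algebra.IsSeparable K⟮x⟯ F) :
    ∀ n : Ideal ↥(chart K x⁻¹), n.IsMaximal → LocPID n :=
  hpid_chart hx.inv (Fermat.Agent.S18.A.Defs.isSeparable_inv hsep)

/-- `hpid` on `chart k Jc`, `Jc = x` -/
theorem hpid_chart_of_eq (hx : IsFF K x) (hsep : Algebra.IsSeparable K⟮x⟯ F) {Jc : F}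
    (h : Jc = x) : ∀ n : Ideal ↥(chart K Jc), n.IsMaximal → LocPID n := by
  subst h
  exact hpid_chart hx hsep

/-- `hpid'` on `chart k Jc'`, `Jc' = x⁻¹` -/
theorem hpid_chart_inv_of_eq (hx : IsFF K x) (hsep : Algebra.IsSeparable K⟮x⟯ F) {Jc' : F}
    (h : Jc' = x⁻¹) : ∀ n : Ideal ↥(chart K Jc'), n.IsMaximal → LocPID n := by
  subst h
  exact hpid_chart_inv hx hsep

end Fermat.Agent.S36.LocX0Pid
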