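/-
PROJECT V (S36), slice V-LeafT0Inst (helper7): **the plug (P1) → (B4) at the actual objects**.

`LeafT0X0.t0Concl_of_tdatums` fed with the two actual `TDatum`s with their link facts
(`BranchFinX0.exists_tdatum_fin`, `BranchInfY.exists_tdatum_inf`, helper27 / helper24 / helper1) at
`Z := hypX0 hA hqM`, `lk := linkY hA hqM`, `L := compLinkY hA hqM HM`:

* `t0Concl_Y` : the binder `ht0` of `NewInertiaFinal.leafHyp_of_blocks` from (P2) `hloc hloc'` alone;
* `leafHyp_of_loc` : `LeafXInst.LeafHyp hA hqM HM p` from (P2) alone.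
-/
import Mathlib
import Fermat.Agent.S36.LeafT0X0
import Fermat.Agent.S36.BranchFinX0
import Fermat.Agent.S36.BranchInfY
import Fermat.Agent.S36.LocX0Pid

set_option autoImplicit false
set_option linter.unusedSectionVars false
set_option linter.style.haveILetI false
set_option linter.unusedVariables false
set_option synthInstance.maxHeartbeats 400000

noncomputable section

namespace Fermat.Agent.S36.LeafT0Inst

open ModularCurve AlgebraicCurve IsLocalRing IntermediateField Polynomial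
open Fermat.Agent.S18.B.FkBasics (jk)
open Fermat.Agent.S18.C.SmallDVR Fermat.Agent.S36.ChartX0 Fermat.Agent.S36.ChartRing
open Fermat.Agent.S18.NonSpecial
open Fermat.Agent.S36.LeafX Fermat.Agent.S36.LeafXInst Fermat.Agent.S36.ThreeValX0Inst
open Fermat.Agent.S36.NewInertiaDatum Fermat.Agent.S36.Lattice
open Fermat.Agent.S36.Centre Fermat.Agent.S36.BranchCoreT
open Fermat.Agent.S36.BranchPt Fermat.Agent.S36.NewInertiaCharts
open Fermat.Agent.S36.NewInertiaFinal Fermat.Agent.S36.LeafT0X0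

local notation "Kb" => AlgebraicClosure ℚ

attribute [local instance 2000] Fermat.Agent.S34.EulerX0.algResFk

local instance instNeZeroMulLTI (M q : ℕ) [NeZero M] [NeZero q] : NeZero (M * q) :=
  ⟨Nat.mul_ne_zero (NeZero.ne M) (NeZero.ne q)⟩

local instance instACkLTI (A : ValuationSubring Kb) : IsAlgClosed (ResidueField ↥A) :=
  Fermat.Agent.S18.ResidueBasics.isAlgClosed_residueField A

variable {q : ℕ} [hq : Fact q.Prime] {M : ℕ} [NeZero M] {A : ValuationSubring Kb} [NeZero q]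
variable [CharP (ResidueField ↥A) q]
variable (hA : A.LiesOverPrime q) (hqM : ¬ q ∣ M)
variable {gM : ℕ}
  (HM : RiemannHyp (ResidueField ↥A) ↥(modularFunctionFieldFullC (ResidueField ↥A) M) gM)

set_option maxHeartbeats 1600000 in
/-- **the `t₀`-block at the actual objects from (P2) alone** = the binder `ht0` of
`NewInertiaFinal.leafHyp_of_blocks` -/
theorem t0Concl_Y [IsDiscreteValuationRing ↥(W A)] {ι ι' : Type*}
    (hloc : ∀ m : Ideal ↥(chart ↥(W A) (φ₂ A M q)), m.IsMaximal →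
      piChart (φ₂ A M q) ((q : ℕ) : ↥(W A)) ∈ m →
      Fermat.Agent.S36.LocalGenCore.LocPrincipal (F := FK0 A (M * q * q)) m)
    (hloc' : ∀ m : Ideal ↥(chart ↥(W A) (φ₂ A M q)⁻¹), m.IsMaximal →
      piChart (φ₂ A M q)⁻¹ ((q : ℕ) : ↥(W A)) ∈ m →
      Fermat.Agent.S36.LocalGenCore.LocPrincipal (F := FK0 A (M * q * q)) m)
    {n : ℕ} (hn0 : n ≠ 0) (hnq : Nat.Coprime n q) (Ku : (datumY hA hqM HM).Kummer n)
    (D0 : Divisor ↥(K0 A) (FK0 A (M * q * q)))
    (hf : ∀ v : Place ↥(K0 A) (FK0 A (M * q * q)), v.ord Ku.f = (n : ℤ) * D0 v)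
    (Vc : VCharts ↥(W A) ↥(K0 A) (FK0 A (M * q * q)) Comp ι ι')
    (hW : Vc.W = Wof (datumY hA hqM HM)) (hVϖ : Vc.ϖ = ((q : ℕ) : ↥(W A)))
    (hVφ : Vc.φ = φ₂ A M q)
    (hp : Pieces Vc (((q ^ 2 - 1) • ((q - 1) • D0) : Divisor ↥(K0 A) (FK0 A (M * q * q))) :
      Place ↥(K0 A) (FK0 A (M * q * q)) → ℤ))
    (hp' : Pieces' Vc (((q ^ 2 - 1) • ((q - 1) • D0) : Divisor ↥(K0 A) (FK0 A (M * q * q))) :
      Place ↥(K0 A) (FK0 A (M * q * q)) → ℤ)) :
    T0Concl hA hqM HM (hypX0 hA hqM) (linkY hA hqM) Vc Ku := by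
  haveI : IsDedekindDomain
      ↥(chart (ResidueField ↥A) (jk (ResidueField ↥A) M)).toSubring :=
    Fermat.Agent.S36.LocX0Pid.isDedekindDomain_chart
      (Fermat.Agent.S18.B.FkBasics.isFF (ResidueField ↥A) M)
      (Fermat.Agent.S18.B.SeparableFk.isSeparable_jk (ResidueField ↥A) M)
  haveI : IsDedekindDomain
      ↥(chart (ResidueField ↥A) (jk (ResidueField ↥A) M)⁻¹).toSubring :=
    Fermat.Agent.S36.LocX0Pid.isDedekindDomain_chart_inv
      (Fermat.Agent.S18.B.FkBasics.isFF (ResidueField ↥A) M)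
      (Fermat.Agent.S18.B.SeparableFk.isSeparable_jk (ResidueField ↥A) M)
  obtain ⟨D, -, hDϖ, hle, hcompat, hdict, hconv, hne⟩ :=
    Fermat.Agent.S36.BranchFinX0.exists_tdatum_fin hA hqM HM
      (chart ↥(W A) (φ₂ A M q)).toSubring rfl
      (chart (ResidueField ↥A) (jk (ResidueField ↥A) M)).toSubring rfl
  obtain ⟨D', -, hDϖ', hle', hcompat', hdict'⟩ :=
    Fermat.Agent.S36.BranchInfY.exists_tdatum_inf hA hqM HM
      (chart ↥(W A) (φ₂ A M q)⁻¹).toSubring rfl
      (chart (ResidueField ↥A) (jk (ResidueField ↥A) M)⁻¹).toSubring rfl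
  exact t0Concl_of_tdatums hA hqM HM (hypX0 hA hqM) (linkY hA hqM) (compLinkY hA hqM HM)
    hloc hloc' _ rfl _ D hle hcompat hdict hconv hne (by rw [hDϖ, map_natCast])
    _ rfl _ D' hle' hcompat' hdict' (by rw [hDϖ', map_natCast])
    hn0 hnq Ku D0 hf Vc hW hVϖ hVφ hp hp'

set_option maxHeartbeats 1600000 in
/-- **`LeafHyp` at the actual objects from (P2) alone** -/
theorem leafHyp_of_loc (p : ℕ) (hp : p.Prime) (hpq : p ≠ q)
    (hloc : ∀ m : Ideal ↥(chart ↥(W A) (φ₂ A M q)), m.IsMaximal →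
      piChart (φ₂ A M q) ((q : ℕ) : ↥(W A)) ∈ m →
      Fermat.Agent.S36.LocalGenCore.LocPrincipal (F := FK0 A (M * q * q)) m)
    (hloc' : ∀ m : Ideal ↥(chart ↥(W A) (φ₂ A M q)⁻¹), m.IsMaximal →
      piChart (φ₂ A M q)⁻¹ ((q : ℕ) : ↥(W A)) ∈ m →
      Fermat.Agent.S36.LocalGenCore.LocPrincipal (F := FK0 A (M * q * q)) m) :
    LeafHyp hA hqM HM p := by
  haveI := isDVR hA
  refine leafHyp_of_blocks hA hqM HM p hp hpq hloc hloc' ?_
  intro a Ku D0 hf r r' Vc hW hVϖ hVφ _ hpc hpc'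
  have hn0 : p ^ a ≠ 0 := pow_ne_zero _ hp.ne_zero
  have hnq : Nat.Coprime (p ^ a) q :=
    Nat.Coprime.pow_left a ((Nat.coprime_primes hp hq.out).2 hpq)
  exact t0Concl_Y hA hqM HM hloc hloc' hn0 hnq Ku D0 hf Vc hW hVϖ hVφ hpc hpc'

end Fermat.Agent.S36.LeafT0Inst
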