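/-
S36 (project V), slice V-LeafXTop (helper8), top plumbing of chain (V17): THE INPUT `HI` OF
`DegHecke.s36_of_newInertia'` FROM THE LEAF FACTS.

`LeafXInst.newInertiaHyp_of_leafY` gives `(NEW-I)` at the level `M q` (`q ∤ M`) from
`LeafXInst.LeafHyp hA hqM HM p`.  Here the choices (`A` over `q`, the genus record `HM` of
`F_k(M)`, the instances `Fact q.Prime`, `CharP (ResidueField A) q`) are made and
`LevelForm.forall_newInertiaHyp_of_levelForm` is applied:

* `LeafHypAll` : for every `(M, q, p, r)` with `q ∤ M`, `p ≠ q` primes and `r ≡ 11 mod 12` an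
  auxiliary prime dividing `M`, every `A` over `q` and every genus record `HM`:
  `LeafXInst.LeafHyp hA hqM HM p`;
* `forall_newInertiaHyp_of_leafHypAll : LeafHypAll → HI` (the literal input of
  `DegHecke.s36_of_newInertia'`).
-/
import Fermat.Agent.S36.LeafXInst
import Fermat.Agent.S36.LevelForm
import Fermat.Agent.Lib.FrobeniusExists

set_option autoImplicit false
set_option linter.unusedSectionVars false
set_option linter.style.haveILetI false
set_option linter.unusedVariables false
set_option synthInstance.maxHeartbeats 400000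

noncomputable section

namespace Fermat.Agent.S36.LeafXTop

open ModularCurve AlgebraicCurve IsLocalRing
open Fermat.Agent.S18.NonSpecial
open Fermat.Agent.S36.LeafXInst Fermat.Agent.S36.OfNewInertia

local notation "Kb" => AlgebraicClosure ℚ

attribute [local instance 2000] Fermat.Agent.S34.EulerX0.algResFk

/-- **the leaf facts at every level**: what the `X₀`-side owes to the frozen statement S36 -/
def LeafHypAll : Prop :=
  ∀ (M q p r : ℕ) [NeZero M] [NeZero q] [Fact q.Prime] (A : ValuationSubring Kb)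
    (hA : A.LiesOverPrime q) [CharP (ResidueField ↥A) q] (hqM : ¬ q ∣ M) (gM : ℕ)
    (HM : RiemannHyp (ResidueField ↥A) ↥(modularFunctionFieldFullC (ResidueField ↥A) M) gM),
    p.Prime → q ≠ p → r.Prime → r % 12 = 11 → r ∣ M → r ≠ q → r ≠ p → LeafHyp hA hqM HM p

/-- **the input `HI` of `DegHecke.s36_of_newInertia'` from the leaf facts** -/
theorem forall_newInertiaHyp_of_leafHypAll (H : LeafHypAll)
    (M' q p : ℕ) [NeZero M'] [NeZero q] [NeZero (M' * q)] (hq : q.Prime) (hp : p.Prime)
    (hqM' : q ∣ M') (hq2 : ¬ q ^ 2 ∣ M') (hqp : q ≠ p) : NewInertiaHyp M' q p := by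
  refine Fermat.Agent.S36.LevelForm.forall_newInertiaHyp_of_levelForm ?_ M' q p hq hp hqM' hq2 hqp
  intro M q p r _ _ _ _ hq hp hqM hqp hr hr12 hrM hrq hrp
  haveI : Fact q.Prime := ⟨hq⟩
  obtain ⟨A, hA⟩ := Fermat.Agent.Lib.FrobeniusExists.exists_valuationSubring_algebraicClosure q hq
  haveI : CharP (ResidueField ↥A) q := Fermat.Agent.S34.GaussPairX0.charP_res hA
  obtain ⟨g, gM, HL, HM⟩ := Fermat.Agent.S34.EulerClosedX0.exists_genera A (M * q) M
  exact newInertiaHyp_of_leafY hA hqM HM p hp.pos (H M q p r A hA hqM gM HM hp hqp hr hr12 hrM hrq hrp)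

end Fermat.Agent.S36.LeafXTop
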