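import Mathlib
import Fermat.Agent.S34.NodesNonempty

/-!
# PROJECT V (S36), slice V-CountNumerics: the numerical half of the count (V13)

The count of chain (V13) (`HurwitzCount`) consumes ONE numerical hypothesis:
`2 #S = (q - 1) (2 g(M) - 2 + c(M))`, where `S` is the node set of `X₀(M q)` mod `q`
(`#S = g(M q) + 1 - 2 g(M)`, `EulerExact`), `g` the genus and `c` the number of cusps of level `M`.
It holds when `X₀(M)` has no elliptic points, `ν₂(M) = ν₃(M) = 0`, which is what the auxiliary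
prime `r ≡ 11 mod 12`, `r ∣ M` (`S36/AuxPrime`) buys.  Everything is in characteristic zero and
purely numerical (chain (D1)).

* `nuTwo_eq_zero_of_dvd`, `nuThree_eq_zero_of_dvd` : `r` prime, `r % 4 = 3` (resp. `r % 3 = 2`),
  `r ∣ N` ⟹ `ν₂(N) = 0` (resp. `ν₃(N) = 0`); `nu_eq_zero_of_aux` for `r % 12 = 11`;
* `genusFormula_of_nu_eq_zero` : then `2 genusFormula N - 2 + cuspCount N = ψ(N) / 6`;
* `genusFormula_mul_prime_of_nu_eq_zero` :
  `genusFormula (M q) + 1 - 2 genusFormula M = (q - 1) ψ(M) / 12`;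
* `two_mul_delta_eq` : the identity `2 δ = (q - 1) (2 gM - 2 + c(M))` in `ℚ`, for ANY rational
  `gM gN δ` with `gM = genusFormula M`, `gN = genusFormula (M q)`, `gN + 1 = 2 gM + δ`;
* `two_mul_card_eq_int`, `two_mul_card_eq_nat`, `twelve_mul_card_eq` : the same for the Riemann
  genera `gM gN : ℕ` of `ℚ̄(X₀(M))`, `ℚ̄(X₀(M q))` (`S34/GenusRiemann.riemann_genus_eq_formula`)
  and `δ : ℕ` with `gN + 1 = gM + gM + δ` (the shape of `S34/EulerNodesFinalX0` /
  `NodesNonempty.one_le_of_genus_identity`), in `ℤ`, in `ℕ` (no subtraction) and in the form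
  `12 δ = (q - 1) ψ(M)`.
-/

set_option autoImplicit false

namespace Fermat.Agent.S36.CountNumerics

open ModularCurve

/-! ### no elliptic points -/

/-- **`ν₂(N) = 0`** as soon as a prime `r ≡ 3 mod 4` divides `N`. -/
theorem nuTwo_eq_zero_of_dvd {r N : ℕ} (hr : r.Prime) (hr4 : r % 4 = 3) (hrN : r ∣ N) :
    nuTwo N = 0 := by
  have : Fact r.Prime := ⟨hr⟩
  unfold nuTwo
  have : IsEmpty {x : ZMod N // x ^ 2 + 1 = 0} := by
    refine ⟨fun x => ?_⟩
    obtain ⟨x, hx⟩ := x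
    set y : ZMod r := ZMod.castHom hrN (ZMod r) x with hy
    have h1 : y ^ 2 + 1 = 0 := by
      have := congrArg (ZMod.castHom hrN (ZMod r)) hx
      rwa [map_add, map_pow, map_one, map_zero] at this
    have h2 : IsSquare (-1 : ZMod r) := ⟨y, by rw [← sq]; exact (eq_neg_of_add_eq_zero_left h1).symm⟩
    exact (ZMod.exists_sq_eq_neg_one_iff.mp h2) hr4
  exact Nat.card_of_isEmpty

/-- **`ν₃(N) = 0`** as soon as a prime `r ≡ 2 mod 3` divides `N`. -/
theorem nuThree_eq_zero_of_dvd {r N : ℕ} (hr : r.Prime) (hr3 : r % 3 = 2) (hrN : r ∣ N) :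
    nuThree N = 0 := by
  have : Fact r.Prime := ⟨hr⟩
  unfold nuThree
  have : IsEmpty {x : ZMod N // x ^ 2 + x + 1 = 0} := by
    refine ⟨fun x => ?_⟩
    obtain ⟨x, hx⟩ := x
    set y : ZMod r := ZMod.castHom hrN (ZMod r) x with hy
    have h1 : y ^ 2 + y + 1 = 0 := by
      have := congrArg (ZMod.castHom hrN (ZMod r)) hx
      rwa [map_add, map_add, map_pow, map_one, map_zero] at this
    -- `y ^ 3 = 1`
    have h3 : y ^ 3 = 1 := by
      have : y ^ 3 - 1 = (y - 1) * (y ^ 2 + y + 1) := by ring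
      rw [h1, mul_zero] at this
      exact sub_eq_zero.mp this
    -- `y ≠ 1` since `3 ≠ 0` in `ZMod r`
    have hne : y ≠ 1 := by
      intro h
      rw [h] at h1
      have h30 : ((3 : ℕ) : ZMod r) = 0 := by
        push_cast
        have : (1 : ZMod r) ^ 2 + 1 + 1 = 3 := by norm_num
        rw [← this]
        exact h1
      have hdvd : r ∣ 3 := (ZMod.natCast_eq_zero_iff 3 r).mp h30
      have : r = 3 := (Nat.prime_dvd_prime_iff_eq hr Nat.prime_three).mp hdvd
      omega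
    have hy0 : y ≠ 0 := by
      intro h
      rw [h] at h3
      norm_num at h3
    -- the order of `y` is `3`
    have hord : orderOf y = 3 := orderOf_eq_prime h3 hne
    -- the order divides `r - 1`
    have hpow : y ^ (r - 1) = 1 := ZMod.pow_card_sub_one_eq_one hy0
    have hdvd : 3 ∣ r - 1 := by
      rw [← hord]
      exact orderOf_dvd_of_pow_eq_one hpow
    have hr2 := hr.two_le
    omega
  exact Nat.card_of_isEmpty

/-- the auxiliary prime `r ≡ 11 mod 12` kills both elliptic counts -/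
theorem nu_eq_zero_of_aux {r N : ℕ} (hr : r.Prime) (hr12 : r % 12 = 11) (hrN : r ∣ N) :
    nuTwo N = 0 ∧ nuThree N = 0 :=
  ⟨nuTwo_eq_zero_of_dvd hr (by omega) hrN, nuThree_eq_zero_of_dvd hr (by omega) hrN⟩

/-! ### the genus formula without elliptic points -/

/-- `2 g - 2 + c = ψ / 6` -/
theorem genusFormula_of_nu_eq_zero {N : ℕ} (h2 : nuTwo N = 0) (h3 : nuThree N = 0) :
    2 * genusFormula N - 2 + (cuspCount N : ℚ) = (dedekindPsi N : ℚ) / 6 := by
  unfold genusFormula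
  rw [h2, h3]
  push_cast
  ring

variable {q M : ℕ}

/-- `g(M q) + 1 - 2 g(M) = (q - 1) ψ(M) / 12` -/
theorem genusFormula_mul_prime_of_nu_eq_zero [NeZero M] (hq : q.Prime) (hqM : ¬ q ∣ M)
    (h2 : nuTwo M = 0) (h3 : nuThree M = 0) :
    genusFormula (M * q) + 1 - 2 * genusFormula M = ((q : ℚ) - 1) * (dedekindPsi M : ℚ) / 12 := by
  have : NeZero q := ⟨hq.ne_zero⟩
  have hψ := Fermat.Agent.S37.ES.DegreeBeta.dedekindPsi_mul_prime_of_not_dvd M hq hqM
  have hc := Fermat.Agent.S34.NodesNonempty.cuspCount_mul_prime hq hqM (NeZero.ne M)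
  have h2' : nuTwo (M * q) = 0 := by
    have := Fermat.Agent.S34.NodesNonempty.nuTwo_mul_prime_le hq hqM
    rw [h2] at this
    omega
  have h3' : nuThree (M * q) = 0 := by
    have := Fermat.Agent.S34.NodesNonempty.nuThree_mul_prime_le hq hqM
    rw [h3] at this
    omega
  unfold genusFormula
  rw [hψ, hc, h2, h3, h2', h3']
  push_cast
  ring

/-- **The numerical identity of the count**, rational form: `2 δ = (q - 1) (2 g(M) - 2 + c(M))`
whenever `g(M q) + 1 = 2 g(M) + δ`. -/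
theorem two_mul_delta_eq [NeZero M] (hq : q.Prime) (hqM : ¬ q ∣ M)
    (h2 : nuTwo M = 0) (h3 : nuThree M = 0) {gM gN δ : ℚ}
    (hM : gM = genusFormula M) (hN : gN = genusFormula (M * q)) (hid : gN + 1 = 2 * gM + δ) :
    2 * δ = ((q : ℚ) - 1) * (2 * gM - 2 + (cuspCount M : ℚ)) := by
  have e1 := genusFormula_mul_prime_of_nu_eq_zero hq hqM h2 h3
  have e2 := genusFormula_of_nu_eq_zero h2 h3
  rw [← hM] at e1 e2
  rw [← hN] at e1
  have hδ : δ = ((q : ℚ) - 1) * (dedekindPsi M : ℚ) / 12 := by rw [← e1]; linarith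
  rw [e2, hδ]
  ring

/-! ### Riemann genera -/

local notation "Kb" => AlgebraicClosure ℚ

section Riemann

variable [NeZero M] [NeZero (M * q)] {gM gN δ : ℕ}

/-- **`2 #S = (q - 1) (2 g - 2 + c)`**, in `ℤ`. -/
theorem two_mul_card_eq_int (hq : q.Prime) (hqM : ¬ q ∣ M)
    (h2 : nuTwo M = 0) (h3 : nuThree M = 0)
    (hRM : Fermat.Agent.S18.NonSpecial.RiemannHyp Kb ↥(modularFunctionFieldBar M) gM)
    (hRN : Fermat.Agent.S18.NonSpecial.RiemannHyp Kb ↥(modularFunctionFieldBar (M * q)) gN)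
    (hid : gN + 1 = gM + gM + δ) :
    (2 : ℤ) * δ = ((q : ℤ) - 1) * (2 * (gM : ℤ) - 2 + (cuspCount M : ℤ)) := by
  have h1 := Fermat.Agent.S34.GenusRiemann.riemann_genus_eq_formula M hRM
  have hN := Fermat.Agent.S34.GenusRiemann.riemann_genus_eq_formula (M * q) hRN
  have hid' : (gN : ℚ) + 1 = 2 * (gM : ℚ) + (δ : ℚ) := by
    have : ((gN + 1 : ℕ) : ℚ) = ((gM + gM + δ : ℕ) : ℚ) := by rw [hid]
    push_cast at this
    linarith
  have key := two_mul_delta_eq hq hqM h2 h3 h1 hN hid'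
  have : ((2 * (δ : ℤ) : ℤ) : ℚ) =
      ((((q : ℤ) - 1) * (2 * (gM : ℤ) - 2 + (cuspCount M : ℤ)) : ℤ) : ℚ) := by
    push_cast
    exact key
  exact_mod_cast this

/-- **`2 #S + 2 (q - 1) = (q - 1) (2 g + c)`**, in `ℕ` (no subtraction). -/
theorem two_mul_card_eq_nat (hq : q.Prime) (hqM : ¬ q ∣ M)
    (h2 : nuTwo M = 0) (h3 : nuThree M = 0)
    (hRM : Fermat.Agent.S18.NonSpecial.RiemannHyp Kb ↥(modularFunctionFieldBar M) gM)
    (hRN : Fermat.Agent.S18.NonSpecial.RiemannHyp Kb ↥(modularFunctionFieldBar (M * q)) gN)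
    (hid : gN + 1 = gM + gM + δ) :
    2 * δ + 2 * (q - 1) = (q - 1) * (2 * gM + cuspCount M) := by
  have key := two_mul_card_eq_int hq hqM h2 h3 hRM hRN hid
  have hq1 : 1 ≤ q := hq.one_lt.le
  have hcast : ((q - 1 : ℕ) : ℤ) = (q : ℤ) - 1 := by
    rw [Nat.cast_sub hq1, Nat.cast_one]
  have : ((2 * δ + 2 * (q - 1) : ℕ) : ℤ) = (((q - 1) * (2 * gM + cuspCount M) : ℕ) : ℤ) := by
    push_cast
    rw [hcast]
    linarith
  exact_mod_cast this

/-- **`12 #S = (q - 1) ψ(M)`**. -/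
theorem twelve_mul_card_eq (hq : q.Prime) (hqM : ¬ q ∣ M)
    (h2 : nuTwo M = 0) (h3 : nuThree M = 0)
    (hRM : Fermat.Agent.S18.NonSpecial.RiemannHyp Kb ↥(modularFunctionFieldBar M) gM)
    (hRN : Fermat.Agent.S18.NonSpecial.RiemannHyp Kb ↥(modularFunctionFieldBar (M * q)) gN)
    (hid : gN + 1 = gM + gM + δ) :
    12 * δ = (q - 1) * dedekindPsi M := by
  have h1 := Fermat.Agent.S34.GenusRiemann.riemann_genus_eq_formula M hRM
  have hN := Fermat.Agent.S34.GenusRiemann.riemann_genus_eq_formula (M * q) hRN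
  have e1 := genusFormula_mul_prime_of_nu_eq_zero hq hqM h2 h3
  rw [← h1, ← hN] at e1
  have hid' : (gN : ℚ) + 1 = 2 * (gM : ℚ) + (δ : ℚ) := by
    have : ((gN + 1 : ℕ) : ℚ) = ((gM + gM + δ : ℕ) : ℚ) := by rw [hid]
    push_cast at this
    linarith
  have hq1 : 1 ≤ q := hq.one_lt.le
  have : ((12 * δ : ℕ) : ℚ) = (((q - 1) * dedekindPsi M : ℕ) : ℚ) := by
    push_cast
    rw [Nat.cast_sub hq1, Nat.cast_one]
    linarith
  exact_mod_cast this

/-- `6 (2 g + c) = ψ(M) + 12`, in `ℕ`. -/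
theorem six_mul_euler_eq (h2 : nuTwo M = 0) (h3 : nuThree M = 0)
    (hRM : Fermat.Agent.S18.NonSpecial.RiemannHyp Kb ↥(modularFunctionFieldBar M) gM) :
    6 * (2 * gM + cuspCount M) = dedekindPsi M + 12 := by
  have h1 := Fermat.Agent.S34.GenusRiemann.riemann_genus_eq_formula M hRM
  have e2 := genusFormula_of_nu_eq_zero h2 h3 (N := M)
  rw [← h1] at e2
  have : ((6 * (2 * gM + cuspCount M) : ℕ) : ℚ) = ((dedekindPsi M + 12 : ℕ) : ℚ) := by
    push_cast
    linarith
  exact_mod_cast this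

end Riemann

end Fermat.Agent.S36.CountNumerics
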