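import Mathlib
import Fermat.Agent.S37.Cusps.CuspCountFinal
import Fermat.Agent.S20.CountFinal
import Fermat.Agent.S24.OrbitsCuspAlt

/-!
# PROJECT V (S36), slice V-CuspCountK: the number of cusps in characteristic `q`

Input of the count (V13) (`HurwitzCount` / `CountX0`): the `c` of the Hurwitz sum
`(q - 1) (2 g - 2 + c)` is the number of poles of `J̄` on `κ = F_k(N)` (characteristic `q ∤ N`).
Main exports the comparison with characteristic zero only as an inequality
(`S37/Cusps/CuspCountFinal.cuspCount`); the equality is `S37/Cusps/CountK.card_poles_eq` with the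
same arguments, and the characteristic-zero count is `S24/OrbitsCuspAlt.card_poles` +
`S20/CountFinal.card_orbits_T`.

* `card_poles_jgen N` : `j` has exactly `cuspCount N` poles on `X₀(N)/ℚ̄`;
* `card_poles_jk_eq N A hA hℓN hsep` : `J̄` has as many poles on `X₀(N)/k` as `j` on `X₀(N)/ℚ̄`;
* `card_poles_jk N A hA hℓN hsep` : `J̄` has exactly `cuspCount N` poles on `X₀(N)/k`.
-/

set_option autoImplicit false
set_option synthInstance.maxHeartbeats 400000
set_option linter.unusedSectionVars false
set_option linter.style.haveILetI false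

noncomputable section

namespace Fermat.Agent.S36.CuspCountK

open AlgebraicCurve ModularCurve IntermediateField IsLocalRing
open Fermat.Agent.S18.GaussFromH Fermat.Agent.S18.B.FkBasics
open Fermat.Agent.S37.Gauss Fermat.Agent.S37.Cusps
open Fermat.Agent.S37.Cusps.CuspCountFinal
open Fermat.Agent.S24.DegreeAlg Fermat.Agent.S18.A

local notation "Kb" => AlgebraicClosure ℚ

attribute [local instance 2000] Fermat.Agent.S18.C.KModelX0.algkFk

/-- **`j` has exactly `cuspCount N` poles on `X₀(N)/ℚ̄`.** -/
theorem card_poles_jgen (N : ℕ) [NeZero N] :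
    (FibreSep.poles (Instances.isFF_jgen N) (Instances.isSeparable_jgen N)).card
      = cuspCount N := by
  rw [← FibreSep.card_poles, Fermat.Agent.S24.OrbitsCuspAlt.card_poles N,
    Fermat.Agent.S20.CountFinal.card_orbits_T N]

variable {ℓ : ℕ} [Fact ℓ.Prime] (N : ℕ) [NeZero N] (A : ValuationSubring Kb)
variable (hA : A.LiesOverPrime ℓ) (hℓN : ¬ ℓ ∣ N)

include hA hℓN in
/-- **`J̄` has as many poles on `X₀(N)/k` as `j` on `X₀(N)/ℚ̄`** (equality). -/
theorem card_poles_jk_eq [IsAlgClosed (ResidueField ↥A)]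
    (hsep : Algebra.IsSeparable
      (ResidueField ↥A)⟮jk (ResidueField ↥A) N⟯
      ↥(modularFunctionFieldFullC (ResidueField ↥A) N)) :
    (FibreSep.poles (isFF (ResidueField ↥A) N) hsep).card
      = (FibreSep.poles (Instances.isFF_jgen N) (Instances.isSeparable_jgen N)).card := by
  have hJ := Fermat.Agent.S37.GenusAll.jIn N A hA hℓN
  exact CountK.card_poles_eq N A
    (Fermat.Agent.S18.ResidueBasics.natCast_ne_zero_of_not_dvd A hA hℓN)
    (Fermat.Agent.S37.Wild.GenusLe.finrank_eq N A hℓN hA)
    (EmbeddingsK.Lbar (Datum.gaussDatum N A hA hℓN) hJ.mem hJ.red_eq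
      (Datum.red_surjective hA hℓN) (Fermat.Agent.S18.C.KModelX0.finrank_le hA hℓN)
      (hgen N A hA hℓN))
    (EmbeddingsK.Lbar_algebraMap _ _ _ _ _ _)
    (EmbeddingsK.Lbar_jk _ _ _ _ _ _)
    (fun q => EmbeddingsK.Lbar_jdk _ _ _ _ _ _ q ⟨N, dvd_rfl⟩) hsep

include hA hℓN in
/-- **`J̄` has exactly `cuspCount N` poles on `X₀(N)/k`**, `k` the residue field of a valuation
ring of `ℚ̄` over a prime `ℓ ∤ N`. -/
theorem card_poles_jk [IsAlgClosed (ResidueField ↥A)]
    (hsep : Algebra.IsSeparable
      (ResidueField ↥A)⟮jk (ResidueField ↥A) N⟯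
      ↥(modularFunctionFieldFullC (ResidueField ↥A) N)) :
    (FibreSep.poles (isFF (ResidueField ↥A) N) hsep).card = cuspCount N :=
  (card_poles_jk_eq N A hA hℓN hsep).trans (card_poles_jgen N)

end Fermat.Agent.S36.CuspCountK
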