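import Mathlib
import Fermat.Agent.S37.Cusps.CuspCountFinal
import Fermat.Agent.S18.A.DiffLower
import Fermat.Agent.S36.CuspCountK

/-!
# PROJECT V (S36), chain (V13) CountX0, part C: the cusps of `X₀(N)` in characteristic `ℓ ∤ N`

The Hurwitz count of chain (V13) on `κ_N = k(X₀(N))` (`k` the residue field of a valuation ring `A`
of `ℚ̄` over a prime `ℓ ∤ N`) consumes two facts about the poles of `j̄` (the cusps):

* they are TAME: the ramification index `e_Q = -ord_Q j̄` divides `N`, so it is prime to `ℓ` and the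
  different exponent is `e_Q - 1` (`S18/A/DiffLower.diffExp_eq_of_not_dvd_pole`);
* there are exactly `cuspCount N` of them (`S36/CuspCountK.card_poles_jk`, helper23).

Both follow from the reduced cusp family `Lbar c : κ_N →+* k((t))`, `Lbar c j̄ = J(t^N)` of
`S37/Cusps` (every pole of `j̄` is the pull-back of the `t`-adic valuation along some `Lbar c`:
Lemma A) with no new input.

* `log_comap_eq`, `ord_dvd_of_comap` : a place `v` of `F` which is the pull-back of a `ℤ`-valued
  valuation `w` along `ℓ : F →+* Ω` has `log w (ℓ y) = ord_v y * log w (ℓ π)`; so `w (ℓ y) = exp (-m)`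
  forces `ord_v y ∣ m`;
* `ord_dvd_of_family` : for a complete family of expansions with `L q x = J(t^N)` every pole `v` of
  `x` has `ord_v x ∣ N`;
* `ord_jk_dvd`, `not_dvd_ord_jk`, `diffExp_pole_jk` : the instance `κ_N`, `x = j̄`;
* `sum_diffExp_poles_jk`, `finrank_jk`, `sum_diffExp_poles_jk_psi` :
  `∑_{Q pole} d_Q = [κ_N : k(j̄)] - cuspCount N = ψ(N) - cuspCount N`.
-/

set_option autoImplicit false
set_option linter.unusedSectionVars false

noncomputable section

namespace Fermat.Agent.S36.CuspTameK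

open AlgebraicCurve WithZero IntermediateField Module ModularCurve
open Fermat.Agent.S24 Fermat.Agent.S24.FF Fermat.Agent.S18.A
open scoped MatrixGroups

/-! ### pull-backs of discrete valuations -/

section Comap

variable {K F Om : Type*} [Field K] [Field F] [Algebra K F] [Field Om]

/-- If `O_v` is the pull-back of the `ℤ`-valued valuation `w` along `ℓ`, the `w`-order of `ℓ y` is
`ord_v y` times the `w`-order of (the image of) a uniformizer. -/
theorem log_comap_eq (v : Place K F) (w : Valuation Om ℤᵐ⁰) (ℓ : F →+* Om)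
    (hv : v.toValuationSubring = w.valuationSubring.comap ℓ) {π : v.toValuationSubring}
    (hπ : Irreducible π) {y : F} (hy0 : y ≠ 0) :
    log (w (ℓ y)) = v.ord y * log (w (ℓ (π : F))) := by
  have hmem : ∀ z : F, z ∈ v.toValuationSubring ↔ w (ℓ z) ≤ 1 := by
    intro z
    rw [hv, ValuationSubring.mem_comap, Valuation.mem_valuationSubring_iff]
  have hne : ∀ z : F, z ≠ 0 → w (ℓ z) ≠ 0 := by
    intro z hz
    rw [ne_eq, Valuation.zero_iff]
    exact (map_ne_zero ℓ).mpr hz
  obtain ⟨u, hu⟩ := v.exists_unit_mul_zpow hy0 hπ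
  have hπ0 : (π : F) ≠ 0 := PlaceCount.coe_irreducible_ne_zero _ hπ
  -- `w (ℓ u) = 1`
  have hu1 : w (ℓ ((u : v.toValuationSubring) : F)) = 1 := by
    apply le_antisymm
    · exact (hmem _).mp (Subtype.mem _)
    · have h2 := (hmem _).mp (Subtype.mem ((u⁻¹ : v.toValuationSubringˣ) : v.toValuationSubring))
      rw [PlaceCount.coe_units_inv, map_inv₀, map_inv₀] at h2
      have hu0 : w (ℓ ((u : v.toValuationSubring) : F)) ≠ 0 :=
        hne _ (by simp [ne_eq, ZeroMemClass.coe_eq_zero])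
      exact (inv_le_one₀ (zero_lt_iff.mpr hu0)).mp h2
  have h4 : w (ℓ y) = w (ℓ (π : F)) ^ (v.ord y) := by
    conv_lhs => rw [hu]
    rw [map_mul, map_mul, hu1, one_mul, map_zpow₀, map_zpow₀]
  have h5 := congrArg log h4
  rw [log_zpow, smul_eq_mul] at h5
  exact h5

/-- **`ord_v y ∣ m`** when `O_v` is the pull-back of `w` along `ℓ` and `w (ℓ y) = exp (-m)`. -/
theorem ord_dvd_of_comap (v : Place K F) (w : Valuation Om ℤᵐ⁰) (ℓ : F →+* Om)
    (hv : v.toValuationSubring = w.valuationSubring.comap ℓ) {y : F} (hy0 : y ≠ 0) (m : ℕ)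
    (hm : w (ℓ y) = exp (-(m : ℤ))) : v.ord y ∣ (m : ℤ) := by
  obtain ⟨π, hπ⟩ := IsDiscreteValuationRing.exists_irreducible v.toValuationSubring
  have h := log_comap_eq v w ℓ hv hπ hy0
  rw [hm, log_exp] at h
  exact (Dvd.intro _ h.symm : v.ord y ∣ -(m : ℤ)).trans (by simp)

end Comap

/-! ### complete families of expansions with `x ↦ J(t^N)` -/

section Family

open Fermat.Agent.S37.Cusps Fermat.Agent.S37.Cusps.RescaleCount

variable {K F K' : Type*} [Field K] [Field F] [Algebra K F] [Field K']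

/-- **The ramification indices of the poles of `x` divide `N`**, for a complete family of
expansions `L q : F →+* K'((t))` with `L q x = J(t^N)`. -/
theorem ord_dvd_of_family {x : F} (hx : IsFF K x) (hsep : Algebra.IsSeparable K⟮x⟯ F)
    {Q : Type*} [Fintype Q] (L : Q → F →+* LaurentSeries K')
    (hinj : Function.Injective L) (hcard : Fintype.card Q = finrank K⟮x⟯ F)
    (g : K →+* K') (hconst : ∀ q (c : K), L q (algebraMap K F c) = HahnSeries.C (g c))
    (N : ℕ) [NeZero N] (hLx : ∀ q, L q x = qExpand K' N (jqModC K'))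
    (v : Place K F) (hv : x ∉ v.toValuationSubring) : v.ord x ∣ (N : ℤ) := by
  have hN0 : 0 < N := Nat.pos_of_ne_zero (NeZero.ne N)
  have hm : ∀ q, vt K' (L q x⁻¹) = exp (-(N : ℤ)) := fun q => by
    rw [map_inv₀, hLx]
    exact LaurentVal.valuation_inv_qExpand_jqModC N
  have hv' : x⁻¹ ∈ v.toValuationSubring.nonunits := (OrbitCountSep.inv_mem_nonunits_iff hx v).mpr hv
  obtain ⟨q, hq⟩ := OrbitCountSep.exists_place_eq_comap_inv (vt K').valuationSubring L hx hsep
    hcard hinj (fun q q' c => by rw [hconst, hconst]) (fun q q' => by rw [hLx, hLx])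
    (fun q c => by rw [hconst]; exact vt_C_le_one _)
    (fun q => OrbitCountSep.mem_nonunits_of_eq_exp (vt K') hN0 (hm q)) v hv'
  have h := ord_dvd_of_comap v (vt K') (L q) hq (inv_ne_zero hx.ne_zero) N (hm q)
  rw [v.ord_inv] at h
  exact (neg_dvd).mp h

end Family

/-! ### the cusps of `X₀(N)` over `ℚ̄` and over `k` -/

section X0

open Fermat.Agent.S18.B Fermat.Agent.S18.B.FkBasics Fermat.Agent.S37.Gauss
open Fermat.Agent.S37.Cusps Fermat.Agent.S24.DegreeAlg IsLocalRing

local notation "Kb" => AlgebraicClosure ℚ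

attribute [local instance 2000] Fermat.Agent.S18.C.KModelX0.algkFk

variable {ℓ : ℕ} [Fact ℓ.Prime] (N : ℕ) [NeZero N] (A : ValuationSubring Kb)
variable (hA : A.LiesOverPrime ℓ) (hℓN : ¬ ℓ ∣ N)

/-- the reduced cusp family of `S37/Cusps/CuspCountFinal` -/
def LbarK : SL(2, ℤ) ⧸ CongruenceSubgroup.Gamma0 N →
    (↥(modularFunctionFieldFullC (ResidueField ↥A) N) →+* LaurentSeries (ResidueField ↥A)) :=
  EmbeddingsK.Lbar (Datum.gaussDatum N A hA hℓN)
    (Fermat.Agent.S37.GenusAll.jIn N A hA hℓN).mem (Fermat.Agent.S37.GenusAll.jIn N A hA hℓN).red_eq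
    (Datum.red_surjective hA hℓN) (Fermat.Agent.S18.C.KModelX0.finrank_le hA hℓN)
    (CuspCountFinal.hgen N A hA hℓN)

theorem LbarK_algebraMap (q : SL(2, ℤ) ⧸ CongruenceSubgroup.Gamma0 N) (c : ResidueField ↥A) :
    LbarK N A hA hℓN q (algebraMap (ResidueField ↥A)
      ↥(modularFunctionFieldFullC (ResidueField ↥A) N) c) = HahnSeries.C c :=
  EmbeddingsK.Lbar_algebraMap _ _ _ _ _ _ q c

theorem LbarK_jk (q : SL(2, ℤ) ⧸ CongruenceSubgroup.Gamma0 N) :
    LbarK N A hA hℓN q (jk (ResidueField ↥A) N) =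
      qExpand (ResidueField ↥A) N (jqModC (ResidueField ↥A)) :=
  EmbeddingsK.Lbar_jk _ _ _ _ _ _ q

theorem LbarK_V1N : CountK.V1N N A (LbarK N A hA hℓN) :=
  fun q => EmbeddingsK.Lbar_jdk _ _ _ _ _ _ q ⟨N, dvd_rfl⟩

include hA hℓN

theorem natCast_ne_zero : ((N : ℕ) : ResidueField ↥A) ≠ 0 :=
  Fermat.Agent.S18.ResidueBasics.natCast_ne_zero_of_not_dvd A hA hℓN

theorem LbarK_injective : Function.Injective (LbarK N A hA hℓN) :=
  InjK.injective_of_mono_N N A (natCast_ne_zero N A hA hℓN) _ (LbarK_V1N N A hA hℓN)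

/-- **The cusps are tame (1)**: the ramification index of a pole of `j̄` on `X₀(N)/k` divides
`N`. -/
theorem ord_jk_dvd
    (hsep : Algebra.IsSeparable (ResidueField ↥A)⟮jk (ResidueField ↥A) N⟯
      ↥(modularFunctionFieldFullC (ResidueField ↥A) N))
    (v : Place (ResidueField ↥A) ↥(modularFunctionFieldFullC (ResidueField ↥A) N))
    (hv : jk (ResidueField ↥A) N ∉ v.toValuationSubring) :
    v.ord (jk (ResidueField ↥A) N) ∣ (N : ℤ) := by
  classical
  have := Fermat.Agent.S18.ResidueBasics.isAlgClosed_residueField A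
  let _ : Fintype (SL(2, ℤ) ⧸ CongruenceSubgroup.Gamma0 N) := Fintype.ofFinite _
  have hcard : Fintype.card (SL(2, ℤ) ⧸ CongruenceSubgroup.Gamma0 N) =
      Module.finrank (ResidueField ↥A)⟮jk (ResidueField ↥A) N⟯
        ↥(modularFunctionFieldFullC (ResidueField ↥A) N) := by
    rw [← Fermat.Agent.S37.Wild.GenusLe.finrank_eq N A hℓN hA, Degree.finrank_eq_card N,
      Nat.card_eq_fintype_card]
  exact ord_dvd_of_family (isFF (ResidueField ↥A) N) hsep (LbarK N A hA hℓN)
    (LbarK_injective N A hA hℓN) hcard (RingHom.id _) (LbarK_algebraMap N A hA hℓN) N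
    (LbarK_jk N A hA hℓN) v hv

/-- **The cusps are tame (2)**: `ℓ ∤ ord_Q j̄` at a pole `Q` of `j̄`. -/
theorem not_dvd_ord_jk
    (hsep : Algebra.IsSeparable (ResidueField ↥A)⟮jk (ResidueField ↥A) N⟯
      ↥(modularFunctionFieldFullC (ResidueField ↥A) N))
    (v : Place (ResidueField ↥A) ↥(modularFunctionFieldFullC (ResidueField ↥A) N))
    (hv : jk (ResidueField ↥A) N ∉ v.toValuationSubring) :
    ¬ (ℓ : ℤ) ∣ v.ord (jk (ResidueField ↥A) N) := by
  intro h
  have h1 : (ℓ : ℤ) ∣ (N : ℤ) := h.trans (ord_jk_dvd N A hA hℓN hsep v hv)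
  exact hℓN (Int.natCast_dvd_natCast.mp h1)

/-- **The cusps are tame (3)**: the different exponent of `κ_N / k(j̄)` at a pole `Q` of `j̄` is
`e_Q - 1`. -/
theorem diffExp_pole_jk [IsAlgClosed (ResidueField ↥A)] [CharP (ResidueField ↥A) ℓ]
    (hsep : Algebra.IsSeparable (ResidueField ↥A)⟮jk (ResidueField ↥A) N⟯
      ↥(modularFunctionFieldFullC (ResidueField ↥A) N))
    (v : Place (ResidueField ↥A) ↥(modularFunctionFieldFullC (ResidueField ↥A) N))
    (hv : jk (ResidueField ↥A) N ∉ v.toValuationSubring) :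
    (Defs.diffExp (isFF (ResidueField ↥A) N) hsep v : ℤ)
      = -v.ord (jk (ResidueField ↥A) N) - 1 :=
  DiffLower.diffExp_eq_of_not_dvd_pole ℓ (isFF (ResidueField ↥A) N) hsep
    ((FibreSep.not_mem_iff v _).mp hv) (not_dvd_ord_jk N A hA hℓN hsep v hv)

/-- **The cuspidal part of the different**: `∑_{Q pole of j̄} d_Q = [κ_N : k(j̄)] - cuspCount N`. -/
theorem sum_diffExp_poles_jk [IsAlgClosed (ResidueField ↥A)] [CharP (ResidueField ↥A) ℓ]
    (hsep : Algebra.IsSeparable (ResidueField ↥A)⟮jk (ResidueField ↥A) N⟯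
      ↥(modularFunctionFieldFullC (ResidueField ↥A) N)) :
    ∑ v ∈ FibreSep.poles (isFF (ResidueField ↥A) N) hsep,
        (Defs.diffExp (isFF (ResidueField ↥A) N) hsep v : ℤ)
      = (Module.finrank (ResidueField ↥A)⟮jk (ResidueField ↥A) N⟯
          ↥(modularFunctionFieldFullC (ResidueField ↥A) N) : ℤ) - cuspCount N := by
  rw [← CuspCountK.card_poles_jk N A hA hℓN hsep, ← FibreSep.sum_poles (isFF (ResidueField ↥A) N) hsep,
    Finset.card_eq_sum_ones, Nat.cast_sum, ← Finset.sum_sub_distrib]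
  refine Finset.sum_congr rfl fun v hv => ?_
  rw [diffExp_pole_jk N A hA hℓN hsep v
    ((FibreSep.not_mem_iff v _).mpr ((FibreSep.mem_poles _ hsep v).mp hv))]
  simp

/-- `[κ_N : k(j̄)] = ψ(N)` -/
theorem finrank_jk [IsAlgClosed (ResidueField ↥A)] :
    Module.finrank (ResidueField ↥A)⟮jk (ResidueField ↥A) N⟯
      ↥(modularFunctionFieldFullC (ResidueField ↥A) N) = dedekindPsi N := by
  rw [← Fermat.Agent.S37.Wild.GenusLe.finrank_eq N A hℓN hA,
    Fermat.Agent.S18.C.Forms.finrank_bar_eq_dedekindPsi N]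

/-- the cuspidal part of the different is `ψ(N) - cuspCount N` -/
theorem sum_diffExp_poles_jk_psi [IsAlgClosed (ResidueField ↥A)] [CharP (ResidueField ↥A) ℓ]
    (hsep : Algebra.IsSeparable (ResidueField ↥A)⟮jk (ResidueField ↥A) N⟯
      ↥(modularFunctionFieldFullC (ResidueField ↥A) N)) :
    ∑ v ∈ FibreSep.poles (isFF (ResidueField ↥A) N) hsep,
        (Defs.diffExp (isFF (ResidueField ↥A) N) hsep v : ℤ)
      = (dedekindPsi N : ℤ) - cuspCount N := by
  rw [sum_diffExp_poles_jk N A hA hℓN hsep, finrank_jk N A hA hℓN]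

end X0

end Fermat.Agent.S36.CuspTameK
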