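import Mathlib
import Fermat.Agent.S36.HurwitzCount.Main
import Fermat.Agent.S36.CountNumerics
import Fermat.Agent.S36.CuspCountK
import Fermat.Agent.S36.CuspTameK
import Fermat.Agent.S34.NodalCoreX0

/-!
# PROJECT V (S36), chain (V13): THE COUNT on `κ_M = k(X₀(M))`, `k` of characteristic `q ∤ M`

Assembly of the abstract Hurwitz count (`S36/HurwitzCount/Main.count_all'`, helper17) on the concrete
field `κ_M = modularFunctionFieldFullC k M`, `k` the residue field of a valuation ring `A` of `ℚ̄`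
over `q`, `x = j̄ = FkBasics.jk k M`, `m = q - 1`.  Discharged here, from objects on main:

* `htame` : the cusps are tame (`S36/CuspTameK.diffExp_pole_jk`);
* `#poles = cuspCount M` (`S36/CuspCountK.card_poles_jk`, helper23);
* `hS` : `2 #S ≤ (q - 1) (2 g(M) - 2 + c(M))` from the exact Euler number `g(M q) + 1 = 2 g(M) + #S`
  (`EulerExact` + main's `exists_nodes_final`), the genus formula and `ν₂(M) = ν₃(M) = 0`
  (`S36/CountNumerics.two_mul_card_eq_int`, helper23; the genus of `κ_M` is the genus of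
  `ℚ̄(X₀(M))` by `S34/NodalCoreX0.riemannHyp_bar_of_riemannHyp_k`).

What remains as hypotheses is exactly what the geometry has to deliver:

* the derivation `D = θ` into `L = k((t))` with `(θ j̄)^{q-1} = G ∈ k(j̄)`, `ord_∞ G = -(q-1)`
  (`hDx`, `hGdiv`, `hGpole`; helper17 `HurwitzCount/X0`);
* the exact Euler number `hid`;
* the two one-sided bounds: at a node `b ∈ S` SOME local parameter `π` has
  `ord_b (θ π)^{q-1} ≥ -2` (`hb1`: `R_a` regular at `b`, `NormDiag` + `TripleEval`), at every other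
  non-cuspidal point SOME local parameter has `ord_b (θ π)^{q-1} ≥ 0` (`hb0`: `c ∈ O_{x₁₁}`).

Output (`count_X0`): for EVERY local parameter `π` at EVERY non-cuspidal point `b`:
`ord_b (θ π)^{q-1} = -2` if `b ∈ S` and `= 0` if `b ∉ S`.  Consumers: (V12)(iii) (`R_a(b) ≠ 0`:
Eisenstein fibre at the triple points) and (V12)(ii) (`c` is a unit at the ordinary points of
`C₁₁`: `B0Thick.Hyp.Res.c_unit`).
-/

set_option autoImplicit false
set_option linter.unusedSectionVars false
set_option linter.style.haveILetI false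

noncomputable section

namespace Fermat.Agent.S36.CountX0

open ModularCurve AlgebraicCurve IsLocalRing IntermediateField
open Fermat.Agent.S18.A Fermat.Agent.S18.B.FkBasics Fermat.Agent.S18.NonSpecial

local notation "Kb" => AlgebraicClosure ℚ

set_option synthInstance.maxHeartbeats 400000

attribute [local instance 2000] Fermat.Agent.S18.C.KModelX0.algkFk

variable {q : ℕ} [hq : Fact q.Prime] {M : ℕ} [NeZero M] [NeZero (M * q)]
variable {A : ValuationSubring Kb}

/-- a place is not a pole of `j̄` iff `j̄` has non-negative order there -/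
theorem not_mem_poles_iff [IsAlgClosed (ResidueField ↥A)]
    (hsep : Algebra.IsSeparable (ResidueField ↥A)⟮jk (ResidueField ↥A) M⟯
      ↥(modularFunctionFieldFullC (ResidueField ↥A) M))
    (b : Place (ResidueField ↥A) ↥(modularFunctionFieldFullC (ResidueField ↥A) M)) :
    b ∉ FibreSep.poles (isFF (ResidueField ↥A) M) hsep ↔ 0 ≤ b.ord (jk (ResidueField ↥A) M) := by
  rw [FibreSep.mem_poles_iff_ord_neg, not_lt]

/-- **The hypothesis `hS` of the count**: `2 #S ≤ (q - 1) (2 g - 2 + #cusps)` on `κ_M`, from the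
exact Euler number. -/
theorem two_mul_card_le (hA : A.LiesOverPrime q) (hqM : ¬ q ∣ M)
    [IsAlgClosed (ResidueField ↥A)]
    (hsep : Algebra.IsSeparable (ResidueField ↥A)⟮jk (ResidueField ↥A) M⟯
      ↥(modularFunctionFieldFullC (ResidueField ↥A) M))
    {g gM : ℕ} (HL : RiemannHyp Kb ↥(modularFunctionFieldBar (M * q)) g)
    (HM : RiemannHyp (ResidueField ↥A) ↥(modularFunctionFieldFullC (ResidueField ↥A) M) gM)
    (h2 : nuTwo M = 0) (h3 : nuThree M = 0) {n : ℕ} (hid : g + 1 = gM + gM + n) :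
    2 * (n : ℤ) = ((q - 1 : ℕ) : ℤ) *
      (2 * (gM : ℤ) - 2 + (FibreSep.poles (isFF (ResidueField ↥A) M) hsep).card) := by
  have hRM := Fermat.Agent.S34.NodalCoreX0.riemannHyp_bar_of_riemannHyp_k hA hqM HM
  have key := CountNumerics.two_mul_card_eq_int hq.out hqM h2 h3 hRM HL hid
  rw [CuspCountK.card_poles_jk M A hA hqM hsep, Nat.cast_sub hq.out.one_le, Nat.cast_one]
  exact key

/-- **THE COUNT on `κ_M`.** -/
theorem count_X0 (hA : A.LiesOverPrime q) (hqM : ¬ q ∣ M)
    [IsAlgClosed (ResidueField ↥A)] [CharP (ResidueField ↥A) q]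
    (hsep : Algebra.IsSeparable (ResidueField ↥A)⟮jk (ResidueField ↥A) M⟯
      ↥(modularFunctionFieldFullC (ResidueField ↥A) M))
    {L : Type*} [Field L] [Algebra ↥(modularFunctionFieldFullC (ResidueField ↥A) M) L]
    [Algebra (ResidueField ↥A) L]
    [IsScalarTower (ResidueField ↥A) ↥(modularFunctionFieldFullC (ResidueField ↥A) M) L]
    (D : Derivation (ResidueField ↥A) ↥(modularFunctionFieldFullC (ResidueField ↥A) M) L)
    (G : ↥(modularFunctionFieldFullC (ResidueField ↥A) M)) (hG0 : G ≠ 0)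
    (hDx : (D (jk (ResidueField ↥A) M)) ^ (q - 1) =
      algebraMap ↥(modularFunctionFieldFullC (ResidueField ↥A) M) L G)
    (hGdiv : FibreSep.HasDivZero (ResidueField ↥A) G)
    (hGpole : ∀ Q : Place (ResidueField ↥A) ↥(modularFunctionFieldFullC (ResidueField ↥A) M),
      Q.ord (jk (ResidueField ↥A) M) < 0 →
        Q.ord G = ((q - 1 : ℕ) : ℤ) * Q.ord (jk (ResidueField ↥A) M))
    {g gM : ℕ} (HL : RiemannHyp Kb ↥(modularFunctionFieldBar (M * q)) g)
    (HM : RiemannHyp (ResidueField ↥A) ↥(modularFunctionFieldFullC (ResidueField ↥A) M) gM)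
    (h2 : nuTwo M = 0) (h3 : nuThree M = 0)
    (S : Finset (Place (ResidueField ↥A) ↥(modularFunctionFieldFullC (ResidueField ↥A) M)))
    (hS0 : ∀ b ∈ S, 0 ≤ b.ord (jk (ResidueField ↥A) M))
    (hid : g + 1 = gM + gM + S.card)
    (hb1 : ∀ b ∈ S, ∃ π Θ : ↥(modularFunctionFieldFullC (ResidueField ↥A) M), b.ord π = 1 ∧
      (D π) ^ (q - 1) = algebraMap ↥(modularFunctionFieldFullC (ResidueField ↥A) M) L Θ ∧
      -2 ≤ b.ord Θ)
    (hb0 : ∀ b : Place (ResidueField ↥A) ↥(modularFunctionFieldFullC (ResidueField ↥A) M),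
      b ∉ S → 0 ≤ b.ord (jk (ResidueField ↥A) M) →
      ∃ π Θ : ↥(modularFunctionFieldFullC (ResidueField ↥A) M), b.ord π = 1 ∧
        (D π) ^ (q - 1) = algebraMap ↥(modularFunctionFieldFullC (ResidueField ↥A) M) L Θ ∧
        0 ≤ b.ord Θ)
    (b : Place (ResidueField ↥A) ↥(modularFunctionFieldFullC (ResidueField ↥A) M))
    (hb : 0 ≤ b.ord (jk (ResidueField ↥A) M))
    {π Θ : ↥(modularFunctionFieldFullC (ResidueField ↥A) M)} (hπ : b.ord π = 1)
    (hΘ : (D π) ^ (q - 1) = algebraMap ↥(modularFunctionFieldFullC (ResidueField ↥A) M) L Θ) :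
    (b ∈ S → b.ord Θ = -2) ∧ (b ∉ S → b.ord Θ = 0) := by
  have hm : 0 < q - 1 := Nat.sub_pos_of_lt hq.out.one_lt
  refine HurwitzCount.Main.count_all' (isFF (ResidueField ↥A) M) hsep HM D (q - 1) hm G hG0 hDx
    hGdiv ?_ ?_ S ?_ ?_ ?_ ?_ b ((not_mem_poles_iff hsep b).mpr hb) hπ hΘ
  · intro Q hQ
    exact hGpole Q ((FibreSep.mem_poles_iff_ord_neg _ hsep Q).mp hQ)
  · intro Q hQ
    exact CuspTameK.diffExp_pole_jk M A hA hqM hsep Q
      ((FibreSep.not_mem_iff Q _).mpr ((FibreSep.mem_poles _ hsep Q).mp hQ))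
  · intro Q hQ
    exact (not_mem_poles_iff hsep Q).mpr (hS0 Q hQ)
  · exact (two_mul_card_le hA hqM hsep HL HM h2 h3 hid).le
  · exact hb1
  · intro Q hQS hQp
    exact hb0 Q hQS ((not_mem_poles_iff hsep Q).mp hQp)

end Fermat.Agent.S36.CountX0
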