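/-
PROJECT V (S36), slice V-DiagTheta (helper22): **the second-order diagonal identity, abstract
Laurent-series form** (design-independent; works for `j` and for any local parameter `φ`).

For a commutative ring `R`, a unit `u` and a Laurent series `f = ∑ cₙ tⁿ`:

* `theta f = ∑ n cₙ tⁿ` (`θ = t d/dt`): additive, a derivation, commutes with `coeffMap`,
  `θ (f(t^N)) = N · (θ f)(t^N)`;
* `diffQuot u f = ∑ [n]_u cₙ tⁿ`, `[n]_u = (1 - uⁿ)/(1 - u)` (also for `n < 0`), so that
  `f - f(u t) = (1 - u) · diffQuot u f` (`sub_rescaleU`), and `diffQuot u f ≡ θ f` modulo `1 - u`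
  (`coeffMap_diffQuot`);
* `prod_sub_rescaleU` : for `ζ` with `∏_{1 ≤ b < q} (1 - ζ^b) = q`:
  `∏_{1 ≤ b < q} (f - f(ζ^b t)) = q · midU ζ q f` and `midU ζ q f ≡ (θ f)^(q-1)` modulo `1 - ζ`
  (`coeffMap_midU`);
* `prod_one_sub_pow_of_isPrimitiveRoot` : the hypothesis on `ζ` for a primitive `q`-th root of
  unity in a domain;
* characteristic `q`: a series with Frobenius-fixed coefficients has `g^q = g(t^q)`,
  `g^(q²) = g(t^(q²))`;
* `diagNorm ζ q f` (the value at `f(s^(q²))` of the polynomial whose roots are the `q² + q`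
  conjugates `f(s^(q⁴))`, `f(ζ^b s)`, `f(ζ_q^b s^(q²))`), `diagNorm_eq : diagNorm = q · diagCofactor`
  and the **second-order diagonal identity** `coeffMap_diagCofactor`:
  `diagCofactor ≡ - (f̄ - f̄^(q²))² (θ f̄)^(q-1)` (at `s^(q²)`) modulo a prime over `q`.
  For `f = j` this is `Φ_{q²}(j,j)/q ≡ -(θj)^(q-1) (j^(q²) - j)²`; it is what makes every
  non-elliptic supersingular node of `X₀(q)` thin (`v_q Φ_{q²}(ã,ã) = 1`).
-/
import Mathlib
import Fermat.Prelude.Def_ModularCurve_X0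
import Fermat.Prelude.Def_ModularCurve_LaurentCoeff
import Fermat.Agent.S28.LaurentRescale
import Fermat.Agent.S37.ES.KummerPoly

set_option autoImplicit false
set_option linter.style.haveILetI false

noncomputable section

namespace Fermat.Agent.S36.DiagTheta

open HahnSeries ModularCurve Fermat.Agent.S28.LaurentRescale

variable {R : Type*} [CommRing R] {S : Type*} [CommRing S]

/-! ### `θ = t d/dt` -/

/-- `θ f = ∑ n cₙ tⁿ`. -/
def theta (f : LaurentSeries R) : LaurentSeries R where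
  coeff n := (n : R) * f.coeff n
  isPWO_support' := f.isPWO_support.mono (fun n hn => by
    simp only [Function.mem_support, ne_eq] at hn ⊢
    intro h
    exact hn (by rw [h, mul_zero]))

@[simp] theorem coeff_theta (f : LaurentSeries R) (n : ℤ) :
    (theta f).coeff n = (n : R) * f.coeff n := rfl

theorem theta_add (f g : LaurentSeries R) : theta (f + g) = theta f + theta g := by
  ext n
  simp [mul_add]

theorem theta_zero : theta (0 : LaurentSeries R) = 0 := by
  ext n
  simp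

theorem theta_neg (f : LaurentSeries R) : theta (-f) = -theta f := by
  ext n
  simp

theorem theta_sub (f g : LaurentSeries R) : theta (f - g) = theta f - theta g := by
  ext n
  simp [mul_sub]

theorem theta_C_mul (r : R) (f : LaurentSeries R) :
    theta (HahnSeries.C r * f) = HahnSeries.C r * theta f := by
  ext n
  simp only [coeff_theta, HahnSeries.C_mul_eq_smul, HahnSeries.coeff_smul, smul_eq_mul]
  ring

theorem theta_single (n : ℤ) (r : R) :
    theta (HahnSeries.single n r) = HahnSeries.single n ((n : R) * r) := by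
  ext m
  rcases eq_or_ne m n with rfl | hm
  · simp [HahnSeries.coeff_single_same]
  · simp [HahnSeries.coeff_single_of_ne hm]

theorem support_theta_subset (f : LaurentSeries R) : (theta f).support ⊆ f.support := by
  intro n hn
  simp only [HahnSeries.mem_support, coeff_theta, ne_eq] at hn ⊢
  intro h
  exact hn (by rw [h, mul_zero])

/-- `θ` is a derivation. -/
theorem theta_mul (f g : LaurentSeries R) :
    theta (f * g) = theta f * g + f * theta g := by
  ext n
  rw [coeff_theta, HahnSeries.coeff_add, HahnSeries.coeff_mul,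
    HahnSeries.coeff_mul_left' f.isPWO_support (support_theta_subset f),
    HahnSeries.coeff_mul_right' g.isPWO_support (support_theta_subset g), Finset.mul_sum,
    ← Finset.sum_add_distrib]
  refine Finset.sum_congr rfl fun ij hij => ?_
  have h := (Finset.mem_antidiagonal.mp hij).2.2
  simp only [coeff_theta]
  rw [← h]
  push_cast
  ring

theorem coeffMap_theta (π : R →+* S) (f : LaurentSeries R) :
    coeffMap π (theta f) = theta (coeffMap π f) := by
  ext n
  simp

/-- `θ (f(t^N)) = N · (θ f)(t^N)`. -/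
theorem theta_qExpand (N : ℕ) [NeZero N] (f : LaurentSeries R) :
    theta (qExpand R N f) = HahnSeries.C (N : R) * qExpand R N (theta f) := by
  ext k
  rw [coeff_theta, HahnSeries.C_mul_eq_smul, HahnSeries.coeff_smul, smul_eq_mul]
  by_cases hk : (N : ℤ) ∣ k
  · obtain ⟨m, rfl⟩ := hk
    rw [qExpand_coeff_mul, qExpand_coeff_mul, coeff_theta]
    push_cast
    ring
  · rw [qExpand_coeff_of_not_dvd N f hk, qExpand_coeff_of_not_dvd N _ hk, mul_zero, mul_zero]

/-! ### The difference quotient `(f - f(u t))/(1 - u)` -/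

/-- `[n]_u = (1 - uⁿ)/(1 - u)` for `n : ℤ`. -/
def gsum (u : Rˣ) (n : ℤ) : R :=
  if 0 ≤ n then ∑ i ∈ Finset.range n.toNat, (u : R) ^ i
  else -(((u ^ n : Rˣ) : R) * ∑ i ∈ Finset.range (-n).toNat, (u : R) ^ i)

theorem one_sub_mul_gsum (u : Rˣ) (n : ℤ) :
    (1 - (u : R)) * gsum u n = 1 - ((u ^ n : Rˣ) : R) := by
  unfold gsum
  split_ifs with hn
  · rw [mul_neg_geom_sum]
    congr 1
    lift n to ℕ using hn
    simp
  · push Not at hn
    obtain ⟨m, hm⟩ : ∃ m : ℕ, n = -(m : ℤ) := ⟨(-n).toNat, by omega⟩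
    subst hm
    have h1 : (-(-(m : ℤ))).toNat = m := by simp
    rw [h1, mul_neg, mul_left_comm, mul_neg_geom_sum, zpow_neg, zpow_natCast]
    have h2 : ((u ^ m)⁻¹ : Rˣ) * ((u : R) ^ m) = 1 := by
      rw [← Units.val_pow_eq_pow_val, Units.inv_mul]
    rw [mul_sub, mul_one, h2]
    ring

theorem map_gsum (π : R →+* S) {u : Rˣ} (hu : π u = 1) (n : ℤ) : π (gsum u n) = (n : S) := by
  have hpow : ∀ k : ℤ, π ((u ^ k : Rˣ) : R) = 1 := by
    intro k
    have h1 : Units.map π.toMonoidHom u = 1 := by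
      ext
      simpa using hu
    have h2 : π ((u ^ k : Rˣ) : R) = ((Units.map π.toMonoidHom (u ^ k) : Sˣ) : S) := rfl
    rw [h2, map_zpow, h1, one_zpow, Units.val_one]
  unfold gsum
  split_ifs with hn
  · lift n to ℕ using hn
    simp [map_sum, hu]
  · push Not at hn
    obtain ⟨m, hm⟩ : ∃ m : ℕ, n = -(m : ℤ) := ⟨(-n).toNat, by omega⟩
    subst hm
    have h1 : (-(-(m : ℤ))).toNat = m := by simp
    rw [h1, map_neg, map_mul, hpow, one_mul, map_sum]
    simp [hu]

/-- `diffQuot u f = ∑ [n]_u cₙ tⁿ = (f - f(u t))/(1 - u)`. -/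
def diffQuot (u : Rˣ) (f : LaurentSeries R) : LaurentSeries R where
  coeff n := gsum u n * f.coeff n
  isPWO_support' := f.isPWO_support.mono (fun n hn => by
    simp only [Function.mem_support, ne_eq] at hn ⊢
    intro h
    exact hn (by rw [h, mul_zero]))

@[simp] theorem coeff_diffQuot (u : Rˣ) (f : LaurentSeries R) (n : ℤ) :
    (diffQuot u f).coeff n = gsum u n * f.coeff n := rfl

/-- `f - f(u t) = (1 - u) · diffQuot u f`. -/
theorem sub_rescaleU (u : Rˣ) (f : LaurentSeries R) :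
    f - rescaleU u f = HahnSeries.C (1 - (u : R)) * diffQuot u f := by
  ext n
  rw [HahnSeries.C_mul_eq_smul, HahnSeries.coeff_smul, smul_eq_mul, coeff_diffQuot,
    ← mul_assoc, one_sub_mul_gsum, HahnSeries.coeff_sub, rescaleU_apply]
  show f.coeff n - ((u ^ n : Rˣ) : R) * f.coeff n = _
  ring

/-- Modulo `1 - u` the difference quotient is `θ f`. -/
theorem coeffMap_diffQuot (π : R →+* S) {u : Rˣ} (hu : π u = 1) (f : LaurentSeries R) :
    coeffMap π (diffQuot u f) = theta (coeffMap π f) := by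
  ext n
  simp [map_gsum π hu]

/-! ### The middle product `∏_{1 ≤ b < q} (f - f(ζ^b t))` -/

/-- `midU ζ q f = ∏_{1 ≤ b < q} diffQuot (ζ^b) f`. -/
def midU (ζ : Rˣ) (q : ℕ) (f : LaurentSeries R) : LaurentSeries R :=
  ∏ b ∈ Finset.Ico 1 q, diffQuot (ζ ^ b) f

/-- `∏_{1 ≤ b < q} (f - f(ζ^b t)) = (∏_{1 ≤ b < q} (1 - ζ^b)) · midU ζ q f`. -/
theorem prod_sub_rescaleU' (ζ : Rˣ) (q : ℕ) (f : LaurentSeries R) :
    ∏ b ∈ Finset.Ico 1 q, (f - rescaleU (ζ ^ b) f) =
      HahnSeries.C (∏ b ∈ Finset.Ico 1 q, (1 - ((ζ ^ b : Rˣ) : R))) * midU ζ q f := by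
  rw [midU, map_prod, ← Finset.prod_mul_distrib]
  exact Finset.prod_congr rfl fun b _ => sub_rescaleU (ζ ^ b) f

/-- **The middle product is divisible by `q`**: if `∏_{1 ≤ b < q} (1 - ζ^b) = q` then
`∏_{1 ≤ b < q} (f - f(ζ^b t)) = q · midU ζ q f`. -/
theorem prod_sub_rescaleU {ζ : Rˣ} {q : ℕ}
    (hζ : ∏ b ∈ Finset.Ico 1 q, (1 - ((ζ ^ b : Rˣ) : R)) = (q : R)) (f : LaurentSeries R) :
    ∏ b ∈ Finset.Ico 1 q, (f - rescaleU (ζ ^ b) f) = HahnSeries.C (q : R) * midU ζ q f := by
  rw [prod_sub_rescaleU', hζ]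

/-- **Modulo `1 - ζ` the cofactor is `(θ f)^(q-1)`.** -/
theorem coeffMap_midU (π : R →+* S) {ζ : Rˣ} (hζ : π ζ = 1) (q : ℕ) (f : LaurentSeries R) :
    coeffMap π (midU ζ q f) = theta (coeffMap π f) ^ (q - 1) := by
  rw [midU, map_prod]
  have h : ∀ b ∈ Finset.Ico 1 q, coeffMap π (diffQuot (ζ ^ b) f) = theta (coeffMap π f) := by
    intro b _
    refine coeffMap_diffQuot π ?_ f
    rw [Units.val_pow_eq_pow_val, map_pow, hζ, one_pow]
  rw [Finset.prod_congr rfl h, Finset.prod_const, Nat.card_Ico]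

/-- The hypothesis of `prod_sub_rescaleU` for a primitive `q`-th root of unity in a domain. -/
theorem prod_one_sub_pow_of_isPrimitiveRoot [IsDomain R] {ζ : Rˣ} {q : ℕ} (hq : 0 < q)
    (hζ : IsPrimitiveRoot (ζ : R) q) :
    ∏ b ∈ Finset.Ico 1 q, (1 - ((ζ ^ b : Rˣ) : R)) = (q : R) := by
  obtain ⟨n, rfl⟩ : ∃ n, q = n + 1 := ⟨q - 1, by omega⟩
  have h := hζ.prod_one_sub_pow_eq_order
  rw [Finset.range_eq_Ico, Finset.prod_Ico_add' (fun k => 1 - (ζ : R) ^ k) 0 n 1] at h
  simp only [zero_add] at h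
  rw [Nat.cast_add, Nat.cast_one, ← h]
  exact Finset.prod_congr rfl fun b _ => by rw [Units.val_pow_eq_pow_val]

/-! ### Frobenius-fixed series in characteristic `q` -/

section CharQ

open Fermat.Agent.S37.ES.KummerPoly

variable {k : Type*} [CommRing k]

theorem coeffMap_qExpand_loc (π : R →+* S) (N : ℕ) [NeZero N] (x : LaurentSeries R) :
    coeffMap π (qExpand R N x) = qExpand S N (coeffMap π x) := by
  ext m
  by_cases hm : (N : ℤ) ∣ m
  · obtain ⟨c, rfl⟩ := hm
    rw [coeffMap_coeff, qExpand_coeff_mul, qExpand_coeff_mul, coeffMap_coeff]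
  · rw [coeffMap_coeff, qExpand_coeff_of_not_dvd N _ hm, qExpand_coeff_of_not_dvd N _ hm,
      map_zero]

theorem coeffMap_C_loc (π : R →+* S) (r : R) :
    coeffMap π (HahnSeries.C r : LaurentSeries R) = HahnSeries.C (π r) := by
  have h1 : (HahnSeries.C r : LaurentSeries R) = HahnSeries.single 0 r := rfl
  have h2 : (HahnSeries.C (π r) : LaurentSeries S) = HahnSeries.single 0 (π r) := rfl
  rw [h1, h2, coeffMap_single]

variable (q : ℕ) [hq : Fact q.Prime] [CharP k q]

/-- A series with Frobenius-fixed coefficients satisfies `g^q = g(t^q)`. -/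
theorem pow_char_of_frobenius_fixed {g : LaurentSeries k}
    (hg : coeffMap (frobenius k q) g = g) :
    haveI : NeZero q := ⟨hq.out.ne_zero⟩
    g ^ q = qExpand k q g := by
  haveI : NeZero q := ⟨hq.out.ne_zero⟩
  rw [pow_char_eq_qExpand q g, hg]

theorem frobenius_fixed_qExpand (N : ℕ) [NeZero N] {g : LaurentSeries k}
    (hg : coeffMap (frobenius k q) g = g) :
    coeffMap (frobenius k q) (qExpand k N g) = qExpand k N g := by
  rw [coeffMap_qExpand_loc, hg]

/-- A series with Frobenius-fixed coefficients satisfies `g^(q²) = g(t^(q²))`. -/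
theorem pow_char_sq_of_frobenius_fixed {g : LaurentSeries k}
    (hg : coeffMap (frobenius k q) g = g) :
    haveI : NeZero q := ⟨hq.out.ne_zero⟩
    g ^ (q ^ 2) = qExpand k (q ^ 2) g := by
  haveI : NeZero q := ⟨hq.out.ne_zero⟩
  have h : g ^ (q ^ 2) = (g ^ q) ^ q := by rw [← pow_mul, pow_two]
  have h2 : (g ^ q) ^ q = qExpand k (q * q) g := by
    rw [pow_char_of_frobenius_fixed q hg,
      pow_char_of_frobenius_fixed q (frobenius_fixed_qExpand q q hg), qExpand_qExpand]
  rw [h, h2]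
  exact qExpand_congr (pow_two q).symm g

end CharQ

/-! ### The diagonal norm -/

section Diag

open Fermat.Agent.S37.ES.KummerPoly

variable {k : Type*} [CommRing k]

/-- **The diagonal norm**, in the variable `s = t^(1/q²)`:
`(f(s^(q²)) - f(s^(q⁴))) · ∏_{b < q²} (f(s^(q²)) - f(ζ^b s)) · ∏_{1 ≤ b < q} (f(s^(q²)) - f(ζ_q^b s^(q²)))`,
`ζ_q = ζ^q`; this is `Ψ(φ)(s^(q²))` for the polynomial `Ψ` whose roots are the `q² + q` conjugates
`φ(t^(q²))`, `φ(ζ^b t^(1/q²))`, `φ(ζ_q^b t)` of `φ(t^(q²))`. -/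
def diagNorm (ζ : Rˣ) (q : ℕ) [NeZero q] (f : LaurentSeries R) : LaurentSeries R :=
  (qExpand R (q ^ 2) f - qExpand R (q ^ 4) f) *
    (∏ b ∈ Finset.range (q ^ 2), (qExpand R (q ^ 2) f - rescaleU (ζ ^ b) f)) *
    (∏ b ∈ Finset.Ico 1 q,
      (qExpand R (q ^ 2) f - qExpand R (q ^ 2) (rescaleU ((ζ ^ q) ^ b) f)))

/-- The cofactor of `q` in the diagonal norm. -/
def diagCofactor (ζ : Rˣ) (q : ℕ) [NeZero q] (f : LaurentSeries R) : LaurentSeries R :=
  (qExpand R (q ^ 2) f - qExpand R (q ^ 4) f) *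
    (∏ b ∈ Finset.range (q ^ 2), (qExpand R (q ^ 2) f - rescaleU (ζ ^ b) f)) *
    qExpand R (q ^ 2) (midU (ζ ^ q) q f)

/-- **The diagonal norm is divisible by `q`.** -/
theorem diagNorm_eq {ζ : Rˣ} {q : ℕ} [NeZero q]
    (hζ : ∏ b ∈ Finset.Ico 1 q, (1 - (((ζ ^ q) ^ b : Rˣ) : R)) = (q : R))
    (f : LaurentSeries R) :
    diagNorm ζ q f = HahnSeries.C (q : R) * diagCofactor ζ q f := by
  have h3 : ∏ b ∈ Finset.Ico 1 q,
      (qExpand R (q ^ 2) f - qExpand R (q ^ 2) (rescaleU ((ζ ^ q) ^ b) f)) =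
      HahnSeries.C (q : R) * qExpand R (q ^ 2) (midU (ζ ^ q) q f) := by
    rw [← qExpand_C (q ^ 2) (q : R), ← map_mul, ← prod_sub_rescaleU hζ f, map_prod]
    exact Finset.prod_congr rfl fun b _ => by rw [map_sub]
  rw [diagNorm, diagCofactor, h3]
  ring

/-- **The second-order diagonal identity**: modulo a prime over `q`, for a series whose reduction
has Frobenius-fixed coefficients, the cofactor of `q` in the diagonal norm reduces to
`- (f̄ - f̄^(q²))² (θ f̄)^(q-1)` (evaluated at `s^(q²) = t`). -/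
theorem coeffMap_diagCofactor (π : R →+* k) [IsReduced k] (q : ℕ) [hq : Fact q.Prime] [CharP k q]
    {ζ : Rˣ} (hζ : ζ ^ (q ^ 2) = 1) (f : LaurentSeries R)
    (hf : coeffMap (frobenius k q) (coeffMap π f) = coeffMap π f) :
    haveI : NeZero q := ⟨hq.out.ne_zero⟩
    coeffMap π (diagCofactor ζ q f) =
      qExpand k (q ^ 2)
        (-((coeffMap π f - coeffMap π f ^ (q ^ 2)) ^ 2 * theta (coeffMap π f) ^ (q - 1))) := by
  haveI : NeZero q := ⟨hq.out.ne_zero⟩
  haveI := charP_laurentSeries (k := k) q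
  set g := coeffMap π f with hg
  -- `π ζ = 1`
  have hπζ : π ζ = 1 := by
    have h1 : ((π ζ) ^ q) ^ q = 1 := by
      rw [← pow_mul, ← pow_two, ← map_pow, ← Units.val_pow_eq_pow_val, hζ, Units.val_one, map_one]
    exact eq_one_of_pow_char_eq_one q (eq_one_of_pow_char_eq_one q h1)
  have hπζq : π ((ζ ^ q : Rˣ) : R) = 1 := by
    rw [Units.val_pow_eq_pow_val, map_pow, hπζ, one_pow]
  have hu : Units.map π.toMonoidHom ζ = 1 := Units.ext hπζ
  -- the three factors
  have hA2 : coeffMap π (∏ b ∈ Finset.range (q ^ 2), (qExpand R (q ^ 2) f - rescaleU (ζ ^ b) f)) =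
      (qExpand k (q ^ 2) g - g) ^ (q ^ 2) := by
    rw [map_prod, Finset.prod_congr rfl (g := fun _ => qExpand k (q ^ 2) g - g)]
    · rw [Finset.prod_const, Finset.card_range]
    · intro b _
      rw [map_sub, coeffMap_qExpand_loc, coeffMap_rescaleU, map_pow, hu, one_pow, rescaleU_one]
  have hgq : g ^ (q ^ 2) = qExpand k (q ^ 2) g := pow_char_sq_of_frobenius_fixed q hf
  have hgq' : qExpand k (q ^ 2) g ^ (q ^ 2) = qExpand k (q ^ 4) g := by
    rw [← map_pow, hgq, qExpand_qExpand]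
    exact qExpand_congr (by ring) g
  rw [diagCofactor, map_mul, map_mul, hA2, map_sub, coeffMap_qExpand_loc, coeffMap_qExpand_loc,
    coeffMap_qExpand_loc, coeffMap_midU π hπζq, sub_pow_char_pow, hgq', hgq, map_neg, map_mul,
    map_pow, map_pow, map_sub, qExpand_qExpand, qExpand_congr (show q ^ 2 * q ^ 2 = q ^ 4 by ring) g]
  ring

end Diag

end Fermat.Agent.S36.DiagTheta
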