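/-
PROJECT V (S36), slice V-NormDiag (helper22): **the level-`q²` conjugates of a general function**,
`β`-side.

`E0 = ℚ̄(X₀(N0))`, `E1 = ℚ̄(X₀(N0 q))`, `E2 = ℚ̄(X₀(N0 q q))` inside `Ω = ℚ̄((t))`, `q` prime,
`q ∤ N0`, `α₁, α₂` the inclusions (`heckeAlphaBar`), `β₁, β₂ : g(t) ↦ g(t^q)` (`heckeBetaBar`).
`E2` is an extension of `β₂ β₁ E0 = {x(t^(q²))}` of degree `q² + q`. Its `q² + q` embeddings into `Ω`
over `β₂ β₁ E0` (base map `x ↦ x(t^(q²))`) are

* the `q²` substitutions `t ↦ ζ^b t`, `ζ` a primitive `q²`-th root of unity;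
* `q` further embeddings `σ_c`, all equal to `(t ↦ t^q) ∘ ρ₁` on `β₂ E1` (`ρ₁` = the second
  embedding of `E1` over `β₁ E0`, `S37/ES/HeckeRho`), with, **for every `z ∈ E1`**,
  `σ_0 (α₂ z) = (ρ₁ z)(t^(q²))`, `σ_c (α₂ z) = z(ζ_q^c t^(q²))` (`0 < c < q`, `ζ_q = ζ^q`); so for
  every `x ∈ E0`: `σ_0 (α₂ α₁ x) = x(t^(q⁴))`, `σ_c (α₂ α₁ x) = x(ζ_q^c t^(q²))`,
  `σ_c (α₂ β₁ x) = x(t^(q³))`, `σ_c (β₂ β₁ x) = x(t^(q²))`.

Construction (`exists_lift`): `E2 = β₂ E1 (j)` has the power basis `1, j, …, j^(q-1)`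
(`S36/LevelDvd`), the minimal polynomial of `j` is `Φ_q(X, j(t^q)) / (X - j(t^(q²)))`, and its image
under `(t ↦ t^q) ∘ ρ₁` is `Φ_q(X, j(t^(q³))) / (X - j(t^(q²)))` with roots `j(t^(q⁴))`,
`j(ζ_q^c t^(q²))` (`S28` modular equation). The values on all of `α₂ E1` come from agreement on
generators (`lift_alpha`): `E1 = β₁ E0 (j)` (`S34/PowerBasisX0Beta`). No Atkin-Lehner involution of
level `q²`, no modular polynomial of composite level.

Exports:
* `exists_rho2_zero`, `exists_rho2_unit`, `exists_embeddings` (the family, with the norm and the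
  characteristic polynomial of every `y ∈ E2` over `β₂ β₁ E0` as products over the family);
* `qExpand_norm_diag` : `N(x(t^(q²)) - x(t))` has expansion `DiagTheta.diagNorm ζ q x` (at `t^(q²)`);
  `qExpand_norm_diag_eq_C_mul` : `= q · diagCofactor ζ q x`;
* `coeffMap_diagNorm_units`, `coeffMap_diagCofactor_units` : `diagNorm`, `diagCofactor` commute with a
  change of coefficient ring (e.g. `A.subtype` for a valuation subring `A ⊆ ℚ̄`), so that
  `DiagTheta.coeffMap_diagCofactor` computes the reduction of `N(x(t^(q²)) - x(t)) / q`: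
  `-(x̄ - x̄^(q²))² (θ x̄)^(q-1)` at `t^(q²)`;
* `map_charpoly_eq_prod` : general companion of `S24/AllPlaces.map_norm_eq_prod`.
-/
import Mathlib
import Fermat.Agent.S36.DiagTheta
import Fermat.Agent.S36.LevelDvd
import Fermat.Agent.S37.ES.HeckeRho
import Fermat.Agent.S37.ES.NormAlpha
import Fermat.Agent.S34.PowerBasisX0Beta
import Fermat.Agent.S24.AllPlaces

set_option autoImplicit false
set_option linter.unusedSectionVars false
set_option linter.style.haveILetI false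

noncomputable section

namespace Fermat.Agent.S36.NormDiag

open Polynomial ModularCurve AlgebraicCurve IntermediateField
open Fermat.Agent.S28.LaurentRescale Fermat.Agent.S24.DegreeAlg Fermat.Agent.S35.LevelMaps
open Fermat.Agent.S37.ES.HeckeRho

local notation "Kb" => AlgebraicClosure ℚ
local notation "Ω" => LaurentSeries (AlgebraicClosure ℚ)

/-! ### Generalities -/

section General

/-- Two ring homs out of an algebra with a power basis agree as soon as they agree on the base and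
on the generator. -/
theorem ringHom_ext_of_powerBasis {A S T : Type*} [CommRing A] [CommRing S] [Algebra A S]
    [CommRing T] (pb : PowerBasis A S) {f g : S →+* T}
    (h1 : ∀ a, f (algebraMap A S a) = g (algebraMap A S a)) (h2 : f pb.gen = g pb.gen) :
    f = g := by
  refine RingHom.ext fun y => ?_
  obtain ⟨P, rfl⟩ := pb.exists_eq_aeval' y
  rw [aeval_def, hom_eval₂, hom_eval₂, h2]
  congr 1
  exact RingHom.ext h1

/-- If `Q` indexes `finrank k0 F` pairwise distinct ring homs `F →+* Ω'` all restricting to `L0`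
on `k0`, then the characteristic polynomial of `b`, mapped by `L0`, is `∏ (X - L i b)`
(companion of `S24/AllPlaces.map_norm_eq_prod`). -/
theorem map_charpoly_eq_prod {k0 F Ω' : Type*} [Field k0] [Field F] [Algebra k0 F]
    [FiniteDimensional k0 F] [Algebra.IsSeparable k0 F] [Field Ω'] [Infinite k0]
    {Q : Type*} [Fintype Q] (L : Q → F →+* Ω')
    (hinj : Function.Injective L) (hcard : Fintype.card Q = Module.finrank k0 F)
    (L0 : k0 →+* Ω') (hbase : ∀ i y, L i (algebraMap k0 F y) = L0 y) (b : F) :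
    (LinearMap.charpoly (Algebra.lmul k0 F b)).map L0 = ∏ i, (X - C (L i b)) := by
  refine Polynomial.eq_of_infinite_eval_eq _ _ ?_
  refine Set.Infinite.mono ?_ (Set.infinite_range_of_injective L0.injective)
  rintro _ ⟨t, rfl⟩
  show eval (L0 t) _ = eval (L0 t) _
  rw [eval_map, eval₂_at_apply, LinearMap.eval_charpoly]
  have h1 : algebraMap k0 (Module.End k0 F) t - Algebra.lmul k0 F b =
      Algebra.lmul k0 F (algebraMap k0 F t - b) := by
    refine LinearMap.ext fun z => ?_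
    simp [Algebra.smul_def]
  rw [h1, ← Algebra.norm_apply,
    Fermat.Agent.S24.AllPlaces.map_norm_eq_prod L hinj hcard L0 hbase, eval_prod]
  refine Finset.prod_congr rfl fun i _ => ?_
  rw [map_sub, hbase, eval_sub, eval_X, eval_C]

end General

/-! ### `DiagTheta` commutes with change of coefficients -/

section CoeffChange

open Fermat.Agent.S36.DiagTheta

variable {R S : Type*} [CommRing R] [CommRing S]

theorem map_gsum_units (φ : R →+* S) (u : Rˣ) (n : ℤ) :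
    φ (gsum u n) = gsum (Units.map φ.toMonoidHom u) n := by
  have hz : ∀ k : ℤ, φ ((u ^ k : Rˣ) : R) = (((Units.map φ.toMonoidHom u) ^ k : Sˣ) : S) := by
    intro k
    rw [← map_zpow]
    rfl
  have hc : φ (u : R) = ((Units.map φ.toMonoidHom u : Sˣ) : S) := rfl
  unfold gsum
  split_ifs with hn
  · rw [map_sum]
    exact Finset.sum_congr rfl fun i _ => by rw [map_pow, hc]
  · rw [map_neg, map_mul, hz, map_sum]
    congr 2
    exact Finset.sum_congr rfl fun i _ => by rw [map_pow, hc]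

theorem coeffMap_diffQuot_units (φ : R →+* S) (u : Rˣ) (f : LaurentSeries R) :
    coeffMap φ (diffQuot u f) = diffQuot (Units.map φ.toMonoidHom u) (coeffMap φ f) := by
  ext n
  rw [coeffMap_coeff, coeff_diffQuot, coeff_diffQuot, coeffMap_coeff, map_mul, map_gsum_units]

theorem coeffMap_midU_units (φ : R →+* S) (ζ : Rˣ) (q : ℕ) (f : LaurentSeries R) :
    coeffMap φ (midU ζ q f) = midU (Units.map φ.toMonoidHom ζ) q (coeffMap φ f) := by
  rw [midU, midU, map_prod]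
  exact Finset.prod_congr rfl fun b _ => by rw [coeffMap_diffQuot_units, map_pow]

theorem coeffMap_diagNorm_units (φ : R →+* S) (ζ : Rˣ) (q : ℕ) [NeZero q] (f : LaurentSeries R) :
    coeffMap φ (diagNorm ζ q f) = diagNorm (Units.map φ.toMonoidHom ζ) q (coeffMap φ f) := by
  rw [diagNorm, diagNorm, map_mul, map_mul, map_sub, map_prod, map_prod, coeffMap_qExpand_loc,
    coeffMap_qExpand_loc]
  congr 1
  · congr 1
    exact Finset.prod_congr rfl fun b _ => by
      rw [map_sub, coeffMap_qExpand_loc, coeffMap_rescaleU, map_pow]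
  · exact Finset.prod_congr rfl fun b _ => by
      rw [map_sub, coeffMap_qExpand_loc, coeffMap_qExpand_loc, coeffMap_rescaleU, map_pow, map_pow]

theorem coeffMap_diagCofactor_units (φ : R →+* S) (ζ : Rˣ) (q : ℕ) [NeZero q]
    (f : LaurentSeries R) :
    coeffMap φ (diagCofactor ζ q f) = diagCofactor (Units.map φ.toMonoidHom ζ) q (coeffMap φ f) := by
  rw [diagCofactor, diagCofactor, map_mul, map_mul, map_sub, map_prod, coeffMap_qExpand_loc,
    coeffMap_qExpand_loc, coeffMap_qExpand_loc, coeffMap_midU_units, map_pow]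
  congr 2
  exact Finset.prod_congr rfl fun b _ => by
    rw [map_sub, coeffMap_qExpand_loc, coeffMap_rescaleU, map_pow]

end CoeffChange

variable {N0 q : ℕ} [NeZero N0] [NeZero q]

/-! ### The second embedding at level `q` -/

/-- The second embedding `ρ₁` of `E1` over `β E0` (`S37/ES/HeckeRho.exists_rho`). -/
def rho1 (hq : q.Prime) (hqN : ¬ q ∣ N0) : E (N0 * q) →ₐ[Kb] Ω :=
  Classical.choose (exists_rho (N := N0) hq hqN)

theorem rho1_alpha (hq : q.Prime) (hqN : ¬ q ∣ N0) (g : E N0) :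
    rho1 hq hqN (heckeAlphaBar Kb N0 q g) = qExpand Kb q (qExpand Kb q (g : Ω)) :=
  (Classical.choose_spec (exists_rho (N := N0) hq hqN) g).1

theorem rho1_beta (hq : q.Prime) (hqN : ¬ q ∣ N0) (g : E N0) :
    rho1 hq hqN (heckeBetaBar Kb N0 q g) = qExpand Kb q (g : Ω) :=
  (Classical.choose_spec (exists_rho (N := N0) hq hqN) g).2

/-- `τ = (t ↦ t^q) ∘ ρ₁`, the embedding of `β₂ E1` to be extended. -/
def tauA (hq : q.Prime) (hqN : ¬ q ∣ N0) : E (N0 * q) →ₐ[Kb] Ω :=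
  (qExpandAlgHomC Kb q).comp (rho1 hq hqN)

theorem tauA_apply (hq : q.Prime) (hqN : ¬ q ∣ N0) (z : E (N0 * q)) :
    tauA hq hqN z = qExpand Kb q (rho1 hq hqN z) := rfl

/-! ### Series facts -/

section Series

theorem biEval_modPoly {Φ : Polynomial (Polynomial Kb)} {ζ : Kbˣ}
    (hfac : Φ.map ((Polynomial.aeval (qExpand Kb q (jqModC Kb))).toRingHom) =
      (X - C (qExpand Kb (q ^ 2) (jqModC Kb))) *
        ∏ b ∈ Finset.range q, (X - C (rescaleU (ζ ^ b) (jqModC Kb)))) (v : Ω) :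
    biEval Φ (qExpand Kb q (jqModC Kb)) v =
      (v - qExpand Kb (q ^ 2) (jqModC Kb)) *
        ∏ b ∈ Finset.range q, (v - rescaleU (ζ ^ b) (jqModC Kb)) := by
  unfold biEval
  rw [hfac, eval_mul, eval_sub, eval_X, eval_C, eval_prod]
  congr 1
  refine Finset.prod_congr rfl fun b _ => ?_
  rw [eval_sub, eval_X, eval_C]

end Series

/-! ### The relations in `E1` and `E2` -/

section Relations

theorem coe_jgen (N : ℕ) [NeZero N] : ((jgen N : E N) : Ω) = jqModC Kb :=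
  Fermat.Agent.S18.B.Basic.coe_jgen_eq N

theorem alpha_jgen (N ℓ : ℕ) [NeZero N] [NeZero ℓ] :
    heckeAlphaBar Kb N ℓ (jgen N) = jgen (N * ℓ) :=
  Subtype.ext (by rw [coe_heckeAlphaBar, coe_jgen, coe_jgen])

/-- `α₂ ∘ β₁ = β₂ ∘ α₁` (both are `x(t) ↦ x(t^q)`). -/
theorem alpha_beta_comm (x : E N0) :
    heckeAlphaBar Kb (N0 * q) q (heckeBetaBar Kb N0 q x) =
      heckeBetaBar Kb (N0 * q) q (heckeAlphaBar Kb N0 q x) :=
  Subtype.ext (by
    rw [coe_heckeAlphaBar, coe_heckeBetaBar, coe_heckeBetaBar, coe_heckeAlphaBar])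

variable {Φ : Polynomial (Polynomial Kb)} {ζ : Kbˣ}

/-- `Φ_q(j(t), j(t^q)) = 0` in `E2`, with `j(t^q) = β₂ j`. -/
theorem biEval_beta_jgen
    (hfac : Φ.map ((Polynomial.aeval (qExpand Kb q (jqModC Kb))).toRingHom) =
      (X - C (qExpand Kb (q ^ 2) (jqModC Kb))) *
        ∏ b ∈ Finset.range q, (X - C (rescaleU (ζ ^ b) (jqModC Kb)))) (N : ℕ) [NeZero N]
    (hq : 0 < q) :
    biEval Φ (heckeBetaBar Kb N q (jgen N)) (jgen (N * q)) = 0 := by
  have hinj : Function.Injective (modularFunctionFieldBar (N * q)).val :=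
    (modularFunctionFieldBar (N * q)).val.toRingHom.injective
  apply hinj
  rw [map_biEval, map_zero]
  show biEval Φ ((heckeBetaBar Kb N q (jgen N) : E (N * q)) : Ω) ((jgen (N * q) : E (N * q)) : Ω) = 0
  rw [coe_heckeBetaBar, coe_jgen, coe_jgen, biEval_modPoly hfac]
  refine mul_eq_zero_of_right _ (Finset.prod_eq_zero (Finset.mem_range.2 hq) ?_)
  rw [pow_zero, rescaleU_one, sub_self]

/-- `Φ_q(j(t^q), j(t)) = 0` in `E1`, with `j(t^q) = β₁ j`: the root of `Φ_q(X, j)` in the base. -/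
theorem biEval_jgen_beta
    (hfac : Φ.map ((Polynomial.aeval (qExpand Kb q (jqModC Kb))).toRingHom) =
      (X - C (qExpand Kb (q ^ 2) (jqModC Kb))) *
        ∏ b ∈ Finset.range q, (X - C (rescaleU (ζ ^ b) (jqModC Kb)))) (N : ℕ) [NeZero N] :
    biEval Φ (jgen (N * q)) (heckeBetaBar Kb N q (jgen N)) = 0 := by
  have hinj : Function.Injective
      ((qExpandAlgHomC Kb q).comp (modularFunctionFieldBar (N * q)).val) :=
    ((qExpandAlgHomC Kb q).comp (modularFunctionFieldBar (N * q)).val).toRingHom.injective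
  apply hinj
  rw [map_biEval, map_zero]
  show biEval Φ (qExpand Kb q ((jgen (N * q) : E (N * q)) : Ω))
    (qExpand Kb q ((heckeBetaBar Kb N q (jgen N) : E (N * q)) : Ω)) = 0
  rw [coe_heckeBetaBar, coe_jgen, coe_jgen, biEval_modPoly hfac, qExpand_qExpand]
  refine mul_eq_zero_of_left ?_ _
  rw [sub_eq_zero]
  exact qExpand_congr (pow_two q).symm _

end Relations

/-! ### Extending `τ` to `E2` -/

section Lift

/-- The power basis `1, j, …, j^(q-1)` of `E2` over `E1` along `β₂`. -/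
theorem exists_pb2 (hq : q.Prime) :
    letI := algebraAlong (heckeBetaBar Kb (N0 * q) q)
    ∃ pb : PowerBasis (E (N0 * q)) (E (N0 * q * q)), pb.gen = jgen (N0 * q * q) ∧ pb.dim = q := by
  letI := algebraAlong (heckeBetaBar Kb (N0 * q) q)
  obtain ⟨b, hb⟩ := Fermat.Agent.S36.LevelDvd.exists_basis_pow_of_isDil_dvd (N := N0 * q)
    (N' := N0 * q * q) hq (Dvd.intro_left N0 rfl) rfl (heckeBetaBar Kb (N0 * q) q)
    (isDil_beta (N0 * q) q) (jgen (N0 * q * q)) (coe_jgen _)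
  exact ⟨⟨jgen (N0 * q * q), q, b, hb⟩, rfl, rfl⟩

/-- **Extension of `τ`**: for every root `r ≠ j(t^(q²))` of `Φ_q(X, j(t^(q³)))` there is an embedding
`σ` of `E2` with `σ ∘ β₂ = (t ↦ t^q) ∘ ρ₁` and `σ j = r`. -/
theorem exists_lift (hq : q.Prime) (hqN : ¬ q ∣ N0) {Φ : Polynomial (Polynomial Kb)}
    (hmonic : Φ.Monic) (hdeg : Φ.natDegree = q + 1) {ζ : Kbˣ}
    (hfac : Φ.map ((Polynomial.aeval (qExpand Kb q (jqModC Kb))).toRingHom) =
      (X - C (qExpand Kb (q ^ 2) (jqModC Kb))) *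
        ∏ b ∈ Finset.range q, (X - C (rescaleU (ζ ^ b) (jqModC Kb))))
    (r : Ω) (hr : biEval Φ (qExpand Kb (q ^ 2) (qExpand Kb q (jqModC Kb))) r = 0)
    (hr' : r ≠ qExpand Kb (q ^ 2) (jqModC Kb)) :
    ∃ σ : E (N0 * q * q) →ₐ[Kb] Ω,
      (∀ z : E (N0 * q), σ (heckeBetaBar Kb (N0 * q) q z) = qExpand Kb q (rho1 hq hqN z)) ∧
        σ (jgen (N0 * q * q)) = r := by
  letI a2 : Algebra (E (N0 * q)) (E (N0 * q * q)) := algebraAlong (heckeBetaBar Kb (N0 * q) q)
  obtain ⟨pb, hpbgen, hpbdim⟩ := exists_pb2 (N0 := N0) hq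
  letI aΩ : Algebra (E (N0 * q)) Ω := (tauA hq hqN).toRingHom.toAlgebra
  have halg2 : ∀ z : E (N0 * q), algebraMap (E (N0 * q)) (E (N0 * q * q)) z =
      heckeBetaBar Kb (N0 * q) q z := fun _ => rfl
  have halgΩ : ∀ z : E (N0 * q), algebraMap (E (N0 * q)) Ω z = tauA hq hqN z := fun _ => rfl
  set j1 : E (N0 * q) := jgen (N0 * q) with hj1
  set j2 : E (N0 * q * q) := jgen (N0 * q * q) with hj2
  set y1 : E (N0 * q) := heckeBetaBar Kb N0 q (jgen N0) with hy1
  -- the modular polynomial over `E1`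
  set P : Polynomial (E (N0 * q)) := Φ.map (Polynomial.aeval j1 : Polynomial Kb →ₐ[Kb] _).toRingHom
    with hP
  have hPmonic : P.Monic := hmonic.map _
  have hPdeg : P.natDegree = q + 1 := by rw [hP, hmonic.natDegree_map, hdeg]
  -- `P(j2) = 0`
  have hcomp : ∀ (B : Type) [CommRing B] [Algebra Kb B] (f : E (N0 * q) →ₐ[Kb] B),
      f.toRingHom.comp (Polynomial.aeval j1 : Polynomial Kb →ₐ[Kb] _).toRingHom =
        (Polynomial.aeval (f j1) : Polynomial Kb →ₐ[Kb] B).toRingHom := by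
    intro B _ _ f
    refine RingHom.ext fun p => ?_
    exact (aeval_algHom_apply f j1 p).symm
  have hP1 : Polynomial.aeval j2 P = 0 := by
    rw [aeval_def, hP, eval₂_map]
    have h := biEval_beta_jgen (Φ := Φ) hfac (N0 * q) hq.pos
    unfold biEval at h
    rw [eval_map] at h
    rw [← h]
    congr 1
    exact hcomp _ (heckeBetaBar Kb (N0 * q) q)
  -- `P(y1) = 0`
  have hP2 : P.IsRoot y1 := by
    have h := biEval_jgen_beta (Φ := Φ) hfac N0
    exact h
  set Q : Polynomial (E (N0 * q)) := P /ₘ (X - C y1) with hQ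
  have hPQ : (X - C y1) * Q = P := mul_divByMonic_eq_iff_isRoot.2 hP2
  have hQmonic : Q.Monic := by
    have h : ((X - C y1) * Q).Monic := by rw [hPQ]; exact hPmonic
    exact (monic_X_sub_C y1).of_mul_monic_left h
  have hQdeg : Q.natDegree = q := by
    have h := congrArg natDegree hPQ
    rw [(monic_X_sub_C y1).natDegree_mul hQmonic, natDegree_X_sub_C, hPdeg] at h
    omega
  -- `Q(j2) = 0`
  have hne : j2 - heckeBetaBar Kb (N0 * q) q y1 ≠ 0 := by
    intro h
    have h1 := congrArg (fun x : E (N0 * q * q) => ((x : E (N0 * q * q)) : Ω).order)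
      (sub_eq_zero.1 h)
    simp only [hj2, hy1, coe_jgen, coe_heckeBetaBar] at h1
    rw [Fermat.Agent.S28.StepDeg.order_qExpand, Fermat.Agent.S28.StepDeg.order_qExpand,
      Fermat.Agent.S28.StepDeg.order_jqModC] at h1
    have hq2 : (2 : ℤ) ≤ q := by exact_mod_cast hq.two_le
    nlinarith
  have hQ0 : Polynomial.aeval j2 Q = 0 := by
    have h := hP1
    rw [← hPQ, map_mul, map_sub, aeval_X, aeval_C, halg2] at h
    exact (mul_eq_zero.1 h).resolve_left hne
  -- the minimal polynomial is `Q`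
  have hmin : minpoly (E (N0 * q)) pb.gen = Q := by
    have hdvd : minpoly (E (N0 * q)) pb.gen ∣ Q := minpoly.dvd _ _ (by rw [hpbgen]; exact hQ0)
    have hmm : (minpoly (E (N0 * q)) pb.gen).Monic := minpoly.monic pb.isIntegral_gen
    exact (eq_of_monic_of_dvd_of_natDegree_le hmm hQmonic hdvd
      (by rw [hQdeg, pb.natDegree_minpoly, hpbdim])).symm
  -- `Q(r) = 0` along `τ`
  have hroot : Polynomial.aeval r (minpoly (E (N0 * q)) pb.gen) = 0 := by
    rw [hmin]
    have hPr : Polynomial.aeval r P = 0 := by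
      rw [aeval_def, hP, eval₂_map]
      have h := hr
      unfold biEval at h
      rw [eval_map] at h
      rw [← h]
      congr 1
      have h2 := hcomp Ω (tauA hq hqN)
      have h3 : tauA hq hqN j1 = qExpand Kb (q ^ 2) (qExpand Kb q (jqModC Kb)) := by
        rw [tauA_apply, hj1, ← alpha_jgen N0 q, rho1_alpha, coe_jgen, qExpand_qExpand,
          qExpand_qExpand, qExpand_qExpand]
        exact qExpand_congr (by ring) _
      rw [h3] at h2
      exact h2
    rw [← hPQ, map_mul, map_sub, aeval_X, aeval_C, halgΩ] at hPr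
    refine (mul_eq_zero.1 hPr).resolve_left ?_
    intro h
    rw [sub_eq_zero, tauA_apply, hy1, rho1_beta, coe_jgen, qExpand_qExpand] at h
    exact hr' (h.trans (qExpand_congr (pow_two q).symm _))
  let σ0 : E (N0 * q * q) →ₐ[E (N0 * q)] Ω := pb.lift r hroot
  have hσ0 : ∀ z : E (N0 * q), σ0 (heckeBetaBar Kb (N0 * q) q z) = tauA hq hqN z := by
    intro z
    rw [← halg2, σ0.commutes, halgΩ]
  refine ⟨{ toRingHom := σ0.toRingHom
            commutes' := fun c => ?_ }, fun z => ?_, ?_⟩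
  · show σ0 (algebraMap Kb (E (N0 * q * q)) c) = _
    have h1 : algebraMap Kb (E (N0 * q * q)) c =
        heckeBetaBar Kb (N0 * q) q (algebraMap Kb (E (N0 * q)) c) := by
      rw [AlgHom.commutes]
    rw [h1, hσ0, AlgHom.commutes]
  · show σ0 (heckeBetaBar Kb (N0 * q) q z) = _
    rw [hσ0, tauA_apply]
  · have h := pb.lift_gen r hroot
    rw [hpbgen] at h
    exact h

end Lift

/-! ### The values on `α₂ E1` -/

section Values

/-- **Agreement on generators**: an embedding `σ` of `E2` with `σ ∘ β₂ = (t ↦ t^q) ∘ ρ₁` is known on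
`α₂ E1` as soon as it is known at `j`. -/
theorem lift_alpha (hq : q.Prime) (hqN : ¬ q ∣ N0) (σ : E (N0 * q * q) →ₐ[Kb] Ω)
    (hσβ : ∀ z : E (N0 * q), σ (heckeBetaBar Kb (N0 * q) q z) = qExpand Kb q (rho1 hq hqN z))
    (μ : E (N0 * q) →+* Ω)
    (hμβ : ∀ x : E N0, μ (heckeBetaBar Kb N0 q x) = qExpand Kb (q ^ 3) (x : Ω))
    (hμj : μ (jgen (N0 * q)) = σ (jgen (N0 * q * q))) (z : E (N0 * q)) :
    σ (heckeAlphaBar Kb (N0 * q) q z) = μ z := by
  letI a1 : Algebra (E N0) (E (N0 * q)) := algebraAlong (heckeBetaBar Kb N0 q)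
  have halg1 : ∀ x : E N0, algebraMap (E N0) (E (N0 * q)) x = heckeBetaBar Kb N0 q x :=
    fun _ => rfl
  have hext : (σ : E (N0 * q * q) →+* Ω).comp
      (heckeAlphaBar Kb (N0 * q) q : E (N0 * q) →+* E (N0 * q * q)) = μ := by
    refine ringHom_ext_of_powerBasis (Fermat.Agent.S34.PowerBasisX0Beta.pbX0Beta (N := N0) hq hqN)
      (fun x => ?_) ?_
    · rw [halg1, hμβ]
      show σ (heckeAlphaBar Kb (N0 * q) q (heckeBetaBar Kb N0 q x)) = _
      rw [alpha_beta_comm, hσβ, rho1_alpha, qExpand_qExpand, qExpand_qExpand]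
      exact qExpand_congr (by ring) _
    · rw [Fermat.Agent.S34.PowerBasisX0Beta.pbX0Beta_gen, alpha_jgen, hμj]
      show σ (heckeAlphaBar Kb (N0 * q) q (jgen (N0 * q))) = _
      rw [alpha_jgen]
  exact DFunLike.congr_fun hext z

/-- **The embedding `ρ₂,∞`**: `σ ∘ β₂ = (t ↦ t^q) ∘ ρ₁`, `σ ∘ α₂ = (t ↦ t^(q²)) ∘ ρ₁`; so
`σ (α₂ α₁ x) = x(t^(q⁴))`, `σ (α₂ β₁ x) = x(t^(q³))`, `σ (β₂ β₁ x) = x(t^(q²))`. -/
theorem exists_rho2_zero (hq : q.Prime) (hqN : ¬ q ∣ N0) :
    ∃ σ : E (N0 * q * q) →ₐ[Kb] Ω,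
      (∀ z : E (N0 * q), σ (heckeBetaBar Kb (N0 * q) q z) = qExpand Kb q (rho1 hq hqN z)) ∧
      (∀ z : E (N0 * q), σ (heckeAlphaBar Kb (N0 * q) q z) =
        qExpand Kb (q ^ 2) (rho1 hq hqN z)) := by
  obtain ⟨Φ, hmonic, hdeg, hfac⟩ := Fermat.Agent.S28.ModPolyPrime.hasModPoly Kb q hq
  have hqk : ((q : ℕ) : Kb) ≠ 0 := Nat.cast_ne_zero.mpr hq.ne_zero
  obtain ⟨ζ, hζ⟩ := Fermat.Agent.S28.StepDeg.exists_isPrimitiveRoot_units (k := Kb) (p := q) hqk
  have hfacζ := hfac ζ hζ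
  obtain ⟨σ, hσβ, hσj⟩ := exists_lift hq hqN hmonic hdeg hfacζ
    (qExpand Kb (q ^ 2) (qExpand Kb (q ^ 2) (jqModC Kb)))
    (by
      rw [map_modPoly_qExpand hfacζ]
      exact mul_eq_zero_of_left (sub_self _) _)
    (by
      intro h
      have h1 := congrArg HahnSeries.order h
      rw [Fermat.Agent.S28.StepDeg.order_qExpand, Fermat.Agent.S28.StepDeg.order_qExpand,
        Fermat.Agent.S28.StepDeg.order_jqModC] at h1
      have hq2 : (2 : ℤ) ≤ q := by exact_mod_cast hq.two_le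
      push_cast at h1
      have h4 : (4 : ℤ) ≤ (q : ℤ) ^ 2 := by nlinarith
      have h5 : ((q : ℤ) ^ 2) * ((q : ℤ) ^ 2) = (q : ℤ) ^ 2 := by linarith
      nlinarith)
  refine ⟨σ, hσβ, fun z => ?_⟩
  refine lift_alpha hq hqN σ hσβ ((qExpand Kb (q ^ 2)).comp (rho1 hq hqN : E (N0 * q) →+* Ω))
    (fun x => ?_) ?_ z
  · show qExpand Kb (q ^ 2) (rho1 hq hqN (heckeBetaBar Kb N0 q x)) = _
    rw [rho1_beta, qExpand_qExpand]
    exact qExpand_congr (by ring) _
  · show qExpand Kb (q ^ 2) (rho1 hq hqN (jgen (N0 * q))) = _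
    rw [hσj, ← alpha_jgen N0 q, rho1_alpha, coe_jgen, qExpand_qExpand (N := q) q]
    exact congrArg _ (qExpand_congr (pow_two q).symm _)

/-- **The embeddings `ρ₂,u`**, `u^q = 1`, `u ≠ 1`: `σ ∘ β₂ = (t ↦ t^q) ∘ ρ₁`,
`σ (α₂ z) = z(u t^(q²))`; so `σ (α₂ α₁ x) = x(u t^(q²))`, `σ (α₂ β₁ x) = x(t^(q³))`,
`σ (β₂ β₁ x) = x(t^(q²))`. -/
theorem exists_rho2_unit (hq : q.Prime) (hqN : ¬ q ∣ N0) {u : Kbˣ} (hu : u ^ q = 1) (hu1 : u ≠ 1) :
    ∃ σ : E (N0 * q * q) →ₐ[Kb] Ω,
      (∀ z : E (N0 * q), σ (heckeBetaBar Kb (N0 * q) q z) = qExpand Kb q (rho1 hq hqN z)) ∧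
      (∀ z : E (N0 * q), σ (heckeAlphaBar Kb (N0 * q) q z) =
        qExpand Kb (q ^ 2) (rescaleU u (z : Ω))) := by
  obtain ⟨Φ, hmonic, hdeg, hfac⟩ := Fermat.Agent.S28.ModPolyPrime.hasModPoly Kb q hq
  have hqk : ((q : ℕ) : Kb) ≠ 0 := Nat.cast_ne_zero.mpr hq.ne_zero
  obtain ⟨ζ, hζ⟩ := Fermat.Agent.S28.StepDeg.exists_isPrimitiveRoot_units (k := Kb) (p := q) hqk
  have hfacζ := hfac ζ hζ
  have hζ' : IsPrimitiveRoot (ζ : Kb) q := IsPrimitiveRoot.coe_units_iff.2 hζ
  obtain ⟨b, hb, hbu'⟩ := hζ'.eq_pow_of_pow_eq_one (ξ := (u : Kb))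
    (by rw [← Units.val_pow_eq_pow_val, hu, Units.val_one])
  have hbu : ζ ^ b = u := Units.ext (by rw [Units.val_pow_eq_pow_val]; exact hbu')
  obtain ⟨σ, hσβ, hσj⟩ := exists_lift hq hqN hmonic hdeg hfacζ
    (qExpand Kb (q ^ 2) (rescaleU u (jqModC Kb)))
    (by
      rw [map_modPoly_qExpand hfacζ]
      refine mul_eq_zero_of_right _ (Finset.prod_eq_zero (Finset.mem_range.2 hb) ?_)
      rw [hbu, sub_self])
    (by
      intro h
      have h1 := qExpand_injective (q ^ 2) h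
      rw [← rescaleU_one (jqModC Kb)] at h1
      conv_lhs at h1 => rw [rescaleU_one (jqModC Kb)]
      exact hu1 (eq_of_rescaleU_eq (by rw [coeff_neg_one_jqModC]; exact one_ne_zero) h1))
  refine ⟨σ, hσβ, fun z => ?_⟩
  refine lift_alpha hq hqN σ hσβ (((qExpand Kb (q ^ 2)).comp
    ((rescaleU u : Ω ≃+* Ω) : Ω →+* Ω)).comp (modularFunctionFieldBar (N0 * q)).val.toRingHom)
    (fun x => ?_) ?_ z
  · show qExpand Kb (q ^ 2) (rescaleU u ((heckeBetaBar Kb N0 q x : E (N0 * q)) : Ω)) = _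
    rw [coe_heckeBetaBar, rescaleU_qExpand_of_pow_eq_one q hu, qExpand_qExpand]
    exact qExpand_congr (by ring) _
  · show qExpand Kb (q ^ 2) (rescaleU u ((jgen (N0 * q) : E (N0 * q)) : Ω)) = _
    rw [hσj, coe_jgen]

end Values

/-! ### The family of `q² + q` embeddings and the norm -/

section Norm

open Fermat.Agent.S36.DiagTheta

/-- `[E2 : β₂ β₁ E0] = q² + q`. -/
theorem finrank_beta_beta (hq : q.Prime) (hqN : ¬ q ∣ N0) :
    letI := algebraAlong ((heckeBetaBar Kb (N0 * q) q).comp (heckeBetaBar Kb N0 q))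
    Module.finrank (E N0) (E (N0 * q * q)) = q ^ 2 + q := by
  letI a1 : Algebra (E N0) (E (N0 * q)) := algebraAlong (heckeBetaBar Kb N0 q)
  letI a2 : Algebra (E (N0 * q)) (E (N0 * q * q)) := algebraAlong (heckeBetaBar Kb (N0 * q) q)
  letI a02 : Algebra (E N0) (E (N0 * q * q)) :=
    algebraAlong ((heckeBetaBar Kb (N0 * q) q).comp (heckeBetaBar Kb N0 q))
  haveI : IsScalarTower (E N0) (E (N0 * q)) (E (N0 * q * q)) :=
    IsScalarTower.of_algebraMap_eq fun _ => rfl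
  have h1 : Module.finrank (E N0) (E (N0 * q)) = q + 1 :=
    Fermat.Agent.S37.ES.DegreeBeta.finrankAlong_beta N0 hq hqN
  have h2 : Module.finrank (E (N0 * q)) (E (N0 * q * q)) = q :=
    Fermat.Agent.S36.LevelDvd.finrankAlong_beta_of_dvd (N0 * q) hq (Dvd.intro_left N0 rfl)
  have h := Module.finrank_mul_finrank (E N0) (E (N0 * q)) (E (N0 * q * q))
  rw [h1, h2] at h
  rw [← h]
  ring

theorem finite_beta_beta (hq : q.Prime) (hqN : ¬ q ∣ N0) :
    letI := algebraAlong ((heckeBetaBar Kb (N0 * q) q).comp (heckeBetaBar Kb N0 q))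
    Module.Finite (E N0) (E (N0 * q * q)) := by
  letI := algebraAlong ((heckeBetaBar Kb (N0 * q) q).comp (heckeBetaBar Kb N0 q))
  exact FiniteDimensional.of_finrank_pos (by
    rw [finrank_beta_beta (N0 := N0) hq hqN]
    have := hq.pos
    positivity)

/-- **The conjugates over `β₂ β₁ E0`.** Besides the `q²` substitutions `t ↦ ζ^c t` there are `q`
embeddings `σ_c`, all equal to `(t ↦ t^q) ∘ ρ₁` on `β₂ E1`, with `σ_0 (α₂ z) = (ρ₁ z)(t^(q²))` and
`σ_c (α₂ z) = z(ζ_q^c t^(q²))` for `0 < c < q`; the norm of `E2` over `β₂ β₁ E0` is the product over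
these `q² + q` embeddings. -/
theorem exists_embeddings (hq : q.Prime) (hqN : ¬ q ∣ N0) {ζ : Kbˣ}
    (hζ : IsPrimitiveRoot ζ (q ^ 2)) :
    ∃ σ : ℕ → (E (N0 * q * q) →ₐ[Kb] Ω),
      (∀ c, ∀ z : E (N0 * q), σ c (heckeBetaBar Kb (N0 * q) q z) = qExpand Kb q (rho1 hq hqN z)) ∧
      (∀ z : E (N0 * q), σ 0 (heckeAlphaBar Kb (N0 * q) q z) =
        qExpand Kb (q ^ 2) (rho1 hq hqN z)) ∧
      (∀ c ∈ Finset.Ico 1 q, ∀ z : E (N0 * q), σ c (heckeAlphaBar Kb (N0 * q) q z) =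
        qExpand Kb (q ^ 2) (rescaleU ((ζ ^ q) ^ c) (z : Ω))) ∧
      ∀ y : E (N0 * q * q),
        letI := algebraAlong ((heckeBetaBar Kb (N0 * q) q).comp (heckeBetaBar Kb N0 q))
        haveI := finite_beta_beta (N0 := N0) hq hqN
        qExpand Kb (q ^ 2) ((Algebra.norm (E N0) y : E N0) : Ω) =
          (∏ b ∈ Finset.range (q ^ 2), rescaleU (ζ ^ b) (y : Ω)) *
            ∏ c ∈ Finset.range q, σ c y ∧
        (LinearMap.charpoly (Algebra.lmul (E N0) (E (N0 * q * q)) y)).map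
            ((qExpand Kb (q ^ 2)).comp (modularFunctionFieldBar N0).val.toRingHom) =
          (∏ b ∈ Finset.range (q ^ 2), (X - C (rescaleU (ζ ^ b) (y : Ω)))) *
            ∏ c ∈ Finset.range q, (X - C (σ c y)) := by
  classical
  have hq2pos : 0 < q ^ 2 := pow_pos hq.pos 2
  have hζq : IsPrimitiveRoot (ζ ^ q) q := hζ.pow hq2pos (pow_two q)
  have hζ1 : ζ ^ (q ^ 2) = 1 := hζ.pow_eq_one
  -- the `q` extra embeddings
  have hex : ∀ c : ℕ, ∃ σ : E (N0 * q * q) →ₐ[Kb] Ω,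
      (∀ z : E (N0 * q), σ (heckeBetaBar Kb (N0 * q) q z) = qExpand Kb q (rho1 hq hqN z)) ∧
      (c = 0 → ∀ z : E (N0 * q), σ (heckeAlphaBar Kb (N0 * q) q z) =
        qExpand Kb (q ^ 2) (rho1 hq hqN z)) ∧
      (c ∈ Finset.Ico 1 q → ∀ z : E (N0 * q), σ (heckeAlphaBar Kb (N0 * q) q z) =
        qExpand Kb (q ^ 2) (rescaleU ((ζ ^ q) ^ c) (z : Ω))) := by
    intro c
    by_cases hc : c ∈ Finset.Ico 1 q
    · rw [Finset.mem_Ico] at hc
      have hu : ((ζ ^ q) ^ c) ^ q = 1 := by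
        rw [← pow_mul, mul_comm, pow_mul, hζq.pow_eq_one, one_pow]
      have hu1 : (ζ ^ q) ^ c ≠ 1 := fun h =>
        absurd (hζq.dvd_of_pow_eq_one c h) (Nat.not_dvd_of_pos_of_lt (by omega) hc.2)
      obtain ⟨σ, h1, h2⟩ := exists_rho2_unit hq hqN hu hu1
      exact ⟨σ, h1, fun h0 => by omega, fun _ => h2⟩
    · obtain ⟨σ, h1, h2⟩ := exists_rho2_zero (N0 := N0) hq hqN
      exact ⟨σ, h1, fun _ => h2, fun h => absurd h hc⟩
  choose σ hσβ hσ0 hσc using hex
  refine ⟨σ, hσβ, hσ0 0 rfl, fun c hc => hσc c hc, fun y => ?_⟩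
  letI a02 : Algebra (E N0) (E (N0 * q * q)) :=
    algebraAlong ((heckeBetaBar Kb (N0 * q) q).comp (heckeBetaBar Kb N0 q))
  have hfr := finrank_beta_beta (N0 := N0) hq hqN
  haveI : FiniteDimensional (E N0) (E (N0 * q * q)) := finite_beta_beta (N0 := N0) hq hqN
  haveI : CharZero (E N0) :=
    charZero_of_injective_algebraMap (algebraMap Kb (E N0)).injective
  haveI : Algebra.IsSeparable (E N0) (E (N0 * q * q)) :=
    Algebra.IsAlgebraic.isSeparable_of_perfectField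
  -- the family
  let L : Fin (q ^ 2) ⊕ Fin q → (E (N0 * q * q) →+* Ω) := fun i =>
    match i with
    | Sum.inl b => ((rescaleU (ζ ^ (b : ℕ)) : Ω ≃+* Ω) : Ω →+* Ω).comp
        (modularFunctionFieldBar (N0 * q * q)).val.toRingHom
    | Sum.inr c => (σ (c : ℕ) : E (N0 * q * q) →+* Ω)
  have hLl : ∀ (b : Fin (q ^ 2)) (y : E (N0 * q * q)),
      L (Sum.inl b) y = rescaleU (ζ ^ (b : ℕ)) (y : Ω) := fun _ _ => rfl
  have hLr : ∀ (c : Fin q) (y : E (N0 * q * q)), L (Sum.inr c) y = σ (c : ℕ) y := fun _ _ => rfl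
  set L0 : E N0 →+* Ω := (qExpand Kb (q ^ 2)).comp (modularFunctionFieldBar N0).val.toRingHom
    with hL0
  have hL0 : ∀ x : E N0, L0 x = qExpand Kb (q ^ 2) (x : Ω) := fun _ => rfl
  have halg : ∀ x : E N0, algebraMap (E N0) (E (N0 * q * q)) x =
      heckeBetaBar Kb (N0 * q) q (heckeBetaBar Kb N0 q x) := fun _ => rfl
  have hbase : ∀ i (x : E N0), L i (algebraMap (E N0) (E (N0 * q * q)) x) = L0 x := by
    intro i x
    rw [halg, hL0]
    cases i with
    | inl b =>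
      rw [hLl, coe_heckeBetaBar, coe_heckeBetaBar,
        Fermat.Agent.S37.ES.NormAlpha.rescaleU_pow_qExpand_qExpand q
          (by rw [← pow_mul, ← pow_two, hζ1]) (b : ℕ), qExpand_qExpand]
      exact qExpand_congr (pow_two q).symm _
    | inr c =>
      rw [hLr, hσβ, rho1_beta, qExpand_qExpand]
      exact qExpand_congr (pow_two q).symm _
  -- the values at `j`
  have hj2 : jgen (N0 * q * q) = heckeAlphaBar Kb (N0 * q) q (jgen (N0 * q)) :=
    (alpha_jgen (N0 * q) q).symm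
  have hvl : ∀ b : Fin (q ^ 2), L (Sum.inl b) (jgen (N0 * q * q)) =
      rescaleU (ζ ^ (b : ℕ)) (jqModC Kb) := fun b => by rw [hLl, coe_jgen]
  have hvr0 : ∀ c : Fin q, (c : ℕ) = 0 → L (Sum.inr c) (jgen (N0 * q * q)) =
      qExpand Kb (q ^ 2) (qExpand Kb (q ^ 2) (jqModC Kb)) := by
    intro c hc
    rw [hLr, hj2, hσ0 _ hc, ← alpha_jgen N0 q, rho1_alpha, coe_jgen, qExpand_qExpand (N := q) q]
    exact congrArg _ (qExpand_congr (pow_two q).symm _)
  have hvrc : ∀ c : Fin q, (c : ℕ) ≠ 0 → L (Sum.inr c) (jgen (N0 * q * q)) =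
      qExpand Kb (q ^ 2) (rescaleU ((ζ ^ q) ^ (c : ℕ)) (jqModC Kb)) := by
    intro c hc
    rw [hLr, hj2, hσc _ (Finset.mem_Ico.2 ⟨Nat.one_le_iff_ne_zero.2 hc, c.2⟩), coe_jgen]
  have hq2 : (2 : ℤ) ≤ q := by exact_mod_cast hq.two_le
  have hord_l : ∀ b : Fin (q ^ 2), (L (Sum.inl b) (jgen (N0 * q * q))).order = -1 := fun b => by
    rw [hvl, Fermat.Agent.S28.StepDeg.order_rescaleU_jqModC]
  have hord_r0 : ∀ c : Fin q, (c : ℕ) = 0 →
      (L (Sum.inr c) (jgen (N0 * q * q))).order = -((q : ℤ) ^ 2 * (q : ℤ) ^ 2) := fun c hc => by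
    rw [hvr0 c hc, Fermat.Agent.S28.StepDeg.order_qExpand, Fermat.Agent.S28.StepDeg.order_qExpand,
      Fermat.Agent.S28.StepDeg.order_jqModC]
    push_cast
    ring
  have hord_rc : ∀ c : Fin q, (c : ℕ) ≠ 0 →
      (L (Sum.inr c) (jgen (N0 * q * q))).order = -((q : ℤ) ^ 2) := fun c hc => by
    rw [hvrc c hc, Fermat.Agent.S28.StepDeg.order_qExpand,
      Fermat.Agent.S28.StepDeg.order_rescaleU_jqModC]
    push_cast
    ring
  have h4 : (4 : ℤ) ≤ (q : ℤ) ^ 2 := by nlinarith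
  have hcoeff : (jqModC Kb).coeff (-1) ≠ 0 := by
    rw [coeff_neg_one_jqModC]; exact one_ne_zero
  have hinj : Function.Injective L := by
    intro i i' h
    have h1 := congrArg (fun f : E (N0 * q * q) →+* Ω => f (jgen (N0 * q * q))) h
    beta_reduce at h1
    have ho := congrArg HahnSeries.order h1
    cases i with
    | inl b =>
      cases i' with
      | inl b' =>
        rw [hvl, hvl] at h1
        have h3 : ζ ^ (b : ℕ) = ζ ^ (b' : ℕ) := eq_of_rescaleU_eq hcoeff h1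
        exact congrArg Sum.inl (Fin.ext (hζ.pow_inj b.2 b'.2 h3))
      | inr c' =>
        exfalso
        rw [hord_l] at ho
        by_cases hc' : (c' : ℕ) = 0
        · rw [hord_r0 c' hc'] at ho
          nlinarith
        · rw [hord_rc c' hc'] at ho
          nlinarith
    | inr c =>
      cases i' with
      | inl b' =>
        exfalso
        rw [hord_l] at ho
        by_cases hc : (c : ℕ) = 0
        · rw [hord_r0 c hc] at ho
          nlinarith
        · rw [hord_rc c hc] at ho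
          nlinarith
      | inr c' =>
        by_cases hc : (c : ℕ) = 0
        · by_cases hc' : (c' : ℕ) = 0
          · exact congrArg Sum.inr (Fin.ext (hc.trans hc'.symm))
          · exfalso
            rw [hord_r0 c hc, hord_rc c' hc'] at ho
            nlinarith
        · by_cases hc' : (c' : ℕ) = 0
          · exfalso
            rw [hord_rc c hc, hord_r0 c' hc'] at ho
            nlinarith
          · rw [hvrc c hc, hvrc c' hc'] at h1
            have h2 := qExpand_injective (q ^ 2) h1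
            have h3 : (ζ ^ q) ^ (c : ℕ) = (ζ ^ q) ^ (c' : ℕ) := eq_of_rescaleU_eq hcoeff h2
            exact congrArg Sum.inr (Fin.ext (hζq.pow_inj c.2 c'.2 h3))
  have hcard : Fintype.card (Fin (q ^ 2) ⊕ Fin q) = Module.finrank (E N0) (E (N0 * q * q)) := by
    rw [hfr, Fintype.card_sum, Fintype.card_fin, Fintype.card_fin]
  refine ⟨?_, ?_⟩
  · have hnorm := Fermat.Agent.S24.AllPlaces.map_norm_eq_prod L hinj hcard L0 hbase y
    rw [hL0, Fintype.prod_sum_type] at hnorm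
    rw [hnorm]
    congr 1
    · rw [← Fin.prod_univ_eq_prod_range (fun b => rescaleU (ζ ^ b) (y : Ω)) (q ^ 2)]
      exact Finset.prod_congr rfl fun b _ => hLl b y
    · rw [← Fin.prod_univ_eq_prod_range (fun c => σ c y) q]
      exact Finset.prod_congr rfl fun c _ => hLr c y
  · haveI : Infinite (E N0) := inferInstance
    have hchar := map_charpoly_eq_prod L hinj hcard L0 hbase y
    rw [Fintype.prod_sum_type] at hchar
    rw [hchar]
    congr 1
    · rw [← Fin.prod_univ_eq_prod_range (fun b => X - C (rescaleU (ζ ^ b) (y : Ω))) (q ^ 2)]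
      exact Finset.prod_congr rfl fun b _ => by rw [hLl b y]
    · rw [← Fin.prod_univ_eq_prod_range (fun c => X - C (σ c y)) q]
      exact Finset.prod_congr rfl fun c _ => by rw [hLr c y]

/-- **The diagonal norm.** For every `x ∈ E0 = ℚ̄(X₀(N0))`, the norm of `x(t^(q²)) - x(t)` from
`E2 = ℚ̄(X₀(N0 q²))` down to `β₂ β₁ E0` has `t`-expansion (read through `t ↦ t^(q²)`)
`DiagTheta.diagNorm ζ q x`. -/
theorem qExpand_norm_diag (hq : q.Prime) (hqN : ¬ q ∣ N0) {ζ : Kbˣ}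
    (hζ : IsPrimitiveRoot ζ (q ^ 2)) (x : E N0) :
    letI := algebraAlong ((heckeBetaBar Kb (N0 * q) q).comp (heckeBetaBar Kb N0 q))
    qExpand Kb (q ^ 2) ((Algebra.norm (E N0)
      (heckeBetaBar Kb (N0 * q) q (heckeBetaBar Kb N0 q x) -
        heckeAlphaBar Kb (N0 * q) q (heckeAlphaBar Kb N0 q x)) : E N0) : Ω) =
      diagNorm ζ q (x : Ω) := by
  obtain ⟨σ, hσβ, hσ0, hσc, hnorm'⟩ := exists_embeddings hq hqN hζ
  have hnorm := fun y => (hnorm' y).1
  have hζ1 : ζ ^ (q ^ 2) = 1 := hζ.pow_eq_one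
  have hqq : qExpand Kb q (qExpand Kb q (x : Ω)) = qExpand Kb (q ^ 2) (x : Ω) := by
    rw [qExpand_qExpand]
    exact qExpand_congr (pow_two q).symm _
  rw [hnorm, diagNorm]
  have hB : ∏ b ∈ Finset.range (q ^ 2), rescaleU (ζ ^ b)
      (((heckeBetaBar Kb (N0 * q) q (heckeBetaBar Kb N0 q x) -
        heckeAlphaBar Kb (N0 * q) q (heckeAlphaBar Kb N0 q x) : E (N0 * q * q)) : Ω)) =
      ∏ b ∈ Finset.range (q ^ 2), (qExpand Kb (q ^ 2) (x : Ω) - rescaleU (ζ ^ b) (x : Ω)) := by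
    refine Finset.prod_congr rfl fun b _ => ?_
    have hcoe : (((heckeBetaBar Kb (N0 * q) q (heckeBetaBar Kb N0 q x) -
        heckeAlphaBar Kb (N0 * q) q (heckeAlphaBar Kb N0 q x) : E (N0 * q * q)) : Ω)) =
        qExpand Kb q (qExpand Kb q (x : Ω)) - (x : Ω) := by
      show ((heckeBetaBar Kb (N0 * q) q (heckeBetaBar Kb N0 q x) : E (N0 * q * q)) : Ω) -
        ((heckeAlphaBar Kb (N0 * q) q (heckeAlphaBar Kb N0 q x) : E (N0 * q * q)) : Ω) = _
      rw [coe_heckeBetaBar, coe_heckeBetaBar, coe_heckeAlphaBar, coe_heckeAlphaBar]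
    rw [hcoe, map_sub, Fermat.Agent.S37.ES.NormAlpha.rescaleU_pow_qExpand_qExpand q
      (by rw [← pow_mul, ← pow_two, hζ1]) b, hqq]
  have hA : σ 0 (heckeBetaBar Kb (N0 * q) q (heckeBetaBar Kb N0 q x) -
        heckeAlphaBar Kb (N0 * q) q (heckeAlphaBar Kb N0 q x)) =
      qExpand Kb (q ^ 2) (x : Ω) - qExpand Kb (q ^ 4) (x : Ω) := by
    rw [map_sub, hσβ, hσ0, rho1_beta, rho1_alpha, hqq, qExpand_qExpand]
    congr 1
    exact qExpand_congr (by ring) _
  have hC : ∀ c ∈ Finset.Ico 1 q,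
      σ c (heckeBetaBar Kb (N0 * q) q (heckeBetaBar Kb N0 q x) -
        heckeAlphaBar Kb (N0 * q) q (heckeAlphaBar Kb N0 q x)) =
      qExpand Kb (q ^ 2) (x : Ω) - qExpand Kb (q ^ 2) (rescaleU ((ζ ^ q) ^ c) (x : Ω)) := by
    intro c hc
    rw [map_sub, hσβ, hσc c hc, rho1_beta, hqq, coe_heckeAlphaBar]
  have hR : ∏ c ∈ Finset.range q, σ c (heckeBetaBar Kb (N0 * q) q (heckeBetaBar Kb N0 q x) -
        heckeAlphaBar Kb (N0 * q) q (heckeAlphaBar Kb N0 q x)) =
      (qExpand Kb (q ^ 2) (x : Ω) - qExpand Kb (q ^ 4) (x : Ω)) *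
        ∏ c ∈ Finset.Ico 1 q,
          (qExpand Kb (q ^ 2) (x : Ω) - qExpand Kb (q ^ 2) (rescaleU ((ζ ^ q) ^ c) (x : Ω))) := by
    rw [Finset.range_eq_Ico, Finset.prod_eq_prod_Ico_succ_bot hq.pos, hA,
      Finset.prod_congr rfl hC]
  rw [hB, hR]
  ring

/-- **The diagonal norm is `q` times the cofactor** (over `ℚ̄`): the `t`-expansion of
`N(x(t^(q²)) - x(t)) / q` is `DiagTheta.diagCofactor ζ q x` (at `t^(q²)`). If `x` has coefficients in
a valuation subring `A` over `q`, so has the cofactor (`coeffMap_diagCofactor_units` with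
`φ = A.subtype`), and its reduction is `-(x̄ - x̄^(q²))² (θ x̄)^(q-1)` at `t^(q²)` as soon as `x̄` has
Frobenius-fixed coefficients (`DiagTheta.coeffMap_diagCofactor`). -/
theorem qExpand_norm_diag_eq_C_mul (hq : q.Prime) (hqN : ¬ q ∣ N0) {ζ : Kbˣ}
    (hζ : IsPrimitiveRoot ζ (q ^ 2)) (x : E N0) :
    letI := algebraAlong ((heckeBetaBar Kb (N0 * q) q).comp (heckeBetaBar Kb N0 q))
    qExpand Kb (q ^ 2) ((Algebra.norm (E N0)
      (heckeBetaBar Kb (N0 * q) q (heckeBetaBar Kb N0 q x) -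
        heckeAlphaBar Kb (N0 * q) q (heckeAlphaBar Kb N0 q x)) : E N0) : Ω) =
      HahnSeries.C ((q : ℕ) : Kb) * diagCofactor ζ q (x : Ω) := by
  have hq2pos : 0 < q ^ 2 := pow_pos hq.pos 2
  have hζq : IsPrimitiveRoot (ζ ^ q) q := hζ.pow hq2pos (pow_two q)
  have hζq' : IsPrimitiveRoot (((ζ ^ q : Kbˣ) : Kb)) q := IsPrimitiveRoot.coe_units_iff.2 hζq
  rw [qExpand_norm_diag hq hqN hζ x]
  exact diagNorm_eq (prod_one_sub_pow_of_isPrimitiveRoot hq.pos hζq') _

end Norm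

end Fermat.Agent.S36.NormDiag
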