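/-
PROJECT V (S36), slice V-NormDiagRed (helper22): **the reduction of `N(x(t^(q²)) - x(t)) / q`**,
Gauss / `X₀` form (input of the chain items (V13) "`ν ≥ -2` on `S`" and (V12)(iii) "constant term of
the Eisenstein fibre at a triple point").

* `coeffMap_diagCofactor_twisted` : the reduction of `DiagTheta.diagCofactor` WITHOUT the hypothesis
  that the reduced series has Frobenius-fixed coefficients: with `g = f̄`, `σ` the coefficientwise
  Frobenius,
  `red (diagCofactor ζ q f) = [(g - g(t^(q²))) · ((σ²g)(t^(q²)) - σ²g) · (θ g)^(q-1)](t^(q²))`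
  (`(σ²g)(t^(q²)) = g^(q²)`, `g(t^(q²)) = (σ⁻²g)^(q²)`: the twisted form
  `(g - (σ⁻²g)^(q²)) (g^(q²) - σ²g) (θ g)^(q-1)`);
* `mem_intRing_of_hasRep'` : an `A`-integral series lying in `FL` is an integral element
  (`S36/GaussUnit.mem_intRing_of_hasRep` without the hypothesis "nonzero reduction");
* `exists_diagI` : for an integral element `a` of level `N0` (`q ∤ N0`), `x = toFL a`: there is an
  integral element `a'` with `q · toFL a' = N_{E2 / β₂β₁E0} (β₂β₁ x - α₂α₁ x)` and
  `red a' = (ā - ā(t^(q²))) ((σ²ā)(t^(q²)) - σ²ā) (θ ā)^(q-1)`;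
* `exists_diagI_kappa` : the same with the first two factors written in `κ = F_k(N0)`:
  `(ā - φ²ā) (φ²σ²ā - σ²ā)`, `φ = S34/FrobK.phi`, `σ = coeffRingAut (frobAut)`;
* `exists_gauss_diag` : the same on `G = S37/Gauss/Datum.gaussDatum N0 A hA hqN` (`π = residue A`):
  `N/q ∈ G.O` and `G.red (N/q)` is the twisted product.

Consequence used by the count (chain (V13)): `(θ ā)^(q-1)` times two elements of `κ` with simple zeros
at every `Fr²`-fixed place where `ā` is a parameter is an element of `κ` which is regular wherever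
`N/q` reduces to a regular function: `ord_b (θ ā)^(q-1) ≥ -2` on the supersingular set.
-/
import Mathlib
import Fermat.Agent.S36.NormDiag
import Fermat.Agent.S36.GaussUnit
import Fermat.Agent.S37.ES.NormRed
import Fermat.Agent.S37.Gauss.Datum
import Fermat.Agent.S34.FrobK

set_option autoImplicit false
set_option linter.unusedSectionVars false
set_option linter.style.haveILetI false

noncomputable section

namespace Fermat.Agent.S36.NormDiagRed

open HahnSeries ModularCurve AlgebraicCurve
open Fermat.Agent.S28.LaurentRescale Fermat.Agent.S35.LevelMaps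
open Fermat.Agent.S36.DiagTheta Fermat.Agent.S36.NormDiag
open Fermat.Agent.S37.ES.KummerPoly
open Fermat.Agent.S18.GaussFromH

local notation "Kb" => AlgebraicClosure ℚ

/-! ### The twisted reduction of the cofactor -/

section Twisted

variable {R : Type*} [CommRing R] {k : Type*} [CommRing k]

/-- `h^(q²) = (σ² h)(t^(q²))` in characteristic `q`. -/
theorem pow_char_sq_eq_qExpand (q : ℕ) [hq : Fact q.Prime] [CharP k q] (h : LaurentSeries k) :
    haveI : NeZero q := ⟨hq.out.ne_zero⟩
    h ^ (q ^ 2) = qExpand k (q ^ 2)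
      (coeffMap (frobenius k q) (coeffMap (frobenius k q) h)) := by
  haveI : NeZero q := ⟨hq.out.ne_zero⟩
  have h1 : h ^ (q ^ 2) = (h ^ q) ^ q := by rw [← pow_mul, pow_two]
  rw [h1, pow_char_eq_qExpand q h, pow_char_eq_qExpand q (qExpand k q _), coeffMap_qExpand_loc,
    qExpand_qExpand]
  exact qExpand_congr (pow_two q).symm _

/-- **The second-order diagonal identity, twisted form** (no hypothesis on the coefficients of the
reduction). -/
theorem coeffMap_diagCofactor_twisted (π : R →+* k) [IsReduced k] (q : ℕ) [hq : Fact q.Prime]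
    [CharP k q] {ζ : Rˣ} (hζ : ζ ^ (q ^ 2) = 1) (f : LaurentSeries R) :
    haveI : NeZero q := ⟨hq.out.ne_zero⟩
    coeffMap π (diagCofactor ζ q f) =
      qExpand k (q ^ 2)
        ((coeffMap π f - qExpand k (q ^ 2) (coeffMap π f)) *
          (qExpand k (q ^ 2)
              (coeffMap (frobenius k q) (coeffMap (frobenius k q) (coeffMap π f))) -
            coeffMap (frobenius k q) (coeffMap (frobenius k q) (coeffMap π f))) *
          theta (coeffMap π f) ^ (q - 1)) := by
  haveI : NeZero q := ⟨hq.out.ne_zero⟩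
  haveI := charP_laurentSeries (k := k) q
  set g := coeffMap π f with hg
  have hπζ : π ζ = 1 := by
    have h1 : ((π ζ) ^ q) ^ q = 1 := by
      rw [← pow_mul, ← pow_two, ← map_pow, ← Units.val_pow_eq_pow_val, hζ, Units.val_one, map_one]
    exact eq_one_of_pow_char_eq_one q (eq_one_of_pow_char_eq_one q h1)
  have hπζq : π ((ζ ^ q : Rˣ) : R) = 1 := by
    rw [Units.val_pow_eq_pow_val, map_pow, hπζ, one_pow]
  have hu : Units.map π.toMonoidHom ζ = 1 := Units.ext hπζ
  have hA2 : coeffMap π (∏ b ∈ Finset.range (q ^ 2), (qExpand R (q ^ 2) f - rescaleU (ζ ^ b) f)) =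
      (qExpand k (q ^ 2) g - g) ^ (q ^ 2) := by
    rw [map_prod, Finset.prod_congr rfl (g := fun _ => qExpand k (q ^ 2) g - g)]
    · rw [Finset.prod_const, Finset.card_range]
    · intro b _
      rw [map_sub, coeffMap_qExpand_loc, coeffMap_rescaleU, map_pow, hu, one_pow, rescaleU_one]
  have h4 : qExpand k (q ^ 2) (qExpand k (q ^ 2) g) = qExpand k (q ^ 4) g := by
    rw [qExpand_qExpand]
    exact qExpand_congr (by ring) g
  rw [diagCofactor, map_mul, map_mul, hA2, map_sub, coeffMap_qExpand_loc, coeffMap_qExpand_loc,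
    coeffMap_qExpand_loc, coeffMap_midU π hπζq, sub_pow_char_pow, pow_char_sq_eq_qExpand q g,
    pow_char_sq_eq_qExpand q (qExpand k (q ^ 2) g), coeffMap_qExpand_loc, coeffMap_qExpand_loc,
    map_mul, map_mul, map_sub, map_sub, map_pow, h4]

end Twisted

/-! ### Integral series are integral elements -/

section IntRing

variable {L : Type*} [Field L] [Algebra ℚ L] {A : ValuationSubring L}
variable {k : Type*} [Field k] {π : A →+* k} {N : ℕ}

/-- `S36/GaussUnit.mem_intRing_of_hasRep` without the hypothesis that the reduction is nonzero. -/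
theorem mem_intRing_of_hasRep' (hrep : HasRep A π N) (hπ : ∀ a : A, ¬ IsUnit a → π a = 0)
    {y : LaurentSeries A}
    (hy : coeffMap A.subtype y ∈ laurentBaseChange L (modularFunctionFieldFull N)) :
    y ∈ intRing A π N := by
  by_cases hne : coeffMap π y = 0
  · refine mem_intRing.mpr ⟨hy, ?_⟩
    rw [hne]
    exact zero_mem _
  · exact Fermat.Agent.S36.GaussUnit.mem_intRing_of_hasRep hrep hπ hy hne

end IntRing

/-! ### The integral form of the diagonal norm -/

section Main

variable {N0 q : ℕ} [NeZero N0] [NeZero q] (A : ValuationSubring Kb) {k : Type*} [Field k]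
  (π : ↥A →+* k)

/-- **`N(x(t^(q²)) - x(t)) / q` is integral, with the twisted `θ`-reduction.** For an integral
element `a` of level `N0` (`q ∤ N0`), `x = toFL a`, there is an integral element `a'` with
`q · toFL a' = N_{E2 / β₂β₁E0} (β₂β₁ x - α₂α₁ x)` and
`red a' = (ā - ā(t^(q²))) ((σ²ā)(t^(q²)) - σ²ā) (θ ā)^(q-1)` (`σ` = coefficientwise Frobenius). -/
theorem exists_diagI [hqF : Fact q.Prime] (hqN : ¬ q ∣ N0) [CharP k q]
    (hrep : HasRep A π N0) (hπ : ∀ a : ↥A, ¬ IsUnit a → π a = 0) (a : ↥(intRing A π N0)) :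
    ∃ a' : ↥(intRing A π N0),
      (letI := algebraAlong ((heckeBetaBar Kb (N0 * q) q).comp (heckeBetaBar Kb N0 q))
       algebraMap Kb (E N0) ((q : ℕ) : Kb) * toFL A π N0 a' =
        Algebra.norm (E N0)
          (heckeBetaBar Kb (N0 * q) q (heckeBetaBar Kb N0 q (toFL A π N0 a)) -
            heckeAlphaBar Kb (N0 * q) q (heckeAlphaBar Kb N0 q (toFL A π N0 a)))) ∧
      ((red A π N0 a' : ↥(modularFunctionFieldFullC k N0)) : LaurentSeries k) =
        (coeffMap π a.1 - qExpand k (q ^ 2) (coeffMap π a.1)) *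
          (qExpand k (q ^ 2)
              (coeffMap (frobenius k q) (coeffMap (frobenius k q) (coeffMap π a.1))) -
            coeffMap (frobenius k q) (coeffMap (frobenius k q) (coeffMap π a.1))) *
          theta (coeffMap π a.1) ^ (q - 1) := by
  have hq : q.Prime := hqF.out
  letI a02 : Algebra (E N0) (E (N0 * q * q)) :=
    algebraAlong ((heckeBetaBar Kb (N0 * q) q).comp (heckeBetaBar Kb N0 q))
  have hq2pos : 0 < q ^ 2 := pow_pos hq.pos 2
  have hqk : (((q ^ 2 : ℕ)) : Kb) ≠ 0 := Nat.cast_ne_zero.mpr hq2pos.ne'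
  obtain ⟨ζ, hζ⟩ := Fermat.Agent.S28.StepDeg.exists_isPrimitiveRoot_units (k := Kb) (p := q ^ 2) hqk
  obtain ⟨ζA, hζA, hord⟩ := Fermat.Agent.S37.ES.NormRed.exists_unit_of_isPrimitiveRoot A hq2pos hζ
  have hζA1 : ζA ^ (q ^ 2) = 1 := by rw [← hord, pow_orderOf_eq_one]
  set y : LaurentSeries ↥A := a.1 with hy
  set x : E N0 := toFL A π N0 a with hx
  have hxy : (x : LaurentSeries Kb) = coeffMap A.subtype y := coe_toFL a
  set n : E N0 := Algebra.norm (E N0)
    (heckeBetaBar Kb (N0 * q) q (heckeBetaBar Kb N0 q x) -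
      heckeAlphaBar Kb (N0 * q) q (heckeAlphaBar Kb N0 q x)) with hn
  have hnexp : qExpand Kb (q ^ 2) (n : LaurentSeries Kb) =
      HahnSeries.C ((q : ℕ) : Kb) * diagCofactor ζ q (x : LaurentSeries Kb) :=
    qExpand_norm_diag_eq_C_mul hq hqN hζ x
  set V : LaurentSeries ↥A := diagCofactor ζA q y with hV
  have hVL : coeffMap A.subtype V = diagCofactor ζ q (x : LaurentSeries Kb) := by
    rw [hV, coeffMap_diagCofactor_units, hζA, hxy]
  have hq0 : ((q : ℕ) : Kb) ≠ 0 := Nat.cast_ne_zero.mpr hq.ne_zero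
  -- `V` is a series in `t^(q²)`
  have hsupp : ∀ m : ℤ, ¬ ((q ^ 2 : ℕ) : ℤ) ∣ m → V.coeff m = 0 := by
    intro m hm
    have h1 : (qExpand Kb (q ^ 2) (n : LaurentSeries Kb)).coeff m = 0 :=
      qExpand_coeff_of_not_dvd (q ^ 2) _ hm
    rw [hnexp, ← hVL, HahnSeries.C_mul_eq_smul, HahnSeries.coeff_smul, smul_eq_mul,
      coeffMap_coeff] at h1
    have h2 : A.subtype (V.coeff m) = 0 := (mul_eq_zero.1 h1).resolve_left hq0
    exact A.subtype_injective (by rw [h2, map_zero])
  set V' : LaurentSeries ↥A := qContract (q ^ 2) V with hV'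
  have hVV' : qExpand ↥A (q ^ 2) V' = V := qExpand_qContract (q ^ 2) hsupp
  have hmul : HahnSeries.C ((q : ℕ) : Kb) * coeffMap A.subtype V' = (n : LaurentSeries Kb) := by
    apply qExpand_injective (q ^ 2)
    rw [map_mul, qExpand_C, ← coeffMap_qExpand_loc, hVV', hVL, hnexp]
  have hCne : (HahnSeries.C ((q : ℕ) : Kb) : LaurentSeries Kb) ≠ 0 := by
    intro h
    exact hq0 (HahnSeries.C_injective (by rw [h, map_zero]))
  have hcoe : ((algebraMap Kb (E N0) ((q : ℕ) : Kb) : E N0) : LaurentSeries Kb) =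
      HahnSeries.C ((q : ℕ) : Kb) := by
    show algebraMap Kb (LaurentSeries Kb) ((q : ℕ) : Kb) = _
    exact Fermat.Agent.S18.B.Basic.algebraMap_eq_C Kb _
  have hmem : coeffMap A.subtype V' ∈ laurentBaseChange Kb (modularFunctionFieldFull N0) := by
    have h1 : coeffMap A.subtype V' =
        (((algebraMap Kb (E N0) ((q : ℕ) : Kb))⁻¹ * n : E N0) : LaurentSeries Kb) := by
      show _ = ((algebraMap Kb (E N0) ((q : ℕ) : Kb) : E N0) : LaurentSeries Kb)⁻¹ *
        (n : LaurentSeries Kb)
      rw [hcoe, ← hmul, ← mul_assoc, inv_mul_cancel₀ hCne, one_mul]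
    rw [h1]
    exact SetLike.coe_mem _
  refine ⟨⟨V', mem_intRing_of_hasRep' hrep hπ hmem⟩, ?_, ?_⟩
  · apply Subtype.ext
    show ((algebraMap Kb (E N0) ((q : ℕ) : Kb) : E N0) : LaurentSeries Kb) *
      coeffMap A.subtype V' = (n : LaurentSeries Kb)
    rw [hcoe, hmul]
  · rw [coe_red]
    show coeffMap π V' = _
    rw [hV', Fermat.Agent.S37.ES.NormRed.coeffMap_qContract, hV,
      coeffMap_diagCofactor_twisted π q hζA1 y, qContract_qExpand]

/-- **`κ`-form**: with `ā = red a ∈ κ = F_k(N0)`, `φ = S34/FrobK.phi` (`g(t) ↦ g(t^q)`),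
`σ = coeffRingAut (frobAut)` (coefficientwise Frobenius):
`red a' = (ā - φ²ā) (φ²σ²ā - σ²ā) · (θ ā)^(q-1)` as `t`-series. The first two factors are
elements of `κ`; at a place `v` with `Fr² v = v` where `ā` is a parameter both vanish simply
(`S34/FrobK.ord_sub_phi_phi`). -/
theorem exists_diagI_kappa [hqF : Fact q.Prime] (hqN : ¬ q ∣ N0) [CharP k q] [PerfectField k]
    (hrep : HasRep A π N0) (hπ : ∀ a : ↥A, ¬ IsUnit a → π a = 0) (a : ↥(intRing A π N0)) :
    ∃ a' : ↥(intRing A π N0),
      (letI := algebraAlong ((heckeBetaBar Kb (N0 * q) q).comp (heckeBetaBar Kb N0 q))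
       algebraMap Kb (E N0) ((q : ℕ) : Kb) * toFL A π N0 a' =
        Algebra.norm (E N0)
          (heckeBetaBar Kb (N0 * q) q (heckeBetaBar Kb N0 q (toFL A π N0 a)) -
            heckeAlphaBar Kb (N0 * q) q (heckeAlphaBar Kb N0 q (toFL A π N0 a)))) ∧
      ((red A π N0 a' : ↥(modularFunctionFieldFullC k N0)) : LaurentSeries k) =
        (((red A π N0 a -
              Fermat.Agent.S34.FrobK.phi k N0 q (Fermat.Agent.S34.FrobK.phi k N0 q (red A π N0 a))) *
            (Fermat.Agent.S34.FrobK.phi k N0 q (Fermat.Agent.S34.FrobK.phi k N0 q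
                (Fermat.Agent.S37.Equivariance.CoeffAut.coeffRingAut k N0
                  (Fermat.Agent.S37.Equivariance.CoeffAut.frobAut k q)
                  (Fermat.Agent.S37.Equivariance.CoeffAut.coeffRingAut k N0
                    (Fermat.Agent.S37.Equivariance.CoeffAut.frobAut k q) (red A π N0 a)))) -
              Fermat.Agent.S37.Equivariance.CoeffAut.coeffRingAut k N0
                (Fermat.Agent.S37.Equivariance.CoeffAut.frobAut k q)
                (Fermat.Agent.S37.Equivariance.CoeffAut.coeffRingAut k N0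
                  (Fermat.Agent.S37.Equivariance.CoeffAut.frobAut k q) (red A π N0 a))) :
            ↥(modularFunctionFieldFullC k N0)) : LaurentSeries k) *
          theta ((red A π N0 a : ↥(modularFunctionFieldFullC k N0)) : LaurentSeries k) ^ (q - 1) := by
  obtain ⟨a', h1, h2⟩ := exists_diagI A π hqN hrep hπ a
  refine ⟨a', h1, ?_⟩
  rw [h2]
  have hσ : ∀ g : ↥(modularFunctionFieldFullC k N0),
      ((Fermat.Agent.S37.Equivariance.CoeffAut.coeffRingAut k N0
        (Fermat.Agent.S37.Equivariance.CoeffAut.frobAut k q) g :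
          ↥(modularFunctionFieldFullC k N0)) : LaurentSeries k) =
        coeffMap (frobenius k q) (g : LaurentSeries k) := by
    intro g
    rw [Fermat.Agent.S37.Equivariance.CoeffAut.coe_coeffRingAut_apply]
    exact coeffMap_congr (RingHom.ext fun c => by
      show Fermat.Agent.S37.Equivariance.CoeffAut.frobAut k q c = frobenius k q c
      rw [Fermat.Agent.S37.Equivariance.CoeffAut.frobAut_apply, frobenius_def]) _
  have hφ : ∀ g : ↥(modularFunctionFieldFullC k N0),
      ((Fermat.Agent.S34.FrobK.phi k N0 q (Fermat.Agent.S34.FrobK.phi k N0 q g) :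
          ↥(modularFunctionFieldFullC k N0)) : LaurentSeries k) =
        qExpand k (q ^ 2) (g : LaurentSeries k) := by
    intro g
    rw [Fermat.Agent.S34.FrobK.coe_phi, Fermat.Agent.S34.FrobK.coe_phi, qExpand_qExpand]
    exact qExpand_congr (pow_two q).symm _
  congr 1
  show _ = (((red A π N0 a : ↥(modularFunctionFieldFullC k N0)) : LaurentSeries k) - _) * (_ - _)
  rw [hφ, hφ, hσ, hσ, coe_red]

/-- **Gauss-datum form**, `π = residue A`: `r := N(x(t^(q²)) - x(t)) / q` lies in the Gauss valuation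
ring of level `N0` and `red r` is the twisted `θ`-product. -/
theorem exists_gauss_diag [hqF : Fact q.Prime] (hqN : ¬ q ∣ N0) (hA : A.LiesOverPrime q)
    (a : ↥(intRing A (IsLocalRing.residue ↥A) N0)) :
    haveI : CharP (IsLocalRing.ResidueField ↥A) q :=
      Fermat.Agent.S18.ResidueBasics.charP_residueField A hA
    ∃ a' : ↥(intRing A (IsLocalRing.residue ↥A) N0),
      (letI := algebraAlong ((heckeBetaBar Kb (N0 * q) q).comp (heckeBetaBar Kb N0 q))
       algebraMap Kb (E N0) ((q : ℕ) : Kb) * toFL A (IsLocalRing.residue ↥A) N0 a' =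
        Algebra.norm (E N0)
          (heckeBetaBar Kb (N0 * q) q
              (heckeBetaBar Kb N0 q (toFL A (IsLocalRing.residue ↥A) N0 a)) -
            heckeAlphaBar Kb (N0 * q) q
              (heckeAlphaBar Kb N0 q (toFL A (IsLocalRing.residue ↥A) N0 a)))) ∧
      toFL A (IsLocalRing.residue ↥A) N0 a' ∈
        (Fermat.Agent.S37.Gauss.Datum.gaussDatum N0 A hA hqN).O ∧
      ∀ hmem : toFL A (IsLocalRing.residue ↥A) N0 a' ∈
          (Fermat.Agent.S37.Gauss.Datum.gaussDatum N0 A hA hqN).O,
        (((Fermat.Agent.S37.Gauss.Datum.gaussDatum N0 A hA hqN).red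
            ⟨toFL A (IsLocalRing.residue ↥A) N0 a', hmem⟩ :
            ↥(modularFunctionFieldFullC (IsLocalRing.ResidueField ↥A) N0)) :
            LaurentSeries (IsLocalRing.ResidueField ↥A)) =
          (coeffMap (IsLocalRing.residue ↥A) a.1 -
              qExpand (IsLocalRing.ResidueField ↥A) (q ^ 2)
                (coeffMap (IsLocalRing.residue ↥A) a.1)) *
            (qExpand (IsLocalRing.ResidueField ↥A) (q ^ 2)
                (coeffMap (frobenius (IsLocalRing.ResidueField ↥A) q)
                  (coeffMap (frobenius (IsLocalRing.ResidueField ↥A) q)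
                    (coeffMap (IsLocalRing.residue ↥A) a.1))) -
              coeffMap (frobenius (IsLocalRing.ResidueField ↥A) q)
                (coeffMap (frobenius (IsLocalRing.ResidueField ↥A) q)
                  (coeffMap (IsLocalRing.residue ↥A) a.1))) *
            theta (coeffMap (IsLocalRing.residue ↥A) a.1) ^ (q - 1) := by
  haveI : CharP (IsLocalRing.ResidueField ↥A) q :=
    Fermat.Agent.S18.ResidueBasics.charP_residueField A hA
  obtain ⟨a', h1, h2⟩ := exists_diagI A (IsLocalRing.residue ↥A) hqN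
    (Fermat.Agent.S37.Gauss.Datum.hasRep N0 A hA hqN)
    (Fermat.Agent.S37.Gauss.Datum.residue_eq_zero_of_not_isUnit A) a
  refine ⟨a', h1, Fermat.Agent.S37.Gauss.Datum.toFL_mem_O hA hqN a', fun hmem => ?_⟩
  rw [← h2]
  exact congrArg Subtype.val (Fermat.Agent.S37.Gauss.Datum.red_toFL hA hqN a')

end Main

end Fermat.Agent.S36.NormDiagRed
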