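/-
PROJECT V (S36), slice V-MaxModX0 (helper17) = (MaxMod) of helper29's memo, chain (V13) hb1 /
(V12)(iii): **an element of the Gauss valuation ring of `ℚ̄(X₀(N))` (`ℓ ∤ N`) which is regular off
the cusps has an `A`-INTEGRAL `t`-expansion**, i.e. it is `toFL a` for an integral element
`a ∈ S18/GaussFromH.intRing A (residue A) N` (the maximum principle on the cuspidal disc, proved
algebraically).

Why: `S36/NormDiagRed` / `S36/CharpolyRed` are stated for integral elements `a ∈ intRing`, while the
local parameters at the nodes come from `S34/LevelMSurjX0.exists_lift_off_cusps` (Gauss fractions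
`a ∈ G.O`, regular off the cusps).  With (MaxMod) these lifts ARE integral elements.

* (a) `mem_intSeries_of_forall_pow` (Mathlib + `S34/WeakApprox.Arch`): `A` an archimedean valuation
  subring of `L`, `intSeries A` the Laurent series over `L` with coefficients in `A`; if
  `d * F ^ n ∈ intSeries A` for all `n`, with one `d ≠ 0`, then `F ∈ intSeries A` (Bourbaki AC V.1.4
  Prop. 14: subtract the integral head, compare lowest coefficients);
* (b) `pow_mul_pow_mem` (Mathlib only): `F` a root of a monic polynomial of degree `n` over a subring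
  `R₀`, `Y ∈ R₀`, `Y F ∈ R₀` ==> `Y ^ n F ^ m ∈ R₀` for all `m`;
* (c) `exists_monic_polyA` (setting of `S37/Diff/Assembly`): `f ∈ R.O` integral over `L[x]` is a
  root of a monic polynomial with coefficients in `A[x]`: the characteristic polynomial of
  multiplication by `f` over `L(x)` has coefficients in `L[x]` (`IntegralRed.chi_coeff_mem_range`)
  and in the Gauss ring of `L(x)` (`IntegralRed.chi_coeff_mem_below`, orthonormal basis), hence in
  `A[x]` (`IntegralGauss.coeff_mem_of_mem_Vj`);
* `exists_intRing_of_regular` / `exists_intRing_of_forall_ord` : (MaxMod) at `X₀(N)`, for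
  `f ∈ (gaussDatum N A hA hℓN).O` with `f ∈ intRing ℚ̄ j` resp. `0 ≤ ord_P f` at all places `P` with
  `0 ≤ ord_P j`;
* `exists_intRing_lift_off_cusps` : every `ḡ ∈ F_k(N)` regular off the cusps is `red a` for an
  integral element `a` with `toFL a` regular off the cusps.
-/
import Mathlib
import Fermat.Agent.S37.Diff.GenusX0
import Fermat.Agent.S36.NormDiagRed
import Fermat.Agent.S34.ArchGauss
import Fermat.Agent.S34.LevelMSurjX0

set_option autoImplicit false
set_option linter.unusedSectionVars false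
set_option linter.style.haveILetI false

noncomputable section

namespace Fermat.Agent.S36.MaxModX0

open HahnSeries ModularCurve Polynomial AlgebraicCurve IntermediateField
open Fermat.Agent.S34.WeakApprox
open Fermat.Agent.S24.FF Fermat.Agent.S24.Fibre
  Fermat.Agent.S18.A Fermat.Agent.S18.A.Chart
  Fermat.Agent.S18.C.UnramVal
  Fermat.Agent.S37.Deuring.Core Fermat.Agent.S37.Wild.GaussA
  Fermat.Agent.S37.Diff

/-! ### (b) abstract: clearing denominators of the powers of an integral element -/

section Denominators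

variable {S : Type*} [CommRing S] (R₀ : Subring S)

/-- If `F` is a root of a monic polynomial of degree `n` over the subring `R₀` and `Y * F ∈ R₀`
for some `Y ∈ R₀`, then `Y ^ n * F ^ m ∈ R₀` for all `m`. -/
theorem pow_mul_pow_mem {F Y : S} (hY : Y ∈ R₀) (hYF : Y * F ∈ R₀) (P : R₀[X]) (hP : P.Monic)
    (hPF : eval₂ R₀.subtype F P = 0) (m : ℕ) : Y ^ P.natDegree * F ^ m ∈ R₀ := by
  set n := P.natDegree with hn
  -- `F ^ n = - ∑_{l < n} p_l F ^ l`
  have hrel : F ^ n = - ∑ l ∈ Finset.range n, ((P.coeff l : R₀) : S) * F ^ l := by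
    have h1 := hPF
    rw [eval₂_eq_sum_range, Finset.sum_range_succ, ← hn] at h1
    have h2 : P.coeff n = 1 := hP
    rw [h2, map_one, one_mul] at h1
    rw [eq_neg_iff_add_eq_zero, add_comm]
    exact h1
  induction m using Nat.strong_induction_on with
  | _ m ih =>
    by_cases hm : m < n
    · have : Y ^ n * F ^ m = Y ^ (n - m) * (Y * F) ^ m := by
        rw [mul_pow, ← mul_assoc, ← _root_.pow_add, Nat.sub_add_cancel hm.le]
      rw [this]
      exact mul_mem (pow_mem hY _) (pow_mem hYF _)
    · push Not at hm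
      have h3 : F ^ m = F ^ (m - n) * F ^ n := by rw [← _root_.pow_add, Nat.sub_add_cancel hm]
      have h4 : Y ^ n * F ^ m =
          - ∑ l ∈ Finset.range n, ((P.coeff l : R₀) : S) * (Y ^ n * F ^ (m - n + l)) := by
        rw [h3, hrel, mul_neg, mul_neg, neg_inj, Finset.mul_sum, Finset.mul_sum]
        refine Finset.sum_congr rfl fun l _ => ?_
        rw [_root_.pow_add]
        ring
      rw [h4]
      refine neg_mem (sum_mem fun l hl => mul_mem (P.coeff l).2 (ih _ ?_))
      have := Finset.mem_range.mp hl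
      omega

end Denominators

/-! ### (a) Laurent series with coefficients in an archimedean valuation ring -/

section Series

variable {L : Type*} [Field L] (A : ValuationSubring L)

/-- the subring of Laurent series over `L` with all coefficients in `A` -/
def intSeries : Subring (LaurentSeries L) := (coeffMap A.subtype).range

variable {A}

theorem mem_intSeries_iff {G : LaurentSeries L} : G ∈ intSeries A ↔ ∀ i, G.coeff i ∈ A := by
  constructor
  · rintro ⟨y, rfl⟩ i
    rw [coeffMap_coeff]
    exact (y.coeff i).2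
  · intro h
    have hsupp : (Function.support fun i : ℤ => (⟨G.coeff i, h i⟩ : A)) ⊆ G.support := by
      intro i hi
      rw [Function.mem_support] at hi
      rw [HahnSeries.mem_support]
      intro h0
      apply hi
      exact Subtype.ext h0
    refine ⟨⟨fun i => ⟨G.coeff i, h i⟩, G.isPWO_support.mono hsupp⟩, ?_⟩
    ext i
    rw [coeffMap_coeff]
    rfl

theorem leadingCoeff_pow' (x : LaurentSeries L) (n : ℕ) :
    (x ^ n).leadingCoeff = x.leadingCoeff ^ n := by
  induction n with
  | zero => rw [pow_zero, pow_zero, HahnSeries.leadingCoeff_one]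
  | succ n ih => rw [pow_succ, pow_succ, HahnSeries.leadingCoeff_mul, ih]

/-- **(a) The ring of series with coefficients in an archimedean valuation ring is completely
integrally closed in `L((t))`** (Bourbaki AC V.1.4 Prop. 14): if `d F ^ n` has coefficients in `A`
for all `n`, for one `d ≠ 0`, then `F` has coefficients in `A`. -/
theorem mem_intSeries_of_forall_pow (hA : Arch A) {d F : LaurentSeries L} (hd : d ≠ 0)
    (h : ∀ n : ℕ, d * F ^ n ∈ intSeries A) : F ∈ intSeries A := by
  by_contra hF
  rw [mem_intSeries_iff] at hF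
  push Not at hF
  -- the least index with a non-integral coefficient
  obtain ⟨m, hm, hmin⟩ := Int.exists_least_of_bdd (P := fun i => F.coeff i ∉ A)
    ⟨F.order, fun z hz => order_le_of_coeff_ne_zero fun h0 => hz (h0 ▸ A.zero_mem)⟩ hF
  -- the integral head
  have hsupp : (Function.support fun i : ℤ => if i < m then F.coeff i else 0) ⊆ F.support := by
    intro i hi
    rw [Function.mem_support] at hi
    rw [HahnSeries.mem_support]
    intro h0
    apply hi
    split_ifs
    · exact h0
    · rfl
  set F0 : LaurentSeries L := ⟨fun i => if i < m then F.coeff i else 0,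
    F.isPWO_support.mono hsupp⟩ with hF0
  have hF0c : ∀ i, F0.coeff i = if i < m then F.coeff i else 0 := fun i => rfl
  have hF0mem : F0 ∈ intSeries A := by
    rw [mem_intSeries_iff]
    intro i
    rw [hF0c]
    split_ifs with hi
    · by_contra hn
      exact absurd (hmin i hn) (not_le.mpr hi)
    · exact A.zero_mem
  set F1 := F - F0 with hF1
  have hF1c : ∀ i, F1.coeff i = if i < m then 0 else F.coeff i := by
    intro i
    rw [hF1, HahnSeries.coeff_sub, hF0c]
    split_ifs
    · exact sub_self _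
    · exact sub_zero _
  have hF1m : F1.coeff m = F.coeff m := by rw [hF1c, if_neg (lt_irrefl m)]
  have hcm : F.coeff m ≠ 0 := fun h0 => hm (h0 ▸ A.zero_mem)
  have hF1ne : F1 ≠ 0 := ne_zero_of_coeff_ne_zero (hF1m ▸ hcm)
  have hord : F1.order = m := by
    apply le_antisymm
    · exact order_le_of_coeff_ne_zero (hF1m ▸ hcm)
    · by_contra hlt
      push Not at hlt
      have h1 : F1.coeff F1.order = 0 := by rw [hF1c, if_pos hlt]
      exact hF1ne (coeff_order_eq_zero.mp h1)
  have hlead : F1.leadingCoeff = F.coeff m := by rw [leadingCoeff_eq, hord, hF1m]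
  -- `d F1 ^ n` is integral
  have hpow : ∀ n : ℕ, d * F1 ^ n ∈ intSeries A := by
    intro n
    have h1 : F1 = F + -F0 := sub_eq_add_neg _ _
    rw [h1, add_pow, Finset.mul_sum]
    refine sum_mem fun k _ => ?_
    have h2 : d * (F ^ k * (-F0) ^ (n - k) * (n.choose k : LaurentSeries L)) =
        d * F ^ k * (-F0) ^ (n - k) * (n.choose k : LaurentSeries L) := by ring
    rw [h2]
    exact mul_mem (mul_mem (h k) (pow_mem (neg_mem hF0mem) _)) (natCast_mem _ _)
  -- leading coefficients
  have hlc : ∀ n : ℕ, d.leadingCoeff * F.coeff m ^ n ∈ A := by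
    intro n
    have h1 := mem_intSeries_iff.mp (hpow n) (d * F1 ^ n).order
    rwa [← leadingCoeff_eq, HahnSeries.leadingCoeff_mul, leadingCoeff_pow', hlead] at h1
  -- archimedean contradiction
  have hd0 : d.leadingCoeff ≠ 0 := leadingCoeff_ne_zero.mpr hd
  have hcnu : (F.coeff m)⁻¹ ∈ A.nonunits := by
    rw [A.mem_nonunits_iff, map_inv₀]
    exact inv_lt_one_of_one_lt₀ ((valuation_gt_one_iff A).mpr hm)
  obtain ⟨k, hk⟩ := hA (d.leadingCoeff)⁻¹ (F.coeff m)⁻¹ hcnu (inv_ne_zero hcm)
  have h3 : F.coeff m = d.leadingCoeff * F.coeff m ^ (k + 1) *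
      ((d.leadingCoeff)⁻¹ * (F.coeff m)⁻¹ ^ k) := by
    rw [inv_pow, pow_succ]
    field_simp
  exact hm (h3 ▸ A.mul_mem _ _ (hlc (k + 1)) hk)

end Series

/-! ### (c) abstract: Gauss-integral + integral over `L[x]` ==> integral over `A[x]` -/

section Integral

variable {L : Type*} [Field L] {FL : Type*} [Field FL] [Algebra L FL]
variable {k : Type*} [Field k] {Fk : Type*} [Field Fk] [Algebra k Fk]
variable [Algebra (RatFunc L) FL] [IsScalarTower L (RatFunc L) FL]
  [FiniteDimensional (RatFunc L) FL]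
variable [Algebra (RatFunc k) Fk] [IsScalarTower k (RatFunc k) Fk]
variable {A : ValuationSubring L} {π : A →+* k} (R : GaussDatum A π FL Fk)
variable (hx : algebraMap (RatFunc L) FL RatFunc.X ∈ R.O)
variable (hrx : R.red ⟨_, hx⟩ = algebraMap (RatFunc k) Fk RatFunc.X)
variable {ι : Type*} [Fintype ι] {t : ι → R.O}
variable (h : Hyp (RatFunc L) R.O R.red (redVj R hx hrx) t)

/-- the map `A[X] → L[X] → L(X) → FL`, `p ↦ p(x)` -/
def polyA : A[X] →+* FL :=
  (algebraMap (RatFunc L) FL).comp
    ((algebraMap L[X] (RatFunc L)).comp (Polynomial.mapRingHom A.subtype))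

include h in
/-- **(c)** An element of the Gauss valuation ring which is integral over `L[x]` is a root of a
monic polynomial with coefficients in `A[x]`. -/
theorem exists_monic_polyA {x : FL} (hxFF : IsFF L x) (hsepL : Algebra.IsSeparable L⟮x⟯ FL)
    (halgL : ∀ a, algebraMap (RatFunc L) FL a = evalRat hxFF.transcendental a)
    (f : R.O) (hf : (f : FL) ∈ intRing L x) :
    ∃ P : A[X][X], P.Monic ∧ eval₂ (polyA (A := A) (FL := FL)) (f : FL) P = 0 := by
  classical
  obtain ⟨b, hb1, hb2⟩ := Assembly.exists_basis_fin' hxFF hsepL halgL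
  set φ : A[X] →+* RatFunc L :=
    (algebraMap L[X] (RatFunc L)).comp (Polynomial.mapRingHom A.subtype) with hφ
  have hlift : IntegralRed.chi (E := RatFunc L) (f : FL) ∈ Polynomial.lifts φ := by
    rw [Polynomial.lifts_iff_coeff_lifts]
    intro l
    obtain ⟨s, hs⟩ := IntegralRed.chi_coeff_mem_range (algebraMap L[X] (RatFunc L)) b (f : FL)
      (fun i j => hb2 _ (mul_mem hf (hb1 j)) i) l
    have hmem : algebraMap L[X] (RatFunc L) s ∈ Vj R := by
      rw [← hs]
      exact IntegralRed.chi_coeff_mem_below h f l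
    obtain ⟨p₁, hp₁⟩ := IntegralGauss.exists_map_eq_of_coeff_mem (A := A) s
      (IntegralGauss.coeff_mem_of_mem_Vj R hx hrx s hmem)
    refine ⟨p₁, ?_⟩
    rw [hs, ← hp₁]
    rfl
  obtain ⟨P, hP, -, hPm⟩ := Polynomial.lifts_and_degree_eq_and_monic hlift
    (IntegralRed.chi_monic (E := RatFunc L) (f : FL))
  refine ⟨P, hPm, ?_⟩
  have h0 := IntegralRed.aeval_chi (E := RatFunc L) (f : FL)
  rw [← hP, Polynomial.aeval_def, Polynomial.eval₂_map] at h0
  exact h0

end Integral

/-! ### `X₀(N)` -/

section X0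

open IsLocalRing
open Fermat.Agent.S24.DegreeAlg (jgen)
open Fermat.Agent.S18.B.FkBasics (jk)
open Fermat.Agent.S18.C Fermat.Agent.S37.Gauss

local notation "Kb" => AlgebraicClosure ℚ

set_option synthInstance.maxHeartbeats 400000
set_option maxHeartbeats 1600000

attribute [local instance 2000] Fermat.Agent.S18.C.KModelX0.algkFk

variable {ℓ : ℕ} [hℓ : Fact ℓ.Prime] {N : ℕ} [NeZero N] {A : ValuationSubring Kb}

/-- `p(j)` for `p ∈ A[X]` is the integral element `evI p` -/
theorem polyA_eq_toFL (p : (↥A)[X]) :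
    polyA (A := A) (FL := ↥(modularFunctionFieldBar N)) p =
      Fermat.Agent.S18.GaussFromH.toFL A (residue ↥A) N (HasRep.evI N A (residue ↥A) p) := by
  rw [HasRep.toFL_evI]
  show algebraMap (RatFunc Kb) ↥(modularFunctionFieldBar N)
    (algebraMap Kb[X] (RatFunc Kb) (p.map A.subtype)) = _
  rw [ModularInst.algebraMap_FL, evalRat_algebraMap]

/-- **(MaxMod)** An element of the Gauss valuation ring of `ℚ̄(X₀(N))` (`ℓ ∤ N`) which is regular
off the cusps (integral over `ℚ̄[j]`) has an `A`-INTEGRAL `t`-expansion: it is `toFL a` for an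
integral element `a`. -/
theorem exists_intRing_of_regular (hA : A.LiesOverPrime ℓ) (hℓN : ¬ ℓ ∣ N)
    (f : (Datum.gaussDatum N A hA hℓN).O)
    (hf : (f : ↥(modularFunctionFieldBar N)) ∈ intRing Kb (jgen N)) :
    ∃ a : ↥(Fermat.Agent.S18.GaussFromH.intRing A (residue ↥A) N),
      Fermat.Agent.S18.GaussFromH.toFL A (residue ↥A) N a = f := by
  haveI : IsAlgClosed (ResidueField ↥A) :=
    Fermat.Agent.S18.ResidueBasics.isAlgClosed_residueField A
  haveI := KModelX0.finiteDimensional_FL N
  have hx : algebraMap (RatFunc Kb) ↥(modularFunctionFieldBar N) RatFunc.X ∈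
      (Datum.gaussDatum N A hA hℓN).O := by
    rw [ModularInst.algebraMap_FL_X]
    exact Datum.jgen_mem_O hA hℓN
  have hrx : (Datum.gaussDatum N A hA hℓN).red ⟨_, hx⟩ = algebraMap (RatFunc (ResidueField ↥A))
      ↥(modularFunctionFieldFullC (ResidueField ↥A) N) RatFunc.X := by
    rw [ModularInst.algebraMap_Fk_X]
    refine Eq.trans ?_ (Datum.red_jgen hA hℓN)
    congr 1
    exact Subtype.ext (ModularInst.algebraMap_FL_X N)
  obtain ⟨t, h⟩ := Fermat.Agent.S37.Wild.GaussA.exists_hyp (Datum.gaussDatum N A hA hℓN) hx hrx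
    (Datum.red_surjective hA hℓN) (KModelX0.finrank_le hA hℓN)
  obtain ⟨P, hPm, hP⟩ := exists_monic_polyA (Datum.gaussDatum N A hA hℓN) hx hrx h (x := jgen N)
    (Fermat.Agent.S18.A.Instances.isFF_jgen N) (Fermat.Agent.S18.A.Instances.isSeparable_jgen N)
    (ModularInst.algebraMap_FL N) f hf
  obtain ⟨a, b, hb, hab⟩ := (Datum.mem_O_iff hA hℓN).mp f.2
  -- the series side
  set val : ↥(modularFunctionFieldBar N) →+* LaurentSeries Kb :=
    ((modularFunctionFieldBar N).val : ↥(modularFunctionFieldBar N) →+* LaurentSeries Kb)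
    with hval
  have hvalc : ∀ z : ↥(modularFunctionFieldBar N), val z = (z : LaurentSeries Kb) := fun z => rfl
  have htoFL : ∀ c : ↥(Fermat.Agent.S18.GaussFromH.intRing A (residue ↥A) N),
      val (Fermat.Agent.S18.GaussFromH.toFL A (residue ↥A) N c) ∈ intSeries A := fun c =>
    ⟨c.1, rfl⟩
  set ψ : (↥A)[X] →+* LaurentSeries Kb := val.comp polyA with hψ
  have hψmem : ∀ p, ψ p ∈ intSeries A := by
    intro p
    rw [hψ, RingHom.comp_apply, polyA_eq_toFL]
    exact htoFL _
  set ψ' : (↥A)[X] →+* ↥(intSeries A) := ψ.codRestrict (intSeries A) hψmem with hψ'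
  have hcomp : (intSeries A).subtype.comp ψ' = ψ := RingHom.ext fun p => rfl
  set F : LaurentSeries Kb := val (f : ↥(modularFunctionFieldBar N)) with hF
  have hroot : eval₂ (intSeries A).subtype F (P.map ψ') = 0 := by
    rw [Polynomial.eval₂_map, hcomp, hψ, hF, ← Polynomial.hom_eval₂, hP, map_zero]
  set Y : LaurentSeries Kb := val (Fermat.Agent.S18.GaussFromH.toFL A (residue ↥A) N b) with hY
  have hYmem : Y ∈ intSeries A := htoFL b
  have hYF : Y * F ∈ intSeries A := by
    rw [hY, hF, mul_comm, ← map_mul, hab]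
    exact htoFL a
  have hY0 : Y ≠ 0 := by
    rw [hY, hvalc]
    intro h0
    exact Fermat.Agent.S18.GaussFromH.toFL_ne_zero_of_red_ne_zero hb (Subtype.ext h0)
  have hFmem : F ∈ intSeries A :=
    mem_intSeries_of_forall_pow
      (Fermat.Agent.S34.ArchGauss.arch_of_liesOverPrime_Kb hℓ.out A hA)
      (pow_ne_zero (P.map ψ').natDegree hY0)
      (fun m => pow_mul_pow_mem (intSeries A) hYmem hYF (P.map ψ') (hPm.map ψ') hroot m)
  obtain ⟨y, hy⟩ := hFmem
  have hymem : y ∈ Fermat.Agent.S18.GaussFromH.intRing A (residue ↥A) N := by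
    refine Fermat.Agent.S36.NormDiagRed.mem_intRing_of_hasRep' (Datum.hasRep N A hA hℓN)
      (Datum.residue_eq_zero_of_not_isUnit A) ?_
    rw [hy, hF, hvalc]
    exact (f : ↥(modularFunctionFieldBar N)).2
  exact ⟨⟨y, hymem⟩, Subtype.ext hy⟩

/-- regular off the cusps, in the language of places ==> integral over `ℚ̄[j]` -/
theorem mem_intRing_of_forall_ord (f : ↥(modularFunctionFieldBar N))
    (hreg : ∀ P : Place Kb ↥(modularFunctionFieldBar N), 0 ≤ P.ord (jgen N) → f = 0 ∨ 0 ≤ P.ord f) :
    f ∈ intRing Kb (jgen N) := by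
  rw [Chart.mem_intRing_iff (Fermat.Agent.S18.A.Instances.isFF_jgen N)
    (Fermat.Agent.S18.A.Instances.isSeparable_jgen N)]
  intro Q hQ
  by_cases hf : f = 0
  · rw [hf, map_zero]
    exact zero_le_one
  · have hj0 : jgen N ≠ 0 := fun h0 =>
      (Fermat.Agent.S18.A.Instances.isFF_jgen N).transcendental (h0 ▸ isAlgebraic_zero)
    exact (Fermat.Agent.S24.Ord.ord_nonneg_iff Q hf).mp
      ((hreg Q ((Fermat.Agent.S24.Ord.ord_nonneg_iff Q hj0).mpr hQ)).resolve_left hf)

/-- **(MaxMod), place form.** -/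
theorem exists_intRing_of_forall_ord (hA : A.LiesOverPrime ℓ) (hℓN : ¬ ℓ ∣ N)
    (f : (Datum.gaussDatum N A hA hℓN).O)
    (hreg : ∀ P : Place Kb ↥(modularFunctionFieldBar N), 0 ≤ P.ord (jgen N) →
      (f : ↥(modularFunctionFieldBar N)) = 0 ∨ 0 ≤ P.ord (f : ↥(modularFunctionFieldBar N))) :
    ∃ a : ↥(Fermat.Agent.S18.GaussFromH.intRing A (residue ↥A) N),
      Fermat.Agent.S18.GaussFromH.toFL A (residue ↥A) N a = f :=
  exists_intRing_of_regular hA hℓN f (mem_intRing_of_forall_ord _ hreg)

/-- **Integral lifts off the cusps**: every `ḡ ∈ F_k(N)` regular off the cusps is the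
coefficientwise reduction of an INTEGRAL element `a` (a series with coefficients in `A`) whose
characteristic-zero realisation is regular off the cusps
(`S34/LevelMSurjX0.exists_lift_off_cusps` + (MaxMod)). -/
theorem exists_intRing_lift_off_cusps (hA : A.LiesOverPrime ℓ) (hℓN : ¬ ℓ ∣ N) {gL gk : ℕ}
    (H : Fermat.Agent.S37.Deuring.Core.Hyp (Datum.gaussDatum N A hA hℓN) gL gk)
    (y : ↥(modularFunctionFieldFullC (ResidueField ↥A) N))
    (hy : ∀ Q : Place (ResidueField ↥A) ↥(modularFunctionFieldFullC (ResidueField ↥A) N),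
      0 ≤ Q.ord (jk (ResidueField ↥A) N) → y = 0 ∨ 0 ≤ Q.ord y) :
    ∃ a : ↥(Fermat.Agent.S18.GaussFromH.intRing A (residue ↥A) N),
      Fermat.Agent.S18.GaussFromH.red A (residue ↥A) N a = y ∧
      ∀ P : Place Kb ↥(modularFunctionFieldBar N), 0 ≤ P.ord (jgen N) →
        Fermat.Agent.S18.GaussFromH.toFL A (residue ↥A) N a = 0 ∨
          0 ≤ P.ord (Fermat.Agent.S18.GaussFromH.toFL A (residue ↥A) N a) := by
  obtain ⟨f, hfy, hfP⟩ := Fermat.Agent.S34.LevelMSurjX0.exists_lift_off_cusps hA hℓN H y hy
  obtain ⟨a, ha⟩ := exists_intRing_of_forall_ord hA hℓN f hfP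
  refine ⟨a, ?_, fun P hP => ?_⟩
  · rw [← Datum.red_toFL hA hℓN a, ← hfy]
    congr 1
    exact Subtype.ext ha
  · rw [ha]
    exact hfP P hP

end X0

end Fermat.Agent.S36.MaxModX0
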