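/-
PROJECT V (S36), slice V-CountNode (helper17), chain (V13): **the bound `hb1` of the count at the
nodes**, on the concrete field `κ_M = F_k(M)`, `k` the residue field of a valuation ring `A` of `ℚ̄`
over `q ∤ M`.

For every non-cuspidal place `b` of `κ_M` with `Fr² b = b` there are a local parameter `π` at `b`
and `Θ ∈ κ_M` with `(θ π)^(q-1) = Θ` (as `t`-series) and `-2 ≤ ord_b Θ`
(`exists_param_bound`; `hb1` = literally the hypothesis `hb1` of `S36/CountX0.count_X0` with
`D = HurwitzCount.X0.thetaDer k M`).  Proof (recipe of helper29):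

* (P1) `π = f ∈ chart k j̄` with `ord_b f = 1` (`SpecDictLocal.exists_ord_eq_one`, helper14);
* (P2) an INTEGRAL lift `a` of `f`, regular off the cusps (`MaxModX0.exists_intRing_lift_off_cusps`);
* (P3) `a'` integral with `q · toFL a' = N(β²x - α²x)`, `x = toFL a`, and
  `red a' = (f - φ²f)(φ²σ²f - σ²f) (θ f)^(q-1)` (`NormDiagRed.exists_diagI_kappa`, helper22);
* (P4) `toFL a'` is regular off the cusps: HYPOTHESIS `hreg` (the norm of an element regular off
  the cusps is regular off the cusps; helper29 `NormDiagPoles`), hence `red a'` is regular off the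
  cusps (`red_mem_intRing`: pole control `S37/Diff/Assembly.red_mem_intRing_fin`), in particular
  at `b`;
* (P5) `ord_b ((f - φ²f) σ²(f - φ²f)) = 2` (`TripleEval.ord_cofactor`, helper4), so
  `Θ := red a' / ((f - φ²f)(φ²σ²f - σ²f))` has `ord_b Θ = ord_b (red a') - 2 ≥ -2`.

`count_of_hb0` : `CountX0.count_X0` with `D = thetaDer`, `G` from `HurwitzCount.X0.exists_G` and
`hb1` discharged: what remains is `hid`, `hb0` and `hreg`.
-/
import Mathlib
import Fermat.Agent.S36.MaxModX0
import Fermat.Agent.S36.TripleEval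
import Fermat.Agent.S36.SpecDictLocal
import Fermat.Agent.S36.HurwitzCount.X0
import Fermat.Agent.S36.CountX0

set_option autoImplicit false
set_option linter.unusedSectionVars false
set_option linter.style.haveILetI false

noncomputable section

namespace Fermat.Agent.S36.CountNode

open HahnSeries ModularCurve Polynomial AlgebraicCurve IntermediateField IsLocalRing
open Fermat.Agent.S24.FF Fermat.Agent.S24.Fibre
  Fermat.Agent.S18.A Fermat.Agent.S18.A.Chart
  Fermat.Agent.S37.Deuring.Core Fermat.Agent.S37.Wild.GaussA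
  Fermat.Agent.S37.Diff
open Fermat.Agent.S24.DegreeAlg (jgen)
open Fermat.Agent.S18.B.FkBasics (jk)
open Fermat.Agent.S18.C Fermat.Agent.S37.Gauss
open Fermat.Agent.S35.LevelMaps
open Fermat.Agent.S34.FrobK Fermat.Agent.S36.TripleEval

local notation "Kb" => AlgebraicClosure ℚ

set_option synthInstance.maxHeartbeats 400000
set_option maxHeartbeats 1600000

attribute [local instance 2000] Fermat.Agent.S18.C.KModelX0.algkFk

variable {q : ℕ} [hq : Fact q.Prime] {M : ℕ} [NeZero M] {A : ValuationSubring Kb}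

/-! ### pole control for integral elements -/

/-- **Pole control**: an integral element whose characteristic-zero realisation is regular off the
cusps has a reduction which is regular off the cusps (integral over `k[j̄]`). -/
theorem red_mem_intRing (hA : A.LiesOverPrime q) (hqM : ¬ q ∣ M)
    (a : ↥(Fermat.Agent.S18.GaussFromH.intRing A (residue ↥A) M))
    (ha : Fermat.Agent.S18.GaussFromH.toFL A (residue ↥A) M a ∈ intRing Kb (jgen M)) :
    Fermat.Agent.S18.GaussFromH.red A (residue ↥A) M a ∈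
      intRing (ResidueField ↥A) (jk (ResidueField ↥A) M) := by
  haveI : IsAlgClosed (ResidueField ↥A) :=
    Fermat.Agent.S18.ResidueBasics.isAlgClosed_residueField A
  haveI := KModelX0.finiteDimensional_FL M
  have hx : algebraMap (RatFunc Kb) ↥(modularFunctionFieldBar M) RatFunc.X ∈
      (Datum.gaussDatum M A hA hqM).O := by
    rw [ModularInst.algebraMap_FL_X]
    exact Datum.jgen_mem_O hA hqM
  have hrx : (Datum.gaussDatum M A hA hqM).red ⟨_, hx⟩ = algebraMap (RatFunc (ResidueField ↥A))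
      ↥(modularFunctionFieldFullC (ResidueField ↥A) M) RatFunc.X := by
    rw [ModularInst.algebraMap_Fk_X]
    refine Eq.trans ?_ (Datum.red_jgen hA hqM)
    congr 1
    exact Subtype.ext (ModularInst.algebraMap_FL_X M)
  obtain ⟨t, h⟩ := Fermat.Agent.S37.Wild.GaussA.exists_hyp (Datum.gaussDatum M A hA hqM) hx hrx
    (Datum.red_surjective hA hqM) (KModelX0.finrank_le hA hqM)
  have key := Assembly.red_mem_intRing_fin (Datum.gaussDatum M A hA hqM) hx hrx h (x := jgen M)
    (Fermat.Agent.S18.A.Instances.isFF_jgen M) (Fermat.Agent.S18.A.Instances.isSeparable_jgen M)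
    (ModularInst.algebraMap_FL M)
    (IntegralGauss.hpoly_fin (Datum.gaussDatum M A hA hqM) hx hrx)
    ⟨_, Datum.toFL_mem_O hA hqM a⟩ ha
  rw [Datum.red_toFL hA hqM a, ModularInst.algebraMap_Fk_X] at key
  exact key

/-! ### the node bound -/

/-- `sig (phi g) = g ^ q = phi (sig g)` -/
theorem sig_phi (k : Type*) [Field k] (N : ℕ) [NeZero N] (q : ℕ) [hq : Fact q.Prime] [CharP k q]
    [PerfectField k] (g : ↥(modularFunctionFieldFullC k N)) :
    sig k N q (phi k N q g) = phi k N q (sig k N q g) := by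
  rw [phi_sig, phi_eq_pow, map_pow, sig_psi]

/-- **The bound `hb1` of the count** (coe form): at a non-cuspidal `Fr²`-fixed place `b` of
`κ_M = F_k(M)` there are a local parameter `π` and `Θ ∈ κ_M` with `(θ π)^(q-1) = Θ` and
`-2 ≤ ord_b Θ`.  `hreg` = "the norm `N(β²x - α²x)/q` of an element regular off the cusps is regular
off the cusps" (helper29 `NormDiagPoles`). -/
theorem exists_param_bound (hA : A.LiesOverPrime q) (hqM : ¬ q ∣ M)
    [IsAlgClosed (ResidueField ↥A)] [CharP (ResidueField ↥A) q]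
    (hsep : Algebra.IsSeparable (ResidueField ↥A)⟮jk (ResidueField ↥A) M⟯
      ↥(modularFunctionFieldFullC (ResidueField ↥A) M))
    {gL gk : ℕ} (H : Fermat.Agent.S37.Deuring.Core.Hyp (Datum.gaussDatum M A hA hqM) gL gk)
    (hreg : ∀ a a' : ↥(Fermat.Agent.S18.GaussFromH.intRing A (residue ↥A) M),
      (letI := algebraAlong ((heckeBetaBar Kb (M * q) q).comp (heckeBetaBar Kb M q))
       algebraMap Kb (E M) ((q : ℕ) : Kb) * Fermat.Agent.S18.GaussFromH.toFL A (residue ↥A) M a' =
        Algebra.norm (E M)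
          (heckeBetaBar Kb (M * q) q (heckeBetaBar Kb M q
              (Fermat.Agent.S18.GaussFromH.toFL A (residue ↥A) M a)) -
            heckeAlphaBar Kb (M * q) q (heckeAlphaBar Kb M q
              (Fermat.Agent.S18.GaussFromH.toFL A (residue ↥A) M a)))) →
      (∀ P : Place Kb ↥(modularFunctionFieldBar M), 0 ≤ P.ord (jgen M) →
        Fermat.Agent.S18.GaussFromH.toFL A (residue ↥A) M a = 0 ∨
          0 ≤ P.ord (Fermat.Agent.S18.GaussFromH.toFL A (residue ↥A) M a)) →
      (∀ P : Place Kb ↥(modularFunctionFieldBar M), 0 ≤ P.ord (jgen M) →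
        Fermat.Agent.S18.GaussFromH.toFL A (residue ↥A) M a' = 0 ∨
          0 ≤ P.ord (Fermat.Agent.S18.GaussFromH.toFL A (residue ↥A) M a')))
    (b : Place (ResidueField ↥A) ↥(modularFunctionFieldFullC (ResidueField ↥A) M))
    (hb2 : Fr (ResidueField ↥A) M q (Fr (ResidueField ↥A) M q b) = b)
    (hbfin : 0 ≤ b.ord (jk (ResidueField ↥A) M)) :
    ∃ π Θ : ↥(modularFunctionFieldFullC (ResidueField ↥A) M), b.ord π = 1 ∧
      Fermat.Agent.S36.ThetaL.thetaL (π : LaurentSeries (ResidueField ↥A)) ^ (q - 1) =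
        (Θ : LaurentSeries (ResidueField ↥A)) ∧ -2 ≤ b.ord Θ := by
  haveI : NeZero q := ⟨hq.out.ne_zero⟩
  set k := ResidueField ↥A with hk
  have hFF := Fermat.Agent.S18.B.FkBasics.isFF k M
  have hj0 : jk k M ≠ 0 := fun h0 => hFF.transcendental (h0 ▸ isAlgebraic_zero)
  -- (P1) a local parameter in the chart ring
  have hbj : jk k M ∈ b.toValuationSubring :=
    (Fermat.Agent.S24.Ord.mem_iff b _).mpr ((Fermat.Agent.S24.Ord.ord_nonneg_iff b hj0).mp hbfin)
  obtain ⟨β, hβ⟩ := Fermat.Agent.S36.SpecDictLocal.exists_ord_eq_one hFF hsep b hbj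
  set f : ↥(modularFunctionFieldFullC k M) := (β : ↥(modularFunctionFieldFullC k M)) with hf
  have hfreg : ∀ Q : Place k ↥(modularFunctionFieldFullC k M), 0 ≤ Q.ord (jk k M) →
      f = 0 ∨ 0 ≤ Q.ord f := by
    intro Q hQ
    by_cases hf0 : f = 0
    · exact Or.inl hf0
    · refine Or.inr ((Fermat.Agent.S24.Ord.ord_nonneg_iff Q hf0).mpr ?_)
      exact Chart.adicValuation_le_one_of_mem_intRing β.2 Q
        ((Fermat.Agent.S24.Ord.ord_nonneg_iff Q hj0).mp hQ)
  -- (P2) an integral lift, regular off the cusps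
  obtain ⟨a, hared, hareg⟩ :=
    Fermat.Agent.S36.MaxModX0.exists_intRing_lift_off_cusps hA hqM H f hfreg
  -- (P3) the diagonal norm
  obtain ⟨a', hnorm, hred'⟩ := Fermat.Agent.S36.NormDiagRed.exists_diagI_kappa A (residue ↥A) hqM
    (Datum.hasRep M A hA hqM) (Datum.residue_eq_zero_of_not_isUnit A) a
  -- (P4) pole control
  have ha'reg := hreg a a' hnorm hareg
  have hmem := red_mem_intRing hA hqM a'
    (Fermat.Agent.S36.MaxModX0.mem_intRing_of_forall_ord _ ha'reg)
  rw [hared] at hred'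
  set r : ↥(modularFunctionFieldFullC k M) :=
    Fermat.Agent.S18.GaussFromH.red A (residue ↥A) M a' with hr
  have hrb : b.adicValuation r ≤ 1 :=
    Chart.adicValuation_le_one_of_mem_intRing hmem b
      ((Fermat.Agent.S24.Ord.ord_nonneg_iff b hj0).mp hbfin)
  -- (P5) the two outer factors
  set u : ↥(modularFunctionFieldFullC k M) := f - phi k M q (phi k M q f) with hu
  have hu1 : b.ord u = 1 := ord_sub_phi_phi k M q b hb2 f hβ
  have hu0 : u ≠ 0 := by
    intro h0
    rw [h0, Place.ord_zero] at hu1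
    exact zero_ne_one hu1
  have hsu : sig k M q (sig k M q u) ≠ 0 :=
    (map_ne_zero_iff _ (sig k M q).injective).mpr
      ((map_ne_zero_iff _ (sig k M q).injective).mpr hu0)
  have hw : phi k M q (phi k M q (sig k M q (sig k M q f))) - sig k M q (sig k M q f) =
      -(sig k M q (sig k M q u)) := by
    rw [hu, map_sub, map_sub, sig_phi, sig_phi, sig_phi, sig_phi]
    ring
  -- rewrite the reduction
  have hred'' : (r : LaurentSeries k) = ((u * -(sig k M q (sig k M q u)) :
      ↥(modularFunctionFieldFullC k M)) : LaurentSeries k) *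
      Fermat.Agent.S36.ThetaL.thetaL (f : LaurentSeries k) ^ (q - 1) := by
    rw [← hw, hred']
    rfl
  set w : ↥(modularFunctionFieldFullC k M) := u * -(sig k M q (sig k M q u)) with hwdef
  have hw0 : w ≠ 0 := mul_ne_zero hu0 (neg_ne_zero.mpr hsu)
  refine ⟨f, r / w, hβ, ?_, ?_⟩
  · have hw0' : (w : LaurentSeries k) ≠ 0 := fun h0 => hw0 (Subtype.ext h0)
    have h1 : ((r / w : ↥(modularFunctionFieldFullC k M)) : LaurentSeries k) =
        (r : LaurentSeries k) / (w : LaurentSeries k) := rfl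
    rw [h1, hred'', mul_comm, mul_div_assoc, div_self hw0', mul_one]
  · by_cases hr0 : r = 0
    · rw [hr0, zero_div, Place.ord_zero]
      norm_num
    · have hT0 : r / w ≠ 0 := div_ne_zero hr0 hw0
      have hcof := ord_cofactor b hb2 f 0
        (by rw [map_zero, sub_zero]; exact hβ) hT0
      have hprod : r / w * (f - phi k M q (phi k M q f)) *
          sig k M q (sig k M q (f - phi k M q (phi k M q f))) = -r := by
        rw [← hu]
        field_simp
        rw [hwdef]
        ring
      rw [hprod, Fermat.Agent.S18.CoreOrd.ord_neg'] at hcof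
      have hr1 : 0 ≤ b.ord r := (Fermat.Agent.S24.Ord.ord_nonneg_iff b hr0).mpr hrb
      linarith

/-- **`hb1` of `CountX0.count_X0`, literally** (with `D = HurwitzCount.X0.thetaDer k M`,
`L = k((t))`): for every finite set `S` of non-cuspidal `Fr²`-fixed places. -/
theorem hb1 (hA : A.LiesOverPrime q) (hqM : ¬ q ∣ M)
    [IsAlgClosed (ResidueField ↥A)] [CharP (ResidueField ↥A) q]
    (hsep : Algebra.IsSeparable (ResidueField ↥A)⟮jk (ResidueField ↥A) M⟯
      ↥(modularFunctionFieldFullC (ResidueField ↥A) M))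
    {gL gk : ℕ} (H : Fermat.Agent.S37.Deuring.Core.Hyp (Datum.gaussDatum M A hA hqM) gL gk)
    (hreg : ∀ a a' : ↥(Fermat.Agent.S18.GaussFromH.intRing A (residue ↥A) M),
      (letI := algebraAlong ((heckeBetaBar Kb (M * q) q).comp (heckeBetaBar Kb M q))
       algebraMap Kb (E M) ((q : ℕ) : Kb) * Fermat.Agent.S18.GaussFromH.toFL A (residue ↥A) M a' =
        Algebra.norm (E M)
          (heckeBetaBar Kb (M * q) q (heckeBetaBar Kb M q
              (Fermat.Agent.S18.GaussFromH.toFL A (residue ↥A) M a)) -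
            heckeAlphaBar Kb (M * q) q (heckeAlphaBar Kb M q
              (Fermat.Agent.S18.GaussFromH.toFL A (residue ↥A) M a)))) →
      (∀ P : Place Kb ↥(modularFunctionFieldBar M), 0 ≤ P.ord (jgen M) →
        Fermat.Agent.S18.GaussFromH.toFL A (residue ↥A) M a = 0 ∨
          0 ≤ P.ord (Fermat.Agent.S18.GaussFromH.toFL A (residue ↥A) M a)) →
      (∀ P : Place Kb ↥(modularFunctionFieldBar M), 0 ≤ P.ord (jgen M) →
        Fermat.Agent.S18.GaussFromH.toFL A (residue ↥A) M a' = 0 ∨
          0 ≤ P.ord (Fermat.Agent.S18.GaussFromH.toFL A (residue ↥A) M a')))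
    (S : Finset (Place (ResidueField ↥A) ↥(modularFunctionFieldFullC (ResidueField ↥A) M)))
    (hS2 : ∀ b ∈ S, Fr (ResidueField ↥A) M q (Fr (ResidueField ↥A) M q b) = b)
    (hSfin : ∀ b ∈ S, 0 ≤ b.ord (jk (ResidueField ↥A) M)) :
    ∀ b ∈ S, ∃ π Θ : ↥(modularFunctionFieldFullC (ResidueField ↥A) M), b.ord π = 1 ∧
      (Fermat.Agent.S36.HurwitzCount.X0.thetaDer (ResidueField ↥A) M π) ^ (q - 1) =
        algebraMap ↥(modularFunctionFieldFullC (ResidueField ↥A) M)
          (LaurentSeries (ResidueField ↥A)) Θ ∧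
      -2 ≤ b.ord Θ :=
  fun b hb => exists_param_bound hA hqM hsep H hreg b (hS2 b hb) (hSfin b hb)

/-- **The count on `κ_M` with `hb1` discharged** (`CountX0.count_X0` with `D = thetaDer`, `G` from
`HurwitzCount.X0.exists_G`): remaining hypotheses `hid` (exact Euler number, `EulerExact`), `hb0`
(ordinary points) and `hreg` (norm regularity). -/
theorem count_of_hb0 [NeZero (M * q)] (hA : A.LiesOverPrime q) (hqM : ¬ q ∣ M)
    [IsAlgClosed (ResidueField ↥A)] [CharP (ResidueField ↥A) q]
    (hsep : Algebra.IsSeparable (ResidueField ↥A)⟮jk (ResidueField ↥A) M⟯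
      ↥(modularFunctionFieldFullC (ResidueField ↥A) M))
    {gL gk : ℕ} (H : Fermat.Agent.S37.Deuring.Core.Hyp (Datum.gaussDatum M A hA hqM) gL gk)
    (hreg : ∀ a a' : ↥(Fermat.Agent.S18.GaussFromH.intRing A (residue ↥A) M),
      (letI := algebraAlong ((heckeBetaBar Kb (M * q) q).comp (heckeBetaBar Kb M q))
       algebraMap Kb (E M) ((q : ℕ) : Kb) * Fermat.Agent.S18.GaussFromH.toFL A (residue ↥A) M a' =
        Algebra.norm (E M)
          (heckeBetaBar Kb (M * q) q (heckeBetaBar Kb M q
              (Fermat.Agent.S18.GaussFromH.toFL A (residue ↥A) M a)) -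
            heckeAlphaBar Kb (M * q) q (heckeAlphaBar Kb M q
              (Fermat.Agent.S18.GaussFromH.toFL A (residue ↥A) M a)))) →
      (∀ P : Place Kb ↥(modularFunctionFieldBar M), 0 ≤ P.ord (jgen M) →
        Fermat.Agent.S18.GaussFromH.toFL A (residue ↥A) M a = 0 ∨
          0 ≤ P.ord (Fermat.Agent.S18.GaussFromH.toFL A (residue ↥A) M a)) →
      (∀ P : Place Kb ↥(modularFunctionFieldBar M), 0 ≤ P.ord (jgen M) →
        Fermat.Agent.S18.GaussFromH.toFL A (residue ↥A) M a' = 0 ∨
          0 ≤ P.ord (Fermat.Agent.S18.GaussFromH.toFL A (residue ↥A) M a')))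
    {g gM : ℕ}
    (HL : Fermat.Agent.S18.NonSpecial.RiemannHyp Kb ↥(modularFunctionFieldBar (M * q)) g)
    (HM : Fermat.Agent.S18.NonSpecial.RiemannHyp (ResidueField ↥A)
      ↥(modularFunctionFieldFullC (ResidueField ↥A) M) gM)
    (h2 : nuTwo M = 0) (h3 : nuThree M = 0)
    (S : Finset (Place (ResidueField ↥A) ↥(modularFunctionFieldFullC (ResidueField ↥A) M)))
    (hS2 : ∀ b ∈ S, Fr (ResidueField ↥A) M q (Fr (ResidueField ↥A) M q b) = b)
    (hSfin : ∀ b ∈ S, 0 ≤ b.ord (jk (ResidueField ↥A) M))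
    (hid : g + 1 = gM + gM + S.card)
    (hb0 : ∀ b : Place (ResidueField ↥A) ↥(modularFunctionFieldFullC (ResidueField ↥A) M),
      b ∉ S → 0 ≤ b.ord (jk (ResidueField ↥A) M) →
      ∃ π Θ : ↥(modularFunctionFieldFullC (ResidueField ↥A) M), b.ord π = 1 ∧
        Fermat.Agent.S36.ThetaL.thetaL (π : LaurentSeries (ResidueField ↥A)) ^ (q - 1) =
          (Θ : LaurentSeries (ResidueField ↥A)) ∧ 0 ≤ b.ord Θ)
    (b : Place (ResidueField ↥A) ↥(modularFunctionFieldFullC (ResidueField ↥A) M))
    (hb : 0 ≤ b.ord (jk (ResidueField ↥A) M))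
    {π Θ : ↥(modularFunctionFieldFullC (ResidueField ↥A) M)} (hπ : b.ord π = 1)
    (hΘ : Fermat.Agent.S36.ThetaL.thetaL (π : LaurentSeries (ResidueField ↥A)) ^ (q - 1) =
      (Θ : LaurentSeries (ResidueField ↥A))) :
    (b ∈ S → b.ord Θ = -2) ∧ (b ∉ S → b.ord Θ = 0) := by
  obtain ⟨G, hG0, -, hDx, hGdiv, hGpole⟩ :=
    Fermat.Agent.S36.HurwitzCount.X0.exists_G (q := q) hA M hsep
  exact Fermat.Agent.S36.CountX0.count_X0 hA hqM hsep
    (Fermat.Agent.S36.HurwitzCount.X0.thetaDer (ResidueField ↥A) M) G hG0 hDx hGdiv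
    (fun Q hQ => hGpole Q ((FibreSep.mem_poles_iff_ord_neg _ hsep Q).mpr hQ))
    HL HM h2 h3 S hSfin hid (hb1 hA hqM hsep H hreg S hS2 hSfin) hb0 b hb hπ hΘ

end Fermat.Agent.S36.CountNode
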