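/-
PROJECT V (S36), slice V-NormDiagPoles (helper29) = (P4) of the count (V13), hypothesis `hb1`:
**the diagonal norm `N(x(t^(q²)) - x(t))` of a function regular off the cusps is regular off the
cusps.**

`E N = ℚ̄(X₀(N))`, `α₁, β₁ : E N0 → E (N0 q)`, `α₂, β₂ : E (N0 q) → E (N0 q q)` the degeneracy maps
(`α` = identity on `t`-expansions, `β` = `t ↦ t^q`), `j = jgen N0`.

* `norm_mem_chart` (abstract): `β : F →ₐ[K] F'`, `y ∈ F'` integral over `K[β j]` `⟹`
  `N_{F'/βF} y ∈ F` is integral over `K[j]` (`Algebra.isIntegral_norm` over the base `K[X]`);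
* `alpha_jgen_mem_chart_beta_jgen` : `j(t)` is integral over `ℚ̄[j(t^q)]` in `E (N q)` (modular
  equation `Φ_q(j(t), j(t^q)) = 0`: `S36/MinpolyJ2.phiJ1_isRoot_j`);
* `alpha2_jgen_mem_chart_beta2_jgen` : `j(t)` is integral over `ℚ̄[j(t^(q²))]` in `E (N0 q q)`;
* **`norm_diag_mem_chart`** : `x ∈ E N0` integral over `ℚ̄[j]` `⟹`
  `N_{E(N0 q q) / β₂β₁ E N0} (β₂β₁ x - α₂α₁ x)` is integral over `ℚ̄[j]`;
* **`diag_quotient_regular`** : in the situation of `S36/NormDiagRed.exists_diagI(_kappa)`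
  (`q · y' = N(β₂β₁ x - α₂α₁ x)`), `x` regular off the cusps `⟹` `y'` regular off the cusps
  (both in the language of places: `0 ≤ ord_P j → y' = 0 ∨ 0 ≤ ord_P y'`) and
  `y' ∈ intRing ℚ̄ j` (the form consumed by `S37/Diff/Assembly.red_mem_intRing_fin`).
-/
import Mathlib
import Fermat.Agent.S36.NormDiagRed
import Fermat.Agent.S36.MinpolyJ2
import Fermat.Agent.S36.JIntegral
import Fermat.Agent.S37.Diff.Assembly
import Fermat.Agent.S37.Diff.IntegralGauss
import Fermat.Agent.S37.Gauss.Datum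
import Fermat.Agent.S18.C.KModelX0

set_option autoImplicit false
set_option linter.unusedSectionVars false
set_option linter.style.haveILetI false

noncomputable section

namespace Fermat.Agent.S36.NormDiagPoles

open Polynomial ModularCurve AlgebraicCurve
open Fermat.Agent.S24.DegreeAlg (jgen)
open Fermat.Agent.S35.LevelMaps Fermat.Agent.S36.ChartRing Fermat.Agent.S36.CompNormal

/-! ### abstract: the norm along an algebra homomorphism preserves integrality over `K[j]` -/

section Abstract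

variable {K : Type*} [Field K] {F F' : Type*} [Field F] [Field F'] [Algebra K F] [Algebra K F']

/-- `K[X] → K[b] ⊆ F'` is onto. -/
theorem aeval_adjoin_surjective (b : F') :
    Function.Surjective
      (aeval (⟨b, Algebra.subset_adjoin (Set.mem_singleton b)⟩ :
        Algebra.adjoin K ({b} : Set F')) : K[X] → Algebra.adjoin K ({b} : Set F')) := by
  intro z
  have hz : (z : F') ∈ (aeval b : K[X] →ₐ[K] F').range := by
    rw [← Algebra.adjoin_singleton_eq_range_aeval]
    exact z.2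
  obtain ⟨g, hg⟩ := hz
  refine ⟨g, Subtype.ext ?_⟩
  rw [← hg]
  exact (Subalgebra.aeval_coe (Algebra.adjoin K ({b} : Set F'))
    (⟨b, Algebra.subset_adjoin (Set.mem_singleton b)⟩ : Algebra.adjoin K ({b} : Set F')) g).symm

/-- **The norm along `β` preserves integrality over the polynomial ring.** -/
theorem norm_mem_chart (β : F →ₐ[K] F') (j : F) (y : F') (hy : y ∈ chart K (β j)) :
    letI := algebraAlong β
    Algebra.norm F y ∈ chart K j := by
  letI := algebraAlong β
  letI a1 : Algebra K[X] F := ((aeval j : K[X] →ₐ[K] F) : K[X] →+* F).toAlgebra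
  letI a2 : Algebra K[X] F' :=
    (β.toRingHom.comp ((aeval j : K[X] →ₐ[K] F) : K[X] →+* F)).toAlgebra
  haveI : IsScalarTower K[X] F F' := IsScalarTower.of_algebraMap_eq (fun _ => rfl)
  have hint : IsIntegral K[X] y := by
    obtain ⟨p, hpm, hp⟩ := hy
    set b' : Algebra.adjoin K ({β j} : Set F') :=
      ⟨β j, Algebra.subset_adjoin (Set.mem_singleton (β j))⟩ with hb'
    set φ : K[X] →+* Algebra.adjoin K ({β j} : Set F') :=
      ((aeval b' : K[X] →ₐ[K] Algebra.adjoin K ({β j} : Set F')) :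
        K[X] →+* Algebra.adjoin K ({β j} : Set F')) with hφ
    have hsurj : Function.Surjective φ := aeval_adjoin_surjective (K := K) (β j)
    have hl : p ∈ Polynomial.lifts φ := by
      rw [Polynomial.lifts_iff_coeff_lifts]
      intro n
      exact hsurj _
    obtain ⟨P, hPmap, -, hPm⟩ := Polynomial.lifts_and_degree_eq_and_monic hl hpm
    refine ⟨P, hPm, ?_⟩
    rw [← hp, ← hPmap, eval₂_map]
    congr 1
    apply Polynomial.ringHom_ext
    · intro c
      show β (aeval j (C c)) = ((φ (C c) : Algebra.adjoin K ({β j} : Set F')) : F')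
      rw [hφ]
      simp only [aeval_C, RingHom.coe_coe, AlgHom.commutes]
      rfl
    · show β (aeval j X) = ((φ X : Algebra.adjoin K ({β j} : Set F')) : F')
      rw [hφ]
      simp only [aeval_X, RingHom.coe_coe]
      rfl
  obtain ⟨P, hPm, hP⟩ := Algebra.isIntegral_norm F hint
  exact Fermat.Agent.S37.Diff.Assembly.mem_intRing_of_eval₂ j _ (algebraMap K[X] F)
    (fun a => by
      show (aeval j : K[X] →ₐ[K] F) (C a) = _
      rw [aeval_C])
    (by
      show (aeval j : K[X] →ₐ[K] F) X = _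
      rw [aeval_X]) P hPm hP

end Abstract

/-! ### the modular equation: `j(t)` is integral over `ℚ̄[j(t^q)]` and over `ℚ̄[j(t^(q²))]` -/

section X0

local notation "Kb" => AlgebraicClosure ℚ

/-- `j(t)` is integral over `ℚ̄[j(t^q)]` in `E (N q)` (`Φ_q(j(t), j(t^q)) = 0`). -/
theorem alpha_jgen_mem_chart_beta_jgen {N q : ℕ} [NeZero N] [NeZero q] [NeZero (N * q)]
    (hq : q.Prime) :
    heckeAlphaBar Kb N q (jgen N) ∈ chart Kb (heckeBetaBar Kb N q (jgen N)) := by
  haveI : NeZero (N * q * q) := ⟨Nat.mul_ne_zero (NeZero.ne (N * q)) (NeZero.ne q)⟩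
  obtain ⟨Φ, hmonic, -, hΦ⟩ := Fermat.Agent.S28.ModPolyPrime.exists_PhiZ q hq
  rw [Fermat.Agent.S36.NormDiag.alpha_jgen]
  apply Fermat.Agent.S36.JIntegral.mem_chart_of_mem_chart_int
  refine Fermat.Agent.S36.JIntegral.mem_chart_int_of_isRoot hmonic ?_
  have h := Fermat.Agent.S36.MinpolyJ2.phiJ1_isRoot_j (N0 := N) hq hΦ
  have hhom : Polynomial.eval₂RingHom (Int.castRingHom (E (N * q))) (heckeBetaBar Kb N q (jgen N)) =
      ((aeval (Fermat.Agent.S36.MinpolyJ2.j1 N q) : Polynomial ℤ →ₐ[ℤ] E (N * q)) :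
        Polynomial ℤ →+* E (N * q)) := by
    apply Polynomial.ringHom_ext
    · intro a
      simp
    · simp only [Polynomial.coe_eval₂RingHom, eval₂_X, RingHom.coe_coe, aeval_X]
      rfl
  rw [hhom]
  exact h

variable {N0 q : ℕ} [NeZero N0] [NeZero q] [NeZero (N0 * q)] [NeZero (N0 * q * q)]

/-- `j(t)` is integral over `ℚ̄[j(t^(q²))]` in `E (N0 q q)`. -/
theorem alpha2_jgen_mem_chart_beta2_jgen (hq : q.Prime) :
    heckeAlphaBar Kb (N0 * q) q (heckeAlphaBar Kb N0 q (jgen N0)) ∈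
      chart Kb (heckeBetaBar Kb (N0 * q) q (heckeBetaBar Kb N0 q (jgen N0))) := by
  have h1 := alpha_jgen_mem_chart_beta_jgen (N := N0 * q) (q := q) hq
  have h0 := alpha_jgen_mem_chart_beta_jgen (N := N0) (q := q) hq
  have h2 := map_mem_chart (O := Kb) ((heckeBetaBar Kb (N0 * q) q : E (N0 * q) →ₐ[Kb] E (N0 * q * q)) :
    E (N0 * q) →+* E (N0 * q * q)) (fun c => (heckeBetaBar Kb (N0 * q) q).commutes c) h0
  rw [Fermat.Agent.S36.NormDiag.alpha_jgen N0 q] at h2 ⊢
  exact mem_chart_of_mem_chart h2 h1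

/-- **The diagonal norm of a function integral over `ℚ̄[j]` is integral over `ℚ̄[j]`.** -/
theorem norm_diag_mem_chart (hq : q.Prime) (x : E N0) (hx : x ∈ chart Kb (jgen N0)) :
    letI := algebraAlong ((heckeBetaBar Kb (N0 * q) q).comp (heckeBetaBar Kb N0 q))
    Algebra.norm (E N0)
      (heckeBetaBar Kb (N0 * q) q (heckeBetaBar Kb N0 q x) -
        heckeAlphaBar Kb (N0 * q) q (heckeAlphaBar Kb N0 q x)) ∈ chart Kb (jgen N0) := by
  refine norm_mem_chart ((heckeBetaBar Kb (N0 * q) q).comp (heckeBetaBar Kb N0 q)) (jgen N0) _ ?_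
  refine Subalgebra.sub_mem _ ?_ ?_
  · exact map_mem_chart (O := Kb)
      (((heckeBetaBar Kb (N0 * q) q).comp (heckeBetaBar Kb N0 q) : E N0 →ₐ[Kb] E (N0 * q * q)) :
        E N0 →+* E (N0 * q * q))
      (fun c => ((heckeBetaBar Kb (N0 * q) q).comp (heckeBetaBar Kb N0 q)).commutes c) hx
  · have h := map_mem_chart_of_mem (O := Kb)
      (((heckeAlphaBar Kb (N0 * q) q).comp (heckeAlphaBar Kb N0 q) : E N0 →ₐ[Kb] E (N0 * q * q)) :
        E N0 →+* E (N0 * q * q))
      (fun c => ((heckeAlphaBar Kb (N0 * q) q).comp (heckeAlphaBar Kb N0 q)).commutes c)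
      (φ := heckeBetaBar Kb (N0 * q) q (heckeBetaBar Kb N0 q (jgen N0)))
      (alpha2_jgen_mem_chart_beta2_jgen hq) hx
    exact h

/-- **(P4)** In the situation of `S36/NormDiagRed.exists_diagI`: if `q · y' = N(β₂β₁ x - α₂α₁ x)` and
`x` is integral over `ℚ̄[j]`, so is `y'`. -/
theorem diag_quotient_mem_intRing (hq : q.Prime) (x y' : E N0)
    (hx : x ∈ Fermat.Agent.S24.Fibre.intRing Kb (jgen N0))
    (hnorm :
      letI := algebraAlong ((heckeBetaBar Kb (N0 * q) q).comp (heckeBetaBar Kb N0 q))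
      algebraMap Kb (E N0) ((q : ℕ) : Kb) * y' =
        Algebra.norm (E N0)
          (heckeBetaBar Kb (N0 * q) q (heckeBetaBar Kb N0 q x) -
            heckeAlphaBar Kb (N0 * q) q (heckeAlphaBar Kb N0 q x))) :
    y' ∈ Fermat.Agent.S24.Fibre.intRing Kb (jgen N0) := by
  have hn := norm_diag_mem_chart hq x hx
  have hq0 : algebraMap Kb (E N0) ((q : ℕ) : Kb) ≠ 0 := by
    rw [Ne, map_eq_zero]
    exact Nat.cast_ne_zero.mpr hq.ne_zero
  have hy : y' = algebraMap Kb (E N0) (((q : ℕ) : Kb)⁻¹) *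
      (algebraMap Kb (E N0) ((q : ℕ) : Kb) * y') := by
    rw [map_inv₀, ← mul_assoc, inv_mul_cancel₀ hq0, one_mul]
  rw [hy, hnorm]
  exact Subalgebra.mul_mem _ (algebraMap_mem_chart (O := Kb) (jgen N0) _) hn

/-- The same in the language of places. -/
theorem diag_quotient_regular (hq : q.Prime) (x y' : E N0)
    (hx : ∀ P : Place Kb (E N0), 0 ≤ P.ord (jgen N0) → x = 0 ∨ 0 ≤ P.ord x)
    (hnorm :
      letI := algebraAlong ((heckeBetaBar Kb (N0 * q) q).comp (heckeBetaBar Kb N0 q))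
      algebraMap Kb (E N0) ((q : ℕ) : Kb) * y' =
        Algebra.norm (E N0)
          (heckeBetaBar Kb (N0 * q) q (heckeBetaBar Kb N0 q x) -
            heckeAlphaBar Kb (N0 * q) q (heckeAlphaBar Kb N0 q x))) :
    ∀ P : Place Kb (E N0), 0 ≤ P.ord (jgen N0) → y' = 0 ∨ 0 ≤ P.ord y' := by
  have hFF := Fermat.Agent.S18.A.Instances.isFF_jgen N0
  have hsep := Fermat.Agent.S18.A.Instances.isSeparable_jgen N0
  have hx' : x ∈ Fermat.Agent.S24.Fibre.intRing Kb (jgen N0) := by
    rw [Fermat.Agent.S18.A.Chart.mem_intRing_iff hFF hsep]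
    intro Q hQ
    rw [Q.adicValuation_le_one_iff] at hQ ⊢
    rcases hQ with h0 | hQ
    · exact absurd h0 hFF.ne_zero
    · exact hx Q hQ
  have hy := diag_quotient_mem_intRing hq x y' hx' hnorm
  rw [Fermat.Agent.S18.A.Chart.mem_intRing_iff hFF hsep] at hy
  intro P hP
  rw [← P.adicValuation_le_one_iff]
  exact hy P (P.adicValuation_le_one_iff.mpr (Or.inr hP))

end X0

/-! ### the reduction of the diagonal quotient is regular off the cusps -/

section Red

open Fermat.Agent.S18.B.FkBasics (jk)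
open Fermat.Agent.S18.C Fermat.Agent.S37.Gauss Fermat.Agent.S18.GaussFromH IsLocalRing

local notation "Kb" => AlgebraicClosure ℚ

set_option synthInstance.maxHeartbeats 400000
set_option maxHeartbeats 1600000

attribute [local instance 2000] Fermat.Agent.S18.C.KModelX0.algkFk
attribute [local instance] Fermat.Agent.S18.C.UnramVal.algBelow

variable {N0 q : ℕ} [NeZero N0] [NeZero q] [NeZero (N0 * q)] [NeZero (N0 * q * q)]
variable [Fact q.Prime] {A : ValuationSubring Kb} (hA : A.LiesOverPrime q) (hqN : ¬ q ∣ N0)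

include hA hqN in
/-- **Reduction preserves regularity off the cusps** (integral elements of level `N0`):
`S37/Diff/Assembly.red_mem_intRing_fin` at `X₀(N0)`. -/
theorem red_mem_intRing_of_mem_intRing (a : ↥(intRing A (residue ↥A) N0))
    (ha : toFL A (residue ↥A) N0 a ∈ Fermat.Agent.S24.Fibre.intRing Kb (jgen N0)) :
    Fermat.Agent.S18.GaussFromH.red A (residue ↥A) N0 a ∈
      Fermat.Agent.S24.Fibre.intRing (ResidueField ↥A) (jk (ResidueField ↥A) N0) := by
  classical
  haveI := KModelX0.finiteDimensional_FL N0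
  have hx : algebraMap (RatFunc Kb) ↥(modularFunctionFieldBar N0) RatFunc.X ∈
      (Datum.gaussDatum N0 A hA hqN).O := by
    rw [ModularInst.algebraMap_FL_X]
    exact Datum.jgen_mem_O hA hqN
  have hrx : (Datum.gaussDatum N0 A hA hqN).red ⟨_, hx⟩ = algebraMap (RatFunc (ResidueField ↥A))
      ↥(modularFunctionFieldFullC (ResidueField ↥A) N0) RatFunc.X := by
    rw [ModularInst.algebraMap_Fk_X]
    refine Eq.trans ?_ (Datum.red_jgen hA hqN)
    congr 1
    exact Subtype.ext (ModularInst.algebraMap_FL_X N0)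
  obtain ⟨t, h⟩ := Fermat.Agent.S37.Wild.GaussA.exists_hyp (Datum.gaussDatum N0 A hA hqN)
    hx hrx (Datum.red_surjective hA hqN) (KModelX0.finrank_le hA hqN)
  have hred := Fermat.Agent.S37.Diff.Assembly.red_mem_intRing_fin (Datum.gaussDatum N0 A hA hqN)
    hx hrx h (x := jgen N0) (Fermat.Agent.S18.A.Instances.isFF_jgen N0)
    (Fermat.Agent.S18.A.Instances.isSeparable_jgen N0) (ModularInst.algebraMap_FL N0)
    (Fermat.Agent.S37.Diff.IntegralGauss.hpoly_fin (Datum.gaussDatum N0 A hA hqN) hx hrx)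
    ⟨toFL A (residue ↥A) N0 a, Datum.toFL_mem_O hA hqN a⟩ ha
  rw [Datum.red_toFL hA hqN a, ModularInst.algebraMap_Fk_X] at hred
  exact hred

include hA hqN in
/-- **(P4), reduced form.** In the situation of `S36/NormDiagRed.exists_diagI(_kappa)`
(`q · toFL a' = N(β₂β₁ x - α₂α₁ x)`, `x = toFL a`): if `x` is integral over `ℚ̄[j]` (regular off
the cusps), then `red a'` is integral over `k[j̄]` (regular off the cusps). -/
theorem red_diag_mem_intRing (a a' : ↥(intRing A (residue ↥A) N0))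
    (ha : toFL A (residue ↥A) N0 a ∈ Fermat.Agent.S24.Fibre.intRing Kb (jgen N0))
    (hnorm :
      letI := algebraAlong ((heckeBetaBar Kb (N0 * q) q).comp (heckeBetaBar Kb N0 q))
      algebraMap Kb (E N0) ((q : ℕ) : Kb) * toFL A (residue ↥A) N0 a' =
        Algebra.norm (E N0)
          (heckeBetaBar Kb (N0 * q) q (heckeBetaBar Kb N0 q (toFL A (residue ↥A) N0 a)) -
            heckeAlphaBar Kb (N0 * q) q (heckeAlphaBar Kb N0 q (toFL A (residue ↥A) N0 a)))) :
    Fermat.Agent.S18.GaussFromH.red A (residue ↥A) N0 a' ∈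
      Fermat.Agent.S24.Fibre.intRing (ResidueField ↥A) (jk (ResidueField ↥A) N0) :=
  red_mem_intRing_of_mem_intRing hA hqN a'
    (diag_quotient_mem_intRing (Fact.out : q.Prime) _ _ ha hnorm)

include hA hqN in
/-- **(P4), place form**: `red a'` is regular at every place of `F_k(N0)` which is not a pole of
`j̄`. -/
theorem red_diag_regular (a a' : ↥(intRing A (residue ↥A) N0))
    (ha : ∀ P : Place Kb (E N0), 0 ≤ P.ord (jgen N0) →
      toFL A (residue ↥A) N0 a = 0 ∨ 0 ≤ P.ord (toFL A (residue ↥A) N0 a))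
    (hnorm :
      letI := algebraAlong ((heckeBetaBar Kb (N0 * q) q).comp (heckeBetaBar Kb N0 q))
      algebraMap Kb (E N0) ((q : ℕ) : Kb) * toFL A (residue ↥A) N0 a' =
        Algebra.norm (E N0)
          (heckeBetaBar Kb (N0 * q) q (heckeBetaBar Kb N0 q (toFL A (residue ↥A) N0 a)) -
            heckeAlphaBar Kb (N0 * q) q (heckeAlphaBar Kb N0 q (toFL A (residue ↥A) N0 a))))
    (Q : Place (ResidueField ↥A) ↥(modularFunctionFieldFullC (ResidueField ↥A) N0))
    (hQ : 0 ≤ Q.ord (jk (ResidueField ↥A) N0)) :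
    Fermat.Agent.S18.GaussFromH.red A (residue ↥A) N0 a' = 0 ∨
      0 ≤ Q.ord (Fermat.Agent.S18.GaussFromH.red A (residue ↥A) N0 a') := by
  have hFF := Fermat.Agent.S18.A.Instances.isFF_jgen N0
  have hsep := Fermat.Agent.S18.A.Instances.isSeparable_jgen N0
  have ha' : toFL A (residue ↥A) N0 a ∈ Fermat.Agent.S24.Fibre.intRing Kb (jgen N0) := by
    rw [Fermat.Agent.S18.A.Chart.mem_intRing_iff hFF hsep]
    intro P hP
    rw [P.adicValuation_le_one_iff] at hP ⊢
    rcases hP with h0 | hP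
    · exact absurd h0 hFF.ne_zero
    · exact ha P hP
  have h := red_diag_mem_intRing hA hqN a a' ha' hnorm
  haveI : IsAlgClosed (ResidueField ↥A) :=
    Fermat.Agent.S18.ResidueBasics.isAlgClosed_residueField A
  rw [Fermat.Agent.S18.A.Chart.mem_intRing_iff
    (Fermat.Agent.S18.B.FkBasics.isFF (ResidueField ↥A) N0)
    (Fermat.Agent.S18.B.SeparableFk.isSeparable_jk (ResidueField ↥A) N0)] at h
  rw [← Q.adicValuation_le_one_iff]
  exact h Q (Q.adicValuation_le_one_iff.mpr (Or.inr hQ))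

end Red

end Fermat.Agent.S36.NormDiagPoles
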