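import Mathlib
import Fermat.Agent.S36.CountNode
import Fermat.Agent.S36.NormDiagPoles
import Fermat.Agent.S36.NodesDesc
import Fermat.Agent.S36.CountNumerics
import Fermat.Agent.S36.EulerExact.Desc

/-!
# PROJECT V (S36), slice V-CountHid (chain (V13)): THE COUNT WITH `hb0` AS ITS ONLY HYPOTHESIS

`S36/CountNode.count_of_hb0` (helper17) is the count on the concrete field `κ_M = F_k(M)` with the
open inputs `hsep`, `H`, `hreg`, `HL`, `HM`, `h2`, `h3`, `hS2`, `hSfin`, `hid`, `hb0`.  Here all of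
them but `hb0` are discharged, for the node set `S` everybody shares (ANY finite set of places off
the cusps with `NodesDesc.Desc hA hqM S`; in particular `Y.S` of `NodesDesc.exists_nodes_desc`):

* `hsep` := `S18/B/SeparableFk.isSeparable_jk`;
* `H` := `S34/CoreZX0OfGeneric.HX0` (= `S37/ReductionInputsX0.hyp_X0`);
* `hreg` := `S36/NormDiagPoles.diag_quotient_regular` (helper29);
* `HL`, `HM` := `S34/EulerClosedX0.exists_genera`;
* `h2`, `h3` := `S36/CountNumerics.nu_eq_zero_of_aux` (an auxiliary prime `r ≡ 11 mod 12`, `r ∣ M`);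
* `hid` := `S36/EulerExact/Desc.card_eq_of_desc_nat` (THE EXACT EULER IDENTITY);
* `hS2` (`Fr² = id` on `S`) := `fr_fr_of_desc` (`NodesDesc.exists_nodes_desc` + `eq_of_desc`).

Exports:

* `fr_fr_of_desc`, `fr_mem_of_desc` : a set `S` describing `Rbar0` is `Fr²`-fixed and `Fr`-stable;
* `count_of_desc` : for every `S` with `Desc hA hqM S`, if (`hb0`) every non-cuspidal `b ∉ S` has a
  local parameter `π` with `0 ≤ ord_b ((θ π)^(q-1))`, then for EVERY non-cuspidal `b` and EVERY
  local parameter `π` at `b`, `ord_b ((θ π)^(q-1)) = -2` if `b ∈ S` and `= 0` if `b ∉ S`;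
* `exists_nodes_count` : the node set with all its properties and the count, in one statement.
-/

set_option autoImplicit false
set_option linter.unusedSectionVars false
set_option linter.style.haveILetI false
set_option synthInstance.maxHeartbeats 400000
set_option maxHeartbeats 1600000

noncomputable section

namespace Fermat.Agent.S36.CountHid

open ModularCurve AlgebraicCurve IsLocalRing IntermediateField
open Fermat.Agent.S18.B.FkBasics (jk)
open Fermat.Agent.S18.NonSpecial
open Fermat.Agent.S34.FrobK Fermat.Agent.S34.Euler.FrobSide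
open Fermat.Agent.S36.NodesDesc (Desc)

local notation "Kb" => AlgebraicClosure ℚ

attribute [local instance 2000] Fermat.Agent.S34.EulerX0.algResFk

/-- shortcut instances (all propositions) -/
local instance instACkHid (A : ValuationSubring Kb) : IsAlgClosed (ResidueField ↥A) :=
  Fermat.Agent.S18.ResidueBasics.isAlgClosed_residueField A

local instance instNeZeroMulHid (M q : ℕ) [NeZero M] [NeZero q] : NeZero (M * q) :=
  ⟨Nat.mul_ne_zero (NeZero.ne M) (NeZero.ne q)⟩

variable {q : ℕ} [hq : Fact q.Prime] [NeZero q] {M : ℕ} [NeZero M]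
variable {A : ValuationSubring Kb} (hA : A.LiesOverPrime q) (hqM : ¬ q ∣ M)
variable [CharP (ResidueField ↥A) q] [PerfectField (ResidueField ↥A)]

/-! ### `Fr² = id` and `Fr`-stability for every `S` describing `Rbar0` -/

/-- a finite set `S` of places off the cusps describing `Rbar0` is THE node set -/
theorem eq_nodes_of_desc
    {S : Finset (Place (ResidueField ↥A) ↥(modularFunctionFieldFullC (ResidueField ↥A) M))}
    (hS : ∀ b ∈ S, b ∉ P0 (ResidueField ↥A) M) (hd : Desc hA hqM S) :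
    (∀ b ∈ S, Fr (ResidueField ↥A) M q (Fr (ResidueField ↥A) M q b) = b) ∧
      (∀ b ∈ S, Fr (ResidueField ↥A) M q b ∈ S) := by
  obtain ⟨g, gM, HL, HM⟩ := Fermat.Agent.S34.EulerClosedX0.exists_genera A (M * q) M
  obtain ⟨Y, h1, h2, h3, h4⟩ :=
    Fermat.Agent.S36.NodesDesc.exists_nodes_desc (hA := hA) (hqM := hqM) HM
  have e : S = Y.S := Fermat.Agent.S36.NodesDesc.eq_of_desc HM hS h2 hd h4
  rw [e]
  exact ⟨h1, h3⟩

/-- `Fr² = id` on every `S` describing `Rbar0` -/
theorem fr_fr_of_desc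
    {S : Finset (Place (ResidueField ↥A) ↥(modularFunctionFieldFullC (ResidueField ↥A) M))}
    (hS : ∀ b ∈ S, b ∉ P0 (ResidueField ↥A) M) (hd : Desc hA hqM S) :
    ∀ b ∈ S, Fr (ResidueField ↥A) M q (Fr (ResidueField ↥A) M q b) = b :=
  (eq_nodes_of_desc hA hqM hS hd).1

/-- every `S` describing `Rbar0` is `Fr`-stable -/
theorem fr_mem_of_desc
    {S : Finset (Place (ResidueField ↥A) ↥(modularFunctionFieldFullC (ResidueField ↥A) M))}
    (hS : ∀ b ∈ S, b ∉ P0 (ResidueField ↥A) M) (hd : Desc hA hqM S) :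
    ∀ b ∈ S, Fr (ResidueField ↥A) M q b ∈ S :=
  (eq_nodes_of_desc hA hqM hS hd).2

/-! ### the count -/

variable {r : ℕ} (hr : r.Prime) (hr12 : r % 12 = 11) (hrM : r ∣ M)

include hr hr12 hrM in
/-- **THE COUNT, `hb0` the only hypothesis.**  `S` any finite set of places of `κ_M` off the cusps
describing `Rbar0` (the node set of `X₀(M q)` mod `q`), `r ≡ 11 mod 12` a prime dividing `M`.  If
every non-cuspidal `b ∉ S` has ONE local parameter `π` with `(θ π)^(q-1) = Θ ∈ κ_M` regular at `b`,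
then for EVERY non-cuspidal `b` and EVERY local parameter `π` at `b` with `(θ π)^(q-1) = Θ`:
`ord_b Θ = -2` if `b ∈ S`, `ord_b Θ = 0` if `b ∉ S`. -/
theorem count_of_desc
    {S : Finset (Place (ResidueField ↥A) ↥(modularFunctionFieldFullC (ResidueField ↥A) M))}
    (hS : ∀ b ∈ S, b ∉ P0 (ResidueField ↥A) M) (hd : Desc hA hqM S)
    (hb0 : ∀ b : Place (ResidueField ↥A) ↥(modularFunctionFieldFullC (ResidueField ↥A) M),
      b ∉ S → 0 ≤ b.ord (jk (ResidueField ↥A) M) →
      ∃ π Θ : ↥(modularFunctionFieldFullC (ResidueField ↥A) M), b.ord π = 1 ∧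
        Fermat.Agent.S36.ThetaL.thetaL (π : LaurentSeries (ResidueField ↥A)) ^ (q - 1) =
          (Θ : LaurentSeries (ResidueField ↥A)) ∧ 0 ≤ b.ord Θ)
    (b : Place (ResidueField ↥A) ↥(modularFunctionFieldFullC (ResidueField ↥A) M))
    (hb : 0 ≤ b.ord (jk (ResidueField ↥A) M))
    {π Θ : ↥(modularFunctionFieldFullC (ResidueField ↥A) M)} (hπ : b.ord π = 1)
    (hΘ : Fermat.Agent.S36.ThetaL.thetaL (π : LaurentSeries (ResidueField ↥A)) ^ (q - 1) =
      (Θ : LaurentSeries (ResidueField ↥A))) :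
    (b ∈ S → b.ord Θ = -2) ∧ (b ∉ S → b.ord Θ = 0) := by
  obtain ⟨g, gM, HL, HM⟩ := Fermat.Agent.S34.EulerClosedX0.exists_genera A (M * q) M
  obtain ⟨h2, h3⟩ := Fermat.Agent.S36.CountNumerics.nu_eq_zero_of_aux hr hr12 hrM
  exact Fermat.Agent.S36.CountNode.count_of_hb0 hA hqM
    (Fermat.Agent.S18.B.SeparableFk.isSeparable_jk (ResidueField ↥A) M)
    (Fermat.Agent.S34.CoreZX0OfGeneric.HX0 hA hqM HM)
    (fun a a' hn ha =>
      Fermat.Agent.S36.NormDiagPoles.diag_quotient_regular hq.out _ _ ha hn)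
    HL HM h2 h3 S (fr_fr_of_desc hA hqM hS hd)
    (fun b hb => (Fermat.Agent.S36.EulerExact.Desc.not_mem_P0_iff_ord_nonneg b).mp (hS b hb))
    (Fermat.Agent.S36.EulerExact.Desc.card_eq_of_desc_nat hA hqM HM HL hS hd)
    hb0 b hb hπ hΘ

include hr hr12 hrM in
/-- **The node set of `X₀(M q)` mod `q` with all its properties and the count.** -/
theorem exists_nodes_count :
    ∃ S : Finset (Place (ResidueField ↥A) ↥(modularFunctionFieldFullC (ResidueField ↥A) M)),
      (∀ b ∈ S, Fr (ResidueField ↥A) M q (Fr (ResidueField ↥A) M q b) = b) ∧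
      (∀ b ∈ S, b ∉ P0 (ResidueField ↥A) M) ∧
      (∀ b ∈ S, Fr (ResidueField ↥A) M q b ∈ S) ∧
      Desc hA hqM S ∧
      ((∀ b : Place (ResidueField ↥A) ↥(modularFunctionFieldFullC (ResidueField ↥A) M),
          b ∉ S → 0 ≤ b.ord (jk (ResidueField ↥A) M) →
          ∃ π Θ : ↥(modularFunctionFieldFullC (ResidueField ↥A) M), b.ord π = 1 ∧
            Fermat.Agent.S36.ThetaL.thetaL (π : LaurentSeries (ResidueField ↥A)) ^ (q - 1) =
              (Θ : LaurentSeries (ResidueField ↥A)) ∧ 0 ≤ b.ord Θ) →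
        ∀ (b : Place (ResidueField ↥A) ↥(modularFunctionFieldFullC (ResidueField ↥A) M)),
          0 ≤ b.ord (jk (ResidueField ↥A) M) →
          ∀ π Θ : ↥(modularFunctionFieldFullC (ResidueField ↥A) M), b.ord π = 1 →
            Fermat.Agent.S36.ThetaL.thetaL (π : LaurentSeries (ResidueField ↥A)) ^ (q - 1) =
              (Θ : LaurentSeries (ResidueField ↥A)) →
            (b ∈ S → b.ord Θ = -2) ∧ (b ∉ S → b.ord Θ = 0)) := by
  obtain ⟨g, gM, HL, HM⟩ := Fermat.Agent.S34.EulerClosedX0.exists_genera A (M * q) M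
  obtain ⟨Y, h1, h2, h3, h4⟩ :=
    Fermat.Agent.S36.NodesDesc.exists_nodes_desc (hA := hA) (hqM := hqM) HM
  exact ⟨Y.S, h1, h2, h3, h4, fun hb0 b hb π Θ hπ hΘ =>
    count_of_desc hA hqM hr hr12 hrM h2 h4 hb0 b hb hπ hΘ⟩

end Fermat.Agent.S36.CountHid
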