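/-
PROJECT V (S36), slice V-B0ii-Wrap (helper13): **the points of the thick component `C₁₁` (chain
(V12)(ii) and (ii')), abstract wrapper.**

`A` a noetherian integrally closed domain (a chart ring of the model), `F = Frac A`, `m` a prime
(the closed point `x`), `W` a valuation subring of `F` containing `A` (`W = W₁₁`), `q : A` (the
residue characteristic), `z ∈ m` and `c : F` with

  `z ^ n = q · c`   (`n = q - 1 ≥ 1`; `z = a₂(a) - a₀(a)`, resp. `a₂(a)/a₀(a) - 1` at a cusp),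

`c` a unit of `W` (the series identity `S36/DiffPow`), `z` a uniformiser of `W`, and

* `hvert` : every conductor-prime valuation ring centred inside `m` in which `q` is a non-unit
  contains `W` (the only vertical component through `x` is `C₁₁`: `Br(x) = {W₁₁}`);
* a residue map `ρ : W → κ` (kernel = non-units) and a valuation subring `Ob` of `κ` (the local ring
  of the component at the point `b` below `x`) with `m = {a | ρ a ∉ Obˣ}` (`x` lies over `b`);
* `ρ c` a unit of `Ob` (the count: `-(θ ā)^{q-1}` has order `0` at `b`).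

Then `c ∈ A_m` (`mem_loc`), `c` is a unit of `A_m` (`isUnit_loc`), no horizontal place centred in
`m` contains `z` in its maximal ideal, and `NakElement.Datum m z W` holds (`datum`): `z` is a local
equation of the component at `x`, so `A_m` is a UFD by `NakElement.Red.ufd`.
-/
import Mathlib
import Fermat.Agent.S36.NakElement

set_option autoImplicit false
set_option linter.unusedSectionVars false
set_option linter.style.haveILetI false

namespace Fermat.Agent.S36.B0Thick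

open Fermat.Agent.S36.KrullInter Fermat.Agent.S36.NakElement

variable {A : Type*} [CommRing A] [IsDomain A] {F : Type*} [Field F] [Algebra A F]
  [IsFractionRing A F] [IsNoetherianRing A] [IsIntegrallyClosed A]

local notation "ι" => algebraMap A F

/-! ### uniformisers in valuation form -/

omit [IsFractionRing A F] [IsNoetherianRing A] [IsIntegrallyClosed A] in
/-- an element of maximal value `< 1` is a uniformiser in the elementary sense -/
theorem unif_of_val (W : ValuationSubring F) {x : F} (hx0 : x ≠ 0) (h1 : W.valuation x < 1)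
    (hg : ∀ w : F, W.valuation w < 1 → W.valuation w ≤ W.valuation x) :
    x⁻¹ ∉ W ∧ ∀ w ∈ W, w⁻¹ ∈ W ∨ w * x⁻¹ ∈ W := by
  refine ⟨?_, ?_⟩
  · intro h
    have h2 : W.valuation x⁻¹ ≤ 1 := (W.valuation_le_one_iff _).mpr h
    rw [map_inv₀] at h2
    have h3 : W.valuation x ≠ 0 := (map_ne_zero _).mpr hx0
    have h4 : 1 ≤ W.valuation x := by
      rwa [inv_le_one₀ (zero_lt_iff.mpr h3)] at h2
    exact absurd h1 (not_lt.mpr h4)
  · intro w hw
    have hw1 : W.valuation w ≤ 1 := (W.valuation_le_one_iff _).mpr hw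
    rcases hw1.lt_or_eq with h | h
    · right
      rw [← W.valuation_le_one_iff, map_mul, map_inv₀]
      have h3 : W.valuation x ≠ 0 := (map_ne_zero _).mpr hx0
      rw [mul_inv_le_iff₀ (zero_lt_iff.mpr h3), one_mul]
      exact hg w h
    · left
      rw [← W.valuation_le_one_iff, map_inv₀, h, inv_one]

/-- the hypotheses at a point of the thick component -/
structure Hyp (m : Ideal A) (W : ValuationSubring F) (q z : A) (c : F) (n : ℕ) : Prop where
  n_pos : 0 < n
  z_mem : z ∈ m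
  z_ne : z ≠ 0
  q_ne : q ≠ 0
  pow_eq : ι z ^ n = ι q * c
  le : ∀ a : A, ι a ∈ W
  c_mem : c ∈ W
  c_inv_mem : c⁻¹ ∈ W
  z_nonunit : (ι z)⁻¹ ∉ W
  z_unif : ∀ w ∈ W, w⁻¹ ∈ W ∨ w * (ι z)⁻¹ ∈ W
  vert : ∀ (Q : Ideal A) (y : F) (h : IsCond Q y), Q ≤ m → q ∈ Q → ∀ w ∈ W, w ∈ h.valuationSubring

variable {m : Ideal A} [hm : m.IsPrime] {W : ValuationSubring F} {q z : A} {c : F} {n : ℕ}

omit hm in
/-- **Constructor in valuation form** (the shape of `ThreeVal.IsUnif` / `OrthoRam.LocalRam`): `W`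
has a uniformiser `ϖ` with `W(q) = W(ϖ)^n` (`e(W₁₁) = q - 1`), `z^n = q c`, `W(c) = 1`. -/
theorem Hyp.of_val (hn : 0 < n) (hzm : z ∈ m) (hq0 : q ≠ 0) (hpow : ι z ^ n = ι q * c)
    (hle : ∀ a : A, ι a ∈ W) (hc : W.valuation c = 1)
    {ϖ : F} (hϖ1 : W.valuation ϖ < 1)
    (hϖg : ∀ w : F, W.valuation w < 1 → W.valuation w ≤ W.valuation ϖ)
    (hqϖ : W.valuation (ι q) = W.valuation ϖ ^ n)
    (hvert : ∀ (Q : Ideal A) (y : F) (h : IsCond Q y), Q ≤ m → q ∈ Q →
      ∀ w ∈ W, w ∈ h.valuationSubring) :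
    Hyp m W q z c n := by
  have hιq : ι q ≠ 0 := algebraMap_ne_zero' hq0
  have hc0 : c ≠ 0 := by
    rintro rfl
    rw [map_zero] at hc
    exact zero_ne_one hc
  have hz0 : z ≠ 0 := by
    rintro rfl
    rw [map_zero, zero_pow (Nat.pos_iff_ne_zero.mp hn)] at hpow
    exact mul_ne_zero hιq hc0 hpow.symm
  have hιz : ι z ≠ 0 := algebraMap_ne_zero' hz0
  have hvz : W.valuation (ι z) = W.valuation ϖ := by
    have h1 : W.valuation (ι z) ^ n = W.valuation ϖ ^ n := by
      rw [← map_pow, hpow, map_mul, hc, mul_one, hqϖ]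
    exact (pow_left_inj₀ zero_le zero_le (Nat.pos_iff_ne_zero.mp hn)).mp h1
  obtain ⟨h1, h2⟩ := unif_of_val W hιz (by rw [hvz]; exact hϖ1)
    (fun w hw => by rw [hvz]; exact hϖg w hw)
  exact
    { n_pos := hn
      z_mem := hzm
      z_ne := hz0
      q_ne := hq0
      pow_eq := hpow
      le := hle
      c_mem := (W.valuation_le_one_iff _).mp hc.le
      c_inv_mem := by
        rw [← W.valuation_le_one_iff, map_inv₀, hc, inv_one]
      z_nonunit := h1
      z_unif := h2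
      vert := hvert }

namespace Hyp

/-- `c` lies in every conductor-prime valuation ring centred inside `m` -/
theorem c_mem_of_le (H : Hyp m W q z c n) {Q : Ideal A} {y : F} (h : IsCond Q y) (hQm : Q ≤ m) :
    c ∈ h.valuationSubring := by
  haveI := h.prime
  by_cases hq : q ∈ Q
  · exact H.vert Q y h hQm hq c H.c_mem
  · have hq0 : ι q ≠ 0 := algebraMap_ne_zero' H.q_ne
    have hc : c = (ι q)⁻¹ * ι z ^ n := by
      rw [H.pow_eq, ← mul_assoc, inv_mul_cancel₀ hq0, one_mul]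
    rw [hc]
    exact mul_mem (inv_mem_locSubring hq) (pow_mem (h.algebraMap_mem z) n)

/-- **`c ∈ A_m`** -/
theorem mem_loc (H : Hyp m W q z c n) : ∃ s : A, s ∉ m ∧ ∃ a : A, ι s * c = ι a := by
  by_contra hcon
  obtain ⟨Q, y, h, hQm, hc⟩ := exists_isCond_le_not_mem m hcon
  exact hc (H.c_mem_of_le h hQm)

/-- the residue data at the point: `ρ : W → κ`, `Ob` the local ring of the component at the point
below `x`, `x` lies over it, and `ρ c` is a unit there -/
structure Res (H : Hyp m W q z c n) {κ : Type*} [Field κ] (ρ : W →+* κ)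
    (Ob : ValuationSubring κ) : Prop where
  centre : ∀ a : A, a ∈ m → ρ ⟨ι a, H.le a⟩ = 0 ∨ (ρ ⟨ι a, H.le a⟩)⁻¹ ∉ Ob
  centre' : ∀ a : A, a ∉ m → ρ ⟨ι a, H.le a⟩ ≠ 0 ∧ (ρ ⟨ι a, H.le a⟩)⁻¹ ∈ Ob
  c_unit : (ρ ⟨c, H.c_mem⟩)⁻¹ ∈ Ob

/-- **`c` is a unit of `A_m`**: `c = t/s` with `s, t ∉ m`. -/
theorem isUnit_loc (H : Hyp m W q z c n) {κ : Type*} [Field κ] {ρ : W →+* κ}
    {Ob : ValuationSubring κ} (R : H.Res ρ Ob) :
    ∃ s t : A, s ∉ m ∧ t ∉ m ∧ ι s * c = ι t := by
  obtain ⟨s, hs, a, ha⟩ := H.mem_loc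
  refine ⟨s, a, hs, ?_, ha⟩
  intro ham
  have hρ : ρ ⟨ι a, H.le a⟩ = ρ ⟨ι s, H.le s⟩ * ρ ⟨c, H.c_mem⟩ := by
    rw [← map_mul]
    congr 1
    exact Subtype.ext ha.symm
  have hc1 : ρ ⟨c, H.c_mem⟩ * ρ ⟨c⁻¹, H.c_inv_mem⟩ = 1 := by
    rw [← map_mul, ← map_one ρ]
    congr 1
    apply Subtype.ext
    have hc0 : c ≠ 0 := by
      intro h0
      have h1 := H.pow_eq
      rw [h0, mul_zero] at h1
      exact algebraMap_ne_zero' H.z_ne (pow_eq_zero_iff (Nat.pos_iff_ne_zero.mp H.n_pos) |>.mp h1)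
    show c * c⁻¹ = 1
    exact mul_inv_cancel₀ hc0
  have hc0 : ρ ⟨c, H.c_mem⟩ ≠ 0 := left_ne_zero_of_mul_eq_one hc1
  obtain ⟨hs0, hs'⟩ := R.centre' s hs
  rcases R.centre a ham with h | h
  · rw [hρ] at h
    exact (mul_ne_zero hs0 hc0) h
  · apply h
    rw [hρ, mul_inv]
    exact mul_mem hs' R.c_unit

/-- **No horizontal prime divisor through `x` contains `z`**: a conductor prime `Q ≤ m` with
`z ∈ Q` contains `q`. -/
theorem q_mem_of_z_mem (H : Hyp m W q z c n) {κ : Type*} [Field κ] {ρ : W →+* κ}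
    {Ob : ValuationSubring κ} (R : H.Res ρ Ob) {Q : Ideal A} {y : F} (h : IsCond Q y)
    (hQm : Q ≤ m) (hzQ : z ∈ Q) : q ∈ Q := by
  haveI := h.prime
  by_contra hq
  obtain ⟨s, t, hs, ht, hst⟩ := H.isUnit_loc R
  have hz : (ι z)⁻¹ ∉ h.valuationSubring := (h.mem_iff_inv_not_mem H.z_ne).1 hzQ
  apply hz
  have hq0 : ι q ≠ 0 := algebraMap_ne_zero' H.q_ne
  have hs0 : s ≠ 0 := fun h0 => hs (h0 ▸ m.zero_mem)
  have ht0 : t ≠ 0 := fun h0 => ht (h0 ▸ m.zero_mem)
  have hιs : ι s ≠ 0 := algebraMap_ne_zero' hs0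
  have hιt : ι t ≠ 0 := algebraMap_ne_zero' ht0
  have hιz : ι z ≠ 0 := algebraMap_ne_zero' H.z_ne
  have hc : c = ι t * (ι s)⁻¹ := by
    rw [← hst]; field_simp
  -- `(ι z)⁻¹ = (ι z)^(n-1) * (ι q)⁻¹ * (ι t)⁻¹ * ι s`
  have hinv : (ι z)⁻¹ = ι z ^ (n - 1) * ((ι q)⁻¹ * ((ι t)⁻¹ * ι s)) := by
    have hpow : ι z ^ n = ι z ^ (n - 1) * ι z := by
      rw [← pow_succ, Nat.sub_add_cancel H.n_pos]
    have h1 : ι z ^ (n - 1) * ι z = ι q * (ι t * (ι s)⁻¹) := by
      rw [← hpow, H.pow_eq, hc]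
    field_simp
    field_simp at h1
    linear_combination -h1
  rw [hinv]
  refine mul_mem (pow_mem (h.algebraMap_mem z) _) (mul_mem (inv_mem_locSubring hq) (mul_mem ?_ ?_))
  · exact inv_mem_locSubring fun htQ => ht (hQm htQ)
  · exact h.algebraMap_mem s

/-- **`z` is a Nakayama element at `x`**: the datum of `S36/NakElement` for `(m, z, W)`. -/
theorem datum (H : Hyp m W q z c n) {κ : Type*} [Field κ] {ρ : W →+* κ}
    {Ob : ValuationSubring κ} (R : H.Res ρ Ob) : Datum m z W where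
  ne_zero := H.z_ne
  mem := H.z_mem
  le := H.le
  nonunit := H.z_nonunit
  div := H.z_unif
  uniq Q y h hQm hzQ := H.vert Q y h hQm (H.q_mem_of_z_mem R h hQm hzQ)

/-- **The local ring at a point of the thick component is a UFD**, with `z` a prime element
generating the ideal of the component: `NakElement.Red.ufd` for the datum above, `T = Ob` (a DVR
or a field), given that the reduction of `A_m` is all of `Ob` (chain (V8)). -/
theorem ufd (H : Hyp m W q z c n) {κ : Type*} [Field κ] {ρ : W →+* κ}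
    {Ob : ValuationSubring κ} (R : H.Res ρ Ob) (hker : ∀ x : W, ρ x = 0 ↔ ¬ IsUnit x)
    [IsPrincipalIdealRing ↥Ob.toSubring]
    (hmem : ∀ a : A, ρ ⟨ι a, H.le a⟩ ∈ Ob)
    (hsurj : ∀ t ∈ Ob, ∃ a s : A, s ∉ m ∧ ρ ⟨ι s, H.le s⟩ * t = ρ ⟨ι a, H.le a⟩) :
    UniqueFactorizationMonoid (Localization.AtPrime m) ∧
      Prime (algebraMap A (Localization.AtPrime m) z) := by
  have D := H.datum R
  have hR := D.red_of_valuationSubring ρ hker Ob.toSubring hmem
    (fun a ha => (R.centre' a ha).2) hsurj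
  exact ⟨hR.ufd, hR.prime_y⟩

end Hyp

end Fermat.Agent.S36.B0Thick
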