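/-
PROJECT V (S36), slice V-B0ii-Bridge (helper13), chart-independent form: **from the thick-point
data `B0Thick.Hyp` to the `h11` input of `AllPointsT.locPrincipal_of_isMaximal`** (chain
(V12)(ii) and (ii')) for helper1's going-down-free `BranchCoreT.TDatum` (valid on BOTH charts
`{x₂ ≠ ∞}` and `{x₂ ≠ 0}`; `S36/B0ThickBridge` is the same statement for `BranchCore.Datum`).

CORE (`Core.exists_h11`, no datum at all): `r : A →+* B` a ring homomorphism (`= r11`), `ϖ ∈ ker r`,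
`n` a prime of `B`, `m = n.comap r`, and

  `hmin : ∀ Q prime, Q ≤ m → ϖ ∈ Q → ker r ≤ Q`   (the only vertical branch through `m` is `ker r`).

INPUT (fraction form, so that the middle cusps (ii') are covered):

* `W` a valuation subring of `F = Frac A` with `A ⊆ W` whose centre on `A` is `ker r`
  (`hcentre : r a = 0 ↔ ι a ∈ W.nonunits`, i.e. `ThreeValRes.ker₁₁`);
* a uniformiser `ϖ₁` of `W` with `W(ϖ) = W(ϖ₁)^k` (`k = q - 1`, `ThreeVal` (VAL));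
* `z₀ c₀ : F` with `z₀ ^ k = ϖ c₀`, `W(c₀) = 1`  (`z₀ = a₂(a) - a₀(a)` resp. `j₂/j₀ - 1`);
* a denominator `s₀ ∉ m` with `s₀ z₀ = z ∈ A` (`s₀ = 1` at the ordinary points;
  `MiddleCuspUnit.Hyp.exists_local_eq` at the middle cusps);
* a residue map `ρ : W → κ` and the valuation ring `Ob` of `κ` at the place below `m`:
  `a ∈ m ↔ ρ a = 0 ∨ (ρ a)⁻¹ ∉ Ob`, and `ρ c₀` a unit of `Ob` (the count `ν_b = 0`).

OUTPUT: `z ≠ 0`, `z ∈ ker r`, `BranchEq (ker r) z` and `s z ^ k = ϖ c` with `c ∉ m`.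

`exists_h11` : the same for `D : BranchCoreT.TDatum A₁ A B`, `r = D.r11`, `n ∉ D.S` maximal:
literally the `h11` tuple of `AllPointsT.locPrincipal_of_isMaximal`.
-/
import Mathlib
import Fermat.Agent.S36.AllPointsT
import Fermat.Agent.S36.B0Thick
import Fermat.Agent.S36.CentreCore

set_option autoImplicit false
set_option linter.unusedSectionVars false
set_option linter.style.haveILetI false
set_option linter.unusedVariables false

namespace Fermat.Agent.S36.B0ThickBridgeT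

open Fermat.Agent.S36.KrullInter Fermat.Agent.S36.NakElement Fermat.Agent.S36.CentreCore
open Fermat.Agent.S36.AllPoints Fermat.Agent.S36.B0Thick

variable {A B : Type*} [CommRing A] [CommRing B]
  [IsDomain A] [IsNoetherianRing A] [IsIntegrallyClosed A] [IsDomain B]
  {F : Type*} [Field F] [Algebra A F] [IsFractionRing A F]

local notation "ι" => algebraMap A F

namespace Core

/-- a minimal prime over a nonzero principal ideal is a conductor prime -/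
theorem exists_isCond_of_mem_minimalPrimes {P : Ideal A} {a : A} (ha0 : a ≠ 0)
    (hmin : P ∈ (Ideal.span {a}).minimalPrimes) : ∃ y : F, IsCond P y := by
  have hP : P.IsPrime := hmin.1.1
  have hcolon : (Ideal.span {a} : Submodule A A).colon {(1 : A)} = Ideal.span {a} := by
    ext r
    rw [Submodule.mem_colon_singleton, smul_eq_mul, mul_one]
  rw [← hcolon] at hmin
  obtain ⟨b, hb⟩ := Submodule.exists_eq_colon_of_mem_minimalPrimes hmin
  refine ⟨ι b / ι a, hP, fun r => ?_⟩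
  rw [hb, Submodule.mem_colon_singleton, smul_eq_mul]
  have hia := algebraMap_ne_zero' (F := F) ha0
  constructor
  · intro hr
    obtain ⟨c, hc⟩ := Ideal.mem_span_singleton'.1 hr
    refine ⟨c, ?_⟩
    rw [mul_div_assoc', ← map_mul, ← hc, map_mul, mul_div_cancel_right₀ _ hia]
  · rintro ⟨c, hc⟩
    apply Ideal.mem_span_singleton'.2
    refine ⟨c, ?_⟩
    apply IsFractionRing.injective A F
    rw [map_mul, map_mul, ← hc]
    field_simp

variable (r : A →+* B) (ϖ : A) (n : Ideal B)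

/-- `ker r` is a minimal prime over `(ϖ)` -/
theorem ker_mem_minimalPrimes (hϖ : ϖ ∈ RingHom.ker r)
    (hmin : ∀ Q : Ideal A, Q.IsPrime → Q ≤ n.comap r → ϖ ∈ Q → RingHom.ker r ≤ Q) :
    RingHom.ker r ∈ (Ideal.span {ϖ}).minimalPrimes := by
  have hle : RingHom.ker r ≤ n.comap r := fun a ha => by
    rw [Ideal.mem_comap, (RingHom.mem_ker).mp ha]
    exact n.zero_mem
  refine ⟨⟨RingHom.ker_isPrime r, (Ideal.span_singleton_le_iff_mem _).2 hϖ⟩, ?_⟩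
  rintro Q ⟨hQ, hϖQ⟩ hQP
  exact hmin Q hQ (hQP.trans hle) ((Ideal.span_singleton_le_iff_mem _).1 hϖQ)

/-- the centre of `W` on the chart is `ker r` -/
theorem centre_eq_ker (W : ValuationSubring F) (hle : ∀ a : A, ι a ∈ W)
    (hcentre : ∀ a : A, r a = 0 ↔ ι a ∈ W.nonunits) :
    centre W hle = RingHom.ker r := by
  ext a
  rw [mem_centre, RingHom.mem_ker, hcentre]

/-- **the hypothesis `vert` of `B0Thick.Hyp`** -/
theorem vert (W : ValuationSubring F) (hle : ∀ a : A, ι a ∈ W)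
    (hcentre : ∀ a : A, r a = 0 ↔ ι a ∈ W.nonunits) (hϖ0 : ϖ ≠ 0) (hϖ : ϖ ∈ RingHom.ker r)
    (hmin : ∀ Q : Ideal A, Q.IsPrime → Q ≤ n.comap r → ϖ ∈ Q → RingHom.ker r ≤ Q)
    (Q : Ideal A) (y : F) (h : IsCond Q y) (hQm : Q ≤ n.comap r) (hϖQ : ϖ ∈ Q) :
    ∀ w ∈ W, w ∈ h.valuationSubring := by
  haveI := h.prime
  have hle' : RingHom.ker r ≤ Q := hmin Q h.prime hQm hϖQ
  haveI : (RingHom.ker r).IsPrime := RingHom.ker_isPrime r
  have hne : RingHom.ker r ≠ ⊥ := by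
    intro hbot
    rw [hbot, Ideal.mem_bot] at hϖ
    exact hϖ0 hϖ
  have heq : RingHom.ker r = Q := (h.eq_bot_or_eq_of_le _ hle').resolve_left hne
  have hW : W = h.valuationSubring :=
    eq_valuationSubring_of_centre W hle h ((centre_eq_ker r W hle hcentre).trans heq)
  intro w hw
  rw [← hW]
  exact hw

/-- **a uniformiser of `W` lying in the chart is a local equation of the thick component** -/
theorem branchEq_of_unif (W : ValuationSubring F) (hle : ∀ a : A, ι a ∈ W)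
    (hcentre : ∀ a : A, r a = 0 ↔ ι a ∈ W.nonunits) (hϖ0 : ϖ ≠ 0) (hϖ : ϖ ∈ RingHom.ker r)
    (hmin : ∀ Q : Ideal A, Q.IsPrime → Q ≤ n.comap r → ϖ ∈ Q → RingHom.ker r ≤ Q)
    {z : A} (hz0 : z ≠ 0) (hunif : ∀ w ∈ W, w⁻¹ ∈ W ∨ w * (ι z)⁻¹ ∈ W) :
    BranchEq (RingHom.ker r) z := by
  obtain ⟨y, h⟩ := exists_isCond_of_mem_minimalPrimes (F := F) hϖ0
    (ker_mem_minimalPrimes r ϖ n hϖ hmin)
  haveI := h.prime
  have hW : W = h.valuationSubring :=
    eq_valuationSubring_of_centre W hle h (centre_eq_ker r W hle hcentre)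
  have hιz : ι z ≠ 0 := algebraMap_ne_zero' hz0
  intro a ha
  by_cases ha0 : a = 0
  · refine ⟨1, fun h1 => ?_, 0, by rw [ha0, mul_zero, zero_mul]⟩
    exact (RingHom.ker_isPrime r).ne_top ((Ideal.eq_top_iff_one _).2 h1)
  have hanu : ι a ∈ W.nonunits := (hcentre a).mp ((RingHom.mem_ker).mp ha)
  have hinv : (ι a)⁻¹ ∉ W := by
    rcases (W.mem_nonunits_iff_or).mp hanu with h0 | h0
    · exact absurd h0 (algebraMap_ne_zero' ha0)
    · exact h0
  have hdiv : ι a * (ι z)⁻¹ ∈ W := (hunif _ (hle a)).resolve_left hinv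
  rw [hW] at hdiv
  obtain ⟨s, hs, b, hb⟩ := hdiv
  refine ⟨s, hs, b, ?_⟩
  apply IsFractionRing.injective A F
  rw [map_mul, map_mul, ← hb]
  field_simp

/-- **(V12)(ii)(ii') ⟹ `h11`, datum-free core.** -/
theorem exists_h11 [hn : n.IsPrime] (hϖ0 : ϖ ≠ 0) (hϖ : ϖ ∈ RingHom.ker r)
    (hmin : ∀ Q : Ideal A, Q.IsPrime → Q ≤ n.comap r → ϖ ∈ Q → RingHom.ker r ≤ Q)
    (W : ValuationSubring F) (hle : ∀ a : A, ι a ∈ W)
    (hcentre : ∀ a : A, r a = 0 ↔ ι a ∈ W.nonunits)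
    {ϖ₁ : F} (hϖ1 : W.valuation ϖ₁ < 1)
    (hϖg : ∀ w : F, W.valuation w < 1 → W.valuation w ≤ W.valuation ϖ₁)
    {k : ℕ} (hk : 0 < k) (hqϖ : W.valuation (ι ϖ) = W.valuation ϖ₁ ^ k)
    {z₀ c₀ : F} (hpow : z₀ ^ k = ι ϖ * c₀) (hc₀ : W.valuation c₀ = 1)
    {s₀ z : A} (hs₀ : s₀ ∉ n.comap r) (hz : ι s₀ * z₀ = ι z)
    {κ : Type*} [Field κ] (ρ : W →+* κ) (Ob : ValuationSubring κ)
    (hcen : ∀ a : A, a ∈ n.comap r ↔ ρ ⟨ι a, hle a⟩ = 0 ∨ (ρ ⟨ι a, hle a⟩)⁻¹ ∉ Ob)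
    (hcu : (ρ ⟨c₀, (W.valuation_le_one_iff _).mp hc₀.le⟩)⁻¹ ∈ Ob) :
    ∃ z : A, z ≠ 0 ∧ z ∈ RingHom.ker r ∧ BranchEq (RingHom.ker r) z ∧
      ∃ (s c : A) (k : ℕ), 0 < k ∧ c ∉ n.comap r ∧ s * z ^ k = ϖ * c := by
  haveI : (n.comap r).IsPrime := Ideal.comap_isPrime r n
  have hkerle : RingHom.ker r ≤ n.comap r := fun a ha => by
    rw [Ideal.mem_comap, (RingHom.mem_ker).mp ha]
    exact n.zero_mem
  have hc₀W : c₀ ∈ W := (W.valuation_le_one_iff _).mp hc₀.le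
  -- `s₀` is a unit of `W`
  have hs₀ker : s₀ ∉ RingHom.ker r := fun h => hs₀ (hkerle h)
  have hvs₀ : W.valuation (ι s₀) = 1 := by
    have h1 : W.valuation (ι s₀) ≤ 1 := (W.valuation_le_one_iff _).mpr (hle s₀)
    refine le_antisymm h1 ?_
    by_contra hlt
    rw [not_le] at hlt
    apply hs₀ker
    rw [RingHom.mem_ker, hcentre, ValuationSubring.mem_nonunits_iff]
    exact hlt
  -- the integral data
  set c : F := ι s₀ ^ k * c₀ with hcdef
  have hpow' : ι z ^ k = ι ϖ * c := by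
    rw [← hz, mul_pow, hpow, hcdef]
    ring
  have hvc : W.valuation c = 1 := by
    rw [hcdef, map_mul, map_pow, hvs₀, one_pow, one_mul, hc₀]
  -- `z ∈ ker r`
  have hvz : W.valuation (ι z) = W.valuation ϖ₁ := by
    have h1 : W.valuation (ι z) ^ k = W.valuation ϖ₁ ^ k := by
      rw [← map_pow, hpow', map_mul, hvc, mul_one, hqϖ]
    exact (pow_left_inj₀ zero_le zero_le (Nat.pos_iff_ne_zero.mp hk)).mp h1
  have hzker : z ∈ RingHom.ker r := by
    rw [RingHom.mem_ker, hcentre, ValuationSubring.mem_nonunits_iff, hvz]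
    exact hϖ1
  have hzm : z ∈ n.comap r := hkerle hzker
  -- the hypotheses of `B0Thick`
  have H : Hyp (n.comap r) W ϖ z c k :=
    Hyp.of_val hk hzm hϖ0 hpow' hle hvc hϖ1 hϖg hqϖ
      (fun Q y h hQm hϖQ => vert r ϖ n W hle hcentre hϖ0 hϖ hmin Q y h hQm hϖQ)
  have hρc : ρ ⟨c, H.c_mem⟩ = ρ ⟨ι s₀, hle s₀⟩ ^ k * ρ ⟨c₀, hc₀W⟩ := by
    rw [← map_pow, ← map_mul]
    rfl
  have hs₀ρ : ρ ⟨ι s₀, hle s₀⟩ ≠ 0 ∧ (ρ ⟨ι s₀, hle s₀⟩)⁻¹ ∈ Ob := by
    have h1 := (not_congr (hcen s₀)).mp hs₀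
    push Not at h1
    exact h1
  have R : H.Res ρ Ob :=
    { centre := fun a ha => (hcen a).mp ha
      centre' := fun a ha => by
        have h1 := (not_congr (hcen a)).mp ha
        push Not at h1
        exact h1
      c_unit := by
        rw [hρc, mul_inv, ← inv_pow]
        exact mul_mem (pow_mem hs₀ρ.2 k) hcu }
  obtain ⟨s, t, hs, ht, hst⟩ := H.isUnit_loc R
  refine ⟨z, H.z_ne, hzker,
    branchEq_of_unif r ϖ n W hle hcentre hϖ0 hϖ hmin H.z_ne H.z_unif, s, t, k, hk, ht, ?_⟩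
  apply IsFractionRing.injective A F
  rw [map_mul, map_pow, map_mul, hpow', ← hst]
  ring

end Core

/-! ### the `TDatum` form -/

variable {A₁ : Type*} [CommRing A₁] (D : BranchCoreT.TDatum A₁ A B)

/-- a prime inside `x₁₁(n)`, `n ∉ S`, which contains `ϖ`, contains `ker r11` -/
theorem ker_r11_le_of_mem {n : Ideal B} (hn : n.IsMaximal) (hS : n ∉ D.S) {Q : Ideal A}
    (hQ : Q.IsPrime) (hQm : Q ≤ D.x11 n) (hϖQ : D.ϖ ∈ Q) : RingHom.ker D.r11 ≤ Q := by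
  have hrad : (Ideal.span {D.ϖ}).radical ≤ Q := by
    rw [hQ.radical_le_iff, Ideal.span_singleton_le_iff_mem]
    exact hϖQ
  rw [← D.ker_inf] at hrad
  obtain ⟨h20, h02⟩ := AllPointsT.not_le_x11 D hn hS
  rcases (hQ.inf_le).mp hrad with h | h
  · rcases (hQ.inf_le).mp h with h | h
    · exact absurd (h.trans hQm) h20
    · exact h
  · exact absurd (h.trans hQm) h02

/-- **(V12)(ii)(ii') ⟹ `h11`** for a `TDatum`: literally the `h11` tuple of
`AllPointsT.locPrincipal_of_isMaximal` at one place `n ∉ D.S`. -/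
theorem exists_h11 {n : Ideal B} (hn : n.IsMaximal) (hS : n ∉ D.S) (hϖ0 : D.ϖ ≠ 0)
    (W : ValuationSubring F) (hle : ∀ a : A, ι a ∈ W)
    (hcentre : ∀ a : A, D.r11 a = 0 ↔ ι a ∈ W.nonunits)
    {ϖ₁ : F} (hϖ1 : W.valuation ϖ₁ < 1)
    (hϖg : ∀ w : F, W.valuation w < 1 → W.valuation w ≤ W.valuation ϖ₁)
    {k : ℕ} (hk : 0 < k) (hqϖ : W.valuation (ι D.ϖ) = W.valuation ϖ₁ ^ k)
    {z₀ c₀ : F} (hpow : z₀ ^ k = ι D.ϖ * c₀) (hc₀ : W.valuation c₀ = 1)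
    {s₀ z : A} (hs₀ : s₀ ∉ D.x11 n) (hz : ι s₀ * z₀ = ι z)
    {κ : Type*} [Field κ] (ρ : W →+* κ) (Ob : ValuationSubring κ)
    (hcen : ∀ a : A, a ∈ D.x11 n ↔ ρ ⟨ι a, hle a⟩ = 0 ∨ (ρ ⟨ι a, hle a⟩)⁻¹ ∉ Ob)
    (hcu : (ρ ⟨c₀, (W.valuation_le_one_iff _).mp hc₀.le⟩)⁻¹ ∈ Ob) :
    ∃ z : A, z ≠ 0 ∧ z ∈ RingHom.ker D.r11 ∧ BranchEq (RingHom.ker D.r11) z ∧
      ∃ (s c : A) (k : ℕ), 0 < k ∧ c ∉ D.x11 n ∧ s * z ^ k = D.ϖ * c := by
  haveI := hn.isPrime
  exact Core.exists_h11 D.r11 D.ϖ n hϖ0 (AllPointsT.ϖ_mem_ker D).1.2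
    (fun Q hQ hQm hϖQ => ker_r11_le_of_mem D hn hS hQ hQm hϖQ)
    W hle hcentre hϖ1 hϖg hk hqϖ hpow hc₀ hs₀ hz ρ Ob hcen hcu

end Fermat.Agent.S36.B0ThickBridgeT
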