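import Mathlib
import Fermat.Agent.S36.B0Thick

/-!
# PROJECT V (S36), chain (V13): the one-sided bound of the count at the ordinary points of `C₁₁`

`S36/B0Thick` (helper13) treats a closed point `x` of the thick component: `z ^ n = q c`, `c` a unit
of `W = W₁₁`, `Br(x) = {W₁₁}`; its `Res` structure contains the OUTPUT of the count (`c_unit`: the
reduction `ρ c = -(θ ā)^{q-1}` is a unit at the point `b` below `x`).  The count itself needs the
weaker statement FIRST, for every such `x`, as its hypothesis `hb0`: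

* `rho_c_mem` : `ρ c` is REGULAR at `b`, i.e. `ρ c ∈ Ob`.  Proof: `c ∈ A_m` (`B0Thick.Hyp.mem_loc`,
  Krull intersection: the only vertical prime divisor through `x` is `W`, and `q` is a unit at the
  horizontal ones), so `c = a / s` with `s ∉ m`, and `ρ s` is a unit of `Ob`.

No circularity: only `Hyp` and the half `centre'` of `Res` are used, not `c_unit`.

* `res_of_unit` : conversely, once the count has shown that `ρ c` is a unit at `b`, the structure
  `Res` is complete.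
-/

set_option autoImplicit false
set_option linter.unusedSectionVars false
set_option linter.style.haveILetI false

namespace Fermat.Agent.S36.CountBound

open Fermat.Agent.S36.KrullInter Fermat.Agent.S36.NakElement Fermat.Agent.S36.B0Thick

variable {A : Type*} [CommRing A] [IsDomain A] {F : Type*} [Field F] [Algebra A F]
  [IsFractionRing A F] [IsNoetherianRing A] [IsIntegrallyClosed A]

local notation "ι" => algebraMap A F

variable {m : Ideal A} [hm : m.IsPrime] {W : ValuationSubring F} {q z : A} {c : F} {n : ℕ}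

/-- **The bound `hb0` of the count**: `ρ c` is regular at the point below `x`. -/
theorem rho_c_mem (H : Hyp m W q z c n) {κ : Type*} [Field κ] {ρ : W →+* κ}
    {Ob : ValuationSubring κ}
    (hcentre' : ∀ a : A, a ∉ m → ρ ⟨ι a, H.le a⟩ ≠ 0 ∧ (ρ ⟨ι a, H.le a⟩)⁻¹ ∈ Ob)
    (hmem : ∀ a : A, ρ ⟨ι a, H.le a⟩ ∈ Ob) : ρ ⟨c, H.c_mem⟩ ∈ Ob := by
  obtain ⟨s, hs, a, ha⟩ := H.mem_loc
  have hρ : ρ ⟨ι a, H.le a⟩ = ρ ⟨ι s, H.le s⟩ * ρ ⟨c, H.c_mem⟩ := by
    rw [← map_mul]
    congr 1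
    exact Subtype.ext ha.symm
  obtain ⟨hs0, hs'⟩ := hcentre' s hs
  have hc : ρ ⟨c, H.c_mem⟩ = (ρ ⟨ι s, H.le s⟩)⁻¹ * ρ ⟨ι a, H.le a⟩ := by
    rw [hρ, ← mul_assoc, inv_mul_cancel₀ hs0, one_mul]
  rw [hc]
  exact mul_mem hs' (hmem a)

/-- the structure `B0Thick.Hyp.Res` from its two centre conditions and the output of the count -/
theorem res_of_unit (H : Hyp m W q z c n) {κ : Type*} [Field κ] {ρ : W →+* κ}
    {Ob : ValuationSubring κ}
    (hcentre : ∀ a : A, a ∈ m → ρ ⟨ι a, H.le a⟩ = 0 ∨ (ρ ⟨ι a, H.le a⟩)⁻¹ ∉ Ob)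
    (hcentre' : ∀ a : A, a ∉ m → ρ ⟨ι a, H.le a⟩ ≠ 0 ∧ (ρ ⟨ι a, H.le a⟩)⁻¹ ∈ Ob)
    (hunit : (ρ ⟨c, H.c_mem⟩)⁻¹ ∈ Ob) : H.Res ρ Ob :=
  ⟨hcentre, hcentre', hunit⟩

end Fermat.Agent.S36.CountBound
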