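/-
PROJECT V (S36), chain (V13), hypothesis `hb0` of the count (helper29): **the one-sided bound at the
ordinary points of the thick component, in the hypothesis language of
`S36/B0ThickBridgeT.exists_h11`** (helper13).

`B0ThickBridgeT.exists_h11` turns the thick-point data `(W, ϖ₁, z₀, c₀, s₀, z, ρ, Ob)` at a place
`n ∉ S` PLUS the output of the count (`hcu : (ρ c₀)⁻¹ ∈ Ob`) into the `h11` tuple of
`AllPointsT.locPrincipal_of_isMaximal`.  The count needs FIRST, from the SAME data WITHOUT `hcu`: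

  `ρ c₀ ∈ Ob`     (`ρ c₀ = -(θ ā)^(q-1)` is regular at the place `b` below the point),

which is its hypothesis `hb0`.  Proof: `B0Thick.Hyp` (built exactly as in `exists_h11`) gives
`c = s₀^k c₀ ∈ A_m` (Krull intersection, `Hyp.mem_loc`), so `ρ c ∈ Ob` (`CountBound.rho_c_mem`), and
`ρ s₀` is a unit of `Ob`.

* `Core.rho_c0_mem` : datum-free (`r : A →+* B`, `ϖ ∈ ker r`, `hmin`);
* `rho_c0_mem` : for `D : BranchCoreT.TDatum A₁ A B`, `r = D.r11`, `n ∉ D.S` maximal: the hypotheses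
  are VERBATIM those of `B0ThickBridgeT.exists_h11` with `hcu` replaced by
  `hmem : ∀ a, ρ ⟨ι a, hle a⟩ ∈ Ob` (the chart ring reduces into the local ring of `b`).
-/
import Mathlib
import Fermat.Agent.S36.B0ThickBridgeT
import Fermat.Agent.S36.CountBound

set_option autoImplicit false
set_option linter.unusedSectionVars false
set_option linter.style.haveILetI false
set_option linter.unusedVariables false

namespace Fermat.Agent.S36.B0ThickCount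

open Fermat.Agent.S36.KrullInter Fermat.Agent.S36.NakElement Fermat.Agent.S36.CentreCore
open Fermat.Agent.S36.AllPoints Fermat.Agent.S36.B0Thick

variable {A B : Type*} [CommRing A] [CommRing B]
  [IsDomain A] [IsNoetherianRing A] [IsIntegrallyClosed A] [IsDomain B]
  {F : Type*} [Field F] [Algebra A F] [IsFractionRing A F]

local notation "ι" => algebraMap A F

namespace Core

variable (r : A →+* B) (ϖ : A) (n : Ideal B)

/-- **The bound `hb0` of the count, datum-free core**: same hypotheses as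
`B0ThickBridgeT.Core.exists_h11` without `hcu`, plus `hmem`. -/
theorem rho_c0_mem [hn : n.IsPrime] (hϖ0 : ϖ ≠ 0) (hϖ : ϖ ∈ RingHom.ker r)
    (hmin : ∀ Q : Ideal A, Q.IsPrime → Q ≤ n.comap r → ϖ ∈ Q → RingHom.ker r ≤ Q)
    (W : ValuationSubring F) (hle : ∀ a : A, ι a ∈ W)
    (hcentre : ∀ a : A, r a = 0 ↔ ι a ∈ W.nonunits)
    {ϖ₁ : F} (hϖ1 : W.valuation ϖ₁ < 1)
    (hϖg : ∀ w : F, W.valuation w < 1 → W.valuation w ≤ W.valuation ϖ₁)
    {k : ℕ} (hk : 0 < k) (hqϖ : W.valuation (ι ϖ) = W.valuation ϖ₁ ^ k)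
    {z₀ c₀ : F} (hpow : z₀ ^ k = ι ϖ * c₀) (hc₀ : W.valuation c₀ = 1)
    {s₀ z : A} (hs₀ : s₀ ∉ n.comap r) (hz : ι s₀ * z₀ = ι z)
    {κ : Type*} [Field κ] (ρ : W →+* κ) (Ob : ValuationSubring κ)
    (hcen : ∀ a : A, a ∈ n.comap r ↔ ρ ⟨ι a, hle a⟩ = 0 ∨ (ρ ⟨ι a, hle a⟩)⁻¹ ∉ Ob)
    (hmem : ∀ a : A, ρ ⟨ι a, hle a⟩ ∈ Ob) :
    ρ ⟨c₀, (W.valuation_le_one_iff _).mp hc₀.le⟩ ∈ Ob := by
  haveI : (n.comap r).IsPrime := Ideal.comap_isPrime r n
  have hkerle : RingHom.ker r ≤ n.comap r := fun a ha => by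
    rw [Ideal.mem_comap, (RingHom.mem_ker).mp ha]
    exact n.zero_mem
  have hc₀W : c₀ ∈ W := (W.valuation_le_one_iff _).mp hc₀.le
  have hs₀ker : s₀ ∉ RingHom.ker r := fun h => hs₀ (hkerle h)
  have hvs₀ : W.valuation (ι s₀) = 1 := by
    have h1 : W.valuation (ι s₀) ≤ 1 := (W.valuation_le_one_iff _).mpr (hle s₀)
    refine le_antisymm h1 ?_
    by_contra hlt
    rw [not_le] at hlt
    apply hs₀ker
    rw [RingHom.mem_ker, hcentre, ValuationSubring.mem_nonunits_iff]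
    exact hlt
  set c : F := ι s₀ ^ k * c₀ with hcdef
  have hpow' : ι z ^ k = ι ϖ * c := by
    rw [← hz, mul_pow, hpow, hcdef]
    ring
  have hvc : W.valuation c = 1 := by
    rw [hcdef, map_mul, map_pow, hvs₀, one_pow, one_mul, hc₀]
  have hvz : W.valuation (ι z) = W.valuation ϖ₁ := by
    have h1 : W.valuation (ι z) ^ k = W.valuation ϖ₁ ^ k := by
      rw [← map_pow, hpow', map_mul, hvc, mul_one, hqϖ]
    exact (pow_left_inj₀ zero_le zero_le (Nat.pos_iff_ne_zero.mp hk)).mp h1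
  have hzker : z ∈ RingHom.ker r := by
    rw [RingHom.mem_ker, hcentre, ValuationSubring.mem_nonunits_iff, hvz]
    exact hϖ1
  have hzm : z ∈ n.comap r := hkerle hzker
  have H : Hyp (n.comap r) W ϖ z c k :=
    Hyp.of_val hk hzm hϖ0 hpow' hle hvc hϖ1 hϖg hqϖ
      (fun Q y h hQm hϖQ =>
        Fermat.Agent.S36.B0ThickBridgeT.Core.vert r ϖ n W hle hcentre hϖ0 hϖ hmin Q y h hQm hϖQ)
  have hcentre' : ∀ a : A, a ∉ n.comap r →
      ρ ⟨ι a, H.le a⟩ ≠ 0 ∧ (ρ ⟨ι a, H.le a⟩)⁻¹ ∈ Ob := fun a ha => by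
    have h1 := (not_congr (hcen a)).mp ha
    push Not at h1
    exact h1
  have hρcmem : ρ ⟨c, H.c_mem⟩ ∈ Ob :=
    Fermat.Agent.S36.CountBound.rho_c_mem H hcentre' (fun a => hmem a)
  have hρc : ρ ⟨c, H.c_mem⟩ = ρ ⟨ι s₀, hle s₀⟩ ^ k * ρ ⟨c₀, hc₀W⟩ := by
    rw [← map_pow, ← map_mul]
    rfl
  obtain ⟨hs0ne, hs0inv⟩ := hcentre' s₀ hs₀
  have hfin : ρ ⟨c₀, hc₀W⟩ = (ρ ⟨ι s₀, hle s₀⟩)⁻¹ ^ k * ρ ⟨c, H.c_mem⟩ := by
    rw [hρc, ← mul_assoc, ← mul_pow, inv_mul_cancel₀ hs0ne, one_pow, one_mul]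
  rw [hfin]
  exact mul_mem (pow_mem hs0inv k) hρcmem

end Core

/-! ### the `TDatum` form -/

variable {A₁ : Type*} [CommRing A₁] (D : BranchCoreT.TDatum A₁ A B)

/-- **The bound `hb0` of the count at a place `n ∉ D.S`**: the hypotheses are verbatim those of
`B0ThickBridgeT.exists_h11`, with `hcu` replaced by `hmem`. -/
theorem rho_c0_mem {n : Ideal B} (hn : n.IsMaximal) (hS : n ∉ D.S) (hϖ0 : D.ϖ ≠ 0)
    (W : ValuationSubring F) (hle : ∀ a : A, ι a ∈ W)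
    (hcentre : ∀ a : A, D.r11 a = 0 ↔ ι a ∈ W.nonunits)
    {ϖ₁ : F} (hϖ1 : W.valuation ϖ₁ < 1)
    (hϖg : ∀ w : F, W.valuation w < 1 → W.valuation w ≤ W.valuation ϖ₁)
    {k : ℕ} (hk : 0 < k) (hqϖ : W.valuation (ι D.ϖ) = W.valuation ϖ₁ ^ k)
    {z₀ c₀ : F} (hpow : z₀ ^ k = ι D.ϖ * c₀) (hc₀ : W.valuation c₀ = 1)
    {s₀ z : A} (hs₀ : s₀ ∉ D.x11 n) (hz : ι s₀ * z₀ = ι z)
    {κ : Type*} [Field κ] (ρ : W →+* κ) (Ob : ValuationSubring κ)
    (hcen : ∀ a : A, a ∈ D.x11 n ↔ ρ ⟨ι a, hle a⟩ = 0 ∨ (ρ ⟨ι a, hle a⟩)⁻¹ ∉ Ob)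
    (hmem : ∀ a : A, ρ ⟨ι a, hle a⟩ ∈ Ob) :
    ρ ⟨c₀, (W.valuation_le_one_iff _).mp hc₀.le⟩ ∈ Ob := by
  haveI := hn.isPrime
  exact Core.rho_c0_mem D.r11 D.ϖ n hϖ0 (AllPointsT.ϖ_mem_ker D).1.2
    (fun Q hQ hQm hϖQ => Fermat.Agent.S36.B0ThickBridgeT.ker_r11_le_of_mem D hn hS hQ hQm hϖQ)
    W hle hcentre hϖ1 hϖg hk hqϖ hpow hc₀ hs₀ hz ρ Ob hcen hmem

end Fermat.Agent.S36.B0ThickCount
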