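/-
PROJECT V (S36), slice V-B0ii-Theta (helper13): **the `(q-1)`-th power of a `ζ`-difference is
`q` times an integral fraction with reduction `-(θ F̄)^{q-1}`** — the identity
`r₁₁((a₂(a) - a₀(a))^{q-1}/q) = -(θ ā)^{q-1}` of chain (V12)(ii) in abstract Laurent-series form.

Setting: `R` a commutative ring (think: a valuation ring of `ℚ̄` over `q`), `ζ ∈ Rˣ` with
`∏_{1 ≤ b < q} (1 - ζ^b) = q` (a primitive `q`-th root of unity), `π : R → k` a reduction onto a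
field of characteristic `q` with `π ζ = 1`, `ι : R → L` into a field.  An *integral fraction* is
`F ∈ L((t))` with `F · Y = X`, `X, Y ∈ R((t))`, `Ȳ ≠ 0`; its reduction is `F̄ = X̄/Ȳ`.

* `gprod ζ q = ∏_{1 ≤ b < q} [b]_ζ`, `(1 - ζ)^{q-1} · gprod = ∏ (1 - ζ^b)`, `π (gprod) = (q-1)! = -1`
  (Wilson);
* `rescale_sub_pow_mul` : `(f(ζ t) - f)^{q-1} · gprod = q · (-1)^{q-1} (D_ζ f)^{q-1}` in `R((t))`;
* `exists_fraction_pow` : for an integral fraction `F`: `(F(ζ t) - F)^{q-1} · Y' = q · X'` with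
  `Ȳ' ≠ 0` and `X̄' = -(θ F̄)^{q-1} Ȳ'`;
* `exists_fraction_pow_div` : the multiplicative form `((F(ζ t) - F)/F)^{q-1}` (cusps), reduction
  `-(θ F̄ / F̄)^{q-1}`.
-/
import Mathlib
import Fermat.Agent.S36.DiagTheta
import Fermat.Agent.S36.ThetaL

set_option autoImplicit false
set_option linter.unusedSectionVars false

noncomputable section

namespace Fermat.Agent.S36.DiffPow

open HahnSeries ModularCurve Fermat.Agent.S28.LaurentRescale Fermat.Agent.S36.DiagTheta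
open Fermat.Agent.S36.ThetaL
open scoped Nat

variable {R : Type*} [CommRing R] {S : Type*} [CommRing S]

theorem theta_eq_thetaL (f : LaurentSeries R) : theta f = thetaL f := by
  ext n
  simp

/-! ### `ζ`-numbers -/

/-- `∏_{1 ≤ b < q} [b]_ζ` -/
def gprod (ζ : Rˣ) (q : ℕ) : R := ∏ b ∈ Finset.Ico 1 q, gsum ζ (b : ℤ)

theorem one_sub_pow_mul_gprod (ζ : Rˣ) (q : ℕ) :
    (1 - (ζ : R)) ^ (q - 1) * gprod ζ q = ∏ b ∈ Finset.Ico 1 q, (1 - ((ζ ^ b : Rˣ) : R)) := by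
  rw [gprod]
  have h : ∀ b ∈ Finset.Ico 1 q, (1 - ((ζ ^ b : Rˣ) : R)) = (1 - (ζ : R)) * gsum ζ (b : ℤ) := by
    intro b _
    rw [one_sub_mul_gsum, zpow_natCast]
  rw [Finset.prod_congr rfl h, Finset.prod_mul_distrib, Finset.prod_const, Nat.card_Ico]

theorem map_gprod (π : R →+* S) {ζ : Rˣ} (hζ : π ζ = 1) (q : ℕ) :
    π (gprod ζ q) = (((q - 1)! : ℕ) : S) := by
  rw [gprod, map_prod]
  have h : ∀ b ∈ Finset.Ico 1 q, π (gsum ζ (b : ℤ)) = ((b : ℕ) : S) := by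
    intro b _
    rw [map_gsum π hζ, Int.cast_natCast]
  rw [Finset.prod_congr rfl h, ← Nat.cast_prod]
  congr 1
  rcases Nat.eq_zero_or_pos q with rfl | hq
  · simp
  · obtain ⟨n, rfl⟩ : ∃ n, q = n + 1 := ⟨q - 1, by omega⟩
    rw [Nat.add_sub_cancel, Finset.prod_Ico_id_eq_factorial]

/-- Wilson in any ring of characteristic `q` -/
theorem wilson_cast (q : ℕ) [hq : Fact q.Prime] [CharP S q] : (((q - 1)! : ℕ) : S) = -1 := by
  have h := congrArg (ZMod.castHom (dvd_refl q) S) (ZMod.wilsons_lemma (p := q))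
  rwa [map_natCast, map_neg, map_one] at h

theorem map_gprod_char (π : R →+* S) {ζ : Rˣ} (hζ : π ζ = 1) (q : ℕ) [hq : Fact q.Prime]
    [CharP S q] : π (gprod ζ q) = -1 := by
  rw [map_gprod π hζ, wilson_cast]

theorem neg_one_pow_pred (q : ℕ) [hq : Fact q.Prime] [CharP S q] : (-1 : S) ^ (q - 1) = 1 := by
  have h := neg_one_pow_char S q
  obtain ⟨n, hn⟩ : ∃ n, q = n + 1 := ⟨q - 1, (Nat.sub_add_cancel hq.out.pos).symm⟩
  rw [hn, Nat.add_sub_cancel]
  rw [hn, pow_succ] at h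
  have h2 : ((-1 : S) ^ n) * (-1) * (-1) = (-1) * (-1) := by rw [h]
  rwa [mul_assoc, neg_mul_neg, one_mul, mul_one] at h2

/-! ### the series identity -/

/-- **`(f(ζ t) - f)^{q-1} · ∏[b]_ζ = q · (-1)^{q-1} (D_ζ f)^{q-1}`.** -/
theorem rescale_sub_pow_mul {ζ : Rˣ} {q : ℕ}
    (hζq : ∏ b ∈ Finset.Ico 1 q, (1 - ((ζ ^ b : Rˣ) : R)) = (q : R)) (f : LaurentSeries R) :
    (rescaleU ζ f - f) ^ (q - 1) * HahnSeries.C (gprod ζ q) =
      HahnSeries.C (q : R) * ((-1) ^ (q - 1) * diffQuot ζ f ^ (q - 1)) := by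
  have h1 : rescaleU ζ f - f = -(HahnSeries.C (1 - (ζ : R)) * diffQuot ζ f) := by
    rw [← sub_rescaleU, neg_sub]
  rw [h1, neg_pow, mul_pow, ← hζq, ← one_sub_pow_mul_gprod, map_mul, map_pow]
  ring

/-! ### integral fractions -/

section Fraction

variable {L : Type*} [Field L] {k : Type*} [Field k]

/-- the numerator of `D_ζ (X/Y)`, up to sign: `X · D_ζ Y - D_ζ X · Y` -/
def dnum (ζ : Rˣ) (X Y : LaurentSeries R) : LaurentSeries R :=
  X * diffQuot ζ Y - diffQuot ζ X * Y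

/-- `X(ζt) Y - X Y(ζt) = (1 - ζ) (X · D_ζ Y - D_ζ X · Y)` -/
theorem cross_eq (ζ : Rˣ) (X Y : LaurentSeries R) :
    rescaleU ζ X * Y - X * rescaleU ζ Y = HahnSeries.C (1 - (ζ : R)) * dnum ζ X Y := by
  have hX : rescaleU ζ X = X - HahnSeries.C (1 - (ζ : R)) * diffQuot ζ X := by
    rw [← sub_rescaleU]; ring
  have hY : rescaleU ζ Y = Y - HahnSeries.C (1 - (ζ : R)) * diffQuot ζ Y := by
    rw [← sub_rescaleU]; ring
  rw [hX, hY, dnum]
  ring

/-- the reduction of `dnum` is `-(θ F̄) Ȳ²` -/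
theorem coeffMap_dnum (π : R →+* k) {ζ : Rˣ} (hζ : π ζ = 1) {X Y : LaurentSeries R}
    {Fbar : LaurentSeries k} (hFbar : Fbar * coeffMap π Y = coeffMap π X) :
    coeffMap π (dnum ζ X Y) = -(thetaL Fbar * coeffMap π Y ^ 2) := by
  rw [dnum, map_sub, map_mul, map_mul, coeffMap_diffQuot π hζ, coeffMap_diffQuot π hζ,
    theta_eq_thetaL, theta_eq_thetaL, ← hFbar, thetaL_mul]
  ring

/-- the rescaled fraction -/
theorem rescale_fraction (ι : R →+* L) (ζ : Rˣ) {F : LaurentSeries L} {X Y : LaurentSeries R}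
    (hF : F * coeffMap ι Y = coeffMap ι X) :
    rescaleU (Units.map ι.toMonoidHom ζ) F * coeffMap ι (rescaleU ζ Y) =
      coeffMap ι (rescaleU ζ X) := by
  rw [coeffMap_rescaleU, coeffMap_rescaleU, ← map_mul, hF]

/-- `(F(ζt) - F) · Y Y(ζt) = (1 - ζ) · dnum` -/
theorem rescale_sub_mul (ι : R →+* L) (ζ : Rˣ) {F : LaurentSeries L} {X Y : LaurentSeries R}
    (hF : F * coeffMap ι Y = coeffMap ι X) :
    (rescaleU (Units.map ι.toMonoidHom ζ) F - F) * coeffMap ι (Y * rescaleU ζ Y) =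
      coeffMap ι (HahnSeries.C (1 - (ζ : R)) * dnum ζ X Y) := by
  have h1 := rescale_fraction ι ζ hF
  rw [← cross_eq, map_sub, map_mul, map_mul, map_mul, ← h1, ← hF]
  ring

variable {q : ℕ} [hq : Fact q.Prime] [CharP k q]

/-- **The `(q-1)`-th power of the `ζ`-difference of an integral fraction is `q` times an integral
fraction with reduction `-(θ F̄)^{q-1}`.** -/
theorem exists_fraction_pow (π : R →+* k) (ι : R →+* L) {ζ : Rˣ} (hπζ : π ζ = 1)
    (hζq : ∏ b ∈ Finset.Ico 1 q, (1 - ((ζ ^ b : Rˣ) : R)) = (q : R))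
    {F : LaurentSeries L} {X Y : LaurentSeries R}
    (hF : F * coeffMap ι Y = coeffMap ι X) (hY : coeffMap π Y ≠ 0)
    {Fbar : LaurentSeries k} (hFbar : Fbar * coeffMap π Y = coeffMap π X) :
    ∃ X' Y' : LaurentSeries R, coeffMap π Y' ≠ 0 ∧
      (rescaleU (Units.map ι.toMonoidHom ζ) F - F) ^ (q - 1) * coeffMap ι Y' =
        (q : LaurentSeries L) * coeffMap ι X' ∧
      coeffMap π X' = -(thetaL Fbar ^ (q - 1)) * coeffMap π Y' := by
  have hζ1 : Units.map π.toMonoidHom ζ = 1 := by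
    ext
    simpa using hπζ
  have hYζ : coeffMap π (rescaleU ζ Y) = coeffMap π Y := by
    rw [coeffMap_rescaleU, hζ1, rescaleU_one]
  refine ⟨dnum ζ X Y ^ (q - 1), (Y * rescaleU ζ Y) ^ (q - 1) * HahnSeries.C (gprod ζ q), ?_, ?_, ?_⟩
  · rw [map_mul, map_pow, map_mul, hYζ]
    refine mul_ne_zero (pow_ne_zero _ (mul_ne_zero hY hY)) ?_
    rw [coeffMap_C_loc, map_gprod_char π hπζ q]
    simp
  · have h := rescale_sub_mul ι ζ hF
    have h2 := congrArg (fun x => x ^ (q - 1)) h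
    simp only [mul_pow] at h2
    rw [map_mul, map_pow, ← mul_assoc, h2, map_mul, mul_pow, map_pow (coeffMap ι) (dnum ζ X Y)]
    have h3 : coeffMap ι (HahnSeries.C (1 - (ζ : R))) ^ (q - 1) *
        coeffMap ι (HahnSeries.C (gprod ζ q)) = (q : LaurentSeries L) := by
      rw [← map_pow, ← map_mul, ← map_pow, ← map_mul, one_sub_pow_mul_gprod, hζq]
      simp
    rw [← h3]
    ring
  · rw [map_pow, coeffMap_dnum π hπζ hFbar, map_mul, map_pow, map_mul, hYζ]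
    have hC : coeffMap π (HahnSeries.C (gprod ζ q)) = -1 := by
      rw [coeffMap_C_loc, map_gprod_char π hπζ q]
      simp
    rw [hC, neg_pow, mul_pow]
    have hs : ((-1 : LaurentSeries k)) ^ (q - 1) = 1 := by
      have : CharP (LaurentSeries k) q :=
        charP_of_injective_ringHom (HahnSeries.C_injective (Γ := ℤ) (R := k)) q
      exact neg_one_pow_pred q
    rw [hs]
    ring

/-- **Multiplicative form** (`z = F(ζt)/F - 1`, for the cusps): `(F(ζt) - F)^{q-1} · Y'' =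
q · F^{q-1} · X''` with `Ȳ'' ≠ 0` and `X̄'' · F̄^{q-1} = -(θ F̄)^{q-1} · Ȳ''`, i.e.
`((F(ζt) - F)/F)^{q-1}/q` is an integral fraction with reduction `-(θ F̄/F̄)^{q-1}`. -/
theorem exists_fraction_pow_div (π : R →+* k) (ι : R →+* L) {ζ : Rˣ} (hπζ : π ζ = 1)
    (hζq : ∏ b ∈ Finset.Ico 1 q, (1 - ((ζ ^ b : Rˣ) : R)) = (q : R))
    {F : LaurentSeries L} {X Y : LaurentSeries R}
    (hF : F * coeffMap ι Y = coeffMap ι X) (hY : coeffMap π Y ≠ 0) (hX : coeffMap π X ≠ 0)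
    {Fbar : LaurentSeries k} (hFbar : Fbar * coeffMap π Y = coeffMap π X) :
    ∃ X' Y' : LaurentSeries R, coeffMap π Y' ≠ 0 ∧
      (rescaleU (Units.map ι.toMonoidHom ζ) F - F) ^ (q - 1) * coeffMap ι Y' =
        (q : LaurentSeries L) * F ^ (q - 1) * coeffMap ι X' ∧
      coeffMap π X' * Fbar ^ (q - 1) = -(thetaL Fbar ^ (q - 1)) * coeffMap π Y' := by
  obtain ⟨X', Y', hY', h1, h2⟩ := exists_fraction_pow π ι hπζ hζq hF hY hFbar
  refine ⟨X' * Y ^ (q - 1), Y' * X ^ (q - 1), ?_, ?_, ?_⟩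
  · rw [map_mul, map_pow]
    exact mul_ne_zero hY' (pow_ne_zero _ hX)
  · rw [map_mul, map_pow, ← mul_assoc, h1, ← hF, map_mul, map_pow]
    ring
  · rw [map_mul, map_pow, map_mul, map_pow, mul_assoc, ← mul_pow, mul_comm (coeffMap π Y) Fbar,
      hFbar, h2]
    ring

/-- the hypothesis on `ζ` for a primitive `q`-th root of unity in a domain -/
theorem prod_eq_of_isPrimitiveRoot [IsDomain R] {ζ : Rˣ} (hζ : IsPrimitiveRoot (ζ : R) q) :
    ∏ b ∈ Finset.Ico 1 q, (1 - ((ζ ^ b : Rˣ) : R)) = (q : R) :=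
  prod_one_sub_pow_of_isPrimitiveRoot hq.out.pos hζ

omit [CharP k q] in
/-- a `q`-th root of unity reduces to `1` in a field of characteristic `q` -/
theorem map_eq_one_of_pow_eq_one [CharP k q] (π : R →+* k) {ζ : R} (hζ : ζ ^ q = 1) : π ζ = 1 := by
  have h : (π ζ - 1) ^ q = 0 := by
    rw [sub_pow_char, ← map_pow, hζ, map_one, one_pow, sub_self]
  exact sub_eq_zero.mp (pow_eq_zero_iff (hq.out.ne_zero) |>.mp h)

end Fraction

end Fermat.Agent.S36.DiffPow
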