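/-
PROJECT V (S36), slice V-ThickCountX0 (helper13): **the count, in the shape `hΘ` of
`ThickOrdX0.exists_h11_ord`** (chain (V12)(ii), input (C)).

`k` the residue field of a valuation ring `A` of `ℚ̄` over `q` (algebraically closed),
`κ = F_k(N) ⊆ k((t))`, `b` a place of `κ` which is not a pole of `J = jk`, `π ∈ κ` a local parameter
at `b`.

* `thetaL_ne_zero` : `θ π ≠ 0` (`π` is a separating element: `D π = z • D J`, `z ≠ 0`, by
  `HurwitzCount.Indep.ord_indep`);
* `hΘ_of_count` : from the literal conclusion of `HurwitzCount.X0.count_kappa` / `CountX0.count_X0`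
  at `b ∉ S` (`hcount : ∀ Θ, (θ π)^(q-1) = Θ → b.ord Θ = 0`):
  `∀ Θ : κ, (Θ : k((t))) = (theta π)^(q-1) → Θ ≠ 0 ∧ Θ⁻¹ ∈ b.toValuationSubring`
  (`theta` = `DiagTheta.theta`, the spelling of `MiddleCuspGauss` / `ThickLinkK0`).
-/
import Mathlib
import Fermat.Agent.S36.HurwitzCount.X0
import Fermat.Agent.S36.DiffPow
import Fermat.Agent.S36.SpecDictLocal

set_option autoImplicit false
set_option linter.unusedSectionVars false
set_option linter.style.haveILetI false
set_option linter.unusedVariables false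
set_option synthInstance.maxHeartbeats 400000
set_option maxHeartbeats 1000000

noncomputable section

namespace Fermat.Agent.S36.ThickCountX0

open Polynomial ModularCurve AlgebraicCurve IntermediateField IsLocalRing
open Fermat.Agent.S18.B.FkBasics (jk isFF)
open Fermat.Agent.S18.A.FibreSep
open Fermat.Agent.S36.ThetaL Fermat.Agent.S36.DiagTheta
open Fermat.Agent.S36.HurwitzCount Fermat.Agent.S36.HurwitzCount.X0

local notation "Kb" => AlgebraicClosure ℚ

/-! ### generic: a local parameter at a non-pole is a separating element -/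

section Generic

open Fermat.Agent.S24.FF Fermat.Agent.S24.Ord Fermat.Agent.S18.A.Defs

universe u w

variable {K : Type w} {F : Type u} [Field K] [Field F] [Algebra K F] [IsAlgClosed K] {x : F}
variable {L : Type*} [Field L] [Algebra F L] [Algebra K L] [IsScalarTower K F L]

/-- `D π ≠ 0` for a local parameter `π` at a non-pole of `x`, if `D x ≠ 0` -/
theorem deriv_param_ne_zero (hx : IsFF K x) (hsep : Algebra.IsSeparable K⟮x⟯ F)
    (D : Derivation K F L) {m : ℕ} (hm : 0 < m) {G : F} (hG0 : G ≠ 0)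
    (hDx : (D x) ^ m = algebraMap F L G)
    {Q : Place K F} (hQ : Q ∉ poles hx hsep) {π : F} (hπ : Q.ord π = 1) : D π ≠ 0 := by
  have hDx0 : D x ≠ 0 := Main.deriv_ne_zero D hm hG0 hDx
  have hreg := Main.adicValuation_le_one_of_not_mem_poles hx hsep hQ
  obtain ⟨πs, zs, hs1, hs2, hs3, -⟩ := Bridge.exists_param_deriv hx hsep D Q hreg
  obtain ⟨z, hz⟩ := Indep.exists_eq_smul hx hsep D π
  obtain ⟨h1, -⟩ := Indep.ord_indep hx hsep D hDx0 Q hreg hs1 hπ hs2 hs3 hz
  rw [hz]
  exact smul_ne_zero h1 hDx0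

end Generic

variable {q : ℕ} [hq : Fact q.Prime] [NeZero q] {A : ValuationSubring Kb}

/-- **a local parameter at a non-cuspidal place is a separating element**: `θ π ≠ 0` -/
theorem thetaL_ne_zero (hA : A.LiesOverPrime q) (N : ℕ) [NeZero N]
    [IsAlgClosed (ResidueField ↥A)]
    (hsep : Algebra.IsSeparable (ResidueField ↥A)⟮jk (ResidueField ↥A) N⟯
      ↥(modularFunctionFieldFullC (ResidueField ↥A) N))
    (b : Place (ResidueField ↥A) ↥(modularFunctionFieldFullC (ResidueField ↥A) N))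
    (hb : b ∉ poles (isFF (ResidueField ↥A) N) hsep)
    {π : ↥(modularFunctionFieldFullC (ResidueField ↥A) N)} (hπ : b.ord π = 1) :
    thetaL (π : LaurentSeries (ResidueField ↥A)) ≠ 0 := by
  obtain ⟨G, hG0, -, hDx, -, -⟩ := exists_G (q := q) hA N hsep
  have hm : 0 < q - 1 := Nat.sub_pos_of_lt hq.out.one_lt
  exact deriv_param_ne_zero (isFF (ResidueField ↥A) N) hsep (thetaDer (ResidueField ↥A) N) hm hG0
    hDx hb hπ

/-- **the count in the shape `hΘ` of `ThickOrdX0.exists_h11_ord`** -/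
theorem hΘ_of_count (hA : A.LiesOverPrime q) (N : ℕ) [NeZero N]
    [IsAlgClosed (ResidueField ↥A)]
    (hsep : Algebra.IsSeparable (ResidueField ↥A)⟮jk (ResidueField ↥A) N⟯
      ↥(modularFunctionFieldFullC (ResidueField ↥A) N))
    (b : Place (ResidueField ↥A) ↥(modularFunctionFieldFullC (ResidueField ↥A) N))
    (hb : b ∉ poles (isFF (ResidueField ↥A) N) hsep)
    {π : ↥(modularFunctionFieldFullC (ResidueField ↥A) N)} (hπ : b.ord π = 1)
    (hcount : ∀ Θ : ↥(modularFunctionFieldFullC (ResidueField ↥A) N),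
      thetaL (π : LaurentSeries (ResidueField ↥A)) ^ (q - 1) =
        (Θ : LaurentSeries (ResidueField ↥A)) → b.ord Θ = 0)
    (Θ : ↥(modularFunctionFieldFullC (ResidueField ↥A) N))
    (hΘ : (Θ : LaurentSeries (ResidueField ↥A)) =
      (theta (π : LaurentSeries (ResidueField ↥A))) ^ (q - 1)) :
    Θ ≠ 0 ∧ Θ⁻¹ ∈ b.toValuationSubring := by
  rw [Fermat.Agent.S36.DiffPow.theta_eq_thetaL] at hΘ
  have h0 : Θ ≠ 0 := by
    intro h0
    have h1 : thetaL (π : LaurentSeries (ResidueField ↥A)) ^ (q - 1) = 0 := by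
      rw [← hΘ, h0]
      rfl
    exact thetaL_ne_zero hA N hsep b hb hπ (pow_eq_zero_iff
      (Nat.sub_pos_of_lt hq.out.one_lt).ne' |>.mp h1)
  refine ⟨h0, Fermat.Agent.S36.SpecDictLocal.mem_of_ord_nonneg b ?_⟩
  rw [Place.ord_inv, hcount Θ hΘ.symm, neg_zero]

end Fermat.Agent.S36.ThickCountX0
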