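/-
PROJECT V (S36), slice V-B0ii-Bridge (helper13): **from the thick-point data `B0Thick.Hyp` to the
`h11` input of `AllPoints.locPrincipal_of_isMaximal`** (chain (V12)(ii) and (ii')), abstract.

`D : BranchCore.Datum A₁ A B` one chart of the level-`q²` model, `n` a maximal ideal of `B` outside
the node set `D.S`, `m = D.x11 n` the point of the thick component `C₁₁` at the place `n`.

INPUT (fraction form, so that the middle cusps (ii') are covered):

* `W` a valuation subring of `F = Frac A` with `A ⊆ W` whose centre on `A` is `ker r11`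
  (`W = W₁₁`; `hcentre` is `ThreeValRes.ker₁₁` once `r11` is the restriction of the residue map);
* a uniformiser `ϖ₁` of `W` with `W(ϖ) = W(ϖ₁)^k` (`k = q - 1`, `ThreeVal` (VAL));
* `z₀ c₀ : F` with `z₀ ^ k = ϖ c₀`, `W(c₀) = 1`  (`z₀ = a₂(a) - a₀(a)` resp. `a₂(a)/a₀(a) - 1`);
* a denominator `s₀ ∉ m` with `s₀ z₀ = z ∈ A` (`s₀ = 1` at the ordinary points);
* a residue map `ρ : W → κ` and the valuation ring `Ob` of `κ` at the place below `m`:
  `a ∈ m ↔ ρ a = 0 ∨ (ρ a)⁻¹ ∉ Ob`, and `ρ c₀` a unit of `Ob` (the count `ν_b = 0`).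

OUTPUT (`exists_h11`): `z ≠ 0`, `z ∈ ker r11`, `BranchEq (ker r11) z` and `s z ^ k = ϖ c` with
`c ∉ m` : literally the `h11` tuple.

Everything about `ker r11` being a conductor prime, `W = A_(ker r11)` and the hypothesis `vert` of
`B0Thick.Hyp` is DERIVED from `D.ker_inf` and `n ∉ D.S`.

Second part (`res_eq_of_red`): the residue map of a place of residue degree one is computed by ANY
additive "reduction relation" which is compatible with it on the constants (e.g. helper15's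
`MiddleCuspGauss.IsRed` along the middle-cusp expansion).
-/
import Mathlib
import Fermat.Agent.S36.AllPoints
import Fermat.Agent.S36.B0Thick
import Fermat.Agent.S36.CentreCore

set_option autoImplicit false
set_option linter.unusedSectionVars false
set_option linter.style.haveILetI false
set_option linter.unusedVariables false

namespace Fermat.Agent.S36.B0ThickBridge

open Fermat.Agent.S36.KrullInter Fermat.Agent.S36.NakElement Fermat.Agent.S36.CentreCore
open Fermat.Agent.S36.BranchCore Fermat.Agent.S36.AllPoints Fermat.Agent.S36.B0Thick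

variable {A₁ A B : Type*} [CommRing A₁] [CommRing A] [CommRing B]
  [IsDomain A] [IsNoetherianRing A] [IsIntegrallyClosed A] [IsDomain B] [IsIntegrallyClosed A₁]
  {F : Type*} [Field F] [Algebra A F] [IsFractionRing A F]

local notation "ι" => algebraMap A F

/-! ### minimal primes over a principal ideal are conductor primes -/

/-- a minimal prime over a nonzero principal ideal is a conductor prime -/
theorem exists_isCond_of_mem_minimalPrimes {P : Ideal A} {a : A} (ha0 : a ≠ 0)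
    (hmin : P ∈ (Ideal.span {a}).minimalPrimes) : ∃ y : F, IsCond P y := by
  have hP : P.IsPrime := hmin.1.1
  have hcolon : (Ideal.span {a} : Submodule A A).colon {(1 : A)} = Ideal.span {a} := by
    ext r
    rw [Submodule.mem_colon_singleton, smul_eq_mul, mul_one]
  rw [← hcolon] at hmin
  obtain ⟨b, hb⟩ := Submodule.exists_eq_colon_of_mem_minimalPrimes hmin
  refine ⟨ι b / ι a, hP, fun r => ?_⟩
  rw [hb, Submodule.mem_colon_singleton, smul_eq_mul]
  have hia := algebraMap_ne_zero' (F := F) ha0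
  constructor
  · intro hr
    obtain ⟨c, hc⟩ := Ideal.mem_span_singleton'.1 hr
    refine ⟨c, ?_⟩
    rw [mul_div_assoc', ← map_mul, ← hc, map_mul, mul_div_cancel_right₀ _ hia]
  · rintro ⟨c, hc⟩
    apply Ideal.mem_span_singleton'.2
    refine ⟨c, ?_⟩
    apply IsFractionRing.injective A F
    rw [map_mul, map_mul, ← hc]
    field_simp

variable (D : BranchCore.Datum A₁ A B)

/-- a prime inside `x₁₁(n)`, `n ∉ S`, which contains `ϖ`, contains `ker r11` -/
theorem ker_r11_le_of_mem {n : Ideal B} (hn : n.IsMaximal) (hS : n ∉ D.S) {Q : Ideal A}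
    (hQ : Q.IsPrime) (hQm : Q ≤ D.x11 n) (hϖQ : D.ϖ ∈ Q) : RingHom.ker D.r11 ≤ Q := by
  have hrad : (Ideal.span {D.ϖ}).radical ≤ Q := by
    rw [hQ.radical_le_iff, Ideal.span_singleton_le_iff_mem]
    exact hϖQ
  rw [← D.ker_inf] at hrad
  obtain ⟨h20, h02⟩ := not_le_x11 D hn hS
  rcases (hQ.inf_le).mp hrad with h | h
  · rcases (hQ.inf_le).mp h with h | h
    · exact absurd (h.trans hQm) h20
    · exact h
  · exact absurd (h.trans hQm) h02

/-- off `S`, `ker r11` is a minimal prime over `(ϖ)` -/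
theorem ker_r11_mem_minimalPrimes {n : Ideal B} (hn : n.IsMaximal) (hS : n ∉ D.S) :
    RingHom.ker D.r11 ∈ (Ideal.span {D.ϖ}).minimalPrimes := by
  have hϖ : D.ϖ ∈ RingHom.ker D.r11 := (ϖ_mem_ker D).1.2
  refine ⟨⟨RingHom.ker_isPrime D.r11, (Ideal.span_singleton_le_iff_mem _).2 hϖ⟩, ?_⟩
  rintro Q ⟨hQ, hϖQ⟩ hQP
  exact ker_r11_le_of_mem D hn hS hQ (hQP.trans (D.ker_r11_le_x11 n))
    ((Ideal.span_singleton_le_iff_mem _).1 hϖQ)

/-- off `S`, `ker r11` is a conductor prime -/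
theorem exists_isCond_ker_r11 {n : Ideal B} (hn : n.IsMaximal) (hS : n ∉ D.S) (hϖ0 : D.ϖ ≠ 0) :
    ∃ y : F, IsCond (RingHom.ker D.r11) y :=
  exists_isCond_of_mem_minimalPrimes hϖ0 (ker_r11_mem_minimalPrimes D hn hS)

section Place

/-- the centre of `W` on the chart is `ker r11` -/
theorem centre_eq_ker (W : ValuationSubring F) (hle : ∀ a : A, ι a ∈ W)
    (hcentre : ∀ a : A, D.r11 a = 0 ↔ ι a ∈ W.nonunits) :
    centre W hle = RingHom.ker D.r11 := by
  ext a
  rw [mem_centre, RingHom.mem_ker, hcentre]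

/-- `W` is the localisation of the chart at `ker r11` -/
theorem eq_valuationSubring (W : ValuationSubring F) (hle : ∀ a : A, ι a ∈ W)
    (hcentre : ∀ a : A, D.r11 a = 0 ↔ ι a ∈ W.nonunits)
    {y : F} (h : IsCond (RingHom.ker D.r11) y) :
    W = h.valuationSubring :=
  eq_valuationSubring_of_centre W hle h (centre_eq_ker D W hle hcentre)

/-- **the hypothesis `vert` of `B0Thick.Hyp`**: the only vertical prime divisor through `x₁₁(n)`,
`n ∉ S`, is the thick component -/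
theorem vert (W : ValuationSubring F) (hle : ∀ a : A, ι a ∈ W)
    (hcentre : ∀ a : A, D.r11 a = 0 ↔ ι a ∈ W.nonunits) {n : Ideal B} (hn : n.IsMaximal) (hS : n ∉ D.S) (hϖ0 : D.ϖ ≠ 0)
    (Q : Ideal A) (y : F) (h : IsCond Q y) (hQm : Q ≤ D.x11 n) (hϖQ : D.ϖ ∈ Q) :
    ∀ w ∈ W, w ∈ h.valuationSubring := by
  haveI := h.prime
  have hle' : RingHom.ker D.r11 ≤ Q := ker_r11_le_of_mem D hn hS h.prime hQm hϖQ
  haveI : (RingHom.ker D.r11).IsPrime := RingHom.ker_isPrime D.r11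
  have hne : RingHom.ker D.r11 ≠ ⊥ := by
    intro hbot
    have hϖ : D.ϖ ∈ RingHom.ker D.r11 := (ϖ_mem_ker D).1.2
    rw [hbot, Ideal.mem_bot] at hϖ
    exact hϖ0 hϖ
  have heq : RingHom.ker D.r11 = Q := (h.eq_bot_or_eq_of_le _ hle').resolve_left hne
  have hW : W = h.valuationSubring :=
    eq_valuationSubring_of_centre W hle h ((centre_eq_ker D W hle hcentre).trans heq)
  intro w hw
  rw [← hW]
  exact hw

/-- **a uniformiser of `W` lying in the chart is a local equation of the thick component** -/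
theorem branchEq_of_unif (W : ValuationSubring F) (hle : ∀ a : A, ι a ∈ W)
    (hcentre : ∀ a : A, D.r11 a = 0 ↔ ι a ∈ W.nonunits) {n : Ideal B} (hn : n.IsMaximal) (hS : n ∉ D.S) (hϖ0 : D.ϖ ≠ 0)
    {z : A} (hz0 : z ≠ 0) (hunif : ∀ w ∈ W, w⁻¹ ∈ W ∨ w * (ι z)⁻¹ ∈ W) :
    BranchEq (RingHom.ker D.r11) z := by
  obtain ⟨y, h⟩ := exists_isCond_ker_r11 (F := F) D hn hS hϖ0
  haveI := h.prime
  have hW : W = h.valuationSubring := eq_valuationSubring D W hle hcentre h
  have hιz : ι z ≠ 0 := algebraMap_ne_zero' hz0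
  intro a ha
  by_cases ha0 : a = 0
  · refine ⟨1, fun h1 => ?_, 0, by rw [ha0, mul_zero, zero_mul]⟩
    exact (RingHom.ker_isPrime D.r11).ne_top ((Ideal.eq_top_iff_one _).2 h1)
  have hanu : ι a ∈ W.nonunits := (hcentre a).mp ((RingHom.mem_ker).mp ha)
  have hinv : (ι a)⁻¹ ∉ W := by
    rcases (W.mem_nonunits_iff_or).mp hanu with h0 | h0
    · exact absurd h0 (algebraMap_ne_zero' ha0)
    · exact h0
  have hdiv : ι a * (ι z)⁻¹ ∈ W := (hunif _ (hle a)).resolve_left hinv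
  rw [hW] at hdiv
  obtain ⟨s, hs, b, hb⟩ := hdiv
  refine ⟨s, hs, b, ?_⟩
  apply IsFractionRing.injective A F
  rw [map_mul, map_mul, ← hb]
  field_simp

end Place

/-! ### the bridge -/

/-- **(V12)(ii)(ii') ⟹ `h11`.**  See the header. -/
theorem exists_h11 {n : Ideal B} (hn : n.IsMaximal) (hS : n ∉ D.S) (hϖ0 : D.ϖ ≠ 0)
    (W : ValuationSubring F) (hle : ∀ a : A, ι a ∈ W)
    (hcentre : ∀ a : A, D.r11 a = 0 ↔ ι a ∈ W.nonunits)
    {ϖ₁ : F} (hϖ1 : W.valuation ϖ₁ < 1)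
    (hϖg : ∀ w : F, W.valuation w < 1 → W.valuation w ≤ W.valuation ϖ₁)
    {k : ℕ} (hk : 0 < k) (hqϖ : W.valuation (ι D.ϖ) = W.valuation ϖ₁ ^ k)
    {z₀ c₀ : F} (hpow : z₀ ^ k = ι D.ϖ * c₀) (hc₀ : W.valuation c₀ = 1)
    {s₀ z : A} (hs₀ : s₀ ∉ D.x11 n) (hz : ι s₀ * z₀ = ι z)
    {κ : Type*} [Field κ] (ρ : W →+* κ) (Ob : ValuationSubring κ)
    (hcen : ∀ a : A, a ∈ D.x11 n ↔ ρ ⟨ι a, hle a⟩ = 0 ∨ (ρ ⟨ι a, hle a⟩)⁻¹ ∉ Ob)
    (hcu : (ρ ⟨c₀, (W.valuation_le_one_iff _).mp hc₀.le⟩)⁻¹ ∈ Ob) :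
    ∃ z : A, z ≠ 0 ∧ z ∈ RingHom.ker D.r11 ∧ BranchEq (RingHom.ker D.r11) z ∧
      ∃ (s c : A) (k : ℕ), 0 < k ∧ c ∉ D.x11 n ∧ s * z ^ k = D.ϖ * c := by
  haveI : (D.x11 n).IsPrime := (D.x11_isMaximal hn).isPrime
  have hc₀W : c₀ ∈ W := (W.valuation_le_one_iff _).mp hc₀.le
  -- `s₀` is a unit of `W`
  have hs₀ker : s₀ ∉ RingHom.ker D.r11 := fun h => hs₀ (D.ker_r11_le_x11 n h)
  have hs₀0 : s₀ ≠ 0 := fun h => hs₀ (h ▸ (D.x11 n).zero_mem)
  have hvs₀ : W.valuation (ι s₀) = 1 := by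
    have h1 : W.valuation (ι s₀) ≤ 1 := (W.valuation_le_one_iff _).mpr (hle s₀)
    refine le_antisymm h1 ?_
    by_contra hlt
    rw [not_le] at hlt
    apply hs₀ker
    rw [RingHom.mem_ker, hcentre, ValuationSubring.mem_nonunits_iff]
    -- `valuation < 1` is membership of the non-units
    exact hlt
  -- the integral data
  set c : F := ι s₀ ^ k * c₀ with hcdef
  have hpow' : ι z ^ k = ι D.ϖ * c := by
    rw [← hz, mul_pow, hpow, hcdef]
    ring
  have hvc : W.valuation c = 1 := by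
    rw [hcdef, map_mul, map_pow, hvs₀, one_pow, one_mul, hc₀]
  -- `z ∈ ker r11`
  have hιϖ : ι D.ϖ ≠ 0 := algebraMap_ne_zero' hϖ0
  have hvϖ₁0 : W.valuation ϖ₁ ≠ 0 := by
    intro h0
    have h1 : W.valuation (ι D.ϖ) = 0 := by
      rw [hqϖ, h0, zero_pow (Nat.pos_iff_ne_zero.mp hk)]
    exact hιϖ ((map_eq_zero _).mp h1)
  have hvz : W.valuation (ι z) = W.valuation ϖ₁ := by
    have h1 : W.valuation (ι z) ^ k = W.valuation ϖ₁ ^ k := by
      rw [← map_pow, hpow', map_mul, hvc, mul_one, hqϖ]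
    exact (pow_left_inj₀ zero_le zero_le (Nat.pos_iff_ne_zero.mp hk)).mp h1
  have hzker : z ∈ RingHom.ker D.r11 := by
    rw [RingHom.mem_ker, hcentre, ValuationSubring.mem_nonunits_iff, hvz]
    exact hϖ1
  have hzm : z ∈ D.x11 n := D.ker_r11_le_x11 n hzker
  -- the hypotheses of `B0Thick`
  have H : Hyp (D.x11 n) W D.ϖ z c k :=
    Hyp.of_val hk hzm hϖ0 hpow' hle hvc hϖ1 hϖg hqϖ
      (fun Q y h hQm hϖQ => vert D W hle hcentre hn hS hϖ0 Q y h hQm hϖQ)
  have hρc : ρ ⟨c, H.c_mem⟩ = ρ ⟨ι s₀, hle s₀⟩ ^ k * ρ ⟨c₀, hc₀W⟩ := by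
    rw [← map_pow, ← map_mul]
    rfl
  have hs₀ρ : ρ ⟨ι s₀, hle s₀⟩ ≠ 0 ∧ (ρ ⟨ι s₀, hle s₀⟩)⁻¹ ∈ Ob := by
    have h1 := (not_congr (hcen s₀)).mp hs₀
    push Not at h1
    exact h1
  have R : H.Res ρ Ob :=
    { centre := fun a ha => (hcen a).mp ha
      centre' := fun a ha => by
        have h1 := (not_congr (hcen a)).mp ha
        push Not at h1
        exact h1
      c_unit := by
        rw [hρc, mul_inv, ← inv_pow]
        exact mul_mem (pow_mem hs₀ρ.2 k) hcu }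
  obtain ⟨s, t, hs, ht, hst⟩ := H.isUnit_loc R
  refine ⟨z, H.z_ne, hzker, branchEq_of_unif D W hle hcentre hn hS hϖ0 H.z_ne H.z_unif,
    s, t, k, hk, ht, ?_⟩
  apply IsFractionRing.injective A F
  rw [map_mul, map_pow, map_mul, hpow', ← hst]
  ring

/-! ### residue maps of places of residue degree one, computed by a reduction relation -/

section Link

variable {F₁ F₂ : Type*} [Field F₁] [Field F₂] {κ L : Type*} [Field κ] [Ring L]

/-- **the residue map is computed by any compatible reduction relation.**  `W` a valuation subring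
of `F₂` of residue degree one over `V` along `f`, `ρ : W → κ` a residue map extending
`red : V → κ`; `Red x r` a relation between `F₂` and a ring `L ⊇ κ` (via `e`) which is compatible
with subtraction, holds for `(f c, e (red c))`, and detects the non-units of `W`.  Then
`Red x r ⟹ e (ρ x) = r`. -/
theorem res_eq_of_red (f : F₁ →+* F₂) (V : ValuationSubring F₁) (W : ValuationSubring F₂)
    (red : ↥V →+* κ) (ρ : ↥W →+* κ) (e : κ →+* L) (Red : F₂ → L → Prop)
    (hsub : ∀ x y r s, Red x r → Red y s → Red (x - y) (r - s))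
    (hf : ∀ c : ↥V, Red (f (c : F₁)) (e (red c)))
    (hW : ∀ x r, Red x r → x ∈ W ∧ (x ∈ W.nonunits ↔ r = 0))
    (deg : ∀ z ∈ W, ∃ c : ↥V, W.valuation (z - f (c : F₁)) < 1)
    (hρf : ∀ (c : ↥V) (h : f (c : F₁) ∈ W), ρ ⟨f c, h⟩ = red c)
    (hρker : ∀ z : ↥W, (z : F₂) ∈ W.nonunits → ρ z = 0)
    {x : F₂} {r : L} (hx : Red x r) : e (ρ ⟨x, (hW x r hx).1⟩) = r := by
  obtain ⟨c, hc⟩ := deg x (hW x r hx).1
  have hfc : f (c : F₁) ∈ W := (hW _ _ (hf c)).1
  have hd : Red (x - f (c : F₁)) (r - e (red c)) := hsub _ _ _ _ hx (hf c)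
  have hnu : x - f (c : F₁) ∈ W.nonunits := (ValuationSubring.mem_nonunits_iff _).mpr hc
  have h0 : r - e (red c) = 0 := ((hW _ _ hd).2).mp hnu
  have h1 : ρ ⟨x, (hW x r hx).1⟩ = ρ ⟨x - f (c : F₁), (hW _ _ hd).1⟩ + ρ ⟨f c, hfc⟩ := by
    rw [← map_add]
    congr 1
    apply Subtype.ext
    show x = x - f (c : F₁) + f (c : F₁)
    ring
  rw [h1, hρker _ hnu, zero_add, hρf]
  exact (sub_eq_zero.mp h0).symm

end Link

end Fermat.Agent.S36.B0ThickBridge
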