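/-
PROJECT V (S36), slice V-MiddleCusp (helper15): **the expansion at the middle cusp `1/q` of
`X₀(N0 q²)` as a field homomorphism.**

`E N = ℚ̄(X₀(N)) ⊆ ℚ̄((t))`, `q ∤ N0` a prime, `ζ` a primitive `q`-th root of unity of `ℚ̄`.

* abstract part: `exists_algHom_of_root` — a finite extension `B = F(y)` of prime degree `q`, a monic
  `P ∈ F[X]` of degree `q + 1` with `P(y) = 0`, `P(a) = 0` for some `a ∈ F`; then every root `z ≠ a`
  of `P` in an extension `Ω` of `F` is a conjugate of `y`: there is an `F`-algebra homomorphism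
  `B → Ω`, `y ↦ z` (the minimal polynomial of `y` is `P / (X - a)`, `minpoly_eq_divByMonic`);
* `iota ζ : E (N0 q q) →+* ℚ̄((t))` with `iota_alpha` (**identity on `E (N0 q)`**, along `α`) and
  `iota_j2` (**`j(t^(q²)) ↦ j(ζ t)`**), unique with these two properties (`iota_unique`);
* `iota_beta` : `iota ζ ∘ β = (t ↦ ζ t) ∘ w_q` on `E (N0 q)` (`w_q` the Atkin–Lehner involution of
  `S34/PairX0W`), so for EVERY `φ ∈ E N0`: `iota ζ (φ(t^(q²))) = φ(ζ t)` (`iota_beta_beta`).

No congruence for the modular polynomial is used: only the factorisation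
`Φ_q(X, j(t^q)) = (X - j(t^(q²))) ∏_b (X - j(ζ^b t))` (`S28.Defs.HasModPoly`) and the degree count of
`S36/LevelDvd`.
-/
import Mathlib
import Fermat.Agent.S36.LevelDvd
import Fermat.Agent.S28.ModPolyPrime
import Fermat.Agent.S34.PairX0W

set_option autoImplicit false
set_option linter.unusedSectionVars false
set_option linter.style.haveILetI false

noncomputable section

namespace Fermat.Agent.S36.MiddleCusp

open Polynomial IntermediateField

/-! ### Abstract part -/

section Abstract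

variable {F B Ω : Type*} [Field F] [Field B] [Field Ω] [Algebra F B] [Algebra F Ω]

/-- two ring homomorphisms out of a ring with a power basis agree as soon as they agree on the
base ring and on the generator -/
theorem ringHom_ext_of_powerBasis {R S T : Type*} [CommRing R] [CommRing S] [Algebra R S]
    [CommRing T] (pb : PowerBasis R S) (f g : S →+* T)
    (h1 : ∀ r, f (algebraMap R S r) = g (algebraMap R S r)) (h2 : f pb.gen = g pb.gen) :
    f = g := by
  refine RingHom.ext fun x => ?_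
  obtain ⟨p, rfl⟩ := pb.exists_eq_aeval' x
  rw [aeval_def, hom_eval₂, hom_eval₂, h2]
  congr 1
  exact RingHom.ext h1

variable {q : ℕ} (hq : q.Prime) (hfr : Module.finrank F B = q) (y : B)
  (hy : y ∉ Set.range (algebraMap F B)) {P : F[X]} (hP : P.Monic) (hdeg : P.natDegree = q + 1)
  (hPy : aeval y P = 0) {a : F} (hPa : P.eval a = 0)

include hq hfr hy hP hdeg hPy hPa in
/-- the minimal polynomial of `y` is the cofactor `P / (X - a)` -/
theorem minpoly_eq_divByMonic : minpoly F y = P /ₘ (X - C a) := by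
  haveI : FiniteDimensional F B := FiniteDimensional.of_finrank_pos (by rw [hfr]; exact hq.pos)
  have hint : IsIntegral F y := IsIntegral.of_finite F y
  have hmul : (X - C a) * (P /ₘ (X - C a)) = P := mul_divByMonic_eq_iff_isRoot.mpr hPa
  set G := P /ₘ (X - C a) with hG
  have hGm : G.Monic := by
    have h := hP
    rw [← hmul] at h
    exact (monic_X_sub_C a).of_mul_monic_left h
  have hGdeg : G.natDegree = q := by
    have h := congrArg natDegree hmul
    rw [(monic_X_sub_C a).natDegree_mul hGm, natDegree_X_sub_C, hdeg] at h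
    omega
  have hya : y - algebraMap F B a ≠ 0 := fun h => hy ⟨a, (sub_eq_zero.mp h).symm⟩
  have hGy : aeval y G = 0 := by
    have h := hPy
    rw [← hmul, map_mul, map_sub, aeval_X, aeval_C] at h
    exact (mul_eq_zero.mp h).resolve_left hya
  -- degree of the minimal polynomial
  have hdvd : Module.finrank F ↥F⟮y⟯ ∣ q := by
    rw [← hfr]
    exact ⟨_, (Module.finrank_mul_finrank F ↥F⟮y⟯ B).symm⟩
  have hne1 : Module.finrank F ↥F⟮y⟯ ≠ 1 := by
    intro h1
    rw [IntermediateField.finrank_eq_one_iff] at h1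
    have hy' : y ∈ (⊥ : IntermediateField F B) := by
      rw [← h1]; exact IntermediateField.mem_adjoin_simple_self F y
    exact hy (IntermediateField.mem_bot.1 hy')
  have hmdeg : (minpoly F y).natDegree = q := by
    rw [← IntermediateField.adjoin.finrank hint]
    rcases (Nat.dvd_prime hq).1 hdvd with h | h
    · exact absurd h hne1
    · exact h
  have hdiv : minpoly F y ∣ G := minpoly.dvd F y hGy
  exact (eq_of_monic_of_dvd_of_natDegree_le (minpoly.monic hint) hGm hdiv
    (by rw [hGdeg, hmdeg])).symm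

include hq hfr hy hP hdeg hPy hPa in
/-- every root `z ≠ a` of `P` is a conjugate of `y` -/
theorem exists_algHom_of_root {z : Ω} (hPz : aeval z P = 0) (hza : z ≠ algebraMap F Ω a) :
    ∃ ψ : B →ₐ[F] Ω, ψ y = z := by
  haveI : FiniteDimensional F B := FiniteDimensional.of_finrank_pos (by rw [hfr]; exact hq.pos)
  have hmin := minpoly_eq_divByMonic hq hfr y hy hP hdeg hPy hPa
  have hmul : (X - C a) * (P /ₘ (X - C a)) = P := mul_divByMonic_eq_iff_isRoot.mpr hPa
  have hz : aeval z (minpoly F y) = 0 := by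
    have h := hPz
    rw [← hmul, map_mul, map_sub, aeval_X, aeval_C] at h
    rw [hmin]
    exact (mul_eq_zero.mp h).resolve_left (sub_ne_zero.mpr hza)
  obtain ⟨b, hb⟩ := LevelDvd.exists_basis_pow_of_prime hq hfr y hy
  let pb : PowerBasis F B :=
    { gen := y
      dim := q
      basis := b
      basis_eq_pow := hb }
  exact ⟨pb.lift z hz, pb.lift_gen z hz⟩

end Abstract

/-! ### The middle-cusp expansion of `E (N0 q q)` -/

section X0

open ModularCurve AlgebraicCurve
open Fermat.Agent.S24.DegreeAlg (jgen)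
open Fermat.Agent.S35.LevelMaps (E)
open Fermat.Agent.S28.LaurentRescale
open Fermat.Agent.S34.PowerBasisX0 (jl coe_jl)

local notation "Kb" => AlgebraicClosure ℚ
local notation "Ω" => LaurentSeries Kb

variable (N0 q : ℕ) [NeZero N0] [NeZero q]

/-- `j(t^(q²))` as an element of `E (N0 q q)` -/
def j2 : E (N0 * q * q) := heckeBetaBar Kb (N0 * q) q (jl N0 q)

theorem coe_j2 : ((j2 N0 q : E (N0 * q * q)) : Ω) = qExpand Kb q (qExpand Kb q (jqModC Kb)) :=
  (coe_heckeBetaBar (L := Kb) (N0 * q) q (jl N0 q)).trans (congrArg (qExpand Kb q) coe_jl)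

variable {N0 q}

theorem algebraMap_alpha (x : E (N0 * q)) :
    algebraMap (E (N0 * q * q)) Ω (heckeAlphaBar Kb (N0 * q) q x) = algebraMap (E (N0 * q)) Ω x := by
  rw [IntermediateField.algebraMap_apply, IntermediateField.algebraMap_apply]
  exact coe_heckeAlphaBar (N0 * q) q x

/-- the modular polynomial `Φ_q(X, j(t^q))` over `E (N0 q)` -/
def PhiF (Φ : Polynomial (Polynomial Kb)) : Polynomial (E (N0 * q)) :=
  Φ.map ((aeval (jl N0 q) : Polynomial Kb →ₐ[Kb] E (N0 * q)) : Polynomial Kb →+* E (N0 * q))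

theorem map_PhiF (Φ : Polynomial (Polynomial Kb)) :
    (PhiF (N0 := N0) (q := q) Φ).map (algebraMap (E (N0 * q)) Ω) =
      Φ.map ((aeval (qExpand Kb q (jqModC Kb)) : Polynomial Kb →ₐ[Kb] Ω) :
        Polynomial Kb →+* Ω) := by
  rw [PhiF, Polynomial.map_map]
  congr 1
  refine Polynomial.ringHom_ext (fun c => ?_) ?_
  · simp only [RingHom.comp_apply, RingHom.coe_coe, aeval_C]
    rfl
  · simp only [RingHom.comp_apply, RingHom.coe_coe, aeval_X]
    exact coe_jl

/-- evaluation of `PhiF Φ` at a series, through the factorisation of `S28.Defs.HasModPoly` -/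
theorem eval_map_PhiF {Φ : Polynomial (Polynomial Kb)} {ζ : Kbˣ}
    (hΦ : Φ.map ((aeval (qExpand Kb q (jqModC Kb)) : Polynomial Kb →ₐ[Kb] Ω) :
        Polynomial Kb →+* Ω) =
      (X - C (qExpand Kb (q ^ 2) (jqModC Kb))) *
        ∏ b ∈ Finset.range q, (X - C (rescaleU (ζ ^ b) (jqModC Kb)))) (z : Ω) :
    ((PhiF (N0 := N0) (q := q) Φ).map (algebraMap (E (N0 * q)) Ω)).eval z =
      (z - qExpand Kb q (qExpand Kb q (jqModC Kb))) *
        ∏ b ∈ Finset.range q, (z - rescaleU (ζ ^ b) (jqModC Kb)) := by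
  rw [map_PhiF, hΦ, eval_mul, eval_sub, eval_X, eval_C, eval_prod, qExpand_qExpand]
  congr 1
  · congr 1
    exact qExpand_congr (by ring) _
  · exact Finset.prod_congr rfl fun b _ => by rw [eval_sub, eval_X, eval_C]

attribute [local instance] Fermat.Agent.S34.TwoGaussX0.algFE

theorem algebraMap_FB (x : E (N0 * q)) :
    algebraMap (E (N0 * q)) (E (N0 * q * q)) x = heckeAlphaBar Kb (N0 * q) q x := rfl

theorem algebraMap_comp :
    (algebraMap (E (N0 * q * q)) Ω).comp (algebraMap (E (N0 * q)) (E (N0 * q * q))) =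
      algebraMap (E (N0 * q)) Ω :=
  RingHom.ext fun x => by
    rw [RingHom.comp_apply, algebraMap_FB]
    exact algebraMap_alpha x

variable [hq : Fact q.Prime] (hqN : ¬ q ∣ N0) {ζ : Kbˣ} (hζ : IsPrimitiveRoot ζ q)

theorem finrank_FB : Module.finrank (E (N0 * q)) (E (N0 * q * q)) = q :=
  LevelDvd.finrankAlong_alpha_of_dvd (N0 * q) hq.out (Dvd.intro_left N0 rfl)

include hqN in
theorem j2_not_mem : j2 N0 q ∉ Set.range (algebraMap (E (N0 * q)) (E (N0 * q * q))) := by
  rintro ⟨g, hg⟩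
  rw [algebraMap_FB] at hg
  have h1 : (g : Ω) = qExpand Kb q (qExpand Kb q (jqModC Kb)) := by
    rw [← coe_j2 N0 q, ← hg]
    exact (coe_heckeAlphaBar (L := Kb) (N0 * q) q g).symm
  exact LevelDvd.jq2_not_mem_bar hq.out hqN (h1 ▸ g.2)

section Roots

variable {Φ : Polynomial (Polynomial Kb)}
  (hΦ : Φ.map ((aeval (qExpand Kb q (jqModC Kb)) : Polynomial Kb →ₐ[Kb] Ω) :
        Polynomial Kb →+* Ω) =
      (X - C (qExpand Kb (q ^ 2) (jqModC Kb))) *
        ∏ b ∈ Finset.range q, (X - C (rescaleU (ζ ^ b) (jqModC Kb))))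

include hΦ in
theorem aeval_j2_PhiF : aeval (j2 N0 q) (PhiF (N0 := N0) (q := q) Φ) = 0 := by
  apply (algebraMap (E (N0 * q * q)) Ω).injective
  rw [aeval_def, hom_eval₂, algebraMap_comp, ← eval_map, map_zero, eval_map_PhiF (N0 := N0) hΦ,
    IntermediateField.algebraMap_apply, coe_j2, sub_self, zero_mul]

include hΦ in
theorem eval_jgen_PhiF : (PhiF (N0 := N0) (q := q) Φ).eval (jgen (N0 * q)) = 0 := by
  apply (algebraMap (E (N0 * q)) Ω).injective
  rw [← eval₂_hom, ← eval_map, map_zero, eval_map_PhiF (N0 := N0) hΦ,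
    IntermediateField.algebraMap_apply, Fermat.Agent.S18.B.Basic.coe_jgen_eq]
  refine mul_eq_zero_of_right _ (Finset.prod_eq_zero (Finset.mem_range.mpr hq.out.pos) ?_)
  rw [pow_zero, rescaleU_one, sub_self]

include hΦ in
theorem aeval_rescale_PhiF :
    aeval (rescaleU ζ (jqModC Kb)) (PhiF (N0 := N0) (q := q) Φ) = 0 := by
  rw [aeval_def, ← eval_map, eval_map_PhiF (N0 := N0) hΦ]
  refine mul_eq_zero_of_right _ (Finset.prod_eq_zero (Finset.mem_range.mpr hq.out.one_lt) ?_)
  rw [pow_one, sub_self]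

end Roots

include hζ in
theorem rescale_ne_jgen :
    rescaleU ζ (jqModC Kb) ≠ algebraMap (E (N0 * q)) Ω (jgen (N0 * q)) := by
  rw [IntermediateField.algebraMap_apply, Fermat.Agent.S18.B.Basic.coe_jgen_eq]
  intro h
  have h1 : ζ = 1 := eq_of_rescaleU_eq
    (by rw [Fermat.Agent.S37.ES.HeckeRho.coeff_neg_one_jqModC]; exact one_ne_zero)
    (h.trans (rescaleU_one _).symm)
  exact hq.out.one_lt.ne' (hζ.unique (h1 ▸ IsPrimitiveRoot.one))

include hqN hζ in
/-- **Existence of the middle-cusp expansion** as a homomorphism of `E (N0 q)`-algebras. -/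
theorem exists_algHom_iota :
    ∃ ψ : E (N0 * q * q) →ₐ[E (N0 * q)] Ω, ψ (j2 N0 q) = rescaleU ζ (jqModC Kb) := by
  obtain ⟨Φ, hΦm, hΦd, hΦ⟩ := Fermat.Agent.S28.ModPolyPrime.hasModPoly Kb q hq.out
  have hPm : (PhiF (N0 := N0) (q := q) Φ).Monic := hΦm.map _
  have hPd : (PhiF (N0 := N0) (q := q) Φ).natDegree = q + 1 := by
    rw [PhiF, hΦm.natDegree_map, hΦd]
  exact exists_algHom_of_root hq.out finrank_FB (j2 N0 q) (j2_not_mem hqN) hPm hPd
    (aeval_j2_PhiF (hΦ ζ hζ)) (eval_jgen_PhiF (hΦ ζ hζ)) (aeval_rescale_PhiF (hΦ ζ hζ))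
    (rescale_ne_jgen hζ)

/-- **the expansion at the middle cusp `1/q`**: the identity on `E (N0 q)`, and
`j(t^(q²)) ↦ j(ζ t)` -/
def iota : E (N0 * q * q) →+* Ω :=
  ((Classical.choose (exists_algHom_iota hqN hζ) : E (N0 * q * q) →ₐ[E (N0 * q)] Ω) :
    E (N0 * q * q) →+* Ω)

theorem iota_j2 : iota hqN hζ (j2 N0 q) = rescaleU ζ (jqModC Kb) :=
  Classical.choose_spec (exists_algHom_iota hqN hζ)

theorem iota_alpha (x : E (N0 * q)) :
    iota hqN hζ (heckeAlphaBar Kb (N0 * q) q x) = (x : Ω) := by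
  have h := (Classical.choose (exists_algHom_iota hqN hζ)).commutes x
  rw [IntermediateField.algebraMap_apply, algebraMap_FB] at h
  exact h

theorem iota_injective : Function.Injective (iota hqN hζ) := (iota hqN hζ).injective

/-- the power basis `1, j₂, …, j₂^(q-1)` of `E (N0 q q)` over `E (N0 q)` -/
def pbFB : PowerBasis (E (N0 * q)) (E (N0 * q * q)) where
  gen := j2 N0 q
  dim := q
  basis := Classical.choose
    (LevelDvd.exists_basis_pow_of_prime hq.out finrank_FB (j2 N0 q) (j2_not_mem hqN))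
  basis_eq_pow := Classical.choose_spec
    (LevelDvd.exists_basis_pow_of_prime hq.out finrank_FB (j2 N0 q) (j2_not_mem hqN))

@[simp] theorem pbFB_gen : (pbFB (q := q) hqN).gen = j2 N0 q := rfl

include hqN in
/-- two ring homomorphisms out of `E (N0 q q)` agree as soon as they agree on `α (E (N0 q))` and
on `j(t^(q²))` -/
theorem ringHom_ext_FB {T : Type*} [CommRing T] (f g : E (N0 * q * q) →+* T)
    (h1 : ∀ x : E (N0 * q), f (heckeAlphaBar Kb (N0 * q) q x) = g (heckeAlphaBar Kb (N0 * q) q x))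
    (h2 : f (j2 N0 q) = g (j2 N0 q)) : f = g :=
  ringHom_ext_of_powerBasis (pbFB hqN) f g h1 h2

/-- **uniqueness of the middle-cusp expansion** -/
theorem iota_unique (f : E (N0 * q * q) →+* Ω)
    (h1 : ∀ x : E (N0 * q), f (heckeAlphaBar Kb (N0 * q) q x) = (x : Ω))
    (h2 : f (j2 N0 q) = rescaleU ζ (jqModC Kb)) : f = iota hqN hζ :=
  ringHom_ext_FB hqN f _ (fun x => by rw [h1, iota_alpha]) (by rw [h2, iota_j2])

/-! ### The second degeneracy map -/

open Fermat.Agent.S34.PairX0W (wq wq_alpha wq_beta)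
open Fermat.Agent.S34.TwoGaussX0 (pbX0 pbX0_gen)

include hζ in
theorem zeta_pow_eq_one : ζ ^ q = 1 := hζ.pow_eq_one

theorem beta_alpha (r : E N0) :
    heckeBetaBar Kb (N0 * q) q (heckeAlphaBar Kb N0 q r) =
      heckeAlphaBar Kb (N0 * q) q (heckeBetaBar Kb N0 q r) := by
  apply Subtype.ext
  rw [coe_heckeBetaBar, coe_heckeAlphaBar, coe_heckeAlphaBar, coe_heckeBetaBar]

/-- **`iota ∘ β = (t ↦ ζ t) ∘ w_q`** on `E (N0 q)` -/
theorem iota_beta (x : E (N0 * q)) :
    iota hqN hζ (heckeBetaBar Kb (N0 * q) q x) = rescaleU ζ ((wq N0 q hqN x : E (N0 * q)) : Ω) := by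
  let f₁ : E (N0 * q) →+* Ω :=
    (iota hqN hζ).comp (heckeBetaBar Kb (N0 * q) q : E (N0 * q) →+* E (N0 * q * q))
  let f₂ : E (N0 * q) →+* Ω :=
    ((rescaleU ζ : Ω ≃+* Ω) : Ω →+* Ω).comp
      ((algebraMap (E (N0 * q)) Ω).comp ((wq N0 q hqN : E (N0 * q) ≃ₐ[Kb] E (N0 * q)) :
        E (N0 * q) →+* E (N0 * q)))
  have hf : f₁ = f₂ := by
    refine ringHom_ext_of_powerBasis (pbX0 (q := q) hqN) f₁ f₂ (fun r => ?_) ?_
    · show iota hqN hζ (heckeBetaBar Kb (N0 * q) q (heckeAlphaBar Kb N0 q r)) =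
        rescaleU ζ (algebraMap (E (N0 * q)) Ω (wq N0 q hqN (heckeAlphaBar Kb N0 q r)))
      rw [beta_alpha, iota_alpha, wq_alpha, IntermediateField.algebraMap_apply, coe_heckeBetaBar,
        rescaleU_qExpand_of_pow_eq_one q (zeta_pow_eq_one hζ)]
    · rw [pbX0_gen]
      show iota hqN hζ (heckeBetaBar Kb (N0 * q) q (jl N0 q)) =
        rescaleU ζ (algebraMap (E (N0 * q)) Ω (wq N0 q hqN (jl N0 q)))
      have h1 : heckeBetaBar Kb (N0 * q) q (jl N0 q) = j2 N0 q := rfl
      rw [h1, iota_j2, jl, wq_beta, IntermediateField.algebraMap_apply, coe_heckeAlphaBar,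
        Fermat.Agent.S18.B.Basic.coe_jgen_eq]
  have h := congrArg (fun f : E (N0 * q) →+* Ω => f x) hf
  simp only [f₁, f₂, RingHom.comp_apply] at h
  rw [IntermediateField.algebraMap_apply] at h
  exact h

/-- **for every `φ ∈ E N0`: `iota (φ(t^(q²))) = φ(ζ t)`** -/
theorem iota_beta_beta (φ : E N0) :
    iota hqN hζ (heckeBetaBar Kb (N0 * q) q (heckeBetaBar Kb N0 q φ)) = rescaleU ζ (φ : Ω) := by
  rw [iota_beta, wq_beta, coe_heckeAlphaBar]

/-- `iota (φ(t^q)) = φ(t^q)` for `φ ∈ E N0` -/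
theorem iota_alpha_beta (φ : E N0) :
    iota hqN hζ (heckeAlphaBar Kb (N0 * q) q (heckeBetaBar Kb N0 q φ)) =
      qExpand Kb q (φ : Ω) := by
  rw [iota_alpha, coe_heckeBetaBar]

/-- `iota φ = φ` for `φ ∈ E N0` -/
theorem iota_alpha_alpha (φ : E N0) :
    iota hqN hζ (heckeAlphaBar Kb (N0 * q) q (heckeAlphaBar Kb N0 q φ)) = (φ : Ω) := by
  rw [iota_alpha, coe_heckeAlphaBar]

/-! ### Galois equivariance -/

section Galois

variable (σ : Kb ≃ₐ[ℚ] Kb)

/-- the coefficientwise Galois action fixes `j(t^(q²))` -/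
theorem smul_j2 :
    arithmeticGalois (modularFunctionFieldFull (N0 * q * q)) σ • j2 N0 q = j2 N0 q := by
  rw [j2]
  have h := Fermat.Agent.S30.Arith.HeckeGalois.intertwines_beta (L := Kb) (N0 * q) q σ (jl N0 q)
  rw [Fermat.Agent.S34.TwoGaussX0.smul_jl] at h
  exact h

theorem smul_alpha (x : E (N0 * q)) :
    arithmeticGalois (modularFunctionFieldFull (N0 * q * q)) σ • heckeAlphaBar Kb (N0 * q) q x =
      heckeAlphaBar Kb (N0 * q) q (arithmeticGalois (modularFunctionFieldFull (N0 * q)) σ • x) :=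
  Fermat.Agent.S30.Arith.HeckeGalois.intertwines_alpha (L := Kb) (N0 * q) q σ x

/-- the coefficientwise action of `σ` on `E (N0 q q)` as a ring homomorphism -/
def galHom : E (N0 * q * q) →+* E (N0 * q * q) :=
  (arithmeticRingAut (modularFunctionFieldFull (N0 * q * q)) σ : E (N0 * q * q) →+* E (N0 * q * q))

theorem galHom_apply (x : E (N0 * q * q)) :
    galHom (N0 := N0) (q := q) σ x =
      arithmeticGalois (modularFunctionFieldFull (N0 * q * q)) σ • x := rfl

variable {ζ' : Kbˣ} (hζ' : IsPrimitiveRoot ζ' q)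

/-- **Galois equivariance of the middle-cusp expansion**: conjugating the coefficients by `σ`
replaces `ζ` by `σ ζ`. -/
theorem coeffMap_iota (h : (ζ' : Kb) = σ (ζ : Kb)) (x : E (N0 * q * q)) :
    coeffMap (σ : Kb →+* Kb) (iota hqN hζ x) =
      iota hqN hζ' (arithmeticGalois (modularFunctionFieldFull (N0 * q * q)) σ • x) := by
  have hu : Units.map (σ : Kb →+* Kb).toMonoidHom ζ = ζ' := Units.ext h.symm
  have hf : (coeffMap (σ : Kb →+* Kb)).comp (iota hqN hζ) =
      (iota hqN hζ').comp (galHom (N0 := N0) (q := q) σ) := by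
    refine ringHom_ext_FB hqN _ _ (fun y => ?_) ?_
    · rw [RingHom.comp_apply, RingHom.comp_apply, galHom_apply, smul_alpha, iota_alpha, iota_alpha,
        coe_arithmeticGalois_smul]
    · rw [RingHom.comp_apply, RingHom.comp_apply, galHom_apply, smul_j2, iota_j2, iota_j2,
        coeffMap_rescaleU, coeffMap_jqModC, hu]
  exact congrArg (fun f : E (N0 * q * q) →+* Ω => f x) hf

end Galois

end X0

end Fermat.Agent.S36.MiddleCusp
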