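/-
PROJECT V (S36), slice V-MiddleCusp, second file (helper15): **Gauss fractions of Laurent series and
the residue map of the thick place `W11` in `t`-expansion form.**

Part A (generic): `L` a field, `A` a valuation subring, `π : A →+* k` onto-or-not a field `k`.
* `fracRing A π : Subring L((t))` : the fractions `a / b`, `a, b ∈ A((t))`, `π b ≠ 0`;
  `fracRed : fracRing →+* k((t))`, `a / b ↦ π a / π b`; an element with nonzero reduction is a unit
  (`inv_mem_fracRing`), so `fracRing` is a local ring with maximal ideal `ker fracRed`;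
* `exists_valuationSubring_ge` : **Chevalley** — there is a valuation subring `𝒱` of the field
  `L((t))` with `fracRing ≤ 𝒱` and `𝔪_𝒱 ∩ fracRing = ker fracRed`.

* relational form `IsRed A π x r` ("`x` is a Gauss fraction with reduction `r`"), stable under
  `+ - * / ^`, constants of `A`, `t ↦ t^N`, `t ↦ u t` (`u ∈ Aˣ`; the reduction is unchanged when
  `ū = 1`);
* `IsRed.exists_diffQuot` : if `ū = 1` then `x(u t) - x(t) = (u - 1) v` with `v` reducing to `θ x̄`;
* `IsRed.pow_div_natCast` : for a primitive `q`-th root of unity `ζ ∈ A` and residue characteristic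
  `q`: `(x(ζ t) - x(t))^(q-1) / q` reduces to `-(θ x̄)^(q-1)` (Wilson), and the multiplicative twin
  `IsRed.div_sub_one_pow_div_natCast` : `(x(ζ t)/x(t) - 1)^(q-1) / q ↦ -(θ x̄ / x̄)^(q-1)`.

Part B: the `t`-expansion rings `Ow A π N` of `S18/GaussFromH` consist of Gauss fractions
(`isRed_of_mem_Ow`).

Part C (the middle cusp; notation of `S36/MiddleCusp`, `S34/PairX0`, `S34/PairX0W`):
* `isRed_iota_alpha` / `isRed_iota_beta` : `iota (α x)`, `x ∈ V1`, reduces to `red1 x`; `iota (β x)`,
  `x ∈ V2`, reduces to `red2 x`;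
* `isRed_iota_a0/a1/a2` : for `g` in the Gauss ring of level `N0`: `iota (a_i g)` reduces to `ḡ`,
  `ḡ(t^q)`, `ḡ` (normalisation (D5) of the chain for `r11`); `isRed_iota_a2_sub_a0`;
* `exists_diffQuot_iota`, `isRed_iota_thick_unit` (`c = (a₂ g - a₀ g)^(q-1)/q ↦ -(θ ḡ)^(q-1)`,
  (V12)(ii)), `isRed_iota_thick_unit_mul` (`(a₂ g/a₀ g - 1)^(q-1)/q ↦ -(θ ḡ/ḡ)^(q-1)`, (V12)(ii'));
* `exists_valuationSubring_comap` : for every field `F` and `ρ : F →+* E (N0 q q)` there is a
  valuation subring `W` of `F` containing every `x` with `iota (ρ x)` a Gauss fraction, such an `x`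
  being a non-unit iff the reduction is `0`;
* `exists_thick_place` : over `ℚ̄`, such a `W` restricts to `V1` along `α` and to `V2` along `β`.
-/
import Mathlib
import Fermat.Agent.S36.MiddleCusp
import Fermat.Agent.S36.DiagTheta

set_option autoImplicit false
set_option linter.unusedSectionVars false
set_option linter.style.haveILetI false

noncomputable section

namespace Fermat.Agent.S36.MiddleCuspGauss

open ModularCurve HahnSeries

/-! ### Part A: Gauss fractions -/

section Generic

variable {L : Type*} [Field L] (A : ValuationSubring L) {k : Type*} [Field k] (π : A →+* k)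

/-- the coefficientwise inclusion `A((t)) → L((t))` -/
abbrev incA : LaurentSeries A →+* LaurentSeries L := coeffMap A.subtype

omit A π in
/-- the coefficientwise reduction `A((t)) → k((t))` -/
abbrev redA {A : ValuationSubring L} (π : A →+* k) : LaurentSeries A →+* LaurentSeries k :=
  coeffMap π

theorem incA_injective : Function.Injective (incA A) := by
  intro x y h
  ext n
  have := congrArg (fun z => z.coeff n) h
  simp only [coeffMap_coeff] at this
  exact this

variable {A π}

theorem incA_ne_zero_of_redA_ne_zero {a : LaurentSeries A} (h : redA π a ≠ 0) : incA A a ≠ 0 := by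
  intro h0
  apply h
  have : a = 0 := incA_injective A (by rw [h0, map_zero])
  rw [this, map_zero]

variable (A π)

/-- `x ∈ L((t))` is a fraction `a / b` of integral series with `π b ≠ 0` -/
def InFrac (x : LaurentSeries L) : Prop :=
  ∃ a b : LaurentSeries A, redA π b ≠ 0 ∧ x * incA A b = incA A a

/-- **the ring of Gauss fractions** -/
def fracRing : Subring (LaurentSeries L) where
  carrier := {x | InFrac A π x}
  zero_mem' := ⟨0, 1, by rw [map_one]; exact one_ne_zero, by rw [map_zero, zero_mul]⟩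
  one_mem' := ⟨1, 1, by rw [map_one]; exact one_ne_zero, by rw [map_one, mul_one]⟩
  add_mem' := by
    rintro f g ⟨a, b, hb, hab⟩ ⟨a', b', hb', hab'⟩
    refine ⟨a * b' + a' * b, b * b', ?_, ?_⟩
    · rw [map_mul]; exact mul_ne_zero hb hb'
    · rw [map_mul, map_add, map_mul, map_mul, ← hab, ← hab']; ring
  mul_mem' := by
    rintro f g ⟨a, b, hb, hab⟩ ⟨a', b', hb', hab'⟩
    refine ⟨a * a', b * b', ?_, ?_⟩
    · rw [map_mul]; exact mul_ne_zero hb hb'
    · rw [map_mul, map_mul, ← hab, ← hab']; ring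
  neg_mem' := by
    rintro f ⟨a, b, hb, hab⟩
    exact ⟨-a, b, hb, by rw [map_neg, ← hab]; ring⟩

variable {A π}

theorem mem_fracRing {x : LaurentSeries L} : x ∈ fracRing A π ↔ InFrac A π x := Iff.rfl

theorem incA_mem_fracRing (a : LaurentSeries A) : incA A a ∈ fracRing A π :=
  ⟨a, 1, by rw [map_one]; exact one_ne_zero, by rw [map_one, mul_one]⟩

/-- two presentations of the same fraction have the same reduction -/
theorem redA_div_eq {x : LaurentSeries L} {a b a' b' : LaurentSeries A} (hb : redA π b ≠ 0)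
    (hb' : redA π b' ≠ 0) (h : x * incA A b = incA A a) (h' : x * incA A b' = incA A a') :
    redA π a / redA π b = redA π a' / redA π b' := by
  have hI : a * b' = a' * b := by
    apply incA_injective A
    rw [map_mul, map_mul, ← h, ← h']; ring
  rw [div_eq_div_iff hb hb', ← map_mul, ← map_mul, hI]

variable (A π) in
/-- the reduction on `fracRing` as a function -/
def fracRedFun (x : ↥(fracRing A π)) : LaurentSeries k :=
  redA π x.2.choose / redA π x.2.choose_spec.choose

theorem fracRedFun_eq (x : ↥(fracRing A π)) {a b : LaurentSeries A} (hb : redA π b ≠ 0)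
    (h : (x : LaurentSeries L) * incA A b = incA A a) :
    fracRedFun A π x = redA π a / redA π b :=
  redA_div_eq x.2.choose_spec.choose_spec.1 hb x.2.choose_spec.choose_spec.2 h

variable (A π) in
/-- **the reduction homomorphism** `fracRing → k((t))`, `a / b ↦ π a / π b` -/
def fracRed : ↥(fracRing A π) →+* LaurentSeries k where
  toFun := fracRedFun A π
  map_one' := by
    rw [fracRedFun_eq (1 : ↥(fracRing A π)) (a := 1) (b := 1) (by rw [map_one]; exact one_ne_zero)
      (by rw [map_one, mul_one]; rfl), map_one, div_one]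
  map_zero' := by
    rw [fracRedFun_eq (0 : ↥(fracRing A π)) (a := 0) (b := 1) (by rw [map_one]; exact one_ne_zero)
      (by rw [map_one, mul_one, map_zero]; rfl), map_zero, zero_div]
  map_mul' := by
    intro F G
    obtain ⟨a, b, hb, hab⟩ := F.2
    obtain ⟨a', b', hb', hab'⟩ := G.2
    rw [fracRedFun_eq F hb hab, fracRedFun_eq G hb' hab',
      fracRedFun_eq (F * G) (a := a * a') (b := b * b')
        (by rw [map_mul]; exact mul_ne_zero hb hb')
        (by
          show (F : LaurentSeries L) * G * incA A (b * b') = incA A (a * a')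
          rw [map_mul, map_mul, ← hab, ← hab']; ring),
      map_mul, map_mul, div_mul_div_comm]
  map_add' := by
    intro F G
    obtain ⟨a, b, hb, hab⟩ := F.2
    obtain ⟨a', b', hb', hab'⟩ := G.2
    rw [fracRedFun_eq F hb hab, fracRedFun_eq G hb' hab',
      fracRedFun_eq (F + G) (a := a * b' + a' * b) (b := b * b')
        (by rw [map_mul]; exact mul_ne_zero hb hb')
        (by
          show ((F : LaurentSeries L) + G) * incA A (b * b') = incA A (a * b' + a' * b)
          rw [map_mul, map_add, map_mul, map_mul, ← hab, ← hab']; ring),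
      map_mul, map_add, map_mul, map_mul, div_add_div _ _ hb hb', mul_comm (redA π a')]

theorem fracRed_eq (x : ↥(fracRing A π)) {a b : LaurentSeries A} (hb : redA π b ≠ 0)
    (h : (x : LaurentSeries L) * incA A b = incA A a) :
    fracRed A π x = redA π a / redA π b :=
  fracRedFun_eq x hb h

theorem fracRed_incA (a : LaurentSeries A) :
    fracRed A π ⟨incA A a, incA_mem_fracRing a⟩ = redA π a := by
  rw [fracRed_eq ⟨incA A a, incA_mem_fracRing a⟩ (a := a) (b := 1)
    (by rw [map_one]; exact one_ne_zero) (by rw [map_one, mul_one]), map_one, div_one]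

/-- an element of `fracRing` with nonzero reduction is a unit of `fracRing` -/
theorem inv_mem_fracRing (x : ↥(fracRing A π)) (hx : fracRed A π x ≠ 0) :
    (x : LaurentSeries L)⁻¹ ∈ fracRing A π := by
  obtain ⟨a, b, hb, hab⟩ := x.2
  have ha : redA π a ≠ 0 := by
    intro h0
    apply hx
    rw [fracRed_eq x hb hab, h0, zero_div]
  have hb0 := incA_ne_zero_of_redA_ne_zero hb
  have ha0 := incA_ne_zero_of_redA_ne_zero ha
  have hx0 : (x : LaurentSeries L) ≠ 0 := by
    intro h0
    rw [h0, zero_mul] at hab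
    exact ha0 hab.symm
  refine ⟨b, a, ha, ?_⟩
  rw [← hab]
  field_simp

theorem fracRed_inv (x : ↥(fracRing A π)) (hx : fracRed A π x ≠ 0) :
    fracRed A π ⟨(x : LaurentSeries L)⁻¹, inv_mem_fracRing x hx⟩ = (fracRed A π x)⁻¹ := by
  have hx0 : (x : LaurentSeries L) ≠ 0 := by
    intro h0
    apply hx
    have : x = 0 := Subtype.ext h0
    rw [this, map_zero]
  have h : x * ⟨(x : LaurentSeries L)⁻¹, inv_mem_fracRing x hx⟩ = 1 :=
    Subtype.ext (mul_inv_cancel₀ hx0)
  have h2 := congrArg (fracRed A π) h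
  rw [map_mul, map_one] at h2
  exact eq_inv_of_mul_eq_one_right h2

variable (A π) in
/-- **Chevalley**: a valuation subring of the field `L((t))` dominating the local ring of Gauss
fractions. -/
theorem exists_valuationSubring_ge :
    ∃ 𝒱 : ValuationSubring (LaurentSeries L), (∀ x ∈ fracRing A π, x ∈ 𝒱) ∧
      ∀ x : ↥(fracRing A π), (x : LaurentSeries L) ∈ 𝒱.nonunits ↔ fracRed A π x = 0 := by
  have hI : RingHom.ker (fracRed A π) ≠ ⊤ := by
    intro h
    have h1 : (1 : ↥(fracRing A π)) ∈ RingHom.ker (fracRed A π) := by rw [h]; trivial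
    rw [RingHom.mem_ker, map_one] at h1
    exact one_ne_zero h1
  obtain ⟨𝒱, hle, hsub⟩ := Ideal.image_subset_nonunits_valuationSubring _ hI
  refine ⟨𝒱, fun x hx => hle hx, fun x => ⟨fun hx => ?_, fun hx => ?_⟩⟩
  · by_contra h0
    have hinv : (x : LaurentSeries L)⁻¹ ∈ 𝒱 := hle (inv_mem_fracRing x h0)
    have hx0 : (x : LaurentSeries L) ≠ 0 := by
      intro h
      apply h0
      have : x = 0 := Subtype.ext h
      rw [this, map_zero]
    rw [ValuationSubring.mem_nonunits_iff_exists_mem_maximalIdeal] at hx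
    obtain ⟨hxV, hxm⟩ := hx
    rw [IsLocalRing.mem_maximalIdeal, mem_nonunits_iff] at hxm
    apply hxm
    refine IsUnit.of_mul_eq_one (⟨(x : LaurentSeries L)⁻¹, hinv⟩ : ↥𝒱) (Subtype.ext ?_)
    exact mul_inv_cancel₀ hx0
  · exact hsub ⟨x, hx, rfl⟩

/-! #### relational form: `IsRed x r` = "`x` is a Gauss fraction with reduction `r`" -/

variable (A π) in
/-- `x ∈ L((t))` is a Gauss fraction `a / b` and its reduction `π a / π b` is `r ∈ k((t))` -/
def IsRed (x : LaurentSeries L) (r : LaurentSeries k) : Prop :=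
  ∃ a b : LaurentSeries A, redA π b ≠ 0 ∧ x * incA A b = incA A a ∧ r * redA π b = redA π a

theorem IsRed.mem {x : LaurentSeries L} {r : LaurentSeries k} (h : IsRed A π x r) :
    x ∈ fracRing A π := by
  obtain ⟨a, b, hb, hab, -⟩ := h
  exact ⟨a, b, hb, hab⟩

theorem IsRed.fracRed_eq {x : LaurentSeries L} {r : LaurentSeries k} (h : IsRed A π x r) :
    fracRed A π ⟨x, h.mem⟩ = r := by
  obtain ⟨a, b, hb, hab, hr⟩ := h
  rw [Fermat.Agent.S36.MiddleCuspGauss.fracRed_eq ⟨x, _⟩ hb hab, ← hr, mul_div_cancel_right₀ _ hb]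

theorem isRed_fracRed (x : ↥(fracRing A π)) : IsRed A π (x : LaurentSeries L) (fracRed A π x) := by
  obtain ⟨a, b, hb, hab⟩ := x.2
  refine ⟨a, b, hb, hab, ?_⟩
  rw [Fermat.Agent.S36.MiddleCuspGauss.fracRed_eq x hb hab, div_mul_cancel₀ _ hb]

theorem isRed_iff {x : LaurentSeries L} {r : LaurentSeries k} :
    IsRed A π x r ↔ ∃ hx : x ∈ fracRing A π, fracRed A π ⟨x, hx⟩ = r :=
  ⟨fun h => ⟨h.mem, h.fracRed_eq⟩, fun ⟨hx, h⟩ => h ▸ isRed_fracRed ⟨x, hx⟩⟩

theorem IsRed.unique {x : LaurentSeries L} {r r' : LaurentSeries k} (h : IsRed A π x r)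
    (h' : IsRed A π x r') : r = r' := by
  obtain ⟨a, b, hb, hab, hr⟩ := h
  obtain ⟨a', b', hb', hab', hr'⟩ := h'
  have hI : a * b' = a' * b := by
    apply incA_injective A
    rw [map_mul, map_mul, ← hab, ← hab']; ring
  have h1 : r * (redA π b * redA π b') = r' * (redA π b * redA π b') := by
    calc r * (redA π b * redA π b') = (r * redA π b) * redA π b' := by ring
      _ = redA π (a * b') := by rw [hr, map_mul]
      _ = redA π (a' * b) := by rw [hI]
      _ = (r' * redA π b') * redA π b := by rw [hr', map_mul]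
      _ = r' * (redA π b * redA π b') := by ring
  exact mul_right_cancel₀ (mul_ne_zero hb hb') h1

theorem isRed_incA (a : LaurentSeries A) : IsRed A π (incA A a) (redA π a) :=
  ⟨a, 1, by rw [map_one]; exact one_ne_zero, by rw [map_one, mul_one], by rw [map_one, mul_one]⟩

theorem isRed_zero : IsRed A π 0 0 := by
  have h := isRed_incA (A := A) (π := π) 0
  rwa [map_zero, map_zero] at h

theorem isRed_one : IsRed A π 1 1 := by
  have h := isRed_incA (A := A) (π := π) 1
  rwa [map_one, map_one] at h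

theorem IsRed.add {x y : LaurentSeries L} {r s : LaurentSeries k} (hx : IsRed A π x r)
    (hy : IsRed A π y s) : IsRed A π (x + y) (r + s) := by
  obtain ⟨a, b, hb, hab, hr⟩ := hx
  obtain ⟨a', b', hb', hab', hr'⟩ := hy
  refine ⟨a * b' + a' * b, b * b', ?_, ?_, ?_⟩
  · rw [map_mul]; exact mul_ne_zero hb hb'
  · rw [map_mul, map_add, map_mul, map_mul, ← hab, ← hab']; ring
  · rw [map_mul, map_add, map_mul, map_mul, ← hr, ← hr']; ring

theorem IsRed.mul {x y : LaurentSeries L} {r s : LaurentSeries k} (hx : IsRed A π x r)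
    (hy : IsRed A π y s) : IsRed A π (x * y) (r * s) := by
  obtain ⟨a, b, hb, hab, hr⟩ := hx
  obtain ⟨a', b', hb', hab', hr'⟩ := hy
  refine ⟨a * a', b * b', ?_, ?_, ?_⟩
  · rw [map_mul]; exact mul_ne_zero hb hb'
  · rw [map_mul, map_mul, ← hab, ← hab']; ring
  · rw [map_mul, map_mul, ← hr, ← hr']; ring

theorem IsRed.neg {x : LaurentSeries L} {r : LaurentSeries k} (hx : IsRed A π x r) :
    IsRed A π (-x) (-r) := by
  obtain ⟨a, b, hb, hab, hr⟩ := hx
  exact ⟨-a, b, hb, by rw [map_neg, ← hab]; ring, by rw [map_neg, ← hr]; ring⟩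

theorem IsRed.sub {x y : LaurentSeries L} {r s : LaurentSeries k} (hx : IsRed A π x r)
    (hy : IsRed A π y s) : IsRed A π (x - y) (r - s) := by
  rw [sub_eq_add_neg, sub_eq_add_neg]
  exact hx.add hy.neg

theorem IsRed.pow {x : LaurentSeries L} {r : LaurentSeries k} (hx : IsRed A π x r) (n : ℕ) :
    IsRed A π (x ^ n) (r ^ n) := by
  induction n with
  | zero => rw [pow_zero, pow_zero]; exact isRed_one
  | succ n ih => rw [pow_succ, pow_succ]; exact ih.mul hx

theorem IsRed.inv {x : LaurentSeries L} {r : LaurentSeries k} (hx : IsRed A π x r) (hr : r ≠ 0) :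
    IsRed A π x⁻¹ r⁻¹ := by
  obtain ⟨a, b, hb, hab, hrb⟩ := hx
  have ha : redA π a ≠ 0 := by rw [← hrb]; exact mul_ne_zero hr hb
  have ha0 := incA_ne_zero_of_redA_ne_zero ha
  have hx0 : x ≠ 0 := by
    rintro rfl
    rw [zero_mul] at hab
    exact ha0 hab.symm
  refine ⟨b, a, ha, ?_, ?_⟩
  · rw [← hab]; field_simp
  · rw [← hrb]; field_simp

theorem IsRed.div {x y : LaurentSeries L} {r s : LaurentSeries k} (hx : IsRed A π x r)
    (hy : IsRed A π y s) (hs : s ≠ 0) : IsRed A π (x / y) (r / s) := by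
  rw [div_eq_mul_inv, div_eq_mul_inv]
  exact hx.mul (hy.inv hs)

theorem isRed_C (c : A) : IsRed A π (HahnSeries.C (c : L)) (HahnSeries.C (π c)) := by
  have h := isRed_incA (A := A) (π := π) (HahnSeries.C c)
  rwa [show incA A (HahnSeries.C c) = HahnSeries.C (c : L) from
      Fermat.Agent.S18.B.Basic.coeffMap_C A.subtype c,
    show redA π (HahnSeries.C c) = HahnSeries.C (π c) from
      Fermat.Agent.S18.B.Basic.coeffMap_C π c] at h

/-- an element of the dominating valuation subring with `IsRed x r`: it is a non-unit iff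
`r = 0` -/
theorem IsRed.mem_nonunits_iff {𝒱 : ValuationSubring (LaurentSeries L)}
    (h𝒱 : ∀ x : ↥(fracRing A π), (x : LaurentSeries L) ∈ 𝒱.nonunits ↔ fracRed A π x = 0)
    {x : LaurentSeries L} {r : LaurentSeries k} (hx : IsRed A π x r) :
    x ∈ 𝒱.nonunits ↔ r = 0 := by
  have h := h𝒱 ⟨x, hx.mem⟩
  rwa [hx.fracRed_eq] at h

/-! #### substitutions `t ↦ u t` with `u ∈ Aˣ`, and the difference quotient -/

section Rescale

open Fermat.Agent.S28.LaurentRescale Fermat.Agent.S36.DiagTheta

variable (u : (↥A)ˣ)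

variable (A) in
/-- a unit of `A` as a unit of `L` -/
abbrev unitL : Lˣ := Units.map (A.subtype : ↥A →+* L).toMonoidHom u

variable (π) in
/-- the reduction of a unit of `A` -/
abbrev unitK : kˣ := Units.map π.toMonoidHom u

theorem incA_rescaleU (a : LaurentSeries A) :
    incA A (rescaleU u a) = rescaleU (unitL A u) (incA A a) := coeffMap_rescaleU _ u a

theorem redA_rescaleU (a : LaurentSeries A) :
    redA π (rescaleU u a) = rescaleU (unitK π u) (redA π a) := coeffMap_rescaleU _ u a

/-- Gauss fractions are stable under `t ↦ u t`, and the reduction is `t ↦ ū t` -/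
theorem IsRed.rescale {x : LaurentSeries L} {r : LaurentSeries k} (hx : IsRed A π x r) :
    IsRed A π (rescaleU (unitL A u) x) (rescaleU (unitK π u) r) := by
  obtain ⟨a, b, hb, hab, hr⟩ := hx
  refine ⟨rescaleU u a, rescaleU u b, ?_, ?_, ?_⟩
  · rw [redA_rescaleU]
    exact fun h => hb ((rescaleU (unitK π u)).injective (by rw [h, map_zero]))
  · rw [incA_rescaleU, incA_rescaleU, ← map_mul, hab]
  · rw [redA_rescaleU, redA_rescaleU, ← map_mul, hr]

theorem unitK_eq_one (hu : π u = 1) : unitK π u = 1 := Units.ext hu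

/-- when `ū = 1` the reduction does not change -/
theorem IsRed.rescale_of_eq_one (hu : π u = 1) {x : LaurentSeries L} {r : LaurentSeries k}
    (hx : IsRed A π x r) : IsRed A π (rescaleU (unitL A u) x) r := by
  have h := hx.rescale u
  rwa [unitK_eq_one u hu, rescaleU_one] at h

theorem incA_C (c : A) : incA A (HahnSeries.C c) = HahnSeries.C (c : L) :=
  Fermat.Agent.S18.B.Basic.coeffMap_C A.subtype c

/-- `g(u t) - g(t) = (u - 1) · D_u g` for an integral series -/
theorem rescaleU_sub_incA (a : LaurentSeries A) :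
    rescaleU (unitL A u) (incA A a) - incA A a =
      HahnSeries.C (((u : ↥A) : L) - 1) * incA A (diffQuot u a) := by
  have h := congrArg (incA A) (sub_rescaleU u a)
  rw [map_sub, map_mul, incA_rescaleU, incA_C] at h
  have h2 : (HahnSeries.C (((u : ↥A) : L) - 1) : LaurentSeries L) =
      -HahnSeries.C (((1 - (u : ↥A) : ↥A)) : L) := by
    rw [← map_neg]
    congr 1
    push_cast
    ring
  rw [h2, neg_mul, ← h]
  ring

/-- **the difference quotient of a Gauss fraction**: if `ū = 1` then
`x(u t) - x(t) = (u - 1) · v` with `v` a Gauss fraction reducing to `θ x̄`. -/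
theorem IsRed.exists_diffQuot (hu : π u = 1) {x : LaurentSeries L} {r : LaurentSeries k}
    (hx : IsRed A π x r) :
    ∃ v : LaurentSeries L, rescaleU (unitL A u) x - x = HahnSeries.C (((u : ↥A) : L) - 1) * v ∧
      IsRed A π v (theta r) := by
  obtain ⟨a, b, hb, hab, hr⟩ := hx
  have hx' : IsRed A π x r := ⟨a, b, hb, hab, hr⟩
  have hbu : redA π (rescaleU u b) ≠ 0 := by
    rw [redA_rescaleU]
    exact fun h => hb ((rescaleU (unitK π u)).injective (by rw [h, map_zero]))
  have hbu0 : incA A (rescaleU u b) ≠ 0 := incA_ne_zero_of_redA_ne_zero hbu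
  refine ⟨(incA A (diffQuot u a) - x * incA A (diffQuot u b)) / incA A (rescaleU u b), ?_, ?_⟩
  · -- the identity
    have h1 := rescaleU_sub_incA u a
    have h2 := rescaleU_sub_incA u b
    have h3 : rescaleU (unitL A u) x * rescaleU (unitL A u) (incA A b) =
        rescaleU (unitL A u) (incA A a) := by rw [← map_mul, hab]
    have h4 : rescaleU (unitL A u) (incA A a) = incA A a +
        HahnSeries.C (((u : ↥A) : L) - 1) * incA A (diffQuot u a) := by rw [← h1]; ring
    have h5 : rescaleU (unitL A u) (incA A b) = incA A b +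
        HahnSeries.C (((u : ↥A) : L) - 1) * incA A (diffQuot u b) := by rw [← h2]; ring
    have key : (rescaleU (unitL A u) x - x) * incA A (rescaleU u b) =
        HahnSeries.C (((u : ↥A) : L) - 1) *
          (incA A (diffQuot u a) - x * incA A (diffQuot u b)) := by
      rw [incA_rescaleU, sub_mul, h3, h4, h5, ← hab]
      ring
    rw [← mul_div_assoc, eq_div_iff hbu0]
    exact key
  · -- the reduction
    have hD : IsRed A π (incA A (diffQuot u a) - x * incA A (diffQuot u b))
        (theta (redA π a) - r * theta (redA π b)) := by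
      have ha' := isRed_incA (A := A) (π := π) (diffQuot u a)
      have hb' := isRed_incA (A := A) (π := π) (diffQuot u b)
      rw [show redA π (diffQuot u a) = theta (redA π a) from coeffMap_diffQuot π hu a] at ha'
      rw [show redA π (diffQuot u b) = theta (redA π b) from coeffMap_diffQuot π hu b] at hb'
      exact ha'.sub (hx'.mul hb')
    have hden : IsRed A π (incA A (rescaleU u b)) (redA π b) := by
      have h := isRed_incA (A := A) (π := π) (rescaleU u b)
      have h2 : redA π (rescaleU u b) = redA π b :=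
        (redA_rescaleU (π := π) u b).trans (by rw [unitK_eq_one u hu, rescaleU_one])
      rwa [h2] at h
    have hq := hD.div hden hb
    have hth : (theta (redA π a) - r * theta (redA π b)) / redA π b = theta r := by
      rw [div_eq_iff hb, ← hr, theta_mul]
      ring
    rwa [hth] at hq

end Rescale

/-! #### a primitive `q`-th root of unity in `A`, residue characteristic `q` -/

section Wilson

open Fermat.Agent.S28.LaurentRescale Fermat.Agent.S36.DiagTheta

variable {q : ℕ} [hq : Fact q.Prime] [CharP k q] {ζ : (↥A)ˣ}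

/-- a `q`-th root of unity reduces to `1` in characteristic `q` -/
theorem map_eq_one_of_pow_eq_one (hζ : ζ ^ q = 1) : π (ζ : ↥A) = 1 := by
  have h1 : π (ζ : ↥A) ^ q = 1 := by
    rw [← map_pow, ← Units.val_pow_eq_pow_val, hζ, Units.val_one, map_one]
  have h2 : (π (ζ : ↥A) - 1) ^ q = 0 := by
    rw [sub_pow_char, h1, one_pow, sub_self]
  exact sub_eq_zero.mp (pow_eq_zero_iff hq.out.ne_zero |>.mp h2)

theorem natCast_factorial_eq_neg_one : (((q - 1).factorial : ℕ) : k) = -1 := by
  have h := congrArg (ZMod.castHom (dvd_refl q) k) (ZMod.wilsons_lemma q)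
  rw [map_natCast, map_neg, map_one] at h
  exact h

theorem neg_one_pow_pred : (-1 : k) ^ (q - 1) = 1 := by
  have h := neg_one_pow_char k q
  have hq1 : q = (q - 1) + 1 := by have := hq.out.pos; omega
  rw [hq1, pow_succ] at h
  have h' : (-1 : k) ^ (q - 1) * -1 = -1 := h
  linear_combination -h'

/-- the Wilson cofactor `w = ∏_{1 ≤ b < q} [b]_ζ` -/
def wilson (ζ : (↥A)ˣ) (q : ℕ) : ↥A := ∏ b ∈ Finset.Ico 1 q, gsum ζ (b : ℤ)

/-- `q = (1 - ζ)^(q-1) · w` -/
theorem natCast_eq_pow_mul_wilson (hζ : IsPrimitiveRoot (ζ : ↥A) q) :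
    (q : ↥A) = (1 - (ζ : ↥A)) ^ (q - 1) * wilson ζ q := by
  rw [← prod_one_sub_pow_of_isPrimitiveRoot hq.out.pos hζ, wilson]
  have h : ∀ b ∈ Finset.Ico 1 q, (1 - ((ζ ^ b : (↥A)ˣ) : ↥A)) = (1 - (ζ : ↥A)) * gsum ζ (b : ℤ) := by
    intro b _
    rw [one_sub_mul_gsum, zpow_natCast]
  rw [Finset.prod_congr rfl h, Finset.prod_mul_distrib, Finset.prod_const, Nat.card_Ico]

/-- `w ≡ (q-1)! = -1` -/
theorem map_wilson (hζ : ζ ^ q = 1) : π (wilson ζ q) = -1 := by
  have hu := map_eq_one_of_pow_eq_one (π := π) hζ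
  rw [wilson, map_prod]
  have h : ∀ b ∈ Finset.Ico 1 q, π (gsum ζ (b : ℤ)) = ((b : ℕ) : k) := by
    intro b _
    rw [map_gsum π hu, Int.cast_natCast]
  rw [Finset.prod_congr rfl h, ← Nat.cast_prod]
  have hq1 : q = (q - 1) + 1 := by have := hq.out.pos; omega
  have h2 : ∏ x ∈ Finset.Ico 1 q, x = (q - 1).factorial := by
    conv_lhs => rw [hq1]
    exact Finset.prod_Ico_id_eq_factorial (q - 1)
  rw [h2]
  exact natCast_factorial_eq_neg_one

/-- **the thick-component unit**: for a Gauss fraction `x` with reduction `r`,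
`c = (x(ζ t) - x(t))^(q-1) / q` is a Gauss fraction with reduction `-(θ r)^(q-1)`. -/
theorem IsRed.pow_div_natCast (hζ : IsPrimitiveRoot (ζ : ↥A) q) {x : LaurentSeries L}
    {r : LaurentSeries k} (hx : IsRed A π x r) :
    IsRed A π ((rescaleU (unitL A ζ) x - x) ^ (q - 1) / HahnSeries.C ((q : ℕ) : L))
      (-(theta r) ^ (q - 1)) := by
  have hζq : ζ ^ q = 1 := Units.ext (by rw [Units.val_pow_eq_pow_val, hζ.pow_eq_one, Units.val_one])
  have hu := map_eq_one_of_pow_eq_one (π := π) hζq
  obtain ⟨v, hv, hvr⟩ := hx.exists_diffQuot ζ hu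
  have hne : (1 - ((ζ : ↥A) : L)) ≠ 0 := by
    intro h
    have h1 : (ζ : ↥A) = 1 := by
      apply Subtype.ext
      rw [sub_eq_zero] at h
      rw [← h]
      rfl
    exact hq.out.one_lt.ne' (hζ.unique (h1 ▸ IsPrimitiveRoot.one))
  have hqL : ((q : ℕ) : L) = (1 - ((ζ : ↥A) : L)) ^ (q - 1) * ((wilson ζ q : ↥A) : L) := by
    have h := congrArg (A.subtype : ↥A →+* L) (natCast_eq_pow_mul_wilson hζ)
    rw [map_natCast, map_mul, map_pow, map_sub, map_one] at h
    exact h
  have hw : IsRed A π (HahnSeries.C ((wilson ζ q : ↥A) : L)) (HahnSeries.C (-1 : k)) := by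
    have h := isRed_C (A := A) (π := π) (wilson ζ q)
    rwa [map_wilson hζq] at h
  have hC1 : (HahnSeries.C (-1 : k) : LaurentSeries k) ≠ 0 := by
    rw [map_neg, map_one]
    exact neg_ne_zero.mpr one_ne_zero
  have hsign : IsRed A π (HahnSeries.C (((-1 : ↥A) ^ (q - 1) : ↥A) : L))
      (HahnSeries.C ((-1 : k) ^ (q - 1))) := by
    have h := isRed_C (A := A) (π := π) ((-1 : ↥A) ^ (q - 1))
    rwa [map_pow, map_neg, map_one] at h
  have hmain : (rescaleU (unitL A ζ) x - x) ^ (q - 1) / HahnSeries.C ((q : ℕ) : L) =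
      HahnSeries.C (((-1 : ↥A) ^ (q - 1) : ↥A) : L) * v ^ (q - 1) /
        HahnSeries.C ((wilson ζ q : ↥A) : L) := by
    have hCne : (HahnSeries.C ((1 - ((ζ : ↥A) : L)) ^ (q - 1)) : LaurentSeries L) ≠ 0 := by
      intro h
      have := (HahnSeries.C_injective (Γ := ℤ)) (h.trans (map_zero _).symm)
      exact pow_ne_zero _ hne this
    have hwne : (HahnSeries.C ((wilson ζ q : ↥A) : L) : LaurentSeries L) ≠ 0 := by
      intro h
      have h0 : ((wilson ζ q : ↥A) : L) = 0 :=
        (HahnSeries.C_injective (Γ := ℤ)) (h.trans (map_zero _).symm)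
      have h1 : wilson ζ q = 0 := Subtype.ext h0
      have h2 := map_wilson (π := π) hζq
      rw [h1, map_zero] at h2
      exact one_ne_zero (neg_eq_zero.mp h2.symm)
    rw [hv, mul_pow, hqL, map_mul, div_eq_div_iff (mul_ne_zero hCne hwne) hwne, ← map_pow]
    have h4 : ((ζ : ↥A) : L) - 1 = -(1 - ((ζ : ↥A) : L)) := by ring
    rw [h4, neg_pow, map_mul]
    have h5 : (((-1 : ↥A) ^ (q - 1) : ↥A) : L) = (-1 : L) ^ (q - 1) := by push_cast; rfl
    rw [h5]
    ring
  rw [hmain]
  have h6 := (hsign.mul (hvr.pow (q - 1))).div hw hC1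
  have h7 : HahnSeries.C ((-1 : k) ^ (q - 1)) * theta r ^ (q - 1) / HahnSeries.C (-1 : k) =
      -(theta r) ^ (q - 1) := by
    rw [neg_one_pow_pred, map_one, one_mul, map_neg, map_one, div_neg, div_one]
  rwa [h7] at h6

/-- the multiplicative form (for the middle cusps): `c' = (x(ζ t)/x(t) - 1)^(q-1) / q` is a Gauss
fraction with reduction `-(θ r / r)^(q-1)`, for `r ≠ 0`. -/
theorem IsRed.div_sub_one_pow_div_natCast (hζ : IsPrimitiveRoot (ζ : ↥A) q) {x : LaurentSeries L}
    {r : LaurentSeries k} (hx : IsRed A π x r) (hr : r ≠ 0) :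
    IsRed A π ((rescaleU (unitL A ζ) x / x - 1) ^ (q - 1) / HahnSeries.C ((q : ℕ) : L))
      (-(theta r / r) ^ (q - 1)) := by
  obtain ⟨a, b, hb, hab, hrb⟩ := hx
  have hx' : IsRed A π x r := ⟨a, b, hb, hab, hrb⟩
  have ha : redA π a ≠ 0 := by rw [← hrb]; exact mul_ne_zero hr hb
  have hx0 : x ≠ 0 := by
    rintro rfl
    rw [zero_mul] at hab
    exact incA_ne_zero_of_redA_ne_zero ha hab.symm
  have h1 := (hx'.pow_div_natCast hζ).div (hx'.pow (q - 1)) (pow_ne_zero _ hr)
  have h2 : (rescaleU (unitL A ζ) x - x) ^ (q - 1) / HahnSeries.C ((q : ℕ) : L) / x ^ (q - 1) =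
      (rescaleU (unitL A ζ) x / x - 1) ^ (q - 1) / HahnSeries.C ((q : ℕ) : L) := by
    have h3 : rescaleU (unitL A ζ) x / x - 1 = (rescaleU (unitL A ζ) x - x) / x := by
      field_simp
    rw [h3, div_pow]
    ring
  have h4 : -(theta r) ^ (q - 1) / r ^ (q - 1) = -(theta r / r) ^ (q - 1) := by
    rw [div_pow, neg_div]
  rwa [h2, h4] at h1

end Wilson

end Generic

/-! ### Part B: the `t`-expansion rings of the modular function fields are Gauss fractions -/

section Ow

open Fermat.Agent.S18.GaussFromH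

variable {L : Type*} [Field L] [Algebra ℚ L] (A : ValuationSubring L) {k : Type*} [Field k]
  (π : A →+* k) (N : ℕ)

/-- elements of the `t`-expansion ring `Ow A π N` are Gauss fractions, with the same reduction -/
theorem isRed_of_mem_Ow (f : ↥(Ow A π N)) :
    IsRed A π ((f : ↥(laurentBaseChange L (modularFunctionFieldFull N))) : LaurentSeries L)
      ((redw A π N f : ↥(modularFunctionFieldFullC k N)) : LaurentSeries k) := by
  obtain ⟨a, b, hb, hab⟩ := f.2
  refine ⟨a.1, b.1, ?_, ?_, ?_⟩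
  · intro h0
    apply hb
    apply Subtype.ext
    rw [coe_red]
    exact h0
  · have h := congrArg Subtype.val hab
    exact h
  · have h1 : redw A π N f * red A π N b = red A π N a := by
      rw [redw_eq f hb hab, div_mul_cancel₀ _ hb]
    have h := congrArg Subtype.val h1
    exact h

end Ow

/-! ### roots of unity are units of every valuation subring -/

section RootsOfUnity

variable {L : Type*} [Field L] (A : ValuationSubring L)

theorem mem_of_pow_eq_one {ζ : Lˣ} {n : ℕ} (hn : 0 < n) (h : ζ ^ n = 1) : (ζ : L) ∈ A := by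
  obtain ⟨m, rfl⟩ : ∃ m, n = m + 1 := ⟨n - 1, by omega⟩
  rcases A.mem_or_inv_mem (ζ : L) with h1 | h1
  · exact h1
  · have h2 : (ζ : L) = ((ζ : L)⁻¹) ^ m := by
      have h3 : (ζ : L) ^ (m + 1) = 1 := by rw [← Units.val_pow_eq_pow_val, h, Units.val_one]
      have h0 : (ζ : L) ≠ 0 := ζ.ne_zero
      rw [inv_pow]
      apply eq_inv_of_mul_eq_one_left
      rw [← pow_succ']
      exact h3
    rw [h2]
    exact pow_mem h1 m

/-- a root of unity of `L` as a unit of `A` -/
theorem exists_unit_of_pow_eq_one {ζ : Lˣ} {n : ℕ} (hn : 0 < n) (h : ζ ^ n = 1) :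
    ∃ u : (↥A)ˣ, unitL A u = ζ ∧ u ^ n = 1 := by
  have h1 := mem_of_pow_eq_one A hn h
  have h2 : ((ζ⁻¹ : Lˣ) : L) ∈ A := mem_of_pow_eq_one A hn (by rw [inv_pow, h, inv_one])
  refine ⟨⟨⟨ζ, h1⟩, ⟨((ζ⁻¹ : Lˣ) : L), h2⟩, Subtype.ext (by simp), Subtype.ext (by simp)⟩,
    Units.ext rfl, ?_⟩
  apply Units.ext
  apply Subtype.ext
  have h3 : (ζ : L) ^ n = 1 := by rw [← Units.val_pow_eq_pow_val, h, Units.val_one]
  simpa using h3

theorem isPrimitiveRoot_of_unitL {u : (↥A)ˣ} {n : ℕ} (h : IsPrimitiveRoot (unitL A u) n) :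
    IsPrimitiveRoot (u : ↥A) n := by
  have h1 : IsPrimitiveRoot ((unitL A u : Lˣ) : L) n := IsPrimitiveRoot.coe_units_iff.mpr h
  exact IsPrimitiveRoot.of_map_of_injective (f := (A.subtype : ↥A →+* L)) h1 A.subtype_injective

end RootsOfUnity

/-! ### `t ↦ t^N` on Gauss fractions -/

section QExpand

variable {L : Type*} [Field L] {A : ValuationSubring L} {k : Type*} [Field k] {π : A →+* k}

theorem IsRed.map_qExpand (N : ℕ) [NeZero N] {x : LaurentSeries L} {r : LaurentSeries k}
    (hx : IsRed A π x r) : IsRed A π (qExpand L N x) (qExpand k N r) := by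
  obtain ⟨a, b, hb, hab, hr⟩ := hx
  refine ⟨qExpand ↥A N a, qExpand ↥A N b, ?_, ?_, ?_⟩
  · rw [show redA π (qExpand ↥A N b) = qExpand k N (redA π b) from
      Fermat.Agent.S28.PrimeCaseForm.coeffMap_qExpand π N b]
    exact fun h => hb (qExpand_injective (R := k) N (by rw [h, map_zero]))
  · rw [show incA A (qExpand ↥A N b) = qExpand L N (incA A b) from
        Fermat.Agent.S28.PrimeCaseForm.coeffMap_qExpand A.subtype N b,
      show incA A (qExpand ↥A N a) = qExpand L N (incA A a) from
        Fermat.Agent.S28.PrimeCaseForm.coeffMap_qExpand A.subtype N a, ← map_mul, hab]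
  · rw [show redA π (qExpand ↥A N b) = qExpand k N (redA π b) from
        Fermat.Agent.S28.PrimeCaseForm.coeffMap_qExpand π N b,
      show redA π (qExpand ↥A N a) = qExpand k N (redA π a) from
        Fermat.Agent.S28.PrimeCaseForm.coeffMap_qExpand π N a, ← map_mul, hr]

end QExpand

/-! ### Part C: the middle cusp of `X₀(N0 q²)` -/

section X0

open Fermat.Agent.S36.MiddleCusp
open Fermat.Agent.S35.LevelMaps (E)
open Fermat.Agent.S28.LaurentRescale Fermat.Agent.S36.DiagTheta
open Fermat.Agent.S18.GaussFromH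
open Fermat.Agent.S37.Gauss.Datum
open Fermat.Agent.S34.PairX0 Fermat.Agent.S34.PairX0W
open IsLocalRing

local notation "Kb" => AlgebraicClosure ℚ
local notation "Ω" => LaurentSeries Kb

variable {q : ℕ} [hq : Fact q.Prime] {N0 : ℕ} [NeZero N0] {A : ValuationSubring Kb}
variable (hA : A.LiesOverPrime q) (hqN : ¬ q ∣ N0) [NeZero q]
variable [CharP (ResidueField ↥A) q] [PerfectField (ResidueField ↥A)]
variable {ζ : Kbˣ} (hζ : IsPrimitiveRoot ζ q)

set_option synthInstance.maxHeartbeats 400000

/-- the Gauss ring of level `N0` consists of Gauss fractions -/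
theorem isRed_O (g : ↥(gaussDatum N0 A hA hqN).O) :
    IsRed A (residue ↥A) ((g : E N0) : Ω)
      (((gaussDatum N0 A hA hqN).red g : ↥(modularFunctionFieldFullC (ResidueField ↥A) N0)) :
        LaurentSeries (ResidueField ↥A)) := by
  obtain ⟨a, b, hb, hab⟩ := (mem_O_iff hA hqN).mp g.2
  refine ⟨a.1, b.1, ?_, ?_, ?_⟩
  · intro h0
    apply hb
    apply Subtype.ext
    rw [coe_red]
    exact h0
  · have h := congrArg Subtype.val hab
    exact h
  · have h1 : (gaussDatum N0 A hA hqN).red g * red A (residue ↥A) N0 b =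
        red A (residue ↥A) N0 a := by
      rw [red_eq hA hqN g hb hab, div_mul_cancel₀ _ hb]
    have h := congrArg Subtype.val h1
    exact h

/-- the `t`-expansion ring `V1` of level `N0 q` consists of Gauss fractions -/
theorem isRed_V1 (x : ↥(V1 hA hqN)) :
    IsRed A (residue ↥A) ((x : E (N0 * q)) : Ω)
      ((red1 hA hqN x : ↥(modularFunctionFieldFullC (ResidueField ↥A) N0)) :
        LaurentSeries (ResidueField ↥A)) := by
  have h := isRed_of_mem_Ow A (residue ↥A) (N0 * q) ⟨(x : E (N0 * q)), x.2⟩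
  rw [← coe_redE] at h
  exact h

include hζ in
/-- `ζ` as a unit of `A`, reducing to `1` -/
theorem exists_zetaA : ∃ u : (↥A)ˣ, unitL A u = ζ ∧ residue ↥A (u : ↥A) = 1 ∧
    IsPrimitiveRoot (u : ↥A) q := by
  obtain ⟨u, hu, hun⟩ := exists_unit_of_pow_eq_one A hq.out.pos hζ.pow_eq_one
  exact ⟨u, hu, map_eq_one_of_pow_eq_one (π := residue ↥A) hun,
    isPrimitiveRoot_of_unitL A (hu ▸ hζ)⟩

/-- **(B-α)** the middle-cusp expansion of `α x`, `x ∈ V1`, is a Gauss fraction reducing to
`red1 x` -/
theorem isRed_iota_alpha (x : ↥(V1 hA hqN)) :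
    IsRed A (residue ↥A) (iota hqN hζ (heckeAlphaBar Kb (N0 * q) q (x : E (N0 * q))))
      ((red1 hA hqN x : ↥(modularFunctionFieldFullC (ResidueField ↥A) N0)) :
        LaurentSeries (ResidueField ↥A)) := by
  rw [iota_alpha]
  exact isRed_V1 hA hqN x

/-- **(B-β)** the middle-cusp expansion of `β x`, `x ∈ V2`, is a Gauss fraction reducing to
`red2 x` -/
theorem isRed_iota_beta (x : ↥(V2 hA hqN)) :
    IsRed A (residue ↥A) (iota hqN hζ (heckeBetaBar Kb (N0 * q) q (x : E (N0 * q))))
      ((red2 hA hqN x : ↥(modularFunctionFieldFullC (ResidueField ↥A) N0)) :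
        LaurentSeries (ResidueField ↥A)) := by
  obtain ⟨u, hu, hu1, -⟩ := exists_zetaA (A := A) hζ
  rw [iota_beta, red2_apply, ← coe_wV hA hqN x, ← hu]
  exact (isRed_V1 hA hqN (wV hA hqN x)).rescale_of_eq_one u hu1

/-- **(D5), first line**: `iota (a₀ g) = g(t)` reduces to `ḡ` -/
theorem isRed_iota_a0 (g : ↥(gaussDatum N0 A hA hqN).O) :
    IsRed A (residue ↥A)
      (iota hqN hζ (heckeAlphaBar Kb (N0 * q) q (heckeAlphaBar Kb N0 q (g : E N0))))
      (((gaussDatum N0 A hA hqN).red g : ↥(modularFunctionFieldFullC (ResidueField ↥A) N0)) :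
        LaurentSeries (ResidueField ↥A)) := by
  rw [iota_alpha_alpha]
  exact isRed_O hA hqN g

/-- **(D5)**: `iota (a₁ g) = g(t^q)` reduces to `ḡ(t^q)` -/
theorem isRed_iota_a1 (g : ↥(gaussDatum N0 A hA hqN).O) :
    IsRed A (residue ↥A)
      (iota hqN hζ (heckeAlphaBar Kb (N0 * q) q (heckeBetaBar Kb N0 q (g : E N0))))
      (qExpand (ResidueField ↥A) q
        (((gaussDatum N0 A hA hqN).red g : ↥(modularFunctionFieldFullC (ResidueField ↥A) N0)) :
          LaurentSeries (ResidueField ↥A))) := by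
  rw [iota_alpha_beta]
  exact (isRed_O hA hqN g).map_qExpand q

/-- **(D5)**: `iota (a₂ g) = g(ζ t)` reduces to `ḡ` -/
theorem isRed_iota_a2 (g : ↥(gaussDatum N0 A hA hqN).O) :
    IsRed A (residue ↥A)
      (iota hqN hζ (heckeBetaBar Kb (N0 * q) q (heckeBetaBar Kb N0 q (g : E N0))))
      (((gaussDatum N0 A hA hqN).red g : ↥(modularFunctionFieldFullC (ResidueField ↥A) N0)) :
        LaurentSeries (ResidueField ↥A)) := by
  obtain ⟨u, hu, hu1, -⟩ := exists_zetaA (A := A) hζ
  rw [iota_beta_beta, ← hu]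
  exact (isRed_O hA hqN g).rescale_of_eq_one u hu1

/-- `a₂ g - a₀ g = (ζ - 1) · v` at the middle cusp, `v` a Gauss fraction reducing to `θ ḡ`: the
difference lies in the maximal ideal of the thick place. -/
theorem exists_diffQuot_iota (g : ↥(gaussDatum N0 A hA hqN).O) :
    ∃ v : Ω,
      iota hqN hζ (heckeBetaBar Kb (N0 * q) q (heckeBetaBar Kb N0 q (g : E N0)) -
          heckeAlphaBar Kb (N0 * q) q (heckeAlphaBar Kb N0 q (g : E N0))) =
        HahnSeries.C ((ζ : Kb) - 1) * v ∧
      IsRed A (residue ↥A) v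
        (theta (((gaussDatum N0 A hA hqN).red g :
          ↥(modularFunctionFieldFullC (ResidueField ↥A) N0)) : LaurentSeries (ResidueField ↥A))) := by
  obtain ⟨u, hu, hu1, -⟩ := exists_zetaA (A := A) hζ
  obtain ⟨v, hv, hvr⟩ := (isRed_O hA hqN g).exists_diffQuot u hu1
  refine ⟨v, ?_, hvr⟩
  rw [map_sub, iota_beta_beta, iota_alpha_alpha, ← hu, hv]
  rfl

/-- **(V12)(ii)**: `c = (a₂ g - a₀ g)^(q-1) / q` expands at the middle cusp to a Gauss fraction
reducing to `-(θ ḡ)^(q-1)`. -/
theorem isRed_iota_thick_unit (g : ↥(gaussDatum N0 A hA hqN).O) :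
    IsRed A (residue ↥A)
      (iota hqN hζ ((heckeBetaBar Kb (N0 * q) q (heckeBetaBar Kb N0 q (g : E N0)) -
          heckeAlphaBar Kb (N0 * q) q (heckeAlphaBar Kb N0 q (g : E N0))) ^ (q - 1) /
        ((q : ℕ) : E (N0 * q * q))))
      (-(theta (((gaussDatum N0 A hA hqN).red g :
          ↥(modularFunctionFieldFullC (ResidueField ↥A) N0)) :
            LaurentSeries (ResidueField ↥A))) ^ (q - 1)) := by
  obtain ⟨u, hu, hu1, hup⟩ := exists_zetaA (A := A) hζ
  have h := (isRed_O hA hqN g).pow_div_natCast hup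
  rw [map_div₀, map_pow, map_sub, iota_beta_beta, iota_alpha_alpha, map_natCast, ← hu]
  rwa [map_natCast] at h

/-- **(V12)(ii')**: `c' = (a₂ g / a₀ g - 1)^(q-1) / q` expands at the middle cusp to a Gauss
fraction reducing to `-(θ ḡ / ḡ)^(q-1)`, for `ḡ ≠ 0`. -/
theorem isRed_iota_thick_unit_mul (g : ↥(gaussDatum N0 A hA hqN).O)
    (hg : (gaussDatum N0 A hA hqN).red g ≠ 0) :
    IsRed A (residue ↥A)
      (iota hqN hζ ((heckeBetaBar Kb (N0 * q) q (heckeBetaBar Kb N0 q (g : E N0)) /
          heckeAlphaBar Kb (N0 * q) q (heckeAlphaBar Kb N0 q (g : E N0)) - 1) ^ (q - 1) /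
        ((q : ℕ) : E (N0 * q * q))))
      (-(theta (((gaussDatum N0 A hA hqN).red g :
          ↥(modularFunctionFieldFullC (ResidueField ↥A) N0)) :
            LaurentSeries (ResidueField ↥A)) /
          (((gaussDatum N0 A hA hqN).red g :
            ↥(modularFunctionFieldFullC (ResidueField ↥A) N0)) :
              LaurentSeries (ResidueField ↥A))) ^ (q - 1)) := by
  obtain ⟨u, hu, hu1, hup⟩ := exists_zetaA (A := A) hζ
  have hg' : (((gaussDatum N0 A hA hqN).red g :
      ↥(modularFunctionFieldFullC (ResidueField ↥A) N0)) :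
        LaurentSeries (ResidueField ↥A)) ≠ 0 := fun h0 => hg (Subtype.ext h0)
  have h := (isRed_O hA hqN g).div_sub_one_pow_div_natCast hup hg'
  rw [map_div₀, map_pow, map_sub, map_div₀, iota_beta_beta, iota_alpha_alpha, map_natCast, map_one,
    ← hu]
  rwa [map_natCast] at h

/-- `a₂ g - a₀ g` expands at the middle cusp to a Gauss fraction reducing to `0` -/
theorem isRed_iota_a2_sub_a0 (g : ↥(gaussDatum N0 A hA hqN).O) :
    IsRed A (residue ↥A)
      (iota hqN hζ (heckeBetaBar Kb (N0 * q) q (heckeBetaBar Kb N0 q (g : E N0)) -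
        heckeAlphaBar Kb (N0 * q) q (heckeAlphaBar Kb N0 q (g : E N0)))) 0 := by
  have h := (isRed_iota_a2 hA hqN hζ g).sub (isRed_iota_a0 hA hqN hζ g)
  rwa [sub_self, ← map_sub] at h

/-! ### existence of the thick place, with its residue map in `t`-expansion form -/

/-- domination between valuation subrings forces equality -/
theorem valuationSubring_eq_of_le_of_nonunits {F : Type*} [Field F] {V W : ValuationSubring F}
    (hle : V ≤ W) (hnu : ∀ x ∈ V.nonunits, x ∈ W.nonunits) : V = W := by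
  refine le_antisymm hle fun y hy => ?_
  by_contra hyV
  have hy0 : y ≠ 0 := fun h => hyV (h ▸ V.zero_mem)
  have hinv : y⁻¹ ∈ V := (V.mem_or_inv_mem y).resolve_left hyV
  have h1 : y⁻¹ ∈ V.nonunits := by
    rw [ValuationSubring.mem_nonunits_iff_exists_mem_maximalIdeal]
    refine ⟨hinv, ?_⟩
    rw [IsLocalRing.mem_maximalIdeal, mem_nonunits_iff]
    intro hu
    obtain ⟨⟨z, hz⟩, hmul⟩ := isUnit_iff_exists_inv.mp hu
    have h2 : y⁻¹ * z = 1 := congrArg Subtype.val hmul
    have h3 : z = y := by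
      have := congrArg (fun t => y * t) h2
      simpa [← mul_assoc, mul_inv_cancel₀ hy0] using this
    exact hyV (h3 ▸ hz)
  have h4 := hnu _ h1
  rw [ValuationSubring.mem_nonunits_iff_exists_mem_maximalIdeal] at h4
  obtain ⟨h5, h6⟩ := h4
  rw [IsLocalRing.mem_maximalIdeal, mem_nonunits_iff] at h6
  apply h6
  exact IsUnit.of_mul_eq_one (⟨y, hy⟩ : ↥W) (Subtype.ext (inv_mul_cancel₀ hy0))

theorem mem_nonunits_iff_inv_notMem' {F : Type*} [Field F] (B : ValuationSubring F) {x : F}
    (hx : x ≠ 0) : x ∈ B.nonunits ↔ x⁻¹ ∉ B := by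
  rw [B.mem_nonunits_iff, ← B.valuation_le_one_iff, map_inv₀, not_le]
  have h0 : 0 < B.valuation x :=
    lt_of_le_of_ne zero_le (Ne.symm ((Valuation.ne_zero_iff _).mpr hx))
  exact (one_lt_inv₀ h0).symm

theorem mem_comap_nonunits_iff' {F F' : Type*} [Field F] [Field F'] (B : ValuationSubring F')
    (φ : F →+* F') (f : F) : f ∈ (B.comap φ).nonunits ↔ φ f ∈ B.nonunits := by
  by_cases hf : f = 0
  · subst hf
    rw [map_zero]
    exact ⟨fun _ => B.nonunits.zero_mem, fun _ => (B.comap φ).nonunits.zero_mem⟩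
  · rw [mem_nonunits_iff_inv_notMem' _ hf, mem_nonunits_iff_inv_notMem' _ ((map_ne_zero φ).mpr hf),
      ValuationSubring.mem_comap, map_inv₀]

/-- **Chevalley at the middle cusp.**  For every field `F` with a homomorphism `ρ` to
`E (N0 q q)` (e.g. `ρ = id`, or `ρ = toE` on the `K0`-form) there is a valuation subring `W` of `F`
containing every `x` whose middle-cusp expansion is a Gauss fraction, and such an `x` is a non-unit
of `W` exactly when its expansion reduces to `0`. -/
theorem exists_valuationSubring_comap {F : Type*} [Field F] (ρ : F →+* E (N0 * q * q)) :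
    ∃ W : ValuationSubring F, ∀ (x : F) (r : LaurentSeries (ResidueField ↥A)),
      IsRed A (residue ↥A) (iota hqN hζ (ρ x)) r → x ∈ W ∧ (x ∈ W.nonunits ↔ r = 0) := by
  obtain ⟨𝒱, h1, h2⟩ := exists_valuationSubring_ge A (residue ↥A)
  refine ⟨𝒱.comap ((iota hqN hζ).comp ρ), fun x r hx => ⟨?_, ?_⟩⟩
  · rw [ValuationSubring.mem_comap]
    exact h1 _ hx.mem
  · rw [mem_comap_nonunits_iff']
    exact hx.mem_nonunits_iff h2

/-- **the thick place over `ℚ̄`**: a valuation subring `W` of `E (N0 q q)` which restricts to `V1`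
along `α` and to `V2` along `β`, contains `j(t^(q²)) - j(t)` in its maximal ideal, and whose residue
map on Gauss fractions is the reduction of the middle-cusp expansion. -/
theorem exists_thick_place :
    ∃ W : ValuationSubring (E (N0 * q * q)),
      (∀ (x : E (N0 * q * q)) (r : LaurentSeries (ResidueField ↥A)),
        IsRed A (residue ↥A) (iota hqN hζ x) r → x ∈ W ∧ (x ∈ W.nonunits ↔ r = 0)) ∧
      W.comap (heckeAlphaBar Kb (N0 * q) q : E (N0 * q) →+* E (N0 * q * q)) = V1 hA hqN ∧
      W.comap (heckeBetaBar Kb (N0 * q) q : E (N0 * q) →+* E (N0 * q * q)) = V2 hA hqN := by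
  obtain ⟨W, hW⟩ := exists_valuationSubring_comap (A := A) hqN hζ (RingHom.id (E (N0 * q * q)))
  refine ⟨W, hW, ?_, ?_⟩
  · symm
    refine valuationSubring_eq_of_le_of_nonunits (fun x hx => ?_) (fun x hx => ?_)
    · rw [ValuationSubring.mem_comap]
      exact (hW _ _ (isRed_iota_alpha hA hqN hζ ⟨x, hx⟩)).1
    · have hxV : x ∈ V1 hA hqN := (ValuationSubring.mem_nonunits_iff_exists_mem_maximalIdeal.mp hx).1
      rw [mem_comap_nonunits_iff']
      refine (hW _ _ (isRed_iota_alpha hA hqN hζ ⟨x, hxV⟩)).2.mpr ?_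
      have h0 : red1 hA hqN ⟨x, hxV⟩ = 0 :=
        (red1_eq_zero_iff hA hqN ⟨x, hxV⟩).mpr ((V1 hA hqN).mem_nonunits_iff.mp hx)
      rw [h0]
      rfl
  · symm
    refine valuationSubring_eq_of_le_of_nonunits (fun x hx => ?_) (fun x hx => ?_)
    · rw [ValuationSubring.mem_comap]
      exact (hW _ _ (isRed_iota_beta hA hqN hζ ⟨x, hx⟩)).1
    · have hxV : x ∈ V2 hA hqN := (ValuationSubring.mem_nonunits_iff_exists_mem_maximalIdeal.mp hx).1
      rw [mem_comap_nonunits_iff']
      refine (hW _ _ (isRed_iota_beta hA hqN hζ ⟨x, hxV⟩)).2.mpr ?_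
      have h0 : red2 hA hqN ⟨x, hxV⟩ = 0 :=
        (red2_eq_zero_iff hA hqN ⟨x, hxV⟩).mpr ((V2 hA hqN).mem_nonunits_iff.mp hx)
      rw [h0]
      rfl

end X0

end Fermat.Agent.S36.MiddleCuspGauss
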