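/-
PROJECT V (S36), slice V-MiddleCuspUnit (helper15), part 1: **the shape of the modular polynomial**.

`Φ = TwoGaussX0.modPolyZ q ∈ ℤ[Y][X]` (`Φ(j(t^q); j(t)) = 0`).  From the `t`-expansion
`Φ ↦ rPoly = (X - j(t^q)) · gPoly`, `gPoly = ε t⁻¹ · pencil`, and the fact that the pencil is the
constant `(-1)^q` modulo `t` (`S16` `constantCoeff_mulMatrix`: lower triangular), we get

* `coeff a` has `Y`-degree `≤ q` for `a ≥ 1`;
* `coeff 0 = Y^(q+1) + (lower)`;
* `coeff q = -Y^q + (lower)`.

So `Φ = X^(q+1) + Y^(q+1) - X^q Y^q + ∑_{a,b ≤ q, (a,b) ≠ (q,q)} c_ab X^a Y^b` (`IsModShape`), without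
using the symmetry of `Φ`.  Part 2 of the file is the **Newton dichotomy** for a polynomial of this
shape and an arbitrary valuation `v` on a field:

`Φ(x; y) = 0`, `v x > 1`  ⟹  (`v x = (v y)^q` and `v (y^q / x - 1) < 1`) or
                              (`v y = (v x)^q` and `v (x^q / y - 1) < 1`).
-/
import Mathlib
import Fermat.Agent.S34.ModPolyDegree

set_option autoImplicit false
set_option linter.unusedSectionVars false
set_option linter.unusedVariables false

noncomputable section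

namespace Fermat.Agent.S36.ModShape

open ModularCurve Fermat.Agent.S28.ModPoly Fermat.Agent.S34.TwoGaussX0
open Fermat.Agent.S34.ModPolyDegree Fermat.Agent.S16.PowerSeriesNorm

/-! ### the pencil modulo `t` -/

section Pencil

variable (p : ℕ) (R : Type*) [CommRing R]

theorem constantCoeff_jN : PowerSeries.constantCoeff (jN R) = 1 := by
  rw [jN, ← PowerSeries.coeff_zero_eq_constantCoeff_apply, PowerSeries.coeff_map,
    PowerSeries.coeff_zero_eq_constantCoeff_apply, constantCoeff_jNum]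
  simp

/-- the pencil `det (Y M_t - M_{t j(t)})` is the constant `(-1)^p` modulo `t` -/
theorem map_constantCoeff_pencil :
    (pencil p R).map (PowerSeries.constantCoeff (R := R)) = Polynomial.C ((-1 : R) ^ p) := by
  have hentry : ∀ k i : Fin p,
      (Polynomial.mapRingHom (PowerSeries.constantCoeff (R := R))).mapMatrix
        ((Polynomial.X : Polynomial (PowerSeries R)) •
          (mulMatrix p (PowerSeries.X : PowerSeries R)).map Polynomial.C +
        (mulMatrix p (-(jN R))).map Polynomial.C) k i =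
      Polynomial.X * Polynomial.C (PowerSeries.constantCoeff
          (mulMatrix p (PowerSeries.X : PowerSeries R) k i)) +
        Polynomial.C (PowerSeries.constantCoeff (mulMatrix p (-(jN R)) k i)) := by
    intro k i
    simp only [RingHom.mapMatrix_apply, Matrix.map_apply, Matrix.add_apply, Matrix.smul_apply,
      Polynomial.coe_mapRingHom, Polynomial.map_add, Polynomial.map_C, Polynomial.map_X,
      smul_eq_mul, Polynomial.map_mul]
  rw [pencil, ← mulMatrix_neg, ← Polynomial.coe_mapRingHom, RingHom.map_det,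
    Matrix.det_of_isLowerTriangular]
  · have h1 : ∀ i : Fin p, (Polynomial.mapRingHom (PowerSeries.constantCoeff (R := R))).mapMatrix
        ((Polynomial.X : Polynomial (PowerSeries R)) •
          (mulMatrix p (PowerSeries.X : PowerSeries R)).map Polynomial.C +
        (mulMatrix p (-(jN R))).map Polynomial.C) i i = -1 := by
      intro i
      rw [hentry, constantCoeff_mulMatrix, constantCoeff_mulMatrix, if_pos le_rfl, if_pos le_rfl,
        Nat.sub_self, PowerSeries.coeff_zero_eq_constantCoeff_apply,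
        PowerSeries.coeff_zero_eq_constantCoeff_apply, map_neg, constantCoeff_jN,
        PowerSeries.constantCoeff_X]
      simp
    rw [Finset.prod_congr rfl (fun i _ => h1 i), Finset.prod_const, Finset.card_univ,
      Fintype.card_fin, map_pow, map_neg, map_one]
  · intro k i hki
    have hki' : (k : ℕ) < (i : ℕ) := Fin.lt_def.mp (OrderDual.toDual_lt_toDual.mp hki)
    rw [hentry, constantCoeff_mulMatrix, constantCoeff_mulMatrix, if_neg (not_le.mpr hki'),
      if_neg (not_le.mpr hki')]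
    simp

theorem constantCoeff_coeff_pencil (a : ℕ) :
    PowerSeries.constantCoeff ((pencil p R).coeff a) = if a = 0 then (-1 : R) ^ p else 0 := by
  have h := congrArg (fun P => Polynomial.coeff P a) (map_constantCoeff_pencil p R)
  simp only [Polynomial.coeff_map, Polynomial.coeff_C] at h
  exact h

end Pencil

/-! ### leading coefficients of products of Laurent series -/

section LowBdd

variable {R : Type*} [CommRing R]

theorem LowBdd.coeff_mul {m n : ℤ} {x y : LaurentSeries R} (hx : LowBdd m x) (hy : LowBdd n y) :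
    (x * y).coeff (m + n) = x.coeff m * y.coeff n := by
  rw [HahnSeries.coeff_mul]
  rw [Finset.sum_eq_single (m, n)]
  · rintro ⟨i, j⟩ hij hne
    rw [Finset.mem_antidiagonal] at hij
    obtain ⟨-, -, hsum⟩ := hij
    simp only at hsum
    by_cases hi : i < m
    · rw [hx i hi, zero_mul]
    · by_cases hj : j < n
      · rw [hy j hj, mul_zero]
      · exfalso
        apply hne
        have h1 : i = m := by omega
        have h2 : j = n := by omega
        rw [h1, h2]
  · intro hnot
    rw [Finset.mem_antidiagonal] at hnot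
    by_cases h1 : x.coeff m = 0
    · rw [h1, zero_mul]
    · by_cases h2 : y.coeff n = 0
      · rw [h2, mul_zero]
      · exact absurd ⟨h1, h2, rfl⟩ hnot

theorem LowBdd.add {n : ℤ} {x y : LaurentSeries R} (hx : LowBdd n x) (hy : LowBdd n y) :
    LowBdd n (x + y) := by
  intro i hi
  rw [HahnSeries.coeff_add, hx i hi, hy i hi, add_zero]

theorem LowBdd.neg {n : ℤ} {x : LaurentSeries R} (hx : LowBdd n x) : LowBdd n (-x) := by
  intro i hi
  rw [HahnSeries.coeff_neg, hx i hi, neg_zero]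

end LowBdd

/-! ### the coefficients of `gPoly` and `rPoly`, refined -/

section Coeffs

variable (p : ℕ) [NeZero p] (R : Type*) [CommRing R]

theorem coeff_unitL_mul (x : LaurentSeries R) (i : ℤ) :
    (unitL p R * x).coeff i = (-1 : R) ^ (p - 1) * x.coeff (i + 1) := by
  rw [unitL, mul_assoc, coeff_C_mul']
  congr 1
  have h := HahnSeries.coeff_single_mul_add (r := (1 : R)) (x := x) (a := i + 1) (b := (-1 : ℤ))
  rw [show i + 1 + -1 = i by ring, one_mul] at h
  exact h

theorem coeff_coeff_gPoly (a : ℕ) (i : ℤ) :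
    ((gPoly p R).coeff a).coeff i =
      (-1 : R) ^ (p - 1) *
        (HahnSeries.ofPowerSeries ℤ R ((pencil p R).coeff a)).coeff (i + 1) := by
  rw [gPoly, Polynomial.coeff_C_mul, Polynomial.coeff_map, coeff_unitL_mul]

/-- the coefficients of `gPoly` of positive index have nonnegative order -/
theorem lowBdd_coeff_gPoly_pos {a : ℕ} (ha : 1 ≤ a) : LowBdd 0 ((gPoly p R).coeff a) := by
  intro i hi
  rw [coeff_coeff_gPoly]
  have h := PowerSeries.coeff_coe (R := R) ((pencil p R).coeff a) (i + 1)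
  by_cases h1 : i + 1 < 0
  · rw [if_pos h1] at h
    rw [h, mul_zero]
  · have h2 : i + 1 = 0 := by omega
    rw [if_neg h1, h2] at h
    rw [h2, h]
    have h3 := constantCoeff_coeff_pencil p R a
    rw [if_neg (by omega)] at h3
    rw [Int.natAbs_zero, PowerSeries.coeff_zero_eq_constantCoeff_apply, h3, mul_zero]

/-- the constant term of `gPoly` is `-t⁻¹ + …` -/
theorem coeff_gPoly_zero_neg_one : ((gPoly p R).coeff 0).coeff (-1) = -1 := by
  rw [coeff_coeff_gPoly]
  have h := PowerSeries.coeff_coe (R := R) ((pencil p R).coeff 0) (-1 + 1)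
  rw [if_neg (by omega)] at h
  rw [h]
  have h3 := constantCoeff_coeff_pencil p R 0
  rw [if_pos rfl] at h3
  rw [show (-1 + 1 : ℤ).natAbs = 0 by rfl, PowerSeries.coeff_zero_eq_constantCoeff_apply, h3,
    ← pow_add]
  obtain ⟨k, hk⟩ : ∃ k, p = k + 1 := Nat.exists_eq_succ_of_ne_zero (NeZero.ne p)
  rw [hk, Nat.add_sub_cancel, show k + (k + 1) = 2 * k + 1 by ring, pow_succ, pow_mul]
  simp

theorem coeff_qExpand_jq_neg : (qExpand R p (jqModC R)).coeff (-(p : ℤ)) = 1 := by
  have h := qExpand_coeff_mul (R := R) (N := p) (jqModC R) (-1)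
  rw [show (p : ℤ) * -1 = -(p : ℤ) by ring] at h
  rw [h]
  have h2 := coeff_jqModC_pow_self R 1
  rwa [pow_one] at h2

/-- `coeff 0` of `rPoly` is `t^(-p-1) + …` -/
theorem coeff_rPoly_zero_lead : ((rPoly p R).coeff 0).coeff (-(p : ℤ) - 1) = 1 := by
  rw [coeff_rPoly_zero, HahnSeries.coeff_neg, show -(p : ℤ) - 1 = -(p : ℤ) + -1 by ring,
    LowBdd.coeff_mul (lowBdd_qExpand_jq p) (lowBdd_coeff_gPoly p R 0), coeff_qExpand_jq_neg,
    coeff_gPoly_zero_neg_one]
  simp

/-- the coefficients of `rPoly` of positive index have order `≥ -p` -/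
theorem lowBdd_coeff_rPoly_pos {a : ℕ} (ha : 1 ≤ a) : LowBdd (-(p : ℤ)) ((rPoly p R).coeff a) := by
  have hp : (1 : ℤ) ≤ p := by exact_mod_cast Nat.pos_of_ne_zero (NeZero.ne p)
  obtain ⟨b, rfl⟩ : ∃ b, a = b + 1 := Nat.exists_eq_succ_of_ne_zero (by omega)
  rw [coeff_rPoly_succ]
  refine ((lowBdd_coeff_gPoly p R b).mono (by omega)).sub ?_
  have h := (lowBdd_qExpand_jq (R := R) p).mul (lowBdd_coeff_gPoly_pos p R (a := b + 1) (by omega))
  rwa [add_zero] at h

/-- `coeff p` of `rPoly` is `-t^(-p) + …` (for `p ≥ 2`) -/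
theorem coeff_rPoly_card_lead (hp2 : 2 ≤ p) : ((rPoly p R).coeff p).coeff (-(p : ℤ)) = -1 := by
  obtain ⟨a, ha⟩ : ∃ a, p = a + 1 := Nat.exists_eq_succ_of_ne_zero (NeZero.ne p)
  have h1 : (rPoly p R).coeff p =
      (gPoly p R).coeff a - qExpand R p (jqModC R) * (gPoly p R).coeff p := by
    have h2 := coeff_rPoly_succ p R a
    rwa [← ha] at h2
  rw [h1, coeff_gPoly_card, mul_one, HahnSeries.coeff_sub, coeff_qExpand_jq_neg,
    lowBdd_coeff_gPoly p R a (-(p : ℤ)) (by omega), zero_sub]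

end Coeffs

/-! ### the shape of the modular polynomial -/

/-- **the shape of the modular polynomial**:
`P = X^(q+1) + Y^(q+1) - X^q Y^q + ∑_{a, b ≤ q, (a,b) ≠ (q,q)} c_ab X^a Y^b` in `ℤ[Y][X]` -/
structure IsModShape (q : ℕ) (P : Polynomial (Polynomial ℤ)) : Prop where
  monic : P.Monic
  natDegree : P.natDegree = q + 1
  deg_pos : ∀ a, 1 ≤ a → (P.coeff a).natDegree ≤ q
  deg_zero : (P.coeff 0).natDegree ≤ q + 1
  lead_zero : (P.coeff 0).coeff (q + 1) = 1
  lead_q : (P.coeff q).coeff q = -1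

section ModPolyZ

variable {q : ℕ} [hq : Fact q.Prime] [NeZero q]

/-- the coefficients of positive index of the modular polynomial have `j`-degree `≤ q` -/
theorem natDegree_coeff_modPolyZ_pos_le {a : ℕ} (ha : 1 ≤ a) :
    ((modPolyZ q).coeff a).natDegree ≤ q := by
  apply natDegree_le_of_lowBdd
  rw [evalL_coeff_modPolyZ]
  exact lowBdd_coeff_rPoly_pos q ℤ ha

theorem coeff_coeff_modPolyZ_zero : ((modPolyZ q).coeff 0).coeff (q + 1) = 1 := by
  have h := coeff_evalL_jq ℤ ((modPolyZ q).coeff 0) (q + 1) (natDegree_coeff_modPolyZ_le 0)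
  rw [evalL_coeff_modPolyZ] at h
  rw [← h]
  have e : -(((q + 1 : ℕ)) : ℤ) = -(q : ℤ) - 1 := by push_cast; ring
  rw [e]
  exact coeff_rPoly_zero_lead q ℤ

theorem coeff_coeff_modPolyZ_q : ((modPolyZ q).coeff q).coeff q = -1 := by
  have h := coeff_evalL_jq ℤ ((modPolyZ q).coeff q) q natDegree_coeff_modPolyZ_q_le
  rw [evalL_coeff_modPolyZ] at h
  rw [← h]
  exact coeff_rPoly_card_lead q ℤ hq.out.two_le

/-- **the modular polynomial has the modular shape** -/
theorem isModShape_modPolyZ : IsModShape q (modPolyZ q) where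
  monic := modPolyZ_monic
  natDegree := natDegree_modPolyZ
  deg_pos _ ha := natDegree_coeff_modPolyZ_pos_le ha
  deg_zero := natDegree_coeff_modPolyZ_le 0
  lead_zero := coeff_coeff_modPolyZ_zero
  lead_q := coeff_coeff_modPolyZ_q

end ModPolyZ

/-! ### the Newton dichotomy -/

section Newton

open Polynomial

variable {F : Type*} [Field F] {Γ₀ : Type*} [LinearOrderedCommGroupWithZero Γ₀]
  (v : Valuation F Γ₀)

/-- `P(x; y)`: the outer variable `X ↦ x`, the inner variable `Y ↦ y` -/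
def evalXY (P : Polynomial (Polynomial ℤ)) (x y : F) : F :=
  (P.map ((aeval y : Polynomial ℤ →ₐ[ℤ] F) : Polynomial ℤ →+* F)).eval x

theorem map_intCast_le_one (n : ℤ) : v ((n : ℤ) : F) ≤ 1 := by
  induction n using Int.induction_on with
  | zero => simp
  | succ i ih =>
    push_cast
    exact (v.map_add _ _).trans (max_le (by exact_mod_cast ih) (by rw [map_one]))
  | pred i ih =>
    push_cast
    rw [sub_eq_add_neg]
    refine (v.map_add _ _).trans (max_le ?_ (by rw [Valuation.map_neg, map_one]))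
    have := ih
    push_cast at this
    exact this

/-- a sum `∑_{b ≤ n} c_b y^b` with `v c_b ≤ 1`, `1 ≤ v y` has valuation `≤ (v y)^n` -/
theorem map_sum_range_le {c : ℕ → F} (hc : ∀ b, v (c b) ≤ 1) {y : F} (hy : 1 ≤ v y) (n : ℕ) :
    v (∑ b ∈ Finset.range (n + 1), c b * y ^ b) ≤ v y ^ n := by
  apply v.map_sum_le
  intro i hi
  rw [Finset.mem_range] at hi
  rw [map_mul, map_pow]
  calc v (c i) * v y ^ i ≤ 1 * v y ^ i := mul_le_mul_left (hc _) _
    _ = v y ^ i := one_mul _
    _ ≤ v y ^ n := pow_le_pow_right₀ hy (by omega)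

theorem aeval_eq_sum_range_of_le (y : F) (Q : Polynomial ℤ) {d : ℕ} (hd : Q.natDegree ≤ d) :
    aeval y Q = ∑ b ∈ Finset.range (d + 1), ((Q.coeff b : ℤ) : F) * y ^ b := by
  rw [Polynomial.aeval_eq_sum_range' (Nat.lt_succ_of_le hd)]
  refine Finset.sum_congr rfl fun b _ => ?_
  rw [zsmul_eq_mul]

/-- an integral polynomial of degree `≤ d` in `y`, `1 ≤ v y`, has valuation `≤ (v y)^d` -/
theorem map_aeval_le {y : F} (hy : 1 ≤ v y) (Q : Polynomial ℤ) {d : ℕ} (hd : Q.natDegree ≤ d) :
    v (aeval y Q) ≤ v y ^ d := by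
  rw [aeval_eq_sum_range_of_le y Q hd]
  exact map_sum_range_le v (fun b => map_intCast_le_one v _) hy d

/-- an integral polynomial in `y`, `v y ≤ 1`, has valuation `≤ 1` -/
theorem map_aeval_le_one {y : F} (hy : v y ≤ 1) (Q : Polynomial ℤ) : v (aeval y Q) ≤ 1 := by
  rw [Polynomial.aeval_eq_sum_range]
  apply v.map_sum_le
  intro i _
  rw [zsmul_eq_mul, map_mul, map_pow]
  calc v ((Q.coeff i : ℤ) : F) * v y ^ i ≤ 1 * 1 :=
        mul_le_mul' (map_intCast_le_one v _) (pow_le_one₀ zero_le hy)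
    _ = 1 := one_mul _

/-- the leading term split off: `Q(y) - c_(n+1) y^(n+1)` has valuation `≤ (v y)^n` -/
theorem map_aeval_sub_lead_le {y : F} (hy : 1 ≤ v y) (Q : Polynomial ℤ) {n : ℕ}
    (hd : Q.natDegree ≤ n + 1) :
    v (aeval y Q - ((Q.coeff (n + 1) : ℤ) : F) * y ^ (n + 1)) ≤ v y ^ n := by
  rw [aeval_eq_sum_range_of_le y Q hd, Finset.sum_range_succ, add_sub_cancel_right]
  exact map_sum_range_le v (fun b => map_intCast_le_one v _) hy n

variable {q : ℕ} {P : Polynomial (Polynomial ℤ)}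

/-- the expansion of `P(x; y)` -/
theorem evalXY_eq_sum (hP : IsModShape q P) (x y : F) :
    evalXY P x y = ∑ a ∈ Finset.range (q + 2), aeval y (P.coeff a) * x ^ a := by
  have hdeg : (P.map ((aeval y : Polynomial ℤ →ₐ[ℤ] F) : Polynomial ℤ →+* F)).natDegree < q + 2 := by
    have h1 := Polynomial.natDegree_map_le (f := ((aeval y : Polynomial ℤ →ₐ[ℤ] F) :
      Polynomial ℤ →+* F)) (p := P)
    rw [hP.natDegree] at h1
    omega
  rw [evalXY, Polynomial.eval_eq_sum_range' hdeg]
  refine Finset.sum_congr rfl fun a _ => ?_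
  rw [Polynomial.coeff_map]
  rfl

/-- **the decomposition** `P(x; y) = x^(q+1) + y^(q+1) - x^q y^q + (R₁ + R₂ + R₃)`, `q = d + 1` -/
theorem evalXY_eq_main_add {d : ℕ} (hP : IsModShape (d + 1) P) (x y : F) :
    evalXY P x y = x ^ (d + 2) + y ^ (d + 2) - x ^ (d + 1) * y ^ (d + 1) +
      ((aeval y (P.coeff (d + 1)) + y ^ (d + 1)) * x ^ (d + 1) +
        ∑ a ∈ Finset.range d, aeval y (P.coeff (a + 1)) * x ^ (a + 1) +
        (aeval y (P.coeff 0) - y ^ (d + 2))) := by
  rw [evalXY_eq_sum hP, Finset.sum_range_succ, Finset.sum_range_succ, Finset.sum_range_succ']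
  have h1 : P.coeff (d + 1 + 1) = 1 := by
    have := hP.monic.coeff_natDegree
    rwa [hP.natDegree] at this
  rw [h1, map_one, pow_zero, mul_one, one_mul]
  ring

/-- a pole of `x` forces a pole of `y` -/
theorem one_lt_of_one_lt_left (hP : IsModShape q P) {x y : F} (h0 : evalXY P x y = 0)
    (hx : 1 < v x) : 1 < v y := by
  have hX0 : v x ≠ 0 := fun h => by rw [h] at hx; exact not_lt_zero hx
  by_contra hle
  push Not at hle
  have hsum := evalXY_eq_sum hP x y
  rw [Finset.sum_range_succ] at hsum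
  have h1 : P.coeff (q + 1) = 1 := by
    have := hP.monic.coeff_natDegree
    rwa [hP.natDegree] at this
  rw [h1, map_one, one_mul] at hsum
  have hterm : ∀ a ∈ Finset.range (q + 1), v (aeval y (P.coeff a) * x ^ a) <
      v x ^ (q + 1) := by
    intro a ha
    rw [Finset.mem_range] at ha
    rw [map_mul, map_pow]
    calc v (aeval y (P.coeff a)) * v x ^ a ≤ 1 * v x ^ a :=
          mul_le_mul_left (map_aeval_le_one v hle _) _
      _ = v x ^ a := one_mul _
      _ < v x ^ (q + 1) := pow_lt_pow_right₀ hx ha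
  have hlt : v (∑ a ∈ Finset.range (q + 1), aeval y (P.coeff a) * x ^ a) <
      v (x ^ (q + 1)) := by
    rw [map_pow]
    exact v.map_sum_lt (pow_ne_zero _ hX0) hterm
  have h5 := v.map_add_eq_of_lt_left hlt
  rw [add_comm, ← hsum, h0, map_zero, map_pow] at h5
  exact pow_ne_zero _ hX0 h5.symm

/-- a pole of `y` forces a pole of `x` -/
theorem one_lt_of_one_lt_right (hP : IsModShape q P) {x y : F} (h0 : evalXY P x y = 0)
    (hy : 1 < v y) : 1 < v x := by
  have hY0 : v y ≠ 0 := fun h => by rw [h] at hy; exact not_lt_zero hy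
  by_contra hle
  push Not at hle
  have hsum := evalXY_eq_sum hP x y
  rw [Finset.sum_range_succ', pow_zero, mul_one] at hsum
  have hlead : v (aeval y (P.coeff 0) - y ^ (q + 1)) ≤ v y ^ q := by
    have h := map_aeval_sub_lead_le v hy.le (P.coeff 0) (n := q) hP.deg_zero
    rw [hP.lead_zero] at h
    simpa using h
  have hYlt : v y ^ q < v y ^ (q + 1) := pow_lt_pow_right₀ hy (by omega)
  have hc0 : v (aeval y (P.coeff 0)) = v y ^ (q + 1) := by
    have h1 : v (aeval y (P.coeff 0) - y ^ (q + 1)) < v (y ^ (q + 1)) := by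
      rw [map_pow]
      exact lt_of_le_of_lt hlead hYlt
    have h2 := Valuation.map_eq_of_sub_lt v h1
    rw [h2, map_pow]
  have hterm : ∀ a ∈ Finset.range (q + 1), v (aeval y (P.coeff (a + 1)) * x ^ (a + 1)) <
      v y ^ (q + 1) := by
    intro a ha
    rw [map_mul, map_pow]
    calc v (aeval y (P.coeff (a + 1))) * v x ^ (a + 1) ≤ v y ^ q * 1 :=
          mul_le_mul' (map_aeval_le v hy.le _ (hP.deg_pos (a + 1) (by omega)))
            (pow_le_one₀ zero_le hle)
      _ = v y ^ q := mul_one _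
      _ < v y ^ (q + 1) := hYlt
  have hlt : v (∑ a ∈ Finset.range (q + 1), aeval y (P.coeff (a + 1)) * x ^ (a + 1)) <
      v (aeval y (P.coeff 0)) := by
    rw [hc0]
    exact v.map_sum_lt (pow_ne_zero _ hY0) hterm
  have h5 := v.map_add_eq_of_lt_left hlt
  rw [add_comm, ← hsum, h0, map_zero, hc0] at h5
  exact pow_ne_zero _ hY0 h5.symm

theorem one_lt_iff (hP : IsModShape q P) {x y : F} (h0 : evalXY P x y = 0) :
    1 < v x ↔ 1 < v y :=
  ⟨one_lt_of_one_lt_left v hP h0, one_lt_of_one_lt_right v hP h0⟩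

/-- **Newton dichotomy for a polynomial of modular shape**: if `P(x; y) = 0` and `v x > 1` then
either `x ≈ y^q` or `y ≈ x^q`, to first order. -/
theorem newton_dichotomy (hP : IsModShape q P) (hq : 2 ≤ q) {x y : F} (h0 : evalXY P x y = 0)
    (hx : 1 < v x) :
    (v x = v y ^ q ∧ v (y ^ q / x - 1) < 1) ∨ (v y = v x ^ q ∧ v (x ^ q / y - 1) < 1) := by
  obtain ⟨d, rfl⟩ : ∃ d, q = d + 1 := ⟨q - 1, by omega⟩
  have hd : 1 ≤ d := by omega
  have hX0 : v x ≠ 0 := fun h => by rw [h] at hx; exact not_lt_zero hx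
  have hXpos : 0 < v x := zero_lt_iff.mpr hX0
  have hx0 : x ≠ 0 := (Valuation.ne_zero_iff v).mp hX0
  -- Step 1: `1 < v y`
  have hy : 1 < v y := one_lt_of_one_lt_left v hP h0 hx
  have hY0 : v y ≠ 0 := fun h => by rw [h] at hy; exact not_lt_zero hy
  have hYpos : 0 < v y := zero_lt_iff.mpr hY0
  have hy0 : y ≠ 0 := (Valuation.ne_zero_iff v).mp hY0
  -- Step 2: the remainder
  set R1 : F := (aeval y (P.coeff (d + 1)) + y ^ (d + 1)) * x ^ (d + 1) with hR1def
  set R2 : F := ∑ a ∈ Finset.range d, aeval y (P.coeff (a + 1)) * x ^ (a + 1) with hR2def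
  set R3 : F := aeval y (P.coeff 0) - y ^ (d + 2) with hR3def
  have hdec : x ^ (d + 2) + y ^ (d + 2) - x ^ (d + 1) * y ^ (d + 1) + (R1 + R2 + R3) = 0 := by
    rw [← evalXY_eq_main_add hP x y]
    exact h0
  have hR1 : v R1 ≤ v y ^ d * v x ^ (d + 1) := by
    rw [hR1def, map_mul, map_pow]
    refine mul_le_mul_left ?_ _
    have h := map_aeval_sub_lead_le v hy.le (P.coeff (d + 1)) (n := d) (hP.deg_pos (d + 1) (by omega))
    rw [hP.lead_q] at h
    have e : aeval y (P.coeff (d + 1)) - (((-1 : ℤ) : ℤ) : F) * y ^ (d + 1) =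
        aeval y (P.coeff (d + 1)) + y ^ (d + 1) := by
      push_cast
      ring
    rwa [e] at h
  have hR2 : v R2 ≤ v y ^ (d + 1) * v x ^ d := by
    rw [hR2def]
    apply v.map_sum_le
    intro a ha
    rw [Finset.mem_range] at ha
    rw [map_mul, map_pow]
    exact mul_le_mul' (map_aeval_le v hy.le _ (hP.deg_pos (a + 1) (by omega)))
      (pow_le_pow_right₀ hx.le (by omega))
  have hR3 : v R3 ≤ v y ^ (d + 1) := by
    have h := map_aeval_sub_lead_le v hy.le (P.coeff 0) (n := d + 1) hP.deg_zero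
    rw [hP.lead_zero] at h
    rw [hR3def]
    simpa using h
  clear_value R1 R2 R3
  have hXq : 1 < v x ^ (d + 1) := one_lt_pow₀ hx (by omega)
  have hYq : 1 < v y ^ (d + 1) := one_lt_pow₀ hy (by omega)
  have hXqpos : 0 < v x ^ (d + 1) := pow_pos hXpos _
  have hYqpos : 0 < v y ^ (d + 1) := pow_pos hYpos _
  have hR : v (R1 + R2 + R3) < v x ^ (d + 1) * v y ^ (d + 1) := by
    have h1 : v R1 < v x ^ (d + 1) * v y ^ (d + 1) := by
      refine lt_of_le_of_lt hR1 ?_
      rw [mul_comm (v x ^ (d + 1))]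
      exact mul_lt_mul_of_pos_right (pow_lt_pow_right₀ hy (by omega)) hXqpos
    have h2 : v R2 < v x ^ (d + 1) * v y ^ (d + 1) := by
      refine lt_of_le_of_lt hR2 ?_
      rw [mul_comm (v x ^ (d + 1))]
      exact mul_lt_mul_of_pos_left (pow_lt_pow_right₀ hx (by omega)) hYqpos
    have h3 : v R3 < v x ^ (d + 1) * v y ^ (d + 1) := by
      refine lt_of_le_of_lt hR3 ?_
      calc v y ^ (d + 1) = 1 * v y ^ (d + 1) := (one_mul _).symm
        _ < v x ^ (d + 1) * v y ^ (d + 1) := mul_lt_mul_of_pos_right hXq hYqpos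
    exact v.map_add_lt (v.map_add_lt h1 h2) h3
  -- Step 3: the three cases
  by_cases hc2 : v y ^ (d + 1) ≤ v x
  · -- `y^q ≤ x`: first alternative
    left
    have hYX : v y < v x := lt_of_lt_of_le (by
      calc v y = v y ^ 1 := (pow_one _).symm
        _ < v y ^ (d + 1) := pow_lt_pow_right₀ hy (by omega)) hc2
    have hm : v x ^ (d + 1) * v y ^ (d + 1) ≤ v x ^ (d + 2) := by
      rw [pow_succ (v x) (d + 1)]
      exact mul_le_mul_right hc2 _
    have h1 : v (y ^ (d + 2)) < v x ^ (d + 2) := by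
      rw [map_pow]
      exact pow_lt_pow_left₀ hYX zero_le (by omega)
    have h2 : v (y ^ (d + 2) + (R1 + R2 + R3)) < v x ^ (d + 2) :=
      v.map_add_lt h1 (lt_of_lt_of_le hR hm)
    have h3 : x ^ (d + 1) * (y ^ (d + 1) - x) = y ^ (d + 2) + (R1 + R2 + R3) := by
      linear_combination (-1 : F) * hdec
    have h4 : v (y ^ (d + 1) - x) < v x := by
      have h5 : v (x ^ (d + 1) * (y ^ (d + 1) - x)) < v x ^ (d + 1) * v x := by
        rw [h3, ← pow_succ]
        exact h2
      rw [map_mul, map_pow] at h5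
      exact lt_of_mul_lt_mul_left h5 zero_le
    have h6 : v (y ^ (d + 1)) = v x := Valuation.map_eq_of_sub_lt v h4
    refine ⟨by rw [← h6, map_pow], ?_⟩
    have h7 : y ^ (d + 1) / x - 1 = (y ^ (d + 1) - x) / x := by
      field_simp
    rw [h7, map_div₀]
    exact (div_lt_one₀ hXpos).mpr h4
  · push Not at hc2
    by_cases hc3 : v x ^ (d + 1) ≤ v y
    · -- `x^q ≤ y`: second alternative
      right
      have hXY : v x < v y := lt_of_lt_of_le (by
        calc v x = v x ^ 1 := (pow_one _).symm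
          _ < v x ^ (d + 1) := pow_lt_pow_right₀ hx (by omega)) hc3
      have hm : v x ^ (d + 1) * v y ^ (d + 1) ≤ v y ^ (d + 2) := by
        rw [pow_succ (v y) (d + 1), mul_comm]
        exact mul_le_mul_right hc3 _
      have h1 : v (x ^ (d + 2)) < v y ^ (d + 2) := by
        rw [map_pow]
        exact pow_lt_pow_left₀ hXY zero_le (by omega)
      have h2 : v (x ^ (d + 2) + (R1 + R2 + R3)) < v y ^ (d + 2) :=
        v.map_add_lt h1 (lt_of_lt_of_le hR hm)
      have h3 : y ^ (d + 1) * (x ^ (d + 1) - y) = x ^ (d + 2) + (R1 + R2 + R3) := by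
        linear_combination (-1 : F) * hdec
      have h4 : v (x ^ (d + 1) - y) < v y := by
        have h5 : v (y ^ (d + 1) * (x ^ (d + 1) - y)) < v y ^ (d + 1) * v y := by
          rw [h3, ← pow_succ]
          exact h2
        rw [map_mul, map_pow] at h5
        exact lt_of_mul_lt_mul_left h5 zero_le
      have h6 : v (x ^ (d + 1)) = v y := Valuation.map_eq_of_sub_lt v h4
      refine ⟨by rw [← h6, map_pow], ?_⟩
      have h7 : x ^ (d + 1) / y - 1 = (x ^ (d + 1) - y) / y := by
        field_simp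
      rw [h7, map_div₀]
      exact (div_lt_one₀ hYpos).mpr h4
    · -- the mixed term dominates: impossible
      exfalso
      push Not at hc3
      have h1 : v (x ^ (d + 2)) < v x ^ (d + 1) * v y ^ (d + 1) := by
        rw [map_pow, pow_succ (v x) (d + 1)]
        exact mul_lt_mul_of_pos_left hc2 hXqpos
      have h2 : v (y ^ (d + 2)) < v x ^ (d + 1) * v y ^ (d + 1) := by
        rw [map_pow, pow_succ (v y) (d + 1), mul_comm (v y ^ (d + 1))]
        exact mul_lt_mul_of_pos_right hc3 hYqpos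
      have h3 : v (x ^ (d + 2) + y ^ (d + 2) + (R1 + R2 + R3)) <
          v (x ^ (d + 1) * y ^ (d + 1)) := by
        rw [map_mul, map_pow, map_pow]
        exact v.map_add_lt (v.map_add_lt h1 h2) hR
      have h4 : x ^ (d + 1) * y ^ (d + 1) = x ^ (d + 2) + y ^ (d + 2) + (R1 + R2 + R3) := by
        linear_combination (-1 : F) * hdec
      rw [← h4] at h3
      exact lt_irrefl _ h3

/-- `x ≈ z` to first order, read on `x / z` -/
theorem map_div_of_map_div_sub_one_lt {x z : F} (hx : x ≠ 0) (hz : z ≠ 0) (hv : v x = v z)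
    (h : v (z / x - 1) < 1) : v (x / z) = 1 ∧ v (x / z - 1) < 1 := by
  have hz0 : v z ≠ 0 := (Valuation.ne_zero_iff v).mpr hz
  have h1 : v (x / z) = 1 := by
    rw [map_div₀, hv, div_self hz0]
  refine ⟨h1, ?_⟩
  have h2 : x / z - 1 = -(x / z * (z / x - 1)) := by
    field_simp
    ring
  rw [h2, Valuation.map_neg, map_mul, h1, one_mul]
  exact h

/-- **two steps of the modular correspondence**: `P(j₁; j₀) = 0 = P(j₂; j₁)` and no `j_i` has a zero.
Then `j₂ / j₁^q` and `j₀ / j₁^q` are integral, and either `v j₀ = v j₂` (no pole, or a pole of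
"middle" type), or one of them is `≡ 1` (a pole of `∞`-type, of `0`-type, or of back-tracking
type). -/
theorem three_step (hP : IsModShape q P) (hq : 2 ≤ q) {j₀ j₁ j₂ : F}
    (h₀ : 1 ≤ v j₀) (h₁ : 1 ≤ v j₁) (h₂ : 1 ≤ v j₂)
    (e₁ : evalXY P j₁ j₀ = 0) (e₂ : evalXY P j₂ j₁ = 0) :
    v (j₂ / j₁ ^ q) ≤ 1 ∧ v (j₀ / j₁ ^ q) ≤ 1 ∧
      (v j₀ = v j₂ ∨ v (j₂ / j₁ ^ q - 1) < 1 ∨ v (j₀ / j₁ ^ q - 1) < 1) := by
  have hpos : ∀ {a : Γ₀}, 1 ≤ a → a ≠ 0 := fun h h0 => by
    rw [h0] at h
    exact not_le.mpr zero_lt_one h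
  have hj₀ : j₀ ≠ 0 := (Valuation.ne_zero_iff v).mp (hpos h₀)
  have hj₁ : j₁ ≠ 0 := (Valuation.ne_zero_iff v).mp (hpos h₁)
  have hj₂ : j₂ ≠ 0 := (Valuation.ne_zero_iff v).mp (hpos h₂)
  have hj₁q : j₁ ^ q ≠ 0 := pow_ne_zero q hj₁
  by_cases hp : 1 < v j₀
  · have hp₁ : 1 < v j₁ := (one_lt_iff v hP e₁).mpr hp
    have hp₂ : 1 < v j₂ := (one_lt_iff v hP e₂).mpr hp₁
    -- the integrality in the two "far" cases
    have far : ∀ {a b : Γ₀}, 1 < a → b = a ^ q → a / b ^ q ≤ 1 := by
      intro a b ha hb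
      have ha0 : a ≠ 0 := fun h => by rw [h] at ha; exact not_lt_zero ha
      rw [hb, ← pow_mul, div_le_one₀ (pow_pos (zero_lt_iff.mpr ha0) _)]
      calc a = a ^ 1 := (pow_one a).symm
        _ ≤ a ^ (q * q) := pow_le_pow_right₀ ha.le (by nlinarith)
    rcases newton_dichotomy v hP hq e₁ hp₁ with ⟨ha, ha'⟩ | ⟨hb, hb'⟩
    · -- (a): `v j₁ = (v j₀)^q`
      have hf' : v (j₀ / j₁ ^ q) ≤ 1 := by
        rw [map_div₀, map_pow]
        exact far hp ha
      rcases newton_dichotomy v hP hq e₂ hp₂ with ⟨hc, hc'⟩ | ⟨hd, hd'⟩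
      · -- (c): `v j₂ = (v j₁)^q`
        obtain ⟨h1, h2⟩ := map_div_of_map_div_sub_one_lt v hj₂ hj₁q (by rw [hc, map_pow]) hc'
        exact ⟨h1.le, hf', Or.inr (Or.inl h2)⟩
      · -- (d): `v j₁ = (v j₂)^q`
        refine ⟨?_, hf', Or.inl ?_⟩
        · rw [map_div₀, map_pow]
          exact far hp₂ hd
        · have h3 : v j₀ ^ q = v j₂ ^ q := by rw [← ha, hd]
          exact (pow_left_inj₀ zero_le zero_le (by omega)).mp h3
    · -- (b): `v j₀ = (v j₁)^q`
      obtain ⟨h1', h2'⟩ := map_div_of_map_div_sub_one_lt v hj₀ hj₁q (by rw [hb, map_pow]) hb'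
      rcases newton_dichotomy v hP hq e₂ hp₂ with ⟨hc, hc'⟩ | ⟨hd, hd'⟩
      · obtain ⟨h1, h2⟩ := map_div_of_map_div_sub_one_lt v hj₂ hj₁q (by rw [hc, map_pow]) hc'
        exact ⟨h1.le, h1'.le, Or.inr (Or.inl h2)⟩
      · refine ⟨?_, h1'.le, Or.inr (Or.inr h2')⟩
        rw [map_div₀, map_pow]
        exact far hp₂ hd
  · push Not at hp
    have e0 : v j₀ = 1 := le_antisymm hp h₀
    have e1 : v j₁ = 1 := by
      refine le_antisymm ?_ h₁
      by_contra hlt
      push Not at hlt
      exact absurd ((one_lt_iff v hP e₁).mp hlt) (not_lt.mpr hp)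
    have e2 : v j₂ = 1 := by
      refine le_antisymm ?_ h₂
      by_contra hlt
      push Not at hlt
      have := (one_lt_iff v hP e₂).mp hlt
      rw [e1] at this
      exact lt_irrefl _ this
    refine ⟨?_, ?_, Or.inl (by rw [e0, e2])⟩
    · rw [map_div₀, map_pow, e1, e2, one_pow, div_one]
    · rw [map_div₀, map_pow, e1, e0, one_pow, div_one]

/-- `evalXY` commutes with field homomorphisms -/
theorem map_evalXY {F' : Type*} [Field F'] (φ : F →+* F') (P : Polynomial (Polynomial ℤ))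
    (x y : F) : evalXY P (φ x) (φ y) = φ (evalXY P x y) := by
  rw [evalXY, evalXY, Polynomial.eval_map, Polynomial.eval_map, Polynomial.hom_eval₂]
  congr 1
  apply Polynomial.ringHom_ext
  · intro a
    simp
  · simp

end Newton

end Fermat.Agent.S36.ModShape
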