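/-
PROJECT V (S36), slice V-MiddleCuspK0 (helper15): **the `K`-level inputs of chain (V12)(ii)(ii')**
(`K = ℚ̄^H`; `H` = inertia gives `K₀`), in helper19's `FK H N`, `tB`, `alphaK`, `betaK`, `j0K`
language and helper26's `j0L j1L j2L`.

* (P1) `evalXY_j1L_j0L`, `evalXY_j2L_j1L` : `Φ(j₁; j₀) = 0 = Φ(j₂; j₁)` in `F_K(N0 q q)` for every
  Kronecker polynomial `Φ` (`hΦ : Φ.map (evalL ℤ j) = rPoly q ℤ`) = `rel₁`, `rel₂` of
  `MiddleCuspUnit.Hyp` (with `s_i = 1/j_i`).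
* (P2) for `a : F_K(N0)` whose image in `E N0` lies in the Gauss ring `G.O`:
  `isRed_thick_unit_K`     : `(a₂ a - a₀ a)^(q-1)/q` expands at the middle cusp to a Gauss fraction
                             reducing to `-(θ ā)^(q-1)`;
  `isRed_thick_unit_mul_K` : `(a₂ a / a₀ a - 1)^(q-1)/q` reduces to `-(θ ā / ā)^(q-1)` (`ā ≠ 0`);
  `isRed_thick_unit_j`     : `(j₂/j₀ - 1)^(q-1)/q` reduces to `-(θ J / J)^(q-1)`;
  `isRed_a0K`, `isRed_a1K`, `isRed_a2K` : (D5) at the middle cusp in `K`-form.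
-/
import Mathlib
import Fermat.Agent.S36.MiddleCuspGauss
import Fermat.Agent.S36.ModShape
import Fermat.Agent.S36.MinpolyK0
import Fermat.Agent.S36.JIntegral

set_option autoImplicit false
set_option linter.unusedSectionVars false
set_option linter.style.haveILetI false

noncomputable section

namespace Fermat.Agent.S36.MiddleCuspK0

open Polynomial ModularCurve
open Fermat.Agent.S36.PowerBasisK0 Fermat.Agent.S36.MinpolyK0 Fermat.Agent.S28.ModPoly
open Fermat.Agent.S36.ModShape Fermat.Agent.S36.JIntegral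

local notation "Kb" => AlgebraicClosure ℚ

variable (H : Subgroup (Kb ≃ₐ[ℚ] Kb))

/-! ### (P1) the modular relations over `K` -/

section Relations

variable {N0 q : ℕ} [NeZero N0] [NeZero q] [NeZero (N0 * q)] [NeZero (N0 * q * q)]

theorem intEval_eq_aeval {N : ℕ} (x : FK H N) :
    intEval H x = ((aeval x : Polynomial ℤ →ₐ[ℤ] FK H N) : Polynomial ℤ →+* FK H N) := by
  apply Polynomial.ringHom_ext
  · intro a
    simp [intEval]
  · simp [intEval]

theorem evalXY_eq_eval_phiK {N : ℕ} (Φ : Polynomial (Polynomial ℤ)) (x y : FK H N) :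
    evalXY Φ x y = (phiK H Φ y).eval x := by
  rw [evalXY, phiK, intEval_eq_aeval]

variable {Φ : Polynomial (Polynomial ℤ)} (hΦ : Φ.map (evalL ℤ (jqModC ℤ)) = rPoly q ℤ)

include hΦ in
/-- `Φ(j₁; j₀) = 0` at level `N0 q` -/
theorem evalXY_j1K_j0K : evalXY Φ (j1K H N0 q) (j0K H (N0 * q)) = 0 := by
  rw [evalXY_eq_eval_phiK, phiK_eq_beta H hΦ, eval_mul, eval_sub, eval_X, eval_C, sub_self,
    zero_mul]

include hΦ in
/-- **`rel₁`**: `Φ(j₁; j₀) = 0` at level `N0 q q` -/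
theorem evalXY_j1L_j0L : evalXY Φ (j1L H N0 q) (j0L H N0 q) = 0 := by
  have h := map_evalXY (alphaK H (N0 * q) q) Φ (j1K H N0 q) (j0K H (N0 * q))
  rw [evalXY_j1K_j0K H hΦ, map_zero, alphaK_j0K, alphaK_j1K] at h
  exact h

include hΦ in
/-- **`rel₂`**: `Φ(j₂; j₁) = 0` at level `N0 q q` -/
theorem evalXY_j2L_j1L : evalXY Φ (j2L H N0 q) (j1L H N0 q) = 0 := by
  have h := map_evalXY (betaK H (N0 * q) q) Φ (j1K H N0 q) (j0K H (N0 * q))
  rw [evalXY_j1K_j0K H hΦ, map_zero, betaK_j0K, betaK_j1K] at h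
  exact h

end Relations

/-! ### (P2) the thick-place units in `K`-form -/

section Thick

open Fermat.Agent.S36.MiddleCusp Fermat.Agent.S36.MiddleCuspGauss
open Fermat.Agent.S35.LevelMaps (E)
open Fermat.Agent.S36.DiagTheta
open Fermat.Agent.S37.Gauss.Datum
open Fermat.Agent.S18.B.FkBasics (jk)
open IsLocalRing

variable {q : ℕ} [hq : Fact q.Prime] {N0 : ℕ} [NeZero N0] {A : ValuationSubring Kb}
variable (hA : A.LiesOverPrime q) (hqN : ¬ q ∣ N0) [NeZero q]
variable [CharP (ResidueField ↥A) q] [PerfectField (ResidueField ↥A)]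
variable {ζ : Kbˣ} (hζ : IsPrimitiveRoot ζ q)

set_option synthInstance.maxHeartbeats 400000

/-- `a₀ = α ∘ α₀ : F_K(N0) → F_K(N0 q q)` -/
def a0K : FK H N0 →+* FK H (N0 * q * q) := (alphaK H (N0 * q) q).comp (alphaK H N0 q)

/-- `a₁ = α ∘ β₀ = β ∘ α₀` -/
def a1K : FK H N0 →+* FK H (N0 * q * q) := (alphaK H (N0 * q) q).comp (betaK H N0 q)

/-- `a₂ = β ∘ β₀` -/
def a2K : FK H N0 →+* FK H (N0 * q * q) := (betaK H (N0 * q) q).comp (betaK H N0 q)

theorem tB_a0K (a : FK H N0) : tB H (N0 * q * q) (a0K H (q := q) a) =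
    heckeAlphaBar Kb (N0 * q) q (heckeAlphaBar Kb N0 q (tB H N0 a)) := by
  rw [a0K, RingHom.comp_apply, tB_alphaK, tB_alphaK]

theorem tB_a1K (a : FK H N0) : tB H (N0 * q * q) (a1K H (q := q) a) =
    heckeAlphaBar Kb (N0 * q) q (heckeBetaBar Kb N0 q (tB H N0 a)) := by
  rw [a1K, RingHom.comp_apply, tB_alphaK, tB_betaK]

theorem tB_a2K (a : FK H N0) : tB H (N0 * q * q) (a2K H (q := q) a) =
    heckeBetaBar Kb (N0 * q) q (heckeBetaBar Kb N0 q (tB H N0 a)) := by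
  rw [a2K, RingHom.comp_apply, tB_betaK, tB_betaK]

theorem a0K_j0K : a0K H (q := q) (j0K H N0) = j0L H N0 q := by
  apply Subtype.ext
  rw [a0K, RingHom.comp_apply, coe_alphaK, coe_alphaK, j0L, coe_j0K, coe_j0K]

theorem a1K_j0K : a1K H (q := q) (j0K H N0) = j1L H N0 q := rfl

theorem a2K_j0K : a2K H (q := q) (j0K H N0) = j2L H N0 q := rfl

/-- (D5) at the middle cusp, `a₀` -/
theorem isRed_a0K (a : FK H N0) (ha : tB H N0 a ∈ (gaussDatum N0 A hA hqN).O) :
    IsRed A (residue ↥A) (iota hqN hζ (tB H (N0 * q * q) (a0K H (q := q) a)))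
      (((gaussDatum N0 A hA hqN).red ⟨tB H N0 a, ha⟩ :
        ↥(modularFunctionFieldFullC (ResidueField ↥A) N0)) : LaurentSeries (ResidueField ↥A)) := by
  rw [tB_a0K]
  exact isRed_iota_a0 hA hqN hζ ⟨tB H N0 a, ha⟩

/-- (D5) at the middle cusp, `a₁` -/
theorem isRed_a1K (a : FK H N0) (ha : tB H N0 a ∈ (gaussDatum N0 A hA hqN).O) :
    IsRed A (residue ↥A) (iota hqN hζ (tB H (N0 * q * q) (a1K H (q := q) a)))
      (qExpand (ResidueField ↥A) q
        (((gaussDatum N0 A hA hqN).red ⟨tB H N0 a, ha⟩ :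
          ↥(modularFunctionFieldFullC (ResidueField ↥A) N0)) :
            LaurentSeries (ResidueField ↥A))) := by
  rw [tB_a1K]
  exact isRed_iota_a1 hA hqN hζ ⟨tB H N0 a, ha⟩

/-- (D5) at the middle cusp, `a₂` -/
theorem isRed_a2K (a : FK H N0) (ha : tB H N0 a ∈ (gaussDatum N0 A hA hqN).O) :
    IsRed A (residue ↥A) (iota hqN hζ (tB H (N0 * q * q) (a2K H (q := q) a)))
      (((gaussDatum N0 A hA hqN).red ⟨tB H N0 a, ha⟩ :
        ↥(modularFunctionFieldFullC (ResidueField ↥A) N0)) : LaurentSeries (ResidueField ↥A)) := by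
  rw [tB_a2K]
  exact isRed_iota_a2 hA hqN hζ ⟨tB H N0 a, ha⟩

/-- **(V12)(ii), `K`-form**: `c = (a₂ a - a₀ a)^(q-1)/q` reduces to `-(θ ā)^(q-1)` -/
theorem isRed_thick_unit_K (a : FK H N0) (ha : tB H N0 a ∈ (gaussDatum N0 A hA hqN).O) :
    IsRed A (residue ↥A)
      (iota hqN hζ (tB H (N0 * q * q)
        ((a2K H (q := q) a - a0K H (q := q) a) ^ (q - 1) / ((q : ℕ) : FK H (N0 * q * q)))))
      (-(theta (((gaussDatum N0 A hA hqN).red ⟨tB H N0 a, ha⟩ :
          ↥(modularFunctionFieldFullC (ResidueField ↥A) N0)) :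
            LaurentSeries (ResidueField ↥A))) ^ (q - 1)) := by
  have e : tB H (N0 * q * q)
      ((a2K H (q := q) a - a0K H (q := q) a) ^ (q - 1) / ((q : ℕ) : FK H (N0 * q * q))) =
      (heckeBetaBar Kb (N0 * q) q (heckeBetaBar Kb N0 q (tB H N0 a)) -
          heckeAlphaBar Kb (N0 * q) q (heckeAlphaBar Kb N0 q (tB H N0 a))) ^ (q - 1) /
        ((q : ℕ) : E (N0 * q * q)) := by
    rw [map_div₀, map_pow, map_sub, map_natCast, tB_a2K, tB_a0K]
  rw [e]
  exact isRed_iota_thick_unit hA hqN hζ ⟨tB H N0 a, ha⟩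

/-- **(V12)(ii'), `K`-form**: `c' = (a₂ a / a₀ a - 1)^(q-1)/q` reduces to `-(θ ā / ā)^(q-1)` -/
theorem isRed_thick_unit_mul_K (a : FK H N0) (ha : tB H N0 a ∈ (gaussDatum N0 A hA hqN).O)
    (hne : (gaussDatum N0 A hA hqN).red ⟨tB H N0 a, ha⟩ ≠ 0) :
    IsRed A (residue ↥A)
      (iota hqN hζ (tB H (N0 * q * q)
        ((a2K H (q := q) a / a0K H (q := q) a - 1) ^ (q - 1) / ((q : ℕ) : FK H (N0 * q * q)))))
      (-(theta (((gaussDatum N0 A hA hqN).red ⟨tB H N0 a, ha⟩ :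
          ↥(modularFunctionFieldFullC (ResidueField ↥A) N0)) :
            LaurentSeries (ResidueField ↥A)) /
          (((gaussDatum N0 A hA hqN).red ⟨tB H N0 a, ha⟩ :
            ↥(modularFunctionFieldFullC (ResidueField ↥A) N0)) :
              LaurentSeries (ResidueField ↥A))) ^ (q - 1)) := by
  have e : tB H (N0 * q * q)
      ((a2K H (q := q) a / a0K H (q := q) a - 1) ^ (q - 1) / ((q : ℕ) : FK H (N0 * q * q))) =
      (heckeBetaBar Kb (N0 * q) q (heckeBetaBar Kb N0 q (tB H N0 a)) /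
          heckeAlphaBar Kb (N0 * q) q (heckeAlphaBar Kb N0 q (tB H N0 a)) - 1) ^ (q - 1) /
        ((q : ℕ) : E (N0 * q * q)) := by
    rw [map_div₀, map_pow, map_sub, map_div₀, map_one, map_natCast, tB_a2K, tB_a0K]
  rw [e]
  exact isRed_iota_thick_unit_mul hA hqN hζ ⟨tB H N0 a, ha⟩ hne

theorem tB_j0K_mem_O : tB H N0 (j0K H N0) ∈ (gaussDatum N0 A hA hqN).O := by
  rw [tB_j0K]
  exact jgen_mem_O hA hqN

theorem red_tB_j0K :
    (gaussDatum N0 A hA hqN).red ⟨tB H N0 (j0K H N0), tB_j0K_mem_O H hA hqN⟩ =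
      jk (ResidueField ↥A) N0 := by
  rw [← red_jgen hA hqN]
  congr 1
  exact Subtype.ext (tB_j0K H N0)

include hA in
/-- **the local equation at the middle cusps**: `(j₂/j₀ - 1)^(q-1)/q` reduces to
`-(θ J / J)^(q-1)` -/
theorem isRed_thick_unit_j :
    IsRed A (residue ↥A)
      (iota hqN hζ (tB H (N0 * q * q)
        ((j2L H N0 q / j0L H N0 q - 1) ^ (q - 1) / ((q : ℕ) : FK H (N0 * q * q)))))
      (-(theta ((jk (ResidueField ↥A) N0 :
          ↥(modularFunctionFieldFullC (ResidueField ↥A) N0)) : LaurentSeries (ResidueField ↥A)) /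
          ((jk (ResidueField ↥A) N0 :
            ↥(modularFunctionFieldFullC (ResidueField ↥A) N0)) :
              LaurentSeries (ResidueField ↥A))) ^ (q - 1)) := by
  have hne : (gaussDatum N0 A hA hqN).red ⟨tB H N0 (j0K H N0), tB_j0K_mem_O H hA hqN⟩ ≠ 0 := by
    rw [red_tB_j0K]
    exact (Fermat.Agent.S18.B.FkBasics.isFF (ResidueField ↥A) N0).ne_zero
  have h := isRed_thick_unit_mul_K H hA hqN hζ (j0K H N0) (tB_j0K_mem_O H hA hqN) hne
  rw [red_tB_j0K, a2K_j0K, a0K_j0K] at h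
  exact h

end Thick

end Fermat.Agent.S36.MiddleCuspK0
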