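/-
PROJECT V (S36), slice V-ThickLinkK0 (helper13): **the thick place `W₁₁` of `ThreeValX0` and its
residue map `r₁₁`, computed by the middle-cusp expansion** (the LINK of chain (V12)(ii)(ii')).

Objects on main: `FK H N`, `tB`, `alphaK`, `betaK` (`S36/PowerBasisK0`), `V1K`, `red1K`
(`S36/ThetaK0`), `OgK`, `red0K` (`S36/LevelQK0`), the middle-cusp expansion
`iota : E (N0 q q) →+* ℚ̄((t))` (`S36/MiddleCusp`), the relation `IsRed A π x r` ("`x` is a Gauss
fraction with reduction `r`", `S36/MiddleCuspGauss`), its `K`-forms `a0K a1K a2K`,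
`isRed_thick_unit_K`, … (`S36/MiddleCuspK0`, helper15), and `Y : ThreeValX0.Hyp H N0 q κ` (helper21).

* `RedK H A hqN hζ x r := IsRed A (residue A) (iota (tB x)) r` for `x ∈ F_K(N0 q q)`;
  `RedK.sub`, `RedK.unique`;
* `redK_alphaK` : `RedK (α_K c) (red1K c)` for `c ∈ V1K`;
* `redK_a0 / redK_a1 / redK_a2 / redK_a2_sub_a0 / redK_thick_unit / redK_thick_unit_mul /
  redK_thick_unit_j` : helper15's statements for `g ∈ OgK`, with `red0K g` in place of `ḡ`;
* `exists_place` : a valuation subring `W'` of `F_K(N0 q q)` containing every `x` with `RedK x r`,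
  such an `x` being a non-unit iff `r = 0`; `comap_alphaK_place : W'.comap α_K = V1K`;
* for `Y : ThreeValX0.Hyp` with `Y.V₁ = V1K` (`hV1`): `place_eq_W₁₁ : W' = Y.W₁₁`
  (`Setup.eq_W₁₁_of_val_lt`: `j₂ - j₀` reduces to `0`), hence
  **`mem_W₁₁_of_redK : RedK x r → x ∈ Y.W₁₁ ∧ (x ∈ Y.W₁₁.nonunits ↔ r = 0)`**;
* with `Y.red₁ = red1K` elementwise (`hred1`):
  **`r₁₁_eq_of_redK : RedK x r → (Y.r₁₁ ⟨x, _⟩ : k((t))) = r`** (`B0ThickBridge.res_eq_of_red`);
* `thick_unit_mem`, `r₁₁_thick_unit`, `valuation_thick_unit` : `c = (a₂ g - a₀ g)^(q-1)/q ∈ W₁₁`,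
  `r₁₁ c = -(θ ḡ)^(q-1)`, and `W₁₁(c) = 1` when `θ ḡ ≠ 0`: the inputs `hc₀`, `ρ c₀` of
  `B0ThickBridgeT.exists_h11`; the same for the multiplicative form (ii') and for `g = j`.
-/
import Mathlib
import Fermat.Agent.S36.MiddleCuspK0
import Fermat.Agent.S36.ThreeValX0
import Fermat.Agent.S36.LevelQK0
import Fermat.Agent.S36.B0ThickBridge

set_option autoImplicit false
set_option linter.unusedSectionVars false
set_option linter.style.haveILetI false
set_option linter.unusedVariables false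
set_option synthInstance.maxHeartbeats 400000
set_option maxHeartbeats 1000000

noncomputable section

namespace Fermat.Agent.S36.ThickLinkK0

open ModularCurve HahnSeries IsLocalRing
open Fermat.Agent.S35.LevelMaps (E)
open Fermat.Agent.S36.MiddleCusp Fermat.Agent.S36.MiddleCuspGauss
open Fermat.Agent.S36.DiagTheta
open Fermat.Agent.S18.GaussFromH
open Fermat.Agent.S37.Gauss.Datum
open Fermat.Agent.S34.GaussPairX0
open Fermat.Agent.S36.PowerBasisK0 Fermat.Agent.S36.ThetaK0 Fermat.Agent.S36.LevelQK0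
open Fermat.Agent.S36.MiddleCuspK0
open Fermat.Agent.S36.JIntegral (j0L j1L j2L)
open Fermat.Agent.S18.B.FkBasics (jk)

local notation "Kb" => AlgebraicClosure ℚ
local notation "Ω" => LaurentSeries Kb

variable (H : Subgroup (Kb ≃ₐ[ℚ] Kb))
variable {q : ℕ} [hq : Fact q.Prime] {N0 : ℕ} [NeZero N0] {A : ValuationSubring Kb}
variable (hA : A.LiesOverPrime q) (hqN : ¬ q ∣ N0) [NeZero q]
variable [CharP (ResidueField ↥A) q] [PerfectField (ResidueField ↥A)]
variable {ζ : Kbˣ} (hζ : IsPrimitiveRoot ζ q)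

/-! ### the reduction relation on the `K`-form -/

variable (A) in
/-- `x ∈ F_K(N0 q q)` expands at the middle cusp to a Gauss fraction with reduction `r` -/
def RedK (x : FK H (N0 * q * q)) (r : LaurentSeries (ResidueField ↥A)) : Prop :=
  IsRed A (residue ↥A) (iota hqN hζ (tB H (N0 * q * q) x)) r

theorem RedK.sub {H : Subgroup (Kb ≃ₐ[ℚ] Kb)} {hqN : ¬ q ∣ N0} {hζ : IsPrimitiveRoot ζ q}
    {x y : FK H (N0 * q * q)} {r s : LaurentSeries (ResidueField ↥A)}
    (hx : RedK H A hqN hζ x r) (hy : RedK H A hqN hζ y s) : RedK H A hqN hζ (x - y) (r - s) := by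
  unfold RedK at hx hy ⊢
  rw [map_sub, map_sub]
  exact IsRed.sub hx hy

theorem RedK.unique {H : Subgroup (Kb ≃ₐ[ℚ] Kb)} {hqN : ¬ q ∣ N0} {hζ : IsPrimitiveRoot ζ q}
    {x : FK H (N0 * q * q)} {r s : LaurentSeries (ResidueField ↥A)}
    (hx : RedK H A hqN hζ x r) (hy : RedK H A hqN hζ x s) : r = s :=
  IsRed.unique hx hy

/-! ### `V₁` of `S34/GaussPairX0` and `V1` of `S34/PairX0` -/

theorem mem_V1_of_mem_V₁ {y : E (N0 * q)} (h : y ∈ V₁ hA hqN) :
    y ∈ Fermat.Agent.S34.PairX0.V1 hA hqN := h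

theorem coe_red1_eq_coe_red₁ {y : E (N0 * q)} (h : y ∈ V₁ hA hqN) :
    ((Fermat.Agent.S34.PairX0.red1 hA hqN ⟨y, mem_V1_of_mem_V₁ hA hqN h⟩ :
        ↥(modularFunctionFieldFullC (ResidueField ↥A) N0)) : LaurentSeries (ResidueField ↥A)) =
      ((red₁ hA hqN ⟨y, h⟩ : ↥(modularFunctionFieldFullC (ResidueField ↥A) N0)) :
        LaurentSeries (ResidueField ↥A)) := by
  rw [red₁_eq_rho, coe_rho]
  exact Fermat.Agent.S34.PairX0.coe_redE _

/-- `RedK (α_K c) (red1K c)` for `c ∈ V1K` -/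
theorem redK_alphaK (c : ↥(V1K H hA hqN)) :
    RedK H A hqN hζ (alphaK H (N0 * q) q (c : FK H (N0 * q)))
      ((red1K H hA hqN c : ↥(modularFunctionFieldFullC (ResidueField ↥A) N0)) :
        LaurentSeries (ResidueField ↥A)) := by
  unfold RedK
  have hc : tB H (N0 * q) (c : FK H (N0 * q)) ∈ V₁ hA hqN := ValuationSubring.mem_comap.mp c.2
  rw [tB_alphaK, red1K_apply, ← coe_red1_eq_coe_red₁ hA hqN hc]
  exact isRed_iota_alpha hA hqN hζ ⟨_, mem_V1_of_mem_V₁ hA hqN hc⟩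

/-! ### helper15's `K`-forms on `OgK` -/

theorem mem_O_of_OgK (g : ↥(OgK H hA hqN)) :
    tB H N0 (g : FK H N0) ∈ (gaussDatum N0 A hA hqN).O := ValuationSubring.mem_comap.mp g.2

/-- (D5): `a₀ g` reduces to `ḡ` -/
theorem redK_a0 (g : ↥(OgK H hA hqN)) :
    RedK H A hqN hζ (a0K H (q := q) (g : FK H N0))
      ((red0K H hA hqN g : ↥(modularFunctionFieldFullC (ResidueField ↥A) N0)) :
        LaurentSeries (ResidueField ↥A)) :=
  isRed_a0K H hA hqN hζ (g : FK H N0) (mem_O_of_OgK H hA hqN g)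

/-- (D5): `a₁ g` reduces to `ḡ(t^q)` -/
theorem redK_a1 (g : ↥(OgK H hA hqN)) :
    RedK H A hqN hζ (a1K H (q := q) (g : FK H N0))
      (qExpand (ResidueField ↥A) q
        ((red0K H hA hqN g : ↥(modularFunctionFieldFullC (ResidueField ↥A) N0)) :
          LaurentSeries (ResidueField ↥A))) :=
  isRed_a1K H hA hqN hζ (g : FK H N0) (mem_O_of_OgK H hA hqN g)

/-- (D5): `a₂ g` reduces to `ḡ` -/
theorem redK_a2 (g : ↥(OgK H hA hqN)) :
    RedK H A hqN hζ (a2K H (q := q) (g : FK H N0))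
      ((red0K H hA hqN g : ↥(modularFunctionFieldFullC (ResidueField ↥A) N0)) :
        LaurentSeries (ResidueField ↥A)) :=
  isRed_a2K H hA hqN hζ (g : FK H N0) (mem_O_of_OgK H hA hqN g)

/-- `a₂ g - a₀ g` reduces to `0` -/
theorem redK_a2_sub_a0 (g : ↥(OgK H hA hqN)) :
    RedK H A hqN hζ (a2K H (q := q) (g : FK H N0) - a0K H (q := q) (g : FK H N0)) 0 := by
  have h := (redK_a2 H hA hqN hζ g).sub (redK_a0 H hA hqN hζ g)
  rwa [sub_self] at h

/-- the thick unit `c = (a₂ g - a₀ g)^(q-1) / q` -/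
def cK (g : FK H N0) : FK H (N0 * q * q) :=
  (a2K H (q := q) g - a0K H (q := q) g) ^ (q - 1) / ((q : ℕ) : FK H (N0 * q * q))

/-- the multiplicative thick unit `c' = (a₂ g / a₀ g - 1)^(q-1) / q` -/
def cK' (g : FK H N0) : FK H (N0 * q * q) :=
  (a2K H (q := q) g / a0K H (q := q) g - 1) ^ (q - 1) / ((q : ℕ) : FK H (N0 * q * q))

theorem cK'_j0K : cK' H (q := q) (j0K H N0) =
    (j2L H N0 q / j0L H N0 q - 1) ^ (q - 1) / ((q : ℕ) : FK H (N0 * q * q)) := by
  rw [cK', a2K_j0K, a0K_j0K]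

/-- **(V12)(ii)**: `c = (a₂ g - a₀ g)^(q-1)/q` reduces to `-(θ ḡ)^(q-1)` -/
theorem redK_thick_unit (g : ↥(OgK H hA hqN)) :
    RedK H A hqN hζ (cK H (g : FK H N0))
      (-(theta ((red0K H hA hqN g : ↥(modularFunctionFieldFullC (ResidueField ↥A) N0)) :
        LaurentSeries (ResidueField ↥A))) ^ (q - 1)) :=
  isRed_thick_unit_K H hA hqN hζ (g : FK H N0) (mem_O_of_OgK H hA hqN g)

/-- **(V12)(ii')**: `c' = (a₂ g/a₀ g - 1)^(q-1)/q` reduces to `-(θ ḡ/ḡ)^(q-1)`, `ḡ ≠ 0` -/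
theorem redK_thick_unit_mul (g : ↥(OgK H hA hqN)) (hg : red0K H hA hqN g ≠ 0) :
    RedK H A hqN hζ (cK' H (g : FK H N0))
      (-(theta ((red0K H hA hqN g : ↥(modularFunctionFieldFullC (ResidueField ↥A) N0)) :
          LaurentSeries (ResidueField ↥A)) /
        ((red0K H hA hqN g : ↥(modularFunctionFieldFullC (ResidueField ↥A) N0)) :
          LaurentSeries (ResidueField ↥A))) ^ (q - 1)) :=
  isRed_thick_unit_mul_K H hA hqN hζ (g : FK H N0) (mem_O_of_OgK H hA hqN g) hg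

/-! ### the place defined by the expansion -/

/-- **Chevalley on the `K`-form** -/
theorem exists_place :
    ∃ W' : ValuationSubring (FK H (N0 * q * q)),
      ∀ (x : FK H (N0 * q * q)) (r : LaurentSeries (ResidueField ↥A)),
        RedK H A hqN hζ x r → x ∈ W' ∧ (x ∈ W'.nonunits ↔ r = 0) :=
  exists_valuationSubring_comap (A := A) hqN hζ (tB H (N0 * q * q))

/-- a place containing the Gauss fractions restricts to `V1K` along `α_K` -/
theorem comap_alphaK_place {W' : ValuationSubring (FK H (N0 * q * q))}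
    (hW' : ∀ (x : FK H (N0 * q * q)) (r : LaurentSeries (ResidueField ↥A)),
      RedK H A hqN hζ x r → x ∈ W' ∧ (x ∈ W'.nonunits ↔ r = 0)) :
    W'.comap (alphaK H (N0 * q) q) = V1K H hA hqN := by
  symm
  refine valuationSubring_eq_of_le_of_nonunits (fun x hx => ?_) (fun x hx => ?_)
  · rw [ValuationSubring.mem_comap]
    exact (hW' _ _ (redK_alphaK H hA hqN hζ ⟨x, hx⟩)).1
  · have hxV : x ∈ V1K H hA hqN :=
      (ValuationSubring.mem_nonunits_iff_exists_mem_maximalIdeal.mp hx).1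
    rw [mem_comap_nonunits_iff']
    refine (hW' _ _ (redK_alphaK H hA hqN hζ ⟨x, hxV⟩)).2.mpr ?_
    have h0 : red1K H hA hqN ⟨x, hxV⟩ = 0 :=
      (red1K_eq_zero_iff H hA hqN ⟨x, hxV⟩).mpr hx
    rw [h0]
    rfl

/-! ### identification with `W₁₁` of `ThreeValX0` -/

section Link

variable {H hA hqN hζ}
variable (Y : ThreeValX0.Hyp H N0 q ↥(modularFunctionFieldFullC (ResidueField ↥A) N0))
  (hV1 : Y.V₁ = V1K H hA hqN)
  (hred1 : ∀ (x : FK H (N0 * q)) (h : x ∈ Y.V₁) (h' : x ∈ V1K H hA hqN),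
    Y.red₁ ⟨x, h⟩ = red1K H hA hqN ⟨x, h'⟩)

include hV1 in
/-- the place defined by the middle-cusp expansion IS the thick place of `ThreeValX0` -/
theorem place_eq_W₁₁ {W' : ValuationSubring (FK H (N0 * q * q))}
    (hW' : ∀ (x : FK H (N0 * q * q)) (r : LaurentSeries (ResidueField ↥A)),
      RedK H A hqN hζ x r → x ∈ W' ∧ (x ∈ W'.nonunits ↔ r = 0)) : W' = Y.W₁₁ := by
  refine Fermat.Agent.S36.ThreeVal.Setup.eq_W₁₁_of_val_lt Y.setup ?_ ?_
  · rw [hV1]
    exact comap_alphaK_place H hA hqN hζ hW'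
  · -- `α x - β y = j₀ - j₂ = -(a₂ j - a₀ j)`
    have e1 : alphaK H (N0 * q) q Y.setup.x = a0K H (q := q) (j0K H N0) := by
      rw [a0K_j0K]
      exact ThreeValX0.alphaK_j0K' H N0 q
    have e2 : betaK H (N0 * q) q Y.setup.y = a2K H (q := q) (j0K H N0) := rfl
    rw [e1, e2]
    have h := (hW' _ _ (redK_a2_sub_a0 H hA hqN hζ (jOK H hA hqN))).2.mpr rfl
    have h2 : a0K H (q := q) (j0K H N0) - a2K H (q := q) (j0K H N0) ∈ W'.nonunits := by
      have e : a0K H (q := q) (j0K H N0) - a2K H (q := q) (j0K H N0) =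
          -(a2K H (q := q) ((jOK H hA hqN : ↥(OgK H hA hqN)) : FK H N0) -
            a0K H (q := q) ((jOK H hA hqN : ↥(OgK H hA hqN)) : FK H N0)) := by
        show _ = -(a2K H (q := q) (j0K H N0) - a0K H (q := q) (j0K H N0))
        ring
      rw [e]
      exact W'.nonunits.neg_mem h
    exact (ValuationSubring.mem_nonunits_iff _).mp h2

include hV1 in
/-- **Gauss fractions at the middle cusp lie in `W₁₁`; they are non-units iff they reduce to `0`** -/
theorem mem_W₁₁_of_redK {x : FK H (N0 * q * q)} {r : LaurentSeries (ResidueField ↥A)}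
    (hx : RedK H A hqN hζ x r) : x ∈ Y.W₁₁ ∧ (x ∈ Y.W₁₁.nonunits ↔ r = 0) := by
  obtain ⟨W', hW'⟩ := exists_place H (A := A) hqN hζ
  rw [← place_eq_W₁₁ Y hV1 hW']
  exact hW' x r hx

include hV1 hred1 in
/-- **the residue map of the thick place is the reduction of the middle-cusp expansion** -/
theorem r₁₁_eq_of_redK {x : FK H (N0 * q * q)} {r : LaurentSeries (ResidueField ↥A)}
    (hx : RedK H A hqN hζ x r) :
    ((Y.r₁₁ ⟨x, (mem_W₁₁_of_redK Y hV1 hx).1⟩ :
        ↥(modularFunctionFieldFullC (ResidueField ↥A) N0)) : LaurentSeries (ResidueField ↥A)) =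
      r := by
  have key := Fermat.Agent.S36.B0ThickBridge.res_eq_of_red
    (alphaK H (N0 * q) q) Y.V₁ Y.W₁₁ Y.red₁ Y.r₁₁
    ((modularFunctionFieldFullC (ResidueField ↥A) N0).subtype) (RedK H A hqN hζ)
    (fun x y r s hx hy => hx.sub hy)
    (fun c => by
      have hc : (c : FK H (N0 * q)) ∈ V1K H hA hqN := hV1 ▸ c.2
      have h := redK_alphaK H hA hqN hζ ⟨c, hc⟩
      rw [← hred1 (c : FK H (N0 * q)) c.2 hc] at h
      exact h)
    (fun x r hx => mem_W₁₁_of_redK Y hV1 hx)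
    (fun z hz => Fermat.Agent.S36.ThreeValRes.ResInputs.deg₁₁ Y.resInputs z hz)
    (fun c h => Y.r₁₁_α c h)
    (fun z hz => (Y.r₁₁_eq_zero_iff z).mpr hz) hx
  exact key

include hV1 in
/-- the thick unit lies in `W₁₁` -/
theorem thick_unit_mem (hζ : IsPrimitiveRoot ζ q) (g : ↥(OgK H hA hqN)) :
    cK H (g : FK H N0) ∈ Y.W₁₁ :=
  (mem_W₁₁_of_redK Y hV1 (redK_thick_unit H hA hqN hζ g)).1

include hV1 hred1 in
/-- **`r₁₁ c = -(θ ḡ)^(q-1)`** -/
theorem r₁₁_thick_unit (hζ : IsPrimitiveRoot ζ q) (g : ↥(OgK H hA hqN)) :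
    ((Y.r₁₁ ⟨cK H (g : FK H N0), thick_unit_mem Y hV1 hζ g⟩ :
        ↥(modularFunctionFieldFullC (ResidueField ↥A) N0)) : LaurentSeries (ResidueField ↥A)) =
      -(theta ((red0K H hA hqN g : ↥(modularFunctionFieldFullC (ResidueField ↥A) N0)) :
        LaurentSeries (ResidueField ↥A))) ^ (q - 1) :=
  r₁₁_eq_of_redK Y hV1 hred1 (redK_thick_unit H hA hqN hζ g)

include hV1 in
/-- `W₁₁(c) = 1` when `θ ḡ ≠ 0` -/
theorem valuation_thick_unit (hζ : IsPrimitiveRoot ζ q) (g : ↥(OgK H hA hqN))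
    (hθ : theta ((red0K H hA hqN g : ↥(modularFunctionFieldFullC (ResidueField ↥A) N0)) :
      LaurentSeries (ResidueField ↥A)) ≠ 0) :
    Y.W₁₁.valuation (cK H (g : FK H N0)) = 1 := by
  obtain ⟨hmem, hnu⟩ := mem_W₁₁_of_redK Y hV1 (redK_thick_unit H hA hqN hζ g)
  have h1 : Y.W₁₁.valuation (cK H (g : FK H N0)) ≤ 1 := (Y.W₁₁.valuation_le_one_iff _).mpr hmem
  refine le_antisymm h1 (not_lt.mp fun hlt => ?_)
  have h2 : cK H (g : FK H N0) ∈ Y.W₁₁.nonunits := (ValuationSubring.mem_nonunits_iff _).mpr hlt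
  have h3 := hnu.mp h2
  rw [neg_eq_zero] at h3
  exact hθ (pow_eq_zero_iff (n := q - 1) (by
    have := hq.out.two_le
    omega) |>.mp h3)

include hV1 in
/-- the multiplicative thick unit lies in `W₁₁` -/
theorem thick_unit_mul_mem (hζ : IsPrimitiveRoot ζ q) (g : ↥(OgK H hA hqN))
    (hg : red0K H hA hqN g ≠ 0) : cK' H (g : FK H N0) ∈ Y.W₁₁ :=
  (mem_W₁₁_of_redK Y hV1 (redK_thick_unit_mul H hA hqN hζ g hg)).1

include hV1 hred1 in
/-- **`r₁₁ c' = -(θ ḡ / ḡ)^(q-1)`** -/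
theorem r₁₁_thick_unit_mul (hζ : IsPrimitiveRoot ζ q) (g : ↥(OgK H hA hqN))
    (hg : red0K H hA hqN g ≠ 0) :
    ((Y.r₁₁ ⟨cK' H (g : FK H N0), thick_unit_mul_mem Y hV1 hζ g hg⟩ :
        ↥(modularFunctionFieldFullC (ResidueField ↥A) N0)) : LaurentSeries (ResidueField ↥A)) =
      -(theta ((red0K H hA hqN g : ↥(modularFunctionFieldFullC (ResidueField ↥A) N0)) :
          LaurentSeries (ResidueField ↥A)) /
        ((red0K H hA hqN g : ↥(modularFunctionFieldFullC (ResidueField ↥A) N0)) :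
          LaurentSeries (ResidueField ↥A))) ^ (q - 1) :=
  r₁₁_eq_of_redK Y hV1 hred1 (redK_thick_unit_mul H hA hqN hζ g hg)

include hV1 in
/-- `W₁₁(c') = 1` when `θ ḡ ≠ 0` -/
theorem valuation_thick_unit_mul (hζ : IsPrimitiveRoot ζ q) (g : ↥(OgK H hA hqN))
    (hg : red0K H hA hqN g ≠ 0)
    (hθ : theta ((red0K H hA hqN g : ↥(modularFunctionFieldFullC (ResidueField ↥A) N0)) :
      LaurentSeries (ResidueField ↥A)) ≠ 0) :
    Y.W₁₁.valuation (cK' H (g : FK H N0)) = 1 := by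
  obtain ⟨hmem, hnu⟩ := mem_W₁₁_of_redK Y hV1 (redK_thick_unit_mul H hA hqN hζ g hg)
  have h1 : Y.W₁₁.valuation (cK' H (g : FK H N0)) ≤ 1 := (Y.W₁₁.valuation_le_one_iff _).mpr hmem
  refine le_antisymm h1 (not_lt.mp fun hlt => ?_)
  have h2 : cK' H (g : FK H N0) ∈ Y.W₁₁.nonunits := (ValuationSubring.mem_nonunits_iff _).mpr hlt
  have h3 := hnu.mp h2
  rw [neg_eq_zero] at h3
  have h4 := pow_eq_zero_iff (n := q - 1) (by
    have := hq.out.two_le
    omega) |>.mp h3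
  have hg' : ((red0K H hA hqN g : ↥(modularFunctionFieldFullC (ResidueField ↥A) N0)) :
      LaurentSeries (ResidueField ↥A)) ≠ 0 := fun h0 => hg (Subtype.ext h0)
  rw [div_eq_zero_iff] at h4
  rcases h4 with h4 | h4
  · exact hθ h4
  · exact hg' h4

end Link

end Fermat.Agent.S36.ThickLinkK0
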