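/-
PROJECT V (S36), slice V-ThickOrdX0 (helper13): **the `h11` tuple of
`AllPointsT.locPrincipal_of_isMaximal` at `X₀`**, chain (V12)(ii) (ordinary points of the thick
component `C₁₁`) and (ii') (middle cusps), hypotheses-first on

* `D : BranchCoreT.TDatum A₁ A B` with `A` ANY presentation of a chart ring inside
  `F₂ = F_K(N0 q q)` (`[Algebra A F₂] [IsFractionRing A F₂]`), `ι D.ϖ = q`;
* `Y : ThreeValX0.Hyp H N0 q κ` with the Link `hV1 : Y.V₁ = V1K`, `hred1 : Y.red₁ = red1K`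
  (`GlueNormX0.Link.hV₁ / h₁`);
* `hle : A ⊆ Y.W₁₁`, an embedding `e : B →+* κ` (`B` = the component chart inside `κ`) with
  `hr11 : e (D.r11 a) = Y.r₁₁ (ι a)`;
* the place: `Ob : ValuationSubring κ` with `hOb : b ∈ n ↔ e b = 0 ∨ (e b)⁻¹ ∉ Ob`
  (`SpecDictLocal.mem_pointOf_iff_inv`).

PART 1 (`Unif`): the uniformiser triple of the thick place: `ϖ₁₁ = j₂ - j₀`,
`val_ϖ₁₁_lt`, `val_le_val_ϖ₁₁`, `val_q : W₁₁(q) = W₁₁(ϖ₁₁)^(q-1)` = `hϖ1 hϖg hqϖ` of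
`B0ThickBridgeT.exists_h11`.

PART 2: `exists_h11_of_redK` : GENERAL FORM.  `z₀ c₀ ∈ F₂` with `z₀^(q-1) = q c₀`, `c₀` a Gauss
fraction at the middle cusp with reduction `r` (`RedK c₀ r`), `r` the expansion of a unit of `Ob`
(`hΘ : ∀ Θ : κ, (Θ : k((t))) = r → Θ ≠ 0 ∧ Θ⁻¹ ∈ Ob`, the count), a denominator `s₀ ∉ x₁₁(n)` with
`s₀ z₀ = z ∈ A`  ⟹  the `h11` tuple at `n`.

PART 3: `exists_h11_ord` : (ii), `z₀ = a₂ g - a₀ g = z ∈ A`, `g ∈ OgK`, `s₀ = 1`,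
`r = -(θ ḡ)^(q-1)`;  `exists_h11_cusp` : (ii'), `z₀ = j₂/j₀ - 1`, `r = -(θ J/J)^(q-1)`,
`s₀ z` from `MiddleCuspUnit.Hyp.exists_local_eq`.
-/
import Mathlib
import Fermat.Agent.S36.ThickLinkK0
import Fermat.Agent.S36.B0ThickBridgeT

set_option autoImplicit false
set_option linter.unusedSectionVars false
set_option linter.style.haveILetI false
set_option linter.unusedVariables false
set_option synthInstance.maxHeartbeats 400000
set_option maxHeartbeats 1000000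

noncomputable section

namespace Fermat.Agent.S36.ThickOrdX0

open ModularCurve HahnSeries IsLocalRing
open Fermat.Agent.S36.DiagTheta
open Fermat.Agent.S36.PowerBasisK0 Fermat.Agent.S36.ThetaK0 Fermat.Agent.S36.LevelQK0
open Fermat.Agent.S36.MiddleCuspK0 Fermat.Agent.S36.ThickLinkK0
open Fermat.Agent.S36.ThreeValX0
open Fermat.Agent.S36.ThreeVal Fermat.Agent.S36.ThreeValInputs
open Fermat.Agent.S36.JIntegral (j0L j1L j2L)
open Fermat.Agent.S18.B.FkBasics (jk)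
open Fermat.Agent.S36.AllPoints

local notation "Kb" => AlgebraicClosure ℚ

/-! ## Part 1: the uniformiser of the thick place -/

section Unif

variable {H : Subgroup (Kb ≃ₐ[ℚ] Kb)}
variable {N0 q : ℕ} [NeZero N0] [NeZero q] [NeZero (N0 * q)] [NeZero (N0 * q * q)]
variable {κ : Type} [Field κ] (Y : ThreeValX0.Hyp H N0 q κ)

variable (H N0 q) in
/-- the uniformiser `j₂ - j₀` of the thick place -/
def ϖ₁₁ : FK H (N0 * q * q) := j2K H N0 q - j0K H (N0 * q * q)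

theorem setup_ϖ₁₁ : Y.setup.ϖ₁₁ = ϖ₁₁ H N0 q := by
  show betaK H (N0 * q) q Y.setup.y - alphaK H (N0 * q) q (Y.setup.Pα.S.a : FK H (N0 * q)) = _
  have e1 : alphaK H (N0 * q) q (Y.setup.Pα.S.a : FK H (N0 * q)) = j0K H (N0 * q * q) :=
    alphaK_j0K' H N0 q
  have e2 : betaK H (N0 * q) q Y.setup.y = j2K H N0 q := rfl
  rw [e1, e2, ϖ₁₁]

/-- `W₁₁(ϖ₁₁) < 1` -/
theorem val_ϖ₁₁_lt : Y.W₁₁.valuation (ϖ₁₁ H N0 q) < 1 := by
  rw [← setup_ϖ₁₁ Y]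
  exact (ValuationSubring.mem_nonunits_iff _).mp Y.setup.isUnif_W₁₁.1

/-- `ϖ₁₁` generates the maximal ideal of `W₁₁` -/
theorem val_le_val_ϖ₁₁ (w : FK H (N0 * q * q)) (hw : Y.W₁₁.valuation w < 1) :
    Y.W₁₁.valuation w ≤ Y.W₁₁.valuation (ϖ₁₁ H N0 q) := by
  rw [← setup_ϖ₁₁ Y]
  exact Y.setup.isUnif_W₁₁.2 w ((ValuationSubring.mem_nonunits_iff _).mpr hw)

/-- **`W₁₁(q) = W₁₁(ϖ₁₁)^(q-1)`**: the thick place has multiplicity `q - 1` -/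
theorem val_q : Y.W₁₁.valuation ((q : ℕ) : FK H (N0 * q * q)) =
    Y.W₁₁.valuation (ϖ₁₁ H N0 q) ^ (q - 1) := by
  have h := Y.setup.localRam_W₁₁_α.val_π
  have hm : Y.setup.Pα.S.m = q - 1 := Y.num.mα
  rw [hm, setup_ϖ₁₁ Y] at h
  have e : (algebraMap (FK H (N0 * q)) (S35.NormRed.Via (alphaK H (N0 * q) q)) Y.setup.π₁ :
      FK H (N0 * q * q)) = ((q : ℕ) : FK H (N0 * q * q)) := by
    show alphaK H (N0 * q) q (((q : ℕ) : ↥Y.V₁) : FK H (N0 * q)) = _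
    rw [show ((((q : ℕ) : ↥Y.V₁)) : FK H (N0 * q)) = ((q : ℕ) : FK H (N0 * q)) from rfl, map_natCast]
  rw [e] at h
  exact h

end Unif

/-! ## Part 2: the general form -/

variable {H : Subgroup (Kb ≃ₐ[ℚ] Kb)}
variable {q : ℕ} [hq : Fact q.Prime] {N0 : ℕ} [NeZero N0] {A : ValuationSubring Kb}
variable {hA : A.LiesOverPrime q} {hqN : ¬ q ∣ N0} [NeZero q]
variable [CharP (ResidueField ↥A) q] [PerfectField (ResidueField ↥A)]
variable {ζ : Kbˣ} {hζ : IsPrimitiveRoot ζ q}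

variable {R₁ R B : Type*} [CommRing R₁] [CommRing R] [CommRing B]
  [IsDomain R] [IsNoetherianRing R] [IsIntegrallyClosed R] [IsDomain B]
  [Algebra R (FK H (N0 * q * q))] [IsFractionRing R (FK H (N0 * q * q))]

variable (D : BranchCoreT.TDatum R₁ R B)
variable (Y : ThreeValX0.Hyp H N0 q ↥(modularFunctionFieldFullC (ResidueField ↥A) N0))
  (hV1 : Y.V₁ = V1K H hA hqN)
  (hred1 : ∀ (x : FK H (N0 * q)) (h : x ∈ Y.V₁) (h' : x ∈ V1K H hA hqN),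
    Y.red₁ ⟨x, h⟩ = red1K H hA hqN ⟨x, h'⟩)

theorem natCast_q_ne_zero : ((q : ℕ) : FK H (N0 * q * q)) ≠ 0 := by
  haveI : CharZero (FK H (N0 * q * q)) :=
    charZero_of_injective_algebraMap (algebraMap ℚ (FK H (N0 * q * q))).injective
  exact Nat.cast_ne_zero.mpr (NeZero.ne q)

include hV1 hred1 in
/-- **(V12)(ii)(ii') at `X₀`, general form.** -/
theorem exists_h11_of_redK {n : Ideal B} (hn : n.IsMaximal) (hS : n ∉ D.S)
    (hϖ : algebraMap R (FK H (N0 * q * q)) D.ϖ = ((q : ℕ) : FK H (N0 * q * q)))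
    (hle : ∀ a : R, algebraMap R (FK H (N0 * q * q)) a ∈ Y.W₁₁)
    (e : B →+* ↥(modularFunctionFieldFullC (ResidueField ↥A) N0)) (he : Function.Injective e)
    (hr11 : ∀ a : R, e (D.r11 a) = Y.r₁₁ ⟨algebraMap R (FK H (N0 * q * q)) a, hle a⟩)
    (Ob : ValuationSubring ↥(modularFunctionFieldFullC (ResidueField ↥A) N0))
    (hOb : ∀ b : B, b ∈ n ↔ e b = 0 ∨ (e b)⁻¹ ∉ Ob)
    {z₀ c₀ : FK H (N0 * q * q)} (hpow : z₀ ^ (q - 1) = ((q : ℕ) : FK H (N0 * q * q)) * c₀)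
    {r : LaurentSeries (ResidueField ↥A)} (hc₀ : RedK H A hqN hζ c₀ r)
    (hΘ : ∀ Θ : ↥(modularFunctionFieldFullC (ResidueField ↥A) N0),
      ((Θ : ↥(modularFunctionFieldFullC (ResidueField ↥A) N0)) :
        LaurentSeries (ResidueField ↥A)) = r → Θ ≠ 0 ∧ Θ⁻¹ ∈ Ob)
    {s₀ z : R} (hs₀ : s₀ ∉ D.x11 n)
    (hz : algebraMap R (FK H (N0 * q * q)) s₀ * z₀ = algebraMap R (FK H (N0 * q * q)) z) :
    ∃ z : R, z ≠ 0 ∧ z ∈ RingHom.ker D.r11 ∧ BranchEq (RingHom.ker D.r11) z ∧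
      ∃ (s c : R) (k : ℕ), 0 < k ∧ c ∉ D.x11 n ∧ s * z ^ k = D.ϖ * c := by
  have hq0 := natCast_q_ne_zero (H := H) (q := q) (N0 := N0)
  have hϖ0 : D.ϖ ≠ 0 := fun h0 => hq0 (by rw [← hϖ, h0, map_zero])
  have hk : 0 < q - 1 := Nat.sub_pos_of_lt hq.out.one_lt
  -- the residue of `c₀`
  obtain ⟨hc₀W, hc₀nu⟩ := mem_W₁₁_of_redK Y hV1 hc₀
  have hρc := r₁₁_eq_of_redK Y hV1 hred1 hc₀
  obtain ⟨hΘ0, hΘu⟩ := hΘ _ hρc
  have hr0 : r ≠ 0 := fun h0 => hΘ0 (Subtype.ext (by rw [hρc, h0]; rfl))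
  have hvc : Y.W₁₁.valuation c₀ = 1 := by
    have h1 : Y.W₁₁.valuation c₀ ≤ 1 := (Y.W₁₁.valuation_le_one_iff _).mpr hc₀W
    refine le_antisymm h1 (not_lt.mp fun hlt => hr0 (hc₀nu.mp ?_))
    exact (ValuationSubring.mem_nonunits_iff _).mpr hlt
  refine Fermat.Agent.S36.B0ThickBridgeT.exists_h11 D hn hS hϖ0 Y.W₁₁ hle ?_
    (val_ϖ₁₁_lt Y) (val_le_val_ϖ₁₁ Y) hk ?_ ?_ hvc hs₀ hz Y.r₁₁ Ob ?_ hΘu
  · intro a
    rw [← Y.r₁₁_eq_zero_iff ⟨_, hle a⟩, ← hr11 a, map_eq_zero_iff e he]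
  · rw [hϖ]
    exact val_q Y
  · rw [hϖ]
    exact hpow
  · intro a
    show D.r11 a ∈ n ↔ _
    rw [hOb, hr11 a]

/-! ## Part 3: the two cases -/

include hV1 hred1 in
/-- **(V12)(ii) at `X₀`**: the `h11` tuple at an ordinary place of the thick component, from
`g ∈ OgK` with `a₂ g - a₀ g ∈ A` and `(θ ḡ)^(q-1)` a unit at the place. -/
theorem exists_h11_ord {n : Ideal B} (hn : n.IsMaximal) (hS : n ∉ D.S)
    (hζ : IsPrimitiveRoot ζ q)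
    (hϖ : algebraMap R (FK H (N0 * q * q)) D.ϖ = ((q : ℕ) : FK H (N0 * q * q)))
    (hle : ∀ a : R, algebraMap R (FK H (N0 * q * q)) a ∈ Y.W₁₁)
    (e : B →+* ↥(modularFunctionFieldFullC (ResidueField ↥A) N0)) (he : Function.Injective e)
    (hr11 : ∀ a : R, e (D.r11 a) = Y.r₁₁ ⟨algebraMap R (FK H (N0 * q * q)) a, hle a⟩)
    (Ob : ValuationSubring ↥(modularFunctionFieldFullC (ResidueField ↥A) N0))
    (hOb : ∀ b : B, b ∈ n ↔ e b = 0 ∨ (e b)⁻¹ ∉ Ob)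
    (g : ↥(OgK H hA hqN)) (z : R)
    (hz : algebraMap R (FK H (N0 * q * q)) z =
      a2K H (q := q) (g : FK H N0) - a0K H (q := q) (g : FK H N0))
    (hΘ : ∀ Θ : ↥(modularFunctionFieldFullC (ResidueField ↥A) N0),
      ((Θ : ↥(modularFunctionFieldFullC (ResidueField ↥A) N0)) :
        LaurentSeries (ResidueField ↥A)) =
        (theta ((red0K H hA hqN g : ↥(modularFunctionFieldFullC (ResidueField ↥A) N0)) :
          LaurentSeries (ResidueField ↥A))) ^ (q - 1) → Θ ≠ 0 ∧ Θ⁻¹ ∈ Ob) :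
    ∃ z : R, z ≠ 0 ∧ z ∈ RingHom.ker D.r11 ∧ BranchEq (RingHom.ker D.r11) z ∧
      ∃ (s c : R) (k : ℕ), 0 < k ∧ c ∉ D.x11 n ∧ s * z ^ k = D.ϖ * c := by
  haveI := hn.isPrime
  have hq0 := natCast_q_ne_zero (H := H) (q := q) (N0 := N0)
  refine exists_h11_of_redK D Y hV1 hred1 hn hS hϖ hle e he hr11 Ob hOb
    (z₀ := a2K H (q := q) (g : FK H N0) - a0K H (q := q) (g : FK H N0))
    (c₀ := cK H (g : FK H N0)) ?_ (redK_thick_unit H hA hqN hζ g) ?_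
    (s₀ := 1) (z := z) ?_ ?_
  · rw [cK, mul_div_cancel₀ _ hq0]
  · intro Θ hΘc
    obtain ⟨h1, h2⟩ := hΘ (-Θ) (by
      rw [show ((-Θ : ↥(modularFunctionFieldFullC (ResidueField ↥A) N0)) :
        LaurentSeries (ResidueField ↥A)) = -(Θ : LaurentSeries (ResidueField ↥A)) from rfl,
        hΘc, neg_neg])
    refine ⟨neg_ne_zero.mp h1, ?_⟩
    have h3 : Θ⁻¹ = -(-Θ)⁻¹ := by rw [inv_neg, neg_neg]
    rw [h3]
    exact Ob.neg_mem _ h2
  · intro h1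
    exact (Ideal.ne_top_iff_one (D.x11 n)).mp (Ideal.comap_ne_top D.r11 hn.ne_top) h1
  · rw [map_one, one_mul, hz]

include hV1 hred1 in
/-- **(V12)(ii') at `X₀`**: the `h11` tuple at a middle cusp, from the local equation
`s₀ (j₂/j₀ - 1) = z ∈ A`, `s₀ ∉ x₁₁(n)` (`MiddleCuspUnit.Hyp.exists_local_eq`) and
`(θ J / J)^(q-1)` a unit at the place. -/
theorem exists_h11_cusp {n : Ideal B} (hn : n.IsMaximal) (hS : n ∉ D.S)
    (hζ : IsPrimitiveRoot ζ q)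
    (hϖ : algebraMap R (FK H (N0 * q * q)) D.ϖ = ((q : ℕ) : FK H (N0 * q * q)))
    (hle : ∀ a : R, algebraMap R (FK H (N0 * q * q)) a ∈ Y.W₁₁)
    (e : B →+* ↥(modularFunctionFieldFullC (ResidueField ↥A) N0)) (he : Function.Injective e)
    (hr11 : ∀ a : R, e (D.r11 a) = Y.r₁₁ ⟨algebraMap R (FK H (N0 * q * q)) a, hle a⟩)
    (Ob : ValuationSubring ↥(modularFunctionFieldFullC (ResidueField ↥A) N0))
    (hOb : ∀ b : B, b ∈ n ↔ e b = 0 ∨ (e b)⁻¹ ∉ Ob)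
    {s₀ z : R} (hs₀ : s₀ ∉ D.x11 n)
    (hz : algebraMap R (FK H (N0 * q * q)) s₀ * (j2L H N0 q / j0L H N0 q - 1) =
      algebraMap R (FK H (N0 * q * q)) z)
    (hΘ : ∀ Θ : ↥(modularFunctionFieldFullC (ResidueField ↥A) N0),
      ((Θ : ↥(modularFunctionFieldFullC (ResidueField ↥A) N0)) :
        LaurentSeries (ResidueField ↥A)) =
        (theta ((jk (ResidueField ↥A) N0 : ↥(modularFunctionFieldFullC (ResidueField ↥A) N0)) :
            LaurentSeries (ResidueField ↥A)) /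
          ((jk (ResidueField ↥A) N0 : ↥(modularFunctionFieldFullC (ResidueField ↥A) N0)) :
            LaurentSeries (ResidueField ↥A))) ^ (q - 1) → Θ ≠ 0 ∧ Θ⁻¹ ∈ Ob) :
    ∃ z : R, z ≠ 0 ∧ z ∈ RingHom.ker D.r11 ∧ BranchEq (RingHom.ker D.r11) z ∧
      ∃ (s c : R) (k : ℕ), 0 < k ∧ c ∉ D.x11 n ∧ s * z ^ k = D.ϖ * c := by
  have hq0 := natCast_q_ne_zero (H := H) (q := q) (N0 := N0)
  have hJ : red0K H hA hqN (jOK H hA hqN) ≠ 0 := by
    rw [red0K_jOK]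
    exact (Fermat.Agent.S18.B.FkBasics.isFF (ResidueField ↥A) N0).ne_zero
  have hred := redK_thick_unit_mul H hA hqN hζ (jOK H hA hqN) hJ
  rw [red0K_jOK] at hred
  refine exists_h11_of_redK D Y hV1 hred1 hn hS hϖ hle e he hr11 Ob hOb
    (z₀ := j2L H N0 q / j0L H N0 q - 1)
    (c₀ := cK' H (q := q) (j0K H N0)) ?_ hred ?_ hs₀ hz
  · rw [cK'_j0K, mul_div_cancel₀ _ hq0]
  · intro Θ hΘc
    obtain ⟨h1, h2⟩ := hΘ (-Θ) (by
      rw [show ((-Θ : ↥(modularFunctionFieldFullC (ResidueField ↥A) N0)) :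
        LaurentSeries (ResidueField ↥A)) = -(Θ : LaurentSeries (ResidueField ↥A)) from rfl,
        hΘc, neg_neg])
    refine ⟨neg_ne_zero.mp h1, ?_⟩
    have h3 : Θ⁻¹ = -(-Θ)⁻¹ := by rw [inv_neg, neg_neg]
    rw [h3]
    exact Ob.neg_mem _ h2

end Fermat.Agent.S36.ThickOrdX0
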