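/-
PROJECT V (S36), slice V-CountThick (helper17), chain (V13): **the bound `hb0` of the count at the
ordinary points of the thick component, at `X₀`**, in the hypothesis language of
`S36/ThickOrdX0.exists_h11_ord` (helper13).  The count is NOT used (no circularity): the output is
the one-sided bound `0 ≤ ord_b Θ`, which is the ONLY open input of `CountX0Final.count_final`.

Ingredients (all on main): the ring side `B0ThickCount.rho_c0_mem` (helper29: `ρ c₀ ∈ Ob` from the
input list of `B0ThickBridgeT.exists_h11` minus `hcu` plus `hmem`), the thick unit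
`ThickLinkK0.r₁₁_thick_unit / valuation_thick_unit` (`r₁₁ (cK g) = -(θ ḡ)^(q-1)`, `W₁₁(cK g) = 1`),
the uniformiser triple `ThickOrdX0.val_ϖ₁₁_lt / val_le_val_ϖ₁₁ / val_q`, and
`ThickCountX0.thetaL_ne_zero` (`θ π ≠ 0` at a non-cuspidal place).

* `mem_of_hOb` : a dictionary `hOb : x ∈ n ↔ e x = 0 ∨ (e x)⁻¹ ∉ Ob` with `n` MAXIMAL forces
  `e x ∈ Ob` for every `x : B` (so `hmem` of `B0ThickCount.rho_c0_mem` is NOT an extra hypothesis);
* `hb0_of_mem` : ONE instance of `hb0` in the literal shape of `CountNode.count_of_hb0` /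
  `CountX0Final.count_final` from a local parameter `f` at `b` and `Θ' ∈ κ` REGULAR at `b` with
  `t`-expansion `-(θ f)^(q-1)`;
* `hb0_at` : THE HYPOTHESIS LIST OF `ThickOrdX0.exists_h11_ord` MINUS `hΘ` (the count), with
  `Ob := b.toValuationSubring`, PLUS `hsep`, `hb : 0 ≤ ord_b j̄`, `hg : ord_b (red0K g) = 1`
  ==> the instance of `hb0` at `b`;
* `hb0_all` : the literal `hb0` of `CountX0Final.count_final` from "every non-cuspidal `b ∉ S` has a
  chart point `n ∉ D.S` with dictionary `hOb` and a lift `g ∈ O_{g,K}` of a local parameter with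
  `a₂ g - a₀ g` in the chart ring".
-/
import Mathlib
import Fermat.Agent.S36.B0ThickCount
import Fermat.Agent.S36.ThickOrdX0
import Fermat.Agent.S36.ThickCountX0

set_option autoImplicit false
set_option linter.unusedSectionVars false
set_option linter.style.haveILetI false
set_option linter.unusedVariables false
set_option synthInstance.maxHeartbeats 400000
set_option maxHeartbeats 1000000

noncomputable section

namespace Fermat.Agent.S36.CountThick

open ModularCurve HahnSeries IsLocalRing AlgebraicCurve IntermediateField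
open Fermat.Agent.S36.PowerBasisK0 Fermat.Agent.S36.ThetaK0 Fermat.Agent.S36.LevelQK0
open Fermat.Agent.S36.MiddleCuspK0 Fermat.Agent.S36.ThickLinkK0
open Fermat.Agent.S36.ThreeValX0
open Fermat.Agent.S36.ThickOrdX0
open Fermat.Agent.S18.B.FkBasics (jk isFF)
open Fermat.Agent.S36.ThetaL

local notation "Kb" => AlgebraicClosure ℚ

/-! ### the dictionary forces regularity -/

/-- a dictionary `x ∈ n ↔ e x = 0 ∨ (e x)⁻¹ ∉ Ob` at a MAXIMAL ideal `n` forces `e x ∈ Ob` -/
theorem mem_of_hOb {B κ : Type*} [CommRing B] [Field κ] (e : B →+* κ) {n : Ideal B}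
    (hn : n.IsMaximal) (Ob : ValuationSubring κ)
    (hOb : ∀ x : B, x ∈ n ↔ e x = 0 ∨ (e x)⁻¹ ∉ Ob) (x : B) : e x ∈ Ob := by
  by_contra hx
  have hx0 : e x ≠ 0 := fun h0 => hx (h0 ▸ Ob.zero_mem)
  have hxinv : (e x)⁻¹ ∈ Ob := (Ob.mem_or_inv_mem (e x)).resolve_left hx
  have hxn : x ∉ n := fun h => by
    rcases (hOb x).mp h with h1 | h1
    · exact hx0 h1
    · exact h1 hxinv
  obtain ⟨y, m, hm, hxy⟩ := hn.exists_inv hxn
  -- `e m` is a non-unit of `Ob`
  have hvm : Ob.valuation (e m) < 1 := by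
    rcases (hOb m).mp hm with h1 | h1
    · rw [h1, map_zero]
      exact zero_lt_one
    · by_contra hlt
      rw [not_lt] at hlt
      have hm0 : e m ≠ 0 := fun h0 => by
        rw [h0, map_zero] at hlt
        exact absurd hlt (not_le.mpr zero_lt_one)
      apply h1
      rw [← Ob.valuation_le_one_iff, map_inv₀]
      exact inv_le_one_of_one_le₀ hlt
  have hvx : 1 < Ob.valuation (e x) := by
    rw [← not_le, Ob.valuation_le_one_iff]
    exact hx
  have hsum : e y * e x = 1 - e m := by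
    rw [← map_mul, ← map_one e, ← hxy, map_add, add_sub_cancel_right]
  have hv1 : Ob.valuation (e y * e x) = 1 := by
    rw [hsum]
    have h2 : Ob.valuation (-(e m)) < Ob.valuation (1 : κ) := by
      rw [Valuation.map_neg, map_one]
      exact hvm
    rw [sub_eq_add_neg, Valuation.map_add_eq_of_lt_left _ h2, map_one]
  rw [map_mul] at hv1
  have hy0 : e y ≠ 0 := fun h0 => by
    rw [h0, map_zero, zero_mul] at hv1
    exact zero_ne_one hv1
  have hvy : Ob.valuation (e y) < 1 := by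
    by_contra hge
    rw [not_lt] at hge
    have h3 : 1 < Ob.valuation (e y) * Ob.valuation (e x) :=
      lt_of_lt_of_le hvx (le_mul_of_one_le_left zero_le hge)
    rw [hv1] at h3
    exact lt_irrefl _ h3
  have hyn : y ∈ n := by
    rw [hOb]
    right
    intro h4
    have h5 : Ob.valuation (e y)⁻¹ ≤ 1 := (Ob.valuation_le_one_iff _).mpr h4
    rw [map_inv₀] at h5
    have h6 : 1 < (Ob.valuation (e y))⁻¹ :=
      (one_lt_inv₀ (by
        rw [Ob.valuation.pos_iff]
        exact hy0)).mpr hvy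
    exact absurd h5 (not_le.mpr h6)
  have h1n : (1 : B) ∈ n := by
    rw [← hxy]
    exact n.add_mem (n.mul_mem_right x hyn) hm
  exact hn.ne_top ((Ideal.eq_top_iff_one n).mpr h1n)

/-! ### one instance of `hb0` from a regular `Θ'` -/

/-- **one instance of `hb0`** (literal shape of `CountNode.count_of_hb0` /
`CountX0Final.count_final`): a local parameter `f` at `b` and an element `Θ'` of `κ`, REGULAR at
`b`, with `t`-expansion `-(θ f)^(q-1)`. -/
theorem hb0_of_mem {k : Type*} [Field k] {M : ℕ} [NeZero M] (q : ℕ)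
    (b : Place k ↥(modularFunctionFieldFullC k M))
    {f Θ' : ↥(modularFunctionFieldFullC k M)} (hf : b.ord f = 1)
    (hΘ : (Θ' : LaurentSeries k) = -(thetaL (f : LaurentSeries k)) ^ (q - 1))
    (hmem : Θ' ∈ b.toValuationSubring) :
    ∃ π Θ : ↥(modularFunctionFieldFullC k M), b.ord π = 1 ∧
      thetaL (π : LaurentSeries k) ^ (q - 1) = (Θ : LaurentSeries k) ∧ 0 ≤ b.ord Θ := by
  refine ⟨f, -Θ', hf, ?_, ?_⟩
  · rw [show ((-Θ' : ↥(modularFunctionFieldFullC k M)) : LaurentSeries k) =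
      -(Θ' : LaurentSeries k) from rfl, hΘ, neg_neg]
  · by_cases h0 : Θ' = 0
    · rw [h0, neg_zero, Place.ord_zero]
    · rw [Fermat.Agent.S18.CoreOrd.ord_neg']
      exact (Fermat.Agent.S24.Ord.ord_nonneg_iff b h0).mpr
        ((Fermat.Agent.S24.Ord.mem_iff b _).mp hmem)

/-! ### `X₀` -/

variable {H : Subgroup (Kb ≃ₐ[ℚ] Kb)}
variable {q : ℕ} [hq : Fact q.Prime] {N0 : ℕ} [NeZero N0] {A : ValuationSubring Kb}
variable {hA : A.LiesOverPrime q} {hqN : ¬ q ∣ N0} [NeZero q]
variable [CharP (ResidueField ↥A) q] [IsAlgClosed (ResidueField ↥A)]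
variable {ζ : Kbˣ}

variable {R₁ R B : Type*} [CommRing R₁] [CommRing R] [CommRing B]
  [IsDomain R] [IsNoetherianRing R] [IsIntegrallyClosed R] [IsDomain B]
  [Algebra R (FK H (N0 * q * q))] [IsFractionRing R (FK H (N0 * q * q))]

variable (D : BranchCoreT.TDatum R₁ R B)
variable (Y : ThreeValX0.Hyp H N0 q ↥(modularFunctionFieldFullC (ResidueField ↥A) N0))
  (hV1 : Y.V₁ = V1K H hA hqN)
  (hred1 : ∀ (x : FK H (N0 * q)) (h : x ∈ Y.V₁) (h' : x ∈ V1K H hA hqN),
    Y.red₁ ⟨x, h⟩ = red1K H hA hqN ⟨x, h'⟩)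

include hV1 hred1 in
/-- **`hb0` of the count at the non-cuspidal place `b` below an ordinary point `n ∉ D.S` of the
thick component**: the hypothesis list of `ThickOrdX0.exists_h11_ord` WITHOUT `hΘ` (the count is
not used), with `Ob := b.toValuationSubring`, plus `hsep`, `hb`, `hg` (`ḡ` is a local parameter at
`b`). -/
theorem hb0_at {n : Ideal B} (hn : n.IsMaximal) (hS : n ∉ D.S)
    (hζ : IsPrimitiveRoot ζ q)
    (hϖ : algebraMap R (FK H (N0 * q * q)) D.ϖ = ((q : ℕ) : FK H (N0 * q * q)))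
    (hle : ∀ a : R, algebraMap R (FK H (N0 * q * q)) a ∈ Y.W₁₁)
    (e : B →+* ↥(modularFunctionFieldFullC (ResidueField ↥A) N0)) (he : Function.Injective e)
    (hr11 : ∀ a : R, e (D.r11 a) = Y.r₁₁ ⟨algebraMap R (FK H (N0 * q * q)) a, hle a⟩)
    (hsep : Algebra.IsSeparable (ResidueField ↥A)⟮jk (ResidueField ↥A) N0⟯
      ↥(modularFunctionFieldFullC (ResidueField ↥A) N0))
    (b : Place (ResidueField ↥A) ↥(modularFunctionFieldFullC (ResidueField ↥A) N0))
    (hb : 0 ≤ b.ord (jk (ResidueField ↥A) N0))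
    (hOb : ∀ x : B, x ∈ n ↔ e x = 0 ∨ (e x)⁻¹ ∉ b.toValuationSubring)
    (g : ↥(OgK H hA hqN)) (z : R)
    (hz : algebraMap R (FK H (N0 * q * q)) z =
      a2K H (q := q) (g : FK H N0) - a0K H (q := q) (g : FK H N0))
    (hg : b.ord (red0K H hA hqN g) = 1) :
    ∃ π Θ : ↥(modularFunctionFieldFullC (ResidueField ↥A) N0), b.ord π = 1 ∧
      thetaL (π : LaurentSeries (ResidueField ↥A)) ^ (q - 1) =
        (Θ : LaurentSeries (ResidueField ↥A)) ∧ 0 ≤ b.ord Θ := by
  haveI : PerfectField (ResidueField ↥A) := inferInstance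
  haveI := hn.isPrime
  have hk : 0 < q - 1 := Nat.sub_pos_of_lt hq.out.one_lt
  have hq0 := natCast_q_ne_zero (H := H) (q := q) (N0 := N0)
  have hϖ0 : D.ϖ ≠ 0 := fun h0 => hq0 (by rw [← hϖ, h0, map_zero])
  -- `θ ḡ ≠ 0`
  have hbp : b ∉ Fermat.Agent.S18.A.FibreSep.poles (isFF (ResidueField ↥A) N0) hsep := by
    rw [Fermat.Agent.S18.A.FibreSep.mem_poles_iff_ord_neg]
    exact not_lt.mpr hb
  have hθ := Fermat.Agent.S36.ThickCountX0.thetaL_ne_zero (q := q) hA N0 hsep b hbp hg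
  have hθ' : Fermat.Agent.S36.DiagTheta.theta
      ((red0K H hA hqN g : ↥(modularFunctionFieldFullC (ResidueField ↥A) N0)) :
        LaurentSeries (ResidueField ↥A)) ≠ 0 := by
    rw [Fermat.Agent.S36.DiffPow.theta_eq_thetaL]
    exact hθ
  have hvc := valuation_thick_unit Y hV1 hζ g hθ'
  -- the inputs of `B0ThickCount.rho_c0_mem`
  have hcentre : ∀ a : R, D.r11 a = 0 ↔
      algebraMap R (FK H (N0 * q * q)) a ∈ Y.W₁₁.nonunits := fun a => by
    rw [← Y.r₁₁_eq_zero_iff ⟨_, hle a⟩, ← hr11 a, map_eq_zero_iff e he]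
  have hqϖ : Y.W₁₁.valuation (algebraMap R (FK H (N0 * q * q)) D.ϖ) =
      Y.W₁₁.valuation (ϖ₁₁ H N0 q) ^ (q - 1) := by
    rw [hϖ]
    exact val_q Y
  have hpow : (a2K H (q := q) (g : FK H N0) - a0K H (q := q) (g : FK H N0)) ^ (q - 1) =
      algebraMap R (FK H (N0 * q * q)) D.ϖ * cK H (g : FK H N0) := by
    rw [hϖ, cK, mul_div_cancel₀ _ hq0]
  have h1 : (1 : R) ∉ D.x11 n := fun h1 =>
    (Ideal.ne_top_iff_one (D.x11 n)).mp (Ideal.comap_ne_top D.r11 hn.ne_top) h1
  have hz' : algebraMap R (FK H (N0 * q * q)) 1 *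
      (a2K H (q := q) (g : FK H N0) - a0K H (q := q) (g : FK H N0)) =
      algebraMap R (FK H (N0 * q * q)) z := by
    rw [map_one, one_mul, hz]
  have hcen : ∀ a : R, a ∈ D.x11 n ↔
      Y.r₁₁ ⟨algebraMap R (FK H (N0 * q * q)) a, hle a⟩ = 0 ∨
        (Y.r₁₁ ⟨algebraMap R (FK H (N0 * q * q)) a, hle a⟩)⁻¹ ∉ b.toValuationSubring :=
    fun a => by
      show D.r11 a ∈ n ↔ _
      rw [hOb, hr11 a]
  have hmem : ∀ a : R,
      Y.r₁₁ ⟨algebraMap R (FK H (N0 * q * q)) a, hle a⟩ ∈ b.toValuationSubring := fun a => by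
    rw [← hr11 a]
    exact mem_of_hOb e hn b.toValuationSubring hOb _
  have key := Fermat.Agent.S36.B0ThickCount.rho_c0_mem D hn hS hϖ0 Y.W₁₁ hle hcentre
    (val_ϖ₁₁_lt Y) (val_le_val_ϖ₁₁ Y) hk hqϖ hpow hvc h1 hz' Y.r₁₁ b.toValuationSubring hcen hmem
  have hval := r₁₁_thick_unit Y hV1 hred1 hζ g
  rw [Fermat.Agent.S36.DiffPow.theta_eq_thetaL] at hval
  exact hb0_of_mem q b hg hval key

include hV1 hred1 in
/-- **the literal `hb0` of `CountX0Final.count_final`**, from: every non-cuspidal place `b ∉ S` is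
the place below a maximal ideal `n ∉ D.S` of the thick chart `B` (dictionary `hOb`), and some local
parameter at `b` lifts to `g ∈ O_{g,K}` with `a₂ g - a₀ g` in the chart ring `R`. -/
theorem hb0_all (hζ : IsPrimitiveRoot ζ q)
    (hϖ : algebraMap R (FK H (N0 * q * q)) D.ϖ = ((q : ℕ) : FK H (N0 * q * q)))
    (hle : ∀ a : R, algebraMap R (FK H (N0 * q * q)) a ∈ Y.W₁₁)
    (e : B →+* ↥(modularFunctionFieldFullC (ResidueField ↥A) N0)) (he : Function.Injective e)
    (hr11 : ∀ a : R, e (D.r11 a) = Y.r₁₁ ⟨algebraMap R (FK H (N0 * q * q)) a, hle a⟩)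
    (hsep : Algebra.IsSeparable (ResidueField ↥A)⟮jk (ResidueField ↥A) N0⟯
      ↥(modularFunctionFieldFullC (ResidueField ↥A) N0))
    (S : Finset (Place (ResidueField ↥A) ↥(modularFunctionFieldFullC (ResidueField ↥A) N0)))
    (hpt : ∀ b : Place (ResidueField ↥A) ↥(modularFunctionFieldFullC (ResidueField ↥A) N0),
      b ∉ S → 0 ≤ b.ord (jk (ResidueField ↥A) N0) →
      ∃ n : Ideal B, n.IsMaximal ∧ n ∉ D.S ∧
        (∀ x : B, x ∈ n ↔ e x = 0 ∨ (e x)⁻¹ ∉ b.toValuationSubring) ∧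
        ∃ (g : ↥(OgK H hA hqN)) (z : R),
          algebraMap R (FK H (N0 * q * q)) z =
            a2K H (q := q) (g : FK H N0) - a0K H (q := q) (g : FK H N0) ∧
          b.ord (red0K H hA hqN g) = 1) :
    ∀ b : Place (ResidueField ↥A) ↥(modularFunctionFieldFullC (ResidueField ↥A) N0),
      b ∉ S → 0 ≤ b.ord (jk (ResidueField ↥A) N0) →
      ∃ π Θ : ↥(modularFunctionFieldFullC (ResidueField ↥A) N0), b.ord π = 1 ∧
        thetaL (π : LaurentSeries (ResidueField ↥A)) ^ (q - 1) =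
          (Θ : LaurentSeries (ResidueField ↥A)) ∧ 0 ≤ b.ord Θ := by
  intro b hbS hb
  obtain ⟨n, hn, hS, hOb, g, z, hz, hg⟩ := hpt b hbS hb
  exact hb0_at D Y hV1 hred1 hn hS hζ hϖ hle e he hr11 hsep b hb hOb g z hz hg

end Fermat.Agent.S36.CountThick
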