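/-
PROJECT V (S36), slice V-GaussUniqX0, part 3 (helper11): **the level-`M` export of (V8) with (U0)
DISCHARGED** = helper25's `S36/LiftK0Chart.exists_chart_lift / exists_chart_lift_inv` with the
hypothesis `hU0` replaced by its proof `S36/GaussUniqX0.le_of_gaussVert`.

`A` a valuation subring of `ℚ̄` over `q ∤ M`, `W A = A ∩ K0`, `F0 = FK0 A M` (`S36/ChartX0`
instances), `Og0`, `red0z` (`S36/GaussK0Comap`), `k = ResidueField A`, `j = j0K`, `J = jk k M`.
Remaining hypothesis: Deuring's `Hyp` (`S37/ReductionInputsX0.hyp_X0`).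

* `exists_chart_lift_U0` : every `b ∈ chart k J` is `red0z g` with `g ∈ chart (W A) j ∩ Og0`;
* `exists_chart_lift_inv_U0` : every `b ∈ chart k J⁻¹` is `red0z g` with `g ∈ chart (W A) j⁻¹ ∩ Og0`.
These are literally the hypothesis `hlift` of `S36/CompNormal.exists_mem_chart_red_eq` at level `M`.
-/
import Mathlib
import Fermat.Agent.S36.LiftK0Chart
import Fermat.Agent.S36.GaussUniqX0

set_option autoImplicit false
set_option linter.unusedSectionVars false
set_option linter.style.haveILetI false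
set_option synthInstance.maxHeartbeats 400000

noncomputable section

namespace Fermat.Agent.S36.LiftK0ChartU0

open ModularCurve AlgebraicCurve IntermediateField Polynomial IsLocalRing
open Fermat.Agent.S18.B.FkBasics (jk)
open Fermat.Agent.S18.C.SmallDVR
open Fermat.Agent.S36.ChartRing Fermat.Agent.S36.ChartX0 Fermat.Agent.S36.GaussK0Comap
open Fermat.Agent.S36.PowerBasisK0 (j0K)
open Fermat.Agent.S37.Gauss Fermat.Agent.S37.Deuring.Core

local notation "Kb" => AlgebraicClosure ℚ

variable {q : ℕ} [Fact q.Prime] {M : ℕ} [NeZero M] {A : ValuationSubring Kb}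
variable (hA : A.LiesOverPrime q) (hqM : ¬ q ∣ M) {gL gk : ℕ}

/-- **(V8) at level `M`, finite chart, (U0) discharged**: every element of the chart ring
`chart k J` of the reduction is the reduction of an element of `chart (W A) j ∩ Og0`. -/
theorem exists_chart_lift_U0 (H : Hyp (Datum.gaussDatum M A hA hqM) gL gk) :
    ∀ b ∈ (chart (ResidueField ↥A) (jk (ResidueField ↥A) M) :
        Set ↥(modularFunctionFieldFullC (ResidueField ↥A) M)),
      ∃ g : FK0 A M, g ∈ chart (F := FK0 A M) ↥(W A) (j0K (A.inertiaSubgroupIn ℚ) M) ∧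
        ∃ hg : g ∈ Og0 M hA hqM, red0z M hA hqM ⟨g, hg⟩ = b :=
  Fermat.Agent.S36.LiftK0Chart.exists_chart_lift hA hqM H
    (Fermat.Agent.S36.GaussUniqX0.le_of_gaussVert M hA hqM)

/-- **(V8) at level `M`, chart at infinity, (U0) discharged**: every element of the chart ring
`chart k J⁻¹` of the reduction is the reduction of an element of `chart (W A) j⁻¹ ∩ Og0`. -/
theorem exists_chart_lift_inv_U0 (H : Hyp (Datum.gaussDatum M A hA hqM) gL gk) :
    ∀ b ∈ (chart (ResidueField ↥A) (jk (ResidueField ↥A) M)⁻¹ :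
        Set ↥(modularFunctionFieldFullC (ResidueField ↥A) M)),
      ∃ g : FK0 A M, g ∈ chart (F := FK0 A M) ↥(W A) (j0K (A.inertiaSubgroupIn ℚ) M)⁻¹ ∧
        ∃ hg : g ∈ Og0 M hA hqM, red0z M hA hqM ⟨g, hg⟩ = b :=
  Fermat.Agent.S36.LiftK0Chart.exists_chart_lift_inv hA hqM H
    (Fermat.Agent.S36.GaussUniqX0.le_of_gaussVert M hA hqM)

end Fermat.Agent.S36.LiftK0ChartU0
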