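/-
PROJECT V (S36), slice V-CountThickFinal (helper17), chain (V13): **`hb0` of the count at EVERY
ordinary place of the fin chart, one call**, in the hypothesis language of
`S36/ThickOrdFinal.exists_h11_ordinary` (helper13) WITHOUT `hcount` (the count is not used).

`CountThick.hb0_at` with its two external inputs discharged exactly as in `ThickOrdFinal`:

* (L) a local parameter `π̄ ∈ chart k J` at `b` (`SpecDictLocal.exists_ord_eq_one`) and its lift
  `g ∈ chart (W A) j ∩ Og0`, `red0z g = π̄` (`LiftK0ChartU0.exists_chart_lift_U0`);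
* (M) `a₀ g, a₂ g ∈ chart (W A) x₂` (`ChartsX0.a_mem_chartX0_x2`), so `z = a₂ g - a₀ g` lies in
  any presentation `R` of the chart ring (`hR`).

* `hb0_ordinary` : the hypothesis list of `ThickOrdFinal.exists_h11_ordinary` MINUS `hcount`
  ==> the instance of `hb0` at `b`  (`hb : 0 ≤ ord_b j̄`, the spelling of `count_final`);
* `hb0_final` : the LITERAL `hb0` of `CountX0Final.count_final(_aux)` / `CountHid.count_of_desc` /
  `CountWire.*` from `hpt` : every non-cuspidal `b ∉ S` is the place below a maximal ideal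
  `n ∉ D.S` of the thick chart `B` (dictionary `hOb`).
-/
import Mathlib
import Fermat.Agent.S36.CountThick
import Fermat.Agent.S36.LiftK0ChartU0
import Fermat.Agent.S36.ChartsX0

set_option autoImplicit false
set_option linter.unusedSectionVars false
set_option linter.style.haveILetI false
set_option linter.unusedVariables false
set_option synthInstance.maxHeartbeats 400000
set_option maxHeartbeats 1000000

noncomputable section

namespace Fermat.Agent.S36.CountThickFinal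

open ModularCurve AlgebraicCurve IntermediateField IsLocalRing
open Fermat.Agent.S18.B.FkBasics (jk isFF)
open Fermat.Agent.S18.A.FibreSep
open Fermat.Agent.S18.C.SmallDVR
open Fermat.Agent.S36.ChartRing Fermat.Agent.S36.ChartX0 Fermat.Agent.S36.GaussK0Comap
open Fermat.Agent.S36.PowerBasisK0 Fermat.Agent.S36.ThetaK0 Fermat.Agent.S36.LevelQK0
open Fermat.Agent.S36.MiddleCuspK0
open Fermat.Agent.S36.ThetaL
open Fermat.Agent.S37.Gauss Fermat.Agent.S37.Deuring.Core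

local notation "Kb" => AlgebraicClosure ℚ

variable {q : ℕ} [hq : Fact q.Prime] {N0 : ℕ} [NeZero N0] {A : ValuationSubring Kb}
variable {hA : A.LiesOverPrime q} {hqN : ¬ q ∣ N0} [NeZero q] {gL gk : ℕ}

/-- helper10's `O₀`-algebra structure, on the type written as `PowerBasisK0.FK` -/
local instance algWFK'' (N : ℕ) : Algebra ↥(W A) (FK (A.inertiaSubgroupIn ℚ) N) := algebraW A N

variable {R₁ R B : Type*} [CommRing R₁] [CommRing R] [CommRing B]
  [IsDomain R] [IsNoetherianRing R] [IsIntegrallyClosed R] [IsDomain B]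
  [Algebra R (FK (A.inertiaSubgroupIn ℚ) (N0 * q * q))]
  [IsFractionRing R (FK (A.inertiaSubgroupIn ℚ) (N0 * q * q))]

/-- **`hb0` of the count at an ordinary place `b` of the fin chart, one call**: the hypothesis list
of `ThickOrdFinal.exists_h11_ordinary` WITHOUT `hcount`. -/
theorem hb0_ordinary (Hd : Hyp (Datum.gaussDatum N0 A hA hqN) gL gk)
    [IsAlgClosed (ResidueField ↥A)]
    (hsep : Algebra.IsSeparable (ResidueField ↥A)⟮jk (ResidueField ↥A) N0⟯
      ↥(modularFunctionFieldFullC (ResidueField ↥A) N0))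
    (hR : ∀ x ∈ chartX0 A (N0 * q * q) (Fermat.Agent.S36.ChartsX0.x2 (A.inertiaSubgroupIn ℚ) N0 q),
      ∃ a : R, algebraMap R (FK (A.inertiaSubgroupIn ℚ) (N0 * q * q)) a = x)
    (D : BranchCoreT.TDatum R₁ R B)
    (Y : ThreeValX0.Hyp (A.inertiaSubgroupIn ℚ) N0 q
      ↥(modularFunctionFieldFullC (ResidueField ↥A) N0))
    (hV1 : Y.V₁ = V1K (A.inertiaSubgroupIn ℚ) hA hqN)
    (hred1 : ∀ (x : FK (A.inertiaSubgroupIn ℚ) (N0 * q)) (h : x ∈ Y.V₁)
      (h' : x ∈ V1K (A.inertiaSubgroupIn ℚ) hA hqN),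
      Y.red₁ ⟨x, h⟩ = red1K (A.inertiaSubgroupIn ℚ) hA hqN ⟨x, h'⟩)
    {n : Ideal B} (hn : n.IsMaximal) (hS : n ∉ D.S)
    {ζ : Kbˣ} (hζ : IsPrimitiveRoot ζ q)
    (hϖ : algebraMap R (FK (A.inertiaSubgroupIn ℚ) (N0 * q * q)) D.ϖ =
      ((q : ℕ) : FK (A.inertiaSubgroupIn ℚ) (N0 * q * q)))
    (hle : ∀ a : R, algebraMap R (FK (A.inertiaSubgroupIn ℚ) (N0 * q * q)) a ∈ Y.W₁₁)
    (e : B →+* ↥(modularFunctionFieldFullC (ResidueField ↥A) N0)) (he : Function.Injective e)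
    (hr11 : ∀ a : R, e (D.r11 a) =
      Y.r₁₁ ⟨algebraMap R (FK (A.inertiaSubgroupIn ℚ) (N0 * q * q)) a, hle a⟩)
    (b : Place (ResidueField ↥A) ↥(modularFunctionFieldFullC (ResidueField ↥A) N0))
    (hb : 0 ≤ b.ord (jk (ResidueField ↥A) N0))
    (hOb : ∀ x : B, x ∈ n ↔ e x = 0 ∨ (e x)⁻¹ ∉ b.toValuationSubring) :
    ∃ π Θ : ↥(modularFunctionFieldFullC (ResidueField ↥A) N0), b.ord π = 1 ∧
      thetaL (π : LaurentSeries (ResidueField ↥A)) ^ (q - 1) =
        (Θ : LaurentSeries (ResidueField ↥A)) ∧ 0 ≤ b.ord Θ := by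
  haveI : CharP (ResidueField ↥A) q := Fermat.Agent.S34.GaussPairX0.charP_res hA
  have hx := isFF (ResidueField ↥A) N0
  -- (L) a local parameter in the chart and its lift
  have hJb : jk (ResidueField ↥A) N0 ∈ b.toValuationSubring :=
    Fermat.Agent.S36.SpecDictLocal.mem_of_ord_nonneg b hb
  obtain ⟨π, hπ⟩ := Fermat.Agent.S36.SpecDictLocal.exists_ord_eq_one hx hsep b hJb
  obtain ⟨g, hgchart, hgO, hgred⟩ :=
    Fermat.Agent.S36.LiftK0ChartU0.exists_chart_lift_U0 hA hqN Hd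
      (π : ↥(modularFunctionFieldFullC (ResidueField ↥A) N0)) π.2
  -- (M) `a₂ g - a₀ g` lies in the chart
  obtain ⟨h0, -, h2⟩ := Fermat.Agent.S36.ChartsX0.a_mem_chartX0_x2 (q := q) A N0 hgchart
  obtain ⟨z, hz⟩ := hR _ (sub_mem h2 h0)
  have hred : red0K (A.inertiaSubgroupIn ℚ) hA hqN ⟨g, hgO⟩ =
      (π : ↥(modularFunctionFieldFullC (ResidueField ↥A) N0)) := hgred
  refine Fermat.Agent.S36.CountThick.hb0_at D Y hV1 hred1 hn hS hζ hϖ hle e he hr11 hsep b hb hOb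
    ⟨g, hgO⟩ z ?_ ?_
  · rw [hz]
    rfl
  · rw [hred]
    exact hπ

/-- **the LITERAL `hb0` of `CountX0Final.count_final`** (`CountHid.count_of_desc`, `CountWire.*`)
from: every non-cuspidal place `b ∉ S` is the place below a maximal ideal `n ∉ D.S` of the thick
chart `B` (dictionary `hOb`). -/
theorem hb0_final (Hd : Hyp (Datum.gaussDatum N0 A hA hqN) gL gk)
    [IsAlgClosed (ResidueField ↥A)]
    (hsep : Algebra.IsSeparable (ResidueField ↥A)⟮jk (ResidueField ↥A) N0⟯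
      ↥(modularFunctionFieldFullC (ResidueField ↥A) N0))
    (hR : ∀ x ∈ chartX0 A (N0 * q * q) (Fermat.Agent.S36.ChartsX0.x2 (A.inertiaSubgroupIn ℚ) N0 q),
      ∃ a : R, algebraMap R (FK (A.inertiaSubgroupIn ℚ) (N0 * q * q)) a = x)
    (D : BranchCoreT.TDatum R₁ R B)
    (Y : ThreeValX0.Hyp (A.inertiaSubgroupIn ℚ) N0 q
      ↥(modularFunctionFieldFullC (ResidueField ↥A) N0))
    (hV1 : Y.V₁ = V1K (A.inertiaSubgroupIn ℚ) hA hqN)
    (hred1 : ∀ (x : FK (A.inertiaSubgroupIn ℚ) (N0 * q)) (h : x ∈ Y.V₁)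
      (h' : x ∈ V1K (A.inertiaSubgroupIn ℚ) hA hqN),
      Y.red₁ ⟨x, h⟩ = red1K (A.inertiaSubgroupIn ℚ) hA hqN ⟨x, h'⟩)
    {ζ : Kbˣ} (hζ : IsPrimitiveRoot ζ q)
    (hϖ : algebraMap R (FK (A.inertiaSubgroupIn ℚ) (N0 * q * q)) D.ϖ =
      ((q : ℕ) : FK (A.inertiaSubgroupIn ℚ) (N0 * q * q)))
    (hle : ∀ a : R, algebraMap R (FK (A.inertiaSubgroupIn ℚ) (N0 * q * q)) a ∈ Y.W₁₁)
    (e : B →+* ↥(modularFunctionFieldFullC (ResidueField ↥A) N0)) (he : Function.Injective e)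
    (hr11 : ∀ a : R, e (D.r11 a) =
      Y.r₁₁ ⟨algebraMap R (FK (A.inertiaSubgroupIn ℚ) (N0 * q * q)) a, hle a⟩)
    (S : Finset (Place (ResidueField ↥A) ↥(modularFunctionFieldFullC (ResidueField ↥A) N0)))
    (hpt : ∀ b : Place (ResidueField ↥A) ↥(modularFunctionFieldFullC (ResidueField ↥A) N0),
      b ∉ S → 0 ≤ b.ord (jk (ResidueField ↥A) N0) →
      ∃ n : Ideal B, n.IsMaximal ∧ n ∉ D.S ∧
        ∀ x : B, x ∈ n ↔ e x = 0 ∨ (e x)⁻¹ ∉ b.toValuationSubring) :
    ∀ b : Place (ResidueField ↥A) ↥(modularFunctionFieldFullC (ResidueField ↥A) N0),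
      b ∉ S → 0 ≤ b.ord (jk (ResidueField ↥A) N0) →
      ∃ π Θ : ↥(modularFunctionFieldFullC (ResidueField ↥A) N0), b.ord π = 1 ∧
        thetaL (π : LaurentSeries (ResidueField ↥A)) ^ (q - 1) =
          (Θ : LaurentSeries (ResidueField ↥A)) ∧ 0 ≤ b.ord Θ := by
  intro b hbS hb
  obtain ⟨n, hn, hS, hOb⟩ := hpt b hbS hb
  exact hb0_ordinary Hd hsep hR D Y hV1 hred1 hn hS hζ hϖ hle e he hr11 b hb hOb

end Fermat.Agent.S36.CountThickFinal
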