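/-
PROJECT V (S36), slice V-CountClosed (helper17), chain (V13): **THE COUNT AT `X₀` WITH `hb0`
DISCHARGED**, for a VARIABLE fin-chart `TDatum` `D` on `(R, chart k Jc)`, `hJc : Jc = J̄ = jk k N0`
(so `Jc := Y.J` or `Jc := jk k N0`), whose node set is `SpecDictOne.nodeSet S` (`S` the finite set of
node places), in the hypothesis language of
`S36/ThickOrdFinal.exists_h11_ordinary` (the 5-tuple `hϖ hle e he hr11`, `hR`, `Y` + Link).

* `hpt_nodeSet` : the hypothesis `hpt` of `CountThickFinal.hb0_final` for `B = chart k J̄`,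
  `D.S = nodeSet S`, `e = coercion`: the place `b ∉ S`, finite at `J̄`, is the place below the maximal
  ideal `pointOf b ∉ D.S` (`SpecDictOne.pointOf_isMaximal`, `pointOf_mem_nodeSet_iff`,
  `SpecDictLocal.mem_pointOf_iff_inv`);
* `hb0_closed` : the LITERAL `hb0` of `CountX0Final.count_final` / `CountHid.count_of_desc` /
  `CountWire.*` (Deuring's `Hyp` := `CoreZX0OfGeneric.HX0`, `hsep` := `isSeparable_jk`);
* `count_closed` : `CountHid.count_of_desc` WITHOUT `hb0`: for every non-cuspidal place `b` of `κ`,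
  every local parameter `π` at `b` and `Θ = (θ π)^(q-1) ∈ κ`: `ord_b Θ = -2` if `b ∈ S`,
  `ord_b Θ = 0` if `b ∉ S`.
-/
import Mathlib
import Fermat.Agent.S36.CountThickFinal
import Fermat.Agent.S36.CountHid
import Fermat.Agent.S36.SpecDictOne
import Fermat.Agent.S36.SpecDictLocal

set_option autoImplicit false
set_option linter.unusedSectionVars false
set_option linter.style.haveILetI false
set_option linter.unusedVariables false
set_option synthInstance.maxHeartbeats 400000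
set_option maxHeartbeats 1600000

noncomputable section

namespace Fermat.Agent.S36.CountClosed

open ModularCurve AlgebraicCurve IntermediateField IsLocalRing
open Fermat.Agent.S18.B.FkBasics (jk isFF)
open Fermat.Agent.S18.C.SmallDVR
open Fermat.Agent.S36.ChartRing Fermat.Agent.S36.ChartX0 Fermat.Agent.S36.GaussK0Comap
open Fermat.Agent.S36.PowerBasisK0 Fermat.Agent.S36.ThetaK0 Fermat.Agent.S36.LevelQK0
open Fermat.Agent.S36.MiddleCuspK0
open Fermat.Agent.S36.ThetaL
open Fermat.Agent.S36.SpecDictOne (pointOf nodeSet)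
open Fermat.Agent.S34.Euler.FrobSide (P0)
open Fermat.Agent.S36.NodesDesc (Desc)

local notation "Kb" => AlgebraicClosure ℚ

attribute [local instance 2000] Fermat.Agent.S34.EulerX0.algResFk

/-- shortcut instance (a proposition) -/
local instance instACkClosed (A : ValuationSubring Kb) : IsAlgClosed (ResidueField ↥A) :=
  Fermat.Agent.S18.ResidueBasics.isAlgClosed_residueField A

variable {q : ℕ} [hq : Fact q.Prime] {N0 : ℕ} [NeZero N0] {A : ValuationSubring Kb}
variable {hA : A.LiesOverPrime q} {hqN : ¬ q ∣ N0} [NeZero q]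

/-- helper10's `O₀`-algebra structure, on the type written as `PowerBasisK0.FK` -/
local instance algWFK''' (N : ℕ) : Algebra ↥(W A) (FK (A.inertiaSubgroupIn ℚ) N) := algebraW A N

variable {R₁ R : Type*} [CommRing R₁] [CommRing R]
  [IsDomain R] [IsNoetherianRing R] [IsIntegrallyClosed R]
  [Algebra R (FK (A.inertiaSubgroupIn ℚ) (N0 * q * q))]
  [IsFractionRing R (FK (A.inertiaSubgroupIn ℚ) (N0 * q * q))]

/-- **`hpt` of `CountThickFinal.hb0_final`** for the chart `B = chart k J̄` with node set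
`D.S = nodeSet S`: a place `b ∉ S` finite at `J̄` lies below the maximal ideal `pointOf b ∉ D.S`. -/
theorem hpt_nodeSet {Jc : ↥(modularFunctionFieldFullC (ResidueField ↥A) N0)}
    (hJc : Jc = jk (ResidueField ↥A) N0)
    (D : BranchCoreT.TDatum R₁ R
      ↥(chart (ResidueField ↥A) Jc))
    (e : ↥(chart (ResidueField ↥A) Jc) →+*
      ↥(modularFunctionFieldFullC (ResidueField ↥A) N0))
    (he' : ∀ x : ↥(chart (ResidueField ↥A) Jc),
      e x = (x : ↥(modularFunctionFieldFullC (ResidueField ↥A) N0)))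
    (S : Finset (Place (ResidueField ↥A) ↥(modularFunctionFieldFullC (ResidueField ↥A) N0)))
    (hDS : D.S = nodeSet (ResidueField ↥A) N0 (x := Jc)
      (↑S : Set (Place (ResidueField ↥A) ↥(modularFunctionFieldFullC (ResidueField ↥A) N0)))) :
    ∀ b : Place (ResidueField ↥A) ↥(modularFunctionFieldFullC (ResidueField ↥A) N0),
      b ∉ S → 0 ≤ b.ord (jk (ResidueField ↥A) N0) →
      ∃ n : Ideal ↥(chart (ResidueField ↥A) Jc), n.IsMaximal ∧ n ∉ D.S ∧
        ∀ x : ↥(chart (ResidueField ↥A) Jc),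
          x ∈ n ↔ e x = 0 ∨ (e x)⁻¹ ∉ b.toValuationSubring := by
  subst hJc
  intro b hbS hb
  have hx := isFF (ResidueField ↥A) N0
  have hsep := Fermat.Agent.S18.B.SeparableFk.isSeparable_jk (ResidueField ↥A) N0
  have hv : jk (ResidueField ↥A) N0 ∈ b.toValuationSubring :=
    Fermat.Agent.S36.SpecDictLocal.mem_of_ord_nonneg b hb
  refine ⟨pointOf b hv, Fermat.Agent.S36.SpecDictOne.pointOf_isMaximal hx hsep b hv, ?_, ?_⟩
  · rw [hDS, Fermat.Agent.S36.SpecDictOne.pointOf_mem_nodeSet_iff (ResidueField ↥A) N0 hx hsep]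
    exact fun h => hbS (Finset.mem_coe.mp h)
  · intro x
    rw [he' x]
    exact Fermat.Agent.S36.SpecDictLocal.mem_pointOf_iff_inv b hv x

/-- **the LITERAL `hb0` of the count, closed**: for a fin-chart `TDatum` on `(R, chart k J̄)` with
node set `nodeSet S` and the `ThickOrdFinal` link inputs. -/
theorem hb0_closed {Jc : ↥(modularFunctionFieldFullC (ResidueField ↥A) N0)}
    (hJc : Jc = jk (ResidueField ↥A) N0)
    (hR : ∀ x ∈ chartX0 A (N0 * q * q) (Fermat.Agent.S36.ChartsX0.x2 (A.inertiaSubgroupIn ℚ) N0 q),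
      ∃ a : R, algebraMap R (FK (A.inertiaSubgroupIn ℚ) (N0 * q * q)) a = x)
    (D : BranchCoreT.TDatum R₁ R
      ↥(chart (ResidueField ↥A) Jc))
    (Y : ThreeValX0.Hyp (A.inertiaSubgroupIn ℚ) N0 q
      ↥(modularFunctionFieldFullC (ResidueField ↥A) N0))
    (hV1 : Y.V₁ = V1K (A.inertiaSubgroupIn ℚ) hA hqN)
    (hred1 : ∀ (x : FK (A.inertiaSubgroupIn ℚ) (N0 * q)) (h : x ∈ Y.V₁)
      (h' : x ∈ V1K (A.inertiaSubgroupIn ℚ) hA hqN),
      Y.red₁ ⟨x, h⟩ = red1K (A.inertiaSubgroupIn ℚ) hA hqN ⟨x, h'⟩)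
    {ζ : Kbˣ} (hζ : IsPrimitiveRoot ζ q)
    (hϖ : algebraMap R (FK (A.inertiaSubgroupIn ℚ) (N0 * q * q)) D.ϖ =
      ((q : ℕ) : FK (A.inertiaSubgroupIn ℚ) (N0 * q * q)))
    (hle : ∀ a : R, algebraMap R (FK (A.inertiaSubgroupIn ℚ) (N0 * q * q)) a ∈ Y.W₁₁)
    (e : ↥(chart (ResidueField ↥A) Jc) →+*
      ↥(modularFunctionFieldFullC (ResidueField ↥A) N0))
    (he' : ∀ x : ↥(chart (ResidueField ↥A) Jc),
      e x = (x : ↥(modularFunctionFieldFullC (ResidueField ↥A) N0)))
    (hr11 : ∀ a : R, e (D.r11 a) =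
      Y.r₁₁ ⟨algebraMap R (FK (A.inertiaSubgroupIn ℚ) (N0 * q * q)) a, hle a⟩)
    (S : Finset (Place (ResidueField ↥A) ↥(modularFunctionFieldFullC (ResidueField ↥A) N0)))
    (hDS : D.S = nodeSet (ResidueField ↥A) N0 (x := Jc)
      (↑S : Set (Place (ResidueField ↥A) ↥(modularFunctionFieldFullC (ResidueField ↥A) N0)))) :
    ∀ b : Place (ResidueField ↥A) ↥(modularFunctionFieldFullC (ResidueField ↥A) N0),
      b ∉ S → 0 ≤ b.ord (jk (ResidueField ↥A) N0) →
      ∃ π Θ : ↥(modularFunctionFieldFullC (ResidueField ↥A) N0), b.ord π = 1 ∧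
        thetaL (π : LaurentSeries (ResidueField ↥A)) ^ (q - 1) =
          (Θ : LaurentSeries (ResidueField ↥A)) ∧ 0 ≤ b.ord Θ := by
  haveI : CharP (ResidueField ↥A) q := Fermat.Agent.S34.GaussPairX0.charP_res hA
  obtain ⟨g, gM, HL, HM⟩ := Fermat.Agent.S34.EulerClosedX0.exists_genera A (N0 * q) N0
  have Hd := Fermat.Agent.S34.CoreZX0OfGeneric.HX0 hA hqN HM
  have hsep := Fermat.Agent.S18.B.SeparableFk.isSeparable_jk (ResidueField ↥A) N0
  have he : Function.Injective e := fun x y hxy => by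
    rw [he' x, he' y] at hxy
    exact Subtype.ext hxy
  exact Fermat.Agent.S36.CountThickFinal.hb0_final Hd hsep hR D Y hV1 hred1 hζ hϖ hle e he hr11 S
    (hpt_nodeSet hJc D e he' S hDS)

/-- **THE COUNT AT `X₀`, CLOSED** (`CountHid.count_of_desc` without `hb0`): `S` the node set
(finite, off the cusps, `Desc`), `r ≡ 11 mod 12` a prime dividing `N0`, `D` a fin-chart `TDatum`
with node set `nodeSet S` and the `ThickOrdFinal` link inputs.  For every non-cuspidal place `b`,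
every local parameter `π` at `b` and `Θ = (θ π)^(q-1)`: `ord_b Θ = -2` on `S`, `= 0` off `S`. -/
theorem count_closed [CharP (ResidueField ↥A) q]
    {r : ℕ} (hr : r.Prime) (hr12 : r % 12 = 11) (hrM : r ∣ N0)
    {Jc : ↥(modularFunctionFieldFullC (ResidueField ↥A) N0)}
    (hJc : Jc = jk (ResidueField ↥A) N0)
    (hR : ∀ x ∈ chartX0 A (N0 * q * q) (Fermat.Agent.S36.ChartsX0.x2 (A.inertiaSubgroupIn ℚ) N0 q),
      ∃ a : R, algebraMap R (FK (A.inertiaSubgroupIn ℚ) (N0 * q * q)) a = x)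
    (D : BranchCoreT.TDatum R₁ R
      ↥(chart (ResidueField ↥A) Jc))
    (Y : ThreeValX0.Hyp (A.inertiaSubgroupIn ℚ) N0 q
      ↥(modularFunctionFieldFullC (ResidueField ↥A) N0))
    (hV1 : Y.V₁ = V1K (A.inertiaSubgroupIn ℚ) hA hqN)
    (hred1 : ∀ (x : FK (A.inertiaSubgroupIn ℚ) (N0 * q)) (h : x ∈ Y.V₁)
      (h' : x ∈ V1K (A.inertiaSubgroupIn ℚ) hA hqN),
      Y.red₁ ⟨x, h⟩ = red1K (A.inertiaSubgroupIn ℚ) hA hqN ⟨x, h'⟩)
    {ζ : Kbˣ} (hζ : IsPrimitiveRoot ζ q)
    (hϖ : algebraMap R (FK (A.inertiaSubgroupIn ℚ) (N0 * q * q)) D.ϖ =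
      ((q : ℕ) : FK (A.inertiaSubgroupIn ℚ) (N0 * q * q)))
    (hle : ∀ a : R, algebraMap R (FK (A.inertiaSubgroupIn ℚ) (N0 * q * q)) a ∈ Y.W₁₁)
    (e : ↥(chart (ResidueField ↥A) Jc) →+*
      ↥(modularFunctionFieldFullC (ResidueField ↥A) N0))
    (he' : ∀ x : ↥(chart (ResidueField ↥A) Jc),
      e x = (x : ↥(modularFunctionFieldFullC (ResidueField ↥A) N0)))
    (hr11 : ∀ a : R, e (D.r11 a) =
      Y.r₁₁ ⟨algebraMap R (FK (A.inertiaSubgroupIn ℚ) (N0 * q * q)) a, hle a⟩)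
    {S : Finset (Place (ResidueField ↥A) ↥(modularFunctionFieldFullC (ResidueField ↥A) N0))}
    (hS : ∀ b ∈ S, b ∉ P0 (ResidueField ↥A) N0) (hd : Desc hA hqN S)
    (hDS : D.S = nodeSet (ResidueField ↥A) N0 (x := Jc)
      (↑S : Set (Place (ResidueField ↥A) ↥(modularFunctionFieldFullC (ResidueField ↥A) N0))))
    (b : Place (ResidueField ↥A) ↥(modularFunctionFieldFullC (ResidueField ↥A) N0))
    (hb : 0 ≤ b.ord (jk (ResidueField ↥A) N0))
    {π Θ : ↥(modularFunctionFieldFullC (ResidueField ↥A) N0)} (hπ : b.ord π = 1)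
    (hΘ : thetaL (π : LaurentSeries (ResidueField ↥A)) ^ (q - 1) =
      (Θ : LaurentSeries (ResidueField ↥A))) :
    (b ∈ S → b.ord Θ = -2) ∧ (b ∉ S → b.ord Θ = 0) := by
  haveI : PerfectField (ResidueField ↥A) := inferInstance
  exact Fermat.Agent.S36.CountHid.count_of_desc hA hqN hr hr12 hrM hS hd
    (hb0_closed hJc hR D Y hV1 hred1 hζ hϖ hle e he' hr11 S hDS) b hb hπ hΘ

end Fermat.Agent.S36.CountClosed
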