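/-
PROJECT V (S36), slice V-CountFinX0 (helper17), chain (V13): **THE COUNT AT `X₀` ON helper1's
`finTDatumOf`** (`S36/BranchX0G`), all link inputs discharged.

`O = W A`, `Y : ThreeValX0.Hyp I N0 q κ` + Link (`hV1`, `hred1`), `hB : CompNormalX0.Base Y (W A) π`,
`P : ChartPair hB x₁ x₂ Jc` with `hJc : Jc = jk k N0` (`P := (finPair hB).cast hYJ`, or `finPair hB`
with `hJc := hYJ`), `S` a finite set of places off the cusps with `NodesDesc.Desc`,
`D := P.finTDatumOf hφB hφpow (nodeSet S) node S_fr fr_fr hrad`.  The link inputs of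
`CountClosed.count_closed` are all of `rfl` type for this `D`:
`hϖ` (`ϖ = q`), `hle := P.mem_W₁₁`, `e := (chart k Jc).toSubring.subtype`, `hr11 := rfl`,
`hR` (`ChartsX0Leaf.x2_eq`), `hDS := rfl`.

* `hb0_finTDatumOf` : the LITERAL `hb0` of `CountX0Final.count_final` / `CountHid.count_of_desc` /
  `CountWire.*`;
* `count_finTDatumOf` : for every non-cuspidal place `b`, every local parameter `π'` at `b` and
  `Θ = (θ π')^(q-1) ∈ κ`: `ord_b Θ = -2` if `b ∈ S`, `ord_b Θ = 0` if `b ∉ S`.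

The only remaining hypotheses are those of `finTDatumOf` itself (`hφB hφpow node S_fr fr_fr hrad`).
-/
import Mathlib
import Fermat.Agent.S36.CountClosed
import Fermat.Agent.S36.BranchX0G
import Fermat.Agent.S36.ChartsX0Leaf

set_option autoImplicit false
set_option linter.unusedSectionVars false
set_option linter.style.haveILetI false
set_option linter.unusedVariables false
set_option synthInstance.maxHeartbeats 400000
set_option maxHeartbeats 1600000

noncomputable section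

namespace Fermat.Agent.S36.CountFinX0

open ModularCurve AlgebraicCurve IntermediateField IsLocalRing
open Fermat.Agent.S18.B.FkBasics (jk isFF)
open Fermat.Agent.S18.C.SmallDVR
open Fermat.Agent.S36.ChartRing Fermat.Agent.S36.ChartX0 Fermat.Agent.S36.GaussK0Comap
open Fermat.Agent.S36.PowerBasisK0 Fermat.Agent.S36.ThetaK0 Fermat.Agent.S36.LevelQK0
open Fermat.Agent.S36.MiddleCuspK0
open Fermat.Agent.S36.ThetaL
open Fermat.Agent.S36.SpecDictOne (pointOf nodeSet)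
open Fermat.Agent.S34.Euler.FrobSide (P0)
open Fermat.Agent.S36.NodesDesc (Desc)
open Fermat.Agent.S36.BranchX0 Fermat.Agent.S36.BranchX0.ChartPair

local notation "Kb" => AlgebraicClosure ℚ

attribute [local instance 2000] Fermat.Agent.S34.EulerX0.algResFk

/-- shortcut instance (a proposition) -/
local instance instACkFin (A : ValuationSubring Kb) : IsAlgClosed (ResidueField ↥A) :=
  Fermat.Agent.S18.ResidueBasics.isAlgClosed_residueField A

variable {q : ℕ} [hq : Fact q.Prime] {N0 : ℕ} [NeZero N0] {A : ValuationSubring Kb}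
variable {hA : A.LiesOverPrime q} {hqN : ¬ q ∣ N0} [NeZero q]

/-- helper10's `O₀`-algebra structure, on the type written as `PowerBasisK0.FK` -/
local instance algWFKfin (N : ℕ) : Algebra ↥(W A) (FK (A.inertiaSubgroupIn ℚ) N) := algebraW A N

variable {Y : ThreeValX0.Hyp (A.inertiaSubgroupIn ℚ) N0 q
    ↥(modularFunctionFieldFullC (ResidueField ↥A) N0)}
  (hV1 : Y.V₁ = V1K (A.inertiaSubgroupIn ℚ) hA hqN)
  (hred1 : ∀ (x : FK (A.inertiaSubgroupIn ℚ) (N0 * q)) (h : x ∈ Y.V₁)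
    (h' : x ∈ V1K (A.inertiaSubgroupIn ℚ) hA hqN),
    Y.red₁ ⟨x, h⟩ = red1K (A.inertiaSubgroupIn ℚ) hA hqN ⟨x, h'⟩)
  {π : ↥(W A) →+* ResidueField ↥A} {hB : CompNormalX0.Base Y ↥(W A) π}
  {Jc : ↥(modularFunctionFieldFullC (ResidueField ↥A) N0)}
  (P : ChartPair hB (x1 (A.inertiaSubgroupIn ℚ) N0 q)
    (CompNormalX0.x2 (A.inertiaSubgroupIn ℚ) N0 q) Jc)
  (hJc : Jc = jk (ResidueField ↥A) N0)

include hV1 hred1 hJc in
/-- **the LITERAL `hb0` of the count on helper1's `finTDatumOf`** -/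
theorem hb0_finTDatumOf {ζ : Kbˣ} (hζ : IsPrimitiveRoot ζ q)
    (hφB : ∀ z ∈ chart (ResidueField ↥A) Jc, Y.φ z ∈ chart (ResidueField ↥A) Jc)
    (hφpow : ∀ z ∈ chart (ResidueField ↥A) Jc, ∃ c ∈ chart (ResidueField ↥A) Jc, Y.φ c = z ^ q)
    (S : Finset (Place (ResidueField ↥A) ↥(modularFunctionFieldFullC (ResidueField ↥A) N0)))
    (node : ∀ n' n : Ideal ↥(chart (ResidueField ↥A) Jc), n'.IsMaximal → n.IsMaximal →
      (n'.comap P.red1 = n.comap P.red2 ↔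
        n ∈ nodeSet (ResidueField ↥A) N0 (x := Jc) (↑S : Set _) ∧ n' = n.comap (φB hφB)))
    (S_fr : ∀ n ∈ nodeSet (ResidueField ↥A) N0 (x := Jc) (↑S : Set _),
      n.comap (φB hφB) ∈ nodeSet (ResidueField ↥A) N0 (x := Jc) (↑S : Set _))
    (fr_fr : ∀ n ∈ nodeSet (ResidueField ↥A) N0 (x := Jc) (↑S : Set _),
      (n.comap (φB hφB)).comap (φB hφB) = n)
    (hrad : ∀ a ∈ chart ↥(W A) (CompNormalX0.x2 (A.inertiaSubgroupIn ℚ) N0 q),
      a ∈ Y.W₂₀.nonunits → a ∈ Y.W₁₁.nonunits → a ∈ Y.W₀₂.nonunits →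
      ∃ N : ℕ, ∃ y ∈ chart ↥(W A) (CompNormalX0.x2 (A.inertiaSubgroupIn ℚ) N0 q),
        a ^ N = (q : FK (A.inertiaSubgroupIn ℚ) (N0 * q * q)) * y) :
    ∀ b : Place (ResidueField ↥A) ↥(modularFunctionFieldFullC (ResidueField ↥A) N0),
      b ∉ S → 0 ≤ b.ord (jk (ResidueField ↥A) N0) →
      ∃ π' Θ : ↥(modularFunctionFieldFullC (ResidueField ↥A) N0), b.ord π' = 1 ∧
        thetaL (π' : LaurentSeries (ResidueField ↥A)) ^ (q - 1) =
          (Θ : LaurentSeries (ResidueField ↥A)) ∧ 0 ≤ b.ord Θ := by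
  have htr := Fermat.Agent.S36.ChartsX0Leaf.transcendental_x2 (A.inertiaSubgroupIn ℚ)
    (N0 := N0) hq.out
  obtain ⟨i1, i2, i3⟩ := chartX0_props hA (N0 * q * q) htr
  have i1' : IsNoetherianRing
    ↥(chart ↥(W A) (CompNormalX0.x2 (A.inertiaSubgroupIn ℚ) N0 q)) := i1
  have i2' : IsIntegrallyClosed
    ↥(chart ↥(W A) (CompNormalX0.x2 (A.inertiaSubgroupIn ℚ) N0 q)) := i2
  have i3' : IsFractionRing ↥(chart ↥(W A) (CompNormalX0.x2 (A.inertiaSubgroupIn ℚ) N0 q))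
    (FK (A.inertiaSubgroupIn ℚ) (N0 * q * q)) := i3
  refine Fermat.Agent.S36.CountClosed.hb0_closed (hA := hA) (hqN := hqN) hJc
    (R := ↥(chart ↥(W A) (CompNormalX0.x2 (A.inertiaSubgroupIn ℚ) N0 q))) ?_
    (P.finTDatumOf hφB hφpow (nodeSet (ResidueField ↥A) N0 (x := Jc) (↑S : Set _))
      node S_fr fr_fr hrad) Y hV1 hred1 hζ ?_
    (fun a => P.mem_W₁₁ a)
    (chart (ResidueField ↥A) Jc).toSubring.subtype (fun x => rfl) ?_ S rfl
  · intro x hx
    rw [Fermat.Agent.S36.ChartsX0Leaf.x2_eq] at hx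
    exact ⟨⟨x, hx⟩, rfl⟩
  · show ((((q : ℕ) : ↥(chart ↥(W A) (CompNormalX0.x2 (A.inertiaSubgroupIn ℚ) N0 q))) :
      FK (A.inertiaSubgroupIn ℚ) (N0 * q * q))) = _
    rfl
  · intro a
    rfl

include hV1 hred1 hJc in
/-- **THE COUNT AT `X₀` on helper1's `finTDatumOf`**: `ord_b ((θ π')^(q-1)) = -2` at the nodes,
`= 0` at the other non-cuspidal places. -/
theorem count_finTDatumOf [CharP (ResidueField ↥A) q]
    {r : ℕ} (hr : r.Prime) (hr12 : r % 12 = 11) (hrM : r ∣ N0)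
    {ζ : Kbˣ} (hζ : IsPrimitiveRoot ζ q)
    (hφB : ∀ z ∈ chart (ResidueField ↥A) Jc, Y.φ z ∈ chart (ResidueField ↥A) Jc)
    (hφpow : ∀ z ∈ chart (ResidueField ↥A) Jc, ∃ c ∈ chart (ResidueField ↥A) Jc, Y.φ c = z ^ q)
    {S : Finset (Place (ResidueField ↥A) ↥(modularFunctionFieldFullC (ResidueField ↥A) N0))}
    (hS : ∀ b ∈ S, b ∉ P0 (ResidueField ↥A) N0) (hd : Desc hA hqN S)
    (node : ∀ n' n : Ideal ↥(chart (ResidueField ↥A) Jc), n'.IsMaximal → n.IsMaximal →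
      (n'.comap P.red1 = n.comap P.red2 ↔
        n ∈ nodeSet (ResidueField ↥A) N0 (x := Jc) (↑S : Set _) ∧ n' = n.comap (φB hφB)))
    (S_fr : ∀ n ∈ nodeSet (ResidueField ↥A) N0 (x := Jc) (↑S : Set _),
      n.comap (φB hφB) ∈ nodeSet (ResidueField ↥A) N0 (x := Jc) (↑S : Set _))
    (fr_fr : ∀ n ∈ nodeSet (ResidueField ↥A) N0 (x := Jc) (↑S : Set _),
      (n.comap (φB hφB)).comap (φB hφB) = n)
    (hrad : ∀ a ∈ chart ↥(W A) (CompNormalX0.x2 (A.inertiaSubgroupIn ℚ) N0 q),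
      a ∈ Y.W₂₀.nonunits → a ∈ Y.W₁₁.nonunits → a ∈ Y.W₀₂.nonunits →
      ∃ N : ℕ, ∃ y ∈ chart ↥(W A) (CompNormalX0.x2 (A.inertiaSubgroupIn ℚ) N0 q),
        a ^ N = (q : FK (A.inertiaSubgroupIn ℚ) (N0 * q * q)) * y)
    (b : Place (ResidueField ↥A) ↥(modularFunctionFieldFullC (ResidueField ↥A) N0))
    (hb : 0 ≤ b.ord (jk (ResidueField ↥A) N0))
    {π' Θ : ↥(modularFunctionFieldFullC (ResidueField ↥A) N0)} (hπ : b.ord π' = 1)
    (hΘ : thetaL (π' : LaurentSeries (ResidueField ↥A)) ^ (q - 1) =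
      (Θ : LaurentSeries (ResidueField ↥A))) :
    (b ∈ S → b.ord Θ = -2) ∧ (b ∉ S → b.ord Θ = 0) := by
  haveI : PerfectField (ResidueField ↥A) := inferInstance
  exact Fermat.Agent.S36.CountHid.count_of_desc hA hqN hr hr12 hrM hS hd
    (hb0_finTDatumOf hV1 hred1 P hJc hζ hφB hφpow S node S_fr fr_fr hrad) b hb hπ hΘ

end Fermat.Agent.S36.CountFinX0
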