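/-
PROJECT V (S36), slice V-BranchX0NodeG (helper14): **the hypothesis `node` of helper1's
`BranchX0.ChartPair.finTDatumOf` / `infTDatumOf` at the coordinates `Jc := jk k M` resp.
`(jk k M)⁻¹` of the component, DISCHARGED at `O = W A`** (hypotheses first on `Y`).

Objects: `A` a valuation subring of `ℚ̄` over `q`, `k = ResidueField A`, `κ = F_k(M)`,
`Y : ThreeValX0.Hyp I M q κ` linked to project U by `L : BranchNodeX0.LinkQ hA hqM I Y` (the five
equations of `GlueNormX0.Link`), `hB : CompNormalX0.Base Y O π`,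
`P : BranchX0.ChartPair hB x₁^{±1} x₂^{±1} Jc` with `Jc = (jk k M)^{±1}` (e.g. `finPairX0 hB L`,
`infPairX0 hB L` = helper1's `finPair / infPair` cast along `L.J_eq_jk`), the node set
`S : Finset (Place k κ)` off the cusps with `NodesDesc.Desc hA hqM S`.

Part A (`O` ANY commutative ring acting through `K0 = fixedField I`):
* `hφB_fin`, `hφB_inf` : `Y.φ` preserves `chart k (jk k M)^{±1}` (one admissible `hφB`);
  `hJc_fin`, `hJc_inf`, `lift₀_fin`, `lift₀_inf` : the arguments `hJc`, `lift₀` of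
  `ChartPair.node_fin / node_inf`; `finPairX0`, `infPairX0`;
* `φB_eq_φfin`, `φB_eq_φinf` : `ChartPair.φB hφB = SpecDictOne.phiB` (`BranchNodeX0.φfin / φinf`);
* `hdesc_finP`, `hlift_finP`, `hdesc_infP`, `hlift_infP` : the `(A₁, red1, red2)` interfaces of
  `PairGlueChart` / `PairLiftChart` / `PairLiftX0` for `red1 red2 := P.red1 P.red2`;
* `hglue_finP`, `hglue_infP` : (GLUE) in the literal shape of `ChartPair.node_fin / node_inf`;
* `node_fin_of_sep`, `node_inf_of_sep` : `node` from (SEP) in the literal shape of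
  `PairLiftChart.hsep_fin / hsep_inf` (generic `O`).

Part B (`O = W A`, `I = A.inertiaSubgroupIn ℚ`, extra input `hO₀ : Y.O₀ = Og0 M hA hqM`):
* `hsep_fin_W`, `hsep_inf_W` : (SEP) in the literal shape of `ChartPair.node_fin / node_inf`;
* **`node_finX0`, `node_infX0`** : LITERALLY the binder `node` of `P.pdatum / finTDatumOf /
  infTDatumOf` with `S := SpecDictOne.nodeSet k M (x := (jk k M)^{±1}) ↑S`;
  `node_finX0_set`, `node_infX0_set` : the same for a `Set` `S0` with `S0 = ↑S`.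
-/
import Mathlib
import Fermat.Agent.S36.BranchX0Node
import Fermat.Agent.S36.BranchNodeX0
import Fermat.Agent.S36.PairLiftX0

set_option autoImplicit false
set_option linter.unusedSectionVars false
set_option linter.style.haveILetI false
set_option linter.unusedVariables false
set_option synthInstance.maxHeartbeats 400000

noncomputable section

namespace Fermat.Agent.S36.BranchX0NodeG

open ModularCurve AlgebraicCurve IsLocalRing IntermediateField Polynomial
open Fermat.Agent.S18.B.FkBasics (jk)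
open Fermat.Agent.S34.EulerX0 Fermat.Agent.S34.EulerClosedX0
open Fermat.Agent.S34.FrobK Fermat.Agent.S34.Euler.Value Fermat.Agent.S34.Euler.FrobSide
open Fermat.Agent.S34.GaussPairX0
open Fermat.Agent.S36.NodesDesc Fermat.Agent.S36.PairLiftK0 Fermat.Agent.S36.PowerBasisK0
open Fermat.Agent.S36.ThetaK0 Fermat.Agent.S36.ChartRing Fermat.Agent.S36.CompNormal
open Fermat.Agent.S36.PairLiftChart Fermat.Agent.S36.SpecDictOne
open Fermat.Agent.S36.CompNormalX0 Fermat.Agent.S36.BranchX0 Fermat.Agent.S36.BranchNodeX0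

local notation "Kb" => AlgebraicClosure ℚ
local notation "GQ" => (AlgebraicClosure ℚ ≃ₐ[ℚ] AlgebraicClosure ℚ)

attribute [local instance 2000] Fermat.Agent.S34.EulerX0.algResFk

local instance instACk (A : ValuationSubring Kb) : IsAlgClosed (ResidueField ↥A) :=
  Fermat.Agent.S18.ResidueBasics.isAlgClosed_residueField A

/-! ## Part A: any `O` -/

section Generic

variable {q : ℕ} [hq : Fact q.Prime] [NeZero q] {M : ℕ} [NeZero M] [NeZero (M * q)]
  [NeZero (M * q * q)]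
variable {A : ValuationSubring Kb} {hA : A.LiesOverPrime q} {hqM : ¬ q ∣ M}
variable [CharP (ResidueField ↥A) q] [PerfectField (ResidueField ↥A)] {I : Subgroup GQ}
variable {Y : ThreeValX0.Hyp I M q ↥(modularFunctionFieldFullC (ResidueField ↥A) M)}
variable {O : Type*} [CommRing O] [Algebra O (FK I M)] [Algebra O (FK I (M * q))]
  [Algebra O (FK I (M * q * q))]
variable {π : O →+* ResidueField ↥A} (hB : Base Y O π) (L : LinkQ hA hqM I Y)

/-! ### the arguments `hφB`, `hJc`, `lift₀` and the two pairs -/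

include L in
/-- `Y.φ` preserves the chart `chart k (jk k M)` -/
theorem hφB_fin : ∀ z ∈ chart (ResidueField ↥A) (jk (ResidueField ↥A) M),
    Y.φ z ∈ chart (ResidueField ↥A) (jk (ResidueField ↥A) M) := fun z hz => by
  rw [← coe_φfin L ⟨z, hz⟩]
  exact (φfin A M q ⟨z, hz⟩).2

include L in
/-- `Y.φ` preserves the chart `chart k (jk k M)⁻¹` -/
theorem hφB_inf : ∀ z ∈ chart (ResidueField ↥A) (jk (ResidueField ↥A) M)⁻¹,
    Y.φ z ∈ chart (ResidueField ↥A) (jk (ResidueField ↥A) M)⁻¹ := fun z hz => by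
  rw [← coe_φinf L ⟨z, hz⟩]
  exact (φinf A M q ⟨z, hz⟩).2

include L in
theorem hJc_fin : Y.J ∈ chart (ResidueField ↥A) (jk (ResidueField ↥A) M) := by
  rw [L.J_eq_jk]
  exact self_mem_chart _

include L in
theorem hJc_inf : Y.J⁻¹ ∈ chart (ResidueField ↥A) (jk (ResidueField ↥A) M)⁻¹ := by
  rw [L.J_eq_jk]
  exact self_mem_chart _

include hB L in
/-- `Base.hlift` at the coordinate `jk k M` -/
theorem lift₀_fin : ∀ b ∈ (chart (ResidueField ↥A) (jk (ResidueField ↥A) M) :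
      Set ↥(modularFunctionFieldFullC (ResidueField ↥A) M)),
    ∃ g : FK I M, g ∈ chart O (j0K I M) ∧ ∃ hg : g ∈ Y.O₀, Y.red₀ ⟨g, hg⟩ = b := by
  have h := hB.hlift
  rw [L.J_eq_jk] at h
  exact h

include hB L in
/-- `Base.hlift'` at the coordinate `(jk k M)⁻¹` -/
theorem lift₀_inf : ∀ b ∈ (chart (ResidueField ↥A) (jk (ResidueField ↥A) M)⁻¹ :
      Set ↥(modularFunctionFieldFullC (ResidueField ↥A) M)),
    ∃ g : FK I M, g ∈ chart O (j0K I M)⁻¹ ∧ ∃ hg : g ∈ Y.O₀, Y.red₀ ⟨g, hg⟩ = b := by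
  have h := hB.hlift'
  rw [L.J_eq_jk] at h
  exact h

include L in
/-- helper1's `finPair hB`, at the coordinate `jk k M` -/
theorem finPairX0 : ChartPair hB (x1 I M q) (x2 I M q) (jk (ResidueField ↥A) M) :=
  (finPair hB).cast L.J_eq_jk

include L in
/-- helper1's `infPair hB`, at the coordinate `(jk k M)⁻¹` -/
theorem infPairX0 : ChartPair hB (x1 I M q)⁻¹ (x2 I M q)⁻¹ (jk (ResidueField ↥A) M)⁻¹ :=
  (infPair hB).cast (congrArg (·⁻¹) L.J_eq_jk)

/-! ### `ChartPair.φB = SpecDictOne.phiB` -/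

include L in
theorem φB_eq_φfin (hφB : ∀ z ∈ chart (ResidueField ↥A) (jk (ResidueField ↥A) M),
      Y.φ z ∈ chart (ResidueField ↥A) (jk (ResidueField ↥A) M)) :
    ChartPair.φB hφB = φfin A M q :=
  RingHom.ext fun z => Subtype.ext ((ChartPair.coe_φB hφB z).trans (coe_φfin L z).symm)

include L in
theorem φB_eq_φinf (hφB : ∀ z ∈ chart (ResidueField ↥A) (jk (ResidueField ↥A) M)⁻¹,
      Y.φ z ∈ chart (ResidueField ↥A) (jk (ResidueField ↥A) M)⁻¹) :
    ChartPair.φB hφB = φinf A M q :=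
  RingHom.ext fun z => Subtype.ext ((ChartPair.coe_φB hφB z).trans (coe_φinf L z).symm)

/-! ### the `(A₁, red1, red2)` interfaces for `P.red1`, `P.red2` -/

section Fin

variable {hB}
variable (P : ChartPair hB (x1 I M q) (x2 I M q) (jk (ResidueField ↥A) M))

include L in
/-- the interface `hdesc` of `PairGlueChart.hglue_fin` for `P.red1`, `P.red2` -/
theorem hdesc_finP (a : ↥(chart O (x1 I M q))) :
    ∃ g ∈ chart O (xK (M := M) (q := q) I), ∃ (h₁ : g ∈ V1K I hA hqM) (h₂ : g ∈ V2K I hA hqM),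
      ((P.red1 a : ↥(chart (ResidueField ↥A) (jk (ResidueField ↥A) M))) :
        ↥(modularFunctionFieldFullC (ResidueField ↥A) M)) = red1K I hA hqM ⟨g, h₁⟩ ∧
      ((P.red2 a : ↥(chart (ResidueField ↥A) (jk (ResidueField ↥A) M))) :
        ↥(modularFunctionFieldFullC (ResidueField ↥A) M)) = red2K I hA hqM ⟨g, h₂⟩ :=
  ⟨(a : FK I (M * q)), mem_chart_xK a.2, L.mem_V1K (P.mem_V₁ a), L.mem_V2K (P.mem_V₂ a),
    (P.coe_red1 a).trans (L.red₁_eq (P.mem_V₁ a)), (P.coe_red2 a).trans (L.red₂_eq (P.mem_V₂ a))⟩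

include L in
/-- the interface `hlift` of `PairLiftChart.hsep_fin` / `PairLiftX0.hsep_fin_X0` for `P.red1`,
`P.red2` -/
theorem hlift_finP : ∀ g ∈ chart O (xK (M := M) (q := q) I), ∀ (h₁ : g ∈ V1K I hA hqM)
    (h₂ : g ∈ V2K I hA hqM), ∃ a : ↥(chart O (x1 I M q)),
      ((P.red1 a : ↥(chart (ResidueField ↥A) (jk (ResidueField ↥A) M))) :
        ↥(modularFunctionFieldFullC (ResidueField ↥A) M)) = red1K I hA hqM ⟨g, h₁⟩ ∧
      ((P.red2 a : ↥(chart (ResidueField ↥A) (jk (ResidueField ↥A) M))) :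
        ↥(modularFunctionFieldFullC (ResidueField ↥A) M)) = red2K I hA hqM ⟨g, h₂⟩ :=
  fun g hg h₁ h₂ => ⟨⟨g, mem_chart_x1 hg⟩,
    (P.coe_red1 _).trans (L.red₁_eq (P.mem_V₁ ⟨g, mem_chart_x1 hg⟩)),
    (P.coe_red2 _).trans (L.red₂_eq (P.mem_V₂ ⟨g, mem_chart_x1 hg⟩))⟩

end Fin

section Inf

variable {hB}
variable (P : ChartPair hB (x1 I M q)⁻¹ (x2 I M q)⁻¹ (jk (ResidueField ↥A) M)⁻¹)

include L in
/-- the interface `hdesc` of `PairGlueChart.hglue_inf` for `P.red1`, `P.red2` -/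
theorem hdesc_infP (a : ↥(chart O (x1 I M q)⁻¹)) :
    ∃ g ∈ chart O (xK (M := M) (q := q) I)⁻¹, ∃ (h₁ : g ∈ V1K I hA hqM)
      (h₂ : g ∈ V2K I hA hqM),
      ((P.red1 a : ↥(chart (ResidueField ↥A) (jk (ResidueField ↥A) M)⁻¹)) :
        ↥(modularFunctionFieldFullC (ResidueField ↥A) M)) = red1K I hA hqM ⟨g, h₁⟩ ∧
      ((P.red2 a : ↥(chart (ResidueField ↥A) (jk (ResidueField ↥A) M)⁻¹)) :
        ↥(modularFunctionFieldFullC (ResidueField ↥A) M)) = red2K I hA hqM ⟨g, h₂⟩ :=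
  ⟨(a : FK I (M * q)), mem_chart_xK_inv a.2, L.mem_V1K (P.mem_V₁ a), L.mem_V2K (P.mem_V₂ a),
    (P.coe_red1 a).trans (L.red₁_eq (P.mem_V₁ a)), (P.coe_red2 a).trans (L.red₂_eq (P.mem_V₂ a))⟩

include L in
/-- the interface `hlift` of `PairLiftChart.hsep_inf` / `PairLiftX0.hsep_inf_X0` for `P.red1`,
`P.red2` -/
theorem hlift_infP : ∀ g ∈ chart O (xK (M := M) (q := q) I)⁻¹, ∀ (h₁ : g ∈ V1K I hA hqM)
    (h₂ : g ∈ V2K I hA hqM), ∃ a : ↥(chart O (x1 I M q)⁻¹),
      ((P.red1 a : ↥(chart (ResidueField ↥A) (jk (ResidueField ↥A) M)⁻¹)) :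
        ↥(modularFunctionFieldFullC (ResidueField ↥A) M)) = red1K I hA hqM ⟨g, h₁⟩ ∧
      ((P.red2 a : ↥(chart (ResidueField ↥A) (jk (ResidueField ↥A) M)⁻¹)) :
        ↥(modularFunctionFieldFullC (ResidueField ↥A) M)) = red2K I hA hqM ⟨g, h₂⟩ :=
  fun g hg h₁ h₂ => ⟨⟨g, mem_chart_x1_inv hg⟩,
    (P.coe_red1 _).trans (L.red₁_eq (P.mem_V₁ ⟨g, mem_chart_x1_inv hg⟩)),
    (P.coe_red2 _).trans (L.red₂_eq (P.mem_V₂ ⟨g, mem_chart_x1_inv hg⟩))⟩

end Inf

/-! ### (GLUE) and `node` from (SEP), any `O` through `K0` -/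

section Glue

variable [Algebra O ↥(IntermediateField.fixedField I)]
  [IsScalarTower O ↥(IntermediateField.fixedField I) (FK I (M * q))]
variable {hB}
variable {S : Finset (Place (ResidueField ↥A) ↥(modularFunctionFieldFullC (ResidueField ↥A) M))}
  (hS : ∀ b ∈ S, b ∉ P0 (ResidueField ↥A) M) (hbS : Desc hA hqM S)

set_option maxHeartbeats 1600000 in
include L hbS in
/-- **(GLUE) on the finite chart**, literal `hglue` of `ChartPair.node_fin` -/
theorem hglue_finP (P : ChartPair hB (x1 I M q) (x2 I M q) (jk (ResidueField ↥A) M))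
    (hφB : ∀ z ∈ chart (ResidueField ↥A) (jk (ResidueField ↥A) M),
      Y.φ z ∈ chart (ResidueField ↥A) (jk (ResidueField ↥A) M)) :
    ∀ n ∈ nodeSet (ResidueField ↥A) M (x := jk (ResidueField ↥A) M)
        (S : Set (Place (ResidueField ↥A) ↥(modularFunctionFieldFullC (ResidueField ↥A) M))),
      ∀ g : ↥(chart O (x1 I M q)), P.red1 g ∈ n.comap (ChartPair.φB hφB) ↔ P.red2 g ∈ n := by
  rw [φB_eq_φfin L hφB]
  exact PairGlueChart.hglue_fin hA hqM I hbS (fun a => P.red1 a) (fun a => P.red2 a)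
    (hdesc_finP L P)

set_option maxHeartbeats 1600000 in
include L hS hbS in
/-- **(GLUE) on the chart at infinity**, literal `hglue` of `ChartPair.node_inf` -/
theorem hglue_infP (P : ChartPair hB (x1 I M q)⁻¹ (x2 I M q)⁻¹ (jk (ResidueField ↥A) M)⁻¹)
    (hφB : ∀ z ∈ chart (ResidueField ↥A) (jk (ResidueField ↥A) M)⁻¹,
      Y.φ z ∈ chart (ResidueField ↥A) (jk (ResidueField ↥A) M)⁻¹) :
    ∀ n ∈ nodeSet (ResidueField ↥A) M (x := (jk (ResidueField ↥A) M)⁻¹)
        (S : Set (Place (ResidueField ↥A) ↥(modularFunctionFieldFullC (ResidueField ↥A) M))),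
      ∀ g : ↥(chart O (x1 I M q)⁻¹), P.red1 g ∈ n.comap (ChartPair.φB hφB) ↔ P.red2 g ∈ n := by
  rw [φB_eq_φinf L hφB]
  exact PairGlueChart.hglue_inf hA hqM I hS hbS (fun a => P.red1 a) (fun a => P.red2 a)
    (hdesc_infP L P)

set_option maxHeartbeats 1600000 in
include L hbS in
/-- **`node` on the finite chart from (SEP)** in the literal shape of `PairLiftChart.hsep_fin`
(`red1 red2 := P.red1 P.red2`), `O` any ring through `K0` -/
theorem node_fin_of_sep (P : ChartPair hB (x1 I M q) (x2 I M q) (jk (ResidueField ↥A) M))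
    (hφB : ∀ z ∈ chart (ResidueField ↥A) (jk (ResidueField ↥A) M),
      Y.φ z ∈ chart (ResidueField ↥A) (jk (ResidueField ↥A) M))
    (hsep : ∀ n : Ideal ↥(chart (ResidueField ↥A) (jk (ResidueField ↥A) M)), n.IsMaximal →
      n ∉ nodeSet (ResidueField ↥A) M (x := jk (ResidueField ↥A) M)
        (S : Set (Place (ResidueField ↥A) ↥(modularFunctionFieldFullC (ResidueField ↥A) M))) →
      ∃ g : ↥(chart O (x1 I M q)), P.red1 g ∈ n.comap (φfin A M q) ∧ P.red2 g ∉ n) :
    ∀ n' n : Ideal ↥(chart (ResidueField ↥A) (jk (ResidueField ↥A) M)),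
      n'.IsMaximal → n.IsMaximal →
      (n'.comap P.red1 = n.comap P.red2 ↔
        n ∈ nodeSet (ResidueField ↥A) M (x := jk (ResidueField ↥A) M)
          (S : Set (Place (ResidueField ↥A) ↥(modularFunctionFieldFullC (ResidueField ↥A) M))) ∧
        n' = n.comap (ChartPair.φB hφB)) :=
  fun n' n hn' hn => P.node_fin (hJc_fin L) (lift₀_fin hB L) hφB _ (hglue_finP L hbS P hφB)
    (by rw [φB_eq_φfin L hφB]; exact hsep) n' n hn' hn

set_option maxHeartbeats 1600000 in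
include L hS hbS in
/-- **`node` on the chart at infinity from (SEP)** in the literal shape of
`PairLiftChart.hsep_inf` -/
theorem node_inf_of_sep (P : ChartPair hB (x1 I M q)⁻¹ (x2 I M q)⁻¹ (jk (ResidueField ↥A) M)⁻¹)
    (hφB : ∀ z ∈ chart (ResidueField ↥A) (jk (ResidueField ↥A) M)⁻¹,
      Y.φ z ∈ chart (ResidueField ↥A) (jk (ResidueField ↥A) M)⁻¹)
    (hsep : ∀ n : Ideal ↥(chart (ResidueField ↥A) (jk (ResidueField ↥A) M)⁻¹), n.IsMaximal →
      n ∉ nodeSet (ResidueField ↥A) M (x := (jk (ResidueField ↥A) M)⁻¹)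
        (S : Set (Place (ResidueField ↥A) ↥(modularFunctionFieldFullC (ResidueField ↥A) M))) →
      ∃ g : ↥(chart O (x1 I M q)⁻¹), P.red1 g ∈ n.comap (φinf A M q) ∧ P.red2 g ∉ n) :
    ∀ n' n : Ideal ↥(chart (ResidueField ↥A) (jk (ResidueField ↥A) M)⁻¹),
      n'.IsMaximal → n.IsMaximal →
      (n'.comap P.red1 = n.comap P.red2 ↔
        n ∈ nodeSet (ResidueField ↥A) M (x := (jk (ResidueField ↥A) M)⁻¹)
          (S : Set (Place (ResidueField ↥A) ↥(modularFunctionFieldFullC (ResidueField ↥A) M))) ∧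
        n' = n.comap (ChartPair.φB hφB)) :=
  fun n' n hn' hn => P.node_inf (hJc_inf L) (lift₀_inf hB L) hφB _ (hglue_infP L hS hbS P hφB)
    (by rw [φB_eq_φinf L hφB]; exact hsep) n' n hn' hn

end Glue

end Generic

/-! ## Part B: `O = W A` -/

section Concrete

open Fermat.Agent.S36.ChartX0 Fermat.Agent.S36.GaussK0Comap
open Fermat.Agent.S18.C.SmallDVR

variable {q : ℕ} [hq : Fact q.Prime] [NeZero q] {M : ℕ} [NeZero M] [NeZero (M * q)]
  [NeZero (M * q * q)]
variable {A : ValuationSubring Kb} {hA : A.LiesOverPrime q} {hqM : ¬ q ∣ M}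
variable [CharP (ResidueField ↥A) q] [PerfectField (ResidueField ↥A)]
variable {Y : ThreeValX0.Hyp (A.inertiaSubgroupIn ℚ) M q
  ↥(modularFunctionFieldFullC (ResidueField ↥A) M)}

/-- helper10's `ChartX0` instances in the `fixedField I` / `FK I N` spelling (local) -/
local instance instAlgWFK (N : ℕ) : Algebra ↥(W A) (FK (A.inertiaSubgroupIn ℚ) N) := algebraW A N

local instance instAlgWK :
    Algebra ↥(W A) ↥(IntermediateField.fixedField (A.inertiaSubgroupIn ℚ)) :=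
  (inferInstance : Algebra ↥(W A) ↥(K0 A))

local instance instTowerW (N : ℕ) : IsScalarTower ↥(W A)
    ↥(IntermediateField.fixedField (A.inertiaSubgroupIn ℚ)) (FK (A.inertiaSubgroupIn ℚ) N) :=
  isScalarTowerW A N

variable {π : ↥(W A) →+* ResidueField ↥A} {hB : Base Y ↥(W A) π}
  (L : LinkQ hA hqM (A.inertiaSubgroupIn ℚ) Y) (hO₀ : Y.O₀ = Og0 M hA hqM)
variable {S : Finset (Place (ResidueField ↥A) ↥(modularFunctionFieldFullC (ResidueField ↥A) M))}
  (hS : ∀ b ∈ S, b ∉ P0 (ResidueField ↥A) M) (hbS : Desc hA hqM S)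

set_option maxHeartbeats 1600000 in
include L hO₀ hS hbS in
/-- **(SEP) on the finite chart at `O = W A`**, literal `hsep` of `ChartPair.node_fin` -/
theorem hsep_fin_W
    (P : ChartPair hB (x1 (A.inertiaSubgroupIn ℚ) M q) (x2 (A.inertiaSubgroupIn ℚ) M q)
      (jk (ResidueField ↥A) M))
    (hφB : ∀ z ∈ chart (ResidueField ↥A) (jk (ResidueField ↥A) M),
      Y.φ z ∈ chart (ResidueField ↥A) (jk (ResidueField ↥A) M)) :
    ∀ n : Ideal ↥(chart (ResidueField ↥A) (jk (ResidueField ↥A) M)), n.IsMaximal →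
      n ∉ nodeSet (ResidueField ↥A) M (x := jk (ResidueField ↥A) M)
        (S : Set (Place (ResidueField ↥A) ↥(modularFunctionFieldFullC (ResidueField ↥A) M))) →
      ∃ g : ↥(chart ↥(W A) (x1 (A.inertiaSubgroupIn ℚ) M q)),
        P.red1 g ∈ n.comap (ChartPair.φB hφB) ∧ P.red2 g ∉ n := by
  rw [φB_eq_φfin L hφB]
  exact Fermat.Agent.S36.PairLiftX0.hsep_fin_X0 hA hqM Y L.hV₁ L.hV₂ hO₀ hS hbS
    (fun a => P.red1 a) (fun a => P.red2 a) (hlift_finP L P)

set_option maxHeartbeats 1600000 in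
include L hO₀ hS hbS in
/-- **(SEP) on the chart at infinity at `O = W A`**, literal `hsep` of `ChartPair.node_inf` -/
theorem hsep_inf_W
    (P : ChartPair hB (x1 (A.inertiaSubgroupIn ℚ) M q)⁻¹ (x2 (A.inertiaSubgroupIn ℚ) M q)⁻¹
      (jk (ResidueField ↥A) M)⁻¹)
    (hφB : ∀ z ∈ chart (ResidueField ↥A) (jk (ResidueField ↥A) M)⁻¹,
      Y.φ z ∈ chart (ResidueField ↥A) (jk (ResidueField ↥A) M)⁻¹) :
    ∀ n : Ideal ↥(chart (ResidueField ↥A) (jk (ResidueField ↥A) M)⁻¹), n.IsMaximal →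
      n ∉ nodeSet (ResidueField ↥A) M (x := (jk (ResidueField ↥A) M)⁻¹)
        (S : Set (Place (ResidueField ↥A) ↥(modularFunctionFieldFullC (ResidueField ↥A) M))) →
      ∃ g : ↥(chart ↥(W A) (x1 (A.inertiaSubgroupIn ℚ) M q)⁻¹),
        P.red1 g ∈ n.comap (ChartPair.φB hφB) ∧ P.red2 g ∉ n := by
  rw [φB_eq_φinf L hφB]
  exact Fermat.Agent.S36.PairLiftX0.hsep_inf_X0 hA hqM Y L.hV₁ L.hV₂ hO₀ hS hbS
    (fun a => P.red1 a) (fun a => P.red2 a) (hlift_infP L P)

set_option maxHeartbeats 1600000 in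
include L hO₀ hS hbS in
/-- **the hypothesis `node` of `ChartPair.pdatum` / `finTDatumOf` at `Jc := jk k M`, `O = W A`,
`S := nodeSet k M ↑S`** -/
theorem node_finX0
    (P : ChartPair hB (x1 (A.inertiaSubgroupIn ℚ) M q) (x2 (A.inertiaSubgroupIn ℚ) M q)
      (jk (ResidueField ↥A) M))
    (hφB : ∀ z ∈ chart (ResidueField ↥A) (jk (ResidueField ↥A) M),
      Y.φ z ∈ chart (ResidueField ↥A) (jk (ResidueField ↥A) M)) :
    ∀ n' n : Ideal ↥(chart (ResidueField ↥A) (jk (ResidueField ↥A) M)),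
      n'.IsMaximal → n.IsMaximal →
      (n'.comap P.red1 = n.comap P.red2 ↔
        n ∈ nodeSet (ResidueField ↥A) M (x := jk (ResidueField ↥A) M)
          (S : Set (Place (ResidueField ↥A) ↥(modularFunctionFieldFullC (ResidueField ↥A) M))) ∧
        n' = n.comap (ChartPair.φB hφB)) :=
  fun n' n hn' hn => P.node_fin (hJc_fin L) (lift₀_fin hB L) hφB _ (hglue_finP L hbS P hφB)
    (hsep_fin_W L hO₀ hS hbS P hφB) n' n hn' hn

set_option maxHeartbeats 1600000 in
include L hO₀ hS hbS in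
/-- **the hypothesis `node` of `ChartPair.pdatum` / `infTDatumOf` at `Jc := (jk k M)⁻¹`,
`O = W A`, `S := nodeSet k M ↑S`** -/
theorem node_infX0
    (P : ChartPair hB (x1 (A.inertiaSubgroupIn ℚ) M q)⁻¹ (x2 (A.inertiaSubgroupIn ℚ) M q)⁻¹
      (jk (ResidueField ↥A) M)⁻¹)
    (hφB : ∀ z ∈ chart (ResidueField ↥A) (jk (ResidueField ↥A) M)⁻¹,
      Y.φ z ∈ chart (ResidueField ↥A) (jk (ResidueField ↥A) M)⁻¹) :
    ∀ n' n : Ideal ↥(chart (ResidueField ↥A) (jk (ResidueField ↥A) M)⁻¹),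
      n'.IsMaximal → n.IsMaximal →
      (n'.comap P.red1 = n.comap P.red2 ↔
        n ∈ nodeSet (ResidueField ↥A) M (x := (jk (ResidueField ↥A) M)⁻¹)
          (S : Set (Place (ResidueField ↥A) ↥(modularFunctionFieldFullC (ResidueField ↥A) M))) ∧
        n' = n.comap (ChartPair.φB hφB)) :=
  fun n' n hn' hn => P.node_inf (hJc_inf L) (lift₀_inf hB L) hφB _ (hglue_infP L hS hbS P hφB)
    (hsep_inf_W L hO₀ hS hbS P hφB) n' n hn' hn

set_option maxHeartbeats 1600000 in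
include L hO₀ hS hbS in
/-- `node_finX0` for a `Set` of places `S0 = ↑S` (e.g. `S0 := (LeafXInst.datumY ..).S`,
`S := (LeafX.nodesD ..).S`, `hS0 := rfl`) -/
theorem node_finX0_set
    (S0 : Set (Place (ResidueField ↥A) ↥(modularFunctionFieldFullC (ResidueField ↥A) M)))
    (hS0 : S0 = (S : Set (Place (ResidueField ↥A)
      ↥(modularFunctionFieldFullC (ResidueField ↥A) M))))
    (P : ChartPair hB (x1 (A.inertiaSubgroupIn ℚ) M q) (x2 (A.inertiaSubgroupIn ℚ) M q)
      (jk (ResidueField ↥A) M))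
    (hφB : ∀ z ∈ chart (ResidueField ↥A) (jk (ResidueField ↥A) M),
      Y.φ z ∈ chart (ResidueField ↥A) (jk (ResidueField ↥A) M)) :
    ∀ n' n : Ideal ↥(chart (ResidueField ↥A) (jk (ResidueField ↥A) M)),
      n'.IsMaximal → n.IsMaximal →
      (n'.comap P.red1 = n.comap P.red2 ↔
        n ∈ nodeSet (ResidueField ↥A) M (x := jk (ResidueField ↥A) M) S0 ∧
        n' = n.comap (ChartPair.φB hφB)) := by
  subst hS0
  exact node_finX0 L hO₀ hS hbS P hφB

set_option maxHeartbeats 1600000 in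
include L hO₀ hS hbS in
/-- `node_infX0` for a `Set` of places `S0 = ↑S` -/
theorem node_infX0_set
    (S0 : Set (Place (ResidueField ↥A) ↥(modularFunctionFieldFullC (ResidueField ↥A) M)))
    (hS0 : S0 = (S : Set (Place (ResidueField ↥A)
      ↥(modularFunctionFieldFullC (ResidueField ↥A) M))))
    (P : ChartPair hB (x1 (A.inertiaSubgroupIn ℚ) M q)⁻¹ (x2 (A.inertiaSubgroupIn ℚ) M q)⁻¹
      (jk (ResidueField ↥A) M)⁻¹)
    (hφB : ∀ z ∈ chart (ResidueField ↥A) (jk (ResidueField ↥A) M)⁻¹,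
      Y.φ z ∈ chart (ResidueField ↥A) (jk (ResidueField ↥A) M)⁻¹) :
    ∀ n' n : Ideal ↥(chart (ResidueField ↥A) (jk (ResidueField ↥A) M)⁻¹),
      n'.IsMaximal → n.IsMaximal →
      (n'.comap P.red1 = n.comap P.red2 ↔
        n ∈ nodeSet (ResidueField ↥A) M (x := (jk (ResidueField ↥A) M)⁻¹) S0 ∧
        n' = n.comap (ChartPair.φB hφB)) := by
  subst hS0
  exact node_infX0 L hO₀ hS hbS P hφB

end Concrete

end Fermat.Agent.S36.BranchX0NodeG
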