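/-
PROJECT V (S36), chain (V9) at `X₀`, the finite charts (helper14; HEDGE / twin of helper24's
`S36/BranchInfX0`, same names with `fin` for `inf`): **the ACTUAL `BranchCoreT.TDatum` on
`chart (W A) x₁`, `chart (W A) x₂`, `chart k (jk k M)`, with every hypothesis of helper1's
`ChartPair.finTDatumOf` discharged.**

`A` over `q`, `q ∤ M`, `I = A.inertiaSubgroupIn ℚ`, `O = W A`, `k = ResidueField A`, `κ = F_k(M)`,
`Y : ThreeValX0.Hyp I M q κ` (VARIABLE) with `L : BranchNodeX0.LinkQ hA hqM I Y`,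
`hO₀ : Y.O₀ = Og0 M hA hqM`, `hB : CompNormalX0.Base Y (W A) π`, the node set
`S0 : Finset (Place k κ)` off the cusps, `Fr`-stable with `Fr² = id`, `NodesDesc.Desc`.

* `hφpow`, `nodesFin`, `S_fr`, `fr_fr` (any `I`, any `O`; `hφB`, `φB_eq`, the pair and `node` are
  `BranchX0NodeG.hφB_fin`, `φB_eq_φfin`, `finPairX0`, `node_finX0`; `hrad` is
  `BranchX0Rad.hrad_fin_W`);
* **`finTDatumX0`** : the `TDatum`; `finTDatumX0_S` (`= nodeSet`, `rfl`), `finTDatumX0_q`,
  `finTDatumX0_eq`, `le_W`, `coe_ϖ`, `coe_r20 / r11 / r02 / red1 / red2 / φ` (`rfl`),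
  `finTDatumX0_φ` (`= SpecDictOne.phiB`).
-/
import Mathlib
import Fermat.Agent.S36.BranchX0NodeG
import Fermat.Agent.S36.BranchX0Rad

set_option autoImplicit false
set_option linter.unusedSectionVars false
set_option linter.style.haveILetI false
set_option linter.unusedVariables false
set_option synthInstance.maxHeartbeats 400000

noncomputable section

namespace Fermat.Agent.S36.FinTDatumX0

open ModularCurve AlgebraicCurve IsLocalRing IntermediateField Polynomial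
open Fermat.Agent.S18.B.FkBasics (jk)
open Fermat.Agent.S18.C.SmallDVR
open Fermat.Agent.S34.EulerX0 Fermat.Agent.S34.EulerClosedX0
open Fermat.Agent.S34.FrobK Fermat.Agent.S34.Euler.Value Fermat.Agent.S34.Euler.FrobSide
open Fermat.Agent.S36.NodesDesc Fermat.Agent.S36.PairLiftK0 Fermat.Agent.S36.PowerBasisK0
open Fermat.Agent.S36.ThetaK0 Fermat.Agent.S36.ChartRing Fermat.Agent.S36.CompNormal
open Fermat.Agent.S36.SpecDictOne
open Fermat.Agent.S36.CompNormalX0 Fermat.Agent.S36.BranchX0 Fermat.Agent.S36.BranchNodeX0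
open Fermat.Agent.S36.BranchX0NodeG
open Fermat.Agent.S36.ChartX0 Fermat.Agent.S36.GaussK0Comap

local notation "Kb" => AlgebraicClosure ℚ
local notation "GQ" => (AlgebraicClosure ℚ ≃ₐ[ℚ] AlgebraicClosure ℚ)

attribute [local instance 2000] Fermat.Agent.S34.EulerX0.algResFk

local instance instACkFin (A : ValuationSubring Kb) : IsAlgClosed (ResidueField ↥A) :=
  Fermat.Agent.S18.ResidueBasics.isAlgClosed_residueField A

variable {q : ℕ} [hq : Fact q.Prime] [NeZero q] {M : ℕ} [NeZero M] [NeZero (M * q)]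
  [NeZero (M * q * q)]
variable {A : ValuationSubring Kb} {hA : A.LiesOverPrime q} {hqM : ¬ q ∣ M}
variable [CharP (ResidueField ↥A) q] [PerfectField (ResidueField ↥A)]

/-! ### the Frobenius / node set hypotheses (any subgroup `I`) -/

section Generic

variable {I : Subgroup GQ}
variable {Y : ThreeValX0.Hyp I M q ↥(modularFunctionFieldFullC (ResidueField ↥A) M)}
variable (L : LinkQ hA hqM I Y)

include L in
set_option maxHeartbeats 1600000 in
/-- `hφpow` of `ChartPair.finTDatumOf` -/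
theorem hφpow : ∀ z ∈ chart (ResidueField ↥A) (jk (ResidueField ↥A) M),
    ∃ c ∈ chart (ResidueField ↥A) (jk (ResidueField ↥A) M), Y.φ c = z ^ q := by
  intro z hz
  obtain ⟨c, hc⟩ := phiB_pow (ResidueField ↥A) M q (phi_jk (ResidueField ↥A) M q)
    (Fermat.Agent.S18.B.FkBasics.isFF (ResidueField ↥A) M)
    (Fermat.Agent.S18.B.SeparableFk.isSeparable_jk (ResidueField ↥A) M) ⟨z, hz⟩
  refine ⟨(c : ↥(modularFunctionFieldFullC (ResidueField ↥A) M)), c.2, ?_⟩
  rw [← coe_φfin L c]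
  exact congrArg (fun b : ↥(chart (ResidueField ↥A) (jk (ResidueField ↥A) M)) =>
    (b : ↥(modularFunctionFieldFullC (ResidueField ↥A) M))) hc

variable (S0 : Finset (Place (ResidueField ↥A) ↥(modularFunctionFieldFullC (ResidueField ↥A) M)))

/-- the node set on the finite chart of the component -/
abbrev nodesFin : Set (Ideal ↥(chart (ResidueField ↥A) (jk (ResidueField ↥A) M))) :=
  nodeSet (ResidueField ↥A) M (x := jk (ResidueField ↥A) M)
    (S0 : Set (Place (ResidueField ↥A) ↥(modularFunctionFieldFullC (ResidueField ↥A) M)))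

variable {S0}

include L in
set_option maxHeartbeats 1600000 in
/-- `S_fr` of `ChartPair.finTDatumOf` -/
theorem S_fr (hFr : ∀ b ∈ S0, Fr (ResidueField ↥A) M q b ∈ S0) :
    ∀ n ∈ nodesFin S0, n.comap (ChartPair.φB (hφB_fin L)) ∈ nodesFin S0 := by
  rw [φB_eq_φfin L (hφB_fin L)]
  exact nodeSet_fr (ResidueField ↥A) M q _ _ _ _ (fun v hv => Finset.mem_coe.mpr (hFr v hv))

include L in
set_option maxHeartbeats 1600000 in
/-- `fr_fr` of `ChartPair.finTDatumOf` -/
theorem fr_fr (hFr2 : ∀ b ∈ S0, Fr (ResidueField ↥A) M q (Fr (ResidueField ↥A) M q b) = b) :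
    ∀ n ∈ nodesFin S0,
      (n.comap (ChartPair.φB (hφB_fin L))).comap (ChartPair.φB (hφB_fin L)) = n := by
  rw [φB_eq_φfin L (hφB_fin L)]
  exact nodeSet_fr_fr (ResidueField ↥A) M q _ _ _ _ (fun v hv => hFr2 v hv)

end Generic

/-! ### `O = W A` : the `TDatum` -/

section Concrete

variable {Y : ThreeValX0.Hyp (A.inertiaSubgroupIn ℚ) M q
  ↥(modularFunctionFieldFullC (ResidueField ↥A) M)}

/-- helper10's `ChartX0` instances in the `fixedField I` / `FK I N` spelling (local) -/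
local instance instAlgWFK (N : ℕ) : Algebra ↥(W A) (FK (A.inertiaSubgroupIn ℚ) N) := algebraW A N

local instance instAlgWK :
    Algebra ↥(W A) ↥(IntermediateField.fixedField (A.inertiaSubgroupIn ℚ)) :=
  (inferInstance : Algebra ↥(W A) ↥(K0 A))

local instance instFracWK :
    IsFractionRing ↥(W A) ↥(IntermediateField.fixedField (A.inertiaSubgroupIn ℚ)) :=
  isFractionRing_W_K0 A

local instance instTowerW (N : ℕ) : IsScalarTower ↥(W A)
    ↥(IntermediateField.fixedField (A.inertiaSubgroupIn ℚ)) (FK (A.inertiaSubgroupIn ℚ) N) :=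
  isScalarTowerW A N

variable {π : ↥(W A) →+* ResidueField ↥A} (hB : Base Y ↥(W A) π)
  (L : LinkQ hA hqM (A.inertiaSubgroupIn ℚ) Y) (hO₀ : Y.O₀ = Og0 M hA hqM)
variable {S0 : Finset (Place (ResidueField ↥A) ↥(modularFunctionFieldFullC (ResidueField ↥A) M))}
  (hS : ∀ b ∈ S0, b ∉ P0 (ResidueField ↥A) M) (hbS : Desc hA hqM S0)
  (hFr : ∀ b ∈ S0, Fr (ResidueField ↥A) M q b ∈ S0)
  (hFr2 : ∀ b ∈ S0, Fr (ResidueField ↥A) M q (Fr (ResidueField ↥A) M q b) = b)

set_option maxHeartbeats 1600000 in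
/-- **the `TDatum` of chain (V9) on the finite charts at `X₀`** -/
def finTDatumX0 :
    Fermat.Agent.S36.BranchCoreT.TDatum ↥(chart ↥(W A) (x1 (A.inertiaSubgroupIn ℚ) M q))
      ↥(chart ↥(W A) (x2 (A.inertiaSubgroupIn ℚ) M q))
      ↥(chart (ResidueField ↥A) (jk (ResidueField ↥A) M)) :=
  (finPairX0 hB L).finTDatumOf (hφB_fin L) (hφpow L) (nodesFin S0)
    (node_finX0 L hO₀ hS hbS (finPairX0 hB L) (hφB_fin L)) (S_fr L hFr) (fr_fr L hFr2)
    (Fermat.Agent.S36.BranchX0Rad.hrad_fin_W hA hqM Y hB hO₀)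

set_option maxHeartbeats 1600000 in
@[simp] theorem finTDatumX0_S :
    (finTDatumX0 hB L hO₀ hS hbS hFr hFr2).S = nodesFin S0 := rfl

set_option maxHeartbeats 1600000 in
@[simp] theorem finTDatumX0_q : (finTDatumX0 hB L hO₀ hS hbS hFr hFr2).q = q := rfl

set_option maxHeartbeats 1600000 in
theorem finTDatumX0_eq :
    finTDatumX0 hB L hO₀ hS hbS hFr hFr2 =
      (finPairX0 hB L).finTDatumOf (hφB_fin L) (hφpow L) (nodesFin S0)
        (node_finX0 L hO₀ hS hbS (finPairX0 hB L) (hφB_fin L)) (S_fr L hFr) (fr_fr L hFr2)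
        (Fermat.Agent.S36.BranchX0Rad.hrad_fin_W hA hqM Y hB hO₀) := rfl

include hB L in
/-- `hle` -/
theorem le_W : (chart ↥(W A) (x2 (A.inertiaSubgroupIn ℚ) M q)).toSubring ≤ Y.W₂₀.toSubring ∧
    (chart ↥(W A) (x2 (A.inertiaSubgroupIn ℚ) M q)).toSubring ≤ Y.W₁₁.toSubring ∧
    (chart ↥(W A) (x2 (A.inertiaSubgroupIn ℚ) M q)).toSubring ≤ Y.W₀₂.toSubring :=
  (finPairX0 hB L).le_W

set_option maxHeartbeats 1600000 in
theorem coe_ϖ :
    (((finTDatumX0 hB L hO₀ hS hbS hFr hFr2).ϖ :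
      ↥(chart ↥(W A) (x2 (A.inertiaSubgroupIn ℚ) M q))) :
        FK (A.inertiaSubgroupIn ℚ) (M * q * q)) = (q : FK (A.inertiaSubgroupIn ℚ) (M * q * q)) :=
  ChartPair.coe_pdatum_ϖ (finPairX0 hB L) (hφB_fin L) (hφpow L) (nodesFin S0)
    (node_finX0 L hO₀ hS hbS (finPairX0 hB L) (hφB_fin L)) (S_fr L hFr) (fr_fr L hFr2)
    (Fermat.Agent.S36.BranchX0Rad.hrad_fin_W hA hqM Y hB hO₀)

set_option maxHeartbeats 1600000 in
/-- `hcompat` -/
theorem coe_r20 (a : ↥(chart ↥(W A) (x2 (A.inertiaSubgroupIn ℚ) M q))) :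
    (((finTDatumX0 hB L hO₀ hS hbS hFr hFr2).r20 a :
      ↥(chart (ResidueField ↥A) (jk (ResidueField ↥A) M))) :
        ↥(modularFunctionFieldFullC (ResidueField ↥A) M)) =
      Y.r₂₀ ⟨a, (finPairX0 hB L).mem_W₂₀ a⟩ := rfl

set_option maxHeartbeats 1600000 in
theorem coe_r11 (a : ↥(chart ↥(W A) (x2 (A.inertiaSubgroupIn ℚ) M q))) :
    (((finTDatumX0 hB L hO₀ hS hbS hFr hFr2).r11 a :
      ↥(chart (ResidueField ↥A) (jk (ResidueField ↥A) M))) :
        ↥(modularFunctionFieldFullC (ResidueField ↥A) M)) =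
      Y.r₁₁ ⟨a, (finPairX0 hB L).mem_W₁₁ a⟩ := rfl

set_option maxHeartbeats 1600000 in
theorem coe_r02 (a : ↥(chart ↥(W A) (x2 (A.inertiaSubgroupIn ℚ) M q))) :
    (((finTDatumX0 hB L hO₀ hS hbS hFr hFr2).r02 a :
      ↥(chart (ResidueField ↥A) (jk (ResidueField ↥A) M))) :
        ↥(modularFunctionFieldFullC (ResidueField ↥A) M)) =
      Y.r₀₂ ⟨a, (finPairX0 hB L).mem_W₀₂ a⟩ := rfl

set_option maxHeartbeats 1600000 in
theorem coe_red1 (g : ↥(chart ↥(W A) (x1 (A.inertiaSubgroupIn ℚ) M q))) :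
    (((finTDatumX0 hB L hO₀ hS hbS hFr hFr2).red1 g :
      ↥(chart (ResidueField ↥A) (jk (ResidueField ↥A) M))) :
        ↥(modularFunctionFieldFullC (ResidueField ↥A) M)) =
      Y.red₁ ⟨g, (finPairX0 hB L).mem_V₁ g⟩ := rfl

set_option maxHeartbeats 1600000 in
theorem coe_red2 (g : ↥(chart ↥(W A) (x1 (A.inertiaSubgroupIn ℚ) M q))) :
    (((finTDatumX0 hB L hO₀ hS hbS hFr hFr2).red2 g :
      ↥(chart (ResidueField ↥A) (jk (ResidueField ↥A) M))) :
        ↥(modularFunctionFieldFullC (ResidueField ↥A) M)) =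
      Y.red₂ ⟨g, (finPairX0 hB L).mem_V₂ g⟩ := rfl

set_option maxHeartbeats 1600000 in
theorem coe_φ (z : ↥(chart (ResidueField ↥A) (jk (ResidueField ↥A) M))) :
    (((finTDatumX0 hB L hO₀ hS hbS hFr hFr2).φ z :
      ↥(chart (ResidueField ↥A) (jk (ResidueField ↥A) M))) :
        ↥(modularFunctionFieldFullC (ResidueField ↥A) M)) = Y.φ (z : _) := rfl

set_option maxHeartbeats 1600000 in
theorem finTDatumX0_φ : (finTDatumX0 hB L hO₀ hS hbS hFr hFr2).φ = φfin A M q :=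
  φB_eq_φfin L (hφB_fin L)

end Concrete

end Fermat.Agent.S36.FinTDatumX0
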