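/-
PROJECT V (S36), chain (V13), FINAL ASSEMBLY OF THE COUNT (helper29): **the exact order of
`(θ π)^(q-1)` at every finite place of `κ_M = F_k(M)`**, with every input discharged except the
one-sided bound `hb0` at the ordinary points (the thick component, `S36/B0Thick` +
`S36/CountBound.rho_c_mem`).

`A` a valuation ring of `ℚ̄` over `q ∤ M`, `k = κ(A)`, `κ_M = modularFunctionFieldFullC k M`,
`S` the node set of `X₀(M q)` mod `q` (ANY finite set of places which is `Fr²`-fixed, off the cusps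
and describes `Rbar0`: `NodesDesc.Desc hA hqM S`; e.g. `Y.S` of `NodesDesc.exists_nodes_desc`).

* `hreg` : the hypothesis `hreg` of `CountNode` is `NormDiagPoles.diag_quotient_regular`;
* `count_final` : for every place `b` with `0 ≤ ord_b j̄`, every `π, Θ ∈ κ_M` with `ord_b π = 1`,
  `(θ π)^(q-1) = Θ`:  `b ∈ S → ord_b Θ = -2`,  `b ∉ S → ord_b Θ = 0`.
  Inputs: Riemann's theorem on `κ_M` and on `ℚ̄(X₀(M q))` (`HM`, `HL`), no elliptic points
  (`h2 h3`, from an auxiliary prime `r ≡ 11 mod 12`, `r ∣ M`: `count_final_aux`), and `hb0`.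
  [`hid` = `EulerExact.Desc.card_eq_of_desc_nat`; Deuring's `Hyp` =
  `S34/EulerNodesFinalX0.hyp_of_riemannHyp`; `hb1` = `CountNode.hb1`.]
* `theta_pow_unit_off_nodes`, `theta_pow_double_pole_at_nodes` : the two halves separately.
-/
import Mathlib
import Fermat.Agent.S36.CountNode
import Fermat.Agent.S36.NormDiagPoles
import Fermat.Agent.S36.EulerExact.Desc
import Fermat.Agent.S34.EulerNodesFinalX0

set_option autoImplicit false
set_option linter.unusedSectionVars false
set_option linter.style.haveILetI false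

noncomputable section

namespace Fermat.Agent.S36.CountX0Final

open HahnSeries ModularCurve Polynomial AlgebraicCurve IntermediateField IsLocalRing
open Fermat.Agent.S24.DegreeAlg (jgen)
open Fermat.Agent.S18.B.FkBasics (jk)
open Fermat.Agent.S18.C Fermat.Agent.S37.Gauss
open Fermat.Agent.S35.LevelMaps
open Fermat.Agent.S34.FrobK
open Fermat.Agent.S18.NonSpecial

local notation "Kb" => AlgebraicClosure ℚ

set_option synthInstance.maxHeartbeats 400000
set_option maxHeartbeats 1600000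

attribute [local instance 2000] Fermat.Agent.S18.C.KModelX0.algkFk

variable {q : ℕ} [hq : Fact q.Prime] [NeZero q] {M : ℕ} [NeZero M] {A : ValuationSubring Kb}

/-- **`hreg` of `CountNode`**: the diagonal norm quotient of a function regular off the cusps is
regular off the cusps (`S36/NormDiagPoles`). -/
theorem hreg [NeZero (M * q)] [NeZero (M * q * q)] :
    ∀ a a' : ↥(Fermat.Agent.S18.GaussFromH.intRing A (residue ↥A) M),
      (letI := algebraAlong ((heckeBetaBar Kb (M * q) q).comp (heckeBetaBar Kb M q))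
       algebraMap Kb (E M) ((q : ℕ) : Kb) * Fermat.Agent.S18.GaussFromH.toFL A (residue ↥A) M a' =
        Algebra.norm (E M)
          (heckeBetaBar Kb (M * q) q (heckeBetaBar Kb M q
              (Fermat.Agent.S18.GaussFromH.toFL A (residue ↥A) M a)) -
            heckeAlphaBar Kb (M * q) q (heckeAlphaBar Kb M q
              (Fermat.Agent.S18.GaussFromH.toFL A (residue ↥A) M a)))) →
      (∀ P : Place Kb ↥(modularFunctionFieldBar M), 0 ≤ P.ord (jgen M) →
        Fermat.Agent.S18.GaussFromH.toFL A (residue ↥A) M a = 0 ∨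
          0 ≤ P.ord (Fermat.Agent.S18.GaussFromH.toFL A (residue ↥A) M a)) →
      (∀ P : Place Kb ↥(modularFunctionFieldBar M), 0 ≤ P.ord (jgen M) →
        Fermat.Agent.S18.GaussFromH.toFL A (residue ↥A) M a' = 0 ∨
          0 ≤ P.ord (Fermat.Agent.S18.GaussFromH.toFL A (residue ↥A) M a')) :=
  fun _ _ hnorm ha =>
    Fermat.Agent.S36.NormDiagPoles.diag_quotient_regular hq.out _ _ ha hnorm

/-- **The count on `κ_M`, final form** (only `hb0` left). -/
theorem count_final (hA : A.LiesOverPrime q) (hqM : ¬ q ∣ M)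
    [IsAlgClosed (ResidueField ↥A)] [CharP (ResidueField ↥A) q] {g gM : ℕ}
    (HL : RiemannHyp Kb ↥(modularFunctionFieldBar (M * q)) g)
    (HM : RiemannHyp (ResidueField ↥A) ↥(modularFunctionFieldFullC (ResidueField ↥A) M) gM)
    (h2 : nuTwo M = 0) (h3 : nuThree M = 0)
    (S : Finset (Place (ResidueField ↥A) ↥(modularFunctionFieldFullC (ResidueField ↥A) M)))
    (hS2 : ∀ b ∈ S, Fr (ResidueField ↥A) M q (Fr (ResidueField ↥A) M q b) = b)
    (hS0 : ∀ b ∈ S, b ∉ Fermat.Agent.S34.Euler.FrobSide.P0 (ResidueField ↥A) M)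
    (hd : Fermat.Agent.S36.NodesDesc.Desc hA hqM S)
    (hb0 : ∀ b : Place (ResidueField ↥A) ↥(modularFunctionFieldFullC (ResidueField ↥A) M),
      b ∉ S → 0 ≤ b.ord (jk (ResidueField ↥A) M) →
      ∃ π Θ : ↥(modularFunctionFieldFullC (ResidueField ↥A) M), b.ord π = 1 ∧
        Fermat.Agent.S36.ThetaL.thetaL (π : LaurentSeries (ResidueField ↥A)) ^ (q - 1) =
          (Θ : LaurentSeries (ResidueField ↥A)) ∧ 0 ≤ b.ord Θ)
    (b : Place (ResidueField ↥A) ↥(modularFunctionFieldFullC (ResidueField ↥A) M))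
    (hb : 0 ≤ b.ord (jk (ResidueField ↥A) M))
    {π Θ : ↥(modularFunctionFieldFullC (ResidueField ↥A) M)} (hπ : b.ord π = 1)
    (hΘ : Fermat.Agent.S36.ThetaL.thetaL (π : LaurentSeries (ResidueField ↥A)) ^ (q - 1) =
      (Θ : LaurentSeries (ResidueField ↥A))) :
    (b ∈ S → b.ord Θ = -2) ∧ (b ∉ S → b.ord Θ = 0) := by
  haveI := Fermat.Agent.S37.ReductionInputs.hasPrincipalDivisors_Fk A M
  haveI : NeZero (M * q) := ⟨Nat.mul_ne_zero (NeZero.ne M) (NeZero.ne q)⟩
  haveI : NeZero (M * q * q) := ⟨Nat.mul_ne_zero (NeZero.ne (M * q)) (NeZero.ne q)⟩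
  have hsep := Fermat.Agent.S18.B.SeparableFk.isSeparable_jk (ResidueField ↥A) M
  have H := Fermat.Agent.S34.EulerNodesFinalX0.hyp_of_riemannHyp hqM hA HM
  have hSfin : ∀ b ∈ S, 0 ≤ b.ord (jk (ResidueField ↥A) M) := fun b hb =>
    (Fermat.Agent.S36.EulerExact.Desc.not_mem_P0_iff_ord_nonneg b).mp (hS0 b hb)
  have hid : g + 1 = gM + gM + S.card :=
    Fermat.Agent.S36.EulerExact.Desc.card_eq_of_desc_nat hA hqM HM HL hS0 hd
  exact Fermat.Agent.S36.CountNode.count_of_hb0 hA hqM hsep H hreg HL HM h2 h3 S hS2 hSfin hid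
    hb0 b hb hπ hΘ

/-- `count_final` with the elliptic counts killed by an auxiliary prime `r ≡ 11 mod 12`, `r ∣ M`. -/
theorem count_final_aux (hA : A.LiesOverPrime q) (hqM : ¬ q ∣ M)
    [IsAlgClosed (ResidueField ↥A)] [CharP (ResidueField ↥A) q] {g gM : ℕ}
    (HL : RiemannHyp Kb ↥(modularFunctionFieldBar (M * q)) g)
    (HM : RiemannHyp (ResidueField ↥A) ↥(modularFunctionFieldFullC (ResidueField ↥A) M) gM)
    {r : ℕ} (hr : r.Prime) (hr12 : r % 12 = 11) (hrM : r ∣ M)
    (S : Finset (Place (ResidueField ↥A) ↥(modularFunctionFieldFullC (ResidueField ↥A) M)))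
    (hS2 : ∀ b ∈ S, Fr (ResidueField ↥A) M q (Fr (ResidueField ↥A) M q b) = b)
    (hS0 : ∀ b ∈ S, b ∉ Fermat.Agent.S34.Euler.FrobSide.P0 (ResidueField ↥A) M)
    (hd : Fermat.Agent.S36.NodesDesc.Desc hA hqM S)
    (hb0 : ∀ b : Place (ResidueField ↥A) ↥(modularFunctionFieldFullC (ResidueField ↥A) M),
      b ∉ S → 0 ≤ b.ord (jk (ResidueField ↥A) M) →
      ∃ π Θ : ↥(modularFunctionFieldFullC (ResidueField ↥A) M), b.ord π = 1 ∧
        Fermat.Agent.S36.ThetaL.thetaL (π : LaurentSeries (ResidueField ↥A)) ^ (q - 1) =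
          (Θ : LaurentSeries (ResidueField ↥A)) ∧ 0 ≤ b.ord Θ)
    (b : Place (ResidueField ↥A) ↥(modularFunctionFieldFullC (ResidueField ↥A) M))
    (hb : 0 ≤ b.ord (jk (ResidueField ↥A) M))
    {π Θ : ↥(modularFunctionFieldFullC (ResidueField ↥A) M)} (hπ : b.ord π = 1)
    (hΘ : Fermat.Agent.S36.ThetaL.thetaL (π : LaurentSeries (ResidueField ↥A)) ^ (q - 1) =
      (Θ : LaurentSeries (ResidueField ↥A))) :
    (b ∈ S → b.ord Θ = -2) ∧ (b ∉ S → b.ord Θ = 0) :=
  count_final hA hqM HL HM (Fermat.Agent.S36.CountNumerics.nu_eq_zero_of_aux hr hr12 hrM).1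
    (Fermat.Agent.S36.CountNumerics.nu_eq_zero_of_aux hr hr12 hrM).2 S hS2 hS0 hd hb0 b hb hπ hΘ

end Fermat.Agent.S36.CountX0Final
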