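/-
PROJECT V (S36), slice V-TriplePoint (helper4), part (T3): **evaluation at a `Fr²`-fixed place of
the reduced characteristic polynomial at level `q²`** (chain (V12)(iii), triple points).

`k` a perfect field of characteristic `q`, `κ = modularFunctionFieldFullC k N ⊆ k((t))`,
`phi g = g(t^q)` (`S34/FrobK.phi`), `sig g` = coefficientwise `q`-th power
(`= (S34/FrobK.psi).symm`), `Fr` the Frobenius on places.

For a Gauss-integral `a` of level `N` with reduction `f ∈ κ`, the characteristic polynomial of
`a(t^(q²))` over the level-`N` field reduces (first-order Kronecker for a general function) to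

  `redPoly f = (Y - phi (phi f)) * (Y^(q²) - sig (sig f)) * (Y - f)^(q-1)`

(one root `a(t^(q⁴))`, `q²` roots `a(ζ^c t)` with `(Y - f(s))^(q²) = Y^(q²) - (sig² f)(s^(q²))`, and the
`q - 1` middle roots `a(ζ_q^c t^(q²))`), and the norm of `a(t^(q²)) - a(t)` divided by `q` reduces, up
to sign, to `T * (f - phi (phi f)) * sig (sig (f - phi (phi f)))` with `T = (θ f)^(q-1)`.

This file evaluates both at a place `v` with `Fr (Fr v) = v` (a supersingular point) at which
`f ≡ c mod m_v`, `c ∈ k`:

* value rules `adicValuation_phi_lt_one_iff`, `adicValuation_sig`, `sig_algebraMap`;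
* `coeff_redPoly_sub_lt_one` : every coefficient of `redPoly f - (Y - c)^(q²+q)` lies in `m_v`
  (the Eisenstein shape `Ψ ≡ (Y - ã)^(q²+q) mod m_O` of chain (V12)(iii));
* `coeff_redPoly_le_one` : the coefficients of `redPoly f` are regular at `v`;
* `ord_cofactor` : if moreover `f - c` is a local parameter at `v`, then
  `ord_v (T * (f - phi² f) * sig² (f - phi² f)) = ord_v T + 2` (so the constant term of the Eisenstein
  fibre is `q * unit` exactly when `ord_v T = -2`, the output of the count (V13)).
-/
import Mathlib
import Fermat.Agent.S34.FrobK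

set_option autoImplicit false
set_option linter.unusedSectionVars false
set_option linter.style.haveILetI false

noncomputable section

namespace Fermat.Agent.S36.TripleEval

open AlgebraicCurve ModularCurve Polynomial
open Fermat.Agent.S37.Equivariance.CoeffAut
open Fermat.Agent.S34.FrobK

variable (k : Type*) [Field k] (N : ℕ) [NeZero N]
variable (q : ℕ) [hq : Fact q.Prime] [CharP k q] [PerfectField k]

/-- coefficientwise `q`-th power on `κ = F_k(N)` (the inverse of `S34/FrobK.psi`) -/
def sig : ↥(modularFunctionFieldFullC k N) ≃+* ↥(modularFunctionFieldFullC k N) :=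
  coeffRingAut k N (frobAut k q)

theorem sig_eq_psi_symm : sig k N q = (psi k N q).symm := rfl

theorem psi_sig (g : ↥(modularFunctionFieldFullC k N)) : psi k N q (sig k N q g) = g :=
  (coeffRingAut k N (frobAut k q)).symm_apply_apply g

theorem sig_psi (g : ↥(modularFunctionFieldFullC k N)) : sig k N q (psi k N q g) = g :=
  (coeffRingAut k N (frobAut k q)).apply_symm_apply g

theorem sig_algebraMap (c : k) :
    sig k N q (algebraMap k ↥(modularFunctionFieldFullC k N) c) =
      algebraMap k ↥(modularFunctionFieldFullC k N) (c ^ q) := by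
  rw [sig, coeffRingAut_algebraMap, frobAut_apply]

/-- `phi (sig g) = g^q` -/
theorem phi_sig (g : ↥(modularFunctionFieldFullC k N)) : phi k N q (sig k N q g) = g ^ q := by
  rw [phi_eq_pow, psi_sig]

/-! ### value rules in valuation form -/

/-- `ord_(Fr v) (sig g) = ord_v g`, in valuation form -/
theorem adicValuation_sig (v : Place k ↥(modularFunctionFieldFullC k N))
    (g : ↥(modularFunctionFieldFullC k N)) :
    (Fr k N q v).adicValuation (sig k N q g) = v.adicValuation g := by
  rcases eq_or_ne g 0 with rfl | hg
  · simp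
  have hsg : sig k N q g ≠ 0 := (map_ne_zero_iff _ (sig k N q).injective).mpr hg
  rw [Fermat.Agent.S24.Ord.adicValuation_eq _ hsg, Fermat.Agent.S24.Ord.adicValuation_eq _ hg]
  congr 2
  exact ord_placeEquiv k N (frobAut k q) v g

/-- at a `Fr²`-fixed place, `sig²` preserves the valuation -/
theorem adicValuation_sig_sig (v : Place k ↥(modularFunctionFieldFullC k N))
    (hv : Fr k N q (Fr k N q v) = v) (g : ↥(modularFunctionFieldFullC k N)) :
    v.adicValuation (sig k N q (sig k N q g)) = v.adicValuation g := by
  conv_lhs => rw [← hv]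
  rw [adicValuation_sig, adicValuation_sig]

/-- `phi g ∈ m_v ↔ g ∈ m_(Fr v)` -/
theorem adicValuation_phi_lt_one_iff (v : Place k ↥(modularFunctionFieldFullC k N))
    (g : ↥(modularFunctionFieldFullC k N)) :
    v.adicValuation (phi k N q g) < 1 ↔ (Fr k N q v).adicValuation g < 1 := by
  rcases eq_or_ne g 0 with rfl | hg
  · simp
  rw [← Fermat.Agent.S24.Ord.ord_pos_iff v (phi_ne_zero k N q hg),
    ← Fermat.Agent.S24.Ord.ord_pos_iff _ hg, ord_phi]
  have hq0 : (0 : ℤ) < q := by exact_mod_cast hq.out.pos
  constructor
  · intro h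
    by_contra hneg
    rw [not_lt] at hneg
    nlinarith
  · intro h
    positivity

/-- at a `Fr²`-fixed place: `phi (phi g) ∈ m_v ↔ g ∈ m_v` -/
theorem adicValuation_phi_phi_lt_one_iff (v : Place k ↥(modularFunctionFieldFullC k N))
    (hv : Fr k N q (Fr k N q v) = v) (g : ↥(modularFunctionFieldFullC k N)) :
    v.adicValuation (phi k N q (phi k N q g)) < 1 ↔ v.adicValuation g < 1 := by
  rw [adicValuation_phi_lt_one_iff, adicValuation_phi_lt_one_iff, hv]

/-! ### the reduced characteristic polynomial -/

/-- the reduction of the characteristic polynomial of `a(t^(q²))` over the level-`N` field, for a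
Gauss-integral `a` with reduction `f` (first-order Kronecker for a general function) -/
def redPoly (f : ↥(modularFunctionFieldFullC k N)) : (↥(modularFunctionFieldFullC k N))[X] :=
  (X - C (phi k N q (phi k N q f))) * (X ^ q ^ 2 - C (sig k N q (sig k N q f))) *
    (X - C f) ^ (q - 1)

theorem redPoly_monic (f : ↥(modularFunctionFieldFullC k N)) : (redPoly k N q f).Monic := by
  have hq2 : q ^ 2 ≠ 0 := pow_ne_zero _ hq.out.ne_zero
  exact ((monic_X_sub_C _).mul (monic_X_pow_sub_C _ hq2)).mul ((monic_X_sub_C _).pow _)

theorem redPoly_natDegree (f : ↥(modularFunctionFieldFullC k N)) :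
    (redPoly k N q f).natDegree = q ^ 2 + q := by
  have hq2 : q ^ 2 ≠ 0 := pow_ne_zero _ hq.out.ne_zero
  have hq1 : 1 ≤ q := hq.out.pos
  rw [redPoly, Monic.natDegree_mul ((monic_X_sub_C _).mul (monic_X_pow_sub_C _ hq2))
    ((monic_X_sub_C _).pow _), Monic.natDegree_mul (monic_X_sub_C _) (monic_X_pow_sub_C _ hq2),
    natDegree_X_sub_C, natDegree_X_pow_sub_C, Monic.natDegree_pow (monic_X_sub_C _),
    natDegree_X_sub_C]
  omega

section Eval

variable {k N q}
variable (v : Place k ↥(modularFunctionFieldFullC k N))

/-- the residue field of a place has characteristic `q` -/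
theorem charP_residueField : CharP (IsLocalRing.ResidueField v.toValuationSubring) q := by
  haveI : Nontrivial (IsLocalRing.ResidueField v.toValuationSubring) := inferInstance
  exact charP_of_injective_ringHom
    (f := ((IsLocalRing.residue v.toValuationSubring).comp
      (algebraMap k v.toValuationSubring))) (RingHom.injective _) q

/-- membership in the maximal ideal, in terms of the residue map -/
theorem residue_eq_zero_iff (z : v.toValuationSubring) :
    IsLocalRing.residue v.toValuationSubring z = 0 ↔ v.adicValuation (z : _) < 1 := by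
  rw [IsLocalRing.residue_eq_zero_iff, Fermat.Agent.S24.Ord.mem_maximalIdeal_iff]

/-- **Eisenstein shape at a supersingular point.**  At a place `v` with `Fr (Fr v) = v` at which
`f ≡ c mod m_v`, every coefficient of `redPoly f - (Y - c)^(q²+q)` lies in `m_v`. -/
theorem coeff_redPoly_sub_lt_one (hv : Fr k N q (Fr k N q v) = v)
    (f : ↥(modularFunctionFieldFullC k N)) (c : k)
    (hf : v.adicValuation (f - algebraMap k _ c) < 1) (n : ℕ) :
    v.adicValuation
      ((redPoly k N q f - (X - C (algebraMap k ↥(modularFunctionFieldFullC k N) c)) ^ (q ^ 2 + q)).coeff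
        n) < 1 := by
  haveI := charP_residueField (q := q) v
  set O := v.toValuationSubring with hO
  set res := IsLocalRing.residue O with hres
  -- the constant, and membership of the three elements in `O`
  have hcO : algebraMap k ↥(modularFunctionFieldFullC k N) c ∈ O := v.algebraMap_mem' c
  have hmem_of : ∀ g : ↥(modularFunctionFieldFullC k N), ∀ d : k,
      v.adicValuation (g - algebraMap k _ d) < 1 → g ∈ O := by
    intro g d hg
    have h1 : g - algebraMap k _ d ∈ O := (Fermat.Agent.S24.Ord.mem_iff v _).mpr hg.le
    have h2 : algebraMap k ↥(modularFunctionFieldFullC k N) d ∈ O := v.algebraMap_mem' d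
    have := O.add_mem _ _ h1 h2
    simpa using this
  have hphi : v.adicValuation (phi k N q (phi k N q f) - algebraMap k _ c) < 1 := by
    have : phi k N q (phi k N q f) - algebraMap k _ c =
        phi k N q (phi k N q (f - algebraMap k _ c)) := by
      rw [map_sub, map_sub, phi_algebraMap, phi_algebraMap]
    rw [this, adicValuation_phi_phi_lt_one_iff k N q v hv]
    exact hf
  have hsig : v.adicValuation (sig k N q (sig k N q f) - algebraMap k _ (c ^ q ^ 2)) < 1 := by
    have : sig k N q (sig k N q f) - algebraMap k _ (c ^ q ^ 2) =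
        sig k N q (sig k N q (f - algebraMap k _ c)) := by
      rw [map_sub, map_sub, sig_algebraMap, sig_algebraMap, ← pow_mul, ← pow_two]
    rw [this, adicValuation_sig_sig k N q v hv]
    exact hf
  have hfO : f ∈ O := hmem_of f c hf
  have haO : phi k N q (phi k N q f) ∈ O := hmem_of _ c hphi
  have hbO : sig k N q (sig k N q f) ∈ O := hmem_of _ _ hsig
  set f' : O := ⟨f, hfO⟩ with hf'
  set a' : O := ⟨phi k N q (phi k N q f), haO⟩ with ha'
  set b' : O := ⟨sig k N q (sig k N q f), hbO⟩ with hb'
  set c' : O := algebraMap k O c with hc'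
  -- residues
  have hresf : res f' = res c' := by
    rw [← sub_eq_zero, ← map_sub, hres, residue_eq_zero_iff]
    exact hf
  have hresa : res a' = res c' := by
    rw [← sub_eq_zero, ← map_sub, hres, residue_eq_zero_iff]
    exact hphi
  have hresb : res b' = res c' ^ q ^ 2 := by
    rw [← map_pow, ← sub_eq_zero, ← map_sub, hres, residue_eq_zero_iff]
    have : ((b' - c' ^ q ^ 2 : O) : ↥(modularFunctionFieldFullC k N)) =
        sig k N q (sig k N q f) - algebraMap k _ (c ^ q ^ 2) := by
      rw [map_pow]
      rfl
    rw [this]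
    exact hsig
  -- the lift of the difference to `O[X]`
  set P' : O[X] := (X - C a') * (X ^ q ^ 2 - C b') * (X - C f') ^ (q - 1) -
    (X - C c') ^ (q ^ 2 + q) with hP'
  have hmapP : P'.map (algebraMap O ↥(modularFunctionFieldFullC k N)) =
      redPoly k N q f - (X - C (algebraMap k ↥(modularFunctionFieldFullC k N) c)) ^ (q ^ 2 + q) := by
    rw [hP', redPoly]
    simp only [Polynomial.map_sub, Polynomial.map_mul, Polynomial.map_pow, Polynomial.map_X,
      Polynomial.map_C]
    rfl
  have hmapres : P'.map res = 0 := by
    rw [hP']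
    simp only [Polynomial.map_sub, Polynomial.map_mul, Polynomial.map_pow, Polynomial.map_X,
      Polynomial.map_C]
    rw [hresa, hresb, hresf, C_pow, ← sub_pow_char_pow, ← pow_succ', ← pow_add]
    have hq1 : 1 ≤ q := hq.out.pos
    rw [show q ^ 2 + 1 + (q - 1) = q ^ 2 + q by omega, sub_self]
  have hcoeff : res (P'.coeff n) = 0 := by
    rw [← Polynomial.coeff_map, hmapres, coeff_zero]
  rw [hres, residue_eq_zero_iff] at hcoeff
  rw [← hmapP, Polynomial.coeff_map]
  exact hcoeff

/-- the coefficients of `redPoly f` are regular at a `Fr²`-fixed place at which `f ≡ c` -/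
theorem coeff_redPoly_le_one (hv : Fr k N q (Fr k N q v) = v)
    (f : ↥(modularFunctionFieldFullC k N)) (c : k)
    (hf : v.adicValuation (f - algebraMap k _ c) < 1) (n : ℕ) :
    v.adicValuation ((redPoly k N q f).coeff n) ≤ 1 := by
  have h1 := (coeff_redPoly_sub_lt_one v hv f c hf n).le
  have h2 : v.adicValuation
      (((X - C (algebraMap k ↥(modularFunctionFieldFullC k N) c)) ^ (q ^ 2 + q)).coeff n) ≤ 1 := by
    rw [← Fermat.Agent.S24.Ord.mem_iff]
    have : ((X - C (algebraMap k ↥(modularFunctionFieldFullC k N) c)) ^ (q ^ 2 + q)) =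
        ((X - C c) ^ (q ^ 2 + q) : k[X]).map (algebraMap k _) := by
      simp
    rw [this, Polynomial.coeff_map]
    exact v.algebraMap_mem' _
  have h3 : (redPoly k N q f).coeff n =
      (redPoly k N q f - (X - C (algebraMap k ↥(modularFunctionFieldFullC k N) c)) ^ (q ^ 2 + q)).coeff n
        + ((X - C (algebraMap k ↥(modularFunctionFieldFullC k N) c)) ^ (q ^ 2 + q)).coeff n := by
    rw [← coeff_add, sub_add_cancel]
  rw [h3]
  exact Valuation.map_add_le _ h1 h2

/-- **the cofactor at a supersingular point.**  If `f - c` is a local parameter at the `Fr²`-fixed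
place `v`, the two outer factors of the reduced norm `T * (f - phi² f) * sig² (f - phi² f)` have
simple zeros at `v`. -/
theorem ord_cofactor (hv : Fr k N q (Fr k N q v) = v)
    (f : ↥(modularFunctionFieldFullC k N)) (c : k)
    (hf : v.ord (f - algebraMap k _ c) = 1) {T : ↥(modularFunctionFieldFullC k N)} (hT : T ≠ 0) :
    v.ord (T * (f - phi k N q (phi k N q f)) *
      sig k N q (sig k N q (f - phi k N q (phi k N q f)))) = v.ord T + 2 := by
  have h1 : v.ord (f - phi k N q (phi k N q f)) = 1 := by
    have := ord_sub_phi_phi k N q v hv (f - algebraMap k _ c) hf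
    rwa [map_sub, map_sub, phi_algebraMap, phi_algebraMap, sub_sub_sub_cancel_right] at this
  have hne : f - phi k N q (phi k N q f) ≠ 0 := by
    intro h0
    rw [h0] at h1
    simp at h1
  have hne2 : sig k N q (sig k N q (f - phi k N q (phi k N q f))) ≠ 0 :=
    (map_ne_zero_iff _ (sig k N q).injective).mpr
      ((map_ne_zero_iff _ (sig k N q).injective).mpr hne)
  have h2 : v.ord (sig k N q (sig k N q (f - phi k N q (phi k N q f)))) = 1 := by
    have hval := adicValuation_sig_sig k N q v hv (f - phi k N q (phi k N q f))
    rw [Fermat.Agent.S24.Ord.ord_eq, hval, ← Fermat.Agent.S24.Ord.ord_eq, h1]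
  rw [Place.ord_mul v (mul_ne_zero hT hne) hne2, Place.ord_mul v hT hne, h1, h2]
  ring

end Eval

end Fermat.Agent.S36.TripleEval
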