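/-
PROJECT V (S36), slice V-TripleUnit (helper22): **`R_a` is a unit at a supersingular point**
(chain (V12)(iii), the hypothesis `hr` of `S36/TripleLocal.eisensteinFibre_localization`).

`k` a perfect field of characteristic `q`, `κ = F_k(N) ⊆ k((t))`, `v` a place of `κ` with
`Fr (Fr v) = v`, `f ∈ κ` with `f - c` a local parameter at `v` (`c ∈ k`), and `ρ ∈ κ` with
`t`-expansion

  `ρ = (f - φ²f) (φ²σ²f - σ²f) · (θ f)^(q-1)`

(`ρ = red0 R_a`, `f = red0 a` : `S36/CharpolyK0Psi.exists_diag_psiK0`,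
`S36/CharpolyGauss.exists_diag_kappa`, `S36/NormDiagRed.exists_diagI_kappa`).  If the count
(`S36/CountX0.count_X0` at the parameter `π = f - c`) says that `Θ ∈ κ` with expansion
`(θ π)^(q-1)` has order `-2` at `v`, then `ρ` has order `0` at `v`: it is a unit of the local ring
at `v`.

* `phi_sig_comm` : `φ σ = σ φ`; `cofactor_eq` : `(f - φ²f)(φ²σ²f - σ²f) = -(f - φ²f) σ²(f - φ²f)`;
* `ord_cofactor_two` : this product has order `2` at `v`;
* `exists_theta` : `Θ := ρ / ((f - φ²f)(φ²σ²f - σ²f)) ∈ κ` has expansion `(θ f)^(q-1)`;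
* `ord_eq_zero_of_count`, `adicValuation_eq_one_of_count`, `isUnit_of_count`.
-/
import Mathlib
import Fermat.Agent.S36.TripleEval
import Fermat.Agent.S36.DiagTheta
import Fermat.Agent.S36.DiffPow
import Fermat.Agent.S36.HurwitzCount.X0

set_option autoImplicit false
set_option linter.unusedSectionVars false
set_option linter.style.haveILetI false

noncomputable section

namespace Fermat.Agent.S36.TripleUnit

open AlgebraicCurve ModularCurve Polynomial
open Fermat.Agent.S37.Equivariance.CoeffAut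
open Fermat.Agent.S34.FrobK Fermat.Agent.S36.TripleEval
open Fermat.Agent.S36.DiagTheta Fermat.Agent.S36.ThetaL

variable {k : Type*} [Field k] {N : ℕ} [NeZero N] {q : ℕ} [hq : Fact q.Prime] [CharP k q]
  [PerfectField k]

set_option quotPrecheck false in
local notation "κ" => ↥(modularFunctionFieldFullC k N)

theorem coe_sig (g : κ) :
    ((sig k N q g : κ) : LaurentSeries k) = coeffMap (frobenius k q) (g : LaurentSeries k) := by
  rw [sig, coe_coeffRingAut_apply]
  exact coeffMap_congr (RingHom.ext fun c => by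
    show frobAut k q c = frobenius k q c
    rw [frobAut_apply, frobenius_def]) _

/-- `φ σ = σ φ` -/
theorem phi_sig_comm (g : κ) : phi k N q (sig k N q g) = sig k N q (phi k N q g) := by
  haveI : NeZero q := ⟨hq.out.ne_zero⟩
  apply Subtype.ext
  rw [coe_phi, coe_sig, coe_sig, coe_phi]
  exact (Fermat.Agent.S28.PrimeCaseForm.coeffMap_qExpand (frobenius k q) q _).symm

/-- `(f - φ²f)(φ²σ²f - σ²f) = -(f - φ²f) σ²(f - φ²f)` -/
theorem cofactor_eq (f : κ) :
    (f - phi k N q (phi k N q f)) *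
        (phi k N q (phi k N q (sig k N q (sig k N q f))) - sig k N q (sig k N q f)) =
      -((f - phi k N q (phi k N q f)) * sig k N q (sig k N q (f - phi k N q (phi k N q f)))) := by
  have h : sig k N q (sig k N q (phi k N q (phi k N q f))) =
      phi k N q (phi k N q (sig k N q (sig k N q f))) := by
    rw [← phi_sig_comm (phi k N q f), ← phi_sig_comm (sig k N q (phi k N q f)),
      ← phi_sig_comm f, ← phi_sig_comm (sig k N q f)]
  rw [map_sub, map_sub, h]
  ring

/-- the cofactor `(f - φ²f)(φ²σ²f - σ²f) ∈ κ` -/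
def cof (f : κ) : κ :=
  (f - phi k N q (phi k N q f)) *
    (phi k N q (phi k N q (sig k N q (sig k N q f))) - sig k N q (sig k N q f))

theorem cof_def (f : κ) :
    cof (q := q) f = (f - phi k N q (phi k N q f)) *
      (phi k N q (phi k N q (sig k N q (sig k N q f))) - sig k N q (sig k N q f)) := rfl

/-- the two outer factors of the cofactor have simple zeros at a supersingular point -/
theorem ord_cofactor_two (v : Place k κ) (hv : Fr k N q (Fr k N q v) = v) (f : κ) (c : k)
    (hf : v.ord (f - algebraMap k κ c) = 1) :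
    cof (q := q) f ≠ 0 ∧ v.ord (cof (q := q) f) = 2 := by
  unfold cof
  have h := ord_cofactor v hv f c hf (T := (1 : κ)) one_ne_zero
  rw [one_mul, Place.ord_one, zero_add] at h
  have hne : (f - phi k N q (phi k N q f)) *
      sig k N q (sig k N q (f - phi k N q (phi k N q f))) ≠ 0 := by
    intro h0
    rw [h0] at h
    simp at h
  rw [cofactor_eq]
  refine ⟨neg_ne_zero.mpr hne, ?_⟩
  rw [neg_eq_neg_one_mul, Place.ord_mul v (neg_ne_zero.mpr one_ne_zero) hne, h]
  have h1 : v.ord (-1 : κ) = 0 := by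
    have h2 : v.ord ((-1 : κ) * (-1 : κ)) = v.ord (-1 : κ) + v.ord (-1 : κ) :=
      Place.ord_mul v (neg_ne_zero.mpr one_ne_zero) (neg_ne_zero.mpr one_ne_zero)
    rw [neg_one_mul, neg_neg, Place.ord_one] at h2
    omega
  rw [h1, zero_add]

/-- `Θ := ρ / cof f ∈ κ` has the expansion `(θ f)^(q-1)` -/
theorem exists_theta (v : Place k κ) (hv : Fr k N q (Fr k N q v) = v) (f : κ) (c : k)
    (hf : v.ord (f - algebraMap k κ c) = 1) (ρ : κ)
    (hρ : (ρ : LaurentSeries k) =
      ((cof (q := q) f : κ) : LaurentSeries k) * theta (f : LaurentSeries k) ^ (q - 1)) :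
    ∃ Θ : κ, (Θ : LaurentSeries k) = theta (f : LaurentSeries k) ^ (q - 1) ∧
      ρ = cof (q := q) f * Θ := by
  obtain ⟨hne, -⟩ := ord_cofactor_two v hv f c hf
  have hne' : ((cof (q := q) f : κ) : LaurentSeries k) ≠ 0 := by
    intro h0
    exact hne (Subtype.ext h0)
  refine ⟨ρ / cof (q := q) f, ?_, ?_⟩
  · rw [IntermediateField.coe_div, hρ, mul_div_cancel_left₀ _ hne']
  · rw [mul_div_cancel₀ _ hne]

/-- **`R_a` has order `0` at a supersingular point**, from the count (`Θ` has order `-2`). -/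
theorem ord_eq_zero_of_count (v : Place k κ) (hv : Fr k N q (Fr k N q v) = v) (f : κ) (c : k)
    (hf : v.ord (f - algebraMap k κ c) = 1) (ρ : κ)
    (hρ : (ρ : LaurentSeries k) =
      ((cof (q := q) f : κ) : LaurentSeries k) * theta (f : LaurentSeries k) ^ (q - 1))
    (hcount : ∀ Θ : κ,
      (Θ : LaurentSeries k) = thetaL ((f - algebraMap k κ c : κ) : LaurentSeries k) ^ (q - 1) →
        v.ord Θ = -2) :
    v.ord ρ = 0 := by
  obtain ⟨hne, hord⟩ := ord_cofactor_two v hv f c hf
  obtain ⟨Θ, hΘ, hρΘ⟩ := exists_theta v hv f c hf ρ hρ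
  have hΘ2 : v.ord Θ = -2 := by
    apply hcount
    rw [hΘ, Fermat.Agent.S36.DiffPow.theta_eq_thetaL]
    congr 1
    have h1 : ((f - algebraMap k κ c : κ) : LaurentSeries k) =
        (f : LaurentSeries k) - HahnSeries.C c := by
      show (f : LaurentSeries k) - algebraMap k (LaurentSeries k) c = _
      rw [Fermat.Agent.S18.B.Basic.algebraMap_eq_C]
    rw [h1, thetaL_sub, thetaL_C, sub_zero]
  have hΘne : Θ ≠ 0 := by
    intro h0
    rw [h0] at hΘ2
    simp at hΘ2
  rw [hρΘ, Place.ord_mul v hne hΘne]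
  omega

/-- the same in valuation form -/
theorem adicValuation_eq_one_of_count (v : Place k κ) (hv : Fr k N q (Fr k N q v) = v) (f : κ)
    (c : k) (hf : v.ord (f - algebraMap k κ c) = 1) (ρ : κ)
    (hρ : (ρ : LaurentSeries k) =
      ((cof (q := q) f : κ) : LaurentSeries k) * theta (f : LaurentSeries k) ^ (q - 1))
    (hcount : ∀ Θ : κ,
      (Θ : LaurentSeries k) = thetaL ((f - algebraMap k κ c : κ) : LaurentSeries k) ^ (q - 1) →
        v.ord Θ = -2) :
    ρ ≠ 0 ∧ v.adicValuation ρ = 1 := by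
  have h0 := ord_eq_zero_of_count v hv f c hf ρ hρ hcount
  obtain ⟨hne, -⟩ := ord_cofactor_two v hv f c hf
  obtain ⟨Θ, hΘ, hρΘ⟩ := exists_theta v hv f c hf ρ hρ
  have hΘne : Θ ≠ 0 := by
    intro hz
    have h2 : v.ord Θ = -2 := by
      apply hcount
      rw [hΘ, Fermat.Agent.S36.DiffPow.theta_eq_thetaL]
      congr 1
      have h1 : ((f - algebraMap k κ c : κ) : LaurentSeries k) =
          (f : LaurentSeries k) - HahnSeries.C c := by
        show (f : LaurentSeries k) - algebraMap k (LaurentSeries k) c = _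
        rw [Fermat.Agent.S18.B.Basic.algebraMap_eq_C]
      rw [h1, thetaL_sub, thetaL_C, sub_zero]
    rw [hz] at h2
    simp at h2
  have hρne : ρ ≠ 0 := by
    rw [hρΘ]
    exact mul_ne_zero hne hΘne
  refine ⟨hρne, ?_⟩
  rw [Fermat.Agent.S24.Ord.adicValuation_eq v hρne, h0, neg_zero, WithZero.exp_zero]

/-- **`hr`**: `ρ` is a unit of the valuation ring of `v`. -/
theorem isUnit_of_count (v : Place k κ) (hv : Fr k N q (Fr k N q v) = v) (f : κ) (c : k)
    (hf : v.ord (f - algebraMap k κ c) = 1) (ρ : κ)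
    (hρ : (ρ : LaurentSeries k) =
      ((cof (q := q) f : κ) : LaurentSeries k) * theta (f : LaurentSeries k) ^ (q - 1))
    (hcount : ∀ Θ : κ,
      (Θ : LaurentSeries k) = thetaL ((f - algebraMap k κ c : κ) : LaurentSeries k) ^ (q - 1) →
        v.ord Θ = -2) :
    ∃ hmem : ρ ∈ v.toValuationSubring, IsUnit (⟨ρ, hmem⟩ : v.toValuationSubring) := by
  obtain ⟨hne, hval⟩ := adicValuation_eq_one_of_count v hv f c hf ρ hρ hcount
  have hmem : ρ ∈ v.toValuationSubring := (Fermat.Agent.S24.Ord.mem_iff v ρ).mpr hval.le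
  refine ⟨hmem, ?_⟩
  by_contra hnu
  have h1 : (⟨ρ, hmem⟩ : v.toValuationSubring) ∈ IsLocalRing.maximalIdeal v.toValuationSubring :=
    (IsLocalRing.mem_maximalIdeal _).mpr hnu
  rw [Fermat.Agent.S24.Ord.mem_maximalIdeal_iff] at h1
  rw [hval] at h1
  exact lt_irrefl _ h1

/-- **`hr` from the count in the literal shape of `CountX0.count_X0`** (`D = thetaDer`). -/
theorem isUnit_of_count_thetaDer (v : Place k κ) (hv : Fr k N q (Fr k N q v) = v) (f : κ) (c : k)
    (hf : v.ord (f - algebraMap k κ c) = 1) (ρ : κ)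
    (hρ : (ρ : LaurentSeries k) =
      ((cof (q := q) f : κ) : LaurentSeries k) * theta (f : LaurentSeries k) ^ (q - 1))
    (hcount : ∀ Θ : κ,
      (Fermat.Agent.S36.HurwitzCount.X0.thetaDer k N (f - algebraMap k κ c)) ^ (q - 1) =
        algebraMap κ (LaurentSeries k) Θ → v.ord Θ = -2) :
    ∃ hmem : ρ ∈ v.toValuationSubring, IsUnit (⟨ρ, hmem⟩ : v.toValuationSubring) :=
  isUnit_of_count v hv f c hf ρ hρ fun Θ hΘ => hcount Θ (by
    rw [Fermat.Agent.S36.HurwitzCount.X0.thetaDer_apply, ← hΘ]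
    rfl)

end Fermat.Agent.S36.TripleUnit
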