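/-
PROJECT V (S36), chain (V13) -> (V12), WIRING OF THE COUNT INTO ITS TWO CONSUMERS (helper29).

`A` a valuation ring of `ℚ̄` over `q ∤ M`, `k = κ(A)`, `κ_M = F_k(M)`, `S` the node set (any finite set
of places, `Fr²`-fixed, off the cusps, describing `Rbar0`: `NodesDesc.Desc`).  Inputs: Riemann's
theorem on both sides (`HL HM`), an auxiliary prime `r ≡ 11 mod 12`, `r ∣ M`, and the one-sided
bound `hb0` at the ordinary points (`S36/CountX0Final.count_final_aux`).

* `hΘ_final` : **(C)** = the literal hypothesis `hΘ` of `ThickOrdX0.exists_h11_ord` at a finite place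
  `b ∉ S` with `Ob := b.toValuationSubring`: for a local parameter `π` at `b`,
  `∀ Θ : κ, (Θ : k((t))) = (theta π)^(q-1) → Θ ≠ 0 ∧ Θ⁻¹ ∈ Ob`  (`ThickCountX0.hΘ_of_count`).
* `isUnit_final` : **`hr`** of `S36/TripleLocal` / `TripleFinal` at a node `v ∈ S`: if `f - c` is a
  local parameter at `v` and `ρ ∈ κ` has the expansion `cof f · (theta f)^(q-1)` (`ρ = red0 R_a`),
  then `ρ` is a unit of the valuation ring of `v`  (`TripleUnit.isUnit_of_count`).
* `ord_theta_node` / `ord_theta_ord` : the two halves of the count as separate statements.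
-/
import Mathlib
import Fermat.Agent.S36.CountX0Final
import Fermat.Agent.S36.ThickCountX0
import Fermat.Agent.S36.TripleUnit

set_option autoImplicit false
set_option linter.unusedSectionVars false
set_option linter.style.haveILetI false

noncomputable section

namespace Fermat.Agent.S36.CountWire

open HahnSeries ModularCurve Polynomial AlgebraicCurve IntermediateField IsLocalRing
open Fermat.Agent.S24.DegreeAlg (jgen)
open Fermat.Agent.S18.B.FkBasics (jk)
open Fermat.Agent.S18.C Fermat.Agent.S37.Gauss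
open Fermat.Agent.S34.FrobK
open Fermat.Agent.S18.NonSpecial
open Fermat.Agent.S36.ThetaL Fermat.Agent.S36.DiagTheta

local notation "Kb" => AlgebraicClosure ℚ

set_option synthInstance.maxHeartbeats 400000
set_option maxHeartbeats 1600000

attribute [local instance 2000] Fermat.Agent.S18.C.KModelX0.algkFk

variable {q : ℕ} [hq : Fact q.Prime] [NeZero q] {M : ℕ} [NeZero M] {A : ValuationSubring Kb}

/-- the count at an ordinary point: `ord_b Θ = 0` -/
theorem ord_theta_ord (hA : A.LiesOverPrime q) (hqM : ¬ q ∣ M)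
    [IsAlgClosed (ResidueField ↥A)] [CharP (ResidueField ↥A) q] {g gM : ℕ}
    (HL : RiemannHyp Kb ↥(modularFunctionFieldBar (M * q)) g)
    (HM : RiemannHyp (ResidueField ↥A) ↥(modularFunctionFieldFullC (ResidueField ↥A) M) gM)
    {r : ℕ} (hr : r.Prime) (hr12 : r % 12 = 11) (hrM : r ∣ M)
    (S : Finset (Place (ResidueField ↥A) ↥(modularFunctionFieldFullC (ResidueField ↥A) M)))
    (hS2 : ∀ b ∈ S, Fr (ResidueField ↥A) M q (Fr (ResidueField ↥A) M q b) = b)
    (hS0 : ∀ b ∈ S, b ∉ Fermat.Agent.S34.Euler.FrobSide.P0 (ResidueField ↥A) M)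
    (hd : Fermat.Agent.S36.NodesDesc.Desc hA hqM S)
    (hb0 : ∀ b : Place (ResidueField ↥A) ↥(modularFunctionFieldFullC (ResidueField ↥A) M),
      b ∉ S → 0 ≤ b.ord (jk (ResidueField ↥A) M) →
      ∃ π Θ : ↥(modularFunctionFieldFullC (ResidueField ↥A) M), b.ord π = 1 ∧
        thetaL (π : LaurentSeries (ResidueField ↥A)) ^ (q - 1) =
          (Θ : LaurentSeries (ResidueField ↥A)) ∧ 0 ≤ b.ord Θ)
    (b : Place (ResidueField ↥A) ↥(modularFunctionFieldFullC (ResidueField ↥A) M))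
    (hbS : b ∉ S) (hb : 0 ≤ b.ord (jk (ResidueField ↥A) M))
    {π Θ : ↥(modularFunctionFieldFullC (ResidueField ↥A) M)} (hπ : b.ord π = 1)
    (hΘ : thetaL (π : LaurentSeries (ResidueField ↥A)) ^ (q - 1) =
      (Θ : LaurentSeries (ResidueField ↥A))) : b.ord Θ = 0 :=
  (Fermat.Agent.S36.CountX0Final.count_final_aux hA hqM HL HM hr hr12 hrM S hS2 hS0 hd hb0 b hb
    hπ hΘ).2 hbS

/-- the count at a node: `ord_b Θ = -2` -/
theorem ord_theta_node (hA : A.LiesOverPrime q) (hqM : ¬ q ∣ M)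
    [IsAlgClosed (ResidueField ↥A)] [CharP (ResidueField ↥A) q] {g gM : ℕ}
    (HL : RiemannHyp Kb ↥(modularFunctionFieldBar (M * q)) g)
    (HM : RiemannHyp (ResidueField ↥A) ↥(modularFunctionFieldFullC (ResidueField ↥A) M) gM)
    {r : ℕ} (hr : r.Prime) (hr12 : r % 12 = 11) (hrM : r ∣ M)
    (S : Finset (Place (ResidueField ↥A) ↥(modularFunctionFieldFullC (ResidueField ↥A) M)))
    (hS2 : ∀ b ∈ S, Fr (ResidueField ↥A) M q (Fr (ResidueField ↥A) M q b) = b)
    (hS0 : ∀ b ∈ S, b ∉ Fermat.Agent.S34.Euler.FrobSide.P0 (ResidueField ↥A) M)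
    (hd : Fermat.Agent.S36.NodesDesc.Desc hA hqM S)
    (hb0 : ∀ b : Place (ResidueField ↥A) ↥(modularFunctionFieldFullC (ResidueField ↥A) M),
      b ∉ S → 0 ≤ b.ord (jk (ResidueField ↥A) M) →
      ∃ π Θ : ↥(modularFunctionFieldFullC (ResidueField ↥A) M), b.ord π = 1 ∧
        thetaL (π : LaurentSeries (ResidueField ↥A)) ^ (q - 1) =
          (Θ : LaurentSeries (ResidueField ↥A)) ∧ 0 ≤ b.ord Θ)
    (b : Place (ResidueField ↥A) ↥(modularFunctionFieldFullC (ResidueField ↥A) M))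
    (hbS : b ∈ S)
    {π Θ : ↥(modularFunctionFieldFullC (ResidueField ↥A) M)} (hπ : b.ord π = 1)
    (hΘ : thetaL (π : LaurentSeries (ResidueField ↥A)) ^ (q - 1) =
      (Θ : LaurentSeries (ResidueField ↥A))) : b.ord Θ = -2 :=
  (Fermat.Agent.S36.CountX0Final.count_final_aux hA hqM HL HM hr hr12 hrM S hS2 hS0 hd hb0 b
    ((Fermat.Agent.S36.EulerExact.Desc.not_mem_P0_iff_ord_nonneg b).mp (hS0 b hbS)) hπ hΘ).1 hbS

/-- **(C)**: the literal hypothesis `hΘ` of `ThickOrdX0.exists_h11_ord` at an ordinary finite place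
`b ∉ S`, `Ob := b.toValuationSubring`, for ANY local parameter `π` at `b` (e.g. `π = red0K g`). -/
theorem hΘ_final (hA : A.LiesOverPrime q) (hqM : ¬ q ∣ M)
    [IsAlgClosed (ResidueField ↥A)] [CharP (ResidueField ↥A) q] {g gM : ℕ}
    (HL : RiemannHyp Kb ↥(modularFunctionFieldBar (M * q)) g)
    (HM : RiemannHyp (ResidueField ↥A) ↥(modularFunctionFieldFullC (ResidueField ↥A) M) gM)
    {r : ℕ} (hr : r.Prime) (hr12 : r % 12 = 11) (hrM : r ∣ M)
    (S : Finset (Place (ResidueField ↥A) ↥(modularFunctionFieldFullC (ResidueField ↥A) M)))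
    (hS2 : ∀ b ∈ S, Fr (ResidueField ↥A) M q (Fr (ResidueField ↥A) M q b) = b)
    (hS0 : ∀ b ∈ S, b ∉ Fermat.Agent.S34.Euler.FrobSide.P0 (ResidueField ↥A) M)
    (hd : Fermat.Agent.S36.NodesDesc.Desc hA hqM S)
    (hb0 : ∀ b : Place (ResidueField ↥A) ↥(modularFunctionFieldFullC (ResidueField ↥A) M),
      b ∉ S → 0 ≤ b.ord (jk (ResidueField ↥A) M) →
      ∃ π Θ : ↥(modularFunctionFieldFullC (ResidueField ↥A) M), b.ord π = 1 ∧
        thetaL (π : LaurentSeries (ResidueField ↥A)) ^ (q - 1) =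
          (Θ : LaurentSeries (ResidueField ↥A)) ∧ 0 ≤ b.ord Θ)
    (b : Place (ResidueField ↥A) ↥(modularFunctionFieldFullC (ResidueField ↥A) M))
    (hbS : b ∉ S) (hb : 0 ≤ b.ord (jk (ResidueField ↥A) M))
    {π : ↥(modularFunctionFieldFullC (ResidueField ↥A) M)} (hπ : b.ord π = 1)
    (Θ : ↥(modularFunctionFieldFullC (ResidueField ↥A) M))
    (hΘ : (Θ : LaurentSeries (ResidueField ↥A)) =
      (theta (π : LaurentSeries (ResidueField ↥A))) ^ (q - 1)) :
    Θ ≠ 0 ∧ Θ⁻¹ ∈ b.toValuationSubring := by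
  have hsep := Fermat.Agent.S18.B.SeparableFk.isSeparable_jk (ResidueField ↥A) M
  exact Fermat.Agent.S36.ThickCountX0.hΘ_of_count hA M hsep b
    ((Fermat.Agent.S36.CountX0.not_mem_poles_iff hsep b).mpr hb) hπ
    (fun Θ' hΘ' => ord_theta_ord hA hqM HL HM hr hr12 hrM S hS2 hS0 hd hb0 b hbS hb hπ hΘ') Θ hΘ

/-- **`hr`** at a node `v ∈ S`: `ρ` with expansion `cof f · (theta f)^(q-1)` is a unit at `v`, for
`f - c` a local parameter at `v`. -/
theorem isUnit_final (hA : A.LiesOverPrime q) (hqM : ¬ q ∣ M)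
    [IsAlgClosed (ResidueField ↥A)] [CharP (ResidueField ↥A) q] [PerfectField (ResidueField ↥A)]
    {g gM : ℕ}
    (HL : RiemannHyp Kb ↥(modularFunctionFieldBar (M * q)) g)
    (HM : RiemannHyp (ResidueField ↥A) ↥(modularFunctionFieldFullC (ResidueField ↥A) M) gM)
    {r : ℕ} (hr : r.Prime) (hr12 : r % 12 = 11) (hrM : r ∣ M)
    (S : Finset (Place (ResidueField ↥A) ↥(modularFunctionFieldFullC (ResidueField ↥A) M)))
    (hS2 : ∀ b ∈ S, Fr (ResidueField ↥A) M q (Fr (ResidueField ↥A) M q b) = b)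
    (hS0 : ∀ b ∈ S, b ∉ Fermat.Agent.S34.Euler.FrobSide.P0 (ResidueField ↥A) M)
    (hd : Fermat.Agent.S36.NodesDesc.Desc hA hqM S)
    (hb0 : ∀ b : Place (ResidueField ↥A) ↥(modularFunctionFieldFullC (ResidueField ↥A) M),
      b ∉ S → 0 ≤ b.ord (jk (ResidueField ↥A) M) →
      ∃ π Θ : ↥(modularFunctionFieldFullC (ResidueField ↥A) M), b.ord π = 1 ∧
        thetaL (π : LaurentSeries (ResidueField ↥A)) ^ (q - 1) =
          (Θ : LaurentSeries (ResidueField ↥A)) ∧ 0 ≤ b.ord Θ)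
    (v : Place (ResidueField ↥A) ↥(modularFunctionFieldFullC (ResidueField ↥A) M))
    (hvS : v ∈ S)
    (f : ↥(modularFunctionFieldFullC (ResidueField ↥A) M)) (c : ResidueField ↥A)
    (hf : v.ord (f - algebraMap (ResidueField ↥A)
      ↥(modularFunctionFieldFullC (ResidueField ↥A) M) c) = 1)
    (ρ : ↥(modularFunctionFieldFullC (ResidueField ↥A) M))
    (hρ : (ρ : LaurentSeries (ResidueField ↥A)) =
      ((Fermat.Agent.S36.TripleUnit.cof (q := q) f :
        ↥(modularFunctionFieldFullC (ResidueField ↥A) M)) : LaurentSeries (ResidueField ↥A)) *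
        theta (f : LaurentSeries (ResidueField ↥A)) ^ (q - 1)) :
    ∃ hmem : ρ ∈ v.toValuationSubring, IsUnit (⟨ρ, hmem⟩ : v.toValuationSubring) :=
  Fermat.Agent.S36.TripleUnit.isUnit_of_count v (hS2 v hvS) f c hf ρ hρ fun _ hΘ =>
    ord_theta_node hA hqM HL HM hr hr12 hrM S hS2 hS0 hd hb0 v hvS hf hΘ.symm

end Fermat.Agent.S36.CountWire
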