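/-
PROJECT V (S36), slice V-ThickOrdFinal (helper13): **(V12)(ii) at `X₀`, one call**: the `h11`
tuple of `AllPointsT.locPrincipal_of_isMaximal` at EVERY ordinary place of the fin chart, with the
three external inputs of `ThickOrdX0.exists_h11_ord` discharged:

* (L) a local parameter `π̄ ∈ chart k J` at `b` (`SpecDictLocal.exists_ord_eq_one`) and its lift
  `g ∈ chart (W A) j ∩ Og0`, `red0z g = π̄` (`LiftK0ChartU0.exists_chart_lift_U0`);
* (M) `a₀ g, a₂ g ∈ chart (W A) x₂` (`ChartsX0.a_mem_chartX0_x2`), so `z = a₂ g - a₀ g` lies in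
  any presentation `R` of the chart ring (`hR`);
* (C) `(θ π̄)^(q-1)` is a unit at `b` (`ThickCountX0.hΘ_of_count`) from the literal conclusion of
  the count at `b` (`hcount`, = `HurwitzCount.X0.count_kappa` / `CountX0.count_X0` at `b ∉ S`).

Remaining hypotheses: `Y : ThreeValX0.Hyp I N0 q κ` + Link (`hV1`, `hred1`), the TDatum link
(`hϖ hle e he hr11`), the dictionary `hOb` between the maximal ideal `n` of `B` and the place `b`,
Deuring's `Hyp`, `hsep`.
-/
import Mathlib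
import Fermat.Agent.S36.ThickOrdX0
import Fermat.Agent.S36.ThickCountX0
import Fermat.Agent.S36.LiftK0ChartU0
import Fermat.Agent.S36.ChartsX0

set_option autoImplicit false
set_option linter.unusedSectionVars false
set_option linter.style.haveILetI false
set_option linter.unusedVariables false
set_option synthInstance.maxHeartbeats 400000
set_option maxHeartbeats 1000000

noncomputable section

namespace Fermat.Agent.S36.ThickOrdFinal

open ModularCurve AlgebraicCurve IntermediateField IsLocalRing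
open Fermat.Agent.S18.B.FkBasics (jk isFF)
open Fermat.Agent.S18.A.FibreSep
open Fermat.Agent.S18.C.SmallDVR
open Fermat.Agent.S36.ChartRing Fermat.Agent.S36.ChartX0 Fermat.Agent.S36.GaussK0Comap
open Fermat.Agent.S36.PowerBasisK0 Fermat.Agent.S36.ThetaK0 Fermat.Agent.S36.LevelQK0
open Fermat.Agent.S36.MiddleCuspK0
open Fermat.Agent.S36.ThetaL
open Fermat.Agent.S36.AllPoints
open Fermat.Agent.S37.Gauss Fermat.Agent.S37.Deuring.Core

local notation "Kb" => AlgebraicClosure ℚ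

variable {q : ℕ} [hq : Fact q.Prime] {N0 : ℕ} [NeZero N0] {A : ValuationSubring Kb}
variable {hA : A.LiesOverPrime q} {hqN : ¬ q ∣ N0} [NeZero q] {gL gk : ℕ}

/-- helper10's `O₀`-algebra structure, on the type written as `PowerBasisK0.FK` -/
local instance algWFK' (N : ℕ) : Algebra ↥(W A) (FK (A.inertiaSubgroupIn ℚ) N) := algebraW A N

variable {R₁ R B : Type*} [CommRing R₁] [CommRing R] [CommRing B]
  [IsDomain R] [IsNoetherianRing R] [IsIntegrallyClosed R] [IsDomain B]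
  [Algebra R (FK (A.inertiaSubgroupIn ℚ) (N0 * q * q))]
  [IsFractionRing R (FK (A.inertiaSubgroupIn ℚ) (N0 * q * q))]

/-- **(V12)(ii) at `X₀`**: the `h11` tuple at an ordinary place `b` of the fin chart. -/
theorem exists_h11_ordinary (Hd : Hyp (Datum.gaussDatum N0 A hA hqN) gL gk)
    [IsAlgClosed (ResidueField ↥A)]
    (hsep : Algebra.IsSeparable (ResidueField ↥A)⟮jk (ResidueField ↥A) N0⟯
      ↥(modularFunctionFieldFullC (ResidueField ↥A) N0))
    (hR : ∀ x ∈ chartX0 A (N0 * q * q) (Fermat.Agent.S36.ChartsX0.x2 (A.inertiaSubgroupIn ℚ) N0 q),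
      ∃ a : R, algebraMap R (FK (A.inertiaSubgroupIn ℚ) (N0 * q * q)) a = x)
    (D : BranchCoreT.TDatum R₁ R B)
    (Y : ThreeValX0.Hyp (A.inertiaSubgroupIn ℚ) N0 q
      ↥(modularFunctionFieldFullC (ResidueField ↥A) N0))
    (hV1 : Y.V₁ = V1K (A.inertiaSubgroupIn ℚ) hA hqN)
    (hred1 : ∀ (x : FK (A.inertiaSubgroupIn ℚ) (N0 * q)) (h : x ∈ Y.V₁)
      (h' : x ∈ V1K (A.inertiaSubgroupIn ℚ) hA hqN),
      Y.red₁ ⟨x, h⟩ = red1K (A.inertiaSubgroupIn ℚ) hA hqN ⟨x, h'⟩)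
    {n : Ideal B} (hn : n.IsMaximal) (hS : n ∉ D.S)
    {ζ : Kbˣ} (hζ : IsPrimitiveRoot ζ q)
    (hϖ : algebraMap R (FK (A.inertiaSubgroupIn ℚ) (N0 * q * q)) D.ϖ =
      ((q : ℕ) : FK (A.inertiaSubgroupIn ℚ) (N0 * q * q)))
    (hle : ∀ a : R, algebraMap R (FK (A.inertiaSubgroupIn ℚ) (N0 * q * q)) a ∈ Y.W₁₁)
    (e : B →+* ↥(modularFunctionFieldFullC (ResidueField ↥A) N0)) (he : Function.Injective e)
    (hr11 : ∀ a : R, e (D.r11 a) =
      Y.r₁₁ ⟨algebraMap R (FK (A.inertiaSubgroupIn ℚ) (N0 * q * q)) a, hle a⟩)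
    (b : Place (ResidueField ↥A) ↥(modularFunctionFieldFullC (ResidueField ↥A) N0))
    (hb : b ∉ poles (isFF (ResidueField ↥A) N0) hsep)
    (hOb : ∀ x : B, x ∈ n ↔ e x = 0 ∨ (e x)⁻¹ ∉ b.toValuationSubring)
    (hcount : ∀ π Θ : ↥(modularFunctionFieldFullC (ResidueField ↥A) N0), b.ord π = 1 →
      thetaL (π : LaurentSeries (ResidueField ↥A)) ^ (q - 1) =
        (Θ : LaurentSeries (ResidueField ↥A)) → b.ord Θ = 0) :
    ∃ z : R, z ≠ 0 ∧ z ∈ RingHom.ker D.r11 ∧ BranchEq (RingHom.ker D.r11) z ∧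
      ∃ (s c : R) (k : ℕ), 0 < k ∧ c ∉ D.x11 n ∧ s * z ^ k = D.ϖ * c := by
  haveI : CharP (ResidueField ↥A) q := Fermat.Agent.S34.GaussPairX0.charP_res hA
  haveI : PerfectField (ResidueField ↥A) := inferInstance
  have hx := isFF (ResidueField ↥A) N0
  -- (L) a local parameter in the chart and its lift
  have hJb : jk (ResidueField ↥A) N0 ∈ b.toValuationSubring :=
    (Fermat.Agent.S24.Ord.mem_iff b _).mpr
      (Fermat.Agent.S36.HurwitzCount.Main.adicValuation_le_one_of_not_mem_poles hx hsep hb)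
  obtain ⟨π, hπ⟩ := Fermat.Agent.S36.SpecDictLocal.exists_ord_eq_one hx hsep b hJb
  obtain ⟨g, hgchart, hgO, hgred⟩ :=
    Fermat.Agent.S36.LiftK0ChartU0.exists_chart_lift_U0 hA hqN Hd
      (π : ↥(modularFunctionFieldFullC (ResidueField ↥A) N0)) π.2
  -- (M) `a₂ g - a₀ g` lies in the chart
  obtain ⟨h0, -, h2⟩ := Fermat.Agent.S36.ChartsX0.a_mem_chartX0_x2 (q := q) A N0 hgchart
  obtain ⟨z, hz⟩ := hR _ (sub_mem h2 h0)
  refine Fermat.Agent.S36.ThickOrdX0.exists_h11_ord D Y hV1 hred1 hn hS hζ hϖ hle e he hr11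
    b.toValuationSubring hOb ⟨g, hgO⟩ z ?_ ?_
  · rw [hz]
    rfl
  · intro Θ hΘ
    have hred : red0K (A.inertiaSubgroupIn ℚ) hA hqN ⟨g, hgO⟩ =
        (π : ↥(modularFunctionFieldFullC (ResidueField ↥A) N0)) := hgred
    rw [hred] at hΘ
    exact Fermat.Agent.S36.ThickCountX0.hΘ_of_count hA N0 hsep b hb hπ
      (fun Θ' h => hcount _ Θ' hπ h) Θ hΘ

end Fermat.Agent.S36.ThickOrdFinal
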