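/-
PROJECT V (S36), chain (V12)(ii) -> (V14), slice V-LocFinH11 (helper29): **the `h11` clause of
`LocX0.hloc_fin` / `AllPointsT.locPrincipal_of_isMaximal` at `X₀`, for ALL maximal `n ∉ D.S` of the
fin chart**, with the count plugged in.

PART A (generic; `K` a field, `F/K` a function field with separating element `x`, `B` ANY
presentation of the chart ring `chart K x`: a commutative ring with an injective `e : B →+* F` whose
range is `chart K x` — so `B = chart K x`, `B = ↥(chart K x).toSubring`, `B = ↥ℬ` with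
`ℬ = (chart K x).toSubring` are all covered, no instance transport):

* `toChart e hB : B →+* chart K x`, `toChart_bijective`;
* `exists_place_pres` : every maximal ideal `n` of `B` is the point of a place `v` finite at `x`:
  `∀ b, b ∈ n ↔ e b = 0 ∨ (e b)⁻¹ ∉ O_v`  (= the hypothesis `hOb` of `ThickOrdX0` / `ThickOrdFinal`);
* `exists_point_pres` : conversely every place finite at `x` has a point in `B`;
* `hasValue_zero_iff` : `NodalDefs.HasValue v y 0 ↔ y = 0 ∨ y⁻¹ ∉ O_v` (the `hdict`/`hconv` shape of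
  `BranchPt` / `LeafT0` at `X.E = valSystemPlace`);
* `eq_of_hasValue` : two ideals of `B` with the same place are equal.

PART B (`X₀`): `h11_fin` = LITERALLY the argument `h11` of `AllPointsT.locPrincipal_of_isMaximal`
(and of `LocX0.hloc_fin`): for every maximal `n ∉ D.S` the tuple `(z, s, c, k)`.  Inputs: those of
`ThickOrdFinal.exists_h11_ordinary` (minus the place, `hOb`, `hcount`), the presentation `(e, hB, hB')`
of `chart k J`, the converse dictionary `hconv` (every `b ∈ S` is the place of a point of `D.S`), and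
the inputs of the count (`CountWire`: Riemann on both sides, an auxiliary prime, `NodesDesc.Desc`,
`hb0`).
-/
import Mathlib
import Fermat.Agent.S36.ThickOrdFinal
import Fermat.Agent.S36.CountWire
import Fermat.Agent.S36.SpecDictOne
import Fermat.Agent.S36.SpecDictLocal

set_option autoImplicit false
set_option linter.unusedSectionVars false
set_option linter.style.haveILetI false
set_option linter.unusedVariables false
set_option synthInstance.maxHeartbeats 400000
set_option maxHeartbeats 1600000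

noncomputable section

namespace Fermat.Agent.S36.LocFinH11

open AlgebraicCurve IntermediateField
open Fermat.Agent.S24.FF
open Fermat.Agent.S36.ChartRing (chart)
open Fermat.Agent.S36.SpecDictOne Fermat.Agent.S36.SpecDictLocal

/-! ## Part A: the dictionary for an arbitrary presentation of the chart ring -/

section Pres

universe u w

variable {K : Type w} {F : Type u} [Field K] [Field F] [Algebra K F] {x : F}
variable {B : Type*} [CommRing B] (e : B →+* F)

/-- the comparison map `B → chart K x` -/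
def toChart (hB : ∀ b : B, e b ∈ chart K x) : B →+* chart K x where
  toFun b := ⟨e b, hB b⟩
  map_one' := Subtype.ext e.map_one
  map_mul' a b := Subtype.ext (e.map_mul a b)
  map_zero' := Subtype.ext e.map_zero
  map_add' a b := Subtype.ext (e.map_add a b)

@[simp] theorem coe_toChart (hB : ∀ b : B, e b ∈ chart K x) (b : B) :
    ((toChart e hB b : chart K x) : F) = e b := rfl

theorem toChart_bijective (he : Function.Injective e) (hB : ∀ b : B, e b ∈ chart K x)
    (hB' : ∀ y ∈ chart K x, ∃ b : B, e b = y) : Function.Bijective (toChart e hB) := by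
  refine ⟨fun a b hab => he ?_, fun y => ?_⟩
  · exact congrArg (fun z : chart K x => (z : F)) hab
  · obtain ⟨b, hb⟩ := hB' y y.2
    exact ⟨b, Subtype.ext hb⟩

/-- `NodalDefs.HasValue v y 0 ↔ y = 0 ∨ y⁻¹ ∉ O_v` -/
theorem hasValue_zero_iff (v : Place K F) (y : F) :
    Fermat.Agent.S34.NodalDefs.HasValue v y 0 ↔ y = 0 ∨ y⁻¹ ∉ v.toValuationSubring := by
  rw [Fermat.Agent.S34.NodalDefs.HasValue, map_zero, sub_zero]
  refine or_congr Iff.rfl ?_
  rcases eq_or_ne y 0 with rfl | hy
  · rw [Place.ord_zero, inv_zero]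
    constructor
    · intro h
      exact absurd h (lt_irrefl _)
    · intro h
      exact absurd (zero_mem _) h
  · rw [inv_mem_iff v hy, not_le, Fermat.Agent.S24.Ord.ord_pos_iff v hy]

/-- two ideals with the same place are equal -/
theorem eq_of_hasValue {n n' : Ideal B} (v : Place K F)
    (h : ∀ b : B, b ∈ n ↔ e b = 0 ∨ (e b)⁻¹ ∉ v.toValuationSubring)
    (h' : ∀ b : B, b ∈ n' ↔ Fermat.Agent.S34.NodalDefs.HasValue v (e b) 0) : n' = n :=
  Ideal.ext fun b => by rw [h' b, hasValue_zero_iff, h b]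

variable (hx : IsFF K x) (hsep : Algebra.IsSeparable K⟮x⟯ F)

include hx hsep in
/-- **every maximal ideal of a presentation `B` of the chart ring is the point of a place finite at
`x`**, in the `hOb` shape of `ThickOrdX0`. -/
theorem exists_place_pres (he : Function.Injective e) (hB : ∀ b : B, e b ∈ chart K x)
    (hB' : ∀ y ∈ chart K x, ∃ b : B, e b = y) (n : Ideal B) (hn : n.IsMaximal) :
    ∃ v : Place K F, x ∈ v.toValuationSubring ∧
      ∀ b : B, b ∈ n ↔ e b = 0 ∨ (e b)⁻¹ ∉ v.toValuationSubring := by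
  have hbij := toChart_bijective e he hB hB'
  have hmax : (Ideal.map (toChart e hB) n).IsMaximal :=
    (Ideal.isMaximal_map_iff_of_bijective (toChart e hB) hbij).mpr hn
  obtain ⟨v, hv, hpt⟩ := exists_place_of_isMaximal hx hsep _ hmax
  refine ⟨v, hv, fun b => ?_⟩
  have h1 : b ∈ n ↔ toChart e hB b ∈ pointOf v hv := by
    rw [hpt]
    constructor
    · exact Ideal.mem_map_of_mem _
    · intro h
      obtain ⟨b', hb'n, hE⟩ := (Ideal.mem_map_iff_of_surjective _ hbij.2).mp h
      rw [← hbij.1 hE]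
      exact hb'n
  rw [h1, mem_pointOf_iff_inv v hv]
  rfl

include hx hsep in
/-- **every place finite at `x` has a point in `B`** -/
theorem exists_point_pres (he : Function.Injective e) (hB : ∀ b : B, e b ∈ chart K x)
    (hB' : ∀ y ∈ chart K x, ∃ b : B, e b = y) (v : Place K F) (hv : x ∈ v.toValuationSubring) :
    ∃ n : Ideal B, n.IsMaximal ∧
      ∀ b : B, b ∈ n ↔ e b = 0 ∨ (e b)⁻¹ ∉ v.toValuationSubring := by
  have hbij := toChart_bijective e he hB hB'
  haveI := pointOf_isMaximal hx hsep v hv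
  refine ⟨(pointOf v hv).comap (toChart e hB), Ideal.comap_isMaximal_of_surjective _ hbij.2,
    fun b => ?_⟩
  rw [Ideal.mem_comap, mem_pointOf_iff_inv v hv]
  rfl

end Pres

/-! ## Part B: `h11` on the fin chart at `X₀` -/

section X0

open ModularCurve IsLocalRing
open Fermat.Agent.S18.B.FkBasics (jk isFF)
open Fermat.Agent.S18.A.FibreSep
open Fermat.Agent.S18.C.SmallDVR
open Fermat.Agent.S36.ChartX0 Fermat.Agent.S36.GaussK0Comap
open Fermat.Agent.S36.PowerBasisK0 Fermat.Agent.S36.ThetaK0 Fermat.Agent.S36.LevelQK0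
open Fermat.Agent.S36.MiddleCuspK0
open Fermat.Agent.S36.ThetaL
open Fermat.Agent.S36.AllPoints
open Fermat.Agent.S37.Gauss Fermat.Agent.S37.Deuring.Core
open Fermat.Agent.S34.FrobK
open Fermat.Agent.S18.NonSpecial

local notation "Kb" => AlgebraicClosure ℚ

attribute [local instance 2000] Fermat.Agent.S18.C.KModelX0.algkFk

variable {q : ℕ} [hq : Fact q.Prime] {N0 : ℕ} [NeZero N0] {A : ValuationSubring Kb}
variable {hA : A.LiesOverPrime q} {hqN : ¬ q ∣ N0} [NeZero q] {gL gk : ℕ}

/-- helper10's `O₀`-algebra structure, on the type written as `PowerBasisK0.FK` -/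
local instance algWFK'' (N : ℕ) : Algebra ↥(W A) (FK (A.inertiaSubgroupIn ℚ) N) := algebraW A N

variable {R₁ R B : Type*} [CommRing R₁] [CommRing R] [CommRing B]
  [IsDomain R] [IsNoetherianRing R] [IsIntegrallyClosed R] [IsDomain B]
  [Algebra R (FK (A.inertiaSubgroupIn ℚ) (N0 * q * q))]
  [IsFractionRing R (FK (A.inertiaSubgroupIn ℚ) (N0 * q * q))]

/-- **`h11` of `AllPointsT.locPrincipal_of_isMaximal` / `LocX0.hloc_fin` at `X₀`, fin chart**: the
tuple at EVERY maximal `n ∉ D.S`. -/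
theorem h11_fin (Hd : Hyp (Datum.gaussDatum N0 A hA hqN) gL gk)
    [IsAlgClosed (ResidueField ↥A)] [CharP (ResidueField ↥A) q]
    (hR : ∀ x ∈ chartX0 A (N0 * q * q) (Fermat.Agent.S36.ChartsX0.x2 (A.inertiaSubgroupIn ℚ) N0 q),
      ∃ a : R, algebraMap R (FK (A.inertiaSubgroupIn ℚ) (N0 * q * q)) a = x)
    (D : BranchCoreT.TDatum R₁ R B)
    (Y : ThreeValX0.Hyp (A.inertiaSubgroupIn ℚ) N0 q
      ↥(modularFunctionFieldFullC (ResidueField ↥A) N0))
    (hV1 : Y.V₁ = V1K (A.inertiaSubgroupIn ℚ) hA hqN)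
    (hred1 : ∀ (x : FK (A.inertiaSubgroupIn ℚ) (N0 * q)) (h : x ∈ Y.V₁)
      (h' : x ∈ V1K (A.inertiaSubgroupIn ℚ) hA hqN),
      Y.red₁ ⟨x, h⟩ = red1K (A.inertiaSubgroupIn ℚ) hA hqN ⟨x, h'⟩)
    {ζ : Kbˣ} (hζ : IsPrimitiveRoot ζ q)
    (hϖ : algebraMap R (FK (A.inertiaSubgroupIn ℚ) (N0 * q * q)) D.ϖ =
      ((q : ℕ) : FK (A.inertiaSubgroupIn ℚ) (N0 * q * q)))
    (hle : ∀ a : R, algebraMap R (FK (A.inertiaSubgroupIn ℚ) (N0 * q * q)) a ∈ Y.W₁₁)
    (e : B →+* ↥(modularFunctionFieldFullC (ResidueField ↥A) N0)) (he : Function.Injective e)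
    (hr11 : ∀ a : R, e (D.r11 a) =
      Y.r₁₁ ⟨algebraMap R (FK (A.inertiaSubgroupIn ℚ) (N0 * q * q)) a, hle a⟩)
    -- `B` is a presentation of `chart k J`
    (hB : ∀ b : B, e b ∈ chart (ResidueField ↥A) (jk (ResidueField ↥A) N0))
    (hB' : ∀ y ∈ chart (ResidueField ↥A) (jk (ResidueField ↥A) N0), ∃ b : B, e b = y)
    -- the count
    {g gM : ℕ}
    (HL : RiemannHyp Kb ↥(modularFunctionFieldBar (N0 * q)) g)
    (HM : RiemannHyp (ResidueField ↥A) ↥(modularFunctionFieldFullC (ResidueField ↥A) N0) gM)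
    {r : ℕ} (hr : r.Prime) (hr12 : r % 12 = 11) (hrM : r ∣ N0)
    (S : Finset (Place (ResidueField ↥A) ↥(modularFunctionFieldFullC (ResidueField ↥A) N0)))
    (hS2 : ∀ b ∈ S, Fr (ResidueField ↥A) N0 q (Fr (ResidueField ↥A) N0 q b) = b)
    (hS0 : ∀ b ∈ S, b ∉ Fermat.Agent.S34.Euler.FrobSide.P0 (ResidueField ↥A) N0)
    (hd : Fermat.Agent.S36.NodesDesc.Desc hA hqN S)
    (hb0 : ∀ b : Place (ResidueField ↥A) ↥(modularFunctionFieldFullC (ResidueField ↥A) N0),
      b ∉ S → 0 ≤ b.ord (jk (ResidueField ↥A) N0) →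
      ∃ π Θ : ↥(modularFunctionFieldFullC (ResidueField ↥A) N0), b.ord π = 1 ∧
        thetaL (π : LaurentSeries (ResidueField ↥A)) ^ (q - 1) =
          (Θ : LaurentSeries (ResidueField ↥A)) ∧ 0 ≤ b.ord Θ)
    -- every node is the place of a point of `D.S`
    (hconv : ∀ b ∈ S, ∃ n : Ideal B, n.IsMaximal ∧ n ∈ D.S ∧
      ∀ z : B, z ∈ n ↔ Fermat.Agent.S34.NodalDefs.HasValue b (e z) 0) :
    ∀ n : Ideal B, n.IsMaximal → n ∉ D.S → ∃ z : R, z ≠ 0 ∧ z ∈ RingHom.ker D.r11 ∧
      BranchEq (RingHom.ker D.r11) z ∧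
      ∃ (s c : R) (k : ℕ), 0 < k ∧ c ∉ D.x11 n ∧ s * z ^ k = D.ϖ * c := by
  intro n hn hnS
  have hx := isFF (ResidueField ↥A) N0
  have hsep := Fermat.Agent.S18.B.SeparableFk.isSeparable_jk (ResidueField ↥A) N0
  obtain ⟨b, hJb, hOb⟩ := exists_place_pres e hx hsep he hB hB' n hn
  have hbS : b ∉ S := by
    intro hbS
    obtain ⟨n', hn', hn'S, hval⟩ := hconv b hbS
    have h1 : n' = n := eq_of_hasValue e b hOb hval
    exact hnS (h1 ▸ hn'S)
  have hb : b ∉ poles hx hsep := fun h =>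
    not_lt.mpr ((Fermat.Agent.S24.Ord.mem_iff b _).mp hJb) ((mem_poles hx hsep b).mp h)
  have hb0' : 0 ≤ b.ord (jk (ResidueField ↥A) N0) :=
    (Fermat.Agent.S36.CountX0.not_mem_poles_iff hsep b).mp hb
  exact Fermat.Agent.S36.ThickOrdFinal.exists_h11_ordinary Hd hsep hR D Y hV1 hred1 hn hnS hζ hϖ
    hle e he hr11 b hb hOb (fun π Θ hπ hΘ =>
      Fermat.Agent.S36.CountWire.ord_theta_ord hA hqN HL HM hr hr12 hrM S hS2 hS0 hd hb0 b hbS
        hb0' hπ hΘ)

end X0

end Fermat.Agent.S36.LocFinH11
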