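/-
PROJECT V (S36), slice V-ThickOrdOne (helper13; architect ruling #2760 (b)): **(V12)(ii) at `X₀`
with every "free" input discharged**: `ThickOrdFinal.exists_h11_ordinary` without

* the primitive `q`-th root of unity `ζ` (`MinpolyJ2.exists_primitiveRoot_q`),
* `hsep` (`S18.B.SeparableFk.isSeparable_jk`) and `[IsAlgClosed k]`
  (`S18.ResidueBasics.isAlgClosed_residueField`),
* Deuring's `Hyp` (`S34.CoreZX0OfGeneric.HX0` on `S34.EulerClosedX0.exists_genera`),

and with the place `b` given by `0 ≤ b.ord (jk k N0)` (not a cusp) instead of `b ∉ poles`.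
Remaining inputs: the presentation `hR`, the TDatum `D` with its link 5-tuple, `Y` + Link, the
dictionary `hOb` and the conclusion `hcount` of the count at `b`.
-/
import Mathlib
import Fermat.Agent.S36.ThickOrdFinal
import Fermat.Agent.S36.MinpolyJ2
import Fermat.Agent.S34.CoreZX0OfGeneric
import Fermat.Agent.S34.EulerClosedX0

set_option autoImplicit false
set_option linter.unusedSectionVars false
set_option linter.style.haveILetI false
set_option linter.unusedVariables false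
set_option synthInstance.maxHeartbeats 400000
set_option maxHeartbeats 1000000

noncomputable section

namespace Fermat.Agent.S36.ThickOrdOne

open ModularCurve AlgebraicCurve IntermediateField IsLocalRing
open Fermat.Agent.S18.B.FkBasics (jk isFF)
open Fermat.Agent.S18.A.FibreSep
open Fermat.Agent.S18.C.SmallDVR
open Fermat.Agent.S36.ChartRing Fermat.Agent.S36.ChartX0
open Fermat.Agent.S36.PowerBasisK0 Fermat.Agent.S36.ThetaK0
open Fermat.Agent.S36.ThetaL
open Fermat.Agent.S36.AllPoints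

local notation "Kb" => AlgebraicClosure ℚ

variable {q : ℕ} [hq : Fact q.Prime] {N0 : ℕ} [NeZero N0] {A : ValuationSubring Kb}
variable {hA : A.LiesOverPrime q} {hqN : ¬ q ∣ N0} [NeZero q]

/-- helper10's `O₀`-algebra structure, on the type written as `PowerBasisK0.FK` -/
local instance algWFK₁ (N : ℕ) : Algebra ↥(W A) (FK (A.inertiaSubgroupIn ℚ) N) := algebraW A N

variable {R₁ R B : Type*} [CommRing R₁] [CommRing R] [CommRing B]
  [IsDomain R] [IsNoetherianRing R] [IsIntegrallyClosed R] [IsDomain B]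
  [Algebra R (FK (A.inertiaSubgroupIn ℚ) (N0 * q * q))]
  [IsFractionRing R (FK (A.inertiaSubgroupIn ℚ) (N0 * q * q))]

/-- **(V12)(ii) at `X₀`, all free inputs discharged**: the `h11` tuple at a non-cuspidal place `b`
of `κ` whose point `n` is not in `D.S`. -/
theorem exists_h11_ordinary'
    (hR : ∀ x ∈ chartX0 A (N0 * q * q) (Fermat.Agent.S36.ChartsX0.x2 (A.inertiaSubgroupIn ℚ) N0 q),
      ∃ a : R, algebraMap R (FK (A.inertiaSubgroupIn ℚ) (N0 * q * q)) a = x)
    (D : BranchCoreT.TDatum R₁ R B)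
    (Y : ThreeValX0.Hyp (A.inertiaSubgroupIn ℚ) N0 q
      ↥(modularFunctionFieldFullC (ResidueField ↥A) N0))
    (hV1 : Y.V₁ = V1K (A.inertiaSubgroupIn ℚ) hA hqN)
    (hred1 : ∀ (x : FK (A.inertiaSubgroupIn ℚ) (N0 * q)) (h : x ∈ Y.V₁)
      (h' : x ∈ V1K (A.inertiaSubgroupIn ℚ) hA hqN),
      Y.red₁ ⟨x, h⟩ = red1K (A.inertiaSubgroupIn ℚ) hA hqN ⟨x, h'⟩)
    {n : Ideal B} (hn : n.IsMaximal) (hS : n ∉ D.S)
    (hϖ : algebraMap R (FK (A.inertiaSubgroupIn ℚ) (N0 * q * q)) D.ϖ =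
      ((q : ℕ) : FK (A.inertiaSubgroupIn ℚ) (N0 * q * q)))
    (hle : ∀ a : R, algebraMap R (FK (A.inertiaSubgroupIn ℚ) (N0 * q * q)) a ∈ Y.W₁₁)
    (e : B →+* ↥(modularFunctionFieldFullC (ResidueField ↥A) N0)) (he : Function.Injective e)
    (hr11 : ∀ a : R, e (D.r11 a) =
      Y.r₁₁ ⟨algebraMap R (FK (A.inertiaSubgroupIn ℚ) (N0 * q * q)) a, hle a⟩)
    (b : Place (ResidueField ↥A) ↥(modularFunctionFieldFullC (ResidueField ↥A) N0))
    (hb : 0 ≤ b.ord (jk (ResidueField ↥A) N0))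
    (hOb : ∀ x : B, x ∈ n ↔ e x = 0 ∨ (e x)⁻¹ ∉ b.toValuationSubring)
    (hcount : ∀ π Θ : ↥(modularFunctionFieldFullC (ResidueField ↥A) N0), b.ord π = 1 →
      thetaL (π : LaurentSeries (ResidueField ↥A)) ^ (q - 1) =
        (Θ : LaurentSeries (ResidueField ↥A)) → b.ord Θ = 0) :
    ∃ z : R, z ≠ 0 ∧ z ∈ RingHom.ker D.r11 ∧ BranchEq (RingHom.ker D.r11) z ∧
      ∃ (s c : R) (k : ℕ), 0 < k ∧ c ∉ D.x11 n ∧ s * z ^ k = D.ϖ * c := by
  haveI : IsAlgClosed (ResidueField ↥A) :=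
    Fermat.Agent.S18.ResidueBasics.isAlgClosed_residueField A
  haveI : CharP (ResidueField ↥A) q := Fermat.Agent.S34.GaussPairX0.charP_res hA
  haveI : PerfectField (ResidueField ↥A) := inferInstance
  have hsep := Fermat.Agent.S18.B.SeparableFk.isSeparable_jk (ResidueField ↥A) N0
  obtain ⟨ζ, hζ⟩ := Fermat.Agent.S36.MinpolyJ2.exists_primitiveRoot_q hq.out
  obtain ⟨-, gM, -, HM⟩ := Fermat.Agent.S34.EulerClosedX0.exists_genera A N0 N0
  have Hd := Fermat.Agent.S34.CoreZX0OfGeneric.HX0 hA hqN HM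
  have hb' : b ∉ poles (isFF (ResidueField ↥A) N0) hsep := by
    rw [mem_poles_iff_ord_neg, not_lt]
    exact hb
  exact Fermat.Agent.S36.ThickOrdFinal.exists_h11_ordinary Hd hsep hR D Y hV1 hred1 hn hS hζ hϖ
    hle e he hr11 b hb' hOb hcount

end Fermat.Agent.S36.ThickOrdOne
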