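/-
PROJECT V (S36), chain (V12)(ii) -> (V14), slice V-LocFinH11X0 (helper29): **the `h11` binder of
`LocX0WireE.hloc_X0_E` on helper1's `finTDatumOf` at `O = W A`, CLOSED** (no `hb0`, no Deuring `Hyp`,
no Riemann hypotheses).

`Y : ThreeValX0.Hyp I N0 q κ` + Link (`hV1`, `hred1`), `hB : CompNormalX0.Base Y (W A) π`,
`P : ChartPair hB x₁ x₂ Jc` with `hJc : Jc = jk k N0`, `S` a finite set of places off the cusps with
`NodesDesc.Desc`, `D := P.finTDatumOf hφB hφpow (nodeSet S) node S_fr fr_fr hrad`, an auxiliary prime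
`r ≡ 11 mod 12`, `r ∣ N0`.

* `h11_finTDatumOf` : for every maximal `n ∉ D.S` of `chart k Jc` the tuple `(z, s, c, e)` of
  `AllPointsT.locPrincipal_of_isMaximal`.  Inside: the place `b` of `n`
  (`LocFinH11.exists_place_pres`), `b ∉ S` (`D.S = nodeSet S`), the count at `b`
  (`CountFinX0.count_finTDatumOf`), the tuple (`ThickOrdOne.exists_h11_ordinary'`).

The only remaining hypotheses are those of `finTDatumOf` itself (`hφB hφpow node S_fr fr_fr hrad`).
-/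
import Mathlib
import Fermat.Agent.S36.LocFinH11
import Fermat.Agent.S36.CountFinX0
import Fermat.Agent.S36.ThickOrdOne

set_option autoImplicit false
set_option linter.unusedSectionVars false
set_option linter.style.haveILetI false
set_option linter.unusedVariables false
set_option synthInstance.maxHeartbeats 400000
set_option maxHeartbeats 1600000

noncomputable section

namespace Fermat.Agent.S36.LocFinH11X0

open ModularCurve AlgebraicCurve IntermediateField IsLocalRing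
open Fermat.Agent.S18.B.FkBasics (jk isFF)
open Fermat.Agent.S18.C.SmallDVR
open Fermat.Agent.S36.ChartRing Fermat.Agent.S36.ChartX0 Fermat.Agent.S36.GaussK0Comap
open Fermat.Agent.S36.PowerBasisK0 Fermat.Agent.S36.ThetaK0 Fermat.Agent.S36.LevelQK0
open Fermat.Agent.S36.MiddleCuspK0
open Fermat.Agent.S36.ThetaL
open Fermat.Agent.S36.AllPoints
open Fermat.Agent.S36.SpecDictOne (pointOf nodeSet)
open Fermat.Agent.S34.Euler.FrobSide (P0)
open Fermat.Agent.S36.NodesDesc (Desc)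
open Fermat.Agent.S36.BranchX0 Fermat.Agent.S36.BranchX0.ChartPair

local notation "Kb" => AlgebraicClosure ℚ

attribute [local instance 2000] Fermat.Agent.S34.EulerX0.algResFk

/-- shortcut instance (a proposition) -/
local instance instACkH11 (A : ValuationSubring Kb) : IsAlgClosed (ResidueField ↥A) :=
  Fermat.Agent.S18.ResidueBasics.isAlgClosed_residueField A

variable {q : ℕ} [hq : Fact q.Prime] {N0 : ℕ} [NeZero N0] {A : ValuationSubring Kb}
variable {hA : A.LiesOverPrime q} {hqN : ¬ q ∣ N0} [NeZero q]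

/-- helper10's `O₀`-algebra structure, on the type written as `PowerBasisK0.FK` -/
local instance algWFKh11 (N : ℕ) : Algebra ↥(W A) (FK (A.inertiaSubgroupIn ℚ) N) := algebraW A N

variable {Y : ThreeValX0.Hyp (A.inertiaSubgroupIn ℚ) N0 q
    ↥(modularFunctionFieldFullC (ResidueField ↥A) N0)}
  (hV1 : Y.V₁ = V1K (A.inertiaSubgroupIn ℚ) hA hqN)
  (hred1 : ∀ (x : FK (A.inertiaSubgroupIn ℚ) (N0 * q)) (h : x ∈ Y.V₁)
    (h' : x ∈ V1K (A.inertiaSubgroupIn ℚ) hA hqN),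
    Y.red₁ ⟨x, h⟩ = red1K (A.inertiaSubgroupIn ℚ) hA hqN ⟨x, h'⟩)
  {π : ↥(W A) →+* ResidueField ↥A} {hB : CompNormalX0.Base Y ↥(W A) π}
  {Jc : ↥(modularFunctionFieldFullC (ResidueField ↥A) N0)}
  (P : ChartPair hB (x1 (A.inertiaSubgroupIn ℚ) N0 q)
    (CompNormalX0.x2 (A.inertiaSubgroupIn ℚ) N0 q) Jc)
  (hJc : Jc = jk (ResidueField ↥A) N0)

include hV1 hred1 hJc in
/-- **`h11` of `LocX0WireE.hloc_X0_E` / `AllPointsT.locPrincipal_of_isMaximal` on helper1's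
`finTDatumOf`, closed.** -/
theorem h11_finTDatumOf [CharP (ResidueField ↥A) q]
    {r : ℕ} (hr : r.Prime) (hr12 : r % 12 = 11) (hrM : r ∣ N0)
    (hφB : ∀ z ∈ chart (ResidueField ↥A) Jc, Y.φ z ∈ chart (ResidueField ↥A) Jc)
    (hφpow : ∀ z ∈ chart (ResidueField ↥A) Jc, ∃ c ∈ chart (ResidueField ↥A) Jc, Y.φ c = z ^ q)
    {S : Finset (Place (ResidueField ↥A) ↥(modularFunctionFieldFullC (ResidueField ↥A) N0))}
    (hS : ∀ b ∈ S, b ∉ P0 (ResidueField ↥A) N0) (hd : Desc hA hqN S)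
    (node : ∀ n' n : Ideal ↥(chart (ResidueField ↥A) Jc), n'.IsMaximal → n.IsMaximal →
      (n'.comap P.red1 = n.comap P.red2 ↔
        n ∈ nodeSet (ResidueField ↥A) N0 (x := Jc) (↑S : Set _) ∧ n' = n.comap (φB hφB)))
    (S_fr : ∀ n ∈ nodeSet (ResidueField ↥A) N0 (x := Jc) (↑S : Set _),
      n.comap (φB hφB) ∈ nodeSet (ResidueField ↥A) N0 (x := Jc) (↑S : Set _))
    (fr_fr : ∀ n ∈ nodeSet (ResidueField ↥A) N0 (x := Jc) (↑S : Set _),
      (n.comap (φB hφB)).comap (φB hφB) = n)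
    (hrad : ∀ a ∈ chart ↥(W A) (CompNormalX0.x2 (A.inertiaSubgroupIn ℚ) N0 q),
      a ∈ Y.W₂₀.nonunits → a ∈ Y.W₁₁.nonunits → a ∈ Y.W₀₂.nonunits →
      ∃ N : ℕ, ∃ y ∈ chart ↥(W A) (CompNormalX0.x2 (A.inertiaSubgroupIn ℚ) N0 q),
        a ^ N = (q : FK (A.inertiaSubgroupIn ℚ) (N0 * q * q)) * y) :
    ∀ n : Ideal ↥(chart (ResidueField ↥A) Jc), n.IsMaximal →
      n ∉ (P.finTDatumOf hφB hφpow (nodeSet (ResidueField ↥A) N0 (x := Jc) (↑S : Set _))
        node S_fr fr_fr hrad).S →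
      ∃ z : ↥(chart ↥(W A) (CompNormalX0.x2 (A.inertiaSubgroupIn ℚ) N0 q)), z ≠ 0 ∧
      z ∈ RingHom.ker (P.finTDatumOf hφB hφpow
        (nodeSet (ResidueField ↥A) N0 (x := Jc) (↑S : Set _)) node S_fr fr_fr hrad).r11 ∧
      BranchEq (RingHom.ker (P.finTDatumOf hφB hφpow
        (nodeSet (ResidueField ↥A) N0 (x := Jc) (↑S : Set _)) node S_fr fr_fr hrad).r11) z ∧
      ∃ (s c : ↥(chart ↥(W A) (CompNormalX0.x2 (A.inertiaSubgroupIn ℚ) N0 q))) (e : ℕ), 0 < e ∧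
        c ∉ (P.finTDatumOf hφB hφpow (nodeSet (ResidueField ↥A) N0 (x := Jc) (↑S : Set _))
          node S_fr fr_fr hrad).x11 n ∧
        s * z ^ e = (P.finTDatumOf hφB hφpow
          (nodeSet (ResidueField ↥A) N0 (x := Jc) (↑S : Set _)) node S_fr fr_fr hrad).ϖ * c := by
  intro n hn hnS
  haveI : PerfectField (ResidueField ↥A) := inferInstance
  obtain ⟨ζ, hζ⟩ := Fermat.Agent.S36.MinpolyJ2.exists_primitiveRoot_q hq.out
  have htr := Fermat.Agent.S36.ChartsX0Leaf.transcendental_x2 (A.inertiaSubgroupIn ℚ)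
    (N0 := N0) hq.out
  obtain ⟨i1, i2, i3⟩ := chartX0_props hA (N0 * q * q) htr
  have i1' : IsNoetherianRing
    ↥(chart ↥(W A) (CompNormalX0.x2 (A.inertiaSubgroupIn ℚ) N0 q)) := i1
  have i2' : IsIntegrallyClosed
    ↥(chart ↥(W A) (CompNormalX0.x2 (A.inertiaSubgroupIn ℚ) N0 q)) := i2
  have i3' : IsFractionRing ↥(chart ↥(W A) (CompNormalX0.x2 (A.inertiaSubgroupIn ℚ) N0 q))
    (FK (A.inertiaSubgroupIn ℚ) (N0 * q * q)) := i3
  have hx := isFF (ResidueField ↥A) N0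
  have hsep := Fermat.Agent.S18.B.SeparableFk.isSeparable_jk (ResidueField ↥A) N0
  -- the place of `n`
  obtain ⟨b, hJb, hOb⟩ := Fermat.Agent.S36.LocFinH11.exists_place_pres
    (chart (ResidueField ↥A) Jc).toSubring.subtype hx hsep Subtype.val_injective
    (fun z => hJc ▸ z.2) (fun y hy => ⟨⟨y, hJc ▸ hy⟩, rfl⟩) n hn
  have hJb' : Jc ∈ b.toValuationSubring := hJc ▸ hJb
  -- `b ∉ S`
  have hbS : b ∉ S := by
    intro hbS
    apply hnS
    refine ⟨b, hbS, hJb', Ideal.ext fun z => ?_⟩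
    rw [hOb z, Fermat.Agent.S36.SpecDictLocal.mem_pointOf_iff_inv b hJb' z]
    rfl
  -- `b` is not a cusp
  have hb : 0 ≤ b.ord (jk (ResidueField ↥A) N0) := by
    have h1 : b ∉ Fermat.Agent.S18.A.FibreSep.poles hx hsep := fun h =>
      not_lt.mpr ((Fermat.Agent.S24.Ord.mem_iff b _).mp hJb)
        ((Fermat.Agent.S18.A.FibreSep.mem_poles hx hsep b).mp h)
    exact (Fermat.Agent.S36.CountX0.not_mem_poles_iff hsep b).mp h1
  refine Fermat.Agent.S36.ThickOrdOne.exists_h11_ordinary' (hA := hA) (hqN := hqN)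
    (R := ↥(chart ↥(W A) (CompNormalX0.x2 (A.inertiaSubgroupIn ℚ) N0 q))) ?_
    (P.finTDatumOf hφB hφpow (nodeSet (ResidueField ↥A) N0 (x := Jc) (↑S : Set _))
      node S_fr fr_fr hrad) Y hV1 hred1 hn hnS ?_
    (fun a => P.mem_W₁₁ a)
    (chart (ResidueField ↥A) Jc).toSubring.subtype Subtype.val_injective ?_ b hb hOb ?_
  · intro x hx'
    rw [Fermat.Agent.S36.ChartsX0Leaf.x2_eq] at hx'
    exact ⟨⟨x, hx'⟩, rfl⟩
  · show ((((q : ℕ) : ↥(chart ↥(W A) (CompNormalX0.x2 (A.inertiaSubgroupIn ℚ) N0 q))) :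
      FK (A.inertiaSubgroupIn ℚ) (N0 * q * q))) = _
    rfl
  · intro a
    rfl
  · intro π' Θ hπ hΘ
    exact (Fermat.Agent.S36.CountFinX0.count_finTDatumOf hV1 hred1 P hJc hr hr12 hrM hζ hφB hφpow
      hS hd node S_fr fr_fr hrad b hb hπ hΘ).2 hbS

end Fermat.Agent.S36.LocFinH11X0
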