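/-
PROJECT V (S36), chain (V12)(ii') -> (V14), slice V-LocInfH11 (helper13): **the `h11'` clause of
`LocX0WireE.hloc_X0_E` / `AllPointsInf` at `X₀`: the `h11` tuple at EVERY cuspidal maximal ideal
`n ∉ D'.S` of the chart at infinity.**

* `h11_inf_of` (generic in the presentation): `R` any presentation of `chart (W A) x₂⁻¹` (`hR'`),
  `D : TDatum R₁ R B` with the link 5-tuple (`hϖ hle e he hr11`), `B` any presentation of
  `chart k (jk)⁻¹` (`hB hB'`, as in helper29's `LocFinH11` Part A), `s : R` with `ι s = x₂⁻¹`: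
  for every maximal `n ∉ D.S` with `D.r11 s ∈ n` the tuple `(z, s, c, k)`.
  Inside: `LocFinH11.exists_place_pres` at `x := (jk)⁻¹` gives the place `b` of `n` with `hOb`;
  `r₁₁(x₂⁻¹) = J^{-(q+2)} ∈ n` gives `ord_b jk < 0`; `ThickCuspOne.exists_h11_middle_cusp`.
* `h11_infTDatumOf` : LITERALLY the binder `h11'` of `LocX0WireE.hloc_X0_E` on helper1's
  `ChartPair.infTDatumOf` (`O = W A`, `Jc' = (jk k N0)⁻¹`).
-/
import Mathlib
import Fermat.Agent.S36.ThickCuspOne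
import Fermat.Agent.S36.LocFinH11
import Fermat.Agent.S36.BranchX0G
import Fermat.Agent.S36.NormTripleX0
import Fermat.Agent.S36.ChartsX0Leaf
import Fermat.Agent.S36.LocTransferChart

set_option autoImplicit false
set_option linter.unusedSectionVars false
set_option linter.style.haveILetI false
set_option linter.unusedVariables false
set_option synthInstance.maxHeartbeats 400000
set_option maxHeartbeats 1600000

noncomputable section

namespace Fermat.Agent.S36.LocInfH11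

open ModularCurve AlgebraicCurve IntermediateField IsLocalRing
open Fermat.Agent.S18.B.FkBasics (jk isFF)
open Fermat.Agent.S18.C.SmallDVR
open Fermat.Agent.S36.ChartRing Fermat.Agent.S36.ChartX0
open Fermat.Agent.S36.PowerBasisK0 Fermat.Agent.S36.ThetaK0
open Fermat.Agent.S36.JIntegral
open Fermat.Agent.S36.AllPoints
open Fermat.Agent.S36.BranchX0 Fermat.Agent.S36.BranchX0.ChartPair

local notation "Kb" => AlgebraicClosure ℚ

variable {q : ℕ} [hq : Fact q.Prime] {N0 : ℕ} [NeZero N0] {A : ValuationSubring Kb}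
variable {hA : A.LiesOverPrime q} {hqN : ¬ q ∣ N0} [NeZero q]

/-- helper10's `O₀`-algebra structure, on the type written as `PowerBasisK0.FK` -/
local instance algWFK₃ (N : ℕ) : Algebra ↥(W A) (FK (A.inertiaSubgroupIn ℚ) N) := algebraW A N

section Generic

variable {R₁ R B : Type*} [CommRing R₁] [CommRing R] [CommRing B]
  [IsDomain R] [IsNoetherianRing R] [IsIntegrallyClosed R] [IsDomain B]
  [Algebra R (FK (A.inertiaSubgroupIn ℚ) (N0 * q * q))]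
  [IsFractionRing R (FK (A.inertiaSubgroupIn ℚ) (N0 * q * q))]

/-- **`h11'` at `X₀`, chart at infinity, any presentation**: the tuple at every cuspidal maximal
ideal `n ∉ D.S`. -/
theorem h11_inf_of
    (hR' : ∀ x ∈ chartX0 A (N0 * q * q)
        (Fermat.Agent.S36.ChartsX0.x2 (A.inertiaSubgroupIn ℚ) N0 q)⁻¹,
      ∃ a : R, algebraMap R (FK (A.inertiaSubgroupIn ℚ) (N0 * q * q)) a = x)
    (D : BranchCoreT.TDatum R₁ R B)
    (Y : ThreeValX0.Hyp (A.inertiaSubgroupIn ℚ) N0 q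
      ↥(modularFunctionFieldFullC (ResidueField ↥A) N0))
    (hV1 : Y.V₁ = V1K (A.inertiaSubgroupIn ℚ) hA hqN)
    (hred1 : ∀ (x : FK (A.inertiaSubgroupIn ℚ) (N0 * q)) (h : x ∈ Y.V₁)
      (h' : x ∈ V1K (A.inertiaSubgroupIn ℚ) hA hqN),
      Y.red₁ ⟨x, h⟩ = red1K (A.inertiaSubgroupIn ℚ) hA hqN ⟨x, h'⟩)
    (hYJ : Y.J = jk (ResidueField ↥A) N0)
    (hϖ : algebraMap R (FK (A.inertiaSubgroupIn ℚ) (N0 * q * q)) D.ϖ =
      ((q : ℕ) : FK (A.inertiaSubgroupIn ℚ) (N0 * q * q)))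
    (hle : ∀ a : R, algebraMap R (FK (A.inertiaSubgroupIn ℚ) (N0 * q * q)) a ∈ Y.W₁₁)
    (e : B →+* ↥(modularFunctionFieldFullC (ResidueField ↥A) N0)) (he : Function.Injective e)
    (hr11 : ∀ a : R, e (D.r11 a) =
      Y.r₁₁ ⟨algebraMap R (FK (A.inertiaSubgroupIn ℚ) (N0 * q * q)) a, hle a⟩)
    -- `B` is a presentation of `chart k (jk)⁻¹`
    (hB : ∀ b : B, e b ∈ chart (ResidueField ↥A) (jk (ResidueField ↥A) N0)⁻¹)
    (hB' : ∀ y ∈ chart (ResidueField ↥A) (jk (ResidueField ↥A) N0)⁻¹, ∃ b : B, e b = y)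
    -- the coordinate of the chart at infinity
    {s : R} (hs : algebraMap R (FK (A.inertiaSubgroupIn ℚ) (N0 * q * q)) s =
      (Fermat.Agent.S36.CompNormalX0.x2 (A.inertiaSubgroupIn ℚ) N0 q)⁻¹) :
    ∀ n : Ideal B, n.IsMaximal → n ∉ D.S → D.r11 s ∈ n →
      ∃ z : R, z ≠ 0 ∧ z ∈ RingHom.ker D.r11 ∧ BranchEq (RingHom.ker D.r11) z ∧
        ∃ (s c : R) (k : ℕ), 0 < k ∧ c ∉ D.x11 n ∧ s * z ^ k = D.ϖ * c := by
  intro n hn hnS hsn
  haveI : IsAlgClosed (ResidueField ↥A) :=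
    Fermat.Agent.S18.ResidueBasics.isAlgClosed_residueField A
  haveI : PerfectField (ResidueField ↥A) := inferInstance
  have hx := isFF (ResidueField ↥A) N0
  have hsep := Fermat.Agent.S18.B.SeparableFk.isSeparable_jk (ResidueField ↥A) N0
  obtain ⟨b, hJb, hOb⟩ := Fermat.Agent.S36.LocFinH11.exists_place_pres e hx.inv
    (Fermat.Agent.S18.A.Defs.isSeparable_inv hsep) he hB hB' n hn
  have hJ0 : Y.J ≠ 0 := Fermat.Agent.S36.CompNormalX0.J_ne_zero Y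
  have hx2W : Fermat.Agent.S36.CompNormalX0.x2 (A.inertiaSubgroupIn ℚ) N0 q ∈ Y.W₁₁ :=
    Fermat.Agent.S36.NormTripleX0.x2_mem_W₁₁ Y
  have hval : e (D.r11 s) = (Y.J ^ (1 + q + 1))⁻¹ := by
    have hmem : (Fermat.Agent.S36.CompNormalX0.x2 (A.inertiaSubgroupIn ℚ) N0 q)⁻¹ ∈ Y.W₁₁ :=
      hs ▸ hle s
    have h1 : Y.r₁₁ ⟨algebraMap R (FK (A.inertiaSubgroupIn ℚ) (N0 * q * q)) s, hle s⟩ =
        Y.r₁₁ ⟨(Fermat.Agent.S36.CompNormalX0.x2 (A.inertiaSubgroupIn ℚ) N0 q)⁻¹, hmem⟩ := by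
      congr 1
      exact Subtype.ext hs
    rw [hr11 s, h1, Fermat.Agent.S36.NormTripleX0.red_inv Y.W₁₁ Y.r₁₁ hx2W hmem
      (Fermat.Agent.S36.CompNormalX0.x2_ne_zero Y), Fermat.Agent.S36.NormTripleX0.r₁₁_x2]
  have hb : b.ord (jk (ResidueField ↥A) N0) < 0 := by
    rcases (hOb _).mp hsn with h0 | h1
    · exact absurd (hval ▸ h0) (inv_ne_zero (pow_ne_zero _ hJ0))
    · rw [hval, inv_inv, hYJ] at h1
      by_contra hcon
      rw [not_lt] at hcon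
      exact h1 (pow_mem ((Fermat.Agent.S24.Ord.mem_iff b _).mpr
        ((Fermat.Agent.S24.Ord.ord_nonneg_iff b hx.ne_zero).mp hcon)) _)
  exact Fermat.Agent.S36.ThickCuspOne.exists_h11_middle_cusp hR' D Y hV1 hred1 hYJ hn hnS hϖ hle
    e he hr11 b hb hOb

end Generic

/-! ## the literal `h11'` on helper1's `infTDatumOf` -/

section Literal

variable {Y : ThreeValX0.Hyp (A.inertiaSubgroupIn ℚ) N0 q
    ↥(modularFunctionFieldFullC (ResidueField ↥A) N0)}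
  (hV1 : Y.V₁ = V1K (A.inertiaSubgroupIn ℚ) hA hqN)
  (hred1 : ∀ (x : FK (A.inertiaSubgroupIn ℚ) (N0 * q)) (h : x ∈ Y.V₁)
    (h' : x ∈ V1K (A.inertiaSubgroupIn ℚ) hA hqN),
    Y.red₁ ⟨x, h⟩ = red1K (A.inertiaSubgroupIn ℚ) hA hqN ⟨x, h'⟩)
  (hYJ : Y.J = jk (ResidueField ↥A) N0)
  {π : ↥(W A) →+* ResidueField ↥A} {hB : CompNormalX0.Base Y ↥(W A) π}
  {Jc' : ↥(modularFunctionFieldFullC (ResidueField ↥A) N0)}
  (P' : ChartPair hB (x1 (A.inertiaSubgroupIn ℚ) N0 q)⁻¹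
    (CompNormalX0.x2 (A.inertiaSubgroupIn ℚ) N0 q)⁻¹ Jc')
  (hJc' : Jc' = (jk (ResidueField ↥A) N0)⁻¹)

include hV1 hred1 hYJ hJc' in
/-- **the LITERAL `h11'` of `LocX0WireE.hloc_X0_E` on helper1's `infTDatumOf`** -/
theorem h11_infTDatumOf
    (hJc : Y.J⁻¹ ∈ chart (ResidueField ↥A) Jc')
    (hφB : ∀ z ∈ chart (ResidueField ↥A) Jc', Y.φ z ∈ chart (ResidueField ↥A) Jc')
    (hφpow : ∀ z ∈ chart (ResidueField ↥A) Jc', ∃ c ∈ chart (ResidueField ↥A) Jc',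
      Y.φ c = z ^ q)
    (S : Set (Ideal ↥(chart (ResidueField ↥A) Jc')))
    (hSJ : ∀ n ∈ S, (⟨Y.J⁻¹, hJc⟩ : ↥(chart (ResidueField ↥A) Jc')) ∉ n)
    (node : ∀ n' n : Ideal ↥(chart (ResidueField ↥A) Jc'), n'.IsMaximal → n.IsMaximal →
      (n'.comap P'.red1 = n.comap P'.red2 ↔ n ∈ S ∧ n' = n.comap (φB hφB)))
    (S_fr : ∀ n ∈ S, n.comap (φB hφB) ∈ S)
    (fr_fr : ∀ n ∈ S, (n.comap (φB hφB)).comap (φB hφB) = n)
    (hrad : ∀ a ∈ chart ↥(W A) (CompNormalX0.x2 (A.inertiaSubgroupIn ℚ) N0 q)⁻¹,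
      a ∈ Y.W₂₀.nonunits → a ∈ Y.W₁₁.nonunits → a ∈ Y.W₀₂.nonunits →
      ∃ N : ℕ, ∃ y ∈ chart ↥(W A) (CompNormalX0.x2 (A.inertiaSubgroupIn ℚ) N0 q)⁻¹,
        a ^ N = (q : FK (A.inertiaSubgroupIn ℚ) (N0 * q * q)) * y) :
    ∀ n : Ideal ↥(chart (ResidueField ↥A) Jc'), n.IsMaximal →
      n ∉ (P'.infTDatumOf hJc hφB hφpow S hSJ node S_fr fr_fr hrad).S →
      (P'.infTDatumOf hJc hφB hφpow S hSJ node S_fr fr_fr hrad).r11
        ⟨(CompNormalX0.x2 (A.inertiaSubgroupIn ℚ) N0 q)⁻¹,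
          Fermat.Agent.S36.LocTransferChart.gen_mem_chart (O := ↥(W A)) (CompNormalX0.x2 (A.inertiaSubgroupIn ℚ) N0 q)⁻¹⟩ ∈ n →
      ∃ z : ↥(chart ↥(W A) (CompNormalX0.x2 (A.inertiaSubgroupIn ℚ) N0 q)⁻¹), z ≠ 0 ∧
      z ∈ RingHom.ker (P'.infTDatumOf hJc hφB hφpow S hSJ node S_fr fr_fr hrad).r11 ∧
      BranchEq (RingHom.ker (P'.infTDatumOf hJc hφB hφpow S hSJ node S_fr fr_fr hrad).r11) z ∧
      ∃ (s c : ↥(chart ↥(W A) (CompNormalX0.x2 (A.inertiaSubgroupIn ℚ) N0 q)⁻¹)) (e : ℕ),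
        0 < e ∧ c ∉ (P'.infTDatumOf hJc hφB hφpow S hSJ node S_fr fr_fr hrad).x11 n ∧
        s * z ^ e = (P'.infTDatumOf hJc hφB hφpow S hSJ node S_fr fr_fr hrad).ϖ * c := by
  have htr := Fermat.Agent.S36.ChartsX0Leaf.transcendental_x2_inv (A.inertiaSubgroupIn ℚ)
    (N0 := N0) hq.out
  obtain ⟨i1, i2, i3⟩ := chartX0_props hA (N0 * q * q) htr
  have i1' : IsNoetherianRing
    ↥(chart ↥(W A) (CompNormalX0.x2 (A.inertiaSubgroupIn ℚ) N0 q)⁻¹) := i1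
  have i2' : IsIntegrallyClosed
    ↥(chart ↥(W A) (CompNormalX0.x2 (A.inertiaSubgroupIn ℚ) N0 q)⁻¹) := i2
  have i3' : IsFractionRing ↥(chart ↥(W A) (CompNormalX0.x2 (A.inertiaSubgroupIn ℚ) N0 q)⁻¹)
    (FK (A.inertiaSubgroupIn ℚ) (N0 * q * q)) := i3
  refine h11_inf_of (hA := hA) (hqN := hqN)
    (R := ↥(chart ↥(W A) (CompNormalX0.x2 (A.inertiaSubgroupIn ℚ) N0 q)⁻¹)) ?_
    (P'.infTDatumOf hJc hφB hφpow S hSJ node S_fr fr_fr hrad) Y hV1 hred1 hYJ ?_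
    (fun a => P'.mem_W₁₁ a)
    (chart (ResidueField ↥A) Jc').toSubring.subtype Subtype.val_injective ?_ ?_ ?_
    (s := ⟨(CompNormalX0.x2 (A.inertiaSubgroupIn ℚ) N0 q)⁻¹,
      Fermat.Agent.S36.LocTransferChart.gen_mem_chart (O := ↥(W A)) (CompNormalX0.x2 (A.inertiaSubgroupIn ℚ) N0 q)⁻¹⟩) rfl
  · intro x hx
    rw [Fermat.Agent.S36.ChartsX0Leaf.x2_eq] at hx
    exact ⟨⟨x, hx⟩, rfl⟩
  · show ((((q : ℕ) : ↥(chart ↥(W A) (CompNormalX0.x2 (A.inertiaSubgroupIn ℚ) N0 q)⁻¹)) :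
      FK (A.inertiaSubgroupIn ℚ) (N0 * q * q))) = _
    rfl
  · intro a
    rfl
  · intro b
    exact hJc' ▸ b.2
  · intro y hy
    exact ⟨⟨y, hJc' ▸ hy⟩, rfl⟩

end Literal

end Fermat.Agent.S36.LocInfH11
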