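/-
PROJECT V (S36), slice V-LocX0, part 6 (helper26): **`hloc ∧ hloc'` at `X₀` with `he20 he02` (both
charts) DISCHARGED** from helper24's `BranchEqX0` (`q` is a uniformiser of the thin places `W₂₀`,
`W₀₂`), on helper1's `ChartPair.finTDatumOf`, `infTDatumOf` (any coordinates `Jc`, `Jc'` of the
component).

* `r20_eq_zero_iff`, `r02_eq_zero_iff` : for a `ChartPair`, `P.r20 a = 0 ↔ val_{W₂₀} a < 1`,
  `P.r02 a = 0 ↔ val_{W₀₂} a < 1` (the hypothesis `hr` of `BranchEqX0.branchEq_*`);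
* `he20_fin`, `he02_fin`, `he20_inf`, `he02_inf` : **the literal `he20`, `he02`** of
  `AllPointsT.locPrincipal_of_isMaximal` / `AllPointsInf..` for `P.finTDatumOf ..`, `P'.infTDatumOf ..`;
* `hloc_X0_E` : `LocX0WireG.hloc_X0_of` without the four `BranchEq` hypotheses.  What remains:
  the `TDatum` hypotheses, `hpid hpid'`, `h11` (off `S`), `h11'` (middle cusps), `hS` (finite chart).
-/
import Mathlib
import Fermat.Agent.S36.LocX0WireG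
import Fermat.Agent.S36.FormalLift.BranchEqX0

set_option autoImplicit false
set_option linter.unusedSectionVars false
set_option linter.unusedVariables false
set_option linter.style.haveILetI false

noncomputable section

namespace Fermat.Agent.S36.LocX0WireE

open Polynomial IntermediateField
open Fermat.Agent.S36.KrullInter Fermat.Agent.S36.LocalGenCore Fermat.Agent.S36.ReducedBranch
open Fermat.Agent.S36.BranchCoreT Fermat.Agent.S36.AllPoints Fermat.Agent.S36.LocTransfer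
open Fermat.Agent.S36.ChartRing Fermat.Agent.S36.Centre Fermat.Agent.S36.LocTransferChart
open Fermat.Agent.S36.CompNormal Fermat.Agent.S36.PowerBasisK0 Fermat.Agent.S36.JIntegral
open Fermat.Agent.S36.CompNormalX0 Fermat.Agent.S36.BranchX0 Fermat.Agent.S36.LocX0Wire
open Fermat.Agent.S36.LocX0WireG

local notation "Kb" => AlgebraicClosure ℚ

variable {H : Subgroup (Kb ≃ₐ[ℚ] Kb)}
variable {N0 q : ℕ} [NeZero N0] [NeZero q] [NeZero (N0 * q)] [NeZero (N0 * q * q)]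
variable {κ : Type} [Field κ] {Y : ThreeValX0.Hyp H N0 q κ}
variable {O : Type*} [CommRing O] [Algebra O (FK H N0)] [Algebra O (FK H (N0 * q))]
  [Algebra O (FK H (N0 * q * q))]
variable {k : Type*} [Field k] [Algebra k κ] {π : O →+* k}
variable {hB : Base Y O π}

/-! ### the kernels of the reductions of a pair of charts -/

section Ker

variable {φ₁ : FK H (N0 * q)} {φ₂ : FK H (N0 * q * q)} {Jc : κ} (P : ChartPair hB φ₁ φ₂ Jc)

theorem r20_eq_zero_iff (a : ↥(chart O φ₂)) :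
    P.r20 a = 0 ↔ Y.W₂₀.valuation (a : FK H (N0 * q * q)) < 1 := by
  rw [← Y.W₂₀.mem_nonunits_iff, ← Y.r₂₀_eq_zero_iff ⟨a, P.mem_W₂₀ a⟩, ← P.coe_r20 a]
  exact ⟨fun h => by rw [h]; rfl, fun h => Subtype.ext h⟩

theorem r02_eq_zero_iff (a : ↥(chart O φ₂)) :
    P.r02 a = 0 ↔ Y.W₀₂.valuation (a : FK H (N0 * q * q)) < 1 := by
  rw [← Y.W₀₂.mem_nonunits_iff, ← Y.r₀₂_eq_zero_iff ⟨a, P.mem_W₀₂ a⟩, ← P.coe_r02 a]
  exact ⟨fun h => by rw [h]; rfl, fun h => Subtype.ext h⟩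

theorem r11_eq_zero_iff (a : ↥(chart O φ₂)) :
    P.r11 a = 0 ↔ Y.W₁₁.valuation (a : FK H (N0 * q * q)) < 1 := by
  rw [← Y.W₁₁.mem_nonunits_iff, ← Y.r₁₁_eq_zero_iff ⟨a, P.mem_W₁₁ a⟩, ← P.coe_r11 a]
  exact ⟨fun h => by rw [h]; rfl, fun h => Subtype.ext h⟩

end Ker

/-! ### `he20`, `he02` -/

section BranchEq

variable [IsDomain O] [IsDiscreteValuationRing O] {K : Type*} [Field K] [Algebra O K]
  [IsFractionRing O K] [CharZero K] [Algebra K (FK H (N0 * q * q))]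
  [IsScalarTower O K (FK H (N0 * q * q))] [IsAlgClosed k]

section Fin

variable {Jc : κ} (P : ChartPair hB (x1 H N0 q) (x2 H N0 q) Jc)
  (hq : Irreducible ((q : ℕ) : O)) (hφ : Transcendental K (x2 H N0 q))
  [FiniteDimensional K⟮x2 H N0 q⟯ (FK H (N0 * q * q))]
  (hφB : ∀ z ∈ chart k Jc, Y.φ z ∈ chart k Jc)
  (hφpow : ∀ z ∈ chart k Jc, ∃ c ∈ chart k Jc, Y.φ c = z ^ q)
  (S : Set (Ideal ↥(chart k Jc)))
  (node : ∀ n' n : Ideal ↥(chart k Jc), n'.IsMaximal → n.IsMaximal →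
    (n'.comap P.red1 = n.comap P.red2 ↔ n ∈ S ∧ n' = n.comap (ChartPair.φB hφB)))
  (S_fr : ∀ n ∈ S, n.comap (ChartPair.φB hφB) ∈ S)
  (fr_fr : ∀ n ∈ S, (n.comap (ChartPair.φB hφB)).comap (ChartPair.φB hφB) = n)
  (hrad : ∀ a ∈ chart O (x2 H N0 q), a ∈ Y.W₂₀.nonunits → a ∈ Y.W₁₁.nonunits →
    a ∈ Y.W₀₂.nonunits →
    ∃ N : ℕ, ∃ y ∈ chart O (x2 H N0 q), a ^ N = (q : FK H (N0 * q * q)) * y)

include hq hφ in
/-- **`he20` on the finite chart** -/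
theorem he20_fin :
    BranchEq (RingHom.ker (P.finTDatumOf hφB hφpow S node S_fr fr_fr hrad).r20)
      (P.finTDatumOf hφB hφpow S node S_fr fr_fr hrad).ϖ :=
  BranchEqX0.branchEq_fin_c20 (K := K) Y hB hq hφ P.r20 (r20_eq_zero_iff P)
    ((q : ℕ) : ↥(chart O (x2 H N0 q))) (by simp)

include hq hφ in
/-- **`he02` on the finite chart** -/
theorem he02_fin :
    BranchEq (RingHom.ker (P.finTDatumOf hφB hφpow S node S_fr fr_fr hrad).r02)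
      (P.finTDatumOf hφB hφpow S node S_fr fr_fr hrad).ϖ :=
  BranchEqX0.branchEq_fin_c02 (K := K) Y hB hq hφ P.r02 (r02_eq_zero_iff P)
    ((q : ℕ) : ↥(chart O (x2 H N0 q))) (by simp)

end Fin

section Inf

variable {Jc' : κ} (P' : ChartPair hB (x1 H N0 q)⁻¹ (x2 H N0 q)⁻¹ Jc')
  (hq : Irreducible ((q : ℕ) : O)) (hφ' : Transcendental K (x2 H N0 q)⁻¹)
  [FiniteDimensional K⟮(x2 H N0 q)⁻¹⟯ (FK H (N0 * q * q))]
  (hJc : Y.J⁻¹ ∈ chart k Jc')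
  (hφB : ∀ z ∈ chart k Jc', Y.φ z ∈ chart k Jc')
  (hφpow : ∀ z ∈ chart k Jc', ∃ c ∈ chart k Jc', Y.φ c = z ^ q)
  (S : Set (Ideal ↥(chart k Jc')))
  (hSJ : ∀ n ∈ S, (⟨Y.J⁻¹, hJc⟩ : ↥(chart k Jc')) ∉ n)
  (node : ∀ n' n : Ideal ↥(chart k Jc'), n'.IsMaximal → n.IsMaximal →
    (n'.comap P'.red1 = n.comap P'.red2 ↔ n ∈ S ∧ n' = n.comap (ChartPair.φB hφB)))
  (S_fr : ∀ n ∈ S, n.comap (ChartPair.φB hφB) ∈ S)
  (fr_fr : ∀ n ∈ S, (n.comap (ChartPair.φB hφB)).comap (ChartPair.φB hφB) = n)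
  (hrad : ∀ a ∈ chart O (x2 H N0 q)⁻¹, a ∈ Y.W₂₀.nonunits → a ∈ Y.W₁₁.nonunits →
    a ∈ Y.W₀₂.nonunits →
    ∃ N : ℕ, ∃ y ∈ chart O (x2 H N0 q)⁻¹, a ^ N = (q : FK H (N0 * q * q)) * y)

include hq hφ' in
/-- **`he20` on the chart at infinity** -/
theorem he20_inf :
    BranchEq (RingHom.ker (P'.infTDatumOf hJc hφB hφpow S hSJ node S_fr fr_fr hrad).r20)
      (P'.infTDatumOf hJc hφB hφpow S hSJ node S_fr fr_fr hrad).ϖ :=
  BranchEqX0.branchEq_inf_c20 (K := K) Y hB hq hφ' P'.r20 (r20_eq_zero_iff P')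
    ((q : ℕ) : ↥(chart O (x2 H N0 q)⁻¹)) (by simp)

include hq hφ' in
/-- **`he02` on the chart at infinity** -/
theorem he02_inf :
    BranchEq (RingHom.ker (P'.infTDatumOf hJc hφB hφpow S hSJ node S_fr fr_fr hrad).r02)
      (P'.infTDatumOf hJc hφB hφpow S hSJ node S_fr fr_fr hrad).ϖ :=
  BranchEqX0.branchEq_inf_c02 (K := K) Y hB hq hφ' P'.r02 (r02_eq_zero_iff P')
    ((q : ℕ) : ↥(chart O (x2 H N0 q)⁻¹)) (by simp)

end Inf

/-! ### `hloc ∧ hloc'` -/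

variable {Jc Jc' : κ} (P : ChartPair hB (x1 H N0 q) (x2 H N0 q) Jc)
  (P' : ChartPair hB (x1 H N0 q)⁻¹ (x2 H N0 q)⁻¹ Jc')

/-- **`hloc` and `hloc'` of `VChartsOfLoc.exists_vcharts` at `X₀`** (`φ = x₂`, `ϖ = q`), the
`BranchEq` hypotheses discharged -/
theorem hloc_X0_E [IsAlgClosed (IsLocalRing.ResidueField O)]
    (hq : Irreducible ((q : ℕ) : O))
    (hφ : Transcendental K (x2 H N0 q)) (hφ' : Transcendental K (x2 H N0 q)⁻¹)
    [FiniteDimensional K⟮x2 H N0 q⟯ (FK H (N0 * q * q))]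
    [FiniteDimensional K⟮(x2 H N0 q)⁻¹⟯ (FK H (N0 * q * q))]
    -- the branch datum of the finite chart
    (hφB : ∀ z ∈ chart k Jc, Y.φ z ∈ chart k Jc)
    (hφpow : ∀ z ∈ chart k Jc, ∃ c ∈ chart k Jc, Y.φ c = z ^ q)
    (S : Set (Ideal ↥(chart k Jc)))
    (node : ∀ n' n : Ideal ↥(chart k Jc), n'.IsMaximal → n.IsMaximal →
      (n'.comap P.red1 = n.comap P.red2 ↔ n ∈ S ∧ n' = n.comap (ChartPair.φB hφB)))
    (S_fr : ∀ n ∈ S, n.comap (ChartPair.φB hφB) ∈ S)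
    (fr_fr : ∀ n ∈ S, (n.comap (ChartPair.φB hφB)).comap (ChartPair.φB hφB) = n)
    (hrad : ∀ a ∈ chart O (x2 H N0 q), a ∈ Y.W₂₀.nonunits → a ∈ Y.W₁₁.nonunits →
      a ∈ Y.W₀₂.nonunits →
      ∃ N : ℕ, ∃ y ∈ chart O (x2 H N0 q), a ^ N = (q : FK H (N0 * q * q)) * y)
    -- (V12) on the finite chart
    (hpid : ∀ n : Ideal ↥(chart k Jc), n.IsMaximal → LocPID n)
    (h11 : ∀ n : Ideal ↥(chart k Jc), n.IsMaximal →
      n ∉ (P.finTDatumOf hφB hφpow S node S_fr fr_fr hrad).S →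
      ∃ z : ↥(chart O (x2 H N0 q)), z ≠ 0 ∧
      z ∈ RingHom.ker (P.finTDatumOf hφB hφpow S node S_fr fr_fr hrad).r11 ∧
      BranchEq (RingHom.ker (P.finTDatumOf hφB hφpow S node S_fr fr_fr hrad).r11) z ∧
      ∃ (s c : ↥(chart O (x2 H N0 q))) (e : ℕ), 0 < e ∧
        c ∉ (P.finTDatumOf hφB hφpow S node S_fr fr_fr hrad).x11 n ∧
        s * z ^ e = (P.finTDatumOf hφB hφpow S node S_fr fr_fr hrad).ϖ * c)
    (hS : ∀ n : Ideal ↥(chart k Jc), n.IsMaximal →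
      n ∈ (P.finTDatumOf hφB hφpow S node S_fr fr_fr hrad).S →
      LocPrincipal (F := FK H (N0 * q * q))
        ((P.finTDatumOf hφB hφpow S node S_fr fr_fr hrad).x20 n))
    -- the branch datum of the chart at infinity
    (hJc : Y.J⁻¹ ∈ chart k Jc')
    (hφB' : ∀ z ∈ chart k Jc', Y.φ z ∈ chart k Jc')
    (hφpow' : ∀ z ∈ chart k Jc', ∃ c ∈ chart k Jc', Y.φ c = z ^ q)
    (S' : Set (Ideal ↥(chart k Jc')))
    (hSJ : ∀ n ∈ S', (⟨Y.J⁻¹, hJc⟩ : ↥(chart k Jc')) ∉ n)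
    (node' : ∀ n' n : Ideal ↥(chart k Jc'), n'.IsMaximal → n.IsMaximal →
      (n'.comap P'.red1 = n.comap P'.red2 ↔ n ∈ S' ∧ n' = n.comap (ChartPair.φB hφB')))
    (S_fr' : ∀ n ∈ S', n.comap (ChartPair.φB hφB') ∈ S')
    (fr_fr' : ∀ n ∈ S', (n.comap (ChartPair.φB hφB')).comap (ChartPair.φB hφB') = n)
    (hrad' : ∀ a ∈ chart O (x2 H N0 q)⁻¹, a ∈ Y.W₂₀.nonunits → a ∈ Y.W₁₁.nonunits →
      a ∈ Y.W₀₂.nonunits →
      ∃ N : ℕ, ∃ y ∈ chart O (x2 H N0 q)⁻¹, a ^ N = (q : FK H (N0 * q * q)) * y)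
    -- (V12) on the chart at infinity
    (hpid' : ∀ n : Ideal ↥(chart k Jc'), n.IsMaximal → LocPID n)
    (h11' : ∀ n : Ideal ↥(chart k Jc'), n.IsMaximal →
      n ∉ (P'.infTDatumOf hJc hφB' hφpow' S' hSJ node' S_fr' fr_fr' hrad').S →
      (P'.infTDatumOf hJc hφB' hφpow' S' hSJ node' S_fr' fr_fr' hrad').r11
        ⟨(x2 H N0 q)⁻¹, gen_mem_chart (O := O) (x2 H N0 q)⁻¹⟩ ∈ n →
      ∃ z : ↥(chart O (x2 H N0 q)⁻¹), z ≠ 0 ∧
      z ∈ RingHom.ker (P'.infTDatumOf hJc hφB' hφpow' S' hSJ node' S_fr' fr_fr' hrad').r11 ∧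
      BranchEq
        (RingHom.ker (P'.infTDatumOf hJc hφB' hφpow' S' hSJ node' S_fr' fr_fr' hrad').r11) z ∧
      ∃ (s c : ↥(chart O (x2 H N0 q)⁻¹)) (e : ℕ), 0 < e ∧
        c ∉ (P'.infTDatumOf hJc hφB' hφpow' S' hSJ node' S_fr' fr_fr' hrad').x11 n ∧
        s * z ^ e = (P'.infTDatumOf hJc hφB' hφpow' S' hSJ node' S_fr' fr_fr' hrad').ϖ * c) :
    (∀ m : Ideal ↥(chart O (x2 H N0 q)), m.IsMaximal →
      piChart (x2 H N0 q) ((q : ℕ) : O) ∈ m → LocPrincipal (F := FK H (N0 * q * q)) m) ∧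
    (∀ m : Ideal ↥(chart O (x2 H N0 q)⁻¹), m.IsMaximal →
      piChart (x2 H N0 q)⁻¹ ((q : ℕ) : O) ∈ m → LocPrincipal (F := FK H (N0 * q * q)) m) :=
  hloc_X0_of (K := K) P P' hq hφ hφ' hφB hφpow S node S_fr fr_fr hrad
    (he20_fin (K := K) P hq hφ hφB hφpow S node S_fr fr_fr hrad)
    (he02_fin (K := K) P hq hφ hφB hφpow S node S_fr fr_fr hrad)
    hpid h11 hS hJc hφB' hφpow' S' hSJ node' S_fr' fr_fr' hrad'
    (he20_inf (K := K) P' hq hφ' hJc hφB' hφpow' S' hSJ node' S_fr' fr_fr' hrad')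
    (he02_inf (K := K) P' hq hφ' hJc hφB' hφpow' S' hSJ node' S_fr' fr_fr' hrad')
    hpid' h11'

end BranchEq

end Fermat.Agent.S36.LocX0WireE
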