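/-
PROJECT V (S36), slice V-LocX0, part 8 (helper26): **`hloc ∧ hloc'` at the ACTUAL objects of `X₀`**:
`A` a valuation subring of `ℚ̄` over `q`, `O = W A` (`S18/C/SmallDVR`), `K = K0 A` the inertia
field, `F = FK0 A (N0 q q) = FK I (N0 q q)` (`I = A.inertiaSubgroupIn ℚ`), `k = ResidueField A`,
`κ = F_k(N0)`, coordinates of the component `Jc = jk k N0`, `Jc' = (jk k N0)⁻¹`, and a VARIABLE
`Y : ThreeValX0.Hyp I N0 q κ` with `hB : CompNormalX0.Base Y (W A) (algebraMap (W A) k)`.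

All instance arguments of `LocX0WireE.hloc_X0_E` are filled (`ChartX0.isDVR`, `irreducible_ell`,
`X0Base.isAlgClosed_residueField_W`, `ChartX0.finiteDimensional_of_transcendental`,
`ResidueBasics.isAlgClosed_residueField`), and `hpid`, `hpid'` are discharged (`LocX0Pid`,
`FkBasics.isFF`, `SeparableFk.isSeparable_jk`).

The statement is elaborated with the local instances `Algebra (W A) (FK I N) := algebraW A N`,
`Algebra (K0 A) (FK I N) := algebraK0 A N` (the recipe of `VertX0Final` / helper13 #2755); its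
conclusion is accepted, by definitional unfolding, as the `hloc`, `hloc'` arguments of
`VChartsOfLoc.exists_vcharts (O := W A) (K := K0 A) (F := FK0 A (N0 q q))` (tested).
-/
import Mathlib
import Fermat.Agent.S36.LocX0WireE
import Fermat.Agent.S36.LocX0Pid
import Fermat.Agent.S36.X0Base
import Fermat.Agent.S36.ChartX0
import Fermat.Agent.S18.B.SeparableFk

set_option autoImplicit false
set_option synthInstance.maxHeartbeats 400000
set_option linter.unusedSectionVars false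
set_option linter.unusedVariables false
set_option linter.style.haveILetI false

noncomputable section

namespace Fermat.Agent.S36.LocX0Inst

open ModularCurve AlgebraicCurve IntermediateField Polynomial IsLocalRing
open Fermat.Agent.S18.B.FkBasics (jk)
open Fermat.Agent.S18.C.SmallDVR
open Fermat.Agent.S36.ChartRing Fermat.Agent.S36.ChartX0
open Fermat.Agent.S36.PowerBasisK0 Fermat.Agent.S36.Centre
open Fermat.Agent.S36.CompNormalX0 Fermat.Agent.S36.BranchX0 Fermat.Agent.S36.BranchCoreT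
open Fermat.Agent.S36.LocalGenCore Fermat.Agent.S36.AllPoints Fermat.Agent.S36.ReducedBranch
open Fermat.Agent.S36.LocTransferChart

local notation "Kb" => AlgebraicClosure ℚ

variable {A : ValuationSubring Kb}

/-- the `W A`-algebra structure on `FK I N`, `I` the inertia group of `A` (`= algebraW A N`) -/
local instance algWFK (N : ℕ) : Algebra ↥(W A) (FK (A.inertiaSubgroupIn ℚ) N) := algebraW A N

/-- the `K0 A`-algebra structure on `FK I N` (`= algebraK0 A N`) -/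
local instance algK0FK (N : ℕ) : Algebra ↥(K0 A) (FK (A.inertiaSubgroupIn ℚ) N) := algebraK0 A N

local instance towFK (N : ℕ) :
    IsScalarTower ↥(W A) ↥(K0 A) (FK (A.inertiaSubgroupIn ℚ) N) := isScalarTowerW A N

variable {q : ℕ} [Fact q.Prime] {N0 : ℕ} [NeZero N0] [NeZero q] [NeZero (N0 * q)]
  [NeZero (N0 * q * q)]
variable (hA : A.LiesOverPrime q)
variable {Y : ThreeValX0.Hyp (A.inertiaSubgroupIn ℚ) N0 q
  ↥(modularFunctionFieldFullC (ResidueField ↥A) N0)}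
variable {hB : Base Y ↥(W A) (algebraMap ↥(W A) (ResidueField ↥A))}

/-- **`hpid`** on `chart k (jk k N0)` -/
theorem hpid_jk : ∀ n : Ideal ↥(chart (ResidueField ↥A) (jk (ResidueField ↥A) N0)),
    n.IsMaximal → LocPID n := by
  haveI : IsAlgClosed (ResidueField ↥A) :=
    Fermat.Agent.S18.ResidueBasics.isAlgClosed_residueField A
  exact LocX0Pid.hpid_chart (Fermat.Agent.S18.B.FkBasics.isFF (ResidueField ↥A) N0)
    (Fermat.Agent.S18.B.SeparableFk.isSeparable_jk (ResidueField ↥A) N0)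

/-- **`hpid'`** on `chart k (jk k N0)⁻¹` -/
theorem hpid_jk_inv : ∀ n : Ideal ↥(chart (ResidueField ↥A) (jk (ResidueField ↥A) N0)⁻¹),
    n.IsMaximal → LocPID n := by
  haveI : IsAlgClosed (ResidueField ↥A) :=
    Fermat.Agent.S18.ResidueBasics.isAlgClosed_residueField A
  exact LocX0Pid.hpid_chart_inv (Fermat.Agent.S18.B.FkBasics.isFF (ResidueField ↥A) N0)
    (Fermat.Agent.S18.B.SeparableFk.isSeparable_jk (ResidueField ↥A) N0)

variable (P : ChartPair hB (x1 (A.inertiaSubgroupIn ℚ) N0 q) (x2 (A.inertiaSubgroupIn ℚ) N0 q)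
    (jk (ResidueField ↥A) N0))
  (P' : ChartPair hB (x1 (A.inertiaSubgroupIn ℚ) N0 q)⁻¹ (x2 (A.inertiaSubgroupIn ℚ) N0 q)⁻¹
    (jk (ResidueField ↥A) N0)⁻¹)

set_option maxHeartbeats 3200000 in
include hA in
/-- **`hloc` and `hloc'` of `VChartsOfLoc.exists_vcharts` at the actual objects of `X₀`**
(`O = W A`, `K = K0 A`, `φ = x₂`, `ϖ = q`) -/
theorem hloc_X0_inst
    (htr : Transcendental ↥(K0 A) (x2 (A.inertiaSubgroupIn ℚ) N0 q))
    (htr' : Transcendental ↥(K0 A) (x2 (A.inertiaSubgroupIn ℚ) N0 q)⁻¹)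
    -- the branch datum of the finite chart
    (hφB : ∀ z ∈ chart (ResidueField ↥A) (jk (ResidueField ↥A) N0),
      Y.φ z ∈ chart (ResidueField ↥A) (jk (ResidueField ↥A) N0))
    (hφpow : ∀ z ∈ chart (ResidueField ↥A) (jk (ResidueField ↥A) N0),
      ∃ c ∈ chart (ResidueField ↥A) (jk (ResidueField ↥A) N0), Y.φ c = z ^ q)
    (S : Set (Ideal ↥(chart (ResidueField ↥A) (jk (ResidueField ↥A) N0))))
    (node : ∀ n' n : Ideal ↥(chart (ResidueField ↥A) (jk (ResidueField ↥A) N0)),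
      n'.IsMaximal → n.IsMaximal →
      (n'.comap P.red1 = n.comap P.red2 ↔ n ∈ S ∧ n' = n.comap (ChartPair.φB hφB)))
    (S_fr : ∀ n ∈ S, n.comap (ChartPair.φB hφB) ∈ S)
    (fr_fr : ∀ n ∈ S, (n.comap (ChartPair.φB hφB)).comap (ChartPair.φB hφB) = n)
    (hrad : ∀ a ∈ chart ↥(W A) (x2 (A.inertiaSubgroupIn ℚ) N0 q), a ∈ Y.W₂₀.nonunits →
      a ∈ Y.W₁₁.nonunits → a ∈ Y.W₀₂.nonunits →
      ∃ N : ℕ, ∃ y ∈ chart ↥(W A) (x2 (A.inertiaSubgroupIn ℚ) N0 q),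
        a ^ N = (q : FK (A.inertiaSubgroupIn ℚ) (N0 * q * q)) * y)
    -- (V12) on the finite chart
    (h11 : ∀ n : Ideal ↥(chart (ResidueField ↥A) (jk (ResidueField ↥A) N0)), n.IsMaximal →
      n ∉ (P.finTDatumOf hφB hφpow S node S_fr fr_fr hrad).S →
      ∃ z : ↥(chart ↥(W A) (x2 (A.inertiaSubgroupIn ℚ) N0 q)), z ≠ 0 ∧
      z ∈ RingHom.ker (P.finTDatumOf hφB hφpow S node S_fr fr_fr hrad).r11 ∧
      BranchEq (RingHom.ker (P.finTDatumOf hφB hφpow S node S_fr fr_fr hrad).r11) z ∧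
      ∃ (s c : ↥(chart ↥(W A) (x2 (A.inertiaSubgroupIn ℚ) N0 q))) (e : ℕ), 0 < e ∧
        c ∉ (P.finTDatumOf hφB hφpow S node S_fr fr_fr hrad).x11 n ∧
        s * z ^ e = (P.finTDatumOf hφB hφpow S node S_fr fr_fr hrad).ϖ * c)
    (hS : ∀ n : Ideal ↥(chart (ResidueField ↥A) (jk (ResidueField ↥A) N0)), n.IsMaximal →
      n ∈ (P.finTDatumOf hφB hφpow S node S_fr fr_fr hrad).S →
      LocPrincipal (F := FK (A.inertiaSubgroupIn ℚ) (N0 * q * q))
        ((P.finTDatumOf hφB hφpow S node S_fr fr_fr hrad).x20 n))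
    -- the branch datum of the chart at infinity
    (hJc : Y.J⁻¹ ∈ chart (ResidueField ↥A) (jk (ResidueField ↥A) N0)⁻¹)
    (hφB' : ∀ z ∈ chart (ResidueField ↥A) (jk (ResidueField ↥A) N0)⁻¹,
      Y.φ z ∈ chart (ResidueField ↥A) (jk (ResidueField ↥A) N0)⁻¹)
    (hφpow' : ∀ z ∈ chart (ResidueField ↥A) (jk (ResidueField ↥A) N0)⁻¹,
      ∃ c ∈ chart (ResidueField ↥A) (jk (ResidueField ↥A) N0)⁻¹, Y.φ c = z ^ q)
    (S' : Set (Ideal ↥(chart (ResidueField ↥A) (jk (ResidueField ↥A) N0)⁻¹)))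
    (hSJ : ∀ n ∈ S',
      (⟨Y.J⁻¹, hJc⟩ : ↥(chart (ResidueField ↥A) (jk (ResidueField ↥A) N0)⁻¹)) ∉ n)
    (node' : ∀ n' n : Ideal ↥(chart (ResidueField ↥A) (jk (ResidueField ↥A) N0)⁻¹),
      n'.IsMaximal → n.IsMaximal →
      (n'.comap P'.red1 = n.comap P'.red2 ↔ n ∈ S' ∧ n' = n.comap (ChartPair.φB hφB')))
    (S_fr' : ∀ n ∈ S', n.comap (ChartPair.φB hφB') ∈ S')
    (fr_fr' : ∀ n ∈ S', (n.comap (ChartPair.φB hφB')).comap (ChartPair.φB hφB') = n)
    (hrad' : ∀ a ∈ chart ↥(W A) (x2 (A.inertiaSubgroupIn ℚ) N0 q)⁻¹, a ∈ Y.W₂₀.nonunits →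
      a ∈ Y.W₁₁.nonunits → a ∈ Y.W₀₂.nonunits →
      ∃ N : ℕ, ∃ y ∈ chart ↥(W A) (x2 (A.inertiaSubgroupIn ℚ) N0 q)⁻¹,
        a ^ N = (q : FK (A.inertiaSubgroupIn ℚ) (N0 * q * q)) * y)
    -- (V12) on the chart at infinity: the middle cusps
    (h11' : ∀ n : Ideal ↥(chart (ResidueField ↥A) (jk (ResidueField ↥A) N0)⁻¹), n.IsMaximal →
      n ∉ (P'.infTDatumOf hJc hφB' hφpow' S' hSJ node' S_fr' fr_fr' hrad').S →
      (P'.infTDatumOf hJc hφB' hφpow' S' hSJ node' S_fr' fr_fr' hrad').r11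
        ⟨(x2 (A.inertiaSubgroupIn ℚ) N0 q)⁻¹,
          gen_mem_chart (O := ↥(W A)) (x2 (A.inertiaSubgroupIn ℚ) N0 q)⁻¹⟩ ∈ n →
      ∃ z : ↥(chart ↥(W A) (x2 (A.inertiaSubgroupIn ℚ) N0 q)⁻¹), z ≠ 0 ∧
      z ∈ RingHom.ker (P'.infTDatumOf hJc hφB' hφpow' S' hSJ node' S_fr' fr_fr' hrad').r11 ∧
      BranchEq
        (RingHom.ker (P'.infTDatumOf hJc hφB' hφpow' S' hSJ node' S_fr' fr_fr' hrad').r11) z ∧
      ∃ (s c : ↥(chart ↥(W A) (x2 (A.inertiaSubgroupIn ℚ) N0 q)⁻¹)) (e : ℕ), 0 < e ∧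
        c ∉ (P'.infTDatumOf hJc hφB' hφpow' S' hSJ node' S_fr' fr_fr' hrad').x11 n ∧
        s * z ^ e = (P'.infTDatumOf hJc hφB' hφpow' S' hSJ node' S_fr' fr_fr' hrad').ϖ * c) :
    (∀ m : Ideal ↥(chart ↥(W A) (x2 (A.inertiaSubgroupIn ℚ) N0 q)), m.IsMaximal →
      piChart (x2 (A.inertiaSubgroupIn ℚ) N0 q) ((q : ℕ) : ↥(W A)) ∈ m →
        LocPrincipal (F := FK (A.inertiaSubgroupIn ℚ) (N0 * q * q)) m) ∧
    (∀ m : Ideal ↥(chart ↥(W A) (x2 (A.inertiaSubgroupIn ℚ) N0 q)⁻¹), m.IsMaximal →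
      piChart (x2 (A.inertiaSubgroupIn ℚ) N0 q)⁻¹ ((q : ℕ) : ↥(W A)) ∈ m →
        LocPrincipal (F := FK (A.inertiaSubgroupIn ℚ) (N0 * q * q)) m) := by
  haveI := isDVR hA
  haveI fd : FiniteDimensional ↥(↥(K0 A))⟮x2 (A.inertiaSubgroupIn ℚ) N0 q⟯
      (FK (A.inertiaSubgroupIn ℚ) (N0 * q * q)) :=
    ChartX0.finiteDimensional_of_transcendental A (N0 * q * q) htr
  haveI fd' : FiniteDimensional ↥(↥(K0 A))⟮(x2 (A.inertiaSubgroupIn ℚ) N0 q)⁻¹⟯
      (FK (A.inertiaSubgroupIn ℚ) (N0 * q * q)) :=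
    ChartX0.finiteDimensional_of_transcendental A (N0 * q * q) htr'
  haveI : IsAlgClosed (ResidueField ↥A) :=
    Fermat.Agent.S18.ResidueBasics.isAlgClosed_residueField A
  haveI := Fermat.Agent.S36.X0Base.isAlgClosed_residueField_W hA
  exact LocX0WireE.hloc_X0_E (K := ↥(K0 A)) P P' (irreducible_ell hA) htr htr'
    hφB hφpow S node S_fr fr_fr hrad hpid_jk h11 hS
    hJc hφB' hφpow' S' hSJ node' S_fr' fr_fr' hrad' hpid_jk_inv h11'

end Fermat.Agent.S36.LocX0Inst
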