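/-
PROJECT V (S36), block (B2) of the final assembly (helper14; HEDGE of helper1's `S36/LocX0Final`):
**`hloc ∧ hloc'` of `VChartsOfLoc.exists_vcharts` / `NewInertiaFinal.leafHyp_of_blocks` at `X₀`,
with every `TDatum` binder of `LocX0Inst.hloc_X0_inst` and the two `(V12)(ii)` binders `h11`
(`LocFinH11X0.h11_finTDatumOf`), `h11'` (`LocInfH11.h11_infTDatumOf`) discharged.  The ONLY
remaining hypothesis is `hS` : local principality at the triple points of the finite chart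
(`TripleFinal.hS_of_pointHyp`).**

* `hloc_both_X0` : a VARIABLE `Y : ThreeValX0.Hyp I M q κ` with `L : BranchNodeX0.LinkQ hA hqM I Y`,
  `hO₀ : Y.O₀ = Og0 M hA hqM`, `hB : Base Y (W A) (algebraMap (W A) k)`, the node set
  `S0 : Finset (Place k κ)` (`hS hbS hFr hFr2`) and the auxiliary prime `r ≡ 11 mod 12`, `r ∣ M`;
  the fin `TDatum` is `FinTDatumX0.finTDatumX0` (= helper27's `BranchFinX0.finTDatumX0` by proof
  irrelevance), the inf `TDatum` is helper24's `BranchInfX0.infTDatumX0`.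
-/
import Mathlib
import Fermat.Agent.S36.LocX0Inst
import Fermat.Agent.S36.FinTDatumX0
import Fermat.Agent.S36.BranchInfX0
import Fermat.Agent.S36.LocFinH11X0
import Fermat.Agent.S36.LocInfH11
import Fermat.Agent.S36.ChartsX0Leaf
import Fermat.Agent.S36.BranchFinX0

set_option autoImplicit false
set_option linter.unusedSectionVars false
set_option linter.style.haveILetI false
set_option linter.unusedVariables false
set_option synthInstance.maxHeartbeats 400000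

noncomputable section

namespace Fermat.Agent.S36.LocX0FinalY

open ModularCurve AlgebraicCurve IsLocalRing IntermediateField Polynomial
open Fermat.Agent.S18.B.FkBasics (jk)
open Fermat.Agent.S18.C.SmallDVR
open Fermat.Agent.S34.EulerX0 Fermat.Agent.S34.EulerClosedX0
open Fermat.Agent.S34.FrobK Fermat.Agent.S34.Euler.Value Fermat.Agent.S34.Euler.FrobSide
open Fermat.Agent.S36.NodesDesc Fermat.Agent.S36.PairLiftK0 Fermat.Agent.S36.PowerBasisK0
open Fermat.Agent.S36.ThetaK0 Fermat.Agent.S36.ChartRing Fermat.Agent.S36.CompNormal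
open Fermat.Agent.S36.SpecDictOne Fermat.Agent.S36.Centre
open Fermat.Agent.S36.CompNormalX0 Fermat.Agent.S36.BranchX0 Fermat.Agent.S36.BranchNodeX0
open Fermat.Agent.S36.BranchX0NodeG
open Fermat.Agent.S36.ChartX0 Fermat.Agent.S36.GaussK0Comap
open Fermat.Agent.S36.LocalGenCore

local notation "Kb" => AlgebraicClosure ℚ
local notation "GQ" => (AlgebraicClosure ℚ ≃ₐ[ℚ] AlgebraicClosure ℚ)

attribute [local instance 2000] Fermat.Agent.S34.EulerX0.algResFk

local instance instACkLoc (A : ValuationSubring Kb) : IsAlgClosed (ResidueField ↥A) :=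
  Fermat.Agent.S18.ResidueBasics.isAlgClosed_residueField A

variable {q : ℕ} [hq : Fact q.Prime] [NeZero q] {M : ℕ} [NeZero M] [NeZero (M * q)]
  [NeZero (M * q * q)]
variable {A : ValuationSubring Kb} {hA : A.LiesOverPrime q} {hqM : ¬ q ∣ M}
variable [CharP (ResidueField ↥A) q] [PerfectField (ResidueField ↥A)]

local instance instAlgWFK (N : ℕ) : Algebra ↥(W A) (FK (A.inertiaSubgroupIn ℚ) N) := algebraW A N

local instance instAlgK0FK (N : ℕ) : Algebra ↥(K0 A) (FK (A.inertiaSubgroupIn ℚ) N) :=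
  algebraK0 A N

local instance instTowFK (N : ℕ) :
    IsScalarTower ↥(W A) ↥(K0 A) (FK (A.inertiaSubgroupIn ℚ) N) := isScalarTowerW A N

variable {Y : ThreeValX0.Hyp (A.inertiaSubgroupIn ℚ) M q
  ↥(modularFunctionFieldFullC (ResidueField ↥A) M)}
variable (hB : Base Y ↥(W A) (algebraMap ↥(W A) (ResidueField ↥A)))
  (L : LinkQ hA hqM (A.inertiaSubgroupIn ℚ) Y) (hO₀ : Y.O₀ = Og0 M hA hqM)
variable {S0 : Finset (Place (ResidueField ↥A) ↥(modularFunctionFieldFullC (ResidueField ↥A) M))}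
  (hS : ∀ b ∈ S0, b ∉ P0 (ResidueField ↥A) M) (hbS : Desc hA hqM S0)
  (hFr : ∀ b ∈ S0, Fr (ResidueField ↥A) M q b ∈ S0)
  (hFr2 : ∀ b ∈ S0, Fr (ResidueField ↥A) M q (Fr (ResidueField ↥A) M q b) = b)

set_option maxHeartbeats 6400000 in
/-- **`hloc ∧ hloc'` at `X₀` for a variable `Y`**, from `hS` alone -/
theorem hloc_both_X0 {r : ℕ} (hr : r.Prime) (hr12 : r % 12 = 11) (hrM : r ∣ M)
    (hSfin : ∀ n : Ideal ↥(chart (ResidueField ↥A) (jk (ResidueField ↥A) M)), n.IsMaximal →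
      n ∈ (Fermat.Agent.S36.FinTDatumX0.finTDatumX0 hB L hO₀ hS hbS hFr hFr2).S →
      LocPrincipal (F := FK (A.inertiaSubgroupIn ℚ) (M * q * q))
        ((Fermat.Agent.S36.FinTDatumX0.finTDatumX0 hB L hO₀ hS hbS hFr hFr2).x20 n)) :
    (∀ m : Ideal ↥(chart ↥(W A) (x2 (A.inertiaSubgroupIn ℚ) M q)), m.IsMaximal →
      piChart (x2 (A.inertiaSubgroupIn ℚ) M q) ((q : ℕ) : ↥(W A)) ∈ m →
        LocPrincipal (F := FK (A.inertiaSubgroupIn ℚ) (M * q * q)) m) ∧
    (∀ m : Ideal ↥(chart ↥(W A) (x2 (A.inertiaSubgroupIn ℚ) M q)⁻¹), m.IsMaximal →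
      piChart (x2 (A.inertiaSubgroupIn ℚ) M q)⁻¹ ((q : ℕ) : ↥(W A)) ∈ m →
        LocPrincipal (F := FK (A.inertiaSubgroupIn ℚ) (M * q * q)) m) := by
  have hred1 : ∀ (x : FK (A.inertiaSubgroupIn ℚ) (M * q)) (h : x ∈ Y.V₁)
      (h' : x ∈ V1K (A.inertiaSubgroupIn ℚ) hA hqM),
      Y.red₁ ⟨x, h⟩ = red1K (A.inertiaSubgroupIn ℚ) hA hqM ⟨x, h'⟩ := fun x h h' => L.red₁_eq h
  exact Fermat.Agent.S36.LocX0Inst.hloc_X0_inst hA (finPairX0 hB L)
    (Fermat.Agent.S36.BranchInfX0.pairInf hB L)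
    (Fermat.Agent.S36.ChartsX0Leaf.transcendental_x2_K0 A M)
    (Fermat.Agent.S36.ChartsX0Leaf.transcendental_x2_inv_K0 A M)
    (hφB_fin L) (Fermat.Agent.S36.FinTDatumX0.hφpow L) (Fermat.Agent.S36.FinTDatumX0.nodesFin S0)
    (node_finX0 L hO₀ hS hbS (finPairX0 hB L) (hφB_fin L))
    (Fermat.Agent.S36.FinTDatumX0.S_fr L hFr) (Fermat.Agent.S36.FinTDatumX0.fr_fr L hFr2)
    (Fermat.Agent.S36.BranchX0Rad.hrad_fin_W hA hqM Y hB hO₀)
    (Fermat.Agent.S36.LocFinH11X0.h11_finTDatumOf L.hV₁ hred1 (finPairX0 hB L) rfl hr hr12 hrM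
      (hφB_fin L) (Fermat.Agent.S36.FinTDatumX0.hφpow L) hS hbS
      (node_finX0 L hO₀ hS hbS (finPairX0 hB L) (hφB_fin L))
      (Fermat.Agent.S36.FinTDatumX0.S_fr L hFr) (Fermat.Agent.S36.FinTDatumX0.fr_fr L hFr2)
      (Fermat.Agent.S36.BranchX0Rad.hrad_fin_W hA hqM Y hB hO₀))
    hSfin
    (Fermat.Agent.S36.BranchInfX0.J_inv_mem L) (Fermat.Agent.S36.BranchInfX0.hφB L)
    (Fermat.Agent.S36.BranchInfX0.hφpow L) (Fermat.Agent.S36.BranchInfX0.nodesInf S0)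
    (Fermat.Agent.S36.BranchInfX0.hSJ L hS)
    (Fermat.Agent.S36.BranchInfX0.node hB L hO₀ hS hbS)
    (Fermat.Agent.S36.BranchInfX0.S_fr L hFr) (Fermat.Agent.S36.BranchInfX0.fr_fr L hFr2)
    (Fermat.Agent.S36.BranchInfX0.hrad hB hO₀)
    (Fermat.Agent.S36.LocInfH11.h11_infTDatumOf L.hV₁ hred1 L.J_eq_jk
      (Fermat.Agent.S36.BranchInfX0.pairInf hB L) rfl
      (Fermat.Agent.S36.BranchInfX0.J_inv_mem L) (Fermat.Agent.S36.BranchInfX0.hφB L)
      (Fermat.Agent.S36.BranchInfX0.hφpow L) (Fermat.Agent.S36.BranchInfX0.nodesInf S0)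
      (Fermat.Agent.S36.BranchInfX0.hSJ L hS)
      (Fermat.Agent.S36.BranchInfX0.node hB L hO₀ hS hbS)
      (Fermat.Agent.S36.BranchInfX0.S_fr L hFr) (Fermat.Agent.S36.BranchInfX0.fr_fr L hFr2)
      (Fermat.Agent.S36.BranchInfX0.hrad hB hO₀))

/-! ### the actual objects -/

section Actual

open Fermat.Agent.S18.NonSpecial
open Fermat.Agent.S36.LeafX Fermat.Agent.S36.LeafXInst Fermat.Agent.S36.ThreeValX0Inst

variable (hA hqM)
variable {gM : ℕ}
variable (HM : RiemannHyp (ResidueField ↥A) ↥(modularFunctionFieldFullC (ResidueField ↥A) M) gM)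

set_option maxHeartbeats 6400000 in
/-- **block (B2) at the actual objects** (`Y = hypX0 hA hqM`, node set = the nodes of `datumY`),
from `hS` on helper27's `BranchFinX0.finTDatumY` alone -/
theorem hloc_both_Y {r : ℕ} (hr : r.Prime) (hr12 : r % 12 = 11) (hrM : r ∣ M)
    (hSfin : ∀ n : Ideal ↥(chart (ResidueField ↥A) (jk (ResidueField ↥A) M)), n.IsMaximal →
      n ∈ (Fermat.Agent.S36.BranchFinX0.finTDatumY hA hqM HM).S →
      LocPrincipal (F := FK (A.inertiaSubgroupIn ℚ) (M * q * q))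
        ((Fermat.Agent.S36.BranchFinX0.finTDatumY hA hqM HM).x20 n)) :
    (∀ m : Ideal ↥(chart ↥(W A) (x2 (A.inertiaSubgroupIn ℚ) M q)), m.IsMaximal →
      piChart (x2 (A.inertiaSubgroupIn ℚ) M q) ((q : ℕ) : ↥(W A)) ∈ m →
        LocPrincipal (F := FK (A.inertiaSubgroupIn ℚ) (M * q * q)) m) ∧
    (∀ m : Ideal ↥(chart ↥(W A) (x2 (A.inertiaSubgroupIn ℚ) M q)⁻¹), m.IsMaximal →
      piChart (x2 (A.inertiaSubgroupIn ℚ) M q)⁻¹ ((q : ℕ) : ↥(W A)) ∈ m →
        LocPrincipal (F := FK (A.inertiaSubgroupIn ℚ) (M * q * q)) m) :=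
  hloc_both_X0 (Fermat.Agent.S36.BranchFinX0.baseY hA hqM HM)
    (Fermat.Agent.S36.BranchFinX0.linkQY hA hqM) (hypX0_O₀ hA hqM)
    (nodesD_off_cusps hA hqM HM) (nodesD_desc hA hqM HM) (nodesD_fr_mem hA hqM HM)
    (nodesD_fr_fr hA hqM HM) hr hr12 hrM hSfin

end Actual

end Fermat.Agent.S36.LocX0FinalY
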