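/-
S36 (project V), slice V-TriplePointX0 (helper16), chain (V12)(iii) at `X₀`: THE LOCAL DATA OF THE
POINT PACKAGE `TripleFinal.PointHyp` AT A NODE, on helper1's `BranchX0.ChartPair.red0`
(the reduction `chart O φ₀ →+* chart k Jc` of the level-`N0` chart).  Hedge of items (1)(2)(7) of
board #2791 for `TripleX0`.

Setting: `Y : ThreeValX0.Hyp H N0 q κ` with `κ = F_k(N0)`, `hB : CompNormalX0.Base Y O π`,
`P : ChartPair hB φ₁ φ₂ Jc`, a level-`N0` chart `chart O φ₀` with `φ₀ ∈ O₀`,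
`red₀ φ₀ ∈ chart k Jc` and the lifting property `lift₀`; `b` a place of `κ` finite at `Jc`,
`n_b = SpecDictOne.pointOf b hv` its point on `chart k Jc`.

* `ρ0 P h₀ hJ₀ b hv : chart O φ₀ →+* O_b` := (inclusion `chart k Jc → O_b`) ∘ `P.red0`;
  `coe_ρ0` : `((ρ0 a : O_b) : κ) = red₀ a`;
* `hm0` : `a ∈ n_b.comap red0 ↔ ρ0 a ∈ 𝔪_b` (the `hm0` of `PointHyp` for `m₀ = red0⁻¹ n_b`);
* `hloc` : `∀ d : O_b, ∃ a t, t ∉ m₀ ∧ ρ0 t * d = ρ0 a` (`O_b` is the localisation of the chart);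
* `exists_param` : `∃ a : chart O φ₀, ord_b (red₀ a) = 1`, and then `Irreducible (ρ0 a)`
  (`irreducible_ρ0`): the `s = x0` of the package with `c = 0`;
* `r₀₂_a₂'`, `mem_x20_iff` : for a `TDatum` `D` with `D.r02 = P.r02` and `n ∈ D.S` maximal:
  `a' ∈ D.x20 n ↔ P.red0 a ∈ n` whenever `(a' : F₂) = β²(a)` — the closed point
  `(D.x20 n) ∩ A₀` of `PointHyp` IS `red0⁻¹ n` (triple point: `x20 n = x02 n`, and
  `r₀₂ ∘ β² = red₀`, no Frobenius);
* `comap_x20_eq` : the same as an equality of ideals, for any ring hom `ι : chart O φ₀ →+* chart O φ₂`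
  inducing `β²` (= `algebraMap A₀ A` of `TripleFinal` at `X₀`).
-/
import Mathlib
import Fermat.Agent.S36.BranchX0Node
import Fermat.Agent.S36.SpecDictOne
import Fermat.Agent.S36.SpecDictLocal

set_option autoImplicit false
set_option linter.style.haveILetI false
set_option linter.unusedSectionVars false
set_option linter.unusedVariables false

noncomputable section

namespace Fermat.Agent.S36.TriplePointX0

open AlgebraicCurve ModularCurve IntermediateField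
open Fermat.Agent.S24.FF
open Fermat.Agent.S36.ChartRing (chart)
open Fermat.Agent.S36.PowerBasisK0 (FK alphaK betaK)
open Fermat.Agent.S36.CompNormalX0 Fermat.Agent.S36.BranchCoreT
open Fermat.Agent.S36.BranchX0 Fermat.Agent.S36.BranchX0.ChartPair
open Fermat.Agent.S36.SpecDictOne Fermat.Agent.S36.SpecDictLocal

local notation "Kb" => AlgebraicClosure ℚ

variable {H : Subgroup (Kb ≃ₐ[ℚ] Kb)}
variable {N0 q : ℕ} [NeZero N0] [NeZero q] [NeZero (N0 * q)] [NeZero (N0 * q * q)]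
variable {k : Type} [Field k]
variable {Y : ThreeValX0.Hyp H N0 q ↥(modularFunctionFieldFullC k N0)}
variable {O : Type*} [CommRing O] [Algebra O (FK H N0)] [Algebra O (FK H (N0 * q))]
  [Algebra O (FK H (N0 * q * q))] {π : O →+* k} {hB : Base Y O π}
variable {φ₁ : FK H (N0 * q)} {φ₂ : FK H (N0 * q * q)}
  {Jc : ↥(modularFunctionFieldFullC k N0)} (P : ChartPair hB φ₁ φ₂ Jc)
variable {φ₀ : FK H N0} (h₀ : φ₀ ∈ Y.O₀) (hJ₀ : Y.red₀ ⟨φ₀, h₀⟩ ∈ chart k Jc)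

/-! ### the reduction into the local ring of a place -/

section Rho

variable (b : Place k ↥(modularFunctionFieldFullC k N0)) (hv : Jc ∈ b.toValuationSubring)

/-- **`ρ0`** : the reduction of the level-`N0` chart followed by the inclusion of the chart of the
component into the local ring of the place `b` -/
def ρ0 : ↥(chart O φ₀) →+* ↥b.toValuationSubring :=
  (incl b hv).comp (P.red0 h₀ hJ₀)

theorem coe_ρ0 (a : ↥(chart O φ₀)) :
    ((ρ0 P h₀ hJ₀ b hv a : ↥b.toValuationSubring) : ↥(modularFunctionFieldFullC k N0)) =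
      Y.red₀ ⟨a, P.mem_O₀ h₀ a⟩ := rfl

/-- **`hm0`** of `TripleFinal.PointHyp` for `m₀ = red0⁻¹ n_b` -/
theorem hm0 (a : ↥(chart O φ₀)) :
    a ∈ (pointOf b hv).comap (P.red0 h₀ hJ₀) ↔
      ρ0 P h₀ hJ₀ b hv a ∈ IsLocalRing.maximalIdeal ↥b.toValuationSubring :=
  Iff.rfl

variable (hx : IsFF k Jc) (hsep : Algebra.IsSeparable k⟮Jc⟯ ↥(modularFunctionFieldFullC k N0))
  (lift₀ : ∀ z ∈ (chart k Jc : Set ↥(modularFunctionFieldFullC k N0)), ∃ g : FK H N0,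
    g ∈ chart O φ₀ ∧ ∃ hg : g ∈ Y.O₀, Y.red₀ ⟨g, hg⟩ = z)

include hx hsep lift₀ in
/-- **`hloc`** of `TripleFinal.PointHyp`: `O_b` is the localisation of the image of the chart -/
theorem hloc (d : ↥b.toValuationSubring) :
    ∃ a t : ↥(chart O φ₀), t ∉ (pointOf b hv).comap (P.red0 h₀ hJ₀) ∧
      ρ0 P h₀ hJ₀ b hv t * d = ρ0 P h₀ hJ₀ b hv a := by
  obtain ⟨z, s, hs, hds⟩ := exists_mul_eq_of_mem hx hsep b hv d.2
  obtain ⟨a, ha⟩ := P.red0_surjective h₀ hJ₀ lift₀ z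
  obtain ⟨t, ht⟩ := P.red0_surjective h₀ hJ₀ lift₀ s
  refine ⟨a, t, ?_, ?_⟩
  · rw [Ideal.mem_comap, ht]
    exact hs
  · apply Subtype.ext
    change ((P.red0 h₀ hJ₀ t : chart k Jc) : ↥(modularFunctionFieldFullC k N0)) *
      (d : ↥(modularFunctionFieldFullC k N0)) =
      ((P.red0 h₀ hJ₀ a : chart k Jc) : ↥(modularFunctionFieldFullC k N0))
    rw [ht, ha, mul_comm]
    exact hds

include hx hsep lift₀ hv hJ₀ in
/-- **a local parameter at `b` lifts to the level-`N0` chart** -/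
theorem exists_param :
    ∃ a : ↥(chart O φ₀), b.ord (Y.red₀ ⟨a, P.mem_O₀ h₀ a⟩) = 1 := by
  obtain ⟨f, hf⟩ := exists_ord_eq_one hx hsep b hv
  obtain ⟨a, ha⟩ := P.red0_surjective h₀ hJ₀ lift₀ f
  refine ⟨a, ?_⟩
  rw [← P.coe_red0 h₀ hJ₀ a, ha]
  exact hf

/-- the reduction of a lifted local parameter is irreducible in `O_b` -/
theorem irreducible_ρ0 {a : ↥(chart O φ₀)} (ha : b.ord (Y.red₀ ⟨a, P.mem_O₀ h₀ a⟩) = 1) :
    Irreducible (ρ0 P h₀ hJ₀ b hv a) :=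
  irreducible_of_ord_eq_one b ha

end Rho

/-! ### the closed point of the level-`N0` chart below a triple point -/

section Point

/-- `r₀₂ ∘ β² = red₀` (any membership proof) -/
theorem r₀₂_a₂' (g : FK H N0) (hg : g ∈ Y.O₀) (h : a₂ H N0 q g ∈ Y.W₀₂) :
    Y.r₀₂ ⟨a₂ H N0 q g, h⟩ = Y.red₀ ⟨g, hg⟩ :=
  r₀₂_a₂ Y g hg

variable {A₁ : Type*} [CommRing A₁]
  (D : TDatum A₁ ↥(chart O φ₂) ↥(chart k Jc)) (hD02 : D.r02 = P.r02)

include hD02 in
/-- **the closed point `(D.x20 n) ∩ A₀` is `red0⁻¹ n`**, elementwise: for `n ∈ D.S` maximal and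
`a' ∈ chart O φ₂` with `a' = β²(a)`, `a ∈ chart O φ₀` -/
theorem mem_x20_iff {n : Ideal ↥(chart k Jc)} (hn : n.IsMaximal) (hnS : n ∈ D.S)
    (a : ↥(chart O φ₀)) (a' : ↥(chart O φ₂))
    (ha' : (a' : FK H (N0 * q * q)) = a₂ H N0 q (a : FK H N0)) :
    a' ∈ D.x20 n ↔ P.red0 h₀ hJ₀ a ∈ n := by
  rw [D.x20_eq_x02 hn hnS]
  change D.r02 a' ∈ n ↔ _
  rw [hD02]
  have e : P.r02 a' = P.red0 h₀ hJ₀ a := by
    apply Subtype.ext
    rw [P.coe_r02, P.coe_red0 h₀ hJ₀]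
    have h1 : (⟨(a' : FK H (N0 * q * q)), P.mem_W₀₂ a'⟩ : ↥Y.W₀₂)
        = ⟨a₂ H N0 q (a : FK H N0), a₂_mem_W₀₂ Y _ (P.mem_O₀ h₀ a)⟩ := Subtype.ext ha'
    rw [h1]
    exact r₀₂_a₂ Y _ (P.mem_O₀ h₀ a)
  rw [e]

include hD02 in
/-- **`(D.x20 n).comap ι = red0⁻¹ n`** for every ring hom `ι : chart O φ₀ →+* chart O φ₂` inducing
`β²` (the `algebraMap A₀ A` of `TripleFinal` at `X₀`), `n ∈ D.S` maximal -/
theorem comap_x20_eq {n : Ideal ↥(chart k Jc)} (hn : n.IsMaximal) (hnS : n ∈ D.S)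
    (ι : ↥(chart O φ₀) →+* ↥(chart O φ₂))
    (hι : ∀ a : ↥(chart O φ₀), ((ι a : ↥(chart O φ₂)) : FK H (N0 * q * q))
      = a₂ H N0 q (a : FK H N0)) :
    (D.x20 n).comap ι = n.comap (P.red0 h₀ hJ₀) := by
  ext a
  rw [Ideal.mem_comap, Ideal.mem_comap]
  exact mem_x20_iff P h₀ hJ₀ D hD02 hn hnS a (ι a) (hι a)

end Point

end Fermat.Agent.S36.TriplePointX0
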