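/-
PROJECT V (S36), slice V-CharpolyRed (helper22): **first-order Kronecker at level `q²` for a general
function** (input of chain (V12)(iii): `Ψ ≡ T^(q²+q)` modulo the maximal ideal of a supersingular
point), `β`-side.

`q` prime, `q ∤ N0`, `E0 = ℚ̄(X₀(N0))`, `E2 = ℚ̄(X₀(N0 q²))`, `x ∈ E0`.
`psiPoly hq hqN x ∈ E0[X]` := the characteristic polynomial of `α₂α₁ x = x(t)` in `E2` over
`β₂β₁ E0 = {g(t^(q²))}` (monic of degree `q² + q`).

* `map_psiPoly` : through `g ↦ g(t^(q²))` it is
  `conjPoly ζ q x = ∏_{b<q²}(X - x(ζ^b t)) · (X - x(t^(q⁴))) · ∏_{0<c<q}(X - x(ζ_q^c t^(q²)))`;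
* `psiPoly_eval` : `Ψ_x(s) = N_{E2/β²E0}(β₂β₁ s - α₂α₁ x)`, in particular `Ψ_x(x)` is the diagonal norm
  of `S36/NormDiag(Red)` (`= q · R_x`); `psiPoly_root` : `Ψ_x(α₂α₁ x) = 0`;
* `map_arithmeticRingAut_psiPoly` : `σ(Ψ_x) = Ψ_(σ x)` for `σ ∈ Gal(ℚ̄/ℚ)` (descent to `K₀`);
* `exists_coeff` / `exists_poly` : `A` a valuation subring of `ℚ̄` with `π : A → k` (`char k = q`),
  `a` an integral element of level `N0` (`S18/GaussFromH.intRing`): `Ψ_(toFL a)` is the image of a
  monic `P ∈ (intRing)[X]` with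
  `P.map red = TripleEval.redPoly (red a) = (Y - φ²ā)(Y^(q²) - σ²ā)(Y - ā)^(q-1)`,
  `σ` the coefficientwise Frobenius, `φ : g(t) ↦ g(t^q)` (`S34/FrobK.phi`).

At a place `b` with `Fr² b = b` and `ā(b) = 0` all three of `σ²ā, φ²ā, ā` vanish at `b`
(`TripleEval.coeff_redPoly_sub_lt_one`), so `Ψ̄(b) = Y^(q²+q)`: together with
`NormDiagRed.exists_diagI` (`Ψ(x) = q · R`) this is the Eisenstein shape of
`S36/LocalUFD.EisensteinFibre` / `S36/EisFibre.Datum`.
-/
import Mathlib
import Fermat.Agent.S36.NormDiagRed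
import Fermat.Agent.S36.TripleEval

set_option autoImplicit false
set_option linter.unusedSectionVars false
set_option linter.style.haveILetI false

noncomputable section

namespace Fermat.Agent.S36.CharpolyRed

open Polynomial ModularCurve AlgebraicCurve
open Fermat.Agent.S28.LaurentRescale Fermat.Agent.S35.LevelMaps
open Fermat.Agent.S36.DiagTheta Fermat.Agent.S36.NormDiag Fermat.Agent.S36.NormDiagRed
open Fermat.Agent.S37.ES.KummerPoly
open Fermat.Agent.S18.GaussFromH

local notation "Kb" => AlgebraicClosure ℚ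

/-! ### The conjugate polynomial over a coefficient ring -/

section Series

variable {R : Type*} [CommRing R] {S : Type*} [CommRing S]

/-- `∏_{b<q²} (X - f(ζ^b t)) · (X - f(t^(q⁴))) · ∏_{0<c<q} (X - f(ζ_q^c t^(q²)))`. -/
def conjPoly (ζ : Rˣ) (q : ℕ) [NeZero q] (f : LaurentSeries R) : Polynomial (LaurentSeries R) :=
  (∏ b ∈ Finset.range (q ^ 2), (X - C (rescaleU (ζ ^ b) f))) *
    ((X - C (qExpand R (q ^ 4) f)) *
      ∏ c ∈ Finset.Ico 1 q, (X - C (qExpand R (q ^ 2) (rescaleU ((ζ ^ q) ^ c) f))))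

theorem map_conjPoly (φ : R →+* S) (ζ : Rˣ) (q : ℕ) [NeZero q] (f : LaurentSeries R) :
    (conjPoly ζ q f).map (coeffMap φ) = conjPoly (Units.map φ.toMonoidHom ζ) q (coeffMap φ f) := by
  rw [conjPoly, conjPoly, Polynomial.map_mul, Polynomial.map_mul, Polynomial.map_prod,
    Polynomial.map_prod, Polynomial.map_sub, map_X, map_C, coeffMap_qExpand_loc]
  congr 1
  · exact Finset.prod_congr rfl fun b _ => by
      rw [Polynomial.map_sub, map_X, map_C, coeffMap_rescaleU, map_pow]
  · congr 1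
    exact Finset.prod_congr rfl fun c _ => by
      rw [Polynomial.map_sub, map_X, map_C, coeffMap_qExpand_loc, coeffMap_rescaleU, map_pow,
        map_pow]

/-- In characteristic `q`, when `ζ` reduces to `1`:
`conjPoly = [(X^(q²) - σ²g) (X - g(t^(q²))) (X - g)^(q-1)](t^(q²))`. -/
theorem conjPoly_one_char {k : Type*} [CommRing k] [IsReduced k] (q : ℕ) [hq : Fact q.Prime]
    [CharP k q] (g : LaurentSeries k) :
    haveI : NeZero q := ⟨hq.out.ne_zero⟩
    conjPoly (1 : kˣ) q g =
      ((X ^ (q ^ 2) - C (coeffMap (frobenius k q) (coeffMap (frobenius k q) g))) *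
        ((X - C (qExpand k (q ^ 2) g)) * (X - C g) ^ (q - 1))).map (qExpand k (q ^ 2)) := by
  haveI : NeZero q := ⟨hq.out.ne_zero⟩
  haveI := charP_laurentSeries (k := k) q
  haveI : CharP (Polynomial (LaurentSeries k)) q := inferInstance
  rw [conjPoly, Polynomial.map_mul, Polynomial.map_mul, Polynomial.map_sub, Polynomial.map_sub,
    Polynomial.map_pow, Polynomial.map_pow, Polynomial.map_sub, map_X, map_C, map_C, map_C,
    qExpand_qExpand, qExpand_congr (show q ^ 2 * q ^ 2 = q ^ 4 by ring) g]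
  congr 1
  · rw [Finset.prod_congr rfl (g := fun _ => X - C g) (fun b _ => by
      rw [one_pow, rescaleU_one]), Finset.prod_const, Finset.card_range, sub_pow_char_pow,
      ← C_pow, pow_char_sq_eq_qExpand q g]
  · congr 1
    rw [Finset.prod_congr rfl (g := fun _ => X - C (qExpand k (q ^ 2) g)) (fun c _ => by
      rw [one_pow, one_pow, rescaleU_one]), Finset.prod_const, Nat.card_Ico]

end Series

/-! ### The characteristic polynomial of `x(t)` over `{g(t^(q²))}` -/

section Main

variable {N0 q : ℕ} [NeZero N0] [NeZero q] (A : ValuationSubring Kb) {k : Type*} [Field k]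
  (π : ↥A →+* k)

/-- The characteristic polynomial of `α₂α₁ x` in `E2` over `β₂β₁ E0`. -/
def psiPoly (hq : q.Prime) (hqN : ¬ q ∣ N0) (x : E N0) : Polynomial (E N0) :=
  letI := algebraAlong ((heckeBetaBar Kb (N0 * q) q).comp (heckeBetaBar Kb N0 q))
  haveI := finite_beta_beta (N0 := N0) hq hqN
  LinearMap.charpoly (Algebra.lmul (E N0) (E (N0 * q * q))
    (heckeAlphaBar Kb (N0 * q) q (heckeAlphaBar Kb N0 q x)))

theorem psiPoly_monic (hq : q.Prime) (hqN : ¬ q ∣ N0) (x : E N0) : (psiPoly hq hqN x).Monic := by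
  letI := algebraAlong ((heckeBetaBar Kb (N0 * q) q).comp (heckeBetaBar Kb N0 q))
  haveI := finite_beta_beta (N0 := N0) hq hqN
  exact LinearMap.charpoly_monic _

theorem psiPoly_natDegree (hq : q.Prime) (hqN : ¬ q ∣ N0) (x : E N0) :
    (psiPoly hq hqN x).natDegree = q ^ 2 + q := by
  letI := algebraAlong ((heckeBetaBar Kb (N0 * q) q).comp (heckeBetaBar Kb N0 q))
  haveI := finite_beta_beta (N0 := N0) hq hqN
  rw [psiPoly, LinearMap.charpoly_natDegree, finrank_beta_beta (N0 := N0) hq hqN]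

/-- **The expansion of `Ψ`**: through `g ↦ g(t^(q²))` it is the conjugate polynomial. -/
theorem map_psiPoly (hq : q.Prime) (hqN : ¬ q ∣ N0) {ζ : Kbˣ} (hζ : IsPrimitiveRoot ζ (q ^ 2))
    (x : E N0) :
    (psiPoly hq hqN x).map
        ((qExpand Kb (q ^ 2)).comp (modularFunctionFieldBar N0).val.toRingHom) =
      conjPoly ζ q (x : LaurentSeries Kb) := by
  obtain ⟨σ, hσβ, hσ0, hσc, hnc⟩ := exists_embeddings hq hqN hζ
  have h := (hnc (heckeAlphaBar Kb (N0 * q) q (heckeAlphaBar Kb N0 q x))).2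
  have hB : (∏ b ∈ Finset.range (q ^ 2), (X - C (rescaleU (ζ ^ b)
        (((heckeAlphaBar Kb (N0 * q) q (heckeAlphaBar Kb N0 q x) : E (N0 * q * q)) :
          LaurentSeries Kb))))) =
      ∏ b ∈ Finset.range (q ^ 2), (X - C (rescaleU (ζ ^ b) (x : LaurentSeries Kb))) :=
    Finset.prod_congr rfl fun b _ => by rw [coe_heckeAlphaBar, coe_heckeAlphaBar]
  have hR : (∏ c ∈ Finset.range q, (X - C (σ c
        (heckeAlphaBar Kb (N0 * q) q (heckeAlphaBar Kb N0 q x))))) =
      (X - C (qExpand Kb (q ^ 4) (x : LaurentSeries Kb))) *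
        ∏ c ∈ Finset.Ico 1 q,
          (X - C (qExpand Kb (q ^ 2) (rescaleU ((ζ ^ q) ^ c) (x : LaurentSeries Kb)))) := by
    rw [Finset.range_eq_Ico, Finset.prod_eq_prod_Ico_succ_bot hq.pos, hσ0, rho1_alpha,
      qExpand_qExpand, qExpand_qExpand,
      qExpand_congr (show q ^ 2 * q * q = q ^ 4 by ring) (x : LaurentSeries Kb), zero_add]
    congr 1
    exact Finset.prod_congr rfl fun c hc => by rw [hσc c hc, coe_heckeAlphaBar]
  rw [psiPoly, h, conjPoly, hB, hR]

/-- **First-order Kronecker at level `q²`, coefficientwise**: every coefficient of `Ψ` is an integral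
element, with reduction the corresponding coefficient of
`(X^(q²) - σ²ā)(X - ā(t^(q²)))(X - ā)^(q-1)`. -/
theorem exists_coeff [hqF : Fact q.Prime] (hqN : ¬ q ∣ N0) [CharP k q]
    (hrep : HasRep A π N0) (hπ : ∀ a : ↥A, ¬ IsUnit a → π a = 0) (a : ↥(intRing A π N0)) (i : ℕ) :
    ∃ c : ↥(intRing A π N0),
      toFL A π N0 c = (psiPoly hqF.out hqN (toFL A π N0 a)).coeff i ∧
      ((red A π N0 c : ↥(modularFunctionFieldFullC k N0)) : LaurentSeries k) =
        ((X ^ (q ^ 2) -
            C (coeffMap (frobenius k q) (coeffMap (frobenius k q) (coeffMap π a.1)))) *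
          ((X - C (qExpand k (q ^ 2) (coeffMap π a.1))) *
            (X - C (coeffMap π a.1)) ^ (q - 1))).coeff i := by
  have hq : q.Prime := hqF.out
  have hq2pos : 0 < q ^ 2 := pow_pos hq.pos 2
  have hqk : (((q ^ 2 : ℕ)) : Kb) ≠ 0 := Nat.cast_ne_zero.mpr hq2pos.ne'
  obtain ⟨ζ, hζ⟩ := Fermat.Agent.S28.StepDeg.exists_isPrimitiveRoot_units (k := Kb) (p := q ^ 2) hqk
  obtain ⟨ζA, hζA, hord⟩ := Fermat.Agent.S37.ES.NormRed.exists_unit_of_isPrimitiveRoot A hq2pos hζ
  have hζA1 : ζA ^ (q ^ 2) = 1 := by rw [← hord, pow_orderOf_eq_one]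
  have hπζ : π ζA = 1 := by
    have h1 : ((π ζA) ^ q) ^ q = 1 := by
      rw [← pow_mul, ← pow_two, ← map_pow, ← Units.val_pow_eq_pow_val, hζA1, Units.val_one,
        map_one]
    exact eq_one_of_pow_char_eq_one q (eq_one_of_pow_char_eq_one q h1)
  have hu : Units.map (π : ↥A →+* k).toMonoidHom ζA = 1 := Units.ext hπζ
  set y : LaurentSeries ↥A := a.1 with hy
  set x : E N0 := toFL A π N0 a with hx
  have hxy : (x : LaurentSeries Kb) = coeffMap A.subtype y := coe_toFL a
  set Vi : LaurentSeries ↥A := (conjPoly ζA q y).coeff i with hVi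
  have hViL : coeffMap A.subtype Vi =
      qExpand Kb (q ^ 2) (((psiPoly hq hqN x).coeff i : E N0) : LaurentSeries Kb) := by
    have h1 := congrArg (fun P : Polynomial (LaurentSeries Kb) => P.coeff i)
      (map_psiPoly hq hqN hζ x)
    simp only [coeff_map] at h1
    rw [hVi, ← coeff_map, map_conjPoly, hζA, ← hxy, ← h1]
    rfl
  set V' : LaurentSeries ↥A := qContract (q ^ 2) Vi with hV'
  have hV'L : coeffMap A.subtype V' =
      (((psiPoly hq hqN x).coeff i : E N0) : LaurentSeries Kb) := by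
    rw [hV', Fermat.Agent.S37.ES.NormRed.coeffMap_qContract, hViL, qContract_qExpand]
  have hmem : coeffMap A.subtype V' ∈ laurentBaseChange Kb (modularFunctionFieldFull N0) := by
    rw [hV'L]
    exact SetLike.coe_mem _
  refine ⟨⟨V', mem_intRing_of_hasRep' hrep hπ hmem⟩, Subtype.ext ?_, ?_⟩
  · rw [coe_toFL]
    exact hV'L
  · rw [coe_red]
    show coeffMap π V' = _
    rw [hV', Fermat.Agent.S37.ES.NormRed.coeffMap_qContract, hVi, ← coeff_map, map_conjPoly, hu,
      conjPoly_one_char q (coeffMap π y), coeff_map, qContract_qExpand]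

/-! ### Polynomial form, in the shape of `S36/TripleEval.redPoly` -/

/-- the image of `TripleEval.redPoly f` in `k((t))[X]` -/
theorem map_redPoly [hqF : Fact q.Prime] [CharP k q] [PerfectField k]
    (f : ↥(modularFunctionFieldFullC k N0)) :
    (Fermat.Agent.S36.TripleEval.redPoly k N0 q f).map
        (modularFunctionFieldFullC k N0).val.toRingHom =
      (X ^ (q ^ 2) -
          C (coeffMap (frobenius k q) (coeffMap (frobenius k q) (f : LaurentSeries k)))) *
        ((X - C (qExpand k (q ^ 2) (f : LaurentSeries k))) *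
          (X - C (f : LaurentSeries k)) ^ (q - 1)) := by
  have hσ : ∀ g : ↥(modularFunctionFieldFullC k N0),
      ((Fermat.Agent.S36.TripleEval.sig k N0 q g : ↥(modularFunctionFieldFullC k N0)) :
          LaurentSeries k) = coeffMap (frobenius k q) (g : LaurentSeries k) := by
    intro g
    rw [Fermat.Agent.S36.TripleEval.sig,
      Fermat.Agent.S37.Equivariance.CoeffAut.coe_coeffRingAut_apply]
    exact coeffMap_congr (RingHom.ext fun c => by
      show Fermat.Agent.S37.Equivariance.CoeffAut.frobAut k q c = frobenius k q c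
      rw [Fermat.Agent.S37.Equivariance.CoeffAut.frobAut_apply, frobenius_def]) _
  have hφ : ∀ g : ↥(modularFunctionFieldFullC k N0),
      ((Fermat.Agent.S34.FrobK.phi k N0 q (Fermat.Agent.S34.FrobK.phi k N0 q g) :
          ↥(modularFunctionFieldFullC k N0)) : LaurentSeries k) =
        qExpand k (q ^ 2) (g : LaurentSeries k) := by
    intro g
    rw [Fermat.Agent.S34.FrobK.coe_phi, Fermat.Agent.S34.FrobK.coe_phi, qExpand_qExpand]
    exact qExpand_congr (pow_two q).symm _
  have hv : ∀ g : ↥(modularFunctionFieldFullC k N0),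
      (modularFunctionFieldFullC k N0).val.toRingHom g = (g : LaurentSeries k) := fun _ => rfl
  rw [Fermat.Agent.S36.TripleEval.redPoly]
  simp only [Polynomial.map_mul, Polynomial.map_sub, Polynomial.map_pow, map_X, map_C, hv, hσ, hφ]
  ring

/-- **First-order Kronecker at level `q²`, polynomial form**: `Ψ` lifts to a monic polynomial over
the ring of integral elements whose reduction is
`TripleEval.redPoly (red a) = (Y - φ²ā)(Y^(q²) - σ²ā)(Y - ā)^(q-1)`. -/
theorem exists_poly [hqF : Fact q.Prime] (hqN : ¬ q ∣ N0) [CharP k q] [PerfectField k]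
    (hrep : HasRep A π N0) (hπ : ∀ a : ↥A, ¬ IsUnit a → π a = 0) (a : ↥(intRing A π N0)) :
    ∃ P : Polynomial ↥(intRing A π N0), P.Monic ∧ P.natDegree = q ^ 2 + q ∧
      P.map (toFL A π N0) = psiPoly hqF.out hqN (toFL A π N0 a) ∧
      P.map (red A π N0) = Fermat.Agent.S36.TripleEval.redPoly k N0 q (red A π N0 a) := by
  choose c hc1 hc2 using fun i => exists_coeff A π hqN hrep hπ a i
  set P : Polynomial ↥(intRing A π N0) :=
    ∑ i ∈ Finset.range (q ^ 2 + q + 1), monomial i (c i) with hP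
  have hcoeff : ∀ i, P.coeff i = if i < q ^ 2 + q + 1 then c i else 0 := by
    intro i
    rw [hP, finsetSum_coeff]
    simp only [coeff_monomial]
    rw [Finset.sum_ite_eq' (Finset.range (q ^ 2 + q + 1)) i c]
    simp only [Finset.mem_range]
  have h1 : P.map (toFL A π N0) = psiPoly hqF.out hqN (toFL A π N0 a) := by
    refine Polynomial.ext fun i => ?_
    rw [coeff_map, hcoeff]
    split_ifs with hi
    · exact hc1 i
    · rw [map_zero, coeff_eq_zero_of_natDegree_lt]
      rw [psiPoly_natDegree]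
      omega
  have h2 : P.map (red A π N0) =
      Fermat.Agent.S36.TripleEval.redPoly k N0 q (red A π N0 a) := by
    refine Polynomial.ext fun i => ?_
    rw [coeff_map, hcoeff]
    split_ifs with hi
    · apply Subtype.ext
      rw [hc2 i]
      have h3 := congrArg (fun Q : Polynomial (LaurentSeries k) => Q.coeff i)
        (map_redPoly (N0 := N0) (q := q) (red A π N0 a))
      simp only [coeff_map] at h3
      exact h3.symm
    · rw [map_zero, coeff_eq_zero_of_natDegree_lt]
      rw [Fermat.Agent.S36.TripleEval.redPoly_natDegree]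
      omega
  have hmonic : P.Monic := by
    apply Polynomial.monic_of_injective (toFL_injective (A := A) (π := π) (N := N0))
    rw [h1]
    exact psiPoly_monic hqF.out hqN _
  refine ⟨P, hmonic, ?_, h1, h2⟩
  rw [← Polynomial.natDegree_map_eq_of_injective (toFL_injective (A := A) (π := π) (N := N0)), h1,
    psiPoly_natDegree]

/-! ### Values and the root of `Ψ` -/

/-- `Ψ_x(s) = N(β₂β₁ s - α₂α₁ x)`. -/
theorem psiPoly_eval (hq : q.Prime) (hqN : ¬ q ∣ N0) (x s : E N0) :
    letI := algebraAlong ((heckeBetaBar Kb (N0 * q) q).comp (heckeBetaBar Kb N0 q))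
    (psiPoly hq hqN x).eval s =
      Algebra.norm (E N0)
        (heckeBetaBar Kb (N0 * q) q (heckeBetaBar Kb N0 q s) -
          heckeAlphaBar Kb (N0 * q) q (heckeAlphaBar Kb N0 q x)) := by
  letI := algebraAlong ((heckeBetaBar Kb (N0 * q) q).comp (heckeBetaBar Kb N0 q))
  haveI := finite_beta_beta (N0 := N0) hq hqN
  rw [psiPoly, LinearMap.eval_charpoly, Algebra.norm_apply]
  congr 1
  ext z
  simp only [LinearMap.sub_apply, Algebra.coe_lmul_eq_mul, LinearMap.mul_apply',
    Module.algebraMap_end_apply, sub_mul]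
  rfl

/-- `Ψ_x(α₂α₁ x) = 0` (Cayley–Hamilton), the coefficients acting through `β₂β₁`. -/
theorem psiPoly_root (hq : q.Prime) (hqN : ¬ q ∣ N0) (x : E N0) :
    (psiPoly hq hqN x).eval₂
        ((heckeBetaBar Kb (N0 * q) q).comp (heckeBetaBar Kb N0 q)).toRingHom
        (heckeAlphaBar Kb (N0 * q) q (heckeAlphaBar Kb N0 q x)) = 0 := by
  letI := algebraAlong ((heckeBetaBar Kb (N0 * q) q).comp (heckeBetaBar Kb N0 q))
  haveI := finite_beta_beta (N0 := N0) hq hqN
  exact Algebra.aeval_self_charpoly_lmul (R := E N0)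
    (heckeAlphaBar Kb (N0 * q) q (heckeAlphaBar Kb N0 q x))

/-! ### Equivariance under the arithmetic Galois action (input of the descent to `K₀`) -/

/-- `Ψ_(σ x) = σ(Ψ_x)` for the coefficientwise action of `σ ∈ Gal(ℚ̄/ℚ)`. -/
theorem map_arithmeticRingAut_psiPoly (hq : q.Prime) (hqN : ¬ q ∣ N0) (σ : Kb ≃ₐ[ℚ] Kb)
    (x : E N0) :
    (psiPoly hq hqN x).map
        ((arithmeticRingAut (modularFunctionFieldFull N0) σ : E N0 ≃+* E N0) : E N0 →+* E N0) =
      psiPoly hq hqN (arithmeticRingAut (modularFunctionFieldFull N0) σ x) := by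
  have hq2pos : 0 < q ^ 2 := pow_pos hq.pos 2
  have hqk : (((q ^ 2 : ℕ)) : Kb) ≠ 0 := Nat.cast_ne_zero.mpr hq2pos.ne'
  obtain ⟨ζ, hζ⟩ := Fermat.Agent.S28.StepDeg.exists_isPrimitiveRoot_units (k := Kb) (p := q ^ 2) hqk
  set σr : Kb →+* Kb := (σ : Kb →+* Kb) with hσr
  have hζ' : IsPrimitiveRoot (Units.map σr.toMonoidHom ζ) (q ^ 2) :=
    hζ.map_of_injective (Units.map_injective σ.injective)
  set φ : E N0 →+* LaurentSeries Kb :=
    (qExpand Kb (q ^ 2)).comp (modularFunctionFieldBar N0).val.toRingHom with hφ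
  have hφinj : Function.Injective φ := φ.injective
  apply Polynomial.map_injective φ hφinj
  rw [map_psiPoly hq hqN hζ', Polynomial.map_map]
  have hcomp : φ.comp ((arithmeticRingAut (modularFunctionFieldFull N0) σ : E N0 ≃+* E N0) :
      E N0 →+* E N0) = (coeffMap σr).comp φ := by
    ext1 z
    show qExpand Kb (q ^ 2) ((arithmeticRingAut (modularFunctionFieldFull N0) σ z : E N0) :
        LaurentSeries Kb) = coeffMap σr (qExpand Kb (q ^ 2) (z : LaurentSeries Kb))
    rw [coe_arithmeticRingAut_apply, coeffMap_qExpand_loc]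
  rw [hcomp, ← Polynomial.map_map, map_psiPoly hq hqN hζ, map_conjPoly,
    coe_arithmeticRingAut_apply]

end Main

end Fermat.Agent.S36.CharpolyRed
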