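/-
PROJECT V (S36), slice V-CharpolyGauss (helper22): **first-order Kronecker at level `q²` and the
diagonal norm for a GENERAL Gauss-integral function** (chain (V12)(iii), inputs of
`S36/TripleFibre.eisensteinFibre_of_red`).

`S36/CharpolyRed` and `S36/NormDiagRed` treat `x = toFL a` for a `t`-integral series `a`
(`S18/GaussFromH.intRing`).  The lifts of functions of the special fibre are only elements of the
Gauss valuation ring `G.O = OwV A π N0 hrep` (fractions `a / b` of integral series with `π b ≠ 0`),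
so here both statements are proved for every `a ∈ G.O`, with helper15's relational calculus
`S36/MiddleCuspGauss.IsRed` (`IsRed x r` : `x ∈ ℚ̄((t))` is a Gauss fraction with reduction
`r ∈ k((t))`).

* `isRed_sum`, `isRed_prod`, `PolyRed` (coefficientwise `IsRed` for polynomials), `PolyRed.mul`,
  `polyRed_X_sub_C`, `PolyRed.prod`;
* `IsRed.of_qExpand` : **descent along `t ↦ t^n`** (`ζ ∈ Aˣ` of exact order `n`, `π ζ = 1`):
  `IsRed (y(t^n)) (s(t^n)) → IsRed y s`;
* `mem_OwV_of_isRed` : a function `c` of level `N` with `IsRed c s` lies in the Gauss valuation ring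
  and `redV c = s`;
* `coeff_psiPoly_mem` / `exists_poly` : for `a ∈ G.O` the coefficients of `Ψ_a` lie in `G.O` and
  `P.map redV = TripleEval.redPoly (redV a)`;
* `exists_diag` : `N(β²a - α²a) = q · R` with `R ∈ G.O`,
  `redV R = (f - φ²f)(φ²σ²f - σ²f)(θ f)^(q-1)`, `f = redV a`.
-/
import Mathlib
import Fermat.Agent.S36.CharpolyRed
import Fermat.Agent.S36.MiddleCuspGauss

set_option autoImplicit false
set_option linter.unusedSectionVars false
set_option linter.style.haveILetI false

noncomputable section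

namespace Fermat.Agent.S36.CharpolyGauss

open Polynomial ModularCurve AlgebraicCurve
open Fermat.Agent.S28.LaurentRescale Fermat.Agent.S35.LevelMaps
open Fermat.Agent.S36.DiagTheta Fermat.Agent.S36.NormDiag Fermat.Agent.S36.NormDiagRed
open Fermat.Agent.S36.CharpolyRed Fermat.Agent.S36.MiddleCuspGauss
open Fermat.Agent.S37.ES.KummerPoly Fermat.Agent.S37.ES.NormRed
open Fermat.Agent.S18.GaussFromH

local notation "Kb" => AlgebraicClosure ℚ

/-! ### Generic: sums, products, polynomials -/

section Generic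

variable {L : Type*} [Field L] {A : ValuationSubring L} {k : Type*} [Field k] {π : ↥A →+* k}

theorem isRed_sum {ι : Type*} (s : Finset ι) (x : ι → LaurentSeries L) (r : ι → LaurentSeries k)
    (h : ∀ i ∈ s, IsRed A π (x i) (r i)) : IsRed A π (∑ i ∈ s, x i) (∑ i ∈ s, r i) := by
  classical
  induction s using Finset.induction_on with
  | empty => simpa using isRed_zero (A := A) (π := π)
  | insert i s hi ih =>
    rw [Finset.sum_insert hi, Finset.sum_insert hi]
    exact (h i (Finset.mem_insert_self i s)).add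
      (ih fun j hj => h j (Finset.mem_insert_of_mem hj))

theorem isRed_prod {ι : Type*} (s : Finset ι) (x : ι → LaurentSeries L) (r : ι → LaurentSeries k)
    (h : ∀ i ∈ s, IsRed A π (x i) (r i)) : IsRed A π (∏ i ∈ s, x i) (∏ i ∈ s, r i) := by
  classical
  induction s using Finset.induction_on with
  | empty => simpa using isRed_one (A := A) (π := π)
  | insert i s hi ih =>
    rw [Finset.prod_insert hi, Finset.prod_insert hi]
    exact (h i (Finset.mem_insert_self i s)).mul
      (ih fun j hj => h j (Finset.mem_insert_of_mem hj))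

variable (A π) in
/-- coefficientwise `IsRed` for polynomials over `L((t))`, `k((t))` -/
def PolyRed (P : Polynomial (LaurentSeries L)) (Q : Polynomial (LaurentSeries k)) : Prop :=
  ∀ n, IsRed A π (P.coeff n) (Q.coeff n)

theorem polyRed_one : PolyRed A π 1 1 := by
  intro n
  rw [coeff_one, coeff_one]
  split_ifs
  · exact isRed_one
  · exact isRed_zero

theorem PolyRed.mul {P P' : Polynomial (LaurentSeries L)} {Q Q' : Polynomial (LaurentSeries k)}
    (h : PolyRed A π P Q) (h' : PolyRed A π P' Q') : PolyRed A π (P * P') (Q * Q') := by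
  intro n
  rw [coeff_mul, coeff_mul]
  exact isRed_sum _ _ _ fun ij _ => (h ij.1).mul (h' ij.2)

theorem polyRed_X_sub_C {c : LaurentSeries L} {r : LaurentSeries k} (h : IsRed A π c r) :
    PolyRed A π (X - C c) (X - C r) := by
  intro n
  rw [coeff_sub, coeff_sub, coeff_X, coeff_X, coeff_C, coeff_C]
  refine IsRed.sub ?_ ?_
  · split_ifs
    · exact isRed_one
    · exact isRed_zero
  · split_ifs
    · exact h
    · exact isRed_zero

theorem PolyRed.prod {ι : Type*} (s : Finset ι) (P : ι → Polynomial (LaurentSeries L))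
    (Q : ι → Polynomial (LaurentSeries k)) (h : ∀ i ∈ s, PolyRed A π (P i) (Q i)) :
    PolyRed A π (∏ i ∈ s, P i) (∏ i ∈ s, Q i) := by
  classical
  induction s using Finset.induction_on with
  | empty => simpa using polyRed_one (A := A) (π := π)
  | insert i s hi ih =>
    rw [Finset.prod_insert hi, Finset.prod_insert hi]
    exact (h i (Finset.mem_insert_self i s)).mul
      (ih fun j hj => h j (Finset.mem_insert_of_mem hj))

end Generic

/-! ### Descent along `t ↦ t^n` -/

section Descent

variable {L : Type*} [Field L] {A : ValuationSubring L} {k : Type*} [Field k] {π : ↥A →+* k}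

/-- `∏_{i<n} b(ζ^i t) = b · ∏_{0<i<n} b(ζ^i t)` -/
theorem conjProd_eq_mul {R : Type*} [CommRing R] (ζ : Rˣ) {n : ℕ} (hn : 0 < n)
    (b : LaurentSeries R) :
    conjProd ζ n b = b * ∏ i ∈ Finset.Ico 1 n, rescaleU (ζ ^ i) b := by
  rw [conjProd, Finset.range_eq_Ico, Finset.prod_eq_prod_Ico_succ_bot hn, pow_zero, rescaleU_one]

/-- **Descent of Gauss fractions along `t ↦ t^n`**: if `y(t^n)` is a Gauss fraction with reduction
`s(t^n)`, then `y` is a Gauss fraction with reduction `s` (`ζ ∈ Aˣ` of exact order `n` reducing to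
`1`; the denominator is replaced by its norm over `t ↦ ζ t`). -/
theorem IsRed.of_qExpand (n : ℕ) [NeZero n] {ζ : (↥A)ˣ} (hζ : orderOf ζ = n) (hπ : π (ζ : ↥A) = 1)
    {y : LaurentSeries L} {s : LaurentSeries k}
    (h : IsRed A π (qExpand L n y) (qExpand k n s)) : IsRed A π y s := by
  obtain ⟨a, b, hb, hab, hr⟩ := h
  have hn : 0 < n := Nat.pos_of_ne_zero (NeZero.ne n)
  have hζn : ζ ^ n = 1 := by rw [← hζ, pow_orderOf_eq_one]
  set b' : LaurentSeries ↥A := ∏ i ∈ Finset.Ico 1 n, rescaleU (ζ ^ i) b with hb'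
  set B : LaurentSeries ↥A := conjProd ζ n b with hB
  have hBb : B = b * b' := conjProd_eq_mul ζ hn b
  set a'' : LaurentSeries ↥A := a * b' with ha''
  have h1 : qExpand L n y * incA A B = incA A a'' := by
    rw [hBb, ha'', map_mul, map_mul, ← mul_assoc, hab]
  -- `B` is a series in `t^n`
  obtain ⟨B', hB'0⟩ := conjProd_mem_range hζ b
  have hB' : qExpand ↥A n B' = B := hB'0
  -- so is `a''`
  have hζL : (unitL A ζ) ^ n = 1 := by rw [← map_pow, hζn, map_one]
  have hfix : rescaleU ζ a'' = a'' := by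
    apply incA_injective A
    rw [incA_rescaleU, ← h1, map_mul, rescaleU_qExpand_of_pow_eq_one _ hζL, ← incA_rescaleU,
      hB, rescaleU_conjProd hζn]
  obtain ⟨a', ha'⟩ := (rescaleU_eq_self_iff n hζ a'').mp hfix
  -- reductions
  have hredB : redA π B = redA π b ^ n := by
    rw [hB]
    show coeffMap π (conjProd ζ n b) = _
    rw [coeffMap_conjProd, show Units.map (π : ↥A →+* k).toMonoidHom ζ = 1 from Units.ext hπ,
      conjProd_one]
  have hredB' : qExpand k n (redA π B') = redA π b ^ n := by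
    rw [← hredB, ← hB']
    exact (Fermat.Agent.S28.PrimeCaseForm.coeffMap_qExpand π n B').symm
  have hB'ne : redA π B' ≠ 0 := by
    intro h0
    rw [h0, map_zero] at hredB'
    exact pow_ne_zero n hb hredB'.symm
  refine ⟨a', B', hB'ne, ?_, ?_⟩
  · apply qExpand_injective (R := L) n
    rw [map_mul, ← Fermat.Agent.S28.PrimeCaseForm.coeffMap_qExpand A.subtype n B',
      ← Fermat.Agent.S28.PrimeCaseForm.coeffMap_qExpand A.subtype n a', hB', ha']
    exact h1
  · apply qExpand_injective (R := k) n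
    rw [map_mul, ← Fermat.Agent.S28.PrimeCaseForm.coeffMap_qExpand π n B',
      ← Fermat.Agent.S28.PrimeCaseForm.coeffMap_qExpand π n a', hB', ha']
    show qExpand k n s * redA π B = redA π a''
    rw [hBb, ha'', map_mul, map_mul, ← mul_assoc, hr]

end Descent

/-! ### Gauss fractions of level `N` lie in the Gauss valuation ring -/

section Membership

variable {L : Type*} [Field L] [Algebra ℚ L] {A : ValuationSubring L} {k : Type*} [Field k]
  {π : ↥A →+* k} {N : ℕ}

/-- elements of the Gauss valuation ring are Gauss fractions -/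
theorem isRed_of_mem_OwV (hrep : HasRep A π N) (f : ↥(OwV A π N hrep)) :
    IsRed A π ((f : ↥(laurentBaseChange L (modularFunctionFieldFull N))) : LaurentSeries L)
      ((redV A π N hrep f : ↥(modularFunctionFieldFullC k N)) : LaurentSeries k) :=
  isRed_of_mem_Ow A π N ⟨f.1, f.2⟩

/-- **a function of level `N` which is a Gauss fraction lies in the Gauss valuation ring, with the
same reduction** -/
theorem mem_OwV_of_isRed (hrep : HasRep A π N)
    {c : ↥(laurentBaseChange L (modularFunctionFieldFull N))} {s : LaurentSeries k}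
    (h : IsRed A π (c : LaurentSeries L) s) :
    ∃ hc : c ∈ OwV A π N hrep,
      ((redV A π N hrep ⟨c, hc⟩ : ↥(modularFunctionFieldFullC k N)) : LaurentSeries k) = s := by
  have hmem : c ∈ OwV A π N hrep := by
    by_contra hnot
    have hc0 : c ≠ 0 := fun h0 => hnot (h0 ▸ (OwV A π N hrep).zero_mem)
    have hinv : c⁻¹ ∈ OwV A π N hrep := ((OwV A π N hrep).mem_or_inv_mem c).resolve_left hnot
    have hnu : ¬ IsUnit (⟨c⁻¹, hinv⟩ : ↥(OwV A π N hrep)) := by
      intro hu
      obtain ⟨v, hv⟩ := hu.exists_right_inv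
      have hv' : c⁻¹ * (v : ↥(laurentBaseChange L (modularFunctionFieldFull N))) = 1 :=
        congrArg Subtype.val hv
      apply hnot
      have : (v : ↥(laurentBaseChange L (modularFunctionFieldFull N))) = c := by
        rw [← mul_one c, ← hv', ← mul_assoc, mul_inv_cancel₀ hc0, one_mul]
      rw [← this]
      exact v.2
    have h0 : redV A π N hrep ⟨c⁻¹, hinv⟩ = 0 := (redV_eq_zero_iff hrep _).mpr hnu
    have hinvred := isRed_of_mem_OwV hrep ⟨c⁻¹, hinv⟩
    rw [h0] at hinvred
    have hprod := h.mul hinvred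
    have h1 : (c : LaurentSeries L) *
        ((c⁻¹ : ↥(laurentBaseChange L (modularFunctionFieldFull N))) : LaurentSeries L) = 1 := by
      have := congrArg Subtype.val (mul_inv_cancel₀ hc0)
      exact this
    rw [h1] at hprod
    have := hprod.unique (isRed_one (A := A) (π := π))
    rw [show ((0 : ↥(modularFunctionFieldFullC k N)) : LaurentSeries k) = 0 from rfl,
      mul_zero] at this
    exact zero_ne_one this
  exact ⟨hmem, (isRed_of_mem_OwV hrep ⟨c, hmem⟩).unique h⟩

end Membership

/-! ### The conjugate polynomial of a Gauss fraction -/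

section Conj

variable {L : Type*} [Field L] {A : ValuationSubring L} {k : Type*} [Field k] {π : ↥A →+* k}

theorem polyRed_conjPoly (q : ℕ) [NeZero q] {ζA : (↥A)ˣ} (hπ : π (ζA : ↥A) = 1)
    {x : LaurentSeries L} {r : LaurentSeries k} (hx : IsRed A π x r) :
    PolyRed A π (conjPoly (unitL A ζA) q x) (conjPoly (1 : kˣ) q r) := by
  have hK : ∀ u : (↥A)ˣ, π (u : ↥A) = 1 → unitK π u = 1 := fun u hu => Units.ext hu
  rw [conjPoly, conjPoly]
  refine PolyRed.mul (PolyRed.prod _ _ _ fun b _ => polyRed_X_sub_C ?_)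
    (PolyRed.mul (polyRed_X_sub_C (hx.map_qExpand (q ^ 4)))
      (PolyRed.prod _ _ _ fun c _ => polyRed_X_sub_C ?_))
  · have h := hx.rescale (ζA ^ b)
    have h1 : unitL A (ζA ^ b) = unitL A ζA ^ b := map_pow _ _ _
    have h2 : unitK π (ζA ^ b) = (1 : kˣ) ^ b := by
      rw [one_pow]
      exact hK _ (by rw [Units.val_pow_eq_pow_val, map_pow, hπ, one_pow])
    rwa [h1, h2] at h
  · have h := (hx.rescale ((ζA ^ q) ^ c)).map_qExpand (q ^ 2)
    have h1 : unitL A ((ζA ^ q) ^ c) = (unitL A ζA ^ q) ^ c := by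
      rw [unitL, map_pow, map_pow]
    have h2 : unitK π ((ζA ^ q) ^ c) = ((1 : kˣ) ^ q) ^ c := by
      rw [one_pow, one_pow]
      exact hK _ (by
        rw [Units.val_pow_eq_pow_val, Units.val_pow_eq_pow_val, map_pow, map_pow, hπ, one_pow,
          one_pow])
    rwa [h1, h2] at h

end Conj

/-! ### The diagonal norm of a general Gauss-integral function -/

section DiagGeneric

variable {L : Type*} [Field L] {A : ValuationSubring L} {k : Type*} [Field k] {π : ↥A →+* k}

/-- the difference quotient of a Gauss fraction along `t ↦ u t`, `ū = 1`, `u ≠ 1` -/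
theorem isRed_diffQuot (u : (↥A)ˣ) (hu : π (u : ↥A) = 1) (hu1 : ((u : ↥A) : L) ≠ 1)
    {x : LaurentSeries L} {r : LaurentSeries k} (hx : IsRed A π x r) :
    IsRed A π (diffQuot (unitL A u) x) (theta r) := by
  obtain ⟨v, hv, hvr⟩ := hx.exists_diffQuot u hu
  have h1 := sub_rescaleU (unitL A u) x
  have hC : (HahnSeries.C (1 - ((u : ↥A) : L)) : LaurentSeries L) ≠ 0 := by
    intro h
    have h0 : (1 - ((u : ↥A) : L)) = 0 := HahnSeries.C_injective (by rw [h, map_zero])
    exact hu1 (sub_eq_zero.mp h0).symm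
  have h2 : HahnSeries.C (1 - ((u : ↥A) : L)) * DiagTheta.diffQuot (unitL A u) x =
      HahnSeries.C (1 - ((u : ↥A) : L)) * v := by
    have h3 : ((unitL A u : Lˣ) : L) = ((u : ↥A) : L) := rfl
    rw [h3] at h1
    rw [← h1]
    have h4 : x - rescaleU (unitL A u) x = -(rescaleU (unitL A u) x - x) := by ring
    rw [h4, hv, ← neg_mul, ← map_neg, neg_sub]
  rw [mul_left_cancel₀ hC h2]
  exact hvr

/-- the middle cofactor of a Gauss fraction reduces to `(θ r)^(q-1)` -/
theorem isRed_midU (q : ℕ) {ζq : (↥A)ˣ} (hπ : π (ζq : ↥A) = 1)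
    (hne : ∀ b ∈ Finset.Ico 1 q, (((ζq ^ b : (↥A)ˣ) : ↥A) : L) ≠ 1)
    {x : LaurentSeries L} {r : LaurentSeries k} (hx : IsRed A π x r) :
    IsRed A π (midU (unitL A ζq) q x) (theta r ^ (q - 1)) := by
  have h := isRed_prod (A := A) (π := π) (Finset.Ico 1 q)
    (fun b => DiagTheta.diffQuot (unitL A ζq ^ b) x) (fun _ => theta r) (fun b hb => by
      have h1 : unitL A (ζq ^ b) = unitL A ζq ^ b := map_pow _ _ _
      rw [← h1]
      exact isRed_diffQuot (ζq ^ b)
        (by rw [Units.val_pow_eq_pow_val, map_pow, hπ, one_pow]) (hne b hb) hx)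
  rwa [Finset.prod_const, Nat.card_Ico] at h

/-- the cofactor of `q` in the diagonal norm of a Gauss fraction -/
theorem isRed_diagCofactor (q : ℕ) [NeZero q] {ζA : (↥A)ˣ} (hπ : π (ζA : ↥A) = 1)
    (hne : ∀ b ∈ Finset.Ico 1 q, ((((ζA ^ q) ^ b : (↥A)ˣ) : ↥A) : L) ≠ 1)
    {x : LaurentSeries L} {r : LaurentSeries k} (hx : IsRed A π x r) :
    IsRed A π (diagCofactor (unitL A ζA) q x)
      ((qExpand k (q ^ 2) r - qExpand k (q ^ 4) r) * (qExpand k (q ^ 2) r - r) ^ (q ^ 2) *
        qExpand k (q ^ 2) (theta r ^ (q - 1))) := by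
  rw [DiagTheta.diagCofactor]
  refine ((((hx.map_qExpand (q ^ 2)).sub (hx.map_qExpand (q ^ 4))).mul ?_).mul ?_)
  · have h := isRed_prod (A := A) (π := π) (Finset.range (q ^ 2))
      (fun b => qExpand L (q ^ 2) x - rescaleU (unitL A ζA ^ b) x)
      (fun _ => qExpand k (q ^ 2) r - r) (fun b _ => by
        refine (hx.map_qExpand (q ^ 2)).sub ?_
        have h1 : unitL A (ζA ^ b) = unitL A ζA ^ b := map_pow _ _ _
        rw [← h1]
        exact hx.rescale_of_eq_one (ζA ^ b)
          (by rw [Units.val_pow_eq_pow_val, map_pow, hπ, one_pow]))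
    rwa [Finset.prod_const, Finset.card_range] at h
  · have h1 : unitL A (ζA ^ q) = unitL A ζA ^ q := map_pow _ _ _
    rw [← h1]
    exact (isRed_midU q (by rw [Units.val_pow_eq_pow_val, map_pow, hπ, one_pow]) hne
      hx).map_qExpand (q ^ 2)

/-- the characteristic-`q` algebra: the reduced cofactor is a series in `t^(q²)`. -/
theorem cofactor_char {k : Type*} [CommRing k] [IsReduced k] (q : ℕ) [hq : Fact q.Prime]
    [CharP k q] (r : LaurentSeries k) :
    haveI : NeZero q := ⟨hq.out.ne_zero⟩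
    (qExpand k (q ^ 2) r - qExpand k (q ^ 4) r) * (qExpand k (q ^ 2) r - r) ^ (q ^ 2) *
        qExpand k (q ^ 2) (theta r ^ (q - 1)) =
      qExpand k (q ^ 2)
        ((r - qExpand k (q ^ 2) r) *
          (qExpand k (q ^ 2) (coeffMap (frobenius k q) (coeffMap (frobenius k q) r)) -
            coeffMap (frobenius k q) (coeffMap (frobenius k q) r)) *
          theta r ^ (q - 1)) := by
  haveI : NeZero q := ⟨hq.out.ne_zero⟩
  haveI := charP_laurentSeries (k := k) q
  have h4 : qExpand k (q ^ 2) (qExpand k (q ^ 2) r) = qExpand k (q ^ 4) r := by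
    rw [qExpand_qExpand]
    exact qExpand_congr (by ring) r
  rw [sub_pow_char_pow, pow_char_sq_eq_qExpand q r,
    pow_char_sq_eq_qExpand q (qExpand k (q ^ 2) r), coeffMap_qExpand_loc, coeffMap_qExpand_loc,
    map_mul, map_mul, map_sub, map_sub, h4]

end DiagGeneric

/-! ### The characteristic polynomial of a general Gauss-integral function -/

section Main

variable {N0 q : ℕ} [NeZero N0] [NeZero q] (A : ValuationSubring Kb) {k : Type*} [Field k]
  (π : ↥A →+* k)

/-- a primitive `q²`-th root of unity of `ℚ̄` as a unit of `A` reducing to `1` -/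
theorem exists_zeta [hqF : Fact q.Prime] [CharP k q] :
    ∃ (ζ : Kbˣ) (ζA : (↥A)ˣ), IsPrimitiveRoot ζ (q ^ 2) ∧ unitL A ζA = ζ ∧
      orderOf ζA = q ^ 2 ∧ π (ζA : ↥A) = 1 := by
  have hq : q.Prime := hqF.out
  have hq2pos : 0 < q ^ 2 := pow_pos hq.pos 2
  have hqk : (((q ^ 2 : ℕ)) : Kb) ≠ 0 := Nat.cast_ne_zero.mpr hq2pos.ne'
  obtain ⟨ζ, hζ⟩ := Fermat.Agent.S28.StepDeg.exists_isPrimitiveRoot_units (k := Kb) (p := q ^ 2) hqk
  obtain ⟨ζA, hζA, hord⟩ := exists_unit_of_isPrimitiveRoot A hq2pos hζ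
  have hζA1 : ζA ^ (q ^ 2) = 1 := by rw [← hord, pow_orderOf_eq_one]
  have hπζ : π ζA = 1 := by
    have h1 : ((π ζA) ^ q) ^ q = 1 := by
      rw [← pow_mul, ← pow_two, ← map_pow, ← Units.val_pow_eq_pow_val, hζA1, Units.val_one,
        map_one]
    exact eq_one_of_pow_char_eq_one q (eq_one_of_pow_char_eq_one q h1)
  exact ⟨ζ, ζA, hζ, hζA, hord, hπζ⟩

/-- **First-order Kronecker at level `q²` for a general Gauss-integral `a`, coefficientwise, in
`IsRed` form.** -/
theorem coeff_psiPoly_isRed [hqF : Fact q.Prime] (hqN : ¬ q ∣ N0) [CharP k q] [PerfectField k]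
    (hrep : HasRep A π N0) (a : ↥(OwV A π N0 hrep)) (i : ℕ) :
    IsRed A π
      (((psiPoly hqF.out hqN (a : E N0)).coeff i : E N0) : LaurentSeries Kb)
      (((Fermat.Agent.S36.TripleEval.redPoly k N0 q (redV A π N0 hrep a)).coeff i :
        ↥(modularFunctionFieldFullC k N0)) : LaurentSeries k) := by
  have hq : q.Prime := hqF.out
  obtain ⟨ζ, ζA, hζ, hζA, hord, hπζ⟩ := exists_zeta (q := q) A π
  set x : LaurentSeries Kb := ((a : E N0) : LaurentSeries Kb) with hx
  set f : ↥(modularFunctionFieldFullC k N0) := redV A π N0 hrep a with hf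
  have hxr : IsRed A π x (f : LaurentSeries k) := isRed_of_mem_OwV hrep a
  have hP := polyRed_conjPoly q hπζ hxr i
  rw [hζA] at hP
  have h1 : (conjPoly ζ q x).coeff i =
      qExpand Kb (q ^ 2) (((psiPoly hq hqN (a : E N0)).coeff i : E N0) : LaurentSeries Kb) := by
    rw [← map_psiPoly hq hqN hζ (a : E N0), coeff_map]
    rfl
  have h2 : (conjPoly (1 : kˣ) q (f : LaurentSeries k)).coeff i =
      qExpand k (q ^ 2) (((Fermat.Agent.S36.TripleEval.redPoly k N0 q f).coeff i :
        ↥(modularFunctionFieldFullC k N0)) : LaurentSeries k) := by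
    rw [conjPoly_one_char q (f : LaurentSeries k), ← map_redPoly (N0 := N0) (q := q) f, coeff_map,
      coeff_map]
    rfl
  rw [h1, h2] at hP
  exact IsRed.of_qExpand (q ^ 2) hord hπζ hP

/-- **the coefficients of `Ψ_a` lie in the Gauss valuation ring, and reduce to the coefficients of
`TripleEval.redPoly (red a)`** -/
theorem coeff_psiPoly_mem [hqF : Fact q.Prime] (hqN : ¬ q ∣ N0) [CharP k q] [PerfectField k]
    (hrep : HasRep A π N0) (a : ↥(OwV A π N0 hrep)) (i : ℕ) :
    ∃ hc : (psiPoly hqF.out hqN (a : E N0)).coeff i ∈ OwV A π N0 hrep,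
      redV A π N0 hrep ⟨_, hc⟩ =
        (Fermat.Agent.S36.TripleEval.redPoly k N0 q (redV A π N0 hrep a)).coeff i := by
  obtain ⟨hc, h⟩ := mem_OwV_of_isRed hrep (coeff_psiPoly_isRed A π hqN hrep a i)
  exact ⟨hc, Subtype.ext h⟩

/-- **polynomial form**: `Ψ_a` is the image of a monic `P ∈ G.O[X]` with
`P.map redV = TripleEval.redPoly (redV a)`. -/
theorem exists_poly [hqF : Fact q.Prime] (hqN : ¬ q ∣ N0) [CharP k q] [PerfectField k]
    (hrep : HasRep A π N0) (a : ↥(OwV A π N0 hrep)) :
    ∃ P : Polynomial ↥(OwV A π N0 hrep), P.Monic ∧ P.natDegree = q ^ 2 + q ∧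
      P.map (OwV A π N0 hrep).subtype = psiPoly hqF.out hqN (a : E N0) ∧
      P.map (redV A π N0 hrep) =
        Fermat.Agent.S36.TripleEval.redPoly k N0 q (redV A π N0 hrep a) := by
  choose hc hred using fun i => coeff_psiPoly_mem A π hqN hrep a i
  set c : ℕ → ↥(OwV A π N0 hrep) := fun i => ⟨_, hc i⟩ with hcdef
  set P : Polynomial ↥(OwV A π N0 hrep) :=
    ∑ i ∈ Finset.range (q ^ 2 + q + 1), monomial i (c i) with hP
  have hcoeff : ∀ i, P.coeff i = if i < q ^ 2 + q + 1 then c i else 0 := by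
    intro i
    rw [hP, finsetSum_coeff]
    simp only [coeff_monomial]
    rw [Finset.sum_ite_eq' (Finset.range (q ^ 2 + q + 1)) i c]
    simp only [Finset.mem_range]
  have hinj : Function.Injective (OwV A π N0 hrep).subtype := Subtype.val_injective
  have h1 : P.map (OwV A π N0 hrep).subtype = psiPoly hqF.out hqN (a : E N0) := by
    refine Polynomial.ext fun i => ?_
    rw [coeff_map, hcoeff]
    split_ifs with hi
    · rfl
    · rw [map_zero, coeff_eq_zero_of_natDegree_lt]
      rw [psiPoly_natDegree]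
      omega
  have h2 : P.map (redV A π N0 hrep) =
      Fermat.Agent.S36.TripleEval.redPoly k N0 q (redV A π N0 hrep a) := by
    refine Polynomial.ext fun i => ?_
    rw [coeff_map, hcoeff]
    split_ifs with hi
    · exact hred i
    · rw [map_zero, coeff_eq_zero_of_natDegree_lt]
      rw [Fermat.Agent.S36.TripleEval.redPoly_natDegree]
      omega
  have hmonic : P.Monic := by
    apply Polynomial.monic_of_injective hinj
    rw [h1]
    exact psiPoly_monic hqF.out hqN _
  refine ⟨P, hmonic, ?_, h1, h2⟩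
  rw [← Polynomial.natDegree_map_eq_of_injective hinj, h1, psiPoly_natDegree]

/-- **`N(β²a - α²a) / q` lies in the Gauss valuation ring, with the twisted `θ`-reduction**, for a
general Gauss-integral `a`: `N_{E2 / β₂β₁E0}(β₂β₁ a - α₂α₁ a) = q · R`, `R ∈ G.O`,
`redV R = (f - f(t^(q²))) ((σ²f)(t^(q²)) - σ²f) (θ f)^(q-1)`, `f = redV a`. -/
theorem exists_diag [hqF : Fact q.Prime] (hqN : ¬ q ∣ N0) [CharP k q] [PerfectField k]
    (hrep : HasRep A π N0) (a : ↥(OwV A π N0 hrep)) :
    ∃ R : ↥(OwV A π N0 hrep),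
      (letI := algebraAlong ((heckeBetaBar Kb (N0 * q) q).comp (heckeBetaBar Kb N0 q))
       algebraMap Kb (E N0) ((q : ℕ) : Kb) * (R : E N0) =
        Algebra.norm (E N0)
          (heckeBetaBar Kb (N0 * q) q (heckeBetaBar Kb N0 q (a : E N0)) -
            heckeAlphaBar Kb (N0 * q) q (heckeAlphaBar Kb N0 q (a : E N0)))) ∧
      ((redV A π N0 hrep R : ↥(modularFunctionFieldFullC k N0)) : LaurentSeries k) =
        (((redV A π N0 hrep a : ↥(modularFunctionFieldFullC k N0)) : LaurentSeries k) -
            qExpand k (q ^ 2)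
              ((redV A π N0 hrep a : ↥(modularFunctionFieldFullC k N0)) : LaurentSeries k)) *
          (qExpand k (q ^ 2)
              (coeffMap (frobenius k q) (coeffMap (frobenius k q)
                ((redV A π N0 hrep a : ↥(modularFunctionFieldFullC k N0)) : LaurentSeries k))) -
            coeffMap (frobenius k q) (coeffMap (frobenius k q)
              ((redV A π N0 hrep a : ↥(modularFunctionFieldFullC k N0)) : LaurentSeries k))) *
          theta ((redV A π N0 hrep a : ↥(modularFunctionFieldFullC k N0)) : LaurentSeries k) ^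
            (q - 1) := by
  have hq : q.Prime := hqF.out
  letI a02 : Algebra (E N0) (E (N0 * q * q)) :=
    algebraAlong ((heckeBetaBar Kb (N0 * q) q).comp (heckeBetaBar Kb N0 q))
  have hq2pos : 0 < q ^ 2 := pow_pos hq.pos 2
  obtain ⟨ζ, ζA, hζ, hζA, hord, hπζ⟩ := exists_zeta (q := q) A π
  set x : LaurentSeries Kb := ((a : E N0) : LaurentSeries Kb) with hx
  set f : ↥(modularFunctionFieldFullC k N0) := redV A π N0 hrep a with hf
  have hxr : IsRed A π x (f : LaurentSeries k) := isRed_of_mem_OwV hrep a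
  set n : E N0 := Algebra.norm (E N0)
    (heckeBetaBar Kb (N0 * q) q (heckeBetaBar Kb N0 q (a : E N0)) -
      heckeAlphaBar Kb (N0 * q) q (heckeAlphaBar Kb N0 q (a : E N0))) with hn
  have hnexp : qExpand Kb (q ^ 2) (n : LaurentSeries Kb) =
      HahnSeries.C ((q : ℕ) : Kb) * DiagTheta.diagCofactor ζ q x :=
    qExpand_norm_diag_eq_C_mul hq hqN hζ (a : E N0)
  have hq0 : ((q : ℕ) : Kb) ≠ 0 := Nat.cast_ne_zero.mpr hq.ne_zero
  have hCne : (HahnSeries.C ((q : ℕ) : Kb) : LaurentSeries Kb) ≠ 0 := by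
    intro h
    exact hq0 (HahnSeries.C_injective (by rw [h, map_zero]))
  have hcoe : ((algebraMap Kb (E N0) ((q : ℕ) : Kb) : E N0) : LaurentSeries Kb) =
      HahnSeries.C ((q : ℕ) : Kb) := by
    show algebraMap Kb (LaurentSeries Kb) ((q : ℕ) : Kb) = _
    exact Fermat.Agent.S18.B.Basic.algebraMap_eq_C Kb _
  have hq0E : algebraMap Kb (E N0) ((q : ℕ) : Kb) ≠ 0 := by
    rwa [Ne, map_eq_zero]
  set R0 : E N0 := (algebraMap Kb (E N0) ((q : ℕ) : Kb))⁻¹ * n with hR0
  have hR0n : algebraMap Kb (E N0) ((q : ℕ) : Kb) * R0 = n := by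
    rw [hR0, ← mul_assoc, mul_inv_cancel₀ hq0E, one_mul]
  -- the expansion of `R0`
  have hR0exp : qExpand Kb (q ^ 2) (R0 : LaurentSeries Kb) = DiagTheta.diagCofactor ζ q x := by
    have h1 : (n : LaurentSeries Kb) =
        HahnSeries.C ((q : ℕ) : Kb) * (R0 : LaurentSeries Kb) := by
      rw [← hcoe, ← hR0n]
      rfl
    rw [h1, map_mul, qExpand_C] at hnexp
    exact mul_left_cancel₀ hCne hnexp
  -- the primitive `q`-th root of unity `ζ^q`
  have hζq : IsPrimitiveRoot (ζ ^ q) q := hζ.pow hq2pos (pow_two q)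
  have hne : ∀ b ∈ Finset.Ico 1 q, ((((ζA ^ q) ^ b : (↥A)ˣ) : ↥A) : Kb) ≠ 1 := by
    intro b hb
    rw [Finset.mem_Ico] at hb
    have h1 := hζq.pow_ne_one_of_pos_of_lt (by omega : b ≠ 0) hb.2
    intro h2
    apply h1
    apply Units.ext
    rw [← hζA]
    exact h2
  have hred := isRed_diagCofactor (A := A) (π := π) q hπζ hne hxr
  rw [hζA, ← hR0exp, cofactor_char q (f : LaurentSeries k)] at hred
  have hR0red := IsRed.of_qExpand (q ^ 2) hord hπζ hred
  obtain ⟨hmem, hredR⟩ := mem_OwV_of_isRed hrep hR0red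
  exact ⟨⟨R0, hmem⟩, hR0n, hredR⟩

/-- **`κ`-form of `exists_diag`, with `Ψ_a(a)`**: `Ψ_a(a) = q · R`, `R ∈ G.O`, and
`redV R = (f - φ²f)(φ²σ²f - σ²f) · (θ f)^(q-1)` with `f = redV a ∈ κ = F_k(N0)`,
`φ = S34/FrobK.phi`, `σ = TripleEval.sig` (the first two factors are elements of `κ`; their product
is `- (f - φ²f) · σ²(f - φ²f)`, the cofactor of `TripleEval.ord_cofactor`). -/
theorem exists_diag_kappa [hqF : Fact q.Prime] (hqN : ¬ q ∣ N0) [CharP k q] [PerfectField k]
    (hrep : HasRep A π N0) (a : ↥(OwV A π N0 hrep)) :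
    ∃ R : ↥(OwV A π N0 hrep),
      (psiPoly hqF.out hqN (a : E N0)).eval (a : E N0) =
        algebraMap Kb (E N0) ((q : ℕ) : Kb) * (R : E N0) ∧
      ((redV A π N0 hrep R : ↥(modularFunctionFieldFullC k N0)) : LaurentSeries k) =
        (((redV A π N0 hrep a -
              Fermat.Agent.S34.FrobK.phi k N0 q
                (Fermat.Agent.S34.FrobK.phi k N0 q (redV A π N0 hrep a))) *
            (Fermat.Agent.S34.FrobK.phi k N0 q (Fermat.Agent.S34.FrobK.phi k N0 q
                (Fermat.Agent.S36.TripleEval.sig k N0 q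
                  (Fermat.Agent.S36.TripleEval.sig k N0 q (redV A π N0 hrep a)))) -
              Fermat.Agent.S36.TripleEval.sig k N0 q
                (Fermat.Agent.S36.TripleEval.sig k N0 q (redV A π N0 hrep a))) :
            ↥(modularFunctionFieldFullC k N0)) : LaurentSeries k) *
          theta ((redV A π N0 hrep a : ↥(modularFunctionFieldFullC k N0)) : LaurentSeries k) ^
            (q - 1) := by
  obtain ⟨R, h1, h2⟩ := exists_diag A π hqN hrep a
  refine ⟨R, ?_, ?_⟩
  · rw [psiPoly_eval, h1]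
  · rw [h2]
    have hσ : ∀ g : ↥(modularFunctionFieldFullC k N0),
        ((Fermat.Agent.S36.TripleEval.sig k N0 q g : ↥(modularFunctionFieldFullC k N0)) :
            LaurentSeries k) = coeffMap (frobenius k q) (g : LaurentSeries k) := by
      intro g
      rw [Fermat.Agent.S36.TripleEval.sig,
        Fermat.Agent.S37.Equivariance.CoeffAut.coe_coeffRingAut_apply]
      exact coeffMap_congr (RingHom.ext fun c => by
        show Fermat.Agent.S37.Equivariance.CoeffAut.frobAut k q c = frobenius k q c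
        rw [Fermat.Agent.S37.Equivariance.CoeffAut.frobAut_apply, frobenius_def]) _
    have hφ : ∀ g : ↥(modularFunctionFieldFullC k N0),
        ((Fermat.Agent.S34.FrobK.phi k N0 q (Fermat.Agent.S34.FrobK.phi k N0 q g) :
            ↥(modularFunctionFieldFullC k N0)) : LaurentSeries k) =
          qExpand k (q ^ 2) (g : LaurentSeries k) := by
      intro g
      rw [Fermat.Agent.S34.FrobK.coe_phi, Fermat.Agent.S34.FrobK.coe_phi, qExpand_qExpand]
      exact qExpand_congr (pow_two q).symm _
    congr 1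
    show _ = (((redV A π N0 hrep a : ↥(modularFunctionFieldFullC k N0)) : LaurentSeries k) - _) *
      (_ - _)
    rw [hφ, hφ, hσ, hσ]

end Main

end Fermat.Agent.S36.CharpolyGauss
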