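/-
PROJECT V (S36), slice V-CharpolyK0 (helper22): **the `K₀`-forms of `S36/CharpolyGauss`** on the
Gauss DVR `O0` of `K₀(X₀(N0))` (`S36/GaussK0`), `K₀` the inertia field of `A | q`, `q ∤ N0`
(chain (V12)(iii): the two X0-inputs of `S36/TripleFibre.eisensteinFibre_of_red`).

`F0 = K₀(X₀(N0))`, `toBar : F0 → E N0 = ℚ̄(X₀(N0))`, `Ψ_x = CharpolyRed.psiPoly x` the characteristic
polynomial of `α₂α₁ x` over `β₂β₁ E0`.

* `exists_descent` : for `a ∈ F0` there is `P ∈ F0[X]` with `P.map toBar = Ψ_(toBar a)` (Galois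
  descent of the coefficients: no basis needed); `P` is monic of degree `q² + q` and
  `P(α_K α_K a) = 0` along `β_K β_K` (`monic_of_map`, `natDegree_of_map`, `root_of_map`);
* for `a ∈ O0` and ANY such `P` (e.g. the `K₀`-characteristic polynomial, identified by
  `S36/CharpolyInt.charpoly_lmul_map_of_basis`):
  `coeff_mem_O0` : `P.coeff i ∈ O0`, `red0 (P.coeff i) = (TripleEval.redPoly (red0 a)).coeff i`;
  `exists_poly_O0` : `P = Q.map O0.subtype`, `Q` monic over `O0`,
  `Q.map red0 = TripleEval.redPoly (red0 a)`;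
  `exists_diag_O0` : `P(a) = q · R`, `R ∈ O0`,
  `red0 R = (f - φ²f)(φ²σ²f - σ²f)(θ f)^(q-1)`, `f = red0 a`.
-/
import Mathlib
import Fermat.Agent.S36.CharpolyGauss
import Fermat.Agent.S36.GaussK0
import Fermat.Agent.S36.PowerBasisK0

set_option autoImplicit false
set_option linter.unusedSectionVars false
set_option linter.style.haveILetI false
set_option synthInstance.maxHeartbeats 400000

noncomputable section

namespace Fermat.Agent.S36.CharpolyK0

open Polynomial ModularCurve AlgebraicCurve IsLocalRing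
open Fermat.Agent.S28.LaurentRescale Fermat.Agent.S35.LevelMaps
open Fermat.Agent.S36.DiagTheta Fermat.Agent.S36.CharpolyRed
open Fermat.Agent.S18.GaussFromH Fermat.Agent.S18.C.SmallDVR
open Fermat.Agent.S36.GaussK0 Fermat.Agent.S36.K0Fixed
open Fermat.Agent.S37.Gauss.Datum

local notation "Kb" => AlgebraicClosure ℚ

/-! ### Galois descent of `Ψ` -/

section Descent

variable (H : Subgroup (Kb ≃ₐ[ℚ] Kb)) {N0 q : ℕ} [NeZero N0] [NeZero q]

open Fermat.Agent.S36.PowerBasisK0 in
/-- **`Ψ_(toBar a)` is defined over `K = ℚ̄^H`.** -/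
theorem exists_descent (hq : q.Prime) (hqN : ¬ q ∣ N0) (a : FK H N0) :
    ∃ P : Polynomial (FK H N0), P.map (tB H N0) = psiPoly hq hqN (tB H N0 a) := by
  have hfix : ∀ i, ∃ c : FK H N0, tB H N0 c = (psiPoly hq hqN (tB H N0 a)).coeff i := by
    intro i
    refine exists_tB_eq_of_fixed H N0 _ fun σ hσ => ?_
    have h1 := congrArg (fun Q : Polynomial (E N0) => Q.coeff i)
      (map_arithmeticRingAut_psiPoly hq hqN σ (tB H N0 a))
    simp only [coeff_map] at h1
    rw [show arithmeticRingAut (modularFunctionFieldFull N0) σ (tB H N0 a) = tB H N0 a from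
      sig_tB H hσ N0 a] at h1
    exact h1
  choose c hc using hfix
  refine ⟨∑ i ∈ Finset.range (q ^ 2 + q + 1), monomial i (c i), ?_⟩
  refine Polynomial.ext fun i => ?_
  rw [coeff_map, finsetSum_coeff]
  simp only [coeff_monomial]
  rw [Finset.sum_ite_eq' (Finset.range (q ^ 2 + q + 1)) i c]
  split_ifs with hi
  · exact hc i
  · rw [map_zero, coeff_eq_zero_of_natDegree_lt]
    rw [psiPoly_natDegree]
    rw [Finset.mem_range] at hi
    omega

end Descent

/-! ### General facts about a polynomial mapping to `Ψ` -/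

section OfMap

variable {F : Type*} [Field F] {N0 q : ℕ} [NeZero N0] [NeZero q]

theorem monic_of_map (hq : q.Prime) (hqN : ¬ q ∣ N0) (t : F →+* E N0) {x : E N0}
    {P : Polynomial F} (hP : P.map t = psiPoly hq hqN x) : P.Monic := by
  apply Polynomial.monic_of_injective t.injective
  rw [hP]
  exact psiPoly_monic hq hqN x

theorem natDegree_of_map (hq : q.Prime) (hqN : ¬ q ∣ N0) (t : F →+* E N0) {x : E N0}
    {P : Polynomial F} (hP : P.map t = psiPoly hq hqN x) : P.natDegree = q ^ 2 + q := by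
  rw [← Polynomial.natDegree_map_eq_of_injective t.injective, hP, psiPoly_natDegree]

/-- the root of `P`, along any pair of maps compatible with `β₂β₁` and `α₂α₁` -/
theorem root_of_map (hq : q.Prime) (hqN : ¬ q ∣ N0) (t : F →+* E N0) {F2 : Type*} [Field F2]
    (t2 : F2 →+* E (N0 * q * q)) (b2 a2 : F →+* F2)
    (hb : ∀ z, t2 (b2 z) = heckeBetaBar Kb (N0 * q) q (heckeBetaBar Kb N0 q (t z)))
    (ha : ∀ z, t2 (a2 z) = heckeAlphaBar Kb (N0 * q) q (heckeAlphaBar Kb N0 q (t z)))
    {a : F} {P : Polynomial F} (hP : P.map t = psiPoly hq hqN (t a)) :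
    P.eval₂ b2 (a2 a) = 0 := by
  apply t2.injective
  rw [map_zero, Polynomial.hom_eval₂, ha]
  have h1 : t2.comp b2 =
      (((heckeBetaBar Kb (N0 * q) q).comp (heckeBetaBar Kb N0 q)).toRingHom).comp t :=
    RingHom.ext fun z => hb z
  rw [h1, ← Polynomial.eval₂_map, hP]
  exact psiPoly_root hq hqN (t a)

end OfMap

/-! ### The root over `K = ℚ̄^H` -/

section RootK

variable (H : Subgroup (Kb ≃ₐ[ℚ] Kb)) {N0 q : ℕ} [NeZero N0] [NeZero q]

open Fermat.Agent.S36.PowerBasisK0 in
/-- `P(α_K α_K a) = 0`, the coefficients acting through `β_K β_K`. -/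
theorem root_K (hq : q.Prime) (hqN : ¬ q ∣ N0) (a : FK H N0) {P : Polynomial (FK H N0)}
    (hP : P.map (tB H N0) = psiPoly hq hqN (tB H N0 a)) :
    P.eval₂ ((betaK H (N0 * q) q).comp (betaK H N0 q))
      (alphaK H (N0 * q) q (alphaK H N0 q a)) = 0 :=
  root_of_map hq hqN (tB H N0) (tB H (N0 * q * q))
    ((betaK H (N0 * q) q).comp (betaK H N0 q)) ((alphaK H (N0 * q) q).comp (alphaK H N0 q))
    (fun z => by rw [RingHom.comp_apply, tB_betaK, tB_betaK])
    (fun z => by rw [RingHom.comp_apply, tB_alphaK, tB_alphaK]) hP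

end RootK

/-! ### The Gauss DVR of `K₀(X₀(N0))` -/

section GaussK0

variable {q : ℕ} [hqF : Fact q.Prime] {N0 : ℕ} [NeZero N0] [NeZero q] {A : ValuationSubring Kb}
  (hA : A.LiesOverPrime q) (hqN : ¬ q ∣ N0)

set_option quotPrecheck false in
local notation "F0" => ↥(laurentBaseChange ↥(K0 A) (modularFunctionFieldFull N0))
set_option quotPrecheck false in
local notation "tb" => toBar (modularFunctionFieldFull N0) (K0 A)

/-- **coefficients**: for `a ∈ O0` and `P` over `F0` with `P.map toBar = Ψ_(toBar a)`, every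
coefficient of `P` lies in `O0`, with reduction the coefficient of `TripleEval.redPoly (red0 a)`. -/
theorem coeff_mem_O0 (a : ↥(O0 N0 hA hqN)) {P : Polynomial F0}
    (hP : P.map tb = psiPoly hqF.out hqN (tb (a : F0))) (i : ℕ) :
    haveI : CharP (ResidueField ↥A) q := Fermat.Agent.S18.ResidueBasics.charP_residueField A hA
    haveI : IsAlgClosed (ResidueField ↥A) :=
      Fermat.Agent.S18.ResidueBasics.isAlgClosed_residueField A
    ∃ hc : P.coeff i ∈ O0 N0 hA hqN,
      red0 N0 hA hqN ⟨_, hc⟩ =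
        (Fermat.Agent.S36.TripleEval.redPoly (ResidueField ↥A) N0 q
          (red0 N0 hA hqN a)).coeff i := by
  haveI : CharP (ResidueField ↥A) q := Fermat.Agent.S18.ResidueBasics.charP_residueField A hA
  haveI : IsAlgClosed (ResidueField ↥A) :=
    Fermat.Agent.S18.ResidueBasics.isAlgClosed_residueField A
  set aG : ↥(OwV A (residue ↥A) N0 (hasRep N0 A hA hqN)) := toBarO N0 hA hqN a with haG
  obtain ⟨hc', hred'⟩ := Fermat.Agent.S36.CharpolyGauss.coeff_psiPoly_mem A (residue ↥A) hqN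
    (hasRep N0 A hA hqN) aG i
  have hco : tb (P.coeff i) = (psiPoly hqF.out hqN (tb (a : F0))).coeff i := by
    rw [← hP, coeff_map]
  have hmemG : tb (P.coeff i) ∈ (gaussDatum N0 A hA hqN).O := by
    rw [hco]
    exact hc'
  have hc : P.coeff i ∈ O0 N0 hA hqN := (mem_O0_iff N0 hA hqN _).mpr hmemG
  refine ⟨hc, ?_⟩
  rw [← red_toBar N0 hA hqN ⟨_, hc⟩]
  have h1 : (⟨tb (P.coeff i), toBar_mem_O N0 hA hqN ⟨_, hc⟩⟩ : ↥(gaussDatum N0 A hA hqN).O) =
      ⟨(psiPoly hqF.out hqN (tb (a : F0))).coeff i, hc'⟩ := Subtype.ext hco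
  rw [h1]
  have h2 : redV A (residue ↥A) N0 (hasRep N0 A hA hqN) aG = red0 N0 hA hqN a :=
    red_toBarO N0 hA hqN a
  rw [← h2]
  exact hred'

/-- **polynomial form**: `P` has coefficients in `O0`, and as a polynomial over `O0` it reduces to
`TripleEval.redPoly (red0 a)`. -/
theorem exists_poly_O0 (a : ↥(O0 N0 hA hqN)) {P : Polynomial F0}
    (hP : P.map tb = psiPoly hqF.out hqN (tb (a : F0))) :
    haveI : CharP (ResidueField ↥A) q := Fermat.Agent.S18.ResidueBasics.charP_residueField A hA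
    haveI : IsAlgClosed (ResidueField ↥A) :=
      Fermat.Agent.S18.ResidueBasics.isAlgClosed_residueField A
    ∃ Q : Polynomial ↥(O0 N0 hA hqN), Q.map (O0 N0 hA hqN).subtype = P ∧ Q.Monic ∧
      Q.natDegree = q ^ 2 + q ∧
      Q.map (red0 N0 hA hqN) =
        Fermat.Agent.S36.TripleEval.redPoly (ResidueField ↥A) N0 q (red0 N0 hA hqN a) := by
  haveI : CharP (ResidueField ↥A) q := Fermat.Agent.S18.ResidueBasics.charP_residueField A hA
  haveI : IsAlgClosed (ResidueField ↥A) :=
    Fermat.Agent.S18.ResidueBasics.isAlgClosed_residueField A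
  choose hc hred using fun i => coeff_mem_O0 hA hqN a hP i
  have hdegP : P.natDegree = q ^ 2 + q := natDegree_of_map hqF.out hqN tb hP
  set c : ℕ → ↥(O0 N0 hA hqN) := fun i => ⟨_, hc i⟩ with hcdef
  set Q : Polynomial ↥(O0 N0 hA hqN) :=
    ∑ i ∈ Finset.range (q ^ 2 + q + 1), monomial i (c i) with hQ
  have hcoeff : ∀ i, Q.coeff i = if i < q ^ 2 + q + 1 then c i else 0 := by
    intro i
    rw [hQ, finsetSum_coeff]
    simp only [coeff_monomial]
    rw [Finset.sum_ite_eq' (Finset.range (q ^ 2 + q + 1)) i c]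
    simp only [Finset.mem_range]
  have hinj : Function.Injective (O0 N0 hA hqN).subtype := Subtype.val_injective
  have h1 : Q.map (O0 N0 hA hqN).subtype = P := by
    refine Polynomial.ext fun i => ?_
    rw [coeff_map, hcoeff]
    split_ifs with hi
    · rfl
    · rw [map_zero, coeff_eq_zero_of_natDegree_lt]
      omega
  have h2 : Q.map (red0 N0 hA hqN) =
      Fermat.Agent.S36.TripleEval.redPoly (ResidueField ↥A) N0 q (red0 N0 hA hqN a) := by
    refine Polynomial.ext fun i => ?_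
    rw [coeff_map, hcoeff]
    split_ifs with hi
    · exact hred i
    · rw [map_zero, coeff_eq_zero_of_natDegree_lt]
      rw [Fermat.Agent.S36.TripleEval.redPoly_natDegree]
      omega
  have hmonic : Q.Monic := by
    apply Polynomial.monic_of_injective hinj
    rw [h1]
    exact monic_of_map hqF.out hqN tb hP
  refine ⟨Q, h1, hmonic, ?_, h2⟩
  rw [← Polynomial.natDegree_map_eq_of_injective hinj, h1, hdegP]

/-- **the constant term**: `P(a) = q · R` with `R ∈ O0` and
`red0 R = (f - φ²f)(φ²σ²f - σ²f) · (θ f)^(q-1)`, `f = red0 a`. -/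
theorem exists_diag_O0 (a : ↥(O0 N0 hA hqN)) {P : Polynomial F0}
    (hP : P.map tb = psiPoly hqF.out hqN (tb (a : F0))) :
    haveI : CharP (ResidueField ↥A) q := Fermat.Agent.S18.ResidueBasics.charP_residueField A hA
    haveI : IsAlgClosed (ResidueField ↥A) :=
      Fermat.Agent.S18.ResidueBasics.isAlgClosed_residueField A
    ∃ R : ↥(O0 N0 hA hqN), P.eval (a : F0) = ((q : ℕ) : F0) * (R : F0) ∧
      ((red0 N0 hA hqN R : ↥(modularFunctionFieldFullC (ResidueField ↥A) N0)) :
          LaurentSeries (ResidueField ↥A)) =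
        (((red0 N0 hA hqN a -
              Fermat.Agent.S34.FrobK.phi (ResidueField ↥A) N0 q
                (Fermat.Agent.S34.FrobK.phi (ResidueField ↥A) N0 q (red0 N0 hA hqN a))) *
            (Fermat.Agent.S34.FrobK.phi (ResidueField ↥A) N0 q
                (Fermat.Agent.S34.FrobK.phi (ResidueField ↥A) N0 q
                  (Fermat.Agent.S36.TripleEval.sig (ResidueField ↥A) N0 q
                    (Fermat.Agent.S36.TripleEval.sig (ResidueField ↥A) N0 q
                      (red0 N0 hA hqN a)))) -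
              Fermat.Agent.S36.TripleEval.sig (ResidueField ↥A) N0 q
                (Fermat.Agent.S36.TripleEval.sig (ResidueField ↥A) N0 q (red0 N0 hA hqN a))) :
            ↥(modularFunctionFieldFullC (ResidueField ↥A) N0)) :
            LaurentSeries (ResidueField ↥A)) *
          theta ((red0 N0 hA hqN a : ↥(modularFunctionFieldFullC (ResidueField ↥A) N0)) :
            LaurentSeries (ResidueField ↥A)) ^ (q - 1) := by
  haveI : CharP (ResidueField ↥A) q := Fermat.Agent.S18.ResidueBasics.charP_residueField A hA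
  haveI : IsAlgClosed (ResidueField ↥A) :=
    Fermat.Agent.S18.ResidueBasics.isAlgClosed_residueField A
  set aG : ↥(OwV A (residue ↥A) N0 (hasRep N0 A hA hqN)) := toBarO N0 hA hqN a with haG
  obtain ⟨RG, h1, h2⟩ := Fermat.Agent.S36.CharpolyGauss.exists_diag_kappa A (residue ↥A) hqN
    (hasRep N0 A hA hqN) aG
  have haGc : ((aG : ↥(OwV A (residue ↥A) N0 (hasRep N0 A hA hqN))) : E N0) = tb (a : F0) := rfl
  rw [haGc, ← hP, Polynomial.eval_map, Polynomial.eval₂_at_apply] at h1
  have hq0 : ((q : ℕ) : F0) ≠ 0 := Nat.cast_ne_zero.mpr hqF.out.ne_zero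
  have hqmap : tb ((q : ℕ) : F0) = algebraMap Kb (E N0) ((q : ℕ) : Kb) := by
    rw [map_natCast, map_natCast]
  obtain ⟨R0, hR0⟩ : ∃ R0 : F0, R0 = ((q : ℕ) : F0)⁻¹ * P.eval (a : F0) := ⟨_, rfl⟩
  have hR0e : P.eval (a : F0) = ((q : ℕ) : F0) * R0 := by
    rw [hR0, ← mul_assoc, mul_inv_cancel₀ hq0, one_mul]
  have htR0 : tb R0 = (RG : E N0) := by
    have hq0E : algebraMap Kb (E N0) ((q : ℕ) : Kb) ≠ 0 := by
      rw [← hqmap]
      exact (map_ne_zero_iff _ (toBar_injective _ _)).mpr hq0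
    have h3 : algebraMap Kb (E N0) ((q : ℕ) : Kb) * tb R0 =
        algebraMap Kb (E N0) ((q : ℕ) : Kb) * (RG : E N0) := by
      calc algebraMap Kb (E N0) ((q : ℕ) : Kb) * tb R0 = tb (((q : ℕ) : F0) * R0) := by
            rw [map_mul, hqmap]
        _ = tb (P.eval (a : F0)) := by rw [← hR0e]
        _ = algebraMap Kb (E N0) ((q : ℕ) : Kb) * (RG : E N0) := h1
    exact mul_left_cancel₀ hq0E h3
  have hmemG : tb R0 ∈ (gaussDatum N0 A hA hqN).O := by
    rw [htR0]
    exact RG.2
  have hmem : R0 ∈ O0 N0 hA hqN := (mem_O0_iff N0 hA hqN _).mpr hmemG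
  refine ⟨⟨R0, hmem⟩, hR0e, ?_⟩
  have h4 : red0 N0 hA hqN ⟨R0, hmem⟩ =
      redV A (residue ↥A) N0 (hasRep N0 A hA hqN) RG := by
    rw [← red_toBar N0 hA hqN ⟨R0, hmem⟩]
    have h5 : (⟨tb R0, toBar_mem_O N0 hA hqN ⟨R0, hmem⟩⟩ : ↥(gaussDatum N0 A hA hqN).O) = RG :=
      Subtype.ext htR0
    rw [h5]
    rfl
  have h6 : redV A (residue ↥A) N0 (hasRep N0 A hA hqN) aG = red0 N0 hA hqN a :=
    red_toBarO N0 hA hqN a
  rw [h4, h2, h6]

/-- the root over the inertia field `K₀`: `P(α α a) = 0` along `β β` (level maps over `K₀`) -/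
theorem root_K0 (a : F0) {P : Polynomial F0}
    (hP : P.map tb = psiPoly hqF.out hqN (tb a)) :
    P.eval₂
      ((heckeBetaBar ↥(K0 A) (N0 * q) q).toRingHom.comp (heckeBetaBar ↥(K0 A) N0 q).toRingHom)
      (heckeAlphaBar ↥(K0 A) (N0 * q) q (heckeAlphaBar ↥(K0 A) N0 q a)) = 0 :=
  root_K (A.inertiaSubgroupIn ℚ) hqF.out hqN a hP

/-- **Packaged `K₀`-form** (inputs of `S36/TripleFibre.eisensteinFibre_of_red`): for `a ∈ O0` there
is a monic `Q ∈ O0[X]` of degree `q² + q` whose image over `ℚ̄` is `Ψ_(toBar a)`, with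
`Q.map red0 = TripleEval.redPoly (red0 a)` and `Q(a) = q · R`, `R ∈ O0`,
`red0 R = (f - φ²f)(φ²σ²f - σ²f)(θ f)^(q-1)`. -/
theorem exists_psiK0 (a : ↥(O0 N0 hA hqN)) :
    haveI : CharP (ResidueField ↥A) q := Fermat.Agent.S18.ResidueBasics.charP_residueField A hA
    haveI : IsAlgClosed (ResidueField ↥A) :=
      Fermat.Agent.S18.ResidueBasics.isAlgClosed_residueField A
    ∃ Q : Polynomial ↥(O0 N0 hA hqN), Q.Monic ∧ Q.natDegree = q ^ 2 + q ∧
      (Q.map (O0 N0 hA hqN).subtype).map tb = psiPoly hqF.out hqN (tb (a : F0)) ∧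
      Q.map (red0 N0 hA hqN) =
        Fermat.Agent.S36.TripleEval.redPoly (ResidueField ↥A) N0 q (red0 N0 hA hqN a) ∧
      ∃ R : ↥(O0 N0 hA hqN), Q.eval a = ((q : ℕ) : ↥(O0 N0 hA hqN)) * R ∧
        ((red0 N0 hA hqN R : ↥(modularFunctionFieldFullC (ResidueField ↥A) N0)) :
            LaurentSeries (ResidueField ↥A)) =
          (((red0 N0 hA hqN a -
                Fermat.Agent.S34.FrobK.phi (ResidueField ↥A) N0 q
                  (Fermat.Agent.S34.FrobK.phi (ResidueField ↥A) N0 q (red0 N0 hA hqN a))) *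
              (Fermat.Agent.S34.FrobK.phi (ResidueField ↥A) N0 q
                  (Fermat.Agent.S34.FrobK.phi (ResidueField ↥A) N0 q
                    (Fermat.Agent.S36.TripleEval.sig (ResidueField ↥A) N0 q
                      (Fermat.Agent.S36.TripleEval.sig (ResidueField ↥A) N0 q
                        (red0 N0 hA hqN a)))) -
                Fermat.Agent.S36.TripleEval.sig (ResidueField ↥A) N0 q
                  (Fermat.Agent.S36.TripleEval.sig (ResidueField ↥A) N0 q (red0 N0 hA hqN a))) :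
              ↥(modularFunctionFieldFullC (ResidueField ↥A) N0)) :
              LaurentSeries (ResidueField ↥A)) *
            theta ((red0 N0 hA hqN a : ↥(modularFunctionFieldFullC (ResidueField ↥A) N0)) :
              LaurentSeries (ResidueField ↥A)) ^ (q - 1) := by
  haveI : CharP (ResidueField ↥A) q := Fermat.Agent.S18.ResidueBasics.charP_residueField A hA
  haveI : IsAlgClosed (ResidueField ↥A) :=
    Fermat.Agent.S18.ResidueBasics.isAlgClosed_residueField A
  obtain ⟨P, hP⟩ : ∃ P : Polynomial F0, P.map tb = psiPoly hqF.out hqN (tb (a : F0)) :=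
    exists_descent (A.inertiaSubgroupIn ℚ) hqF.out hqN (a : F0)
  obtain ⟨Q, hQP, hQm, hQd, hQr⟩ := exists_poly_O0 hA hqN a hP
  obtain ⟨R, hR1, hR2⟩ := exists_diag_O0 hA hqN a hP
  refine ⟨Q, hQm, hQd, by rw [hQP, hP], hQr, R, ?_, hR2⟩
  apply Subtype.val_injective
  have h1 : ((Q.eval a : ↥(O0 N0 hA hqN)) : F0) = (Q.map (O0 N0 hA hqN).subtype).eval (a : F0) := by
    rw [Polynomial.eval_map]
    exact (Polynomial.eval₂_at_apply (O0 N0 hA hqN).subtype a).symm
  show ((Q.eval a : ↥(O0 N0 hA hqN)) : F0) = _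
  rw [h1, hQP, hR1]
  rfl

end GaussK0

end Fermat.Agent.S36.CharpolyK0
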