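/-
PROJECT V (S36), chain (V12)(iii) input, slice V-CharpolyInt (helper4): **the characteristic
polynomial of an integral element has integral coefficients**, and commutes with base change.
Abstract, Mathlib only.

* `charpoly_blockDiagonal` : `charpoly (blockDiagonal M) = ∏ k, charpoly (M k)` (uniform blocks).
* `charpoly_lmul_eq_minpoly_pow` : for a finite field extension `L/F` and `y : L`, the characteristic
  polynomial of multiplication by `y` is `(minpoly F y)^[L : F(y)]` (block-diagonal matrix in the
  tower basis `F ⊆ F(y) ⊆ L`).
* `exists_monic_map_eq_charpoly` : `R` an integrally closed domain with fraction field `F`,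
  `y` integral over `R`: the characteristic polynomial is the image of a monic polynomial of `R[X]`
  (at `X₀`: the coefficients of `Ψ = charpoly(a2(a) / a0(F_0))` lie in `a0(A0fin)`).
* `leftMulMatrix_map_of_basis`, `charpoly_lmul_map_of_basis` : a field embedding `(f, g)` of `L/F` into
  `L'/F'` carrying a basis to a basis carries the characteristic polynomial of `y` to that of `g y`
  (`K0`-form to `Q̄`-form).
* `aeval_charpoly_lmul` : Cayley-Hamilton, `Ψ(y) = 0`.
-/
import Mathlib

set_option autoImplicit false
set_option linter.unusedSectionVars false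
set_option linter.style.haveILetI false

namespace Fermat.Agent.S36.CharpolyInt

open Polynomial Matrix IntermediateField

/-! ### block diagonal matrices with uniform blocks -/

section Block

variable {R : Type*} [CommRing R] {n o : Type*} [Fintype n] [DecidableEq n] [Fintype o]
  [DecidableEq o]

theorem charmatrix_blockDiagonal (M : o → Matrix n n R) :
    (blockDiagonal M).charmatrix = blockDiagonal (fun k => (M k).charmatrix) := by
  ext ⟨i, k⟩ ⟨j, k'⟩
  by_cases hk : k = k'
  · subst hk
    rw [blockDiagonal_apply_eq]
    by_cases hij : i = j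
    · subst hij
      rw [charmatrix_apply_eq, charmatrix_apply_eq, blockDiagonal_apply_eq]
    · have hne : ((i, k) : n × o) ≠ (j, k) := fun h => hij (Prod.mk.inj h).1
      rw [charmatrix_apply_ne _ _ _ hne, charmatrix_apply_ne _ _ _ hij, blockDiagonal_apply_eq]
  · have hne : ((i, k) : n × o) ≠ (j, k') := fun h => hk (Prod.mk.inj h).2
    rw [blockDiagonal_apply_ne _ _ _ hk, charmatrix_apply_ne _ _ _ hne,
      blockDiagonal_apply_ne _ _ _ hk, map_zero, neg_zero]

theorem charpoly_blockDiagonal (M : o → Matrix n n R) :
    (blockDiagonal M).charpoly = ∏ k, (M k).charpoly := by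
  rw [Matrix.charpoly, charmatrix_blockDiagonal, det_blockDiagonal]
  rfl

end Block

/-! ### the characteristic polynomial in a finite field extension -/

section Field

variable {F L : Type*} [Field F] [Field L] [Algebra F L] [FiniteDimensional F L]

/-- Cayley-Hamilton for multiplication by `y`. -/
theorem aeval_charpoly_lmul (y : L) :
    aeval y (LinearMap.charpoly (Algebra.lmul F L y)) = 0 := by
  have h1 := LinearMap.aeval_self_charpoly (Algebra.lmul F L y)
  have h2 : aeval (Algebra.lmul F L y) (LinearMap.charpoly (Algebra.lmul F L y)) =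
      Algebra.lmul F L (aeval y (LinearMap.charpoly (Algebra.lmul F L y))) :=
    (Polynomial.aeval_algHom_apply (Algebra.lmul F L) y _)
  rw [h2] at h1
  have h3 := congrArg (fun φ : Module.End F L => φ 1) h1
  simpa using h3

/-- **`charpoly = minpoly ^ [L : F(y)]`.** -/
theorem charpoly_lmul_eq_minpoly_pow (y : L) :
    LinearMap.charpoly (Algebra.lmul F L y) = (minpoly F y) ^ Module.finrank F⟮y⟯ L := by
  classical
  have hy : IsIntegral F y := Algebra.IsIntegral.isIntegral y
  set pb := IntermediateField.adjoin.powerBasis hy with hpb
  set c := Module.finBasis F⟮y⟯ L with hc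
  set b := pb.basis.smulTower c with hb
  have h1 : LinearMap.charpoly (Algebra.lmul F L y) = (Algebra.leftMulMatrix b y).charpoly := by
    rw [Algebra.leftMulMatrix_apply, LinearMap.charpoly_toMatrix]
  have h2 : Algebra.leftMulMatrix b (algebraMap F⟮y⟯ L (AdjoinSimple.gen F y)) =
      blockDiagonal fun _ => Algebra.leftMulMatrix pb.basis (AdjoinSimple.gen F y) :=
    Algebra.smulTower_leftMulMatrix_algebraMap pb.basis c _
  rw [AdjoinSimple.algebraMap_gen] at h2
  have h3 : (Algebra.leftMulMatrix pb.basis (AdjoinSimple.gen F y)).charpoly = minpoly F y := by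
    have h4 : pb.gen = AdjoinSimple.gen F y := IntermediateField.adjoin.powerBasis_gen hy
    rw [← h4, charpoly_leftMulMatrix pb, h4, IntermediateField.minpoly_gen]
  rw [h1, h2, charpoly_blockDiagonal, Finset.prod_const, h3, Finset.card_univ, Fintype.card_fin]

/-- **The characteristic polynomial of an integral element has integral coefficients.** -/
theorem exists_monic_map_eq_charpoly {R : Type*} [CommRing R] [IsDomain R] [IsIntegrallyClosed R]
    [Algebra R F] [IsFractionRing R F] [Algebra R L] [IsScalarTower R F L] {y : L}
    (hy : IsIntegral R y) :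
    ∃ Q : R[X], Q.Monic ∧ Q.natDegree = Module.finrank F L ∧
      Q.map (algebraMap R F) = LinearMap.charpoly (Algebra.lmul F L y) := by
  have hmap : ((minpoly R y) ^ Module.finrank F⟮y⟯ L).map (algebraMap R F) =
      LinearMap.charpoly (Algebra.lmul F L y) := by
    rw [Polynomial.map_pow, ← minpoly.isIntegrallyClosed_eq_field_fractions' F hy,
      charpoly_lmul_eq_minpoly_pow]
  have hmonic : ((minpoly R y) ^ Module.finrank F⟮y⟯ L).Monic := (minpoly.monic hy).pow _
  refine ⟨(minpoly R y) ^ Module.finrank F⟮y⟯ L, hmonic, ?_, hmap⟩
  rw [← hmonic.natDegree_map (algebraMap R F), hmap, LinearMap.charpoly_natDegree]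

end Field

/-! ### base change -/

section BaseChange

variable {F L F' L' : Type*} [Field F] [Field L] [Algebra F L] [Field F'] [Field L']
  [Algebra F' L'] {ι : Type*} [Fintype ι] [DecidableEq ι]

/-- The multiplication matrix commutes with a field embedding carrying a basis to a basis. -/
theorem leftMulMatrix_map_of_basis (f : F →+* F') (g : L →+* L')
    (hfg : ∀ x : F, g (algebraMap F L x) = algebraMap F' L' (f x))
    (b : Module.Basis ι F L) (b' : Module.Basis ι F' L') (hb : ∀ i, b' i = g (b i)) (y : L) :
    Algebra.leftMulMatrix b' (g y) = (Algebra.leftMulMatrix b y).map f := by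
  ext i j
  rw [Matrix.map_apply, Algebra.leftMulMatrix_eq_repr_mul, Algebra.leftMulMatrix_eq_repr_mul]
  have h1 : y * b j = ∑ l, b.repr (y * b j) l • b l := (b.sum_repr _).symm
  have h2 : g y * b' j = ∑ l, f (b.repr (y * b j) l) • b' l := by
    rw [hb j, ← map_mul, h1, map_sum]
    refine Finset.sum_congr rfl fun l _ => ?_
    rw [Algebra.smul_def, map_mul, hfg, hb l, Algebra.smul_def, ← h1]
  rw [h2, map_sum, Finset.sum_apply']
  simp only [map_smul, Module.Basis.repr_self, Finsupp.smul_apply, smul_eq_mul,
    Finsupp.single_apply]
  rw [Finset.sum_eq_single i]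
  · simp
  · intro l _ hl
    simp [hl]
  · intro h
    exact absurd (Finset.mem_univ i) h

/-- **Base change of the characteristic polynomial.** -/
theorem charpoly_lmul_map_of_basis [FiniteDimensional F L] [FiniteDimensional F' L']
    (f : F →+* F') (g : L →+* L')
    (hfg : ∀ x : F, g (algebraMap F L x) = algebraMap F' L' (f x))
    (b : Module.Basis ι F L) (b' : Module.Basis ι F' L') (hb : ∀ i, b' i = g (b i)) (y : L) :
    LinearMap.charpoly (Algebra.lmul F' L' (g y)) =
      (LinearMap.charpoly (Algebra.lmul F L y)).map f := by
  have h1 : LinearMap.charpoly (Algebra.lmul F L y) = (Algebra.leftMulMatrix b y).charpoly := by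
    rw [Algebra.leftMulMatrix_apply, LinearMap.charpoly_toMatrix]
  have h2 : LinearMap.charpoly (Algebra.lmul F' L' (g y)) =
      (Algebra.leftMulMatrix b' (g y)).charpoly := by
    rw [Algebra.leftMulMatrix_apply, LinearMap.charpoly_toMatrix]
  rw [h1, h2, leftMulMatrix_map_of_basis f g hfg b b' hb, Matrix.charpoly_map]

end BaseChange

end Fermat.Agent.S36.CharpolyInt
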