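/-
PROJECT V (S36), chain (V12)(iii) input, slice V-BasisDescent (helper4): **Galois descent of bases**
(Artin's trick for fields of invariants), abstract, and its consequences for degrees and
characteristic polynomials.

Setting (the one of `PowerBasisK0.exists_powerBasis_of_basis_pow_abstract`): fields `F ⊆ E`,
`F' ⊆ E'` (via `t`, `t'`), a commuting square `φK : F → F'`, `φ : E → E'`, a family of endomorphisms
`(s i, s' i)` of `(E, E')` compatible with `φ`, fixing `t' F'` pointwise and with `E^s = t F`.
`F'` is an `F`-algebra through `φK`, `E'` an `E`-algebra through `φ`.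

* `linearIndependent_map` : an `F`-linearly independent family of `F'` is `E`-linearly independent
  in `E'` (Artin).
* `span_map_eq_top` : if `E'` is spanned over `φ E` by `t' F'`, an `F`-basis of `F'` spans `E'`.
* `basisMap` : an `F`-basis of `F'` as an `E`-basis of `E'`; `basisMap_apply`.
* `finite_of_finite` : `[E' : E] < ∞ ⟹ [F' : F] < ∞`; `finrank_eq` : the degrees agree.
* `charpoly_map` : `char. pol. of y over F`, mapped by `t`, is the char. pol. of `t' y` over `E`.

At `X₀`: `F = F_K(N0)`, `F' = F_K(N0 q²)` (`K = ℚ̄^H`), `E`, `E'` the `ℚ̄`-forms, `φ = β₂β₁`,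
`s = arithmeticRingAut σ` (`σ ∈ H`): `[F_K(N0 q²) : β²F_K(N0)] = q² + q` and the `K`-form of
`CharpolyRed.psiPoly`.
-/
import Mathlib
import Fermat.Agent.S36.CharpolyInt

set_option autoImplicit false
set_option linter.unusedSectionVars false
set_option linter.style.haveILetI false

namespace Fermat.Agent.S36.BasisDescent

open Polynomial

variable {F F' E E' ι : Type*} [Field F] [Field F'] [Field E] [Field E']
  (t : F →+* E) (t' : F' →+* E') (φK : F →+* F') (φ : E →+* E')
  (hφ : ∀ x, t' (φK x) = φ (t x))

/-! ### spanning -/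

section Span

include hφ

/-- the image of an element of `F'` lies in the `E`-span of the image of an `F`-basis -/
theorem map_mem_span {κ : Type*} [Fintype κ]
    (b : letI := φK.toAlgebra; Module.Basis κ F F') (f : F') :
    letI := φ.toAlgebra
    t' f ∈ Submodule.span E (Set.range fun j => t' (b j)) := by
  letI := φK.toAlgebra
  letI := φ.toAlgebra
  have h1 : f = ∑ j, b.repr f j • b j := (b.sum_repr f).symm
  rw [h1, map_sum]
  refine Submodule.sum_mem _ fun j _ => ?_
  have h2 : t' (b.repr f j • b j) = t (b.repr f j) • t' (b j) := by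
    rw [Algebra.smul_def, Algebra.smul_def, map_mul]
    show t' (φK _) * _ = φ (t _) * _
    rw [hφ]
  rw [h2]
  exact Submodule.smul_mem _ _ (Submodule.subset_span ⟨j, rfl⟩)

/-- if `E'` is spanned over `φ E` by `t' F'`, the image of an `F`-basis of `F'` spans `E'` -/
theorem span_map_eq_top {κ : Type*} [Fintype κ]
    (b : letI := φK.toAlgebra; Module.Basis κ F F')
    (hspan : ∀ y : E', ∃ l : List (E × F'), y = (l.map fun p => φ p.1 * t' p.2).sum) :
    letI := φ.toAlgebra
    Submodule.span E (Set.range fun j => t' (b j)) = ⊤ := by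
  letI := φK.toAlgebra
  letI := φ.toAlgebra
  rw [eq_top_iff]
  intro y _
  obtain ⟨l, rfl⟩ := hspan y
  refine list_sum_mem fun z hz => ?_
  obtain ⟨p, -, rfl⟩ := List.mem_map.mp hz
  have h1 : φ p.1 * t' p.2 = p.1 • t' p.2 := by
    rw [Algebra.smul_def]; rfl
  rw [h1]
  exact Submodule.smul_mem _ _ (map_mem_span t t' φK φ hφ b p.2)

end Span

/-! ### Artin's trick -/

section Artin

variable (s : ι → (E →+* E)) (s' : ι → (E' →+* E'))
  (hs : ∀ i x, s' i (φ x) = φ (s i x))
  (hfix' : ∀ i z, s' i (t' z) = t' z)
  (hfix : ∀ x : E, (∀ i, s i x = x) → ∃ c, t c = x)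

include hφ hs hfix' hfix

/-- **Artin's trick**: a relation over `E` between images of `F`-independent elements is trivial. -/
theorem eq_zero_of_sum_eq_zero {κ : Type*} (w : κ → F')
    (hw : ∀ (S : Finset κ) (c : κ → F), ∑ j ∈ S, φK (c j) * w j = 0 → ∀ j ∈ S, c j = 0) :
    ∀ (n : ℕ) (S : Finset κ), S.card = n → ∀ a : κ → E,
      ∑ j ∈ S, φ (a j) * t' (w j) = 0 → ∀ j ∈ S, a j = 0 := by
  classical
  intro n
  induction n using Nat.strong_induction_on with
  | _ n ih =>
    intro S hS a ha
    by_contra hcon
    push Not at hcon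
    obtain ⟨j0, hj0S, hj0⟩ := hcon
    obtain ⟨a', ha'⟩ : ∃ a' : κ → E, ∀ j, a' j = a j * (a j0)⁻¹ := ⟨_, fun _ => rfl⟩
    have ha'0 : a' j0 = 1 := by rw [ha']; exact mul_inv_cancel₀ hj0
    have hrel : ∑ j ∈ S, φ (a' j) * t' (w j) = 0 := by
      have h1 : ∑ j ∈ S, φ (a' j) * t' (w j) = φ (a j0)⁻¹ * ∑ j ∈ S, φ (a j) * t' (w j) := by
        rw [Finset.mul_sum]
        refine Finset.sum_congr rfl fun j _ => ?_
        rw [ha', map_mul, map_inv₀]
        ring
      rw [h1, ha, mul_zero]
    have hfixed : ∀ i, ∀ j ∈ S, s i (a' j) = a' j := by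
      intro i
      have h1 : ∑ j ∈ S, φ (s i (a' j)) * t' (w j) = 0 := by
        have h2 := congrArg (s' i) hrel
        rw [map_sum, map_zero] at h2
        rw [← h2]
        refine Finset.sum_congr rfl fun j _ => ?_
        rw [map_mul (s' i), hs, hfix']
      have h3 : ∑ j ∈ S, φ (s i (a' j) - a' j) * t' (w j) = 0 := by
        simp only [map_sub, sub_mul, Finset.sum_sub_distrib, h1, hrel, sub_zero]
      have h4 : ∑ j ∈ S.erase j0, φ (s i (a' j) - a' j) * t' (w j) = 0 := by
        rw [← Finset.add_sum_erase S _ hj0S] at h3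
        rw [ha'0, map_one, sub_self, map_zero, zero_mul, zero_add] at h3
        exact h3
      have hlt : (S.erase j0).card < n := by
        rw [Finset.card_erase_of_mem hj0S, hS]
        have : 0 < n := by rw [← hS]; exact Finset.card_pos.mpr ⟨j0, hj0S⟩
        omega
      have h5 := ih (S.erase j0).card hlt (S.erase j0) rfl (fun j => s i (a' j) - a' j) h4
      intro j hjS
      by_cases hj : j = j0
      · rw [hj, ha'0, map_one]
      · exact sub_eq_zero.mp (h5 j (Finset.mem_erase.mpr ⟨hj, hjS⟩))
    have hex : ∀ j, ∃ c : F, j ∈ S → t c = a' j := by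
      intro j
      by_cases hjS : j ∈ S
      · obtain ⟨c, hc⟩ := hfix (a' j) (fun i => hfixed i j hjS)
        exact ⟨c, fun _ => hc⟩
      · exact ⟨0, fun h => absurd h hjS⟩
    choose c hc using hex
    have h5 : ∑ j ∈ S, φK (c j) * w j = 0 := by
      apply t'.injective
      rw [map_sum, map_zero, ← hrel]
      refine Finset.sum_congr rfl fun j hj => ?_
      rw [map_mul, hφ, hc j hj]
    have h6 := hw S c h5 j0 hj0S
    have h7 : t (c j0) = 1 := by rw [hc j0 hj0S, ha'0]
    rw [h6, map_zero] at h7
    exact zero_ne_one h7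

/-- **Artin**: `F`-linearly independent families of `F'` stay linearly independent over `E`. -/
theorem linearIndependent_map {κ : Type*} (w : κ → F')
    (hw : letI := φK.toAlgebra; LinearIndependent F w) :
    letI := φ.toAlgebra
    LinearIndependent E (fun j => t' (w j)) := by
  letI := φK.toAlgebra
  letI := φ.toAlgebra
  rw [linearIndependent_iff'] at hw ⊢
  intro S a ha j hj
  refine eq_zero_of_sum_eq_zero t t' φK φ hφ s s' hs hfix' hfix w ?_ S.card S rfl a ?_ j hj
  · intro S' c hc
    refine hw S' c ?_
    rw [← hc]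
    refine Finset.sum_congr rfl fun j _ => ?_
    rw [Algebra.smul_def]; rfl
  · rw [← ha]
    refine Finset.sum_congr rfl fun j _ => ?_
    rw [Algebra.smul_def]; rfl

/-- an `F`-basis of `F'` as an `E`-basis of `E'` -/
noncomputable def basisMap {κ : Type*} [Fintype κ]
    (b : letI := φK.toAlgebra; Module.Basis κ F F')
    (hspan : ∀ y : E', ∃ l : List (E × F'), y = (l.map fun p => φ p.1 * t' p.2).sum) :
    letI := φ.toAlgebra
    Module.Basis κ E E' :=
  letI := φK.toAlgebra
  letI := φ.toAlgebra
  Module.Basis.mk (linearIndependent_map t t' φK φ hφ s s' hs hfix' hfix b b.linearIndependent)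
    (span_map_eq_top t t' φK φ hφ b hspan).ge

theorem basisMap_apply {κ : Type*} [Fintype κ]
    (b : letI := φK.toAlgebra; Module.Basis κ F F')
    (hspan : ∀ y : E', ∃ l : List (E × F'), y = (l.map fun p => φ p.1 * t' p.2).sum) (j : κ) :
    letI := φK.toAlgebra
    letI := φ.toAlgebra
    basisMap t t' φK φ hφ s s' hs hfix' hfix b hspan j = t' (b j) := by
  letI := φK.toAlgebra
  letI := φ.toAlgebra
  rw [basisMap, Module.Basis.mk_apply]

/-- **finiteness descends**: `[E' : E] < ∞ ⟹ [F' : F] < ∞` -/
theorem finite_of_finite (hfin : letI := φ.toAlgebra; Module.Finite E E') :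
    letI := φK.toAlgebra
    Module.Finite F F' := by
  letI := φK.toAlgebra
  letI := φ.toAlgebra
  haveI := hfin
  rw [← Module.rank_lt_aleph0_iff]
  refine lt_of_le_of_lt (rank_le (n := Module.finrank E E') fun S hS => ?_)
    Cardinal.natCast_lt_aleph0
  have h1 := linearIndependent_map t t' φK φ hφ s s' hs hfix' hfix
    (fun i : S => ((i : F') : F')) hS
  have h2 := h1.fintype_card_le_finrank
  rwa [Fintype.card_coe] at h2

/-- **the degrees agree** -/
theorem finrank_eq (hfin : letI := φ.toAlgebra; Module.Finite E E')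
    (hspan : ∀ y : E', ∃ l : List (E × F'), y = (l.map fun p => φ p.1 * t' p.2).sum) :
    letI := φK.toAlgebra
    letI := φ.toAlgebra
    Module.finrank F F' = Module.finrank E E' := by
  letI := φK.toAlgebra
  letI := φ.toAlgebra
  haveI := hfin
  haveI : Module.Finite F F' := finite_of_finite t t' φK φ hφ s s' hs hfix' hfix hfin
  have hb := basisMap t t' φK φ hφ s s' hs hfix' hfix (Module.finBasis F F') hspan
  rw [Module.finrank_eq_card_basis hb, Fintype.card_fin]

/-- **base change of the characteristic polynomial** along the descent square -/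
theorem charpoly_map (hfin : letI := φ.toAlgebra; Module.Finite E E')
    (hspan : ∀ y : E', ∃ l : List (E × F'), y = (l.map fun p => φ p.1 * t' p.2).sum) (y : F') :
    letI := φK.toAlgebra
    letI := φ.toAlgebra
    haveI : Module.Finite F F' := finite_of_finite t t' φK φ hφ s s' hs hfix' hfix hfin
    LinearMap.charpoly (Algebra.lmul E E' (t' y)) =
      (LinearMap.charpoly (Algebra.lmul F F' y)).map t := by
  letI := φK.toAlgebra
  letI := φ.toAlgebra
  haveI := hfin
  haveI : Module.Finite F F' := finite_of_finite t t' φK φ hφ s s' hs hfix' hfix hfin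
  classical
  exact CharpolyInt.charpoly_lmul_map_of_basis t t' (fun x => (hφ x))
    (Module.finBasis F F')
    (basisMap t t' φK φ hφ s s' hs hfix' hfix (Module.finBasis F F') hspan)
    (fun j => basisMap_apply t t' φK φ hφ s s' hs hfix' hfix (Module.finBasis F F') hspan j) y

end Artin

end Fermat.Agent.S36.BasisDescent
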