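/-
PROJECT V (S36), chain (V12)(iii), slice V-TripleDescent (helper4): **the `K`-form of
`CharpolyRed.psiPoly`** (`K = ℚ̄^H`, `H` any subgroup of `Gal(ℚ̄/ℚ)`; `H` = inertia gives `K₀`) and
the degree `[F_K(N0 q²) : β²F_K(N0)] = q² + q`, by Galois descent of bases (`S36/BasisDescent`).

* `exists_list_eq` : every element of `E N` is a `ℚ̄`-linear combination of elements of `tB (F_K(N))`.
* `beta2K`, `alpha2K : F_K(N0) →+* F_K(N0 q²)`, `tB_beta2K`, `tB_alpha2K`.
* `finite_beta2K`, `finrank_beta2K : [F_K(N0 q²) : β²F_K(N0)] = q² + q`.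
* `psiPolyK a` : the characteristic polynomial of `α²a` over `β²F_K(N0)`;
  `map_psiPolyK : (psiPolyK a).map tB = psiPoly (tB a)`; `psiPolyK_monic`, `psiPolyK_natDegree`,
  `psiPolyK_root`, `tB_eval_psiPolyK` (`Ψ_a(s) = N(β²s - α²a)` after `tB`).
-/
import Mathlib
import Fermat.Agent.S36.BasisDescent
import Fermat.Agent.S36.CharpolyRed
import Fermat.Agent.S36.PowerBasisK0

set_option autoImplicit false
set_option linter.unusedSectionVars false
set_option linter.style.haveILetI false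
set_option synthInstance.maxHeartbeats 400000

noncomputable section

namespace Fermat.Agent.S36.TripleDescent

open Polynomial ModularCurve AlgebraicCurve IntermediateField
open Fermat.Agent.S35.LevelMaps Fermat.Agent.S36.K0Fixed Fermat.Agent.S36.PowerBasisK0
open Fermat.Agent.S30.Descent.ConstExt Fermat.Agent.S36.CharpolyRed
open Fermat.Agent.S36.NormDiag

local notation "Kb" => AlgebraicClosure ℚ

variable (H : Subgroup (Kb ≃ₐ[ℚ] Kb))

/-- every element of `E N` is a `ℚ̄`-linear combination of elements of `tB (F_K(N))` -/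
theorem exists_list_eq (N : ℕ) (y : E N) :
    ∃ l : List (Kb × FK H N),
      y = (l.map fun p => algebraMap Kb (E N) p.1 * tB H N p.2).sum := by
  haveI : Algebra.IsAlgebraic ℚ Kb := AlgebraicClosure.isAlgebraic ℚ
  haveI : Algebra.IsAlgebraic (IntermediateField.fixedField H) Kb :=
    Algebra.IsAlgebraic.tower_top (K := ℚ) (IntermediateField.fixedField H)
  have hE : constExt Kb (laurentBaseChange (IntermediateField.fixedField H)
      (modularFunctionFieldFull N)) = laurentBaseChange Kb (modularFunctionFieldFull N) :=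
    constExt_laurentBaseChange (modularFunctionFieldFull N)
  have hym : (y : LaurentSeries Kb) ∈ constExt Kb (laurentBaseChange
      (IntermediateField.fixedField H) (modularFunctionFieldFull N)) := by
    rw [hE]; exact y.2
  obtain ⟨l, hl⟩ := exists_lsum_eq (⟨(y : LaurentSeries Kb), hym⟩ :
    constExt Kb (laurentBaseChange (IntermediateField.fixedField H)
      (modularFunctionFieldFull N)))
  refine ⟨l, Subtype.ext ?_⟩
  have h1 := congrArg Subtype.val hl
  rw [coe_lsum] at h1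
  show (y : LaurentSeries Kb) = _
  rw [show (y : LaurentSeries Kb) = _ from h1.symm]
  have h2 : ∀ l' : List (Kb × FK H N),
      (((l'.map fun p => algebraMap Kb (E N) p.1 * tB H N p.2).sum : E N) : LaurentSeries Kb) =
        (l'.map fun p => algebraMap Kb (LaurentSeries Kb) p.1 *
          bc (IntermediateField.fixedField H) Kb (p.2 : LaurentSeries _)).sum := by
    intro l'
    induction l' with
    | nil => rfl
    | cons p l' ih =>
      rw [List.map_cons, List.sum_cons, List.map_cons, List.sum_cons, ← ih]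
      rfl
  rw [h2]

variable {N0 q : ℕ} [NeZero N0] [NeZero q]

/-- `β² : F_K(N0) → F_K(N0 q²)`, `g ↦ g(t^(q²))` -/
def beta2K : FK H N0 →+* FK H (N0 * q * q) := (betaK H (N0 * q) q).comp (betaK H N0 q)

/-- `α² : F_K(N0) → F_K(N0 q²)`, `g ↦ g(t)` -/
def alpha2K : FK H N0 →+* FK H (N0 * q * q) := (alphaK H (N0 * q) q).comp (alphaK H N0 q)

theorem tB_beta2K (x : FK H N0) :
    tB H (N0 * q * q) (beta2K H x) =
      heckeBetaBar Kb (N0 * q) q (heckeBetaBar Kb N0 q (tB H N0 x)) := by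
  rw [beta2K, RingHom.comp_apply, tB_betaK, tB_betaK]

theorem tB_alpha2K (x : FK H N0) :
    tB H (N0 * q * q) (alpha2K H x) =
      heckeAlphaBar Kb (N0 * q) q (heckeAlphaBar Kb N0 q (tB H N0 x)) := by
  rw [alpha2K, RingHom.comp_apply, tB_alphaK, tB_alphaK]

/-- the `ℚ̄`-level map `β₂β₁` as a ring homomorphism (the algebra structure of `psiPoly`) -/
abbrev beta2 (N0 q : ℕ) [NeZero N0] [NeZero q] : E N0 →+* E (N0 * q * q) :=
  ((heckeBetaBar Kb (N0 * q) q).comp (heckeBetaBar Kb N0 q)).toRingHom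

theorem hφ (x : FK H N0) : tB H (N0 * q * q) (beta2K H x) = beta2 N0 q (tB H N0 x) :=
  tB_beta2K H x

theorem hs (σ : H) (x : E N0) :
    ((sig σ.1 (N0 * q * q) : E (N0 * q * q) ≃+* E (N0 * q * q)) : E (N0 * q * q) →+* _)
        (beta2 N0 q x) =
      beta2 N0 q (((sig σ.1 N0 : E N0 ≃+* E N0) : E N0 →+* E N0) x) := by
  show sig σ.1 (N0 * q * q) (heckeBetaBar Kb (N0 * q) q (heckeBetaBar Kb N0 q x)) =
    heckeBetaBar Kb (N0 * q) q (heckeBetaBar Kb N0 q (sig σ.1 N0 x))
  rw [sig_beta, sig_beta]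

theorem hspan (y : E (N0 * q * q)) :
    ∃ l : List (E N0 × FK H (N0 * q * q)),
      y = (l.map fun p => beta2 N0 q p.1 * tB H (N0 * q * q) p.2).sum := by
  obtain ⟨l, hl⟩ := exists_list_eq H (N0 * q * q) y
  refine ⟨l.map fun p => (algebraMap Kb (E N0) p.1, p.2), ?_⟩
  rw [hl, List.map_map]
  congr 1
  refine List.map_congr_left fun p _ => ?_
  show _ = ((heckeBetaBar Kb (N0 * q) q).comp (heckeBetaBar Kb N0 q)) (algebraMap Kb (E N0) p.1) *
    tB H (N0 * q * q) p.2
  rw [AlgHom.commutes]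

/-- **finiteness over `K`** -/
theorem finite_beta2K (hq : q.Prime) (hqN : ¬ q ∣ N0) :
    letI := (beta2K (N0 := N0) (q := q) H).toAlgebra
    Module.Finite (FK H N0) (FK H (N0 * q * q)) :=
  BasisDescent.finite_of_finite (tB H N0) (tB H (N0 * q * q)) (beta2K H) (beta2 N0 q) (hφ H)
    (fun σ : H => ((sig σ.1 N0 : E N0 ≃+* E N0) : E N0 →+* E N0))
    (fun σ : H => ((sig σ.1 (N0 * q * q) : E (N0 * q * q) ≃+* E (N0 * q * q)) :
      E (N0 * q * q) →+* E (N0 * q * q)))
    (hs H) (fun σ z => sig_tB H σ.2 (N0 * q * q) z)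
    (fun x hx => exists_tB_eq_of_fixed H N0 x fun σ hσH => hx ⟨σ, hσH⟩)
    (finite_beta_beta (N0 := N0) hq hqN)

/-- **`[F_K(N0 q²) : β² F_K(N0)] = q² + q`** -/
theorem finrank_beta2K (hq : q.Prime) (hqN : ¬ q ∣ N0) :
    letI := (beta2K (N0 := N0) (q := q) H).toAlgebra
    Module.finrank (FK H N0) (FK H (N0 * q * q)) = q ^ 2 + q := by
  have h := BasisDescent.finrank_eq (tB H N0) (tB H (N0 * q * q)) (beta2K H) (beta2 N0 q) (hφ H)
    (fun σ : H => ((sig σ.1 N0 : E N0 ≃+* E N0) : E N0 →+* E N0))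
    (fun σ : H => ((sig σ.1 (N0 * q * q) : E (N0 * q * q) ≃+* E (N0 * q * q)) :
      E (N0 * q * q) →+* E (N0 * q * q)))
    (hs H) (fun σ z => sig_tB H σ.2 (N0 * q * q) z)
    (fun x hx => exists_tB_eq_of_fixed H N0 x fun σ hσH => hx ⟨σ, hσH⟩)
    (finite_beta_beta (N0 := N0) hq hqN) (hspan H)
  rw [h]
  exact finrank_beta_beta (N0 := N0) hq hqN

/-- **the `K`-form of `Ψ`**: the characteristic polynomial of `α²a` over `β² F_K(N0)` -/
def psiPolyK (hq : q.Prime) (hqN : ¬ q ∣ N0) (a : FK H N0) : Polynomial (FK H N0) :=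
  letI := (beta2K (N0 := N0) (q := q) H).toAlgebra
  haveI := finite_beta2K H hq hqN
  LinearMap.charpoly (Algebra.lmul (FK H N0) (FK H (N0 * q * q)) (alpha2K H a))

theorem map_psiPolyK (hq : q.Prime) (hqN : ¬ q ∣ N0) (a : FK H N0) :
    (psiPolyK H hq hqN a).map (tB H N0) = psiPoly hq hqN (tB H N0 a) := by
  have h := BasisDescent.charpoly_map (tB H N0) (tB H (N0 * q * q)) (beta2K H) (beta2 N0 q) (hφ H)
    (fun σ : H => ((sig σ.1 N0 : E N0 ≃+* E N0) : E N0 →+* E N0))
    (fun σ : H => ((sig σ.1 (N0 * q * q) : E (N0 * q * q) ≃+* E (N0 * q * q)) :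
      E (N0 * q * q) →+* E (N0 * q * q)))
    (hs H) (fun σ z => sig_tB H σ.2 (N0 * q * q) z)
    (fun x hx => exists_tB_eq_of_fixed H N0 x fun σ hσH => hx ⟨σ, hσH⟩)
    (finite_beta_beta (N0 := N0) hq hqN) (hspan H) (alpha2K H a)
  rw [tB_alpha2K] at h
  exact h.symm

theorem psiPolyK_monic (hq : q.Prime) (hqN : ¬ q ∣ N0) (a : FK H N0) :
    (psiPolyK H hq hqN a).Monic := by
  letI := (beta2K (N0 := N0) (q := q) H).toAlgebra
  haveI := finite_beta2K H hq hqN
  exact LinearMap.charpoly_monic _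

theorem psiPolyK_natDegree (hq : q.Prime) (hqN : ¬ q ∣ N0) (a : FK H N0) :
    (psiPolyK H hq hqN a).natDegree = q ^ 2 + q := by
  letI := (beta2K (N0 := N0) (q := q) H).toAlgebra
  haveI := finite_beta2K H hq hqN
  rw [psiPolyK, LinearMap.charpoly_natDegree, finrank_beta2K H hq hqN]

/-- Cayley-Hamilton over `K`: `Ψ_a(α²a) = 0`, the coefficients acting through `β²`. -/
theorem psiPolyK_root (hq : q.Prime) (hqN : ¬ q ∣ N0) (a : FK H N0) :
    (psiPolyK H hq hqN a).eval₂ (beta2K (N0 := N0) (q := q) H)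
      (alpha2K (N0 := N0) (q := q) H a) = 0 := by
  letI := (beta2K (N0 := N0) (q := q) H).toAlgebra
  haveI := finite_beta2K H hq hqN
  have h := CharpolyInt.aeval_charpoly_lmul (F := FK H N0) (L := FK H (N0 * q * q))
    (alpha2K (N0 := N0) (q := q) H a)
  rw [aeval_def] at h
  exact h

/-- `tB (Ψ_a(s)) = N(β²(tB s) - α²(tB a))`. -/
theorem tB_eval_psiPolyK (hq : q.Prime) (hqN : ¬ q ∣ N0) (a s : FK H N0) :
    tB H N0 ((psiPolyK H hq hqN a).eval s) = (psiPoly hq hqN (tB H N0 a)).eval (tB H N0 s) := by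
  rw [← map_psiPolyK, eval_map, eval₂_at_apply]

end Fermat.Agent.S36.TripleDescent
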