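/-
PROJECT V (S36), slice V-CharpolyK0Psi (helper22): **`S36/CharpolyK0` at helper4's
`S36/TripleDescent.psiPolyK`** (chain (V12)(iii)), for the inertia group `I = A.inertiaSubgroupIn ℚ`
of `A | q`, `q ∤ N0`, `K₀ = ℚ̄^I`.

`psiK0 hqN a := psiPolyK I hq hqN a` is the characteristic polynomial of `α_K α_K a` in `F_K₀(N0 q²)`
over `β_K β_K F_K₀(N0)`.  For `a` in the Gauss DVR `O0 = GaussK0.O0 N0 hA hqN`:

* `coeff_psiK0_mem` : `(psiK0 a).coeff i ∈ O0`, `red0` of it `= (TripleEval.redPoly (red0 a)).coeff i`;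
* `exists_poly_psiK0` : `psiK0 a = Q.map O0.subtype`, `Q` monic of degree `q² + q` over `O0`,
  `Q.map red0 = TripleEval.redPoly (red0 a)`;
* `exists_diag_psiK0` : `(psiK0 a).eval a = q · R`, `R ∈ O0`,
  `red0 R = (f - φ²f)(φ²σ²f - σ²f)(θ f)^(q-1)`, `f = red0 a`.
-/
import Mathlib
import Fermat.Agent.S36.CharpolyK0
import Fermat.Agent.S36.TripleDescent

set_option autoImplicit false
set_option linter.unusedSectionVars false
set_option linter.style.haveILetI false
set_option synthInstance.maxHeartbeats 400000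

noncomputable section

namespace Fermat.Agent.S36.CharpolyK0Psi

open Polynomial ModularCurve AlgebraicCurve IsLocalRing
open Fermat.Agent.S35.LevelMaps
open Fermat.Agent.S36.DiagTheta Fermat.Agent.S36.CharpolyRed Fermat.Agent.S36.CharpolyK0
open Fermat.Agent.S18.GaussFromH Fermat.Agent.S18.C.SmallDVR
open Fermat.Agent.S36.GaussK0 Fermat.Agent.S36.K0Fixed

local notation "Kb" => AlgebraicClosure ℚ

variable {q : ℕ} [hqF : Fact q.Prime] {N0 : ℕ} [NeZero N0] [NeZero q] {A : ValuationSubring Kb}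
  (hA : A.LiesOverPrime q) (hqN : ¬ q ∣ N0)

set_option quotPrecheck false in
local notation "F0" => ↥(laurentBaseChange ↥(K0 A) (modularFunctionFieldFull N0))
set_option quotPrecheck false in
local notation "tb" => toBar (modularFunctionFieldFull N0) (K0 A)

/-- **the `K₀`-characteristic polynomial** of `α_K α_K a` over `β_K β_K F_K₀(N0)`
(`S36/TripleDescent.psiPolyK` at the inertia group of `A`) -/
def psiK0 (a : F0) : Polynomial F0 :=
  Fermat.Agent.S36.TripleDescent.psiPolyK (A.inertiaSubgroupIn ℚ) hqF.out hqN a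

theorem map_psiK0 (a : F0) : (psiK0 hqN a).map tb = psiPoly hqF.out hqN (tb a) :=
  Fermat.Agent.S36.TripleDescent.map_psiPolyK (A.inertiaSubgroupIn ℚ) hqF.out hqN a

theorem psiK0_monic (a : F0) : (psiK0 hqN a).Monic :=
  Fermat.Agent.S36.TripleDescent.psiPolyK_monic (A.inertiaSubgroupIn ℚ) hqF.out hqN a

theorem psiK0_natDegree (a : F0) : (psiK0 hqN a).natDegree = q ^ 2 + q :=
  Fermat.Agent.S36.TripleDescent.psiPolyK_natDegree (A.inertiaSubgroupIn ℚ) hqF.out hqN a

theorem coeff_psiK0_mem (a : ↥(O0 N0 hA hqN)) (i : ℕ) :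
    haveI : CharP (ResidueField ↥A) q := Fermat.Agent.S18.ResidueBasics.charP_residueField A hA
    haveI : IsAlgClosed (ResidueField ↥A) :=
      Fermat.Agent.S18.ResidueBasics.isAlgClosed_residueField A
    ∃ hc : (psiK0 hqN (a : F0)).coeff i ∈ O0 N0 hA hqN,
      red0 N0 hA hqN ⟨_, hc⟩ =
        (Fermat.Agent.S36.TripleEval.redPoly (ResidueField ↥A) N0 q
          (red0 N0 hA hqN a)).coeff i :=
  coeff_mem_O0 hA hqN a (map_psiK0 hqN (a : F0)) i

theorem exists_poly_psiK0 (a : ↥(O0 N0 hA hqN)) :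
    haveI : CharP (ResidueField ↥A) q := Fermat.Agent.S18.ResidueBasics.charP_residueField A hA
    haveI : IsAlgClosed (ResidueField ↥A) :=
      Fermat.Agent.S18.ResidueBasics.isAlgClosed_residueField A
    ∃ Q : Polynomial ↥(O0 N0 hA hqN), Q.map (O0 N0 hA hqN).subtype = psiK0 hqN (a : F0) ∧
      Q.Monic ∧ Q.natDegree = q ^ 2 + q ∧
      Q.map (red0 N0 hA hqN) =
        Fermat.Agent.S36.TripleEval.redPoly (ResidueField ↥A) N0 q (red0 N0 hA hqN a) :=
  exists_poly_O0 hA hqN a (map_psiK0 hqN (a : F0))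

theorem exists_diag_psiK0 (a : ↥(O0 N0 hA hqN)) :
    haveI : CharP (ResidueField ↥A) q := Fermat.Agent.S18.ResidueBasics.charP_residueField A hA
    haveI : IsAlgClosed (ResidueField ↥A) :=
      Fermat.Agent.S18.ResidueBasics.isAlgClosed_residueField A
    ∃ R : ↥(O0 N0 hA hqN), (psiK0 hqN (a : F0)).eval (a : F0) = ((q : ℕ) : F0) * (R : F0) ∧
      ((red0 N0 hA hqN R : ↥(modularFunctionFieldFullC (ResidueField ↥A) N0)) :
          LaurentSeries (ResidueField ↥A)) =
        (((red0 N0 hA hqN a -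
              Fermat.Agent.S34.FrobK.phi (ResidueField ↥A) N0 q
                (Fermat.Agent.S34.FrobK.phi (ResidueField ↥A) N0 q (red0 N0 hA hqN a))) *
            (Fermat.Agent.S34.FrobK.phi (ResidueField ↥A) N0 q
                (Fermat.Agent.S34.FrobK.phi (ResidueField ↥A) N0 q
                  (Fermat.Agent.S36.TripleEval.sig (ResidueField ↥A) N0 q
                    (Fermat.Agent.S36.TripleEval.sig (ResidueField ↥A) N0 q
                      (red0 N0 hA hqN a)))) -
              Fermat.Agent.S36.TripleEval.sig (ResidueField ↥A) N0 q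
                (Fermat.Agent.S36.TripleEval.sig (ResidueField ↥A) N0 q (red0 N0 hA hqN a))) :
            ↥(modularFunctionFieldFullC (ResidueField ↥A) N0)) :
            LaurentSeries (ResidueField ↥A)) *
          theta ((red0 N0 hA hqN a : ↥(modularFunctionFieldFullC (ResidueField ↥A) N0)) :
            LaurentSeries (ResidueField ↥A)) ^ (q - 1) :=
  exists_diag_O0 hA hqN a (map_psiK0 hqN (a : F0))

end Fermat.Agent.S36.CharpolyK0Psi
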