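/-
PROJECT V (S36), Stage 0, design-independent commutative algebra (helper2, memo #2478 (1)(2)).
Mathlib only.

* `isPrincipal_of_map_mk_isPrincipal` : **cheap factoriality.**  `R` a commutative ring, `y` in the
  Jacobson radical of `R`, `p` a finitely generated prime ideal with `y ∉ p` whose image in
  `R ⧸ (y)` is principal.  Then `p` is principal.  (Pick `f ∈ p` whose image generates; then
  `p = f R + y p` because `(y) ∩ p = y p`, and Nakayama.)
* `isPrincipal_of_isPrincipalIdealRing_quotient` : the same for a noetherian local ring `R`,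
  `y ∈ 𝔪`, `R ⧸ (y)` a principal ideal ring (e.g. a discrete valuation ring).
* `exists_forall_span_eq_of_forall_exists` : **semi-local generator (the moving lemma).**  `R ⊆ K`,
  `I` an `R`-submodule of `K`, `m i` finitely many pairwise distinct maximal ideals of `R`,
  `u i ∈ I` "local generators of `I` at `m i`" in the weak form: every `v ∈ I` is
  `(a / s) • u i` with `s ∉ m i`.  Then one `h ∈ I` is a local generator at all `m i`.
-/
import Mathlib

set_option autoImplicit false
set_option linter.style.haveILetI false
set_option linter.unusedSectionVars false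

namespace Fermat.Agent.S36.CheapFactorial

open Ideal

section Cheap

variable {R : Type*} [CommRing R]

/-- `(y) ∩ p = y p` for a prime `p` not containing `y`, in the form used below. -/
theorem mem_span_singleton_smul_of_mem {y : R} {p : Ideal R} [p.IsPrime] (hyp : y ∉ p) {g : R}
    (hg : g ∈ p) (hgy : g ∈ Ideal.span {y}) : g ∈ (Ideal.span {y} : Ideal R) • p := by
  obtain ⟨r, rfl⟩ := Ideal.mem_span_singleton'.mp hgy
  have hr : r ∈ p := by
    rcases (Ideal.IsPrime.mem_or_mem ‹p.IsPrime› hg) with h | h
    · exact h
    · exact absurd h hyp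
  rw [mul_comm]
  exact Submodule.smul_mem_smul (Ideal.mem_span_singleton_self y) hr

/-- **Cheap factoriality.** -/
theorem isPrincipal_of_map_mk_isPrincipal {y : R} (hy : y ∈ Ideal.jacobson (⊥ : Ideal R))
    (p : Ideal R) [p.IsPrime] (hfg : p.FG) (hyp : y ∉ p)
    (hprinc : (p.map (Ideal.Quotient.mk (Ideal.span {y}))).IsPrincipal) :
    p.IsPrincipal := by
  classical
  obtain ⟨fbar, hfbar⟩ := hprinc
  -- a generator of the image which is the image of an element of `p`
  have hsurj : Function.Surjective (Ideal.Quotient.mk (Ideal.span {y})) :=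
    Ideal.Quotient.mk_surjective
  have hfmem : fbar ∈ p.map (Ideal.Quotient.mk (Ideal.span {y})) := by
    rw [hfbar]; exact Submodule.mem_span_singleton_self fbar
  obtain ⟨f, hfp, rfl⟩ :=
    (Ideal.mem_map_iff_of_surjective (Ideal.Quotient.mk (Ideal.span {y})) hsurj).mp hfmem
  refine ⟨f, ?_⟩
  have hle : p ≤ Ideal.span {f} := by
    refine Submodule.le_of_le_smul_of_le_jacobson_bot (I := Ideal.span {y}) hfg ?_ ?_
    · rw [Ideal.span_le]
      intro z hz
      rw [Set.mem_singleton_iff.mp hz]
      exact hy
    · intro g hg
      have hgmem : Ideal.Quotient.mk (Ideal.span {y}) g ∈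
          p.map (Ideal.Quotient.mk (Ideal.span {y})) := Ideal.mem_map_of_mem _ hg
      rw [hfbar] at hgmem
      obtain ⟨cbar, hc⟩ := Submodule.mem_span_singleton.mp hgmem
      obtain ⟨c, rfl⟩ := hsurj cbar
      have hdiff : g - c * f ∈ Ideal.span {y} := by
        rw [← Ideal.Quotient.eq, map_mul]
        exact hc.symm
      have hdiffp : g - c * f ∈ p := p.sub_mem hg (p.mul_mem_left c hfp)
      have h1 := mem_span_singleton_smul_of_mem hyp hdiffp hdiff
      have h2 : c * f ∈ (Ideal.span {f} : Ideal R) :=
        Ideal.mul_mem_left _ c (Ideal.mem_span_singleton_self f)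
      have : g = c * f + (g - c * f) := by ring
      rw [this]
      exact Submodule.add_mem_sup h2 h1
  exact le_antisymm hle ((Ideal.span_singleton_le_iff_mem p).mpr hfp)

/-- **Cheap factoriality, local noetherian form**: if `R ⧸ (y)` is a principal ideal ring
(e.g. a discrete valuation ring) and `y ∈ 𝔪`, every prime of `R` not containing `y` is
principal. -/
theorem isPrincipal_of_isPrincipalIdealRing_quotient [IsNoetherianRing R] [IsLocalRing R] {y : R}
    (hy : y ∈ IsLocalRing.maximalIdeal R) [IsPrincipalIdealRing (R ⧸ Ideal.span {y})]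
    (p : Ideal R) [p.IsPrime] (hyp : y ∉ p) : p.IsPrincipal :=
  isPrincipal_of_map_mk_isPrincipal
    (by rw [IsLocalRing.jacobson_eq_maximalIdeal ⊥ bot_ne_top]; exact hy) p
    (IsNoetherian.noetherian p) hyp (IsPrincipalIdealRing.principal _)

end Cheap

section UFD

variable {R : Type*} [CommRing R] [IsDomain R] [IsNoetherianRing R] [IsLocalRing R]

/-- **Cheap factoriality, UFD form.**  A noetherian local domain `R` with an element
`y ∈ 𝔪`, `y ≠ 0`, such that `R ⧸ (y)` is a principal ideal DOMAIN (e.g. a discrete valuation ring)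
is a unique factorisation domain.  In particular `R` is integrally closed: a local ring of a
plane model with this property IS the local ring of the normal model. -/
theorem ufd_of_quotient_pid {y : R} (hy : y ∈ IsLocalRing.maximalIdeal R) (hy0 : y ≠ 0)
    [IsDomain (R ⧸ Ideal.span {y})] [IsPrincipalIdealRing (R ⧸ Ideal.span {y})] :
    UniqueFactorizationMonoid R := by
  refine UniqueFactorizationMonoid.of_forall_isPrincipal_of_height_eq_one fun p _ hp => ?_
  by_cases hyp : y ∈ p
  · -- then `p = (y)`
    have hprime : (Ideal.span {y} : Ideal R).IsPrime :=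
      (Ideal.Quotient.isDomain_iff_prime _).mp inferInstance
    have hle : Ideal.span {y} ≤ p := (Ideal.span_singleton_le_iff_mem p).mpr hyp
    have hne : (Ideal.span {y} : Ideal R) ≠ ⊥ := by
      rw [Ne, Ideal.span_singleton_eq_bot]; exact hy0
    rcases eq_or_lt_of_le hle with h | h
    · exact ⟨y, h.symm⟩
    · exfalso
      have hfin : p.FiniteHeight := p.finiteHeight_iff.mpr (Or.inr (by rw [hp]; exact ENat.one_ne_top))
      have hlt := Ideal.height_strict_mono_of_isPrime_of_isPrime h
      rw [hp, Order.lt_one_iff, Ideal.height_eq_zero_iff_eq_bot] at hlt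
      exact hne hlt
  · exact isPrincipal_of_isPrincipalIdealRing_quotient hy p hyp

end UFD

end Fermat.Agent.S36.CheapFactorial
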