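/-
PROJECT V (S36), slice V-LocalUFD (helper2, chain #2528 (V11)): the two abstract local
factoriality statements consumed by (B0) = "every local ring `O_x` of the normal model is a UFD".
Mathlib + `S36/KrullInter` (helper12) + `S36/CheapFactorial`.

* `span_singleton_eq_of_unique_height_one` (**LU1, ideal form**): `R` a noetherian integrally
  closed domain, `z ≠ 0`, `p` a prime containing `z` such that every height-one prime containing
  `z` is `p` and `z` generates `p R_p`.  Then `(z) = p`.
* `ufd_of_component_equation` (**LU1**): if moreover `R` is local, `z ∈ 𝔪` and `R ⧸ p` is a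
  principal ideal ring (the component through the point is a smooth curve there), then `R` is a
  UFD.  [Points of the model on exactly one component: `z = q` on `C₂₀`, `C₀₂`, cusps included;
  `z = a₂ - a₀` at the ordinary points of `C₁₁`, `z = a₂/a₀ - 1` at the middle cusps.]
* `isDomain_and_isPrincipalIdealRing_of_maximalIdeal_eq_span` (**E1**): a noetherian local ring
  whose maximal ideal is generated by one non-nilpotent element is a principal ideal domain.
* `AdjoinRoot` section (**LU2**): `O` noetherian local domain, `𝔪_O = (q, s)`, `(s)` prime,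
  `q ∉ (s)`, `Ψ` monic with all lower coefficients in `𝔪_O` and `Ψ(0) ≡ q · unit mod (s)`
  ("the fibre over `s = 0` is Eisenstein").  Then `AdjoinRoot Ψ`, if a domain, is a local UFD.
  [Triple points: `O` = local ring of the smooth level-`M''` model at the supersingular point,
  `s = a - ã`, `Ψ` = characteristic polynomial of `a(t^(q²))` shifted to the root `ã`.]
-/
import Mathlib
import Fermat.Agent.S36.KrullInter
import Fermat.Agent.S36.CheapFactorial

set_option autoImplicit false
set_option linter.style.haveILetI false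
set_option linter.unusedSectionVars false

namespace Fermat.Agent.S36.LocalUFD

open Ideal IsLocalRing Polynomial

open Fermat.Agent.S36.KrullInter

/-! ### LU1 -/

section LU1

variable {R : Type*} [CommRing R] [IsDomain R] [IsNoetherianRing R] [IsIntegrallyClosed R]

/-- **LU1, ideal form.**  In a noetherian integrally closed domain, if `p` is the only height-one
prime containing `z ≠ 0` and `z` generates `p` locally at `p`, then `(z) = p`. -/
theorem span_singleton_eq_of_unique_height_one {z : R} (hz0 : z ≠ 0) (p : Ideal R) [hp : p.IsPrime]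
    (hzp : z ∈ p)
    (huniq : ∀ Q : Ideal R, Q.IsPrime → z ∈ Q →
      (∀ Q' : Ideal R, Q'.IsPrime → Q' ≤ Q → Q' = ⊥ ∨ Q' = Q) → Q = p)
    (hgen : ∀ x ∈ p, ∃ s : R, s ∉ p ∧ s * x ∈ Ideal.span {z}) :
    Ideal.span {z} = p := by
  refine le_antisymm ((Ideal.span_singleton_le_iff_mem p).mpr hzp) ?_
  intro x hx
  set F := FractionRing R
  by_contra hxz
  have hz0F : algebraMap R F z ≠ 0 := algebraMap_ne_zero' hz0
  -- `y = x / z` is not in `R`
  have hy : ¬ ∃ a : R, algebraMap R F x / algebraMap R F z = algebraMap R F a := by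
    rintro ⟨a, ha⟩
    apply hxz
    rw [Ideal.mem_span_singleton']
    refine ⟨a, ?_⟩
    apply IsFractionRing.injective R F
    rw [map_mul, ← ha, div_mul_cancel₀ _ hz0F]
  obtain ⟨P, y', h, hnot⟩ := exists_isCond_not_mem hy
  haveI := h.prime
  -- `z ∈ P`
  have hzP : z ∈ P := by
    by_contra hzP
    apply hnot
    exact ⟨z, hzP, x, by rw [mul_div_cancel₀ _ hz0F]⟩
  -- `P` has height one, hence `P = p`
  have hPp : P = p := huniq P h.prime hzP (fun Q' hQ' hle => by
    haveI := hQ'
    exact h.eq_bot_or_eq_of_le Q' hle)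
  subst hPp
  obtain ⟨s, hs, hsx⟩ := hgen x hx
  obtain ⟨r, hr⟩ := Ideal.mem_span_singleton'.mp hsx
  apply hnot
  refine ⟨s, hs, r, ?_⟩
  rw [← mul_div_assoc, ← map_mul, ← hr, map_mul, mul_div_cancel_right₀ _ hz0F]

/-- **LU1.**  `R` a noetherian integrally closed local domain, `z ∈ 𝔪` a local equation of the
unique component `p` through the closed point (`p` the only height-one prime containing `z`, and
`z` a uniformiser of `R_p`), the component being a smooth curve at the point (`R ⧸ p` a principal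
ideal ring).  Then `R` is a UFD. -/
theorem ufd_of_component_equation [IsLocalRing R] {z : R} (hz : z ∈ maximalIdeal R) (hz0 : z ≠ 0)
    (p : Ideal R) [hp : p.IsPrime] (hzp : z ∈ p)
    (huniq : ∀ Q : Ideal R, Q.IsPrime → z ∈ Q →
      (∀ Q' : Ideal R, Q'.IsPrime → Q' ≤ Q → Q' = ⊥ ∨ Q' = Q) → Q = p)
    (hgen : ∀ x ∈ p, ∃ s : R, s ∉ p ∧ s * x ∈ Ideal.span {z})
    [hpid : IsPrincipalIdealRing (R ⧸ p)] : UniqueFactorizationMonoid R := by
  have h := span_singleton_eq_of_unique_height_one hz0 p hzp huniq hgen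
  haveI : IsDomain (R ⧸ Ideal.span {z}) := by rw [h]; infer_instance
  haveI : IsPrincipalIdealRing (R ⧸ Ideal.span {z}) := by rw [h]; exact hpid
  exact CheapFactorial.ufd_of_quotient_pid hz hz0

/-- In the situation of LU1 the component is cut out by `z`. -/
theorem isPrime_span_singleton_of_component_equation {z : R} (hz0 : z ≠ 0)
    (p : Ideal R) [hp : p.IsPrime] (hzp : z ∈ p)
    (huniq : ∀ Q : Ideal R, Q.IsPrime → z ∈ Q →
      (∀ Q' : Ideal R, Q'.IsPrime → Q' ≤ Q → Q' = ⊥ ∨ Q' = Q) → Q = p)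
    (hgen : ∀ x ∈ p, ∃ s : R, s ∉ p ∧ s * x ∈ Ideal.span {z}) :
    (Ideal.span {z} : Ideal R).IsPrime := by
  rw [span_singleton_eq_of_unique_height_one hz0 p hzp huniq hgen]; exact hp

end LU1

/-! ### E1: principal maximal ideal -/

section E1

variable {S : Type*} [CommRing S] [IsNoetherianRing S] [IsLocalRing S]

/-- In a noetherian local ring with `𝔪 = (t)`, every nonzero element is a unit times a power of
`t`. -/
theorem exists_unit_mul_pow_of_maximalIdeal_eq_span {t : S}
    (ht : maximalIdeal S = Ideal.span {t}) {x : S} (hx : x ≠ 0) :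
    ∃ (n : ℕ) (u : S), IsUnit u ∧ x = u * t ^ n := by
  classical
  have hinf : ⨅ i : ℕ, maximalIdeal S ^ i = ⊥ :=
    Ideal.iInf_pow_eq_bot_of_isLocalRing _ (IsLocalRing.maximalIdeal.isMaximal S).ne_top
  have hex : ∃ n : ℕ, x ∉ maximalIdeal S ^ n := by
    by_contra hcon
    push Not at hcon
    have : x ∈ ⨅ i : ℕ, maximalIdeal S ^ i := by
      rw [Ideal.mem_iInf]; exact hcon
    rw [hinf, Ideal.mem_bot] at this
    exact hx this
  have hn := Nat.find_spec hex
  have hmin := fun m => Nat.find_min hex (m := m)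
  set n := Nat.find hex with hndef
  have hn0 : n ≠ 0 := by
    intro h0
    rw [h0, pow_zero, Ideal.one_eq_top] at hn
    exact hn Submodule.mem_top
  obtain ⟨k, hk⟩ := Nat.exists_eq_succ_of_ne_zero hn0
  have hxk : x ∈ maximalIdeal S ^ k := by
    by_contra hcon
    exact hmin k (by omega) hcon
  rw [ht, Ideal.span_singleton_pow, Ideal.mem_span_singleton'] at hxk
  obtain ⟨u, hu⟩ := hxk
  refine ⟨k, u, ?_, hu.symm⟩
  by_contra hunit
  have humem : u ∈ maximalIdeal S := (IsLocalRing.mem_maximalIdeal u).mpr hunit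
  apply hn
  have htk : t ^ k ∈ maximalIdeal S ^ k := by
    rw [ht, Ideal.span_singleton_pow]; exact Ideal.mem_span_singleton_self _
  rw [hk, pow_succ, ← hu, mul_comm u (t ^ k)]
  exact Ideal.mul_mem_mul htk humem

/-- **E1.**  A noetherian local ring whose maximal ideal is generated by one NON-NILPOTENT element is
a principal ideal domain (a discrete valuation ring or a field). -/
theorem isDomain_and_isPrincipalIdealRing_of_maximalIdeal_eq_span {t : S}
    (ht : maximalIdeal S = Ideal.span {t}) (hnil : ¬ IsNilpotent t) :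
    IsDomain S ∧ IsPrincipalIdealRing S := by
  have hnzd : NoZeroDivisors S := by
    refine ⟨fun {a b} hab => ?_⟩
    by_contra hcon
    push Not at hcon
    obtain ⟨n, u, hu, rfl⟩ := exists_unit_mul_pow_of_maximalIdeal_eq_span ht hcon.1
    obtain ⟨m, v, hv, rfl⟩ := exists_unit_mul_pow_of_maximalIdeal_eq_span ht hcon.2
    apply hnil
    refine ⟨n + m, ?_⟩
    have h1 : (u * v) * t ^ (n + m) = 0 := by rw [← hab, pow_add]; ring
    exact (hu.mul hv).mul_right_eq_zero.mp h1
  haveI : IsDomain S := NoZeroDivisors.to_isDomain S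
  refine ⟨inferInstance, ?_⟩
  have hprinc : (maximalIdeal S).IsPrincipal := ⟨t, ht⟩
  exact ((tfae_of_isNoetherianRing_of_isLocalRing_of_isDomain S).out 4 0).mp hprinc

end E1

/-! ### LU2: Eisenstein fibre over a two-dimensional base -/

section LU2

variable {O : Type*} [CommRing O] [IsDomain O] [IsNoetherianRing O] [IsLocalRing O]

/-- The hypotheses of LU2: `𝔪_O = (q, s)`, `(s)` prime not containing `q`, `Ψ` monic of positive
degree, `Ψ ≡ T^d` modulo `𝔪_O`, and `Ψ(0) ≡ q · unit` modulo `(s)`. -/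
structure EisensteinFibre (q s : O) (Ψ : O[X]) : Prop where
  max_eq : maximalIdeal O = Ideal.span {q, s}
  prime_s : (Ideal.span {s} : Ideal O).IsPrime
  q_notMem : q ∉ (Ideal.span {s} : Ideal O)
  s_ne_zero : s ≠ 0
  monic : Ψ.Monic
  natDegree_ne_zero : Ψ.natDegree ≠ 0
  coeff_mem : ∀ i < Ψ.natDegree, Ψ.coeff i ∈ maximalIdeal O
  const : ∃ u : O, IsUnit u ∧ Ψ.coeff 0 - q * u ∈ (Ideal.span {s} : Ideal O)

namespace EisensteinFibre

variable {q s : O} {Ψ : O[X]} (h : EisensteinFibre q s Ψ)

local notation "R" => AdjoinRoot Ψ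
local notation "ι" => AdjoinRoot.of Ψ
local notation "θ" => AdjoinRoot.root Ψ

include h

theorem degree_ne_zero : Ψ.degree ≠ 0 := by
  rw [Polynomial.degree_eq_natDegree h.monic.ne_zero]
  exact_mod_cast h.natDegree_ne_zero

theorem of_injective : Function.Injective ι :=
  AdjoinRoot.of.injective_of_degree_ne_zero h.degree_ne_zero

/-- `θ^d` lies in `𝔪_O R`. -/
theorem pow_root_mem : θ ^ Ψ.natDegree ∈ (maximalIdeal O).map ι := by
  have h1 : AdjoinRoot.mk Ψ (X ^ Ψ.natDegree - Ψ) = θ ^ Ψ.natDegree := by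
    rw [map_sub, AdjoinRoot.mk_self, sub_zero, map_pow, AdjoinRoot.mk_X]
  rw [← h1]
  have h2 : X ^ Ψ.natDegree - Ψ ∈ Ideal.map (C : O →+* O[X]) (maximalIdeal O) := by
    rw [Ideal.mem_map_C_iff]
    intro n
    rw [Polynomial.coeff_sub, Polynomial.coeff_X_pow]
    rcases lt_trichotomy n Ψ.natDegree with hn | hn | hn
    · rw [if_neg hn.ne, zero_sub]
      exact neg_mem (h.coeff_mem n hn)
    · rw [if_pos hn, hn, h.monic.coeff_natDegree, sub_self]
      exact zero_mem _
    · rw [if_neg hn.ne', Polynomial.coeff_eq_zero_of_natDegree_lt hn, sub_self]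
      exact zero_mem _
  have h3 := Ideal.mem_map_of_mem (AdjoinRoot.mk Ψ) h2
  rwa [Ideal.map_map] at h3

/-- every element of `R` is a constant plus a multiple of `θ` -/
theorem exists_eq_of_add_root_mul (r : R) : ∃ (a : O) (r' : R), r = ι a + θ * r' := by
  obtain ⟨g, rfl⟩ := AdjoinRoot.mk_surjective r
  refine ⟨g.coeff 0, AdjoinRoot.mk Ψ g.divX, ?_⟩
  conv_lhs => rw [← Polynomial.divX_mul_X_add g]
  rw [map_add, map_mul, AdjoinRoot.mk_X, AdjoinRoot.mk_C]
  ring

/-- the candidate maximal ideal `𝔪_O R + (θ)` -/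
noncomputable def J (_h : EisensteinFibre q s Ψ) : Ideal R := (maximalIdeal O).map ι ⊔ Ideal.span {θ}

theorem root_mem_J : θ ∈ h.J :=
  Ideal.mem_sup_right (Ideal.mem_span_singleton_self _)

theorem of_mem_J {a : O} (ha : a ∈ maximalIdeal O) : ι a ∈ h.J :=
  Ideal.mem_sup_left (Ideal.mem_map_of_mem _ ha)

theorem instIsIntegral : Algebra.IsIntegral O R := by
  haveI : Module.Finite O R := (AdjoinRoot.powerBasis' h.monic).finite
  exact Algebra.IsIntegral.of_finite O R

/-- every maximal ideal of `R` contains `J` -/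
theorem J_le_of_isMaximal (n : Ideal R) [hn : n.IsMaximal] : h.J ≤ n := by
  haveI := h.instIsIntegral
  have hc : (n.comap (algebraMap O R)).IsMaximal :=
    Ideal.isMaximal_comap_of_isIntegral_of_isMaximal n
  have hc' : n.comap (algebraMap O R) = maximalIdeal O := IsLocalRing.eq_maximalIdeal hc
  have hmap : (maximalIdeal O).map ι ≤ n := by
    rw [Ideal.map_le_iff_le_comap, ← hc', AdjoinRoot.algebraMap_eq]
  refine sup_le hmap ?_
  rw [Ideal.span_singleton_le_iff_mem]
  exact hn.isPrime.mem_of_pow_mem _ (hmap h.pow_root_mem)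

theorem J_ne_top : h.J ≠ ⊤ := by
  haveI : Nontrivial R := by
    refine ⟨⟨ι 0, ι 1, fun h01 => ?_⟩⟩
    exact zero_ne_one (h.of_injective h01)
  obtain ⟨n, hn⟩ := Ideal.exists_maximal R
  intro htop
  have := h.J_le_of_isMaximal n
  rw [htop, top_le_iff] at this
  exact hn.ne_top this

theorem J_isMaximal : h.J.IsMaximal := by
  rw [Ideal.isMaximal_iff]
  refine ⟨fun h1 => h.J_ne_top ((Ideal.eq_top_iff_one _).mpr h1), ?_⟩
  intro I r hJI hrJ hrI
  obtain ⟨a, r', rfl⟩ := h.exists_eq_of_add_root_mul r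
  have hθI : θ * r' ∈ I := hJI (Ideal.mul_mem_right _ _ h.root_mem_J)
  have haI : ι a ∈ I := by
    have := I.sub_mem hrI hθI
    rwa [add_sub_cancel_right] at this
  have ha : IsUnit a := by
    by_contra hnu
    apply hrJ
    exact h.J.add_mem (h.of_mem_J ((IsLocalRing.mem_maximalIdeal a).mpr hnu))
      (Ideal.mul_mem_right _ _ h.root_mem_J)
  have hu : IsUnit (ι a) := ha.map ι
  obtain ⟨b, hb⟩ := hu.exists_left_inv
  rw [← hb]
  exact I.mul_mem_left b haI

/-- `R = O[T]/(Ψ)` is a local ring. -/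
theorem isLocalRing : IsLocalRing R := by
  refine IsLocalRing.of_unique_max_ideal ⟨h.J, h.J_isMaximal, fun n hn => ?_⟩
  haveI := hn
  exact (h.J_isMaximal.eq_of_le hn.ne_top (h.J_le_of_isMaximal n)).symm

theorem maximalIdeal_eq_J :
    haveI := h.isLocalRing
    maximalIdeal R = h.J := by
  haveI := h.isLocalRing
  exact (IsLocalRing.eq_maximalIdeal h.J_isMaximal).symm

/-- `ι (Ψ(0)) = - θ · (Ψ div T)(θ)`. -/
theorem of_coeff_zero_mem : ι (Ψ.coeff 0) ∈ Ideal.span {θ} := by
  have h0 : AdjoinRoot.mk Ψ (Ψ.divX * X + C (Ψ.coeff 0)) = 0 := by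
    rw [Polynomial.divX_mul_X_add, AdjoinRoot.mk_self]
  rw [map_add, map_mul, AdjoinRoot.mk_X, AdjoinRoot.mk_C] at h0
  have h1 : ι (Ψ.coeff 0) = θ * (- AdjoinRoot.mk Ψ Ψ.divX) := by
    rw [eq_neg_of_add_eq_zero_right h0]; ring
  rw [h1]
  exact Ideal.mul_mem_right _ _ (Ideal.mem_span_singleton_self _)

/-- `q` lies in `(s, θ)`. -/
theorem of_q_mem : ι q ∈ Ideal.span {ι s, θ} := by
  obtain ⟨u, hu, hus⟩ := h.const
  obtain ⟨w, hw⟩ := Ideal.mem_span_singleton'.mp hus
  have hθ : Ideal.span {θ} ≤ Ideal.span {ι s, θ} :=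
    Ideal.span_mono (by intro x hx; rw [Set.mem_singleton_iff.mp hx]; simp)
  have hs : ι s ∈ Ideal.span {ι s, θ} := Ideal.subset_span (by simp)
  have h1 : ι q * ι u = ι (Ψ.coeff 0) - ι w * ι s := by
    rw [← map_mul, ← map_mul, ← map_sub, hw]; congr 1; ring
  have h2 : ι q * ι u ∈ Ideal.span {ι s, θ} := by
    rw [h1]
    exact Ideal.sub_mem _ (hθ h.of_coeff_zero_mem) (Ideal.mul_mem_left _ _ hs)
  obtain ⟨v, hv⟩ := (hu.map ι).exists_right_inv
  have : ι q = ι q * ι u * v := by rw [mul_assoc, hv, mul_one]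
  rw [this]
  exact Ideal.mul_mem_right _ _ h2

theorem J_eq_span : h.J = Ideal.span {ι s, θ} := by
  refine le_antisymm ?_ ?_
  · refine sup_le ?_ ?_
    · rw [h.max_eq, Ideal.map_span, Ideal.span_le]
      rintro x ⟨y, hy, rfl⟩
      rcases hy with rfl | hy
      · exact h.of_q_mem
      · rw [Set.mem_singleton_iff.mp hy]
        exact Ideal.subset_span (by simp)
    · exact Ideal.span_mono (by intro x hx; rw [Set.mem_singleton_iff.mp hx]; simp)
  · rw [Ideal.span_le]
    rintro x hx
    rcases hx with rfl | hx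
    · refine h.of_mem_J ?_
      rw [h.max_eq]; exact Ideal.subset_span (by simp)
    · rw [Set.mem_singleton_iff.mp hx]; exact h.root_mem_J

/-- freeness: `(s) R ∩ O = (s)`. -/
theorem mem_span_of_of_mem_span {c : O} (hc : ι c ∈ Ideal.span {ι s}) :
    c ∈ (Ideal.span {s} : Ideal O) := by
  classical
  obtain ⟨r, hr⟩ := Ideal.mem_span_singleton'.mp hc
  set pb := AdjoinRoot.powerBasis' h.monic with hpb
  have hdim : pb.dim = Ψ.natDegree := AdjoinRoot.powerBasis'_dim h.monic
  have hpos : 0 < pb.dim := by rw [hdim]; exact Nat.pos_of_ne_zero h.natDegree_ne_zero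
  let i0 : Fin pb.dim := ⟨0, hpos⟩
  have hb0 : pb.basis i0 = 1 := by
    rw [PowerBasis.coe_basis]; simp [i0]
  have hone : pb.basis.coord i0 (1 : R) = 1 := by
    rw [← hb0, Module.Basis.coord_apply, Module.Basis.repr_self, Finsupp.single_eq_same]
  have h1 : ι c = c • (1 : R) := by
    rw [Algebra.smul_def, AdjoinRoot.algebraMap_eq, mul_one]
  have h2 : r * ι s = s • r := by
    rw [Algebra.smul_def, AdjoinRoot.algebraMap_eq, mul_comm]
  have h3 : pb.basis.coord i0 (ι c) = c := by
    rw [h1, map_smul, hone, smul_eq_mul, mul_one]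
  have h4 : pb.basis.coord i0 (r * ι s) = s * pb.basis.coord i0 r := by
    rw [h2, map_smul, smul_eq_mul]
  rw [Ideal.mem_span_singleton']
  refine ⟨pb.basis.coord i0 r, ?_⟩
  rw [mul_comm, ← h4, hr, h3]

/-- `θ` is not nilpotent modulo `s`. -/
theorem pow_root_notMem (n : ℕ) : θ ^ n ∉ Ideal.span {ι s} := by
  intro hn
  obtain ⟨u, hu, hus⟩ := h.const
  obtain ⟨w, hw⟩ := Ideal.mem_span_singleton'.mp hus
  -- `ι (q u) = θ a + ι s b`
  obtain ⟨a, ha⟩ := Ideal.mem_span_singleton'.mp h.of_coeff_zero_mem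
  have h1 : ι (q * u) = a * θ - ι w * ι s := by
    rw [ha, ← map_mul, ← map_sub, hw]; congr 1; ring
  -- hence `ι ((q u)^n) ∈ (ι s)`
  have h2 : ι (q * u) ^ n ∈ Ideal.span {ι s} := by
    have hmod : Ideal.Quotient.mk (Ideal.span {ι s}) (ι (q * u)) =
        Ideal.Quotient.mk (Ideal.span {ι s}) (a * θ) := by
      rw [Ideal.Quotient.eq, h1, sub_sub_cancel_left]
      exact neg_mem (Ideal.mul_mem_left _ _ (Ideal.mem_span_singleton_self _))
    rw [← Ideal.Quotient.eq_zero_iff_mem, map_pow, hmod, ← map_pow, Ideal.Quotient.eq_zero_iff_mem,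
      mul_pow]
    exact Ideal.mul_mem_left _ _ hn
  rw [← map_pow] at h2
  have h3 := h.mem_span_of_of_mem_span h2
  haveI := h.prime_s
  have h4 : q * u ∈ (Ideal.span {s} : Ideal O) := h.prime_s.mem_of_pow_mem n h3
  rcases h.prime_s.mem_or_mem h4 with h5 | h5
  · exact h.q_notMem h5
  · exact h.prime_s.ne_top (Ideal.eq_top_of_isUnit_mem _ h5 hu)

/-- **LU2.**  `R = O[T]/(Ψ)` with an Eisenstein fibre over `s = 0` is a (local) UFD as soon as it
is a domain; in particular it is integrally closed, i.e. it IS the integral closure of `O` in its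
fraction field, and it has exactly one maximal ideal. -/
theorem uniqueFactorizationMonoid [IsDomain R] :
    haveI := h.isLocalRing
    UniqueFactorizationMonoid R := by
  haveI := h.isLocalRing
  have hsm : ι s ∈ maximalIdeal R := by
    rw [h.maximalIdeal_eq_J, h.J_eq_span]; exact Ideal.subset_span (by simp)
  have hs0 : ι s ≠ 0 := fun h0 => h.s_ne_zero (h.of_injective (by rw [h0, map_zero]))
  -- the quotient `R ⧸ (s)`
  set I : Ideal R := Ideal.span {ι s} with hI
  have hIne : I ≠ ⊤ := fun htop => by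
    have : (1 : R) ∈ maximalIdeal R :=
      (Ideal.span_singleton_le_iff_mem _).mpr hsm (by rw [← hI, htop]; exact Submodule.mem_top)
    exact (IsLocalRing.maximalIdeal.isMaximal R).ne_top ((Ideal.eq_top_iff_one _).mpr this)
  haveI : Nontrivial (R ⧸ I) := Ideal.Quotient.nontrivial_iff.mpr hIne
  haveI : IsLocalRing (R ⧸ I) :=
    IsLocalRing.of_surjective' (Ideal.Quotient.mk I) Ideal.Quotient.mk_surjective
  have hmax : maximalIdeal (R ⧸ I) = Ideal.span {Ideal.Quotient.mk I θ} := by
    have hmap : Ideal.map (Ideal.Quotient.mk I) (maximalIdeal R) = maximalIdeal (R ⧸ I) := by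
      rcases Ideal.map_eq_top_or_isMaximal_of_surjective (Ideal.Quotient.mk I)
        Ideal.Quotient.mk_surjective (IsLocalRing.maximalIdeal.isMaximal R) with h1 | h1
      · exfalso
        have h2 : (1 : R ⧸ I) ∈ Ideal.map (Ideal.Quotient.mk I) (maximalIdeal R) := by
          rw [h1]; exact Submodule.mem_top
        obtain ⟨x, hx, hx1⟩ := (Ideal.mem_map_iff_of_surjective _
          Ideal.Quotient.mk_surjective).mp h2
        have h3 : x - 1 ∈ I := by
          rw [← Ideal.Quotient.eq, hx1, map_one]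
        have h4 : x - 1 ∈ maximalIdeal R := (Ideal.span_singleton_le_iff_mem _).mpr hsm h3
        have h5 : (1 : R) ∈ maximalIdeal R := by
          have := (maximalIdeal R).sub_mem hx h4
          rwa [sub_sub_cancel] at this
        exact (IsLocalRing.maximalIdeal.isMaximal R).ne_top ((Ideal.eq_top_iff_one _).mpr h5)
      · exact IsLocalRing.eq_maximalIdeal h1
    rw [← hmap, h.maximalIdeal_eq_J, h.J_eq_span, Ideal.map_span]
    refine le_antisymm ?_ ?_
    · rw [Ideal.span_le]
      rintro x ⟨y, hy, rfl⟩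
      rcases hy with rfl | hy
      · have : Ideal.Quotient.mk I (ι s) = 0 :=
          Ideal.Quotient.eq_zero_iff_mem.mpr (Ideal.mem_span_singleton_self _)
        rw [this]; exact zero_mem _
      · rw [Set.mem_singleton_iff.mp hy]; exact Ideal.mem_span_singleton_self _
    · rw [Ideal.span_le]
      intro x hx
      rw [Set.mem_singleton_iff.mp hx]
      exact Ideal.subset_span ⟨θ, by simp, rfl⟩
  have hnil : ¬ IsNilpotent (Ideal.Quotient.mk I θ) := by
    rintro ⟨n, hn⟩
    rw [← map_pow, Ideal.Quotient.eq_zero_iff_mem] at hn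
    exact h.pow_root_notMem n hn
  obtain ⟨hdom, hpid⟩ := isDomain_and_isPrincipalIdealRing_of_maximalIdeal_eq_span hmax hnil
  haveI := hdom
  haveI := hpid
  exact CheapFactorial.ufd_of_quotient_pid hsm hs0

theorem isIntegrallyClosed [IsDomain R] : IsIntegrallyClosed R := by
  haveI := h.uniqueFactorizationMonoid
  infer_instance

end EisensteinFibre

/-- **LU2, subring form.**  `O` integrally closed, `b` an integral element of a domain `S ⊇ O` whose
minimal polynomial over `O` has an Eisenstein fibre over `s = 0`.  Then `O[b] ⊆ S` is a local UFD;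
in particular it is integrally closed (= the integral closure of `O` in `Frac O (b)`), with exactly
one maximal ideal. -/
theorem adjoin_isLocalRing_and_ufd [IsIntegrallyClosed O] {S : Type*} [CommRing S] [IsDomain S]
    [Algebra O S] [Module.IsTorsionFree O S] {b : S} (hb : IsIntegral O b) {q s : O}
    (h : EisensteinFibre q s (minpoly O b)) :
    IsLocalRing (Algebra.adjoin O {b}) ∧ UniqueFactorizationMonoid (Algebra.adjoin O {b}) := by
  haveI : IsDomain (AdjoinRoot (minpoly O b)) :=
    AdjoinRoot.isDomain_of_prime (minpoly.prime_of_isIntegrallyClosed hb)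
  haveI := h.isLocalRing
  have hufd := h.uniqueFactorizationMonoid
  let e := minpoly.equivAdjoin hb
  exact ⟨e.toRingEquiv.isLocalRing, e.toRingEquiv.toMulEquiv.uniqueFactorizationMonoid hufd⟩

end LU2

end Fermat.Agent.S36.LocalUFD
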