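/-
S36 (project V), slice V-TripleCore (helper2) = item (N4) of CHAIN v1.1: THE TRIPLE POINTS, abstract
adapter from LU2 (`LocalUFD.EisensteinFibre`) to `LocalGenCore.LocPrincipal`.

* `irreducible_of_eisensteinFibre`, `irreducible_map_of_eisensteinFibre` : the hypotheses of LU2 force `Ψ` to be
  irreducible over `O` and over `Frac O` (Eisenstein modulo `s`), so the CHARACTERISTIC polynomial
  may be used; `minpoly_eq_of_eisensteinFibre`.
* `eisensteinFibre_of_ufd` : the four structural fields of `EisensteinFibre` from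
  "`O` a local UFD, `𝔪_O = (q, s)`, `s ∉ (q)`, `q ∉ (s)`".
* `locPrincipal_of_eisensteinFibre` : `A₀ → A` integral, `A` a noetherian integrally closed domain,
  `𝔪₀` a prime of `A₀`, `O` the localisation of `A₀` at `𝔪₀`, `b ∈ A` a root of `Ψ ∈ O[X]` with an
  Eisenstein fibre, `F = Frac A` generated by `b` over `Frac O`.  Then for the maximal ideal `𝔪` of
  `A` over `𝔪₀`, every conductor prime `Q ≤ 𝔪` is locally principal at `𝔪`
  (`LocalGenCore.LocPrincipal 𝔪`), and `𝔪` is the ONLY prime of `A` over `𝔪₀` among the maximal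
  ones.
-/
import Mathlib
import Fermat.Agent.S36.LocalUFD
import Fermat.Agent.S36.LocalGenCore

set_option autoImplicit false
set_option linter.unusedSectionVars false
set_option linter.unusedVariables false
set_option linter.style.haveILetI false

noncomputable section

namespace Fermat.Agent.S36.TripleCore

open Polynomial IsLocalRing Fermat.Agent.S36.LocalUFD

/-! ### `EisensteinFibre` forces irreducibility -/

section Irreducible

variable {O : Type*} [CommRing O] [IsDomain O] [IsNoetherianRing O] [IsLocalRing O]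
variable {q s : O} {Ψ : O[X]}

/-- **the polynomial of an Eisenstein fibre is irreducible** (Eisenstein modulo `s`) -/
theorem irreducible_of_eisensteinFibre (h : EisensteinFibre q s Ψ) : Irreducible Ψ := by
  haveI := h.prime_s
  set I : Ideal O := Ideal.span {s} with hI
  set mk := Ideal.Quotient.mk I with hmk
  -- the maximal ideal of the quotient
  set P : Ideal (O ⧸ I) := Ideal.span {mk q} with hP
  have hmapmax : (maximalIdeal O).map mk = P := by
    rw [h.max_eq, Ideal.map_span]
    refine le_antisymm ?_ ?_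
    · rw [Ideal.span_le]
      rintro x ⟨y, hy, rfl⟩
      rcases hy with rfl | hy
      · exact Ideal.mem_span_singleton_self _
      · rw [Set.mem_singleton_iff.mp hy]
        have : mk s = 0 := Ideal.Quotient.eq_zero_iff_mem.mpr (Ideal.mem_span_singleton_self _)
        rw [this]
        exact zero_mem _
    · rw [Ideal.span_le]
      intro x hx
      rw [Set.mem_singleton_iff.mp hx]
      exact Ideal.subset_span ⟨q, by simp, rfl⟩
  have hsm : s ∈ maximalIdeal O := by
    rw [h.max_eq]
    exact Ideal.subset_span (by simp)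
  have hIle : I ≤ maximalIdeal O := (Ideal.span_singleton_le_iff_mem _).mpr hsm
  have hPmax : P.IsMaximal := by
    rw [← hmapmax]
    rcases Ideal.map_eq_top_or_isMaximal_of_surjective mk Ideal.Quotient.mk_surjective
      (IsLocalRing.maximalIdeal.isMaximal O) with h1 | h1
    · exfalso
      have h2 : (1 : O ⧸ I) ∈ Ideal.map mk (maximalIdeal O) := by
        rw [h1]
        exact Submodule.mem_top
      obtain ⟨x, hx, hx1⟩ := (Ideal.mem_map_iff_of_surjective _
        Ideal.Quotient.mk_surjective).mp h2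
      have h3 : x - 1 ∈ I := by
        rw [← Ideal.Quotient.eq, hx1, map_one]
      have h5 : (1 : O) ∈ maximalIdeal O := by
        have := (maximalIdeal O).sub_mem hx (hIle h3)
        rwa [sub_sub_cancel] at this
      exact (IsLocalRing.maximalIdeal.isMaximal O).ne_top ((Ideal.eq_top_iff_one _).mpr h5)
    · exact h1
  have hPprime : P.IsPrime := hPmax.isPrime
  have hq0 : mk q ≠ 0 := fun h0 => h.q_notMem (Ideal.Quotient.eq_zero_iff_mem.mp h0)
  have hmonic : (Ψ.map mk).Monic := h.monic.map mk
  have hdeg : (Ψ.map mk).natDegree = Ψ.natDegree := h.monic.natDegree_map mk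
  have hEis : (Ψ.map mk).IsEisensteinAt P := by
    refine ⟨?_, ?_, ?_⟩
    · rw [hmonic.leadingCoeff]
      exact fun h1 => hPprime.ne_top ((Ideal.eq_top_iff_one _).mpr h1)
    · intro n hn
      rw [hdeg] at hn
      rw [coeff_map, ← hmapmax]
      exact Ideal.mem_map_of_mem _ (h.coeff_mem n hn)
    · obtain ⟨u, hu, hconst⟩ := h.const
      have hc0 : (Ψ.map mk).coeff 0 = mk q * mk u := by
        rw [coeff_map, ← map_mul]
        exact (Ideal.Quotient.eq).mpr hconst
      rw [hc0, hP, Ideal.span_singleton_pow, Ideal.mem_span_singleton]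
      rintro ⟨c, hc⟩
      have h1 : mk u = mk q * c := by
        have : mk q * mk u = mk q * (mk q * c) := by rw [hc]; ring
        exact mul_left_cancel₀ hq0 this
      have h2 : mk u ∈ P := by
        rw [h1]
        exact Ideal.mul_mem_right _ _ (Ideal.mem_span_singleton_self _)
      exact hPprime.ne_top (Ideal.eq_top_of_isUnit_mem _ h2 (hu.map mk))
  have hirr : Irreducible (Ψ.map mk) :=
    hEis.irreducible hPprime hmonic.isPrimitive (by
      rw [hdeg]
      exact Nat.pos_of_ne_zero h.natDegree_ne_zero)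
  exact h.monic.irreducible_of_irreducible_map mk Ψ hirr

/-- irreducibility over the fraction field (Gauss) -/
theorem irreducible_map_of_eisensteinFibre [IsIntegrallyClosed O] (h : EisensteinFibre q s Ψ)
    (K : Type*) [Field K] [Algebra O K] [IsFractionRing O K] :
    Irreducible (Ψ.map (algebraMap O K)) :=
  (h.monic.irreducible_iff_irreducible_map_fraction_map (K := K)).1 (irreducible_of_eisensteinFibre h)

/-- the polynomial of an Eisenstein fibre is the minimal polynomial of any of its roots -/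
theorem minpoly_eq_of_eisensteinFibre [IsIntegrallyClosed O] (h : EisensteinFibre q s Ψ)
    {S : Type*} [CommRing S] [IsDomain S] [Algebra O S] [Module.IsTorsionFree O S] {b : S}
    (hb : aeval b Ψ = 0) : minpoly O b = Ψ := by
  have hint : IsIntegral O b := ⟨Ψ, h.monic, hb⟩
  have hdvd : minpoly O b ∣ Ψ := minpoly.isIntegrallyClosed_dvd hint hb
  obtain ⟨c, hc⟩ := hdvd
  have hu : IsUnit c := ((irreducible_of_eisensteinFibre h).isUnit_or_isUnit hc).resolve_left (minpoly.not_isUnit O b)
  have hassoc : Associated (minpoly O b) Ψ := ⟨hu.unit, by rw [IsUnit.unit_spec, ← hc]⟩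
  exact eq_of_monic_of_associated (minpoly.monic hint) h.monic hassoc

/-- **the structural fields of `EisensteinFibre` over a local UFD**: `𝔪 = (q, s)` with
`s ∉ (q)` and `q ∉ (s)` (two-dimensional regular local ring with parameters `q, s`) -/
theorem eisensteinFibre_of_ufd [UniqueFactorizationMonoid O]
    (hmax : maximalIdeal O = Ideal.span {q, s})
    (hs : s ∉ (Ideal.span {q} : Ideal O)) (hq : q ∉ (Ideal.span {s} : Ideal O))
    (hmonic : Ψ.Monic) (hdeg : Ψ.natDegree ≠ 0)
    (hcoeff : ∀ i < Ψ.natDegree, Ψ.coeff i ∈ maximalIdeal O)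
    (hconst : ∃ u : O, IsUnit u ∧ Ψ.coeff 0 - q * u ∈ (Ideal.span {s} : Ideal O)) :
    EisensteinFibre q s Ψ := by
  have hs0 : s ≠ 0 := fun h0 => hs (h0 ▸ zero_mem _)
  have hsm : s ∈ maximalIdeal O := by
    rw [hmax]
    exact Ideal.subset_span (by simp)
  have hirr : Irreducible s := by
    refine ⟨fun hu => (mem_maximalIdeal s).1 hsm hu, fun x y hxy => ?_⟩
    by_contra hcon
    rw [not_or] at hcon
    have hx : x ∈ maximalIdeal O := (mem_maximalIdeal x).2 hcon.1
    have hy : y ∈ maximalIdeal O := (mem_maximalIdeal y).2 hcon.2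
    rw [hmax, Ideal.mem_span_pair] at hx hy
    obtain ⟨α, β, rfl⟩ := hx
    obtain ⟨γ, δ, rfl⟩ := hy
    have hmem : (α * δ + β * γ) * q + β * δ * s ∈ maximalIdeal O := by
      rw [hmax, Ideal.mem_span_pair]
      exact ⟨_, _, rfl⟩
    have hunit : IsUnit (1 - ((α * δ + β * γ) * q + β * δ * s)) := by
      by_contra hnu
      have h1 : 1 - ((α * δ + β * γ) * q + β * δ * s) ∈ maximalIdeal O :=
        (mem_maximalIdeal _).2 hnu
      have h2 : (1 : O) ∈ maximalIdeal O := by
        have := (maximalIdeal O).add_mem h1 hmem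
        rwa [sub_add_cancel] at this
      exact (IsLocalRing.maximalIdeal.isMaximal O).ne_top ((Ideal.eq_top_iff_one _).mpr h2)
    obtain ⟨v, hv⟩ := hunit
    have hkey : s * (1 - ((α * δ + β * γ) * q + β * δ * s)) = α * γ * q * q := by
      have : s = (α * q + β * s) * (γ * q + δ * s) := hxy
      linear_combination this
    apply hs
    rw [Ideal.mem_span_singleton]
    refine ⟨α * γ * q * ↑v⁻¹, ?_⟩
    have : s = α * γ * q * q * ↑v⁻¹ := by
      rw [← hkey, ← hv, mul_assoc, Units.mul_inv, mul_one]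
    rw [this]
    ring
  have hprime : Prime s := UniqueFactorizationMonoid.irreducible_iff_prime.1 hirr
  exact ⟨hmax, (Ideal.span_singleton_prime hs0).2 hprime, hq, hs0, hmonic, hdeg, hcoeff, hconst⟩

end Irreducible

/-! ### the generation hypothesis from a degree count -/

section Gen

variable {O : Type*} [CommRing O] [IsDomain O] [IsNoetherianRing O] [IsLocalRing O]
  [IsIntegrallyClosed O] {K F : Type*} [Field K] [Field F] [Algebra O K] [IsFractionRing O K]
  [Algebra K F] [Algebra O F] [IsScalarTower O K F] [FiniteDimensional K F]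

/-- **`F = K(β)` from the degree**: if `[F : K] = deg Ψ` then every element of `F` is a polynomial
in `β` over `O` divided by a nonzero constant of `O` -/
theorem exists_aeval_eq_of_finrank {q s : O} {Ψ : O[X]} (h : EisensteinFibre q s Ψ) {β : F}
    (hβ : aeval β Ψ = 0) (hdeg : Module.finrank K F = Ψ.natDegree) (y : F) :
    ∃ p : O[X], ∃ d : O, d ≠ 0 ∧ algebraMap O F d * y = aeval β p := by
  have hirr : Irreducible (Ψ.map (algebraMap O K)) := irreducible_map_of_eisensteinFibre h K
  have hroot : aeval β (Ψ.map (algebraMap O K)) = 0 := by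
    rw [aeval_map_algebraMap]
    exact hβ
  have hmin : minpoly K β = Ψ.map (algebraMap O K) :=
    (minpoly.eq_of_irreducible_of_monic hirr hroot (h.monic.map _)).symm
  have htop : IntermediateField.adjoin K ({β} : Set F) = ⊤ := by
    rw [Field.primitive_element_iff_minpoly_natDegree_eq, hmin, h.monic.natDegree_map, hdeg]
  have hy : y ∈ (IntermediateField.adjoin K ({β} : Set F)).toSubalgebra := by
    rw [htop]
    exact Algebra.mem_top
  rw [IntermediateField.adjoin_simple_toSubalgebra_of_isAlgebraic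
    (IsAlgebraic.of_finite K β), Algebra.adjoin_singleton_eq_range_aeval] at hy
  obtain ⟨r, hr⟩ := hy
  obtain ⟨d, hd, hdr⟩ := IsLocalization.integerNormalization_spec (nonZeroDivisors O) r
  refine ⟨IsLocalization.integerNormalization (nonZeroDivisors O) r, d,
    nonZeroDivisors.ne_zero hd, ?_⟩
  rw [← aeval_map_algebraMap K, hdr, ← algebraMap_smul K d r, map_smul, Algebra.smul_def,
    ← IsScalarTower.algebraMap_apply O K F]
  change _ = _ * aeval β r
  rw [← hr]
  rfl

end Gen

/-! ### the main adapter -/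

section Main

open Fermat.Agent.S36.KrullInter Fermat.Agent.S36.LocalGenCore

variable {A₀ A F O : Type*} [CommRing A₀] [CommRing A] [IsDomain A] [Field F] [Algebra A F]
  [IsFractionRing A F] [Algebra A₀ A]
  [CommRing O] [IsDomain O] [IsNoetherianRing O] [IsLocalRing O] [IsIntegrallyClosed O]
  [Algebra A₀ O] (m₀ : Ideal A₀) [m₀.IsPrime] [IsLocalization.AtPrime O m₀]
  [Algebra O F] [Algebra A₀ F] [IsScalarTower A₀ A F] [IsScalarTower A₀ O F]

/-- elements of `F` of the form `ι y / ι₀ t`, `t ∉ 𝔪₀` -/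
def Rep (τ : F) : Prop :=
  ∃ y : A, ∃ t : A₀, t ∉ m₀ ∧ algebraMap A₀ F t * τ = algebraMap A F y

omit [IsLocalization.AtPrime O m₀] [IsScalarTower A₀ O F] [Algebra O F] [Algebra A₀ O] in
theorem rep_algebraMap (y : A) : Rep (A := A) m₀ (algebraMap A F y) :=
  ⟨y, 1, fun h => (‹m₀.IsPrime›).ne_top ((Ideal.eq_top_iff_one _).2 h), by rw [map_one, one_mul]⟩

omit [IsLocalization.AtPrime O m₀] [IsScalarTower A₀ O F] [Algebra O F] [Algebra A₀ O] in
theorem Rep.add {τ₁ τ₂ : F} (h₁ : Rep (A := A) m₀ τ₁) (h₂ : Rep (A := A) m₀ τ₂) :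
    Rep (A := A) m₀ (τ₁ + τ₂) := by
  obtain ⟨y₁, t₁, ht₁, e₁⟩ := h₁
  obtain ⟨y₂, t₂, ht₂, e₂⟩ := h₂
  refine ⟨algebraMap A₀ A t₂ * y₁ + algebraMap A₀ A t₁ * y₂, t₁ * t₂,
    fun h => (‹m₀.IsPrime›.mem_or_mem h).elim ht₁ ht₂, ?_⟩
  rw [map_mul, map_add, map_mul, map_mul, ← e₁, ← e₂,
    ← IsScalarTower.algebraMap_apply A₀ A F, ← IsScalarTower.algebraMap_apply A₀ A F]
  ring

omit [IsLocalization.AtPrime O m₀] [IsScalarTower A₀ O F] [Algebra O F] [Algebra A₀ O] in
theorem Rep.mul {τ₁ τ₂ : F} (h₁ : Rep (A := A) m₀ τ₁) (h₂ : Rep (A := A) m₀ τ₂) :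
    Rep (A := A) m₀ (τ₁ * τ₂) := by
  obtain ⟨y₁, t₁, ht₁, e₁⟩ := h₁
  obtain ⟨y₂, t₂, ht₂, e₂⟩ := h₂
  refine ⟨y₁ * y₂, t₁ * t₂, fun h => (‹m₀.IsPrime›.mem_or_mem h).elim ht₁ ht₂, ?_⟩
  rw [map_mul, map_mul, ← e₁, ← e₂]
  ring

/-- constants of `O` are representable -/
theorem rep_algebraMap_O (c : O) : Rep (A := A) m₀ (algebraMap O F c) := by
  obtain ⟨⟨c₀, t⟩, hct⟩ := IsLocalization.surj m₀.primeCompl c
  refine ⟨algebraMap A₀ A c₀, t, t.2, ?_⟩
  have h1 := congrArg (algebraMap O F) hct
  rw [map_mul, ← IsScalarTower.algebraMap_apply A₀ O F,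
    ← IsScalarTower.algebraMap_apply A₀ O F] at h1
  rw [← IsScalarTower.algebraMap_apply A₀ A F, mul_comm]
  exact h1

/-- every element of `O[β]`, `β` the image of an element of `A`, is representable -/
theorem rep_of_mem_adjoin (b : A) {τ : F}
    (hτ : τ ∈ Algebra.adjoin O ({algebraMap A F b} : Set F)) : Rep (A := A) m₀ τ := by
  induction hτ using Algebra.adjoin_induction with
  | mem x hx =>
    rw [Set.mem_singleton_iff] at hx
    subst hx
    exact rep_algebraMap m₀ b
  | algebraMap c => exact rep_algebraMap_O m₀ c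
  | add x y _ _ hx hy => exact hx.add m₀ hy
  | mul x y _ _ hx hy => exact hx.mul m₀ hy

/-- denominators outside `𝔪₀` are invertible in every `O`-subalgebra of `F` -/
theorem inv_algebraMap_mem (T : Subalgebra O F) {t : A₀} (ht : t ∉ m₀) :
    (algebraMap A₀ F t)⁻¹ ∈ T := by
  have hu : IsUnit (algebraMap A₀ O t) := IsLocalization.map_units O (⟨t, ht⟩ : m₀.primeCompl)
  obtain ⟨v, hv⟩ := hu.exists_right_inv
  have h1 : algebraMap A₀ F t * algebraMap O F v = 1 := by
    rw [IsScalarTower.algebraMap_apply A₀ O F, ← map_mul, hv, map_one]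
  rw [inv_eq_of_mul_eq_one_right h1]
  exact T.algebraMap_mem v

/-- **the local ring at a triple point**: `A₀ → A` integral, `A` noetherian integrally closed,
`b ∈ A` a root of a polynomial `Ψ ∈ O[X]` with an Eisenstein fibre, `O = (A₀)_{𝔪₀}`, `F = Frac A`
generated by `b` over `Frac O`.  Then `T = O[b] ⊆ F` is a local UFD containing `A`, and it is the
localisation of `A` at `A₀ ∖ 𝔪₀`. -/
theorem adjoin_props [IsNoetherianRing A] [IsIntegrallyClosed A] [Algebra.IsIntegral A₀ A]
    (hOinj : Function.Injective (algebraMap O F)) {q s : O} {Ψ : O[X]}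
    (h : EisensteinFibre q s Ψ) (b : A) (hb : aeval (algebraMap A F b) Ψ = 0)
    (hgen : ∀ y : F, ∃ p : O[X], ∃ d : O, d ≠ 0 ∧
      algebraMap O F d * y = aeval (algebraMap A F b) p) :
    IsLocalRing (Algebra.adjoin O ({algebraMap A F b} : Set F)) ∧
      UniqueFactorizationMonoid (Algebra.adjoin O ({algebraMap A F b} : Set F)) ∧
      ∀ x : A, algebraMap A F x ∈ Algebra.adjoin O ({algebraMap A F b} : Set F) := by
  haveI : Module.IsTorsionFree O F := Module.isTorsionFree_iff_algebraMap_injective.2 hOinj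
  set β : F := algebraMap A F b with hβ
  have hβint : IsIntegral O β := ⟨Ψ, h.monic, hb⟩
  have hmin : minpoly O β = Ψ := minpoly_eq_of_eisensteinFibre h hb
  obtain ⟨hloc, hufd⟩ := adjoin_isLocalRing_and_ufd (S := F) hβint (hmin.symm ▸ h)
  refine ⟨hloc, hufd, fun x => ?_⟩
  set T : Subalgebra O F := Algebra.adjoin O ({β} : Set F) with hT
  haveI := hufd
  -- `F` is the fraction field of `T`
  haveI : IsFractionRing T F := by
    refine IsFractionRing.of_field T F fun z => ?_
    obtain ⟨p, d, hd, hpd⟩ := hgen z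
    have hpT : aeval β p ∈ T := by
      rw [hT, Algebra.adjoin_singleton_eq_range_aeval]
      exact ⟨p, rfl⟩
    refine ⟨⟨aeval β p, hpT⟩, ⟨algebraMap O F d, T.algebraMap_mem d⟩, ?_⟩
    have hd0 : algebraMap O F d ≠ 0 := fun h0 => hd (hOinj (by rw [h0, map_zero]))
    change z = aeval β p / algebraMap O F d
    rw [← hpd]
    field_simp
  -- `ι x` is integral over `A₀`, hence over `T`
  have hxint : IsIntegral A₀ (algebraMap A F x) := (Algebra.IsIntegral.isIntegral x).map
    (IsScalarTower.toAlgHom A₀ A F)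
  have hxO : IsIntegral O (algebraMap A F x) := hxint.tower_top
  have hxT : IsIntegral T (algebraMap A F x) := hxO.tower_top
  obtain ⟨y, hy⟩ := (IsIntegrallyClosed.isIntegral_iff (R := T) (K := F)).1 hxT
  rw [← hy]
  exact y.2

/-- **(V12)(iii), abstract**: local principality at the triple point. -/
theorem locPrincipal_of_eisensteinFibre [IsNoetherianRing A] [IsIntegrallyClosed A]
    [Algebra.IsIntegral A₀ A]
    (hOinj : Function.Injective (algebraMap O F)) {q s : O} {Ψ : O[X]}
    (h : EisensteinFibre q s Ψ) (b : A) (hb : aeval (algebraMap A F b) Ψ = 0)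
    (hgen : ∀ y : F, ∃ p : O[X], ∃ d : O, d ≠ 0 ∧
      algebraMap O F d * y = aeval (algebraMap A F b) p)
    (m : Ideal A) [hm : m.IsMaximal] (hmm₀ : m.comap (algebraMap A₀ A) = m₀) :
    LocPrincipal (F := F) m := by
  obtain ⟨hloc, hufd, hAT⟩ := adjoin_props (A₀ := A₀) hOinj h b hb hgen
  set T : Subalgebra O F := Algebra.adjoin O ({algebraMap A F b} : Set F) with hT
  haveI := hloc
  haveI := hufd
  have hιinj : Function.Injective (algebraMap A F) := IsFractionRing.injective A F
  -- the ring hom `A → T`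
  let φ : A →+* T := (algebraMap A F).codRestrict T.toSubring hAT
  have hφ : ∀ x : A, ((φ x : T) : F) = algebraMap A F x := fun x => rfl
  have hφinj : Function.Injective φ := fun x y hxy => hιinj (by
    rw [← hφ x, ← hφ y, hxy])
  letI : Algebra A T := φ.toAlgebra
  have halg : ∀ x : A, algebraMap A T x = φ x := fun x => rfl
  -- elements of `A₀ ∖ 𝔪₀` are not in `𝔪`
  have hnot : ∀ t : A₀, t ∉ m₀ → algebraMap A₀ A t ∉ m := fun t ht htm => ht (by
    rw [← hmm₀]
    exact htm)
  -- `T` is the localisation of `A` at `A₀ ∖ 𝔪₀`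
  set M : Submonoid A := Algebra.algebraMapSubmonoid A m₀.primeCompl with hM
  have hMm : ∀ x ∈ M, x ∉ m := by
    rintro x ⟨t, ht, rfl⟩
    exact hnot t ht
  haveI hlocT : IsLocalization M T := by
    refine ⟨?_, ?_, ?_⟩
    · rintro ⟨x, t, ht, rfl⟩
      have hinv := inv_algebraMap_mem m₀ T ht
      refine IsUnit.of_mul_eq_one (⟨_, hinv⟩ : T) ?_
      apply Subtype.ext
      change algebraMap A F (algebraMap A₀ A t) * (algebraMap A₀ F t)⁻¹ = 1
      rw [← IsScalarTower.algebraMap_apply A₀ A F]
      have ht0 : algebraMap A₀ F t ≠ 0 := by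
        intro h0
        have : algebraMap A₀ A t = 0 := hιinj (by
          rw [← IsScalarTower.algebraMap_apply A₀ A F, h0, map_zero])
        exact hnot t ht (this ▸ m.zero_mem)
      exact mul_inv_cancel₀ ht0
    · intro τ
      obtain ⟨y, t, ht, hyt⟩ := rep_of_mem_adjoin m₀ b τ.2
      refine ⟨⟨y, ⟨algebraMap A₀ A t, ⟨t, ht, rfl⟩⟩⟩, ?_⟩
      apply Subtype.ext
      change (τ : F) * algebraMap A F (algebraMap A₀ A t) = algebraMap A F y
      rw [← IsScalarTower.algebraMap_apply A₀ A F, mul_comm]
      exact hyt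
    · intro x y hxy
      exact ⟨1, by rw [hφinj hxy]⟩
  intro Q z hcond hQm
  haveI hQprime : Q.IsPrime := hcond.prime
  have hdisj : Disjoint (M : Set A) (Q : Set A) := by
    rw [Set.disjoint_left]
    intro x hxM hxQ
    exact hMm x hxM (hQm hxQ)
  -- the extension of `Q` to `T` is a nonzero prime
  set QT : Ideal T := Ideal.map (algebraMap A T) Q with hQT
  have hQTprime : QT.IsPrime := IsLocalization.isPrime_of_isPrime_disjoint M T Q hQprime hdisj
  have hunder : QT.under A = Q := IsLocalization.under_map_of_isPrime_disjoint M T hQprime hdisj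
  have hQTne : QT ≠ ⊥ := by
    intro hbot
    obtain ⟨a, haQ, ha0⟩ := Submodule.exists_mem_ne_zero_of_ne_bot hcond.ne_bot
    have : algebraMap A T a ∈ QT := Ideal.mem_map_of_mem _ haQ
    rw [hbot, Ideal.mem_bot] at this
    exact ha0 (hφinj (by rw [← halg, this, map_zero]))
  -- a prime element of `T` in `QT`
  obtain ⟨ϖ, hϖQ, hϖ⟩ := hQTprime.exists_mem_prime_of_ne_bot hQTne
  -- the contraction of `(ϖ)` is a nonzero prime inside `Q`, hence equals `Q`
  set Pϖ : Ideal T := Ideal.span {ϖ} with hPϖ
  have hPϖprime : Pϖ.IsPrime := (Ideal.span_singleton_prime hϖ.ne_zero).2 hϖ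
  have hPϖle : Pϖ ≤ QT := (Ideal.span_singleton_le_iff_mem _).2 hϖQ
  set P' : Ideal A := Pϖ.under A with hP'
  haveI hP'prime : P'.IsPrime := Ideal.comap_isPrime _ _
  have hP'le : P' ≤ Q := by
    rw [← hunder]
    exact Ideal.comap_mono hPϖle
  have hP'ne : P' ≠ ⊥ := by
    intro hbot
    have h1 : Ideal.map (algebraMap A T) P' = Pϖ := IsLocalization.map_under M T Pϖ
    rw [hbot, Ideal.map_bot] at h1
    exact hϖ.ne_zero ((Ideal.span_singleton_eq_bot).1 h1.symm)
  have hP'Q : P' = Q := (hcond.eq_bot_or_eq_of_le P' hP'le).resolve_left hP'ne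
  have hQTeq : QT = Pϖ := by
    rw [hQT, ← hP'Q]
    exact IsLocalization.map_under M T Pϖ
  -- clear the denominator of `ϖ`
  obtain ⟨⟨g, ⟨tA, htA⟩⟩, hg⟩ := IsLocalization.surj M ϖ
  have hgQ : g ∈ Q := by
    rw [← hunder]
    change algebraMap A T g ∈ QT
    rw [← hg, hQTeq]
    exact Ideal.mul_mem_right _ _ (Ideal.mem_span_singleton_self ϖ)
  refine ⟨g, hgQ, fun a haQ => ?_⟩
  have haT : algebraMap A T a ∈ Pϖ := by
    rw [← hQTeq]
    exact Ideal.mem_map_of_mem _ haQ
  obtain ⟨τ, hτ⟩ := Ideal.mem_span_singleton'.1 haT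
  obtain ⟨⟨y', ⟨t', ht'⟩⟩, hy'⟩ := IsLocalization.surj M τ
  refine ⟨tA * t', fun hmem => (hm.isPrime.mem_or_mem hmem).elim (hMm tA htA) (hMm t' ht'), y', ?_⟩
  apply IsLocalization.injective T (M := M) (fun x hx => by
    rw [mem_nonZeroDivisors_iff_ne_zero]
    rintro rfl
    exact hMm 0 hx m.zero_mem)
  have e1 : algebraMap A T g = ϖ * algebraMap A T tA := hg.symm
  have e2 : algebraMap A T y' = τ * algebraMap A T t' := hy'.symm
  rw [map_mul, map_mul, map_mul, e1, e2, ← hτ]
  ring

/-- **only one closed point over `𝔪₀`**: two maximal ideals of `A` over `𝔪₀` coincide -/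
theorem eq_of_comap_eq [IsNoetherianRing A] [IsIntegrallyClosed A] [Algebra.IsIntegral A₀ A]
    (hOinj : Function.Injective (algebraMap O F)) {q s : O} {Ψ : O[X]}
    (h : EisensteinFibre q s Ψ) (b : A) (hb : aeval (algebraMap A F b) Ψ = 0)
    (hgen : ∀ y : F, ∃ p : O[X], ∃ d : O, d ≠ 0 ∧
      algebraMap O F d * y = aeval (algebraMap A F b) p)
    (m m' : Ideal A) [hm : m.IsMaximal] [hm' : m'.IsMaximal]
    (hmm₀ : m.comap (algebraMap A₀ A) = m₀) (hm'm₀ : m'.comap (algebraMap A₀ A) = m₀) :
    m = m' := by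
  obtain ⟨hloc, hufd, hAT⟩ := adjoin_props (A₀ := A₀) hOinj h b hb hgen
  set T : Subalgebra O F := Algebra.adjoin O ({algebraMap A F b} : Set F) with hT
  haveI := hloc
  let φ : A →+* T := (algebraMap A F).codRestrict T.toSubring hAT
  -- the contraction of the maximal ideal of `T`
  set P : Ideal A := (maximalIdeal T).comap φ with hP
  have hPne : P ≠ ⊤ := by
    intro htop
    have : (1 : A) ∈ P := by rw [htop]; exact Submodule.mem_top
    rw [hP, Ideal.mem_comap, map_one] at this
    exact (IsLocalRing.maximalIdeal.isMaximal T).ne_top ((Ideal.eq_top_iff_one _).2 this)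
  have key : ∀ (n : Ideal A) [n.IsMaximal], n.comap (algebraMap A₀ A) = m₀ → n = P := by
    intro n hn hnm₀
    refine hn.eq_of_le hPne fun x hx => ?_
    rw [hP, Ideal.mem_comap, mem_maximalIdeal]
    intro hu
    -- `ι x` a unit of `T`: its inverse is representable
    obtain ⟨v, hv⟩ := hu.exists_right_inv
    obtain ⟨y, t, ht, hyt⟩ := rep_of_mem_adjoin m₀ b v.2
    have h1 : algebraMap A F x * (v : F) = 1 := by
      have := congrArg (fun w : T => (w : F)) hv
      exact this
    have h2 : algebraMap A F (algebraMap A₀ A t) = algebraMap A F (x * y) := by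
      rw [map_mul, ← hyt, ← IsScalarTower.algebraMap_apply A₀ A F]
      calc algebraMap A₀ F t = algebraMap A₀ F t * (algebraMap A F x * (v : F)) := by
            rw [h1, mul_one]
        _ = algebraMap A F x * (algebraMap A₀ F t * (v : F)) := by ring
    have h3 : algebraMap A₀ A t = x * y := IsFractionRing.injective A F h2
    apply ht
    rw [← hnm₀, Ideal.mem_comap, h3]
    exact n.mul_mem_right _ hx
  rw [key m hmm₀, key m' hm'm₀]

end Main

/-! ### the concrete localisation `O = Localization.AtPrime 𝔪₀` inside `F` -/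

section Concrete

variable {A₀ F : Type*} [CommRing A₀] [IsDomain A₀] [Field F] [Algebra A₀ F] (m₀ : Ideal A₀)
  [m₀.IsPrime] (hinj : Function.Injective (algebraMap A₀ F))

include hinj in
theorem isUnit_algebraMap_of_not_mem (y : m₀.primeCompl) : IsUnit (algebraMap A₀ F (y : A₀)) :=
  IsUnit.mk0 _ ((map_ne_zero_iff _ hinj).2 fun h0 => y.2 (h0 ▸ m₀.zero_mem))

/-- the structure map `Localization.AtPrime 𝔪₀ → F` -/
def locHom : Localization.AtPrime m₀ →+* F :=
  IsLocalization.lift (M := m₀.primeCompl) (S := Localization.AtPrime m₀)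
    (g := algebraMap A₀ F) (isUnit_algebraMap_of_not_mem m₀ hinj)

/-- `F` as an algebra over `Localization.AtPrime 𝔪₀` -/
@[instance_reducible]
def locAlgebra : Algebra (Localization.AtPrime m₀) F := (locHom m₀ hinj).toAlgebra

theorem locAlgebra_isScalarTower :
    letI := locAlgebra m₀ hinj
    IsScalarTower A₀ (Localization.AtPrime m₀) F := by
  letI := locAlgebra m₀ hinj
  refine IsScalarTower.of_algebraMap_eq fun x => ?_
  change algebraMap A₀ F x = locHom m₀ hinj (algebraMap A₀ (Localization.AtPrime m₀) x)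
  rw [locHom, IsLocalization.lift_eq]

theorem locAlgebra_injective :
    letI := locAlgebra m₀ hinj
    Function.Injective (algebraMap (Localization.AtPrime m₀) F) := by
  letI := locAlgebra m₀ hinj
  change Function.Injective (locHom m₀ hinj)
  rw [locHom, IsLocalization.lift_injective_iff]
  intro x y
  constructor
  · intro h
    have hloc : Function.Injective (algebraMap A₀ (Localization.AtPrime m₀)) :=
      IsLocalization.injective _ m₀.primeCompl_le_nonZeroDivisors
    rw [hloc h]
  · intro h
    rw [hinj h]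

/-- the localisation of an integrally closed domain at a prime is integrally closed -/
theorem isIntegrallyClosed_localization_atPrime [IsIntegrallyClosed A₀] :
    IsIntegrallyClosed (Localization.AtPrime m₀) :=
  isIntegrallyClosed_of_isLocalization (Localization.AtPrime m₀) m₀.primeCompl
    m₀.primeCompl_le_nonZeroDivisors

open Fermat.Agent.S36.LocalGenCore in
/-- **(V12)(iii), abstract, for the concrete localisation** `O = Localization.AtPrime 𝔪₀`, with
`F` an algebra over it through `locAlgebra` -/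
theorem locPrincipal_of_eisensteinFibre_atPrime [IsNoetherianRing A₀] [IsIntegrallyClosed A₀]
    {A : Type*} [CommRing A] [IsDomain A] [IsNoetherianRing A] [IsIntegrallyClosed A]
    [Algebra A F] [IsFractionRing A F] [Algebra A₀ A] [IsScalarTower A₀ A F]
    [Algebra.IsIntegral A₀ A]
    {q s : Localization.AtPrime m₀} {Ψ : (Localization.AtPrime m₀)[X]}
    (h : EisensteinFibre q s Ψ) (b : A)
    (hb : (Ψ.map (locHom m₀ hinj)).eval (algebraMap A F b) = 0)
    (hgen : ∀ y : F, ∃ p : (Localization.AtPrime m₀)[X], ∃ d : Localization.AtPrime m₀, d ≠ 0 ∧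
      locHom m₀ hinj d * y = (p.map (locHom m₀ hinj)).eval (algebraMap A F b))
    (m : Ideal A) [m.IsMaximal] (hmm₀ : m.comap (algebraMap A₀ A) = m₀) :
    LocPrincipal (F := F) m := by
  letI := locAlgebra m₀ hinj
  haveI := locAlgebra_isScalarTower m₀ hinj
  haveI := isIntegrallyClosed_localization_atPrime m₀
  refine locPrincipal_of_eisensteinFibre m₀ (locAlgebra_injective m₀ hinj) h b ?_ ?_ m hmm₀
  · rw [aeval_def, eval₂_eq_eval_map]
    exact hb
  · intro y
    obtain ⟨p, d, hd, hpd⟩ := hgen y
    refine ⟨p, d, hd, ?_⟩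
    rw [aeval_def, eval₂_eq_eval_map]
    exact hpd

end Concrete

end Fermat.Agent.S36.TripleCore
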