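/-
PROJECT V (S36), chain (V12)(iii), slice V-TripleFibre (helper4): **the Eisenstein fibre at a triple
point from reduction data** (abstract adapter, ring language; output = the hypothesis
`LocalUFD.EisensteinFibre q s Ψ` of helper2's `LocalUFD` (LU2) / `TripleCore`).

`O` a noetherian local domain (the local ring of the level-`N0` model at the closed point `e0(b)`),
`ρ : O ↠ D` a surjection onto a domain with `ker ρ = (q)` (the reduction map onto the local ring
`D` of the special fibre at `b`), `s ∈ O` such that the non-units of `D` are exactly the multiples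
of `ρ s` (`ρ s` is a local parameter at `b`).

* (TF1) `maximalIdeal_eq_span_pair` : `𝔪_O = (q, s)`; `isPrime_span_singleton` : `(s)` is prime
  (`O/(s)` is a noetherian local ring whose maximal ideal is generated by the non-nilpotent `q`:
  `LocalUFD` (E1)); `pow_notMem_span` : `q^n ∉ (s)`; `isUnit_of_isUnit_map` : `ρ` detects units.
* (TF2) `eisensteinFibre_of_eval` : `P ∈ O[X]` monic of degree `d ≠ 0`, `x0 ∈ O` with
  `P ≡ (X - x0)^d` modulo `𝔪_O` (coefficientwise) and `P(x0) = q u`, `u` a unit: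
  `Ψ := P(X + x0)` is an Eisenstein fibre.  `eisensteinFibre_of_map` : the same with the
  congruence read through any ring homomorphism `χ` whose kernel lies in `𝔪_O`
  (`P.map χ = (X - χ x0)^d`).
* `eisensteinFibre_of_red` : everything from `ρ`: `P.map ρ ≡ (X - c)^d` and `ρ x0 ≡ c` modulo `ρ s`,
  `P(x0) = q r` with `ρ r` a unit of `D`.
* `aeval_sub_comp` : a root `b'` of `P` gives the root `b' - x0` of `Ψ`.

At `X₀`: `O = (A0)_{m0}` (level-`N0` chart at the point `b ∈ S`), `D = (Bfin)_b ⊆ κ`, `ρ = red0`,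
`s = a - ã` (`ā - c` a local parameter at `b`), `x0 = a`, `P` = characteristic polynomial of
`a2(a)` over `a0(F_0)` (helper22 `CharpolyRed`: `P.map red = TripleEval.redPoly ā`, congruent to
`(X - c)^(q²+q)` at `b` by `TripleEval.coeff_redPoly_sub_lt_one`), `P(a) = q R_a` with `R̄_a` a unit at
`b` by the count (`NormDiagRed.exists_diagI_kappa` + `TripleEval.ord_cofactor` + `ν_b = -2`).
-/
import Mathlib
import Fermat.Agent.S36.LocalUFD

set_option autoImplicit false
set_option linter.unusedSectionVars false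
set_option linter.style.haveILetI false

namespace Fermat.Agent.S36.TripleFibre

open Polynomial IsLocalRing

variable {O : Type*} [CommRing O] [IsDomain O] [IsNoetherianRing O] [IsLocalRing O]

/-- `a a' ≡ 1` modulo the maximal ideal makes `a` a unit. -/
theorem isUnit_of_mul_sub_one_mem {a a' : O} (h : a * a' - 1 ∈ maximalIdeal O) : IsUnit a := by
  have h3 : IsUnit (a * a') := by
    by_contra hcon
    have h4 : a * a' ∈ maximalIdeal O := (mem_maximalIdeal _).mpr hcon
    have h5 : (1 : O) ∈ maximalIdeal O := by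
      have := Ideal.sub_mem _ h4 h
      rwa [sub_sub_cancel] at this
    exact (maximalIdeal.isMaximal O).ne_top ((Ideal.eq_top_iff_one _).mpr h5)
  exact isUnit_of_mul_isUnit_left h3

/-! ### (TF1) the local structure from the reduction map -/

section TF1

variable {D : Type*} [CommRing D] [IsDomain D]
  (ρ : O →+* D) (hρ : Function.Surjective ρ) {q s : O}
  (hker : RingHom.ker ρ = Ideal.span {q})

include hρ hker

theorem map_q_eq_zero : ρ q = 0 := by
  have : q ∈ RingHom.ker ρ := by rw [hker]; exact Ideal.mem_span_singleton_self q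
  exact this

theorem not_isUnit_q : ¬ IsUnit q := by
  intro h
  have h1 : ρ q = 0 := map_q_eq_zero ρ hρ hker
  have h2 : IsUnit (ρ q) := h.map ρ
  rw [h1] at h2
  exact not_isUnit_zero h2

/-- `ρ` detects units. -/
theorem isUnit_of_isUnit_map {a : O} (ha : IsUnit (ρ a)) : IsUnit a := by
  obtain ⟨d, hd⟩ := ha.exists_right_inv
  obtain ⟨a', rfl⟩ := hρ d
  have h1 : a * a' - 1 ∈ RingHom.ker ρ := by
    rw [RingHom.mem_ker, map_sub, map_mul, hd, map_one, sub_self]
  rw [hker] at h1
  obtain ⟨w, hw⟩ := Ideal.mem_span_singleton'.mp h1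
  apply isUnit_of_mul_sub_one_mem (a' := a')
  rw [← hw]
  exact Ideal.mul_mem_left _ _ ((mem_maximalIdeal q).mpr (not_isUnit_q ρ hρ hker))

/-- An element whose reduction is a multiple of `ρ s` lies in `(q, s)`. -/
theorem mem_span_pair_of_dvd_map {a : O} (h : ρ s ∣ ρ a) : a ∈ Ideal.span {q, s} := by
  obtain ⟨d, hd⟩ := h
  obtain ⟨w, rfl⟩ := hρ d
  have h1 : a - s * w ∈ RingHom.ker ρ := by
    rw [RingHom.mem_ker, map_sub, map_mul, hd, sub_self]
  rw [hker] at h1
  obtain ⟨z, hz⟩ := Ideal.mem_span_singleton'.mp h1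
  rw [Ideal.mem_span_pair]
  exact ⟨z, w, by rw [hz]; ring⟩

theorem span_pair_le_maximalIdeal (hsu : ¬ IsUnit (ρ s)) :
    Ideal.span {q, s} ≤ maximalIdeal O := by
  rw [Ideal.span_le]
  rintro x (rfl | rfl)
  · exact (mem_maximalIdeal _).mpr (not_isUnit_q ρ hρ hker)
  · exact (mem_maximalIdeal _).mpr (fun h => hsu (h.map ρ))

/-- An element whose reduction is a multiple of `ρ s` lies in the maximal ideal. -/
theorem mem_maximalIdeal_of_dvd_map (hsu : ¬ IsUnit (ρ s)) {a : O} (h : ρ s ∣ ρ a) :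
    a ∈ maximalIdeal O :=
  span_pair_le_maximalIdeal ρ hρ hker hsu (mem_span_pair_of_dvd_map ρ hρ hker h)

/-- **(TF1a)** `𝔪_O = (q, s)`. -/
theorem maximalIdeal_eq_span_pair (hsu : ¬ IsUnit (ρ s))
    (hD : ∀ d : D, ¬ IsUnit d → ρ s ∣ d) : maximalIdeal O = Ideal.span {q, s} := by
  apply le_antisymm
  · intro a ha
    have hau : ¬ IsUnit (ρ a) := fun h =>
      (mem_maximalIdeal a).mp ha (isUnit_of_isUnit_map ρ hρ hker h)
    exact mem_span_pair_of_dvd_map ρ hρ hker (hD _ hau)
  · exact span_pair_le_maximalIdeal ρ hρ hker hsu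

/-- **(TF1b)** no power of `q` is a multiple of `s`. -/
theorem pow_notMem_span (hq0 : q ≠ 0) (hs0 : ρ s ≠ 0) (hsu : ¬ IsUnit (ρ s)) (n : ℕ) :
    q ^ n ∉ (Ideal.span {s} : Ideal O) := by
  induction n with
  | zero =>
    intro h
    rw [pow_zero, ← Ideal.eq_top_iff_one, Ideal.span_singleton_eq_top] at h
    exact hsu (h.map ρ)
  | succ n ih =>
    intro h
    obtain ⟨w, hw⟩ := Ideal.mem_span_singleton'.mp h
    have h1 : ρ w * ρ s = 0 := by
      rw [← map_mul, hw, pow_succ, map_mul, map_q_eq_zero ρ hρ hker, mul_zero]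
    have hw0 : w ∈ RingHom.ker ρ := (mul_eq_zero.mp h1).resolve_right hs0
    rw [hker] at hw0
    obtain ⟨z, rfl⟩ := Ideal.mem_span_singleton'.mp hw0
    apply ih
    have h2 : (z * s) * q = q ^ n * q := by rw [← pow_succ, ← hw]; ring
    exact Ideal.mem_span_singleton'.mpr ⟨z, mul_right_cancel₀ hq0 h2⟩

theorem q_notMem_span (hq0 : q ≠ 0) (hs0 : ρ s ≠ 0) (hsu : ¬ IsUnit (ρ s)) :
    q ∉ (Ideal.span {s} : Ideal O) := by
  have := pow_notMem_span ρ hρ hker hq0 hs0 hsu 1
  rwa [pow_one] at this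

theorem s_ne_zero (hs0 : ρ s ≠ 0) : s ≠ 0 := by
  rintro rfl
  exact hs0 (map_zero ρ)

/-- **(TF1c)** `(s)` is a prime ideal: `O/(s)` is a noetherian local ring with maximal ideal generated
by the non-nilpotent class of `q`. -/
theorem isPrime_span_singleton (hq0 : q ≠ 0) (hs0 : ρ s ≠ 0) (hsu : ¬ IsUnit (ρ s))
    (hD : ∀ d : D, ¬ IsUnit d → ρ s ∣ d) : (Ideal.span {s} : Ideal O).IsPrime := by
  set I : Ideal O := Ideal.span {s} with hIdef
  have hsO : ¬ IsUnit s := fun h => hsu (h.map ρ)
  have hI : I ≠ ⊤ := by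
    rw [Ne, hIdef, Ideal.span_singleton_eq_top]; exact hsO
  have hIle : I ≤ maximalIdeal O := IsLocalRing.le_maximalIdeal hI
  haveI : Nontrivial (O ⧸ I) := Ideal.Quotient.nontrivial_iff.mpr hI
  haveI : IsLocalRing (O ⧸ I) :=
    IsLocalRing.of_surjective' (Ideal.Quotient.mk I) Ideal.Quotient.mk_surjective
  have hloc : ∀ a : O, IsUnit (Ideal.Quotient.mk I a) → IsUnit a := by
    intro a ha
    obtain ⟨y, hy⟩ := ha.exists_right_inv
    obtain ⟨a', rfl⟩ := Ideal.Quotient.mk_surjective y
    have h1 : a * a' - 1 ∈ I := by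
      rw [← Ideal.Quotient.eq_zero_iff_mem, map_sub, map_mul, hy, map_one, sub_self]
    exact isUnit_of_mul_sub_one_mem (hIle h1)
  have hm := maximalIdeal_eq_span_pair ρ hρ hker hsu hD
  have hmax : maximalIdeal (O ⧸ I) = Ideal.span {Ideal.Quotient.mk I q} := by
    apply le_antisymm
    · intro x hx
      obtain ⟨a, rfl⟩ := Ideal.Quotient.mk_surjective x
      have ha : a ∈ maximalIdeal O := by
        rw [mem_maximalIdeal]
        intro hau
        exact (mem_maximalIdeal _).mp hx (hau.map _)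
      rw [hm, Ideal.mem_span_pair] at ha
      obtain ⟨z, w, rfl⟩ := ha
      rw [Ideal.mem_span_singleton']
      refine ⟨Ideal.Quotient.mk I z, ?_⟩
      have hs : Ideal.Quotient.mk I s = 0 :=
        Ideal.Quotient.eq_zero_iff_mem.mpr (Ideal.mem_span_singleton_self s)
      rw [map_add, map_mul, map_mul, hs, mul_zero, add_zero]
    · rw [Ideal.span_le]
      rintro x rfl
      show Ideal.Quotient.mk I q ∈ maximalIdeal (O ⧸ I)
      rw [mem_maximalIdeal]
      intro h
      exact not_isUnit_q ρ hρ hker (hloc q h)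
  have hnil : ¬ IsNilpotent (Ideal.Quotient.mk I q) := by
    rintro ⟨n, hn⟩
    rw [← map_pow, Ideal.Quotient.eq_zero_iff_mem] at hn
    exact pow_notMem_span ρ hρ hker hq0 hs0 hsu n hn
  obtain ⟨hdom, -⟩ :=
    LocalUFD.isDomain_and_isPrincipalIdealRing_of_maximalIdeal_eq_span hmax hnil
  exact (Ideal.Quotient.isDomain_iff_prime I).mp hdom

end TF1

/-! ### (TF2) the Eisenstein fibre -/

section TF2

/-- A root `b'` of `P` gives the root `b' - x0` of `P(X + x0)`. -/
theorem aeval_sub_comp {S : Type*} [CommRing S] [Algebra O S] (P : O[X]) (x0 : O) {b' : S}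
    (h : aeval b' P = 0) : aeval (b' - algebraMap O S x0) (P.comp (X + C x0)) = 0 := by
  rw [aeval_comp, map_add, aeval_X, aeval_C, sub_add_cancel, h]

/-- **(TF2)** the shifted polynomial is an Eisenstein fibre. -/
theorem eisensteinFibre_of_eval {q s : O} (hmax : maximalIdeal O = Ideal.span {q, s})
    (hprime : (Ideal.span {s} : Ideal O).IsPrime) (hq : q ∉ (Ideal.span {s} : Ideal O))
    (hs0 : s ≠ 0) {P : O[X]} (hP : P.Monic) (hd : P.natDegree ≠ 0) (x0 : O)
    (hred : ∀ i, P.coeff i - ((X - C x0) ^ P.natDegree).coeff i ∈ maximalIdeal O)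
    {u : O} (hu : IsUnit u) (heval : P.eval x0 = q * u) :
    LocalUFD.EisensteinFibre q s (P.comp (X + C x0)) := by
  have hdeg : (P.comp (X + C x0)).natDegree = P.natDegree := by
    rw [natDegree_comp, natDegree_X_add_C, mul_one]
  refine ⟨hmax, hprime, hq, hs0, hP.comp_X_add_C x0, by rw [hdeg]; exact hd, ?_, ⟨u, hu, ?_⟩⟩
  · intro i hi
    rw [hdeg] at hi
    set mk := Ideal.Quotient.mk (maximalIdeal O) with hmk
    have h1 : P.map mk = ((X - C x0) ^ P.natDegree).map mk := by
      ext j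
      rw [coeff_map, coeff_map]
      exact Ideal.Quotient.eq.mpr (hred j)
    have h2 : (P.comp (X + C x0)).map mk = X ^ P.natDegree := by
      rw [map_comp, h1, Polynomial.map_pow, Polynomial.map_sub, map_X, map_C, Polynomial.map_add,
        map_X, map_C, pow_comp, sub_comp, X_comp, C_comp, add_sub_cancel_right]
    have h3 : mk ((P.comp (X + C x0)).coeff i) = 0 := by
      rw [← coeff_map, h2, coeff_X_pow, if_neg hi.ne]
    exact Ideal.Quotient.eq_zero_iff_mem.mp h3
  · rw [coeff_zero_eq_eval_zero, eval_comp, eval_add, eval_X, eval_C, zero_add, heval, sub_self]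
    exact zero_mem _

/-- **(TF2')** the congruence read through a ring homomorphism with kernel in `𝔪_O`. -/
theorem eisensteinFibre_of_map {q s : O} (hmax : maximalIdeal O = Ideal.span {q, s})
    (hprime : (Ideal.span {s} : Ideal O).IsPrime) (hq : q ∉ (Ideal.span {s} : Ideal O))
    (hs0 : s ≠ 0) {k' : Type*} [CommRing k'] (χ : O →+* k')
    (hχ : ∀ a : O, χ a = 0 → a ∈ maximalIdeal O)
    {P : O[X]} (hP : P.Monic) (hd : P.natDegree ≠ 0) (x0 : O)
    (hred : P.map χ = (X - C (χ x0)) ^ P.natDegree)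
    {u : O} (hu : IsUnit u) (heval : P.eval x0 = q * u) :
    LocalUFD.EisensteinFibre q s (P.comp (X + C x0)) := by
  refine eisensteinFibre_of_eval hmax hprime hq hs0 hP hd x0 (fun i => hχ _ ?_) hu heval
  rw [map_sub, ← coeff_map, ← coeff_map, hred, Polynomial.map_pow, Polynomial.map_sub, map_X,
    map_C, sub_self]

end TF2

/-! ### everything from the reduction map -/

section Main

variable {D : Type*} [CommRing D] [IsDomain D]

/-- **The Eisenstein fibre from reduction data.** -/
theorem eisensteinFibre_of_red (ρ : O →+* D) (hρ : Function.Surjective ρ) {q s : O}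
    (hker : RingHom.ker ρ = Ideal.span {q}) (hq0 : q ≠ 0) (hs0 : ρ s ≠ 0)
    (hsu : ¬ IsUnit (ρ s)) (hD : ∀ d : D, ¬ IsUnit d → ρ s ∣ d)
    {P : O[X]} (hP : P.Monic) (hd : P.natDegree ≠ 0) (x0 : O) (c : D)
    (hc : ρ s ∣ ρ x0 - c)
    (hred : ∀ i, ρ s ∣ ρ (P.coeff i) - ((X - C c) ^ P.natDegree).coeff i)
    {r : O} (hr : IsUnit (ρ r)) (heval : P.eval x0 = q * r) :
    LocalUFD.EisensteinFibre q s (P.comp (X + C x0)) := by
  set J : Ideal D := Ideal.span {ρ s} with hJ
  set χ : O →+* D ⧸ J := (Ideal.Quotient.mk J).comp ρ with hχdef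
  have hχ : ∀ a : O, χ a = 0 → a ∈ maximalIdeal O := by
    intro a ha
    have h1 : ρ a ∈ J := Ideal.Quotient.eq_zero_iff_mem.mp ha
    exact mem_maximalIdeal_of_dvd_map ρ hρ hker hsu (Ideal.mem_span_singleton.mp h1)
  have hcx : χ x0 = Ideal.Quotient.mk J c :=
    Ideal.Quotient.eq.mpr (Ideal.mem_span_singleton.mpr hc)
  have hred' : P.map χ = (X - C (χ x0)) ^ P.natDegree := by
    ext i
    rw [hcx, coeff_map]
    have h1 : (X - C (Ideal.Quotient.mk J c)) ^ P.natDegree =
        ((X - C c) ^ P.natDegree).map (Ideal.Quotient.mk J) := by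
      rw [Polynomial.map_pow, Polynomial.map_sub, map_X, map_C]
    rw [h1, coeff_map]
    exact Ideal.Quotient.eq.mpr (Ideal.mem_span_singleton.mpr (hred i))
  exact eisensteinFibre_of_map (maximalIdeal_eq_span_pair ρ hρ hker hsu hD)
    (isPrime_span_singleton ρ hρ hker hq0 hs0 hsu hD) (q_notMem_span ρ hρ hker hq0 hs0 hsu)
    (s_ne_zero ρ hρ hker hs0) χ hχ hP hd x0 hred' (isUnit_of_isUnit_map ρ hρ hker hr) heval

end Main

end Fermat.Agent.S36.TripleFibre
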