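/-
PROJECT V (S36), chain (V12)(iii), slice V-TripleLocal (helper4): **from the chart ring to its local
ring at a closed point of the special fibre** (abstract, ring language).

`A0` the chart ring (level `N0`), `Ob` a discrete valuation subring of `κ` (the place `b` of the
special fibre), `ρ0 : A0 → Ob` the reduction map, `m0 = ρ0⁻¹(𝔪_b)` the closed point, `O` ANY
localisation of `A0` at `m0` (`[IsLocalization.AtPrime O m0]`; e.g. `Localization.AtPrime m0`).

* `locRed : O →+* Ob` the localised reduction; `locRed_algebraMap`;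
* `locRed_surjective` : onto `Ob` as soon as every element of `Ob` is a fraction `ρ0 a / ρ0 t`,
  `t ∉ m0` (`Ob` is the localisation of `ρ0(A0)` at `b`: chain (V8) at level `N0`);
* `ker_locRed` : `ker = (q)` when `ker ρ0 = (q)` (chain (V7) at level `N0`);
* `eisensteinFibre_localization` : for `s, x0, r ∈ A0`, `P ∈ A0[X]` monic with `ρ0 s` a uniformiser of
  `Ob`, `ρ0 x0 ≡ c`, `ρ0 P ≡ (X - c)^d` modulo `ρ0 s`, `P(x0) = q r`, `ρ0 r` a unit of `Ob`:
  `LocalUFD.EisensteinFibre q s (P(X + x0))` over `O` (`TripleFibre.eisensteinFibre_of_red`).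
-/
import Mathlib
import Fermat.Agent.S36.TripleFibre

set_option autoImplicit false
set_option linter.unusedSectionVars false
set_option linter.style.haveILetI false

namespace Fermat.Agent.S36.TripleLocal

open Polynomial IsLocalRing

variable {A0 : Type*} [CommRing A0] {κ : Type*} [Field κ] (Ob : ValuationSubring κ)
  (ρ0 : A0 →+* Ob) (m0 : Ideal A0) [hm0p : m0.IsPrime]
  (hm0 : ∀ a : A0, a ∈ m0 ↔ ρ0 a ∈ maximalIdeal Ob)
  (O : Type*) [CommRing O] [Algebra A0 O] [IsLocalization.AtPrime O m0]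

include hm0

theorem isUnit_map_of_not_mem (t : m0.primeCompl) : IsUnit (ρ0 (t : A0)) := by
  by_contra h
  exact t.2 ((hm0 _).mpr ((mem_maximalIdeal _).mpr h))

/-- the localised reduction map `O → O_b` -/
noncomputable def locRed : O →+* Ob :=
  IsLocalization.lift (M := m0.primeCompl) (S := O) (g := ρ0) (isUnit_map_of_not_mem Ob ρ0 m0 hm0)

theorem locRed_algebraMap (a : A0) : locRed Ob ρ0 m0 hm0 O (algebraMap A0 O a) = ρ0 a :=
  IsLocalization.lift_eq _ a

theorem locRed_mk' (a : A0) (t : m0.primeCompl) (d : Ob) :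
    locRed Ob ρ0 m0 hm0 O (IsLocalization.mk' O a t) = d ↔ ρ0 a = ρ0 (t : A0) * d :=
  IsLocalization.lift_mk'_spec _ _ _ _

theorem locRed_surjective (hloc : ∀ d : Ob, ∃ a t : A0, t ∉ m0 ∧ ρ0 t * d = ρ0 a) :
    Function.Surjective (locRed Ob ρ0 m0 hm0 O) := by
  intro d
  obtain ⟨a, t, ht, h⟩ := hloc d
  exact ⟨IsLocalization.mk' O a (⟨t, ht⟩ : m0.primeCompl),
    (locRed_mk' Ob ρ0 m0 hm0 O a ⟨t, ht⟩ d).mpr h.symm⟩

theorem ker_locRed {q0 : A0} (hker : RingHom.ker ρ0 = Ideal.span {q0}) :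
    RingHom.ker (locRed Ob ρ0 m0 hm0 O) = Ideal.span {algebraMap A0 O q0} := by
  have hq : ρ0 q0 = 0 := by
    have : q0 ∈ RingHom.ker ρ0 := by rw [hker]; exact Ideal.mem_span_singleton_self q0
    exact this
  ext x
  constructor
  · intro hx
    obtain ⟨⟨a, t⟩, rfl⟩ := IsLocalization.mk'_surjective m0.primeCompl x
    have h1 : ρ0 a = 0 := by
      have := (locRed_mk' Ob ρ0 m0 hm0 O a t 0).mp hx
      rwa [mul_zero] at this
    have h2 : a ∈ RingHom.ker ρ0 := h1
    rw [hker] at h2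
    obtain ⟨w, rfl⟩ := Ideal.mem_span_singleton'.mp h2
    rw [Ideal.mem_span_singleton']
    refine ⟨IsLocalization.mk' O w t, ?_⟩
    rw [mul_comm, IsLocalization.mul_mk'_eq_mk'_of_mul, mul_comm]
  · intro hx
    obtain ⟨w, rfl⟩ := Ideal.mem_span_singleton'.mp hx
    rw [RingHom.mem_ker, map_mul, locRed_algebraMap, hq, mul_zero]

/-- **The Eisenstein fibre over the local ring of the chart at the closed point.** -/
theorem eisensteinFibre_localization [IsDomain O] [IsNoetherianRing O] [IsLocalRing O]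
    [IsDiscreteValuationRing Ob]
    (hloc : ∀ d : Ob, ∃ a t : A0, t ∉ m0 ∧ ρ0 t * d = ρ0 a)
    {q0 : A0} (hker : RingHom.ker ρ0 = Ideal.span {q0}) (hq0 : algebraMap A0 O q0 ≠ 0)
    {s : A0} (hs : Irreducible (ρ0 s))
    {P : A0[X]} (hP : P.Monic) (hd : P.natDegree ≠ 0) (x0 : A0) (c : Ob)
    (hc : ρ0 s ∣ ρ0 x0 - c)
    (hred : ∀ i, ρ0 s ∣ ρ0 (P.coeff i) - ((X - C c) ^ P.natDegree).coeff i)
    {r : A0} (hr : IsUnit (ρ0 r)) (heval : P.eval x0 = q0 * r) :
    LocalUFD.EisensteinFibre (algebraMap A0 O q0) (algebraMap A0 O s)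
      ((P.map (algebraMap A0 O)).comp (X + C (algebraMap A0 O x0))) := by
  have hdeg : (P.map (algebraMap A0 O)).natDegree = P.natDegree :=
    hP.natDegree_map (algebraMap A0 O)
  have hD : ∀ d : Ob, ¬ IsUnit d → locRed Ob ρ0 m0 hm0 O (algebraMap A0 O s) ∣ d := by
    intro d hdu
    rw [locRed_algebraMap]
    have h1 : d ∈ maximalIdeal Ob := (mem_maximalIdeal d).mpr hdu
    rw [hs.maximalIdeal_eq] at h1
    exact Ideal.mem_span_singleton.mp h1
  refine TripleFibre.eisensteinFibre_of_red (locRed Ob ρ0 m0 hm0 O)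
    (locRed_surjective Ob ρ0 m0 hm0 O hloc) (ker_locRed Ob ρ0 m0 hm0 O hker) hq0 ?_ ?_ hD
    (hP.map _) (by rw [hdeg]; exact hd) (algebraMap A0 O x0) c ?_ ?_ (r := algebraMap A0 O r) ?_ ?_
  · rw [locRed_algebraMap]; exact hs.ne_zero
  · rw [locRed_algebraMap]; exact hs.not_isUnit
  · rw [locRed_algebraMap, locRed_algebraMap]; exact hc
  · intro i
    rw [hdeg, coeff_map, locRed_algebraMap, locRed_algebraMap]
    exact hred i
  · rw [locRed_algebraMap]; exact hr
  · rw [eval_map, eval₂_at_apply, heval, map_mul]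

/-- The same with `q ≠ 0` in the domain `A0`. -/
theorem eisensteinFibre_localization' [IsDomain A0] [IsDomain O] [IsNoetherianRing O]
    [IsLocalRing O] [IsDiscreteValuationRing Ob]
    (hloc : ∀ d : Ob, ∃ a t : A0, t ∉ m0 ∧ ρ0 t * d = ρ0 a)
    {q0 : A0} (hker : RingHom.ker ρ0 = Ideal.span {q0}) (hq0 : q0 ≠ 0)
    {s : A0} (hs : Irreducible (ρ0 s))
    {P : A0[X]} (hP : P.Monic) (hd : P.natDegree ≠ 0) (x0 : A0) (c : Ob)
    (hc : ρ0 s ∣ ρ0 x0 - c)
    (hred : ∀ i, ρ0 s ∣ ρ0 (P.coeff i) - ((X - C c) ^ P.natDegree).coeff i)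
    {r : A0} (hr : IsUnit (ρ0 r)) (heval : P.eval x0 = q0 * r) :
    LocalUFD.EisensteinFibre (algebraMap A0 O q0) (algebraMap A0 O s)
      ((P.map (algebraMap A0 O)).comp (X + C (algebraMap A0 O x0))) := by
  have hinj : Function.Injective (algebraMap A0 O) :=
    IsLocalization.injective O m0.primeCompl_le_nonZeroDivisors
  exact eisensteinFibre_localization Ob ρ0 m0 hm0 O hloc hker
    (fun h => hq0 (hinj (h.trans (map_zero _).symm))) hs hP hd x0 c hc hred hr heval

end Fermat.Agent.S36.TripleLocal
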