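/-
PROJECT V (S36), slice V-TripleAssembly (helper4), chain (V12)(iii): **the triple points, abstract
assembly** of `S36/TripleLocal` (the Eisenstein fibre over the local ring of the level-`N0` chart at
a closed point) and `S36/TripleCore` (local principality from an Eisenstein fibre).

`A₀` a noetherian integrally closed domain (the chart ring of level `N0`) with fraction field `F₀`,
`ρ0 : A₀ →+* O_b` a ring homomorphism into a discrete valuation ring `O_b ⊆ κ` (the reduction
followed by the inclusion of the chart of the special fibre into the local ring of the place `b`),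
`𝔪₀ = ρ0⁻¹(𝔪_b)` the closed point, `ker ρ0 = (q0)`; `s ∈ A₀` with `ρ0 s` a local parameter at `b`;
`P ∈ A₀[X]` monic whose lower coefficients reduce into `(ρ0 s)` and with `P(s) = q0 · r`, `ρ0 r` a
unit (the characteristic polynomial of `α² s` over `β² F₀`); `A` a noetherian integrally closed
domain, integral over `A₀` (the chart ring of level `N0 q²`), with fraction field `F` of degree
`deg P` over `F₀`, and `α ∈ A` a root of `P`.  Then every maximal ideal of `A` over `𝔪₀` is
`LocalGenCore.LocPrincipal`.
-/
import Mathlib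
import Fermat.Agent.S36.TripleLocal
import Fermat.Agent.S36.TripleCore

set_option autoImplicit false
set_option linter.unusedSectionVars false
set_option linter.unusedVariables false
set_option linter.style.haveILetI false

noncomputable section

namespace Fermat.Agent.S36.TripleAssembly

open Polynomial IsLocalRing Fermat.Agent.S36.LocalUFD Fermat.Agent.S36.LocalGenCore
open Fermat.Agent.S36.TripleCore

variable {A₀ : Type*} [CommRing A₀] [IsDomain A₀] [IsNoetherianRing A₀] [IsIntegrallyClosed A₀]
  {F₀ : Type*} [Field F₀] [Algebra A₀ F₀] [IsFractionRing A₀ F₀]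
  {A : Type*} [CommRing A] [IsDomain A] [IsNoetherianRing A] [IsIntegrallyClosed A]
  {F : Type*} [Field F] [Algebra A F] [IsFractionRing A F]
  [Algebra A₀ A] [Algebra A₀ F] [IsScalarTower A₀ A F] [Algebra.IsIntegral A₀ A]
  [Algebra F₀ F] [IsScalarTower A₀ F₀ F] [FiniteDimensional F₀ F]
  {κ : Type*} [Field κ] (Ob : ValuationSubring κ) [IsDiscreteValuationRing Ob]
  (ρ0 : A₀ →+* Ob) (m0 : Ideal A₀) [m0.IsPrime]
  (hm0 : ∀ a : A₀, a ∈ m0 ↔ ρ0 a ∈ maximalIdeal Ob)

omit [IsNoetherianRing A₀] [IsIntegrallyClosed A₀] [IsFractionRing A₀ F₀] [IsDomain A]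
  [IsNoetherianRing A] [IsIntegrallyClosed A] [IsFractionRing A F] [Algebra.IsIntegral A₀ A]
  [FiniteDimensional F₀ F] [IsDomain A₀] in
/-- the full congruence `P ≡ X ^ d mod ρ0 s` from the lower coefficients -/
theorem hred_full {s : A₀} {P : A₀[X]} (hP : P.Monic)
    (hred : ∀ i < P.natDegree, ρ0 s ∣ ρ0 (P.coeff i)) (i : ℕ) :
    ρ0 s ∣ ρ0 (P.coeff i) - ((X - C (0 : ↥Ob)) ^ P.natDegree).coeff i := by
  rw [map_zero, sub_zero, coeff_X_pow]
  rcases lt_trichotomy i P.natDegree with h | h | h
  · rw [if_neg h.ne, sub_zero]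
    exact hred i h
  · rw [if_pos h, h, hP.coeff_natDegree, map_one, sub_self]
    exact dvd_zero _
  · rw [if_neg h.ne', sub_zero, coeff_eq_zero_of_natDegree_lt h, map_zero]
    exact dvd_zero _

include hm0 in
/-- **(V12)(iii), abstract assembly**: local principality at every closed point of the level-`q²`
chart over the closed point `𝔪₀` of the level-`N0` chart. -/
theorem locPrincipal_of_chart
    (hloc : ∀ d : Ob, ∃ a t : A₀, t ∉ m0 ∧ ρ0 t * d = ρ0 a)
    {q0 : A₀} (hker : RingHom.ker ρ0 = Ideal.span {q0}) (hq0 : q0 ≠ 0)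
    {s : A₀} (hs : Irreducible (ρ0 s))
    {P : A₀[X]} (hP : P.Monic) (hd : P.natDegree ≠ 0)
    (hred : ∀ i < P.natDegree, ρ0 s ∣ ρ0 (P.coeff i))
    {r : A₀} (hr : IsUnit (ρ0 r)) (heval : P.eval s = q0 * r)
    (α : A) (hroot : P.eval₂ (algebraMap A₀ A) α = 0)
    (hdeg : Module.finrank F₀ F = P.natDegree)
    (m : Ideal A) [m.IsMaximal] (hmm₀ : m.comap (algebraMap A₀ A) = m0) :
    LocPrincipal (F := F) m := by
  have hinj0 : Function.Injective (algebraMap A₀ F₀) := IsFractionRing.injective A₀ F₀
  have hinj : Function.Injective (algebraMap A₀ F) := by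
    rw [IsScalarTower.algebraMap_eq A₀ F₀ F]
    exact (algebraMap F₀ F).injective.comp hinj0
  have hE := TripleLocal.eisensteinFibre_localization' Ob ρ0 m0 hm0 (Localization.AtPrime m0)
    hloc hker hq0 hs hP hd s 0 (by rw [sub_zero]) (hred_full Ob ρ0 hP hred) hr heval
  set Ψ : (Localization.AtPrime m0)[X] :=
    (P.map (algebraMap A₀ (Localization.AtPrime m0))).comp
      (X + C (algebraMap A₀ (Localization.AtPrime m0) s)) with hΨ
  have hΨdeg : Ψ.natDegree = P.natDegree := by
    rw [hΨ, natDegree_comp, natDegree_X_add_C, mul_one, hP.natDegree_map]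
  have hlift : ∀ x : A₀, locHom m0 hinj (algebraMap A₀ (Localization.AtPrime m0) x) =
      algebraMap A₀ F x := fun x => by
    rw [locHom, IsLocalization.lift_eq]
  -- the root
  have hb : (Ψ.map (locHom m0 hinj)).eval (algebraMap A F (α - algebraMap A₀ A s)) = 0 := by
    have h1 : (P.map (algebraMap A₀ (Localization.AtPrime m0))).map (locHom m0 hinj) =
        P.map (algebraMap A₀ F) := by
      rw [Polynomial.map_map]
      congr 1
      exact RingHom.ext hlift
    rw [hΨ, Polynomial.map_comp, h1, Polynomial.map_add, map_X, map_C, hlift, eval_comp, eval_add,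
      eval_X, eval_C, map_sub, ← IsScalarTower.algebraMap_apply A₀ A F, sub_add_cancel,
      IsScalarTower.algebraMap_eq A₀ A F, ← Polynomial.map_map, eval_map, eval₂_hom,
      eval_map, hroot, map_zero]
  -- generation from the degree
  letI iF : Algebra (Localization.AtPrime m0) F := locAlgebra m0 hinj
  letI iF₀ : Algebra (Localization.AtPrime m0) F₀ := locAlgebra m0 hinj0
  haveI t0 : IsScalarTower A₀ (Localization.AtPrime m0) F₀ := locAlgebra_isScalarTower m0 hinj0
  haveI tF : IsScalarTower A₀ (Localization.AtPrime m0) F := locAlgebra_isScalarTower m0 hinj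
  haveI : IsIntegrallyClosed (Localization.AtPrime m0) :=
    isIntegrallyClosed_localization_atPrime m0
  haveI : IsFractionRing (Localization.AtPrime m0) F₀ :=
    IsFractionRing.isFractionRing_of_isDomain_of_isLocalization m0.primeCompl
      (Localization.AtPrime m0) F₀
  haveI : IsScalarTower (Localization.AtPrime m0) F₀ F := by
    refine IsScalarTower.of_algebraMap_eq' ?_
    refine IsLocalization.ringHom_ext m0.primeCompl ?_
    ext x
    rw [RingHom.comp_apply, RingHom.comp_apply, RingHom.comp_apply,
      ← IsScalarTower.algebraMap_apply A₀ (Localization.AtPrime m0) F,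
      ← IsScalarTower.algebraMap_apply A₀ (Localization.AtPrime m0) F₀,
      ← IsScalarTower.algebraMap_apply A₀ F₀ F]
  refine locPrincipal_of_eisensteinFibre_atPrime m0 hinj hE (α - algebraMap A₀ A s) hb ?_ m hmm₀
  intro y
  have hβ : aeval (algebraMap A F (α - algebraMap A₀ A s)) Ψ = 0 := by
    rw [aeval_def, eval₂_eq_eval_map]
    exact hb
  obtain ⟨p, d, hd0, hpd⟩ := exists_aeval_eq_of_finrank (K := F₀) hE hβ (hdeg.trans hΨdeg.symm) y
  refine ⟨p, d, hd0, ?_⟩
  rw [aeval_def, eval₂_eq_eval_map] at hpd
  exact hpd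

end Fermat.Agent.S36.TripleAssembly
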