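/-
PROJECT V (S36), chain (V12)(iii), slice V-TripleChart (helper4): **the coefficients of `Ψ_a` lie in
the chart ring.**

`K = ℚ̄^H`, `O` a base ring acting on the `K`-forms compatibly with the level maps (at `X₀`:
`O = W A`, the instances of `S36/ChartX0`).  For `a ∈ chart O j` (level `N0`) the element
`α²a ∈ F_K(N0 q²)` is integral over `β²(chart O j)` (`α²a` is integral over `O[j(t)]`, and `j(t)` is
integral over `O[j(t^(q²))] = β² O[j]`: `S36/JIntegral`), so its characteristic polynomial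
`TripleDescent.psiPolyK a` over `β² F_K(N0)` has coefficients in `chart O j`
(`CharpolyInt.exists_monic_map_eq_charpoly`).

* `isIntegralElem_of_range_le` : integrality passes to a ring homomorphism with a larger range.
* `exists_poly_chart` : `∃ Q : (chart O j)[X]`, monic of degree `q² + q`, with image `psiPolyK a`.
-/
import Mathlib
import Fermat.Agent.S36.TripleDescent
import Fermat.Agent.S36.JIntegral

set_option autoImplicit false
set_option linter.unusedSectionVars false
set_option linter.style.haveILetI false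
set_option synthInstance.maxHeartbeats 400000

noncomputable section

namespace Fermat.Agent.S36.TripleChart

open Polynomial ModularCurve AlgebraicCurve IntermediateField
open Fermat.Agent.S35.LevelMaps Fermat.Agent.S36.K0Fixed Fermat.Agent.S36.PowerBasisK0
open Fermat.Agent.S36.TripleDescent Fermat.Agent.S36.ChartRing Fermat.Agent.S36.JIntegral

local notation "Kb" => AlgebraicClosure ℚ

/-! ### generalities -/

/-- integrality passes to a ring homomorphism with a larger range -/
theorem isIntegralElem_of_range_le {S R L : Type*} [CommRing S] [CommRing R] [CommRing L]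
    [Nontrivial L]
    (g : S →+* L) (f : R →+* L) (hgf : ∀ c : S, ∃ r : R, f r = g c) {y : L}
    (hy : g.IsIntegralElem y) : f.IsIntegralElem y := by
  obtain ⟨p, hp, hroot⟩ := hy
  have hlift : p.map g ∈ Polynomial.lifts f := by
    rw [Polynomial.lifts_iff_coeff_lifts]
    intro n
    rw [coeff_map]
    obtain ⟨r, hr⟩ := hgf (p.coeff n)
    exact ⟨r, hr⟩
  obtain ⟨p', hp', -, hmonic⟩ :=
    Polynomial.lifts_and_degree_eq_and_monic hlift (hp.map g)
  refine ⟨p', hmonic, ?_⟩
  rw [← eval_map, hp', eval_map]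
  exact hroot

/-- the preimage form of `CompNormal.map_mem_adjoin` : `O[a j] ⊆ a(O[j])` -/
theorem exists_map_eq_of_mem_adjoin {O F₀ F₂ : Type*} [CommRing O] [Field F₀] [Field F₂]
    [Algebra O F₀] [Algebra O F₂] (a : F₀ →+* F₂)
    (ha : ∀ c : O, a (algebraMap O F₀ c) = algebraMap O F₂ c) (j : F₀) {z : F₂}
    (hz : z ∈ Algebra.adjoin O ({a j} : Set F₂)) :
    ∃ w ∈ Algebra.adjoin O ({j} : Set F₀), a w = z := by
  induction hz using Algebra.adjoin_induction with
  | mem x hx =>
    rw [Set.mem_singleton_iff] at hx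
    subst hx
    exact ⟨j, Algebra.subset_adjoin (Set.mem_singleton _), rfl⟩
  | algebraMap c => exact ⟨algebraMap O F₀ c, Subalgebra.algebraMap_mem _ c, ha c⟩
  | add x y _ _ hx hy =>
    obtain ⟨w₁, hw₁, rfl⟩ := hx
    obtain ⟨w₂, hw₂, rfl⟩ := hy
    exact ⟨w₁ + w₂, Subalgebra.add_mem _ hw₁ hw₂, map_add a _ _⟩
  | mul x y _ _ hx hy =>
    obtain ⟨w₁, hw₁, rfl⟩ := hx
    obtain ⟨w₂, hw₂, rfl⟩ := hy
    exact ⟨w₁ * w₂, Subalgebra.mul_mem _ hw₁ hw₂, map_mul a _ _⟩

/-! ### the level maps on `j` -/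

variable (H : Subgroup (Kb ≃ₐ[ℚ] Kb)) {N0 q : ℕ} [NeZero N0] [NeZero q] [NeZero (N0 * q)]
  [NeZero (N0 * q * q)]

theorem alpha2K_j0K : alpha2K H (j0K H N0) = j0L H N0 q := by
  apply Subtype.ext
  rw [alpha2K, RingHom.comp_apply, coe_alphaK, coe_alphaK, j0L, coe_j0K, coe_j0K]

theorem beta2K_j0K : beta2K H (j0K H N0) = j2L H N0 q := rfl

/-! ### the coefficients of `Ψ_a` -/

/-- **`α²a` is integral over `β²(chart O j)`** -/
theorem isIntegralElem_alpha2K (hq : q.Prime) (O : Type*) [CommRing O]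
    [Algebra O (FK H N0)] [Algebra O (FK H (N0 * q * q))]
    (hβ : ∀ c : O, beta2K H (algebraMap O (FK H N0) c) = algebraMap O (FK H (N0 * q * q)) c)
    (hα : ∀ c : O, alpha2K H (algebraMap O (FK H N0) c) = algebraMap O (FK H (N0 * q * q)) c)
    {a : FK H N0} (ha : a ∈ chart O (j0K H N0)) :
    ((beta2K (N0 := N0) (q := q) H).comp
      (algebraMap (chart O (j0K H N0)) (FK H N0))).IsIntegralElem (alpha2K H a) := by
  -- `α²a ∈ chart O j₂`
  have h1 : alpha2K H a ∈ chart O (j2L H N0 q) := by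
    refine Fermat.Agent.S36.CompNormal.map_mem_chart_of_mem (alpha2K H) hα ?_ ha
    rw [alpha2K_j0K]
    exact jL_mem_chart H hq O 0 2
  -- `O[j₂] ⊆ β²(chart O j)`
  refine isIntegralElem_of_range_le
    (algebraMap (Algebra.adjoin O ({j2L H N0 q} : Set (FK H (N0 * q * q)))) (FK H (N0 * q * q)))
    _ (fun c => ?_) h1
  have hc : (c : FK H (N0 * q * q)) ∈
      Algebra.adjoin O ({beta2K H (j0K H N0)} : Set (FK H (N0 * q * q))) := by
    rw [beta2K_j0K]; exact c.2
  obtain ⟨w, hw, hwc⟩ := exists_map_eq_of_mem_adjoin (beta2K H) hβ (j0K H N0) hc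
  have hwR : w ∈ chart O (j0K H N0) := by
    have h : IsIntegral (Algebra.adjoin O ({j0K H N0} : Set (FK H N0)))
        (algebraMap (Algebra.adjoin O ({j0K H N0} : Set (FK H N0))) (FK H N0) ⟨w, hw⟩) :=
      isIntegral_algebraMap
    exact h
  exact ⟨⟨w, hwR⟩, hwc⟩

/-- **the coefficients of `Ψ_a` lie in the chart ring** -/
theorem exists_poly_chart (hq : q.Prime) (hqN : ¬ q ∣ N0) (O : Type*) [CommRing O]
    [Algebra O (FK H N0)] [Algebra O (FK H (N0 * q * q))]
    (hβ : ∀ c : O, beta2K H (algebraMap O (FK H N0) c) = algebraMap O (FK H (N0 * q * q)) c)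
    (hα : ∀ c : O, alpha2K H (algebraMap O (FK H N0) c) = algebraMap O (FK H (N0 * q * q)) c)
    [IsIntegrallyClosed (chart O (j0K H N0))] [IsFractionRing (chart O (j0K H N0)) (FK H N0)]
    {a : FK H N0} (ha : a ∈ chart O (j0K H N0)) :
    ∃ Q : Polynomial (chart O (j0K H N0)), Q.Monic ∧ Q.natDegree = q ^ 2 + q ∧
      Q.map (algebraMap (chart O (j0K H N0)) (FK H N0)) = psiPolyK H hq hqN a := by
  letI := (beta2K (N0 := N0) (q := q) H).toAlgebra
  haveI := finite_beta2K H hq hqN
  have hy : IsIntegral (chart O (j0K H N0)) (alpha2K (N0 := N0) (q := q) H a) :=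
    isIntegralElem_alpha2K H hq O hβ hα ha
  obtain ⟨Q, hQ1, hQ2, hQ3⟩ := CharpolyInt.exists_monic_map_eq_charpoly
    (R := chart O (j0K H N0)) (F := FK H N0) (L := FK H (N0 * q * q)) hy
  refine ⟨Q, hQ1, ?_, hQ3⟩
  rw [hQ2, finrank_beta2K H hq hqN]

end Fermat.Agent.S36.TripleChart
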