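/-
PROJECT V (S36), slice V-TripleX0 (helper4), chain (V12)(iii): **the triple points at `X₀`, finite
chart: the inputs of `S36/TripleAssembly.locPrincipal_of_chart`** (final statement:
`S36/TripleX0Final.locPrincipal_of_node`, `locPrincipal_of_node_x2`).

`A` a valuation subring of `ℚ̄` over `q ∤ N0`, `I` its inertia group, `O = W A = A ∩ K₀`
(`S18/C/SmallDVR`, instances of `S36/ChartX0`), `k = ResidueField A`, `κ = F_k(N0)`,
`A₀ = chart (W A) j ⊆ F₀ = FK0 A N0` the level-`N0` chart ring, `Og0`/`red0z` the Gauss ring and its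
reduction (`S36/GaussK0Comap`; here `OgX`/`redX`, the same objects in the `ChartX0` spelling of the
field so that the instance `algebraW` is found).

* residue side (any perfect `k` of characteristic `q`): `ord_eq_zero_of_cofactor` (the cofactor
  `(f - φ²f)(φ²σ²f - σ²f)(θ f)^(q-1)` is a unit at a `Fr²`-fixed place `b` with `ord_b f = 1` when the
  count gives `ord_b (θ π)^(q-1) = -2`), `adicValuation_coeff_redPoly_lt_one` (the lower coefficients
  of `TripleEval.redPoly f` vanish at `b`);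
* `rhoX0 : A₀ →+* chart k J` (`CompNormal.rho`), `rhoX0_surjective` (`LiftK0ChartU0`),
  `mem_chart_of_mul_mem` (**division by `q`**: `y ∈ Og0`, `q y ∈ A₀ ⟹ y ∈ A₀`; (U0) =
  `GaussUniqX0.le_of_gaussVert` on the vertical side);
* for a place `b` of `κ` with `J` regular at `b`: `rho0 : A₀ →+* O_b`, the closed point `m0`,
  `mem_m0_iff`, `mem_m0_iff_val`, `hloc` (`O_b` is the localisation of `A₀` at `m0`), `ker_rho0`
  (`ker = (q)`), `exists_param`, `irreducible_rho0`;
* `exists_poly` (the characteristic polynomial `Ψ_a` of `α²a` over `β²F₀` as a polynomial over `A₀`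
  with `ρ(Ψ_a) = TripleEval.redPoly (ρ a)`: `TripleChart.exists_poly_chart` +
  `CharpolyK0Psi.coeff_psiK0_mem`), `exists_cofactor` (`Ψ_a(a) = q r`, `r ∈ A₀`, `ρ r` = the cofactor:
  `CharpolyK0Psi.exists_diag_psiK0` + division by `q`);
* the level-`N0 q²` chart: `beta2X`, `alpha2X` (`β²`, `α²` in the `ChartX0` spelling), for a chart
  function `φ₂` with `β² j ∈ chart (W A) φ₂` (`h12`): `beta2C : A₀ →+* chart (W A) φ₂`,
  `alpha2X_mem_chart`, and with `φ₂ ∈ chart (W A) (β² j)` (`h21`): `beta2C_isIntegral`.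
-/
import Mathlib
import Fermat.Agent.S36.TripleAssembly
import Fermat.Agent.S36.TripleChart
import Fermat.Agent.S36.CharpolyK0Psi
import Fermat.Agent.S36.LiftK0ChartU0
import Fermat.Agent.S36.CompNormalX0Base
import Fermat.Agent.S36.SpecDictLocal
import Fermat.Agent.S36.ThetaL

set_option autoImplicit false
set_option linter.unusedSectionVars false
set_option linter.unusedVariables false
set_option linter.style.haveILetI false
set_option synthInstance.maxHeartbeats 400000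
set_option maxHeartbeats 1600000

noncomputable section

namespace Fermat.Agent.S36.TripleX0

open ModularCurve AlgebraicCurve IntermediateField Polynomial IsLocalRing
open Fermat.Agent.S18.B.FkBasics (jk)
open Fermat.Agent.S18.C.SmallDVR
open Fermat.Agent.S36.ChartRing Fermat.Agent.S36.ChartX0 Fermat.Agent.S36.GaussK0Comap
open Fermat.Agent.S36.PowerBasisK0
open Fermat.Agent.S37.Gauss Fermat.Agent.S37.Deuring.Core

local notation "Kb" => AlgebraicClosure ℚ

/-! ### the residue side: the cofactor is a unit, the lower coefficients are not -/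

section Residue

open Fermat.Agent.S34.FrobK Fermat.Agent.S36.TripleEval Fermat.Agent.S36.ThetaL

variable {k : Type*} [Field k] {N : ℕ} [NeZero N] {q : ℕ} [hq : Fact q.Prime] [CharP k q]
  [PerfectField k]

/-- `sig (phi g) = g ^ q = phi (sig g)` -/
theorem sig_phi_comm (g : ↥(modularFunctionFieldFullC k N)) :
    sig k N q (phi k N q g) = phi k N q (sig k N q g) := by
  rw [phi_sig, phi_eq_pow, map_pow, sig_psi]

/-- **the cofactor is a unit at a node**: if the count gives `ord_b Θ = -2` for `Θ = (θ π)^(q-1)`,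
`π` any local parameter at the `Fr²`-fixed place `b`, then an element `g` of the function field
with `g = (f - φ²f)(φ²σ²f - σ²f) (θ f)^(q-1)`, `ord_b f = 1`, has `ord_b g = 0`. -/
theorem ord_eq_zero_of_cofactor (b : Place k ↥(modularFunctionFieldFullC k N))
    (hb2 : Fr k N q (Fr k N q b) = b) {f g : ↥(modularFunctionFieldFullC k N)}
    (hf : b.ord f = 1)
    (hg : (g : LaurentSeries k) =
      (((f - phi k N q (phi k N q f)) *
        (phi k N q (phi k N q (sig k N q (sig k N q f))) - sig k N q (sig k N q f)) :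
          ↥(modularFunctionFieldFullC k N)) : LaurentSeries k) *
        thetaL (f : LaurentSeries k) ^ (q - 1))
    (hcount : ∀ π Θ : ↥(modularFunctionFieldFullC k N), b.ord π = 1 →
      thetaL (π : LaurentSeries k) ^ (q - 1) = (Θ : LaurentSeries k) → b.ord Θ = -2) :
    g ≠ 0 ∧ b.ord g = 0 := by
  set u : ↥(modularFunctionFieldFullC k N) := f - phi k N q (phi k N q f) with hu
  have hu1 : b.ord u = 1 := ord_sub_phi_phi k N q b hb2 f hf
  have hu0 : u ≠ 0 := by
    intro h0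
    rw [h0, Place.ord_zero] at hu1
    exact zero_ne_one hu1
  have hsu : sig k N q (sig k N q u) ≠ 0 :=
    (map_ne_zero_iff _ (sig k N q).injective).mpr
      ((map_ne_zero_iff _ (sig k N q).injective).mpr hu0)
  have hw : phi k N q (phi k N q (sig k N q (sig k N q f))) - sig k N q (sig k N q f) =
      -(sig k N q (sig k N q u)) := by
    rw [hu, map_sub, map_sub, sig_phi_comm, sig_phi_comm, sig_phi_comm, sig_phi_comm]
    ring
  rw [hw] at hg
  set w : ↥(modularFunctionFieldFullC k N) := u * -(sig k N q (sig k N q u)) with hwdef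
  have hw0 : w ≠ 0 := mul_ne_zero hu0 (neg_ne_zero.mpr hsu)
  have hw0' : (w : LaurentSeries k) ≠ 0 := fun h0 => hw0 (Subtype.ext h0)
  have hΘ : thetaL (f : LaurentSeries k) ^ (q - 1) =
      ((g / w : ↥(modularFunctionFieldFullC k N)) : LaurentSeries k) := by
    have h1 : ((g / w : ↥(modularFunctionFieldFullC k N)) : LaurentSeries k) =
        (g : LaurentSeries k) / (w : LaurentSeries k) := rfl
    rw [h1, hg, mul_comm, mul_div_assoc, div_self hw0', mul_one]
  have hord := hcount f (g / w) hf hΘ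
  have hg0 : g ≠ 0 := by
    intro h0
    rw [h0, zero_div, Place.ord_zero] at hord
    norm_num at hord
  refine ⟨hg0, ?_⟩
  have hT0 : g / w ≠ 0 := div_ne_zero hg0 hw0
  have hcof := ord_cofactor b hb2 f 0 (by rw [map_zero, sub_zero]; exact hf) hT0
  have hprod : g / w * (f - phi k N q (phi k N q f)) *
      sig k N q (sig k N q (f - phi k N q (phi k N q f))) = -g := by
    rw [← hu]
    field_simp
    rw [hwdef]
    ring
  rw [hprod, Fermat.Agent.S18.CoreOrd.ord_neg', hord] at hcof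
  linarith

/-- **the lower coefficients of the reduced characteristic polynomial vanish at a node** -/
theorem adicValuation_coeff_redPoly_lt_one (b : Place k ↥(modularFunctionFieldFullC k N))
    (hb2 : Fr k N q (Fr k N q b) = b) {f : ↥(modularFunctionFieldFullC k N)}
    (hf : b.ord f = 1) {i : ℕ} (hi : i < q ^ 2 + q) :
    b.adicValuation ((redPoly k N q f).coeff i) < 1 := by
  have hf0 : f ≠ 0 := by
    rintro rfl
    rw [Place.ord_zero] at hf
    exact zero_ne_one hf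
  have hf' : b.adicValuation (f - algebraMap k ↥(modularFunctionFieldFullC k N) 0) < 1 := by
    rw [map_zero, sub_zero, ← Fermat.Agent.S24.Ord.ord_pos_iff b hf0, hf]
    exact zero_lt_one
  have h := coeff_redPoly_sub_lt_one b hb2 f 0 hf' i
  rwa [map_zero, map_zero, sub_zero, coeff_sub, coeff_X_pow, if_neg hi.ne, sub_zero] at h

end Residue

variable {q : ℕ} [hqF : Fact q.Prime] {N0 : ℕ} [NeZero N0] [NeZero q] [NeZero (N0 * q)]
  [NeZero (N0 * q * q)] {A : ValuationSubring Kb}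
variable (hA : A.LiesOverPrime q) (hqN : ¬ q ∣ N0)

/-! ### the level-`N0` chart and its reduction -/

/-- the Gauss ring `Og0` of `S36/GaussK0Comap`, in the `ChartX0` spelling of the field -/
abbrev OgX : ValuationSubring (FK0 A N0) := Og0 N0 hA hqN

/-- the reduction `red0z` of `S36/GaussK0Comap`, in the `ChartX0` spelling -/
abbrev redX : ↥(OgX hA hqN) →+* ↥(modularFunctionFieldFullC (ResidueField ↥A) N0) :=
  red0z N0 hA hqN

/-- constants of `W A` lie in the Gauss ring -/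
theorem algebraMap_W_mem (c : ↥(W A)) : algebraMap ↥(W A) (FK0 A N0) c ∈ OgX hA hqN :=
  algebraMap_mem_Og0 N0 hA hqN (algebraMap ↥(W A) ↥(K0 A) c) c.2

theorem redX_algebraMap_W (c : ↥(W A)) :
    redX hA hqN ⟨algebraMap ↥(W A) (FK0 A N0) c, algebraMap_W_mem hA hqN c⟩ =
      algebraMap (ResidueField ↥A) ↥(modularFunctionFieldFullC (ResidueField ↥A) N0)
        (algebraMap ↥(W A) (ResidueField ↥A) c) :=
  red0z_algebraMap N0 hA hqN (algebraMap ↥(W A) ↥(K0 A) c) c.2

theorem j0K_mem_OgX : j0K (A.inertiaSubgroupIn ℚ) N0 ∈ OgX hA hqN := j0K_mem_Og0 N0 hA hqN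

theorem redX_j0K_mem_chart :
    redX hA hqN ⟨j0K (A.inertiaSubgroupIn ℚ) N0, j0K_mem_OgX hA hqN⟩ ∈
      chart (ResidueField ↥A) (jk (ResidueField ↥A) N0) := by
  have h : redX hA hqN ⟨j0K (A.inertiaSubgroupIn ℚ) N0, j0K_mem_OgX hA hqN⟩ =
      jk (ResidueField ↥A) N0 := red0z_j0K N0 hA hqN
  rw [h]
  exact CompNormal.self_mem_chart _

/-- **the reduction of the level-`N0` chart**, `chart (W A) j → chart k J` -/
def rhoX0 : ↥(chart (F := FK0 A N0) ↥(W A) (j0K (A.inertiaSubgroupIn ℚ) N0)) →+*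
    ↥(chart (ResidueField ↥A) (jk (ResidueField ↥A) N0)) :=
  CompNormal.rho (algebraMap ↥(W A) (ResidueField ↥A)) (OgX hA hqN) (redX hA hqN)
    (algebraMap_W_mem hA hqN) (redX_algebraMap_W hA hqN) (j0K_mem_OgX hA hqN)
    (redX_j0K_mem_chart hA hqN)

theorem chart_le_OgX {x : FK0 A N0}
    (hx : x ∈ chart (F := FK0 A N0) ↥(W A) (j0K (A.inertiaSubgroupIn ℚ) N0)) :
    x ∈ OgX hA hqN :=
  CompNormal.mem_of_mem_chart' (OgX hA hqN) (algebraMap_W_mem hA hqN) (j0K_mem_OgX hA hqN) hx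

theorem coe_rhoX0 (x : ↥(chart (F := FK0 A N0) ↥(W A) (j0K (A.inertiaSubgroupIn ℚ) N0))) :
    ((rhoX0 hA hqN x : ↥(chart (ResidueField ↥A) (jk (ResidueField ↥A) N0))) :
        ↥(modularFunctionFieldFullC (ResidueField ↥A) N0)) =
      redX hA hqN ⟨(x : FK0 A N0), chart_le_OgX hA hqN x.2⟩ := rfl

theorem rhoX0_surjective {gL gk : ℕ} (H : Hyp (Datum.gaussDatum N0 A hA hqN) gL gk) :
    Function.Surjective (rhoX0 hA hqN) :=
  CompNormal.rho_surjective (algebraMap ↥(W A) (ResidueField ↥A)) (OgX hA hqN) (redX hA hqN)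
    (algebraMap_W_mem hA hqN) (redX_algebraMap_W hA hqN) (j0K_mem_OgX hA hqN)
    (redX_j0K_mem_chart hA hqN)
    (fun b hb => by
      obtain ⟨g, hgc, hg, hgb⟩ := LiftK0ChartU0.exists_chart_lift_U0 hA hqN H b hb
      exact ⟨g, hgc, hg, hgb⟩)

/-! ### division by `q` in the chart ring -/

/-- **division by `q`**: an element of the Gauss ring whose `q`-multiple lies in the chart ring
lies in the chart ring ((U0) on the vertical side, `q⁻¹ ∈ K₀` on the horizontal side) -/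
theorem mem_chart_of_mul_mem {y : FK0 A N0} (hy : y ∈ OgX hA hqN)
    (hqy : ((q : ℕ) : FK0 A N0) * y ∈
      chart (F := FK0 A N0) ↥(W A) (j0K (A.inertiaSubgroupIn ℚ) N0)) :
    y ∈ chart (F := FK0 A N0) ↥(W A) (j0K (A.inertiaSubgroupIn ℚ) N0) := by
  haveI := isDVR hA
  haveI := ChartX0.finiteDimensional_of_transcendental A N0
    (LiftK0Chart.transcendental_j0K A N0)
  refine mem_chart_of_gauss_places (K := ↥(K0 A)) (irreducible_ell hA)
    (LiftK0Chart.transcendental_j0K A N0) y ?_ ?_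
  · intro V hc hj hq hs
    exact Fermat.Agent.S36.GaussUniqX0.le_of_gaussVert N0 hA hqN V hc hj hq hs y hy
  · intro V hK hj
    have h1 : ((q : ℕ) : FK0 A N0) * y ∈ V :=
      mem_of_mem_chart hqy V (fun c => by rw [algebraMap_W_apply]; exact hK _) hj
    have hq0 : ((q : ℕ) : FK0 A N0) ≠ 0 := by
      exact_mod_cast hqF.out.ne_zero
    have h2 : (((q : ℕ) : FK0 A N0))⁻¹ ∈ V := by
      have := hK ((((q : ℕ) : ↥(K0 A)))⁻¹)
      rwa [map_inv₀, map_natCast] at this
    have h3 : y = (((q : ℕ) : FK0 A N0))⁻¹ * (((q : ℕ) : FK0 A N0) * y) := by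
      field_simp
    rw [h3]
    exact V.mul_mem _ _ h2 h1

/-! ### the closed point below a place `b` of the special fibre -/

section Point

variable (b : Place (ResidueField ↥A) ↥(modularFunctionFieldFullC (ResidueField ↥A) N0))
  (hv : jk (ResidueField ↥A) N0 ∈ b.toValuationSubring)

/-- `ρ0 : chart (W A) j → O_b`, the reduction followed by the inclusion of the chart of the special
fibre into the local ring of the place `b` -/
def rho0 : ↥(chart (F := FK0 A N0) ↥(W A) (j0K (A.inertiaSubgroupIn ℚ) N0)) →+*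
    ↥b.toValuationSubring :=
  (Fermat.Agent.S36.SpecDictOne.incl b hv).comp (rhoX0 hA hqN)

theorem coe_rho0 (x : ↥(chart (F := FK0 A N0) ↥(W A) (j0K (A.inertiaSubgroupIn ℚ) N0))) :
    ((rho0 hA hqN b hv x : ↥b.toValuationSubring) :
        ↥(modularFunctionFieldFullC (ResidueField ↥A) N0)) =
      redX hA hqN ⟨(x : FK0 A N0), chart_le_OgX hA hqN x.2⟩ := rfl

/-- the closed point of the level-`N0` chart below the place `b` -/
def m0 : Ideal ↥(chart (F := FK0 A N0) ↥(W A) (j0K (A.inertiaSubgroupIn ℚ) N0)) :=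
  (Fermat.Agent.S36.SpecDictOne.pointOf b hv).comap (rhoX0 hA hqN)

instance m0_isPrime : (m0 hA hqN b hv).IsPrime := Ideal.comap_isPrime _ _

theorem mem_m0_iff (a : ↥(chart (F := FK0 A N0) ↥(W A) (j0K (A.inertiaSubgroupIn ℚ) N0))) :
    a ∈ m0 hA hqN b hv ↔ rho0 hA hqN b hv a ∈ maximalIdeal ↥b.toValuationSubring := Iff.rfl

theorem mem_m0_iff_val (a : ↥(chart (F := FK0 A N0) ↥(W A) (j0K (A.inertiaSubgroupIn ℚ) N0))) :
    a ∈ m0 hA hqN b hv ↔
      b.adicValuation (redX hA hqN ⟨(a : FK0 A N0), chart_le_OgX hA hqN a.2⟩) < 1 := by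
  rw [m0, Ideal.mem_comap, Fermat.Agent.S36.SpecDictOne.mem_pointOf_iff_val]
  rfl

/-- `O_b` is the localisation of the chart ring at the closed point -/
theorem hloc {gL gk : ℕ} (H : Hyp (Datum.gaussDatum N0 A hA hqN) gL gk)
    (d : ↥b.toValuationSubring) :
    ∃ a t : ↥(chart (F := FK0 A N0) ↥(W A) (j0K (A.inertiaSubgroupIn ℚ) N0)),
      t ∉ m0 hA hqN b hv ∧ rho0 hA hqN b hv t * d = rho0 hA hqN b hv a := by
  haveI : IsAlgClosed (ResidueField ↥A) :=
    Fermat.Agent.S18.ResidueBasics.isAlgClosed_residueField A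
  obtain ⟨b', s', hs', hfs⟩ := Fermat.Agent.S36.SpecDictOne.exists_mul_eq_of_mem
    (Fermat.Agent.S18.B.FkBasics.isFF (ResidueField ↥A) N0)
    (Fermat.Agent.S18.B.SeparableFk.isSeparable_jk (ResidueField ↥A) N0) b hv d.2
  obtain ⟨a, ha⟩ := rhoX0_surjective hA hqN H b'
  obtain ⟨t, ht⟩ := rhoX0_surjective hA hqN H s'
  refine ⟨a, t, ?_, Subtype.ext ?_⟩
  · show ¬ (rhoX0 hA hqN t ∈ Fermat.Agent.S36.SpecDictOne.pointOf b hv)
    rw [ht]
    exact hs'
  · show ((rhoX0 hA hqN t : ↥(chart (ResidueField ↥A) (jk (ResidueField ↥A) N0))) :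
        ↥(modularFunctionFieldFullC (ResidueField ↥A) N0)) * (d : _) =
      ((rhoX0 hA hqN a : ↥(chart (ResidueField ↥A) (jk (ResidueField ↥A) N0))) : _)
    rw [ht, ha, mul_comm]
    exact hfs

/-- the natural number `q` as an element of the chart ring -/
theorem rho0_natCast : rho0 hA hqN b hv ((q : ℕ) : _) = 0 := by
  haveI : CharP (ResidueField ↥A) q := Fermat.Agent.S18.ResidueBasics.charP_residueField A hA
  rw [map_natCast]
  apply Subtype.ext
  show ((q : ℕ) : ↥(modularFunctionFieldFullC (ResidueField ↥A) N0)) = 0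
  rw [← map_natCast (algebraMap (ResidueField ↥A)
    ↥(modularFunctionFieldFullC (ResidueField ↥A) N0)), CharP.cast_eq_zero, map_zero]

/-- **the kernel of the reduction is generated by `q`** -/
theorem ker_rho0 :
    RingHom.ker (rho0 hA hqN b hv) = Ideal.span {((q : ℕ) :
      ↥(chart (F := FK0 A N0) ↥(W A) (j0K (A.inertiaSubgroupIn ℚ) N0)))} := by
  apply le_antisymm
  · intro x hx
    rw [RingHom.mem_ker] at hx
    have h0 : redX hA hqN ⟨(x : FK0 A N0), chart_le_OgX hA hqN x.2⟩ = 0 := by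
      rw [← coe_rho0 hA hqN b hv x, hx]
      rfl
    have hnu : ¬ IsUnit (⟨(x : FK0 A N0), chart_le_OgX hA hqN x.2⟩ : ↥(OgX hA hqN)) :=
      (red0z_eq_zero_iff N0 hA hqN _).mp h0
    have hmem : (⟨(x : FK0 A N0), chart_le_OgX hA hqN x.2⟩ : ↥(OgX hA hqN)) ∈
        maximalIdeal ↥(OgX hA hqN) := (mem_maximalIdeal _).mpr hnu
    rw [show maximalIdeal ↥(OgX hA hqN) = Ideal.span {((q : ℕ) : ↥(OgX hA hqN))} from
      maximalIdeal_Og0_eq N0 hA hqN, Ideal.mem_span_singleton] at hmem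
    obtain ⟨y, hy⟩ := hmem
    have hy' : (x : FK0 A N0) = ((q : ℕ) : FK0 A N0) * (y : FK0 A N0) := by
      have := congrArg (fun z : ↥(OgX hA hqN) => (z : FK0 A N0)) hy
      simpa using this
    have hyc : (y : FK0 A N0) ∈ chart (F := FK0 A N0) ↥(W A) (j0K (A.inertiaSubgroupIn ℚ) N0) :=
      mem_chart_of_mul_mem hA hqN y.2 (hy' ▸ x.2)
    rw [Ideal.mem_span_singleton]
    refine ⟨⟨(y : FK0 A N0), hyc⟩, Subtype.ext ?_⟩
    rw [hy']
    simp
  · rw [Ideal.span_singleton_le_iff_mem, RingHom.mem_ker]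
    exact rho0_natCast hA hqN b hv

include hv in
/-- a local parameter at `b` lifts to the chart ring -/
theorem exists_param {gL gk : ℕ} (H : Hyp (Datum.gaussDatum N0 A hA hqN) gL gk) :
    ∃ s : ↥(chart (F := FK0 A N0) ↥(W A) (j0K (A.inertiaSubgroupIn ℚ) N0)),
      b.ord (redX hA hqN ⟨(s : FK0 A N0), chart_le_OgX hA hqN s.2⟩) = 1 := by
  haveI : IsAlgClosed (ResidueField ↥A) :=
    Fermat.Agent.S18.ResidueBasics.isAlgClosed_residueField A
  obtain ⟨β, hβ⟩ := Fermat.Agent.S36.SpecDictLocal.exists_ord_eq_one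
    (Fermat.Agent.S18.B.FkBasics.isFF (ResidueField ↥A) N0)
    (Fermat.Agent.S18.B.SeparableFk.isSeparable_jk (ResidueField ↥A) N0) b hv
  obtain ⟨s, hs⟩ := rhoX0_surjective hA hqN H β
  refine ⟨s, ?_⟩
  rw [← coe_rhoX0 hA hqN s, hs]
  exact hβ

theorem irreducible_rho0
    {s : ↥(chart (F := FK0 A N0) ↥(W A) (j0K (A.inertiaSubgroupIn ℚ) N0))}
    (hs : b.ord (redX hA hqN ⟨(s : FK0 A N0), chart_le_OgX hA hqN s.2⟩) = 1) :
    Irreducible (rho0 hA hqN b hv s) :=
  Fermat.Agent.S36.SpecDictLocal.irreducible_of_ord_eq_one b hs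

end Point

/-! ### the characteristic polynomial of `α²a` over `β²F₀` -/

section Poly

open Fermat.Agent.S36.TripleDescent Fermat.Agent.S36.CharpolyK0Psi

theorem mem_O0_of_mem_OgX {x : FK0 A N0} (h : x ∈ OgX hA hqN) :
    x ∈ Fermat.Agent.S36.GaussK0.O0 N0 hA hqN :=
  (Fermat.Agent.S36.GaussK0.mem_O0_iff N0 hA hqN x).mpr h

/-- the two reductions `red0z` (`S36/GaussK0Comap`) and `red0` (`S36/GaussK0`) agree -/
theorem redX_eq_red0 {x : FK0 A N0} (h : x ∈ OgX hA hqN)
    (h' : x ∈ Fermat.Agent.S36.GaussK0.O0 N0 hA hqN) :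
    redX hA hqN ⟨x, h⟩ = Fermat.Agent.S36.GaussK0.red0 N0 hA hqN ⟨x, h'⟩ :=
  Fermat.Agent.S36.GaussK0.red_toBar N0 hA hqN ⟨x, h'⟩

theorem beta2K_algebraMap_W (c : ↥(W A)) :
    beta2K (N0 := N0) (q := q) (A.inertiaSubgroupIn ℚ) (algebraMap ↥(W A) (FK0 A N0) c) =
      algebraMap ↥(W A) (FK0 A (N0 * q * q)) c := by
  show betaK (A.inertiaSubgroupIn ℚ) (N0 * q) q
    (betaK (A.inertiaSubgroupIn ℚ) N0 q (algebraMap ↥(W A) (FK0 A N0) c)) = _
  rw [Fermat.Agent.S36.CompNormalX0Base.betaK_algebraMap_W A N0 q c,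
    Fermat.Agent.S36.CompNormalX0Base.betaK_algebraMap_W A (N0 * q) q c]

theorem alpha2K_algebraMap_W (c : ↥(W A)) :
    alpha2K (N0 := N0) (q := q) (A.inertiaSubgroupIn ℚ) (algebraMap ↥(W A) (FK0 A N0) c) =
      algebraMap ↥(W A) (FK0 A (N0 * q * q)) c := by
  show alphaK (A.inertiaSubgroupIn ℚ) (N0 * q) q
    (alphaK (A.inertiaSubgroupIn ℚ) N0 q (algebraMap ↥(W A) (FK0 A N0) c)) = _
  rw [Fermat.Agent.S36.CompNormalX0Base.alphaK_algebraMap_W A N0 q c,
    Fermat.Agent.S36.CompNormalX0Base.alphaK_algebraMap_W A (N0 * q) q c]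

/-- **the characteristic polynomial over the chart ring, with its reduction** -/
theorem exists_poly (a0 : ↥(chart (F := FK0 A N0) ↥(W A) (j0K (A.inertiaSubgroupIn ℚ) N0))) :
    haveI : CharP (ResidueField ↥A) q := Fermat.Agent.S18.ResidueBasics.charP_residueField A hA
    haveI : IsAlgClosed (ResidueField ↥A) :=
      Fermat.Agent.S18.ResidueBasics.isAlgClosed_residueField A
    ∃ P : Polynomial ↥(chart (F := FK0 A N0) ↥(W A) (j0K (A.inertiaSubgroupIn ℚ) N0)),
      P.Monic ∧ P.natDegree = q ^ 2 + q ∧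
      P.map (algebraMap ↥(chart (F := FK0 A N0) ↥(W A) (j0K (A.inertiaSubgroupIn ℚ) N0))
        (FK0 A N0)) = psiPolyK (A.inertiaSubgroupIn ℚ) hqF.out hqN (a0 : FK0 A N0) ∧
      ∀ i, ((rhoX0 hA hqN (P.coeff i) : ↥(chart (ResidueField ↥A) (jk (ResidueField ↥A) N0))) :
          ↥(modularFunctionFieldFullC (ResidueField ↥A) N0)) =
        (Fermat.Agent.S36.TripleEval.redPoly (ResidueField ↥A) N0 q
          ((rhoX0 hA hqN a0 : ↥(chart (ResidueField ↥A) (jk (ResidueField ↥A) N0))) :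
            ↥(modularFunctionFieldFullC (ResidueField ↥A) N0))).coeff i := by
  haveI : CharP (ResidueField ↥A) q := Fermat.Agent.S18.ResidueBasics.charP_residueField A hA
  haveI : IsAlgClosed (ResidueField ↥A) :=
    Fermat.Agent.S18.ResidueBasics.isAlgClosed_residueField A
  obtain ⟨h1, h2, h3⟩ := chartX0_props hA N0 (LiftK0Chart.transcendental_j0K A N0)
  obtain ⟨P, hP1, hP2, hP3⟩ := @Fermat.Agent.S36.TripleChart.exists_poly_chart
    (A.inertiaSubgroupIn ℚ) N0 q _ _ _ _ hqF.out hqN ↥(W A) _ (algebraW A N0)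
    (algebraW A (N0 * q * q)) (beta2K_algebraMap_W) (alpha2K_algebraMap_W) h2 h3
    (a0 : FK0 A N0) a0.2
  refine ⟨P, hP1, hP2, hP3, fun i => ?_⟩
  have ha0 : (a0 : FK0 A N0) ∈ Fermat.Agent.S36.GaussK0.O0 N0 hA hqN :=
    mem_O0_of_mem_OgX hA hqN (chart_le_OgX hA hqN a0.2)
  obtain ⟨hc, hred⟩ := coeff_psiK0_mem hA hqN ⟨(a0 : FK0 A N0), ha0⟩ i
  have hco : (P.coeff i).1 = (psiK0 hqN (a0 : FK0 A N0)).coeff i :=
    (Polynomial.coeff_map _ i).symm.trans
      (congrArg (fun Q : Polynomial (FK0 A N0) => Q.coeff i) hP3)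
  have hmem : (P.coeff i).1 ∈ Fermat.Agent.S36.GaussK0.O0 N0 hA hqN := by
    rw [hco]
    exact hc
  have e1 : ((rhoX0 hA hqN (P.coeff i) : ↥(chart (ResidueField ↥A) (jk (ResidueField ↥A) N0))) :
      ↥(modularFunctionFieldFullC (ResidueField ↥A) N0)) =
      Fermat.Agent.S36.GaussK0.red0 N0 hA hqN ⟨(P.coeff i).1, hmem⟩ :=
    redX_eq_red0 hA hqN (chart_le_OgX hA hqN (P.coeff i).2) hmem
  have e2 : Fermat.Agent.S36.GaussK0.red0 N0 hA hqN ⟨(P.coeff i).1, hmem⟩ =
      Fermat.Agent.S36.GaussK0.red0 N0 hA hqN ⟨_, hc⟩ :=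
    congrArg (Fermat.Agent.S36.GaussK0.red0 N0 hA hqN) (Subtype.ext hco)
  have e3 : ((rhoX0 hA hqN a0 : ↥(chart (ResidueField ↥A) (jk (ResidueField ↥A) N0))) :
      ↥(modularFunctionFieldFullC (ResidueField ↥A) N0)) =
      Fermat.Agent.S36.GaussK0.red0 N0 hA hqN ⟨(a0 : FK0 A N0), ha0⟩ :=
    redX_eq_red0 hA hqN (chart_le_OgX hA hqN a0.2) ha0
  exact (e1.trans (e2.trans hred)).trans
    (congrArg (fun f => (Fermat.Agent.S36.TripleEval.redPoly (ResidueField ↥A) N0 q f).coeff i)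
      e3.symm)

/-- **the cofactor**: `Ψ_a(a) = q · r` with `r` in the chart ring, and the reduction of `r` -/
theorem exists_cofactor (a0 : ↥(chart (F := FK0 A N0) ↥(W A) (j0K (A.inertiaSubgroupIn ℚ) N0)))
    {P : Polynomial ↥(chart (F := FK0 A N0) ↥(W A) (j0K (A.inertiaSubgroupIn ℚ) N0))}
    (hP3 : P.map (algebraMap ↥(chart (F := FK0 A N0) ↥(W A) (j0K (A.inertiaSubgroupIn ℚ) N0))
        (FK0 A N0)) = psiPolyK (A.inertiaSubgroupIn ℚ) hqF.out hqN (a0 : FK0 A N0)) :
    haveI : CharP (ResidueField ↥A) q := Fermat.Agent.S18.ResidueBasics.charP_residueField A hA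
    haveI : IsAlgClosed (ResidueField ↥A) :=
      Fermat.Agent.S18.ResidueBasics.isAlgClosed_residueField A
    ∃ r : ↥(chart (F := FK0 A N0) ↥(W A) (j0K (A.inertiaSubgroupIn ℚ) N0)),
      P.eval a0 = ((q : ℕ) : ↥(chart (F := FK0 A N0) ↥(W A) (j0K (A.inertiaSubgroupIn ℚ) N0))) * r ∧
      ((((rhoX0 hA hqN r : ↥(chart (ResidueField ↥A) (jk (ResidueField ↥A) N0))) :
          ↥(modularFunctionFieldFullC (ResidueField ↥A) N0))) : LaurentSeries (ResidueField ↥A)) =
        ((((((rhoX0 hA hqN a0 : ↥(chart (ResidueField ↥A) (jk (ResidueField ↥A) N0))) :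
            ↥(modularFunctionFieldFullC (ResidueField ↥A) N0))) -
              Fermat.Agent.S34.FrobK.phi (ResidueField ↥A) N0 q
                (Fermat.Agent.S34.FrobK.phi (ResidueField ↥A) N0 q
                  ((rhoX0 hA hqN a0 : ↥(chart (ResidueField ↥A) (jk (ResidueField ↥A) N0))) :
                    ↥(modularFunctionFieldFullC (ResidueField ↥A) N0)))) *
            (Fermat.Agent.S34.FrobK.phi (ResidueField ↥A) N0 q
                (Fermat.Agent.S34.FrobK.phi (ResidueField ↥A) N0 q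
                  (Fermat.Agent.S36.TripleEval.sig (ResidueField ↥A) N0 q
                    (Fermat.Agent.S36.TripleEval.sig (ResidueField ↥A) N0 q
                      ((rhoX0 hA hqN a0 : ↥(chart (ResidueField ↥A) (jk (ResidueField ↥A) N0))) :
                        ↥(modularFunctionFieldFullC (ResidueField ↥A) N0))))) -
              Fermat.Agent.S36.TripleEval.sig (ResidueField ↥A) N0 q
                (Fermat.Agent.S36.TripleEval.sig (ResidueField ↥A) N0 q
                  ((rhoX0 hA hqN a0 : ↥(chart (ResidueField ↥A) (jk (ResidueField ↥A) N0))) :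
                    ↥(modularFunctionFieldFullC (ResidueField ↥A) N0)))) :
            ↥(modularFunctionFieldFullC (ResidueField ↥A) N0)) :
            LaurentSeries (ResidueField ↥A)) *
          Fermat.Agent.S36.ThetaL.thetaL
            ((((rhoX0 hA hqN a0 : ↥(chart (ResidueField ↥A) (jk (ResidueField ↥A) N0))) :
              ↥(modularFunctionFieldFullC (ResidueField ↥A) N0))) :
                LaurentSeries (ResidueField ↥A)) ^ (q - 1) := by
  haveI : CharP (ResidueField ↥A) q := Fermat.Agent.S18.ResidueBasics.charP_residueField A hA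
  haveI : IsAlgClosed (ResidueField ↥A) :=
    Fermat.Agent.S18.ResidueBasics.isAlgClosed_residueField A
  have ha0 : (a0 : FK0 A N0) ∈ Fermat.Agent.S36.GaussK0.O0 N0 hA hqN :=
    mem_O0_of_mem_OgX hA hqN (chart_le_OgX hA hqN a0.2)
  obtain ⟨R, hR1, hR2⟩ := exists_diag_psiK0 hA hqN ⟨(a0 : FK0 A N0), ha0⟩
  -- `q · R = Ψ_a(a)` lies in the chart ring
  have hev : ((P.eval a0 : ↥(chart (F := FK0 A N0) ↥(W A) (j0K (A.inertiaSubgroupIn ℚ) N0))) :
      FK0 A N0) = (psiK0 hqN (a0 : FK0 A N0)).eval (a0 : FK0 A N0) := by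
    have h1 : (P.map (algebraMap ↥(chart (F := FK0 A N0) ↥(W A)
        (j0K (A.inertiaSubgroupIn ℚ) N0)) (FK0 A N0))).eval
        (algebraMap ↥(chart (F := FK0 A N0) ↥(W A) (j0K (A.inertiaSubgroupIn ℚ) N0))
          (FK0 A N0) a0) =
        algebraMap ↥(chart (F := FK0 A N0) ↥(W A) (j0K (A.inertiaSubgroupIn ℚ) N0))
          (FK0 A N0) (P.eval a0) := by
      rw [Polynomial.eval_map, Polynomial.eval₂_at_apply]
    exact h1.symm.trans (congrArg (fun Q : Polynomial (FK0 A N0) => Q.eval (a0 : FK0 A N0)) hP3)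
  have hRX : (R : FK0 A N0) ∈ OgX hA hqN :=
    (Fermat.Agent.S36.GaussK0.mem_O0_iff N0 hA hqN _).mp R.2
  have hqR : ((q : ℕ) : FK0 A N0) * (R : FK0 A N0) ∈
      chart (F := FK0 A N0) ↥(W A) (j0K (A.inertiaSubgroupIn ℚ) N0) := by
    have h2 : ((q : ℕ) : FK0 A N0) * (R : FK0 A N0) =
        ((P.eval a0 : ↥(chart (F := FK0 A N0) ↥(W A) (j0K (A.inertiaSubgroupIn ℚ) N0))) :
          FK0 A N0) := (hev.trans hR1).symm
    rw [h2]
    exact (P.eval a0).2
  have hRc : (R : FK0 A N0) ∈ chart (F := FK0 A N0) ↥(W A) (j0K (A.inertiaSubgroupIn ℚ) N0) :=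
    mem_chart_of_mul_mem hA hqN hRX hqR
  refine ⟨⟨(R : FK0 A N0), hRc⟩, Subtype.ext ?_, ?_⟩
  · refine (hev.trans hR1).trans ?_
    simp
  · have e3 : ((rhoX0 hA hqN a0 : ↥(chart (ResidueField ↥A) (jk (ResidueField ↥A) N0))) :
        ↥(modularFunctionFieldFullC (ResidueField ↥A) N0)) =
        Fermat.Agent.S36.GaussK0.red0 N0 hA hqN ⟨(a0 : FK0 A N0), ha0⟩ :=
      redX_eq_red0 hA hqN (chart_le_OgX hA hqN a0.2) ha0
    have e4 : ((rhoX0 hA hqN ⟨(R : FK0 A N0), hRc⟩ :
        ↥(chart (ResidueField ↥A) (jk (ResidueField ↥A) N0))) :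
        ↥(modularFunctionFieldFullC (ResidueField ↥A) N0)) =
        Fermat.Agent.S36.GaussK0.red0 N0 hA hqN R :=
      redX_eq_red0 hA hqN (chart_le_OgX hA hqN hRc) R.2
    rw [e3, e4]
    exact hR2

end Poly

/-! ### the level-`N0 q²` chart over the level-`N0` chart -/

section Upper

open Fermat.Agent.S36.TripleDescent Fermat.Agent.S36.LocalGenCore

/-- `β² : F₀ → F₂` (`g ↦ g(t^(q²))`), in the `ChartX0` spelling of the fields -/
def beta2X (A : ValuationSubring Kb) (N0 q : ℕ) [NeZero N0] [NeZero q] :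
    FK0 A N0 →+* FK0 A (N0 * q * q) :=
  beta2K (N0 := N0) (q := q) (A.inertiaSubgroupIn ℚ)

/-- `α² : F₀ → F₂` (`g ↦ g(t)`), in the `ChartX0` spelling of the fields -/
def alpha2X (A : ValuationSubring Kb) (N0 q : ℕ) [NeZero N0] [NeZero q] :
    FK0 A N0 →+* FK0 A (N0 * q * q) :=
  alpha2K (N0 := N0) (q := q) (A.inertiaSubgroupIn ℚ)

theorem beta2X_apply (x : FK0 A N0) :
    beta2X A N0 q x = beta2K (N0 := N0) (q := q) (A.inertiaSubgroupIn ℚ) x := rfl

theorem alpha2X_apply (x : FK0 A N0) :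
    alpha2X A N0 q x = alpha2K (N0 := N0) (q := q) (A.inertiaSubgroupIn ℚ) x := rfl

theorem beta2X_algebraMap_W (c : ↥(W A)) :
    beta2X A N0 q (algebraMap ↥(W A) (FK0 A N0) c) = algebraMap ↥(W A) (FK0 A (N0 * q * q)) c :=
  beta2K_algebraMap_W c

theorem alpha2X_algebraMap_W (c : ↥(W A)) :
    alpha2X A N0 q (algebraMap ↥(W A) (FK0 A N0) c) = algebraMap ↥(W A) (FK0 A (N0 * q * q)) c :=
  alpha2K_algebraMap_W c

/-- `j(t^(q²))`, the image of `j` under `β²` -/
theorem beta2X_j0K :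
    beta2X A N0 q (j0K (A.inertiaSubgroupIn ℚ) N0) =
      Fermat.Agent.S36.JIntegral.jL (A.inertiaSubgroupIn ℚ) N0 q 2 := rfl

theorem alpha2X_j0K :
    alpha2X A N0 q (j0K (A.inertiaSubgroupIn ℚ) N0) =
      Fermat.Agent.S36.JIntegral.jL (A.inertiaSubgroupIn ℚ) N0 q 0 :=
  Fermat.Agent.S36.TripleChart.alpha2K_j0K (A.inertiaSubgroupIn ℚ)

variable {φ2 : FK0 A (N0 * q * q)}
  (h12 : beta2X A N0 q (j0K (A.inertiaSubgroupIn ℚ) N0) ∈
    chart (F := FK0 A (N0 * q * q)) ↥(W A) φ2)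

include h12 in
/-- `β²` maps the level-`N0` chart into the level-`N0 q²` chart -/
theorem beta2X_mem_chart {x : FK0 A N0}
    (hx : x ∈ chart (F := FK0 A N0) ↥(W A) (j0K (A.inertiaSubgroupIn ℚ) N0)) :
    beta2X A N0 q x ∈ chart (F := FK0 A (N0 * q * q)) ↥(W A) φ2 :=
  Fermat.Agent.S36.CompNormal.map_mem_chart_of_mem (beta2X A N0 q) beta2X_algebraMap_W h12 hx

include h12 in
/-- `α²` maps the level-`N0` chart into the level-`N0 q²` chart -/
theorem alpha2X_mem_chart {x : FK0 A N0}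
    (hx : x ∈ chart (F := FK0 A N0) ↥(W A) (j0K (A.inertiaSubgroupIn ℚ) N0)) :
    alpha2X A N0 q x ∈ chart (F := FK0 A (N0 * q * q)) ↥(W A) φ2 := by
  have h02 : (Fermat.Agent.S36.JIntegral.jL (A.inertiaSubgroupIn ℚ) N0 q 0 :
      FK0 A (N0 * q * q)) ∈ chart (F := FK0 A (N0 * q * q)) ↥(W A)
        (Fermat.Agent.S36.JIntegral.jL (A.inertiaSubgroupIn ℚ) N0 q 2 : FK0 A (N0 * q * q)) :=
    @Fermat.Agent.S36.JIntegral.jL_mem_chart (A.inertiaSubgroupIn ℚ) N0 q _ _ _ _ hqF.out ↥(W A) _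
      (algebraW A (N0 * q * q)) 0 2
  have h0 : alpha2X A N0 q (j0K (A.inertiaSubgroupIn ℚ) N0) ∈
      chart (F := FK0 A (N0 * q * q)) ↥(W A) φ2 := by
    have := Fermat.Agent.S36.CompNormal.mem_chart_of_mem_chart (F := FK0 A (N0 * q * q))
      (beta2X_j0K (A := A) (N0 := N0) (q := q) ▸ h12) h02
    exact (alpha2X_j0K (A := A) (N0 := N0) (q := q)) ▸ this
  exact Fermat.Agent.S36.CompNormal.map_mem_chart_of_mem (alpha2X A N0 q) alpha2X_algebraMap_W
    h0 hx

/-- the structure map `β² : chart (W A) j → chart (W A) φ₂` -/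
def beta2C : ↥(chart (F := FK0 A N0) ↥(W A) (j0K (A.inertiaSubgroupIn ℚ) N0)) →+*
    ↥(chart (F := FK0 A (N0 * q * q)) ↥(W A) φ2) where
  toFun x := ⟨beta2X A N0 q (x : FK0 A N0), beta2X_mem_chart h12 x.2⟩
  map_one' := Subtype.ext (map_one (beta2X A N0 q))
  map_mul' x y := Subtype.ext (map_mul (beta2X A N0 q) _ _)
  map_zero' := Subtype.ext (map_zero (beta2X A N0 q))
  map_add' x y := Subtype.ext (map_add (beta2X A N0 q) _ _)

theorem coe_beta2C (x : ↥(chart (F := FK0 A N0) ↥(W A) (j0K (A.inertiaSubgroupIn ℚ) N0))) :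
    ((beta2C h12 x : ↥(chart (F := FK0 A (N0 * q * q)) ↥(W A) φ2)) : FK0 A (N0 * q * q)) =
      beta2X A N0 q (x : FK0 A N0) := rfl

/-- every element of `chart (W A) (β² j)` is integral over `β²(chart (W A) j)` -/
theorem isIntegralElem_of_mem_chart {y : FK0 A (N0 * q * q)}
    (hy : y ∈ chart (F := FK0 A (N0 * q * q)) ↥(W A)
      (beta2X A N0 q (j0K (A.inertiaSubgroupIn ℚ) N0))) :
    RingHom.IsIntegralElem
      (R := ↥(chart (F := FK0 A N0) ↥(W A) (j0K (A.inertiaSubgroupIn ℚ) N0)))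
      (A := FK0 A (N0 * q * q))
      ((beta2X A N0 q).comp
        (algebraMap ↥(chart (F := FK0 A N0) ↥(W A) (j0K (A.inertiaSubgroupIn ℚ) N0))
          (FK0 A N0))) y := by
  refine Fermat.Agent.S36.TripleChart.isIntegralElem_of_range_le
    (algebraMap (Algebra.adjoin ↥(W A)
      ({beta2X A N0 q (j0K (A.inertiaSubgroupIn ℚ) N0)} : Set (FK0 A (N0 * q * q))))
      (FK0 A (N0 * q * q)))
    _ (fun c => ?_) hy
  obtain ⟨w, hw, hwc⟩ := Fermat.Agent.S36.TripleChart.exists_map_eq_of_mem_adjoin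
    (beta2X A N0 q) beta2X_algebraMap_W (j0K (A.inertiaSubgroupIn ℚ) N0) c.2
  have hwR : w ∈ chart (F := FK0 A N0) ↥(W A) (j0K (A.inertiaSubgroupIn ℚ) N0) := by
    have h : IsIntegral (Algebra.adjoin ↥(W A)
        ({j0K (A.inertiaSubgroupIn ℚ) N0} : Set (FK0 A N0)))
        (algebraMap (Algebra.adjoin ↥(W A) ({j0K (A.inertiaSubgroupIn ℚ) N0} : Set (FK0 A N0)))
          (FK0 A N0) ⟨w, hw⟩) := isIntegral_algebraMap
    exact h
  exact ⟨⟨w, hwR⟩, hwc⟩

variable (h21 : φ2 ∈ chart (F := FK0 A (N0 * q * q)) ↥(W A)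
    (beta2X A N0 q (j0K (A.inertiaSubgroupIn ℚ) N0)))

include h21 in
/-- the level-`N0 q²` chart is integral over the level-`N0` chart -/
theorem beta2C_isIntegral :
    RingHom.IsIntegral
      (R := ↥(chart (F := FK0 A N0) ↥(W A) (j0K (A.inertiaSubgroupIn ℚ) N0)))
      (A := ↥(chart (F := FK0 A (N0 * q * q)) ↥(W A) φ2)) (beta2C h12) := by
  intro x
  have hx : (x : FK0 A (N0 * q * q)) ∈ chart (F := FK0 A (N0 * q * q)) ↥(W A)
      (beta2X A N0 q (j0K (A.inertiaSubgroupIn ℚ) N0)) :=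
    Fermat.Agent.S36.CompNormal.mem_chart_of_mem_chart (F := FK0 A (N0 * q * q)) h21 x.2
  obtain ⟨p, hp, hroot⟩ := isIntegralElem_of_mem_chart hx
  refine ⟨p, hp, Subtype.ext ?_⟩
  have h1 := Polynomial.hom_eval₂ p (beta2C h12)
    (algebraMap ↥(chart (F := FK0 A (N0 * q * q)) ↥(W A) φ2) (FK0 A (N0 * q * q))) x
  exact h1.trans hroot

end Upper

end Fermat.Agent.S36.TripleX0
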