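/-
PROJECT V (S36), slice V-TripleX0 (helper4), chain (V12)(iii): **the triple points at `X₀`, finite
chart: the final statement** = the hypothesis `hS` of `S36/AllPointsT.locPrincipal_of_isMaximal`
(helper7) at `X₀`, modulo the identification of the point `x₂₀(n) = x₀₂(n)` with a maximal ideal over
the closed point of the level-`N0` chart (`r₀₂ ∘ a₂ = red₀`, `S36/CompNormalX0`).

* `locPrincipal_of_chart_hom` : `TripleAssembly.locPrincipal_of_chart` with the structure maps
  `A₀ → A`, `F₀ → F` given as ring homomorphisms (abstract).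
* `hred_X0`, `isUnit_X0`, `hroot_X0` : the inputs at `X₀` (from `S36/TripleX0`).
* **`locPrincipal_of_node`** : `b` a non-cuspidal place of `F_k(N0)` with `Fr² b = b` at which the
  count holds (`hcount : ∀ π Θ, ord_b π = 1 → (θ π)^(q-1) = Θ → ord_b Θ = -2`, the conclusion of
  `S36/CountNode.count_of_hb0` at `b ∈ S`), `φ₂` a chart function of level `N0 q²` with
  `chart (W A) φ₂ = chart (W A) j(t^(q²))` (`h12`, `h21`), `H` Deuring's `Hyp`
  (`S37/ReductionInputsX0.hyp_X0`).  Then every maximal ideal `m` of `chart (W A) φ₂` with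
  `β² x ∈ m ↔ ord_b (red₀ x) > 0` (`x ∈ chart (W A) j`) is `LocalGenCore.LocPrincipal`.
* **`locPrincipal_of_node_x2`** : the same for `φ₂ = x₂ = CompNormalX0.x2` (no hypothesis on `φ₂`),
  `β² = CompNormalX0.a₂` (`beta2X_eq_a₂`).
-/
import Mathlib
import Fermat.Agent.S36.TripleX0
import Fermat.Agent.S36.ChartsX0Leaf

set_option autoImplicit false
set_option linter.unusedSectionVars false
set_option linter.unusedVariables false
set_option linter.style.haveILetI false
set_option synthInstance.maxHeartbeats 400000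
set_option maxHeartbeats 1600000

noncomputable section

namespace Fermat.Agent.S36.TripleX0Final

open ModularCurve AlgebraicCurve IntermediateField Polynomial IsLocalRing
open Fermat.Agent.S18.B.FkBasics (jk)
open Fermat.Agent.S18.C.SmallDVR
open Fermat.Agent.S36.ChartRing Fermat.Agent.S36.ChartX0 Fermat.Agent.S36.GaussK0Comap
open Fermat.Agent.S36.PowerBasisK0
open Fermat.Agent.S37.Gauss Fermat.Agent.S37.Deuring.Core
open Fermat.Agent.S36.TripleX0 Fermat.Agent.S36.LocalGenCore Fermat.Agent.S36.TripleDescent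

local notation "Kb" => AlgebraicClosure ℚ

/-! ### the abstract assembly, with the level maps as ring homomorphisms -/

section Abstract

variable {A₀ : Type*} [CommRing A₀] [IsDomain A₀] [IsNoetherianRing A₀] [IsIntegrallyClosed A₀]
  {F₀ : Type*} [Field F₀] [Algebra A₀ F₀] [IsFractionRing A₀ F₀]
  {A : Type*} [CommRing A] [IsDomain A] [IsNoetherianRing A] [IsIntegrallyClosed A]
  {F : Type*} [Field F] [Algebra A F] [IsFractionRing A F]
  {κ : Type*} [Field κ] (Ob : ValuationSubring κ) [IsDiscreteValuationRing Ob]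
  (ρ0 : A₀ →+* Ob) (m0 : Ideal A₀) [m0.IsPrime]
  (hm0 : ∀ a : A₀, a ∈ m0 ↔ ρ0 a ∈ maximalIdeal Ob)

include hm0 in
/-- `TripleAssembly.locPrincipal_of_chart` with the structure maps `A₀ → A`, `F₀ → F` given as ring
homomorphisms (no algebra instances to be matched by the caller) -/
theorem locPrincipal_of_chart_hom (β : A₀ →+* A) (βF : F₀ →+* F)
    (hβ : ∀ x : A₀, algebraMap A F (β x) = βF (algebraMap A₀ F₀ x))
    (hint : β.IsIntegral)
    (hfin : letI := βF.toAlgebra
      Module.Finite F₀ F)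
    (hloc : ∀ d : Ob, ∃ a t : A₀, t ∉ m0 ∧ ρ0 t * d = ρ0 a)
    {q0 : A₀} (hker : RingHom.ker ρ0 = Ideal.span {q0}) (hq0 : q0 ≠ 0)
    {s : A₀} (hs : Irreducible (ρ0 s))
    {P : A₀[X]} (hP : P.Monic) (hd : P.natDegree ≠ 0)
    (hred : ∀ i < P.natDegree, ρ0 s ∣ ρ0 (P.coeff i))
    {r : A₀} (hr : IsUnit (ρ0 r)) (heval : P.eval s = q0 * r)
    (α : A) (hroot : P.eval₂ β α = 0)
    (hdeg : letI := βF.toAlgebra
      Module.finrank F₀ F = P.natDegree)
    (m : Ideal A) [m.IsMaximal] (hmm₀ : m.comap β = m0) :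
    LocPrincipal (F := F) m := by
  letI iA : Algebra A₀ A := β.toAlgebra
  letI iF : Algebra A₀ F := ((algebraMap A F).comp β).toAlgebra
  haveI : IsScalarTower A₀ A F := IsScalarTower.of_algebraMap_eq fun x => rfl
  letI iFF : Algebra F₀ F := βF.toAlgebra
  haveI : IsScalarTower A₀ F₀ F := IsScalarTower.of_algebraMap_eq fun x => hβ x
  haveI : FiniteDimensional F₀ F := hfin
  haveI : Algebra.IsIntegral A₀ A := ⟨hint⟩
  exact Fermat.Agent.S36.TripleAssembly.locPrincipal_of_chart (F₀ := F₀) (F := F) Ob ρ0 m0 hm0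
    hloc hker hq0 hs hP hd hred hr heval α hroot hdeg m hmm₀

end Abstract

/-! ### the inputs at `X₀` -/

section X0

variable {q : ℕ} [hqF : Fact q.Prime] {N0 : ℕ} [NeZero N0] [NeZero q] [NeZero (N0 * q)]
  [NeZero (N0 * q * q)] {A : ValuationSubring Kb}
variable (hA : A.LiesOverPrime q) (hqN : ¬ q ∣ N0)
variable (b : Place (ResidueField ↥A) ↥(modularFunctionFieldFullC (ResidueField ↥A) N0))
  (hv : jk (ResidueField ↥A) N0 ∈ b.toValuationSubring)

theorem natCast_ne_zero :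
    ((q : ℕ) : ↥(chart (F := FK0 A N0) ↥(W A) (j0K (A.inertiaSubgroupIn ℚ) N0))) ≠ 0 := by
  intro h
  have h' := congrArg (fun z : ↥(chart (F := FK0 A N0) ↥(W A)
    (j0K (A.inertiaSubgroupIn ℚ) N0)) => (z : FK0 A N0)) h
  simp only [SubringClass.coe_natCast, ZeroMemClass.coe_zero] at h'
  exact hqF.out.ne_zero (by exact_mod_cast h')

/-- the lower coefficients of the characteristic polynomial reduce into `(ρ0 s)` -/
theorem hred_X0
    (hb2 : haveI : CharP (ResidueField ↥A) q :=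
        Fermat.Agent.S18.ResidueBasics.charP_residueField A hA
      haveI : IsAlgClosed (ResidueField ↥A) :=
        Fermat.Agent.S18.ResidueBasics.isAlgClosed_residueField A
      Fermat.Agent.S34.FrobK.Fr (ResidueField ↥A) N0 q
        (Fermat.Agent.S34.FrobK.Fr (ResidueField ↥A) N0 q b) = b)
    {s : ↥(chart (F := FK0 A N0) ↥(W A) (j0K (A.inertiaSubgroupIn ℚ) N0))}
    (hs : b.ord (redX hA hqN ⟨(s : FK0 A N0), chart_le_OgX hA hqN s.2⟩) = 1)
    {P : Polynomial ↥(chart (F := FK0 A N0) ↥(W A) (j0K (A.inertiaSubgroupIn ℚ) N0))}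
    (hP2 : P.natDegree = q ^ 2 + q)
    (hP4 : haveI : CharP (ResidueField ↥A) q :=
        Fermat.Agent.S18.ResidueBasics.charP_residueField A hA
      haveI : IsAlgClosed (ResidueField ↥A) :=
        Fermat.Agent.S18.ResidueBasics.isAlgClosed_residueField A
      ∀ i, ((rhoX0 hA hqN (P.coeff i) : ↥(chart (ResidueField ↥A) (jk (ResidueField ↥A) N0))) :
          ↥(modularFunctionFieldFullC (ResidueField ↥A) N0)) =
        (Fermat.Agent.S36.TripleEval.redPoly (ResidueField ↥A) N0 q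
          ((rhoX0 hA hqN s : ↥(chart (ResidueField ↥A) (jk (ResidueField ↥A) N0))) :
            ↥(modularFunctionFieldFullC (ResidueField ↥A) N0))).coeff i)
    (i : ℕ) (hi : i < P.natDegree) :
    rho0 hA hqN b hv s ∣ rho0 hA hqN b hv (P.coeff i) := by
  haveI : CharP (ResidueField ↥A) q := Fermat.Agent.S18.ResidueBasics.charP_residueField A hA
  haveI : IsAlgClosed (ResidueField ↥A) :=
    Fermat.Agent.S18.ResidueBasics.isAlgClosed_residueField A
  rw [hP2] at hi
  refine Fermat.Agent.S36.SpecDictLocal.dvd_of_not_isUnit b hs _ ?_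
  have h1 : rho0 hA hqN b hv (P.coeff i) ∈ maximalIdeal ↥b.toValuationSubring := by
    rw [Fermat.Agent.S24.Ord.mem_maximalIdeal_iff]
    show b.adicValuation ((rhoX0 hA hqN (P.coeff i) :
      ↥(chart (ResidueField ↥A) (jk (ResidueField ↥A) N0))) :
        ↥(modularFunctionFieldFullC (ResidueField ↥A) N0)) < 1
    rw [hP4 i]
    exact adicValuation_coeff_redPoly_lt_one b hb2 hs hi
  exact (mem_maximalIdeal _).mp h1

/-- the cofactor reduces to a unit of `O_b` -/
theorem isUnit_X0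
    (hb2 : haveI : CharP (ResidueField ↥A) q :=
        Fermat.Agent.S18.ResidueBasics.charP_residueField A hA
      haveI : IsAlgClosed (ResidueField ↥A) :=
        Fermat.Agent.S18.ResidueBasics.isAlgClosed_residueField A
      Fermat.Agent.S34.FrobK.Fr (ResidueField ↥A) N0 q
        (Fermat.Agent.S34.FrobK.Fr (ResidueField ↥A) N0 q b) = b)
    (hcount : ∀ π Θ : ↥(modularFunctionFieldFullC (ResidueField ↥A) N0), b.ord π = 1 →
      Fermat.Agent.S36.ThetaL.thetaL (π : LaurentSeries (ResidueField ↥A)) ^ (q - 1) =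
        (Θ : LaurentSeries (ResidueField ↥A)) → b.ord Θ = -2)
    {f g : ↥(modularFunctionFieldFullC (ResidueField ↥A) N0)} (hf : b.ord f = 1)
    (hg : haveI : CharP (ResidueField ↥A) q :=
        Fermat.Agent.S18.ResidueBasics.charP_residueField A hA
      haveI : IsAlgClosed (ResidueField ↥A) :=
        Fermat.Agent.S18.ResidueBasics.isAlgClosed_residueField A
      (g : LaurentSeries (ResidueField ↥A)) =
      (((f - Fermat.Agent.S34.FrobK.phi (ResidueField ↥A) N0 q
            (Fermat.Agent.S34.FrobK.phi (ResidueField ↥A) N0 q f)) *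
        (Fermat.Agent.S34.FrobK.phi (ResidueField ↥A) N0 q
            (Fermat.Agent.S34.FrobK.phi (ResidueField ↥A) N0 q
              (Fermat.Agent.S36.TripleEval.sig (ResidueField ↥A) N0 q
                (Fermat.Agent.S36.TripleEval.sig (ResidueField ↥A) N0 q f))) -
          Fermat.Agent.S36.TripleEval.sig (ResidueField ↥A) N0 q
            (Fermat.Agent.S36.TripleEval.sig (ResidueField ↥A) N0 q f)) :
          ↥(modularFunctionFieldFullC (ResidueField ↥A) N0)) :
            LaurentSeries (ResidueField ↥A)) *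
        Fermat.Agent.S36.ThetaL.thetaL (f : LaurentSeries (ResidueField ↥A)) ^ (q - 1))
    (hgb : g ∈ b.toValuationSubring) :
    IsUnit (⟨g, hgb⟩ : ↥b.toValuationSubring) := by
  haveI : CharP (ResidueField ↥A) q := Fermat.Agent.S18.ResidueBasics.charP_residueField A hA
  haveI : IsAlgClosed (ResidueField ↥A) :=
    Fermat.Agent.S18.ResidueBasics.isAlgClosed_residueField A
  obtain ⟨hg0, hg1⟩ := ord_eq_zero_of_cofactor b hb2 hf hg hcount
  by_contra hnu
  have hd0 : (⟨g, hgb⟩ : ↥b.toValuationSubring) ≠ 0 := fun h0 => hg0 (congrArg Subtype.val h0)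
  have := (Fermat.Agent.S36.SpecDictLocal.not_isUnit_iff_ord_pos b _ hd0).mp hnu
  rw [show ((⟨g, hgb⟩ : ↥b.toValuationSubring) :
    ↥(modularFunctionFieldFullC (ResidueField ↥A) N0)) = g from rfl, hg1] at this
  exact lt_irrefl _ this

variable {φ2 : FK0 A (N0 * q * q)}
  (h12 : beta2X A N0 q (j0K (A.inertiaSubgroupIn ℚ) N0) ∈
    chart (F := FK0 A (N0 * q * q)) ↥(W A) φ2)

/-- `α² s` is a root of the characteristic polynomial along `β²` -/
theorem hroot_X0 (s : ↥(chart (F := FK0 A N0) ↥(W A) (j0K (A.inertiaSubgroupIn ℚ) N0)))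
    {P : Polynomial ↥(chart (F := FK0 A N0) ↥(W A) (j0K (A.inertiaSubgroupIn ℚ) N0))}
    (hP3 : P.map (algebraMap ↥(chart (F := FK0 A N0) ↥(W A) (j0K (A.inertiaSubgroupIn ℚ) N0))
        (FK0 A N0)) = psiPolyK (A.inertiaSubgroupIn ℚ) hqF.out hqN (s : FK0 A N0)) :
    P.eval₂ (beta2C h12)
      (⟨alpha2X A N0 q (s : FK0 A N0), alpha2X_mem_chart h12 s.2⟩ :
        ↥(chart (F := FK0 A (N0 * q * q)) ↥(W A) φ2)) = 0 := by
  apply Subtype.ext
  have h1 := Polynomial.hom_eval₂ P (beta2C h12)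
    (algebraMap ↥(chart (F := FK0 A (N0 * q * q)) ↥(W A) φ2) (FK0 A (N0 * q * q)))
    (⟨alpha2X A N0 q (s : FK0 A N0), alpha2X_mem_chart h12 s.2⟩ :
      ↥(chart (F := FK0 A (N0 * q * q)) ↥(W A) φ2))
  have h2 : P.eval₂ ((beta2X A N0 q).comp
      (algebraMap ↥(chart (F := FK0 A N0) ↥(W A) (j0K (A.inertiaSubgroupIn ℚ) N0)) (FK0 A N0)))
      (alpha2X A N0 q (s : FK0 A N0)) =
      (P.map (algebraMap ↥(chart (F := FK0 A N0) ↥(W A) (j0K (A.inertiaSubgroupIn ℚ) N0))
        (FK0 A N0))).eval₂ (beta2X A N0 q) (alpha2X A N0 q (s : FK0 A N0)) :=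
    (Polynomial.eval₂_map _ _ _).symm
  have h3 : (P.map (algebraMap ↥(chart (F := FK0 A N0) ↥(W A)
      (j0K (A.inertiaSubgroupIn ℚ) N0)) (FK0 A N0))).eval₂ (beta2X A N0 q)
      (alpha2X A N0 q (s : FK0 A N0)) = 0 :=
    (congrArg (fun Q : Polynomial (FK0 A N0) =>
      Q.eval₂ (beta2X A N0 q) (alpha2X A N0 q (s : FK0 A N0))) hP3).trans
      (psiPolyK_root (A.inertiaSubgroupIn ℚ) hqF.out hqN (s : FK0 A N0))
  exact h1.trans (h2.trans h3)

variable (h21 : φ2 ∈ chart (F := FK0 A (N0 * q * q)) ↥(W A)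
    (beta2X A N0 q (j0K (A.inertiaSubgroupIn ℚ) N0)))

include h21 hv in
/-- **(V12)(iii) at `X₀`, finite chart: local principality at the triple points.**

`b` a non-cuspidal place of the special fibre `F_k(N0)` fixed by `Fr²` at which the count holds
(`hcount`: `ord_b (θ π)^(q-1) = -2` for every local parameter `π`; `S36/CountNode.count_of_hb0` at a
node).  `φ₂` a chart function of level `N0 q²` whose chart ring is the chart ring of `j(t^(q²))`
(`h12`, `h21`; e.g. `φ₂ = x₂ = j(t) j(t^q) j(t^(q²))`).  Then every maximal ideal `m` of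
`chart (W A) φ₂` lying over the closed point of `chart (W A) j` below `b` (along `β²`) is
`LocPrincipal`. -/
theorem locPrincipal_of_node (hφ2 : Transcendental ↥(K0 A) φ2) {gL gk : ℕ}
    (H : Hyp (Datum.gaussDatum N0 A hA hqN) gL gk)
    (hb2 : haveI : CharP (ResidueField ↥A) q :=
        Fermat.Agent.S18.ResidueBasics.charP_residueField A hA
      haveI : IsAlgClosed (ResidueField ↥A) :=
        Fermat.Agent.S18.ResidueBasics.isAlgClosed_residueField A
      Fermat.Agent.S34.FrobK.Fr (ResidueField ↥A) N0 q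
        (Fermat.Agent.S34.FrobK.Fr (ResidueField ↥A) N0 q b) = b)
    (hcount : ∀ π Θ : ↥(modularFunctionFieldFullC (ResidueField ↥A) N0), b.ord π = 1 →
      Fermat.Agent.S36.ThetaL.thetaL (π : LaurentSeries (ResidueField ↥A)) ^ (q - 1) =
        (Θ : LaurentSeries (ResidueField ↥A)) → b.ord Θ = -2)
    (m : Ideal ↥(chart (F := FK0 A (N0 * q * q)) ↥(W A) φ2)) (hm : m.IsMaximal)
    (hmb : ∀ x : ↥(chart (F := FK0 A N0) ↥(W A) (j0K (A.inertiaSubgroupIn ℚ) N0)),
      beta2C h12 x ∈ m ↔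
        b.adicValuation (redX hA hqN ⟨(x : FK0 A N0), chart_le_OgX hA hqN x.2⟩) < 1) :
    LocPrincipal (A := ↥(chart (F := FK0 A (N0 * q * q)) ↥(W A) φ2))
      (F := FK0 A (N0 * q * q)) m := by
  haveI : CharP (ResidueField ↥A) q := Fermat.Agent.S18.ResidueBasics.charP_residueField A hA
  haveI : IsAlgClosed (ResidueField ↥A) :=
    Fermat.Agent.S18.ResidueBasics.isAlgClosed_residueField A
  obtain ⟨hN0, hI0, hF0⟩ := chartX0_props hA N0 (LiftK0Chart.transcendental_j0K A N0)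
  obtain ⟨hN2, hI2, hF2⟩ := chartX0_props hA (N0 * q * q) hφ2
  obtain ⟨s, hs⟩ := exists_param hA hqN b hv H
  obtain ⟨P, hP1, hP2, hP3, hP4⟩ := exists_poly hA hqN s
  obtain ⟨r, hr1, hr2⟩ := exists_cofactor hA hqN s hP3
  haveI : m.IsMaximal := hm
  have hd : P.natDegree ≠ 0 := by
    rw [hP2]
    have := hqF.out.pos
    positivity
  have hmm₀ : m.comap (beta2C h12) = m0 hA hqN b hv := by
    ext x
    rw [Ideal.mem_comap, mem_m0_iff_val]
    exact hmb x
  have hr : IsUnit (rho0 hA hqN b hv r) :=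
    isUnit_X0 hA b hb2 hcount hs hr2 (rho0 hA hqN b hv r).2
  refine locPrincipal_of_chart_hom
    (A₀ := ↥(chart (F := FK0 A N0) ↥(W A) (j0K (A.inertiaSubgroupIn ℚ) N0))) (F₀ := FK0 A N0)
    (A := ↥(chart (F := FK0 A (N0 * q * q)) ↥(W A) φ2)) (F := FK0 A (N0 * q * q))
    (q0 := ((q : ℕ) : ↥(chart (F := FK0 A N0) ↥(W A) (j0K (A.inertiaSubgroupIn ℚ) N0))))
    (s := s) (P := P) (r := r)
    b.toValuationSubring (rho0 hA hqN b hv) (m0 hA hqN b hv)
    ?h1 (beta2C h12) (beta2X A N0 q) ?h2 ?h3 ?h4 ?h5 ?h6 ?h7 ?h8 ?h9 ?h10 ?h11 ?h12 ?h13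
    (⟨alpha2X A N0 q (s : FK0 A N0), alpha2X_mem_chart h12 s.2⟩ :
        ↥(chart (F := FK0 A (N0 * q * q)) ↥(W A) φ2)) ?h14 ?h15 m ?h16
  case h1 => exact mem_m0_iff hA hqN b hv
  case h2 => exact fun x => rfl
  case h3 => exact beta2C_isIntegral h12 h21
  case h4 => exact finite_beta2K (A.inertiaSubgroupIn ℚ) hqF.out hqN
  case h5 => exact hloc hA hqN b hv H
  case h6 => exact ker_rho0 hA hqN b hv
  case h7 => exact natCast_ne_zero
  case h8 => exact irreducible_rho0 hA hqN b hv hs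
  case h9 => exact hP1
  case h10 => exact hd
  case h11 => exact hred_X0 hA hqN b hv hb2 hs hP2 hP4
  case h12 => exact hr
  case h13 => exact hr1
  case h14 => exact hroot_X0 hqN h12 s hP3
  case h15 => exact (finrank_beta2K (A.inertiaSubgroupIn ℚ) hqF.out hqN).trans hP2.symm
  case h16 => exact hmm₀

end X0

/-! ### the chart `x₂ = j(t) j(t^q) j(t^(q²))` -/

section X2

variable {q : ℕ} [hqF : Fact q.Prime] {N0 : ℕ} [NeZero N0] [NeZero q] [NeZero (N0 * q)]
  [NeZero (N0 * q * q)] {A : ValuationSubring Kb}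
variable (hA : A.LiesOverPrime q) (hqN : ¬ q ∣ N0)

/-- `β²` is the level map `a₂` of `S36/CompNormalX0` -/
theorem beta2X_eq_a₂ (x : FK0 A N0) :
    beta2X A N0 q x = Fermat.Agent.S36.CompNormalX0.a₂ (A.inertiaSubgroupIn ℚ) N0 q x := rfl

/-- `α²` is the level map `a₀` of `S36/CompNormalX0` -/
theorem alpha2X_eq_a₀ (x : FK0 A N0) :
    alpha2X A N0 q x = Fermat.Agent.S36.CompNormalX0.a₀ (A.inertiaSubgroupIn ℚ) N0 q x := rfl

/-- `j(t^(q²)) ∈ chart (W A) x₂` -/
theorem h12_x2 :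
    beta2X A N0 q (j0K (A.inertiaSubgroupIn ℚ) N0) ∈
      chart (F := FK0 A (N0 * q * q)) ↥(W A)
        (Fermat.Agent.S36.CompNormalX0.x2 (A.inertiaSubgroupIn ℚ) N0 q) :=
  Fermat.Agent.S36.SymChart.mem_chart_prod (F := FK0 A (N0 * q * q)) (O := ↥(W A))
    (j := Fermat.Agent.S36.JIntegral.jL (A.inertiaSubgroupIn ℚ) N0 q)
    (@Fermat.Agent.S36.JIntegral.jL_isIntegral (A.inertiaSubgroupIn ℚ) N0 q _ _ _ _ hqF.out ↥(W A) _
      (algebraW A (N0 * q * q))) 2

/-- `x₂ ∈ chart (W A) j(t^(q²))` -/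
theorem h21_x2 :
    Fermat.Agent.S36.CompNormalX0.x2 (A.inertiaSubgroupIn ℚ) N0 q ∈
      chart (F := FK0 A (N0 * q * q)) ↥(W A)
        (beta2X A N0 q (j0K (A.inertiaSubgroupIn ℚ) N0)) :=
  Fermat.Agent.S36.SymChart.prod_mem_chart (F := FK0 A (N0 * q * q)) (O := ↥(W A))
    (j := Fermat.Agent.S36.JIntegral.jL (A.inertiaSubgroupIn ℚ) N0 q)
    (@Fermat.Agent.S36.JIntegral.jL_isIntegral (A.inertiaSubgroupIn ℚ) N0 q _ _ _ _ hqF.out ↥(W A) _
      (algebraW A (N0 * q * q))) 2

/-- **(V12)(iii) at `X₀`: local principality at the triple points of the chart `{x₂ ≠ ∞}`.**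

`b` a non-cuspidal `Fr²`-fixed place of `F_k(N0)` at which the count holds.  Every maximal ideal `m`
of `chart (W A) x₂` whose contraction along `β² = a₂` is the closed point of `chart (W A) j` below
`b` (`hmb`: `a₂ x ∈ m ↔ red₀ x` vanishes at `b`) is `LocPrincipal`. -/
theorem locPrincipal_of_node_x2 {gL gk : ℕ}
    (H : Hyp (Datum.gaussDatum N0 A hA hqN) gL gk)
    (b : Place (ResidueField ↥A) ↥(modularFunctionFieldFullC (ResidueField ↥A) N0))
    (hv : jk (ResidueField ↥A) N0 ∈ b.toValuationSubring)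
    (hb2 : haveI : CharP (ResidueField ↥A) q :=
        Fermat.Agent.S18.ResidueBasics.charP_residueField A hA
      haveI : IsAlgClosed (ResidueField ↥A) :=
        Fermat.Agent.S18.ResidueBasics.isAlgClosed_residueField A
      Fermat.Agent.S34.FrobK.Fr (ResidueField ↥A) N0 q
        (Fermat.Agent.S34.FrobK.Fr (ResidueField ↥A) N0 q b) = b)
    (hcount : ∀ π Θ : ↥(modularFunctionFieldFullC (ResidueField ↥A) N0), b.ord π = 1 →
      Fermat.Agent.S36.ThetaL.thetaL (π : LaurentSeries (ResidueField ↥A)) ^ (q - 1) =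
        (Θ : LaurentSeries (ResidueField ↥A)) → b.ord Θ = -2)
    (m : Ideal ↥(chart (F := FK0 A (N0 * q * q)) ↥(W A)
      (Fermat.Agent.S36.CompNormalX0.x2 (A.inertiaSubgroupIn ℚ) N0 q))) (hm : m.IsMaximal)
    (hmb : ∀ (x : FK0 A N0)
      (hx : x ∈ chart (F := FK0 A N0) ↥(W A) (j0K (A.inertiaSubgroupIn ℚ) N0))
      (hx2 : beta2X A N0 q x ∈ chart (F := FK0 A (N0 * q * q)) ↥(W A)
        (Fermat.Agent.S36.CompNormalX0.x2 (A.inertiaSubgroupIn ℚ) N0 q)),
      (⟨beta2X A N0 q x, hx2⟩ : ↥(chart (F := FK0 A (N0 * q * q)) ↥(W A)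
        (Fermat.Agent.S36.CompNormalX0.x2 (A.inertiaSubgroupIn ℚ) N0 q))) ∈ m ↔
        b.adicValuation (redX hA hqN ⟨x, chart_le_OgX hA hqN hx⟩) < 1) :
    LocPrincipal (A := ↥(chart (F := FK0 A (N0 * q * q)) ↥(W A)
        (Fermat.Agent.S36.CompNormalX0.x2 (A.inertiaSubgroupIn ℚ) N0 q)))
      (F := FK0 A (N0 * q * q)) m :=
  locPrincipal_of_node hA hqN b hv h12_x2 h21_x2
    (Fermat.Agent.S36.ChartsX0Leaf.transcendental_x2_K0 A N0) H hb2 hcount m hm
    (fun x => hmb (x : FK0 A N0) x.2 (beta2X_mem_chart h12_x2 x.2))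

end X2

end Fermat.Agent.S36.TripleX0Final
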