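/-
PROJECT V (S36), chain (V12)(iii) at `X₀`, the last seam (helper14): **the hypothesis `hS` of
`LocX0Inst.hloc_X0_inst` / `AllPointsT.locPrincipal_of_isMaximal` on the ACTUAL fin `TDatum`
(`FinTDatumX0.finTDatumX0` = helper27's `BranchFinX0.finTDatumX0`), from helper4's
`TripleX0Final.locPrincipal_of_node_x2`, and the CLOSED block (B2) `hloc ∧ hloc'`.**

For `n ∈ D.S = nodeSet k M (jk k M) S0`, `n = pointOf b hv` with `b ∈ S0`; the inputs of
`locPrincipal_of_node_x2` at `m := D.x20 n` are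
* `H` : the Deuring hypothesis (`CoreZX0OfGeneric.HX0 hA hqM HM` at the actual objects),
* `hb2 := hFr2 b`,
* `hcount := (CountFinX0.count_finTDatumOf .. b hb hπ hΘ).1 hbS0` (helper17),
* `hmb` : `a₂ x ∈ D.x20 n ↔ red₀ x` vanishes at `b`
  (`TriplePointX0.mem_x20_iff` of helper16 + `SpecDictOne.mem_pointOf_iff_val` + the Link field
  `hred0 : Y.red₀ = red0z`).

* `hS_finTDatumX0` : a VARIABLE `Y` with `LinkQ`, `hO₀`, `hred0`;
* `hS_finTDatumY`, `hloc_both_Y_closed` : the actual objects (`Y = hypX0 hA hqM`), NO hypothesis.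
-/
import Mathlib
import Fermat.Agent.S36.TripleX0Final
import Fermat.Agent.S36.TriplePointX0
import Fermat.Agent.S36.CountFinX0
import Fermat.Agent.S36.FinTDatumX0
import Fermat.Agent.S36.BranchFinX0
import Fermat.Agent.S36.LocX0FinalY
import Fermat.Agent.S36.MinpolyJ2
import Fermat.Agent.S34.CoreZX0OfGeneric
import Fermat.Agent.S36.EulerExact.Desc

set_option autoImplicit false
set_option linter.unusedSectionVars false
set_option linter.style.haveILetI false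
set_option linter.unusedVariables false
set_option synthInstance.maxHeartbeats 400000

noncomputable section

namespace Fermat.Agent.S36.TripleHSX0

open ModularCurve AlgebraicCurve IsLocalRing IntermediateField Polynomial
open Fermat.Agent.S18.B.FkBasics (jk)
open Fermat.Agent.S18.C.SmallDVR
open Fermat.Agent.S34.EulerX0 Fermat.Agent.S34.EulerClosedX0
open Fermat.Agent.S34.FrobK Fermat.Agent.S34.Euler.Value Fermat.Agent.S34.Euler.FrobSide
open Fermat.Agent.S36.NodesDesc Fermat.Agent.S36.PairLiftK0 Fermat.Agent.S36.PowerBasisK0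
open Fermat.Agent.S36.ThetaK0 Fermat.Agent.S36.ChartRing Fermat.Agent.S36.CompNormal
open Fermat.Agent.S36.SpecDictOne Fermat.Agent.S36.Centre
open Fermat.Agent.S36.CompNormalX0 Fermat.Agent.S36.BranchX0 Fermat.Agent.S36.BranchNodeX0
open Fermat.Agent.S36.BranchX0NodeG
open Fermat.Agent.S36.ChartX0 Fermat.Agent.S36.GaussK0Comap
open Fermat.Agent.S36.LocalGenCore
open Fermat.Agent.S37.Gauss Fermat.Agent.S37.Deuring.Core

local notation "Kb" => AlgebraicClosure ℚ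
local notation "GQ" => (AlgebraicClosure ℚ ≃ₐ[ℚ] AlgebraicClosure ℚ)

attribute [local instance 2000] Fermat.Agent.S34.EulerX0.algResFk

local instance instACkHS (A : ValuationSubring Kb) : IsAlgClosed (ResidueField ↥A) :=
  Fermat.Agent.S18.ResidueBasics.isAlgClosed_residueField A

variable {q : ℕ} [hq : Fact q.Prime] [NeZero q] {M : ℕ} [NeZero M] [NeZero (M * q)]
  [NeZero (M * q * q)]
variable {A : ValuationSubring Kb} {hA : A.LiesOverPrime q} {hqM : ¬ q ∣ M}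
variable [CharP (ResidueField ↥A) q] [PerfectField (ResidueField ↥A)]

local instance instAlgWFK (N : ℕ) : Algebra ↥(W A) (FK (A.inertiaSubgroupIn ℚ) N) := algebraW A N

local instance instAlgK0FK (N : ℕ) : Algebra ↥(K0 A) (FK (A.inertiaSubgroupIn ℚ) N) :=
  algebraK0 A N

local instance instTowFK (N : ℕ) :
    IsScalarTower ↥(W A) ↥(K0 A) (FK (A.inertiaSubgroupIn ℚ) N) := isScalarTowerW A N

variable {Y : ThreeValX0.Hyp (A.inertiaSubgroupIn ℚ) M q
  ↥(modularFunctionFieldFullC (ResidueField ↥A) M)}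
variable (hB : Base Y ↥(W A) (algebraMap ↥(W A) (ResidueField ↥A)))
  (L : LinkQ hA hqM (A.inertiaSubgroupIn ℚ) Y) (hO₀ : Y.O₀ = Og0 M hA hqM)
  (hred0 : ∀ (g : FK (A.inertiaSubgroupIn ℚ) M) (hg : g ∈ Y.O₀) (hg' : g ∈ Og0 M hA hqM),
    Y.red₀ ⟨g, hg⟩ = red0z M hA hqM ⟨g, hg'⟩)
variable {S0 : Finset (Place (ResidueField ↥A) ↥(modularFunctionFieldFullC (ResidueField ↥A) M))}
  (hS : ∀ b ∈ S0, b ∉ P0 (ResidueField ↥A) M) (hbS : Desc hA hqM S0)
  (hFr : ∀ b ∈ S0, Fr (ResidueField ↥A) M q b ∈ S0)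
  (hFr2 : ∀ b ∈ S0, Fr (ResidueField ↥A) M q (Fr (ResidueField ↥A) M q b) = b)

include hred0 in
set_option maxHeartbeats 6400000 in
/-- **`hS` on the actual fin `TDatum`, variable `Y`** -/
theorem hS_finTDatumX0 {gL gk : ℕ} (H : Hyp (Datum.gaussDatum M A hA hqM) gL gk)
    {r : ℕ} (hr : r.Prime) (hr12 : r % 12 = 11) (hrM : r ∣ M) :
    ∀ n : Ideal ↥(chart (ResidueField ↥A) (jk (ResidueField ↥A) M)), n.IsMaximal →
      n ∈ (Fermat.Agent.S36.FinTDatumX0.finTDatumX0 hB L hO₀ hS hbS hFr hFr2).S →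
      LocPrincipal (F := FK (A.inertiaSubgroupIn ℚ) (M * q * q))
        ((Fermat.Agent.S36.FinTDatumX0.finTDatumX0 hB L hO₀ hS hbS hFr hFr2).x20 n) := by
  intro n hn hnS
  obtain ⟨b, hbS0, hv, rfl⟩ := hnS
  obtain ⟨ζ, hζ⟩ := Fermat.Agent.S36.MinpolyJ2.exists_primitiveRoot_q hq.out
  have hred1 : ∀ (x : FK (A.inertiaSubgroupIn ℚ) (M * q)) (h : x ∈ Y.V₁)
      (h' : x ∈ V1K (A.inertiaSubgroupIn ℚ) hA hqM),
      Y.red₁ ⟨x, h⟩ = red1K (A.inertiaSubgroupIn ℚ) hA hqM ⟨x, h'⟩ := fun x h h' => L.red₁_eq h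
  have hb : 0 ≤ b.ord (jk (ResidueField ↥A) M) :=
    (Fermat.Agent.S36.EulerExact.Desc.not_mem_P0_iff_ord_nonneg b).mp (hS b hbS0)
  have hnS' : pointOf b hv ∈
      (Fermat.Agent.S36.FinTDatumX0.finTDatumX0 hB L hO₀ hS hbS hFr hFr2).S :=
    ⟨b, hbS0, hv, rfl⟩
  refine Fermat.Agent.S36.TripleX0Final.locPrincipal_of_node_x2 hA hqM H b hv (hFr2 b hbS0) ?_
    ((Fermat.Agent.S36.FinTDatumX0.finTDatumX0 hB L hO₀ hS hbS hFr hFr2).x20 (pointOf b hv))
    ((Fermat.Agent.S36.FinTDatumX0.finTDatumX0 hB L hO₀ hS hbS hFr hFr2).x20_isMaximal hn) ?_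
  · intro π' Θ hπ hΘ
    exact (Fermat.Agent.S36.CountFinX0.count_finTDatumOf L.hV₁ hred1 (finPairX0 hB L) rfl
      hr hr12 hrM hζ (hφB_fin L) (Fermat.Agent.S36.FinTDatumX0.hφpow L) hS hbS
      (node_finX0 L hO₀ hS hbS (finPairX0 hB L) (hφB_fin L))
      (Fermat.Agent.S36.FinTDatumX0.S_fr L hFr) (Fermat.Agent.S36.FinTDatumX0.fr_fr L hFr2)
      (Fermat.Agent.S36.BranchX0Rad.hrad_fin_W hA hqM Y hB hO₀) b hb hπ hΘ).1 hbS0
  · intro x hx hx2
    refine (Fermat.Agent.S36.TriplePointX0.mem_x20_iff (finPairX0 hB L) Y.hj (hJc_fin L)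
      (Fermat.Agent.S36.FinTDatumX0.finTDatumX0 hB L hO₀ hS hbS hFr hFr2) rfl hn hnS'
      ⟨x, hx⟩ ⟨_, hx2⟩ rfl).trans ?_
    rw [mem_pointOf_iff_val]
    have e : (((finPairX0 hB L).red0 Y.hj (hJc_fin L) ⟨x, hx⟩ :
        ↥(chart (ResidueField ↥A) (jk (ResidueField ↥A) M))) :
        ↥(modularFunctionFieldFullC (ResidueField ↥A) M)) =
        red0z M hA hqM ⟨x, Fermat.Agent.S36.TripleX0.chart_le_OgX hA hqM hx⟩ :=
      hred0 x _ _
    rw [e]
    rfl

/-! ### the actual objects -/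

section Actual

open Fermat.Agent.S18.NonSpecial
open Fermat.Agent.S36.LeafX Fermat.Agent.S36.LeafXInst Fermat.Agent.S36.ThreeValX0Inst

variable (hA hqM)
variable {gM : ℕ}
variable (HM : RiemannHyp (ResidueField ↥A) ↥(modularFunctionFieldFullC (ResidueField ↥A) M) gM)

set_option maxHeartbeats 6400000 in
/-- **`hS` at the actual objects**: local principality at the triple points of the finite chart,
on helper27's `BranchFinX0.finTDatumY`; NO hypothesis left (`r` = the auxiliary prime of the count) -/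
theorem hS_finTDatumY {r : ℕ} (hr : r.Prime) (hr12 : r % 12 = 11) (hrM : r ∣ M) :
    ∀ n : Ideal ↥(chart (ResidueField ↥A) (jk (ResidueField ↥A) M)), n.IsMaximal →
      n ∈ (Fermat.Agent.S36.BranchFinX0.finTDatumY hA hqM HM).S →
      LocPrincipal (F := FK (A.inertiaSubgroupIn ℚ) (M * q * q))
        ((Fermat.Agent.S36.BranchFinX0.finTDatumY hA hqM HM).x20 n) :=
  hS_finTDatumX0 (Fermat.Agent.S36.BranchFinX0.baseY hA hqM HM)
    (Fermat.Agent.S36.BranchFinX0.linkQY hA hqM) (hypX0_O₀ hA hqM) (fun _ _ _ => rfl)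
    (nodesD_off_cusps hA hqM HM) (nodesD_desc hA hqM HM) (nodesD_fr_mem hA hqM HM)
    (nodesD_fr_fr hA hqM HM) (Fermat.Agent.S34.CoreZX0OfGeneric.HX0 hA hqM HM) hr hr12 hrM

include hA hqM HM in
set_option maxHeartbeats 6400000 in
/-- **BLOCK (B2) CLOSED**: `hloc ∧ hloc'` of `NewInertiaFinal.leafHyp_of_blocks` /
`VChartsOfLoc.exists_vcharts` at the actual objects, NO hypothesis left -/
theorem hloc_both_Y_closed {r : ℕ} (hr : r.Prime) (hr12 : r % 12 = 11) (hrM : r ∣ M) :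
    (∀ m : Ideal ↥(chart ↥(W A) (x2 (A.inertiaSubgroupIn ℚ) M q)), m.IsMaximal →
      piChart (x2 (A.inertiaSubgroupIn ℚ) M q) ((q : ℕ) : ↥(W A)) ∈ m →
        LocPrincipal (F := FK (A.inertiaSubgroupIn ℚ) (M * q * q)) m) ∧
    (∀ m : Ideal ↥(chart ↥(W A) (x2 (A.inertiaSubgroupIn ℚ) M q)⁻¹), m.IsMaximal →
      piChart (x2 (A.inertiaSubgroupIn ℚ) M q)⁻¹ ((q : ℕ) : ↥(W A)) ∈ m →
        LocPrincipal (F := FK (A.inertiaSubgroupIn ℚ) (M * q * q)) m) :=
  Fermat.Agent.S36.LocX0FinalY.hloc_both_Y hA hqM HM hr hr12 hrM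
    (hS_finTDatumY hA hqM HM hr hr12 hrM)

end Actual

end Fermat.Agent.S36.TripleHSX0
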