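/-
PROJECT V (S36), slice V-LeafHypAll (helper21): **the final glue**
`leafHypAll : LeafXTop.LeafHypAll`.

`LeafXTop.LeafHypAll` is the single hypothesis left by `LeafXTop.forall_newInertiaHyp_of_leafHypAll`
+ `DegHecke.s36_of_newInertia'` for the frozen statement S36.  `LeafT0Inst.leafHyp_of_loc`
(helper7; = `NewInertiaFinal.leafHyp_of_blocks` of helper6 with the `t₀`-block (B4) discharged at
the actual `TDatum`s of (P1)) reduces `LeafXInst.LeafHyp hA hqM HM p` to block (B2):

* (B2) `hloc ∧ hloc'` : `LocPrincipal` at the closed points of the special fibre on the two charts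
  `chart (W A) x₂^{±1}` (`B2All` below, in the LITERAL binders of `leafHyp_of_blocks`).

`leafHypAll_of_b2 : B2All → LeafHypAll`; `b2All : B2All` is the closed block (B2) at the actual
objects; `leafHypAll := leafHypAll_of_b2 b2All`.
-/
import Fermat.Agent.S36.LeafXTop
import Fermat.Agent.S36.LeafT0Inst
import Fermat.Agent.S36.TripleHSX0

set_option autoImplicit false
set_option linter.unusedSectionVars false
set_option linter.style.haveILetI false
set_option linter.unusedVariables false
set_option synthInstance.maxHeartbeats 400000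
set_option maxHeartbeats 1000000

noncomputable section

namespace Fermat.Agent.S36.LeafHypAll

open ModularCurve AlgebraicCurve IsLocalRing
open Fermat.Agent.S18.NonSpecial Fermat.Agent.S18.C.SmallDVR Fermat.Agent.S36.ChartX0
open Fermat.Agent.S36.ChartRing Fermat.Agent.S36.Centre
open Fermat.Agent.S36.LeafXInst Fermat.Agent.S36.NewInertiaFinal

local notation "Kb" => AlgebraicClosure ℚ

attribute [local instance 2000] Fermat.Agent.S34.EulerX0.algResFk

/-- block (B2) at every level: `LocPrincipal` on the two charts -/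
def B2All : Prop :=
  ∀ (M q r : ℕ) [NeZero M] [NeZero q] [Fact q.Prime] (A : ValuationSubring Kb)
    (hA : A.LiesOverPrime q) [CharP (ResidueField ↥A) q] (hqM : ¬ q ∣ M) (gM : ℕ)
    (HM : RiemannHyp (ResidueField ↥A) ↥(modularFunctionFieldFullC (ResidueField ↥A) M) gM),
    r.Prime → r % 12 = 11 → r ∣ M → r ≠ q →
    (∀ m : Ideal ↥(chart ↥(W A) (φ₂ A M q)), m.IsMaximal →
      piChart (φ₂ A M q) ((q : ℕ) : ↥(W A)) ∈ m →
      LocalGenCore.LocPrincipal (F := FK0 A (M * q * q)) m) ∧
    (∀ m : Ideal ↥(chart ↥(W A) (φ₂ A M q)⁻¹), m.IsMaximal →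
      piChart (φ₂ A M q)⁻¹ ((q : ℕ) : ↥(W A)) ∈ m →
      LocalGenCore.LocPrincipal (F := FK0 A (M * q * q)) m)

/-- **`LeafXTop.LeafHypAll` from block (B2)** -/
theorem leafHypAll_of_b2 (h2 : B2All) : Fermat.Agent.S36.LeafXTop.LeafHypAll := by
  intro M q p r _ _ _ A hA _ hqM gM HM hp hqp hr hr12 hrM hrq hrp
  obtain ⟨hloc, hloc'⟩ := h2 M q r A hA hqM gM HM hr hr12 hrM hrq
  exact Fermat.Agent.S36.LeafT0Inst.leafHyp_of_loc hA hqM HM p hp hqp.symm hloc hloc'

set_option maxHeartbeats 6400000 in
/-- **block (B2) at the actual objects** (`TripleHSX0.hloc_both_Y_closed`, helper14 on helper4's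
`TripleX0Final`, helper26's `LocX0Inst`, and the `TDatum`s of (P1)) -/
theorem b2All : B2All := by
  intro M q r _ _ _ A hA _ hqM gM HM hr hr12 hrM hrq
  haveI : IsAlgClosed (ResidueField ↥A) :=
    Fermat.Agent.S18.ResidueBasics.isAlgClosed_residueField A
  haveI : PerfectField (ResidueField ↥A) := inferInstance
  haveI : NeZero (M * q) := ⟨Nat.mul_ne_zero (NeZero.ne M) (NeZero.ne q)⟩
  haveI : NeZero (M * q * q) := ⟨Nat.mul_ne_zero (NeZero.ne (M * q)) (NeZero.ne q)⟩
  exact Fermat.Agent.S36.TripleHSX0.hloc_both_Y_closed hA hqM HM hr hr12 hrM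

/-- **`LeafXTop.LeafHypAll`**: the single hypothesis of the top plumbing of S36 -/
theorem leafHypAll : Fermat.Agent.S36.LeafXTop.LeafHypAll :=
  leafHypAll_of_b2 b2All

end Fermat.Agent.S36.LeafHypAll
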