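/-
PROJECT V (S36), slice V-BadEltUnitX0 (helper14): **the hypotheses `hgfin`, `hginf` of
`LeafT0Sets.exists_t0_fields` at `X₀`**: the test elements `gfin = G(j) = ∏_{z ∈ s} (j - z)`
(`EvalCentreX0.badElt`) and `ginf = x₂⁻¹` of the two charts are units of the three vertical
valuation rings `W₂₀ W₁₁ W₀₂`.  Hypotheses first on `Y : ThreeValX0.Hyp`, `hB : Base Y O π`.

Part A (ANY `O`, `hJ : Transcendental k Y.J` — `LatticeX0.transcendental_J` for `k` algebraically
closed):
* `J_pow_sub_algebraMap_ne_zero` : `J ^ e - c ≠ 0` for `e > 0`, `c ∈ k`;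
* `valuation_jL_sub_eq_one_of_branch` : on a branch `(W, r)` with `r (jL i) = J ^ e`, `e > 0`:
  `W.valuation (jL i - c) = 1` for every constant `c ∈ O`;
* `valuation_j0L_sub_eq_one`, `valuation_prod_j0L_sub_eq_one` : for the family `Wfam Y`,
  `j = jL 0 = j0K (N0 q q)` (`r₂₀ j = J`, `r₁₁ j = J`, `r₀₂ j = J ^ (q q)`);
* `valuation_x2_inv_eq_one`, `valuation_x2_eq_one`;
* `not_lt_one_prod`, `not_lt_one_x2_inv` : the `¬ _ < 1` forms.

Part B (`O = W A`, `I = A.inertiaSubgroupIn ℚ`; `ChartX0` instances as local instances):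
* **`hgfin_X0`** : `∀ w, ¬ (Wfam Y w).valuation (badElt (M q q) hjφ s : FK0 A (M q q)) < 1`
  for ANY chart `φ` with `j ∈ chart (W A) φ`;
* **`hginf_X0`** : `∀ w, ¬ (Wfam Y w).valuation (g : F₂) < 1` for any chart element `g` with
  `(g : F₂) = x₂⁻¹` (e.g. `⟨x₂⁻¹, EvalCentreX0.self_mem_chart _ _⟩`, `hg := rfl`);
* `hgfin_of_Wof`, `hginf_of_Wof` : the same for `Wof D` of a `GlueNorm.Datum` `D` with
  `hW : Wof D = Wfam Y` (`LeafSoftX0.Match.Wof_eq`; `rfl`-provable for `datumY`).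
-/
import Mathlib
import Fermat.Agent.S36.FormalLift.LatticeX0
import Fermat.Agent.S36.EvalCentreX0

set_option autoImplicit false
set_option linter.unusedSectionVars false
set_option linter.style.haveILetI false
set_option linter.unusedVariables false

noncomputable section

namespace Fermat.Agent.S36.BadEltUnitX0

open Polynomial Fermat.Agent.S36.PowerBasisK0 Fermat.Agent.S36.JIntegral
  Fermat.Agent.S36.CompNormalX0 Fermat.Agent.S36.NewInertiaDatum Fermat.Agent.S36.ChartRing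
  Fermat.Agent.S36.LatticeX0

local notation "Kb" => AlgebraicClosure ℚ

/-! ## Part A: any `O` -/

section Generic

variable {H : Subgroup (Kb ≃ₐ[ℚ] Kb)}
variable {N0 q : ℕ} [NeZero N0] [NeZero q] [NeZero (N0 * q)] [NeZero (N0 * q * q)]
variable {κ : Type} [Field κ] {Y : ThreeValX0.Hyp H N0 q κ}
variable {O : Type*} [CommRing O] [Algebra O (FK H N0)] [Algebra O (FK H (N0 * q))]
  [Algebra O (FK H (N0 * q * q))]
variable {k : Type*} [Field k] [Algebra k κ] {π : O →+* k}

/-- a positive power of the transcendental `J` is not a constant -/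
theorem J_pow_sub_algebraMap_ne_zero (hJ : Transcendental k Y.J) {e : ℕ} (he : 0 < e) (c : k) :
    Y.J ^ e - algebraMap k κ c ≠ 0 := by
  intro h
  have hp : (X ^ e - C c : k[X]) ≠ 0 := X_pow_sub_C_ne_zero he c
  refine hp (transcendental_iff.mp hJ _ ?_)
  rw [map_sub, map_pow, aeval_X, aeval_C]
  exact h

/-- a valuation-`≤ 1` element outside the non-units has valuation `1` -/
theorem valuation_eq_one_of_not_mem_nonunits {F : Type*} [Field F] (W : ValuationSubring F)
    {z : F} (hz : z ∈ W) (hn : z ∉ W.nonunits) : W.valuation z = 1 := by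
  rcases lt_or_eq_of_le ((W.valuation_le_one_iff _).mpr hz) with h1 | h1
  · exact absurd (W.mem_nonunits_iff.mpr h1) hn
  · exact h1

/-- on a branch `(W, r)` with `r (jL i) = J ^ e`, `e > 0`, the function `jL i - c` is a unit of `W`
for every constant `c` -/
theorem valuation_jL_sub_eq_one_of_branch {W : ValuationSubring (FK H (N0 * q * q))} {r : ↥W →+* κ}
    {a : FK H N0 →+* FK H (N0 * q * q)} {i₀ : Fin 3} (B : Branch Y O π W r a i₀)
    (hJ : Transcendental k Y.J) (i : Fin 3) {e : ℕ} (he : 0 < e)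
    (hr : r ⟨jL H N0 q i, B.jL_mem i⟩ = Y.J ^ e) (c : O) :
    W.valuation (jL H N0 q i - algebraMap O (FK H (N0 * q * q)) c) = 1 := by
  have hmem : jL H N0 q i - algebraMap O (FK H (N0 * q * q)) c ∈ W :=
    W.sub_mem (B.jL_mem i) (B.algebraMap_mem c)
  refine valuation_eq_one_of_not_mem_nonunits W hmem fun hn => ?_
  have h0 := (B.hker ⟨_, hmem⟩).mpr hn
  have e1 : (⟨jL H N0 q i - algebraMap O (FK H (N0 * q * q)) c, hmem⟩ : ↥W)
      = ⟨jL H N0 q i, B.jL_mem i⟩ - ⟨algebraMap O (FK H (N0 * q * q)) c, B.algebraMap_mem c⟩ :=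
    rfl
  rw [e1, map_sub, hr, B.r_algebraMap c] at h0
  exact J_pow_sub_algebraMap_ne_zero hJ he _ h0

variable (hB : Base Y O π)

include hB in
/-- `j - c` is a unit of the three vertical valuation rings -/
theorem valuation_j0L_sub_eq_one (hJ : Transcendental k Y.J) (w : Comp) (c : O) :
    (Wfam Y w).valuation (jL H N0 q 0 - algebraMap O (FK H (N0 * q * q)) c) = 1 := by
  have hq : 0 < q := Nat.pos_of_ne_zero (NeZero.ne q)
  cases w
  · exact valuation_jL_sub_eq_one_of_branch (branch₂₀ hB) hJ 0 Nat.one_pos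
      ((r₂₀_jL0 Y _).trans (pow_one _).symm) c
  · exact valuation_jL_sub_eq_one_of_branch (branch₁₁ hB) hJ 0 Nat.one_pos
      ((r₁₁_jL0 Y _).trans (pow_one _).symm) c
  · exact valuation_jL_sub_eq_one_of_branch (branch₀₂ hB) hJ 0 (Nat.mul_pos hq hq)
      (r₀₂_jL0 Y _) c

include hB in
/-- `G(j) = ∏_{z ∈ s} (j - z)` is a unit of the three vertical valuation rings -/
theorem valuation_prod_j0L_sub_eq_one (hJ : Transcendental k Y.J) (w : Comp) (s : Finset O) :
    (Wfam Y w).valuation (∏ z ∈ s, (jL H N0 q 0 - algebraMap O (FK H (N0 * q * q)) z)) = 1 := by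
  rw [map_prod]
  exact Finset.prod_eq_one fun z _ => valuation_j0L_sub_eq_one hB hJ w z

include hB in
theorem not_lt_one_prod (hJ : Transcendental k Y.J) (w : Comp) (s : Finset O) :
    ¬ (Wfam Y w).valuation (∏ z ∈ s, (jL H N0 q 0 - algebraMap O (FK H (N0 * q * q)) z)) < 1 := by
  rw [valuation_prod_j0L_sub_eq_one hB hJ w s]
  exact lt_irrefl _

include hB in
theorem valuation_x2_eq_one (w : Comp) : (Wfam Y w).valuation (x2 H N0 q) = 1 := by
  have h1 : (Wfam Y w).valuation (x2 H N0 q) ≤ 1 :=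
    ((Wfam Y w).valuation_le_one_iff _).mpr (x2_mem_Wfam Y hB w)
  have h2 : (Wfam Y w).valuation (x2 H N0 q)⁻¹ ≤ 1 :=
    ((Wfam Y w).valuation_le_one_iff _).mpr (x2_inv_mem_Wfam Y hB w)
  rw [map_inv₀] at h2
  have hx : (Wfam Y w).valuation (x2 H N0 q) ≠ 0 :=
    (_root_.map_ne_zero _).mpr (x2_ne_zero Y)
  exact le_antisymm h1 ((inv_le_one₀ (zero_lt_iff.mpr hx)).mp h2)

include hB in
theorem valuation_x2_inv_eq_one (w : Comp) : (Wfam Y w).valuation (x2 H N0 q)⁻¹ = 1 := by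
  rw [map_inv₀, valuation_x2_eq_one hB w, inv_one]

include hB in
theorem not_lt_one_x2_inv (w : Comp) : ¬ (Wfam Y w).valuation (x2 H N0 q)⁻¹ < 1 := by
  rw [valuation_x2_inv_eq_one hB w]
  exact lt_irrefl _

include hB in
theorem not_lt_one_x2 (w : Comp) : ¬ (Wfam Y w).valuation (x2 H N0 q) < 1 := by
  rw [valuation_x2_eq_one hB w]
  exact lt_irrefl _

end Generic

/-! ## Part B: `O = W A` -/

section Concrete

open Fermat.Agent.S36.ChartX0 Fermat.Agent.S36.EvalCentreX0 IsLocalRing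
open Fermat.Agent.S18.C.SmallDVR

variable {q : ℕ} {M : ℕ} [NeZero M] [NeZero q] [NeZero (M * q)] [NeZero (M * q * q)]
  {A : ValuationSubring Kb}
variable {κ : Type} [Field κ] {Y : ThreeValX0.Hyp (A.inertiaSubgroupIn ℚ) M q κ}

/-- helper10's `ChartX0` instance in the `FK I N` spelling (local) -/
local instance instAlgWFK (N : ℕ) : Algebra ↥(W A) (FK (A.inertiaSubgroupIn ℚ) N) := algebraW A N

variable {k : Type*} [Field k] [Algebra k κ] {π : ↥(W A) →+* k} (hB : Base Y ↥(W A) π)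

include hB in
/-- **`hgfin` at `X₀`**: `G(j) = EvalCentreX0.badElt` is a unit of `W₂₀ W₁₁ W₀₂`, for ANY chart
`φ` containing `j` -/
theorem hgfin_X0 (hJ : Transcendental k Y.J) {φ : FK0 A (M * q * q)}
    (hjφ : jK0 A (M * q * q) ∈ chart ↥(W A) φ) (s : Finset ↥(W A)) (w : Comp) :
    ¬ (Wfam Y w).valuation
      ((badElt (M * q * q) hjφ s : ↥(chart ↥(W A) φ)) : FK0 A (M * q * q)) < 1 := by
  have h := not_lt_one_prod hB hJ w s
  have e : ((badElt (M * q * q) hjφ s : ↥(chart ↥(W A) φ)) : FK0 A (M * q * q))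
      = ∏ z ∈ s, (jL (A.inertiaSubgroupIn ℚ) M q 0
          - algebraMap ↥(W A) (FK (A.inertiaSubgroupIn ℚ) (M * q * q)) z) := by
    rw [coe_badElt, jK0_eq_j0K]
    rfl
  rw [e]
  exact h

include hB in
/-- **`hginf` at `X₀`**: `x₂⁻¹` is a unit of `W₂₀ W₁₁ W₀₂` -/
theorem hginf_X0 {φ : FK0 A (M * q * q)} (g : ↥(chart ↥(W A) φ))
    (hg : (g : FK0 A (M * q * q)) = (x2 (A.inertiaSubgroupIn ℚ) M q)⁻¹) (w : Comp) :
    ¬ (Wfam Y w).valuation (g : FK0 A (M * q * q)) < 1 := by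
  rw [hg]
  exact not_lt_one_x2_inv hB w

section Datum

variable {k' : Type*} [Field k'] {κ' F' Pt : Type*} [Field κ'] [Algebra k' κ'] [Field F']
  (D : Fermat.Agent.S36.GlueNorm.Datum k' κ' F' (FK (A.inertiaSubgroupIn ℚ) (M * q * q)) Pt)

include hB in
/-- `hgfin` of `LeafT0Sets.exists_t0_fields` for a datum `D` with the vertical family of `Y` -/
theorem hgfin_of_Wof (hW : Wof D = Wfam Y) (hJ : Transcendental k Y.J)
    {φ : FK0 A (M * q * q)} (hjφ : jK0 A (M * q * q) ∈ chart ↥(W A) φ) (s : Finset ↥(W A))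
    (w : Comp) :
    ¬ (Wof D w).valuation
      ((badElt (M * q * q) hjφ s : ↥(chart ↥(W A) φ)) : FK0 A (M * q * q)) < 1 := by
  rw [hW]
  exact hgfin_X0 hB hJ hjφ s w

include hB in
/-- `hginf` of `LeafT0Sets.exists_t0_fields` for a datum `D` with the vertical family of `Y` -/
theorem hginf_of_Wof (hW : Wof D = Wfam Y) {φ : FK0 A (M * q * q)} (g : ↥(chart ↥(W A) φ))
    (hg : (g : FK0 A (M * q * q)) = (x2 (A.inertiaSubgroupIn ℚ) M q)⁻¹) (w : Comp) :
    ¬ (Wof D w).valuation (g : FK0 A (M * q * q)) < 1 := by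
  rw [hW]
  exact hginf_X0 hB g hg w

end Datum

end Concrete

end Fermat.Agent.S36.BadEltUnitX0
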