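/-
PROJECT V (S36), slice V-BranchSepX0 (helper23; chain (V9), field `node`): **(SEP) at `X₀` over
`O = W A`, DISCHARGED, in the two literal shapes in which the branch frameworks consume it.**

`A` over `q`, `q ∤ M`, `I = A.inertiaSubgroupIn ℚ`, `k = ResidueField A`, `κ = F_k(M)`,
`Y : ThreeValX0.Hyp I M q κ`, `hB : CompNormalX0.Base Y (W A) π`, `L : BranchNodeX0.LinkQ hA hqM I Y`
(the five equations of `GlueNormX0.Link`), `hO0 : Y.O₀ = Og0 M hA hqM` (`CompNormalX0Base.Link.hO0`),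
`S` a `Finset` of places of `κ` off the cusps with `NodesDesc.Desc hA hqM S`.

Part 1 (helper14's `BranchNodeX0`, reductions `ρ₁ ρ₂ ρ₁' ρ₂'` of `BranchKappaX0Maps`):
* `hsep_fin_rho`, `hsep_inf_rho` : the LITERAL `hsep` of `BranchNodeX0.node_fin_X0 / node_inf_X0 /
  pdatumFinX0 / pdatumInfX0 / tdatumFinX0` (from `PairLiftX0.hsep_fin_X0 / hsep_inf_X0` and
  `BranchNodeX0.hlift_fin / hlift_inf`);
* `node_fin_W`, `node_inf_W` : the field `node`, no (SEP) / (GLUE) hypothesis left.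

Part 2 (helper1's `BranchX0.ChartPair`, reductions `P.red1 P.red2`, Frobenius `ChartPair.φB hφB`),
for `P : ChartPair hB x₁^{±1} x₂^{±1} Jc` with `hJc : Jc = (jk k M)^{±1}`:
* `hsep_fin_P`, `hsep_inf_P` : the LITERAL `hsep` of `ChartPair.node_fin / node_inf` with
  `S := nodeSet k M (x := Jc) ↑S`;
* `hglue_fin_P`, `hglue_inf_P` : the LITERAL `hglue` (from `PairGlueChart.hglue_fin / hglue_inf`);
* `node_fin_P`, `node_inf_P` : the `node` argument of `ChartPair.pdatum / finTDatumOf / infTDatumOf`.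
-/
import Mathlib
import Fermat.Agent.S36.PairLiftX0
import Fermat.Agent.S36.BranchNodeX0
import Fermat.Agent.S36.BranchX0Node

set_option autoImplicit false
set_option linter.unusedSectionVars false
set_option linter.style.haveILetI false
set_option linter.unusedVariables false
set_option synthInstance.maxHeartbeats 400000
set_option maxHeartbeats 1600000

noncomputable section

namespace Fermat.Agent.S36.BranchSepX0

open ModularCurve AlgebraicCurve IsLocalRing IntermediateField Polynomial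
open Fermat.Agent.S18.B.FkBasics (jk)
open Fermat.Agent.S18.C.SmallDVR
open Fermat.Agent.S34.EulerX0 Fermat.Agent.S34.EulerClosedX0
open Fermat.Agent.S34.FrobK Fermat.Agent.S34.Euler.Value Fermat.Agent.S34.Euler.FrobSide
open Fermat.Agent.S36.NodesDesc Fermat.Agent.S36.PairLiftK0 Fermat.Agent.S36.PowerBasisK0
open Fermat.Agent.S36.ThetaK0 Fermat.Agent.S36.ChartRing
open Fermat.Agent.S36.ChartX0 Fermat.Agent.S36.GaussK0Comap
open Fermat.Agent.S36.SpecDictOne (nodeSet phiB coe_phiB)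
open Fermat.Agent.S36.CompNormalX0 (Base)
open Fermat.Agent.S36.BranchNodeX0 (LinkQ φfin φinf)

local notation "Kb" => AlgebraicClosure ℚ
local notation "GQ" => (AlgebraicClosure ℚ ≃ₐ[ℚ] AlgebraicClosure ℚ)

attribute [local instance 2000] Fermat.Agent.S34.EulerX0.algResFk

/-- shortcut instance (a proposition) -/
local instance instACkSep (A : ValuationSubring Kb) : IsAlgClosed (ResidueField ↥A) :=
  Fermat.Agent.S18.ResidueBasics.isAlgClosed_residueField A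

variable {q : ℕ} [hq : Fact q.Prime] [NeZero q] {M : ℕ} [NeZero M] [NeZero (M * q)]
  [NeZero (M * q * q)]
variable {A : ValuationSubring Kb} {hA : A.LiesOverPrime q} {hqM : ¬ q ∣ M}
variable [CharP (ResidueField ↥A) q] [PerfectField (ResidueField ↥A)]

/-- helper10's `W A`-algebra structure, on the type written as `PowerBasisK0.FK` -/
local instance algWFKsep (N : ℕ) : Algebra ↥(W A) (FK (A.inertiaSubgroupIn ℚ) N) := algebraW A N

variable {Y : Fermat.Agent.S36.ThreeValX0.Hyp (A.inertiaSubgroupIn ℚ) M q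
    ↥(modularFunctionFieldFullC (ResidueField ↥A) M)}
  {π : ↥(W A) →+* ResidueField ↥A} (hB : Base Y ↥(W A) π)
  (L : LinkQ hA hqM (A.inertiaSubgroupIn ℚ) Y) (hO0 : Y.O₀ = Og0 M hA hqM)
  {S : Finset (Place (ResidueField ↥A) ↥(modularFunctionFieldFullC (ResidueField ↥A) M))}
  (hS : ∀ b ∈ S, b ∉ P0 (ResidueField ↥A) M) (hbS : Desc hA hqM S)

/-! ### Part 1: the reductions `ρ₁ ρ₂` of `BranchKappaX0Maps` -/

section Rho

open Fermat.Agent.S36.BranchKappaX0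

include L hO0 hS hbS in
/-- **(SEP) on the finite chart for `ρ₁ ρ₂`** : the literal `hsep` of
`BranchNodeX0.node_fin_X0 / pdatumFinX0 / tdatumFinX0` -/
theorem hsep_fin_rho :
    ∀ n : Ideal ↥(chart (ResidueField ↥A) (jk (ResidueField ↥A) M)), n.IsMaximal →
      n ∉ nodeSet (ResidueField ↥A) M (x := jk (ResidueField ↥A) M)
        (S : Set (Place (ResidueField ↥A) ↥(modularFunctionFieldFullC (ResidueField ↥A) M))) →
      ∃ g : ↥(chart ↥(W A) (x1 (A.inertiaSubgroupIn ℚ) M q)),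
        ρ₁ hB L.J_eq_jk g ∈ n.comap (φfin A M q) ∧ ρ₂ hB L.J_eq_jk g ∉ n :=
  Fermat.Agent.S36.PairLiftX0.hsep_fin_X0 hA hqM Y L.hV₁ L.hV₂ hO0 hS hbS
    (fun a => ρ₁ hB L.J_eq_jk a) (fun a => ρ₂ hB L.J_eq_jk a)
    (Fermat.Agent.S36.BranchNodeX0.hlift_fin hB L)

include L hO0 hS hbS in
/-- **(SEP) on the chart at infinity for `ρ₁' ρ₂'`** : the literal `hsep` of
`BranchNodeX0.node_inf_X0 / pdatumInfX0` -/
theorem hsep_inf_rho :
    ∀ n : Ideal ↥(chart (ResidueField ↥A) (jk (ResidueField ↥A) M)⁻¹), n.IsMaximal →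
      n ∉ nodeSet (ResidueField ↥A) M (x := (jk (ResidueField ↥A) M)⁻¹)
        (S : Set (Place (ResidueField ↥A) ↥(modularFunctionFieldFullC (ResidueField ↥A) M))) →
      ∃ g : ↥(chart ↥(W A) (x1 (A.inertiaSubgroupIn ℚ) M q)⁻¹),
        ρ₁' hB L.J_eq_jk g ∈ n.comap (φinf A M q) ∧ ρ₂' hB L.J_eq_jk g ∉ n :=
  Fermat.Agent.S36.PairLiftX0.hsep_inf_X0 hA hqM Y L.hV₁ L.hV₂ hO0 hS hbS
    (fun a => ρ₁' hB L.J_eq_jk a) (fun a => ρ₂' hB L.J_eq_jk a)
    (Fermat.Agent.S36.BranchNodeX0.hlift_inf hB L)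

include L hO0 hS hbS in
/-- **the field `node` of `BranchCoreT.PDatum` at `X₀`, finite chart** (for `ρ₁ ρ₂`): no (GLUE) /
(SEP) hypothesis left -/
theorem node_fin_W
    (n' n : Ideal ↥(chart (ResidueField ↥A) (jk (ResidueField ↥A) M)))
    (hn' : n'.IsMaximal) (hn : n.IsMaximal) :
    n'.comap (ρ₁ hB L.J_eq_jk) = n.comap (ρ₂ hB L.J_eq_jk) ↔
      n ∈ nodeSet (ResidueField ↥A) M (x := jk (ResidueField ↥A) M)
        (S : Set (Place (ResidueField ↥A) ↥(modularFunctionFieldFullC (ResidueField ↥A) M))) ∧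
      n' = n.comap (φfin A M q) := by
  letI a0 : Algebra ↥(W A) ↥(IntermediateField.fixedField (A.inertiaSubgroupIn ℚ)) :=
    (inferInstance : Algebra ↥(W A) ↥(K0 A))
  haveI t1 : IsScalarTower ↥(W A) ↥(IntermediateField.fixedField (A.inertiaSubgroupIn ℚ))
      (FK (A.inertiaSubgroupIn ℚ) (M * q)) := isScalarTowerW A (M * q)
  exact Fermat.Agent.S36.BranchNodeX0.node_fin_X0 hB L hbS (hsep_fin_rho hB L hO0 hS hbS)
    n' n hn' hn

include L hO0 hS hbS in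
/-- **the field `node` of `BranchCoreT.PDatum` at `X₀`, chart at infinity** (for `ρ₁' ρ₂'`) -/
theorem node_inf_W
    (n' n : Ideal ↥(chart (ResidueField ↥A) (jk (ResidueField ↥A) M)⁻¹))
    (hn' : n'.IsMaximal) (hn : n.IsMaximal) :
    n'.comap (ρ₁' hB L.J_eq_jk) = n.comap (ρ₂' hB L.J_eq_jk) ↔
      n ∈ nodeSet (ResidueField ↥A) M (x := (jk (ResidueField ↥A) M)⁻¹)
        (S : Set (Place (ResidueField ↥A) ↥(modularFunctionFieldFullC (ResidueField ↥A) M))) ∧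
      n' = n.comap (φinf A M q) := by
  letI a0 : Algebra ↥(W A) ↥(IntermediateField.fixedField (A.inertiaSubgroupIn ℚ)) :=
    (inferInstance : Algebra ↥(W A) ↥(K0 A))
  haveI t1 : IsScalarTower ↥(W A) ↥(IntermediateField.fixedField (A.inertiaSubgroupIn ℚ))
      (FK (A.inertiaSubgroupIn ℚ) (M * q)) := isScalarTowerW A (M * q)
  exact Fermat.Agent.S36.BranchNodeX0.node_inf_X0 hB L hS hbS (hsep_inf_rho hB L hO0 hS hbS)
    n' n hn' hn

end Rho

/-! ### Part 2: the reductions `P.red1 P.red2` of a `BranchX0.ChartPair` -/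

section Pair

open Fermat.Agent.S36.BranchX0 Fermat.Agent.S36.BranchX0.ChartPair

variable {Jc : ↥(modularFunctionFieldFullC (ResidueField ↥A) M)}

/-- the Frobenius `ChartPair.φB hφB` of the chart `chart k J` is `SpecDictOne.phiB` -/
theorem φB_eq_phiB_fin
    (hφB : ∀ z ∈ chart (ResidueField ↥A) (jk (ResidueField ↥A) M),
      Y.φ z ∈ chart (ResidueField ↥A) (jk (ResidueField ↥A) M))
    (L : LinkQ hA hqM (A.inertiaSubgroupIn ℚ) Y) :
    (φB hφB : ↥(chart (ResidueField ↥A) (jk (ResidueField ↥A) M)) →+* _) = φfin A M q :=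
  RingHom.ext fun z => Subtype.ext ((coe_φB hφB z).trans (L.φ_apply _))

/-- the Frobenius `ChartPair.φB hφB` of the chart `chart k J⁻¹` is `SpecDictOne.phiB` -/
theorem φB_eq_phiB_inf
    (hφB : ∀ z ∈ chart (ResidueField ↥A) (jk (ResidueField ↥A) M)⁻¹,
      Y.φ z ∈ chart (ResidueField ↥A) (jk (ResidueField ↥A) M)⁻¹)
    (L : LinkQ hA hqM (A.inertiaSubgroupIn ℚ) Y) :
    (φB hφB : ↥(chart (ResidueField ↥A) (jk (ResidueField ↥A) M)⁻¹) →+* _) = φinf A M q :=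
  RingHom.ext fun z => Subtype.ext ((coe_φB hφB z).trans (L.φ_apply _))

section Fin

variable (P : ChartPair hB (x1 (A.inertiaSubgroupIn ℚ) M q)
  (Fermat.Agent.S36.CompNormalX0.x2 (A.inertiaSubgroupIn ℚ) M q) Jc)
  (hJc : Jc = jk (ResidueField ↥A) M)

include L in
/-- the `(A₁, red1, red2)` interface `hlift` of `PairLiftX0.hsep_fin_X0` for `P.red1 P.red2` -/
theorem hlift_fin_P
    (P : ChartPair hB (x1 (A.inertiaSubgroupIn ℚ) M q)
      (Fermat.Agent.S36.CompNormalX0.x2 (A.inertiaSubgroupIn ℚ) M q) (jk (ResidueField ↥A) M)) :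
    ∀ g ∈ chartX0 A (M * q) (xK (M := M) (q := q) (A.inertiaSubgroupIn ℚ)),
      ∀ (h₁ : g ∈ V1K (A.inertiaSubgroupIn ℚ) hA hqM)
        (h₂ : g ∈ V2K (A.inertiaSubgroupIn ℚ) hA hqM),
        ∃ a : ↥(chart ↥(W A) (x1 (A.inertiaSubgroupIn ℚ) M q)),
        ((P.red1 a : ↥(chart (ResidueField ↥A) (jk (ResidueField ↥A) M))) :
          ↥(modularFunctionFieldFullC (ResidueField ↥A) M)) =
            red1K (A.inertiaSubgroupIn ℚ) hA hqM ⟨g, h₁⟩ ∧
        ((P.red2 a : ↥(chart (ResidueField ↥A) (jk (ResidueField ↥A) M))) :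
          ↥(modularFunctionFieldFullC (ResidueField ↥A) M)) =
            red2K (A.inertiaSubgroupIn ℚ) hA hqM ⟨g, h₂⟩ := by
  intro g hg h₁ h₂
  have hg' : g ∈ chart ↥(W A) (x1 (A.inertiaSubgroupIn ℚ) M q) :=
    Fermat.Agent.S36.BranchNodeX0.mem_chart_x1 (O := ↥(W A)) hg
  exact ⟨⟨g, hg'⟩, (P.coe_red1 ⟨g, hg'⟩).trans (L.red₁_eq (P.mem_V₁ ⟨g, hg'⟩)),
    (P.coe_red2 ⟨g, hg'⟩).trans (L.red₂_eq (P.mem_V₂ ⟨g, hg'⟩))⟩

include L hO0 hS hbS hJc in
/-- **(SEP) on the finite chart for a `ChartPair`** : the LITERAL `hsep` of `ChartPair.node_fin`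
with `S := nodeSet k M (x := Jc) ↑S` -/
theorem hsep_fin_P (hφB : ∀ z ∈ chart (ResidueField ↥A) Jc, Y.φ z ∈ chart (ResidueField ↥A) Jc) :
    ∀ n : Ideal ↥(chart (ResidueField ↥A) Jc), n.IsMaximal →
      n ∉ nodeSet (ResidueField ↥A) M (x := Jc)
        (S : Set (Place (ResidueField ↥A) ↥(modularFunctionFieldFullC (ResidueField ↥A) M))) →
      ∃ g : ↥(chart ↥(W A) (x1 (A.inertiaSubgroupIn ℚ) M q)),
        P.red1 g ∈ n.comap (φB hφB) ∧ P.red2 g ∉ n := by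
  subst hJc
  rw [φB_eq_phiB_fin hφB L]
  exact Fermat.Agent.S36.PairLiftX0.hsep_fin_X0 hA hqM Y L.hV₁ L.hV₂ hO0 hS hbS
    (fun a => P.red1 a) (fun a => P.red2 a) (hlift_fin_P hB L P)

include L hbS hJc in
/-- **(GLUE) on the finite chart for a `ChartPair`** : the LITERAL `hglue` of `ChartPair.node_fin`
with `S := nodeSet k M (x := Jc) ↑S` -/
theorem hglue_fin_P (hφB : ∀ z ∈ chart (ResidueField ↥A) Jc, Y.φ z ∈ chart (ResidueField ↥A) Jc) :
    ∀ n ∈ nodeSet (ResidueField ↥A) M (x := Jc)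
        (S : Set (Place (ResidueField ↥A) ↥(modularFunctionFieldFullC (ResidueField ↥A) M))),
      ∀ g : ↥(chart ↥(W A) (x1 (A.inertiaSubgroupIn ℚ) M q)),
        P.red1 g ∈ n.comap (φB hφB) ↔ P.red2 g ∈ n := by
  subst hJc
  rw [φB_eq_phiB_fin hφB L]
  letI a0 : Algebra ↥(W A) ↥(IntermediateField.fixedField (A.inertiaSubgroupIn ℚ)) :=
    (inferInstance : Algebra ↥(W A) ↥(K0 A))
  haveI t1 : IsScalarTower ↥(W A) ↥(IntermediateField.fixedField (A.inertiaSubgroupIn ℚ))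
      (FK (A.inertiaSubgroupIn ℚ) (M * q)) := isScalarTowerW A (M * q)
  exact Fermat.Agent.S36.PairGlueChart.hglue_fin hA hqM (A.inertiaSubgroupIn ℚ) hbS
    (fun a => P.red1 a) (fun a => P.red2 a) (fun a =>
      ⟨(a : FK (A.inertiaSubgroupIn ℚ) (M * q)),
        Fermat.Agent.S36.BranchNodeX0.mem_chart_xK (O := ↥(W A)) a.2,
        L.mem_V1K (P.mem_V₁ a), L.mem_V2K (P.mem_V₂ a),
        (P.coe_red1 a).trans (L.red₁_eq (P.mem_V₁ a)),
        (P.coe_red2 a).trans (L.red₂_eq (P.mem_V₂ a))⟩)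

include L hO0 hS hbS hJc in
/-- **the `node` argument of `ChartPair.pdatum / finTDatumOf` on the finite charts at `X₀`**, for
`S := nodeSet k M (x := Jc) ↑S`: no (GLUE) / (SEP) hypothesis left -/
theorem node_fin_P (hφB : ∀ z ∈ chart (ResidueField ↥A) Jc, Y.φ z ∈ chart (ResidueField ↥A) Jc)
    (n' n : Ideal ↥(chart (ResidueField ↥A) Jc)) (hn' : n'.IsMaximal) (hn : n.IsMaximal) :
    n'.comap P.red1 = n.comap P.red2 ↔
      n ∈ nodeSet (ResidueField ↥A) M (x := Jc)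
        (S : Set (Place (ResidueField ↥A) ↥(modularFunctionFieldFullC (ResidueField ↥A) M))) ∧
      n' = n.comap (φB hφB) := by
  have hYJ : Y.J = Jc := L.J_eq_jk.trans hJc.symm
  refine P.node_fin (hYJ ▸ Fermat.Agent.S36.CompNormal.self_mem_chart Y.J) ?_ hφB _ (hglue_fin_P hB L hbS P hJc hφB)
    (hsep_fin_P hB L hO0 hS hbS P hJc hφB) n' n hn' hn
  rw [← hYJ]
  exact hB.hlift

end Fin

section Inf

variable (P : ChartPair hB (x1 (A.inertiaSubgroupIn ℚ) M q)⁻¹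
  (Fermat.Agent.S36.CompNormalX0.x2 (A.inertiaSubgroupIn ℚ) M q)⁻¹ Jc)
  (hJc : Jc = (jk (ResidueField ↥A) M)⁻¹)

include L in
/-- the `(A₁, red1, red2)` interface `hlift` of `PairLiftX0.hsep_inf_X0` for `P.red1 P.red2` -/
theorem hlift_inf_P
    (P : ChartPair hB (x1 (A.inertiaSubgroupIn ℚ) M q)⁻¹
      (Fermat.Agent.S36.CompNormalX0.x2 (A.inertiaSubgroupIn ℚ) M q)⁻¹
      (jk (ResidueField ↥A) M)⁻¹) :
    ∀ g ∈ chartX0 A (M * q) (xK (M := M) (q := q) (A.inertiaSubgroupIn ℚ))⁻¹,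
      ∀ (h₁ : g ∈ V1K (A.inertiaSubgroupIn ℚ) hA hqM)
        (h₂ : g ∈ V2K (A.inertiaSubgroupIn ℚ) hA hqM),
        ∃ a : ↥(chart ↥(W A) (x1 (A.inertiaSubgroupIn ℚ) M q)⁻¹),
        ((P.red1 a : ↥(chart (ResidueField ↥A) (jk (ResidueField ↥A) M)⁻¹)) :
          ↥(modularFunctionFieldFullC (ResidueField ↥A) M)) =
            red1K (A.inertiaSubgroupIn ℚ) hA hqM ⟨g, h₁⟩ ∧
        ((P.red2 a : ↥(chart (ResidueField ↥A) (jk (ResidueField ↥A) M)⁻¹)) :
          ↥(modularFunctionFieldFullC (ResidueField ↥A) M)) =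
            red2K (A.inertiaSubgroupIn ℚ) hA hqM ⟨g, h₂⟩ := by
  intro g hg h₁ h₂
  have hg' : g ∈ chart ↥(W A) (x1 (A.inertiaSubgroupIn ℚ) M q)⁻¹ :=
    Fermat.Agent.S36.BranchNodeX0.mem_chart_x1_inv (O := ↥(W A)) hg
  exact ⟨⟨g, hg'⟩, (P.coe_red1 ⟨g, hg'⟩).trans (L.red₁_eq (P.mem_V₁ ⟨g, hg'⟩)),
    (P.coe_red2 ⟨g, hg'⟩).trans (L.red₂_eq (P.mem_V₂ ⟨g, hg'⟩))⟩

include L hO0 hS hbS hJc in
/-- **(SEP) on the chart at infinity for a `ChartPair`** : the LITERAL `hsep` of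
`ChartPair.node_inf` with `S := nodeSet k M (x := Jc) ↑S` -/
theorem hsep_inf_P (hφB : ∀ z ∈ chart (ResidueField ↥A) Jc, Y.φ z ∈ chart (ResidueField ↥A) Jc) :
    ∀ n : Ideal ↥(chart (ResidueField ↥A) Jc), n.IsMaximal →
      n ∉ nodeSet (ResidueField ↥A) M (x := Jc)
        (S : Set (Place (ResidueField ↥A) ↥(modularFunctionFieldFullC (ResidueField ↥A) M))) →
      ∃ g : ↥(chart ↥(W A) (x1 (A.inertiaSubgroupIn ℚ) M q)⁻¹),
        P.red1 g ∈ n.comap (φB hφB) ∧ P.red2 g ∉ n := by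
  subst hJc
  rw [φB_eq_phiB_inf hφB L]
  exact Fermat.Agent.S36.PairLiftX0.hsep_inf_X0 hA hqM Y L.hV₁ L.hV₂ hO0 hS hbS
    (fun a => P.red1 a) (fun a => P.red2 a) (hlift_inf_P hB L P)

include L hS hbS hJc in
/-- **(GLUE) on the chart at infinity for a `ChartPair`** : the LITERAL `hglue` of
`ChartPair.node_inf` with `S := nodeSet k M (x := Jc) ↑S` -/
theorem hglue_inf_P (hφB : ∀ z ∈ chart (ResidueField ↥A) Jc, Y.φ z ∈ chart (ResidueField ↥A) Jc) :
    ∀ n ∈ nodeSet (ResidueField ↥A) M (x := Jc)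
        (S : Set (Place (ResidueField ↥A) ↥(modularFunctionFieldFullC (ResidueField ↥A) M))),
      ∀ g : ↥(chart ↥(W A) (x1 (A.inertiaSubgroupIn ℚ) M q)⁻¹),
        P.red1 g ∈ n.comap (φB hφB) ↔ P.red2 g ∈ n := by
  subst hJc
  rw [φB_eq_phiB_inf hφB L]
  letI a0 : Algebra ↥(W A) ↥(IntermediateField.fixedField (A.inertiaSubgroupIn ℚ)) :=
    (inferInstance : Algebra ↥(W A) ↥(K0 A))
  haveI t1 : IsScalarTower ↥(W A) ↥(IntermediateField.fixedField (A.inertiaSubgroupIn ℚ))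
      (FK (A.inertiaSubgroupIn ℚ) (M * q)) := isScalarTowerW A (M * q)
  exact Fermat.Agent.S36.PairGlueChart.hglue_inf hA hqM (A.inertiaSubgroupIn ℚ) hS hbS
    (fun a => P.red1 a) (fun a => P.red2 a) (fun a =>
      ⟨(a : FK (A.inertiaSubgroupIn ℚ) (M * q)),
        Fermat.Agent.S36.BranchNodeX0.mem_chart_xK_inv (O := ↥(W A)) a.2,
        L.mem_V1K (P.mem_V₁ a), L.mem_V2K (P.mem_V₂ a),
        (P.coe_red1 a).trans (L.red₁_eq (P.mem_V₁ a)),
        (P.coe_red2 a).trans (L.red₂_eq (P.mem_V₂ a))⟩)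

include L hO0 hS hbS hJc in
/-- **the `node` argument of `ChartPair.pdatum / infTDatumOf` on the charts at infinity at `X₀`**,
for `S := nodeSet k M (x := Jc) ↑S`: no (GLUE) / (SEP) hypothesis left -/
theorem node_inf_P (hφB : ∀ z ∈ chart (ResidueField ↥A) Jc, Y.φ z ∈ chart (ResidueField ↥A) Jc)
    (n' n : Ideal ↥(chart (ResidueField ↥A) Jc)) (hn' : n'.IsMaximal) (hn : n.IsMaximal) :
    n'.comap P.red1 = n.comap P.red2 ↔
      n ∈ nodeSet (ResidueField ↥A) M (x := Jc)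
        (S : Set (Place (ResidueField ↥A) ↥(modularFunctionFieldFullC (ResidueField ↥A) M))) ∧
      n' = n.comap (φB hφB) := by
  have hYJ : Y.J⁻¹ = Jc := (congrArg (·⁻¹) L.J_eq_jk).trans hJc.symm
  refine P.node_inf (hYJ ▸ Fermat.Agent.S36.CompNormal.self_mem_chart Y.J⁻¹) ?_ hφB _
    (hglue_inf_P hB L hS hbS P hJc hφB) (hsep_inf_P hB L hO0 hS hbS P hJc hφB) n' n hn' hn
  rw [← hYJ]
  exact hB.hlift'

end Inf

end Pair

end Fermat.Agent.S36.BranchSepX0
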