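/-
S36 (project V), slice V-BranchX0Frob (helper16), chain (V9) at `X₀`: THE FROBENIUS / NODE-SET
HYPOTHESES of helper1's `BranchX0.ChartPair.finTDatumOf` / `infTDatumOf` DISCHARGED for the node
set `S := SpecDictOne.nodeSet S₀` on the coordinate ring `chart k Jc` of the component,
`κ = F_k(N0)`.

Inputs: `Y : ThreeValX0.Hyp H N0 q κ` VARIABLE with `hφ : Y.φ = FrobK.phi k N0 q`
(`GlueNormX0.Link.hφ`; `rfl` for `hypX0`), a coordinate `Jc : κ` with `phi Jc = Jc ^ q`, `IsFF k Jc`,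
`k(Jc) ⊆ κ` separable (`Jc = jk k N0` : `FrobK.phi_jk`, `FkBasics.isFF`, `SeparableFk.isSeparable_jk`;
`Jc = (jk k N0)⁻¹` : `SpecDictOne.phi_jk_inv`, `isFF_jk_inv`, `isSeparable_jk_inv`), a set `S₀` of
places of `κ`, `Fr`-stable and `Fr²`-fixed.

* `hφB`, `hφpow` : the chart of the component is Frobenius-stable, every `q`-th power is a
  Frobenius image (`SpecDictOne.phi_mem_chart_iff`, `phiB_pow`);
* `φB_eq_phiB` : `ChartPair.φB hφB = SpecDictOne.phiB`;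
* `S_fr_nodeSet`, `fr_fr_nodeSet` : the fields `S_fr`, `fr_fr` for `S = nodeSet S₀`;
* `hSJ_nodeSet` : `J⁻¹ ∉ n` for `n ∈ nodeSet S₀` when the places of `S₀` are off the cusps
  (`0 ≤ ord_b J`);
* **`finTDatumN`**, **`infTDatumN`** : the `TDatum`s with only `node` and `hrad` left as
  hypotheses; `finTDatumN_S`, `infTDatumN_S` : their node set is `nodeSet S₀` by `rfl`
  (so `BranchLinksX0.links_fin_datumY_nodeSet`, `hdict_inf_datumY_nodeSet`,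
  `CountClosed.hpt_nodeSet`, … apply with `hDS := rfl`).
-/
import Mathlib
import Fermat.Agent.S36.BranchX0G
import Fermat.Agent.S36.SpecDictOne

set_option autoImplicit false
set_option linter.style.haveILetI false
set_option linter.unusedSectionVars false
set_option linter.unusedVariables false

noncomputable section

namespace Fermat.Agent.S36.BranchX0Frob

open AlgebraicCurve ModularCurve IntermediateField
open Fermat.Agent.S24.FF
open Fermat.Agent.S36.ChartRing (chart)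
open Fermat.Agent.S36.PowerBasisK0 (FK)
open Fermat.Agent.S36.CompNormalX0 Fermat.Agent.S36.BranchCoreT
open Fermat.Agent.S36.BranchX0 Fermat.Agent.S36.BranchX0.ChartPair
open Fermat.Agent.S36.SpecDictOne
open Fermat.Agent.S34.FrobK
open scoped IntermediateField.algebraAdjoinAdjoin

local notation "Kb" => AlgebraicClosure ℚ

variable {H : Subgroup (Kb ≃ₐ[ℚ] Kb)}
variable {N0 q : ℕ} [NeZero N0] [NeZero q] [NeZero (N0 * q)] [NeZero (N0 * q * q)]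
variable {k : Type} [Field k] [hq : Fact q.Prime] [CharP k q] [PerfectField k]
variable {Y : ThreeValX0.Hyp H N0 q ↥(modularFunctionFieldFullC k N0)}
variable (hφ : Y.φ = ((phi k N0 q : _ →ₐ[k] _) :
  ↥(modularFunctionFieldFullC k N0) →+* ↥(modularFunctionFieldFullC k N0)))
variable {Jc : ↥(modularFunctionFieldFullC k N0)} (hφx : phi k N0 q Jc = Jc ^ q) (hx : IsFF k Jc)
  (hsep : Algebra.IsSeparable k⟮Jc⟯ ↥(modularFunctionFieldFullC k N0))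

/-! ### Frobenius on the chart of the component -/

include hφ hφx hx hsep in
/-- **`hφB`**: the chart of the component is Frobenius-stable -/
theorem hφB : ∀ z ∈ chart k Jc, Y.φ z ∈ chart k Jc := by
  intro z hz
  rw [hφ]
  exact (phi_mem_chart_iff k N0 q hφx hx hsep z).mpr hz

include hφ hφx hx hsep in
/-- **`hφpow`**: every `q`-th power of the chart is a Frobenius image -/
theorem hφpow : ∀ z ∈ chart k Jc, ∃ c ∈ chart k Jc, Y.φ c = z ^ q := by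
  intro z hz
  obtain ⟨c, hc⟩ := phiB_pow k N0 q hφx hx hsep ⟨z, hz⟩
  refine ⟨(c : ↥(modularFunctionFieldFullC k N0)), c.2, ?_⟩
  have h1 := congrArg (fun b : chart k Jc => (b : ↥(modularFunctionFieldFullC k N0))) hc
  simp only [coe_phiB, SubmonoidClass.coe_pow] at h1
  rw [hφ]
  exact h1

/-- `ChartPair.φB` is `SpecDictOne.phiB` -/
theorem φB_eq_phiB :
    φB (hφB hφ hφx hx hsep) = phiB k N0 q hφx hx hsep := by
  refine RingHom.ext fun z => Subtype.ext ?_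
  rw [coe_φB, coe_phiB, hφ]
  rfl

variable (S₀ : Set (Place k ↥(modularFunctionFieldFullC k N0)))

/-- **`S_fr`** for `S = nodeSet S₀` -/
theorem S_fr_nodeSet (hS : ∀ v ∈ S₀, Fr k N0 q v ∈ S₀) :
    ∀ n ∈ nodeSet k N0 (x := Jc) S₀,
      n.comap (φB (hφB hφ hφx hx hsep)) ∈ nodeSet k N0 (x := Jc) S₀ := by
  rw [φB_eq_phiB hφ hφx hx hsep]
  exact nodeSet_fr k N0 q hφx hx hsep S₀ hS

/-- **`fr_fr`** for `S = nodeSet S₀` -/
theorem fr_fr_nodeSet (hS : ∀ v ∈ S₀, Fr k N0 q (Fr k N0 q v) = v) :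
    ∀ n ∈ nodeSet k N0 (x := Jc) S₀,
      (n.comap (φB (hφB hφ hφx hx hsep))).comap (φB (hφB hφ hφx hx hsep)) = n := by
  rw [φB_eq_phiB hφ hφx hx hsep]
  exact nodeSet_fr_fr k N0 q hφx hx hsep S₀ hS

/-- **`hSJ`**: the points of `nodeSet S₀` are off the cusps: `J⁻¹ ∉ n` -/
theorem hSJ_nodeSet (hJc : Y.J⁻¹ ∈ chart k Jc) (hS : ∀ b ∈ S₀, 0 ≤ b.ord Y.J) :
    ∀ n ∈ nodeSet k N0 (x := Jc) S₀, (⟨Y.J⁻¹, hJc⟩ : ↥(chart k Jc)) ∉ n := by
  rintro n ⟨b, hb, hv, rfl⟩ hmem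
  rw [mem_pointOf_iff] at hmem
  have hJ0 : Y.J ≠ 0 := J_ne_zero Y
  rcases hmem with h0 | hpos
  · exact inv_ne_zero hJ0 (congrArg (fun z : chart k Jc =>
      (z : ↥(modularFunctionFieldFullC k N0))) h0)
  · have h1 : b.ord (Y.J⁻¹) = - b.ord Y.J := Place.ord_inv b Y.J
    have h2 := hS b hb
    change 0 < b.ord (Y.J⁻¹) at hpos
    omega

/-! ### the two `TDatum`s -/

variable {O : Type*} [CommRing O] [Algebra O (FK H N0)] [Algebra O (FK H (N0 * q))]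
  [Algebra O (FK H (N0 * q * q))] {π : O →+* k} {hB : Base Y O π}

/-- **the `TDatum` on the finite charts with node set `nodeSet S₀`**: only `node` and `hrad` are
left as hypotheses -/
def finTDatumN (P : ChartPair hB (x1 H N0 q) (x2 H N0 q) Jc)
    (hfr : ∀ v ∈ S₀, Fr k N0 q v ∈ S₀) (hfrfr : ∀ v ∈ S₀, Fr k N0 q (Fr k N0 q v) = v)
    (node : ∀ n' n : Ideal ↥(chart k Jc), n'.IsMaximal → n.IsMaximal →
      (n'.comap P.red1 = n.comap P.red2 ↔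
        n ∈ nodeSet k N0 (x := Jc) S₀ ∧ n' = n.comap (φB (hφB hφ hφx hx hsep))))
    (hrad : ∀ a ∈ chart O (x2 H N0 q), a ∈ Y.W₂₀.nonunits → a ∈ Y.W₁₁.nonunits →
      a ∈ Y.W₀₂.nonunits →
      ∃ N : ℕ, ∃ y ∈ chart O (x2 H N0 q), a ^ N = (q : FK H (N0 * q * q)) * y) :
    TDatum ↥(chart O (x1 H N0 q)) ↥(chart O (x2 H N0 q)) ↥(chart k Jc) :=
  P.finTDatumOf (hφB hφ hφx hx hsep) (hφpow hφ hφx hx hsep) (nodeSet k N0 (x := Jc) S₀) node
    (S_fr_nodeSet hφ hφx hx hsep S₀ hfr) (fr_fr_nodeSet hφ hφx hx hsep S₀ hfrfr) hrad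

/-- **the `TDatum` on the charts at infinity with node set `nodeSet S₀`**: only `node` and `hrad`
are left as hypotheses -/
def infTDatumN (P : ChartPair hB (x1 H N0 q)⁻¹ (x2 H N0 q)⁻¹ Jc) (hJc : Y.J⁻¹ ∈ chart k Jc)
    (hfr : ∀ v ∈ S₀, Fr k N0 q v ∈ S₀) (hfrfr : ∀ v ∈ S₀, Fr k N0 q (Fr k N0 q v) = v)
    (hoff : ∀ b ∈ S₀, 0 ≤ b.ord Y.J)
    (node : ∀ n' n : Ideal ↥(chart k Jc), n'.IsMaximal → n.IsMaximal →
      (n'.comap P.red1 = n.comap P.red2 ↔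
        n ∈ nodeSet k N0 (x := Jc) S₀ ∧ n' = n.comap (φB (hφB hφ hφx hx hsep))))
    (hrad : ∀ a ∈ chart O (x2 H N0 q)⁻¹, a ∈ Y.W₂₀.nonunits → a ∈ Y.W₁₁.nonunits →
      a ∈ Y.W₀₂.nonunits →
      ∃ N : ℕ, ∃ y ∈ chart O (x2 H N0 q)⁻¹, a ^ N = (q : FK H (N0 * q * q)) * y) :
    TDatum ↥(chart O (x1 H N0 q)⁻¹) ↥(chart O (x2 H N0 q)⁻¹) ↥(chart k Jc) :=
  P.infTDatumOf hJc (hφB hφ hφx hx hsep) (hφpow hφ hφx hx hsep) (nodeSet k N0 (x := Jc) S₀)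
    (hSJ_nodeSet S₀ hJc hoff) node
    (S_fr_nodeSet hφ hφx hx hsep S₀ hfr) (fr_fr_nodeSet hφ hφx hx hsep S₀ hfrfr) hrad

section Facts

variable (P : ChartPair hB (x1 H N0 q) (x2 H N0 q) Jc)
  (hfr : ∀ v ∈ S₀, Fr k N0 q v ∈ S₀) (hfrfr : ∀ v ∈ S₀, Fr k N0 q (Fr k N0 q v) = v)
  (node : ∀ n' n : Ideal ↥(chart k Jc), n'.IsMaximal → n.IsMaximal →
    (n'.comap P.red1 = n.comap P.red2 ↔
      n ∈ nodeSet k N0 (x := Jc) S₀ ∧ n' = n.comap (φB (hφB hφ hφx hx hsep))))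
  (hrad : ∀ a ∈ chart O (x2 H N0 q), a ∈ Y.W₂₀.nonunits → a ∈ Y.W₁₁.nonunits →
    a ∈ Y.W₀₂.nonunits →
    ∃ N : ℕ, ∃ y ∈ chart O (x2 H N0 q), a ^ N = (q : FK H (N0 * q * q)) * y)

/-- the node set of `finTDatumN` is `nodeSet S₀` -/
theorem finTDatumN_S :
    (finTDatumN hφ hφx hx hsep S₀ P hfr hfrfr node hrad).S = nodeSet k N0 (x := Jc) S₀ := rfl

theorem finTDatumN_q : (finTDatumN hφ hφx hx hsep S₀ P hfr hfrfr node hrad).q = q := rfl

theorem finTDatumN_ϖ : (finTDatumN hφ hφx hx hsep S₀ P hfr hfrfr node hrad).ϖ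
    = ((q : ℕ) : ↥(chart O (x2 H N0 q))) := rfl

theorem finTDatumN_r20 : (finTDatumN hφ hφx hx hsep S₀ P hfr hfrfr node hrad).r20 = P.r20 := rfl

theorem finTDatumN_r11 : (finTDatumN hφ hφx hx hsep S₀ P hfr hfrfr node hrad).r11 = P.r11 := rfl

theorem finTDatumN_r02 : (finTDatumN hφ hφx hx hsep S₀ P hfr hfrfr node hrad).r02 = P.r02 := rfl

theorem finTDatumN_φ : (finTDatumN hφ hφx hx hsep S₀ P hfr hfrfr node hrad).φ
    = phiB k N0 q hφx hx hsep := φB_eq_phiB hφ hφx hx hsep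

end Facts

section FactsInf

variable (P : ChartPair hB (x1 H N0 q)⁻¹ (x2 H N0 q)⁻¹ Jc) (hJc : Y.J⁻¹ ∈ chart k Jc)
  (hfr : ∀ v ∈ S₀, Fr k N0 q v ∈ S₀) (hfrfr : ∀ v ∈ S₀, Fr k N0 q (Fr k N0 q v) = v)
  (hoff : ∀ b ∈ S₀, 0 ≤ b.ord Y.J)
  (node : ∀ n' n : Ideal ↥(chart k Jc), n'.IsMaximal → n.IsMaximal →
    (n'.comap P.red1 = n.comap P.red2 ↔
      n ∈ nodeSet k N0 (x := Jc) S₀ ∧ n' = n.comap (φB (hφB hφ hφx hx hsep))))
  (hrad : ∀ a ∈ chart O (x2 H N0 q)⁻¹, a ∈ Y.W₂₀.nonunits → a ∈ Y.W₁₁.nonunits →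
    a ∈ Y.W₀₂.nonunits →
    ∃ N : ℕ, ∃ y ∈ chart O (x2 H N0 q)⁻¹, a ^ N = (q : FK H (N0 * q * q)) * y)

/-- the node set of `infTDatumN` is `nodeSet S₀` -/
theorem infTDatumN_S :
    (infTDatumN hφ hφx hx hsep S₀ P hJc hfr hfrfr hoff node hrad).S
      = nodeSet k N0 (x := Jc) S₀ := rfl

theorem infTDatumN_q :
    (infTDatumN hφ hφx hx hsep S₀ P hJc hfr hfrfr hoff node hrad).q = q := rfl

theorem infTDatumN_ϖ : (infTDatumN hφ hφx hx hsep S₀ P hJc hfr hfrfr hoff node hrad).ϖ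
    = ((q : ℕ) : ↥(chart O (x2 H N0 q)⁻¹)) := rfl

theorem infTDatumN_r20 :
    (infTDatumN hφ hφx hx hsep S₀ P hJc hfr hfrfr hoff node hrad).r20 = P.r20 := rfl

theorem infTDatumN_r11 :
    (infTDatumN hφ hφx hx hsep S₀ P hJc hfr hfrfr hoff node hrad).r11 = P.r11 := rfl

theorem infTDatumN_r02 :
    (infTDatumN hφ hφx hx hsep S₀ P hJc hfr hfrfr hoff node hrad).r02 = P.r02 := rfl

end FactsInf

end Fermat.Agent.S36.BranchX0Frob
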