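/-
PROJECT V (S36), slice V-ChartMapsX0 (helper10; helper2 #2685 (S5)): **the level maps between the
chart rings, bundled as ring homomorphisms** (the fields `α β : A₁ →+* A` of
`BranchCoreT.PDatum` at `X₀`, and `a₀ a₁ a₂ : A₀ →+* A`).

* Generic: `chartMap a h : chart O φ' →+* chart O φ` for a ring homomorphism `a : F' →+* F` of
  fields mapping `chart O φ'` into `chart O φ`; `coe_chartMap`, `algebraMap_chartMap`,
  `chartMap_injective`, `chartMap_comp`, `chartMap_piChart`, `chartMap_constChart`.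
* `X₀`, generic base ring `O` (three `Algebra` instances + linearity of `α β` over `O`, exactly the
  hypotheses of `ChartsX0.alphaK_mem_chart_x2` ...): `alphaFin12 betaFin12 alphaInf12 betaInf12`,
  `alphaFin01 betaFin01 alphaInf01 betaInf01`.
* `X₀` over `O₀ = W A` (no hypothesis; types of `S36/ChartX0`): `αfin βfin αinf βinf`
  (level `N₁ → N₂`), `α₀fin β₀fin α₀inf β₀inf` (level `N₀ → N₁`),
  `a0fin a1fin a2fin a0inf a1inf a2inf` (level `N₀ → N₂`), the compositions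
  `αfin ∘ α₀fin = a0fin`, `αfin ∘ β₀fin = a1fin = βfin ∘ α₀fin`, `βfin ∘ β₀fin = a2fin`
  (and `inf`), the images of the constants (`map_piChart`) and of the coordinates.
-/
import Mathlib
import Fermat.Agent.S36.ChartsX0

set_option autoImplicit false
set_option synthInstance.maxHeartbeats 400000
set_option linter.unusedSectionVars false
set_option linter.unusedVariables false
set_option linter.style.haveILetI false

noncomputable section

namespace Fermat.Agent.S36.ChartMapsX0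

open Polynomial IntermediateField ModularCurve
open Fermat.Agent.S18.C.SmallDVR Fermat.Agent.S36.PowerBasisK0
open Fermat.Agent.S36.ChartRing Fermat.Agent.S36.Centre Fermat.Agent.S36.ChartsX0

local notation "Kb" => AlgebraicClosure ℚ

/-! ### Generic: restriction of a field homomorphism to chart rings -/

section Generic

variable {O : Type*} [CommRing O] {F' F : Type*} [Field F'] [Field F] [Algebra O F']
  [Algebra O F]

/-- The restriction of `a : F' →+* F` to the chart rings, when `a` maps `chart O φ'` into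
`chart O φ`. -/
def chartMap (a : F' →+* F) {φ' : F'} {φ : F} (h : ∀ x ∈ chart O φ', a x ∈ chart O φ) :
    ↥(chart O φ') →+* ↥(chart O φ) where
  toFun x := ⟨a (x : F'), h _ x.2⟩
  map_one' := Subtype.ext (map_one a)
  map_mul' x y := Subtype.ext (map_mul a _ _)
  map_zero' := Subtype.ext (map_zero a)
  map_add' x y := Subtype.ext (map_add a _ _)

@[simp] theorem coe_chartMap (a : F' →+* F) {φ' : F'} {φ : F}
    (h : ∀ x ∈ chart O φ', a x ∈ chart O φ) (x : ↥(chart O φ')) :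
    ((chartMap a h x : ↥(chart O φ)) : F) = a (x : F') := rfl

theorem algebraMap_chartMap (a : F' →+* F) {φ' : F'} {φ : F}
    (h : ∀ x ∈ chart O φ', a x ∈ chart O φ) (x : ↥(chart O φ')) :
    algebraMap ↥(chart O φ) F (chartMap a h x) = a (algebraMap ↥(chart O φ') F' x) := rfl

theorem chartMap_injective (a : F' →+* F) {φ' : F'} {φ : F}
    (h : ∀ x ∈ chart O φ', a x ∈ chart O φ) : Function.Injective (chartMap a h) := by
  intro x y hxy
  apply Subtype.ext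
  apply a.injective
  have := congrArg (fun z : ↥(chart O φ) => (z : F)) hxy
  simpa only [coe_chartMap] using this

theorem chartMap_comp {F'' : Type*} [Field F''] [Algebra O F''] (a : F' →+* F) (b : F'' →+* F')
    {φ'' : F''} {φ' : F'} {φ : F} (ha : ∀ x ∈ chart O φ', a x ∈ chart O φ)
    (hb : ∀ x ∈ chart O φ'', b x ∈ chart O φ') :
    (chartMap a ha).comp (chartMap b hb) =
      chartMap (a.comp b) (fun x hx => ha _ (hb x hx)) := rfl

variable [IsDomain O]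

/-- the constants are preserved -/
theorem chartMap_piChart (a : F' →+* F) {φ' : F'} {φ : F}
    (h : ∀ x ∈ chart O φ', a x ∈ chart O φ)
    (hc : ∀ c : O, a (algebraMap O F' c) = algebraMap O F c) (π : O) :
    chartMap a h (piChart φ' π) = piChart φ π := by
  apply Subtype.ext
  rw [coe_chartMap, coe_piChart, coe_piChart, hc]

end Generic

/-! ### `X₀`: generic base ring -/

section X0

variable (H : Subgroup (Kb ≃ₐ[ℚ] Kb))
variable {N0 q : ℕ} [NeZero N0] [NeZero q] [NeZero (N0 * q)] [NeZero (N0 * q * q)]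
variable (O : Type*) [CommRing O]
variable [Algebra O (FK H N0)] [Algebra O (FK H (N0 * q))] [Algebra O (FK H (N0 * q * q))]

/-- `α : Afin₁ →+* Afin₂` -/
def alphaFin12 (hq : q.Prime)
    (hα : ∀ c : O, alphaK H (N0 * q) q (algebraMap O _ c) = algebraMap O _ c) :
    ↥(chart O (x1 H N0 q)) →+* ↥(chart O (x2 H N0 q)) :=
  chartMap (alphaK H (N0 * q) q) fun x hx => alphaK_mem_chart_x2 H O hq hα hx

/-- `β : Afin₁ →+* Afin₂` -/
def betaFin12 (hq : q.Prime)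
    (hβ : ∀ c : O, betaK H (N0 * q) q (algebraMap O _ c) = algebraMap O _ c) :
    ↥(chart O (x1 H N0 q)) →+* ↥(chart O (x2 H N0 q)) :=
  chartMap (betaK H (N0 * q) q) fun x hx => betaK_mem_chart_x2 H O hq hβ hx

/-- `α : Ainf₁ →+* Ainf₂` -/
def alphaInf12 (hq : q.Prime)
    (hα : ∀ c : O, alphaK H (N0 * q) q (algebraMap O _ c) = algebraMap O _ c) :
    ↥(chart O (x1 H N0 q)⁻¹) →+* ↥(chart O (x2 H N0 q)⁻¹) :=
  chartMap (alphaK H (N0 * q) q) fun x hx => alphaK_mem_chart_inv_x2 H O hq hα hx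

/-- `β : Ainf₁ →+* Ainf₂` -/
def betaInf12 (hq : q.Prime)
    (hβ : ∀ c : O, betaK H (N0 * q) q (algebraMap O _ c) = algebraMap O _ c) :
    ↥(chart O (x1 H N0 q)⁻¹) →+* ↥(chart O (x2 H N0 q)⁻¹) :=
  chartMap (betaK H (N0 * q) q) fun x hx => betaK_mem_chart_inv_x2 H O hq hβ hx

/-- `α : Afin₀ →+* Afin₁` -/
def alphaFin01 (hq : q.Prime)
    (hα : ∀ c : O, alphaK H N0 q (algebraMap O _ c) = algebraMap O _ c) :
    ↥(chart O (j0K H N0)) →+* ↥(chart O (x1 H N0 q)) :=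
  chartMap (alphaK H N0 q) fun x hx => alphaK_mem_chart_x1 H O hq hα hx

/-- `β : Afin₀ →+* Afin₁` -/
def betaFin01 (hq : q.Prime)
    (hβ : ∀ c : O, betaK H N0 q (algebraMap O _ c) = algebraMap O _ c) :
    ↥(chart O (j0K H N0)) →+* ↥(chart O (x1 H N0 q)) :=
  chartMap (betaK H N0 q) fun x hx => betaK_mem_chart_x1 H O hq hβ hx

/-- `α : Ainf₀ →+* Ainf₁` -/
def alphaInf01 (hq : q.Prime)
    (hα : ∀ c : O, alphaK H N0 q (algebraMap O _ c) = algebraMap O _ c) :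
    ↥(chart O (j0K H N0)⁻¹) →+* ↥(chart O (x1 H N0 q)⁻¹) :=
  chartMap (alphaK H N0 q) fun x hx => alphaK_mem_chart_inv_x1 H O hq hα hx

/-- `β : Ainf₀ →+* Ainf₁` -/
def betaInf01 (hq : q.Prime)
    (hβ : ∀ c : O, betaK H N0 q (algebraMap O _ c) = algebraMap O _ c) :
    ↥(chart O (j0K H N0)⁻¹) →+* ↥(chart O (x1 H N0 q)⁻¹) :=
  chartMap (betaK H N0 q) fun x hx => betaK_mem_chart_inv_x1 H O hq hβ hx

end X0

/-! ### `X₀` over `O₀ = W A` -/

section Concrete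

open Fermat.Agent.S36.ChartX0

variable {q : ℕ} [hq : Fact q.Prime] (A : ValuationSubring Kb)
variable (N0 : ℕ) [NeZero N0] [NeZero q] [NeZero (N0 * q)] [NeZero (N0 * q * q)]

local notation "I" => A.inertiaSubgroupIn ℚ

/-- `Afin₀ = chart O₀ j` at level `N₀` -/
abbrev Afin0 : Subalgebra (Algebra.adjoin ↥(W A) ({(j0K I N0 : FK0 A N0)} : Set (FK0 A N0)))
    (FK0 A N0) := chartX0 A N0 (j0K I N0)

/-- `Ainf₀ = chart O₀ j⁻¹` at level `N₀` -/
abbrev Ainf0 : Subalgebra (Algebra.adjoin ↥(W A) ({(j0K I N0 : FK0 A N0)⁻¹} : Set (FK0 A N0)))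
    (FK0 A N0) := chartX0 A N0 (j0K I N0 : FK0 A N0)⁻¹

/-- `Afin₁ = chart O₀ x₁` at level `N₁ = N₀ q` -/
abbrev Afin1 : Subalgebra (Algebra.adjoin ↥(W A) ({x1K0 (q := q) A N0} : Set (FK0 A (N0 * q))))
    (FK0 A (N0 * q)) := chartX0 A (N0 * q) (x1K0 (q := q) A N0)

/-- `Ainf₁ = chart O₀ x₁⁻¹` -/
abbrev Ainf1 :
    Subalgebra (Algebra.adjoin ↥(W A) ({(x1K0 (q := q) A N0)⁻¹} : Set (FK0 A (N0 * q))))
      (FK0 A (N0 * q)) := chartX0 A (N0 * q) (x1K0 (q := q) A N0)⁻¹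

/-- `Afin₂ = chart O₀ x₂` at level `N₂ = N₀ q²` -/
abbrev Afin2 :
    Subalgebra (Algebra.adjoin ↥(W A) ({x2K0 (q := q) A N0} : Set (FK0 A (N0 * q * q))))
      (FK0 A (N0 * q * q)) := chartX0 A (N0 * q * q) (x2K0 (q := q) A N0)

/-- `Ainf₂ = chart O₀ x₂⁻¹` -/
abbrev Ainf2 :
    Subalgebra (Algebra.adjoin ↥(W A) ({(x2K0 (q := q) A N0)⁻¹} : Set (FK0 A (N0 * q * q))))
      (FK0 A (N0 * q * q)) := chartX0 A (N0 * q * q) (x2K0 (q := q) A N0)⁻¹

/-- `α : Afin₁ →+* Afin₂` -/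
def αfin : ↥(Afin1 (q := q) A N0) →+* ↥(Afin2 (q := q) A N0) :=
  chartMap (O := ↥(W A)) (F' := FK0 A (N0 * q)) (F := FK0 A (N0 * q * q))
    (alphaK I (N0 * q) q) fun x hx => alphaK_mem_chartX0_x2 A N0 hx

/-- `β : Afin₁ →+* Afin₂` -/
def βfin : ↥(Afin1 (q := q) A N0) →+* ↥(Afin2 (q := q) A N0) :=
  chartMap (O := ↥(W A)) (F' := FK0 A (N0 * q)) (F := FK0 A (N0 * q * q))
    (betaK I (N0 * q) q) fun x hx => betaK_mem_chartX0_x2 A N0 hx

/-- `α : Ainf₁ →+* Ainf₂` -/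
def αinf : ↥(Ainf1 (q := q) A N0) →+* ↥(Ainf2 (q := q) A N0) :=
  chartMap (O := ↥(W A)) (F' := FK0 A (N0 * q)) (F := FK0 A (N0 * q * q))
    (alphaK I (N0 * q) q) fun x hx => alphaK_mem_chartX0_inv_x2 A N0 hx

/-- `β : Ainf₁ →+* Ainf₂` -/
def βinf : ↥(Ainf1 (q := q) A N0) →+* ↥(Ainf2 (q := q) A N0) :=
  chartMap (O := ↥(W A)) (F' := FK0 A (N0 * q)) (F := FK0 A (N0 * q * q))
    (betaK I (N0 * q) q) fun x hx => betaK_mem_chartX0_inv_x2 A N0 hx

/-- `α : Afin₀ →+* Afin₁` -/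
def α₀fin : ↥(Afin0 A N0) →+* ↥(Afin1 (q := q) A N0) :=
  chartMap (O := ↥(W A)) (F' := FK0 A N0) (F := FK0 A (N0 * q))
    (alphaK I N0 q) fun x hx => alphaK_mem_chartX0_x1 A N0 hx

/-- `β : Afin₀ →+* Afin₁` -/
def β₀fin : ↥(Afin0 A N0) →+* ↥(Afin1 (q := q) A N0) :=
  chartMap (O := ↥(W A)) (F' := FK0 A N0) (F := FK0 A (N0 * q))
    (betaK I N0 q) fun x hx => betaK_mem_chartX0_x1 A N0 hx

/-- `α : Ainf₀ →+* Ainf₁` -/
def α₀inf : ↥(Ainf0 A N0) →+* ↥(Ainf1 (q := q) A N0) :=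
  chartMap (O := ↥(W A)) (F' := FK0 A N0) (F := FK0 A (N0 * q))
    (alphaK I N0 q) fun x hx => alphaK_mem_chartX0_inv_x1 A N0 hx

/-- `β : Ainf₀ →+* Ainf₁` -/
def β₀inf : ↥(Ainf0 A N0) →+* ↥(Ainf1 (q := q) A N0) :=
  chartMap (O := ↥(W A)) (F' := FK0 A N0) (F := FK0 A (N0 * q))
    (betaK I N0 q) fun x hx => betaK_mem_chartX0_inv_x1 A N0 hx

/-- `a₀ = α ∘ α : Afin₀ →+* Afin₂` -/
def a0fin : ↥(Afin0 A N0) →+* ↥(Afin2 (q := q) A N0) :=
  chartMap (O := ↥(W A)) (F' := FK0 A N0) (F := FK0 A (N0 * q * q))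
    (a0 I N0 q) fun x hx => (a_mem_chartX0_x2 A N0 hx).1

/-- `a₁ = α ∘ β : Afin₀ →+* Afin₂` -/
def a1fin : ↥(Afin0 A N0) →+* ↥(Afin2 (q := q) A N0) :=
  chartMap (O := ↥(W A)) (F' := FK0 A N0) (F := FK0 A (N0 * q * q))
    (a1 I N0 q) fun x hx => (a_mem_chartX0_x2 A N0 hx).2.1

/-- `a₂ = β ∘ β : Afin₀ →+* Afin₂` -/
def a2fin : ↥(Afin0 A N0) →+* ↥(Afin2 (q := q) A N0) :=
  chartMap (O := ↥(W A)) (F' := FK0 A N0) (F := FK0 A (N0 * q * q))
    (a2 I N0 q) fun x hx => (a_mem_chartX0_x2 A N0 hx).2.2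

/-- `a₀ : Ainf₀ →+* Ainf₂` -/
def a0inf : ↥(Ainf0 A N0) →+* ↥(Ainf2 (q := q) A N0) :=
  chartMap (O := ↥(W A)) (F' := FK0 A N0) (F := FK0 A (N0 * q * q))
    (a0 I N0 q) fun x hx => (a_mem_chartX0_inv_x2 A N0 hx).1

/-- `a₁ : Ainf₀ →+* Ainf₂` -/
def a1inf : ↥(Ainf0 A N0) →+* ↥(Ainf2 (q := q) A N0) :=
  chartMap (O := ↥(W A)) (F' := FK0 A N0) (F := FK0 A (N0 * q * q))
    (a1 I N0 q) fun x hx => (a_mem_chartX0_inv_x2 A N0 hx).2.1

/-- `a₂ : Ainf₀ →+* Ainf₂` -/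
def a2inf : ↥(Ainf0 A N0) →+* ↥(Ainf2 (q := q) A N0) :=
  chartMap (O := ↥(W A)) (F' := FK0 A N0) (F := FK0 A (N0 * q * q))
    (a2 I N0 q) fun x hx => (a_mem_chartX0_inv_x2 A N0 hx).2.2

/-! #### coercions -/

@[simp] theorem coe_αfin (x : ↥(Afin1 (q := q) A N0)) :
    ((αfin A N0 x : ↥(Afin2 (q := q) A N0)) : FK0 A (N0 * q * q)) =
      alphaK I (N0 * q) q (x : FK0 A (N0 * q)) := rfl

@[simp] theorem coe_βfin (x : ↥(Afin1 (q := q) A N0)) :
    ((βfin A N0 x : ↥(Afin2 (q := q) A N0)) : FK0 A (N0 * q * q)) =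
      betaK I (N0 * q) q (x : FK0 A (N0 * q)) := rfl

@[simp] theorem coe_αinf (x : ↥(Ainf1 (q := q) A N0)) :
    ((αinf A N0 x : ↥(Ainf2 (q := q) A N0)) : FK0 A (N0 * q * q)) =
      alphaK I (N0 * q) q (x : FK0 A (N0 * q)) := rfl

@[simp] theorem coe_βinf (x : ↥(Ainf1 (q := q) A N0)) :
    ((βinf A N0 x : ↥(Ainf2 (q := q) A N0)) : FK0 A (N0 * q * q)) =
      betaK I (N0 * q) q (x : FK0 A (N0 * q)) := rfl

@[simp] theorem coe_α₀fin (x : ↥(Afin0 A N0)) :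
    ((α₀fin (q := q) A N0 x : ↥(Afin1 (q := q) A N0)) : FK0 A (N0 * q)) =
      alphaK I N0 q (x : FK0 A N0) := rfl

@[simp] theorem coe_β₀fin (x : ↥(Afin0 A N0)) :
    ((β₀fin (q := q) A N0 x : ↥(Afin1 (q := q) A N0)) : FK0 A (N0 * q)) =
      betaK I N0 q (x : FK0 A N0) := rfl

@[simp] theorem coe_α₀inf (x : ↥(Ainf0 A N0)) :
    ((α₀inf (q := q) A N0 x : ↥(Ainf1 (q := q) A N0)) : FK0 A (N0 * q)) =
      alphaK I N0 q (x : FK0 A N0) := rfl

@[simp] theorem coe_β₀inf (x : ↥(Ainf0 A N0)) :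
    ((β₀inf (q := q) A N0 x : ↥(Ainf1 (q := q) A N0)) : FK0 A (N0 * q)) =
      betaK I N0 q (x : FK0 A N0) := rfl

@[simp] theorem coe_a0fin (x : ↥(Afin0 A N0)) :
    ((a0fin (q := q) A N0 x : ↥(Afin2 (q := q) A N0)) : FK0 A (N0 * q * q)) =
      a0 I N0 q (x : FK0 A N0) := rfl

@[simp] theorem coe_a1fin (x : ↥(Afin0 A N0)) :
    ((a1fin (q := q) A N0 x : ↥(Afin2 (q := q) A N0)) : FK0 A (N0 * q * q)) =
      a1 I N0 q (x : FK0 A N0) := rfl

@[simp] theorem coe_a2fin (x : ↥(Afin0 A N0)) :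
    ((a2fin (q := q) A N0 x : ↥(Afin2 (q := q) A N0)) : FK0 A (N0 * q * q)) =
      a2 I N0 q (x : FK0 A N0) := rfl

@[simp] theorem coe_a0inf (x : ↥(Ainf0 A N0)) :
    ((a0inf (q := q) A N0 x : ↥(Ainf2 (q := q) A N0)) : FK0 A (N0 * q * q)) =
      a0 I N0 q (x : FK0 A N0) := rfl

@[simp] theorem coe_a1inf (x : ↥(Ainf0 A N0)) :
    ((a1inf (q := q) A N0 x : ↥(Ainf2 (q := q) A N0)) : FK0 A (N0 * q * q)) =
      a1 I N0 q (x : FK0 A N0) := rfl

@[simp] theorem coe_a2inf (x : ↥(Ainf0 A N0)) :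
    ((a2inf (q := q) A N0 x : ↥(Ainf2 (q := q) A N0)) : FK0 A (N0 * q * q)) =
      a2 I N0 q (x : FK0 A N0) := rfl

/-! #### injectivity -/

theorem αfin_injective : Function.Injective (αfin (q := q) A N0) := chartMap_injective _ _
theorem βfin_injective : Function.Injective (βfin (q := q) A N0) := chartMap_injective _ _
theorem αinf_injective : Function.Injective (αinf (q := q) A N0) := chartMap_injective _ _
theorem βinf_injective : Function.Injective (βinf (q := q) A N0) := chartMap_injective _ _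
theorem α₀fin_injective : Function.Injective (α₀fin (q := q) A N0) := chartMap_injective _ _
theorem β₀fin_injective : Function.Injective (β₀fin (q := q) A N0) := chartMap_injective _ _
theorem α₀inf_injective : Function.Injective (α₀inf (q := q) A N0) := chartMap_injective _ _
theorem β₀inf_injective : Function.Injective (β₀inf (q := q) A N0) := chartMap_injective _ _

/-! #### compositions -/

theorem αfin_comp_α₀fin : (αfin (q := q) A N0).comp (α₀fin A N0) = a0fin A N0 := rfl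

theorem αfin_comp_β₀fin : (αfin (q := q) A N0).comp (β₀fin A N0) = a1fin A N0 := rfl

theorem βfin_comp_β₀fin : (βfin (q := q) A N0).comp (β₀fin A N0) = a2fin A N0 := rfl

theorem βfin_comp_α₀fin : (βfin (q := q) A N0).comp (α₀fin A N0) = a1fin A N0 := by
  apply RingHom.ext
  intro x
  apply Subtype.ext
  show betaK I (N0 * q) q (alphaK I N0 q (x : FK0 A N0)) = a1 I N0 q (x : FK0 A N0)
  rw [a1_eq]
  rfl

theorem αinf_comp_α₀inf : (αinf (q := q) A N0).comp (α₀inf A N0) = a0inf A N0 := rfl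

theorem αinf_comp_β₀inf : (αinf (q := q) A N0).comp (β₀inf A N0) = a1inf A N0 := rfl

theorem βinf_comp_β₀inf : (βinf (q := q) A N0).comp (β₀inf A N0) = a2inf A N0 := rfl

theorem βinf_comp_α₀inf : (βinf (q := q) A N0).comp (α₀inf A N0) = a1inf A N0 := by
  apply RingHom.ext
  intro x
  apply Subtype.ext
  show betaK I (N0 * q) q (alphaK I N0 q (x : FK0 A N0)) = a1 I N0 q (x : FK0 A N0)
  rw [a1_eq]
  rfl

/-! #### constants -/

theorem αfin_piChart (π : ↥(W A)) :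
    αfin (q := q) A N0 (piChart (x1K0 (q := q) A N0) π) = piChart (x2K0 (q := q) A N0) π :=
  chartMap_piChart (O := ↥(W A)) (F' := FK0 A (N0 * q)) (F := FK0 A (N0 * q * q)) _ _
    (alphaK_algebraMap_W A (N0 * q) q) π

theorem βfin_piChart (π : ↥(W A)) :
    βfin (q := q) A N0 (piChart (x1K0 (q := q) A N0) π) = piChart (x2K0 (q := q) A N0) π :=
  chartMap_piChart (O := ↥(W A)) (F' := FK0 A (N0 * q)) (F := FK0 A (N0 * q * q)) _ _
    (betaK_algebraMap_W A (N0 * q) q) π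

theorem αinf_piChart (π : ↥(W A)) :
    αinf (q := q) A N0 (piChart (x1K0 (q := q) A N0)⁻¹ π) =
      piChart (x2K0 (q := q) A N0)⁻¹ π :=
  chartMap_piChart (O := ↥(W A)) (F' := FK0 A (N0 * q)) (F := FK0 A (N0 * q * q)) _ _
    (alphaK_algebraMap_W A (N0 * q) q) π

theorem βinf_piChart (π : ↥(W A)) :
    βinf (q := q) A N0 (piChart (x1K0 (q := q) A N0)⁻¹ π) =
      piChart (x2K0 (q := q) A N0)⁻¹ π :=
  chartMap_piChart (O := ↥(W A)) (F' := FK0 A (N0 * q)) (F := FK0 A (N0 * q * q)) _ _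
    (betaK_algebraMap_W A (N0 * q) q) π

theorem a0fin_piChart (π : ↥(W A)) :
    a0fin (q := q) A N0 (piChart (F := FK0 A N0) (j0K I N0) π) = piChart (x2K0 (q := q) A N0) π :=
  chartMap_piChart (O := ↥(W A)) (F' := FK0 A N0) (F := FK0 A (N0 * q * q)) _ _
    (a0_algebraMap_W A N0) π

theorem a1fin_piChart (π : ↥(W A)) :
    a1fin (q := q) A N0 (piChart (F := FK0 A N0) (j0K I N0) π) = piChart (x2K0 (q := q) A N0) π :=
  chartMap_piChart (O := ↥(W A)) (F' := FK0 A N0) (F := FK0 A (N0 * q * q)) _ _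
    (a1_algebraMap_W A N0) π

theorem a2fin_piChart (π : ↥(W A)) :
    a2fin (q := q) A N0 (piChart (F := FK0 A N0) (j0K I N0) π) = piChart (x2K0 (q := q) A N0) π :=
  chartMap_piChart (O := ↥(W A)) (F' := FK0 A N0) (F := FK0 A (N0 * q * q)) _ _
    (a2_algebraMap_W A N0) π

end Concrete

end Fermat.Agent.S36.ChartMapsX0
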