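/-
PROJECT V (S36), slice V-DetectsLoc (helper1): **the vertical valuation rings cut out the reduced
special fibre of every principal affine piece of a chart** -- the five `det`-fields of
`SoftCoreInput.GenericRoot` from ONE abstract statement.

Setting: `A` a noetherian integrally closed domain (a chart ring of the normal model), `F` its
fraction field, `ϖ ≠ 0` in `A` (the uniformiser of the base), `𝒜 ≤ F` the image of `A` as a
subring of `F` (hypothesis `h𝒜 : x ∈ 𝒜 ↔ ∃ a, x = ι a`, so that `𝒜` may be given in any form: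
`(chart O φ).toSubring`, an intersection of valuation subrings, ...).

* `exists_pow_mul_eq` (ring form) : if `x` lies in every conductor prime (`KrullInter.IsCond`,
  the height-one primes) containing `ϖ` and not `g`, then `g ^ k * x ^ N ∈ ϖ A` for some `k`, `N`:
  `x ∈ rad (ϖ A[1/g])`.
* `detects_away` : if the family `W` contains the discrete valuation subring `A_P` of every
  conductor prime `P ∋ ϖ`, then `SoftCoreInput.Detects W ϖ (awaySubring 𝒜 g)` for EVERY `g ∈ 𝒜`.
* `awaySubring_awaySubring`, `detects_away_away` : the same for `𝒜[1/φ][1/u]` (the rings `Smix`).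
* `IsCond.vertical`, `detects_away_of_vertical` : chart form.  `B ⊆ A` integral with `B` integrally
  closed and `π : B` a prime element: it is enough that `W` contains every *vertical* valuation
  subring `V ⊇ A` (`π` a non-unit of `V`, every `s ∈ B ∖ (π)` a unit of `V`), the hypothesis
  shape of `KrullInter.mem_range_of_vertical_horizontal` / `ChartRing`.
* `detects_fields` : all five `det`-fields of `GenericRoot` for a `SoftCore.Charts` whose two
  chart rings are of this kind.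
-/
import Mathlib
import Fermat.Agent.S36.KrullInter
import Fermat.Agent.S36.CentreCore
import Fermat.Agent.S36.SoftCoreInput

set_option autoImplicit false
set_option linter.unusedSectionVars false
set_option linter.style.haveILetI false
set_option linter.unusedVariables false

namespace Fermat.Agent.S36.DetectsLoc

open Fermat.Agent.S36.KrullInter Fermat.Agent.S36.FormalLift Fermat.Agent.S36.SoftCore
  Fermat.Agent.S36.SoftCoreInput

/-! ### Iterated principal localisations inside a field -/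

section Away

variable {F : Type*} [Field F]

/-- `𝒜[1/φ][1/u] = 𝒜[1/(φ * (φ ^ M * u))]` when `φ ^ M * u ∈ 𝒜`. -/
theorem awaySubring_awaySubring (𝒜 : Subring F) {φ u : F} (hφ : φ ∈ 𝒜)
    (hu : u ∈ awaySubring 𝒜 φ hφ) {M : ℕ} (hM : φ ^ M * u ∈ 𝒜) :
    awaySubring (awaySubring 𝒜 φ hφ) u hu =
      awaySubring 𝒜 (φ * (φ ^ M * u)) (𝒜.mul_mem hφ hM) := by
  apply le_antisymm
  · rintro x ⟨E, E', hx⟩
    refine ⟨E + E', ?_⟩
    have h1 : (φ * (φ ^ M * u)) ^ (E + E') * x =
        φ ^ ((M + 1) * E) * (φ ^ M * u) ^ E' * (φ ^ E' * (u ^ E * x)) := by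
      ring
    rw [h1]
    exact 𝒜.mul_mem (𝒜.mul_mem (pow_mem hφ _) (pow_mem hM _)) hx
  · rintro x ⟨K, hx⟩
    refine ⟨K, (M + 1) * K, ?_⟩
    have h1 : φ ^ ((M + 1) * K) * (u ^ K * x) = (φ * (φ ^ M * u)) ^ K * x := by
      ring
    rw [h1]
    exact hx

end Away

variable {A : Type*} [CommRing A] [IsDomain A] {F : Type*} [Field F] [Algebra A F]
  [IsFractionRing A F]

local notation "ι" => algebraMap A F

/-! ### Finiteness of the conductor primes over a nonzero element -/

/-- the conductor primes containing a nonzero element are minimal over it, hence finitely many -/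
theorem finite_condPrimes [IsNoetherianRing A] [IsIntegrallyClosed A] {a : A} (ha : a ≠ 0) :
    {Q : Ideal A | a ∈ Q ∧ ∃ z : F, IsCond Q z}.Finite := by
  refine (Ideal.finite_minimalPrimes_of_isNoetherianRing A (Ideal.span {a})).subset ?_
  rintro Q ⟨haQ, z, h⟩
  haveI := h.prime
  refine ⟨⟨h.prime, (Ideal.span_singleton_le_iff_mem _).2 haQ⟩, ?_⟩
  rintro P ⟨hP, haP⟩ hPQ
  haveI := hP
  rcases h.eq_bot_or_eq_of_le P hPQ with h1 | h1
  · exfalso
    have h2 : a ∈ P := haP (Ideal.mem_span_singleton_self a)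
    rw [h1, Ideal.mem_bot] at h2
    exact ha h2
  · exact h1.ge

/-! ### The ring form -/

section Core

variable [IsNoetherianRing A] [IsIntegrallyClosed A]

/-- at a conductor prime `P ∋ x`: `x ^ m / ϖ ∈ A_P` for all large `m` (the valuation of `ϖ` is
finite). -/
theorem exists_pow_div_mem {P : Ideal A} {y : F} (h : IsCond P y) {ϖ x : A} (hϖ : ϖ ≠ 0)
    (hx : x ∈ P) : ∃ n : ℕ, ∀ m, n ≤ m → ι x ^ m / ι ϖ ∈ h.valuationSubring := by
  obtain ⟨n, -, hn2⟩ := h.exists_pow_of_algebraMap hϖ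
  obtain ⟨a, ha⟩ := (h.mem_iff x).1 hx
  refine ⟨n, fun m hm => ?_⟩
  obtain ⟨d, rfl⟩ := Nat.exists_eq_add_of_le hm
  have hy := h.ne_zero
  have hϖF : ι ϖ ≠ 0 := algebraMap_ne_zero' hϖ
  have hyn : y ^ n ≠ 0 := pow_ne_zero n hy
  have h1 : ι x ^ (n + d) / ι ϖ = ι x ^ d * ι a ^ n * (ι ϖ * y ^ n)⁻¹ := by
    rw [← ha, mul_pow, pow_add]
    field_simp
  rw [h1]
  exact mul_mem (mul_mem (pow_mem (h.algebraMap_mem x) d) (pow_mem (h.algebraMap_mem a) n)) hn2

/-- **Ring form.**  If `x` lies in every conductor prime containing `ϖ` and not `g`, then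
`g ^ k * x ^ N ∈ ϖ A`. -/
theorem exists_pow_mul_eq {ϖ g x : A} (hϖ : ϖ ≠ 0)
    (hx : ∀ (P : Ideal A) (y : F) (h : IsCond P y), ϖ ∈ P → g ∉ P → x ∈ P) :
    ∃ (N k : ℕ) (a : A), g ^ k * x ^ N = ϖ * a := by
  have hϖF : ι ϖ ≠ 0 := algebraMap_ne_zero' hϖ
  have hfin := finite_condPrimes (F := F) hϖ
  have hex : ∀ Q : Ideal A, ∃ n : ℕ, ∀ (y : F) (h : IsCond Q y), ϖ ∈ Q → g ∉ Q →
      ∀ m, n ≤ m → ι x ^ m / ι ϖ ∈ h.valuationSubring := by
    intro Q
    by_cases hQ : ∃ y : F, IsCond Q y ∧ ϖ ∈ Q ∧ g ∉ Q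
    · obtain ⟨y₀, h₀, hϖQ, hgQ⟩ := hQ
      obtain ⟨n, hn⟩ := exists_pow_div_mem h₀ hϖ (hx Q y₀ h₀ hϖQ hgQ)
      exact ⟨n, fun y h _ _ m hm => hn m hm⟩
    · exact ⟨0, fun y h h1 h2 => absurd ⟨y, h, h1, h2⟩ hQ⟩
  choose n hn using hex
  set N : ℕ := ∑ Q ∈ hfin.toFinset, n Q with hN
  obtain ⟨k, a, hka⟩ := CentreCore.exists_pow_mul_eq_of_forall_isCond g (ι x ^ N / ι ϖ) (by
    intro P y h hgP
    by_cases hϖP : ϖ ∈ P
    · have hmem : P ∈ hfin.toFinset := by
        rw [Set.Finite.mem_toFinset]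
        exact ⟨hϖP, y, h⟩
      have hle : n P ≤ N := Finset.single_le_sum (f := n) (fun _ _ => Nat.zero_le _) hmem
      exact hn P y h hϖP hgP N hle
    · haveI := h.prime
      rw [div_eq_mul_inv]
      exact Subring.mul_mem _ (Subring.pow_mem _ (algebraMap_mem_locSubring P x) N)
        (inv_mem_locSubring hϖP))
  refine ⟨N, k, a, ?_⟩
  apply IsFractionRing.injective A F
  rw [map_mul, map_mul, map_pow _ x]
  rw [mul_div_assoc', div_eq_iff hϖF] at hka
  rw [hka, mul_comm]

end Core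

/-! ### `Detects` for principal localisations -/

section Detects

variable [IsNoetherianRing A] [IsIntegrallyClosed A]

/-- **Detects for localisations.**  `𝒜 ≤ F` the image of the noetherian integrally closed domain
`A`.  If the family `W` contains the discrete valuation subring of every conductor prime of `A`
containing `ϖ`, then for every `g ∈ 𝒜` an element of `𝒜[1/g]` lying in the maximal ideal of every
`W w ⊇ 𝒜[1/g]` lies in `rad (ϖ 𝒜[1/g])`. -/
theorem detects_away (𝒜 : Subring F) (h𝒜 : ∀ x : F, x ∈ 𝒜 ↔ ∃ a : A, x = ι a)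
    {𝒲 : Type*} (W : 𝒲 → ValuationSubring F) {ϖ : A} (hϖ : ϖ ≠ 0)
    (hW : ∀ (P : Ideal A) (y : F) (h : IsCond P y), ϖ ∈ P → ∃ w, W w = h.valuationSubring)
    (g : F) (hg : g ∈ 𝒜) : Detects W (ι ϖ) (awaySubring 𝒜 g hg) := by
  have hϖF : ι ϖ ≠ 0 := algebraMap_ne_zero' hϖ
  intro x hxS hxW
  by_cases hg0 : g = 0
  · refine ⟨1, x / ι ϖ, ⟨1, ?_⟩, ?_⟩
    · rw [hg0, pow_one, zero_mul]
      exact 𝒜.zero_mem
    · rw [pow_one, mul_div_cancel₀ _ hϖF]
  obtain ⟨E, hE⟩ := hxS
  obtain ⟨x₀, hx₀⟩ := (h𝒜 _).1 hE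
  obtain ⟨g₀, hg₀⟩ := (h𝒜 g).1 hg
  have hkey : ∀ (P : Ideal A) (y : F) (h : IsCond P y), ϖ ∈ P → g₀ ∉ P → x₀ ∈ P := by
    intro P y h hϖP hgP
    haveI := h.prime
    obtain ⟨w, hw⟩ := hW P y h hϖP
    have hginv : g⁻¹ ∈ h.valuationSubring := by
      rw [hg₀]
      exact inv_mem_locSubring hgP
    have hgV : g ∈ h.valuationSubring := by
      rw [hg₀]
      exact h.algebraMap_mem g₀
    have hle : awaySubring 𝒜 g hg ≤ (W w).toSubring := by
      rintro z ⟨E', hz⟩
      rw [hw]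
      obtain ⟨b, hb⟩ := (h𝒜 _).1 hz
      have hz' : z = g⁻¹ ^ E' * (g ^ E' * z) := by
        rw [inv_pow, ← mul_assoc, inv_mul_cancel₀ (pow_ne_zero _ hg0), one_mul]
      change z ∈ h.valuationSubring
      rw [hz', hb]
      exact mul_mem (pow_mem hginv _) (h.algebraMap_mem b)
    have hval := hxW w hle
    rw [hw] at hval
    by_cases hx0 : x₀ = 0
    · rw [hx0]
      exact P.zero_mem
    rw [h.mem_iff_inv_not_mem hx0]
    intro hinv
    change (ι x₀)⁻¹ ∈ h.valuationSubring at hinv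
    have hv1 : h.valuationSubring.valuation (ι x₀) < 1 := by
      rw [← hx₀, map_mul, map_pow]
      have hgle : h.valuationSubring.valuation g ≤ 1 :=
        (h.valuationSubring.valuation_le_one_iff g).2 hgV
      calc h.valuationSubring.valuation g ^ E * h.valuationSubring.valuation x
          ≤ 1 * h.valuationSubring.valuation x :=
            mul_le_mul' (pow_le_one' hgle E) le_rfl
        _ = h.valuationSubring.valuation x := one_mul _
        _ < 1 := hval
    have hv2 : h.valuationSubring.valuation (ι x₀)⁻¹ ≤ 1 :=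
      (h.valuationSubring.valuation_le_one_iff _).2 hinv
    have hιx₀ : ι x₀ ≠ 0 := algebraMap_ne_zero' hx0
    have h1 : h.valuationSubring.valuation (ι x₀ * (ι x₀)⁻¹) = 1 := by
      rw [mul_inv_cancel₀ hιx₀, map_one]
    rw [map_mul] at h1
    have h2 : h.valuationSubring.valuation (ι x₀) * h.valuationSubring.valuation (ι x₀)⁻¹ < 1 :=
      calc h.valuationSubring.valuation (ι x₀) * h.valuationSubring.valuation (ι x₀)⁻¹
          ≤ h.valuationSubring.valuation (ι x₀) * 1 := mul_le_mul' le_rfl hv2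
        _ = h.valuationSubring.valuation (ι x₀) := mul_one _
        _ < 1 := hv1
    exact absurd h1 (ne_of_lt h2)
  obtain ⟨N, k, a, hka⟩ := exists_pow_mul_eq (F := F) hϖ hkey
  have hka' : g ^ k * (g ^ E * x) ^ N = ι ϖ * ι a := by
    rw [hx₀, hg₀, ← map_pow, ← map_pow, ← map_mul, hka, map_mul]
  refine ⟨N, ι a * g⁻¹ ^ (k + E * N), ?_, ?_⟩
  · exact Subring.mul_mem _ (le_awaySubring 𝒜 g hg ((h𝒜 _).2 ⟨a, rfl⟩))
      (Subring.pow_mem _ (inv_mem_awaySubring 𝒜 hg) _)
  · have hgk : g ^ (k + E * N) ≠ 0 := pow_ne_zero _ hg0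
    have h3 : g ^ (k + E * N) * x ^ N = ι ϖ * ι a := by
      rw [← hka', mul_pow, ← pow_mul, pow_add]
      ring
    rw [inv_pow, ← mul_assoc, ← h3]
    field_simp

/-- the same for the iterated localisation `𝒜[1/φ][1/u]` (the rings `Smix` of the soft core) -/
theorem detects_away_away (𝒜 : Subring F) (h𝒜 : ∀ x : F, x ∈ 𝒜 ↔ ∃ a : A, x = ι a)
    {𝒲 : Type*} (W : 𝒲 → ValuationSubring F) {ϖ : A} (hϖ : ϖ ≠ 0)
    (hW : ∀ (P : Ideal A) (y : F) (h : IsCond P y), ϖ ∈ P → ∃ w, W w = h.valuationSubring)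
    (φ : F) (hφ : φ ∈ 𝒜) (u : F) (hu : u ∈ awaySubring 𝒜 φ hφ) :
    Detects W (ι ϖ) (awaySubring (awaySubring 𝒜 φ hφ) u hu) := by
  have hu' : ∃ M : ℕ, φ ^ M * u ∈ 𝒜 := hu
  obtain ⟨M, hM⟩ := hu'
  rw [awaySubring_awaySubring 𝒜 hφ hu hM]
  exact detects_away 𝒜 h𝒜 W hϖ hW _ _

end Detects

/-! ### Chart form: vertical valuation subrings -/

section Chart

variable [IsNoetherianRing A] [IsIntegrallyClosed A]
  {B : Type*} [CommRing B] [IsDomain B] [IsIntegrallyClosed B] [Algebra B A] [Algebra B F]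
  [IsScalarTower B A F] [Algebra.IsIntegral B A] [FaithfulSMul B A]

/-- A conductor prime of `A` containing the prime element `π` of `B` is *vertical*: `π` is a
non-unit of `A_P` and every element of `B` outside `(π)` is a unit of `A_P` (going-down). -/
theorem vertical_of_isCond {π : B} (hπ0 : π ≠ 0) (hπ : (Ideal.span {π}).IsPrime)
    {P : Ideal A} {y : F} (h : IsCond P y) (hπP : algebraMap B A π ∈ P) :
    (algebraMap B F π)⁻¹ ∉ h.valuationSubring ∧
      ∀ s : B, s ∉ Ideal.span {π} → (algebraMap B F s)⁻¹ ∈ h.valuationSubring := by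
  haveI := h.prime
  have hinjBA : Function.Injective (algebraMap B A) := FaithfulSMul.algebraMap_injective B A
  have hπA0 : algebraMap B A π ≠ 0 := fun h0 => hπ0 (hinjBA (by rw [h0, map_zero]))
  constructor
  · rw [IsScalarTower.algebraMap_apply B A F]
    exact (h.mem_iff_inv_not_mem hπA0).1 hπP
  · haveI := hπ
    have hle : Ideal.span {π} ≤ P.under B := by
      rw [Ideal.span_le, Set.singleton_subset_iff]
      exact hπP
    obtain ⟨P', hP'P, hP'prime, hP'over⟩ := Ideal.exists_ideal_le_liesOver_of_le P hle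
    haveI := hP'prime
    have hP'ne : P' ≠ ⊥ := by
      intro hbot
      have : algebraMap B A π ∈ P' := by
        have h1 : π ∈ P'.under B := by
          rw [← hP'over.over]; exact Ideal.mem_span_singleton_self π
        exact h1
      rw [hbot, Ideal.mem_bot] at this
      exact hπA0 this
    have hP'eq : P' = P := (h.eq_bot_or_eq_of_le P' hP'P).resolve_left hP'ne
    intro s hs
    rw [IsScalarTower.algebraMap_apply B A F]
    apply inv_mem_locSubring
    intro hsP
    apply hs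
    have : s ∈ P'.under B := by rw [hP'eq]; exact hsP
    rwa [← hP'over.over] at this

/-- a family containing all vertical valuation subrings contains the discrete valuation subring of
every conductor prime over `π` -/
theorem exists_eq_of_vertical {𝒲 : Type*} (W : 𝒲 → ValuationSubring F) {π : B} (hπ0 : π ≠ 0)
    (hπ : (Ideal.span {π}).IsPrime)
    (hvert : ∀ V : ValuationSubring F, (∀ a : A, ι a ∈ V) → (algebraMap B F π)⁻¹ ∉ V →
      (∀ s : B, s ∉ Ideal.span {π} → (algebraMap B F s)⁻¹ ∈ V) → ∃ w, W w = V)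
    (P : Ideal A) (y : F) (h : IsCond P y) (hπP : algebraMap B A π ∈ P) :
    ∃ w, W w = h.valuationSubring :=
  hvert h.valuationSubring h.algebraMap_mem (vertical_of_isCond hπ0 hπ h hπP).1
    (vertical_of_isCond hπ0 hπ h hπP).2

/-- **Detects for localisations, chart form.** -/
theorem detects_away_of_vertical (𝒜 : Subring F) (h𝒜 : ∀ x : F, x ∈ 𝒜 ↔ ∃ a : A, x = ι a)
    {𝒲 : Type*} (W : 𝒲 → ValuationSubring F) {π : B} (hπ0 : π ≠ 0)
    (hπ : (Ideal.span {π}).IsPrime)
    (hvert : ∀ V : ValuationSubring F, (∀ a : A, ι a ∈ V) → (algebraMap B F π)⁻¹ ∉ V →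
      (∀ s : B, s ∉ Ideal.span {π} → (algebraMap B F s)⁻¹ ∈ V) → ∃ w, W w = V)
    (g : F) (hg : g ∈ 𝒜) : Detects W (algebraMap B F π) (awaySubring 𝒜 g hg) := by
  have hinjBA : Function.Injective (algebraMap B A) := FaithfulSMul.algebraMap_injective B A
  have hπA0 : algebraMap B A π ≠ 0 := fun h0 => hπ0 (hinjBA (by rw [h0, map_zero]))
  rw [IsScalarTower.algebraMap_apply B A F]
  exact detects_away 𝒜 h𝒜 W hπA0 (exists_eq_of_vertical W hπ0 hπ hvert) g hg

/-- the same for the iterated localisation `𝒜[1/φ][1/u]` -/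
theorem detects_away_away_of_vertical (𝒜 : Subring F)
    (h𝒜 : ∀ x : F, x ∈ 𝒜 ↔ ∃ a : A, x = ι a)
    {𝒲 : Type*} (W : 𝒲 → ValuationSubring F) {π : B} (hπ0 : π ≠ 0)
    (hπ : (Ideal.span {π}).IsPrime)
    (hvert : ∀ V : ValuationSubring F, (∀ a : A, ι a ∈ V) → (algebraMap B F π)⁻¹ ∉ V →
      (∀ s : B, s ∉ Ideal.span {π} → (algebraMap B F s)⁻¹ ∈ V) → ∃ w, W w = V)
    (φ : F) (hφ : φ ∈ 𝒜) (u : F) (hu : u ∈ awaySubring 𝒜 φ hφ) :
    Detects W (algebraMap B F π) (awaySubring (awaySubring 𝒜 φ hφ) u hu) := by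
  have hinjBA : Function.Injective (algebraMap B A) := FaithfulSMul.algebraMap_injective B A
  have hπA0 : algebraMap B A π ≠ 0 := fun h0 => hπ0 (hinjBA (by rw [h0, map_zero]))
  rw [IsScalarTower.algebraMap_apply B A F]
  exact detects_away_away 𝒜 h𝒜 W hπA0 (exists_eq_of_vertical W hπ0 hπ hvert) φ hφ u hu

end Chart

/-! ### The five `det`-fields of `SoftCoreInput.GenericRoot` -/

section Fields

variable [IsNoetherianRing A] [IsIntegrallyClosed A]
  {A' : Type*} [CommRing A'] [IsDomain A'] [Algebra A' F] [IsFractionRing A' F]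
  [IsNoetherianRing A'] [IsIntegrallyClosed A']
  {R0 : Type*} [CommRing R0] [Algebra R0 F] {ι₁ ι₂ : Type*}

/-- **All five `det`-fields.**  `C` a pair of charts whose rings `C.𝒜`, `C.𝒜'` are the images of
noetherian integrally closed domains `A`, `A'` with fraction field `F`; `W` a family of valuation
subrings containing the discrete valuation subring of every conductor prime of `A` and of `A'` over
the uniformiser.  Then the vertical valuation rings cut out the reduced special fibre of every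
open of the cover and of every pairwise overlap. -/
theorem detects_fields (C : Charts R0 F ι₁ ι₂)
    (h𝒜 : ∀ x : F, x ∈ C.𝒜 ↔ ∃ a : A, x = ι a)
    (h𝒜' : ∀ x : F, x ∈ C.𝒜' ↔ ∃ a : A', x = algebraMap A' F a)
    {𝒲 : Type*} (W : 𝒲 → ValuationSubring F) {ϖ : A} (hϖ : ι ϖ = C.ϖF)
    {ϖ' : A'} (hϖ' : algebraMap A' F ϖ' = C.ϖF)
    (hW : ∀ (P : Ideal A) (y : F) (h : IsCond P y), ϖ ∈ P → ∃ w, W w = h.valuationSubring)
    (hW' : ∀ (P : Ideal A') (y : F) (h : IsCond P y), ϖ' ∈ P → ∃ w, W w = h.valuationSubring) :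
    (∀ i, Detects W C.ϖF (C.S i)) ∧ (∀ j, Detects W C.ϖF (C.S' j)) ∧
      (∀ i j, Detects W C.ϖF (C.S₂ i j)) ∧ (∀ i j, Detects W C.ϖF (C.S₂' i j)) ∧
      ∀ i j, Detects W C.ϖF (C.Smix i j) := by
  have hϖ0 : ϖ ≠ 0 := by
    rintro rfl
    rw [map_zero] at hϖ
    exact C.hϖ0 hϖ.symm
  have hϖ0' : ϖ' ≠ 0 := by
    rintro rfl
    rw [map_zero] at hϖ'
    exact C.hϖ0 hϖ'.symm
  refine ⟨fun i => ?_, fun j => ?_, fun i j => ?_, fun i j => ?_, fun i j => ?_⟩
  · rw [← hϖ]
    exact detects_away C.𝒜 h𝒜 W hϖ0 hW _ _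
  · rw [← hϖ']
    exact detects_away C.𝒜' h𝒜' W hϖ0' hW' _ _
  · rw [← hϖ]
    exact detects_away C.𝒜 h𝒜 W hϖ0 hW _ _
  · rw [← hϖ']
    exact detects_away C.𝒜' h𝒜' W hϖ0' hW' _ _
  · rw [← hϖ]
    exact detects_away_away C.𝒜 h𝒜 W hϖ0 hW _ _ _ _

end Fields

end Fermat.Agent.S36.DetectsLoc
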