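/-
PROJECT V (S36), slice V-DetectsLoc (helper1), concrete half: **`Detects` for the principal opens
of helper12's chart ring `chart O φ = integralClosure O[φ] F`**, with the hypothesis on the family
`W` in the literal Gauss-place shape of `ChartRing.mem_chart_of_gauss_places` (the output shape of
(V7) ModelVert: "a valuation subring of `F` containing `O` and `φ` in which `π` is a non-unit and
every primitive polynomial in `φ` is a unit is one of the `W w`").

* `isPrime_span_algebraMap`, `polyEquiv_mem_span_iff`, `exists_primitive_of_not_mem` : `(π)` is a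
  prime of `O[φ]`, and an element of `O[φ]` outside it is a primitive polynomial in `φ`.
* `exists_eq_of_gauss` : the discrete valuation subring of every conductor prime of `chart O φ`
  over `π` is one of the `W w`.
* `detects_chart_away`, `detects_chart_away_away` : `SoftCoreInput.Detects W π S` for
  `S = (chart O φ)[1/g]` and `S = (chart O φ)[1/ψ][1/u]`.
-/
import Mathlib
import Fermat.Agent.S36.ChartRing
import Fermat.Agent.S36.DetectsLoc

set_option autoImplicit false
set_option linter.unusedSectionVars false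
set_option linter.style.haveILetI false
set_option linter.unusedVariables false

namespace Fermat.Agent.S36.DetectsChart

open Polynomial IntermediateField
open Fermat.Agent.S36.KrullInter Fermat.Agent.S36.FormalLift Fermat.Agent.S36.SoftCoreInput
  Fermat.Agent.S36.ChartRing

variable {O : Type*} [CommRing O] [IsDomain O] [IsDiscreteValuationRing O] {K : Type*} [Field K]
  [Algebra O K] [IsFractionRing O K] {F : Type*} [Field F] [Algebra K F] [Algebra O F]
  [IsScalarTower O K F]

/-- `O[X] ≃ O[φ]` for a transcendental `φ` -/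
noncomputable def polyEquiv {φ : F} (hφ : Transcendental K φ) :
    O[X] ≃ₐ[O] Algebra.adjoin O ({φ} : Set F) :=
  Polynomial.algEquivOfTranscendental O φ (transcendental_base hφ)

theorem coe_polyEquiv {φ : F} (hφ : Transcendental K φ) (s : O[X]) :
    ((polyEquiv (O := O) hφ s : Algebra.adjoin O ({φ} : Set F)) : F) = aeval φ s := by
  rw [polyEquiv, Polynomial.algEquivOfTranscendental_apply]
  simp

theorem polyEquiv_C {φ : F} (hφ : Transcendental K φ) (c : O) :
    polyEquiv (O := O) hφ (C c) = algebraMap O (Algebra.adjoin O ({φ} : Set F)) c := by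
  rw [Polynomial.C_eq_algebraMap, AlgEquiv.commutes]

theorem polyEquiv_mem_span_iff {φ : F} (hφ : Transcendental K φ) (π : O) (s : O[X]) :
    polyEquiv (O := O) hφ s ∈ Ideal.span {algebraMap O (Algebra.adjoin O ({φ} : Set F)) π} ↔
      s ∈ Ideal.span {(C π : O[X])} := by
  rw [Ideal.mem_span_singleton, Ideal.mem_span_singleton, ← polyEquiv_C hφ π, map_dvd_iff]

/-- `(π)` is a prime ideal of `O[φ]` -/
theorem isPrime_span_algebraMap {π : O} (hπ : Irreducible π) {φ : F} (hφ : Transcendental K φ) :
    (Ideal.span {algebraMap O (Algebra.adjoin O ({φ} : Set F)) π} :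
        Ideal (Algebra.adjoin O ({φ} : Set F))).IsPrime := by
  have h0 : algebraMap O (Algebra.adjoin O ({φ} : Set F)) π ≠ 0 := by
    rw [← polyEquiv_C hφ π]
    intro h0
    exact C_ne_zero' hπ ((polyEquiv (O := O) hφ).injective (by rw [h0, map_zero]))
  rw [Ideal.span_singleton_prime h0, ← polyEquiv_C hφ π, MulEquiv.prime_iff]
  exact (Ideal.span_singleton_prime (C_ne_zero' hπ)).1 (isPrime_span_C hπ)

/-- an element of `O[φ]` outside `(π)` is a primitive polynomial in `φ` -/
theorem exists_primitive_of_not_mem {π : O} (hπ : Irreducible π) {φ : F}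
    (hφ : Transcendental K φ) {s : Algebra.adjoin O ({φ} : Set F)}
    (hs : s ∉ Ideal.span {algebraMap O (Algebra.adjoin O ({φ} : Set F)) π}) :
    ∃ p : O[X], (∃ i, IsUnit (p.coeff i)) ∧ (s : F) = aeval φ p := by
  refine ⟨(polyEquiv (O := O) hφ).symm s, ?_, ?_⟩
  · rw [← not_mem_span_C_iff hπ, ← polyEquiv_mem_span_iff hφ, AlgEquiv.apply_symm_apply]
    exact hs
  · rw [← coe_polyEquiv hφ, AlgEquiv.apply_symm_apply]

variable [CharZero K]

/-- the discrete valuation subring of every conductor prime of the chart ring over `π` is a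
Gauss place -/
theorem exists_eq_of_gauss {π : O} (hπ : Irreducible π) {φ : F} (hφ : Transcendental K φ)
    [FiniteDimensional K⟮φ⟯ F] {𝒲 : Type*} (W : 𝒲 → ValuationSubring F)
    (hvert : ∀ V : ValuationSubring F, (∀ c : O, algebraMap O F c ∈ V) → φ ∈ V →
      (algebraMap O F π)⁻¹ ∉ V →
      (∀ s : O[X], (∃ i, IsUnit (s.coeff i)) → (aeval φ s)⁻¹ ∈ V) → ∃ w, W w = V)
    :
    haveI := chart_isNoetherianRing (O := O) (K := K) hφ
    haveI := chart_isIntegrallyClosed (O := O) (K := K) hφ
    haveI := chart_isFractionRing (O := O) (K := K) hφ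
    ∀ (P : Ideal (chart O φ)) (y : F) (h : IsCond P y),
      algebraMap O (chart O φ) π ∈ P → ∃ w, W w = h.valuationSubring := by
  haveI := chart_isNoetherianRing (O := O) (K := K) hφ
  haveI := chart_isIntegrallyClosed (O := O) (K := K) hφ
  haveI := chart_isFractionRing (O := O) (K := K) hφ
  haveI := adjoin_isIntegrallyClosed (O := O) (K := K) hφ
  haveI : IsScalarTower (Algebra.adjoin O ({φ} : Set F)) (chart O φ) F :=
    Subalgebra.isScalarTower_mid _
  intro P y h hπP
  haveI : FaithfulSMul (Algebra.adjoin O ({φ} : Set F)) (chart O φ) := by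
    rw [faithfulSMul_iff_algebraMap_injective]
    intro a b hab
    apply Subtype.ext
    exact congrArg (fun z : chart O φ => (z : F)) hab
  have hπB0 : algebraMap O (Algebra.adjoin O ({φ} : Set F)) π ≠ 0 := by
    intro h0
    have h1 : algebraMap O F π = 0 := by
      rw [IsScalarTower.algebraMap_apply O (Algebra.adjoin O ({φ} : Set F)) F, h0, map_zero]
    exact algebraMap_ne_zero_of_ne_zero (K := K) hπ.ne_zero h1
  have hπP' : algebraMap (Algebra.adjoin O ({φ} : Set F)) (chart O φ)
      (algebraMap O (Algebra.adjoin O ({φ} : Set F)) π) ∈ P := by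
    rw [← IsScalarTower.algebraMap_apply]
    exact hπP
  obtain ⟨h1, h2⟩ := DetectsLoc.vertical_of_isCond (A := chart O φ) (F := F)
    (B := Algebra.adjoin O ({φ} : Set F)) hπB0 (isPrime_span_algebraMap hπ hφ) h hπP'
  refine hvert h.valuationSubring (fun c => ?_) ?_ ?_ ?_
  · rw [IsScalarTower.algebraMap_apply O (chart O φ) F]
    exact h.algebraMap_mem _
  · have hφA : φ ∈ chart O φ :=
      (chart O φ).algebraMap_mem
        (⟨φ, Algebra.self_mem_adjoin_singleton O φ⟩ : Algebra.adjoin O ({φ} : Set F))
    exact h.algebraMap_mem (⟨φ, hφA⟩ : chart O φ)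
  · rwa [← IsScalarTower.algebraMap_apply O (Algebra.adjoin O ({φ} : Set F)) F] at h1
  · intro s hs
    have h3 := h2 (polyEquiv (O := O) hφ s) (by
      rw [polyEquiv_mem_span_iff hφ]
      exact (not_mem_span_C_iff hπ s).2 hs)
    have h5 : algebraMap (Algebra.adjoin O ({φ} : Set F)) F (polyEquiv (O := O) hφ s) =
        aeval φ s := coe_polyEquiv hφ s
    rwa [h5] at h3

theorem mem_chart_iff (φ : F) (x : F) :
    x ∈ (chart O φ).toSubring ↔ ∃ a : chart O φ, x = algebraMap (chart O φ) F a :=
  ⟨fun hx => ⟨⟨x, hx⟩, rfl⟩, by rintro ⟨a, rfl⟩; exact a.2⟩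

/-- **Detects for the principal opens of the chart `chart O φ`.** -/
theorem detects_chart_away {π : O} (hπ : Irreducible π) {φ : F} (hφ : Transcendental K φ)
    [FiniteDimensional K⟮φ⟯ F] {𝒲 : Type*} (W : 𝒲 → ValuationSubring F)
    (hvert : ∀ V : ValuationSubring F, (∀ c : O, algebraMap O F c ∈ V) → φ ∈ V →
      (algebraMap O F π)⁻¹ ∉ V →
      (∀ s : O[X], (∃ i, IsUnit (s.coeff i)) → (aeval φ s)⁻¹ ∈ V) → ∃ w, W w = V)
    (g : F) (hg : g ∈ (chart O φ).toSubring) :
    Detects W (algebraMap O F π) (awaySubring (chart O φ).toSubring g hg) := by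
  haveI := chart_isNoetherianRing (O := O) (K := K) hφ
  haveI := chart_isIntegrallyClosed (O := O) (K := K) hφ
  haveI := chart_isFractionRing (O := O) (K := K) hφ
  have hπA0 : algebraMap O (chart O φ) π ≠ 0 := by
    intro h0
    have h1 : algebraMap O F π = 0 := by
      rw [IsScalarTower.algebraMap_apply O (chart O φ) F, h0, map_zero]
    exact algebraMap_ne_zero_of_ne_zero (K := K) hπ.ne_zero h1
  rw [IsScalarTower.algebraMap_apply O (chart O φ) F]
  exact DetectsLoc.detects_away (A := chart O φ) _ (mem_chart_iff φ) W hπA0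
    (exists_eq_of_gauss hπ hφ W hvert) g hg

/-- the same for the iterated localisation `(chart O φ)[1/ψ][1/u]` -/
theorem detects_chart_away_away {π : O} (hπ : Irreducible π) {φ : F} (hφ : Transcendental K φ)
    [FiniteDimensional K⟮φ⟯ F] {𝒲 : Type*} (W : 𝒲 → ValuationSubring F)
    (hvert : ∀ V : ValuationSubring F, (∀ c : O, algebraMap O F c ∈ V) → φ ∈ V →
      (algebraMap O F π)⁻¹ ∉ V →
      (∀ s : O[X], (∃ i, IsUnit (s.coeff i)) → (aeval φ s)⁻¹ ∈ V) → ∃ w, W w = V)
    (ψ : F) (hψ : ψ ∈ (chart O φ).toSubring) (u : F)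
    (hu : u ∈ awaySubring (chart O φ).toSubring ψ hψ) :
    Detects W (algebraMap O F π)
      (awaySubring (awaySubring (chart O φ).toSubring ψ hψ) u hu) := by
  haveI := chart_isNoetherianRing (O := O) (K := K) hφ
  haveI := chart_isIntegrallyClosed (O := O) (K := K) hφ
  haveI := chart_isFractionRing (O := O) (K := K) hφ
  have hπA0 : algebraMap O (chart O φ) π ≠ 0 := by
    intro h0
    have h1 : algebraMap O F π = 0 := by
      rw [IsScalarTower.algebraMap_apply O (chart O φ) F, h0, map_zero]
    exact algebraMap_ne_zero_of_ne_zero (K := K) hπ.ne_zero h1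
  rw [IsScalarTower.algebraMap_apply O (chart O φ) F]
  exact DetectsLoc.detects_away_away (A := chart O φ) _ (mem_chart_iff φ) W hπA0
    (exists_eq_of_gauss hπ hφ W hvert) ψ hψ u hu

end Fermat.Agent.S36.DetectsChart
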