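/-
PROJECT V (S36), slice V-B0ii-Theta, part 2 (helper13): **the identity of chain (V12)(ii) on the
concrete objects over `ℚ̄`**: for `a` in the Gauss ring of level `N0` (`q ∤ N0`, `A` a valuation
subring of `ℚ̄` over `q`), `z := a₂(a) - a₀(a) = a(t^{q²}) - a(t) ∈ E (N0 q q)`, the expansion of
`c = z^{q-1}/q` at the middle cusp (helper15's `MiddleCusp.iota`, `ι(a₂ a) = a(ζ t)`,
`ι(a₀ a) = a(t)`) is an `A`-integral fraction `X'/Y'` with reduction `-(θ ā)^{q-1}`, `ā = red a`.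

* `exists_fraction_diff_pow` : `ι(z^{q-1}) · Y' = q · X'`, `Ȳ' ≠ 0`, `X̄' = -(θ ā)^{q-1} · Ȳ'`;
* `exists_fraction_diff_pow_div` : the cusp form `z = a₂(a)/a₀(a) - 1` (`ā ≠ 0`):
  `ι((a₂ a - a₀ a)^{q-1}) · Y' = q · a^{q-1} · X'`, `X̄' · ā^{q-1} = -(θ ā)^{q-1} · Ȳ'`.
-/
import Mathlib
import Fermat.Agent.S36.DiffPow
import Fermat.Agent.S36.MiddleCusp
import Fermat.Agent.S37.Gauss.Datum

set_option autoImplicit false
set_option linter.unusedSectionVars false
set_option linter.style.haveILetI false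

noncomputable section

namespace Fermat.Agent.S36.DiffPowX0

open ModularCurve AlgebraicCurve IsLocalRing HahnSeries
open Fermat.Agent.S35.LevelMaps (E)
open Fermat.Agent.S28.LaurentRescale
open Fermat.Agent.S18.GaussFromH
open Fermat.Agent.S37.Gauss.Datum
open Fermat.Agent.S36.MiddleCusp Fermat.Agent.S36.DiffPow Fermat.Agent.S36.ThetaL

local notation "Kb" => AlgebraicClosure ℚ
local notation "Ω" => LaurentSeries Kb

set_option synthInstance.maxHeartbeats 400000
set_option maxHeartbeats 1000000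

variable {N0 q : ℕ} [NeZero N0] [NeZero q] [hq : Fact q.Prime] {A : ValuationSubring Kb}

/-- a root of unity lies in every valuation subring -/
theorem mem_of_pow_eq_one {ζ : Kb} (hζ : ζ ^ q = 1) : ζ ∈ A := by
  rcases A.mem_or_inv_mem ζ with h | h
  · exact h
  · have h1 : ζ = ζ⁻¹ ^ (q - 1) := by
      have hζ0 : ζ ≠ 0 := by
        rintro rfl
        rw [zero_pow hq.out.ne_zero] at hζ
        exact zero_ne_one hζ
      obtain ⟨n, hn⟩ : ∃ n, q = n + 1 := ⟨q - 1, (Nat.sub_add_cancel hq.out.pos).symm⟩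
      rw [hn, Nat.add_sub_cancel, inv_pow]
      rw [hn, pow_succ] at hζ
      field_simp
      rw [mul_comm]
      exact hζ
    rw [h1]
    exact pow_mem h _

/-- the root of unity as a unit of `A` -/
def zetaA (A : ValuationSubring Kb) {ζ : Kbˣ} (hζ : ζ ^ q = 1) : (↥A)ˣ where
  val := ⟨(ζ : Kb), mem_of_pow_eq_one (by rw [← Units.val_pow_eq_pow_val, hζ, Units.val_one])⟩
  inv := ⟨((ζ⁻¹ : Kbˣ) : Kb), mem_of_pow_eq_one (q := q)
    (by rw [← Units.val_pow_eq_pow_val, inv_pow, hζ, inv_one, Units.val_one])⟩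
  val_inv := Subtype.ext (by simp)
  inv_val := Subtype.ext (by simp)

theorem coe_zetaA {ζ : Kbˣ} (hζ : ζ ^ q = 1) : (((zetaA A hζ : (↥A)ˣ) : ↥A) : Kb) = ζ := rfl

theorem map_zetaA {ζ : Kbˣ} (hζ : ζ ^ q = 1) :
    Units.map (A.subtype : ↥A →+* Kb).toMonoidHom (zetaA A hζ) = ζ :=
  Units.ext rfl

variable (hA : A.LiesOverPrime q) (hqN : ¬ q ∣ N0) {ζ : Kbˣ} (hζ : IsPrimitiveRoot ζ q)

include hζ in
theorem isPrimitiveRoot_zetaA :
    IsPrimitiveRoot (((zetaA A hζ.pow_eq_one : (↥A)ˣ) : ↥A)) q := by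
  refine IsPrimitiveRoot.of_map_of_injective (f := (A.subtype : ↥A →+* Kb)) ?_
    Subtype.val_injective
  exact IsPrimitiveRoot.coe_units_iff.mpr hζ

include hζ in
theorem prod_zetaA :
    ∏ b ∈ Finset.Ico 1 q, (1 - (((zetaA A hζ.pow_eq_one) ^ b : (↥A)ˣ) : ↥A)) = (q : ↥A) :=
  prod_eq_of_isPrimitiveRoot (isPrimitiveRoot_zetaA hζ)

include hA hζ in
theorem residue_zetaA : residue ↥A ((zetaA A hζ.pow_eq_one : (↥A)ˣ) : ↥A) = 1 := by
  haveI : CharP (ResidueField ↥A) q := Fermat.Agent.S18.ResidueBasics.charP_residueField A hA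
  refine map_eq_one_of_pow_eq_one (q := q) (residue ↥A) ?_
  rw [← Units.val_pow_eq_pow_val]
  have : (zetaA A hζ.pow_eq_one) ^ q = 1 := by
    apply Units.ext
    apply Subtype.ext
    rw [Units.val_pow_eq_pow_val]
    show ((ζ : Kb)) ^ q = 1
    rw [← Units.val_pow_eq_pow_val, hζ.pow_eq_one, Units.val_one]
  rw [this, Units.val_one]

/-- a representation `a = X/Y` of an element of the Gauss ring with its reduction -/
theorem exists_rep (a : ↥(gaussDatum N0 A hA hqN).O) :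
    ∃ X Y : LaurentSeries ↥A,
      ((a : E N0) : Ω) * coeffMap A.subtype Y = coeffMap A.subtype X ∧
      coeffMap (residue ↥A) Y ≠ 0 ∧
      (((gaussDatum N0 A hA hqN).red a : ↥(modularFunctionFieldFullC (ResidueField ↥A) N0)) :
          LaurentSeries (ResidueField ↥A)) * coeffMap (residue ↥A) Y =
        coeffMap (residue ↥A) X := by
  obtain ⟨x, y, hy, hxy⟩ := (mem_O_iff hA hqN).mp a.2
  have hy' : coeffMap (residue ↥A) y.1 ≠ 0 := by
    intro h
    apply hy
    apply Subtype.ext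
    rw [coe_red]
    exact h
  refine ⟨x.1, y.1, ?_, hy', ?_⟩
  · have := congrArg Subtype.val hxy
    simpa using this
  · rw [red_eq hA hqN a hy hxy, IntermediateField.coe_div, coe_red, coe_red,
      div_mul_cancel₀ _ hy']

/-- **(V12)(ii) on the concrete objects**: the expansion at the middle cusp of
`(a₂(a) - a₀(a))^{q-1}` is `q` times an `A`-integral fraction with reduction `-(θ ā)^{q-1}`. -/
theorem exists_fraction_diff_pow (a : ↥(gaussDatum N0 A hA hqN).O) :
    ∃ X' Y' : LaurentSeries ↥A, coeffMap (residue ↥A) Y' ≠ 0 ∧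
      iota hqN hζ ((heckeBetaBar Kb (N0 * q) q (heckeBetaBar Kb N0 q (a : E N0)) -
          heckeAlphaBar Kb (N0 * q) q (heckeAlphaBar Kb N0 q (a : E N0))) ^ (q - 1)) *
        coeffMap A.subtype Y' = (q : Ω) * coeffMap A.subtype X' ∧
      coeffMap (residue ↥A) X' =
        -(thetaL (((gaussDatum N0 A hA hqN).red a :
            ↥(modularFunctionFieldFullC (ResidueField ↥A) N0)) :
              LaurentSeries (ResidueField ↥A)) ^ (q - 1)) * coeffMap (residue ↥A) Y' := by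
  haveI : CharP (ResidueField ↥A) q := Fermat.Agent.S18.ResidueBasics.charP_residueField A hA
  obtain ⟨X, Y, hF, hY, hFbar⟩ := exists_rep hA hqN a
  obtain ⟨X', Y', hY', h1, h2⟩ := exists_fraction_pow (q := q) (residue ↥A)
    (A.subtype : ↥A →+* Kb) (residue_zetaA hA hζ) (prod_zetaA hζ) hF hY hFbar
  refine ⟨X', Y', hY', ?_, h2⟩
  rw [map_pow, map_sub, iota_beta_beta, iota_alpha_alpha]
  rw [map_zetaA] at h1
  exact h1

/-- **(V12)(ii'), cusp form**: for `ā ≠ 0`,
`ι((a₂ a - a₀ a)^{q-1}) · Y' = q · a^{q-1} · X'` with `X̄' · ā^{q-1} = -(θ ā)^{q-1} · Ȳ'`. -/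
theorem exists_fraction_diff_pow_div (a : ↥(gaussDatum N0 A hA hqN).O)
    (ha : (gaussDatum N0 A hA hqN).red a ≠ 0) :
    ∃ X' Y' : LaurentSeries ↥A, coeffMap (residue ↥A) Y' ≠ 0 ∧
      iota hqN hζ ((heckeBetaBar Kb (N0 * q) q (heckeBetaBar Kb N0 q (a : E N0)) -
          heckeAlphaBar Kb (N0 * q) q (heckeAlphaBar Kb N0 q (a : E N0))) ^ (q - 1)) *
        coeffMap A.subtype Y' = (q : Ω) * ((a : E N0) : Ω) ^ (q - 1) * coeffMap A.subtype X' ∧
      coeffMap (residue ↥A) X' *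
          (((gaussDatum N0 A hA hqN).red a : ↥(modularFunctionFieldFullC (ResidueField ↥A) N0)) :
              LaurentSeries (ResidueField ↥A)) ^ (q - 1) =
        -(thetaL (((gaussDatum N0 A hA hqN).red a :
            ↥(modularFunctionFieldFullC (ResidueField ↥A) N0)) :
              LaurentSeries (ResidueField ↥A)) ^ (q - 1)) * coeffMap (residue ↥A) Y' := by
  haveI : CharP (ResidueField ↥A) q := Fermat.Agent.S18.ResidueBasics.charP_residueField A hA
  obtain ⟨X, Y, hF, hY, hFbar⟩ := exists_rep hA hqN a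
  have hX : coeffMap (residue ↥A) X ≠ 0 := by
    rw [← hFbar]
    refine mul_ne_zero ?_ hY
    intro h
    apply ha
    apply Subtype.ext
    rw [h]
    rfl
  obtain ⟨X', Y', hY', h1, h2⟩ := exists_fraction_pow_div (q := q) (residue ↥A)
    (A.subtype : ↥A →+* Kb) (residue_zetaA hA hζ) (prod_zetaA hζ) hF hY hX hFbar
  refine ⟨X', Y', hY', ?_, h2⟩
  rw [map_pow, map_sub, iota_beta_beta, iota_alpha_alpha]
  rw [map_zetaA] at h1
  exact h1

end Fermat.Agent.S36.DiffPowX0
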