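import Mathlib
import Fermat.Agent.S36.FormalLift.Principal

/-!
# S36 / project V, slice V-EisFibre: the Eisenstein fibre at a closed point (ring form)

Mathlib + `S36/FormalLift/Principal` only.  The two-dimensional, ring-theoretic twin of
`S36/EisensteinRoot` (which is the valuation-subring form over a DVR base).

`A` a noetherian local ring with `𝔪_A = (q, x)` (the local ring of the smooth level-`M'` model at a
closed point `P̄` of the fibre; `x = φ - ã` a horizontal parameter, `q` the residue characteristic),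
`Ψ ∈ A[X]` monic (the minimal polynomial of `b = φ(q²τ)`), `a ∈ A` and a decomposition
`Ψ = (X - a)^m H + q G + x K`, `m ≥ 1`, `H(a)` a unit.  `B = A[X]/(Ψ)`, `N = (𝔪_A, X - a)` and `L`
ANY localisation of `B` at `N` (`IsLocalization.AtPrime L N`; e.g. a subring of the function field).

* Part 0: a noetherian local ring with principal maximal ideal `(y)` is a principal ideal ring; it
  is a domain (a DVR) iff `y` is not nilpotent.  No domain hypothesis is needed to start.
* Part I: `𝔪_L = (x, y)`  ⟹  `L ⧸ (x)` is a principal ideal ring, every prime of `L` not containing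
  `x` is principal (Nakayama, `FormalLift/Principal`), and if `y` is not nilpotent modulo `x`:
  `(x)` is prime, `L ⧸ (x)` is a DVR with uniformiser `y`, and a domain `L` is a UFD (Kaplansky),
  hence integrally closed.
* Parts II-IV (`Datum`): `N` is maximal, `L` is noetherian local;
  - EISENSTEIN CASE (`G(a)` a unit, i.e. `Ψ(a) = q * unit` modulo `x`): `q = unit * y^m + x c`,
    `𝔪_L = (x, y)`, the fibre ring `L ⧸ (x)` is a DVR with uniformiser `y = X - a` and
    `q = unit * y^m` there (`e = m`, `f = 1`);  instances: `m = q²+q`, `H = 1` at the triple points,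
    `m = q-1` at the ordinary points of the thick component.
  - SIMPLE CASE (`m = 1`, no condition on `G`): `y ∈ (q, x)`, `𝔪_L = (x, q)`, the fibre ring is a
    DVR with uniformiser `q` (unramified); instances: the smooth points of the thin components.
  In both cases, when `A ⧸ (x)` is a domain in which `q ≠ 0`: `(x)` is prime in `L`, every other
  prime of `L` is principal or contains `x`, and if `L` is a domain it is a UFD, hence integrally
  closed: `L` IS the local ring of the normal model at the point.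
-/

set_option autoImplicit false
set_option linter.style.haveILetI false

noncomputable section

namespace Fermat.Agent.S36.EisFibre

open IsLocalRing Polynomial

section PrincipalMax

variable {R : Type*} [CommRing R] [IsLocalRing R] [IsNoetherianRing R]

/-- In a noetherian local ring with maximal ideal `(y)`, every nonzero element is `y ^ k * unit`. -/
theorem exists_eq_pow_mul_unit {y : R} (hy : maximalIdeal R = Ideal.span {y}) {r : R}
    (hr : r ≠ 0) : ∃ (k : ℕ) (u : Rˣ), r = y ^ k * u := by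
  classical
  have hK : (⨅ i : ℕ, maximalIdeal R ^ i) = ⊥ :=
    Ideal.iInf_pow_eq_bot_of_isLocalRing (maximalIdeal R) Ideal.IsPrime.ne_top'
  have hex : ∃ k : ℕ, r ∉ maximalIdeal R ^ k := by
    by_contra hcon
    push Not at hcon
    apply hr
    have : r ∈ (⨅ i : ℕ, maximalIdeal R ^ i) := by
      rw [Ideal.mem_iInf]; exact hcon
    rw [hK] at this
    exact this
  have h0 : Nat.find hex ≠ 0 := by
    intro h
    have := Nat.find_spec hex
    rw [h, pow_zero, Ideal.one_eq_top] at this
    exact this trivial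
  obtain ⟨k, hk⟩ := Nat.exists_eq_succ_of_ne_zero h0
  have hmem : r ∈ maximalIdeal R ^ k := by
    by_contra hcon
    have := Nat.find_min' hex hcon
    omega
  have hnot : r ∉ maximalIdeal R ^ (k + 1) := by
    have := Nat.find_spec hex
    rwa [hk] at this
  rw [hy, Ideal.span_singleton_pow, Ideal.mem_span_singleton'] at hmem
  obtain ⟨s, hs⟩ := hmem
  have hsu : IsUnit s := by
    by_contra hcon
    have hsm : s ∈ maximalIdeal R := (mem_maximalIdeal s).mpr hcon
    apply hnot
    have h1 : y ^ k ∈ maximalIdeal R ^ k := by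
      rw [hy, Ideal.span_singleton_pow]; exact Ideal.mem_span_singleton_self _
    have h2 : y ^ k * s ∈ maximalIdeal R ^ k * maximalIdeal R := Ideal.mul_mem_mul h1 hsm
    rw [pow_succ, ← hs, mul_comm s]
    exact h2
  exact ⟨k, hsu.unit, by rw [IsUnit.unit_spec, ← hs, mul_comm]⟩

/-- A noetherian local ring with principal maximal ideal is a principal ideal ring. -/
theorem isPrincipalIdealRing_of_maximalIdeal_eq_span {y : R}
    (hy : maximalIdeal R = Ideal.span {y}) : IsPrincipalIdealRing R := by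
  classical
  refine ⟨fun I => ?_⟩
  by_cases hI : I = ⊥
  · rw [hI]; exact bot_isPrincipal
  have hex : ∃ k : ℕ, y ^ k ∈ I := by
    obtain ⟨r, hrI, hr0⟩ : ∃ r ∈ I, r ≠ 0 := by
      by_contra hcon
      push Not at hcon
      exact hI ((Submodule.eq_bot_iff I).mpr hcon)
    obtain ⟨k, u, rfl⟩ := exists_eq_pow_mul_unit hy hr0
    exact ⟨k, (I.mul_unit_mem_iff_mem u.isUnit).mp hrI⟩
  refine ⟨⟨y ^ Nat.find hex, le_antisymm ?_ ?_⟩⟩
  · intro s hs
    change s ∈ Ideal.span {y ^ Nat.find hex}
    by_cases hs0 : s = 0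
    · rw [hs0]; exact zero_mem _
    obtain ⟨j, v, rfl⟩ := exists_eq_pow_mul_unit hy hs0
    have hj : y ^ j ∈ I := (I.mul_unit_mem_iff_mem v.isUnit).mp hs
    have hle : Nat.find hex ≤ j := Nat.find_min' hex hj
    rw [Ideal.mem_span_singleton]
    exact Dvd.dvd.mul_right (pow_dvd_pow y hle) _
  · change Ideal.span {y ^ Nat.find hex} ≤ I
    rw [Ideal.span_le, Set.singleton_subset_iff]
    exact Nat.find_spec hex

/-- If moreover `y` is not nilpotent, the ring is a domain. -/
theorem isDomain_of_maximalIdeal_eq_span {y : R} (hy : maximalIdeal R = Ideal.span {y})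
    (hnil : ¬ IsNilpotent y) : IsDomain R := by
  have : NoZeroDivisors R := by
    refine ⟨fun {a b} hab => ?_⟩
    by_contra hcon
    push Not at hcon
    obtain ⟨i, u, rfl⟩ := exists_eq_pow_mul_unit hy hcon.1
    obtain ⟨j, v, rfl⟩ := exists_eq_pow_mul_unit hy hcon.2
    apply hnil
    refine ⟨i + j, ?_⟩
    have h1 : y ^ (i + j) * ((u * v : Rˣ) : R) = 0 := by
      rw [← hab, pow_add, Units.val_mul]; ring
    exact (Units.mul_left_eq_zero _).mp h1
  exact NoZeroDivisors.to_isDomain R

/-- A noetherian local domain with principal nonzero maximal ideal is a DVR. -/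
theorem isDiscreteValuationRing_of_maximalIdeal_eq_span [IsDomain R] {y : R}
    (hy : maximalIdeal R = Ideal.span {y}) (hy0 : y ≠ 0) : IsDiscreteValuationRing R := by
  have := isPrincipalIdealRing_of_maximalIdeal_eq_span hy
  refine { not_a_field' := ?_ }
  rw [hy]
  intro h
  rw [Ideal.span_singleton_eq_bot] at h
  exact hy0 h

end PrincipalMax

/-!
## Part I: a noetherian local ring with `𝔪 = (x, y)`
-/

section TwoGen

variable {L : Type*} [CommRing L] [IsLocalRing L] [IsNoetherianRing L]

omit [IsNoetherianRing L] in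
theorem span_singleton_ne_top_of_mem_maximalIdeal {x : L} (hx : x ∈ maximalIdeal L) :
    Ideal.span {x} ≠ (⊤ : Ideal L) := by
  intro h
  have : (1 : L) ∈ Ideal.span {x} := by rw [h]; trivial
  have h1 : (1 : L) ∈ maximalIdeal L :=
    (Ideal.span_le.mpr (Set.singleton_subset_iff.mpr hx)) this
  exact (Ideal.ne_top_iff_one _).mp Ideal.IsPrime.ne_top' h1

omit [IsNoetherianRing L] in
theorem nontrivial_quotient_span_singleton {x : L} (hx : x ∈ maximalIdeal L) :
    Nontrivial (L ⧸ Ideal.span {x}) :=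
  Ideal.Quotient.nontrivial_iff.mpr (span_singleton_ne_top_of_mem_maximalIdeal hx)

omit [IsNoetherianRing L] in
theorem isLocalRing_quotient_span_singleton {x : L} (hx : x ∈ maximalIdeal L) :
    IsLocalRing (L ⧸ Ideal.span {x}) :=
  haveI := nontrivial_quotient_span_singleton hx
  IsLocalRing.of_surjective' (Ideal.Quotient.mk (Ideal.span {x})) Ideal.Quotient.mk_surjective

omit [IsNoetherianRing L] in
/-- the maximal ideal of `L ⧸ (x)` is generated by the class of `y` when `𝔪_L = (x, y)` -/
theorem maximalIdeal_quotient_eq_span {x y : L} (hmax : maximalIdeal L = Ideal.span {x, y}) :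
    haveI := isLocalRing_quotient_span_singleton
      (show x ∈ maximalIdeal L by rw [hmax]; exact Ideal.subset_span (Set.mem_insert _ _))
    maximalIdeal (L ⧸ Ideal.span {x}) = Ideal.span {Ideal.Quotient.mk (Ideal.span {x}) y} := by
  have hx : x ∈ maximalIdeal L := by rw [hmax]; exact Ideal.subset_span (Set.mem_insert _ _)
  haveI := isLocalRing_quotient_span_singleton hx
  have hsurj : Function.Surjective (Ideal.Quotient.mk (Ideal.span {x})) :=
    Ideal.Quotient.mk_surjective
  have h1 : maximalIdeal (L ⧸ Ideal.span {x}) =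
      (maximalIdeal L).map (Ideal.Quotient.mk (Ideal.span {x})) := by
    have hloc : IsLocalHom (Ideal.Quotient.mk (Ideal.span {x})) :=
      IsLocalHom.of_surjective _ hsurj
    apply le_antisymm
    · intro z hz
      obtain ⟨w, rfl⟩ := hsurj z
      have hw : w ∈ maximalIdeal L := by
        rw [mem_maximalIdeal, mem_nonunits_iff] at hz ⊢
        intro hu
        exact hz (hu.map _)
      exact Ideal.mem_map_of_mem _ hw
    · rw [Ideal.map_le_iff_le_comap]
      intro w hw
      rw [Ideal.mem_comap, mem_maximalIdeal, mem_nonunits_iff]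
      intro hu
      rw [mem_maximalIdeal, mem_nonunits_iff] at hw
      exact hw (hloc.map_nonunit w hu)
  rw [h1, hmax, Ideal.map_span, Set.image_pair]
  apply le_antisymm
  · rw [Ideal.span_le]
    rintro z (rfl | rfl)
    · have : Ideal.Quotient.mk (Ideal.span {x}) x = 0 :=
        Ideal.Quotient.eq_zero_iff_mem.mpr (Ideal.mem_span_singleton_self x)
      rw [this]; exact zero_mem _
    · exact Ideal.mem_span_singleton_self _
  · exact Ideal.span_mono (by intro z hz; rw [Set.mem_singleton_iff] at hz; rw [hz]; exact Set.mem_insert_of_mem _ rfl)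

/-- `L ⧸ (x)` is a principal ideal ring when `𝔪_L = (x, y)` -/
theorem isPrincipalIdealRing_quotient {x y : L} (hmax : maximalIdeal L = Ideal.span {x, y}) :
    IsPrincipalIdealRing (L ⧸ Ideal.span {x}) := by
  have hx : x ∈ maximalIdeal L := by rw [hmax]; exact Ideal.subset_span (Set.mem_insert _ _)
  haveI := isLocalRing_quotient_span_singleton hx
  exact isPrincipalIdealRing_of_maximalIdeal_eq_span (maximalIdeal_quotient_eq_span hmax)

/-- **Local factoriality away from `x`.**  `𝔪_L = (x, y)`: every prime of `L` not containing `x`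
is principal. -/
theorem isPrincipal_of_not_mem {x y : L} (hmax : maximalIdeal L = Ideal.span {x, y})
    (p : Ideal L) [p.IsPrime] (hxp : x ∉ p) : p.IsPrincipal := by
  have hx : x ∈ maximalIdeal L := by rw [hmax]; exact Ideal.subset_span (Set.mem_insert _ _)
  haveI := isPrincipalIdealRing_quotient hmax
  exact FormalLift.isPrincipal_of_isLocalRing hx p hxp

/-- If `L` is a domain, `𝔪_L = (x, y)` and `(x)` is prime (`x ≠ 0`), then `L` is a UFD
(Kaplansky), hence integrally closed. -/
theorem uniqueFactorizationMonoid_of_prime [IsDomain L] {x y : L}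
    (hmax : maximalIdeal L = Ideal.span {x, y}) (hxprime : Prime x) :
    UniqueFactorizationMonoid L := by
  rw [UniqueFactorizationMonoid.iff_exists_prime_mem_of_isPrime]
  intro I hI hIp
  by_cases hxI : x ∈ I
  · exact ⟨x, hxI, hxprime⟩
  · haveI := hIp
    obtain ⟨⟨g, hg⟩⟩ := isPrincipal_of_not_mem hmax I hxI
    have hg' : I = Ideal.span {g} := hg
    have hg0 : g ≠ 0 := by
      rintro rfl
      apply hI
      rw [hg']
      exact Ideal.span_singleton_eq_bot.mpr rfl
    refine ⟨g, by rw [hg']; exact Ideal.mem_span_singleton_self g, ?_⟩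
    rw [← Ideal.span_singleton_prime hg0, ← hg']
    exact hIp

/-- the class of `y` generates the maximal ideal of `L ⧸ (x)`; if it is not nilpotent the fibre
ring is a domain -/
theorem isDomain_quotient_of_not_isNilpotent {x y : L}
    (hmax : maximalIdeal L = Ideal.span {x, y})
    (hnil : ¬ IsNilpotent (Ideal.Quotient.mk (Ideal.span {x}) y)) :
    IsDomain (L ⧸ Ideal.span {x}) := by
  have hx : x ∈ maximalIdeal L := by rw [hmax]; exact Ideal.subset_span (Set.mem_insert _ _)
  haveI := isLocalRing_quotient_span_singleton hx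
  exact isDomain_of_maximalIdeal_eq_span (maximalIdeal_quotient_eq_span hmax) hnil

/-- ... and `(x)` is a prime ideal -/
theorem span_isPrime_of_not_isNilpotent {x y : L}
    (hmax : maximalIdeal L = Ideal.span {x, y})
    (hnil : ¬ IsNilpotent (Ideal.Quotient.mk (Ideal.span {x}) y)) :
    (Ideal.span {x}).IsPrime := by
  haveI := isDomain_quotient_of_not_isNilpotent hmax hnil
  exact (Ideal.Quotient.isDomain_iff_prime _).mp inferInstance

/-- ... and the fibre ring is a discrete valuation ring with uniformiser the class of `y` -/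
theorem isDiscreteValuationRing_quotient {x y : L}
    (hmax : maximalIdeal L = Ideal.span {x, y})
    (hnil : ¬ IsNilpotent (Ideal.Quotient.mk (Ideal.span {x}) y))
    [IsDomain (L ⧸ Ideal.span {x})] : IsDiscreteValuationRing (L ⧸ Ideal.span {x}) := by
  have hx : x ∈ maximalIdeal L := by rw [hmax]; exact Ideal.subset_span (Set.mem_insert _ _)
  haveI := isLocalRing_quotient_span_singleton hx
  refine isDiscreteValuationRing_of_maximalIdeal_eq_span (maximalIdeal_quotient_eq_span hmax) ?_
  intro h0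
  exact hnil ⟨1, by rw [pow_one, h0]⟩

/-- **Cheap factoriality, UFD form.**  `L` a noetherian local domain, `𝔪_L = (x, y)`, `x ≠ 0`, `y`
not nilpotent modulo `x`: `L` is a unique factorisation domain. -/
theorem uniqueFactorizationMonoid_of_not_isNilpotent [IsDomain L] {x y : L}
    (hmax : maximalIdeal L = Ideal.span {x, y})
    (hnil : ¬ IsNilpotent (Ideal.Quotient.mk (Ideal.span {x}) y)) (hx0 : x ≠ 0) :
    UniqueFactorizationMonoid L := by
  refine uniqueFactorizationMonoid_of_prime hmax ?_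
  rw [← Ideal.span_singleton_prime hx0]
  exact span_isPrime_of_not_isNilpotent hmax hnil

/-- ... hence integrally closed -/
theorem isIntegrallyClosed_of_not_isNilpotent [IsDomain L] {x y : L}
    (hmax : maximalIdeal L = Ideal.span {x, y})
    (hnil : ¬ IsNilpotent (Ideal.Quotient.mk (Ideal.span {x}) y)) (hx0 : x ≠ 0) :
    IsIntegrallyClosed L := by
  haveI := uniqueFactorizationMonoid_of_not_isNilpotent hmax hnil hx0
  infer_instance

end TwoGen

/-!
## Part II: the Eisenstein fibre datum

`A` a local ring with `𝔪_A = (q, x)`, `Ψ ∈ A[X]` monic, `a ∈ A`,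
`Ψ = (X - a)^m H + q G + x K` with `m ≥ 1` and `H(a)` a unit.  The Eisenstein case is the extra
hypothesis `IsUnit (G.eval a)`, the simple case is `m = 1`.  `B = A[X]/(Ψ)`,
`N = (𝔪_A, X - a)` (the kernel of the character `B → k`, `X ↦ a mod 𝔪`), `L` any localisation of
`B` at `N`.
-/

/-- The Eisenstein fibre datum. -/
structure Datum (A : Type*) [CommRing A] [IsLocalRing A] where
  /-- the horizontal parameter (`φ - ã`) -/
  x : A
  /-- the vertical parameter (the residue characteristic) -/
  q : A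
  /-- the root modulo `𝔪` -/
  a : A
  /-- the multiplicity (`= e` of the fibre) -/
  m : ℕ
  /-- the minimal polynomial -/
  Ψ : A[X]
  /-- cofactor of `(X - a)^m` -/
  H : A[X]
  /-- cofactor of `q` -/
  G : A[X]
  /-- cofactor of `x` -/
  K : A[X]
  monic : Ψ.Monic
  hmax : maximalIdeal A = Ideal.span {q, x}
  m_pos : 0 < m
  decomp : Ψ = (X - C a) ^ m * H + C q * G + C x * K
  H_unit : IsUnit (H.eval a)

namespace Datum

variable {A : Type*} [CommRing A] [IsLocalRing A] (S : Datum A)

theorem q_mem : S.q ∈ maximalIdeal A := by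
  rw [S.hmax]; exact Ideal.subset_span (Set.mem_insert _ _)

theorem x_mem : S.x ∈ maximalIdeal A := by
  rw [S.hmax]; exact Ideal.subset_span (Set.mem_insert_of_mem _ rfl)

theorem eval_Ψ : S.Ψ.eval S.a = S.q * S.G.eval S.a + S.x * S.K.eval S.a := by
  have h := congrArg (fun p => p.eval S.a) S.decomp
  simp only [eval_add, eval_mul, eval_pow, eval_sub, eval_X, eval_C, sub_self] at h
  rw [h, zero_pow (Nat.pos_iff_ne_zero.mp S.m_pos), zero_mul, zero_add]

theorem eval_Ψ_mem : S.Ψ.eval S.a ∈ maximalIdeal A := by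
  rw [S.eval_Ψ]
  exact Ideal.add_mem _ (Ideal.mul_mem_right _ _ S.q_mem) (Ideal.mul_mem_right _ _ S.x_mem)

/-- the character `B → k`, `X ↦ a mod 𝔪` -/
def chi : AdjoinRoot S.Ψ →+* ResidueField A :=
  AdjoinRoot.lift (residue A) (residue A S.a) (by
    rw [Polynomial.eval₂_at_apply, residue_eq_zero_iff]; exact S.eval_Ψ_mem)

theorem chi_mk (P : A[X]) : S.chi (AdjoinRoot.mk S.Ψ P) = residue A (P.eval S.a) := by
  rw [chi, AdjoinRoot.lift_mk, Polynomial.eval₂_at_apply]

theorem chi_of (c : A) : S.chi (AdjoinRoot.of S.Ψ c) = residue A c := by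
  rw [← AdjoinRoot.mk_C, chi_mk, eval_C]

theorem chi_surjective : Function.Surjective S.chi := by
  intro z
  obtain ⟨c, rfl⟩ := residue_surjective z
  exact ⟨AdjoinRoot.of S.Ψ c, S.chi_of c⟩

/-- the maximal ideal `N = (𝔪_A, X - a)` of `B` -/
def N : Ideal (AdjoinRoot S.Ψ) := RingHom.ker S.chi

instance N_isMaximal : S.N.IsMaximal := RingHom.ker_isMaximal_of_surjective _ S.chi_surjective

instance N_isPrime : S.N.IsPrime := S.N_isMaximal.isPrime

/-- `y = X - a` in `B` -/
def y : AdjoinRoot S.Ψ := AdjoinRoot.root S.Ψ - AdjoinRoot.of S.Ψ S.a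

theorem mk_X_sub_C : AdjoinRoot.mk S.Ψ (X - C S.a) = S.y := by
  rw [map_sub, AdjoinRoot.mk_X, AdjoinRoot.mk_C, y]

/-- `P(X) = P(a) + (X - a) g` in `B` -/
theorem mk_eq_of_eval_add (P : A[X]) :
    ∃ g : AdjoinRoot S.Ψ, AdjoinRoot.mk S.Ψ P = AdjoinRoot.of S.Ψ (P.eval S.a) + S.y * g := by
  obtain ⟨g, hg⟩ := Polynomial.X_sub_C_dvd_sub_C_eval (a := S.a) (p := P)
  refine ⟨AdjoinRoot.mk S.Ψ g, ?_⟩
  have h : P = C (P.eval S.a) + (X - C S.a) * g := by rw [← hg]; ring
  conv_lhs => rw [h]
  rw [map_add, map_mul, AdjoinRoot.mk_C, S.mk_X_sub_C]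

theorem y_mem_N : S.y ∈ S.N := by
  rw [N, RingHom.mem_ker, ← S.mk_X_sub_C, chi_mk]
  simp

theorem of_mem_N {c : A} (hc : c ∈ maximalIdeal A) : AdjoinRoot.of S.Ψ c ∈ S.N := by
  rw [N, RingHom.mem_ker, chi_of, residue_eq_zero_iff]; exact hc

theorem N_eq : S.N = Ideal.span {AdjoinRoot.of S.Ψ S.q, AdjoinRoot.of S.Ψ S.x, S.y} := by
  apply le_antisymm
  · intro b hb
    obtain ⟨P, rfl⟩ := AdjoinRoot.mk_surjective b
    obtain ⟨g, hg⟩ := S.mk_eq_of_eval_add P
    have hP : P.eval S.a ∈ maximalIdeal A := by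
      rw [N, RingHom.mem_ker, chi_mk, residue_eq_zero_iff] at hb; exact hb
    rw [S.hmax, Ideal.mem_span_pair] at hP
    obtain ⟨c, d, hcd⟩ := hP
    rw [hg, ← hcd, map_add, map_mul, map_mul]
    refine Ideal.add_mem _ (Ideal.add_mem _ ?_ ?_) ?_
    · exact Ideal.mul_mem_left _ _ (Ideal.subset_span (by simp))
    · exact Ideal.mul_mem_left _ _ (Ideal.subset_span (by simp))
    · exact Ideal.mul_mem_right _ _ (Ideal.subset_span (by simp))
  · rw [Ideal.span_le]
    rintro z (rfl | rfl | rfl)
    · exact S.of_mem_N S.q_mem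
    · exact S.of_mem_N S.x_mem
    · exact S.y_mem_N

/-- a polynomial with unit value at `a` is outside `N` -/
theorem mk_not_mem_N {P : A[X]} (hP : IsUnit (P.eval S.a)) : AdjoinRoot.mk S.Ψ P ∉ S.N := by
  rw [N, RingHom.mem_ker, chi_mk, residue_eq_zero_iff, mem_maximalIdeal, mem_nonunits_iff]
  exact fun h => h hP

/-- the fundamental relation in `B` -/
theorem relation : S.y ^ S.m * AdjoinRoot.mk S.Ψ S.H + AdjoinRoot.of S.Ψ S.q * AdjoinRoot.mk S.Ψ S.G
    + AdjoinRoot.of S.Ψ S.x * AdjoinRoot.mk S.Ψ S.K = 0 := by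
  have h := congrArg (AdjoinRoot.mk S.Ψ) S.decomp
  rw [AdjoinRoot.mk_self] at h
  rw [h]
  simp only [map_add, map_mul, map_pow, AdjoinRoot.mk_C, S.mk_X_sub_C]

end Datum

/-!
## Part III: the localisation `L = B_N`
-/

namespace Datum

variable {A : Type*} [CommRing A] [IsLocalRing A] (S : Datum A)
variable (L : Type*) [CommRing L] [Algebra (AdjoinRoot S.Ψ) L] [IsLocalization.AtPrime L S.N]

/-- the image of `x` in `L` -/
def xL : L := algebraMap (AdjoinRoot S.Ψ) L (AdjoinRoot.of S.Ψ S.x)

/-- the image of `q` in `L` -/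
def qL : L := algebraMap (AdjoinRoot S.Ψ) L (AdjoinRoot.of S.Ψ S.q)

/-- the image of `y = X - a` in `L` -/
def yL : L := algebraMap (AdjoinRoot S.Ψ) L S.y

include S in
theorem isLocalRing : IsLocalRing L := IsLocalization.AtPrime.isLocalRing L S.N

include S in
theorem isNoetherianRing [IsNoetherianRing A] : IsNoetherianRing L := by
  haveI : IsNoetherianRing (AdjoinRoot S.Ψ) :=
    inferInstanceAs (IsNoetherianRing (A[X] ⧸ Ideal.span {S.Ψ}))
  exact IsLocalization.isNoetherianRing S.N.primeCompl L inferInstance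

include S in
/-- `L` is a domain as soon as `B = A[X]/(Ψ)` is (e.g. `Ψ` a minimal polynomial over an integrally
closed `A`). -/
theorem isDomain [IsDomain (AdjoinRoot S.Ψ)] : IsDomain L :=
  IsLocalization.isDomain_of_le_nonZeroDivisors L (M := S.N.primeCompl)
    S.N.primeCompl_le_nonZeroDivisors

/-- in that case `B → L` is injective -/
theorem algebraMap_injective [IsDomain (AdjoinRoot S.Ψ)] :
    Function.Injective (algebraMap (AdjoinRoot S.Ψ) L) :=
  IsLocalization.injective L S.N.primeCompl_le_nonZeroDivisors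

/-- polynomials with unit value at `a` become units of `L` -/
theorem isUnit_map_mk {P : A[X]} (hP : IsUnit (P.eval S.a)) :
    IsUnit (algebraMap (AdjoinRoot S.Ψ) L (AdjoinRoot.mk S.Ψ P)) :=
  IsLocalization.map_units L (⟨AdjoinRoot.mk S.Ψ P, S.mk_not_mem_N hP⟩ : S.N.primeCompl)

omit [IsLocalization.AtPrime L S.N] in
/-- the fundamental relation in `L` -/
theorem relationL : S.yL L ^ S.m * algebraMap (AdjoinRoot S.Ψ) L (AdjoinRoot.mk S.Ψ S.H)
    + S.qL L * algebraMap (AdjoinRoot S.Ψ) L (AdjoinRoot.mk S.Ψ S.G)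
    + S.xL L * algebraMap (AdjoinRoot S.Ψ) L (AdjoinRoot.mk S.Ψ S.K) = 0 := by
  have h := congrArg (algebraMap (AdjoinRoot S.Ψ) L) S.relation
  simp only [map_add, map_mul, map_pow, map_zero] at h
  exact h

/-- EISENSTEIN CASE: `q = unit * y^m + x * c` in `L` -/
theorem qL_eq (hG : IsUnit (S.G.eval S.a)) :
    ∃ (u : Lˣ) (c : L), S.qL L = u * S.yL L ^ S.m + S.xL L * c := by
  obtain ⟨uH, huH⟩ := S.isUnit_map_mk L S.H_unit
  obtain ⟨uG, huG⟩ := S.isUnit_map_mk L hG
  have h := S.relationL L
  rw [← huH, ← huG] at h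
  refine ⟨-(uH * uG⁻¹), -(algebraMap (AdjoinRoot S.Ψ) L (AdjoinRoot.mk S.Ψ S.K) * ↑uG⁻¹), ?_⟩
  have h2 : S.qL L * (uG : L) = -(S.yL L ^ S.m * uH) -
      S.xL L * algebraMap (AdjoinRoot S.Ψ) L (AdjoinRoot.mk S.Ψ S.K) := by
    linear_combination h
  have h3 : S.qL L = (S.qL L * (uG : L)) * ↑uG⁻¹ := by
    rw [mul_assoc, Units.mul_inv, mul_one]
  rw [h3, h2]
  simp only [Units.val_neg, Units.val_mul]
  ring

/-- SIMPLE CASE (`m = 1`): `y = q * c + x * d` in `L` -/
theorem yL_eq (hm : S.m = 1) : ∃ c d : L, S.yL L = S.qL L * c + S.xL L * d := by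
  obtain ⟨uH, huH⟩ := S.isUnit_map_mk L S.H_unit
  have h := S.relationL L
  rw [← huH, hm, pow_one] at h
  refine ⟨-(algebraMap (AdjoinRoot S.Ψ) L (AdjoinRoot.mk S.Ψ S.G) * ↑uH⁻¹),
    -(algebraMap (AdjoinRoot S.Ψ) L (AdjoinRoot.mk S.Ψ S.K) * ↑uH⁻¹), ?_⟩
  have h2 : S.yL L * (uH : L) = -(S.qL L * algebraMap (AdjoinRoot S.Ψ) L (AdjoinRoot.mk S.Ψ S.G))
      - S.xL L * algebraMap (AdjoinRoot S.Ψ) L (AdjoinRoot.mk S.Ψ S.K) := by
    linear_combination h
  have h3 : S.yL L = (S.yL L * (uH : L)) * ↑uH⁻¹ := by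
    rw [mul_assoc, Units.mul_inv, mul_one]
  rw [h3, h2]
  ring

variable [IsLocalRing L]

/-- the maximal ideal of `L` is generated by `q, x, y` -/
theorem maximalIdeal_eq_span_three :
    maximalIdeal L = Ideal.span {S.qL L, S.xL L, S.yL L} := by
  rw [← IsLocalization.AtPrime.map_eq_maximalIdeal S.N L, S.N_eq, Ideal.map_span]
  congr 1
  simp only [Set.image_insert_eq, Set.image_singleton]
  rfl

theorem xL_mem : S.xL L ∈ maximalIdeal L := by
  rw [S.maximalIdeal_eq_span_three L]; exact Ideal.subset_span (by simp)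

/-- EISENSTEIN CASE: `𝔪_L = (x, y)` -/
theorem maximalIdeal_eq (hG : IsUnit (S.G.eval S.a)) :
    maximalIdeal L = Ideal.span {S.xL L, S.yL L} := by
  rw [S.maximalIdeal_eq_span_three L]
  apply le_antisymm
  · rw [Ideal.span_le]
    rintro z (rfl | rfl | rfl)
    · obtain ⟨u, c, huc⟩ := S.qL_eq L hG
      rw [huc]
      refine Ideal.add_mem _ ?_ (Ideal.mul_mem_right _ _ (Ideal.subset_span (by simp)))
      obtain ⟨k, hk⟩ := Nat.exists_eq_succ_of_ne_zero (Nat.pos_iff_ne_zero.mp S.m_pos)
      rw [hk, pow_succ, ← mul_assoc]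
      exact Ideal.mul_mem_left _ _ (Ideal.subset_span (by simp))
    · exact Ideal.subset_span (by simp)
    · exact Ideal.subset_span (by simp)
  · apply Ideal.span_mono
    rintro z (rfl | rfl) <;> simp

/-- SIMPLE CASE: `𝔪_L = (x, q)` -/
theorem maximalIdeal_eq_of_simple (hm : S.m = 1) :
    maximalIdeal L = Ideal.span {S.xL L, S.qL L} := by
  rw [S.maximalIdeal_eq_span_three L]
  apply le_antisymm
  · rw [Ideal.span_le]
    rintro z (rfl | rfl | rfl)
    · exact Ideal.subset_span (by simp)
    · exact Ideal.subset_span (by simp)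
    · obtain ⟨c, d, hcd⟩ := S.yL_eq L hm
      rw [hcd]
      exact Ideal.add_mem _ (Ideal.mul_mem_right _ _ (Ideal.subset_span (by simp)))
        (Ideal.mul_mem_right _ _ (Ideal.subset_span (by simp)))
  · apply Ideal.span_mono
    rintro z (rfl | rfl) <;> simp

/-- **Eisenstein fibre, factoriality away from `x`**: every prime of `L` not containing `x` is
principal. -/
theorem isPrincipal_of_xL_not_mem [IsNoetherianRing A] (hG : IsUnit (S.G.eval S.a))
    (p : Ideal L) [p.IsPrime] (hxp : S.xL L ∉ p) : p.IsPrincipal := by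
  haveI := S.isNoetherianRing L
  exact EisFibre.isPrincipal_of_not_mem (S.maximalIdeal_eq L hG) p hxp

/-- the same in the simple case -/
theorem isPrincipal_of_xL_not_mem_of_simple [IsNoetherianRing A] (hm : S.m = 1)
    (p : Ideal L) [p.IsPrime] (hxp : S.xL L ∉ p) : p.IsPrincipal := by
  haveI := S.isNoetherianRing L
  exact EisFibre.isPrincipal_of_not_mem (S.maximalIdeal_eq_of_simple L hm) p hxp

/-- the fibre ring `L ⧸ (x)` is a principal ideal ring (Eisenstein case) -/
theorem isPrincipalIdealRing_fibre [IsNoetherianRing A] (hG : IsUnit (S.G.eval S.a)) :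
    IsPrincipalIdealRing (L ⧸ Ideal.span {S.xL L}) := by
  haveI := S.isNoetherianRing L
  exact EisFibre.isPrincipalIdealRing_quotient (S.maximalIdeal_eq L hG)

/-- the fibre ring `L ⧸ (x)` is a principal ideal ring (simple case) -/
theorem isPrincipalIdealRing_fibre_of_simple [IsNoetherianRing A] (hm : S.m = 1) :
    IsPrincipalIdealRing (L ⧸ Ideal.span {S.xL L}) := by
  haveI := S.isNoetherianRing L
  exact EisFibre.isPrincipalIdealRing_quotient (S.maximalIdeal_eq_of_simple L hm)

end Datum

/-!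
## Part IV: the fibre ring is a DVR when `A ⧸ (x)` is a domain in which `q ≠ 0`
-/

namespace Datum

variable {A : Type*} [CommRing A] [IsLocalRing A] (S : Datum A)

/-- `q^n` is a nonzerodivisor modulo `x` on `B = A[X]/(Ψ)` (freeness of `B` over `A`, in the
elementary form: division with remainder by the monic `Ψ`). -/
theorem mem_span_of_mul_pow (hprime : (Ideal.span {S.x}).IsPrime) (hq : S.q ∉ Ideal.span {S.x})
    (n : ℕ) (c : AdjoinRoot S.Ψ)
    (h : c * AdjoinRoot.of S.Ψ S.q ^ n ∈ Ideal.span {AdjoinRoot.of S.Ψ S.x}) :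
    c ∈ Ideal.span {AdjoinRoot.of S.Ψ S.x} := by
  obtain ⟨f, rfl⟩ := AdjoinRoot.mk_surjective c
  have hmk : AdjoinRoot.mk S.Ψ f = AdjoinRoot.mk S.Ψ (f %ₘ S.Ψ) := by
    rw [AdjoinRoot.mk_eq_mk]
    refine ⟨f /ₘ S.Ψ, ?_⟩
    have := Polynomial.modByMonic_add_div f S.Ψ
    linear_combination -this
  rw [hmk] at h ⊢
  obtain ⟨b, hb⟩ := Ideal.mem_span_singleton'.mp h
  obtain ⟨g, rfl⟩ := AdjoinRoot.mk_surjective b
  have h1 : AdjoinRoot.mk S.Ψ (g * C S.x) = AdjoinRoot.mk S.Ψ ((f %ₘ S.Ψ) * C S.q ^ n) := by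
    rw [map_mul, map_mul, map_pow, AdjoinRoot.mk_C, AdjoinRoot.mk_C]; exact hb
  rw [AdjoinRoot.mk_eq_mk] at h1
  obtain ⟨h', hh'⟩ := h1
  haveI : (Ideal.span {S.x}).IsPrime := hprime
  let bar : A[X] →+* (A ⧸ Ideal.span {S.x})[X] :=
    Polynomial.mapRingHom (Ideal.Quotient.mk (Ideal.span {S.x}))
  have hbarx : bar (C S.x) = 0 := by
    change Polynomial.map _ (C S.x) = 0
    rw [Polynomial.map_C, Ideal.Quotient.eq_zero_iff_mem.mpr (Ideal.mem_span_singleton_self S.x),
      map_zero]
  have hbar := congrArg bar hh'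
  rw [map_sub, map_mul, map_mul, map_mul, map_pow, hbarx, mul_zero, zero_sub] at hbar
  have hqbar : bar (C S.q) ≠ 0 := by
    change Polynomial.map _ (C S.q) ≠ 0
    rw [Polynomial.map_C]
    intro h0
    rw [← Polynomial.C_0, Polynomial.C_inj, Ideal.Quotient.eq_zero_iff_mem] at h0
    exact hq h0
  -- degree comparison: the cofactor vanishes
  have hh0 : bar h' = 0 := by
    by_contra hne
    have hd1 : (bar S.Ψ * bar h').degree = (bar S.Ψ).degree + (bar h').degree :=
      Polynomial.degree_mul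
    have hd2 : (bar S.Ψ).degree ≤ (bar S.Ψ * bar h').degree := by
      rw [hd1]
      have : (0 : WithBot ℕ) ≤ (bar h').degree := Polynomial.zero_le_degree_iff.mpr hne
      calc (bar S.Ψ).degree = (bar S.Ψ).degree + 0 := (add_zero _).symm
        _ ≤ (bar S.Ψ).degree + (bar h').degree := by gcongr
    have hd3 : (bar S.Ψ).degree = S.Ψ.degree := by
      change (Polynomial.map _ S.Ψ).degree = _
      exact S.monic.degree_map _
    have hd4 : (-(bar (f %ₘ S.Ψ) * bar (C S.q) ^ n)).degree < S.Ψ.degree := by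
      rw [Polynomial.degree_neg]
      calc (bar (f %ₘ S.Ψ) * bar (C S.q) ^ n).degree
          = (bar ((f %ₘ S.Ψ) * C (S.q ^ n))).degree := by rw [map_mul, map_pow (C), map_pow]
        _ ≤ ((f %ₘ S.Ψ) * C (S.q ^ n)).degree := Polynomial.degree_map_le
        _ ≤ (f %ₘ S.Ψ).degree + (C (S.q ^ n)).degree := Polynomial.degree_mul_le _ _
        _ ≤ (f %ₘ S.Ψ).degree + 0 := by gcongr; exact Polynomial.degree_C_le
        _ = (f %ₘ S.Ψ).degree := add_zero _
        _ < S.Ψ.degree := Polynomial.degree_modByMonic_lt f S.monic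
    rw [hbar, ← hd3] at hd4
    exact absurd hd2 (not_le.mpr hd4)
  rw [hh0, mul_zero, neg_eq_zero] at hbar
  have hf0 : bar (f %ₘ S.Ψ) = 0 := by
    rcases mul_eq_zero.mp hbar with h0 | h0
    · exact h0
    · exact absurd (pow_eq_zero_iff (M₀ := (A ⧸ Ideal.span {S.x})[X]) (n := n)
        (by rintro rfl; simp at h0) |>.mp h0) hqbar
  have hker : (f %ₘ S.Ψ) ∈ RingHom.ker bar := hf0
  rw [Polynomial.ker_mapRingHom, Ideal.mk_ker, Ideal.map_span, Set.image_singleton,
    Ideal.mem_span_singleton'] at hker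
  obtain ⟨r, hr⟩ := hker
  rw [← hr, map_mul, AdjoinRoot.mk_C]
  exact Ideal.mul_mem_left _ _ (Ideal.mem_span_singleton_self _)

variable (L : Type*) [CommRing L] [Algebra (AdjoinRoot S.Ψ) L] [IsLocalization.AtPrime L S.N]

/-- no power of `q` is divisible by `x` in `L` -/
theorem qL_pow_not_mem (hprime : (Ideal.span {S.x}).IsPrime) (hq : S.q ∉ Ideal.span {S.x})
    (n : ℕ) : S.qL L ^ n ∉ Ideal.span {S.xL L} := by
  intro hmem
  obtain ⟨z, hz⟩ := Ideal.mem_span_singleton'.mp hmem
  obtain ⟨b, s, rfl⟩ := IsLocalization.exists_mk'_eq S.N.primeCompl z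
  -- clear the denominator
  have h1 : algebraMap (AdjoinRoot S.Ψ) L
      ((s : AdjoinRoot S.Ψ) * AdjoinRoot.of S.Ψ S.q ^ n - b * AdjoinRoot.of S.Ψ S.x) = 0 := by
    rw [map_sub, map_mul, map_mul, map_pow]
    have h2 : IsLocalization.mk' L b s * algebraMap (AdjoinRoot S.Ψ) L (s : AdjoinRoot S.Ψ)
        = algebraMap (AdjoinRoot S.Ψ) L b := IsLocalization.mk'_spec L b s
    unfold qL xL at hz
    rw [← hz, ← h2]
    ring
  obtain ⟨t, ht⟩ := (IsLocalization.map_eq_zero_iff S.N.primeCompl L _).mp h1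
  have h3 : ((t : AdjoinRoot S.Ψ) * (s : AdjoinRoot S.Ψ)) * AdjoinRoot.of S.Ψ S.q ^ n ∈
      Ideal.span {AdjoinRoot.of S.Ψ S.x} := by
    rw [Ideal.mem_span_singleton']
    refine ⟨(t : AdjoinRoot S.Ψ) * b, ?_⟩
    linear_combination -ht
  have h4 := S.mem_span_of_mul_pow hprime hq n _ h3
  have h5 : (t : AdjoinRoot S.Ψ) * (s : AdjoinRoot S.Ψ) ∈ S.N :=
    (Ideal.span_le.mpr (Set.singleton_subset_iff.mpr (S.of_mem_N S.x_mem))) h4
  rcases S.N_isPrime.mem_or_mem h5 with h6 | h6
  · exact t.2 h6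
  · exact s.2 h6

/-- the class of `q` in the fibre ring is not nilpotent -/
theorem qBar_not_isNilpotent (hprime : (Ideal.span {S.x}).IsPrime)
    (hq : S.q ∉ Ideal.span {S.x}) :
    ¬ IsNilpotent (Ideal.Quotient.mk (Ideal.span {S.xL L}) (S.qL L)) := by
  rintro ⟨k, hk⟩
  apply S.qL_pow_not_mem L hprime hq k
  rw [← Ideal.Quotient.eq_zero_iff_mem, map_pow, hk]

/-- EISENSTEIN CASE: `q = unit * y^m` in the fibre ring -/
theorem qBar_eq (hG : IsUnit (S.G.eval S.a)) : ∃ u : (L ⧸ Ideal.span {S.xL L})ˣ,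
    Ideal.Quotient.mk (Ideal.span {S.xL L}) (S.qL L) =
      u * Ideal.Quotient.mk (Ideal.span {S.xL L}) (S.yL L) ^ S.m := by
  obtain ⟨u, c, huc⟩ := S.qL_eq L hG
  refine ⟨Units.map (Ideal.Quotient.mk (Ideal.span {S.xL L})).toMonoidHom u, ?_⟩
  rw [huc, map_add, map_mul, map_mul, map_pow,
    Ideal.Quotient.eq_zero_iff_mem.mpr (Ideal.mem_span_singleton_self (S.xL L)), zero_mul,
    add_zero]
  rfl

/-- EISENSTEIN CASE: the class of `y` in the fibre ring is not nilpotent -/
theorem yBar_not_isNilpotent (hG : IsUnit (S.G.eval S.a)) (hprime : (Ideal.span {S.x}).IsPrime)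
    (hq : S.q ∉ Ideal.span {S.x}) :
    ¬ IsNilpotent (Ideal.Quotient.mk (Ideal.span {S.xL L}) (S.yL L)) := by
  rintro ⟨k, hk⟩
  obtain ⟨u, hu⟩ := S.qBar_eq L hG
  apply S.qBar_not_isNilpotent L hprime hq
  refine ⟨k, ?_⟩
  rw [hu, mul_pow, ← pow_mul, mul_comm S.m k, pow_mul, hk,
    zero_pow (Nat.pos_iff_ne_zero.mp S.m_pos), mul_zero]

variable [IsLocalRing L]

/-- EISENSTEIN CASE: the maximal ideal of the fibre ring is generated by `y = X - a` -/
theorem maximalIdeal_fibre (hG : IsUnit (S.G.eval S.a)) :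
    haveI := isLocalRing_quotient_span_singleton (S.xL_mem L)
    maximalIdeal (L ⧸ Ideal.span {S.xL L}) =
      Ideal.span {Ideal.Quotient.mk (Ideal.span {S.xL L}) (S.yL L)} :=
  maximalIdeal_quotient_eq_span (S.maximalIdeal_eq L hG)

/-- SIMPLE CASE: the maximal ideal of the fibre ring is generated by `q` -/
theorem maximalIdeal_fibre_of_simple (hm : S.m = 1) :
    haveI := isLocalRing_quotient_span_singleton (S.xL_mem L)
    maximalIdeal (L ⧸ Ideal.span {S.xL L}) =
      Ideal.span {Ideal.Quotient.mk (Ideal.span {S.xL L}) (S.qL L)} :=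
  maximalIdeal_quotient_eq_span (S.maximalIdeal_eq_of_simple L hm)

variable [IsNoetherianRing A]

/-- **EISENSTEIN CASE: the fibre ring `L ⧸ (x)` is a domain**. -/
theorem isDomain_fibre (hG : IsUnit (S.G.eval S.a)) (hprime : (Ideal.span {S.x}).IsPrime)
    (hq : S.q ∉ Ideal.span {S.x}) : IsDomain (L ⧸ Ideal.span {S.xL L}) := by
  haveI := S.isNoetherianRing L
  exact isDomain_quotient_of_not_isNilpotent (S.maximalIdeal_eq L hG)
    (S.yBar_not_isNilpotent L hG hprime hq)

/-- **SIMPLE CASE: the fibre ring `L ⧸ (x)` is a domain**. -/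
theorem isDomain_fibre_of_simple (hm : S.m = 1) (hprime : (Ideal.span {S.x}).IsPrime)
    (hq : S.q ∉ Ideal.span {S.x}) : IsDomain (L ⧸ Ideal.span {S.xL L}) := by
  haveI := S.isNoetherianRing L
  exact isDomain_quotient_of_not_isNilpotent (S.maximalIdeal_eq_of_simple L hm)
    (S.qBar_not_isNilpotent L hprime hq)

/-- EISENSTEIN CASE: `(x)` is a prime ideal of `L` -/
theorem span_xL_isPrime (hG : IsUnit (S.G.eval S.a)) (hprime : (Ideal.span {S.x}).IsPrime)
    (hq : S.q ∉ Ideal.span {S.x}) : (Ideal.span {S.xL L}).IsPrime := by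
  haveI := S.isNoetherianRing L
  exact span_isPrime_of_not_isNilpotent (S.maximalIdeal_eq L hG)
    (S.yBar_not_isNilpotent L hG hprime hq)

/-- SIMPLE CASE: `(x)` is a prime ideal of `L` -/
theorem span_xL_isPrime_of_simple (hm : S.m = 1) (hprime : (Ideal.span {S.x}).IsPrime)
    (hq : S.q ∉ Ideal.span {S.x}) : (Ideal.span {S.xL L}).IsPrime := by
  haveI := S.isNoetherianRing L
  exact span_isPrime_of_not_isNilpotent (S.maximalIdeal_eq_of_simple L hm)
    (S.qBar_not_isNilpotent L hprime hq)

/-- **EISENSTEIN CASE: the fibre ring is a discrete valuation ring**, with uniformiser `y = X - a`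
and `q = unit * y^m` (`maximalIdeal_fibre`, `qBar_eq`): `e = m`, `f = 1`. -/
theorem isDiscreteValuationRing_fibre (hG : IsUnit (S.G.eval S.a))
    (hprime : (Ideal.span {S.x}).IsPrime) (hq : S.q ∉ Ideal.span {S.x})
    [IsDomain (L ⧸ Ideal.span {S.xL L})] :
    IsDiscreteValuationRing (L ⧸ Ideal.span {S.xL L}) := by
  haveI := S.isNoetherianRing L
  exact isDiscreteValuationRing_quotient (S.maximalIdeal_eq L hG)
    (S.yBar_not_isNilpotent L hG hprime hq)

/-- **SIMPLE CASE: the fibre ring is a discrete valuation ring** with uniformiser `q`. -/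
theorem isDiscreteValuationRing_fibre_of_simple (hm : S.m = 1)
    (hprime : (Ideal.span {S.x}).IsPrime) (hq : S.q ∉ Ideal.span {S.x})
    [IsDomain (L ⧸ Ideal.span {S.xL L})] :
    IsDiscreteValuationRing (L ⧸ Ideal.span {S.xL L}) := by
  haveI := S.isNoetherianRing L
  exact isDiscreteValuationRing_quotient (S.maximalIdeal_eq_of_simple L hm)
    (S.qBar_not_isNilpotent L hprime hq)

/-- **EISENSTEIN CASE, regular point**: if `L` is a domain (e.g. a subring of the function field)
then `L` is a unique factorisation domain. -/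
theorem uniqueFactorizationMonoid [IsDomain L] (hG : IsUnit (S.G.eval S.a))
    (hprime : (Ideal.span {S.x}).IsPrime) (hq : S.q ∉ Ideal.span {S.x})
    (hx0 : S.xL L ≠ 0) : UniqueFactorizationMonoid L := by
  haveI := S.isNoetherianRing L
  exact uniqueFactorizationMonoid_of_not_isNilpotent (S.maximalIdeal_eq L hG)
    (S.yBar_not_isNilpotent L hG hprime hq) hx0

/-- **SIMPLE CASE, regular point**. -/
theorem uniqueFactorizationMonoid_of_simple [IsDomain L] (hm : S.m = 1)
    (hprime : (Ideal.span {S.x}).IsPrime) (hq : S.q ∉ Ideal.span {S.x})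
    (hx0 : S.xL L ≠ 0) : UniqueFactorizationMonoid L := by
  haveI := S.isNoetherianRing L
  exact uniqueFactorizationMonoid_of_not_isNilpotent (S.maximalIdeal_eq_of_simple L hm)
    (S.qBar_not_isNilpotent L hprime hq) hx0

/-- ... hence integrally closed: `L` is the local ring of the normal model at the point. -/
theorem isIntegrallyClosed [IsDomain L] (hG : IsUnit (S.G.eval S.a))
    (hprime : (Ideal.span {S.x}).IsPrime) (hq : S.q ∉ Ideal.span {S.x})
    (hx0 : S.xL L ≠ 0) : IsIntegrallyClosed L := by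
  haveI := S.uniqueFactorizationMonoid L hG hprime hq hx0
  infer_instance

/-- ... hence integrally closed (simple case). -/
theorem isIntegrallyClosed_of_simple [IsDomain L] (hm : S.m = 1)
    (hprime : (Ideal.span {S.x}).IsPrime) (hq : S.q ∉ Ideal.span {S.x})
    (hx0 : S.xL L ≠ 0) : IsIntegrallyClosed L := by
  haveI := S.uniqueFactorizationMonoid_of_simple L hm hprime hq hx0
  infer_instance

end Datum

end Fermat.Agent.S36.EisFibre
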