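/-
S36 (PROJECT V), slice V-ModelVert, chain (V7), X₀ half at the bottom level (helper27):
**(U0): the Gauss valuation subring of the `K0`-form of `X₀(N)` (`ℓ ∤ N`) is the ONLY vertical
valuation subring, and it is discrete with uniformiser `ℓ` (G1).**

`A` a valuation subring of `ℚ̄` over `ℓ ∤ N`, `I = A.inertiaSubgroupIn ℚ`, `K0 A = ℚ̄^I`,
`O0 A = A ∩ K0` (reducible spellings of `S18.C.SmallDVR.K0`, `W`, so that the instances
`Algebra (O0 A) (F0 A N)`, `IsScalarTower (O0 A) (K0 A) (F0 A N)` are found),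
`F0 A N = PowerBasisK0.FK I N` the `K0`-form, `G = S37.Gauss.Datum.gaussDatum N A hA hℓN`.

* `Og0 hA hℓN := G.O.comap (tB I N)`, `red0 : Og0 →+* F_k(N)` (`k = ResidueField A`),
  `red0_eq_zero_iff`, `red0_aeval_j0K` (`red0 (p(j)) = p̄(J)`), `red0_fromQ`;
* `isVertical_Og0 : IsVertical (O0 A) ℓ (j0K I N) (Og0 hA hℓN)`;
* `exists_rational_family` : `t i ∈ OwFull ℓ N ⊆ F_ℚ(N)` spanning `F_ℚ(N)` over `ℚ(j)` whose images
  in `Og0` have residues independent over `k(J)`; `exists_coeffs` (they span `F0 A N` over `K0(j)`);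
  `fromQ_mem_of_isVertical` (they lie in every vertical valuation subring: `OwFull` is integral over
  the Gauss ring of `ℚ(j)`);
* **`exists_zpow_mul_unit` (G1)** : every `f ≠ 0` of the `K0`-form is `ℓ ^ n * u`, `u` a unit of `Og0`;
* **`eq_Og0_of_isVertical` (U0)**, `eq_Og0_of_isVertical_inv`.
-/
import Mathlib
import Fermat.Agent.S36.PowerBasisK0
import Fermat.Agent.S36.K0Places
import Fermat.Agent.S37.Gauss.OrthoBasisX0
import Fermat.Agent.S18.C.SmallDVR
import Fermat.Agent.S36.ModelVert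

set_option autoImplicit false
set_option linter.style.haveILetI false
set_option linter.unusedSectionVars false

noncomputable section

namespace Fermat.Agent.S36.GaussUniqK0

open Polynomial ModularCurve IntermediateField IsLocalRing
open Fermat.Agent.S36.PowerBasisK0 Fermat.Agent.S36.K0Fixed Fermat.Agent.S30.Descent.ConstExt
open Fermat.Agent.S36.ModelVert Fermat.Agent.S37.Gauss Fermat.Agent.S37.Deuring
open Fermat.Agent.S24.DegreeAlg (jgen)
open Fermat.Agent.S35.LevelMaps (E)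
open Fermat.Agent.S18.B.FkBasics (jk transcendental_jk)

local notation "Kb" => AlgebraicClosure ℚ

/-- the inertia field of `A` (reducible spelling of `S18.C.SmallDVR.K0 A`) -/
abbrev K0 (A : ValuationSubring Kb) : IntermediateField ℚ Kb :=
  IntermediateField.fixedField (A.inertiaSubgroupIn ℚ)

/-- `A ∩ K0` (reducible spelling of `S18.C.SmallDVR.W A`) -/
abbrev O0 (A : ValuationSubring Kb) : ValuationSubring ↥(K0 A) :=
  A.comap (algebraMap ↥(K0 A) Kb)

theorem O0_eq (A : ValuationSubring Kb) : O0 A = Fermat.Agent.S18.C.SmallDVR.W A := rfl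

/-- the `K0`-form of the function field of level `N` -/
abbrev F0 (A : ValuationSubring Kb) (N : ℕ) : Type := FK (A.inertiaSubgroupIn ℚ) N

variable {ℓ : ℕ} [Fact ℓ.Prime] {N : ℕ} [NeZero N] {A : ValuationSubring Kb}
variable (hA : A.LiesOverPrime ℓ) (hℓN : ¬ ℓ ∣ N)

include hA in
theorem isDiscreteValuationRing_O0 : IsDiscreteValuationRing ↥(O0 A) :=
  Fermat.Agent.S18.C.SmallDVR.isDiscreteValuationRing_W hA

include hA in
theorem irreducible_natCast_O0 : Irreducible ((ℓ : ℕ) : ↥(O0 A)) :=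
  Fermat.Agent.S18.C.SmallDVR.irreducible_natCast hA

/-- the Gauss valuation subring of the `K0`-form: functions whose image in `ℚ̄(X₀(N))` is
Gauss-integral -/
def Og0 : ValuationSubring (F0 A N) :=
  (Datum.gaussDatum N A hA hℓN).O.comap (tB (A.inertiaSubgroupIn ℚ) N)

theorem mem_Og0_iff {f : F0 A N} :
    f ∈ Og0 hA hℓN ↔ tB (A.inertiaSubgroupIn ℚ) N f ∈ (Datum.gaussDatum N A hA hℓN).O := Iff.rfl

/-- `Og0 → G.O` -/
def inclO : ↥(Og0 hA hℓN) →+* ↥(Datum.gaussDatum N A hA hℓN).O :=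
  ((tB (A.inertiaSubgroupIn ℚ) N).comp (Og0 hA hℓN).subtype).codRestrict
    (Datum.gaussDatum N A hA hℓN).O.toSubring (fun x => x.2)

@[simp] theorem coe_inclO (x : ↥(Og0 hA hℓN)) :
    ((inclO hA hℓN x : ↥(Datum.gaussDatum N A hA hℓN).O) : E N) =
      tB (A.inertiaSubgroupIn ℚ) N (x : F0 A N) := rfl

/-- the residue map of `Og0` -/
def red0 : ↥(Og0 hA hℓN) →+* ↥(modularFunctionFieldFullC (ResidueField ↥A) N) :=
  (Datum.gaussDatum N A hA hℓN).red.comp (inclO hA hℓN)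

theorem red0_eq_zero_iff (u : ↥(Og0 hA hℓN)) : red0 hA hℓN u = 0 ↔ ¬ IsUnit u := by
  rw [red0, RingHom.comp_apply, (Datum.gaussDatum N A hA hℓN).red_eq_zero_iff]
  constructor
  · intro h hu
    exact h (hu.map (inclO hA hℓN))
  · intro h hu
    apply h
    obtain ⟨w, hw⟩ := hu.exists_right_inv
    have h1 : tB (A.inertiaSubgroupIn ℚ) N (u : F0 A N) * (w : E N) = 1 :=
      congrArg Subtype.val hw
    have hu0 : (u : F0 A N) ≠ 0 := by
      intro h0
      rw [h0, map_zero, zero_mul] at h1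
      exact zero_ne_one h1
    have hinv : ((u : F0 A N))⁻¹ ∈ Og0 hA hℓN := by
      rw [mem_Og0_iff, map_inv₀, inv_eq_of_mul_eq_one_right h1]
      exact w.2
    refine IsUnit.of_mul_eq_one (⟨((u : F0 A N))⁻¹, hinv⟩ : ↥(Og0 hA hℓN)) ?_
    apply Subtype.ext
    exact mul_inv_cancel₀ hu0

/-! ### `Og0` is vertical for `j` -/

/-- `O0 → A` -/
abbrev toA' (A : ValuationSubring Kb) : ↥(O0 A) →+* ↥A := Fermat.Agent.S18.C.SmallDVR.toA A

theorem tB_algebraMap_O0 (c : ↥(O0 A)) :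
    tB (A.inertiaSubgroupIn ℚ) N (algebraMap ↥(O0 A) (F0 A N) c) =
      algebraMap Kb (E N) (((c : ↥(K0 A)) : Kb)) :=
  toBar_algebraMap (modularFunctionFieldFull N) (K0 A) (c : ↥(K0 A))

theorem algebraMap_mem_Og0 (c : ↥(O0 A)) : algebraMap ↥(O0 A) (F0 A N) c ∈ Og0 hA hℓN := by
  rw [mem_Og0_iff, tB_algebraMap_O0]
  exact (Datum.gaussDatum N A hA hℓN).algebraMap_mem ⟨((c : ↥(K0 A)) : Kb), c.2⟩

theorem j0K_mem_Og0 : j0K (A.inertiaSubgroupIn ℚ) N ∈ Og0 hA hℓN := by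
  rw [mem_Og0_iff, tB_j0K]
  exact Datum.jgen_mem_O hA hℓN

/-- `tB (p(j)) = p^A(j)` for `p ∈ O0[X]` -/
theorem tB_aeval_j0K (p : (↥(O0 A))[X]) :
    tB (A.inertiaSubgroupIn ℚ) N (aeval (j0K (A.inertiaSubgroupIn ℚ) N) p) =
      ((GaussLemmas.evalO (Datum.gaussDatum N A hA hℓN) (OrthoBasisX0.xO hA hℓN)
        (p.map (toA' A)) : ↥(Datum.gaussDatum N A hA hℓN).O) : E N) := by
  rw [GaussLemmas.coe_evalO, OrthoBasisX0.coe_xO, Polynomial.map_map, aeval_def, aeval_def,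
    hom_eval₂, tB_j0K (A.inertiaSubgroupIn ℚ) N, eval₂_map]
  congr 1
  exact RingHom.ext fun c => tB_algebraMap_O0 (N := N) c

theorem aeval_j0K_mem_Og0 (p : (↥(O0 A))[X]) :
    aeval (j0K (A.inertiaSubgroupIn ℚ) N) p ∈ Og0 hA hℓN := by
  rw [mem_Og0_iff, tB_aeval_j0K hA hℓN]
  exact Subtype.property _

/-- the residue map `O0 → k` -/
abbrev res0 (A : ValuationSubring Kb) : ↥(O0 A) →+* ResidueField ↥A :=
  (residue ↥A).comp (toA' A)

theorem red0_aeval_j0K (p : (↥(O0 A))[X]) :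
    red0 hA hℓN ⟨aeval (j0K (A.inertiaSubgroupIn ℚ) N) p, aeval_j0K_mem_Og0 hA hℓN p⟩ =
      aeval (jk (ResidueField ↥A) N) (p.map (res0 A)) := by
  have h1 : inclO hA hℓN ⟨aeval (j0K (A.inertiaSubgroupIn ℚ) N) p, aeval_j0K_mem_Og0 hA hℓN p⟩ =
      GaussLemmas.evalO (Datum.gaussDatum N A hA hℓN) (OrthoBasisX0.xO hA hℓN)
        (p.map (toA' A)) := Subtype.ext (tB_aeval_j0K hA hℓN p)
  rw [red0, RingHom.comp_apply, h1, GaussLemmas.red_evalO, OrthoBasisX0.red_xO, Polynomial.map_map]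

theorem res0_ne_zero_of_isUnit {c : ↥(O0 A)} (hc : IsUnit c) : res0 A c ≠ 0 := by
  intro h0
  have h1 : IsUnit (toA' A c) := hc.map (toA' A)
  rw [RingHom.comp_apply, residue_eq_zero_iff, mem_maximalIdeal] at h0
  exact h0 h1

theorem map_res0_ne_zero {s : (↥(O0 A))[X]} (hs : ∃ i, IsUnit (s.coeff i)) :
    s.map (res0 A) ≠ 0 := by
  obtain ⟨i, hi⟩ := hs
  intro h0
  have h1 : (s.map (res0 A)).coeff i = 0 := by rw [h0, coeff_zero]
  rw [coeff_map] at h1
  exact res0_ne_zero_of_isUnit hi h1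

/-- **`Og0` is vertical for `j`** -/
theorem isVertical_Og0 :
    IsVertical ↥(O0 A) ((ℓ : ℕ) : ↥(O0 A)) (j0K (A.inertiaSubgroupIn ℚ) N) (Og0 hA hℓN) := by
  refine ⟨algebraMap_mem_Og0 hA hℓN, j0K_mem_Og0 hA hℓN, ?_, fun s hs => ?_⟩
  · intro h
    rw [mem_Og0_iff, map_inv₀, tB_algebraMap_O0, ← map_inv₀] at h
    have h1 := (Datum.gaussDatum N A hA hℓN).mem_of_algebraMap_mem _ h
    have h2 : ((((ℓ : ℕ) : ↥(O0 A)) : ↥(K0 A)) : Kb) = ((ℓ : ℕ) : Kb) := by
      simp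
    rw [h2, ← ValuationSubring.valuation_le_one_iff, map_inv₀] at h1
    have h3 := Fermat.Agent.S18.C.SmallDVR.valuation_ell_lt_one hA
    have h4 := Fermat.Agent.S18.C.SmallDVR.valuation_ell_pos (ℓ := ℓ) (A := A)
    have h5 : (1 : _) ≤ A.valuation ((ℓ : ℕ) : Kb) := by
      rwa [inv_le_one₀ h4] at h1
    exact absurd h3 (not_lt.2 h5)
  · set u : ↥(Og0 hA hℓN) :=
      ⟨aeval (j0K (A.inertiaSubgroupIn ℚ) N) s, aeval_j0K_mem_Og0 hA hℓN s⟩ with hu
    have hne : red0 hA hℓN u ≠ 0 := by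
      rw [hu, red0_aeval_j0K]
      intro h0
      exact map_res0_ne_zero hs ((transcendental_iff.1 (transcendental_jk _ N)) _ h0)
    have hunit : IsUnit u := by
      by_contra hnu
      exact hne ((red0_eq_zero_iff hA hℓN u).2 hnu)
    obtain ⟨w, hw⟩ := hunit.exists_right_inv
    have h1 : aeval (j0K (A.inertiaSubgroupIn ℚ) N) s * (w : F0 A N) = 1 :=
      congrArg Subtype.val hw
    rw [inv_eq_of_mul_eq_one_right h1]
    exact w.2

/-! ### rational functions: `ℚ`-form → `K0`-form -/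

/-- the base change `F_ℚ(N) → F_{K0}(N)` -/
abbrev fromQ (A : ValuationSubring Kb) (N : ℕ) : ↥(modularFunctionFieldFull N) →+* F0 A N :=
  bcHom ↥(K0 A) (modularFunctionFieldFull N)

theorem tB_fromQ (x : ↥(modularFunctionFieldFull N)) :
    tB (A.inertiaSubgroupIn ℚ) N (fromQ A N x) = Fermat.Agent.S18.C.Forms.embBar N x := by
  apply Subtype.ext
  show bc ↥(K0 A) Kb (bc ℚ ↥(K0 A) (x : LaurentSeries ℚ)) = coeffEmb Kb (x : LaurentSeries ℚ)
  exact bc_coeffEmb (K := ↥(K0 A)) (K' := Kb) _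

open Fermat.Agent.S28.GaussFull (OwFull) in
/-- elements of the rational Gauss ring `OwFull` are Gauss-integral over `A`, with the expected
reduction -/
theorem embBar_mem_O (z : ↥(OwFull ℓ N)) :
    Fermat.Agent.S18.C.Forms.embBar N (z : ↥(modularFunctionFieldFull N)) ∈ (Datum.gaussDatum N A hA hℓN).O := by
  haveI : CharP (ResidueField ↥A) ℓ := Fermat.Agent.S18.ResidueBasics.charP_residueField A hA
  letI : Algebra (ZMod ℓ) (ResidueField ↥A) := ZMod.algebra _ ℓ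
  obtain ⟨α, β, hβ, hL, -⟩ := HasRep.exists_rep_OwFull N A (residue ↥A) hA hℓN z
  exact (Datum.mem_O_iff hA hℓN).mpr ⟨α, β, hβ, hL⟩

open Fermat.Agent.S28.GaussFull (OwFull) in
theorem fromQ_mem_Og0 (z : ↥(OwFull ℓ N)) :
    fromQ A N (z : ↥(modularFunctionFieldFull N)) ∈ Og0 hA hℓN := by
  rw [mem_Og0_iff, tB_fromQ]
  exact embBar_mem_O hA hℓN z

open Fermat.Agent.S28.GaussFull (OwFull) in
theorem red0_fromQ (z : ↥(OwFull ℓ N)) :
    haveI : CharP (ResidueField ↥A) ℓ := Fermat.Agent.S18.ResidueBasics.charP_residueField A hA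
    letI : Algebra (ZMod ℓ) (ResidueField ↥A) := ZMod.algebra _ ℓ
    red0 hA hℓN ⟨fromQ A N (z : ↥(modularFunctionFieldFull N)), fromQ_mem_Og0 hA hℓN z⟩ =
      Fermat.Agent.S18.C.Forms.embK (ZMod ℓ) (ResidueField ↥A) N (HasRep.redF ℓ N hℓN z) := by
  haveI : CharP (ResidueField ↥A) ℓ := Fermat.Agent.S18.ResidueBasics.charP_residueField A hA
  letI : Algebra (ZMod ℓ) (ResidueField ↥A) := ZMod.algebra _ ℓ
  obtain ⟨α, β, hβ, hL, hK⟩ := HasRep.exists_rep_OwFull N A (residue ↥A) hA hℓN z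
  have h1 : inclO hA hℓN ⟨fromQ A N (z : ↥(modularFunctionFieldFull N)),
      fromQ_mem_Og0 hA hℓN z⟩ = ⟨Fermat.Agent.S18.C.Forms.embBar N (z : ↥(modularFunctionFieldFull N)),
        embBar_mem_O hA hℓN z⟩ := Subtype.ext (tB_fromQ _)
  rw [red0, RingHom.comp_apply, h1, Datum.red_eq hA hℓN ⟨_, embBar_mem_O hA hℓN z⟩ hβ hL, ← hK,
    mul_div_assoc, div_self hβ, mul_one]

/-! ### the rational orthonormal family -/

section Family

open Fermat.Agent.S28.GaussFull (OwFull)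
open Fermat.Agent.S18.C

attribute [local instance] Fermat.Agent.S18.C.GaussDVR.algRes Fermat.Agent.S18.C.UnramVal.algBelow

set_option synthInstance.maxHeartbeats 400000 in
/-- **The rational orthonormal family**: `t i ∈ OwFull ℓ N ⊆ F_ℚ(N)` spanning `F_ℚ(N)` over `ℚ(j)`
whose images in `Og0` have residues independent over `k(J)`. -/
theorem exists_rational_family :
    ∃ (n : ℕ) (t : Fin n → ↥(OwFull ℓ N)),
      (⊤ ≤ Submodule.span ↥(GaussDVR.Ej N)
        (Set.range fun i => ((t i : ↥(OwFull ℓ N)) : ↥(modularFunctionFieldFull N)))) ∧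
      LinearIndependent ↥((ResidueField ↥A)⟮jk (ResidueField ↥A) N⟯)
        (fun i => red0 hA hℓN ⟨fromQ A N ((t i : ↥(OwFull ℓ N)) : ↥(modularFunctionFieldFull N)),
          fromQ_mem_Og0 hA hℓN (t i)⟩) := by
  haveI : CharP (ResidueField ↥A) ℓ := Fermat.Agent.S18.ResidueBasics.charP_residueField A hA
  haveI : IsAlgClosed (ResidueField ↥A) :=
    Fermat.Agent.S18.ResidueBasics.isAlgClosed_residueField A
  letI : Algebra (ZMod ℓ) (ResidueField ↥A) := ZMod.algebra _ ℓ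
  obtain ⟨t, h, -⟩ := GaussDVR.exists_hyp ℓ N hℓN
  refine ⟨_, t, ?_, ?_⟩
  · have h1 := h.basisE.span_eq
    rw [← h1]
    apply le_of_eq
    congr 1
    ext x
    simp only [Set.mem_range, UnramVal.Hyp.basisE_apply]
  · have hli := HasRep.linearIndependent_redF ℓ N hℓN t h.indep
    have hcard : Fintype.card (Fin (Module.finrank ↥(GaussDVR.Ej N)
        ↥(modularFunctionFieldFull N))) =
        Module.finrank (RatFunc (ZMod ℓ)) ↥(modularFunctionFieldFullC (ZMod ℓ) N) := by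
      rw [Fintype.card_fin, GaussDVR.finrank_full_eq ℓ N hℓN,
        FormsZMod.finrank_ratFunc_zmod_eq ℓ N hℓN]
    haveI hfd : FiniteDimensional (RatFunc (ZMod ℓ)) ↥(modularFunctionFieldFullC (ZMod ℓ) N) :=
      (BaseChangeR.finrank_ratFunc_fullC (ZMod ℓ) N).1
    let bRes : Module.Basis _ (RatFunc (ZMod ℓ)) ↥(modularFunctionFieldFullC (ZMod ℓ) N) :=
      Module.Basis.mk hli (hli.span_eq_top_of_card_eq_finrank' hcard).ge
    obtain ⟨bk, hbk⟩ := FormsZMod.exists_basis_zmod ℓ N (ResidueField ↥A) hℓN bRes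
    have h2 : (fun i => red0 hA hℓN
        ⟨fromQ A N ((t i : ↥(OwFull ℓ N)) : ↥(modularFunctionFieldFull N)),
          fromQ_mem_Og0 hA hℓN (t i)⟩) = ⇑bk := by
      funext i
      rw [red0_fromQ hA hℓN (t i), hbk i, Module.Basis.mk_apply]
    rw [h2]
    exact OrthoBasisX0.linearIndependent_adjoin (K := ResidueField ↥A)
      (F := ↥(modularFunctionFieldFullC (ResidueField ↥A) N)) (x := jk (ResidueField ↥A) N)
      (transcendental_jk (ResidueField ↥A) N)
      (ModularInst.algebraMap_Fk N (ResidueField ↥A)) ⇑bk bk.linearIndependent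
      (jk (ResidueField ↥A) N) rfl

end Family

open ModularCurve.IgusaScheme

section Span

open Fermat.Agent.S28.GaussFull (OwFull)
open Fermat.Agent.S18.C Fermat.Agent.S28.DegreeQ

theorem fromQ_jFull : fromQ A N (jFull N) = j0K (A.inertiaSubgroupIn ℚ) N :=
  Subtype.ext rfl

theorem fromQ_aeval [Algebra ℚ ↥(modularFunctionFieldFull N)] (P : ℚ[X])
    (x : ↥(modularFunctionFieldFull N)) :
    fromQ A N (aeval x P) = aeval (fromQ A N x) (P.map (algebraMap ℚ ↥(K0 A))) := by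
  rw [aeval_def, aeval_def, hom_eval₂, eval₂_map]
  congr 1
  exact RingHom.ext_rat _ _

/-- `fromQ` maps `ℚ(j)` into `K0(j)` -/
theorem fromQ_mem_adjoin (r : ↥(GaussDVR.Ej N)) :
    fromQ A N (r : ↥(modularFunctionFieldFull N)) ∈
      (↥(K0 A))⟮j0K (A.inertiaSubgroupIn ℚ) N⟯ := by
  obtain ⟨P, Q, hPQ⟩ := (mem_adjoin_simple_iff ℚ (r : ↥(modularFunctionFieldFull N))).1 r.2
  rw [hPQ, map_div₀, fromQ_aeval, fromQ_aeval, fromQ_jFull]
  exact (mem_adjoin_simple_iff _ _).2 ⟨_, _, rfl⟩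

theorem isAlgebraic_K0 (A : ValuationSubring Kb) : Algebra.IsAlgebraic ℚ ↥(K0 A) := by
  haveI : Algebra.IsAlgebraic ℚ Kb := AlgebraicClosure.isAlgebraic ℚ
  exact Algebra.IsAlgebraic.tower_bot (K := ℚ) (L := ↥(K0 A)) (A := Kb)

/-- **spanning**: every element of the `K0`-form is a `K0(j)`-combination of the rational family -/
theorem exists_coeffs {n : ℕ} (t : Fin n → ↥(OwFull ℓ N))
    (ht : ⊤ ≤ Submodule.span ↥(GaussDVR.Ej N)
      (Set.range fun i => ((t i : ↥(OwFull ℓ N)) : ↥(modularFunctionFieldFull N))))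
    (f : F0 A N) :
    ∃ c : Fin n → F0 A N, (∀ i, c i ∈ (↥(K0 A))⟮j0K (A.inertiaSubgroupIn ℚ) N⟯) ∧
      f = ∑ i, c i * fromQ A N ((t i : ↥(OwFull ℓ N)) : ↥(modularFunctionFieldFull N)) := by
  haveI := isAlgebraic_K0 A
  -- rational functions
  have h1 : ∀ g : ↥(modularFunctionFieldFull N),
      ∃ c : Fin n → F0 A N, (∀ i, c i ∈ (↥(K0 A))⟮j0K (A.inertiaSubgroupIn ℚ) N⟯) ∧
        fromQ A N g =
          ∑ i, c i * fromQ A N ((t i : ↥(OwFull ℓ N)) : ↥(modularFunctionFieldFull N)) := by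
    intro g
    obtain ⟨r, hr⟩ := (Submodule.mem_span_range_iff_exists_fun _).1 (ht (Submodule.mem_top (x := g)))
    refine ⟨fun i => fromQ A N ((r i : ↥(GaussDVR.Ej N)) : ↥(modularFunctionFieldFull N)),
      fun i => fromQ_mem_adjoin (r i), ?_⟩
    rw [← hr, map_sum]
    refine Finset.sum_congr rfl fun i _ => ?_
    rw [IntermediateField.smul_def, smul_eq_mul, map_mul]
  let cast : ↥(constExt ↥(K0 A) (modularFunctionFieldFull N)) →+* F0 A N := RingHom.id _
  have h2 : ∀ l : List (↥(K0 A) × ↥(modularFunctionFieldFull N)),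
      ∃ c : Fin n → F0 A N, (∀ i, c i ∈ (↥(K0 A))⟮j0K (A.inertiaSubgroupIn ℚ) N⟯) ∧
        cast (lsum (modularFunctionFieldFull N) l) =
          ∑ i, c i * fromQ A N ((t i : ↥(OwFull ℓ N)) : ↥(modularFunctionFieldFull N)) := by
    intro l
    induction l with
    | nil =>
      refine ⟨fun _ => 0, fun _ => zero_mem _, ?_⟩
      rw [lsum_nil, map_zero]
      exact (Finset.sum_eq_zero fun i _ => zero_mul _).symm
    | cons p l ih =>
      obtain ⟨c, hc, hcl⟩ := ih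
      obtain ⟨d, hd, hdl⟩ := h1 p.2
      refine ⟨fun i => algebraMap ↥(K0 A) (F0 A N) p.1 * d i + c i, fun i => ?_, ?_⟩
      · exact add_mem (mul_mem (IntermediateField.algebraMap_mem _ _) (hd i)) (hc i)
      · have e1 : cast (algebraMap ↥(K0 A) ↥(constExt ↥(K0 A) (modularFunctionFieldFull N)) p.1) =
            algebraMap ↥(K0 A) (F0 A N) p.1 := rfl
        have e2 : cast (bcHom ↥(K0 A) (modularFunctionFieldFull N) p.2) = fromQ A N p.2 := rfl
        rw [lsum_cons, map_add, map_mul, e1, e2, hcl, hdl, Finset.mul_sum,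
          ← Finset.sum_add_distrib]
        refine Finset.sum_congr rfl fun i _ => ?_
        ring
  obtain ⟨l, hl⟩ := exists_lsum_eq (K' := ↥(K0 A)) (F := modularFunctionFieldFull N) f
  obtain ⟨c, hc, hcl⟩ := h2 l
  refine ⟨c, hc, ?_⟩
  rw [← hcl, hl]
  rfl

end Span

section Main

open Fermat.Agent.S28.GaussFull (OwFull)
open Fermat.Agent.S18.C Fermat.Agent.S28.DegreeQ

attribute [local instance] Fermat.Agent.S18.C.GaussDVR.algRes Fermat.Agent.S18.C.UnramVal.algBelow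

include hA hℓN in
/-- **integrality**: the rational Gauss-integral functions lie in every vertical valuation
subring of the `K0`-form -/
theorem fromQ_mem_of_isVertical (z : ↥(OwFull ℓ N)) {W : ValuationSubring (F0 A N)}
    (hW : IsVertical ↥(O0 A) ((ℓ : ℕ) : ↥(O0 A)) (j0K (A.inertiaSubgroupIn ℚ) N) W) :
    fromQ A N (z : ↥(modularFunctionFieldFull N)) ∈ W := by
  haveI := isDiscreteValuationRing_O0 hA
  obtain ⟨p, hp, hpz⟩ := (GaussDVR.isIntegralElem_iff_mem ℓ N hℓN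
    (z : ↥(modularFunctionFieldFull N))).2 z.2
  let g : ↥(GaussDVR.Vj ℓ N) →+* F0 A N :=
    (fromQ A N).comp ((algebraMap ↥(GaussDVR.Ej N) ↥(modularFunctionFieldFull N)).comp
      (GaussDVR.Vj ℓ N).subtype)
  letI : Algebra ↥(GaussDVR.Vj ℓ N) (F0 A N) := g.toAlgebra
  refine ChartRing.mem_of_isIntegral W (fun b => ?_) (⟨p, hp, ?_⟩ :
    IsIntegral ↥(GaussDVR.Vj ℓ N) (fromQ A N (z : ↥(modularFunctionFieldFull N))))
  · -- coefficients: in `K0(j) ∩ Og0`, hence in `W`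
    have hb1 : g b ∈ (↥(K0 A))⟮j0K (A.inertiaSubgroupIn ℚ) N⟯ := fromQ_mem_adjoin (b : ↥(GaussDVR.Ej N))
    have hb2 : g b ∈ Og0 hA hℓN :=
      fromQ_mem_Og0 hA hℓN ⟨((b : ↥(GaussDVR.Ej N)) : ↥(modularFunctionFieldFull N)), b.2⟩
    exact (isVertical_Og0 hA hℓN).mem_of_mem_adjoin (irreducible_natCast_O0 hA) hW hb1 hb2
  · have h1 := hom_eval₂ p ((algebraMap ↥(GaussDVR.Ej N) ↥(modularFunctionFieldFull N)).comp
      (GaussDVR.Vj ℓ N).subtype) (fromQ A N) (z : ↥(modularFunctionFieldFull N))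
    rw [hpz, map_zero] at h1
    exact h1.symm

/-- the residue of an element of `K0(j) ∩ Og0` lies in `k(J)` -/
theorem red0_mem_adjoin (c : ↥(Og0 hA hℓN))
    (hc : (c : F0 A N) ∈ (↥(K0 A))⟮j0K (A.inertiaSubgroupIn ℚ) N⟯) :
    red0 hA hℓN c ∈ (ResidueField ↥A)⟮jk (ResidueField ↥A) N⟯ := by
  haveI := isDiscreteValuationRing_O0 hA
  obtain ⟨p, s, hs, hs0, hps⟩ :=
    (isVertical_Og0 hA hℓN).exists_eq_div (irreducible_natCast_O0 hA) hc c.2
  have h1 : c * (⟨aeval (j0K (A.inertiaSubgroupIn ℚ) N) s, aeval_j0K_mem_Og0 hA hℓN s⟩ :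
      ↥(Og0 hA hℓN)) =
      ⟨aeval (j0K (A.inertiaSubgroupIn ℚ) N) p, aeval_j0K_mem_Og0 hA hℓN p⟩ := by
    apply Subtype.ext
    show (c : F0 A N) * aeval (j0K (A.inertiaSubgroupIn ℚ) N) s =
      aeval (j0K (A.inertiaSubgroupIn ℚ) N) p
    rw [hps, div_mul_cancel₀ _ hs0]
  have h2 := congrArg (red0 hA hℓN) h1
  rw [map_mul, red0_aeval_j0K, red0_aeval_j0K] at h2
  have h3 : aeval (jk (ResidueField ↥A) N) (s.map (res0 A)) ≠ 0 := fun h0 =>
    map_res0_ne_zero hs ((transcendental_iff.1 (transcendental_jk _ N)) _ h0)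
  rw [mem_adjoin_simple_iff]
  exact ⟨p.map (res0 A), s.map (res0 A), by rw [← h2, mul_div_assoc, div_self h3, mul_one]⟩

/-- the residues of the rational family are independent over the residues of `K0(j) ∩ Og0` -/
theorem family_indep {n : ℕ} (t : Fin n → ↥(OwFull ℓ N))
    (hind : LinearIndependent ↥((ResidueField ↥A)⟮jk (ResidueField ↥A) N⟯)
      (fun i => red0 hA hℓN ⟨fromQ A N ((t i : ↥(OwFull ℓ N)) : ↥(modularFunctionFieldFull N)),
        fromQ_mem_Og0 hA hℓN (t i)⟩))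
    (c : Fin n → ↥(Og0 hA hℓN))
    (hc : ∀ i, (c i : F0 A N) ∈ (↥(K0 A))⟮j0K (A.inertiaSubgroupIn ℚ) N⟯)
    (hsum : ∑ i, red0 hA hℓN (c i) *
      red0 hA hℓN ⟨fromQ A N ((t i : ↥(OwFull ℓ N)) : ↥(modularFunctionFieldFull N)),
        fromQ_mem_Og0 hA hℓN (t i)⟩ = 0) (i : Fin n) : red0 hA hℓN (c i) = 0 := by
  have h1 : ∑ i, (⟨red0 hA hℓN (c i), red0_mem_adjoin hA hℓN (c i) (hc i)⟩ :
      ↥((ResidueField ↥A)⟮jk (ResidueField ↥A) N⟯)) •
        red0 hA hℓN ⟨fromQ A N ((t i : ↥(OwFull ℓ N)) : ↥(modularFunctionFieldFull N)),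
          fromQ_mem_Og0 hA hℓN (t i)⟩ = 0 := by
    rw [← hsum]
    refine Finset.sum_congr rfl fun i _ => ?_
    rw [IntermediateField.smul_def, smul_eq_mul]
  have h2 := Fintype.linearIndependent_iff.1 hind _ h1 i
  exact congrArg Subtype.val h2

/-- **(G1): `Og0` is discrete with uniformiser `ℓ`**: every nonzero function of the `K0`-form is a
power of `ℓ` times a unit of `Og0`. -/
theorem exists_zpow_mul_unit (f : F0 A N) (hf : f ≠ 0) :
    ∃ (n : ℤ) (u : F0 A N), u ∈ Og0 hA hℓN ∧ u⁻¹ ∈ Og0 hA hℓN ∧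
      f = (algebraMap ↥(O0 A) (F0 A N) ((ℓ : ℕ) : ↥(O0 A))) ^ n * u := by
  haveI := isDiscreteValuationRing_O0 hA
  obtain ⟨n, t, hspan, hind⟩ := exists_rational_family hA hℓN
  exact (isVertical_Og0 hA hℓN).exists_zpow_mul_unit_of_family (K := ↥(K0 A))
    (irreducible_natCast_O0 hA) (red0 hA hℓN) (red0_eq_zero_iff hA hℓN)
    (fun i => ⟨fromQ A N ((t i : ↥(OwFull ℓ N)) : ↥(modularFunctionFieldFull N)),
      fromQ_mem_Og0 hA hℓN (t i)⟩)
    (fun f => exists_coeffs t hspan f) (family_indep hA hℓN t hind) f hf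

/-- **(U0): `Og0` is the only vertical valuation subring of the `K0`-form of level `N`**
(`ℓ ∤ N`): a valuation subring `W ⊇ O0[j]` in which `ℓ` is a non-unit and every primitive
polynomial in `j` is a unit equals `Og0`. -/
theorem eq_Og0_of_isVertical {W : ValuationSubring (F0 A N)}
    (hW : IsVertical ↥(O0 A) ((ℓ : ℕ) : ↥(O0 A)) (j0K (A.inertiaSubgroupIn ℚ) N) W) :
    W = Og0 hA hℓN := by
  haveI := isDiscreteValuationRing_O0 hA
  obtain ⟨n, t, hspan, hind⟩ := exists_rational_family hA hℓN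
  exact (isVertical_Og0 hA hℓN).eq_of_family' (K := ↥(K0 A)) (irreducible_natCast_O0 hA)
    (red0 hA hℓN) (red0_eq_zero_iff hA hℓN)
    (fun i => ⟨fromQ A N ((t i : ↥(OwFull ℓ N)) : ↥(modularFunctionFieldFull N)),
      fromQ_mem_Og0 hA hℓN (t i)⟩)
    (fun f => exists_coeffs t hspan f) (family_indep hA hℓN t hind)
    (fun W' hW' i => fromQ_mem_of_isVertical hA hℓN (t i) hW') hW

/-- the same for the parameter `1/j` -/
theorem eq_Og0_of_isVertical_inv {W : ValuationSubring (F0 A N)}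
    (hW : IsVertical ↥(O0 A) ((ℓ : ℕ) : ↥(O0 A)) (j0K (A.inertiaSubgroupIn ℚ) N)⁻¹ W) :
    W = Og0 hA hℓN :=
  eq_Og0_of_isVertical hA hℓN hW.of_inv

end Main

end Fermat.Agent.S36.GaussUniqK0
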