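/-
PROJECT V (S36), slice V-MaxMod, part (a) (helper29): **COMPLETE INTEGRAL CLOSEDNESS OF `A((t))`
INSIDE `L((t))`** ("the maximum modulus principle at a cusp", abstract, Mathlib only).

`L` a field, `A` a valuation subring of `L` which is completely integrally closed in the elementwise
sense `Cic A` (every rank-one valuation ring: `cic_of_arch`, from the archimedean property
`∀ a c, c` a nonzero nonunit `→ ∃ k, a c^k ∈ A` = `S34/WeakApprox.Arch`).  `intSeries A` = the Laurent
series over `L` all of whose coefficients lie in `A`.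

* `mem_intSeries_of_pow` : if `d ≠ 0` and `d * F ^ n ∈ intSeries A` for all `n`, then `F ∈ intSeries A`;
* `mul_pow_mem_of_monic` : abstract Cayley-Hamilton bookkeeping: `I` a subring of a commutative ring,
  `f` a root of a monic polynomial of degree `n` with coefficients in `I`, `d f^l ∈ I` for `l < n`
  `⟹ d f^m ∈ I` for all `m`;
* `mem_intSeries_of_integral` : the combination: `Y F = X`, `X, Y ∈ intSeries A`, `Y ≠ 0`, `F` a
  root of a monic polynomial with coefficients in `intSeries A` `⟹ F ∈ intSeries A`.

Application (part (b), `S36/MaxModX0.lean`): a function of `ℚ̄(X₀(M))` which is regular off the cusps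
and has Gauss norm `≤ 1` has an `A`-integral `t`-expansion, i.e. is `toFL a` for an integral element
`a ∈ S18.GaussFromH.intRing A π M`.
-/
import Mathlib

set_option autoImplicit false

namespace Fermat.Agent.S36.IntegralSeries

open HahnSeries

variable {L : Type*} [Field L]

/-! ### complete integral closedness of a valuation ring, elementwise -/

/-- `A` is completely integrally closed in `L`. -/
def Cic (A : ValuationSubring L) : Prop :=
  ∀ d x : L, d ≠ 0 → (∀ n : ℕ, d * x ^ n ∈ A) → x ∈ A

/-- The archimedean property (`S34/WeakApprox.Arch`, verbatim) implies `Cic`. -/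
theorem cic_of_arch (A : ValuationSubring L)
    (h : ∀ a c : L, c ∈ A.nonunits → c ≠ 0 → ∃ k : ℕ, a * c ^ k ∈ A) : Cic A := by
  intro d x hd hx
  by_contra hxA
  have hx0 : x ≠ 0 := fun h0 => hxA (h0 ▸ A.zero_mem)
  have hv : 1 < A.valuation x := by
    rw [← not_le, A.valuation_le_one_iff]
    exact hxA
  have hnu : x⁻¹ ∈ A.nonunits := by
    rw [A.mem_nonunits_iff, map_inv₀]
    exact inv_lt_one_of_one_lt₀ hv
  obtain ⟨k, hk⟩ := h d⁻¹ x⁻¹ hnu (inv_ne_zero hx0)
  have h2 := A.mul_mem _ _ hk (hx (k + 1))
  have h3 : d⁻¹ * x⁻¹ ^ k * (d * x ^ (k + 1)) = x := by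
    rw [pow_succ, inv_pow]
    field_simp
  rw [h3] at h2
  exact hxA h2

/-! ### series with coefficients in `A` -/

variable (A : ValuationSubring L)

/-- The Laurent series over `L` with all coefficients in `A`. -/
def intSeries : Subring (LaurentSeries L) where
  carrier := {F | ∀ n : ℤ, F.coeff n ∈ A}
  zero_mem' := fun n => by
    rw [coeff_zero]
    exact A.zero_mem
  one_mem' := fun n => by
    rw [coeff_one]
    split_ifs
    · exact A.one_mem
    · exact A.zero_mem
  add_mem' := fun {F G} hF hG n => by
    rw [coeff_add]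
    exact A.add_mem _ _ (hF n) (hG n)
  neg_mem' := fun {F} hF n => by
    rw [coeff_neg]
    exact A.neg_mem _ (hF n)
  mul_mem' := fun {F G} hF hG n => by
    rw [coeff_mul]
    exact A.toSubring.sum_mem fun ij _ => A.mul_mem _ _ (hF _) (hG _)

variable {A}

theorem mem_intSeries {F : LaurentSeries L} : F ∈ intSeries A ↔ ∀ n : ℤ, F.coeff n ∈ A := Iff.rfl

theorem single_mem_intSeries {c : L} (hc : c ∈ A) (m : ℤ) :
    (single m c : LaurentSeries L) ∈ intSeries A := by
  intro n
  by_cases h : n = m
  · rw [h, coeff_single_same]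
    exact hc
  · rw [coeff_single_of_ne h]
    exact A.zero_mem

theorem leadingCoeff_mem {F : LaurentSeries L} (hF : F ∈ intSeries A) : F.leadingCoeff ∈ A := by
  rw [leadingCoeff_eq]
  exact hF _

theorem leadingCoeff_pow' (F : LaurentSeries L) (n : ℕ) :
    (F ^ n).leadingCoeff = F.leadingCoeff ^ n := by
  induction n with
  | zero => rw [pow_zero, pow_zero, leadingCoeff_one]
  | succ n ih => rw [pow_succ, pow_succ, leadingCoeff_mul, ih]

/-! ### the power trick -/

/-- The property "some nonzero multiple of all powers is integral". -/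
def AlmostInt (A : ValuationSubring L) (F : LaurentSeries L) : Prop :=
  ∃ d : LaurentSeries L, d ≠ 0 ∧ ∀ n : ℕ, d * F ^ n ∈ intSeries A

/-- The leading coefficient of an almost integral series is integral. -/
theorem AlmostInt.leadingCoeff_mem (hA : Cic A) {F : LaurentSeries L} (hF : AlmostInt A F) :
    F.leadingCoeff ∈ A := by
  obtain ⟨d, hd, hdF⟩ := hF
  refine hA d.leadingCoeff F.leadingCoeff (leadingCoeff_ne_zero.mpr hd) fun n => ?_
  rw [← leadingCoeff_pow', ← leadingCoeff_mul]
  exact IntegralSeries.leadingCoeff_mem (hdF n)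

/-- Subtracting an integral series preserves almost integrality. -/
theorem AlmostInt.sub {F s : LaurentSeries L} (hF : AlmostInt A F) (hs : s ∈ intSeries A) :
    AlmostInt A (F - s) := by
  obtain ⟨d, hd, hdF⟩ := hF
  refine ⟨d, hd, fun n => ?_⟩
  rw [sub_eq_add_neg, add_pow, Finset.mul_sum]
  refine (intSeries A).sum_mem fun m _ => ?_
  have h1 : d * (F ^ m * (-s) ^ (n - m) * (n.choose m : LaurentSeries L)) =
      d * F ^ m * ((-s) ^ (n - m) * (n.choose m : LaurentSeries L)) := by ring
  rw [h1]
  exact (intSeries A).mul_mem (hdF m)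
    ((intSeries A).mul_mem ((intSeries A).pow_mem ((intSeries A).neg_mem hs) _)
      (natCast_mem (intSeries A) _))

/-- The inductive form: the first `N` coefficients (from the order on) are integral. -/
theorem AlmostInt.coeff_mem_of_lt (hA : Cic A) (N : ℕ) :
    ∀ F : LaurentSeries L, AlmostInt A F → ∀ m : ℤ, m < F.order + N → F.coeff m ∈ A := by
  induction N with
  | zero =>
    intro F _ m hm
    rw [Nat.cast_zero, add_zero] at hm
    rw [coeff_eq_zero_of_lt_order hm]
    exact A.zero_mem
  | succ N ih =>
    intro F hF m hm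
    have hc : F.leadingCoeff ∈ A := hF.leadingCoeff_mem hA
    set F' : LaurentSeries L := F - single F.order F.leadingCoeff with hF'
    have hF'a : AlmostInt A F' := hF.sub (single_mem_intSeries hc _)
    have hFF' : F = F' + single F.order F.leadingCoeff := by rw [hF', sub_add_cancel]
    by_cases hm0 : m = F.order
    · rw [hm0, ← leadingCoeff_eq]
      exact hc
    have hcoeff : F.coeff m = F'.coeff m := by
      conv_lhs => rw [hFF']
      rw [coeff_add, coeff_single_of_ne hm0, add_zero]
    rw [hcoeff]
    by_cases hF'0 : F' = 0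
    · rw [hF'0, coeff_zero]
      exact A.zero_mem
    have hord : F.order < F'.order := order_lt_order_of_eq_add_single hFF' hF'0
    refine ih F' hF'a m ?_
    push_cast at hm
    omega

/-- **The power trick**: `A((t))` is completely integrally closed in `L((t))`. -/
theorem mem_intSeries_of_pow (hA : Cic A) {d F : LaurentSeries L} (hd : d ≠ 0)
    (hF : ∀ n : ℕ, d * F ^ n ∈ intSeries A) : F ∈ intSeries A := by
  intro m
  refine AlmostInt.coeff_mem_of_lt hA (m - F.order + 1).toNat F ⟨d, hd, hF⟩ m ?_
  have := Int.self_le_toNat (m - F.order + 1)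
  omega

/-! ### roots of monic polynomials -/

section Monic

open Polynomial

variable {R : Type*} [CommRing R]

/-- `I` a subring, `f` a root of a monic polynomial of degree `n` over `I`, `d f^l ∈ I` for `l < n`:
then `d f^m ∈ I` for all `m`. -/
theorem mul_pow_mem_of_monic (I : Subring R) (P : I[X]) (hP : P.Monic) {f d : R}
    (hroot : eval₂ I.subtype f P = 0) (hd : ∀ l < P.natDegree, d * f ^ l ∈ I) :
    ∀ m : ℕ, d * f ^ m ∈ I := by
  intro m
  induction m using Nat.strong_induction_on with
  | _ m ih =>
    by_cases hm : m < P.natDegree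
    · exact hd m hm
    push Not at hm
    -- `f ^ n = - ∑_{l < n} c_l f ^ l`
    have h1 : f ^ P.natDegree = -∑ l ∈ Finset.range P.natDegree, (P.coeff l : R) * f ^ l := by
      rw [eval₂_eq_sum_range, Finset.sum_range_succ, hP.coeff_natDegree] at hroot
      have h2 : I.subtype (1 : I) = 1 := map_one _
      rw [h2, one_mul] at hroot
      rw [eq_neg_iff_add_eq_zero, add_comm]
      exact hroot
    have h3 : d * f ^ m =
        -∑ l ∈ Finset.range P.natDegree, (P.coeff l : R) * (d * f ^ (l + (m - P.natDegree))) := by
      have h4 : f ^ m = f ^ P.natDegree * f ^ (m - P.natDegree) := by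
        rw [← _root_.pow_add]
        congr 1
        omega
      rw [h4, h1, neg_mul, mul_neg, Finset.sum_mul, Finset.mul_sum]
      congr 1
      refine Finset.sum_congr rfl fun l _ => ?_
      rw [_root_.pow_add]
      ring
    rw [h3]
    refine I.neg_mem (I.sum_mem fun l hl => I.mul_mem (P.coeff l).2 (ih _ ?_))
    have := Finset.mem_range.mp hl
    omega

end Monic

/-- **Integral fractions of integral series are integral series.** -/
theorem mem_intSeries_of_integral (hA : Cic A) {X Y F : LaurentSeries L} (hX : X ∈ intSeries A)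
    (hY : Y ∈ intSeries A) (hY0 : Y ≠ 0) (hXY : Y * F = X)
    (P : Polynomial ↥(intSeries A)) (hP : P.Monic)
    (hroot : Polynomial.eval₂ (intSeries A).subtype F P = 0) : F ∈ intSeries A := by
  refine mem_intSeries_of_pow hA (d := Y ^ P.natDegree) (pow_ne_zero _ hY0) ?_
  refine mul_pow_mem_of_monic (intSeries A) P hP hroot fun l hl => ?_
  have h1 : Y ^ P.natDegree * F ^ l = Y ^ (P.natDegree - l) * X ^ l := by
    rw [← hXY, mul_pow, ← mul_assoc, ← _root_.pow_add]
    congr 2
    omega
  rw [h1]
  exact (intSeries A).mul_mem ((intSeries A).pow_mem hY _) ((intSeries A).pow_mem hX _)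

end Fermat.Agent.S36.IntegralSeries
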