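import Mathlib

/-!
# PROJECT V (S36), chain (V8) input: Galois descent of a SUBSPACE (coordinate form)

`K ⊆ K'` fields, `V` a `K'`-vector space with a basis `B` (think `V = K' ⊗_K V₀`, `B` a `K`-basis
of `V₀`), `H` a set of ring endomorphisms of `K'` whose common fixed points are exactly `K`.
`σ ∈ H` acts on `V` through the coordinates: `star B σ v := ∑ σ(vᵢ) Bᵢ`.

* `mem_span_rational` : a `K'`-subspace `W` of `V` stable under `star B σ` (`σ ∈ H`) is spanned over
  `K'` by its **rational** vectors (all coordinates in `K`).

This is the usual minimal-support argument; no finiteness, no Galois theory.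
Mathlib only.
-/

set_option autoImplicit false

noncomputable section

namespace Fermat.Agent.S36.SubspaceDescent

variable {K : Type*} {K' : Type*} [Field K] [Field K'] [Algebra K K']
variable {V : Type*} [AddCommGroup V] [Module K' V] {ι : Type*} (B : Module.Basis ι K' V)

/-- the coordinatewise action of a ring endomorphism of `K'` -/
def star (σ : K' →+* K') (v : V) : V :=
  B.repr.symm ((B.repr v).mapRange σ (map_zero σ))

@[simp] theorem repr_star (σ : K' →+* K') (v : V) (i : ι) :
    B.repr (star B σ v) i = σ (B.repr v i) := by
  simp [star]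

theorem star_add (σ : K' →+* K') (v w : V) : star B σ (v + w) = star B σ v + star B σ w := by
  apply B.repr.injective
  ext i
  simp

theorem star_sub (σ : K' →+* K') (v w : V) : star B σ (v - w) = star B σ v - star B σ w := by
  apply B.repr.injective
  ext i
  simp

theorem star_smul (σ : K' →+* K') (a : K') (v : V) : star B σ (a • v) = σ a • star B σ v := by
  apply B.repr.injective
  ext i
  simp

/-- a vector is *rational* if all of its coordinates lie in `K` -/
def IsRational (v : V) : Prop := ∀ i, B.repr v i ∈ Set.range (algebraMap K K')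

variable {B}

theorem support_star_sub_subset (σ : K' →+* K') (v : V) :
    (B.repr (star B σ v - v)).support ⊆ (B.repr v).support := by
  intro i hi
  rw [Finsupp.mem_support_iff] at hi ⊢
  intro h0
  apply hi
  simp [h0]

/-- **Key step**: a nonzero vector of a stable subspace `W` dominates (support-wise) a nonzero
rational vector of `W`. -/
theorem exists_rational_support_subset (H : Set (K' →+* K'))
    (hfix : ∀ a : K', (∀ σ ∈ H, σ a = a) → a ∈ Set.range (algebraMap K K'))
    (W : Submodule K' V) (hW : ∀ σ ∈ H, ∀ v ∈ W, star B σ v ∈ W) :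
    ∀ (n : ℕ) (v : V), v ∈ W → v ≠ 0 → (B.repr v).support.card ≤ n →
      ∃ u ∈ W, u ≠ 0 ∧ IsRational (K := K) B u ∧ (B.repr u).support ⊆ (B.repr v).support := by
  intro n
  induction n with
  | zero =>
    intro v _ hv0 hcard
    exfalso
    apply hv0
    have h1 : (B.repr v).support = ∅ := Finset.card_eq_zero.mp (Nat.le_zero.mp hcard)
    have h2 : B.repr v = 0 := Finsupp.support_eq_empty.mp h1
    exact (LinearEquiv.map_eq_zero_iff B.repr).mp h2
  | succ n ih =>
    intro v hvW hv0 hcard
    -- pick an index in the support and normalise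
    have hne : (B.repr v).support.Nonempty := by
      rw [Finset.nonempty_iff_ne_empty]
      intro h1
      apply hv0
      have h2 : B.repr v = 0 := Finsupp.support_eq_empty.mp h1
      exact (LinearEquiv.map_eq_zero_iff B.repr).mp h2
    obtain ⟨i₀, hi₀⟩ := hne
    have hc : B.repr v i₀ ≠ 0 := Finsupp.mem_support_iff.mp hi₀
    set v' : V := (B.repr v i₀)⁻¹ • v with hv'
    have hv'W : v' ∈ W := W.smul_mem _ hvW
    have hv'i : B.repr v' i₀ = 1 := by
      simp [hv', hc]
    have hv'0 : v' ≠ 0 := by
      intro h
      rw [h] at hv'i
      simp at hv'i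
    have hsupp' : (B.repr v').support ⊆ (B.repr v).support := by
      intro i hi
      rw [Finsupp.mem_support_iff] at hi ⊢
      intro h0
      apply hi
      simp [hv', h0]
    by_cases hall : ∀ σ ∈ H, star B σ v' = v'
    · -- `v'` is rational
      refine ⟨v', hv'W, hv'0, fun i => hfix _ fun σ hσ => ?_, hsupp'⟩
      have := congrArg (fun w => B.repr w i) (hall σ hσ)
      simpa using this
    · push Not at hall
      obtain ⟨σ, hσ, hne⟩ := hall
      set d : V := star B σ v' - v' with hd
      have hdW : d ∈ W := W.sub_mem (hW σ hσ v' hv'W) hv'W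
      have hd0 : d ≠ 0 := sub_ne_zero.mpr hne
      have hdsupp : (B.repr d).support ⊆ (B.repr v').support := support_star_sub_subset σ v'
      have hdi : i₀ ∉ (B.repr d).support := by
        rw [Finsupp.mem_support_iff, not_not]
        simp [hd, hv'i]
      have hlt : (B.repr d).support.card < (B.repr v).support.card := by
        apply Finset.card_lt_card
        refine ⟨hdsupp.trans hsupp', fun h => hdi (h hi₀)⟩
      obtain ⟨u, huW, hu0, hurat, husupp⟩ := ih d hdW hd0 (by omega)
      exact ⟨u, huW, hu0, hurat, husupp.trans (hdsupp.trans hsupp')⟩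

/-- **Galois descent of a subspace**: a `K'`-subspace stable under the coordinatewise action of a
set `H` of endomorphisms of `K'` with fixed field `K` is spanned by its rational vectors. -/
theorem mem_span_rational (H : Set (K' →+* K'))
    (hfix : ∀ a : K', (∀ σ ∈ H, σ a = a) → a ∈ Set.range (algebraMap K K'))
    (W : Submodule K' V) (hW : ∀ σ ∈ H, ∀ v ∈ W, star B σ v ∈ W) (w : V) (hw : w ∈ W) :
    w ∈ Submodule.span K' {u : V | u ∈ W ∧ IsRational (K := K) B u} := by
  suffices h : ∀ (n : ℕ) (w : V), w ∈ W → (B.repr w).support.card ≤ n →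
      w ∈ Submodule.span K' {u : V | u ∈ W ∧ IsRational (K := K) B u} from
    h _ w hw le_rfl
  intro n
  induction n with
  | zero =>
    intro w _ hcard
    have h1 : (B.repr w).support = ∅ := Finset.card_eq_zero.mp (Nat.le_zero.mp hcard)
    have h2 : B.repr w = 0 := Finsupp.support_eq_empty.mp h1
    have h3 : w = 0 := (LinearEquiv.map_eq_zero_iff B.repr).mp h2
    rw [h3]
    exact zero_mem _
  | succ n ih =>
    intro w hwW hcard
    by_cases hw0 : w = 0
    · rw [hw0]; exact zero_mem _
    obtain ⟨u, huW, hu0, hurat, husupp⟩ :=
      exists_rational_support_subset H hfix W hW _ w hwW hw0 le_rfl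
    -- an index in the support of `u`
    have hne : (B.repr u).support.Nonempty := by
      rw [Finset.nonempty_iff_ne_empty]
      intro h1
      apply hu0
      have h2 : B.repr u = 0 := Finsupp.support_eq_empty.mp h1
      exact (LinearEquiv.map_eq_zero_iff B.repr).mp h2
    obtain ⟨i₀, hi₀⟩ := hne
    have hc : B.repr u i₀ ≠ 0 := Finsupp.mem_support_iff.mp hi₀
    set a : K' := B.repr w i₀ * (B.repr u i₀)⁻¹ with ha
    set w' : V := w - a • u with hw'
    have hw'W : w' ∈ W := W.sub_mem hwW (W.smul_mem _ huW)
    have hw'supp : (B.repr w').support ⊆ (B.repr w).support := by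
      intro i hi
      rw [Finsupp.mem_support_iff] at hi ⊢
      intro h0
      apply hi
      have hu0' : B.repr u i = 0 := by
        by_contra hne
        exact (Finsupp.mem_support_iff.mp (husupp (Finsupp.mem_support_iff.mpr hne))) h0
      simp [hw', h0, hu0']
    have hw'i : i₀ ∉ (B.repr w').support := by
      rw [Finsupp.mem_support_iff, not_not]
      simp [hw', ha, hc]
    have hlt : (B.repr w').support.card < (B.repr w).support.card := by
      apply Finset.card_lt_card
      exact ⟨hw'supp, fun h => hw'i (h (husupp hi₀))⟩
    have h1 := ih w' hw'W (by omega)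
    have h2 : a • u ∈ Submodule.span K' {u : V | u ∈ W ∧ IsRational (K := K) B u} :=
      Submodule.smul_mem _ _ (Submodule.subset_span ⟨huW, hurat⟩)
    have : w = w' + a • u := by rw [hw']; abel
    rw [this]
    exact add_mem h1 h2

end Fermat.Agent.S36.SubspaceDescent
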