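import Mathlib
import Fermat.Agent.S36.K0Fixed
import Fermat.Agent.S36.SubspaceDescent

/-!
# PROJECT V (S36), chain (V8) input: Galois descent of a SUBSPACE of a Laurent function field

Setting of `S36/K0Fixed.lean`.  `K ⊆ K'` algebraic, `F : IntermediateField K (LaurentSeries K)`,
`F' = constExt K' F`.

* `coe_star_basisBC` : in the basis `basisBC b` the coordinatewise action of `σ` is the
  coefficientwise action `coeffMap σ`;
* `exists_bcHom_eq_of_isRational` : a vector with coordinates in `K` comes from `F`;
* `mem_span_bcHom` : a `K'`-subspace `W` of `F'` stable under `coeffMap σ` (`σ ∈ H`, `K'^H = K`) is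
  spanned over `K'` by `bc (F) ∩ W`;
* `mem_span_toBar` : the modular form: a `L`-subspace of `laurentBaseChange L F₀` stable under the
  arithmetic Galois action of `H` is spanned by the images of the elements of the
  `fixedField H`-form lying in it.  (E.g. `W = L(D)` for an `H`-invariant divisor `D`, or the
  elements integral over `L[x]` with bounded poles for a rational `x`.)
-/

set_option autoImplicit false
set_option linter.unusedSectionVars false

noncomputable section

namespace Fermat.Agent.S36.K0FixedSubspace

open ModularCurve IntermediateField Fermat.Agent.S30.Descent.ConstExt Fermat.Agent.S36.K0Fixed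
  Fermat.Agent.S36.SubspaceDescent

variable {K : Type*} {K' : Type*} [Field K] [Field K'] [Algebra K K']
variable {F : IntermediateField K (LaurentSeries K)}
variable [Algebra.IsAlgebraic K K']

/-- every vector is the linear combination of the `bc (b i)` with its `basisBC`-coordinates -/
theorem linearCombination_repr_basisBC {ι : Type*} (b : Module.Basis ι K F) (y : constExt K' F) :
    Finsupp.linearCombination K' (fun i => bcHom K' F (b i)) ((basisBC (K' := K') b).repr y) = y := by
  have h := (basisBC (K' := K') b).linearCombination_repr y
  have hfun : (fun i => bcHom K' F (b i)) = basisBC (K' := K') b := by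
    funext i
    rw [basisBC_apply]
  rw [hfun]
  exact h

/-- in the basis `basisBC b` the coordinatewise action is the coefficientwise action -/
theorem coe_star_basisBC {ι : Type*} (b : Module.Basis ι K F) (σ : K' →+* K')
    (hσ : ∀ c : K, σ (algebraMap K K' c) = algebraMap K K' c) (y : constExt K' F) :
    ((star (basisBC (K' := K') b) σ y : constExt K' F) : LaurentSeries K') =
      coeffMap σ (y : LaurentSeries K') := by
  have h1 := coeffMap_linearCombination (fun i => b i) ((basisBC (K' := K') b).repr y) σ hσ
  rw [linearCombination_repr_basisBC] at h1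
  rw [h1]
  -- `star` is (definitionally) the linear combination with the transformed coordinates
  congr 1

/-- a vector all of whose `basisBC`-coordinates lie in `K` comes from `F` -/
theorem exists_bcHom_eq_of_isRational {ι : Type*} (b : Module.Basis ι K F) (y : constExt K' F)
    (hy : IsRational (K := K) (basisBC (K' := K') b) y) : ∃ f : F, bcHom K' F f = y := by
  classical
  set c := (basisBC (K' := K') b).repr y with hc
  choose d hd using hy
  let d' : ι →₀ K := Finsupp.onFinset c.support d (by
    intro i hi
    rw [Finsupp.mem_support_iff]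
    intro h0
    apply hi
    have := hd i
    rw [← hc, h0] at this
    exact (map_eq_zero _).mp this)
  refine ⟨Finsupp.linearCombination K b d', ?_⟩
  rw [bcHom_linearCombination, ← linearCombination_repr_basisBC (K' := K') b y]
  congr 1
  ext i
  simp only [Finsupp.mapRange_apply, d', Finsupp.onFinset_apply]
  exact hd i

/-- **Galois descent of a subspace of `F' = K'(bc F)`**: a `K'`-subspace stable under the
coefficientwise action of a set `H` of endomorphisms of `K'` over `K` with `K'^H = K` is spanned
over `K'` by the elements of `bc F` lying in it. -/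
theorem mem_span_bcHom (H : Set (K' →+* K'))
    (hHK : ∀ σ ∈ H, ∀ c : K, σ (algebraMap K K' c) = algebraMap K K' c)
    (hfix : ∀ a : K', (∀ σ ∈ H, σ a = a) → a ∈ Set.range (algebraMap K K'))
    (W : Submodule K' (constExt K' F))
    (hW : ∀ σ ∈ H, ∀ y ∈ W, ∀ z : constExt K' F,
      (z : LaurentSeries K') = coeffMap σ (y : LaurentSeries K') → z ∈ W)
    (y : constExt K' F) (hy : y ∈ W) :
    y ∈ Submodule.span K' {u : constExt K' F | u ∈ W ∧ ∃ f : F, bcHom K' F f = u} := by
  classical
  set b := Module.Basis.ofVectorSpace K F with hb
  have h1 := mem_span_rational (K := K) (B := basisBC (K' := K') b) H hfix W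
    (fun σ hσ v hv => hW σ hσ v hv _ (coe_star_basisBC b σ (hHK σ hσ) v)) y hy
  refine Submodule.span_mono ?_ h1
  rintro u ⟨huW, hurat⟩
  exact ⟨huW, exists_bcHom_eq_of_isRational b u hurat⟩

/-! ### the modular case -/

section Laurent

variable {L : Type*} [Field L] [Algebra ℚ L] [Algebra.IsAlgebraic ℚ L]
variable (F₀ : IntermediateField ℚ (LaurentSeries ℚ)) (H : Subgroup (L ≃ₐ[ℚ] L))

/-- **Galois descent of a subspace of `L(F₀)`**: an `L`-subspace `W` of `laurentBaseChange L F₀`
stable under the arithmetic Galois action of every `σ ∈ H` is spanned over `L` by the images under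
`toBar` of the elements of the `L^H`-form lying in `W`. -/
theorem mem_span_toBar (W : Submodule L (laurentBaseChange L F₀))
    (hW : ∀ σ ∈ H, ∀ x ∈ W, arithmeticGalois F₀ σ • x ∈ W)
    (x : laurentBaseChange L F₀) (hx : x ∈ W) :
    x ∈ Submodule.span L {y : laurentBaseChange L F₀ | y ∈ W ∧
      ∃ x₀ : laurentBaseChange (IntermediateField.fixedField H) F₀,
        toBar F₀ (IntermediateField.fixedField H) x₀ = y} := by
  have : Algebra.IsAlgebraic (IntermediateField.fixedField H) L :=
    Algebra.IsAlgebraic.tower_top (K := ℚ) (IntermediateField.fixedField H)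
  have hE : constExt L (laurentBaseChange (IntermediateField.fixedField H) F₀) =
      laurentBaseChange L F₀ := constExt_laurentBaseChange F₀
  -- the identification of the two intermediate fields
  let e : constExt L (laurentBaseChange (IntermediateField.fixedField H) F₀) ≃ₐ[L]
      laurentBaseChange L F₀ := IntermediateField.equivOfEq hE
  have he : ∀ z, ((e z : laurentBaseChange L F₀) : LaurentSeries L) = (z : LaurentSeries L) :=
    fun z => rfl
  set W' : Submodule L (constExt L (laurentBaseChange (IntermediateField.fixedField H) F₀)) :=
    W.comap e.toLinearMap with hW'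
  have hmem : ∀ z, z ∈ W' ↔ e z ∈ W := fun z => Iff.rfl
  have h1 := mem_span_bcHom (K := IntermediateField.fixedField H) (K' := L)
    (F := laurentBaseChange (IntermediateField.fixedField H) F₀)
    (H := {τ : L →+* L | ∃ σ ∈ H, τ = (σ : L →+* L)})
    (by
      rintro _ ⟨σ, hσ, rfl⟩ c
      exact c.2 ⟨σ, hσ⟩)
    (by
      intro a ha
      refine ⟨⟨a, fun σ => ?_⟩, rfl⟩
      exact ha _ ⟨σ.1, σ.2, rfl⟩)
    W'
    (by
      rintro _ ⟨σ, hσ, rfl⟩ y hy z hz
      rw [hmem] at hy ⊢
      have h2 := hW σ hσ _ hy
      have h3 : e z = arithmeticGalois F₀ σ • e y := by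
        apply Subtype.ext
        rw [coe_arithmeticGalois_smul, he, he, hz]
      rw [h3]
      exact h2)
    (e.symm x) (by rw [hmem, AlgEquiv.apply_symm_apply]; exact hx)
  -- transport the span along `e`
  have h2 : e (e.symm x) ∈ Submodule.map e.toLinearMap
      (Submodule.span L {u : constExt L (laurentBaseChange (IntermediateField.fixedField H) F₀) |
        u ∈ W' ∧ ∃ f : laurentBaseChange (IntermediateField.fixedField H) F₀,
          bcHom L (laurentBaseChange (IntermediateField.fixedField H) F₀) f = u}) :=
    Submodule.mem_map_of_mem h1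
  rw [AlgEquiv.apply_symm_apply, Submodule.map_span] at h2
  refine Submodule.span_mono ?_ h2
  rintro _ ⟨u, ⟨huW, f, hf⟩, rfl⟩
  refine ⟨(hmem u).mp huW, f, ?_⟩
  apply Subtype.ext
  have : ((e u : laurentBaseChange L F₀) : LaurentSeries L) = (u : LaurentSeries L) := he u
  rw [coe_toBar]
  change _ = ((e u : laurentBaseChange L F₀) : LaurentSeries L)
  rw [this, ← hf, coe_bcHom]

end Laurent

end Fermat.Agent.S36.K0FixedSubspace
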