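import Mathlib
import Fermat.Agent.S37.Deuring.Core

/-!
# PROJECT V (S36), slice V-LatticeDescent: rational lifts along an extension of constants

Abstract input of (V8) CompNormal (chain #2528): the lifts of `S34/LevelMSurj` live over `ℚ̄`;
the chart rings of the model live over the inertia field `K₀`.  Both Gauss valuations have the SAME
residue field, and `L_{ℚ̄}(D) = ℚ̄ ⊗ L_{K₀}(D)` (`S30/Descent/RRBaseChange.rr_eq_span_basis`).  So a
`ℚ̄`-lift can be replaced by a `K₀`-rational one as soon as `L_{K₀}(D)` has an ORTHONORMAL basis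
(`S34/OrthoLattice.exists_red_independent_of_basis`, valid over any base field).

Valuation form (Mathlib only), `O'` a valuation subring of a field `F'`, `v = O'.valuation`:

* `IsOrthonormal O' K e` : the `e i` are integral and `v (∑ c i • e i) < 1` with integral
  `c i ∈ K` forces `v (c i) < 1`;
* `IsOrthonormal.mem_of_sum_mem` : then `∑ c i • e i ∈ O'` forces `c i ∈ O'` (no integrality
  assumed on the `c i`);
* `IsOrthonormal.extend` : orthonormality over `K` passes to an extension `K'` of the constants
  with the same residue field;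
* `IsOrthonormal.exists_rational_approx(_of_mem_span)` : **descent**: every integral element of
  the `K'`-span of the `e i` is congruent modulo the maximal ideal of `O'` to an integral
  `K`-combination of the `e i`.

Gauss-datum form (`S37/Deuring/Core.GaussDatum` over `(L, A, π)`, `L₀ ⊆ L` a subfield whose
integers surject onto the residue field `k`):

* `isOrthonormal_of_red` : `k`-independent reductions are orthonormal;
* `exists_rational_lift` : for `e i ∈ G.O` with `k`-independent reductions and `f ∈ G.O` in the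
  `L`-span of the `e i` there are `c i ∈ L₀`, integral, and `f₀ = ∑ c i e i ∈ G.O` with
  `red f₀ = red f`;
* `exists_rational_lift_bc`, `exists_rational_lift_of_finrank` : the same along a base-change
  homomorphism `bc : F₀ →+* FL` (`F₀` a field over `L₀`): for a finite-dimensional `L₀`-subspace
  `V₀ ≤ F₀` containing `finrank V₀` elements `g j` with `bc (g j) ∈ G.O` and `k`-independent
  reductions, every `f ∈ G.O` in the `L`-span of `bc '' V₀` has `red f = red (bc f₀)` for some
  `f₀ ∈ V₀`.
-/

set_option autoImplicit false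
set_option linter.unusedSectionVars false

namespace Fermat.Agent.S36.LatticeDescent

/-! ### valuation form -/

section Valuation

variable {F' : Type*} [Field F'] (O' : ValuationSubring F')

/-- the family `e` is **orthonormal** over the constants `K` for the valuation subring `O'`:
the `e i` are integral, and an integral combination of valuation `< 1` has all its coefficients
of valuation `< 1` (i.e. the reductions of the `e i` are independent over the residue field
of `K`). -/
def IsOrthonormal (K : Type*) [Field K] [Algebra K F'] {ι : Type*} [Fintype ι] (e : ι → F') :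
    Prop :=
  (∀ i, e i ∈ O') ∧ ∀ c : ι → K, (∀ i, algebraMap K F' (c i) ∈ O') →
    O'.valuation (∑ i, c i • e i) < 1 → ∀ i, O'.valuation (algebraMap K F' (c i)) < 1

variable {O'}

/-- among finitely many constants, not all zero, one has maximal valuation -/
theorem exists_max_scalar {K : Type*} [Field K] [Algebra K F'] {ι : Type*} (s : Finset ι)
    (c : ι → K) (h : ∃ i ∈ s, c i ≠ 0) :
    ∃ i₀ ∈ s, c i₀ ≠ 0 ∧ ∀ i ∈ s,
      O'.valuation (algebraMap K F' (c i)) ≤ O'.valuation (algebraMap K F' (c i₀)) := by
  obtain ⟨i₁, hi₁, hne⟩ := h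
  obtain ⟨i₀, hi₀, hmax⟩ :=
    Finset.exists_max_image s (fun i => O'.valuation (algebraMap K F' (c i))) ⟨i₁, hi₁⟩
  refine ⟨i₀, hi₀, ?_, hmax⟩
  intro h0
  have h1 := hmax i₁ hi₁
  rw [h0, map_zero, map_zero] at h1
  have h2 : O'.valuation (algebraMap K F' (c i₁)) = 0 := le_antisymm h1 zero_le
  rw [map_eq_zero, map_eq_zero] at h2
  exact hne h2

namespace IsOrthonormal

variable {K : Type*} [Field K] [Algebra K F'] {ι : Type*} [Fintype ι] {e : ι → F'}

theorem mem (h : IsOrthonormal O' K e) (i : ι) : e i ∈ O' := h.1 i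

theorem valuation_le_one (h : IsOrthonormal O' K e) (i : ι) : O'.valuation (e i) ≤ 1 :=
  (O'.valuation_le_one_iff _).mpr (h.1 i)

/-- **integral combinations have integral coefficients** (no integrality assumed on `c`) -/
theorem mem_of_sum_mem (h : IsOrthonormal O' K e) (c : ι → K) (hc : ∑ i, c i • e i ∈ O')
    (i : ι) : algebraMap K F' (c i) ∈ O' := by
  classical
  by_contra hi
  have hi' : ¬ O'.valuation (algebraMap K F' (c i)) ≤ 1 := fun hle =>
    hi ((O'.valuation_le_one_iff _).mp hle)
  have hci : c i ≠ 0 := by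
    rintro h0
    apply hi
    rw [h0, map_zero]
    exact O'.zero_mem
  obtain ⟨i₀, -, h0, hmax⟩ :=
    exists_max_scalar (O' := O') Finset.univ c ⟨i, Finset.mem_univ _, hci⟩
  have hv0 : 1 < O'.valuation (algebraMap K F' (c i₀)) :=
    lt_of_lt_of_le (not_le.mp hi') (hmax i (Finset.mem_univ _))
  have hv0ne : O'.valuation (algebraMap K F' (c i₀)) ≠ 0 := fun hz => by
    rw [hz] at hv0
    exact not_lt.mpr zero_le hv0
  set a : ι → K := fun j => c j / c i₀ with ha
  have hva : ∀ j, O'.valuation (algebraMap K F' (a j)) =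
      O'.valuation (algebraMap K F' (c j)) / O'.valuation (algebraMap K F' (c i₀)) := by
    intro j
    rw [ha]
    simp only [map_div₀]
  have haint : ∀ j, algebraMap K F' (a j) ∈ O' := by
    intro j
    rw [← O'.valuation_le_one_iff, hva]
    exact div_le_one_of_le₀ (hmax j (Finset.mem_univ _)) zero_le
  have hsum : ∑ j, a j • e j = (c i₀)⁻¹ • ∑ j, c j • e j := by
    rw [Finset.smul_sum]
    refine Finset.sum_congr rfl fun j _ => ?_
    rw [smul_smul, show a j = (c i₀)⁻¹ * c j from div_eq_inv_mul _ _]
  have hlt : O'.valuation (∑ j, a j • e j) < 1 := by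
    rw [hsum, Algebra.smul_def, map_mul, map_inv₀, map_inv₀]
    have h1 : O'.valuation (∑ j, c j • e j) ≤ 1 := (O'.valuation_le_one_iff _).mpr hc
    calc (O'.valuation (algebraMap K F' (c i₀)))⁻¹ * O'.valuation (∑ j, c j • e j)
        ≤ (O'.valuation (algebraMap K F' (c i₀)))⁻¹ * 1 := by gcongr
      _ = (O'.valuation (algebraMap K F' (c i₀)))⁻¹ := mul_one _
      _ < 1 := (inv_lt_one₀ (zero_lt_iff.mpr hv0ne)).mpr hv0
  have := h.2 a haint hlt i₀
  rw [hva, div_self hv0ne] at this
  exact lt_irrefl _ this

/-- orthonormal families are linearly independent over the constants -/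
theorem linearIndependent (h : IsOrthonormal O' K e) : LinearIndependent K e := by
  classical
  rw [Fintype.linearIndependent_iff]
  intro c hc
  by_contra hne
  push Not at hne
  obtain ⟨i₁, hi₁⟩ := hne
  obtain ⟨i₀, -, h0, hmax⟩ :=
    exists_max_scalar (O' := O') Finset.univ c ⟨i₁, Finset.mem_univ _, hi₁⟩
  have hv0ne : O'.valuation (algebraMap K F' (c i₀)) ≠ 0 := by
    rw [Ne, map_eq_zero, map_eq_zero]
    exact h0
  set a : ι → K := fun j => c j / c i₀ with ha
  have hva : ∀ j, O'.valuation (algebraMap K F' (a j)) =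
      O'.valuation (algebraMap K F' (c j)) / O'.valuation (algebraMap K F' (c i₀)) := by
    intro j
    rw [ha]
    simp only [map_div₀]
  have haint : ∀ j, algebraMap K F' (a j) ∈ O' := by
    intro j
    rw [← O'.valuation_le_one_iff, hva]
    exact div_le_one_of_le₀ (hmax j (Finset.mem_univ _)) zero_le
  have hsum : ∑ j, a j • e j = 0 := by
    have : ∑ j, a j • e j = (c i₀)⁻¹ • ∑ j, c j • e j := by
      rw [Finset.smul_sum]
      refine Finset.sum_congr rfl fun j _ => ?_
      rw [smul_smul, show a j = (c i₀)⁻¹ * c j from div_eq_inv_mul _ _]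
    rw [this, hc, smul_zero]
  have hlt : O'.valuation (∑ j, a j • e j) < 1 := by
    rw [hsum, map_zero]
    exact zero_lt_one
  have := h.2 a haint hlt i₀
  rw [hva, div_self hv0ne] at this
  exact lt_irrefl _ this

variable {K' : Type*} [Field K'] [Algebra K' F'] [Algebra K K'] [IsScalarTower K K' F']

/-- **orthonormality passes to an extension of the constants with the same residue field** -/
theorem extend (h : IsOrthonormal O' K e)
    (hres : ∀ a : K', algebraMap K' F' a ∈ O' →
      ∃ c : K, O'.valuation (algebraMap K' F' a - algebraMap K F' c) < 1) :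
    IsOrthonormal O' K' e := by
  classical
  refine ⟨h.1, fun μ hμ hlt i => ?_⟩
  choose c hc using fun i => hres (μ i) (hμ i)
  have hμv : ∀ j, O'.valuation (algebraMap K' F' (μ j)) ≤ 1 := fun j =>
    (O'.valuation_le_one_iff _).mpr (hμ j)
  have hcint : ∀ j, algebraMap K F' (c j) ∈ O' := by
    intro j
    rw [← O'.valuation_le_one_iff]
    have : algebraMap K F' (c j) =
        algebraMap K' F' (μ j) - (algebraMap K' F' (μ j) - algebraMap K F' (c j)) := by ring
    rw [this]
    exact (O'.valuation.map_sub _ _).trans (max_le (hμv j) (hc j).le)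
  have hdiff : ∀ j, O'.valuation ((algebraMap K' F' (μ j) - algebraMap K F' (c j)) * e j) < 1 := by
    intro j
    rw [map_mul]
    calc O'.valuation (algebraMap K' F' (μ j) - algebraMap K F' (c j)) * O'.valuation (e j)
        ≤ O'.valuation (algebraMap K' F' (μ j) - algebraMap K F' (c j)) * 1 := by
          gcongr
          exact h.valuation_le_one j
      _ = O'.valuation (algebraMap K' F' (μ j) - algebraMap K F' (c j)) := mul_one _
      _ < 1 := hc j
  have hsplit : ∑ j, c j • e j =
      ∑ j, μ j • e j - ∑ j, (algebraMap K' F' (μ j) - algebraMap K F' (c j)) * e j := by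
    rw [← Finset.sum_sub_distrib]
    refine Finset.sum_congr rfl fun j _ => ?_
    rw [Algebra.smul_def, Algebra.smul_def]
    ring
  have hclt : O'.valuation (∑ j, c j • e j) < 1 := by
    rw [hsplit]
    refine lt_of_le_of_lt (O'.valuation.map_sub _ _) (max_lt hlt ?_)
    exact O'.valuation.map_sum_lt one_ne_zero fun j _ => hdiff j
  have hci := h.2 c hcint hclt i
  have : algebraMap K' F' (μ i) =
      (algebraMap K' F' (μ i) - algebraMap K F' (c i)) + algebraMap K F' (c i) := by ring
  rw [this]
  exact lt_of_le_of_lt (O'.valuation.map_add _ _) (max_lt (hc i) hci)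

/-- **Descent of integral elements**: an integral `K'`-combination of an orthonormal family is
congruent, modulo the maximal ideal of `O'`, to an integral `K`-combination. -/
theorem exists_rational_approx (h : IsOrthonormal O' K e)
    (hres : ∀ a : K', algebraMap K' F' a ∈ O' →
      ∃ c : K, O'.valuation (algebraMap K' F' a - algebraMap K F' c) < 1)
    (μ : ι → K') (hμ : ∑ i, μ i • e i ∈ O') :
    ∃ c : ι → K, (∀ i, algebraMap K F' (c i) ∈ O') ∧
      O'.valuation (∑ i, μ i • e i - ∑ i, c i • e i) < 1 := by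
  classical
  have hμint := (h.extend hres).mem_of_sum_mem μ hμ
  choose c hc using fun i => hres (μ i) (hμint i)
  have hμv : ∀ j, O'.valuation (algebraMap K' F' (μ j)) ≤ 1 := fun j =>
    (O'.valuation_le_one_iff _).mpr (hμint j)
  refine ⟨c, fun j => ?_, ?_⟩
  · rw [← O'.valuation_le_one_iff]
    have : algebraMap K F' (c j) =
        algebraMap K' F' (μ j) - (algebraMap K' F' (μ j) - algebraMap K F' (c j)) := by ring
    rw [this]
    exact (O'.valuation.map_sub _ _).trans (max_le (hμv j) (hc j).le)
  · have : ∑ i, μ i • e i - ∑ i, c i • e i =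
        ∑ j, (algebraMap K' F' (μ j) - algebraMap K F' (c j)) * e j := by
      rw [← Finset.sum_sub_distrib]
      refine Finset.sum_congr rfl fun j _ => ?_
      rw [Algebra.smul_def, Algebra.smul_def]
      ring
    rw [this]
    refine O'.valuation.map_sum_lt one_ne_zero fun j _ => ?_
    rw [map_mul]
    calc O'.valuation (algebraMap K' F' (μ j) - algebraMap K F' (c j)) * O'.valuation (e j)
        ≤ O'.valuation (algebraMap K' F' (μ j) - algebraMap K F' (c j)) * 1 := by
          gcongr
          exact h.valuation_le_one j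
      _ = O'.valuation (algebraMap K' F' (μ j) - algebraMap K F' (c j)) := mul_one _
      _ < 1 := hc j

/-- **Descent**, span form. -/
theorem exists_rational_approx_of_mem_span (h : IsOrthonormal O' K e)
    (hres : ∀ a : K', algebraMap K' F' a ∈ O' →
      ∃ c : K, O'.valuation (algebraMap K' F' a - algebraMap K F' c) < 1)
    {f : F'} (hf : f ∈ O') (hspan : f ∈ Submodule.span K' (Set.range e)) :
    ∃ c : ι → K, (∀ i, algebraMap K F' (c i) ∈ O') ∧
      O'.valuation (f - ∑ i, c i • e i) < 1 := by
  obtain ⟨μ, rfl⟩ := (Submodule.mem_span_range_iff_exists_fun K').mp hspan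
  exact h.exists_rational_approx hres μ hf

end IsOrthonormal

end Valuation

/-! ### Gauss-datum form -/

section Gauss

open Fermat.Agent.S37.Deuring.Core

variable {L : Type*} [Field L] {k : Type*} [Field k]
variable {A : ValuationSubring L} {π : A →+* k}
variable {FL : Type*} [Field FL] [Algebra L FL] {Fk : Type*} [Field Fk] [Algebra k Fk]
variable (G : GaussDatum A π FL Fk)

/-- elements of the Gauss ring of valuation `< 1` are the elements with zero reduction -/
theorem red_eq_zero_iff_valuation_lt_one (u : G.O) :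
    G.red u = 0 ↔ G.O.valuation (u : FL) < 1 := by
  rw [G.red_eq_zero_iff, ← G.O.valuation_lt_one_iff, IsLocalRing.mem_maximalIdeal]
  rfl

/-- **`k`-independent reductions are orthonormal** over the constants `L`. -/
theorem isOrthonormal_of_red {ι : Type*} [Fintype ι] (e : ι → G.O)
    (h : LinearIndependent k fun i => G.red (e i)) :
    IsOrthonormal G.O L fun i => ((e i : G.O) : FL) := by
  classical
  refine ⟨fun i => (e i).2, fun c hc hlt i => ?_⟩
  set a : ι → A := fun j => ⟨c j, G.mem_of_algebraMap_mem (c j) (hc j)⟩ with ha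
  set s : G.O := ∑ j, G.const (a j) * e j with hs
  have hscoe : ((s : G.O) : FL) = ∑ j, c j • ((e j : G.O) : FL) := by
    rw [hs, ← G.O.subtype_apply, map_sum]
    refine Finset.sum_congr rfl fun j _ => ?_
    rw [Algebra.smul_def]
    rfl
  have hsred : G.red s = 0 := by
    rw [red_eq_zero_iff_valuation_lt_one, hscoe]
    exact hlt
  have hsum : ∑ j, π (a j) • G.red (e j) = 0 := by
    rw [← hsred, hs, map_sum]
    refine Finset.sum_congr rfl fun j _ => ?_
    rw [map_mul, G.red_const, Algebra.smul_def]
  have hπ := Fintype.linearIndependent_iff.mp h _ hsum i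
  have hci : G.red (G.const (a i)) = 0 := by rw [G.red_const, hπ, map_zero]
  have := (red_eq_zero_iff_valuation_lt_one G _).mp hci
  rwa [G.coe_const] at this

variable {L₀ : Type*} [Field L₀] [Algebra L₀ L]

/-- **Rational lifts**: `e i ∈ G.O` with `k`-independent reductions, `L₀ ⊆ L` a subfield whose
integers surject onto the residue field.  Every `f ∈ G.O` in the `L`-span of the `e i` has the
same reduction as some `f₀ = ∑ c i e i` with `c i ∈ L₀` integral. -/
theorem exists_rational_lift {ι : Type*} [Fintype ι] (e : ι → G.O)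
    (h : LinearIndependent k fun i => G.red (e i))
    (hres : ∀ a : A, ∃ c : L₀, ∃ hc : algebraMap L₀ L c ∈ A, π ⟨algebraMap L₀ L c, hc⟩ = π a)
    (f : G.O)
    (hf : ((f : G.O) : FL) ∈ Submodule.span L (Set.range fun i => ((e i : G.O) : FL))) :
    ∃ (c : ι → L₀) (hc : ∀ i, algebraMap L₀ L (c i) ∈ A),
      G.red (∑ i, G.const ⟨algebraMap L₀ L (c i), hc i⟩ * e i) = G.red f := by
  classical
  obtain ⟨μ, hμ⟩ := (Submodule.mem_span_range_iff_exists_fun L).mp hf
  have hON := isOrthonormal_of_red G e h
  have hμint : ∀ i, μ i ∈ A := fun i =>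
    G.mem_of_algebraMap_mem (μ i) (hON.mem_of_sum_mem μ (by rw [hμ]; exact f.2) i)
  choose c hc hcπ using fun i => hres ⟨μ i, hμint i⟩
  refine ⟨c, hc, ?_⟩
  have hfeq : f = ∑ i, G.const ⟨μ i, hμint i⟩ * e i := by
    apply Subtype.ext
    rw [← hμ, ← G.O.subtype_apply, map_sum]
    refine Finset.sum_congr rfl fun j _ => ?_
    rw [Algebra.smul_def]
    rfl
  rw [hfeq, map_sum, map_sum]
  refine Finset.sum_congr rfl fun i _ => ?_
  rw [map_mul, map_mul, G.red_const, G.red_const, hcπ i]

/-- the rational lift, as an element of the ambient field: `f₀ = ∑ c i • e i` -/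
theorem exists_rational_lift' [Algebra L₀ FL] [IsScalarTower L₀ L FL] {ι : Type*} [Fintype ι]
    (e : ι → G.O) (h : LinearIndependent k fun i => G.red (e i))
    (hres : ∀ a : A, ∃ c : L₀, ∃ hc : algebraMap L₀ L c ∈ A, π ⟨algebraMap L₀ L c, hc⟩ = π a)
    (f : G.O)
    (hf : ((f : G.O) : FL) ∈ Submodule.span L (Set.range fun i => ((e i : G.O) : FL))) :
    ∃ (c : ι → L₀) (f₀ : G.O), (∀ i, algebraMap L₀ L (c i) ∈ A) ∧
      ((f₀ : G.O) : FL) = ∑ i, c i • ((e i : G.O) : FL) ∧ G.red f₀ = G.red f := by
  obtain ⟨c, hc, hred⟩ := exists_rational_lift G e h hres f hf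
  refine ⟨c, _, hc, ?_, hred⟩
  rw [← G.O.subtype_apply, map_sum]
  refine Finset.sum_congr rfl fun j _ => ?_
  rw [Algebra.smul_def, IsScalarTower.algebraMap_apply L₀ L FL]
  rfl

/-! ### base-change form: `bc : F₀ →+* FL` from a function field over `L₀` -/

variable {F₀ : Type*} [Field F₀] [Algebra L₀ F₀] (bc : F₀ →+* FL)

/-- `bc` is semilinear over `L₀ → L` -/
theorem bc_smul (hbc : ∀ a : L₀, bc (algebraMap L₀ F₀ a) = algebraMap L FL (algebraMap L₀ L a))
    (c : L₀) (x : F₀) : bc (c • x) = algebraMap L₀ L c • bc x := by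
  rw [Algebra.smul_def, map_mul, hbc, Algebra.smul_def]

/-- **Rational lifts, base-change form**: `g i ∈ F₀` with `bc (g i) ∈ G.O` and `k`-independent
reductions.  Every `f ∈ G.O` in the `L`-span of the `bc (g i)` has the same reduction as `bc f₀`
for some `f₀` in the `L₀`-span of the `g i`. -/
theorem exists_rational_lift_bc
    (hbc : ∀ a : L₀, bc (algebraMap L₀ F₀ a) = algebraMap L FL (algebraMap L₀ L a))
    (hres : ∀ a : A, ∃ c : L₀, ∃ hc : algebraMap L₀ L c ∈ A, π ⟨algebraMap L₀ L c, hc⟩ = π a)
    {ι : Type*} [Fintype ι] (g : ι → F₀) (hg : ∀ i, bc (g i) ∈ G.O)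
    (h : LinearIndependent k fun i => G.red ⟨bc (g i), hg i⟩)
    (f : G.O) (hf : ((f : G.O) : FL) ∈ Submodule.span L (Set.range fun i => bc (g i))) :
    ∃ f₀ ∈ Submodule.span L₀ (Set.range g), ∃ h₀ : bc f₀ ∈ G.O,
      G.red ⟨bc f₀, h₀⟩ = G.red f := by
  classical
  obtain ⟨c, hc, hred⟩ := exists_rational_lift G (fun i => (⟨bc (g i), hg i⟩ : G.O)) h hres f hf
  have hcoe : bc (∑ i, c i • g i) =
      ((∑ i, G.const ⟨algebraMap L₀ L (c i), hc i⟩ * (⟨bc (g i), hg i⟩ : G.O) : G.O) : FL) := by
    rw [map_sum, ← G.O.subtype_apply, map_sum]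
    refine Finset.sum_congr rfl fun i _ => ?_
    rw [bc_smul bc hbc, Algebra.smul_def]
    rfl
  refine ⟨∑ i, c i • g i, ?_, ?_, ?_⟩
  · exact Submodule.sum_mem _ fun i _ =>
      Submodule.smul_mem _ _ (Submodule.subset_span ⟨i, rfl⟩)
  · rw [hcoe]
    exact Subtype.mem _
  · rw [← hred]
    congr 1
    exact Subtype.ext hcoe

/-- an orthonormal family `bc ∘ g` comes from an `L₀`-independent family `g` -/
theorem linearIndependent_of_red_bc
    (hbc : ∀ a : L₀, bc (algebraMap L₀ F₀ a) = algebraMap L FL (algebraMap L₀ L a))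
    {ι : Type*} [Fintype ι] (g : ι → F₀) (hg : ∀ i, bc (g i) ∈ G.O)
    (h : LinearIndependent k fun i => G.red ⟨bc (g i), hg i⟩) : LinearIndependent L₀ g := by
  classical
  have hL := (isOrthonormal_of_red G (fun i => (⟨bc (g i), hg i⟩ : G.O)) h).linearIndependent
  rw [Fintype.linearIndependent_iff] at hL ⊢
  intro c hc i
  have h1 : ∑ j, algebraMap L₀ L (c j) • bc (g j) = 0 := by
    have := congrArg bc hc
    rw [map_sum, map_zero] at this
    rw [← this]
    exact Finset.sum_congr rfl fun j _ => (bc_smul bc hbc _ _).symm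
  have h2 := hL (fun j => algebraMap L₀ L (c j)) h1 i
  exact (map_eq_zero (algebraMap L₀ L)).mp h2

/-- **Rational lifts for a finite-dimensional space with an orthonormal basis**: `V₀` a
finite-dimensional `L₀`-subspace of `F₀`, `g` a family of `finrank V₀` elements of `V₀` with
`bc (g j) ∈ G.O` and `k`-independent reductions (`S34/OrthoLattice.exists_red_independent_of_basis`
over the base `L₀`).  Every `f ∈ G.O` in the `L`-span of `bc '' V₀` has the same reduction as
`bc f₀` for some `f₀ ∈ V₀`. -/
theorem exists_rational_lift_of_finrank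
    (hbc : ∀ a : L₀, bc (algebraMap L₀ F₀ a) = algebraMap L FL (algebraMap L₀ L a))
    (hres : ∀ a : A, ∃ c : L₀, ∃ hc : algebraMap L₀ L c ∈ A, π ⟨algebraMap L₀ L c, hc⟩ = π a)
    (V₀ : Submodule L₀ F₀) [FiniteDimensional L₀ V₀]
    (g : Fin (Module.finrank L₀ V₀) → F₀) (hgV : ∀ j, g j ∈ V₀) (hg : ∀ j, bc (g j) ∈ G.O)
    (h : LinearIndependent k fun j => G.red ⟨bc (g j), hg j⟩)
    (f : G.O) (hf : ((f : G.O) : FL) ∈ Submodule.span L (bc '' (V₀ : Set F₀))) :
    ∃ f₀ ∈ V₀, ∃ h₀ : bc f₀ ∈ G.O, G.red ⟨bc f₀, h₀⟩ = G.red f := by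
  classical
  have hli := linearIndependent_of_red_bc G bc hbc g hg h
  -- `g` spans `V₀`
  let g' : Fin (Module.finrank L₀ V₀) → V₀ := fun j => ⟨g j, hgV j⟩
  have hli' : LinearIndependent L₀ g' := by
    apply LinearIndependent.of_comp V₀.subtype
    exact hli
  have hspan' : Submodule.span L₀ (Set.range g') = ⊤ :=
    hli'.span_eq_top_of_card_eq_finrank' (by rw [Fintype.card_fin])
  have hspan : Submodule.span L₀ (Set.range g) = V₀ := by
    have h1 : Set.range g = V₀.subtype '' Set.range g' := by
      rw [← Set.range_comp]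
      rfl
    rw [h1, Submodule.span_image, hspan', Submodule.map_top, Submodule.range_subtype]
  have hle : Submodule.span L (bc '' (V₀ : Set F₀)) ≤
      Submodule.span L (Set.range fun j => bc (g j)) := by
    rw [Submodule.span_le]
    rintro _ ⟨x, hx, rfl⟩
    have hx' : x ∈ Submodule.span L₀ (Set.range g) := by rw [hspan]; exact hx
    obtain ⟨c, rfl⟩ := (Submodule.mem_span_range_iff_exists_fun L₀).mp hx'
    rw [map_sum]
    refine Submodule.sum_mem _ fun j _ => ?_
    rw [bc_smul bc hbc]
    exact Submodule.smul_mem _ _ (Submodule.subset_span ⟨j, rfl⟩)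
  obtain ⟨f₀, hf₀, h₀, hred⟩ := exists_rational_lift_bc G bc hbc hres g hg h f (hle hf)
  exact ⟨f₀, hspan ▸ hf₀, h₀, hred⟩

end Gauss

end Fermat.Agent.S36.LatticeDescent
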