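/-
PROJECT V (S36), slice V-LeafSoftX0 (helper25) = (S7) of the architect's ruling: **DRY ASSEMBLY of
the soft-core fields of `NewInertiaCharts.Leaf` at `X₀`**, `O = W A`, `K = K0 A`,
`F = FK0 A (N0 q q)`, `ϖ = q`, `φ = x₂ = j₀ j₁ j₂`.

Inputs: `Y : ThreeValX0.Hyp` over the inertia field with `Y.O₀ = Og0`, `Y.red₀ = red0z`, Deuring's
`Hyp`; a `GlueNorm.Datum` `X` whose three valuation subrings and reductions are those of `Y`
(`Match X Y`, all `rfl` for `GlueNormX0.datumX0`).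
-/
import Mathlib
import Fermat.Agent.S36.VertX0Final
import Fermat.Agent.S36.FormalLift.LatticeX0
import Fermat.Agent.S36.BranchRingsCharts
import Fermat.Agent.S36.ChartsX0
import Fermat.Agent.S36.NewInertiaCharts
import Fermat.Agent.S36.GlueNormX0
import Fermat.Agent.S36.VChartsOfLoc
import Fermat.Agent.S36.GlobalSectionBar

set_option autoImplicit false
set_option linter.unusedSectionVars false
set_option linter.unusedVariables false
set_option linter.style.haveILetI false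
set_option synthInstance.maxHeartbeats 400000

noncomputable section

namespace Fermat.Agent.S36.LeafSoftX0

open ModularCurve AlgebraicCurve IntermediateField Polynomial IsLocalRing
open Fermat.Agent.S18.C.SmallDVR
open Fermat.Agent.S36.ChartRing Fermat.Agent.S36.ChartX0 Fermat.Agent.S36.GaussK0Comap
open Fermat.Agent.S36.PowerBasisK0 Fermat.Agent.S36.ChartVert
open Fermat.Agent.S37.Gauss Fermat.Agent.S37.Deuring.Core
open Fermat.Agent.S36.CompNormalX0 Fermat.Agent.S36.NewInertiaDatum Fermat.Agent.S36.GlueNorm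
open Fermat.Agent.S36.LatticeX0 Fermat.Agent.S36.Lattice Fermat.Agent.S36.OpenLift
open Fermat.Agent.S36.FormalLift Fermat.Agent.S36.SoftCore

local notation "Kb" => AlgebraicClosure ℚ

/-- transport of a property along an equality (used across the two spellings `FK` / `FK0` of the
function field, where `rw` does not see through `SmallDVR.K0`) -/
theorem of_eq_fam {α : Sort*} (P : α → Prop) {a b : α} (h : a = b) (hb : P b) : P a := h ▸ hb

/-! ### the record of the soft-core fields -/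

section Record

variable {k κ F' F Pt : Type*} [Field k] [Field κ] [Algebra k κ] [Field F'] [Field F]
  {O : Type*} [CommRing O] {K : Type*} [Field K] [Algebra O K] [Algebra K F] [Algebra O F]
  [IsScalarTower O K F] {ι ι' : Type*}

/-- **the soft-core fields of `NewInertiaCharts.Leaf X V Y π`**, literal shapes and names (so that
`{ xs, ss with … }` fills them in a structure instance) -/
structure SoftSide (X : Datum k κ F' F Pt) (V : VCharts O K F Comp ι ι') (n : ℕ) : Prop where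
  hW : V.W = Wof X
  hϖ : Irreducible V.ϖ
  hφ : Transcendental K V.φ
  hφ' : Transcendental K V.φ⁻¹
  hfd : FiniteDimensional K⟮V.φ⟯ F
  hfd' : FiniteDimensional K⟮V.φ⁻¹⟯ F
  hvert : ∀ W : ValuationSubring F, (∀ c : O, algebraMap O F c ∈ W) → V.φ ∈ W →
    (algebraMap O F V.ϖ)⁻¹ ∉ W →
    (∀ s : O[X], (∃ i, IsUnit (s.coeff i)) → (aeval V.φ s)⁻¹ ∈ W) → W ∈ Set.range V.W
  hvert' : ∀ W : ValuationSubring F, (∀ c : O, algebraMap O F c ∈ W) → V.φ⁻¹ ∈ W →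
    (algebraMap O F V.ϖ)⁻¹ ∉ W →
    (∀ s : O[X], (∃ i, IsUnit (s.coeff i)) → (aeval V.φ⁻¹ s)⁻¹ ∈ W) → W ∈ Set.range V.W
  sep : ∀ i : ι, Separated (Wof X) (V.charts.S i)
  sep' : ∀ j : ι', Separated (Wof X) (V.charts.S' j)
  br : ∀ i : ι, BranchRings (Wof X) (rof X) (V.charts.S i) n
  br' : ∀ j : ι', BranchRings (Wof X) (rof X) (V.charts.S' j) n

end Record

/-! ### the chart function: bridge with `ChartsX0`, transcendence, finiteness -/

section Bridge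

variable (H : Subgroup (Kb ≃ₐ[ℚ] Kb))
variable (N0 q : ℕ) [NeZero N0] [NeZero q] [NeZero (N0 * q)] [NeZero (N0 * q * q)]

/-- the chart function of `CompNormalX0` is the one of `ChartsX0` -/
theorem x2_eq : x2 H N0 q = ChartsX0.x2 H N0 q :=
  ChartsX0.prod_fam2 H N0 q

variable {N0 q}

theorem transcendental_x2 (hq : q.Prime) :
    Transcendental ↥(IntermediateField.fixedField H) (x2 H N0 q) := by
  rw [x2_eq]
  exact ChartsX0.transcendental_x2' H hq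

theorem transcendental_x2_inv (hq : q.Prime) :
    Transcendental ↥(IntermediateField.fixedField H) (x2 H N0 q)⁻¹ :=
  ChartsX0.transcendental_inv' (transcendental_x2 H hq)

theorem finiteDimensional_x2 (hq : q.Prime) :
    FiniteDimensional (↥(IntermediateField.fixedField H))⟮x2 H N0 q⟯ (FK H (N0 * q * q)) := by
  rw [x2_eq]
  exact ChartsX0.finiteDimensional_x2' H hq

theorem finiteDimensional_x2_inv (hq : q.Prime) :
    FiniteDimensional (↥(IntermediateField.fixedField H))⟮(x2 H N0 q)⁻¹⟯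
      (FK H (N0 * q * q)) := by
  rw [x2_eq]
  exact ChartsX0.finiteDimensional_x2_inv' H hq

end Bridge

/-! ### a `GlueNorm.Datum` whose vertical data are those of `Y` -/

section Match

variable {H : Subgroup (Kb ≃ₐ[ℚ] Kb)}
variable {N0 q : ℕ} [NeZero N0] [NeZero q] [NeZero (N0 * q)] [NeZero (N0 * q * q)]
variable {κ : Type} [Field κ] {k F' Pt : Type*} [Field k] [Algebra k κ] [Field F']

/-- the three valuation subrings and reductions of the datum `X` are those of `Y` -/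
structure Match (X : Datum k κ F' (FK H (N0 * q * q)) Pt) (Y : ThreeValX0.Hyp H N0 q κ) :
    Prop where
  hW₂₀ : X.W₂₀ = Y.W₂₀
  hW₁₁ : X.W₁₁ = Y.W₁₁
  hW₀₂ : X.W₀₂ = Y.W₀₂
  hr₂₀ : ∀ (x : FK H (N0 * q * q)) (h : x ∈ X.W₂₀) (h' : x ∈ Y.W₂₀), X.r₂₀ ⟨x, h⟩ = Y.r₂₀ ⟨x, h'⟩
  hr₁₁ : ∀ (x : FK H (N0 * q * q)) (h : x ∈ X.W₁₁) (h' : x ∈ Y.W₁₁), X.r₁₁ ⟨x, h⟩ = Y.r₁₁ ⟨x, h'⟩
  hr₀₂ : ∀ (x : FK H (N0 * q * q)) (h : x ∈ X.W₀₂) (h' : x ∈ Y.W₀₂), X.r₀₂ ⟨x, h⟩ = Y.r₀₂ ⟨x, h'⟩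

variable {X : Datum k κ F' (FK H (N0 * q * q)) Pt} {Y : ThreeValX0.Hyp H N0 q κ}

theorem Match.Wof_eq (M : Match X Y) : Wof X = Wfam Y := by
  funext w
  cases w
  · exact M.hW₂₀
  · exact M.hW₁₁
  · exact M.hW₀₂

theorem Match.rof_eq (M : Match X Y) (w : Comp) (x : FK H (N0 * q * q)) (h : x ∈ Wof X w)
    (h' : x ∈ Wfam Y w) : rof X w ⟨x, h⟩ = rfam Y w ⟨x, h'⟩ := by
  cases w
  · exact M.hr₂₀ x h h'
  · exact M.hr₁₁ x h h'
  · exact M.hr₀₂ x h h'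

/-- a branch only depends on the valuation subring and the values of the reduction -/
theorem branch_congr {O : Type*} [CommRing O] [Algebra O (FK H N0)] [Algebra O (FK H (N0 * q))]
    [Algebra O (FK H (N0 * q * q))] {π : O →+* k}
    {W W' : ValuationSubring (FK H (N0 * q * q))} (hW : W' = W) {r : ↥W →+* κ} {r' : ↥W' →+* κ}
    (hr : ∀ (x : FK H (N0 * q * q)) (h : x ∈ W') (h' : x ∈ W), r' ⟨x, h⟩ = r ⟨x, h'⟩)
    {a : FK H N0 →+* FK H (N0 * q * q)} {i₀ : Fin 3} (B : Branch Y O π W r a i₀) :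
    Branch Y O π W' r' a i₀ := by
  subst hW
  have : r' = r := RingHom.ext fun x => hr x.1 x.2 x.2
  subst this
  exact B

/-- every member of the family `Wof X` is a branch -/
theorem Match.branch (M : Match X Y) {O : Type*} [CommRing O] [Algebra O (FK H N0)]
    [Algebra O (FK H (N0 * q))] [Algebra O (FK H (N0 * q * q))] {π : O →+* k}
    (hB : Base Y O π) (w : Comp) : ∃ a i₀, Branch Y O π (Wof X w) (rof X w) a i₀ := by
  cases w
  · exact ⟨_, _, branch_congr M.hW₂₀ M.hr₂₀ (branch₂₀ hB)⟩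
  · exact ⟨_, _, branch_congr M.hW₁₁ M.hr₁₁ (branch₁₁ hB)⟩
  · exact ⟨_, _, branch_congr M.hW₀₂ M.hr₀₂ (branch₀₂ hB)⟩

end Match

/-! ### helper8's data `GlueNormX0.datumX0`, `datumC` match -/

section MatchX0

open Fermat.Agent.S34.CoreZX0Assembly Fermat.Agent.S34.CoreZX0Build
open Fermat.Agent.S34.CoreZX0OfGeneric Fermat.Agent.S37.Gauss.Datum

attribute [local instance 2000] Fermat.Agent.S34.EulerX0.algResFk

local instance instACkLS (A : ValuationSubring Kb) : IsAlgClosed (ResidueField ↥A) :=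
  Fermat.Agent.S18.ResidueBasics.isAlgClosed_residueField A

local instance instNeZeroMulLS (M q : ℕ) [NeZero M] [NeZero q] : NeZero (M * q) :=
  ⟨Nat.mul_ne_zero (NeZero.ne M) (NeZero.ne q)⟩

variable {q : ℕ} [hq : Fact q.Prime] {M : ℕ} [NeZero M] {A : ValuationSubring Kb} [NeZero q]
variable {hA : A.LiesOverPrime q} {hqM : ¬ q ∣ M}
variable {gL gk : ℕ} {HG : Hyp (gaussDatum M A hA hqM) gL gk}
variable [CharP (ResidueField ↥A) q]
variable {Hs : Subgroup (Kb ≃ₐ[ℚ] Kb)}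

/-- `GlueNormX0.datumX0 … Z lk` has the vertical data of `Z` (all `rfl`) -/
theorem match_datumX0 (hgen : GenericX0 hA hqM HG) (Yn : NodesC (inputsX0 hgen))
    (hFr : ∀ b ∈ Yn.S, Fermat.Agent.S34.FrobK.Fr (ResidueField ↥A) M q
      (Fermat.Agent.S34.FrobK.Fr (ResidueField ↥A) M q b) = b)
    (Z : ThreeValX0.Hyp Hs M q ↥(modularFunctionFieldFullC (ResidueField ↥A) M))
    (lk : GlueNormX0.Link Hs hA hqM Z) : Match (GlueNormX0.datumX0 hgen Yn hFr Z lk) Z :=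
  ⟨rfl, rfl, rfl, fun _ _ _ => rfl, fun _ _ _ => rfl, fun _ _ _ => rfl⟩

/-- `GlueNormX0.datumC … Z lk` has the vertical data of `Z` (all `rfl`) -/
theorem match_datumC {gM : ℕ}
    (HM : Fermat.Agent.S18.NonSpecial.RiemannHyp (ResidueField ↥A)
      ↥(modularFunctionFieldFullC (ResidueField ↥A) M) gM)
    (Z : ThreeValX0.Hyp Hs M q ↥(modularFunctionFieldFullC (ResidueField ↥A) M))
    (lk : GlueNormX0.Link Hs hA hqM Z) : Match (GlueNormX0.datumC hA hqM HM Z lk) Z :=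
  ⟨rfl, rfl, rfl, fun _ _ _ => rfl, fun _ _ _ => rfl, fun _ _ _ => rfl⟩

end MatchX0

/-! ### at `X₀`: `O = W A`, `K = K0 A`, `F = FK0 A (N0 q q)` -/

section X0

variable {q : ℕ} [hqF : Fact q.Prime] {N0 : ℕ} [NeZero N0] [NeZero q] [NeZero (N0 * q)]
  [NeZero (N0 * q * q)] {A : ValuationSubring Kb}

/-- helper10's `W A`-algebra structure, on the type written as `PowerBasisK0.FK` -/
local instance algWFK (N : ℕ) : Algebra ↥(W A) (FK (A.inertiaSubgroupIn ℚ) N) := algebraW A N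

variable {hA : A.LiesOverPrime q} {hqN0 : ¬ q ∣ N0} {gL gk : ℕ}
variable {Y : ThreeValX0.Hyp (A.inertiaSubgroupIn ℚ) N0 q
  ↥(modularFunctionFieldFullC (ResidueField ↥A) N0)}
variable (L : CompNormalX0Base.Link hA hqN0 gL gk Y)
variable {F' Pt : Type*} [Field F']
  {X : Datum (ResidueField ↥A) ↥(modularFunctionFieldFullC (ResidueField ↥A) N0) F'
    (FK0 A (N0 * q * q)) Pt}
  (M : Match X Y)

include L M

/-- **`hgauss`** for the family `Wof X` -/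
theorem isGaussVert_Wof (w : Comp) :
    IsGaussVert (F := FK0 A (N0 * q * q)) ((q : ℕ) : ↥(W A)) (x2 (A.inertiaSubgroupIn ℚ) N0 q)
      (Wof X w) := by
  haveI : IsAlgClosed (ResidueField ↥A) :=
    Fermat.Agent.S18.ResidueBasics.isAlgClosed_residueField A
  exact of_eq_fam (fun Wf : Comp → ValuationSubring (FK0 A (N0 * q * q)) =>
    IsGaussVert (F := FK0 A (N0 * q * q)) ((q : ℕ) : ↥(W A)) (x2 (A.inertiaSubgroupIn ℚ) N0 q)
      (Wf w)) M.Wof_eq (isGaussVert_Wfam Y L.base w)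

/-- **`hgauss'`** for the family `Wof X` -/
theorem isGaussVert_Wof_inv (w : Comp) :
    IsGaussVert (F := FK0 A (N0 * q * q)) ((q : ℕ) : ↥(W A)) (x2 (A.inertiaSubgroupIn ℚ) N0 q)⁻¹
      (Wof X w) := by
  haveI : IsAlgClosed (ResidueField ↥A) :=
    Fermat.Agent.S18.ResidueBasics.isAlgClosed_residueField A
  exact of_eq_fam (fun Wf : Comp → ValuationSubring (FK0 A (N0 * q * q)) =>
    IsGaussVert (F := FK0 A (N0 * q * q)) ((q : ℕ) : ↥(W A)) (x2 (A.inertiaSubgroupIn ℚ) N0 q)⁻¹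
      (Wf w)) M.Wof_eq (isGaussVert_Wfam_inv Y L.base w)

omit L in
theorem Wof_injective : Function.Injective (Wof X) :=
  of_eq_fam (fun Wf : Comp → ValuationSubring (FK0 A (N0 * q * q)) => Function.Injective Wf)
    M.Wof_eq (Wfam_injective Y)

omit L in
/-- rank one, in the shape of `VCharts.hrank` -/
theorem hrank_Wof : ∀ V ∈ Set.range (Wof X), ∀ g ∈ V, g⁻¹ ∉ V →
    ∀ y : FK0 A (N0 * q * q), ∃ e : ℕ, g ^ e * y ∈ V :=
  of_eq_fam (fun Wf : Comp → ValuationSubring (FK0 A (N0 * q * q)) =>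
    ∀ V ∈ Set.range Wf, ∀ g ∈ V, g⁻¹ ∉ V → ∀ y : FK0 A (N0 * q * q), ∃ e : ℕ, g ^ e * y ∈ V)
    M.Wof_eq (hrank_Wfam Y)

omit L M in
/-- `x₂` is transcendental over the inertia field -/
theorem transcendental_x2K0 :
    Transcendental (R := ↥(K0 A)) (A := FK0 A (N0 * q * q)) (x2 (A.inertiaSubgroupIn ℚ) N0 q) :=
  transcendental_x2 (A.inertiaSubgroupIn ℚ) hqF.out

omit L M in
theorem transcendental_x2K0_inv :
    Transcendental (R := ↥(K0 A)) (A := FK0 A (N0 * q * q))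
      (x2 (A.inertiaSubgroupIn ℚ) N0 q)⁻¹ :=
  transcendental_x2_inv (A.inertiaSubgroupIn ℚ) hqF.out

/-- **`hvert`** (chain (V7)) for the family `Wof X` -/
theorem hvert_Wof :
    ∀ W' : ValuationSubring (FK0 A (N0 * q * q)),
      (∀ c : ↥(W A), algebraMap ↥(W A) (FK0 A (N0 * q * q)) c ∈ W') →
      x2 (A.inertiaSubgroupIn ℚ) N0 q ∈ W' →
      (algebraMap ↥(W A) (FK0 A (N0 * q * q)) ((q : ℕ) : ↥(W A)))⁻¹ ∉ W' →
      (∀ s : (↥(W A))[X], (∃ i, IsUnit (s.coeff i)) →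
        (aeval (A := FK0 A (N0 * q * q)) (x2 (A.inertiaSubgroupIn ℚ) N0 q) s)⁻¹ ∈ W') →
      W' ∈ Set.range (Wof X) :=
  VertX0Final.hvert_x2 hA hqN0 Y L.hO₀ transcendental_x2K0 (Wof X) ⟨Comp.c20, M.hW₂₀⟩
    ⟨Comp.c11, M.hW₁₁⟩ ⟨Comp.c02, M.hW₀₂⟩

/-- **`hvert'`** (chain (V7)) for the family `Wof X` -/
theorem hvert_Wof_inv :
    ∀ W' : ValuationSubring (FK0 A (N0 * q * q)),
      (∀ c : ↥(W A), algebraMap ↥(W A) (FK0 A (N0 * q * q)) c ∈ W') →
      (x2 (A.inertiaSubgroupIn ℚ) N0 q)⁻¹ ∈ W' →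
      (algebraMap ↥(W A) (FK0 A (N0 * q * q)) ((q : ℕ) : ↥(W A)))⁻¹ ∉ W' →
      (∀ s : (↥(W A))[X], (∃ i, IsUnit (s.coeff i)) →
        (aeval (A := FK0 A (N0 * q * q)) (x2 (A.inertiaSubgroupIn ℚ) N0 q)⁻¹ s)⁻¹ ∈ W') →
      W' ∈ Set.range (Wof X) :=
  VertX0Final.hvert_x2_inv hA hqN0 Y L.hO₀ transcendental_x2K0_inv (Wof X) ⟨Comp.c20, M.hW₂₀⟩
    ⟨Comp.c11, M.hW₁₁⟩ ⟨Comp.c02, M.hW₀₂⟩

omit L M in
/-- `VCharts.hfinAll` over the inertia field -/
theorem hfinAll_K0 (f : FK0 A (N0 * q * q)) (hf : f ≠ 0) :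
    {v : Place ↥(K0 A) (FK0 A (N0 * q * q)) | v.ord f ≠ 0}.Finite :=
  GlobalSectionBar.finite_ord_ne_zero_K0 (N := N0 * q * q) (K0 := K0 A) hf

omit L M in
/-- the chart ring `chart (W A) x₂` is noetherian, integrally closed, with fraction field `F` -/
theorem chart_x2_props (hA : A.LiesOverPrime q) :
    IsNoetherianRing ↥(chart (F := FK0 A (N0 * q * q)) ↥(W A) (x2 (A.inertiaSubgroupIn ℚ) N0 q)) ∧
    IsIntegrallyClosed
      ↥(chart (F := FK0 A (N0 * q * q)) ↥(W A) (x2 (A.inertiaSubgroupIn ℚ) N0 q)) ∧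
    IsFractionRing ↥(chart (F := FK0 A (N0 * q * q)) ↥(W A) (x2 (A.inertiaSubgroupIn ℚ) N0 q))
      (FK0 A (N0 * q * q)) :=
  chartX0_props hA (N0 * q * q) transcendental_x2K0

omit L M in
/-- the chart ring `chart (W A) x₂⁻¹` is noetherian, integrally closed, with fraction field `F` -/
theorem chart_x2_inv_props (hA : A.LiesOverPrime q) :
    IsNoetherianRing
      ↥(chart (F := FK0 A (N0 * q * q)) ↥(W A) (x2 (A.inertiaSubgroupIn ℚ) N0 q)⁻¹) ∧
    IsIntegrallyClosed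
      ↥(chart (F := FK0 A (N0 * q * q)) ↥(W A) (x2 (A.inertiaSubgroupIn ℚ) N0 q)⁻¹) ∧
    IsFractionRing ↥(chart (F := FK0 A (N0 * q * q)) ↥(W A) (x2 (A.inertiaSubgroupIn ℚ) N0 q)⁻¹)
      (FK0 A (N0 * q * q)) :=
  chartX0_props hA (N0 * q * q) transcendental_x2K0_inv

open Fermat.Agent.S36.Centre Fermat.Agent.S36.LocalGenV Fermat.Agent.S36.LocalGenOrd in
/-- **the record `Lattice.VCharts` at `X₀`** (helper7's `VChartsOfLoc.exists_vcharts` with every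
soft-core hypothesis discharged): vertical family `Wof X`, uniformiser `q`, chart function `x₂`,
prescribed divisor `D`, from `LocPrincipal` at the closed points of the special fibre of the two
charts `chart (W A) x₂^{±1}`. -/
theorem exists_vcharts_X0 (D : Divisor ↥(K0 A) (FK0 A (N0 * q * q)))
    (hloc :
      haveI := (chart_x2_props (N0 := N0) hA).2.2
      ∀ m : Ideal (chart (F := FK0 A (N0 * q * q)) ↥(W A) (x2 (A.inertiaSubgroupIn ℚ) N0 q)),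
        m.IsMaximal →
        piChart (F := FK0 A (N0 * q * q)) (x2 (A.inertiaSubgroupIn ℚ) N0 q)
          ((q : ℕ) : ↥(W A)) ∈ m →
        LocalGenCore.LocPrincipal (F := FK0 A (N0 * q * q)) m)
    (hloc' :
      haveI := (chart_x2_inv_props (N0 := N0) hA).2.2
      ∀ m : Ideal (chart (F := FK0 A (N0 * q * q)) ↥(W A) (x2 (A.inertiaSubgroupIn ℚ) N0 q)⁻¹),
        m.IsMaximal →
        piChart (F := FK0 A (N0 * q * q)) (x2 (A.inertiaSubgroupIn ℚ) N0 q)⁻¹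
          ((q : ℕ) : ↥(W A)) ∈ m →
        LocalGenCore.LocPrincipal (F := FK0 A (N0 * q * q)) m) :
    haveI := (chart_x2_props (N0 := N0) hA).1
    haveI := (chart_x2_props (N0 := N0) hA).2.1
    haveI := (chart_x2_props (N0 := N0) hA).2.2
    haveI := (chart_x2_inv_props (N0 := N0) hA).1
    haveI := (chart_x2_inv_props (N0 := N0) hA).2.1
    haveI := (chart_x2_inv_props (N0 := N0) hA).2.2
    ∃ (r r' : ℕ) (V : VCharts ↥(W A) ↥(K0 A) (FK0 A (N0 * q * q)) Comp (Fin r) (Fin r')),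
      V.W = Wof X ∧ V.ϖ = ((q : ℕ) : ↥(W A)) ∧ V.φ = x2 (A.inertiaSubgroupIn ℚ) N0 q ∧ V.D = D ∧
      (∃ g₀ : Fin r → chart (F := FK0 A (N0 * q * q)) ↥(W A) (x2 (A.inertiaSubgroupIn ℚ) N0 q),
        ∀ i, (V.g i : FK0 A (N0 * q * q)) = (g₀ i : FK0 A (N0 * q * q)) ∧
          IsPiece (nOf (D : Place ↥(K0 A) (FK0 A (N0 * q * q)) → ℤ)) (g₀ i) (V.s i)) ∧
      (∃ g₀' : Fin r' →
          chart (F := FK0 A (N0 * q * q)) ↥(W A) (x2 (A.inertiaSubgroupIn ℚ) N0 q)⁻¹,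
        ∀ j, (V.g' j : FK0 A (N0 * q * q)) = (g₀' j : FK0 A (N0 * q * q)) ∧
          IsPiece (nOf (D : Place ↥(K0 A) (FK0 A (N0 * q * q)) → ℤ)) (g₀' j) (V.s' j)) := by
  haveI := isDVR hA
  haveI := ChartX0.finiteDimensional_of_transcendental A (N0 * q * q)
    (transcendental_x2K0 (A := A) (N0 := N0) (q := q))
  haveI := ChartX0.finiteDimensional_of_transcendental A (N0 * q * q)
    (transcendental_x2K0_inv (A := A) (N0 := N0) (q := q))
  haveI : Nonempty Comp := ⟨Comp.c20⟩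
  exact VChartsOfLoc.exists_vcharts (Wof X) (irreducible_ell hA) transcendental_x2K0
    transcendental_x2K0_inv (isGaussVert_Wof L M) (isGaussVert_Wof_inv L M) (hvert_Wof L M)
    (hvert_Wof_inv L M) (hrank_Wof M) hfinAll_K0 D hloc hloc'

end X0

/-! ### the soft-core fields of `NewInertiaCharts.Leaf`, literal shapes -/

section LeafFields

variable {q : ℕ} [hqF : Fact q.Prime] {N0 : ℕ} [NeZero N0] [NeZero q] [NeZero (N0 * q)]
  [NeZero (N0 * q * q)] {A : ValuationSubring Kb}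

/-- helper10's `W A`-algebra structure, on the type written as `PowerBasisK0.FK` -/
local instance algWFK' (N : ℕ) : Algebra ↥(W A) (FK (A.inertiaSubgroupIn ℚ) N) := algebraW A N

variable {hA : A.LiesOverPrime q} {hqN0 : ¬ q ∣ N0} {gL gk : ℕ}
variable {Y : ThreeValX0.Hyp (A.inertiaSubgroupIn ℚ) N0 q
  ↥(modularFunctionFieldFullC (ResidueField ↥A) N0)}
variable (L : CompNormalX0Base.Link hA hqN0 gL gk Y)
variable {F' Pt : Type*} [Field F']
  {X : Datum (ResidueField ↥A) ↥(modularFunctionFieldFullC (ResidueField ↥A) N0) F'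
    (FK0 A (N0 * q * q)) Pt}
  (M : Match X Y)
variable {ι ι' : Type*} (V : VCharts ↥(W A) ↥(K0 A) (FK0 A (N0 * q * q)) Comp ι ι')
  (hVW : V.W = Wof X) (hVϖ : V.ϖ = ((q : ℕ) : ↥(W A)))
  (hVφ : V.φ = x2 (A.inertiaSubgroupIn ℚ) N0 q)

include hA hVϖ in
/-- **`Leaf.hϖ`** -/
theorem leaf_hϖ : Irreducible V.ϖ := by
  rw [hVϖ]
  exact irreducible_ell hA

include hVφ in
/-- **`Leaf.hφ`** -/
theorem leaf_hφ : Transcendental ↥(K0 A) V.φ := by
  rw [hVφ]
  exact transcendental_x2K0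

include hVφ in
/-- **`Leaf.hφ'`** -/
theorem leaf_hφ' : Transcendental ↥(K0 A) V.φ⁻¹ := by
  rw [hVφ]
  exact transcendental_x2K0_inv

include hVφ in
/-- **`Leaf.hfd`** -/
theorem leaf_hfd : FiniteDimensional (↥(K0 A))⟮V.φ⟯ (FK0 A (N0 * q * q)) :=
  ChartX0.finiteDimensional_of_transcendental A (N0 * q * q) (leaf_hφ V hVφ)

include hVφ in
/-- **`Leaf.hfd'`** -/
theorem leaf_hfd' : FiniteDimensional (↥(K0 A))⟮V.φ⁻¹⟯ (FK0 A (N0 * q * q)) :=
  ChartX0.finiteDimensional_of_transcendental A (N0 * q * q) (leaf_hφ' V hVφ)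

include L M hVW hVϖ hVφ in
/-- **`Leaf.hvert`** -/
theorem leaf_hvert : ∀ W' : ValuationSubring (FK0 A (N0 * q * q)),
    (∀ c : ↥(W A), algebraMap ↥(W A) (FK0 A (N0 * q * q)) c ∈ W') → V.φ ∈ W' →
    (algebraMap ↥(W A) (FK0 A (N0 * q * q)) V.ϖ)⁻¹ ∉ W' →
    (∀ s : (↥(W A))[X], (∃ i, IsUnit (s.coeff i)) → (aeval V.φ s)⁻¹ ∈ W') →
    W' ∈ Set.range V.W := by
  rw [hVW, hVϖ, hVφ]
  exact hvert_Wof L M

include L M hVW hVϖ hVφ in
/-- **`Leaf.hvert'`** -/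
theorem leaf_hvert' : ∀ W' : ValuationSubring (FK0 A (N0 * q * q)),
    (∀ c : ↥(W A), algebraMap ↥(W A) (FK0 A (N0 * q * q)) c ∈ W') → V.φ⁻¹ ∈ W' →
    (algebraMap ↥(W A) (FK0 A (N0 * q * q)) V.ϖ)⁻¹ ∉ W' →
    (∀ s : (↥(W A))[X], (∃ i, IsUnit (s.coeff i)) → (aeval V.φ⁻¹ s)⁻¹ ∈ W') →
    W' ∈ Set.range V.W := by
  rw [hVW, hVϖ, hVφ]
  exact hvert_Wof_inv L M

include L M hVW hVϖ hVφ in
/-- `hgauss` of `Lattice.VCharts.sep` / `VCharts.openData` -/
theorem leaf_hgauss (w : Comp) : IsGaussVert V.ϖ V.φ (V.W w) := by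
  rw [hVW, hVϖ, hVφ]
  exact isGaussVert_Wof L M w

include L M hVW hVϖ hVφ in
/-- `hgauss'` of `Lattice.VCharts.sep'` / `VCharts.openData'` -/
theorem leaf_hgauss' (w : Comp) : IsGaussVert V.ϖ V.φ⁻¹ (V.W w) := by
  rw [hVW, hVϖ, hVφ]
  exact isGaussVert_Wof_inv L M w

include M hVW in
/-- `hinj` of `Lattice.VCharts.sep` / `VCharts.openData` -/
theorem leaf_hinj : Function.Injective V.W := by
  rw [hVW]
  exact Wof_injective M

include L M hVW hVϖ hVφ in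
/-- **`Leaf.sep`** -/
theorem leaf_sep (i : ι) : Separated (Wof X) (V.charts.S i) := by
  haveI := isDVR hA
  haveI := leaf_hfd V hVφ
  have h := V.sep (leaf_hϖ (hA := hA) V hVϖ) (leaf_hφ V hVφ) (leaf_hinj M V hVW)
    (leaf_hgauss L M V hVW hVϖ hVφ) i
  rw [← hVW]
  exact h

include L M hVW hVϖ hVφ in
/-- **`Leaf.sep'`** -/
theorem leaf_sep' (j : ι') : Separated (Wof X) (V.charts.S' j) := by
  haveI := isDVR hA
  haveI := leaf_hfd' V hVφ
  have h := V.sep' (leaf_hϖ (hA := hA) V hVϖ) (leaf_hφ' V hVφ) (leaf_hinj M V hVW)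
    (leaf_hgauss' L M V hVW hVϖ hVφ) j
  rw [← hVW]
  exact h

include L M hVW hVϖ hVφ in
/-- the ring of the first chart is `chart (W A) x₂` -/
theorem leaf_h𝒜 :
    V.charts.𝒜 = (chart (F := FK0 A (N0 * q * q)) ↥(W A) (x2 (A.inertiaSubgroupIn ℚ) N0 q)).toSubring := by
  haveI := isDVR hA
  haveI := leaf_hfd V hVφ
  have h := V.coe_charts_𝒜 (leaf_hϖ (hA := hA) V hVϖ) (leaf_hφ V hVφ)
    (leaf_hvert L M V hVW hVϖ hVφ)
  rw [hVφ] at h
  exact h

include L M hVW hVϖ hVφ in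
/-- the ring of the second chart is `chart (W A) x₂⁻¹` -/
theorem leaf_h𝒜' :
    V.charts.𝒜' = (chart (F := FK0 A (N0 * q * q)) ↥(W A) (x2 (A.inertiaSubgroupIn ℚ) N0 q)⁻¹).toSubring := by
  haveI := isDVR hA
  haveI := leaf_hfd' V hVφ
  have h := V.coe_charts_𝒜' (leaf_hϖ (hA := hA) V hVϖ) (leaf_hφ' V hVφ)
    (leaf_hvert' L M V hVW hVϖ hVφ)
  rw [hVφ] at h
  exact h

include L M hVW hVϖ hVφ in
/-- **`Leaf.br`** -/
theorem leaf_br {n : ℕ} (hn : n ≠ 0) (i : ι) :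
    BranchRings (Wof X) (rof X) (V.charts.S i) n :=
  BranchRingsCharts.branchRings_S_of_branch V.charts (Wof X) (rof X) (M.branch L.base)
    (leaf_h𝒜 L M V hVW hVϖ hVφ) V.hg0 hn i

include L M hVW hVϖ hVφ in
/-- **`Leaf.br'`** -/
theorem leaf_br' {n : ℕ} (hn : n ≠ 0) (j : ι') :
    BranchRings (Wof X) (rof X) (V.charts.S' j) n :=
  BranchRingsCharts.branchRings_S'_of_branch V.charts (Wof X) (rof X) (M.branch L.base)
    (leaf_h𝒜' L M V hVW hVϖ hVφ) V.hg0' hn j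

include L M hVW hVϖ hVφ in
/-- **the soft-core fields of `NewInertiaCharts.Leaf` at `X₀`**, in one record -/
theorem softSide {n : ℕ} (hn : n ≠ 0) : SoftSide X V n where
  hW := hVW
  hϖ := leaf_hϖ (hA := hA) V hVϖ
  hφ := leaf_hφ V hVφ
  hφ' := leaf_hφ' V hVφ
  hfd := leaf_hfd V hVφ
  hfd' := leaf_hfd' V hVφ
  hvert := leaf_hvert L M V hVW hVϖ hVφ
  hvert' := leaf_hvert' L M V hVW hVϖ hVφ
  sep := leaf_sep L M V hVW hVϖ hVφ
  sep' := leaf_sep' L M V hVW hVϖ hVφ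
  br := leaf_br L M V hVW hVϖ hVφ hn
  br' := leaf_br' L M V hVW hVϖ hVφ hn

/-! ### dry assembly: the record `NewInertiaCharts.Leaf` with its soft-core fields filled -/

open Fermat.Agent.S36.NewInertiaCharts Fermat.Agent.S36.TripleValues in
/-- **`NewInertiaCharts.Leaf` at `X₀` with the soft-core fields
`hW hϖ hφ hφ' hfd hfd' hvert hvert' sep sep' br br'` filled**; the other fields are the remaining
hypotheses, verbatim. -/
def leafOfSoft {n : ℕ} (Y' : X.Kummer n)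
    (hfD : ∀ v : Place ↥(K0 A) (FK0 A (N0 * q * q)),
      v.ord (Y'.f ^ ((X.q - 1) * (X.q ^ 2 - 1))) = n * V.D v)
    (hn0 : n ≠ 0) (hnq : Nat.Coprime n X.q) (hq : 0 < X.q) (hnunit : IsUnit ((n : ℕ) : ↥(W A)))
    (hμ : ∀ z : ↥(modularFunctionFieldFullC (ResidueField ↥A) N0), z ^ n = 1 →
      ∃ c : ResidueField ↥A, algebraMap (ResidueField ↥A) _ c = z)
    (hE : ValGood X.E n) (hS : ∀ b ∈ X.S, X.fr b ∈ X.S)
    (hr : ∀ (w : Comp) (x : ↥(Wof X w)),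
      rof X w x = 0 ↔ (Wof X w).valuation (x : FK0 A (N0 * q * q)) < 1)
    (hrsurj : ∀ w : Comp, Function.Surjective (rof X w))
    (hπ : ∀ (w : Comp) (x : ↥(W A)) (m : algebraMap ↥(W A) (FK0 A (N0 * q * q)) x ∈ Wof X w),
      rof X w ⟨algebraMap ↥(W A) (FK0 A (N0 * q * q)) x, m⟩ =
        algebraMap (ResidueField ↥A) _ (algebraMap ↥(W A) (ResidueField ↥A) x))
    (hπsurj : Function.Surjective (algebraMap ↥(W A) (ResidueField ↥A)))
    (hϖW : ∀ w : Comp,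
      (Wof X w).valuation (algebraMap ↥(W A) (FK0 A (N0 * q * q)) V.ϖ) < 1)
    (t₀ : FK0 A (N0 * q * q)) (t₂₀ : t₀ ∈ X.W₂₀) (t₁₁ : t₀ ∈ X.W₁₁) (t₀₂ : t₀ ∈ X.W₀₂)
    (hR₁ : X.Reg (Y'.g₁ ^ (X.q - 1) * X.N₁ t₀)) (hR₂ : X.Reg (Y'.g₂ ^ (X.q - 1) * X.N₂ t₀))
    (hv₀ : ∀ b ∈ X.S, ∃ c : ResidueField ↥A, c ≠ 0 ∧
      (∀ m, X.E.val b (X.r₂₀ ⟨Y'.f ^ (X.q - 1) * t₀ ^ n, m⟩) c) ∧
      (∀ m, X.E.val b (X.r₁₁ ⟨Y'.f ^ (X.q - 1) * t₀ ^ n, m⟩) c) ∧
      (∀ m, X.E.val b (X.r₀₂ ⟨Y'.f ^ (X.q - 1) * t₀ ^ n, m⟩) c))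
    (pt : ∀ i : ι, PtCond X V.charts.ϖF (V.charts.S i)
      (V.charts.algebraMap_mem_S i V.charts.ϖ) (V.s i) (t₀ ^ (X.q ^ 2 - 1)))
    (pt' : ∀ j : ι', PtCond X V.charts.ϖF (V.charts.S' j)
      (V.charts.algebraMap_mem_S' j V.charts.ϖ) (V.s' j) (t₀ ^ (X.q ^ 2 - 1))) :
    Leaf X V Y' (algebraMap ↥(W A) (ResidueField ↥A)) where
  hW := hVW
  hϖ := leaf_hϖ (hA := hA) V hVϖ
  hφ := leaf_hφ V hVφ
  hφ' := leaf_hφ' V hVφ
  hfd := leaf_hfd V hVφ
  hfd' := leaf_hfd' V hVφ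
  hvert := leaf_hvert L M V hVW hVϖ hVφ
  hvert' := leaf_hvert' L M V hVW hVϖ hVφ
  hfD := hfD
  hn0 := hn0
  hnq := hnq
  hq := hq
  hnunit := hnunit
  hμ := hμ
  hE := hE
  hS := hS
  hr := hr
  hrsurj := hrsurj
  hπ := hπ
  hπsurj := hπsurj
  hϖW := hϖW
  t₀ := t₀
  t₂₀ := t₂₀
  t₁₁ := t₁₁
  t₀₂ := t₀₂
  hR₁ := hR₁
  hR₂ := hR₂
  hv₀ := hv₀
  sep := leaf_sep L M V hVW hVϖ hVφ
  sep' := leaf_sep' L M V hVW hVϖ hVφ
  br := leaf_br L M V hVW hVϖ hVφ hn0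
  br' := leaf_br' L M V hVW hVϖ hVφ hn0
  pt := pt
  pt' := pt'

end LeafFields

end Fermat.Agent.S36.LeafSoftX0
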