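/-
PROJECT V (S36), slice V-LeafSoftInst (helper25): `S36/LeafSoftX0` AT THE ACTUAL OBJECTS
`Y := ThreeValX0Inst.hypX0 hA hqM` (helper11), `X := LeafXInst.datumY hA hqM HM` (helper8),
`O = W A`, `π = W A → ResidueField A`: no hypothesis left on the soft-core side.

* `linkCY : CompNormalX0Base.Link hA hqM gM gM (hypX0 hA hqM)` (Deuring's `Hyp` := `HX0 hA hqM HM`,
  (U0) discharged in `VertX0Final.link`), `baseY : CompNormalX0.Base (hypX0 ..) (W A) π`;
* `matchY : LeafSoftX0.Match (datumY ..) (hypX0 ..)` (all `rfl`);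
* `softSideY V hVW hVϖ hVφ hn : LeafSoftX0.SoftSide (datumY ..) V n` for any lattice charts `V` over
  `W A` with `V.W = Wof (datumY ..)`, `V.ϖ = q`, `V.φ = x₂`;
* `exists_vchartsY D hloc hloc'` : the record `Lattice.VCharts` with prescribed divisor, from
  `LocPrincipal` at the closed points of the special fibre of `chart (W A) x₂^{±1}`;
* `leafY` : `NewInertiaCharts.Leaf (datumY ..) V Ku π` from `XSide` (helper8) + `SoftSide` + the
  `t₀`-side fields and `pt`, `pt'`, `hfD` (constructor `{ xs, ss with … }`, compiled).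
-/
import Mathlib
import Fermat.Agent.S36.LeafSoftX0
import Fermat.Agent.S36.LeafXInst

set_option autoImplicit false
set_option linter.unusedSectionVars false
set_option linter.unusedVariables false
set_option linter.style.haveILetI false
set_option synthInstance.maxHeartbeats 400000

noncomputable section

namespace Fermat.Agent.S36.LeafSoftInst

open ModularCurve AlgebraicCurve IsLocalRing Polynomial IntermediateField
open Fermat.Agent.S18.C.SmallDVR Fermat.Agent.S18.NonSpecial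
open Fermat.Agent.S36.ChartRing Fermat.Agent.S36.ChartX0
open Fermat.Agent.S36.CompNormalX0 Fermat.Agent.S36.NewInertiaDatum Fermat.Agent.S36.GlueNorm
open Fermat.Agent.S36.Lattice Fermat.Agent.S36.OpenLift Fermat.Agent.S36.TripleValues
open Fermat.Agent.S36.LeafSoftX0 Fermat.Agent.S36.LeafXInst Fermat.Agent.S36.ThreeValX0Inst
open Fermat.Agent.S36.LeafX Fermat.Agent.S36.NewInertiaCharts
open Fermat.Agent.S34.CoreZX0OfGeneric

local notation "Kb" => AlgebraicClosure ℚ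

attribute [local instance 2000] Fermat.Agent.S34.EulerX0.algResFk

local instance instACkSI (A : ValuationSubring Kb) : IsAlgClosed (ResidueField ↥A) :=
  Fermat.Agent.S18.ResidueBasics.isAlgClosed_residueField A

local instance instNeZeroMulSI (M q : ℕ) [NeZero M] [NeZero q] : NeZero (M * q) :=
  ⟨Nat.mul_ne_zero (NeZero.ne M) (NeZero.ne q)⟩

variable {q : ℕ} [hq : Fact q.Prime] {M : ℕ} [NeZero M] {A : ValuationSubring Kb} [NeZero q]
variable [CharP (ResidueField ↥A) q]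
variable {gM : ℕ} (hA : A.LiesOverPrime q) (hqM : ¬ q ∣ M)
variable (HM : RiemannHyp (ResidueField ↥A) ↥(modularFunctionFieldFullC (ResidueField ↥A) M) gM)

include HM in
/-- **`CompNormalX0Base.Link` at the actual `Y`** (no hypothesis) -/
theorem linkCY : CompNormalX0Base.Link hA hqM gM gM (hypX0 hA hqM) :=
  VertX0Final.link hA hqM (hypX0 hA hqM) rfl (fun _ _ _ => rfl) (HX0 hA hqM HM)

/-- **`LeafSoftX0.Match` for `datumY` and `hypX0`** (all `rfl`) -/
theorem matchY : Match (datumY hA hqM HM) (hypX0 hA hqM) :=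
  ⟨rfl, rfl, rfl, fun _ _ _ => rfl, fun _ _ _ => rfl, fun _ _ _ => rfl⟩

include HM in
/-- **`CompNormalX0.Base` at the actual `Y`**, `O = W A`, `π = W A → ResidueField A` -/
theorem baseY :
    @Base (A.inertiaSubgroupIn ℚ) M q _ _ _ _ _ (hypX0 hA hqM) ↥(W A) _ (algebraW A M)
      (algebraW A (M * q)) (algebraW A (M * q * q)) (ResidueField ↥A) _ _
      (algebraMap ↥(W A) (ResidueField ↥A)) :=
  (linkCY hA hqM HM).base

section Charts

variable {ι ι' : Type*} (V : VCharts ↥(W A) ↥(K0 A) (FK0 A (M * q * q)) Comp ι ι')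
  (hVW : V.W = Wof (datumY hA hqM HM)) (hVϖ : V.ϖ = ((q : ℕ) : ↥(W A)))
  (hVφ : V.φ = x2 (A.inertiaSubgroupIn ℚ) M q)

include hVW hVϖ hVφ in
/-- **the soft-core fields of `NewInertiaCharts.Leaf` for `datumY`** -/
theorem softSideY {n : ℕ} (hn : n ≠ 0) : SoftSide (datumY hA hqM HM) V n :=
  softSide (linkCY hA hqM HM) (matchY hA hqM HM) V hVW hVϖ hVφ hn

open Fermat.Agent.S36.Centre Fermat.Agent.S36.LocalGenV Fermat.Agent.S36.LocalGenOrd in
/-- **the lattice charts at the actual objects**: vertical family `Wof (datumY ..)`, uniformiser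
`q`, chart function `x₂`, prescribed divisor `D`; the only inputs are `LocPrincipal` at the closed
points of the special fibre of the two charts. -/
theorem exists_vchartsY (D : Divisor ↥(K0 A) (FK0 A (M * q * q)))
    (hloc :
      haveI := (chart_x2_props (N0 := M) hA).2.2
      ∀ m : Ideal (chart (F := FK0 A (M * q * q)) ↥(W A) (x2 (A.inertiaSubgroupIn ℚ) M q)),
        m.IsMaximal →
        piChart (F := FK0 A (M * q * q)) (x2 (A.inertiaSubgroupIn ℚ) M q)
          ((q : ℕ) : ↥(W A)) ∈ m →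
        LocalGenCore.LocPrincipal (F := FK0 A (M * q * q)) m)
    (hloc' :
      haveI := (chart_x2_inv_props (N0 := M) hA).2.2
      ∀ m : Ideal (chart (F := FK0 A (M * q * q)) ↥(W A) (x2 (A.inertiaSubgroupIn ℚ) M q)⁻¹),
        m.IsMaximal →
        piChart (F := FK0 A (M * q * q)) (x2 (A.inertiaSubgroupIn ℚ) M q)⁻¹
          ((q : ℕ) : ↥(W A)) ∈ m →
        LocalGenCore.LocPrincipal (F := FK0 A (M * q * q)) m) :
    haveI := (chart_x2_props (N0 := M) hA).1
    haveI := (chart_x2_props (N0 := M) hA).2.1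
    haveI := (chart_x2_props (N0 := M) hA).2.2
    haveI := (chart_x2_inv_props (N0 := M) hA).1
    haveI := (chart_x2_inv_props (N0 := M) hA).2.1
    haveI := (chart_x2_inv_props (N0 := M) hA).2.2
    ∃ (r r' : ℕ) (V : VCharts ↥(W A) ↥(K0 A) (FK0 A (M * q * q)) Comp (Fin r) (Fin r')),
      V.W = Wof (datumY hA hqM HM) ∧ V.ϖ = ((q : ℕ) : ↥(W A)) ∧
      V.φ = x2 (A.inertiaSubgroupIn ℚ) M q ∧ V.D = D ∧
      (∃ g₀ : Fin r → chart (F := FK0 A (M * q * q)) ↥(W A) (x2 (A.inertiaSubgroupIn ℚ) M q),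
        ∀ i, (V.g i : FK0 A (M * q * q)) = (g₀ i : FK0 A (M * q * q)) ∧
          IsPiece (nOf (D : Place ↥(K0 A) (FK0 A (M * q * q)) → ℤ)) (g₀ i) (V.s i)) ∧
      (∃ g₀' : Fin r' →
          chart (F := FK0 A (M * q * q)) ↥(W A) (x2 (A.inertiaSubgroupIn ℚ) M q)⁻¹,
        ∀ j, (V.g' j : FK0 A (M * q * q)) = (g₀' j : FK0 A (M * q * q)) ∧
          IsPiece (nOf (D : Place ↥(K0 A) (FK0 A (M * q * q)) → ℤ)) (g₀' j) (V.s' j)) :=
  exists_vcharts_X0 (linkCY hA hqM HM) (matchY hA hqM HM) D hloc hloc'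

include hVW hVϖ hVφ in
/-- **`NewInertiaCharts.Leaf` for `datumY`** from the `X`-side (helper8), the soft-core side and the
remaining fields (`hfD`, the `t₀`-side, `pt`, `pt'`), verbatim. -/
def leafY {n : ℕ} (hn0 : n ≠ 0) (hnq : Nat.Coprime n q) (Ku : (datumY hA hqM HM).Kummer n)
    (hfD : ∀ v : Place ↥(K0 A) (FK0 A (M * q * q)),
      v.ord (Ku.f ^ (((datumY hA hqM HM).q - 1) * ((datumY hA hqM HM).q ^ 2 - 1))) = n * V.D v)
    (t₀ : FK0 A (M * q * q)) (t₂₀ : t₀ ∈ (datumY hA hqM HM).W₂₀)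
    (t₁₁ : t₀ ∈ (datumY hA hqM HM).W₁₁) (t₀₂ : t₀ ∈ (datumY hA hqM HM).W₀₂)
    (hR₁ : (datumY hA hqM HM).Reg
      (Ku.g₁ ^ ((datumY hA hqM HM).q - 1) * (datumY hA hqM HM).N₁ t₀))
    (hR₂ : (datumY hA hqM HM).Reg
      (Ku.g₂ ^ ((datumY hA hqM HM).q - 1) * (datumY hA hqM HM).N₂ t₀))
    (hv₀ : ∀ b ∈ (datumY hA hqM HM).S, ∃ c : ResidueField ↥A, c ≠ 0 ∧
      (∀ m, (datumY hA hqM HM).E.val b
        ((datumY hA hqM HM).r₂₀ ⟨Ku.f ^ ((datumY hA hqM HM).q - 1) * t₀ ^ n, m⟩) c) ∧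
      (∀ m, (datumY hA hqM HM).E.val b
        ((datumY hA hqM HM).r₁₁ ⟨Ku.f ^ ((datumY hA hqM HM).q - 1) * t₀ ^ n, m⟩) c) ∧
      (∀ m, (datumY hA hqM HM).E.val b
        ((datumY hA hqM HM).r₀₂ ⟨Ku.f ^ ((datumY hA hqM HM).q - 1) * t₀ ^ n, m⟩) c))
    (pt : ∀ i : ι, PtCond (datumY hA hqM HM) V.charts.ϖF (V.charts.S i)
      (V.charts.algebraMap_mem_S i V.charts.ϖ) (V.s i)
      (t₀ ^ ((datumY hA hqM HM).q ^ 2 - 1)))
    (pt' : ∀ j : ι', PtCond (datumY hA hqM HM) V.charts.ϖF (V.charts.S' j)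
      (V.charts.algebraMap_mem_S' j V.charts.ϖ) (V.s' j)
      (t₀ ^ ((datumY hA hqM HM).q ^ 2 - 1))) :
    Leaf (datumY hA hqM HM) V Ku (algebraMap ↥(W A) (ResidueField ↥A)) :=
  have xs := xSide_datumY hA hqM HM hn0 hnq
  have ss := softSideY hA hqM HM V hVW hVϖ hVφ hn0
  { xs, ss with
    hϖW := hVϖ ▸ xs.hϖW
    hfD := hfD
    t₀ := t₀
    t₂₀ := t₂₀
    t₁₁ := t₁₁
    t₀₂ := t₀₂
    hR₁ := hR₁
    hR₂ := hR₂
    hv₀ := hv₀
    pt := pt
    pt' := pt' }

end Charts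

end Fermat.Agent.S36.LeafSoftInst
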