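/-
S36 (project V), slice V-LeafXReg (helper8), chain (R3)/(V17): the hypotheses `hReg hN₁ hN₂` of
`RegT0.exists_t0` / `RegFinal` FOR `X := LeafXInst.datumY`, with `τ := EvalCentreX0.toEK0 A (M q q)`
(the `τ` of `ChartHypX0.chartHyp`), and `RegT0.exists_t0` specialised to `datumY`.

* `inputsY hA hqM HM`, `nodesY hA hqM HM` : the `Inputs` / `NodesC` records underlying `datumY`
  (`Inputs hA hqM (HX0 hA hqM HM)`, so `H := HX0 hA hqM HM` in `RegT0` / `ChartHypX0`);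
* `datumY_hReg : (datumY ..).Reg = RegX0 (inputsY ..) (nodesY ..)` (`rfl`);
* `datumY_hN₁`, `datumY_hN₂` : `(datumY ..).N_i y = PushKummer.normAlong (α' resp. β') (toEK0 .. y)`;
* `exists_t0_datumY` : `RegT0.exists_t0` with `O = W A`, `K = K0 A`, `F = FK0 A (M q q)`,
  `D := datumY`, `τ := toEK0`, the three identifications discharged (any presentation `A₁ A₂` of the
  two charts, `ChartHyp` as a hypothesis: `ChartHypX0.chartHyp hA (inputsY ..) hjφ hφj s hs`).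
-/
import Fermat.Agent.S36.LeafXInst
import Fermat.Agent.S36.RegT0
import Fermat.Agent.S36.ChartHypX0

set_option autoImplicit false
set_option linter.unusedSectionVars false
set_option linter.style.haveILetI false
set_option linter.unusedVariables false
set_option synthInstance.maxHeartbeats 400000

noncomputable section

namespace Fermat.Agent.S36.LeafXReg

open ModularCurve AlgebraicCurve IsLocalRing IntermediateField
open Fermat.Agent.S34.NodalDefs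
open Fermat.Agent.S37.Deuring.Core Fermat.Agent.S37.Gauss.Datum
open Fermat.Agent.S34.CoreZX0Assembly Fermat.Agent.S34.CoreZX0Build
open Fermat.Agent.S34.CoreZX0OfGeneric Fermat.Agent.S34.GaussPairX0
open Fermat.Agent.S36.GlueNorm Fermat.Agent.S36.GlueLevelQ Fermat.Agent.S36.GlueNormX0
open Fermat.Agent.S36.PowerBasisK0 (FK tB alphaK betaK)
open Fermat.Agent.S35.LevelMaps Fermat.Agent.S35.PushKummer
open Fermat.Agent.S18.C.SmallDVR Fermat.Agent.S36.ChartX0 Fermat.Agent.S36.ChartRing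
open Fermat.Agent.S18.NonSpecial
open Fermat.Agent.S36.LeafX Fermat.Agent.S36.LeafXInst Fermat.Agent.S36.ThreeValX0Inst
open Fermat.Agent.S36.RegOfPoles Fermat.Agent.S36.RegFinal Fermat.Agent.S36.EvalCentreX0
open Fermat.Agent.S36.KrullInter Fermat.Agent.S36.LocalGenOrd Fermat.Agent.S36.LocalIntrinsic

local notation "Kb" => AlgebraicClosure ℚ

attribute [local instance 2000] Fermat.Agent.S34.EulerX0.algResFk

local instance instNeZeroMulLR (M q : ℕ) [NeZero M] [NeZero q] : NeZero (M * q) :=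
  ⟨Nat.mul_ne_zero (NeZero.ne M) (NeZero.ne q)⟩

variable {q : ℕ} [hq : Fact q.Prime] {M : ℕ} [NeZero M] {A : ValuationSubring Kb} [NeZero q]
variable [CharP (ResidueField ↥A) q]
variable {gM : ℕ} (hA : A.LiesOverPrime q) (hqM : ¬ q ∣ M)
variable (HM : RiemannHyp (ResidueField ↥A) ↥(modularFunctionFieldFullC (ResidueField ↥A) M) gM)

/-- the `Inputs` record underlying `datumY` -/
abbrev inputsY : Inputs hA hqM (HX0 hA hqM HM) :=
  inputsX0 (Fermat.Agent.S34.CoreZX0.genericX0 hA hqM (HX0 hA hqM HM))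

/-- the `NodesC` record underlying `datumY` (`= LeafX.nodesD`) -/
abbrev nodesY : NodesC (inputsY hA hqM HM) := nodesD hA hqM HM

/-- **`hReg` of `RegT0.exists_t0` / `RegFinal` for `datumY`** -/
theorem datumY_hReg :
    (datumY hA hqM HM).Reg = RegX0 (inputsY hA hqM HM) (nodesY hA hqM HM) := rfl

/-- **`hN₁` of `RegT0.exists_t0` / `RegFinal` for `datumY`**, `τ = toEK0` -/
theorem datumY_hN₁ (y : FK0 A (M * q * q)) :
    (datumY hA hqM HM).N₁ y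
      = normAlong (heckeAlphaBar Kb (M * q) q) (toEK0 A (M * q * q) y) :=
  GlueNormX0.hN₁ hqM y

/-- **`hN₂` of `RegT0.exists_t0` / `RegFinal` for `datumY`**, `τ = toEK0` -/
theorem datumY_hN₂ (y : FK0 A (M * q * q)) :
    (datumY hA hqM HM).N₂ y
      = normAlong (heckeBetaBar Kb (M * q) q) (toEK0 A (M * q * q) y) :=
  GlueNormX0.hN₂ y

/-- `toEK0` is `tB` over the inertia field -/
theorem toEK0_eq_tB (N : ℕ) (y : FK0 A N) :
    toEK0 A N y = tB (A.inertiaSubgroupIn ℚ) N y := rfl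

/-- `toEK0` is `KummerNew.toE` over the inertia field -/
theorem toEK0_eq_toE (N : ℕ) (y : FK0 A N) :
    toEK0 A N y = Fermat.Agent.S36.KummerNew.toE (A.inertiaSubgroupIn ℚ) N y := rfl

variable {A₁ : Type*} [CommRing A₁] [IsDomain A₁] [Algebra A₁ (FK0 A (M * q * q))]
  [IsFractionRing A₁ (FK0 A (M * q * q))] [IsNoetherianRing A₁] [IsIntegrallyClosed A₁]
  [Algebra ↥(W A) A₁] [IsScalarTower ↥(W A) A₁ (FK0 A (M * q * q))]
  {A₂ : Type*} [CommRing A₂] [IsDomain A₂] [Algebra A₂ (FK0 A (M * q * q))]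
  [IsFractionRing A₂ (FK0 A (M * q * q))] [IsNoetherianRing A₂] [IsIntegrallyClosed A₂]
  [Algebra ↥(W A) A₂] [IsScalarTower ↥(W A) A₂ (FK0 A (M * q * q))]

/-- **`RegT0.exists_t0` for `datumY`**: the common generator `t₀` with `hR₁`, `hR₂`, the three
identifications `hReg hN₁ hN₂` discharged. -/
theorem exists_t0_datumY {φ : FK0 A (M * q * q)} (hφ : Transcendental ↥(K0 A) φ)
    [FiniteDimensional (↥(K0 A))⟮φ⟯ (FK0 A (M * q * q))]
    (hA₁ : ∀ x : FK0 A (M * q * q), (∃ a : A₁, algebraMap A₁ (FK0 A (M * q * q)) a = x) ↔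
      x ∈ chart ↥(W A) φ)
    (hA₂ : ∀ x : FK0 A (M * q * q), (∃ a : A₂, algebraMap A₂ (FK0 A (M * q * q)) a = x) ↔
      x ∈ chart ↥(W A) φ⁻¹)
    {gfin : A₁} {ginf : A₂}
    (hC : ChartHyp (inputsY hA hqM HM) (toEK0 A (M * q * q)) A₁ A₂ gfin ginf)
    {n : ℕ} (hn : n ≠ 0) (Ku : (datumY hA hqM HM).Kummer n)
    (D0 : Place ↥(K0 A) (FK0 A (M * q * q)) → ℤ)
    (hD0 : {v : Place ↥(K0 A) (FK0 A (M * q * q)) | D0 v ≠ 0}.Finite)
    (hf : ∀ v : Place ↥(K0 A) (FK0 A (M * q * q)), v.ord Ku.f = (n : ℤ) * D0 v)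
    (S₁ : Set (Ideal A₁)) (hS₁ : S₁.Finite) (hmax₁ : ∀ m ∈ S₁, m.IsMaximal)
    (hconst₁ : ∀ m ∈ S₁, ∀ u : A₁, ∃ c : ↥(W A), u - algebraMap ↥(W A) A₁ c ∈ m)
    (hloc₁ : ∀ m ∈ S₁, LocalGenCore.LocPrincipal (F := FK0 A (M * q * q)) m)
    (hT₁ : ∀ m : Ideal A₁, m.IsMaximal → ((q : ℕ) : A₁) ∈ m → gfin ∈ m → m ∈ S₁)
    (hvert₁ : ∀ m ∈ S₁, ∀ V ∈ Br (F := FK0 A (M * q * q)) m,
      (¬ ∃ v : Place ↥(K0 A) (FK0 A (M * q * q)), v.toValuationSubring = V) →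
        V = (datumY hA hqM HM).W₂₀ ∨ V = (datumY hA hqM HM).W₁₁ ∨ V = (datumY hA hqM HM).W₀₂)
    (S₂ : Set (Ideal A₂)) (hS₂ : S₂.Finite) (hmax₂ : ∀ m ∈ S₂, m.IsMaximal)
    (hconst₂ : ∀ m ∈ S₂, ∀ u : A₂, ∃ c : ↥(W A), u - algebraMap ↥(W A) A₂ c ∈ m)
    (hloc₂ : ∀ m ∈ S₂, LocalGenCore.LocPrincipal (F := FK0 A (M * q * q)) m)
    (hT₂ : ∀ m : Ideal A₂, m.IsMaximal → ((q : ℕ) : A₂) ∈ m → ginf ∈ m → m ∈ S₂)
    (hvert₂ : ∀ m ∈ S₂, ∀ V ∈ Br (F := FK0 A (M * q * q)) m,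
      (¬ ∃ v : Place ↥(K0 A) (FK0 A (M * q * q)), v.toValuationSubring = V) →
        V = (datumY hA hqM HM).W₂₀ ∨ V = (datumY hA hqM HM).W₁₁ ∨ V = (datumY hA hqM HM).W₀₂) :
    ∃ t₀ : FK0 A (M * q * q), t₀ ≠ 0 ∧
      (∀ m ∈ S₁, ∀ V ∈ Br (F := FK0 A (M * q * q)) m,
        HasOrd V t₀ (LocalGenV.nOf
          (fun v : Place ↥(K0 A) (FK0 A (M * q * q)) => ((q - 1 : ℕ) : ℤ) * D0 v) V)) ∧
      (∀ m ∈ S₂, ∀ V ∈ Br (F := FK0 A (M * q * q)) m,
        HasOrd V t₀ (LocalGenV.nOf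
          (fun v : Place ↥(K0 A) (FK0 A (M * q * q)) => ((q - 1 : ℕ) : ℤ) * D0 v) V)) ∧
      (datumY hA hqM HM).Reg (Ku.g₁ ^ ((datumY hA hqM HM).q - 1) * (datumY hA hqM HM).N₁ t₀) ∧
      (datumY hA hqM HM).Reg (Ku.g₂ ^ ((datumY hA hqM HM).q - 1) * (datumY hA hqM HM).N₂ t₀) := by
  haveI := isDVR hA
  haveI : Infinite (ResidueField ↥(W A)) := by
    haveI := Fermat.Agent.S36.X0Base.isAlgClosed_residueField_W hA
    exact IsAlgClosed.instInfinite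
  exact Fermat.Agent.S36.RegT0.exists_t0 (O := ↥(W A)) (K := ↥(K0 A)) (nodesY hA hqM HM)
    (toEK0 A (M * q * q)) hφ hA₁ hA₂ hC (datumY hA hqM HM) (datumY_hReg hA hqM HM)
    (datumY_hN₁ hA hqM HM) (datumY_hN₂ hA hqM HM) hn Ku D0 hD0 hf S₁ hS₁ hmax₁ hconst₁ hloc₁ hT₁
    hvert₁ S₂ hS₂ hmax₂ hconst₂ hloc₂ hT₂ hvert₂

end Fermat.Agent.S36.LeafXReg
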