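/-
S36 (project V), slice V-LocTransfer part 4 (helper2): **`LocPrincipal` does not depend on the
presentation of the chart ring.**

`A`, `A'` two noetherian integrally closed domains with fraction field `F` and THE SAME IMAGE in `F`
(e.g. `↥(chart O φ)`, `↥(chart O φ).toSubring`, `↥(Lattice.ring ..)`, an abstract `A₁` with
`hA₁ : ∀ x, (∃ a, ι a = x) ↔ x ∈ chart O φ`):

* `presHom`, `presEquiv : A ≃+* A'` with `algebraMap_presEquiv : ι' (presEquiv h h' a) = ι a`;
* `locPrincipal_of_pres` : `m`, `m'` primes with `ι a = ι' a' → (a ∈ m ↔ a' ∈ m')`: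
  `LocPrincipal m → LocPrincipal m'`;
* `locPrincipal_comap_presEquiv`;
* `forall_locPrincipal_of_pres` : the statement "every closed point of the fibre is `LocPrincipal`"
  passes from one presentation to the other (the `hloc` of `VChartsOfLoc.exists_vcharts` from the
  `TDatum` presentation of `BranchX0`).
-/
import Mathlib
import Fermat.Agent.S36.LocTransfer

set_option autoImplicit false
set_option linter.unusedSectionVars false
set_option linter.unusedVariables false
set_option linter.style.haveILetI false

noncomputable section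

namespace Fermat.Agent.S36.LocTransferPres

open Fermat.Agent.S36.KrullInter Fermat.Agent.S36.LocalGenCore Fermat.Agent.S36.LocTransfer

variable {A A' F : Type*} [CommRing A] [IsDomain A] [IsNoetherianRing A] [IsIntegrallyClosed A]
  [CommRing A'] [IsDomain A'] [IsNoetherianRing A'] [IsIntegrallyClosed A']
  [Field F] [Algebra A F] [IsFractionRing A F] [Algebra A' F] [IsFractionRing A' F]

/-- the comparison map between two presentations of the same subring of `F` -/
def presHom (h : ∀ a : A, ∃ a' : A', algebraMap A' F a' = algebraMap A F a) : A →+* A' where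
  toFun a := (h a).choose
  map_one' := IsFractionRing.injective A' F (by rw [(h 1).choose_spec, map_one, map_one])
  map_mul' a b := IsFractionRing.injective A' F (by
    rw [(h (a * b)).choose_spec, map_mul, map_mul, (h a).choose_spec, (h b).choose_spec])
  map_zero' := IsFractionRing.injective A' F (by rw [(h 0).choose_spec, map_zero, map_zero])
  map_add' a b := IsFractionRing.injective A' F (by
    rw [(h (a + b)).choose_spec, map_add, map_add, (h a).choose_spec, (h b).choose_spec])

theorem algebraMap_presHom (h : ∀ a : A, ∃ a' : A', algebraMap A' F a' = algebraMap A F a)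
    (a : A) : algebraMap A' F (presHom h a) = algebraMap A F a := (h a).choose_spec

/-- the isomorphism between two presentations of the same subring of `F` -/
def presEquiv (h : ∀ a : A, ∃ a' : A', algebraMap A' F a' = algebraMap A F a)
    (h' : ∀ a' : A', ∃ a : A, algebraMap A F a = algebraMap A' F a') : A ≃+* A' :=
  RingEquiv.ofRingHom (presHom h) (presHom h')
    (by
      ext a'
      apply IsFractionRing.injective A' F
      rw [RingHom.comp_apply, algebraMap_presHom, algebraMap_presHom, RingHom.id_apply])
    (by
      ext a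
      apply IsFractionRing.injective A F
      rw [RingHom.comp_apply, algebraMap_presHom, algebraMap_presHom, RingHom.id_apply])

theorem algebraMap_presEquiv (h : ∀ a : A, ∃ a' : A', algebraMap A' F a' = algebraMap A F a)
    (h' : ∀ a' : A', ∃ a : A, algebraMap A F a = algebraMap A' F a') (a : A) :
    algebraMap A' F (presEquiv h h' a) = algebraMap A F a := algebraMap_presHom h a

theorem algebraMap_presEquiv_symm
    (h : ∀ a : A, ∃ a' : A', algebraMap A' F a' = algebraMap A F a)
    (h' : ∀ a' : A', ∃ a : A, algebraMap A F a = algebraMap A' F a') (a' : A') :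
    algebraMap A F ((presEquiv h h').symm a') = algebraMap A' F a' := algebraMap_presHom h' a'

/-- the local rings of compatible primes of two presentations agree -/
theorem locSubring_eq_of_pres
    (h : ∀ a : A, ∃ a' : A', algebraMap A' F a' = algebraMap A F a)
    (h' : ∀ a' : A', ∃ a : A, algebraMap A F a = algebraMap A' F a')
    (m : Ideal A) [m.IsPrime] (m' : Ideal A') [m'.IsPrime]
    (hm : ∀ (a : A) (a' : A'), algebraMap A F a = algebraMap A' F a' → (a ∈ m ↔ a' ∈ m')) :
    locSubring (F := F) m = locSubring (F := F) m' := by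
  ext x
  constructor
  · rintro ⟨s, hs, a, e⟩
    obtain ⟨s', hs'⟩ := h s
    obtain ⟨a', ha'⟩ := h a
    exact ⟨s', fun hmem => hs ((hm s s' hs'.symm).2 hmem), a', by rw [hs', ha', e]⟩
  · rintro ⟨s', hs', a', e⟩
    obtain ⟨s, hs⟩ := h' s'
    obtain ⟨a, ha⟩ := h' a'
    exact ⟨s, fun hmem => hs' ((hm s s' hs).1 hmem), a, by rw [hs, ha, e]⟩

/-- **`LocPrincipal` passes between compatible primes of two presentations** -/
theorem locPrincipal_of_pres
    (h : ∀ a : A, ∃ a' : A', algebraMap A' F a' = algebraMap A F a)
    (h' : ∀ a' : A', ∃ a : A, algebraMap A F a = algebraMap A' F a')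
    (m : Ideal A) [m.IsPrime] (m' : Ideal A') [m'.IsPrime]
    (hm : ∀ (a : A) (a' : A'), algebraMap A F a = algebraMap A' F a' → (a ∈ m ↔ a' ∈ m'))
    (hloc : LocPrincipal (F := F) m) : LocPrincipal (F := F) m' :=
  locPrincipal_of_locSubring_eq m m' (locSubring_eq_of_pres h h' m m' hm) hloc

/-- the prime of `A` corresponding to a prime of `A'` -/
theorem locPrincipal_comap_presEquiv
    (h : ∀ a : A, ∃ a' : A', algebraMap A' F a' = algebraMap A F a)
    (h' : ∀ a' : A', ∃ a : A, algebraMap A F a = algebraMap A' F a')
    (m' : Ideal A') [m'.IsPrime]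
    (hloc : LocPrincipal (F := F) (m'.comap (presEquiv h h' : A →+* A'))) :
    LocPrincipal (F := F) m' := by
  refine locPrincipal_of_pres h h' (m'.comap (presEquiv h h' : A →+* A')) m' ?_ hloc
  intro a a' e
  have : presEquiv h h' a = a' := by
    apply IsFractionRing.injective A' F
    rw [algebraMap_presEquiv, e]
  rw [Ideal.mem_comap, RingEquiv.coe_toRingHom, this]

/-- **"every closed point of the fibre is `LocPrincipal`" does not depend on the presentation** -/
theorem forall_locPrincipal_of_pres
    (h : ∀ a : A, ∃ a' : A', algebraMap A' F a' = algebraMap A F a)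
    (h' : ∀ a' : A', ∃ a : A, algebraMap A F a = algebraMap A' F a')
    (π : A) (π' : A') (hππ' : algebraMap A F π = algebraMap A' F π')
    (hA : ∀ m : Ideal A, m.IsMaximal → π ∈ m → LocPrincipal (F := F) m)
    (m' : Ideal A') (hm' : m'.IsMaximal) (hπ' : π' ∈ m') : LocPrincipal (F := F) m' := by
  haveI := hm'.isPrime
  apply locPrincipal_comap_presEquiv h h' m'
  apply hA
  · exact Ideal.comap_isMaximal_of_surjective _ (presEquiv h h').surjective
  · have : presEquiv h h' π = π' := by
      apply IsFractionRing.injective A' F
      rw [algebraMap_presEquiv, hππ']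
    rw [Ideal.mem_comap, RingEquiv.coe_toRingHom, this]
    exact hπ'

/-- the range form used by `CommonGen` / `LocTransferChart`: both images are the set `S` -/
theorem forall_locPrincipal_of_range (S : Set F)
    (hA : ∀ x : F, (∃ a : A, algebraMap A F a = x) ↔ x ∈ S)
    (hA' : ∀ x : F, (∃ a' : A', algebraMap A' F a' = x) ↔ x ∈ S)
    (π : A) (π' : A') (hππ' : algebraMap A F π = algebraMap A' F π')
    (hloc : ∀ m : Ideal A, m.IsMaximal → π ∈ m → LocPrincipal (F := F) m)
    (m' : Ideal A') (hm' : m'.IsMaximal) (hπ' : π' ∈ m') : LocPrincipal (F := F) m' :=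
  forall_locPrincipal_of_pres
    (fun a => (hA' _).2 ((hA _).1 ⟨a, rfl⟩))
    (fun a' => (hA _).2 ((hA' _).1 ⟨a', rfl⟩)) π π' hππ' hloc m' hm' hπ'

end Fermat.Agent.S36.LocTransferPres
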