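/-
PROJECT V (S36), slice V-LocX0, part 2 (helper26): **`hloc` of `VChartsOfLoc.exists_vcharts` from a
branch datum on the chart ring in the (P-subring) presentation** of ruling #2709:
`AA : Subring F` with `hAA : AA = (chart O φ).toSubring` (helper1's `BranchX0` `TDatum`s live on
such an `AA`; `NewInertiaFinal` instantiates `AA := Vc.charts.A`).

* `isNoetherianRing_of_eq`, `isIntegrallyClosed_of_eq`, `isFractionRing_of_eq` : the instances on
  `↥AA` that the statements about `LocPrincipal` need (from `ChartRing.chart_*` through `hAA`);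
* `range_sub`, `range_chart` : the two presentations have the same image in `F`;
* `hloc_of_sub` / `sub_of_hloc` : "every closed point of the fibre is `LocPrincipal`" passes between
  the presentation `↥AA` and the subalgebra `chart O φ` as a type
  (`LocTransferPres.forall_locPrincipal_of_range`);
* `locPrincipal_fin_sub` : `AllPointsT.locPrincipal_of_isMaximal` on `↥AA`;
* `hloc_fin_sub` : **the literal `hloc`** from `D : BranchCoreT.TDatum A₁ ↥AA B`, `he20 he02 hpid h11
  hS` in the literal `AllPointsT` shapes on `↥AA`;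
* `hres_sub` : the hypothesis `hres` of `AllPointsInf.locPrincipal_of_isMaximal_of_overlap` for the
  chart at infinity in the (P-subring) presentation, the finite chart being the subalgebra type
  (every function is congruent to a constant at a closed point of the fibre).
-/
import Mathlib
import Fermat.Agent.S36.LocX0
import Fermat.Agent.S36.LocTransferPres

set_option autoImplicit false
set_option linter.unusedSectionVars false
set_option linter.unusedVariables false
set_option linter.style.haveILetI false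

namespace Fermat.Agent.S36.LocX0Sub

open Polynomial IntermediateField
open Fermat.Agent.S36.KrullInter Fermat.Agent.S36.LocalGenCore Fermat.Agent.S36.ReducedBranch
open Fermat.Agent.S36.BranchCoreT Fermat.Agent.S36.AllPoints Fermat.Agent.S36.LocTransfer
open Fermat.Agent.S36.ChartRing Fermat.Agent.S36.Centre Fermat.Agent.S36.LocTransferChart

variable {O : Type*} [CommRing O] [IsDomain O] [IsDiscreteValuationRing O] {K : Type*} [Field K]
  [Algebra O K] [IsFractionRing O K] [CharZero K] {F : Type*} [Field F] [Algebra K F]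
  [Algebra O F] [IsScalarTower O K F]

/-! ### the instances on the (P-subring) presentation -/

section Instances

variable {φ : F} (hφ : Transcendental K φ) [FiniteDimensional K⟮φ⟯ F] {AA : Subring F}
  (hAA : AA = (chart O φ).toSubring)

include hφ hAA

theorem isNoetherianRing_of_eq : IsNoetherianRing ↥AA := by
  subst hAA
  exact chart_isNoetherianRing (O := O) hφ

theorem isIntegrallyClosed_of_eq : IsIntegrallyClosed ↥AA := by
  subst hAA
  exact chart_isIntegrallyClosed (O := O) hφ

theorem isFractionRing_of_eq : IsFractionRing ↥AA F := by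
  subst hAA
  exact chart_isFractionRing (O := O) hφ

end Instances

/-! ### the two presentations have the same image -/

section Range

omit [IsDomain O] [IsDiscreteValuationRing O] in
theorem range_sub {φ : F} {AA : Subring F} (hAA : AA = (chart O φ).toSubring) (x : F) :
    (∃ a : ↥AA, algebraMap ↥AA F a = x) ↔ x ∈ (chart O φ : Set F) := by
  subst hAA
  exact ⟨by rintro ⟨a, rfl⟩; exact a.2, fun hx => ⟨⟨x, hx⟩, rfl⟩⟩

omit [IsDomain O] [IsDiscreteValuationRing O] in
theorem range_chart (φ : F) (x : F) :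
    (∃ a : chart O φ, algebraMap (chart O φ) F a = x) ↔ x ∈ (chart O φ : Set F) :=
  ⟨by rintro ⟨a, rfl⟩; exact a.2, fun hx => ⟨⟨x, hx⟩, rfl⟩⟩

end Range

/-! ### transport between the presentations -/

section Transport

variable {ϖ : O} {φ : F} (hφ : Transcendental K φ) [FiniteDimensional K⟮φ⟯ F] {AA : Subring F}
  (hAA : AA = (chart O φ).toSubring)

include hφ hAA

/-- **from the (P-subring) presentation to the literal `hloc`** -/
theorem hloc_of_sub (π : ↥AA) (hπ : (π : F) = algebraMap O F ϖ)
    (h : ∀ m : Ideal ↥AA, m.IsMaximal → π ∈ m → LocPrincipal (F := F) m) :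
    ∀ m : Ideal (chart O φ), m.IsMaximal → piChart φ ϖ ∈ m → LocPrincipal (F := F) m := by
  haveI := chart_isFractionRing (O := O) hφ
  haveI := chart_isNoetherianRing (O := O) hφ
  haveI := chart_isIntegrallyClosed (O := O) hφ
  haveI := isFractionRing_of_eq (O := O) hφ hAA
  haveI := isNoetherianRing_of_eq (O := O) hφ hAA
  haveI := isIntegrallyClosed_of_eq (O := O) hφ hAA
  intro m hm hϖm
  refine LocTransferPres.forall_locPrincipal_of_range (chart O φ : Set F) (range_sub hAA)
    (range_chart φ) π (piChart φ ϖ) ?_ h m hm hϖm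
  show (π : F) = ((piChart φ ϖ : chart O φ) : F)
  rw [coe_piChart, hπ]

/-- **from the literal `hloc` to the (P-subring) presentation** -/
theorem sub_of_hloc (π : ↥AA) (hπ : (π : F) = algebraMap O F ϖ)
    (h : ∀ m : Ideal (chart O φ), m.IsMaximal → piChart φ ϖ ∈ m → LocPrincipal (F := F) m) :
    ∀ m : Ideal ↥AA, m.IsMaximal → π ∈ m → LocPrincipal (F := F) m := by
  haveI := chart_isFractionRing (O := O) hφ
  haveI := chart_isNoetherianRing (O := O) hφ
  haveI := chart_isIntegrallyClosed (O := O) hφ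
  haveI := isFractionRing_of_eq (O := O) hφ hAA
  haveI := isNoetherianRing_of_eq (O := O) hφ hAA
  haveI := isIntegrallyClosed_of_eq (O := O) hφ hAA
  intro m hm hϖm
  refine LocTransferPres.forall_locPrincipal_of_range (chart O φ : Set F) (range_chart φ)
    (range_sub hAA) (piChart φ ϖ) π ?_ h m hm hϖm
  show ((piChart φ ϖ : chart O φ) : F) = (π : F)
  rw [coe_piChart, hπ]

end Transport

/-! ### the finite chart -/

section Fin

variable {A₁ B : Type*} [CommRing A₁] [CommRing B] [IsDomain B]

/-- `AllPointsT.locPrincipal_of_isMaximal` on the (P-subring) presentation -/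
theorem locPrincipal_fin_sub {ϖ : O} {φ : F} (hφ : Transcendental K φ) [FiniteDimensional K⟮φ⟯ F]
    {AA : Subring F} (hAA : AA = (chart O φ).toSubring)
    (D : BranchCoreT.TDatum A₁ ↥AA B) (hDϖ : ((D.ϖ : ↥AA) : F) = algebraMap O F ϖ)
    (hϖ0 : algebraMap O F ϖ ≠ 0)
    (he20 : BranchEq (RingHom.ker D.r20) D.ϖ) (he02 : BranchEq (RingHom.ker D.r02) D.ϖ)
    (hpid : ∀ n : Ideal B, n.IsMaximal → LocPID n)
    (h11 : ∀ n : Ideal B, n.IsMaximal → n ∉ D.S → ∃ z : ↥AA, z ≠ 0 ∧
      z ∈ RingHom.ker D.r11 ∧ BranchEq (RingHom.ker D.r11) z ∧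
      ∃ (s c : ↥AA) (k : ℕ), 0 < k ∧ c ∉ D.x11 n ∧ s * z ^ k = D.ϖ * c)
    (hS : ∀ n : Ideal B, n.IsMaximal → n ∈ D.S → LocPrincipal (F := F) (D.x20 n)) :
    ∀ m : Ideal ↥AA, m.IsMaximal → D.ϖ ∈ m → LocPrincipal (F := F) m := by
  haveI := isFractionRing_of_eq (O := O) hφ hAA
  haveI := isNoetherianRing_of_eq (O := O) hφ hAA
  haveI := isIntegrallyClosed_of_eq (O := O) hφ hAA
  intro m hm hϖm
  have hD0 : D.ϖ ≠ 0 := by
    intro h
    apply hϖ0
    rw [← hDϖ, h]
    rfl
  exact AllPointsT.locPrincipal_of_isMaximal D hD0 he20 he02 hpid h11 hS m hm hϖm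

/-- **`hloc` of `VChartsOfLoc.exists_vcharts`** from a branch datum on the (P-subring)
presentation of the finite chart -/
theorem hloc_fin_sub {ϖ : O} {φ : F} (hφ : Transcendental K φ) [FiniteDimensional K⟮φ⟯ F]
    {AA : Subring F} (hAA : AA = (chart O φ).toSubring)
    (D : BranchCoreT.TDatum A₁ ↥AA B) (hDϖ : ((D.ϖ : ↥AA) : F) = algebraMap O F ϖ)
    (hϖ0 : algebraMap O F ϖ ≠ 0)
    (he20 : BranchEq (RingHom.ker D.r20) D.ϖ) (he02 : BranchEq (RingHom.ker D.r02) D.ϖ)
    (hpid : ∀ n : Ideal B, n.IsMaximal → LocPID n)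
    (h11 : ∀ n : Ideal B, n.IsMaximal → n ∉ D.S → ∃ z : ↥AA, z ≠ 0 ∧
      z ∈ RingHom.ker D.r11 ∧ BranchEq (RingHom.ker D.r11) z ∧
      ∃ (s c : ↥AA) (k : ℕ), 0 < k ∧ c ∉ D.x11 n ∧ s * z ^ k = D.ϖ * c)
    (hS : ∀ n : Ideal B, n.IsMaximal → n ∈ D.S → LocPrincipal (F := F) (D.x20 n)) :
    ∀ m : Ideal (chart O φ), m.IsMaximal → piChart φ ϖ ∈ m → LocPrincipal (F := F) m :=
  hloc_of_sub hφ hAA D.ϖ hDϖ
    (locPrincipal_fin_sub hφ hAA D hDϖ hϖ0 he20 he02 hpid h11 hS)

end Fin

/-! ### `hres` for the chart at infinity in the (P-subring) presentation -/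

section Res

/-- every function of the chart `ψ`, in the (P-subring) presentation, is congruent to a constant at
a closed point of the special fibre -/
theorem exists_const_sub_mem_sub [IsAlgClosed (IsLocalRing.ResidueField O)] {ϖ : O}
    (hϖ : Irreducible ϖ) {ψ : F} (hψ : Transcendental K ψ) [FiniteDimensional K⟮ψ⟯ F]
    {AA' : Subring F} (hAA' : AA' = (chart O ψ).toSubring) (π' : ↥AA')
    (hπ' : (π' : F) = algebraMap O F ϖ)
    (m : Ideal ↥AA') (hm : m.IsMaximal) (hϖm : π' ∈ m) (a : ↥AA') :
    ∃ (c : O) (b : ↥AA'), b ∈ m ∧ (a : F) = algebraMap O F c + (b : F) := by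
  subst hAA'
  have hπe : π' = piChart ψ ϖ := Subtype.ext (by rw [hπ', coe_piChart])
  obtain ⟨c, hc⟩ := LocX0.exists_const_sub_mem_chart hϖ hψ m hm (hπe ▸ hϖm) a
  refine ⟨c, a - LocX0.constChart ψ c, hc, ?_⟩
  show (a : F) = algebraMap O F c + ((a - LocX0.constChart (O := O) ψ c : chart O ψ) : F)
  rw [AddSubgroupClass.coe_sub, LocX0.coe_constChart]
  ring

/-- **the hypothesis `hres` of `AllPointsInf.locPrincipal_of_isMaximal_of_overlap`**, the finite
chart as the subalgebra type `chart O φ`, the chart at infinity in the (P-subring) presentation -/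
theorem hres_sub [IsAlgClosed (IsLocalRing.ResidueField O)] {ϖ : O} (hϖ : Irreducible ϖ)
    (φ : F) {ψ : F} (hψ : Transcendental K ψ) [FiniteDimensional K⟮ψ⟯ F]
    {AA' : Subring F} (hAA' : AA' = (chart O ψ).toSubring) (π' : ↥AA')
    (hπ' : (π' : F) = algebraMap O F ϖ)
    (m : Ideal ↥AA') (hm : m.IsMaximal) (hϖm : π' ∈ m) (a : ↥AA') :
    ∃ a₀ : chart O φ, ∃ b : ↥AA', b ∈ m ∧
      algebraMap ↥AA' F a = algebraMap (chart O φ) F a₀ + algebraMap ↥AA' F b := by
  obtain ⟨c, b, hb, e⟩ := exists_const_sub_mem_sub hϖ hψ hAA' π' hπ' m hm hϖm a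
  exact ⟨LocX0.constChart φ c, b, hb, e⟩

end Res

end Fermat.Agent.S36.LocX0Sub
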