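/-
PROJECT V (S36), slice V-LocX0, part 3 (helper26): **`hloc'` of `VChartsOfLoc.exists_vcharts` from a
branch datum on the chart at infinity in the (P-subring) presentation** of ruling #2709
(`AA' : Subring F`, `hAA' : AA' = (chart O φ⁻¹).toSubring`; helper24's `BranchInfX0`), and the two
charts together.

* `locPrincipal_inf_sub` : `AllPointsInf.locPrincipal_of_isMaximal_of_overlap` on `↥AA'`, the finite
  chart being the subalgebra type `chart O φ` with the literal `hloc`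
  (`H := LocTransferChart.overlap_of_range`, `hres := LocX0Sub.hres_sub`);
* `hloc_inf_sub` : **the literal `hloc'`**;
* `hloc_both_sub` : the literal `hloc ∧ hloc'` from the two branch data
  `Dfin : TDatum A₁ ↥AA B`, `Dinf : TDatum A₁' ↥AA' B'` in the (P-subring) presentation.

The coordinate `ψ = φ⁻¹` of the chart at infinity enters as an element `ψ' : ↥AA'` with
`(ψ' : F) = φ⁻¹`; the hypotheses `hSψ`, `h11` are LITERALLY those of
`AllPointsInf.locPrincipal_of_isMaximal_of_overlap` at `ψ := ψ'`.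
-/
import Mathlib
import Fermat.Agent.S36.LocX0Sub

set_option autoImplicit false
set_option linter.unusedSectionVars false
set_option linter.unusedVariables false
set_option linter.style.haveILetI false

namespace Fermat.Agent.S36.LocX0SubInf

open Polynomial IntermediateField
open Fermat.Agent.S36.KrullInter Fermat.Agent.S36.LocalGenCore Fermat.Agent.S36.ReducedBranch
open Fermat.Agent.S36.BranchCoreT Fermat.Agent.S36.AllPoints Fermat.Agent.S36.LocTransfer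
open Fermat.Agent.S36.ChartRing Fermat.Agent.S36.Centre Fermat.Agent.S36.LocTransferChart
open Fermat.Agent.S36.LocX0Sub

variable {O : Type*} [CommRing O] [IsDomain O] [IsDiscreteValuationRing O] {K : Type*} [Field K]
  [Algebra O K] [IsFractionRing O K] [CharZero K] {F : Type*} [Field F] [Algebra K F]
  [Algebra O F] [IsScalarTower O K F]

section Inf

variable {A₁' B' : Type*} [CommRing A₁'] [CommRing B'] [IsDomain B']

/-- `AllPointsInf.locPrincipal_of_isMaximal_of_overlap` on the (P-subring) presentation of the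
chart at infinity -/
theorem locPrincipal_inf_sub [IsAlgClosed (IsLocalRing.ResidueField O)] {ϖ : O}
    (hϖ : Irreducible ϖ) {φ : F}
    (hφ : Transcendental K φ) (hφ' : Transcendental K φ⁻¹)
    [FiniteDimensional K⟮φ⟯ F] [FiniteDimensional K⟮φ⁻¹⟯ F]
    (hloc : ∀ m : Ideal (chart O φ), m.IsMaximal → piChart φ ϖ ∈ m → LocPrincipal (F := F) m)
    {AA' : Subring F} (hAA' : AA' = (chart O φ⁻¹).toSubring)
    (D : BranchCoreT.TDatum A₁' ↥AA' B') (hDϖ : ((D.ϖ : ↥AA') : F) = algebraMap O F ϖ)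
    (hϖ0 : algebraMap O F ϖ ≠ 0)
    (ψ' : ↥AA') (hψ' : (ψ' : F) = φ⁻¹)
    (he20 : BranchEq (RingHom.ker D.r20) D.ϖ) (he02 : BranchEq (RingHom.ker D.r02) D.ϖ)
    (hpid : ∀ n : Ideal B', n.IsMaximal → LocPID n)
    (hSψ : ∀ n : Ideal B', n.IsMaximal → n ∈ D.S → D.r20 ψ' ∉ n)
    (h11 : ∀ n : Ideal B', n.IsMaximal → n ∉ D.S → D.r11 ψ' ∈ n → ∃ z : ↥AA', z ≠ 0 ∧
      z ∈ RingHom.ker D.r11 ∧ BranchEq (RingHom.ker D.r11) z ∧
      ∃ (s c : ↥AA') (k : ℕ), 0 < k ∧ c ∉ D.x11 n ∧ s * z ^ k = D.ϖ * c) :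
    ∀ m : Ideal ↥AA', m.IsMaximal → D.ϖ ∈ m → LocPrincipal (F := F) m := by
  haveI := chart_isFractionRing (O := O) hφ
  haveI := chart_isNoetherianRing (O := O) hφ
  haveI := chart_isIntegrallyClosed (O := O) hφ
  haveI := isFractionRing_of_eq (O := O) hφ' hAA'
  haveI := isNoetherianRing_of_eq (O := O) hφ' hAA'
  haveI := isIntegrallyClosed_of_eq (O := O) hφ' hAA'
  intro m hm hϖm
  have hφ0 : φ ≠ 0 := by
    rintro rfl
    exact hφ isAlgebraic_zero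
  have hD0 : D.ϖ ≠ 0 := by
    intro h
    apply hϖ0
    rw [← hDϖ, h]
    rfl
  have hϖϖ : algebraMap (chart O φ) F (piChart φ ϖ) = algebraMap ↥AA' F D.ϖ := by
    show ((piChart φ ϖ : chart O φ) : F) = ((D.ϖ : ↥AA') : F)
    rw [coe_piChart, hDϖ]
  have H : Overlap (F := F) (A := chart O φ) (A' := ↥AA')
      (⟨φ, gen_mem_chart φ⟩ : chart O φ) ψ' :=
    overlap_of_range (O := O) hφ0 (range_chart φ) (range_sub hAA') rfl hψ'
  exact AllPointsInf.locPrincipal_of_isMaximal_of_overlap D H (piChart φ ϖ) hϖϖ hloc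
    (fun m' hm' hϖm' a => hres_sub hϖ φ hφ' hAA' D.ϖ hDϖ m' hm' hϖm' a)
    hD0 he20 he02 hpid hSψ h11 m hm hϖm

/-- **`hloc'` of `VChartsOfLoc.exists_vcharts`** from a branch datum on the (P-subring)
presentation of the chart at infinity and `hloc` on the finite chart -/
theorem hloc_inf_sub [IsAlgClosed (IsLocalRing.ResidueField O)] {ϖ : O}
    (hϖ : Irreducible ϖ) {φ : F}
    (hφ : Transcendental K φ) (hφ' : Transcendental K φ⁻¹)
    [FiniteDimensional K⟮φ⟯ F] [FiniteDimensional K⟮φ⁻¹⟯ F]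
    (hloc : ∀ m : Ideal (chart O φ), m.IsMaximal → piChart φ ϖ ∈ m → LocPrincipal (F := F) m)
    {AA' : Subring F} (hAA' : AA' = (chart O φ⁻¹).toSubring)
    (D : BranchCoreT.TDatum A₁' ↥AA' B') (hDϖ : ((D.ϖ : ↥AA') : F) = algebraMap O F ϖ)
    (hϖ0 : algebraMap O F ϖ ≠ 0)
    (ψ' : ↥AA') (hψ' : (ψ' : F) = φ⁻¹)
    (he20 : BranchEq (RingHom.ker D.r20) D.ϖ) (he02 : BranchEq (RingHom.ker D.r02) D.ϖ)
    (hpid : ∀ n : Ideal B', n.IsMaximal → LocPID n)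
    (hSψ : ∀ n : Ideal B', n.IsMaximal → n ∈ D.S → D.r20 ψ' ∉ n)
    (h11 : ∀ n : Ideal B', n.IsMaximal → n ∉ D.S → D.r11 ψ' ∈ n → ∃ z : ↥AA', z ≠ 0 ∧
      z ∈ RingHom.ker D.r11 ∧ BranchEq (RingHom.ker D.r11) z ∧
      ∃ (s c : ↥AA') (k : ℕ), 0 < k ∧ c ∉ D.x11 n ∧ s * z ^ k = D.ϖ * c) :
    ∀ m : Ideal (chart O φ⁻¹), m.IsMaximal → piChart φ⁻¹ ϖ ∈ m → LocPrincipal (F := F) m :=
  hloc_of_sub hφ' hAA' D.ϖ hDϖ
    (locPrincipal_inf_sub hϖ hφ hφ' hloc hAA' D hDϖ hϖ0 ψ' hψ' he20 he02 hpid hSψ h11)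

end Inf

/-! ### both charts -/

section Both

variable {A₁ B A₁' B' : Type*} [CommRing A₁] [CommRing B] [IsDomain B] [CommRing A₁']
  [CommRing B'] [IsDomain B']

/-- **`hloc` and `hloc'` of `VChartsOfLoc.exists_vcharts`** from the two branch data in the
(P-subring) presentation -/
theorem hloc_both_sub [IsAlgClosed (IsLocalRing.ResidueField O)] {ϖ : O} (hϖ : Irreducible ϖ)
    {φ : F} (hφ : Transcendental K φ) (hφ' : Transcendental K φ⁻¹)
    [FiniteDimensional K⟮φ⟯ F] [FiniteDimensional K⟮φ⁻¹⟯ F] (hϖ0 : algebraMap O F ϖ ≠ 0)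
    -- the finite chart
    {AA : Subring F} (hAA : AA = (chart O φ).toSubring)
    (Dfin : BranchCoreT.TDatum A₁ ↥AA B) (hDϖ : ((Dfin.ϖ : ↥AA) : F) = algebraMap O F ϖ)
    (he20 : BranchEq (RingHom.ker Dfin.r20) Dfin.ϖ)
    (he02 : BranchEq (RingHom.ker Dfin.r02) Dfin.ϖ)
    (hpid : ∀ n : Ideal B, n.IsMaximal → LocPID n)
    (h11 : ∀ n : Ideal B, n.IsMaximal → n ∉ Dfin.S → ∃ z : ↥AA, z ≠ 0 ∧
      z ∈ RingHom.ker Dfin.r11 ∧ BranchEq (RingHom.ker Dfin.r11) z ∧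
      ∃ (s c : ↥AA) (k : ℕ), 0 < k ∧ c ∉ Dfin.x11 n ∧ s * z ^ k = Dfin.ϖ * c)
    (hS : ∀ n : Ideal B, n.IsMaximal → n ∈ Dfin.S → LocPrincipal (F := F) (Dfin.x20 n))
    -- the chart at infinity
    {AA' : Subring F} (hAA' : AA' = (chart O φ⁻¹).toSubring)
    (Dinf : BranchCoreT.TDatum A₁' ↥AA' B')
    (hDϖ' : ((Dinf.ϖ : ↥AA') : F) = algebraMap O F ϖ)
    (ψ' : ↥AA') (hψ' : (ψ' : F) = φ⁻¹)
    (he20' : BranchEq (RingHom.ker Dinf.r20) Dinf.ϖ)
    (he02' : BranchEq (RingHom.ker Dinf.r02) Dinf.ϖ)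
    (hpid' : ∀ n : Ideal B', n.IsMaximal → LocPID n)
    (hSψ : ∀ n : Ideal B', n.IsMaximal → n ∈ Dinf.S → Dinf.r20 ψ' ∉ n)
    (h11' : ∀ n : Ideal B', n.IsMaximal → n ∉ Dinf.S → Dinf.r11 ψ' ∈ n → ∃ z : ↥AA', z ≠ 0 ∧
      z ∈ RingHom.ker Dinf.r11 ∧ BranchEq (RingHom.ker Dinf.r11) z ∧
      ∃ (s c : ↥AA') (k : ℕ), 0 < k ∧ c ∉ Dinf.x11 n ∧ s * z ^ k = Dinf.ϖ * c) :
    (∀ m : Ideal (chart O φ), m.IsMaximal → piChart φ ϖ ∈ m → LocPrincipal (F := F) m) ∧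
    (∀ m : Ideal (chart O φ⁻¹), m.IsMaximal → piChart φ⁻¹ ϖ ∈ m → LocPrincipal (F := F) m) := by
  have h1 := hloc_fin_sub hφ hAA Dfin hDϖ hϖ0 he20 he02 hpid h11 hS
  exact ⟨h1, hloc_inf_sub hϖ hφ hφ' h1 hAA' Dinf hDϖ' hϖ0 ψ' hψ' he20' he02' hpid' hSψ h11'⟩

end Both

end Fermat.Agent.S36.LocX0SubInf
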