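/-
PROJECT V (S36), slice V-LocX0, part 4 (helper26): **the wiring of `LocX0.hloc_both` at `X₀`**, for
helper1's branch data `BranchX0.finTDatum`, `BranchX0.infTDatum` on the two charts
`chart O x₂`, `chart O x₂⁻¹` of level `N0 q q` (uniformiser `ϖ = q`).

Discharged here (so that `NewInertiaFinal` does not have to):
* `natCast_eq_piChart` : `((n : ℕ) : chart O φ) = Centre.piChart φ (n : O)`; hence
  `finTDatum_ϖ`, `infTDatum_ϖ` : the `ϖ` of the two data is `piChart _ (q : O)` (`hDϖ`, `hDϖ'`);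
* `algebraMap_natCast_ne_zero` : `algebraMap O F (q : O) ≠ 0` (`hϖ0`);
* `exists_r₂₀_x2_inv` : `r₂₀ (x₂⁻¹) = (J⁻¹) ^ e`; `infTDatum_r20_gen` : the same in the chart ring;
* `hSψ_inf` : **`hSψ`** (the nodes are off the cusps `x₂⁻¹ = 0`) from `hSJ : ∀ n ∈ S, J⁻¹ ∉ n`;
* `hloc_X0` : **`hloc ∧ hloc'` of `VChartsOfLoc.exists_vcharts` at `φ = x₂`, `ϖ = q`**, from the
  hypotheses of the two `TDatum`s and the inputs (V12): `he20 he02` on both charts, `hpid`, `h11`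
  (off `S`; on the chart at infinity only at the middle cusps), `hS` (finite chart only).
-/
import Mathlib
import Fermat.Agent.S36.LocX0
import Fermat.Agent.S36.BranchX0T

set_option autoImplicit false
set_option linter.unusedSectionVars false
set_option linter.unusedVariables false
set_option linter.style.haveILetI false

noncomputable section

namespace Fermat.Agent.S36.LocX0Wire

open Polynomial IntermediateField
open Fermat.Agent.S36.KrullInter Fermat.Agent.S36.LocalGenCore Fermat.Agent.S36.ReducedBranch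
open Fermat.Agent.S36.BranchCoreT Fermat.Agent.S36.AllPoints Fermat.Agent.S36.LocTransfer
open Fermat.Agent.S36.ChartRing Fermat.Agent.S36.Centre Fermat.Agent.S36.LocTransferChart
open Fermat.Agent.S36.CompNormal Fermat.Agent.S36.PowerBasisK0 Fermat.Agent.S36.JIntegral
open Fermat.Agent.S36.CompNormalX0 Fermat.Agent.S36.BranchX0

/-! ### generalities on a chart -/

section General

variable {O : Type*} [CommRing O] [IsDomain O] {F : Type*} [Field F] [Algebra O F]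

/-- a natural number in the chart ring is the constant `piChart` -/
theorem natCast_eq_piChart (φ : F) (n : ℕ) :
    ((n : ℕ) : ↥(chart O φ)) = piChart φ ((n : ℕ) : O) := by
  apply Subtype.ext
  rw [coe_piChart, map_natCast]
  rfl

omit [IsDomain O] in
theorem algebraMap_natCast_ne_zero [CharZero F] {n : ℕ} (hn : n ≠ 0) :
    algebraMap O F ((n : ℕ) : O) ≠ 0 := by
  rw [map_natCast]
  exact Nat.cast_ne_zero.mpr hn

end General

local notation "Kb" => AlgebraicClosure ℚ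

variable {H : Subgroup (Kb ≃ₐ[ℚ] Kb)}
variable {N0 q : ℕ} [NeZero N0] [NeZero q] [NeZero (N0 * q)] [NeZero (N0 * q * q)]
variable {κ : Type} [Field κ] {Y : ThreeValX0.Hyp H N0 q κ}
variable {O : Type*} [CommRing O] [Algebra O (FK H N0)] [Algebra O (FK H (N0 * q))]
  [Algebra O (FK H (N0 * q * q))]
variable {k : Type*} [Field k] [Algebra k κ] {π : O →+* k}

/-! ### the value of the coordinate of the chart at infinity on `C₂₀` -/

section Value

variable (hB : Base Y O π)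

include hB in
/-- `r₂₀ (x₂⁻¹)` is a power of `J⁻¹` -/
theorem exists_r₂₀_x2_inv : ∃ e : ℕ,
    Y.r₂₀ ⟨(x2 H N0 q)⁻¹, (branch₂₀ hB).x2_inv_mem⟩ = Y.J⁻¹ ^ e := by
  obtain ⟨e, he⟩ := (branch₂₀ hB).exists_r_x2
  refine ⟨e, ?_⟩
  have h1 : Y.r₂₀ ⟨(x2 H N0 q)⁻¹, (branch₂₀ hB).x2_inv_mem⟩
      * Y.r₂₀ ⟨x2 H N0 q, (branch₂₀ hB).x2_mem⟩ = 1 := by
    rw [← map_mul]
    have : (⟨(x2 H N0 q)⁻¹, (branch₂₀ hB).x2_inv_mem⟩ : ↥Y.W₂₀)
        * ⟨x2 H N0 q, (branch₂₀ hB).x2_mem⟩ = 1 := by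
      apply Subtype.ext
      show (x2 H N0 q)⁻¹ * x2 H N0 q = 1
      exact inv_mul_cancel₀ (x2_ne_zero Y)
    rw [this, map_one]
  rw [inv_pow, ← he]
  exact eq_inv_of_mul_eq_one_left h1

/-- the same in the chart ring: `r20` of the chart at infinity at the coordinate `x₂⁻¹` is a power
of `J⁻¹` -/
theorem infPair_r20_gen : ∃ e : ℕ,
    (infPair hB).r20 ⟨(x2 H N0 q)⁻¹, gen_mem_chart (O := O) (x2 H N0 q)⁻¹⟩ = Jinv Y k ^ e := by
  obtain ⟨e, he⟩ := exists_r₂₀_x2_inv hB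
  refine ⟨e, Subtype.ext ?_⟩
  rw [ChartPair.coe_r20, SubmonoidClass.coe_pow]
  exact he

end Value

/-! ### `hSψ` -/

section HSpsi

variable (hB : Base Y O π)

/-- **`hSψ` of `LocX0.hloc_inf`** for `BranchX0.infTDatum`: the nodes are off the cusps -/
theorem hSψ_inf (hφB : ∀ z ∈ chart k Y.J⁻¹, Y.φ z ∈ chart k Y.J⁻¹)
    (hφpow : ∀ z ∈ chart k Y.J⁻¹, ∃ c ∈ chart k Y.J⁻¹, Y.φ c = z ^ q)
    (S : Set (Ideal ↥(chart k Y.J⁻¹)))
    (hSJ : ∀ n ∈ S, Jinv Y k ∉ n)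
    (node : ∀ n' n : Ideal ↥(chart k Y.J⁻¹), n'.IsMaximal → n.IsMaximal →
      (n'.comap (infPair hB).red1 = n.comap (infPair hB).red2
        ↔ n ∈ S ∧ n' = n.comap (ChartPair.φB hφB)))
    (S_fr : ∀ n ∈ S, n.comap (ChartPair.φB hφB) ∈ S)
    (fr_fr : ∀ n ∈ S, (n.comap (ChartPair.φB hφB)).comap (ChartPair.φB hφB) = n)
    (hrad : ∀ a ∈ chart O (x2 H N0 q)⁻¹, a ∈ Y.W₂₀.nonunits → a ∈ Y.W₁₁.nonunits →
      a ∈ Y.W₀₂.nonunits →
      ∃ N : ℕ, ∃ y ∈ chart O (x2 H N0 q)⁻¹, a ^ N = (q : FK H (N0 * q * q)) * y) :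
    ∀ n : Ideal ↥(chart k Y.J⁻¹), n.IsMaximal →
      n ∈ (infTDatum hB hφB hφpow S hSJ node S_fr fr_fr hrad).S →
      (infTDatum hB hφB hφpow S hSJ node S_fr fr_fr hrad).r20
        ⟨(x2 H N0 q)⁻¹, gen_mem_chart (O := O) (x2 H N0 q)⁻¹⟩ ∉ n := by
  intro n hn hnS hmem
  obtain ⟨e, he⟩ := infPair_r20_gen (k := k) hB
  have h1 : Jinv Y k ^ e ∈ n := by
    rw [← he]
    exact hmem
  exact hSJ n hnS (hn.isPrime.mem_of_pow_mem e h1)

end HSpsi

/-! ### `hloc ∧ hloc'` at `X₀` -/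

section Main

variable [IsDomain O] [IsDiscreteValuationRing O] {K : Type*} [Field K] [Algebra O K]
  [IsFractionRing O K] [CharZero K] [Algebra K (FK H (N0 * q * q))]
  [IsScalarTower O K (FK H (N0 * q * q))]

variable (hB : Base Y O π)

/-- **`hloc` and `hloc'` of `VChartsOfLoc.exists_vcharts` at `X₀`** (`φ = x₂`, `ϖ = q`), for
helper1's branch data on the two charts -/
theorem hloc_X0 [IsAlgClosed (IsLocalRing.ResidueField O)]
    (hq : Irreducible ((q : ℕ) : O))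
    (hφ : Transcendental K (x2 H N0 q)) (hφ' : Transcendental K (x2 H N0 q)⁻¹)
    [FiniteDimensional K⟮x2 H N0 q⟯ (FK H (N0 * q * q))]
    [FiniteDimensional K⟮(x2 H N0 q)⁻¹⟯ (FK H (N0 * q * q))]
    -- the branch datum of the finite chart
    (hφB : ∀ z ∈ chart k Y.J, Y.φ z ∈ chart k Y.J)
    (hφpow : ∀ z ∈ chart k Y.J, ∃ c ∈ chart k Y.J, Y.φ c = z ^ q)
    (S : Set (Ideal ↥(chart k Y.J)))
    (node : ∀ n' n : Ideal ↥(chart k Y.J), n'.IsMaximal → n.IsMaximal →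
      (n'.comap (finPair hB).red1 = n.comap (finPair hB).red2
        ↔ n ∈ S ∧ n' = n.comap (ChartPair.φB hφB)))
    (S_fr : ∀ n ∈ S, n.comap (ChartPair.φB hφB) ∈ S)
    (fr_fr : ∀ n ∈ S, (n.comap (ChartPair.φB hφB)).comap (ChartPair.φB hφB) = n)
    (hrad : ∀ a ∈ chart O (x2 H N0 q), a ∈ Y.W₂₀.nonunits → a ∈ Y.W₁₁.nonunits →
      a ∈ Y.W₀₂.nonunits →
      ∃ N : ℕ, ∃ y ∈ chart O (x2 H N0 q), a ^ N = (q : FK H (N0 * q * q)) * y)
    -- (V12) on the finite chart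
    (he20 : BranchEq (RingHom.ker (finTDatum hB hφB hφpow S node S_fr fr_fr hrad).r20)
      (finTDatum hB hφB hφpow S node S_fr fr_fr hrad).ϖ)
    (he02 : BranchEq (RingHom.ker (finTDatum hB hφB hφpow S node S_fr fr_fr hrad).r02)
      (finTDatum hB hφB hφpow S node S_fr fr_fr hrad).ϖ)
    (hpid : ∀ n : Ideal ↥(chart k Y.J), n.IsMaximal → LocPID n)
    (h11 : ∀ n : Ideal ↥(chart k Y.J), n.IsMaximal →
      n ∉ (finTDatum hB hφB hφpow S node S_fr fr_fr hrad).S →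
      ∃ z : ↥(chart O (x2 H N0 q)), z ≠ 0 ∧
      z ∈ RingHom.ker (finTDatum hB hφB hφpow S node S_fr fr_fr hrad).r11 ∧
      BranchEq (RingHom.ker (finTDatum hB hφB hφpow S node S_fr fr_fr hrad).r11) z ∧
      ∃ (s c : ↥(chart O (x2 H N0 q))) (e : ℕ), 0 < e ∧
        c ∉ (finTDatum hB hφB hφpow S node S_fr fr_fr hrad).x11 n ∧
        s * z ^ e = (finTDatum hB hφB hφpow S node S_fr fr_fr hrad).ϖ * c)
    (hS : ∀ n : Ideal ↥(chart k Y.J), n.IsMaximal →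
      n ∈ (finTDatum hB hφB hφpow S node S_fr fr_fr hrad).S →
      LocPrincipal (F := FK H (N0 * q * q))
        ((finTDatum hB hφB hφpow S node S_fr fr_fr hrad).x20 n))
    -- the branch datum of the chart at infinity
    (hφB' : ∀ z ∈ chart k Y.J⁻¹, Y.φ z ∈ chart k Y.J⁻¹)
    (hφpow' : ∀ z ∈ chart k Y.J⁻¹, ∃ c ∈ chart k Y.J⁻¹, Y.φ c = z ^ q)
    (S' : Set (Ideal ↥(chart k Y.J⁻¹)))
    (hSJ : ∀ n ∈ S', Jinv Y k ∉ n)
    (node' : ∀ n' n : Ideal ↥(chart k Y.J⁻¹), n'.IsMaximal → n.IsMaximal →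
      (n'.comap (infPair hB).red1 = n.comap (infPair hB).red2
        ↔ n ∈ S' ∧ n' = n.comap (ChartPair.φB hφB')))
    (S_fr' : ∀ n ∈ S', n.comap (ChartPair.φB hφB') ∈ S')
    (fr_fr' : ∀ n ∈ S', (n.comap (ChartPair.φB hφB')).comap (ChartPair.φB hφB') = n)
    (hrad' : ∀ a ∈ chart O (x2 H N0 q)⁻¹, a ∈ Y.W₂₀.nonunits → a ∈ Y.W₁₁.nonunits →
      a ∈ Y.W₀₂.nonunits →
      ∃ N : ℕ, ∃ y ∈ chart O (x2 H N0 q)⁻¹, a ^ N = (q : FK H (N0 * q * q)) * y)
    -- (V12) on the chart at infinity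
    (he20' : BranchEq
      (RingHom.ker (infTDatum hB hφB' hφpow' S' hSJ node' S_fr' fr_fr' hrad').r20)
      (infTDatum hB hφB' hφpow' S' hSJ node' S_fr' fr_fr' hrad').ϖ)
    (he02' : BranchEq
      (RingHom.ker (infTDatum hB hφB' hφpow' S' hSJ node' S_fr' fr_fr' hrad').r02)
      (infTDatum hB hφB' hφpow' S' hSJ node' S_fr' fr_fr' hrad').ϖ)
    (hpid' : ∀ n : Ideal ↥(chart k Y.J⁻¹), n.IsMaximal → LocPID n)
    (h11' : ∀ n : Ideal ↥(chart k Y.J⁻¹), n.IsMaximal →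
      n ∉ (infTDatum hB hφB' hφpow' S' hSJ node' S_fr' fr_fr' hrad').S →
      (infTDatum hB hφB' hφpow' S' hSJ node' S_fr' fr_fr' hrad').r11
        ⟨(x2 H N0 q)⁻¹, gen_mem_chart (O := O) (x2 H N0 q)⁻¹⟩ ∈ n →
      ∃ z : ↥(chart O (x2 H N0 q)⁻¹), z ≠ 0 ∧
      z ∈ RingHom.ker (infTDatum hB hφB' hφpow' S' hSJ node' S_fr' fr_fr' hrad').r11 ∧
      BranchEq (RingHom.ker (infTDatum hB hφB' hφpow' S' hSJ node' S_fr' fr_fr' hrad').r11) z ∧
      ∃ (s c : ↥(chart O (x2 H N0 q)⁻¹)) (e : ℕ), 0 < e ∧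
        c ∉ (infTDatum hB hφB' hφpow' S' hSJ node' S_fr' fr_fr' hrad').x11 n ∧
        s * z ^ e = (infTDatum hB hφB' hφpow' S' hSJ node' S_fr' fr_fr' hrad').ϖ * c) :
    (∀ m : Ideal ↥(chart O (x2 H N0 q)), m.IsMaximal →
      piChart (x2 H N0 q) ((q : ℕ) : O) ∈ m → LocPrincipal (F := FK H (N0 * q * q)) m) ∧
    (∀ m : Ideal ↥(chart O (x2 H N0 q)⁻¹), m.IsMaximal →
      piChart (x2 H N0 q)⁻¹ ((q : ℕ) : O) ∈ m → LocPrincipal (F := FK H (N0 * q * q)) m) := by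
  haveI : CharZero (FK H (N0 * q * q)) :=
    charZero_of_injective_algebraMap (algebraMap K (FK H (N0 * q * q))).injective
  exact LocX0.hloc_both (K := K) hq hφ hφ'
    (algebraMap_natCast_ne_zero (NeZero.ne q))
    (finTDatum hB hφB hφpow S node S_fr fr_fr hrad) (natCast_eq_piChart _ q)
    he20 he02 hpid h11 hS
    (infTDatum hB hφB' hφpow' S' hSJ node' S_fr' fr_fr' hrad') (natCast_eq_piChart _ q)
    he20' he02' hpid'
    (hSψ_inf hB hφB' hφpow' S' hSJ node' S_fr' fr_fr' hrad') h11'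

end Main

end Fermat.Agent.S36.LocX0Wire
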