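/-
PROJECT V (S36), slice V-LocX0, part 5 (helper26): **the wiring of `LocX0.hloc_both` at `X₀` for ANY
coordinate of the component**: helper1's `BranchX0.ChartPair.finTDatumOf`, `infTDatumOf`
(`S36/BranchX0G.lean`; `Jc := jk k M`, `Jc' := (jk k M)⁻¹`), twin of `S36/LocX0Wire.lean`
(`Jc = Y.J`, `Y.J⁻¹`).

* `r20_gen_inf` : `P'.r20 (x₂⁻¹) = ⟨J⁻¹, hJc⟩ ^ e` in `chart k Jc'`;
* `hSψ_infOf` : **`hSψ`** for `P'.infTDatumOf hJc ..` from its own hypothesis `hSJ`;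
* `hloc_X0_of` : **`hloc ∧ hloc'` of `VChartsOfLoc.exists_vcharts` at `φ = x₂`, `ϖ = q`** from the
  hypotheses of the two `TDatum`s and the inputs (V12).
-/
import Mathlib
import Fermat.Agent.S36.LocX0Wire
import Fermat.Agent.S36.BranchX0G

set_option autoImplicit false
set_option linter.unusedSectionVars false
set_option linter.unusedVariables false
set_option linter.style.haveILetI false

noncomputable section

namespace Fermat.Agent.S36.LocX0WireG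

open Polynomial IntermediateField
open Fermat.Agent.S36.KrullInter Fermat.Agent.S36.LocalGenCore Fermat.Agent.S36.ReducedBranch
open Fermat.Agent.S36.BranchCoreT Fermat.Agent.S36.AllPoints Fermat.Agent.S36.LocTransfer
open Fermat.Agent.S36.ChartRing Fermat.Agent.S36.Centre Fermat.Agent.S36.LocTransferChart
open Fermat.Agent.S36.CompNormal Fermat.Agent.S36.PowerBasisK0 Fermat.Agent.S36.JIntegral
open Fermat.Agent.S36.CompNormalX0 Fermat.Agent.S36.BranchX0 Fermat.Agent.S36.LocX0Wire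

local notation "Kb" => AlgebraicClosure ℚ

variable {H : Subgroup (Kb ≃ₐ[ℚ] Kb)}
variable {N0 q : ℕ} [NeZero N0] [NeZero q] [NeZero (N0 * q)] [NeZero (N0 * q * q)]
variable {κ : Type} [Field κ] {Y : ThreeValX0.Hyp H N0 q κ}
variable {O : Type*} [CommRing O] [Algebra O (FK H N0)] [Algebra O (FK H (N0 * q))]
  [Algebra O (FK H (N0 * q * q))]
variable {k : Type*} [Field k] [Algebra k κ] {π : O →+* k}
variable {hB : Base Y O π}

/-! ### `hSψ` -/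

section HSpsi

variable {Jc' : κ} (P' : ChartPair hB (x1 H N0 q)⁻¹ (x2 H N0 q)⁻¹ Jc')

/-- `r20` of the chart at infinity at the coordinate `x₂⁻¹` is a power of `J⁻¹` -/
theorem r20_gen_inf (hJc : Y.J⁻¹ ∈ chart k Jc') : ∃ e : ℕ,
    P'.r20 ⟨(x2 H N0 q)⁻¹, gen_mem_chart (O := O) (x2 H N0 q)⁻¹⟩
      = (⟨Y.J⁻¹, hJc⟩ : ↥(chart k Jc')) ^ e := by
  obtain ⟨e, he⟩ := exists_r₂₀_x2_inv hB
  refine ⟨e, Subtype.ext ?_⟩
  rw [ChartPair.coe_r20, SubmonoidClass.coe_pow]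
  exact he

/-- **`hSψ` of `LocX0.hloc_inf`** for `ChartPair.infTDatumOf` -/
theorem hSψ_infOf (hJc : Y.J⁻¹ ∈ chart k Jc') (hφB : ∀ z ∈ chart k Jc', Y.φ z ∈ chart k Jc')
    (hφpow : ∀ z ∈ chart k Jc', ∃ c ∈ chart k Jc', Y.φ c = z ^ q)
    (S : Set (Ideal ↥(chart k Jc')))
    (hSJ : ∀ n ∈ S, (⟨Y.J⁻¹, hJc⟩ : ↥(chart k Jc')) ∉ n)
    (node : ∀ n' n : Ideal ↥(chart k Jc'), n'.IsMaximal → n.IsMaximal →
      (n'.comap P'.red1 = n.comap P'.red2 ↔ n ∈ S ∧ n' = n.comap (ChartPair.φB hφB)))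
    (S_fr : ∀ n ∈ S, n.comap (ChartPair.φB hφB) ∈ S)
    (fr_fr : ∀ n ∈ S, (n.comap (ChartPair.φB hφB)).comap (ChartPair.φB hφB) = n)
    (hrad : ∀ a ∈ chart O (x2 H N0 q)⁻¹, a ∈ Y.W₂₀.nonunits → a ∈ Y.W₁₁.nonunits →
      a ∈ Y.W₀₂.nonunits →
      ∃ N : ℕ, ∃ y ∈ chart O (x2 H N0 q)⁻¹, a ^ N = (q : FK H (N0 * q * q)) * y) :
    ∀ n : Ideal ↥(chart k Jc'), n.IsMaximal →
      n ∈ (P'.infTDatumOf hJc hφB hφpow S hSJ node S_fr fr_fr hrad).S →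
      (P'.infTDatumOf hJc hφB hφpow S hSJ node S_fr fr_fr hrad).r20
        ⟨(x2 H N0 q)⁻¹, gen_mem_chart (O := O) (x2 H N0 q)⁻¹⟩ ∉ n := by
  intro n hn hnS hmem
  obtain ⟨e, he⟩ := r20_gen_inf P' hJc
  have h1 : (⟨Y.J⁻¹, hJc⟩ : ↥(chart k Jc')) ^ e ∈ n := by
    rw [← he]
    exact hmem
  exact hSJ n hnS (hn.isPrime.mem_of_pow_mem e h1)

end HSpsi

/-! ### `hloc ∧ hloc'` at `X₀` -/

section Main

variable [IsDomain O] [IsDiscreteValuationRing O] {K : Type*} [Field K] [Algebra O K]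
  [IsFractionRing O K] [CharZero K] [Algebra K (FK H (N0 * q * q))]
  [IsScalarTower O K (FK H (N0 * q * q))]

variable {Jc Jc' : κ} (P : ChartPair hB (x1 H N0 q) (x2 H N0 q) Jc)
  (P' : ChartPair hB (x1 H N0 q)⁻¹ (x2 H N0 q)⁻¹ Jc')

/-- **`hloc` and `hloc'` of `VChartsOfLoc.exists_vcharts` at `X₀`** (`φ = x₂`, `ϖ = q`), for
helper1's branch data on the two charts, any coordinates `Jc`, `Jc'` of the component -/
theorem hloc_X0_of [IsAlgClosed (IsLocalRing.ResidueField O)]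
    (hq : Irreducible ((q : ℕ) : O))
    (hφ : Transcendental K (x2 H N0 q)) (hφ' : Transcendental K (x2 H N0 q)⁻¹)
    [FiniteDimensional K⟮x2 H N0 q⟯ (FK H (N0 * q * q))]
    [FiniteDimensional K⟮(x2 H N0 q)⁻¹⟯ (FK H (N0 * q * q))]
    -- the branch datum of the finite chart
    (hφB : ∀ z ∈ chart k Jc, Y.φ z ∈ chart k Jc)
    (hφpow : ∀ z ∈ chart k Jc, ∃ c ∈ chart k Jc, Y.φ c = z ^ q)
    (S : Set (Ideal ↥(chart k Jc)))
    (node : ∀ n' n : Ideal ↥(chart k Jc), n'.IsMaximal → n.IsMaximal →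
      (n'.comap P.red1 = n.comap P.red2 ↔ n ∈ S ∧ n' = n.comap (ChartPair.φB hφB)))
    (S_fr : ∀ n ∈ S, n.comap (ChartPair.φB hφB) ∈ S)
    (fr_fr : ∀ n ∈ S, (n.comap (ChartPair.φB hφB)).comap (ChartPair.φB hφB) = n)
    (hrad : ∀ a ∈ chart O (x2 H N0 q), a ∈ Y.W₂₀.nonunits → a ∈ Y.W₁₁.nonunits →
      a ∈ Y.W₀₂.nonunits →
      ∃ N : ℕ, ∃ y ∈ chart O (x2 H N0 q), a ^ N = (q : FK H (N0 * q * q)) * y)
    -- (V12) on the finite chart
    (he20 : BranchEq (RingHom.ker (P.finTDatumOf hφB hφpow S node S_fr fr_fr hrad).r20)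
      (P.finTDatumOf hφB hφpow S node S_fr fr_fr hrad).ϖ)
    (he02 : BranchEq (RingHom.ker (P.finTDatumOf hφB hφpow S node S_fr fr_fr hrad).r02)
      (P.finTDatumOf hφB hφpow S node S_fr fr_fr hrad).ϖ)
    (hpid : ∀ n : Ideal ↥(chart k Jc), n.IsMaximal → LocPID n)
    (h11 : ∀ n : Ideal ↥(chart k Jc), n.IsMaximal →
      n ∉ (P.finTDatumOf hφB hφpow S node S_fr fr_fr hrad).S →
      ∃ z : ↥(chart O (x2 H N0 q)), z ≠ 0 ∧
      z ∈ RingHom.ker (P.finTDatumOf hφB hφpow S node S_fr fr_fr hrad).r11 ∧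
      BranchEq (RingHom.ker (P.finTDatumOf hφB hφpow S node S_fr fr_fr hrad).r11) z ∧
      ∃ (s c : ↥(chart O (x2 H N0 q))) (e : ℕ), 0 < e ∧
        c ∉ (P.finTDatumOf hφB hφpow S node S_fr fr_fr hrad).x11 n ∧
        s * z ^ e = (P.finTDatumOf hφB hφpow S node S_fr fr_fr hrad).ϖ * c)
    (hS : ∀ n : Ideal ↥(chart k Jc), n.IsMaximal →
      n ∈ (P.finTDatumOf hφB hφpow S node S_fr fr_fr hrad).S →
      LocPrincipal (F := FK H (N0 * q * q))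
        ((P.finTDatumOf hφB hφpow S node S_fr fr_fr hrad).x20 n))
    -- the branch datum of the chart at infinity
    (hJc : Y.J⁻¹ ∈ chart k Jc')
    (hφB' : ∀ z ∈ chart k Jc', Y.φ z ∈ chart k Jc')
    (hφpow' : ∀ z ∈ chart k Jc', ∃ c ∈ chart k Jc', Y.φ c = z ^ q)
    (S' : Set (Ideal ↥(chart k Jc')))
    (hSJ : ∀ n ∈ S', (⟨Y.J⁻¹, hJc⟩ : ↥(chart k Jc')) ∉ n)
    (node' : ∀ n' n : Ideal ↥(chart k Jc'), n'.IsMaximal → n.IsMaximal →
      (n'.comap P'.red1 = n.comap P'.red2 ↔ n ∈ S' ∧ n' = n.comap (ChartPair.φB hφB')))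
    (S_fr' : ∀ n ∈ S', n.comap (ChartPair.φB hφB') ∈ S')
    (fr_fr' : ∀ n ∈ S', (n.comap (ChartPair.φB hφB')).comap (ChartPair.φB hφB') = n)
    (hrad' : ∀ a ∈ chart O (x2 H N0 q)⁻¹, a ∈ Y.W₂₀.nonunits → a ∈ Y.W₁₁.nonunits →
      a ∈ Y.W₀₂.nonunits →
      ∃ N : ℕ, ∃ y ∈ chart O (x2 H N0 q)⁻¹, a ^ N = (q : FK H (N0 * q * q)) * y)
    -- (V12) on the chart at infinity
    (he20' : BranchEq
      (RingHom.ker (P'.infTDatumOf hJc hφB' hφpow' S' hSJ node' S_fr' fr_fr' hrad').r20)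
      (P'.infTDatumOf hJc hφB' hφpow' S' hSJ node' S_fr' fr_fr' hrad').ϖ)
    (he02' : BranchEq
      (RingHom.ker (P'.infTDatumOf hJc hφB' hφpow' S' hSJ node' S_fr' fr_fr' hrad').r02)
      (P'.infTDatumOf hJc hφB' hφpow' S' hSJ node' S_fr' fr_fr' hrad').ϖ)
    (hpid' : ∀ n : Ideal ↥(chart k Jc'), n.IsMaximal → LocPID n)
    (h11' : ∀ n : Ideal ↥(chart k Jc'), n.IsMaximal →
      n ∉ (P'.infTDatumOf hJc hφB' hφpow' S' hSJ node' S_fr' fr_fr' hrad').S →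
      (P'.infTDatumOf hJc hφB' hφpow' S' hSJ node' S_fr' fr_fr' hrad').r11
        ⟨(x2 H N0 q)⁻¹, gen_mem_chart (O := O) (x2 H N0 q)⁻¹⟩ ∈ n →
      ∃ z : ↥(chart O (x2 H N0 q)⁻¹), z ≠ 0 ∧
      z ∈ RingHom.ker (P'.infTDatumOf hJc hφB' hφpow' S' hSJ node' S_fr' fr_fr' hrad').r11 ∧
      BranchEq
        (RingHom.ker (P'.infTDatumOf hJc hφB' hφpow' S' hSJ node' S_fr' fr_fr' hrad').r11) z ∧
      ∃ (s c : ↥(chart O (x2 H N0 q)⁻¹)) (e : ℕ), 0 < e ∧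
        c ∉ (P'.infTDatumOf hJc hφB' hφpow' S' hSJ node' S_fr' fr_fr' hrad').x11 n ∧
        s * z ^ e = (P'.infTDatumOf hJc hφB' hφpow' S' hSJ node' S_fr' fr_fr' hrad').ϖ * c) :
    (∀ m : Ideal ↥(chart O (x2 H N0 q)), m.IsMaximal →
      piChart (x2 H N0 q) ((q : ℕ) : O) ∈ m → LocPrincipal (F := FK H (N0 * q * q)) m) ∧
    (∀ m : Ideal ↥(chart O (x2 H N0 q)⁻¹), m.IsMaximal →
      piChart (x2 H N0 q)⁻¹ ((q : ℕ) : O) ∈ m → LocPrincipal (F := FK H (N0 * q * q)) m) := by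
  haveI : CharZero (FK H (N0 * q * q)) :=
    charZero_of_injective_algebraMap (algebraMap K (FK H (N0 * q * q))).injective
  exact LocX0.hloc_both (K := K) hq hφ hφ'
    (algebraMap_natCast_ne_zero (NeZero.ne q))
    (P.finTDatumOf hφB hφpow S node S_fr fr_fr hrad) (natCast_eq_piChart _ q)
    he20 he02 hpid h11 hS
    (P'.infTDatumOf hJc hφB' hφpow' S' hSJ node' S_fr' fr_fr' hrad') (natCast_eq_piChart _ q)
    he20' he02' hpid'
    (hSψ_infOf P' hJc hφB' hφpow' S' hSJ node' S_fr' fr_fr' hrad') h11'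

end Main

end Fermat.Agent.S36.LocX0WireG
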