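/-
PROJECT V (S36), slice V-LocalGenCover (helper7): **chain (V14), X0-free end product: a finite cover
of the special fibre of a chart by principal opens on which `O(D)` is free.**

`A` a chart ring (noetherian integrally closed domain, `F = Frac A`), `ϖ : A`, `n` a divisor with
finite support.  If every maximal ideal containing `ϖ` satisfies `LocalGenCore.LocPrincipal`
(chain (V12): every closed point of the fibre is factorial), then there is a FINITE set `G₀ ⊆ A`
with `span G₀ + (ϖ) = ⊤` and, for every `g ∈ G₀`, a generator `s g` of `divModule n` on `D(g)`: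
exactly the fields `hcover`, `hs0`, `hs_mem`, `hs_gen`, `hi₀` of `SoftCore.Charts` /
`SoftCore.LocalGen` (with `𝒜 = range (algebraMap A F)`, `LU = divModule n`).
-/
import Mathlib
import Fermat.Agent.S36.LocalGenCore

set_option autoImplicit false
set_option linter.unusedSectionVars false
set_option linter.style.haveILetI false
set_option linter.unusedVariables false

namespace Fermat.Agent.S36.LocalGenCover

open Fermat.Agent.S36.KrullInter Fermat.Agent.S36.LocalGenCore

variable {A : Type*} [CommRing A] [IsDomain A] {F : Type*} [Field F] [Algebra A F]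
  [IsFractionRing A F] [IsNoetherianRing A] [IsIntegrallyClosed A]

local notation "ι" => algebraMap A F

/-- `t` generates `divModule n` on the principal open `D(g)` -/
def IsOpenGen (n : Ideal A → ℤ) (g : A) (t : F) : Prop :=
  t ≠ 0 ∧ (∃ e : ℕ, ι g ^ e * t ∈ divModule n) ∧ ∀ x ∈ divModule n, ∃ a : A, ι g * (x / t) = ι a

/-- **(V14) cover.**  A finite cover of the special fibre by principal opens `D(g)`, `g ∈ G₀`, with
a generator `s g` of `O(D)` on each, and one open whose special fibre is not empty. -/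
theorem exists_cover_generators (ϖ : A) (n : Ideal A → ℤ)
    (hfin : {Q : Ideal A | n Q ≠ 0 ∧ ∃ z : F, IsCond Q z}.Finite)
    (hloc : ∀ m : Ideal A, m.IsMaximal → ϖ ∈ m → LocPrincipal (F := F) m)
    (hne : ∃ m : Ideal A, m.IsMaximal ∧ ϖ ∈ m) :
    ∃ (G₀ : Finset A) (s : A → F),
      Ideal.span (G₀ : Set A) ⊔ Ideal.span {ϖ} = ⊤ ∧
      (∀ g ∈ G₀, IsOpenGen n g (s g)) ∧
      ∃ g₀ ∈ G₀, ¬ ∃ (E : ℕ) (a : A), g₀ ^ E = ϖ * a := by
  classical
  let G : Set A := {g | ∃ t : F, IsOpenGen n g t}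
  have hG : ∀ m : Ideal A, m.IsMaximal → ϖ ∈ m → ∃ g ∈ G, g ∉ m := by
    intro m hm hϖ
    haveI := hm.isPrime
    obtain ⟨t, g, ht0, hgm, he, hgen, -⟩ := exists_open_generator m (hloc m hm hϖ) n hfin
    exact ⟨g, ⟨t, ht0, he, hgen⟩, hgm⟩
  obtain ⟨G₀, hG₀, hcover⟩ := exists_finite_cover ϖ G hG
  have hex : ∀ g : A, ∃ t : F, g ∈ G₀ → IsOpenGen n g t := by
    intro g
    by_cases hg : g ∈ G₀
    · obtain ⟨t, ht⟩ := hG₀ hg
      exact ⟨t, fun _ => ht⟩
    · exact ⟨1, fun h => absurd h hg⟩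
  choose s hs using hex
  refine ⟨G₀, s, hcover, hs, ?_⟩
  obtain ⟨m, hm, hϖ⟩ := hne
  haveI := hm.isPrime
  -- some `g₀ ∈ G₀` is outside `m`
  have hex₀ : ∃ g₀ ∈ G₀, g₀ ∉ m := by
    by_contra hcon
    push Not at hcon
    have hle : Ideal.span (G₀ : Set A) ⊔ Ideal.span {ϖ} ≤ m := by
      refine sup_le ?_ ?_
      · rw [Ideal.span_le]
        exact fun g hg => hcon g hg
      · rw [Ideal.span_le, Set.singleton_subset_iff]
        exact hϖ
    rw [hcover] at hle
    exact hm.ne_top (top_le_iff.1 hle)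
  obtain ⟨g₀, hg₀, hg₀m⟩ := hex₀
  refine ⟨g₀, hg₀, ?_⟩
  rintro ⟨E, a, hE⟩
  have h1 : g₀ ^ E ∈ m := by rw [hE]; exact m.mul_mem_right a hϖ
  exact hg₀m (hm.isPrime.mem_of_pow_mem E h1)

/-- the last condition in field form: `ϖ⁻¹` is not a function on `D(g₀)` -/
theorem not_inv_mem_away {ϖ g₀ : A} (hϖ0 : ϖ ≠ 0) (h : ¬ ∃ (E : ℕ) (a : A), g₀ ^ E = ϖ * a) :
    ¬ ∃ (E : ℕ) (a : A), ι g₀ ^ E * (ι ϖ)⁻¹ = ι a := by
  rintro ⟨E, a, hE⟩
  apply h
  refine ⟨E, a, ?_⟩
  apply IsFractionRing.injective A F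
  have hιϖ : ι ϖ ≠ 0 := algebraMap_ne_zero' hϖ0
  rw [map_pow, map_mul, ← hE]
  field_simp

end Fermat.Agent.S36.LocalGenCover
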