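/-
PROJECT V (S36), slice V-MiddleCuspK0 (helper15), part (P3): **`(θ J / J)^(q-1)` is a unit at every
cusp.**

`κ_N = F_k(N) ⊆ k((t))`, `J = jk k N`, `θ = t d/dt`.  From helper17's `HurwitzCount.X0.exists_G`
(`(θ J)^(q-1) = G ∈ k(J) ⊆ κ_N` with `ord_Q G = (q - 1) ord_Q J` at every pole `Q` of `J`):

`exists_theta_unit` : there is `Θ ∈ κ_N` with `t`-expansion `(θ J / J)^(q-1)` (in `DiagTheta.theta`
form, the right-hand side of `MiddleCuspK0.isRed_thick_unit_j`) and `ord_Q Θ = 0` at every pole `Q`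
of `J` — the input `c_unit` of `B0Thick.Hyp.Res` at the middle cusps (chain (V12)(ii')).
-/
import Mathlib
import Fermat.Agent.S36.HurwitzCount.X0
import Fermat.Agent.S36.DiagTheta

set_option autoImplicit false
set_option linter.unusedSectionVars false
set_option linter.style.haveILetI false

noncomputable section

namespace Fermat.Agent.S36.MiddleCuspTheta

open ModularCurve AlgebraicCurve IntermediateField
open Fermat.Agent.S18.B.FkBasics (jk isFF)
open Fermat.Agent.S18.A.FibreSep
open Fermat.Agent.S36.ThetaL Fermat.Agent.S36.DiagTheta Fermat.Agent.S36.HurwitzCount.X0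

/-- the two Euler derivations of the tree coincide -/
theorem theta_eq_thetaL {R : Type*} [CommRing R] (f : LaurentSeries R) : theta f = thetaL f := by
  ext n
  rw [coeff_theta, coeff_thetaL]

local notation "Kb" => AlgebraicClosure ℚ

variable {q : ℕ} [hq : Fact q.Prime] [NeZero q] {A : ValuationSubring Kb}

set_option synthInstance.maxHeartbeats 400000 in
set_option maxHeartbeats 1000000 in
/-- **`(θ J / J)^(q-1)` lies in `κ_N` and has order `0` at every cusp** -/
theorem exists_theta_unit (hA : A.LiesOverPrime q) (N : ℕ) [NeZero N]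
    [IsAlgClosed (IsLocalRing.ResidueField ↥A)]
    (hsep : Algebra.IsSeparable (IsLocalRing.ResidueField ↥A)⟮jk (IsLocalRing.ResidueField ↥A) N⟯
      ↥(modularFunctionFieldFullC (IsLocalRing.ResidueField ↥A) N)) :
    ∃ Θ : ↥(modularFunctionFieldFullC (IsLocalRing.ResidueField ↥A) N), Θ ≠ 0 ∧
      (theta ((jk (IsLocalRing.ResidueField ↥A) N :
          ↥(modularFunctionFieldFullC (IsLocalRing.ResidueField ↥A) N)) :
            LaurentSeries (IsLocalRing.ResidueField ↥A)) /
        ((jk (IsLocalRing.ResidueField ↥A) N :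
          ↥(modularFunctionFieldFullC (IsLocalRing.ResidueField ↥A) N)) :
            LaurentSeries (IsLocalRing.ResidueField ↥A))) ^ (q - 1) =
        (Θ : LaurentSeries (IsLocalRing.ResidueField ↥A)) ∧
      ∀ Q : Place (IsLocalRing.ResidueField ↥A)
          ↥(modularFunctionFieldFullC (IsLocalRing.ResidueField ↥A) N),
        Q.ord (jk (IsLocalRing.ResidueField ↥A) N) < 0 → Q.ord Θ = 0 := by
  obtain ⟨G, hG0, -, hDx, -, hGpole⟩ := exists_G (q := q) hA N hsep
  have hj0 : jk (IsLocalRing.ResidueField ↥A) N ≠ 0 :=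
    (isFF (IsLocalRing.ResidueField ↥A) N).ne_zero
  refine ⟨G / jk (IsLocalRing.ResidueField ↥A) N ^ (q - 1),
    div_ne_zero hG0 (pow_ne_zero _ hj0), ?_, ?_⟩
  · rw [thetaDer_apply] at hDx
    rw [div_pow, theta_eq_thetaL, hDx]
    rfl
  · intro Q hQ
    have hQp : Q ∈ poles (isFF (IsLocalRing.ResidueField ↥A) N) hsep :=
      (mem_poles_iff_ord_neg _ hsep Q).mpr hQ
    rw [div_eq_mul_inv, Q.ord_mul hG0 (inv_ne_zero (pow_ne_zero _ hj0)), Q.ord_inv,
      hGpole Q hQp, ← zpow_natCast, Q.ord_zpow]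
    ring

end Fermat.Agent.S36.MiddleCuspTheta
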