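/-
PROJECT V (S36), slice V-MiddleCuspUnit (helper15), part 2: **at a middle cusp, `j(q²τ)/j(τ)` is a
unit of the local ring of the model.**

Chain (V12)(ii'), the caveat (C1) of the referee report #2589.  At a middle-cusp point `m = x₁₁(n)`
of the chart `Ainf₂` of the level-`q² M''` model the local equation of the thick component is
`z₀ = j₂/j₀ - 1 = s₀/s₂ - 1` (`s_i = 1/j_i ∈ Ainf₂`), which is NOT an element of the chart ring.
`B0Thick.Hyp` and `AllPoints.h11` want `z : A`, so one needs `u = s₀/s₂ ∈ (A_m)ˣ`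
(then `z := τ - σ`, `σ s₀ = τ s₂`, `σ τ ∉ m`).

Abstract statement.  `A` a noetherian integrally closed domain, `F = Frac A`, `m` a prime,
`s₀ s₁ s₂ ∈ A` nonzero with `P(1/s₁; 1/s₀) = 0 = P(1/s₂; 1/s₁)` for a polynomial `P` of modular
shape (`ModShape.IsModShape`; `P = Φ_q`), and

* `nonunit₂` : `s₁^q / s₂` is not a unit at `m` (if `s s₁^q = a s₂`, `s ∉ m`, then `a ∈ m`);
* `nonunit₀` : `s₁^q / s₀` is not a unit at `m`

(both follow from a reduction `r : A → B` with `m = r⁻¹ n`, `r s₀ = S = r s₂`, `r s₁ = S^q`,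
`S ∈ n`: `Hyp.of_red`).  Then (`Hyp.exists_unit`) there are `σ τ ∉ m` with `σ s₀ = τ s₂`.

Proof: for every conductor prime `Q ≤ m` the three Newton patterns of `∞`-type, `0`-type and
back-tracking type force `s₁^q/s₂ ≡ 1` or `s₁^q/s₀ ≡ 1` modulo `m_{V_Q}`, while both elements lie in
`A_m` (local Krull intersection (C0), all patterns give valuation `≤ 1`) and are non-units there:
impossible.  So `V_Q(s₀) = V_Q(s₂)` for all `Q ≤ m`, and (C0) again.
-/
import Mathlib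
import Fermat.Agent.S36.NakElement
import Fermat.Agent.S36.ModShape

set_option autoImplicit false
set_option linter.unusedSectionVars false
set_option linter.style.haveILetI false
set_option linter.unusedVariables false

namespace Fermat.Agent.S36.MiddleCuspUnit

open Fermat.Agent.S36.KrullInter Fermat.Agent.S36.NakElement Fermat.Agent.S36.ModShape

variable {A : Type*} [CommRing A] [IsDomain A] {F : Type*} [Field F] [Algebra A F]
  [IsFractionRing A F]

local notation "ι" => algebraMap A F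

/-! ### valuations attached to conductor primes -/

section Cond

variable [IsNoetherianRing A] [IsIntegrallyClosed A] {Q : Ideal A} {y : F}

theorem valuation_algebraMap_le_one (h : IsCond Q y) (a : A) :
    h.valuationSubring.valuation (ι a) ≤ 1 :=
  (h.valuationSubring.valuation_le_one_iff _).mpr (h.algebraMap_mem a)

theorem one_le_valuation_inv (h : IsCond Q y) {a : A} (ha : a ≠ 0) :
    1 ≤ h.valuationSubring.valuation (ι a)⁻¹ := by
  have h0 : h.valuationSubring.valuation (ι a) ≠ 0 :=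
    (Valuation.ne_zero_iff _).mpr (algebraMap_ne_zero' ha)
  rw [map_inv₀]
  exact (one_le_inv₀ (zero_lt_iff.mpr h0)).mpr (valuation_algebraMap_le_one h a)

/-- the centre of `V_Q` is `Q`, in valuation form -/
theorem mem_iff_valuation_lt_one (h : IsCond Q y) {a : A} (ha : a ≠ 0) :
    a ∈ Q ↔ h.valuationSubring.valuation (ι a) < 1 := by
  haveI := h.prime
  have h0 : h.valuationSubring.valuation (ι a) ≠ 0 :=
    (Valuation.ne_zero_iff _).mpr (algebraMap_ne_zero' ha)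
  rw [h.mem_iff_inv_not_mem ha]
  have e : (ι a)⁻¹ ∈ locSubring (F := F) Q ↔ (ι a)⁻¹ ∈ h.valuationSubring := Iff.rfl
  rw [e, ← h.valuationSubring.valuation_le_one_iff, map_inv₀, not_le,
    one_lt_inv₀ (zero_lt_iff.mpr h0)]

end Cond

/-! ### the hypotheses -/

/-- the hypotheses at a middle-cusp point -/
structure Hyp (F : Type*) [Field F] [Algebra A F] (m : Ideal A) (q : ℕ)
    (P : Polynomial (Polynomial ℤ)) (s₀ s₁ s₂ : A) : Prop where
  shape : IsModShape q P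
  two_le : 2 ≤ q
  ne₀ : s₀ ≠ 0
  ne₁ : s₁ ≠ 0
  ne₂ : s₂ ≠ 0
  rel₁ : evalXY P (algebraMap A F s₁)⁻¹ (algebraMap A F s₀)⁻¹ = 0
  rel₂ : evalXY P (algebraMap A F s₂)⁻¹ (algebraMap A F s₁)⁻¹ = 0
  nonunit₂ : ∀ a s : A, s ∉ m → s * s₁ ^ q = a * s₂ → a ∈ m
  nonunit₀ : ∀ a s : A, s ∉ m → s * s₁ ^ q = a * s₀ → a ∈ m

variable {m : Ideal A} {q : ℕ} {P : Polynomial (Polynomial ℤ)} {s₀ s₁ s₂ : A}

omit [IsFractionRing A F] in
/-- the non-unit hypotheses from a reduction map: `r s₀ = S = r s₂`, `r s₁ = S^q`, `S ∈ n`,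
`m = r⁻¹ n` -/
theorem Hyp.of_red {B : Type*} [CommRing B] [IsDomain B] (r : A →+* B) (n : Ideal B)
    [hn : n.IsPrime] (hm : m = n.comap r) (hP : IsModShape q P) (hq : 2 ≤ q)
    (h₀ : s₀ ≠ 0) (h₁ : s₁ ≠ 0) (h₂ : s₂ ≠ 0)
    (rel₁ : evalXY P (algebraMap A F s₁)⁻¹ (algebraMap A F s₀)⁻¹ = 0)
    (rel₂ : evalXY P (algebraMap A F s₂)⁻¹ (algebraMap A F s₁)⁻¹ = 0)
    {S : B} (hS0 : S ≠ 0) (hSn : S ∈ n) (hr₀ : r s₀ = S) (hr₁ : r s₁ = S ^ q) (hr₂ : r s₂ = S) :
    Hyp F m q P s₀ s₁ s₂ := by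
  have key : ∀ t : A, r t = S → ∀ a s : A, s ∉ m → s * s₁ ^ q = a * t → a ∈ m := by
    intro t ht a s hs hrel
    have h1 : r s * (S ^ q) ^ q = r a * S := by
      rw [← hr₁, ← ht, ← map_pow, ← map_mul, ← map_mul, hrel]
    have h2 : (S ^ q) ^ q = S ^ (q * q - 1) * S := by
      rw [← pow_mul, ← pow_succ]
      congr 1
      have : 1 ≤ q * q := by nlinarith
      omega
    rw [h2, ← mul_assoc] at h1
    have h3 : r s * S ^ (q * q - 1) = r a := mul_right_cancel₀ hS0 h1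
    rw [hm, Ideal.mem_comap, ← h3]
    refine n.mul_mem_left _ (Ideal.pow_mem_of_mem n hSn _ ?_)
    have : 4 ≤ q * q := by nlinarith
    omega
  exact ⟨hP, hq, h₀, h₁, h₂, rel₁, rel₂, key s₂ hr₂, key s₀ hr₀⟩

variable [IsNoetherianRing A] [IsIntegrallyClosed A]

namespace Hyp

variable (H : Hyp F m q P s₀ s₁ s₂)

include H

/-- the Newton trichotomy on a conductor valuation ring, in terms of `f = s₁^q/s₂`,
`f' = s₁^q/s₀` -/
theorem three_step {Q : Ideal A} {y : F} (h : IsCond Q y) :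
    h.valuationSubring.valuation (ι s₁ ^ q / ι s₂) ≤ 1 ∧
    h.valuationSubring.valuation (ι s₁ ^ q / ι s₀) ≤ 1 ∧
    (h.valuationSubring.valuation (ι s₀) = h.valuationSubring.valuation (ι s₂) ∨
      h.valuationSubring.valuation (ι s₁ ^ q / ι s₂ - 1) < 1 ∨
      h.valuationSubring.valuation (ι s₁ ^ q / ι s₀ - 1) < 1) := by
  have h3 := ModShape.three_step h.valuationSubring.valuation H.shape H.two_le
    (one_le_valuation_inv h H.ne₀) (one_le_valuation_inv h H.ne₁) (one_le_valuation_inv h H.ne₂)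
    H.rel₁ H.rel₂
  have i0 : ι s₀ ≠ 0 := algebraMap_ne_zero' H.ne₀
  have i1 : ι s₁ ≠ 0 := algebraMap_ne_zero' H.ne₁
  have i2 : ι s₂ ≠ 0 := algebraMap_ne_zero' H.ne₂
  have e2 : (ι s₂)⁻¹ / (ι s₁)⁻¹ ^ q = ι s₁ ^ q / ι s₂ := by
    rw [inv_pow, div_eq_mul_inv, inv_inv, mul_comm, div_eq_mul_inv]
  have e0 : (ι s₀)⁻¹ / (ι s₁)⁻¹ ^ q = ι s₁ ^ q / ι s₀ := by
    rw [inv_pow, div_eq_mul_inv, inv_inv, mul_comm, div_eq_mul_inv]
  rw [e2, e0] at h3
  refine ⟨h3.1, h3.2.1, ?_⟩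
  rcases h3.2.2 with h4 | h4 | h4
  · left
    rw [map_inv₀, map_inv₀, inv_inj] at h4
    exact h4
  · exact Or.inr (Or.inl h4)
  · exact Or.inr (Or.inr h4)

variable [hm : m.IsPrime]

/-- `f = s₁^q / s₂` lies in `A_m`, as a non-unit -/
theorem exists_f₂ : ∃ s a : A, s ∉ m ∧ a ∈ m ∧ ι s * (ι s₁ ^ q / ι s₂) = ι a := by
  have hmem : ∃ s : A, s ∉ m ∧ ∃ a : A, ι s * (ι s₁ ^ q / ι s₂) = ι a := by
    by_contra hcon
    obtain ⟨Q, y, h, hQm, hx⟩ := exists_isCond_le_not_mem m hcon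
    exact hx ((h.valuationSubring.valuation_le_one_iff _).mp (H.three_step h).1)
  obtain ⟨s, hs, a, ha⟩ := hmem
  refine ⟨s, a, hs, H.nonunit₂ a s hs ?_, ha⟩
  apply IsFractionRing.injective A F
  have i2 : ι s₂ ≠ 0 := algebraMap_ne_zero' H.ne₂
  rw [map_mul, map_mul, map_pow, ← ha]
  field_simp

/-- `f' = s₁^q / s₀` lies in `A_m`, as a non-unit -/
theorem exists_f₀ : ∃ s a : A, s ∉ m ∧ a ∈ m ∧ ι s * (ι s₁ ^ q / ι s₀) = ι a := by
  have hmem : ∃ s : A, s ∉ m ∧ ∃ a : A, ι s * (ι s₁ ^ q / ι s₀) = ι a := by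
    by_contra hcon
    obtain ⟨Q, y, h, hQm, hx⟩ := exists_isCond_le_not_mem m hcon
    exact hx ((h.valuationSubring.valuation_le_one_iff _).mp (H.three_step h).2.1)
  obtain ⟨s, hs, a, ha⟩ := hmem
  refine ⟨s, a, hs, H.nonunit₀ a s hs ?_, ha⟩
  apply IsFractionRing.injective A F
  have i0 : ι s₀ ≠ 0 := algebraMap_ne_zero' H.ne₀
  rw [map_mul, map_mul, map_pow, ← ha]
  field_simp

omit H [IsNoetherianRing A] [IsIntegrallyClosed A] in
/-- a non-unit of `A_m` is not `≡ 1` modulo a conductor prime inside `m` -/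
theorem not_valuation_sub_one_lt [IsNoetherianRing A] [IsIntegrallyClosed A] {Q : Ideal A} {y : F}
    (h : IsCond Q y) (hQm : Q ≤ m) {f : F} {s a : A} (hs : s ∉ m) (ha : a ∈ m)
    (hf : ι s * f = ι a) : ¬ h.valuationSubring.valuation (f - 1) < 1 := by
  intro hlt
  have hs0 : s ≠ 0 := fun h0 => hs (h0 ▸ m.zero_mem)
  have his : ι s ≠ 0 := algebraMap_ne_zero' hs0
  have has : a - s ∉ m := fun hmem => hs (by
    have := m.sub_mem ha hmem
    rwa [sub_sub_cancel] at this)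
  have has0 : a - s ≠ 0 := fun h0 => has (h0 ▸ m.zero_mem)
  have e : ι (a - s) = ι s * (f - 1) := by
    rw [map_sub, mul_sub, mul_one, hf]
  have h1 : h.valuationSubring.valuation (ι (a - s)) < 1 := by
    rw [e, map_mul]
    calc h.valuationSubring.valuation (ι s) * h.valuationSubring.valuation (f - 1)
        ≤ 1 * h.valuationSubring.valuation (f - 1) :=
          mul_le_mul_left (valuation_algebraMap_le_one h s) _
      _ = h.valuationSubring.valuation (f - 1) := one_mul _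
      _ < 1 := hlt
  exact has (hQm ((mem_iff_valuation_lt_one h has0).mpr h1))

/-- on every conductor valuation ring centred inside `m`, `s₀` and `s₂` have the same valuation -/
theorem valuation_eq {Q : Ideal A} {y : F} (h : IsCond Q y) (hQm : Q ≤ m) :
    h.valuationSubring.valuation (ι s₀) = h.valuationSubring.valuation (ι s₂) := by
  obtain ⟨s, a, hs, ha, hf⟩ := H.exists_f₂
  obtain ⟨s', a', hs', ha', hf'⟩ := H.exists_f₀
  rcases (H.three_step h).2.2 with h4 | h4 | h4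
  · exact h4
  · exact absurd h4 (not_valuation_sub_one_lt h hQm hs ha hf)
  · exact absurd h4 (not_valuation_sub_one_lt h hQm hs' ha' hf')

/-- **`s₀ / s₂` is a unit at the middle-cusp point** -/
theorem exists_unit : ∃ σ τ : A, σ ∉ m ∧ τ ∉ m ∧ σ * s₀ = τ * s₂ := by
  have i0 : ι s₀ ≠ 0 := algebraMap_ne_zero' H.ne₀
  have i2 : ι s₂ ≠ 0 := algebraMap_ne_zero' H.ne₂
  have v0 : ∀ {Q : Ideal A} {y : F} (h : IsCond Q y),
      h.valuationSubring.valuation (ι s₂) ≠ 0 := fun h => (Valuation.ne_zero_iff _).mpr i2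
  have hu : ∃ σ : A, σ ∉ m ∧ ∃ τ : A, ι σ * (ι s₀ / ι s₂) = ι τ := by
    by_contra hcon
    obtain ⟨Q, y, h, hQm, hx⟩ := exists_isCond_le_not_mem m hcon
    apply hx
    rw [← h.valuationSubring.valuation_le_one_iff, map_div₀, H.valuation_eq h hQm,
      div_self (v0 h)]
  have hu' : ∃ σ : A, σ ∉ m ∧ ∃ τ : A, ι σ * (ι s₂ / ι s₀) = ι τ := by
    by_contra hcon
    obtain ⟨Q, y, h, hQm, hx⟩ := exists_isCond_le_not_mem m hcon
    apply hx
    rw [← h.valuationSubring.valuation_le_one_iff, map_div₀, H.valuation_eq h hQm,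
      div_self (v0 h)]
  obtain ⟨σ, hσ, τ, hτ⟩ := hu
  obtain ⟨σ', hσ', τ', hτ'⟩ := hu'
  have e1 : σ * s₀ = τ * s₂ := by
    apply IsFractionRing.injective A F
    rw [map_mul, map_mul, ← hτ]
    field_simp
  have e2 : σ' * s₂ = τ' * s₀ := by
    apply IsFractionRing.injective A F
    rw [map_mul, map_mul, ← hτ']
    field_simp
  refine ⟨σ, τ, hσ, ?_, e1⟩
  intro hτm
  have e3 : σ * σ' * (s₀ * s₂) = τ * τ' * (s₀ * s₂) := by
    calc σ * σ' * (s₀ * s₂) = (σ * s₀) * (σ' * s₂) := by ring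
      _ = (τ * s₂) * (τ' * s₀) := by rw [e1, e2]
      _ = τ * τ' * (s₀ * s₂) := by ring
  have e4 : σ * σ' = τ * τ' := mul_right_cancel₀ (mul_ne_zero H.ne₀ H.ne₂) e3
  have h5 : σ * σ' ∈ m := by
    rw [e4]
    exact m.mul_mem_right _ hτm
  exact (hm.mem_or_mem h5).elim hσ hσ'

/-- **the local equation `s₀/s₂ - 1` of the thick component, with its denominator cleared**:
`z = σ (s₀/s₂ - 1) ∈ A` with `σ ∉ m` and `σ + z ∉ m` (`σ + z = τ`, `σ s₀ = τ s₂`). -/
theorem exists_local_eq : ∃ σ z : A, σ ∉ m ∧ σ + z ∉ m ∧ σ * s₀ = (σ + z) * s₂ ∧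
    ι z = ι σ * (ι s₀ / ι s₂ - 1) := by
  obtain ⟨σ, τ, hσ, hτ, e⟩ := H.exists_unit
  have i2 : ι s₂ ≠ 0 := algebraMap_ne_zero' H.ne₂
  refine ⟨σ, τ - σ, hσ, by rwa [add_sub_cancel], by rwa [add_sub_cancel], ?_⟩
  have e' : ι σ * ι s₀ = ι τ * ι s₂ := by rw [← map_mul, ← map_mul, e]
  rw [map_sub, mul_sub, mul_one, mul_div_assoc', e', mul_div_cancel_right₀ _ i2]

/-- the relation `z^k = ϖ c` transported to the cleared local equation: if
`(s₀/s₂ - 1)^k = ϖ c₀` in `F` then `z^k = ϖ (σ^k c₀)` -/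
theorem exists_local_eq_pow {ϖ : A} {c₀ : F} {k : ℕ}
    (hrel : (ι s₀ / ι s₂ - 1) ^ k = ι ϖ * c₀) :
    ∃ σ z : A, σ ∉ m ∧ σ + z ∉ m ∧ σ * s₀ = (σ + z) * s₂ ∧
      ι z = ι σ * (ι s₀ / ι s₂ - 1) ∧ ι z ^ k = ι ϖ * (ι σ ^ k * c₀) := by
  obtain ⟨σ, z, hσ, hτ, e, hz⟩ := H.exists_local_eq
  refine ⟨σ, z, hσ, hτ, e, hz, ?_⟩
  rw [hz, mul_pow, hrel]
  ring

end Hyp

end Fermat.Agent.S36.MiddleCuspUnit
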