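/-
PROJECT V (S36), slice V-MidCuspUnit (helper13), part 1: **the `Y`-degrees of the coefficients of
the modular polynomial, and the weighted integrality `j(t^q) / j(t)^q ∈ ℤ[1/j(t)]~`.**

Input of chain (V12)(ii') (helper5's caveat (C1) in #2589): at a middle-cusp point `m` of the thick
component one needs `u = j₂/j₀ ∈ (A_m)ˣ`.  Elementary route: `g₀₁ = j₁/j₀^q` and `g₂₁ = j₁/j₂^q`
are integral over `ℤ[1/j₀]` resp. `ℤ[1/j₂]` (THIS FILE), hence lie in the chart ring at infinity;
both reduce to `1` on the thick component, so they are units at `m`, `u^q = g₀₁/g₂₁` is a unit at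
`m` and `A_m` is integrally closed.

* `valuation_coeff_prod_le` : the coefficients of `∏ (X - r_b)` in a valued field, `v(r_b) ≤ S`.
* `natDegree_coeff_le` : for `Φ ∈ ℤ[Y][X]` with `Φ(X, j(t)) = rPoly q ℤ` (the Kronecker polynomial
  of `S34/Kronecker`): `deg_Y (Φ.coeff i) ≤ q (q + 1 - i)` for `i ≤ q`.  Proof: after `t ↦ t^q` and
  base change to `ℚ̄` the roots are `j(t^(q²))` and `j(ζ^b t)`, of `t`-order `≥ -q²`.
* `isIntegral_div_pow` (abstract): `Φ` monic of degree `n` in `X` with
  `deg_Y (Φ.coeff i) ≤ w (n - i)`, `Φ(x, y) = 0`, `y ≠ 0` ⟹ `x / y^w` is integral over `ℤ[y⁻¹]`.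
* `div_pow_mem_chart` : the combination, `x / y^q ∈ chart ℤ y⁻¹` for every root `x` of `Φ(X, y)`.
* `mem_chart_inv_prod_of_int` : transfer to `chart O (∏ j)⁻¹` for a symmetric family (SymChart).
-/
import Mathlib
import Fermat.Agent.S28.ModPoly
import Fermat.Agent.S37.Cusps.LaurentVal
import Fermat.Agent.S36.SymChart

set_option autoImplicit false
set_option linter.unusedSectionVars false
set_option linter.style.haveILetI false
set_option linter.unusedVariables false

noncomputable section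

namespace Fermat.Agent.S36.ModPolyDegree

open Polynomial ModularCurve WithZero
open Fermat.Agent.S28.ModPoly Fermat.Agent.S28.LaurentRescale Fermat.Agent.S37.Cusps.LaurentVal
open Fermat.Agent.S36.ChartRing

/-! ### coefficients of a product of linear factors in a valued field -/

section Prod

variable {K : Type*} [Field K] {Γ : Type*} [LinearOrderedCommGroupWithZero Γ] (v : Valuation K Γ)

/-- the coefficients of `∏ (X - r_b)` when all `v(r_b) ≤ S`, `1 ≤ S` -/
theorem valuation_coeff_prod_le {ι : Type*} [DecidableEq ι] {S : Γ} (hS : 1 ≤ S) (r : ι → K)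
    (s : Finset ι) (hr : ∀ b ∈ s, v (r b) ≤ S) (i : ℕ) (hi : i ≤ s.card) :
    v ((∏ b ∈ s, (X - C (r b))).coeff i) ≤ S ^ (s.card - i) := by
  induction s using Finset.induction_on generalizing i with
  | empty =>
    have hi0 : i = 0 := by simpa using hi
    subst hi0
    simp
  | insert a s ha ih =>
    have hrs : ∀ b ∈ s, v (r b) ≤ S := fun b hb => hr b (Finset.mem_insert_of_mem hb)
    have hra : v (r a) ≤ S := hr a (Finset.mem_insert_self a s)
    rw [Finset.prod_insert ha, Finset.card_insert_of_notMem ha]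
    rw [Finset.card_insert_of_notMem ha] at hi
    set Q : K[X] := ∏ b ∈ s, (X - C (r b)) with hQ
    have hQdeg : Q.natDegree = s.card := natDegree_finsetProd_X_sub_C_eq_card s r
    rcases Nat.eq_zero_or_pos i with h0 | hpos
    · subst h0
      rw [mul_coeff_zero, coeff_sub, coeff_X_zero, coeff_C_zero, zero_sub, map_mul,
        Valuation.map_neg, Nat.sub_zero, pow_succ, mul_comm]
      exact mul_le_mul' (by simpa using ih hrs 0 (Nat.zero_le _)) hra
    · obtain ⟨j, rfl⟩ := Nat.exists_eq_succ_of_ne_zero hpos.ne'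
      have hj : j ≤ s.card := Nat.le_of_succ_le_succ hi
      rw [coeff_X_sub_C_mul, Nat.succ_sub_succ]
      refine (v.map_sub _ _).trans (max_le (ih hrs j hj) ?_)
      rw [map_mul]
      rcases Nat.lt_or_ge j s.card with hlt | hge
      · have h1 := ih hrs (j + 1) hlt
        have h2 : s.card - j = (s.card - (j + 1)) + 1 := by omega
        rw [h2, pow_succ, mul_comm]
        exact mul_le_mul' h1 hra
      · have h1 : Q.coeff (j + 1) = 0 :=
          coeff_eq_zero_of_natDegree_lt (by rw [hQdeg]; omega)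
        rw [h1, map_zero, mul_zero]
        exact zero_le

end Prod

/-! ### the `t`-adic valuation is trivial on the constants -/

section Laurent

variable (k : Type*) [Field k]

instance isTrivialOn_laurent :
    Valuation.IsTrivialOn k (Valued.v : Valuation (LaurentSeries k) ℤᵐ⁰) where
  eq_one a ha := by
    have h1 : algebraMap k (LaurentSeries k) a = HahnSeries.single 0 a :=
      algebraMap_eq_single a
    have hne : (HahnSeries.single (0 : ℤ) a : LaurentSeries k) ≠ 0 :=
      HahnSeries.single_ne_zero ha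
    rw [h1, valuation_eq_exp_neg_order hne, HahnSeries.order_single ha, neg_zero, exp_zero]

theorem valuation_qExpand_jqModC (m : ℕ) [NeZero m] :
    (Valued.v (qExpand k m (jqModC k)) : ℤᵐ⁰) = exp (1 : ℤ) ^ m := by
  have hne : qExpand k m (jqModC k) ≠ 0 := fun h =>
    jqModC_ne_zero_of_nontrivial k (qExpand_injective m (by rw [h, map_zero]))
  rw [valuation_eq_exp_neg_order hne, order_qExpand m (jqModC_ne_zero_of_nontrivial k),
    order_jqModC, ← exp_nsmul]
  congr 1
  simp

theorem valuation_rescaleU_jqModC (u : kˣ) :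
    (Valued.v (rescaleU u (jqModC k)) : ℤᵐ⁰) = exp (1 : ℤ) := by
  rw [valuation_rescaleU, valuation_eq_exp_neg_order (jqModC_ne_zero_of_nontrivial k),
    order_jqModC, neg_neg]

theorem one_lt_exp_one : (1 : ℤᵐ⁰) < exp (1 : ℤ) := by
  rw [← exp_zero, exp_lt_exp]
  exact zero_lt_one

end Laurent

/-! ### the degree bound -/

section Degree

variable (q : ℕ) [hq : Fact q.Prime]

local notation "Kb" => AlgebraicClosure ℚ

/-- **the `Y`-degrees of the coefficients of the modular polynomial**: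
`deg_Y (Φ.coeff i) ≤ q (q + 1 - i)`. -/
theorem natDegree_coeff_le {Φ : Polynomial (Polynomial ℤ)}
    (hΦ : Φ.map (evalL ℤ (jqModC ℤ)) = rPoly q ℤ) (i : ℕ) (hi : i ≤ q + 1) :
    (Φ.coeff i).natDegree ≤ q * (q + 1 - i) := by
  classical
  haveI : NeZero q := ⟨hq.out.ne_zero⟩
  haveI : NeZero (q ^ 2) := ⟨pow_ne_zero 2 hq.out.ne_zero⟩
  -- a primitive `q`-th root of unity in `ℚ̄`
  haveI : NeZero ((q : ℕ) : Kb) := ⟨Nat.cast_ne_zero.mpr hq.out.ne_zero⟩
  obtain ⟨ζ0, hζ0⟩ := HasEnoughRootsOfUnity.exists_primitiveRoot Kb q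
  have hζ0u : IsUnit ζ0 := hζ0.isUnit hq.out.ne_zero
  obtain ⟨ζ, rfl⟩ := hζ0u
  have hζ : IsPrimitiveRoot ζ q := IsPrimitiveRoot.coe_units_iff.mp hζ0
  -- the factorisation after `t ↦ t^q`
  set J' : LaurentSeries Kb := qExpand Kb q (jqModC Kb) with hJ'
  have hfac : (Φ.map (Polynomial.mapRingHom (Int.castRingHom Kb))).map (evalL Kb J') =
      (X - C (qExpand Kb (q ^ 2) (jqModC Kb))) *
        ∏ b ∈ Finset.range q, (X - C (rescaleU (ζ ^ b) (jqModC Kb))) := by
    rw [hJ', ← qExpand_comp_evalL, ← Polynomial.map_map, map_map_evalL q Kb Φ hΦ, rPoly,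
      Polynomial.map_mul, Polynomial.map_sub, Polynomial.map_X, Polynomial.map_C,
      map_qExpand_gPoly q Kb hζ, qExpand_qExpand]
    congr 3
    exact qExpand_congr (by ring) _
  -- write the right-hand side as a product over `Option (Fin q)`-like index: use `insert`
  set E : ℤᵐ⁰ := exp (1 : ℤ) with hE
  have hE1 : (1 : ℤᵐ⁰) < E := one_lt_exp_one
  set S : ℤᵐ⁰ := E ^ q with hSdef
  have hS1 : (1 : ℤᵐ⁰) < S := one_lt_pow₀ hE1 hq.out.ne_zero
  -- roots: index set `range (q + 1)`, the last one being `j(t^(q²))`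
  let r : ℕ → LaurentSeries Kb := fun b =>
    if b = q then qExpand Kb (q ^ 2) (jqModC Kb) else rescaleU (ζ ^ b) (jqModC Kb)
  have hprod : (X - C (qExpand Kb (q ^ 2) (jqModC Kb))) *
        ∏ b ∈ Finset.range q, (X - C (rescaleU (ζ ^ b) (jqModC Kb))) =
      ∏ b ∈ Finset.range (q + 1), (X - C (r b)) := by
    rw [Finset.prod_range_succ, mul_comm]
    congr 1
    · refine Finset.prod_congr rfl fun b hb => ?_
      have hbq : b ≠ q := (Finset.mem_range.mp hb).ne
      simp only [r, if_neg hbq]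
    · simp only [r, if_pos rfl]
  have hroot : ∀ b ∈ Finset.range (q + 1), (Valued.v (r b) : ℤᵐ⁰) ≤ S ^ q := by
    intro b _
    by_cases hbq : b = q
    · simp only [r, if_pos hbq]
      rw [valuation_qExpand_jqModC, hSdef, ← pow_mul, pow_two]
    · simp only [r, if_neg hbq]
      rw [valuation_rescaleU_jqModC, hSdef, ← pow_mul]
      exact le_self_pow₀ hE1.le (Nat.mul_ne_zero hq.out.ne_zero hq.out.ne_zero)
  have hbound := valuation_coeff_prod_le (Valued.v : Valuation (LaurentSeries Kb) ℤᵐ⁰)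
    (one_le_pow₀ hS1.le) r (Finset.range (q + 1)) hroot i (by rw [Finset.card_range]; exact hi)
  rw [← hprod, ← hfac, Finset.card_range, Polynomial.coeff_map, Polynomial.coeff_map,
    ← pow_mul] at hbound
  -- the left-hand side is `v(J')^(deg)`
  set φ : Polynomial Kb := (Φ.coeff i).map (Int.castRingHom Kb) with hφ
  have hdeg : φ.natDegree = (Φ.coeff i).natDegree :=
    Polynomial.natDegree_map_eq_of_injective (RingHom.injective_int (Int.castRingHom Kb)) _
  by_cases h0 : Φ.coeff i = 0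
  · rw [h0, natDegree_zero]
    exact Nat.zero_le _
  have hφ0 : φ ≠ 0 := by
    rw [hφ, Ne, Polynomial.map_eq_zero_iff (RingHom.injective_int (Int.castRingHom Kb))]
    exact h0
  have hvJ : (Valued.v J' : ℤᵐ⁰) = S := by
    rw [hJ', valuation_qExpand_jqModC]
  have hval : (Valued.v (evalL Kb J' φ) : ℤᵐ⁰) = S ^ φ.natDegree := by
    rw [← aeval_toRingHom_eq_evalL]
    have := Polynomial.valuation_aeval_eq_valuation_X_pow_natDegree_of_one_lt_valuation_X
      (v := (Valued.v : Valuation (LaurentSeries Kb) ℤᵐ⁰)) (A := Kb) J' (by rw [hvJ]; exact hS1)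
      hφ0
    rw [hvJ] at this
    exact this
  have hmap : (Polynomial.mapRingHom (Int.castRingHom Kb)) (Φ.coeff i) = φ := by
    rw [hφ, Polynomial.coe_mapRingHom]
  rw [hmap, hval, hdeg] at hbound
  exact (pow_le_pow_iff_right₀ hS1).mp hbound

end Degree

/-! ### weighted integrality -/

section Weighted

variable {F : Type*} [Field F]

/-- **weighted integrality.**  `Φ ∈ ℤ[Y][X]` monic of degree `n` in `X` with
`deg_Y (Φ.coeff i) ≤ w (n - i)`; `Φ(x, y) = 0`, `y ≠ 0`.  Then `x / y ^ w` is integral over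
`ℤ[y⁻¹]`. -/
theorem isIntegral_div_pow {Φ : Polynomial (Polynomial ℤ)} (hmonic : Φ.Monic) {n w : ℕ}
    (hn : Φ.natDegree = n) (hdeg : ∀ i ≤ n, (Φ.coeff i).natDegree ≤ w * (n - i)) {x y : F}
    (hy : y ≠ 0)
    (hroot : (Φ.map (Polynomial.eval₂RingHom (Int.castRingHom F) y)).IsRoot x) :
    IsIntegral (Algebra.adjoin ℤ ({y⁻¹} : Set F)) (x / y ^ w) := by
  classical
  haveI : Invertible y := invertibleOfNonzero hy
  have hinv : ⅟y = y⁻¹ := invOf_eq_inv y
  set ev : Polynomial ℤ →+* F := Polynomial.eval₂RingHom (Int.castRingHom F) y with hev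
  -- the coefficients, as elements of `ℤ[y⁻¹]`
  have hcmem : ∀ i : ℕ, Polynomial.eval₂ (Int.castRingHom F) y⁻¹
      (Polynomial.reflect (w * (n - i)) (Φ.coeff i)) ∈ Algebra.adjoin ℤ ({y⁻¹} : Set F) := by
    intro i
    rw [Algebra.adjoin_singleton_eq_range_aeval]
    refine ⟨Polynomial.reflect (w * (n - i)) (Φ.coeff i), ?_⟩
    show Polynomial.aeval y⁻¹ (Polynomial.reflect (w * (n - i)) (Φ.coeff i)) = _
    rw [Polynomial.aeval_def]
    congr 1
  let c : ℕ → Algebra.adjoin ℤ ({y⁻¹} : Set F) := fun i =>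
    ⟨Polynomial.eval₂ (Int.castRingHom F) y⁻¹
      (Polynomial.reflect (w * (n - i)) (Φ.coeff i)), hcmem i⟩
  have hc : ∀ i ≤ n, ((c i : Algebra.adjoin ℤ ({y⁻¹} : Set F)) : F) * y ^ (w * (n - i)) =
      ev (Φ.coeff i) := by
    intro i hi
    have := Polynomial.eval₂_reflect_mul_pow (Int.castRingHom F) y (w * (n - i)) (Φ.coeff i)
      (hdeg i hi)
    rw [hinv] at this
    exact this
  -- the monic polynomial
  set P : Polynomial (Algebra.adjoin ℤ ({y⁻¹} : Set F)) :=
    X ^ n + ∑ i ∈ Finset.range n, C (c i) * X ^ i with hP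
  have hPdeg : (∑ i ∈ Finset.range n, C (c i) * X ^ i :
      Polynomial (Algebra.adjoin ℤ ({y⁻¹} : Set F))).degree < n := by
    rw [Finset.sum_range]
    exact Polynomial.degree_sum_fin_lt (fun i : Fin n => c i)
  refine ⟨P, Polynomial.monic_X_pow_add hPdeg, ?_⟩
  -- evaluation
  rw [hP, Polynomial.eval₂_add, Polynomial.eval₂_X_pow, Polynomial.eval₂_finsetSum]
  simp only [Polynomial.eval₂_mul, Polynomial.eval₂_C, Polynomial.eval₂_X_pow]
  -- the root relation
  rw [Polynomial.IsRoot.def, Polynomial.eval_map, Polynomial.eval₂_eq_sum_range, hn,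
    Finset.sum_range_succ] at hroot
  have hlead : Φ.coeff n = 1 := by
    rw [← hn]
    exact hmonic.coeff_natDegree
  rw [hlead, map_one, one_mul] at hroot
  have hywn : y ^ (w * n) ≠ 0 := pow_ne_zero _ hy
  apply mul_right_cancel₀ hywn
  rw [zero_mul, add_mul, Finset.sum_mul]
  have h1 : (x / y ^ w) ^ n * y ^ (w * n) = x ^ n := by
    rw [div_pow, ← pow_mul, div_mul_cancel₀ _ hywn]
  have h2 : ∀ i ∈ Finset.range n,
      algebraMap (Algebra.adjoin ℤ ({y⁻¹} : Set F)) F (c i) * (x / y ^ w) ^ i * y ^ (w * n) =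
        ev (Φ.coeff i) * x ^ i := by
    intro i hi
    have hin : i ≤ n := (Finset.mem_range.mp hi).le
    have hsplit : w * n = w * (n - i) + w * i := by
      rw [← Nat.mul_add, Nat.sub_add_cancel hin]
    have hywi : y ^ (w * i) ≠ 0 := pow_ne_zero _ hy
    rw [← hc i hin, hsplit, pow_add, div_pow, ← pow_mul]
    show ((c i : Algebra.adjoin ℤ ({y⁻¹} : Set F)) : F) * (x ^ i / y ^ (w * i)) *
      (y ^ (w * (n - i)) * y ^ (w * i)) = _
    field_simp
  rw [h1, Finset.sum_congr rfl h2, add_comm]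
  exact hroot

/-- `ℤ[a]`-integrality in chart language -/
theorem mem_chart_int_of_isIntegral {a b : F}
    (h : IsIntegral (Algebra.adjoin ℤ ({a} : Set F)) b) : b ∈ chart ℤ a := h

end Weighted

/-! ### the combination -/

section Main

variable {F : Type*} [Field F] (q : ℕ) [hq : Fact q.Prime]

/-- **`x / y^q` is integral over `ℤ[1/y]`** for every root `x` of `Φ(X, y)`, `Φ` the modular
polynomial (monic of degree `q + 1` in `X`, `Φ(X, j(t)) = rPoly q ℤ`). -/
theorem div_pow_mem_chart {Φ : Polynomial (Polynomial ℤ)} (hmonic : Φ.Monic)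
    (hdeg : Φ.natDegree = q + 1) (hΦ : Φ.map (evalL ℤ (jqModC ℤ)) = rPoly q ℤ) {x y : F}
    (hy : y ≠ 0)
    (hroot : (Φ.map (Polynomial.eval₂RingHom (Int.castRingHom F) y)).IsRoot x) :
    x / y ^ q ∈ chart ℤ y⁻¹ :=
  isIntegral_div_pow hmonic hdeg (fun i hi => natDegree_coeff_le q hΦ i hi) hy hroot

end Main

/-! ### transfer to the symmetric chart at infinity -/

section Sym

open Fermat.Agent.S36.SymChart

variable {F : Type*} [Field F] {O : Type*} [CommRing O] [Algebra O F]
  {ι : Type*} [Fintype ι] [DecidableEq ι] {j : ι → F}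

/-- an element integral over `ℤ[1/j_k]` lies in the chart at infinity of the product -/
theorem mem_chart_inv_prod_of_int
    (hint : ∀ i k, IsIntegral (Algebra.adjoin O ({j i} : Set F)) (j k)) (hne : ∀ i, j i ≠ 0)
    (k : ι) {x : F} (hx : x ∈ chart ℤ (j k)⁻¹) : x ∈ chart O (∏ i, j i)⁻¹ := by
  rw [mem_chart_iff] at hx ⊢
  intro W hO hW
  refine hx W (fun c => ?_) (inv_mem_of_inv_prod_mem hint hne W hO hW k)
  rw [eq_intCast]
  exact intCast_mem W c

end Sym

end Fermat.Agent.S36.ModPolyDegree
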