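/-
S36 (PROJECT V), slice V-ModelVert, chain (V7), abstract half (helper27): **the vertical valuation
subrings of the normal model.**

`O` a discrete valuation ring (type) with uniformiser `π`, `K = Frac O`, `F ⊇ K` a field, `φ : F` a
chart parameter.  `IsVertical O π φ W` is LITERALLY the list of hypotheses of `hvert` in
`ChartRing.mem_chart_of_gauss_places` (`O ⊆ W`, `φ ∈ W`, `π⁻¹ ∉ W`, primitive polynomials in `φ` are
units of `W`), `IsHorizontal K φ W` the list of hypotheses of `hhor`.

* `IsVertical.comap` (pull-back along a field homomorphism), `IsVertical.of_inv`,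
  `isVertical_inv_iff` (the charts `φ` and `φ⁻¹` have the same vertical valuation subrings);
* `IsVertical.exists_eq_div`, `IsVertical.mem_of_mem_adjoin` : **the Gauss valuation of `K(φ)` is
  unique** (two vertical valuation subrings have the same trace on `K(φ)`, the ring of `p(φ)/s(φ)`,
  `s` primitive); `IsVertical.exists_of_algebraMap_mem` (`W ∩ K = O`);
* **(U0), abstract**: `IsVertical.eq_of_integral_of_disc` (integral over the trace + discrete),
  `IsVertical.eq_of_hyp` (from `S18.C.UnramVal.Hyp`), `IsVertical.eq_of_family`, `eq_of_family'` (from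
  an orthonormal family: `τ i ∈ Og` spanning `F` over `K(φ)`, residues independent, lying in every
  vertical `W`), `IsVertical.exists_zpow_mul_unit_of_family` (discreteness of `Og` from the family);
* **(MV)**: `mem_of_isVertical`, `mem_of_isVertical_two`, `eq_or_eq_or_eq_of_isVertical`(`_inv`): the
  vertical valuation subrings of the top level are `W20`, `W11`, `W02`, from (U0) at the bottom
  level + `ThreeVal.two_*`-shaped level `q` + `ThreeVal.Setup.exhaustive`-shaped level `q²`;
* `IsVertical.of_prod` : verticality for a product `∏ y i` of parameters linked by integrality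
  relations (modular equations) implies verticality for each `y i` (residue-field argument);
  `eq_or_eq_or_eq_of_isVertical_prod`(`_inv`) : (MV) for the symmetric chart functions
  `x₂ = j₀ j₁ j₂`, `1/x₂` (helper5 #2536);
* **(MV')**: `mem_chart_iff`, `mem_chart_iff_three` : `x ∈ ChartRing.chart O φ` iff `x` lies in
  `W20`, `W11`, `W02` and in every horizontal valuation subring.

The instantiation of (U0) on the `K0`-form of `X₀(N)` is `S36/GaussUniqK0.lean`.
-/
import Mathlib
import Fermat.Agent.S18.C.UnramVal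
import Fermat.Agent.S36.ChartRing

set_option autoImplicit false
set_option linter.style.haveILetI false

noncomputable section

namespace Fermat.Agent.S36.ModelVert

open Polynomial IntermediateField

/-- `W` extends the `φ`-Gauss valuation (literal shape of the hypotheses of `hvert` in
`ChartRing.mem_chart_of_gauss_places`). -/
def IsVertical (O : Type*) [CommRing O] {F : Type*} [Field F] [Algebra O F] (π : O) (φ : F)
    (W : ValuationSubring F) : Prop :=
  (∀ c : O, algebraMap O F c ∈ W) ∧ φ ∈ W ∧ (algebraMap O F π)⁻¹ ∉ W ∧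
    ∀ s : O[X], (∃ i, IsUnit (s.coeff i)) → (aeval φ s)⁻¹ ∈ W

/-- literal shape of the hypotheses of `hhor` in `ChartRing.mem_chart_of_gauss_places`. -/
def IsHorizontal (K : Type*) [Field K] {F : Type*} [Field F] [Algebra K F] (φ : F)
    (W : ValuationSubring F) : Prop :=
  (∀ c : K, algebraMap K F c ∈ W) ∧ φ ∈ W

section Basic

variable {O : Type*} [CommRing O] {F : Type*} [Field F] [Algebra O F] {π : O} {φ : F}
  {W : ValuationSubring F}

theorem IsVertical.aeval_mem (h : IsVertical O π φ W) (p : O[X]) : aeval φ p ∈ W := by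
  induction p using Polynomial.induction_on' with
  | add p q hp hq => rw [map_add]; exact W.add_mem _ _ hp hq
  | monomial n c =>
    rw [← C_mul_X_pow_eq_monomial, map_mul, map_pow, aeval_C, aeval_X]
    exact W.mul_mem _ _ (h.1 c) (pow_mem h.2.1 n)

theorem IsVertical.ne_top (h : IsVertical O π φ W) : W ≠ ⊤ := by
  intro h1
  exact h.2.2.1 (h1 ▸ ValuationSubring.mem_top _)

/-- verticality pulls back along a homomorphism of fields compatible with the `O`-structures -/
theorem IsVertical.comap {F' : Type*} [Field F'] [Algebra O F'] (a : F →+* F')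
    (ha : ∀ c : O, a (algebraMap O F c) = algebraMap O F' c) {W' : ValuationSubring F'}
    (h : IsVertical O π (a φ) W') : IsVertical O π φ (W'.comap a) := by
  refine ⟨fun c => ?_, h.2.1, ?_, fun s hs => ?_⟩
  · show a (algebraMap O F c) ∈ W'
    rw [ha]; exact h.1 c
  · show ¬ a (algebraMap O F π)⁻¹ ∈ W'
    rw [map_inv₀, ha]; exact h.2.2.1
  · show a (aeval φ s)⁻¹ ∈ W'
    have h1 : a (aeval φ s) = aeval (a φ) s := by
      rw [aeval_def, aeval_def, hom_eval₂]
      congr 1
      exact RingHom.ext ha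
    rw [map_inv₀, h1]; exact h.2.2.2 s hs

end Basic

section Inv

variable {O : Type*} [CommRing O] {F : Type*} [Field F] [Algebra O F] {π : O} {φ : F}
  {W : ValuationSubring F}

theorem exists_isUnit_coeff_reverse {s : O[X]} (hs : ∃ i, IsUnit (s.coeff i)) :
    ∃ i, IsUnit (s.reverse.coeff i) := by
  obtain ⟨i, hi⟩ := hs
  by_cases hid : i ≤ s.natDegree
  · refine ⟨s.natDegree - i, ?_⟩
    rw [coeff_reverse, revAt_le (Nat.sub_le _ _), Nat.sub_sub_self hid]
    exact hi
  · rw [coeff_eq_zero_of_natDegree_lt (not_le.1 hid)] at hi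
    haveI : Subsingleton O := subsingleton_of_zero_eq_one (isUnit_zero_iff.1 hi)
    exact ⟨0, isUnit_of_subsingleton _⟩

/-- a valuation subring which is vertical for `φ⁻¹` is vertical for `φ` (so the chart at infinity
has the same vertical valuation subrings as the finite chart) -/
theorem IsVertical.of_inv (h : IsVertical O π φ⁻¹ W) : IsVertical O π φ W := by
  have hφ : φ ∈ W := by
    have h1 := h.2.2.2 X ⟨1, by rw [coeff_X_one]; exact isUnit_one⟩
    rwa [aeval_X, inv_inv] at h1
  refine ⟨h.1, hφ, h.2.2.1, fun s hs => ?_⟩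
  by_cases hφ0 : φ = 0
  · have h1 := h.2.2.2 s hs
    rw [hφ0, inv_zero] at h1
    rwa [hφ0]
  · have h1 := h.2.2.2 s.reverse (exists_isUnit_coeff_reverse hs)
    have h2 : aeval φ s = aeval φ⁻¹ s.reverse * φ ^ s.natDegree := by
      letI : Invertible φ := invertibleOfNonzero hφ0
      have := eval₂_reverse_mul_pow (algebraMap O F) φ s
      rw [invOf_eq_inv] at this
      rw [aeval_def, aeval_def, this]
    rw [h2, mul_inv, ← inv_pow]
    exact W.mul_mem _ _ h1 (pow_mem h.2.1 _)

theorem isVertical_inv_iff : IsVertical O π φ⁻¹ W ↔ IsVertical O π φ W :=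
  ⟨IsVertical.of_inv, fun h => IsVertical.of_inv (by rwa [inv_inv])⟩

end Inv

/-! ### the Gauss valuation of `K(φ)` is unique -/

section Gauss

variable {O : Type*} [CommRing O] [IsDomain O] [IsDiscreteValuationRing O] {K : Type*} [Field K]
  [Algebra O K] [IsFractionRing O K] {F : Type*} [Field F] [Algebra K F] [Algebra O F]
  [IsScalarTower O K F] {π : O} {φ : F} {W : ValuationSubring F}

/-- `W ∩ K = O` for a vertical valuation subring -/
theorem IsVertical.exists_of_algebraMap_mem (hπ : Irreducible π) (h : IsVertical O π φ W) {c : K}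
    (hc : algebraMap K F c ∈ W) : ∃ a : O, algebraMap O K a = c := by
  by_contra hne
  rcases ValuationRing.isInteger_or_isInteger O c with h1 | h1
  · exact hne h1
  · obtain ⟨b, hb⟩ := h1
    have hc0 : c ≠ 0 := by
      rintro rfl
      exact hne ⟨0, map_zero _⟩
    have hbu : ¬ IsUnit b := by
      intro hu
      obtain ⟨w, hw⟩ := hu.exists_right_inv
      apply hne
      refine ⟨w, ?_⟩
      have h2 : algebraMap O K b * algebraMap O K w = 1 := by rw [← map_mul, hw, map_one]
      rw [hb] at h2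
      have h3 := eq_inv_of_mul_eq_one_right h2
      rw [inv_inv] at h3
      exact h3
    have hbm : b ∈ IsLocalRing.maximalIdeal O := (IsLocalRing.mem_maximalIdeal b).2 hbu
    rw [hπ.maximalIdeal_eq, Ideal.mem_span_singleton] at hbm
    obtain ⟨d, rfl⟩ := hbm
    apply h.2.2.1
    have h4 : (algebraMap O F π)⁻¹ = algebraMap K F c * algebraMap O F d := by
      have hπ0 : algebraMap O F π ≠ 0 := by
        rw [IsScalarTower.algebraMap_apply O K F]
        intro h0
        have h1 := (algebraMap K F).injective (h0.trans (map_zero _).symm)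
        exact hπ.ne_zero ((IsFractionRing.injective O K) (h1.trans (map_zero _).symm))
      rw [inv_eq_iff_eq_inv, mul_inv, ← map_inv₀, ← hb, IsScalarTower.algebraMap_apply O K F,
        IsScalarTower.algebraMap_apply O K F d, ← map_inv₀, ← map_mul, map_mul (algebraMap O K)]
      congr 1
      have hd0 : algebraMap O K d ≠ 0 := by
        intro h0
        rw [map_mul, h0, mul_zero] at hb
        exact hc0 (inv_eq_zero.1 hb.symm)
      field_simp
    rw [h4]
    exact W.mul_mem _ _ hc (h.1 d)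

omit [IsScalarTower O K F] [Algebra O F] [Algebra K F] in
/-- a nonzero polynomial over `K` is a constant times a polynomial over `O` with a unit
coefficient -/
theorem exists_primitive_decomp (hπ : Irreducible π) (r : K[X]) (hr : r ≠ 0) :
    ∃ (c : K) (r' : O[X]), c ≠ 0 ∧ (∃ i, IsUnit (r'.coeff i)) ∧
      r = C c * r'.map (algebraMap O K) := by
  classical
  letI : StrongNormalizationMonoid O := UniqueFactorizationMonoid.strongNormalizationMonoid
  letI : NormalizedGCDMonoid O := UniqueFactorizationMonoid.toNormalizedGCDMonoid O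
  obtain ⟨b, hbM, hb⟩ := IsLocalization.integerNormalization_spec (nonZeroDivisors O) r
  set p := IsLocalization.integerNormalization (nonZeroDivisors O) r with hp
  have hb0 : algebraMap O K (b : O) ≠ 0 := by
    intro h0
    exact nonZeroDivisors.ne_zero hbM ((IsFractionRing.injective O K) (h0.trans (map_zero _).symm))
  have hp0 : p ≠ 0 := by
    intro h0
    rw [h0, Polynomial.map_zero] at hb
    have : (b : O) • r = 0 := hb.symm
    rw [← algebraMap_smul K (b : O) r, smul_eq_zero] at this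
    rcases this with h1 | h1
    · exact hb0 h1
    · exact hr h1
  have hcont : p.content ≠ 0 := by rwa [Ne, content_eq_zero_iff]
  have hprim : p.primPart.IsPrimitive := isPrimitive_primPart p
  refine ⟨algebraMap O K p.content / algebraMap O K (b : O), p.primPart, ?_, ?_, ?_⟩
  · apply div_ne_zero _ hb0
    intro h0
    exact hcont ((IsFractionRing.injective O K) (h0.trans (map_zero _).symm))
  · by_contra hall
    push Not at hall
    have hdvd : C π ∣ p.primPart := by
      rw [C_dvd_iff_dvd_coeff]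
      intro i
      have h1 : p.primPart.coeff i ∈ IsLocalRing.maximalIdeal O :=
        (IsLocalRing.mem_maximalIdeal _).2 (hall i)
      rwa [hπ.maximalIdeal_eq, Ideal.mem_span_singleton] at h1
    exact hπ.not_isUnit (hprim π hdvd)
  · have h1 : p.map (algebraMap O K) =
        C (algebraMap O K p.content) * p.primPart.map (algebraMap O K) := by
      conv_lhs => rw [eq_C_content_mul_primPart p]
      rw [Polynomial.map_mul, Polynomial.map_C]
    rw [hb, ← algebraMap_smul K (b : O) r, smul_eq_C_mul] at h1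
    rw [div_eq_inv_mul, C_mul, mul_assoc, ← h1, ← mul_assoc, ← C_mul, inv_mul_cancel₀ hb0, C_1,
      one_mul]

/-- an element of `K(φ) ∩ Og` (`Og` vertical) is `p(φ) / s(φ)` with `p, s ∈ O[X]`, `s` primitive:
the trace of a vertical valuation subring on `K(φ)` is the Gauss valuation ring -/
theorem IsVertical.exists_eq_div (hπ : Irreducible π) {Og : ValuationSubring F}
    (hOg : IsVertical O π φ Og) {x : F} (hx : x ∈ K⟮φ⟯) (hxO : x ∈ Og) :
    ∃ p s : O[X], (∃ i, IsUnit (s.coeff i)) ∧ aeval φ s ≠ 0 ∧ x = aeval φ p / aeval φ s := by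
  have hzero : ∃ p s : O[X], (∃ i, IsUnit (s.coeff i)) ∧ aeval φ s ≠ 0 ∧
      (0 : F) = aeval φ p / aeval φ s :=
    ⟨0, 1, ⟨0, by rw [coeff_one_zero]; exact isUnit_one⟩, by rw [map_one]; exact one_ne_zero,
      by rw [map_zero, zero_div]⟩
  obtain ⟨r, s, rfl⟩ := (mem_adjoin_simple_iff K x).1 hx
  by_cases hr0 : aeval φ r = 0
  · rw [hr0, zero_div]; exact hzero
  by_cases hs0 : aeval φ s = 0
  · rw [hs0, div_zero]; exact hzero
  have hr : r ≠ 0 := by rintro rfl; exact hr0 (map_zero _)
  have hs : s ≠ 0 := by rintro rfl; exact hs0 (map_zero _)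
  obtain ⟨c, r', hc, hr', rfl⟩ := exists_primitive_decomp hπ r hr
  obtain ⟨d, s', hd, hs', rfl⟩ := exists_primitive_decomp hπ s hs
  have e1 : ∀ (c : K) (p : O[X]), aeval φ (C c * p.map (algebraMap O K)) =
      algebraMap K F c * aeval φ p := by
    intro c p
    rw [map_mul, aeval_C, aeval_map_algebraMap]
  rw [e1] at hr0 hxO ⊢
  rw [e1] at hs0 hxO ⊢
  have hr'0 : aeval φ r' ≠ 0 := right_ne_zero_of_mul hr0
  have hs'0 : aeval φ s' ≠ 0 := right_ne_zero_of_mul hs0
  have hcd : algebraMap K F (c / d) ∈ Og := by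
    have h1 : algebraMap K F (c / d) =
        (algebraMap K F c * aeval φ r') / (algebraMap K F d * aeval φ s') * aeval φ s' *
          (aeval φ r')⁻¹ := by
      have hd' : algebraMap K F d ≠ 0 := left_ne_zero_of_mul hs0
      rw [map_div₀]
      field_simp
    rw [h1]
    exact Og.mul_mem _ _ (Og.mul_mem _ _ hxO (hOg.aeval_mem s')) (hOg.2.2.2 r' hr')
  obtain ⟨a, ha⟩ := hOg.exists_of_algebraMap_mem hπ hcd
  refine ⟨C a * r', s', hs', hs'0, ?_⟩
  have hd' : algebraMap K F d ≠ 0 := left_ne_zero_of_mul hs0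
  rw [map_mul, aeval_C, IsScalarTower.algebraMap_apply O K F, ha, map_div₀]
  field_simp

/-- **The Gauss valuation of `K(φ)` is unique**: two vertical valuation subrings have the same
trace on `K(φ)`. -/
theorem IsVertical.mem_of_mem_adjoin (hπ : Irreducible π) {Og : ValuationSubring F}
    (hOg : IsVertical O π φ Og) (hW : IsVertical O π φ W) {x : F} (hx : x ∈ K⟮φ⟯)
    (hxO : x ∈ Og) : x ∈ W := by
  obtain ⟨p, s, hs, -, rfl⟩ := hOg.exists_eq_div hπ hx hxO
  rw [div_eq_mul_inv]
  exact W.mul_mem _ _ (hW.aeval_mem p) (hW.2.2.2 s hs)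

end Gauss

/-! ### uniqueness of the vertical valuation subring: integrality + discreteness -/

section Unique

theorem eq_of_le_of_disc {F : Type*} [Field F] {Og W : ValuationSubring F} (ϖ : F)
    (hle : Og ≤ W) (hϖW : ϖ⁻¹ ∉ W)
    (hdisc : ∀ f : F, f ≠ 0 → ∃ (n : ℤ) (u : F), u ∈ Og ∧ u⁻¹ ∈ Og ∧ f = ϖ ^ n * u) :
    W = Og := by
  refine le_antisymm (fun f hf => ?_) hle
  by_cases hf0 : f = 0
  · rw [hf0]; exact Og.zero_mem
  have hϖ : ϖ ∈ Og := by
    rcases Og.mem_or_inv_mem ϖ with h | h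
    · exact h
    · exact absurd (hle h) hϖW
  obtain ⟨n, u, hu, hu', rfl⟩ := hdisc f hf0
  rcases le_or_gt 0 n with hn | hn
  · obtain ⟨m, rfl⟩ := Int.eq_ofNat_of_zero_le hn
    rw [zpow_natCast]
    exact Og.mul_mem _ _ (pow_mem hϖ m) hu
  · exfalso
    apply hϖW
    obtain ⟨m, hm⟩ := Int.exists_eq_neg_ofNat hn.le
    have hu0 : u ≠ 0 := right_ne_zero_of_mul hf0
    have h1 : ϖ ^ n ∈ W := by
      have : ϖ ^ n = ϖ ^ n * u * u⁻¹ := by
        rw [mul_assoc, mul_inv_cancel₀ hu0, mul_one]
      rw [this]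
      exact W.mul_mem _ _ hf (hle hu')
    have hm1 : 1 ≤ m := by
      rcases Nat.eq_zero_or_pos m with h0 | h0
      · rw [h0] at hm; simp at hm; omega
      · exact h0
    have hϖ0 : ϖ ≠ 0 := by
      rintro rfl
      rw [inv_zero] at hϖW
      exact hϖW W.zero_mem
    have h2 : ϖ⁻¹ = ϖ ^ (m - 1) * ϖ ^ n := by
      rw [hm, zpow_neg, zpow_natCast]
      have : ϖ ^ m = ϖ ^ (m - 1) * ϖ := by
        rw [← pow_succ, Nat.sub_add_cancel hm1]
      rw [this, mul_inv, ← mul_assoc, mul_inv_cancel₀ (pow_ne_zero _ hϖ0), one_mul]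
    rw [h2]
    exact W.mul_mem _ _ (pow_mem (hle hϖ) _) h1

variable {O : Type*} [CommRing O] [IsDomain O] [IsDiscreteValuationRing O] {K : Type*} [Field K]
  [Algebra O K] [IsFractionRing O K] {F : Type*} [Field F] [Algebra K F] [Algebra O F]
  [IsScalarTower O K F] {π : O} {φ : F} {W : ValuationSubring F}

/-- `Og ≤ W` for two vertical valuation subrings as soon as `Og` is integral over its trace on
`K(φ)`: every `f ∈ Og` is a root of a monic polynomial with coefficients in `K(φ) ∩ Og`. -/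
theorem IsVertical.le_of_integral (hπ : Irreducible π) {Og : ValuationSubring F}
    (hOg : IsVertical O π φ Og) (hW : IsVertical O π φ W)
    (hint : ∀ f ∈ Og, ∃ p : F[X], p.Monic ∧ (∀ i, p.coeff i ∈ K⟮φ⟯ ∧ p.coeff i ∈ Og) ∧
      p.eval f = 0) : Og ≤ W := by
  intro f hf
  obtain ⟨p, hp, hcoef, hpf⟩ := hint f hf
  have hpW : ∀ i, p.coeff i ∈ W.toSubring := fun i =>
    hOg.mem_of_mem_adjoin hπ hW (hcoef i).1 (hcoef i).2
  have hlift : (↑p.coeffs : Set F) ⊆ W.toSubring := by
    intro c hc
    obtain ⟨i, -, rfl⟩ := (mem_coeffs_iff.1 hc)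
    exact hpW i
  have hint' : IsIntegral W.toSubring f := by
    refine ⟨p.toSubring W.toSubring hlift, (monic_toSubring p W.toSubring hlift).2 hp, ?_⟩
    rw [eval₂_eq_eval_map]
    have : (p.toSubring W.toSubring hlift).map (algebraMap W.toSubring F) = p :=
      map_toSubring p W.toSubring hlift
    rw [this]
    exact hpf
  exact ChartRing.mem_of_isIntegral W (fun b : W.toSubring => b.2) hint'

/-- **(U0), abstract form.**  `Og` a vertical valuation subring which is integral over its trace on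
`K(φ)` and discrete with uniformiser `π`.  Then `Og` is the ONLY vertical valuation subring. -/
theorem IsVertical.eq_of_integral_of_disc (hπ : Irreducible π) {Og : ValuationSubring F}
    (hOg : IsVertical O π φ Og)
    (hint : ∀ f ∈ Og, ∃ p : F[X], p.Monic ∧ (∀ i, p.coeff i ∈ K⟮φ⟯ ∧ p.coeff i ∈ Og) ∧
      p.eval f = 0)
    (hdisc : ∀ f : F, f ≠ 0 → ∃ (n : ℤ) (u : F), u ∈ Og ∧ u⁻¹ ∈ Og ∧
      f = (algebraMap O F π) ^ n * u)
    (hW : IsVertical O π φ W) : W = Og :=
  eq_of_le_of_disc (algebraMap O F π) (hOg.le_of_integral (K := K) hπ hW hint) hW.2.2.1 hdisc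

open Fermat.Agent.S18.C.UnramVal in
/-- **(U0) from the unramified package** `UnramVal.Hyp` over `E = K(φ)` (residue degree = field
degree): then `Og` is the integral closure of `Og ∩ K(φ)`. -/
theorem IsVertical.eq_of_hyp (hπ : Irreducible π) [FiniteDimensional ↥K⟮φ⟯ F]
    {Og : ValuationSubring F} (hOg : IsVertical O π φ Og)
    {κ : Type*} [Field κ] {red : ↥Og →+* κ} {κ₀ : Type*} [Field κ₀] [Algebra κ₀ κ]
    {redV : ↥(below ↥K⟮φ⟯ Og) →+* κ₀} {ι : Type*} [Fintype ι] {t : ι → ↥Og}
    (h : Hyp ↥K⟮φ⟯ Og red redV t)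
    (hdisc : ∀ f : F, f ≠ 0 → ∃ (n : ℤ) (u : F), u ∈ Og ∧ u⁻¹ ∈ Og ∧
      f = (algebraMap O F π) ^ n * u)
    (hW : IsVertical O π φ W) : W = Og := by
  classical
  refine hOg.eq_of_integral_of_disc (K := K) hπ (fun f hf => ?_) hdisc hW
  obtain ⟨p, hp, hpf⟩ := (h.isIntegralElem_iff_mem f).2 hf
  refine ⟨p.map ((algebraMap ↥K⟮φ⟯ F).comp (below ↥K⟮φ⟯ Og).subtype), hp.map _, fun i => ?_, ?_⟩
  · rw [coeff_map]
    exact ⟨(p.coeff i : ↥K⟮φ⟯).2, (p.coeff i).2⟩
  · rw [eval_map]; exact hpf

end Unique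

/-! ### (U0) from an orthonormal family -/

section Family

variable {O : Type*} [CommRing O] [IsDomain O] [IsDiscreteValuationRing O] {K : Type*} [Field K]
  [Algebra O K] [IsFractionRing O K] {F : Type*} [Field F] [Algebra K F] [Algebra O F]
  [IsScalarTower O K F] {π : O} {φ : F} {W : ValuationSubring F}

open Fermat.Agent.S18.C.UnramVal in
/-- **(U0), orthonormal family form.**  `Og` a vertical valuation subring with residue map `red`,
`τ` a finite family in `Og` spanning `F` over `K(φ)` whose residues are independent over the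
residues of `K(φ) ∩ Og`, and lying in every vertical valuation subring (e.g. integral over
`K(φ) ∩ Og`).  Then `Og ≤ W` for every vertical `W`. -/
theorem IsVertical.le_of_family (hπ : Irreducible π) {Og : ValuationSubring F}
    (hOg : IsVertical O π φ Og) {κ : Type*} [Field κ] (red : ↥Og →+* κ)
    (hker : ∀ u : ↥Og, red u = 0 ↔ ¬ IsUnit u) {ι : Type*} [Fintype ι] (τ : ι → ↥Og)
    (hspan : ∀ f : F, ∃ c : ι → F, (∀ i, c i ∈ K⟮φ⟯) ∧ f = ∑ i, c i * (τ i : F))
    (hind : ∀ c : ι → ↥Og, (∀ i, (c i : F) ∈ K⟮φ⟯) → ∑ i, red (c i) * red (τ i) = 0 →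
      ∀ i, red (c i) = 0)
    (hW : IsVertical O π φ W) (hτ : ∀ i, (τ i : F) ∈ W) : Og ≤ W := by
  intro f hf
  obtain ⟨c, hc, rfl⟩ := hspan f
  have hind' : ∀ d : ι → ↥(below ↥K⟮φ⟯ Og),
      (∑ i, red (incl ↥K⟮φ⟯ Og (d i)) * red (τ i) = 0) →
        ∀ i, red (incl ↥K⟮φ⟯ Og (d i)) = 0 := by
    intro d hd
    exact hind (fun i => incl ↥K⟮φ⟯ Og (d i)) (fun i => ((d i : ↥K⟮φ⟯)).2) hd
  have hmem : ∑ i, (⟨c i, hc i⟩ : ↥K⟮φ⟯) • ((τ i : ↥Og) : F) ∈ Og := by
    have : ∑ i, (⟨c i, hc i⟩ : ↥K⟮φ⟯) • ((τ i : ↥Og) : F) = ∑ i, c i * (τ i : F) :=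
      Finset.sum_congr rfl fun i _ => by rw [Algebra.smul_def]; rfl
    rw [this]; exact hf
  have hcO : ∀ i, c i ∈ Og := fun i =>
    coeff_mem_below (E := ↥K⟮φ⟯) red hker τ hind' (fun i => (⟨c i, hc i⟩ : ↥K⟮φ⟯)) hmem i
  exact sum_mem fun i _ =>
    W.mul_mem _ _ (hOg.mem_of_mem_adjoin hπ hW (hc i) (hcO i)) (hτ i)

/-- **(U0), orthonormal family form**: `Og` is the only vertical valuation subring. -/
theorem IsVertical.eq_of_family (hπ : Irreducible π) {Og : ValuationSubring F}
    (hOg : IsVertical O π φ Og) {κ : Type*} [Field κ] (red : ↥Og →+* κ)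
    (hker : ∀ u : ↥Og, red u = 0 ↔ ¬ IsUnit u) {ι : Type*} [Fintype ι] (τ : ι → ↥Og)
    (hspan : ∀ f : F, ∃ c : ι → F, (∀ i, c i ∈ K⟮φ⟯) ∧ f = ∑ i, c i * (τ i : F))
    (hind : ∀ c : ι → ↥Og, (∀ i, (c i : F) ∈ K⟮φ⟯) → ∑ i, red (c i) * red (τ i) = 0 →
      ∀ i, red (c i) = 0)
    (hτ : ∀ W : ValuationSubring F, IsVertical O π φ W → ∀ i, (τ i : F) ∈ W)
    (hdisc : ∀ f : F, f ≠ 0 → ∃ (n : ℤ) (u : F), u ∈ Og ∧ u⁻¹ ∈ Og ∧
      f = (algebraMap O F π) ^ n * u)
    (hW : IsVertical O π φ W) : W = Og :=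
  eq_of_le_of_disc (algebraMap O F π)
    (hOg.le_of_family (K := K) hπ red hker τ hspan hind hW (hτ W hW)) hW.2.2.1 hdisc

end Family

/-! ### discreteness from an orthonormal family -/

section Disc

variable {O : Type*} [CommRing O] [IsDomain O] [IsDiscreteValuationRing O] {K : Type*} [Field K]
  [Algebra O K] [IsFractionRing O K] {F : Type*} [Field F] [Algebra K F] [Algebra O F]
  [IsScalarTower O K F] {π : O} {φ : F} {W : ValuationSubring F}

omit [Algebra K F] [Algebra O F] [IsScalarTower O K F] in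
/-- every nonzero element of the fraction field of a discrete valuation ring is a unit times a
power of the uniformiser -/
theorem exists_unit_mul_zpow (hπ : Irreducible π) (e : K) (he : e ≠ 0) :
    ∃ (n : ℤ) (v : Oˣ), e = algebraMap O K (v : O) * (algebraMap O K π) ^ n := by
  obtain ⟨x, y, hy, rfl⟩ := IsFractionRing.div_surjective (A := O) e
  have hy0 : y ≠ 0 := nonZeroDivisors.ne_zero hy
  have hx0 : x ≠ 0 := by
    rintro rfl
    rw [map_zero, zero_div] at he
    exact he rfl
  obtain ⟨n1, u1, rfl⟩ := IsDiscreteValuationRing.eq_unit_mul_pow_irreducible hx0 hπ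
  obtain ⟨n2, u2, rfl⟩ := IsDiscreteValuationRing.eq_unit_mul_pow_irreducible hy0 hπ
  have hπK : algebraMap O K π ≠ 0 := fun h =>
    hπ.ne_zero ((IsFractionRing.injective O K) (h.trans (map_zero _).symm))
  have hu2 : algebraMap O K (u2 : O) * algebraMap O K ((u2⁻¹ : Oˣ) : O) = 1 := by
    rw [← map_mul, Units.mul_inv, map_one]
  have hu2' : algebraMap O K (u2 : O) ≠ 0 := left_ne_zero_of_mul_eq_one hu2
  refine ⟨(n1 : ℤ) - n2, u1 * u2⁻¹, ?_⟩
  rw [zpow_sub₀ hπK, zpow_natCast, zpow_natCast, Units.val_mul, map_mul, map_mul, map_mul, map_pow,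
    map_pow]
  have : algebraMap O K ((u2⁻¹ : Oˣ) : O) = (algebraMap O K (u2 : O))⁻¹ :=
    eq_inv_of_mul_eq_one_right hu2
  rw [this]
  field_simp

/-- a nonzero element of `K(φ)` is a power of `π` times a unit of any vertical valuation
subring -/
theorem IsVertical.exists_zpow_mul_unit_of_mem_adjoin (hπ : Irreducible π)
    {Og : ValuationSubring F} (hOg : IsVertical O π φ Og) {x : F} (hx : x ∈ K⟮φ⟯) (hx0 : x ≠ 0) :
    ∃ (n : ℤ) (u : F), u ∈ Og ∧ u⁻¹ ∈ Og ∧ x = (algebraMap O F π) ^ n * u := by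
  obtain ⟨r, s, rfl⟩ := (mem_adjoin_simple_iff K x).1 hx
  have hr0 : aeval φ r ≠ 0 := fun h => hx0 (by rw [h, zero_div])
  have hs0 : aeval φ s ≠ 0 := fun h => hx0 (by rw [h, div_zero])
  have hr : r ≠ 0 := by rintro rfl; exact hr0 (map_zero _)
  have hs : s ≠ 0 := by rintro rfl; exact hs0 (map_zero _)
  obtain ⟨c, r', hc, hr', rfl⟩ := exists_primitive_decomp hπ r hr
  obtain ⟨d, s', hd, hs', rfl⟩ := exists_primitive_decomp hπ s hs
  have e1 : ∀ (c : K) (p : O[X]), aeval φ (C c * p.map (algebraMap O K)) =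
      algebraMap K F c * aeval φ p := by
    intro c p
    rw [map_mul, aeval_C, aeval_map_algebraMap]
  rw [e1] at hr0 ⊢
  rw [e1] at hs0 ⊢
  have hr'0 : aeval φ r' ≠ 0 := right_ne_zero_of_mul hr0
  have hs'0 : aeval φ s' ≠ 0 := right_ne_zero_of_mul hs0
  have hd' : algebraMap K F d ≠ 0 := left_ne_zero_of_mul hs0
  obtain ⟨n, v, hv⟩ := exists_unit_mul_zpow hπ (c / d) (div_ne_zero hc hd)
  have hv1 : algebraMap O F (v : O) * algebraMap O F ((v⁻¹ : Oˣ) : O) = 1 := by
    rw [← map_mul, Units.mul_inv, map_one]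
  refine ⟨n, algebraMap O F (v : O) * aeval φ r' * (aeval φ s')⁻¹,
    Og.mul_mem _ _ (Og.mul_mem _ _ (hOg.1 _) (hOg.aeval_mem r')) (hOg.2.2.2 s' hs'), ?_, ?_⟩
  · have : (algebraMap O F (v : O) * aeval φ r' * (aeval φ s')⁻¹)⁻¹ =
        algebraMap O F ((v⁻¹ : Oˣ) : O) * (aeval φ r')⁻¹ * aeval φ s' := by
      rw [mul_inv, mul_inv, inv_inv, inv_eq_of_mul_eq_one_right hv1]
    rw [this]
    exact Og.mul_mem _ _ (Og.mul_mem _ _ (hOg.1 _) (hOg.2.2.2 r' hr')) (hOg.aeval_mem s')
  · have h2 : algebraMap K F (c / d) =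
        algebraMap O F (v : O) * (algebraMap O F π) ^ n := by
      rw [hv, map_mul, map_zpow₀, ← IsScalarTower.algebraMap_apply O K F,
        ← IsScalarTower.algebraMap_apply O K F]
    have h3 : algebraMap K F c * aeval φ r' / (algebraMap K F d * aeval φ s') =
        algebraMap K F (c / d) * aeval φ r' * (aeval φ s')⁻¹ := by
      rw [map_div₀]
      field_simp
    rw [h3, h2]
    ring

open Fermat.Agent.S18.C.UnramVal in
/-- **discreteness from an orthonormal family**: every nonzero `f ∈ F` is a power of `π` times a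
unit of `Og`. -/
theorem IsVertical.exists_zpow_mul_unit_of_family (hπ : Irreducible π) {Og : ValuationSubring F}
    (hOg : IsVertical O π φ Og) {κ : Type*} [Field κ] (red : ↥Og →+* κ)
    (hker : ∀ u : ↥Og, red u = 0 ↔ ¬ IsUnit u) {ι : Type*} [Fintype ι] (τ : ι → ↥Og)
    (hspan : ∀ f : F, ∃ c : ι → F, (∀ i, c i ∈ K⟮φ⟯) ∧ f = ∑ i, c i * (τ i : F))
    (hind : ∀ c : ι → ↥Og, (∀ i, (c i : F) ∈ K⟮φ⟯) → ∑ i, red (c i) * red (τ i) = 0 →
      ∀ i, red (c i) = 0)
    (f : F) (hf : f ≠ 0) :
    ∃ (n : ℤ) (u : F), u ∈ Og ∧ u⁻¹ ∈ Og ∧ f = (algebraMap O F π) ^ n * u := by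
  obtain ⟨c, hc, rfl⟩ := hspan f
  have hind' : ∀ d : ι → ↥(below ↥K⟮φ⟯ Og),
      (∑ i, red (incl ↥K⟮φ⟯ Og (d i)) * red (τ i) = 0) →
        ∀ i, red (incl ↥K⟮φ⟯ Og (d i)) = 0 := by
    intro d hd
    exact hind (fun i => incl ↥K⟮φ⟯ Og (d i)) (fun i => ((d i : ↥K⟮φ⟯)).2) hd
  set a : ι → ↥K⟮φ⟯ := fun i => ⟨c i, hc i⟩ with ha
  have hne : ∃ i, a i ≠ 0 := by
    by_contra hall
    push Not at hall
    apply hf
    refine Finset.sum_eq_zero fun i _ => ?_
    have : c i = 0 := congrArg Subtype.val (hall i)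
    rw [this, zero_mul]
  obtain ⟨i₀, hi₀⟩ := hne
  obtain ⟨m, hm0, hle⟩ := exists_max (O := Og) a hi₀
  obtain ⟨u, hu⟩ := exists_unit_of_max red hker τ hind' a m hle hm0
  have hsum : ∑ i, a i • ((τ i : ↥Og) : F) = ∑ i, c i * (τ i : F) :=
    Finset.sum_congr rfl fun i _ => by rw [Algebra.smul_def]; rfl
  rw [hsum] at hu
  have hcm0 : c m ≠ 0 := fun h => hm0 (Subtype.ext h)
  obtain ⟨n, w, hw, hw', hcw⟩ := hOg.exists_zpow_mul_unit_of_mem_adjoin (K := K) hπ (hc m) hcm0
  have hu1 : ((u : ↥Og) : F) * (((u⁻¹ : (↥Og)ˣ) : ↥Og) : F) = 1 :=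
    congrArg Subtype.val u.mul_inv
  refine ⟨n, w * ((u : ↥Og) : F), Og.mul_mem _ _ hw (u : ↥Og).2, ?_, ?_⟩
  · rw [mul_inv, inv_eq_of_mul_eq_one_right hu1]
    exact Og.mul_mem _ _ hw' ((u⁻¹ : (↥Og)ˣ) : ↥Og).2
  · rw [hu]
    show c m * ((u : ↥Og) : F) = _
    rw [hcw]
    ring

/-- **(U0), orthonormal family form, no discreteness hypothesis**: the discreteness of `Og` follows
from the orthonormal family. -/
theorem IsVertical.eq_of_family' (hπ : Irreducible π) {Og : ValuationSubring F}
    (hOg : IsVertical O π φ Og) {κ : Type*} [Field κ] (red : ↥Og →+* κ)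
    (hker : ∀ u : ↥Og, red u = 0 ↔ ¬ IsUnit u) {ι : Type*} [Fintype ι] (τ : ι → ↥Og)
    (hspan : ∀ f : F, ∃ c : ι → F, (∀ i, c i ∈ K⟮φ⟯) ∧ f = ∑ i, c i * (τ i : F))
    (hind : ∀ c : ι → ↥Og, (∀ i, (c i : F) ∈ K⟮φ⟯) → ∑ i, red (c i) * red (τ i) = 0 →
      ∀ i, red (c i) = 0)
    (hτ : ∀ W : ValuationSubring F, IsVertical O π φ W → ∀ i, (τ i : F) ∈ W)
    (hW : IsVertical O π φ W) : W = Og :=
  hOg.eq_of_family (K := K) hπ red hker τ hspan hind hτ
    (hOg.exists_zpow_mul_unit_of_family (K := K) hπ red hker τ hspan hind) hW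

end Disc

/-! ### (MV): the vertical valuation subrings of the top level -/

section Model

variable {O : Type*} [CommRing O] {F0 F1 F2 : Type*} [Field F0] [Field F1] [Field F2]
  [Algebra O F0] [Algebra O F1] [Algebra O F2] {π : O}

/-- **(MV), one step.**  `a0 : F0 → F2`; if `Og` is the only vertical valuation subring of `F0`
(for the parameter `j0`) and `S` contains every valuation subring of `F2` lying over `Og`, then `S`
contains every vertical valuation subring of `F2` (for the parameter `a0 j0`). -/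
theorem mem_of_isVertical (a0 : F0 →+* F2)
    (ha0 : ∀ c : O, a0 (algebraMap O F0 c) = algebraMap O F2 c) {j0 : F0}
    {Og : ValuationSubring F0} {S : Set (ValuationSubring F2)}
    (hU0 : ∀ V : ValuationSubring F0, IsVertical O π j0 V → V = Og)
    (hALL : ∀ W : ValuationSubring F2, W.comap a0 = Og → W ∈ S)
    {W : ValuationSubring F2} (hW : IsVertical O π (a0 j0) W) : W ∈ S :=
  hALL W (hU0 _ (hW.comap a0 ha0))

/-- **(MV), two steps** `F0 → F1 → F2` (levels `N0`, `N0 q`, `N0 q²`). -/
theorem mem_of_isVertical_two (α : F0 →+* F1) (a : F1 →+* F2)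
    (hα : ∀ c : O, α (algebraMap O F0 c) = algebraMap O F1 c)
    (ha : ∀ c : O, a (algebraMap O F1 c) = algebraMap O F2 c) {j0 : F0}
    {Og : ValuationSubring F0} {S1 : Set (ValuationSubring F1)} {S : Set (ValuationSubring F2)}
    (hU0 : ∀ V : ValuationSubring F0, IsVertical O π j0 V → V = Og)
    (hLQ : ∀ V : ValuationSubring F1, V.comap α = Og → V ∈ S1)
    (hALL : ∀ W : ValuationSubring F2, W.comap a ∈ S1 → W ∈ S)
    {W : ValuationSubring F2} (hW : IsVertical O π (a (α j0)) W) : W ∈ S :=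
  hALL W (mem_of_isVertical α hα hU0 hLQ (hW.comap a ha))

/-- **(MV), the three vertical valuation subrings** `W20`, `W11`, `W02` of the level `N0 q²`:
`(U0)` + level `q` (`V1`, `V2` are the only extensions of `Og` along `α`) + exhaustiveness `(ALL)`
at level `q²` (along `a`). -/
theorem eq_or_eq_or_eq_of_isVertical (α : F0 →+* F1) (a : F1 →+* F2)
    (hα : ∀ c : O, α (algebraMap O F0 c) = algebraMap O F1 c)
    (ha : ∀ c : O, a (algebraMap O F1 c) = algebraMap O F2 c) {j0 : F0}
    {Og : ValuationSubring F0} {V1 V2 : ValuationSubring F1} {W20 W11 W02 : ValuationSubring F2}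
    (hU0 : ∀ V : ValuationSubring F0, IsVertical O π j0 V → V = Og)
    (hLQ : ∀ V : ValuationSubring F1, V.comap α = Og → V = V1 ∨ V = V2)
    (hALL : ∀ W : ValuationSubring F2, W.comap a = V1 ∨ W.comap a = V2 →
      W = W20 ∨ W = W11 ∨ W = W02)
    {W : ValuationSubring F2} (hW : IsVertical O π (a (α j0)) W) :
    W = W20 ∨ W = W11 ∨ W = W02 :=
  mem_of_isVertical_two (S1 := {V | V = V1 ∨ V = V2}) (S := {W | W = W20 ∨ W = W11 ∨ W = W02})
    α a hα ha hU0 hLQ hALL hW

/-- the same for the chart at infinity (parameter `(a (α j0))⁻¹`) -/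
theorem eq_or_eq_or_eq_of_isVertical_inv (α : F0 →+* F1) (a : F1 →+* F2)
    (hα : ∀ c : O, α (algebraMap O F0 c) = algebraMap O F1 c)
    (ha : ∀ c : O, a (algebraMap O F1 c) = algebraMap O F2 c) {j0 : F0}
    {Og : ValuationSubring F0} {V1 V2 : ValuationSubring F1} {W20 W11 W02 : ValuationSubring F2}
    (hU0 : ∀ V : ValuationSubring F0, IsVertical O π j0 V → V = Og)
    (hLQ : ∀ V : ValuationSubring F1, V.comap α = Og → V = V1 ∨ V = V2)
    (hALL : ∀ W : ValuationSubring F2, W.comap a = V1 ∨ W.comap a = V2 →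
      W = W20 ∨ W = W11 ∨ W = W02)
    {W : ValuationSubring F2} (hW : IsVertical O π (a (α j0))⁻¹ W) :
    W = W20 ∨ W = W11 ∨ W = W02 :=
  eq_or_eq_or_eq_of_isVertical α a hα ha hU0 hLQ hALL hW.of_inv

end Model

/-! ### (MV'): membership in the chart rings -/

section Chart

variable {O : Type*} [CommRing O] [IsDomain O] [IsDiscreteValuationRing O] {K : Type*} [Field K]
  [Algebra O K] [IsFractionRing O K] {F : Type*} [Field F] [Algebra K F] [Algebra O F]
  [IsScalarTower O K F] [CharZero K] {π : O} {φ : F}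

/-- **(MV'), set form.**  If `S` contains all vertical valuation subrings (for the parameter `φ`)
and every member of `S` contains `O` and `φ`, then the chart ring `A_φ = integralClosure O[φ] F` is
cut out by `S` and the horizontal valuation subrings. -/
theorem mem_chart_iff (hπ : Irreducible π) (hφ : Transcendental K φ) [FiniteDimensional K⟮φ⟯ F]
    {S : Set (ValuationSubring F)} (hS : ∀ W : ValuationSubring F, IsVertical O π φ W → W ∈ S)
    (hS' : ∀ W ∈ S, (∀ c : O, algebraMap O F c ∈ W) ∧ φ ∈ W) (x : F) :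
    x ∈ ChartRing.chart O φ ↔
      (∀ W ∈ S, x ∈ W) ∧ ∀ W : ValuationSubring F, IsHorizontal K φ W → x ∈ W := by
  constructor
  · intro hx
    refine ⟨fun W hW => ChartRing.mem_of_mem_chart hx W (hS' W hW).1 (hS' W hW).2,
      fun W hW => ChartRing.mem_of_mem_chart hx W (fun c => ?_) hW.2⟩
    rw [IsScalarTower.algebraMap_apply O K F]
    exact hW.1 _
  · rintro ⟨h1, h2⟩
    exact ChartRing.mem_chart_of_gauss_places hπ hφ x
      (fun W a b c d => h1 W (hS W ⟨a, b, c, d⟩)) (fun W a b => h2 W ⟨a, b⟩)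

/-- **(MV'), three-ring form**: `x ∈ A_φ` iff `x ∈ W20 ∩ W11 ∩ W02` and `x` lies in every horizontal
valuation subring (`K ⊆ W`, `φ ∈ W`). -/
theorem mem_chart_iff_three (hπ : Irreducible π) (hφ : Transcendental K φ)
    [FiniteDimensional K⟮φ⟯ F] {W20 W11 W02 : ValuationSubring F}
    (hS : ∀ W : ValuationSubring F, IsVertical O π φ W → W = W20 ∨ W = W11 ∨ W = W02)
    (h20 : (∀ c : O, algebraMap O F c ∈ W20) ∧ φ ∈ W20)
    (h11 : (∀ c : O, algebraMap O F c ∈ W11) ∧ φ ∈ W11)
    (h02 : (∀ c : O, algebraMap O F c ∈ W02) ∧ φ ∈ W02) (x : F) :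
    x ∈ ChartRing.chart O φ ↔
      x ∈ W20 ∧ x ∈ W11 ∧ x ∈ W02 ∧
        ∀ W : ValuationSubring F, IsHorizontal K φ W → x ∈ W := by
  rw [mem_chart_iff (S := {W | W = W20 ∨ W = W11 ∨ W = W02}) hπ hφ hS (by
    rintro W (rfl | rfl | rfl)
    exacts [h20, h11, h02])]
  constructor
  · rintro ⟨h1, h2⟩
    exact ⟨h1 _ (Or.inl rfl), h1 _ (Or.inr (Or.inl rfl)), h1 _ (Or.inr (Or.inr rfl)), h2⟩
  · rintro ⟨a, b, c, d⟩
    refine ⟨?_, d⟩
    rintro W (rfl | rfl | rfl)
    exacts [a, b, c]

end Chart

/-! ### verticality for a product of mutually integral parameters -/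

section Prod

variable {O : Type*} [CommRing O] [IsDomain O] [IsDiscreteValuationRing O] {F : Type*} [Field F]
  [Algebra O F] {π : O} {W : ValuationSubring F}

omit [IsDomain O] [IsDiscreteValuationRing O] in
/-- membership propagates along integrality over `O[a]` -/
theorem mem_of_isIntegral_adjoin (hO : ∀ c : O, algebraMap O F c ∈ W) {a b : F} (ha : a ∈ W)
    (h : IsIntegral (Algebra.adjoin O ({a} : Set F)) b) : b ∈ W := by
  refine ChartRing.mem_of_isIntegral W (fun x => ?_) h
  have hle : Algebra.adjoin O ({a} : Set F) ≤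
      (⟨W.toSubring.toSubsemiring, fun c => hO c⟩ : Subalgebra O F) :=
    Algebra.adjoin_le (by
      rw [Set.singleton_subset_iff]
      exact ha)
  exact hle x.2

/-- `O → W` -/
def toW (hO : ∀ c : O, algebraMap O F c ∈ W) : O →+* ↥W :=
  (algebraMap O F).codRestrict W.toSubring hO

omit [IsDomain O] [IsDiscreteValuationRing O] in
@[simp] theorem coe_toW (hO : ∀ c : O, algebraMap O F c ∈ W) (c : O) :
    ((toW hO c : ↥W) : F) = algebraMap O F c := rfl

theorem isLocalHom_toW (hπ : Irreducible π) (hO : ∀ c : O, algebraMap O F c ∈ W)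
    (hπW : (algebraMap O F π)⁻¹ ∉ W) : IsLocalHom (toW hO) := by
  constructor
  intro a ha
  by_contra hna
  have hm : a ∈ IsLocalRing.maximalIdeal O := (IsLocalRing.mem_maximalIdeal a).2 hna
  rw [hπ.maximalIdeal_eq, Ideal.mem_span_singleton] at hm
  obtain ⟨b, rfl⟩ := hm
  rw [map_mul] at ha
  have h1 : IsUnit (toW hO π) := isUnit_of_mul_isUnit_left ha
  obtain ⟨w, hw⟩ := h1.exists_right_inv
  apply hπW
  have h2 : algebraMap O F π * (w : F) = 1 := congrArg Subtype.val hw
  rw [inv_eq_of_mul_eq_one_right h2]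
  exact w.2

end Prod

section Residue

open IsLocalRing

variable {O : Type*} [CommRing O] [IsDomain O] [IsDiscreteValuationRing O] {F : Type*} [Field F]
  [Algebra O F] {π : O} {W : ValuationSubring F}

/-- the residue field of `W` as an algebra over the residue field of `O` (NOT an instance) -/
@[reducible] def algRes (hπ : Irreducible π) (hO : ∀ c : O, algebraMap O F c ∈ W)
    (hπW : (algebraMap O F π)⁻¹ ∉ W) : Algebra (ResidueField O) (ResidueField ↥W) :=
  letI := isLocalHom_toW hπ hO hπW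
  (ResidueField.map (toW hO)).toAlgebra

theorem residue_eval₂_toW (hπ : Irreducible π) (hO : ∀ c : O, algebraMap O F c ∈ W)
    (hπW : (algebraMap O F π)⁻¹ ∉ W) (z : ↥W) (p : O[X]) :
    letI := algRes hπ hO hπW
    residue ↥W (eval₂ (toW hO) z p) = aeval (residue ↥W z) (p.map (residue O)) := by
  letI := isLocalHom_toW hπ hO hπW
  letI := algRes hπ hO hπW
  rw [hom_eval₂, aeval_def, eval₂_map]
  congr 1

/-- the residue of `z` is integral (= algebraic) over the residue field of `O` iff some primitive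
polynomial over `O` takes a non-unit value at `z` -/
theorem isIntegral_residue_iff (hπ : Irreducible π) (hO : ∀ c : O, algebraMap O F c ∈ W)
    (hπW : (algebraMap O F π)⁻¹ ∉ W) (z : ↥W) :
    letI := algRes hπ hO hπW
    IsIntegral (ResidueField O) (residue ↥W z) ↔
      ∃ p : O[X], (∃ i, IsUnit (p.coeff i)) ∧ residue ↥W (eval₂ (toW hO) z p) = 0 := by
  letI := algRes hπ hO hπW
  constructor
  · rintro ⟨pb, hpb, hpz⟩
    obtain ⟨p, rfl⟩ := Polynomial.map_surjective (residue O) (residue_surjective) pb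
    refine ⟨p, ⟨(p.map (residue O)).natDegree, ?_⟩, ?_⟩
    · have h1 : (p.map (residue O)).coeff (p.map (residue O)).natDegree = 1 := hpb
      rw [coeff_map] at h1
      by_contra hnu
      have h2 : residue O (p.coeff (p.map (residue O)).natDegree) = 0 :=
        (residue_eq_zero_iff _).2 ((mem_maximalIdeal _).2 hnu)
      rw [h2] at h1
      exact zero_ne_one h1
    · rw [residue_eval₂_toW hπ hO hπW, aeval_def]
      exact hpz
  · rintro ⟨p, ⟨i, hi⟩, hp⟩
    rw [residue_eval₂_toW hπ hO hπW] at hp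
    refine IsAlgebraic.isIntegral ⟨p.map (residue O), ?_, hp⟩
    intro h0
    have h1 : (p.map (residue O)).coeff i = 0 := by rw [h0, coeff_zero]
    rw [coeff_map, residue_eq_zero_iff, mem_maximalIdeal] at h1
    exact h1 hi

/-- algebraicity of residues propagates along integrality over `O[a]` -/
theorem isIntegral_residue_of_isIntegral_adjoin (hπ : Irreducible π)
    (hO : ∀ c : O, algebraMap O F c ∈ W) (hπW : (algebraMap O F π)⁻¹ ∉ W) {a b : ↥W}
    (ha : letI := algRes hπ hO hπW; IsIntegral (ResidueField O) (residue ↥W a))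
    (h : IsIntegral (Algebra.adjoin O ({(a : F)} : Set F)) (b : F)) :
    letI := algRes hπ hO hπW
    IsIntegral (ResidueField O) (residue ↥W b) := by
  letI := isLocalHom_toW hπ hO hπW
  letI := algRes hπ hO hπW
  set B := Algebra.adjoin O ({(a : F)} : Set F) with hB
  have hle : B ≤ (⟨W.toSubring.toSubsemiring, fun c => hO c⟩ : Subalgebra O F) :=
    Algebra.adjoin_le (by
      rw [Set.singleton_subset_iff]
      exact a.2)
  -- the inclusion `B → W`
  let incl : ↥B →+* ↥W := (algebraMap ↥B F).codRestrict W.toSubring (fun x => hle x.2)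
  let g : ↥B →+* ResidueField ↥W := (residue ↥W).comp incl
  have hg : ∀ x : ↥B, g x ∈ integralClosure (ResidueField O) (ResidueField ↥W) := by
    rintro ⟨x, hx⟩
    induction hx using Algebra.adjoin_induction with
    | mem y hy =>
      rw [Set.mem_singleton_iff] at hy
      subst hy
      exact ha
    | algebraMap c =>
      have h1 : g ⟨algebraMap O F c, Subalgebra.algebraMap_mem _ c⟩ =
          algebraMap (ResidueField O) (ResidueField ↥W) (residue O c) :=
        (ResidueField.map_residue (toW hO) c).symm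
      rw [h1]
      exact Subalgebra.algebraMap_mem _ _
    | add y z hy hz hy' hz' =>
      have h1 : g ⟨y + z, Subalgebra.add_mem _ hy hz⟩ = g ⟨y, hy⟩ + g ⟨z, hz⟩ :=
        map_add g ⟨y, hy⟩ ⟨z, hz⟩
      rw [h1]
      exact Subalgebra.add_mem _ hy' hz'
    | mul y z hy hz hy' hz' =>
      have h1 : g ⟨y * z, Subalgebra.mul_mem _ hy hz⟩ = g ⟨y, hy⟩ * g ⟨z, hz⟩ :=
        map_mul g ⟨y, hy⟩ ⟨z, hz⟩
      rw [h1]
      exact Subalgebra.mul_mem _ hy' hz'
  let g' : ↥B →+* ↥(integralClosure (ResidueField O) (ResidueField ↥W)) :=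
    g.codRestrict (integralClosure (ResidueField O) (ResidueField ↥W)).toSubring hg
  obtain ⟨P, hP, hPb⟩ := h
  have h0 : eval₂ incl b P = 0 := by
    apply Subtype.ext
    have h1 := hom_eval₂ P incl W.subtype b
    rw [show ((eval₂ incl b P : ↥W) : F) = W.subtype (eval₂ incl b P) from rfl, h1]
    exact hPb
  have hint : IsIntegral ↥(integralClosure (ResidueField O) (ResidueField ↥W)) (residue ↥W b) := by
    refine ⟨P.map g', hP.map g', ?_⟩
    rw [eval₂_map]
    have h2 : (algebraMap ↥(integralClosure (ResidueField O) (ResidueField ↥W))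
        (ResidueField ↥W)).comp g' = g := by
      ext x; rfl
    rw [h2]
    have h3 := hom_eval₂ P incl (residue ↥W) b
    rw [h0, map_zero] at h3
    exact h3.symm
  exact isIntegral_trans _ hint

end Residue

section ProdMain

open IsLocalRing

variable {O : Type*} [CommRing O] [IsDomain O] [IsDiscreteValuationRing O] {F : Type*} [Field F]
  [Algebra O F] {π : O} {W : ValuationSubring F}

omit [IsDomain O] [IsDiscreteValuationRing O] in
theorem aeval_mem_of_mem (hO : ∀ c : O, algebraMap O F c ∈ W) {z : F} (hz : z ∈ W) (p : O[X]) :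
    aeval z p ∈ W := by
  induction p using Polynomial.induction_on' with
  | add p q hp hq => rw [map_add]; exact W.add_mem _ _ hp hq
  | monomial n c =>
    rw [← C_mul_X_pow_eq_monomial, map_mul, map_pow, aeval_C, aeval_X]
    exact W.mul_mem _ _ (hO c) (pow_mem hz n)

omit [IsDomain O] [IsDiscreteValuationRing O] in
theorem coe_eval₂_toW (hO : ∀ c : O, algebraMap O F c ∈ W) (z : ↥W) (p : O[X]) :
    ((eval₂ (toW hO) z p : ↥W) : F) = aeval (z : F) p := by
  have h1 := hom_eval₂ p (toW hO) W.subtype z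
  rw [show ((eval₂ (toW hO) z p : ↥W) : F) = W.subtype (eval₂ (toW hO) z p) from rfl, h1, aeval_def]
  rfl

omit [IsDomain O] [IsDiscreteValuationRing O] in
/-- `W`-membership propagates along a chain of integrality relations -/
theorem mem_of_reflTransGen {ι : Type*} (y : ι → F) (hO : ∀ c : O, algebraMap O F c ∈ W) {i j : ι}
    (h : Relation.ReflTransGen
      (fun a b => IsIntegral (Algebra.adjoin O ({y a} : Set F)) (y b)) i j)
    (hi : y i ∈ W) : y j ∈ W := by
  induction h with
  | refl => exact hi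
  | tail _ hbc ih => exact mem_of_isIntegral_adjoin hO ih hbc

/-- a non-unit of `W` has residue zero; an element whose inverse is not in `W` is a non-unit -/
theorem residue_eq_zero_of_inv_not_mem {v : ↥W} (hv : ((v : F))⁻¹ ∉ W) : residue ↥W v = 0 := by
  rw [residue_eq_zero_iff, mem_maximalIdeal]
  intro hu
  obtain ⟨w, hw⟩ := hu.exists_right_inv
  apply hv
  have h2 : (v : F) * (w : F) = 1 := congrArg Subtype.val hw
  rw [inv_eq_of_mul_eq_one_right h2]
  exact w.2

/-- **Verticality for a product of mutually integral parameters.**  If the `y i` are linked by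
integrality relations (`y b` integral over `O[y a]`, e.g. the modular equation) and `∏ y i` is
transcendental, then a valuation subring which is vertical for `∏ y i` is vertical for each
`y i`. -/
theorem IsVertical.of_prod (hπ : Irreducible π) {ι : Type*} [Fintype ι] (y : ι → F)
    (hconn : ∀ i j, Relation.ReflTransGen
      (fun a b => IsIntegral (Algebra.adjoin O ({y a} : Set F)) (y b)) i j)
    (htr : Transcendental O (∏ i, y i))
    (h : IsVertical O π (∏ i, y i) W) (i : ι) : IsVertical O π (y i) W := by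
  classical
  have hO := h.1
  have hπW := h.2.2.1
  -- (1) all `y j` lie in `W`
  have hmem : ∀ j, y j ∈ W := by
    by_contra hne
    push Not at hne
    obtain ⟨i0, hi0⟩ := hne
    have hall : ∀ j, y j ∉ W := fun j hj => hi0 (mem_of_reflTransGen y hO (hconn j i0) hj)
    have hlt : ∀ s : Finset ι, s.Nonempty → 1 < ∏ j ∈ s, W.valuation (y j) := by
      intro s hs
      induction hs using Finset.Nonempty.cons_induction with
      | singleton a =>
        rw [Finset.prod_singleton]
        exact not_le.1 fun hle => hall a ((W.valuation_le_one_iff _).1 hle)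
      | cons a s ha hs ih =>
        rw [Finset.prod_cons]
        exact one_lt_mul_of_lt_of_le'
          (not_le.1 fun hle => hall a ((W.valuation_le_one_iff _).1 hle)) ih.le
    have h1 := hlt Finset.univ ⟨i0, Finset.mem_univ _⟩
    rw [← map_prod] at h1
    exact not_le.2 h1 ((W.valuation_le_one_iff _).2 h.2.1)
  refine ⟨hO, hmem i, hπW, fun s hs => ?_⟩
  -- (2) primitive polynomials in `y i` are units
  by_contra hinv
  letI := algRes hπ hO hπW
  let z : ι → ↥W := fun j => ⟨y j, hmem j⟩
  have hzi : IsIntegral (ResidueField O) (residue ↥W (z i)) := by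
    refine (isIntegral_residue_iff hπ hO hπW (z i)).2 ⟨s, hs, ?_⟩
    apply residue_eq_zero_of_inv_not_mem
    rw [coe_eval₂_toW]
    exact hinv
  have hzall : ∀ j, IsIntegral (ResidueField O) (residue ↥W (z j)) := by
    intro j
    have hc := hconn i j
    induction hc with
    | refl => exact hzi
    | tail _ hbc ih => exact isIntegral_residue_of_isIntegral_adjoin hπ hO hπW ih hbc
  have hprod : IsIntegral (ResidueField O) (residue ↥W (∏ j, z j)) := by
    rw [map_prod]
    exact IsIntegral.prod _ fun j _ => hzall j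
  obtain ⟨p, hp, hp0⟩ := (isIntegral_residue_iff hπ hO hπW (∏ j, z j)).1 hprod
  have hcoe : ((∏ j, z j : ↥W) : F) = ∏ j, y j := by
    rw [show ((∏ j, z j : ↥W) : F) = W.subtype (∏ j, z j) from rfl, map_prod]
    rfl
  have hne : p ≠ 0 := by
    rintro rfl
    obtain ⟨k, hk⟩ := hp
    rw [coeff_zero] at hk
    exact not_isUnit_zero hk
  have hv0 : aeval (∏ j, y j) p ≠ 0 := fun h0 => hne ((transcendental_iff.1 htr) p h0)
  have hvinv := h.2.2.2 p hp
  -- the value is a unit of `W` with residue zero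
  rw [residue_eq_zero_iff, mem_maximalIdeal] at hp0
  apply hp0
  refine IsUnit.of_mul_eq_one (⟨(aeval (∏ j, y j) p)⁻¹, hvinv⟩ : ↥W) ?_
  apply Subtype.ext
  show ((eval₂ (toW hO) (∏ j, z j) p : ↥W) : F) * (aeval (∏ j, y j) p)⁻¹ = 1
  rw [coe_eval₂_toW, hcoe]
  exact mul_inv_cancel₀ hv0

end ProdMain

/-! ### (MV) for the symmetric chart functions -/

section ModelProd

variable {O : Type*} [CommRing O] [IsDomain O] [IsDiscreteValuationRing O]
  {F0 F1 F2 : Type*} [Field F0] [Field F1] [Field F2]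
  [Algebra O F0] [Algebra O F1] [Algebra O F2] {π : O}

/-- **(MV) for a symmetric chart function** `x₂ = ∏ y i` of the top level (`y i₀ = a (α j0)` the
pull-back of the parameter of the bottom level, the `y i` linked by integrality relations): the
vertical valuation subrings of the `x₂`-chart are `W20`, `W11`, `W02`. -/
theorem eq_or_eq_or_eq_of_isVertical_prod (hπ : Irreducible π) (α : F0 →+* F1) (a : F1 →+* F2)
    (hα : ∀ c : O, α (algebraMap O F0 c) = algebraMap O F1 c)
    (ha : ∀ c : O, a (algebraMap O F1 c) = algebraMap O F2 c) {j0 : F0}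
    {Og : ValuationSubring F0} {V1 V2 : ValuationSubring F1} {W20 W11 W02 : ValuationSubring F2}
    (hU0 : ∀ V : ValuationSubring F0, IsVertical O π j0 V → V = Og)
    (hLQ : ∀ V : ValuationSubring F1, V.comap α = Og → V = V1 ∨ V = V2)
    (hALL : ∀ W : ValuationSubring F2, W.comap a = V1 ∨ W.comap a = V2 →
      W = W20 ∨ W = W11 ∨ W = W02)
    {ι : Type*} [Fintype ι] (y : ι → F2) (i₀ : ι) (hy : y i₀ = a (α j0))
    (hconn : ∀ i j, Relation.ReflTransGen
      (fun b c => IsIntegral (Algebra.adjoin O ({y b} : Set F2)) (y c)) i j)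
    (htr : Transcendental O (∏ i, y i))
    {W : ValuationSubring F2} (hW : IsVertical O π (∏ i, y i) W) :
    W = W20 ∨ W = W11 ∨ W = W02 := by
  have h1 := hW.of_prod hπ y hconn htr i₀
  rw [hy] at h1
  exact eq_or_eq_or_eq_of_isVertical α a hα ha hU0 hLQ hALL h1

/-- the same for the chart at infinity (parameter `(∏ y i)⁻¹`) -/
theorem eq_or_eq_or_eq_of_isVertical_prod_inv (hπ : Irreducible π) (α : F0 →+* F1)
    (a : F1 →+* F2)
    (hα : ∀ c : O, α (algebraMap O F0 c) = algebraMap O F1 c)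
    (ha : ∀ c : O, a (algebraMap O F1 c) = algebraMap O F2 c) {j0 : F0}
    {Og : ValuationSubring F0} {V1 V2 : ValuationSubring F1} {W20 W11 W02 : ValuationSubring F2}
    (hU0 : ∀ V : ValuationSubring F0, IsVertical O π j0 V → V = Og)
    (hLQ : ∀ V : ValuationSubring F1, V.comap α = Og → V = V1 ∨ V = V2)
    (hALL : ∀ W : ValuationSubring F2, W.comap a = V1 ∨ W.comap a = V2 →
      W = W20 ∨ W = W11 ∨ W = W02)
    {ι : Type*} [Fintype ι] (y : ι → F2) (i₀ : ι) (hy : y i₀ = a (α j0))
    (hconn : ∀ i j, Relation.ReflTransGen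
      (fun b c => IsIntegral (Algebra.adjoin O ({y b} : Set F2)) (y c)) i j)
    (htr : Transcendental O (∏ i, y i))
    {W : ValuationSubring F2} (hW : IsVertical O π (∏ i, y i)⁻¹ W) :
    W = W20 ∨ W = W11 ∨ W = W02 :=
  eq_or_eq_or_eq_of_isVertical_prod hπ α a hα ha hU0 hLQ hALL y i₀ hy hconn htr hW.of_inv

end ModelProd

end Fermat.Agent.S36.ModelVert
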