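import Mathlib
import Fermat.Agent.S34.OrthoPairTwoExt

/-!
# PROJECT V (S36), slice V-PairLiftK0 (abstract half): rational lifts for a reduction ring

Chain v1.1 (N2).  `S36/LatticeDescent` for a REDUCTION RING `RR : S34.OrthoLattice.RedRing A π FL Fk`
instead of a single Gauss valuation: `R ≤ FL` a subring over the valuation ring `A` of the constants
`L`, `red : R →+* Fk` into a `k`-ALGEBRA (`κ₁ × κ₂` for the pair `R = V₁ ∩ V₂` of the two Gauss rings
of level `q M''`), restricting to `π` on constants.  `L₀ ⊆ L` a subfield whose integers surject onto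
the residue field `k` (`K₀ ⊆ ℚ̄`).

* `mem_of_sum_mem` : `e i ∈ R` with `k`-independent reductions, `∑ μ i • e i ∈ R` ⟹ `μ i ∈ A`
  (needs only `π (non-unit) = 0`);
* `exists_rational_lift` : then every `f ∈ R` in the `L`-span of the `e i` has the same reduction as
  `∑ c i e i` with `c i ∈ L₀` integral;
* `exists_rational_lift_bc`, `linearIndependent_of_red_bc`, `exists_rational_lift_of_finrank` :
  the same along a base-change homomorphism `bc : F₀ →+* FL` (`F₀` a field over `L₀`), for a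
  finite-dimensional `L₀`-subspace `V₀ ≤ F₀` containing `finrank V₀` elements `g j` with
  `bc (g j) ∈ R` and `k`-independent reductions
  (`S34/OrthoPairTwoExt.exists_red_independent'` over the base `L₀`);
* `Pair.exists_rational_lift_of_finrank` : the pair form: `f ∈ V₁ ∩ V₂` in the `L`-span of
  `bc '' V₀` ⟹ `f₀ ∈ V₀` with `bc f₀ ∈ V₁ ∩ V₂`, `ρ₁ (bc f₀) = ρ₁ f` and `ρ₂ (bc f₀) = ρ₂ f`.

Use (N2): `f` = the `ℚ̄`-function of project U with `(ρ₁ f, ρ₂ f) = (0, h₂)`, `h₂` vanishing on the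
nodes and equal to `1` at a place `b ∉ S`; `f₀` is then a `K₀`-rational function of the chart ring
`A₁` with `red1 f₀ ∈ fr n`, `red2 f₀ ∉ n`.
-/

set_option autoImplicit false
set_option linter.unusedSectionVars false

namespace Fermat.Agent.S36.PairDescent

open Fermat.Agent.S34.OrthoLattice Fermat.Agent.S37.Deuring.Core

variable {L : Type*} [Field L] {k : Type*} [Field k]
variable {A : ValuationSubring L} {π : A →+* k}
variable {FL : Type*} [Field FL] [Algebra L FL] {Fk : Type*} [CommRing Fk] [Algebra k Fk]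
variable (RR : RedRing A π FL Fk)

/-- `∑ const (a i) * e i`, as an element of the ambient field -/
theorem coe_sum_const_mul {ι : Type*} [Fintype ι] (a : ι → A) (e : ι → RR.R) :
    ((∑ i, RR.constHom (a i) * e i : RR.R) : FL) = ∑ i, ((a i : A) : L) • ((e i : RR.R) : FL) := by
  rw [← Subring.subtype_apply, map_sum]
  refine Finset.sum_congr rfl fun i _ => ?_
  rw [Algebra.smul_def]
  rfl

/-- the reduction of `∑ const (a i) * e i` -/
theorem red_sum_const_mul {ι : Type*} [Fintype ι] (a : ι → A) (e : ι → RR.R) :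
    RR.red (∑ i, RR.constHom (a i) * e i) = ∑ i, π (a i) • RR.red (e i) := by
  rw [map_sum]
  refine Finset.sum_congr rfl fun i _ => ?_
  rw [map_mul, RR.red_constHom, Algebra.smul_def]

/-- **integral combinations have integral coefficients**: `e i ∈ R` with `k`-independent
reductions, `∑ μ i • e i ∈ R` ⟹ `μ i ∈ A`. -/
theorem mem_of_sum_mem (hπ : ∀ a : A, ¬ IsUnit a → π a = 0) {ι : Type*} [Fintype ι]
    (e : ι → RR.R) (h : LinearIndependent k fun i => RR.red (e i)) (μ : ι → L)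
    (hμ : ∑ i, μ i • ((e i : RR.R) : FL) ∈ RR.R) (i : ι) : μ i ∈ A := by
  classical
  by_contra hi
  have hμi : μ i ≠ 0 := by
    rintro h0
    exact hi (h0 ▸ A.zero_mem)
  obtain ⟨i₀, -, h0, hA⟩ :=
    GaussDatum.exists_max_const (A := A) Finset.univ μ ⟨i, Finset.mem_univ _, hμi⟩
  -- `μ i₀ ∉ A`
  have hi₀ : μ i₀ ∉ A := by
    intro hmem
    apply hi
    have h1 : μ i = (μ i / μ i₀) * μ i₀ := by field_simp
    rw [h1]
    exact A.mul_mem _ _ (hA i (Finset.mem_univ _)) hmem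
  have hb : (μ i₀)⁻¹ ∈ A := (A.mem_or_inv_mem (μ i₀)).resolve_left hi₀
  set b : A := ⟨(μ i₀)⁻¹, hb⟩ with hbdef
  have hbnu : ¬ IsUnit b := by
    intro hu
    obtain ⟨c, hc⟩ := isUnit_iff_exists_inv.mp hu
    have h1 : (μ i₀)⁻¹ * (c : L) = 1 := congrArg Subtype.val hc
    have h2 : (c : L) = μ i₀ := by
      have := congrArg (fun x => μ i₀ * x) h1
      simp only [mul_one] at this
      rw [← mul_assoc, mul_inv_cancel₀ h0, one_mul] at this
      exact this
    exact hi₀ (h2 ▸ c.2)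
  set a : ι → A := fun j => ⟨μ j / μ i₀, hA j (Finset.mem_univ _)⟩ with ha
  set f : RR.R := ⟨∑ j, μ j • ((e j : RR.R) : FL), hμ⟩ with hf
  have hsum : ∑ j, RR.constHom (a j) * e j = RR.constHom b * f := by
    apply Subtype.ext
    rw [coe_sum_const_mul]
    have h2 : ((RR.constHom b * f : RR.R) : FL) = (μ i₀)⁻¹ • ∑ j, μ j • ((e j : RR.R) : FL) := by
      rw [Algebra.smul_def]
      rfl
    rw [h2, Finset.smul_sum]
    refine Finset.sum_congr rfl fun j _ => ?_
    rw [smul_smul]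
    congr 1
    exact div_eq_inv_mul _ _
  have hred : ∑ j, π (a j) • RR.red (e j) = 0 := by
    rw [← red_sum_const_mul, hsum, map_mul, RR.red_constHom, hπ b hbnu, map_zero, zero_mul]
  have h3 := Fintype.linearIndependent_iff.mp h _ hred i₀
  have h4 : a i₀ = 1 := Subtype.ext (div_self h0)
  rw [h4, map_one] at h3
  exact one_ne_zero h3

variable {L₀ : Type*} [Field L₀] [Algebra L₀ L]

/-- **Rational lifts for a reduction ring**: `e i ∈ R` with `k`-independent reductions, `L₀ ⊆ L` a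
subfield whose integers surject onto the residue field.  Every `f ∈ R` in the `L`-span of the `e i`
has the same reduction as some `∑ c i e i` with `c i ∈ L₀` integral. -/
theorem exists_rational_lift (hπ : ∀ a : A, ¬ IsUnit a → π a = 0) {ι : Type*} [Fintype ι]
    (e : ι → RR.R) (h : LinearIndependent k fun i => RR.red (e i))
    (hres : ∀ a : A, ∃ c : L₀, ∃ hc : algebraMap L₀ L c ∈ A, π ⟨algebraMap L₀ L c, hc⟩ = π a)
    (f : RR.R)
    (hf : ((f : RR.R) : FL) ∈ Submodule.span L (Set.range fun i => ((e i : RR.R) : FL))) :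
    ∃ (c : ι → L₀) (hc : ∀ i, algebraMap L₀ L (c i) ∈ A),
      RR.red (∑ i, RR.constHom ⟨algebraMap L₀ L (c i), hc i⟩ * e i) = RR.red f := by
  classical
  obtain ⟨μ, hμ⟩ := (Submodule.mem_span_range_iff_exists_fun L).mp hf
  have hμint : ∀ i, μ i ∈ A := mem_of_sum_mem RR hπ e h μ (by rw [hμ]; exact f.2)
  choose c hc hcπ using fun i => hres ⟨μ i, hμint i⟩
  refine ⟨c, hc, ?_⟩
  have hfeq : f = ∑ i, RR.constHom ⟨μ i, hμint i⟩ * e i := by
    apply Subtype.ext
    rw [coe_sum_const_mul, ← hμ]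
  rw [hfeq, red_sum_const_mul, red_sum_const_mul]
  refine Finset.sum_congr rfl fun i _ => ?_
  rw [hcπ i]

/-- families with `k`-independent reductions are `L`-independent (`OrthoLattice`, restated) -/
theorem linearIndependent_of_red' [Nontrivial Fk] {ι : Type*} [Fintype ι] (e : ι → RR.R)
    (h : LinearIndependent k fun i => RR.red (e i)) :
    LinearIndependent L fun i => ((e i : RR.R) : FL) :=
  Fermat.Agent.S34.OrthoLattice.linearIndependent_of_red RR e h

/-! ### base-change form -/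

variable {F₀ : Type*} [Field F₀] [Algebra L₀ F₀] (bc : F₀ →+* FL)

/-- `bc` is semilinear over `L₀ → L` -/
theorem bc_smul (hbc : ∀ a : L₀, bc (algebraMap L₀ F₀ a) = algebraMap L FL (algebraMap L₀ L a))
    (c : L₀) (x : F₀) : bc (c • x) = algebraMap L₀ L c • bc x := by
  rw [Algebra.smul_def, map_mul, hbc, Algebra.smul_def]

/-- **Rational lifts, base-change form.** -/
theorem exists_rational_lift_bc (hπ : ∀ a : A, ¬ IsUnit a → π a = 0)
    (hbc : ∀ a : L₀, bc (algebraMap L₀ F₀ a) = algebraMap L FL (algebraMap L₀ L a))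
    (hres : ∀ a : A, ∃ c : L₀, ∃ hc : algebraMap L₀ L c ∈ A, π ⟨algebraMap L₀ L c, hc⟩ = π a)
    {ι : Type*} [Fintype ι] (g : ι → F₀) (hg : ∀ i, bc (g i) ∈ RR.R)
    (h : LinearIndependent k fun i => RR.red ⟨bc (g i), hg i⟩)
    (f : RR.R) (hf : ((f : RR.R) : FL) ∈ Submodule.span L (Set.range fun i => bc (g i))) :
    ∃ f₀ ∈ Submodule.span L₀ (Set.range g), ∃ h₀ : bc f₀ ∈ RR.R,
      RR.red ⟨bc f₀, h₀⟩ = RR.red f := by
  classical
  obtain ⟨c, hc, hred⟩ :=
    exists_rational_lift RR hπ (fun i => (⟨bc (g i), hg i⟩ : RR.R)) h hres f hf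
  have hcoe : bc (∑ i, c i • g i) =
      ((∑ i, RR.constHom ⟨algebraMap L₀ L (c i), hc i⟩ * (⟨bc (g i), hg i⟩ : RR.R) : RR.R) :
        FL) := by
    rw [map_sum, coe_sum_const_mul]
    refine Finset.sum_congr rfl fun i _ => ?_
    rw [bc_smul bc hbc]
  refine ⟨∑ i, c i • g i, ?_, ?_, ?_⟩
  · exact Submodule.sum_mem _ fun i _ =>
      Submodule.smul_mem _ _ (Submodule.subset_span ⟨i, rfl⟩)
  · rw [hcoe]
    exact Subtype.mem _
  · rw [← hred]
    congr 1
    exact Subtype.ext hcoe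

/-- a family `g` with `bc (g i) ∈ R` and `k`-independent reductions is `L₀`-independent -/
theorem linearIndependent_of_red_bc [Nontrivial Fk]
    (hbc : ∀ a : L₀, bc (algebraMap L₀ F₀ a) = algebraMap L FL (algebraMap L₀ L a))
    {ι : Type*} [Fintype ι] (g : ι → F₀) (hg : ∀ i, bc (g i) ∈ RR.R)
    (h : LinearIndependent k fun i => RR.red ⟨bc (g i), hg i⟩) : LinearIndependent L₀ g := by
  classical
  have hL := linearIndependent_of_red' RR (fun i => (⟨bc (g i), hg i⟩ : RR.R)) h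
  rw [Fintype.linearIndependent_iff] at hL ⊢
  intro c hc i
  have h1 : ∑ j, algebraMap L₀ L (c j) • bc (g j) = 0 := by
    have := congrArg bc hc
    rw [map_sum, map_zero] at this
    rw [← this]
    exact Finset.sum_congr rfl fun j _ => (bc_smul bc hbc _ _).symm
  have h2 := hL (fun j => algebraMap L₀ L (c j)) h1 i
  exact (map_eq_zero (algebraMap L₀ L)).mp h2

/-- **Rational lifts for a finite-dimensional space with an orthonormal basis.** -/
theorem exists_rational_lift_of_finrank [Nontrivial Fk] (hπ : ∀ a : A, ¬ IsUnit a → π a = 0)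
    (hbc : ∀ a : L₀, bc (algebraMap L₀ F₀ a) = algebraMap L FL (algebraMap L₀ L a))
    (hres : ∀ a : A, ∃ c : L₀, ∃ hc : algebraMap L₀ L c ∈ A, π ⟨algebraMap L₀ L c, hc⟩ = π a)
    (V₀ : Submodule L₀ F₀) [FiniteDimensional L₀ V₀]
    (g : Fin (Module.finrank L₀ V₀) → F₀) (hgV : ∀ j, g j ∈ V₀) (hg : ∀ j, bc (g j) ∈ RR.R)
    (h : LinearIndependent k fun j => RR.red ⟨bc (g j), hg j⟩)
    (f : RR.R) (hf : ((f : RR.R) : FL) ∈ Submodule.span L (bc '' (V₀ : Set F₀))) :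
    ∃ f₀ ∈ V₀, ∃ h₀ : bc f₀ ∈ RR.R, RR.red ⟨bc f₀, h₀⟩ = RR.red f := by
  classical
  have hli := linearIndependent_of_red_bc RR bc hbc g hg h
  let g' : Fin (Module.finrank L₀ V₀) → V₀ := fun j => ⟨g j, hgV j⟩
  have hli' : LinearIndependent L₀ g' := by
    apply LinearIndependent.of_comp V₀.subtype
    exact hli
  have hspan' : Submodule.span L₀ (Set.range g') = ⊤ :=
    hli'.span_eq_top_of_card_eq_finrank' (by rw [Fintype.card_fin])
  have hspan : Submodule.span L₀ (Set.range g) = V₀ := by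
    have h1 : Set.range g = V₀.subtype '' Set.range g' := by
      rw [← Set.range_comp]
      rfl
    rw [h1, Submodule.span_image, hspan', Submodule.map_top, Submodule.range_subtype]
  have hle : Submodule.span L (bc '' (V₀ : Set F₀)) ≤
      Submodule.span L (Set.range fun j => bc (g j)) := by
    rw [Submodule.span_le]
    rintro _ ⟨x, hx, rfl⟩
    have hx' : x ∈ Submodule.span L₀ (Set.range g) := by rw [hspan]; exact hx
    obtain ⟨c, rfl⟩ := (Submodule.mem_span_range_iff_exists_fun L₀).mp hx'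
    rw [map_sum]
    refine Submodule.sum_mem _ fun j _ => ?_
    rw [bc_smul bc hbc]
    exact Submodule.smul_mem _ _ (Submodule.subset_span ⟨j, rfl⟩)
  obtain ⟨f₀, hf₀, h₀, hred⟩ := exists_rational_lift_bc RR bc hπ hbc hres g hg h f (hle hf)
  exact ⟨f₀, hspan ▸ hf₀, h₀, hred⟩

/-! ### the pair `V₁ ∩ V₂ → κ₁ × κ₂` -/

section Pair

open Fermat.Agent.S34.OrthoPairTwoExt

variable {κ₁ κ₂ : Type*} [Field κ₁] [Field κ₂] [Algebra k κ₁] [Algebra k κ₂]
variable (V₁ V₂ : ValuationSubring FL) (ρ₁ : ↥V₁ →+* κ₁) (ρ₂ : ↥V₂ →+* κ₂)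

/-- **Rational lifts for the pair** `(V₁, V₂)`: `V₀` a finite-dimensional `L₀`-subspace of `F₀`
containing `finrank V₀` elements `g j` with `bc (g j) ∈ V₁ ∩ V₂` whose pairs of reductions are
`k`-independent in `κ₁ × κ₂`.  Every `f ∈ V₁ ∩ V₂` in the `L`-span of `bc '' V₀` has the same two
reductions as `bc f₀` for some `f₀ ∈ V₀`. -/
theorem Pair.exists_rational_lift_of_finrank
    (hconst₁ : ∀ a : A, algebraMap L FL (a : L) ∈ V₁)
    (hconst₂ : ∀ a : A, algebraMap L FL (a : L) ∈ V₂)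
    (hred₁ : ∀ a : A, ρ₁ ⟨algebraMap L FL (a : L), hconst₁ a⟩ = algebraMap k κ₁ (π a))
    (hred₂ : ∀ a : A, ρ₂ ⟨algebraMap L FL (a : L), hconst₂ a⟩ = algebraMap k κ₂ (π a))
    (hker₁ : ∀ y : ↥V₁, ρ₁ y = 0 ↔ (y : FL) ∈ V₁.nonunits)
    (hker₂ : ∀ y : ↥V₂, ρ₂ y = 0 ↔ (y : FL) ∈ V₂.nonunits)
    (hπ : ∀ a : A, ¬ IsUnit a → π a = 0)
    (hbc : ∀ a : L₀, bc (algebraMap L₀ F₀ a) = algebraMap L FL (algebraMap L₀ L a))
    (hres : ∀ a : A, ∃ c : L₀, ∃ hc : algebraMap L₀ L c ∈ A, π ⟨algebraMap L₀ L c, hc⟩ = π a)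
    (V₀ : Submodule L₀ F₀) [FiniteDimensional L₀ V₀]
    (g : Fin (Module.finrank L₀ V₀) → F₀) (hgV : ∀ j, g j ∈ V₀)
    (hg₁ : ∀ j, bc (g j) ∈ V₁) (hg₂ : ∀ j, bc (g j) ∈ V₂)
    (h : LinearIndependent k fun j => ((ρ₁ ⟨bc (g j), hg₁ j⟩, ρ₂ ⟨bc (g j), hg₂ j⟩) : κ₁ × κ₂))
    (f : FL) (hf₁ : f ∈ V₁) (hf₂ : f ∈ V₂)
    (hf : f ∈ Submodule.span L (bc '' (V₀ : Set F₀))) :
    ∃ f₀ ∈ V₀, ∃ (h₁ : bc f₀ ∈ V₁) (h₂ : bc f₀ ∈ V₂),
      ρ₁ ⟨bc f₀, h₁⟩ = ρ₁ ⟨f, hf₁⟩ ∧ ρ₂ ⟨bc f₀, h₂⟩ = ρ₂ ⟨f, hf₂⟩ := by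
  set RR : RedRing A π FL (κ₁ × κ₂) :=
    RedRing.ofPair π V₁ V₂ ρ₁ ρ₂ hconst₁ hconst₂ hred₁ hred₂ hker₁ hker₂ with hRR
  have hgR : ∀ j, bc (g j) ∈ RR.R := fun j => Subring.mem_inf.mpr ⟨hg₁ j, hg₂ j⟩
  have hfR : f ∈ RR.R := Subring.mem_inf.mpr ⟨hf₁, hf₂⟩
  obtain ⟨f₀, hf₀, h₀, hred⟩ :=
    Fermat.Agent.S36.PairDescent.exists_rational_lift_of_finrank RR bc hπ hbc hres V₀ g hgV hgR h
      ⟨f, hfR⟩ hf
  have h₁ : bc f₀ ∈ V₁ := (Subring.mem_inf.mp h₀).1
  have h₂ : bc f₀ ∈ V₂ := (Subring.mem_inf.mp h₀).2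
  refine ⟨f₀, hf₀, h₁, h₂, ?_, ?_⟩
  · exact congrArg Prod.fst hred
  · exact congrArg Prod.snd hred

end Pair

end Fermat.Agent.S36.PairDescent
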