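/-
PROJECT V (S36), slice V-RegT0X0 (helper18): **(R3) at `X₀`, concrete: the common generator `t₀` and
the fields `hR₁`, `hR₂` of `NewInertiaDatum.Input` for helper8's `GlueNormX0.datumX0`.**

Everything is on the objects of the chain: `O₀ = W A`, `K₀ = K0 A`, `F₂ = FK0 A (M q q)`
(`= FK I (M q q)`), chart function `φ` (any transcendental `φ` with `j ∈ chart O₀ φ`,
`φ ∈ chart O₀ j`: `φ = x₂`), the two chart rings `chart O₀ φ`, `chart O₀ φ⁻¹`.

* `mem_of_hasOrd_nOf` : a prime divisor `V` at which `t₀` has the order prescribed by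
  `nOf ((q - 1) D0)` contains `f ^ (q - 1) * t₀ ^ n` as soon as `ord_v f = n D0 v` (places) and `f`
  lies in the non-place prime divisors;
* **`exists_t0`** : from two finite sets `S₁ ⊆ MaxSpec (chart O₀ φ)`, `S₂ ⊆ MaxSpec (chart O₀ φ⁻¹)`
  (locally principal, residue classes represented by constants, containing `V(q, G(j))` resp.
  `V(q, φ⁻¹)`, and at which the non-place prime divisors are among the three `W`):
  `t₀ ≠ 0`, `HasOrd V t₀ (nOf ((q - 1) D0) V)` on `Br m` (`m ∈ S₁ ∪ S₂`), and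
  `X.Reg (g₁ ^ (X.q - 1) * X.N₁ t₀)`, `X.Reg (g₂ ^ (X.q - 1) * X.N₂ t₀)` for
  `X = GlueNormX0.datumX0 hgen Y hFr Z lk`.
  Engines: `CommonGenPoints.exists_common_generator_of_finite` (helper7's third chart),
  `EvalCentreX0.exists_jvalue_of_pole_alpha` (helper10), `GlueNormX0.reg₁' / reg₂'` (helper8).
  The constants of the chart rings are `EvalCentreX0.constHom φ : W A →+* chart (W A) φ`
  (`exists_common_generator_of_finite'`: NO `Algebra (W A) (chart ..)` instance is searched; at `X₀`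
  that search, and `IsScalarTower (W A) (chart ..) (FK0 ..)`, time out in contexts carrying the
  chart instances).  The six instance arguments come from `ChartX0.chartX0_props hA _ hφ` and
  `... (EvalCentreX0.transcendental_inv _ hφ)`.
* `jK0_mem_chart_x2`, `x2_mem_chart_jK0` : the hypotheses `hjφ`, `hφj` for
  `φ = ChartsX0.x2K0 A M = j₀ j₁ j₂` (with `ChartsX0.transcendental_x2K0` for `hφ`; the
  specialisation of `exists_t0` to `x₂` has been test-compiled).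
-/
import Fermat.Agent.S36.CommonGenPoints
import Fermat.Agent.S36.CommonGenV
import Fermat.Agent.S36.EvalCentreX0
import Fermat.Agent.S36.GlueNormX0Norm
import Fermat.Agent.S36.ChartsX0

set_option autoImplicit false
set_option linter.unusedSectionVars false
set_option linter.style.haveILetI false
set_option linter.unusedVariables false
set_option synthInstance.maxHeartbeats 400000

noncomputable section

namespace Fermat.Agent.S36.RegT0X0

open ModularCurve AlgebraicCurve IsLocalRing IntermediateField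
open Fermat.Agent.S37.Deuring.Core Fermat.Agent.S37.Gauss.Datum
open Fermat.Agent.S34.CoreZX0Assembly Fermat.Agent.S34.CoreZX0Build
open Fermat.Agent.S34.CoreZX0OfGeneric
open Fermat.Agent.S36.GlueNorm Fermat.Agent.S36.GlueLevelQ Fermat.Agent.S36.GlueNormX0
open Fermat.Agent.S36.RegOfPoles
open Fermat.Agent.S36.KrullInter Fermat.Agent.S36.LocalGenOrd Fermat.Agent.S36.LocalIntrinsic
open Fermat.Agent.S36.ChartRing Fermat.Agent.S36.ChartX0 Fermat.Agent.S36.EvalCentreX0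
open Fermat.Agent.S36.Centre
open Fermat.Agent.S18.C.SmallDVR

local notation "Kb" => AlgebraicClosure ℚ

/-! ### orders add up -/

section Local

variable {K F : Type*} [Field K] [Field F] [Algebra K F]

/-- a prime divisor `V` at which `t₀` has the order of `nOf (e D0)` contains `f ^ e * t₀ ^ n`, as
soon as `ord_v f = n D0 v` at the places and `f ∈ V` when `V` is not a place -/
theorem mem_of_hasOrd_nOf {V : ValuationSubring F} {f t₀ : F} {e n : ℕ} (D0 : Place K F → ℤ)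
    (hf : ∀ v : Place K F, v.ord f = (n : ℤ) * D0 v)
    (ht : HasOrd V t₀ (LocalGenV.nOf (fun v : Place K F => (e : ℤ) * D0 v) V))
    (hfV : (¬ ∃ v : Place K F, v.toValuationSubring = V) → f ∈ V) :
    f ^ e * t₀ ^ n ∈ V := by
  by_cases hpl : ∃ v : Place K F, v.toValuationSubring = V
  · obtain ⟨v, rfl⟩ := hpl
    have ht' := CommonGenV.ord_eq_of_hasOrd_nOf _ v ht
    by_cases h0 : f ^ e * t₀ ^ n = 0
    · rw [h0]; exact ValuationSubring.zero_mem _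
    · have hf0 : f ^ e ≠ 0 := left_ne_zero_of_mul h0
      have ht0 : t₀ ^ n ≠ 0 := right_ne_zero_of_mul h0
      rw [Lattice.mem_iff_ord v h0, v.ord_mul hf0 ht0, Fermat.Agent.S18.CoreOrd.ord_pow,
        Fermat.Agent.S18.CoreOrd.ord_pow, hf v, ht']
      apply le_of_eq
      ring
  · have htV := (CommonGenV.mem_and_inv_mem_of_hasOrd_nOf _ hpl ht).1
    exact ValuationSubring.mul_mem _ _ _ (pow_mem (hfV hpl) _) (pow_mem htV _)

end Local

/-! ### the common generator, constants given by ring homomorphisms -/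

section Variant

variable {O : Type*} [CommRing O] [IsDomain O] [IsDiscreteValuationRing O] {K : Type*} [Field K]
  [Algebra O K] [IsFractionRing O K] [CharZero K] {F : Type*} [Field F] [Algebra K F]
  [Algebra O F] [IsScalarTower O K F]

variable {A₁ : Type*} [CommRing A₁] [IsDomain A₁] [Algebra A₁ F] [IsFractionRing A₁ F]
  [IsNoetherianRing A₁] [IsIntegrallyClosed A₁]
  {A₂ : Type*} [CommRing A₂] [IsDomain A₂] [Algebra A₂ F] [IsFractionRing A₂ F]
  [IsNoetherianRing A₂] [IsIntegrallyClosed A₂]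

/-- `CommonGenPoints.exists_common_generator_of_finite` with the constants of the two chart rings
given by ring homomorphisms `cst_i : O →+* A_i` (no `Algebra O A_i` instance: at `X₀` the instance
search for it is expensive) -/
theorem exists_common_generator_of_finite' [Infinite (ResidueField O)] {φ : F}
    (hφ : Transcendental K φ) [FiniteDimensional K⟮φ⟯ F]
    (hA₁ : ∀ x : F, (∃ a : A₁, algebraMap A₁ F a = x) ↔ x ∈ chart O φ)
    (hA₂ : ∀ x : F, (∃ a : A₂, algebraMap A₂ F a = x) ↔ x ∈ chart O φ⁻¹)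
    (cst₁ : O →+* A₁) (hcst₁ : ∀ c : O, algebraMap A₁ F (cst₁ c) = algebraMap O F c)
    (cst₂ : O →+* A₂) (hcst₂ : ∀ c : O, algebraMap A₂ F (cst₂ c) = algebraMap O F c)
    (S₁ : Set (Ideal A₁)) (hS₁ : S₁.Finite) (hmax₁ : ∀ m ∈ S₁, m.IsMaximal)
    (hconst₁ : ∀ m ∈ S₁, ∀ u : A₁, ∃ c : O, u - cst₁ c ∈ m)
    (hloc₁ : ∀ m ∈ S₁, LocalGenCore.LocPrincipal (F := F) m)
    (S₂ : Set (Ideal A₂)) (hS₂ : S₂.Finite) (hmax₂ : ∀ m ∈ S₂, m.IsMaximal)
    (hconst₂ : ∀ m ∈ S₂, ∀ u : A₂, ∃ c : O, u - cst₂ c ∈ m)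
    (hloc₂ : ∀ m ∈ S₂, LocalGenCore.LocPrincipal (F := F) m)
    (n : ValuationSubring F → ℤ) (hfin : {V : ValuationSubring F | n V ≠ 0}.Finite) :
    ∃ t : F, t ≠ 0 ∧ (∀ m ∈ S₁, ∀ V ∈ Br (F := F) m, HasOrd V t (n V)) ∧
      ∀ m ∈ S₂, ∀ V ∈ Br (F := F) m, HasOrd V t (n V) := by
  letI : Algebra O A₁ := cst₁.toAlgebra
  letI : Algebra O A₂ := cst₂.toAlgebra
  haveI : IsScalarTower O A₁ F := IsScalarTower.of_algebraMap_eq fun c => (hcst₁ c).symm
  haveI : IsScalarTower O A₂ F := IsScalarTower.of_algebraMap_eq fun c => (hcst₂ c).symm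
  exact CommonGenPoints.exists_common_generator_of_finite (O := O) (K := K) hφ hA₁ hA₂
    S₁ hS₁ hmax₁ hconst₁ hloc₁ S₂ hS₂ hmax₂ hconst₂ hloc₂ n hfin

end Variant

/-! ### `X₀` -/

attribute [local instance 2000] Fermat.Agent.S34.EulerX0.algResFk

/-- shortcut instances (all propositions) -/
local instance instPDBarRX (N : ℕ) [NeZero N] :
    HasPrincipalDivisors Kb ↥(modularFunctionFieldBar N) :=
  Fermat.Agent.S18.A.Instances.hasPrincipalDivisors_bar N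

local instance instPDFkRX (A : ValuationSubring Kb) (N : ℕ) [NeZero N] :
    HasPrincipalDivisors (ResidueField ↥A) ↥(modularFunctionFieldFullC (ResidueField ↥A) N) :=
  Fermat.Agent.S37.ReductionInputs.hasPrincipalDivisors_Fk A N

local instance instACkRX (A : ValuationSubring Kb) : IsAlgClosed (ResidueField ↥A) :=
  Fermat.Agent.S18.ResidueBasics.isAlgClosed_residueField A

local instance instInfkRX (A : ValuationSubring Kb) : Infinite (ResidueField ↥A) :=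
  Fermat.Agent.S37.ReductionInputs.infinite_residueField A

local instance instNeZeroMulRX (M q : ℕ) [NeZero M] [NeZero q] : NeZero (M * q) :=
  ⟨Nat.mul_ne_zero (NeZero.ne M) (NeZero.ne q)⟩

variable {q : ℕ} [hq : Fact q.Prime] {M : ℕ} [NeZero M] {A : ValuationSubring Kb} [NeZero q]
variable {hA : A.LiesOverPrime q} {hqM : ¬ q ∣ M}
variable {gL gk : ℕ} {HG : Hyp (gaussDatum M A hA hqM) gL gk}
variable [CharP (ResidueField ↥A) q]

variable (hgen : GenericX0 hA hqM HG) (Y : NodesC (inputsX0 hgen))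
  (hFr : ∀ b ∈ Y.S, Fermat.Agent.S34.FrobK.Fr (ResidueField ↥A) M q
    (Fermat.Agent.S34.FrobK.Fr (ResidueField ↥A) M q b) = b)
  (Z : ThreeValX0.Hyp (A.inertiaSubgroupIn ℚ) M q
    ↥(modularFunctionFieldFullC (ResidueField ↥A) M))
  (lk : Link (A.inertiaSubgroupIn ℚ) hA hqM Z)

/-- the residue field of `W A` is infinite -/
theorem infinite_residueField_W (hA : A.LiesOverPrime q) : Infinite (ResidueField ↥(W A)) := by
  haveI : Infinite (ResidueField ↥A) := Fermat.Agent.S37.ReductionInputs.infinite_residueField A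
  exact Infinite.of_surjective (residueFieldEquiv hA) (residueFieldEquiv hA).surjective

set_option maxHeartbeats 1600000 in
/-- **(R3) at `X₀`: the common generator with `hR₁`, `hR₂`.** -/
theorem exists_t0 {φ : FK0 A (M * q * q)} (hφ : Transcendental ↥(K0 A) φ)
    [IsNoetherianRing ↥(chart ↥(W A) φ)] [IsIntegrallyClosed ↥(chart ↥(W A) φ)]
    [IsFractionRing ↥(chart ↥(W A) φ) (FK0 A (M * q * q))]
    [IsNoetherianRing ↥(chart ↥(W A) φ⁻¹)] [IsIntegrallyClosed ↥(chart ↥(W A) φ⁻¹)]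
    [IsFractionRing ↥(chart ↥(W A) φ⁻¹) (FK0 A (M * q * q))]
    (hjφ : jK0 A (M * q * q) ∈ chart ↥(W A) φ) (hφj : φ ∈ chart ↥(W A) (jK0 A (M * q * q)))
    (s : Finset ↥(W A))
    (hs : ∀ γ ∈ badValues (inputsX0 hgen), ∃ z ∈ s, residue ↥A (toA A z) = γ)
    {n : ℕ} (hn : n ≠ 0) (Ku : (datumX0 hgen Y hFr Z lk).Kummer n)
    (D0 : Place ↥(K0 A) (FK0 A (M * q * q)) → ℤ)
    (hD0 : {v : Place ↥(K0 A) (FK0 A (M * q * q)) | D0 v ≠ 0}.Finite)
    (hf : ∀ v : Place ↥(K0 A) (FK0 A (M * q * q)), v.ord Ku.f = (n : ℤ) * D0 v)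
    (S₁ : Set (Ideal ↥(chart ↥(W A) φ))) (hS₁ : S₁.Finite) (hmax₁ : ∀ m ∈ S₁, m.IsMaximal)
    (hconst₁ : ∀ m ∈ S₁, ∀ u : ↥(chart ↥(W A) φ), ∃ c : ↥(W A), u - constHom φ c ∈ m)
    (hloc₁ : ∀ m ∈ S₁, LocalGenCore.LocPrincipal (F := FK0 A (M * q * q)) m)
    (hT₁ : ∀ x : Ideal ↥(chart ↥(W A) φ), x.IsMaximal →
      piChart φ ((q : ℕ) : ↥(W A)) ∈ x → badElt (M * q * q) hjφ s ∈ x → x ∈ S₁)
    (hvert₁ : ∀ m ∈ S₁, ∀ V ∈ Br (F := FK0 A (M * q * q)) m,
      (¬ ∃ v : Place ↥(K0 A) (FK0 A (M * q * q)), v.toValuationSubring = V) →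
        V = Z.W₂₀ ∨ V = Z.W₁₁ ∨ V = Z.W₀₂)
    (S₂ : Set (Ideal ↥(chart ↥(W A) φ⁻¹))) (hS₂ : S₂.Finite) (hmax₂ : ∀ m ∈ S₂, m.IsMaximal)
    (hconst₂ : ∀ m ∈ S₂, ∀ u : ↥(chart ↥(W A) φ⁻¹), ∃ c : ↥(W A), u - constHom φ⁻¹ c ∈ m)
    (hloc₂ : ∀ m ∈ S₂, LocalGenCore.LocPrincipal (F := FK0 A (M * q * q)) m)
    (hT₂ : ∀ x : Ideal ↥(chart ↥(W A) φ⁻¹), x.IsMaximal →
      piChart φ⁻¹ ((q : ℕ) : ↥(W A)) ∈ x →
        (⟨φ⁻¹, EvalCentreX0.self_mem_chart (M * q * q) φ⁻¹⟩ : ↥(chart ↥(W A) φ⁻¹)) ∈ x →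
          x ∈ S₂)
    (hvert₂ : ∀ m ∈ S₂, ∀ V ∈ Br (F := FK0 A (M * q * q)) m,
      (¬ ∃ v : Place ↥(K0 A) (FK0 A (M * q * q)), v.toValuationSubring = V) →
        V = Z.W₂₀ ∨ V = Z.W₁₁ ∨ V = Z.W₀₂) :
    ∃ t₀ : FK0 A (M * q * q), t₀ ≠ 0 ∧
      (∀ m ∈ S₁, ∀ V ∈ Br (F := FK0 A (M * q * q)) m, HasOrd V t₀
        (LocalGenV.nOf (fun v : Place ↥(K0 A) (FK0 A (M * q * q)) =>
          ((q - 1 : ℕ) : ℤ) * D0 v) V)) ∧
      (∀ m ∈ S₂, ∀ V ∈ Br (F := FK0 A (M * q * q)) m, HasOrd V t₀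
        (LocalGenV.nOf (fun v : Place ↥(K0 A) (FK0 A (M * q * q)) =>
          ((q - 1 : ℕ) : ℤ) * D0 v) V)) ∧
      (datumX0 hgen Y hFr Z lk).Reg
        (Ku.g₁ ^ ((datumX0 hgen Y hFr Z lk).q - 1) * (datumX0 hgen Y hFr Z lk).N₁ t₀) ∧
      (datumX0 hgen Y hFr Z lk).Reg
        (Ku.g₂ ^ ((datumX0 hgen Y hFr Z lk).q - 1) * (datumX0 hgen Y hFr Z lk).N₂ t₀) := by
  haveI := isDVR hA
  haveI := infinite_residueField_W hA
  haveI : CharZero ↥(K0 A) := charZero_K0 A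
  haveI : IsFractionRing ↥(W A) ↥(K0 A) := isFractionRing_W_K0 A
  have hφ' : Transcendental ↥(K0 A) φ⁻¹ := EvalCentreX0.transcendental_inv (M * q * q) hφ
  haveI := finiteDimensional_of_transcendental A (M * q * q) hφ
  have hfin : {v : Place ↥(K0 A) (FK0 A (M * q * q)) | ((q - 1 : ℕ) : ℤ) * D0 v ≠ 0}.Finite :=
    hD0.subset fun v hv h0 => hv (by rw [h0, mul_zero])
  have hA₁ : ∀ x : FK0 A (M * q * q), (∃ a : ↥(chart ↥(W A) φ),
      algebraMap ↥(chart ↥(W A) φ) (FK0 A (M * q * q)) a = x) ↔ x ∈ chart ↥(W A) φ := by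
    intro x
    constructor
    · rintro ⟨a, rfl⟩
      exact a.2
    · intro hx
      exact ⟨⟨x, hx⟩, rfl⟩
  have hA₂ : ∀ x : FK0 A (M * q * q), (∃ a : ↥(chart ↥(W A) φ⁻¹),
      algebraMap ↥(chart ↥(W A) φ⁻¹) (FK0 A (M * q * q)) a = x) ↔ x ∈ chart ↥(W A) φ⁻¹ := by
    intro x
    constructor
    · rintro ⟨a, rfl⟩
      exact a.2
    · intro hx
      exact ⟨⟨x, hx⟩, rfl⟩
  -- the common generator
  obtain ⟨t₀, ht0, h₁, h₂⟩ := exists_common_generator_of_finite'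
    (O := ↥(W A)) (K := ↥(K0 A)) (F := FK0 A (M * q * q))
    (A₁ := ↥(chart ↥(W A) φ)) (A₂ := ↥(chart ↥(W A) φ⁻¹)) hφ hA₁ hA₂
    (constHom φ) (coe_constHom φ) (constHom φ⁻¹) (coe_constHom φ⁻¹)
    S₁ hS₁ hmax₁ hconst₁ hloc₁ S₂ hS₂ hmax₂ hconst₂ hloc₂
    (LocalGenV.nOf (fun v : Place ↥(K0 A) (FK0 A (M * q * q)) => ((q - 1 : ℕ) : ℤ) * D0 v))
    (LocalGenV.nOf_finite _ hfin)
  refine ⟨t₀, ht0, h₁, h₂, ?_⟩
  let f : FK0 A (M * q * q) := Ku.f
  have hf' : ∀ v : Place ↥(K0 A) (FK0 A (M * q * q)), v.ord f = (n : ℤ) * D0 v := hf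
  -- `v₀ = f ^ (q - 1) * t₀ ^ n` lies in the local rings at the points of `S₁`, `S₂`
  have hfW : ∀ V : ValuationSubring (FK0 A (M * q * q)),
      (V = Z.W₂₀ ∨ V = Z.W₁₁ ∨ V = Z.W₀₂) → f ∈ V := by
    rintro V (rfl | rfl | rfl)
    · exact Ku.f₂₀
    · exact Ku.f₁₁
    · exact Ku.f₀₂
  have hv₁ : ∀ (x : Ideal ↥(chart ↥(W A) φ)) [hx : x.IsPrime], x.IsMaximal →
      piChart φ ((q : ℕ) : ↥(W A)) ∈ x → badElt (M * q * q) hjφ s ∈ x →
        f ^ (q - 1) * t₀ ^ n ∈ locSubring (F := FK0 A (M * q * q)) x := by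
    intro x hx hxm hqx hgx
    rw [mem_locSubring_iff_forall_mem_Br]
    intro V hV
    exact mem_of_hasOrd_nOf D0 hf' (h₁ x (hT₁ x hxm hqx hgx) V hV)
      (fun hpl => hfW V (hvert₁ x (hT₁ x hxm hqx hgx) V hV hpl))
  have hv₂ : ∀ (x : Ideal ↥(chart ↥(W A) φ⁻¹)) [hx : x.IsPrime], x.IsMaximal →
      piChart φ⁻¹ ((q : ℕ) : ↥(W A)) ∈ x →
        (⟨φ⁻¹, EvalCentreX0.self_mem_chart (M * q * q) φ⁻¹⟩ : ↥(chart ↥(W A) φ⁻¹)) ∈ x →
        f ^ (q - 1) * t₀ ^ n ∈ locSubring (F := FK0 A (M * q * q)) x := by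
    intro x hx hxm hqx hgx
    rw [mem_locSubring_iff_forall_mem_Br]
    intro V hV
    exact mem_of_hasOrd_nOf D0 hf' (h₂ x (hT₂ x hxm hqx hgx) V hV)
      (fun hpl => hfW V (hvert₂ x (hT₂ x hxm hqx hgx) V hV hpl))
  -- helper10's `K0`-side criterion
  have h := exists_jvalue_of_pole_alpha hA M q hφ hjφ hφj (badValues (inputsX0 hgen)) s hs
    (f ^ (q - 1) * t₀ ^ n) hv₁ hv₂
  exact ⟨reg₁' hgen Y hFr Z lk hn Ku t₀ h, reg₂' hgen Y hFr Z lk hn Ku t₀ h⟩

/-! ### the chart function `x₂ = j₀ j₁ j₂` -/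

section X2

open Fermat.Agent.S36.ChartsX0

variable [NeZero (M * q * q)]

/-- `j ∈ chart O₀ x₂` -/
theorem jK0_mem_chart_x2 :
    jK0 A (M * q * q) ∈ chart ↥(W A) (x2K0 (q := q) A M) := by
  have h := fam2_mem_chartX0 (q := q) A M 0
  have e : (fam2 (A.inertiaSubgroupIn ℚ) M q 0 : FK0 A (M * q * q)) = jK0 A (M * q * q) := by
    rw [jK0_eq_j0K]
    rfl
  rw [e] at h
  exact h

/-- `x₂ ∈ chart O₀ j` -/
theorem x2_mem_chart_jK0 :
    x2K0 (q := q) A M ∈ chart ↥(W A) (jK0 A (M * q * q)) := by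
  have h := (mem_chartX0_x2_iff (q := q) A M 0 (x2K0 (q := q) A M)).1
    (EvalCentreX0.self_mem_chart (M * q * q) _)
  have e : (fam2 (A.inertiaSubgroupIn ℚ) M q 0 : FK0 A (M * q * q)) = jK0 A (M * q * q) := by
    rw [jK0_eq_j0K]
    rfl
  rw [e] at h
  exact h

end X2

end Fermat.Agent.S36.RegT0X0
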