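/-
PROJECT V (S36), Stage 0, design-independent commutative algebra (helper2, memo #2478 (2)).
Mathlib only.

**Semi-local generator = the moving lemma in module language.**  `R` a commutative ring, `M` an
`R`-module (in the application `M = F₀`, the function field, `R` an affine ring of the normal
model), `I ≤ M` a submodule (`I = {u | div u + D ≥ 0 near x₁, …, x_k}`), `m i` finitely many
pairwise distinct maximal ideals of `R` (the closed points `x_i`), and `u i ∈ I` local generators
of `I` at `m i` in the weak form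

  `∀ v ∈ I, ∃ a s, s ∉ m i ∧ s • v = a • u i`.

Then there is ONE `h ∈ I` which is a local generator at every `m i`:
`exists_common_generator`, `exists_common_generator'`.
-/
import Mathlib

set_option autoImplicit false
set_option linter.style.haveILetI false
set_option linter.unusedSectionVars false

namespace Fermat.Agent.S36.SemiLocalGenerator

open Finset

variable {R : Type*} [CommRing R] {M : Type*} [AddCommGroup M] [Module R M]
variable {ι : Type*} [Fintype ι] [DecidableEq ι]

/-- CRT: for pairwise distinct maximal ideals there are `r i` with `r i ≡ 1 mod m i` and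
`r i ∈ m j` for `j ≠ i`. -/
theorem exists_crt_idempotents (m : ι → Ideal R) (hm : ∀ i, (m i).IsMaximal)
    (hinj : Function.Injective m) :
    ∃ r : ι → R, (∀ i, r i - 1 ∈ m i) ∧ ∀ i j, j ≠ i → r i ∈ m j := by
  classical
  have hcop : Pairwise (Function.onFun IsCoprime m) := by
    intro i j hij
    haveI := hm i
    haveI := hm j
    exact Ideal.isCoprime_of_isMaximal (fun h => hij (hinj h))
  have h : ∀ i, ∃ r : R, ∀ j, r - (Pi.single i (1 : R) : ι → R) j ∈ m j := fun i =>
    Ideal.exists_forall_sub_mem_ideal hcop _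
  choose r hr using h
  refine ⟨r, fun i => ?_, fun i j hji => ?_⟩
  · simpa using hr i i
  · have := hr i j
    rw [Pi.single_eq_of_ne hji, sub_zero] at this
    exact this

/-- a finite product of non-members of a prime ideal is a non-member -/
theorem prod_notMem {p : Ideal R} [p.IsPrime] (s : Finset ι) (f : ι → R)
    (hf : ∀ j ∈ s, f j ∉ p) : ∏ j ∈ s, f j ∉ p := by
  classical
  induction s using Finset.induction_on with
  | empty =>
    rw [Finset.prod_empty]
    exact fun h => (Ideal.IsPrime.ne_top ‹p.IsPrime›) ((Ideal.eq_top_iff_one p).mpr h)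
  | insert a s ha ih =>
    rw [Finset.prod_insert ha]
    intro h
    rcases Ideal.IsPrime.mem_or_mem ‹p.IsPrime› h with h1 | h1
    · exact hf a (Finset.mem_insert_self a s) h1
    · exact ih (fun j hj => hf j (Finset.mem_insert_of_mem hj)) h1

/-- **Semi-local generator.** -/
theorem exists_common_generator (m : ι → Ideal R) (hm : ∀ i, (m i).IsMaximal)
    (hinj : Function.Injective m) (I : Submodule R M) (u : ι → M) (hu : ∀ i, u i ∈ I)
    (hgen : ∀ i, ∀ v ∈ I, ∃ a s : R, s ∉ m i ∧ s • v = a • u i) :
    ∃ h ∈ I, ∀ i, ∃ a s : R, a ∉ m i ∧ s ∉ m i ∧ s • h = a • u i := by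
  classical
  obtain ⟨r, hr1, hr0⟩ := exists_crt_idempotents m hm hinj
  refine ⟨∑ j, r j • u j, I.sum_mem fun j _ => I.smul_mem _ (hu j), fun i => ?_⟩
  haveI : (m i).IsPrime := (hm i).isPrime
  -- the comparison data of `u j` with `u i`, normalised at `j = i`
  have hdata : ∀ j, ∃ a s : R, s ∉ m i ∧ s • u j = a • u i ∧ (j = i → a = 1 ∧ s = 1) := by
    intro j
    by_cases hji : j = i
    · subst hji
      refine ⟨1, 1, ?_, by simp, fun _ => ⟨rfl, rfl⟩⟩
      exact fun h => (Ideal.IsPrime.ne_top ‹(m j).IsPrime›) ((Ideal.eq_top_iff_one _).mpr h)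
    · obtain ⟨a, s, hs, hsa⟩ := hgen i (u j) (hu j)
      exact ⟨a, s, hs, hsa, fun h => absurd h hji⟩
  choose a s hs hsa hnorm using hdata
  -- the partial products
  set P : ι → R := fun j => ∏ l ∈ Finset.univ.erase j, s l with hP
  have hSP : ∀ j, (∏ l, s l) = s j * P j := fun j =>
    (Finset.mul_prod_erase Finset.univ s (Finset.mem_univ j)).symm
  have hSu : ∀ j, (∏ l, s l) • u j = (P j * a j) • u i := by
    intro j
    rw [hSP j, mul_comm (s j) (P j), mul_smul, hsa j, ← mul_smul]
  refine ⟨∑ j, r j * (P j * a j), ∏ l, s l, ?_, ?_, ?_⟩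
  · -- the coefficient is `≡ r i * P i` modulo `m i`
    have hrest : ∑ j ∈ Finset.univ.erase i, r j * (P j * a j) ∈ m i :=
      (m i).sum_mem fun j hj => (m i).mul_mem_right _ (hr0 j i (Finset.ne_of_mem_erase hj).symm)
    have hsplit : ∑ j, r j * (P j * a j) =
        r i * (P i * a i) + ∑ j ∈ Finset.univ.erase i, r j * (P j * a j) :=
      (Finset.add_sum_erase Finset.univ (fun j => r j * (P j * a j)) (Finset.mem_univ i)).symm
    have hri : r i ∉ m i := by
      intro h
      have h1 : (1 : R) ∈ m i := by
        have := (m i).sub_mem h (hr1 i)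
        simpa using this
      exact (Ideal.IsPrime.ne_top ‹(m i).IsPrime›) ((Ideal.eq_top_iff_one _).mpr h1)
    have hPi : P i ∉ m i := prod_notMem _ _ fun l _ => hs l
    intro hmem
    rw [hsplit, (hnorm i rfl).1, mul_one] at hmem
    have h2 : r i * P i ∈ m i := by
      have := (m i).sub_mem hmem hrest
      simpa using this
    rcases Ideal.IsPrime.mem_or_mem ‹(m i).IsPrime› h2 with h3 | h3
    · exact hri h3
    · exact hPi h3
  · exact prod_notMem _ _ fun l _ => hs l
  · rw [Finset.smul_sum, Finset.sum_smul]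
    refine Finset.sum_congr rfl fun j _ => ?_
    rw [smul_comm, hSu j, ← mul_smul]

/-- **Semi-local generator**, in the form "every element of `I` is a local multiple of `h`". -/
theorem exists_common_generator' (m : ι → Ideal R) (hm : ∀ i, (m i).IsMaximal)
    (hinj : Function.Injective m) (I : Submodule R M) (u : ι → M) (hu : ∀ i, u i ∈ I)
    (hgen : ∀ i, ∀ v ∈ I, ∃ a s : R, s ∉ m i ∧ s • v = a • u i) :
    ∃ h ∈ I, ∀ i, ∀ v ∈ I, ∃ a s : R, s ∉ m i ∧ s • v = a • h := by
  classical
  obtain ⟨h, hh, hloc⟩ := exists_common_generator m hm hinj I u hu hgen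
  refine ⟨h, hh, fun i v hv => ?_⟩
  haveI : (m i).IsPrime := (hm i).isPrime
  obtain ⟨a, s, ha, hs, hsa⟩ := hloc i
  obtain ⟨av, sv, hsv, hv'⟩ := hgen i v hv
  refine ⟨av * s, a * sv, ?_, ?_⟩
  · intro hmem
    rcases Ideal.IsPrime.mem_or_mem ‹(m i).IsPrime› hmem with h1 | h1
    · exact ha h1
    · exact hsv h1
  · rw [mul_smul, hv', ← mul_smul, mul_comm a av, mul_smul, ← hsa, ← mul_smul]

end Fermat.Agent.S36.SemiLocalGenerator
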