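/-
PROJECT V (S36), chain #2528 (V12)(i), abstract wrapper (helper12): **closed points through which
exactly one component passes, the component being a smooth curve there.**

On top of `S36/NakElement` (helper7).  `A` a noetherian integrally closed domain (chart ring),
`F = Frac A`, `m` a prime (the closed point `x`), `W` a valuation subring with uniformiser `y`
(`D : NakElement.Datum m y W`: `W` is the only conductor-prime valuation ring through `x` in which
`y` is a non-unit; for point type (i): `y = q`, `W = W20` or `W02`).  `ρ : A → κ` the residue map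
of `W` restricted to `A`, with image a Dedekind subring `B` of `κ` (chain (V8): `B = Bfin` or
`Binf`), `n` the nonzero prime of `B` with `m = ρ⁻¹ n`.

* `locAt B n : Subring κ` : the localisation `B_n` inside `κ`; `isPrincipalIdealRing_locAt`.
* `red_of_dedekind` : `D.Red ρ (locAt B n)`.
* `datum_of_vertical` : the `NakElement.Datum` for `y = π` in chart form (only the vertical
  valuation subrings centred in `m` have to be compared with `W`).
* `ufd_of_dedekind` : `A_m` is a unique factorisation domain;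
  `locPrincipal_of_dedekind` : every conductor prime `Q ≤ m` is principal at `m`
  (`LocalGenCore.LocPrincipal m`); `exists_mul_eq_of_ker`: `ker ρ` is generated by `y` at `m`.
-/
import Mathlib
import Fermat.Agent.S36.NakElement
import Fermat.Agent.S36.LocalGenCore

set_option autoImplicit false
set_option linter.unusedSectionVars false
set_option linter.style.haveILetI false
set_option linter.unusedVariables false

namespace Fermat.Agent.S36.SmoothPoint

open Fermat.Agent.S36.KrullInter Fermat.Agent.S36.NakElement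

/-! ### the localisation of a subring of a field at a prime, inside the field -/

section LocAt

variable {κ : Type*} [Field κ] (B : Subring κ) (n : Ideal B) [hn : n.IsPrime]

theorem isUnit_subtype (s : n.primeCompl) : IsUnit (B.subtype (s : B)) := by
  have h0 : ((s : B) : κ) ≠ 0 := by
    intro h
    apply s.2
    have : (s : B) = 0 := Subtype.ext h
    rw [this]
    exact n.zero_mem
  exact IsUnit.mk0 _ h0

/-- `B_n → κ` -/
noncomputable def liftLoc : Localization.AtPrime n →+* κ :=
  IsLocalization.lift (M := n.primeCompl) (S := Localization.AtPrime n) (g := B.subtype)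
    (isUnit_subtype B n)

/-- the localisation `B_n` as a subring of `κ` -/
noncomputable def locAt : Subring κ := (liftLoc B n).range

theorem coe_mem_locAt (b : B) : (b : κ) ∈ locAt B n :=
  ⟨algebraMap B (Localization.AtPrime n) b, by
    rw [liftLoc, IsLocalization.lift_eq]; rfl⟩

theorem inv_mem_locAt {s : B} (hs : s ∉ n) : ((s : κ))⁻¹ ∈ locAt B n := by
  refine ⟨IsLocalization.mk' (Localization.AtPrime n) (1 : B) (⟨s, hs⟩ : n.primeCompl), ?_⟩
  rw [liftLoc, IsLocalization.lift_mk'_spec]
  have h0 : ((s : B) : κ) ≠ 0 := (isUnit_subtype B n ⟨s, hs⟩).ne_zero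
  simp only [map_one, Subring.subtype_apply]
  rw [mul_inv_cancel₀ h0]

theorem exists_of_mem_locAt {t : κ} (ht : t ∈ locAt B n) :
    ∃ b s : B, s ∉ n ∧ (s : κ) * t = (b : κ) := by
  obtain ⟨x, rfl⟩ := ht
  obtain ⟨⟨b, s⟩, rfl⟩ := IsLocalization.mk'_surjective n.primeCompl x
  refine ⟨b, s, s.2, ?_⟩
  have := (IsLocalization.lift_mk'_spec (M := n.primeCompl) (S := Localization.AtPrime n)
    (g := B.subtype) (hg := isUnit_subtype B n) b (liftLoc B n (IsLocalization.mk' _ b s)) s).1 rfl
  exact this.symm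

theorem isPrincipalIdealRing_locAt [IsDedekindDomain B] (hn0 : n ≠ ⊥) :
    IsPrincipalIdealRing (locAt B n) := by
  haveI : IsDiscreteValuationRing (Localization.AtPrime n) :=
    IsLocalization.AtPrime.isDiscreteValuationRing_of_dedekind_domain B hn0
      (Localization.AtPrime n)
  exact IsPrincipalIdealRing.of_surjective (liftLoc B n).rangeRestrict
    (liftLoc B n).rangeRestrict_surjective

end LocAt

/-! ### the reduction datum from a Dedekind image -/

section Red

variable {A : Type*} [CommRing A] [IsDomain A] {F : Type*} [Field F] [Algebra A F]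
  [IsFractionRing A F] [IsNoetherianRing A] [IsIntegrallyClosed A]
  {m : Ideal A} [hm : m.IsPrime] {y : A} {W : ValuationSubring F}
  {κ : Type*} [Field κ]

local notation "ι" => algebraMap A F

/-- **The reduction datum of a closed point on a single smooth component.**  `ρ : A → κ` with kernel
the non-units of `W`, image the subring `B`, and `m = ρ⁻¹ n` for a prime `n` of `B`. -/
theorem red_of_dedekind (D : Datum m y W) (ρ : A →+* κ)
    (hker : ∀ a : A, ρ a = 0 ↔ (a = 0 ∨ (ι a)⁻¹ ∉ W))
    (B : Subring κ) (hB : ∀ a : A, ρ a ∈ B) (hsurj : ∀ b ∈ B, ∃ a : A, ρ a = b)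
    (n : Ideal B) [n.IsPrime] (hmn : ∀ a : A, a ∈ m ↔ (⟨ρ a, hB a⟩ : B) ∈ n) :
    D.Red ρ (locAt B n) where
  ker := hker
  mem a := coe_mem_locAt B n ⟨ρ a, hB a⟩
  inv_mem a ha := by
    have h : (⟨ρ a, hB a⟩ : B) ∉ n := fun h => ha ((hmn a).2 h)
    exact inv_mem_locAt B n h
  surj t ht := by
    obtain ⟨b, s, hs, hst⟩ := exists_of_mem_locAt B n ht
    obtain ⟨a, ha⟩ := hsurj b b.2
    obtain ⟨s', hs'⟩ := hsurj s s.2
    refine ⟨a, s', ?_, ?_⟩
    · intro hmem
      apply hs
      have := (hmn s').1 hmem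
      have heq : (⟨ρ s', hB s'⟩ : B) = s := Subtype.ext hs'
      rwa [heq] at this
    · rw [hs', ha, hst]

/-- **(V12)(i), abstract**: the local ring at a closed point on a single smooth component is a
unique factorisation domain. -/
theorem ufd_of_dedekind (D : Datum m y W) (ρ : A →+* κ)
    (hker : ∀ a : A, ρ a = 0 ↔ (a = 0 ∨ (ι a)⁻¹ ∉ W))
    (B : Subring κ) [IsDedekindDomain B] (hB : ∀ a : A, ρ a ∈ B)
    (hsurj : ∀ b ∈ B, ∃ a : A, ρ a = b)
    (n : Ideal B) [n.IsPrime] (hn0 : n ≠ ⊥) (hmn : ∀ a : A, a ∈ m ↔ (⟨ρ a, hB a⟩ : B) ∈ n) :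
    UniqueFactorizationMonoid (Localization.AtPrime m) := by
  haveI := isPrincipalIdealRing_locAt B n hn0
  exact (red_of_dedekind D ρ hker B hB hsurj n hmn).ufd

/-- every conductor prime through the point is principal at the point -/
theorem locPrincipal_of_dedekind (D : Datum m y W) (ρ : A →+* κ)
    (hker : ∀ a : A, ρ a = 0 ↔ (a = 0 ∨ (ι a)⁻¹ ∉ W))
    (B : Subring κ) [IsDedekindDomain B] (hB : ∀ a : A, ρ a ∈ B)
    (hsurj : ∀ b ∈ B, ∃ a : A, ρ a = b)
    (n : Ideal B) [n.IsPrime] (hn0 : n ≠ ⊥) (hmn : ∀ a : A, a ∈ m ↔ (⟨ρ a, hB a⟩ : B) ∈ n) :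
    LocalGenCore.LocPrincipal (F := F) m := by
  haveI := isPrincipalIdealRing_locAt B n hn0
  exact LocalGenCore.locPrincipal_of_red (red_of_dedekind D ρ hker B hB hsurj n hmn)

/-- the kernel of the reduction is generated by `y` at the point -/
theorem exists_mul_eq_of_ker (D : Datum m y W) (ρ : A →+* κ)
    (hker : ∀ a : A, ρ a = 0 ↔ (a = 0 ∨ (ι a)⁻¹ ∉ W)) {a : A}
    (ha : ρ a = 0) : ∃ s : A, s ∉ m ∧ ∃ b : A, s * a = b * y := by
  rcases (hker a).1 ha with rfl | h
  · have h1 : (1 : A) ∉ m := fun h => hm.ne_top ((Ideal.eq_top_iff_one m).2 h)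
    exact ⟨1, h1, 0, by rw [mul_zero, zero_mul]⟩
  · exact D.exists_mul_eq h

end Red

/-! ### the datum at a point through which a single vertical component passes -/

section Vertical

variable {A : Type*} [CommRing A] [IsDomain A] {F : Type*} [Field F] [Algebra A F]
  [IsFractionRing A F] [IsNoetherianRing A] [IsIntegrallyClosed A]
  {m : Ideal A} [hm : m.IsPrime] {W : ValuationSubring F}
  {B₀ : Type*} [CommRing B₀] [IsDomain B₀] [IsIntegrallyClosed B₀] [Algebra B₀ A] [Algebra B₀ F]
  [IsScalarTower B₀ A F] [Algebra.IsIntegral B₀ A] [FaithfulSMul B₀ A]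

local notation "ι" => algebraMap A F

/-- **Point type (i)**: `y = π` (the uniformiser of the base), `W` a vertical valuation subring with
maximal ideal `π W`, contained in every vertical valuation subring centred in `m`
(`Br(x) = {W}`).  The horizontal half of `NakElement.Datum.of_chart` is vacuous. -/
theorem datum_of_vertical {π : B₀} (hπ0 : π ≠ 0) (hπ : (Ideal.span {π}).IsPrime)
    (hym : algebraMap B₀ A π ∈ m) (hAW : ∀ a : A, ι a ∈ W)
    (hyW1 : (algebraMap B₀ F π)⁻¹ ∉ W)
    (hyW : ∀ z ∈ W, z⁻¹ ∈ W ∨ z * (algebraMap B₀ F π)⁻¹ ∈ W)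
    (hvert : ∀ V : ValuationSubring F, (∀ a : A, ι a ∈ V) → (∀ a : A, a ∉ m → (ι a)⁻¹ ∈ V) →
      (algebraMap B₀ F π)⁻¹ ∉ V →
      (∀ s : B₀, s ∉ Ideal.span {π} → (algebraMap B₀ F s)⁻¹ ∈ V) → ∀ w ∈ W, w ∈ V) :
    Datum m (algebraMap B₀ A π) W := by
  have hinj : Function.Injective (algebraMap B₀ A) := FaithfulSMul.algebraMap_injective B₀ A
  have hy0 : algebraMap B₀ A π ≠ 0 := fun h0 => hπ0 (hinj (by rw [h0, map_zero]))
  have hιy : ι (algebraMap B₀ A π) = algebraMap B₀ F π :=
    (IsScalarTower.algebraMap_apply B₀ A F π).symm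
  refine Datum.of_chart hπ0 hπ hy0 hym hAW (by rwa [hιy]) (by rwa [hιy]) ?_ ?_
  · intro V hAV hc _ h2 h3
    exact hvert V hAV hc h2 h3
  · intro V _ _ h1 h2 _
    rw [hιy] at h1
    exact absurd h2 h1

end Vertical

end Fermat.Agent.S36.SmoothPoint
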