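/-
PROJECT V (S36), slice V-ThickCusp (helper15): **chain (V12)(ii') end product, abstract form: the
`h11` tuple of `AllPointsT.locPrincipal_of_isMaximal` at a middle-cusp place.**

`D : BranchCoreT.TDatum A₁ A B` (helper1), `n ∉ D.S` a maximal ideal of `B` (a pole of `J` on the
chart `Binf`), `m = D.x11 n` the middle-cusp point.  `s₀ s₁ s₂ : A` (`= 1/j_i` on the chart
`Ainf₂`) with the two modular relations `P(1/s₁; 1/s₀) = 0 = P(1/s₂; 1/s₁)` for a polynomial of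
modular shape, and `D.r11 s₀ = S = D.r11 s₂`, `D.r11 s₁ = S^q`, `S ∈ n`, `S ≠ 0` (D5).

Then `MiddleCuspUnit.Hyp.of_red` + `exists_local_eq` give `σ ∉ m`, `z ∈ A` with
`ι z = ι σ · (s₀/s₂ - 1)`, and helper13's `B0ThickBridgeT.exists_h11` with `z₀ = s₀/s₂ - 1 = j₂/j₀ - 1`,
`c₀ = z₀^k/ϖ` gives the tuple.  No new mathematics: this file checks that the two slices compose
and fixes the literal input list of (ii') for the assembler.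
-/
import Mathlib
import Fermat.Agent.S36.B0ThickBridgeT
import Fermat.Agent.S36.MiddleCuspUnit

set_option autoImplicit false
set_option linter.unusedSectionVars false
set_option linter.style.haveILetI false
set_option linter.unusedVariables false

namespace Fermat.Agent.S36.ThickCusp

open Fermat.Agent.S36.KrullInter Fermat.Agent.S36.AllPoints Fermat.Agent.S36.ModShape

variable {A₁ A B : Type*} [CommRing A₁] [CommRing A] [CommRing B]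
  [IsDomain A] [IsNoetherianRing A] [IsIntegrallyClosed A] [IsDomain B]
  {F : Type*} [Field F] [Algebra A F] [IsFractionRing A F]

local notation "ι" => algebraMap A F

/-- **(V12)(ii') ⟹ `h11`** at a middle-cusp place `n` -/
theorem exists_h11 (D : BranchCoreT.TDatum A₁ A B) {n : Ideal B} (hn : n.IsMaximal)
    (hS : n ∉ D.S) (hϖ0 : D.ϖ ≠ 0)
    (W : ValuationSubring F) (hle : ∀ a : A, ι a ∈ W)
    (hcentre : ∀ a : A, D.r11 a = 0 ↔ ι a ∈ W.nonunits)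
    {ϖ₁ : F} (hϖ1 : W.valuation ϖ₁ < 1)
    (hϖg : ∀ w : F, W.valuation w < 1 → W.valuation w ≤ W.valuation ϖ₁)
    {k : ℕ} (hk : 0 < k) (hqϖ : W.valuation (ι D.ϖ) = W.valuation ϖ₁ ^ k)
    {q : ℕ} {P : Polynomial (Polynomial ℤ)} (hP : IsModShape q P) (hq : 2 ≤ q)
    {s₀ s₁ s₂ : A} (h₀ : s₀ ≠ 0) (h₁ : s₁ ≠ 0) (h₂ : s₂ ≠ 0)
    (rel₁ : evalXY P (ι s₁)⁻¹ (ι s₀)⁻¹ = 0) (rel₂ : evalXY P (ι s₂)⁻¹ (ι s₁)⁻¹ = 0)
    {Sb : B} (hSb0 : Sb ≠ 0) (hSbn : Sb ∈ n)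
    (hr₀ : D.r11 s₀ = Sb) (hr₁ : D.r11 s₁ = Sb ^ q) (hr₂ : D.r11 s₂ = Sb)
    {c₀ : F} (hpow : (ι s₀ / ι s₂ - 1) ^ k = ι D.ϖ * c₀) (hc₀ : W.valuation c₀ = 1)
    {κ : Type*} [Field κ] (ρ : W →+* κ) (Ob : ValuationSubring κ)
    (hcen : ∀ a : A, a ∈ D.x11 n ↔ ρ ⟨ι a, hle a⟩ = 0 ∨ (ρ ⟨ι a, hle a⟩)⁻¹ ∉ Ob)
    (hcu : (ρ ⟨c₀, (W.valuation_le_one_iff _).mp hc₀.le⟩)⁻¹ ∈ Ob) :
    ∃ z : A, z ≠ 0 ∧ z ∈ RingHom.ker D.r11 ∧ BranchEq (RingHom.ker D.r11) z ∧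
      ∃ (s c : A) (k : ℕ), 0 < k ∧ c ∉ D.x11 n ∧ s * z ^ k = D.ϖ * c := by
  haveI := hn.isPrime
  haveI : (D.x11 n).IsPrime := Ideal.comap_isPrime D.r11 n
  have H : MiddleCuspUnit.Hyp F (D.x11 n) q P s₀ s₁ s₂ :=
    MiddleCuspUnit.Hyp.of_red D.r11 n rfl hP hq h₀ h₁ h₂ rel₁ rel₂ hSb0 hSbn hr₀ hr₁ hr₂
  obtain ⟨σ, z, hσ, -, -, hz⟩ := H.exists_local_eq
  exact B0ThickBridgeT.exists_h11 D hn hS hϖ0 W hle hcentre hϖ1 hϖg hk hqϖ hpow hc₀ hσ hz.symm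
    ρ Ob hcen hcu

end Fermat.Agent.S36.ThickCusp
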