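/-
PROJECT V (S36), slice V-ThickCusp (helper15), part 2: **chain (V12)(ii') at `X₀`: the `h11` tuple
of `AllPointsInf.locPrincipal_of_isMaximal_of_overlap` at the middle cusps of the chart at
infinity**, hypotheses-first on `Y : ThreeValX0.Hyp` + the Link (`hV1`, `hred1`) + a
`BranchCoreT.TDatum` on a presentation `R` of the chart `Ainf₂ = chart O₀ x₂⁻¹`.

`F₂ = F_K(N0 q q)`, `κ = F_k(N0)`, `J = jk k N0`, `j_i = j0L j1L j2L` (`j(t)`, `j(t^q)`,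
`j(t^(q²))`).

* `redK_j0L/j1L/j2L`, `redK_inv_j0L/j1L/j2L` : at the middle cusp `j₀, j₂` reduce to `J`, `j₁` to
  `J^q`, and `1/j_i` to `1/J`, `1/J^q`, `1/J`;
* `inv_j*L_mem`, `r₁₁_inv_j0L/j1L/j2L` : `1/j_i ∈ W₁₁`, `r₁₁(1/j₀) = 1/J = r₁₁(1/j₂)`,
  `r₁₁(1/j₁) = (1/J)^q` (= `hr₀ hr₁ hr₂` of `ThickCusp.exists_h11` with `S = 1/J`);
* `thick_unit_j_mem`, `valuation_thick_unit_j`, `r₁₁_thick_unit_j` : `c₀ = (j₂/j₀ - 1)^(q-1)/q` lies
  in `W₁₁`, is a unit of `W₁₁`, and `r₁₁ c₀ = -Θ` for the `Θ` of `MiddleCuspTheta.exists_theta_unit`;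
* **`exists_h11`** : the tuple at one middle-cusp place `n` (`r₁₁(1/j₀) ∈ n`), the point `n` being
  given in `κ` by a place `Q` (`b ∈ n ↔ b = 0 ∨ b⁻¹ ∉ O_Q`, `SpecDictLocal.mem_pointOf_iff_inv`);
* **`h11_inf`**, **`h11_inf'`** (without the auxiliary root of unity `ζ`) : the literal hypothesis
  `h11` of `AllPointsInf.locPrincipal_of_isMaximal_of_overlap` with `ψ = x₂⁻¹ = (j₀ j₁ j₂)⁻¹`;
* `hplace_chart` : the dictionary hypothesis `hplace` for `B = chart K x` (`SpecDictOne/Local`).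

The uniformiser triple of `W₁₁` (`hϖ1 hϖg hqϖ`, helper13's `ThickOrdX0.Unif`) stays a hypothesis.
-/
import Mathlib
import Fermat.Agent.S36.ThickCusp
import Fermat.Agent.S36.ThickLinkK0
import Fermat.Agent.S36.MiddleCuspTheta
import Fermat.Agent.S36.SpecDictLocal

set_option autoImplicit false
set_option linter.unusedSectionVars false
set_option linter.style.haveILetI false
set_option linter.unusedVariables false
set_option synthInstance.maxHeartbeats 400000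
set_option maxHeartbeats 1000000

noncomputable section

namespace Fermat.Agent.S36.ThickCuspK0

open ModularCurve HahnSeries IsLocalRing AlgebraicCurve IntermediateField
open Fermat.Agent.S35.LevelMaps (E)
open Fermat.Agent.S36.MiddleCusp Fermat.Agent.S36.MiddleCuspGauss
open Fermat.Agent.S36.DiagTheta
open Fermat.Agent.S18.GaussFromH
open Fermat.Agent.S37.Gauss.Datum
open Fermat.Agent.S34.GaussPairX0
open Fermat.Agent.S36.PowerBasisK0 Fermat.Agent.S36.ThetaK0 Fermat.Agent.S36.LevelQK0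
open Fermat.Agent.S36.MiddleCuspK0 Fermat.Agent.S36.ThickLinkK0
open Fermat.Agent.S36.JIntegral (j0L j1L j2L)
open Fermat.Agent.S18.B.FkBasics (jk)
open Fermat.Agent.S36.KrullInter Fermat.Agent.S36.AllPoints Fermat.Agent.S36.ModShape

local notation "Kb" => AlgebraicClosure ℚ

variable (H : Subgroup (Kb ≃ₐ[ℚ] Kb))
variable {q : ℕ} [hq : Fact q.Prime] {N0 : ℕ} [NeZero N0] {A : ValuationSubring Kb}
variable (hA : A.LiesOverPrime q) (hqN : ¬ q ∣ N0) [NeZero q]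
variable [CharP (ResidueField ↥A) q] [PerfectField (ResidueField ↥A)]
variable {ζ : Kbˣ} (hζ : IsPrimitiveRoot ζ q)

/-! ### the reductions of `j_i` and `1/j_i` at the middle cusp -/

theorem jk_ne_zero : jk (ResidueField ↥A) N0 ≠ 0 :=
  (Fermat.Agent.S18.B.FkBasics.isFF (ResidueField ↥A) N0).ne_zero

theorem coe_jk_ne_zero :
    ((jk (ResidueField ↥A) N0 : ↥(modularFunctionFieldFullC (ResidueField ↥A) N0)) :
      LaurentSeries (ResidueField ↥A)) ≠ 0 := fun h => jk_ne_zero (A := A) (Subtype.ext h)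

include hA in
/-- `j₀ = j(t)` reduces to `J` -/
theorem redK_j0L :
    RedK H A hqN hζ (j0L H N0 q)
      ((jk (ResidueField ↥A) N0 : ↥(modularFunctionFieldFullC (ResidueField ↥A) N0)) :
        LaurentSeries (ResidueField ↥A)) := by
  have h := redK_a0 H hA hqN hζ (jOK H hA hqN)
  rw [red0K_jOK] at h
  have e : a0K H (q := q) ((jOK H hA hqN : ↥(OgK H hA hqN)) : FK H N0) = j0L H N0 q :=
    a0K_j0K H
  rwa [e] at h

include hA in
/-- `j₂ = j(t^(q²))` reduces to `J` -/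
theorem redK_j2L :
    RedK H A hqN hζ (j2L H N0 q)
      ((jk (ResidueField ↥A) N0 : ↥(modularFunctionFieldFullC (ResidueField ↥A) N0)) :
        LaurentSeries (ResidueField ↥A)) := by
  have h := redK_a2 H hA hqN hζ (jOK H hA hqN)
  rw [red0K_jOK] at h
  exact h

include hA in
/-- `j₁ = j(t^q)` reduces to `J^q` -/
theorem redK_j1L :
    RedK H A hqN hζ (j1L H N0 q)
      ((jk (ResidueField ↥A) N0 ^ q : ↥(modularFunctionFieldFullC (ResidueField ↥A) N0)) :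
        LaurentSeries (ResidueField ↥A)) := by
  have h := redK_a1 H hA hqN hζ (jOK H hA hqN)
  rw [red0K_jOK, ← Fermat.Agent.S34.FrobK.coe_phi, Fermat.Agent.S34.FrobK.phi_jk] at h
  exact h

theorem redK_inv {x : FK H (N0 * q * q)} {r : LaurentSeries (ResidueField ↥A)}
    (hx : RedK H A hqN hζ x r) (hr : r ≠ 0) : RedK H A hqN hζ x⁻¹ r⁻¹ := by
  unfold RedK at hx ⊢
  rw [map_inv₀, map_inv₀]
  exact IsRed.inv hx hr

include hA in
theorem redK_inv_j0L :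
    RedK H A hqN hζ (j0L H N0 q)⁻¹
      (((jk (ResidueField ↥A) N0)⁻¹ : ↥(modularFunctionFieldFullC (ResidueField ↥A) N0)) :
        LaurentSeries (ResidueField ↥A)) :=
  redK_inv H hqN hζ (redK_j0L H hA hqN hζ) (coe_jk_ne_zero (A := A))

include hA in
theorem redK_inv_j2L :
    RedK H A hqN hζ (j2L H N0 q)⁻¹
      (((jk (ResidueField ↥A) N0)⁻¹ : ↥(modularFunctionFieldFullC (ResidueField ↥A) N0)) :
        LaurentSeries (ResidueField ↥A)) :=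
  redK_inv H hqN hζ (redK_j2L H hA hqN hζ) (coe_jk_ne_zero (A := A))

include hA in
theorem redK_inv_j1L :
    RedK H A hqN hζ (j1L H N0 q)⁻¹
      ((((jk (ResidueField ↥A) N0)⁻¹) ^ q : ↥(modularFunctionFieldFullC (ResidueField ↥A) N0)) :
        LaurentSeries (ResidueField ↥A)) := by
  have h := redK_inv H hqN hζ (redK_j1L H hA hqN hζ) (fun h0 =>
    pow_ne_zero q (jk_ne_zero (A := A) (N0 := N0)) (Subtype.ext h0))
  rw [inv_pow]
  exact h

include hA hqN hζ in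
theorem j0L_ne_zero : j0L H N0 q ≠ 0 := by
  intro h0
  have h := redK_j0L H hA hqN hζ
  rw [h0] at h
  have h' : RedK H A hqN hζ (0 : FK H (N0 * q * q)) 0 := by
    unfold RedK
    rw [map_zero, map_zero]
    exact isRed_zero
  exact coe_jk_ne_zero (A := A) (N0 := N0) (h.unique h')

include hA hqN hζ in
theorem j2L_ne_zero : j2L H N0 q ≠ 0 := by
  intro h0
  have h := redK_j2L H hA hqN hζ
  rw [h0] at h
  have h' : RedK H A hqN hζ (0 : FK H (N0 * q * q)) 0 := by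
    unfold RedK
    rw [map_zero, map_zero]
    exact isRed_zero
  exact coe_jk_ne_zero (A := A) (N0 := N0) (h.unique h')

include hA hqN hζ in
theorem j1L_ne_zero : j1L H N0 q ≠ 0 := by
  intro h0
  have h := redK_j1L H hA hqN hζ
  rw [h0] at h
  have h' : RedK H A hqN hζ (0 : FK H (N0 * q * q)) 0 := by
    unfold RedK
    rw [map_zero, map_zero]
    exact isRed_zero
  exact pow_ne_zero q (jk_ne_zero (A := A) (N0 := N0)) (Subtype.ext (h.unique h'))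

/-! ### the values of `r₁₁` -/

section Link

variable {H hA hqN hζ}
variable (Y : ThreeValX0.Hyp H N0 q ↥(modularFunctionFieldFullC (ResidueField ↥A) N0))
  (hV1 : Y.V₁ = V1K H hA hqN)
  (hred1 : ∀ (x : FK H (N0 * q)) (h : x ∈ Y.V₁) (h' : x ∈ V1K H hA hqN),
    Y.red₁ ⟨x, h⟩ = red1K H hA hqN ⟨x, h'⟩)

include hV1 in
theorem inv_j0L_mem (hζ : IsPrimitiveRoot ζ q) : (j0L H N0 q)⁻¹ ∈ Y.W₁₁ :=
  (mem_W₁₁_of_redK Y hV1 (redK_inv_j0L H hA hqN hζ)).1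

include hV1 in
theorem inv_j1L_mem (hζ : IsPrimitiveRoot ζ q) : (j1L H N0 q)⁻¹ ∈ Y.W₁₁ :=
  (mem_W₁₁_of_redK Y hV1 (redK_inv_j1L H hA hqN hζ)).1

include hV1 in
theorem inv_j2L_mem (hζ : IsPrimitiveRoot ζ q) : (j2L H N0 q)⁻¹ ∈ Y.W₁₁ :=
  (mem_W₁₁_of_redK Y hV1 (redK_inv_j2L H hA hqN hζ)).1

include hV1 hred1 in
/-- **`r₁₁(1/j₀) = 1/J`** -/
theorem r₁₁_inv_j0L (hζ : IsPrimitiveRoot ζ q) :
    Y.r₁₁ ⟨(j0L H N0 q)⁻¹, inv_j0L_mem Y hV1 hζ⟩ = (jk (ResidueField ↥A) N0)⁻¹ :=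
  Subtype.ext (r₁₁_eq_of_redK Y hV1 hred1 (redK_inv_j0L H hA hqN hζ))

include hV1 hred1 in
/-- **`r₁₁(1/j₁) = (1/J)^q`** -/
theorem r₁₁_inv_j1L (hζ : IsPrimitiveRoot ζ q) :
    Y.r₁₁ ⟨(j1L H N0 q)⁻¹, inv_j1L_mem Y hV1 hζ⟩ = ((jk (ResidueField ↥A) N0)⁻¹) ^ q :=
  Subtype.ext (r₁₁_eq_of_redK Y hV1 hred1 (redK_inv_j1L H hA hqN hζ))

include hV1 hred1 in
/-- **`r₁₁(1/j₂) = 1/J`** -/
theorem r₁₁_inv_j2L (hζ : IsPrimitiveRoot ζ q) :
    Y.r₁₁ ⟨(j2L H N0 q)⁻¹, inv_j2L_mem Y hV1 hζ⟩ = (jk (ResidueField ↥A) N0)⁻¹ :=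
  Subtype.ext (r₁₁_eq_of_redK Y hV1 hred1 (redK_inv_j2L H hA hqN hζ))

/-- the thick unit at the middle cusps `c₀ = (j₂/j₀ - 1)^(q-1)/q` -/
def c0 : FK H (N0 * q * q) :=
  (j2L H N0 q / j0L H N0 q - 1) ^ (q - 1) / ((q : ℕ) : FK H (N0 * q * q))

theorem c0_eq_cK' : c0 (H := H) (q := q) (N0 := N0) =
    cK' H (q := q) ((jOK H hA hqN : ↥(OgK H hA hqN)) : FK H N0) :=
  (cK'_j0K H (q := q) (N0 := N0)).symm

theorem red0K_jOK_ne_zero : red0K H hA hqN (jOK H hA hqN) ≠ 0 := by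
  rw [red0K_jOK]
  exact jk_ne_zero (A := A)

include hV1 in
/-- `c₀ ∈ W₁₁` -/
theorem thick_unit_j_mem (hζ : IsPrimitiveRoot ζ q) :
    c0 (H := H) (q := q) (N0 := N0) ∈ Y.W₁₁ := by
  rw [c0_eq_cK' (hA := hA) (hqN := hqN)]
  exact thick_unit_mul_mem Y hV1 hζ (jOK H hA hqN) red0K_jOK_ne_zero

include hV1 hred1 in
/-- **`r₁₁ c₀ = -(θ J / J)^(q-1)`** -/
theorem coe_r₁₁_thick_unit_j (hζ : IsPrimitiveRoot ζ q) :
    ((Y.r₁₁ ⟨c0 (H := H) (q := q) (N0 := N0), thick_unit_j_mem Y hV1 hζ⟩ :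
        ↥(modularFunctionFieldFullC (ResidueField ↥A) N0)) : LaurentSeries (ResidueField ↥A)) =
      -(theta ((jk (ResidueField ↥A) N0 : ↥(modularFunctionFieldFullC (ResidueField ↥A) N0)) :
          LaurentSeries (ResidueField ↥A)) /
        ((jk (ResidueField ↥A) N0 : ↥(modularFunctionFieldFullC (ResidueField ↥A) N0)) :
          LaurentSeries (ResidueField ↥A))) ^ (q - 1) := by
  have h := r₁₁_thick_unit_mul Y hV1 hred1 hζ (jOK H hA hqN) red0K_jOK_ne_zero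
  rw [red0K_jOK] at h
  rw [← h]
  congr 2

/-! ### the `h11` tuple at a middle-cusp place -/

include hV1 hred1 in
/-- **chain (V12)(ii') at `X₀`**: the `h11` tuple at a place `n ∉ S` of the chart at infinity with
`r₁₁(1/j₀) ∈ n` (a pole of `J`), the point `n` being cut out in `κ` by the place `Q`. -/
theorem exists_h11 (hζ : IsPrimitiveRoot ζ q) [IsAlgClosed (ResidueField ↥A)]
    {R₁ R B : Type*} [CommRing R₁] [CommRing R] [CommRing B] [IsDomain R] [IsNoetherianRing R]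
    [IsIntegrallyClosed R] [IsDomain B] [Algebra R (FK H (N0 * q * q))]
    [IsFractionRing R (FK H (N0 * q * q))]
    [Algebra B ↥(modularFunctionFieldFullC (ResidueField ↥A) N0)]
    (hB : Function.Injective
      (algebraMap B ↥(modularFunctionFieldFullC (ResidueField ↥A) N0)))
    (D : BranchCoreT.TDatum R₁ R B)
    (hϖ : algebraMap R (FK H (N0 * q * q)) D.ϖ = ((q : ℕ) : FK H (N0 * q * q)))
    (hle : ∀ a : R, algebraMap R (FK H (N0 * q * q)) a ∈ Y.W₁₁)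
    (hr11 : ∀ a : R, algebraMap B ↥(modularFunctionFieldFullC (ResidueField ↥A) N0) (D.r11 a) =
      Y.r₁₁ ⟨algebraMap R (FK H (N0 * q * q)) a, hle a⟩)
    {ϖ₁ : FK H (N0 * q * q)} (hϖ1 : Y.W₁₁.valuation ϖ₁ < 1)
    (hϖg : ∀ w : FK H (N0 * q * q), Y.W₁₁.valuation w < 1 →
      Y.W₁₁.valuation w ≤ Y.W₁₁.valuation ϖ₁)
    (hqϖ : Y.W₁₁.valuation ((q : ℕ) : FK H (N0 * q * q)) = Y.W₁₁.valuation ϖ₁ ^ (q - 1))
    {s₀ s₁ s₂ : R} (hs₀ : algebraMap R (FK H (N0 * q * q)) s₀ = (j0L H N0 q)⁻¹)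
    (hs₁ : algebraMap R (FK H (N0 * q * q)) s₁ = (j1L H N0 q)⁻¹)
    (hs₂ : algebraMap R (FK H (N0 * q * q)) s₂ = (j2L H N0 q)⁻¹)
    {n : Ideal B} (hn : n.IsMaximal) (hS : n ∉ D.S) (hcusp : D.r11 s₀ ∈ n)
    (Q : Place (ResidueField ↥A) ↥(modularFunctionFieldFullC (ResidueField ↥A) N0))
    (hQ : ∀ b : B, b ∈ n ↔
      algebraMap B ↥(modularFunctionFieldFullC (ResidueField ↥A) N0) b = 0 ∨
        (algebraMap B ↥(modularFunctionFieldFullC (ResidueField ↥A) N0) b)⁻¹ ∉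
          Q.toValuationSubring) :
    ∃ z : R, z ≠ 0 ∧ z ∈ RingHom.ker D.r11 ∧ BranchEq (RingHom.ker D.r11) z ∧
      ∃ (s c : R) (k : ℕ), 0 < k ∧ c ∉ D.x11 n ∧ s * z ^ k = D.ϖ * c := by
  obtain ⟨Θ, hΘ0, hΘ, hΘord⟩ := MiddleCuspTheta.exists_theta_unit (q := q) hA N0
    (Fermat.Agent.S18.B.SeparableFk.isSeparable_jk (ResidueField ↥A) N0)
  have hq2 : 2 ≤ q := hq.out.two_le
  have hk : 0 < q - 1 := by omega
  have hjk0 : jk (ResidueField ↥A) N0 ≠ 0 := jk_ne_zero (A := A)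
  have hqF : ((q : ℕ) : FK H (N0 * q * q)) ≠ 0 := Nat.cast_ne_zero.mpr hq.out.ne_zero
  have hϖ0 : D.ϖ ≠ 0 := by
    intro h0
    rw [h0, map_zero] at hϖ
    exact hqF hϖ.symm
  have hcentre : ∀ a : R, D.r11 a = 0 ↔ algebraMap R (FK H (N0 * q * q)) a ∈ Y.W₁₁.nonunits := by
    intro a
    rw [← Y.r₁₁_eq_zero_iff ⟨algebraMap R (FK H (N0 * q * q)) a, hle a⟩, ← hr11 a]
    exact (map_eq_zero_iff _ hB).symm
  -- the values of `r₁₁` at `s₀ s₁ s₂`
  have hv₀ : algebraMap B ↥(modularFunctionFieldFullC (ResidueField ↥A) N0) (D.r11 s₀) =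
      (jk (ResidueField ↥A) N0)⁻¹ := by
    rw [hr11, ← r₁₁_inv_j0L Y hV1 hred1 hζ]
    congr 1
    exact Subtype.ext hs₀
  have hv₁ : algebraMap B ↥(modularFunctionFieldFullC (ResidueField ↥A) N0) (D.r11 s₁) =
      ((jk (ResidueField ↥A) N0)⁻¹) ^ q := by
    rw [hr11, ← r₁₁_inv_j1L Y hV1 hred1 hζ]
    congr 1
    exact Subtype.ext hs₁
  have hv₂ : algebraMap B ↥(modularFunctionFieldFullC (ResidueField ↥A) N0) (D.r11 s₂) =
      (jk (ResidueField ↥A) N0)⁻¹ := by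
    rw [hr11, ← r₁₁_inv_j2L Y hV1 hred1 hζ]
    congr 1
    exact Subtype.ext hs₂
  have hr₁ : D.r11 s₁ = D.r11 s₀ ^ q := hB (by rw [map_pow, hv₁, hv₀])
  have hr₂ : D.r11 s₂ = D.r11 s₀ := hB (by rw [hv₂, hv₀])
  have hSb0 : D.r11 s₀ ≠ 0 := by
    intro h0
    rw [h0, map_zero] at hv₀
    exact inv_ne_zero hjk0 hv₀.symm
  have h₀ : s₀ ≠ 0 := by
    intro h0
    rw [h0, map_zero] at hs₀
    exact inv_ne_zero (j0L_ne_zero H hA hqN hζ) hs₀.symm
  have h₁ : s₁ ≠ 0 := by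
    intro h0
    rw [h0, map_zero] at hs₁
    exact inv_ne_zero (j1L_ne_zero H hA hqN hζ) hs₁.symm
  have h₂ : s₂ ≠ 0 := by
    intro h0
    rw [h0, map_zero] at hs₂
    exact inv_ne_zero (j2L_ne_zero H hA hqN hζ) hs₂.symm
  have rel₁ : evalXY (Fermat.Agent.S34.TwoGaussX0.modPolyZ q)
      (algebraMap R (FK H (N0 * q * q)) s₁)⁻¹ (algebraMap R (FK H (N0 * q * q)) s₀)⁻¹ = 0 := by
    rw [hs₁, hs₀, inv_inv, inv_inv]
    exact evalXY_j1L_j0L H Fermat.Agent.S34.TwoGaussX0.map_evalL_modPolyZ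
  have rel₂ : evalXY (Fermat.Agent.S34.TwoGaussX0.modPolyZ q)
      (algebraMap R (FK H (N0 * q * q)) s₂)⁻¹ (algebraMap R (FK H (N0 * q * q)) s₁)⁻¹ = 0 := by
    rw [hs₂, hs₁, inv_inv, inv_inv]
    exact evalXY_j2L_j1L H Fermat.Agent.S34.TwoGaussX0.map_evalL_modPolyZ
  have hpow : (algebraMap R (FK H (N0 * q * q)) s₀ / algebraMap R (FK H (N0 * q * q)) s₂ - 1) ^
      (q - 1) = algebraMap R (FK H (N0 * q * q)) D.ϖ * c0 (H := H) (q := q) (N0 := N0) := by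
    rw [hs₀, hs₂, hϖ, c0, inv_div_inv, mul_div_cancel₀ _ hqF]
  -- `θ J ≠ 0`
  have hθ : theta ((jk (ResidueField ↥A) N0 : ↥(modularFunctionFieldFullC (ResidueField ↥A) N0)) :
      LaurentSeries (ResidueField ↥A)) ≠ 0 := by
    intro h0
    rw [h0, zero_div, zero_pow hk.ne'] at hΘ
    exact hΘ0 (Subtype.ext hΘ.symm)
  have hc₀ : Y.W₁₁.valuation (c0 (H := H) (q := q) (N0 := N0)) = 1 := by
    rw [c0_eq_cK' (hA := hA) (hqN := hqN)]
    refine valuation_thick_unit_mul Y hV1 hζ (jOK H hA hqN) red0K_jOK_ne_zero ?_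
    rw [red0K_jOK]
    exact hθ
  have hρ : Y.r₁₁ ⟨c0 (H := H) (q := q) (N0 := N0),
      (Y.W₁₁.valuation_le_one_iff _).mp hc₀.le⟩ = -Θ := by
    apply Subtype.ext
    rw [coe_r₁₁_thick_unit_j Y hV1 hred1 hζ, hΘ]
    rfl
  -- `Q` is a pole of `J`
  have hQj : Q.ord (jk (ResidueField ↥A) N0) < 0 := by
    have h := (hQ (D.r11 s₀)).mp hcusp
    rw [hv₀, inv_inv] at h
    rcases h with h | h
    · exact absurd h (inv_ne_zero hjk0)
    · rw [Fermat.Agent.S24.Ord.mem_iff, not_le] at h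
      exact (Fermat.Agent.S24.Ord.ord_neg_iff Q hjk0).mpr h
  have hΘQ : Q.ord Θ = 0 := hΘord Q hQj
  have hcen : ∀ a : R, a ∈ D.x11 n ↔
      Y.r₁₁ ⟨algebraMap R (FK H (N0 * q * q)) a, hle a⟩ = 0 ∨
        (Y.r₁₁ ⟨algebraMap R (FK H (N0 * q * q)) a, hle a⟩)⁻¹ ∉ Q.toValuationSubring := by
    intro a
    rw [← hr11 a]
    exact hQ (D.r11 a)
  have hcu : (Y.r₁₁ ⟨c0 (H := H) (q := q) (N0 := N0),
      (Y.W₁₁.valuation_le_one_iff _).mp hc₀.le⟩)⁻¹ ∈ Q.toValuationSubring := by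
    rw [hρ]
    have hne : (-Θ)⁻¹ ≠ 0 := inv_ne_zero (neg_ne_zero.mpr hΘ0)
    rw [Fermat.Agent.S24.Ord.mem_iff, ← Fermat.Agent.S24.Ord.ord_nonneg_iff Q hne, Q.ord_inv,
      Fermat.Agent.S18.CoreOrd.ord_neg', hΘQ]
    simp
  have hqϖ' : Y.W₁₁.valuation (algebraMap R (FK H (N0 * q * q)) D.ϖ) =
      Y.W₁₁.valuation ϖ₁ ^ (q - 1) := by rw [hϖ, hqϖ]
  exact ThickCusp.exists_h11 D hn hS hϖ0 Y.W₁₁ hle hcentre hϖ1 hϖg hk hqϖ'
    isModShape_modPolyZ hq2 h₀ h₁ h₂ rel₁ rel₂ hSb0 hcusp rfl hr₁ hr₂ hpow hc₀ Y.r₁₁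
    Q.toValuationSubring hcen hcu

include hV1 hred1 in
/-- **the literal `h11` of `AllPointsInf.locPrincipal_of_isMaximal_of_overlap`** on the chart at
infinity, `ψ = x₂⁻¹ = (j₀ j₁ j₂)⁻¹`; the dictionary "maximal ideals of `B` = places of `κ`" is the
hypothesis `hplace` (`SpecDictOne.exists_place_of_isMaximal` + `SpecDictLocal.mem_pointOf_iff_inv`
for `B = chart k J⁻¹`). -/
theorem h11_inf (hζ : IsPrimitiveRoot ζ q) [IsAlgClosed (ResidueField ↥A)]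
    {R₁ R B : Type*} [CommRing R₁] [CommRing R] [CommRing B] [IsDomain R] [IsNoetherianRing R]
    [IsIntegrallyClosed R] [IsDomain B] [Algebra R (FK H (N0 * q * q))]
    [IsFractionRing R (FK H (N0 * q * q))]
    [Algebra B ↥(modularFunctionFieldFullC (ResidueField ↥A) N0)]
    (hB : Function.Injective
      (algebraMap B ↥(modularFunctionFieldFullC (ResidueField ↥A) N0)))
    (D : BranchCoreT.TDatum R₁ R B)
    (hϖ : algebraMap R (FK H (N0 * q * q)) D.ϖ = ((q : ℕ) : FK H (N0 * q * q)))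
    (hle : ∀ a : R, algebraMap R (FK H (N0 * q * q)) a ∈ Y.W₁₁)
    (hr11 : ∀ a : R, algebraMap B ↥(modularFunctionFieldFullC (ResidueField ↥A) N0) (D.r11 a) =
      Y.r₁₁ ⟨algebraMap R (FK H (N0 * q * q)) a, hle a⟩)
    {ϖ₁ : FK H (N0 * q * q)} (hϖ1 : Y.W₁₁.valuation ϖ₁ < 1)
    (hϖg : ∀ w : FK H (N0 * q * q), Y.W₁₁.valuation w < 1 →
      Y.W₁₁.valuation w ≤ Y.W₁₁.valuation ϖ₁)
    (hqϖ : Y.W₁₁.valuation ((q : ℕ) : FK H (N0 * q * q)) = Y.W₁₁.valuation ϖ₁ ^ (q - 1))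
    {s₀ s₁ s₂ ψ : R} (hs₀ : algebraMap R (FK H (N0 * q * q)) s₀ = (j0L H N0 q)⁻¹)
    (hs₁ : algebraMap R (FK H (N0 * q * q)) s₁ = (j1L H N0 q)⁻¹)
    (hs₂ : algebraMap R (FK H (N0 * q * q)) s₂ = (j2L H N0 q)⁻¹)
    (hψ : algebraMap R (FK H (N0 * q * q)) ψ = (j0L H N0 q * j1L H N0 q * j2L H N0 q)⁻¹)
    (hplace : ∀ n : Ideal B, n.IsMaximal →
      ∃ Q : Place (ResidueField ↥A) ↥(modularFunctionFieldFullC (ResidueField ↥A) N0),
        ∀ b : B, b ∈ n ↔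
          algebraMap B ↥(modularFunctionFieldFullC (ResidueField ↥A) N0) b = 0 ∨
            (algebraMap B ↥(modularFunctionFieldFullC (ResidueField ↥A) N0) b)⁻¹ ∉
              Q.toValuationSubring) :
    ∀ n : Ideal B, n.IsMaximal → n ∉ D.S → D.r11 ψ ∈ n → ∃ z : R, z ≠ 0 ∧
      z ∈ RingHom.ker D.r11 ∧ BranchEq (RingHom.ker D.r11) z ∧
      ∃ (s c : R) (k : ℕ), 0 < k ∧ c ∉ D.x11 n ∧ s * z ^ k = D.ϖ * c := by
  intro n hn hS hψn
  obtain ⟨Q, hQ⟩ := hplace n hn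
  have hψ' : ψ = s₀ * s₁ * s₂ := by
    apply IsFractionRing.injective R (FK H (N0 * q * q))
    rw [hψ, map_mul, map_mul, hs₀, hs₁, hs₂, mul_inv, mul_inv]
  have hcusp : D.r11 s₀ ∈ n := by
    haveI := hn.isPrime
    rw [hψ', map_mul, map_mul] at hψn
    rcases hn.isPrime.mem_or_mem hψn with h | h
    · rcases hn.isPrime.mem_or_mem h with h' | h'
      · exact h'
      · -- `r₁₁ s₁ = (r₁₁ s₀)^q`
        have hv₀ : algebraMap B ↥(modularFunctionFieldFullC (ResidueField ↥A) N0) (D.r11 s₀) =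
            (jk (ResidueField ↥A) N0)⁻¹ := by
          rw [hr11, ← r₁₁_inv_j0L Y hV1 hred1 hζ]
          congr 1
          exact Subtype.ext hs₀
        have hv₁ : algebraMap B ↥(modularFunctionFieldFullC (ResidueField ↥A) N0) (D.r11 s₁) =
            ((jk (ResidueField ↥A) N0)⁻¹) ^ q := by
          rw [hr11, ← r₁₁_inv_j1L Y hV1 hred1 hζ]
          congr 1
          exact Subtype.ext hs₁
        have hr₁ : D.r11 s₁ = D.r11 s₀ ^ q := hB (by rw [map_pow, hv₁, hv₀])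
        rw [hr₁] at h'
        exact hn.isPrime.mem_of_pow_mem q h'
    · have hv₀ : algebraMap B ↥(modularFunctionFieldFullC (ResidueField ↥A) N0) (D.r11 s₀) =
          (jk (ResidueField ↥A) N0)⁻¹ := by
        rw [hr11, ← r₁₁_inv_j0L Y hV1 hred1 hζ]
        congr 1
        exact Subtype.ext hs₀
      have hv₂ : algebraMap B ↥(modularFunctionFieldFullC (ResidueField ↥A) N0) (D.r11 s₂) =
          (jk (ResidueField ↥A) N0)⁻¹ := by
        rw [hr11, ← r₁₁_inv_j2L Y hV1 hred1 hζ]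
        congr 1
        exact Subtype.ext hs₂
      have hr₂ : D.r11 s₂ = D.r11 s₀ := hB (by rw [hv₂, hv₀])
      rw [← hr₂]
      exact h
  exact exists_h11 Y hV1 hred1 hζ hB D hϖ hle hr11 hϖ1 hϖg hqϖ hs₀ hs₁ hs₂ hn hS hcusp Q hQ

include hV1 hred1 in
/-- `h11_inf` without the auxiliary root of unity -/
theorem h11_inf' [IsAlgClosed (ResidueField ↥A)]
    {R₁ R B : Type*} [CommRing R₁] [CommRing R] [CommRing B] [IsDomain R] [IsNoetherianRing R]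
    [IsIntegrallyClosed R] [IsDomain B] [Algebra R (FK H (N0 * q * q))]
    [IsFractionRing R (FK H (N0 * q * q))]
    [Algebra B ↥(modularFunctionFieldFullC (ResidueField ↥A) N0)]
    (hB : Function.Injective
      (algebraMap B ↥(modularFunctionFieldFullC (ResidueField ↥A) N0)))
    (D : BranchCoreT.TDatum R₁ R B)
    (hϖ : algebraMap R (FK H (N0 * q * q)) D.ϖ = ((q : ℕ) : FK H (N0 * q * q)))
    (hle : ∀ a : R, algebraMap R (FK H (N0 * q * q)) a ∈ Y.W₁₁)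
    (hr11 : ∀ a : R, algebraMap B ↥(modularFunctionFieldFullC (ResidueField ↥A) N0) (D.r11 a) =
      Y.r₁₁ ⟨algebraMap R (FK H (N0 * q * q)) a, hle a⟩)
    {ϖ₁ : FK H (N0 * q * q)} (hϖ1 : Y.W₁₁.valuation ϖ₁ < 1)
    (hϖg : ∀ w : FK H (N0 * q * q), Y.W₁₁.valuation w < 1 →
      Y.W₁₁.valuation w ≤ Y.W₁₁.valuation ϖ₁)
    (hqϖ : Y.W₁₁.valuation ((q : ℕ) : FK H (N0 * q * q)) = Y.W₁₁.valuation ϖ₁ ^ (q - 1))
    {s₀ s₁ s₂ ψ : R} (hs₀ : algebraMap R (FK H (N0 * q * q)) s₀ = (j0L H N0 q)⁻¹)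
    (hs₁ : algebraMap R (FK H (N0 * q * q)) s₁ = (j1L H N0 q)⁻¹)
    (hs₂ : algebraMap R (FK H (N0 * q * q)) s₂ = (j2L H N0 q)⁻¹)
    (hψ : algebraMap R (FK H (N0 * q * q)) ψ = (j0L H N0 q * j1L H N0 q * j2L H N0 q)⁻¹)
    (hplace : ∀ n : Ideal B, n.IsMaximal →
      ∃ Q : Place (ResidueField ↥A) ↥(modularFunctionFieldFullC (ResidueField ↥A) N0),
        ∀ b : B, b ∈ n ↔
          algebraMap B ↥(modularFunctionFieldFullC (ResidueField ↥A) N0) b = 0 ∨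
            (algebraMap B ↥(modularFunctionFieldFullC (ResidueField ↥A) N0) b)⁻¹ ∉
              Q.toValuationSubring) :
    ∀ n : Ideal B, n.IsMaximal → n ∉ D.S → D.r11 ψ ∈ n → ∃ z : R, z ≠ 0 ∧
      z ∈ RingHom.ker D.r11 ∧ BranchEq (RingHom.ker D.r11) z ∧
      ∃ (s c : R) (k : ℕ), 0 < k ∧ c ∉ D.x11 n ∧ s * z ^ k = D.ϖ * c := by
  obtain ⟨ζ, hζ⟩ := Fermat.Agent.S28.StepDeg.exists_isPrimitiveRoot_units (k := Kb) (p := q)
    (Nat.cast_ne_zero.mpr hq.out.ne_zero)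
  exact h11_inf Y hV1 hred1 hζ hB D hϖ hle hr11 hϖ1 hϖg hqϖ hs₀ hs₁ hs₂ hψ hplace

end Link

/-! ### the dictionary hypothesis `hplace` for `B = chart k x` -/

/-- **`hplace` for `B = chart K x`** (`x` a separating parameter): every maximal ideal of the chart
ring is cut out by a place, in the shape used by `exists_h11` / `h11_inf`. -/
theorem hplace_chart {K : Type*} {F : Type*} [Field K] [Field F] [Algebra K F] {x : F}
    (hx : Fermat.Agent.S24.FF.IsFF K x) (hsep : Algebra.IsSeparable K⟮x⟯ F)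
    (n : Ideal (Fermat.Agent.S36.ChartRing.chart K x)) (hn : n.IsMaximal) :
    ∃ Q : Place K F, ∀ b : Fermat.Agent.S36.ChartRing.chart K x, b ∈ n ↔
      algebraMap (Fermat.Agent.S36.ChartRing.chart K x) F b = 0 ∨
        (algebraMap (Fermat.Agent.S36.ChartRing.chart K x) F b)⁻¹ ∉ Q.toValuationSubring := by
  obtain ⟨v, hv, hvn⟩ := Fermat.Agent.S36.SpecDictOne.exists_place_of_isMaximal hx hsep n hn
  refine ⟨v, fun b => ?_⟩
  rw [← hvn]
  exact Fermat.Agent.S36.SpecDictLocal.mem_pointOf_iff_inv v hv b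

end Fermat.Agent.S36.ThickCuspK0
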