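/-
PROJECT V (S36), slice V-ThickCuspOne (helper13): **(V12)(ii') at `X₀`, one call**: the `h11` tuple
of `AllPointsT.locPrincipal_of_isMaximal` / `AllPointsInf` at a middle cusp of the chart at
infinity, the twin of `ThickOrdOne.exists_h11_ordinary'`.

Inputs: a presentation `R` of `chart (W A) x₂⁻¹` (`hR'`), the TDatum `D` with the link 5-tuple
(`hϖ hle e he hr11`), `Y` + Link (`hV1 hred1`), `hYJ : Y.J = jk`, a cuspidal place `b`
(`b.ord jk < 0`) with the dictionary `hOb` to the maximal ideal `n ∉ D.S`.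

Inside: `s_i = 1/j_i ∈ R` (`ChartsX0.inv_fam2_mem_chartX0`), the modular relations
(`MiddleCuspK0.evalXY_j1L_j0L / evalXY_j2L_j1L`, `ModShape.isModShape_modPolyZ`), the (D5) values
`r₁₁(1/j₀) = 1/J = r₁₁(1/j₂)`, `r₁₁(1/j₁) = 1/J^q` (`CompNormalX0.r₁₁_jL0/1/2`),
`MiddleCuspUnit.Hyp.of_red` + `exists_local_eq` (helper15), `MiddleCuspTheta.exists_theta_unit`
(helper15), `ThickOrdX0.exists_h11_cusp`.
-/
import Mathlib
import Fermat.Agent.S36.ThickOrdX0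
import Fermat.Agent.S36.MiddleCuspUnit
import Fermat.Agent.S36.MiddleCuspTheta
import Fermat.Agent.S36.NormTripleX0
import Fermat.Agent.S36.ChartsX0Leaf
import Fermat.Agent.S36.MinpolyJ2

set_option autoImplicit false
set_option linter.unusedSectionVars false
set_option linter.style.haveILetI false
set_option linter.unusedVariables false
set_option synthInstance.maxHeartbeats 400000
set_option maxHeartbeats 1000000

noncomputable section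

namespace Fermat.Agent.S36.ThickCuspOne

open ModularCurve AlgebraicCurve IntermediateField IsLocalRing
open Fermat.Agent.S18.B.FkBasics (jk isFF)
open Fermat.Agent.S18.C.SmallDVR
open Fermat.Agent.S36.ChartRing Fermat.Agent.S36.ChartX0
open Fermat.Agent.S36.PowerBasisK0 Fermat.Agent.S36.ThetaK0
open Fermat.Agent.S36.JIntegral
open Fermat.Agent.S36.DiagTheta
open Fermat.Agent.S36.AllPoints Fermat.Agent.S36.ModShape
open Fermat.Agent.S34.TwoGaussX0 (modPolyZ map_evalL_modPolyZ)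

local notation "Kb" => AlgebraicClosure ℚ

variable {q : ℕ} [hq : Fact q.Prime] {N0 : ℕ} [NeZero N0] {A : ValuationSubring Kb}
variable {hA : A.LiesOverPrime q} {hqN : ¬ q ∣ N0} [NeZero q]

/-- helper10's `O₀`-algebra structure, on the type written as `PowerBasisK0.FK` -/
local instance algWFK₂ (N : ℕ) : Algebra ↥(W A) (FK (A.inertiaSubgroupIn ℚ) N) := algebraW A N

variable {R₁ R B : Type*} [CommRing R₁] [CommRing R] [CommRing B]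
  [IsDomain R] [IsNoetherianRing R] [IsIntegrallyClosed R] [IsDomain B]
  [Algebra R (FK (A.inertiaSubgroupIn ℚ) (N0 * q * q))]
  [IsFractionRing R (FK (A.inertiaSubgroupIn ℚ) (N0 * q * q))]

/-- **(V12)(ii') at `X₀`**: the `h11` tuple at a middle cusp. -/
theorem exists_h11_middle_cusp
    (hR' : ∀ x ∈ chartX0 A (N0 * q * q)
        (Fermat.Agent.S36.ChartsX0.x2 (A.inertiaSubgroupIn ℚ) N0 q)⁻¹,
      ∃ a : R, algebraMap R (FK (A.inertiaSubgroupIn ℚ) (N0 * q * q)) a = x)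
    (D : BranchCoreT.TDatum R₁ R B)
    (Y : ThreeValX0.Hyp (A.inertiaSubgroupIn ℚ) N0 q
      ↥(modularFunctionFieldFullC (ResidueField ↥A) N0))
    (hV1 : Y.V₁ = V1K (A.inertiaSubgroupIn ℚ) hA hqN)
    (hred1 : ∀ (x : FK (A.inertiaSubgroupIn ℚ) (N0 * q)) (h : x ∈ Y.V₁)
      (h' : x ∈ V1K (A.inertiaSubgroupIn ℚ) hA hqN),
      Y.red₁ ⟨x, h⟩ = red1K (A.inertiaSubgroupIn ℚ) hA hqN ⟨x, h'⟩)
    (hYJ : Y.J = jk (ResidueField ↥A) N0)
    {n : Ideal B} (hn : n.IsMaximal) (hS : n ∉ D.S)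
    (hϖ : algebraMap R (FK (A.inertiaSubgroupIn ℚ) (N0 * q * q)) D.ϖ =
      ((q : ℕ) : FK (A.inertiaSubgroupIn ℚ) (N0 * q * q)))
    (hle : ∀ a : R, algebraMap R (FK (A.inertiaSubgroupIn ℚ) (N0 * q * q)) a ∈ Y.W₁₁)
    (e : B →+* ↥(modularFunctionFieldFullC (ResidueField ↥A) N0)) (he : Function.Injective e)
    (hr11 : ∀ a : R, e (D.r11 a) =
      Y.r₁₁ ⟨algebraMap R (FK (A.inertiaSubgroupIn ℚ) (N0 * q * q)) a, hle a⟩)
    (b : Place (ResidueField ↥A) ↥(modularFunctionFieldFullC (ResidueField ↥A) N0))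
    (hb : b.ord (jk (ResidueField ↥A) N0) < 0)
    (hOb : ∀ x : B, x ∈ n ↔ e x = 0 ∨ (e x)⁻¹ ∉ b.toValuationSubring) :
    ∃ z : R, z ≠ 0 ∧ z ∈ RingHom.ker D.r11 ∧ BranchEq (RingHom.ker D.r11) z ∧
      ∃ (s c : R) (k : ℕ), 0 < k ∧ c ∉ D.x11 n ∧ s * z ^ k = D.ϖ * c := by
  haveI : IsAlgClosed (ResidueField ↥A) :=
    Fermat.Agent.S18.ResidueBasics.isAlgClosed_residueField A
  haveI : CharP (ResidueField ↥A) q := Fermat.Agent.S34.GaussPairX0.charP_res hA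
  haveI : PerfectField (ResidueField ↥A) := inferInstance
  haveI := hn.isPrime
  haveI : (D.x11 n).IsPrime := Ideal.comap_isPrime D.r11 n
  have hsep := Fermat.Agent.S18.B.SeparableFk.isSeparable_jk (ResidueField ↥A) N0
  obtain ⟨ζ, hζ⟩ := Fermat.Agent.S36.MinpolyJ2.exists_primitiveRoot_q hq.out
  -- `J ≠ 0`, `J⁻¹ ∉ O_b`
  have hJ0 : Y.J ≠ 0 := Fermat.Agent.S36.CompNormalX0.J_ne_zero Y
  -- the three elements `s_i = 1/j_i`
  have hjne : ∀ i : Fin 3, jL (A.inertiaSubgroupIn ℚ) N0 q i ≠ 0 := Fermat.Agent.S36.CompNormalX0.jL_ne_zero Y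
  have hmemW : ∀ i : Fin 3, jL (A.inertiaSubgroupIn ℚ) N0 q i ∈ Y.W₁₁ := Fermat.Agent.S36.NormTripleX0.jL_mem_W₁₁ Y
  have hs : ∀ i : Fin 3, ∃ s : R,
      algebraMap R (FK (A.inertiaSubgroupIn ℚ) (N0 * q * q)) s = (jL (A.inertiaSubgroupIn ℚ) N0 q i)⁻¹ := fun i =>
    hR' _ (Fermat.Agent.S36.ChartsX0.inv_fam2_mem_chartX0 (q := q) A N0 i)
  obtain ⟨s₀, hs₀⟩ := hs 0
  obtain ⟨s₁, hs₁⟩ := hs 1
  obtain ⟨s₂, hs₂⟩ := hs 2
  have hne : ∀ (s : R) (i : Fin 3), algebraMap R (FK (A.inertiaSubgroupIn ℚ) (N0 * q * q)) s = (jL (A.inertiaSubgroupIn ℚ) N0 q i)⁻¹ →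
      s ≠ 0 := fun s i h h0 => inv_ne_zero (hjne i) (by rw [← h, h0, map_zero])
  -- values of `r₁₁` at `1/j_i`
  have hval : ∀ (s : R) (i : Fin 3) (v : ↥(modularFunctionFieldFullC (ResidueField ↥A) N0)),
      algebraMap R (FK (A.inertiaSubgroupIn ℚ) (N0 * q * q)) s = (jL (A.inertiaSubgroupIn ℚ) N0 q i)⁻¹ →
      Y.r₁₁ ⟨jL (A.inertiaSubgroupIn ℚ) N0 q i, hmemW i⟩ = v → e (D.r11 s) = v⁻¹ := by
    intro s i v h hv
    have hmem : (jL (A.inertiaSubgroupIn ℚ) N0 q i)⁻¹ ∈ Y.W₁₁ := h ▸ hle s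
    have h1 : Y.r₁₁ ⟨algebraMap R (FK (A.inertiaSubgroupIn ℚ) (N0 * q * q)) s, hle s⟩ =
        Y.r₁₁ ⟨(jL (A.inertiaSubgroupIn ℚ) N0 q i)⁻¹, hmem⟩ := by
      congr 1
      exact Subtype.ext h
    rw [hr11 s, h1, Fermat.Agent.S36.NormTripleX0.red_inv Y.W₁₁ Y.r₁₁ (hmemW i) hmem (hjne i), hv]
  have e₀ : e (D.r11 s₀) = Y.J⁻¹ :=
    hval s₀ 0 _ hs₀ (Fermat.Agent.S36.CompNormalX0.r₁₁_jL0 Y (hmemW 0))
  have e₁ : e (D.r11 s₁) = (Y.J ^ q)⁻¹ :=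
    hval s₁ 1 _ hs₁ (Fermat.Agent.S36.CompNormalX0.r₁₁_jL1 Y (hmemW 1))
  have e₂ : e (D.r11 s₂) = Y.J⁻¹ :=
    hval s₂ 2 _ hs₂ (Fermat.Agent.S36.CompNormalX0.r₁₁_jL2 Y (hmemW 2))
  -- `Sb = r₁₁ s₀`
  have hSb0 : D.r11 s₀ ≠ 0 := fun h0 => inv_ne_zero hJ0 (by rw [← e₀, h0, map_zero])
  have hSbn : D.r11 s₀ ∈ n := by
    rw [hOb, e₀, inv_inv]
    right
    rw [hYJ]
    intro hmem
    have h1 : 0 ≤ b.ord (jk (ResidueField ↥A) N0) :=
      (Fermat.Agent.S24.Ord.ord_nonneg_iff b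
        (Fermat.Agent.S18.B.FkBasics.isFF (ResidueField ↥A) N0).ne_zero).mpr
        ((Fermat.Agent.S24.Ord.mem_iff b _).mp hmem)
    omega
  have hr₁ : D.r11 s₁ = D.r11 s₀ ^ q := he (by rw [map_pow, e₁, e₀, inv_pow])
  have hr₂ : D.r11 s₂ = D.r11 s₀ := he (by rw [e₂, e₀])
  -- the modular relations
  have rel₁ : evalXY (modPolyZ q) (algebraMap R (FK (A.inertiaSubgroupIn ℚ) (N0 * q * q)) s₁)⁻¹
      (algebraMap R (FK (A.inertiaSubgroupIn ℚ) (N0 * q * q)) s₀)⁻¹ = 0 := by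
    rw [hs₁, hs₀, inv_inv, inv_inv]
    exact Fermat.Agent.S36.MiddleCuspK0.evalXY_j1L_j0L (A.inertiaSubgroupIn ℚ) (map_evalL_modPolyZ (q := q))
  have rel₂ : evalXY (modPolyZ q) (algebraMap R (FK (A.inertiaSubgroupIn ℚ) (N0 * q * q)) s₂)⁻¹
      (algebraMap R (FK (A.inertiaSubgroupIn ℚ) (N0 * q * q)) s₁)⁻¹ = 0 := by
    rw [hs₂, hs₁, inv_inv, inv_inv]
    exact Fermat.Agent.S36.MiddleCuspK0.evalXY_j2L_j1L (A.inertiaSubgroupIn ℚ) (map_evalL_modPolyZ (q := q))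
  have H : Fermat.Agent.S36.MiddleCuspUnit.Hyp (FK (A.inertiaSubgroupIn ℚ) (N0 * q * q)) (D.x11 n) q (modPolyZ q)
      s₀ s₁ s₂ :=
    Fermat.Agent.S36.MiddleCuspUnit.Hyp.of_red D.r11 n rfl isModShape_modPolyZ hq.out.two_le
      (hne s₀ 0 hs₀) (hne s₁ 1 hs₁) (hne s₂ 2 hs₂) rel₁ rel₂ hSb0 hSbn rfl hr₁ hr₂
  obtain ⟨σ, z, hσ, -, -, hz⟩ := H.exists_local_eq
  -- the count at the cusp
  obtain ⟨Θ₀, hΘ₀, hΘc, hΘord⟩ :=
    Fermat.Agent.S36.MiddleCuspTheta.exists_theta_unit (q := q) hA N0 hsep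
  refine Fermat.Agent.S36.ThickOrdX0.exists_h11_cusp D Y hV1 hred1 hn hS hζ hϖ hle e he hr11
    b.toValuationSubring hOb (s₀ := σ) (z := z) hσ ?_ ?_
  · rw [hz, hs₀, hs₂, inv_div_inv]
    rfl
  · intro Θ hΘ
    have hΘeq : Θ = Θ₀ := Subtype.ext (hΘ.trans hΘc)
    subst hΘeq
    refine ⟨hΘ₀, (Fermat.Agent.S24.Ord.mem_iff b _).mpr
      ((Fermat.Agent.S24.Ord.ord_nonneg_iff b (inv_ne_zero hΘ₀)).mp ?_)⟩
    rw [Place.ord_inv, hΘord b hb, neg_zero]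

end Fermat.Agent.S36.ThickCuspOne
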