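import Mathlib
import Fermat.Agent.S34.Euler.Chart
import Fermat.Agent.S34.WeakApprox
import Fermat.Agent.S34.ArchComap

/-!
# PROJECT V (S36), slice V-ThinSubNode, abstract part: pole control for ONE Gauss ring off the nodes

Setting of `S34/Euler/Chart`: two Gauss data `G₁, G₂` of `FL / L` with values in the same `κ / k`
(the two components of the special fibre of `X₀(M q)`), `D ≥ 0` the pole divisor of the chart
function, `Rbar0 = ⋃ r, red (L(rD) ∩ O₁ ∩ O₂)` the ring of reduced pairs of chart-regular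
functions integral for BOTH Gauss valuations.

Let `P₀` be the cusps of `κ` and `T` the nodes on the first component (`T = Fr '' S`).  Assume

* `hlift` (the lifting half of the chart-0 gluing description of `Rbar0`): every `h₁` regular
  off `P₀` and vanishing on `T` gives a pair `(h₁, 0) ∈ Rbar0`;
* `hpc` (pole control): first coordinates of `Rbar0` are regular off `P₀`;
* `O₂` archimedean.

Then every chart-regular function `η` which is integral for the FIRST Gauss valuation only has a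
reduction `red₁ η` regular at every non-cuspidal place `c` that can be separated from `T`
(`adicValuation_red_le_one`): multiply by `f ^ n`, where `f ∈ O₁ ∩ O₂` reduces to `(h₁, 0)` with
`h₁` a unit at `c`; `f` is a non-unit of the archimedean `O₂`, so `f ^ n η ∈ O₂` for `n` large.

This is input (i) of the count of thin nodes: for `η = (β φ - (α ψ) ^ q) / q` it says that the
function `G_φ = red₁ η` is regular off the nodes, hence (by `θ G_φ = θ φ ((θ φ)^(q-1) - φ^(q-1))`)
that `(θ φ̄)^(q-1)` has no pole at a non-node where `φ̄` is a local parameter.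
-/

set_option autoImplicit false
set_option linter.unusedSectionVars false

noncomputable section

namespace Fermat.Agent.S36.ThinSubNode

open AlgebraicCurve Fermat.Agent.S18.NonSpecial Fermat.Agent.S37.Deuring.Core
  Fermat.Agent.S34.Euler.Value Fermat.Agent.S34.Euler.RedPair
  Fermat.Agent.S34.Euler.Places Fermat.Agent.S34.Euler.Chart Fermat.Agent.S34.WeakApprox

variable {L : Type*} [Field L] {k : Type*} [Field k]
variable {A : ValuationSubring L} {π : A →+* k}
variable {FL : Type*} [Field FL] [Algebra L FL]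
variable {κ : Type*} [Field κ] [Algebra k κ]

/-- powers stay in the Riemann-Roch spaces of the multiples -/
theorem pow_mem_rr {D : Divisor L FL} {f : FL} (hf : f ∈ riemannRochSpace D)
    (n : ℕ) : f ^ n ∈ riemannRochSpace (n • D) := by
  induction n with
  | zero =>
    rw [pow_zero, zero_smul]
    exact one_mem_riemannRochSpace le_rfl
  | succ n ih =>
    rw [pow_succ, succ_nsmul]
    exact Fermat.Agent.S37.Deuring.FundIneq.mul_mem_rr ih hf

/-- `x * u⁻¹ * u = x` for a unit `u` of a subring, in coerced form -/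
theorem coe_unit_mul_inv {O : ValuationSubring FL} (u : Oˣ) :
    (((u : O) : FL)) * (((u⁻¹ : Oˣ) : O) : FL) = 1 := by
  rw [← Subring.coe_mul, ← Units.val_mul, mul_inv_cancel, Units.val_one, Subring.coe_one]

/-- the Gauss ring of a Gauss datum over an archimedean base is archimedean -/
theorem arch_O (G : GaussDatum A π FL κ) (hA : Arch A) : Arch G.O := by
  intro a c hc hc0
  by_cases ha0 : a = 0
  · exact ⟨0, by rw [ha0, zero_mul]; exact G.O.zero_mem⟩
  obtain ⟨a₀, ha₀, ua, hua⟩ := G.exists_const_mul_unit a ha0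
  obtain ⟨c₀, hc₀, uc, huc⟩ := G.exists_const_mul_unit c hc0
  have hcO : c ∈ G.O := G.O.nonunits_le hc
  have hcinv : c⁻¹ ∉ G.O :=
    (Fermat.Agent.S34.ArchComap.mem_nonunits_iff_inv_notMem G.O hc0).mp hc
  -- `c₀ = c * uc⁻¹`
  have e0 : algebraMap L FL c₀ = c * (((uc⁻¹ : G.Oˣ) : G.O) : FL) := by
    rw [huc, mul_assoc, coe_unit_mul_inv, mul_one]
  have hc₀A : c₀ ∈ A :=
    G.mem_of_algebraMap_mem c₀ (by rw [e0]; exact G.O.mul_mem _ _ hcO (SetLike.coe_mem _))
  have hc₀nu : c₀ ∈ A.nonunits := by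
    rw [Fermat.Agent.S34.ArchComap.mem_nonunits_iff_inv_notMem A hc₀]
    intro hinv
    apply hcinv
    have e1 : c⁻¹ = algebraMap L FL c₀⁻¹ * (((uc⁻¹ : G.Oˣ) : G.O) : FL) := by
      apply inv_eq_of_mul_eq_one_right
      rw [huc]
      calc algebraMap L FL c₀ * ((uc : G.O) : FL)
            * (algebraMap L FL c₀⁻¹ * (((uc⁻¹ : G.Oˣ) : G.O) : FL))
          = (algebraMap L FL c₀ * algebraMap L FL c₀⁻¹)
            * (((uc : G.O) : FL) * (((uc⁻¹ : G.Oˣ) : G.O) : FL)) := by ring
        _ = 1 := by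
          rw [coe_unit_mul_inv, ← map_mul, mul_inv_cancel₀ hc₀, map_one, one_mul]
    rw [e1]
    exact G.O.mul_mem _ _ (G.algebraMap_mem ⟨_, hinv⟩) (SetLike.coe_mem _)
  obtain ⟨n, hn⟩ := hA a₀ c₀ hc₀nu hc₀
  refine ⟨n, ?_⟩
  have : a * c ^ n = algebraMap L FL (a₀ * c₀ ^ n) * (((ua * uc ^ n : G.Oˣ) : G.O) : FL) := by
    rw [hua, huc, map_mul, map_pow, Units.val_mul, Units.val_pow_eq_pow_val, Subring.coe_mul,
      Subring.coe_pow]
    ring
  rw [this]
  exact G.O.mul_mem _ _ (G.algebraMap_mem ⟨_, hn⟩) (SetLike.coe_mem _)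

variable (G₁ G₂ : GaussDatum A π FL κ)

/-- **Pole control for the first Gauss ring alone, off the nodes.**  `P₀` the cusps, `T` the nodes
on the first component.  If pairs `(h₁, 0)` with `h₁` regular off `P₀` and vanishing on `T` lie in
`Rbar0` (lifting), first coordinates of `Rbar0` are regular off `P₀` (pole control) and `O₂` is
archimedean, then for every chart-regular `η ∈ O₁` the reduction `red₁ η` is regular at every
`c ∉ P₀` at which some `h₁` as above is a unit. -/
theorem adicValuation_red_le_one {D : Divisor L FL} (hD : 0 ≤ D)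
    (harch : Arch G₂.O) (P₀ T : Set (Place k κ))
    (hlift : ∀ h₁ : κ, h₁ ∈ regOff P₀ → (∀ b ∈ T, HasValue b h₁ 0) →
      ((h₁, (0 : κ)) : κ × κ) ∈ Rbar0 G₁ G₂ hD)
    (hpc : ∀ p : κ × κ, p ∈ Rbar0 G₁ G₂ hD → p.1 ∈ regOff P₀)
    {c : Place k κ} (hc : c ∉ P₀)
    (hsep : ∃ h₁ : κ, h₁ ∈ regOff P₀ ∧ (∀ b ∈ T, HasValue b h₁ 0) ∧ c.adicValuation h₁ = 1)
    {η : FL} (hη₁ : η ∈ G₁.O) (hηD : ∃ r : ℕ, η ∈ riemannRochSpace (r • D)) :
    c.adicValuation (G₁.red ⟨η, hη₁⟩) ≤ 1 := by
  obtain ⟨h₁, hh₁, hT, hc1⟩ := hsep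
  obtain ⟨r, hηr⟩ := hηD
  obtain ⟨r', hW⟩ := (mem_Rbar0 G₁ G₂ hD).mp (hlift h₁ hh₁ hT)
  obtain ⟨f, hf₁, hf₂, hfD, hfp⟩ := hW
  have hred₁ : G₁.red ⟨f, hf₁⟩ = h₁ := congrArg Prod.fst hfp
  have hred₂ : G₂.red ⟨f, hf₂⟩ = 0 := congrArg Prod.snd hfp
  have hh₁0 : h₁ ≠ 0 := by
    intro h
    rw [h, map_zero] at hc1
    exact zero_ne_one hc1
  have hf0 : f ≠ 0 := by
    rintro rfl
    apply hh₁0
    rw [← hred₁]
    exact map_zero G₁.red
  -- `f` is a non-unit of `O₂`
  have hfnu : f ∈ G₂.O.nonunits := by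
    rw [G₂.O.mem_nonunits_iff_exists_mem_maximalIdeal]
    refine ⟨hf₂, ?_⟩
    rw [IsLocalRing.mem_maximalIdeal, mem_nonunits_iff]
    exact (G₂.red_eq_zero_iff _).mp hred₂
  obtain ⟨n, hn⟩ := harch η f hfnu hf0
  -- the function `w = η * f ^ n`
  have hw₁ : η * f ^ n ∈ G₁.O := G₁.O.mul_mem _ _ hη₁ (G₁.O.pow_mem hf₁ n)
  have hwD : η * f ^ n ∈ riemannRochSpace ((r + n * r') • D) := by
    have h1 := pow_mem_rr hfD n
    have h2 := Fermat.Agent.S37.Deuring.FundIneq.mul_mem_rr hηr h1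
    rwa [← mul_nsmul', ← add_nsmul] at h2
  have hmem : redPair G₁ G₂ (η * f ^ n) hw₁ hn ∈ Rbar0 G₁ G₂ hD :=
    (mem_Rbar0 G₁ G₂ hD).mpr ⟨r + n * r', η * f ^ n, hw₁, hn, hwD, rfl⟩
  have hreg := hpc _ hmem c hc
  -- `red₁ w = red₁ η * h₁ ^ n`
  have hfst : (redPair G₁ G₂ (η * f ^ n) hw₁ hn).1 = G₁.red ⟨η, hη₁⟩ * h₁ ^ n := by
    show G₁.red ⟨η * f ^ n, hw₁⟩ = _
    have : (⟨η * f ^ n, hw₁⟩ : G₁.O) = ⟨η, hη₁⟩ * ⟨f, hf₁⟩ ^ n := rfl
    rw [this, map_mul, map_pow, hred₁]
  rw [hfst, map_mul, map_pow, hc1, one_pow, mul_one] at hreg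
  exact hreg

/-! ### The separating function, from Riemann's theorem -/

/-- **Separation**: `E ≥ 0` of positive degree supported in `P₀`, `T` a finite set of places
outside `P₀`, `c ∉ P₀ ∪ T`.  Then some function regular off `P₀` vanishes on `T` and takes the
value `1` at `c`. -/
theorem exists_sep {g : ℕ} (H : RiemannHyp k κ g) {P₀ : Set (Place k κ)} {E : Divisor k κ}
    (hEpos : 0 < Divisor.degree E) (hEsupp : ∀ v : Place k κ, v ∉ P₀ → E v = 0)
    (T : Finset (Place k κ)) (hT : ∀ b ∈ T, b ∉ P₀) {c : Place k κ} (hc : c ∉ P₀)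
    (hcT : c ∉ T) :
    ∃ h₁ : κ, h₁ ∈ regOff P₀ ∧ (∀ b ∈ T, HasValue b h₁ 0) ∧ c.adicValuation h₁ = 1 := by
  classical
  let ι := {b : Place k κ // b ∈ insert c T}
  let s : ι → Place k κ := Subtype.val
  have hsinj : Function.Injective s := Subtype.val_injective
  have hs : ∀ i, (s i).deg = 1 := fun i => H.deg_one _
  have hsP : ∀ i, s i ∉ P₀ := by
    rintro ⟨b, hb⟩
    rcases Finset.mem_insert.mp hb with rfl | hb
    · exact hc
    · exact hT b hb
  obtain ⟨c₁, hc₁⟩ := H.riemann_eq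
  set d : ℕ := (c₁ + Fintype.card ι).toNat with hd
  have hd' : c₁ + Fintype.card ι ≤ d := Int.self_le_toNat _
  have hdeg : Divisor.degree (d • E) = d * Divisor.degree E := by
    rw [map_nsmul, nsmul_eq_mul]
  have hdE : c₁ + Fintype.card ι ≤ d * Divisor.degree E := by
    have : (d : ℤ) ≤ d * Divisor.degree E := by nlinarith
    exact hd'.trans this
  have hE' : ∀ i, (d • E) (s i) = 0 := fun i => by
    rw [Finsupp.smul_apply, hEsupp _ (hsP i), smul_zero]
  have e₁ : (ell (d • E) : ℤ) = d * Divisor.degree E + 1 - g := by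
    rw [hc₁ (d • E) (by rw [hdeg]; linarith [Nat.cast_nonneg (α := ℤ) (Fintype.card ι)]), hdeg]
  have e₁' : (ell (d • E - sumFam s) : ℤ) = d * Divisor.degree E + 1 - g - Fintype.card ι := by
    have hdeg' : Divisor.degree (d • E - sumFam s) = d * Divisor.degree E - Fintype.card ι := by
      rw [map_sub, hdeg, degree_sumFam s hs]
    rw [hc₁ _ (by rw [hdeg']; linarith), hdeg']
    ring
  have := H.finite (d • E)
  have hdim : ell (d • E) = ell (d • E - sumFam s) + Fintype.card ι := by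
    have : (ell (d • E) : ℤ) = ell (d • E - sumFam s) + Fintype.card ι := by
      rw [e₁, e₁']; ring
    exact_mod_cast this
  have hsurj := evalRR_surjective s hs hsinj (d • E) hE' hdim
  obtain ⟨h, hh⟩ := hsurj (fun i => if (i : Place k κ) = c then 1 else 0)
  refine ⟨(h : κ), ?_, ?_, ?_⟩
  · -- regular off `P₀`
    intro v hv
    have hv0 : (d • E) v ≤ 0 := by
      rw [Finsupp.smul_apply, hEsupp v hv, smul_zero]
    exact regAt_rr hv0 _ h.2
  · intro b hb
    have hbi : b ∈ insert c T := Finset.mem_insert_of_mem hb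
    have := hasValue_evalRR s hs (d • E) hE' h ⟨b, hbi⟩
    rw [hh] at this
    have hbc : b ≠ c := fun e => hcT (e ▸ hb)
    simpa [hbc] using this
  · have hci : c ∈ insert c T := Finset.mem_insert_self c T
    have := hasValue_evalRR s hs (d • E) hE' h ⟨c, hci⟩
    rw [hh] at this
    simp only [if_true] at this
    -- `v (h - 1) < 1` gives `v h = 1`
    unfold HasValue at this
    rw [map_one] at this
    have h1 : c.adicValuation ((h : κ) - 1 + 1) = 1 := by
      have := Valuation.map_add_eq_of_lt_right c.adicValuation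
        (x := (h : κ) - 1) (y := 1) (by rwa [map_one])
      rw [this, map_one]
    simpa using h1

/-! ### The form consumed at `X₀(M q)` -/

/-- **Regularity off the nodes, in the shape of `S34/EulerNodesFinalX0.exists_nodes_final`.**
`S` the node set (places of the second component), `Fr b` the corresponding places of the first
component, `hglue` the chart-0 gluing description of `Rbar0`, `hpc` pole control for `Rbar0`.
Every chart-regular `η ∈ O₁` has `red₁ η` regular at every non-cuspidal `c` which is not of the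
form `Fr b`, `b ∈ S`. -/
theorem adicValuation_red_le_one_of_glue {g : ℕ} (H : RiemannHyp k κ g)
    {D : Divisor L FL} (hD : 0 ≤ D) (harch : Arch G₂.O)
    {P₀ : Set (Place k κ)} {E : Divisor k κ}
    (hEpos : 0 < Divisor.degree E) (hEsupp : ∀ v : Place k κ, v ∉ P₀ → E v = 0)
    (Fr : Place k κ → Place k κ) (S : Finset (Place k κ)) (hS : ∀ b ∈ S, Fr b ∉ P₀)
    (hglue : ∀ h₁ h₂ : κ, h₁ ∈ regOff P₀ → h₂ ∈ regOff P₀ →
      (((h₁, h₂) : κ × κ) ∈ Rbar0 G₁ G₂ hD ↔
        ∀ b ∈ S, ∃ γ : k, HasValue (Fr b) h₁ γ ∧ HasValue b h₂ γ))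
    (hpc : ∀ p : κ × κ, p ∈ Rbar0 G₁ G₂ hD → p.1 ∈ regOff P₀)
    {c : Place k κ} (hc : c ∉ P₀) (hcS : ∀ b ∈ S, c ≠ Fr b)
    {η : FL} (hη₁ : η ∈ G₁.O) (hηD : ∃ r : ℕ, η ∈ riemannRochSpace (r • D)) :
    c.adicValuation (G₁.red ⟨η, hη₁⟩) ≤ 1 := by
  classical
  refine adicValuation_red_le_one G₁ G₂ hD harch P₀ (↑(S.image Fr)) ?_ hpc hc ?_ hη₁ hηD
  · intro h₁ hh₁ hT
    refine (hglue h₁ 0 hh₁ (Subalgebra.zero_mem _)).mpr fun b hb => ⟨0, ?_, ?_⟩
    · exact hT (Fr b) (Finset.mem_coe.mpr (Finset.mem_image_of_mem Fr hb))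
    · exact (hasValue_zero_iff b).mpr (by rw [map_zero]; exact zero_lt_one)
  · obtain ⟨h₁, hh₁, hT, hc1⟩ := exists_sep H hEpos hEsupp (S.image Fr)
      (fun b hb => by
        obtain ⟨b', hb', rfl⟩ := Finset.mem_image.mp hb
        exact hS b' hb') hc
      (fun hcm => by
        obtain ⟨b', hb', e⟩ := Finset.mem_image.mp hcm
        exact hcS b' hb' e.symm)
    exact ⟨h₁, hh₁, fun b hb => hT b (Finset.mem_coe.mp hb), hc1⟩

end Fermat.Agent.S36.ThinSubNode
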