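/-
PROJECT V (S36), slice V-ThinSubNode (helper4), part (b): **the derivative bound**, i.e. the
local one-sided bounds of the count (chain (V13)) at level `q` only.

`κ` a field of characteristic `q` with `[κ : κ^q] = q` (a function field in one variable over a
perfect field; `S34/FrobDegree`), `v` a place, `π` a local parameter at `v`.

* `exists_decomp` : every `η ∈ κ` is `∑_{i<q} b_i^q π^i` (`π ∉ κ^q`);
* `term_le` : the terms have pairwise different orders at `v` (`q · ord b_i + i`), so EVERY term is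
  bounded by the sum;
* `der π b := ∑ i · b_i^q π^(i-1)` (the derivative `dη/dπ`): `mul_der_le` (`ord (π · dη/dπ) ≥ ord η`,
  a pole of order `n` gives a pole of order at most `n + 1`) and `der_le_one`
  (`η` regular at `v` ⟹ `dη/dπ` regular at `v`).  No completion, no Taylor expansion.
* `thetaL_eq_der_mul` : for a ring hom `ι : κ → k((t))`, `θ (ι η) = ι (dη/dπ) · θ (ι π)`
  (`θ = t d/dt` kills `q`-th powers).

Series identity (abstract, `R` a domain with `q ≠ 0`, `red : R → k`, `char k = q`):
* `thetaL_eta` : `q η = φ(t^q) - φ'^q` in `R((t))`, `red φ` = coefficientwise `q`-th power of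
  `ψ := red φ'` ⟹ `θ (red η) = θ ψ · ((θ ψ)^(q-1) - ψ^(q-1))`;
* `exists_eta` : such an `η` exists as soon as `ker red = (q)` (this is where `K₀`-rational lifts
  are needed: over the non-discrete valuation ring of `ℚ̄` the congruence is only modulo `m`).

On `κ = F_k(N)`:
* `exists_T` : from the series identity for `(ψ, η̄)` and `θ ψ ≠ 0`: there is `T ∈ κ` with
  `T = (θ ψ)^(q-1)` as Laurent series, and at every place `v` where `ψ - c` is a local parameter:
  `η̄` regular at `v` ⟹ `T` regular at `v`  (`ν_v ≥ 0`: with `ThinSubNode (a)` this is the bound of the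
  count OFF the nodes), and in general `ord_v ((ψ - c)(T - ψ^(q-1))) ≥ ord_v η̄` (`η̄` with at most a
  simple pole ⟹ `ν_v ≥ -2`).
-/
import Mathlib
import Fermat.Agent.S34.FrobDegree

set_option autoImplicit false
set_option linter.unusedSectionVars false
set_option linter.style.haveILetI false

noncomputable section

namespace Fermat.Agent.S36.ThinSubNodeDer

open AlgebraicCurve ModularCurve HahnSeries
open Fermat.Agent.S34.FrobDegree
open Fermat.Agent.S28.ThetaL

/-! ### the `q`-basis decomposition and the derivative -/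

section Abstract

variable {k K : Type*} [Field k] [Field K] [Algebra k K]
variable (q : ℕ) [hq : Fact q.Prime] [CharP K q]

/-- every element is `∑_{i<q} b_i^q π^i` when `[K : K^q] = q` and `π ∉ K^q` -/
theorem exists_decomp (hfin : Module.finrank (powSubfield (K := K) q) K = q) {π : K}
    (hπ : π ∉ powSubfield (K := K) q) (η : K) :
    ∃ b : Fin q → K, η = ∑ i : Fin q, b i ^ q * π ^ (i : ℕ) := by
  obtain ⟨pb, hgen, hdim⟩ := exists_powerBasis q hfin hπ
  have hrepr := pb.basis.sum_repr η
  have hz : ∀ i : Fin pb.dim, ∃ z : K, z ^ q = ((pb.basis.repr η i : powSubfield (K := K) q) : K) :=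
    fun i => (mem_powSubfield_iff q).mp (pb.basis.repr η i).2
  choose z hz using hz
  refine ⟨fun i => z (Fin.cast hdim.symm i), ?_⟩
  rw [← hrepr]
  refine Fintype.sum_equiv (finCongr hdim) _ _ (fun i => ?_)
  rw [pb.coe_basis, hgen, Algebra.smul_def]
  simp only [finCongr_apply, Fin.cast_cast, Fin.cast_eq_self, Fin.val_cast]
  rw [hz]
  rfl

variable {q}

/-- the order of a nonzero term `b^q π^i` -/
theorem ord_term (v : Place k K) {π : K} (hπ : v.ord π = 1) {b : K} (hb : b ≠ 0) (i : ℕ) :
    v.ord (b ^ q * π ^ i) = (q : ℤ) * v.ord b + i := by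
  have hπ0 : π ≠ 0 := by
    rintro rfl
    simp at hπ
  rw [v.ord_mul (pow_ne_zero _ hb) (pow_ne_zero _ hπ0), ← zpow_natCast, ← zpow_natCast,
    v.ord_zpow, v.ord_zpow, hπ, mul_one]

/-- **every term of the decomposition is bounded by the sum** -/
theorem term_le (v : Place k K) {π : K} (hπ : v.ord π = 1) (b : Fin q → K) (i : Fin q) :
    v.adicValuation (b i ^ q * π ^ (i : ℕ)) ≤
      v.adicValuation (∑ i : Fin q, b i ^ q * π ^ (i : ℕ)) := by
  classical
  set T : Fin q → K := fun i => b i ^ q * π ^ (i : ℕ) with hT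
  have hπ0 : π ≠ 0 := by
    rintro rfl
    simp at hπ
  have hq0 : (0 : ℤ) < q := by exact_mod_cast hq.out.pos
  -- nonzero terms have different valuations
  have hdist : ∀ i j : Fin q, i ≠ j → T i ≠ 0 → T j ≠ 0 →
      v.adicValuation (T i) ≠ v.adicValuation (T j) := by
    intro i j hij hi hj heq
    have hbi : b i ≠ 0 := by
      intro h0
      apply hi
      simp only [hT, h0]
      rw [zero_pow hq.out.ne_zero, zero_mul]
    have hbj : b j ≠ 0 := by
      intro h0
      apply hj
      simp only [hT, h0]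
      rw [zero_pow hq.out.ne_zero, zero_mul]
    rw [Fermat.Agent.S24.Ord.adicValuation_eq v hi, Fermat.Agent.S24.Ord.adicValuation_eq v hj,
      WithZero.exp_inj, neg_inj] at heq
    simp only [hT] at heq
    rw [ord_term v hπ hbi, ord_term v hπ hbj] at heq
    apply hij
    apply Fin.ext
    have h1 : ((i : ℕ) : ℤ) % q = ((j : ℕ) : ℤ) % q := by
      have h2 : ((i : ℕ) : ℤ) = (j : ℕ) + (q : ℤ) * (v.ord (b j) - v.ord (b i)) := by linarith
      rw [h2, Int.add_mul_emod_self_left]
    rw [Int.emod_eq_of_lt (by positivity) (by exact_mod_cast i.2),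
      Int.emod_eq_of_lt (by positivity) (by exact_mod_cast j.2)] at h1
    exact_mod_cast h1
  -- a term of maximal valuation
  obtain ⟨j, -, hj⟩ := Finset.exists_max_image (Finset.univ : Finset (Fin q))
    (fun i => v.adicValuation (T i)) ⟨i, Finset.mem_univ i⟩
  rcases eq_or_ne (T j) 0 with hj0 | hj0
  · -- all terms vanish
    have hall : ∀ l : Fin q, T l = 0 := by
      intro l
      have := hj l (Finset.mem_univ l)
      rw [hj0, map_zero, le_zero_iff, map_eq_zero] at this
      exact this
    rw [show b i ^ q * π ^ (i : ℕ) = T i from rfl, hall i, map_zero]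
    exact zero_le
  · have hlt : ∀ l ∈ (Finset.univ : Finset (Fin q)) \ {j},
        v.adicValuation (T l) < v.adicValuation (T j) := by
      intro l hl
      rw [Finset.mem_sdiff, Finset.mem_singleton] at hl
      rcases eq_or_ne (T l) 0 with hl0 | hl0
      · rw [hl0, map_zero]
        exact zero_lt_iff.mpr ((map_ne_zero _).mpr hj0)
      · exact lt_of_le_of_ne (hj l (Finset.mem_univ l)) (hdist l j hl.2 hl0 hj0)
    have hsum := Valuation.map_sum_eq_of_lt v.adicValuation (Finset.mem_univ j) hlt
    rw [hsum]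
    exact hj i (Finset.mem_univ i)

/-- the derivative `dη/dπ` of `η = ∑ b_i^q π^i` -/
def der (π : K) (b : Fin q → K) : K :=
  ∑ i : Fin q, ((i : ℕ) : K) * (b i ^ q * π ^ ((i : ℕ) - 1))

theorem mul_der (π : K) (b : Fin q → K) :
    π * der π b = ∑ i : Fin q, ((i : ℕ) : K) * (b i ^ q * π ^ (i : ℕ)) := by
  rw [der, Finset.mul_sum]
  refine Finset.sum_congr rfl (fun i _ => ?_)
  rcases Nat.eq_zero_or_pos (i : ℕ) with h0 | hpos
  · simp [h0]
  · have : π ^ (i : ℕ) = π * π ^ ((i : ℕ) - 1) := by
      rw [← pow_succ', Nat.sub_add_cancel hpos]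
    rw [this]
    ring

theorem adicValuation_natCast_le_one (v : Place k K) (n : ℕ) :
    v.adicValuation ((n : ℕ) : K) ≤ 1 := by
  rw [← Fermat.Agent.S24.Ord.mem_iff]
  have : ((n : ℕ) : K) = algebraMap k K (n : k) := by simp
  rw [this]
  exact v.algebraMap_mem' _

/-- **`ord_v (π · dη/dπ) ≥ ord_v η`** -/
theorem mul_der_le (v : Place k K) {π : K} (hπ : v.ord π = 1) (b : Fin q → K) :
    v.adicValuation (π * der π b) ≤ v.adicValuation (∑ i : Fin q, b i ^ q * π ^ (i : ℕ)) := by
  rw [mul_der]
  refine Valuation.map_sum_le _ (fun i _ => ?_)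
  rw [map_mul]
  calc v.adicValuation ((i : ℕ) : K) * v.adicValuation (b i ^ q * π ^ (i : ℕ))
      ≤ 1 * v.adicValuation (b i ^ q * π ^ (i : ℕ)) := by
        gcongr
        exact adicValuation_natCast_le_one v _
    _ = v.adicValuation (b i ^ q * π ^ (i : ℕ)) := one_mul _
    _ ≤ _ := term_le v hπ b i

/-- **`η` regular at `v` ⟹ `dη/dπ` regular at `v`** -/
theorem der_le_one (v : Place k K) {π : K} (hπ : v.ord π = 1) (b : Fin q → K)
    (hη : v.adicValuation (∑ i : Fin q, b i ^ q * π ^ (i : ℕ)) ≤ 1) :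
    v.adicValuation (der π b) ≤ 1 := by
  have hπ0 : π ≠ 0 := by
    rintro rfl
    simp at hπ
  have hπ1 : v.adicValuation π ≤ 1 := by
    rw [← Fermat.Agent.S24.Ord.ord_nonneg_iff v hπ0, hπ]
    norm_num
  have hq0 : (0 : ℤ) < q := by exact_mod_cast hq.out.pos
  -- every coefficient `b i` is regular
  have hb : ∀ i : Fin q, v.adicValuation (b i) ≤ 1 := by
    intro i
    rcases eq_or_ne (b i) 0 with h0 | h0
    · rw [h0, map_zero]
      exact zero_le
    have hterm := (term_le v hπ b i).trans hη
    have hne : b i ^ q * π ^ (i : ℕ) ≠ 0 := mul_ne_zero (pow_ne_zero _ h0) (pow_ne_zero _ hπ0)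
    rw [← Fermat.Agent.S24.Ord.ord_nonneg_iff v hne, ord_term v hπ h0] at hterm
    rw [← Fermat.Agent.S24.Ord.ord_nonneg_iff v h0]
    by_contra hneg
    rw [not_le] at hneg
    have hi : ((i : ℕ) : ℤ) < q := by exact_mod_cast i.2
    nlinarith
  rw [der]
  refine Valuation.map_sum_le _ (fun i _ => ?_)
  rw [map_mul, map_mul, map_pow, map_pow]
  have h1 := adicValuation_natCast_le_one v (i : ℕ)
  have h2 : v.adicValuation (b i) ^ q ≤ 1 := pow_le_one₀ zero_le (hb i)
  have h3 : v.adicValuation π ^ ((i : ℕ) - 1) ≤ 1 := pow_le_one₀ zero_le hπ1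
  calc v.adicValuation ((i : ℕ) : K) * (v.adicValuation (b i) ^ q * v.adicValuation π ^ ((i : ℕ) - 1))
      ≤ 1 * (1 * 1) := by gcongr
    _ = 1 := by norm_num

end Abstract

/-! ### the link with `θ = t d/dt` -/

section Theta

variable {k K : Type*} [Field k] [Field K] (q : ℕ) [hq : Fact q.Prime] [CharP k q]

/-- `θ (ι η) = ι (dη/dπ) · θ (ι π)` for `η = ∑ b_i^q π^i` -/
theorem thetaL_eq_der_mul (ι : K →+* LaurentSeries k) (π : K) (b : Fin q → K) :
    thetaL (ι (∑ i : Fin q, b i ^ q * π ^ (i : ℕ))) = ι (der π b) * thetaL (ι π) := by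
  rw [map_sum, Fermat.Agent.S18.B.SeparableFk.thetaL_sum, der, map_sum, Finset.sum_mul]
  refine Finset.sum_congr rfl (fun i _ => ?_)
  have hnat : ι (((i : ℕ) : ℕ) : K) = C (((i : ℕ) : ℕ) : k) := by
    rw [map_natCast, Fermat.Agent.S18.B.SeparableFk.natCast_eq_C]
  rw [map_mul, map_pow, map_pow, thetaL_mul, Fermat.Agent.S18.B.SeparableFk.thetaL_pow_char q,
    zero_mul, zero_add, Fermat.Agent.S18.B.SeparableFk.thetaL_pow', map_mul, map_mul, map_pow,
    map_pow, hnat]
  ring

end Theta

/-! ### the series identity -/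

section Series

variable {R k : Type*} [CommRing R] [IsDomain R] [Field k]
variable (q : ℕ) [hq : Fact q.Prime] [CharP k q]

theorem coeffMap_qExpand_aux {S T : Type*} [CommRing S] [CommRing T] (f : S →+* T) (n : ℕ)
    [NeZero n] (x : LaurentSeries S) :
    coeffMap f (qExpand S n x) = qExpand T n (coeffMap f x) := by
  ext m
  by_cases hm : (n : ℤ) ∣ m
  · obtain ⟨l, rfl⟩ := hm
    rw [coeffMap_coeff, qExpand_coeff_mul, qExpand_coeff_mul, coeffMap_coeff]
  · rw [coeffMap_coeff, qExpand_coeff_of_not_dvd n _ hm, qExpand_coeff_of_not_dvd n _ hm,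
      map_zero]

/-- **the series identity**: `q η = φ(t^q) - φ'^q` with `red φ` the coefficientwise `q`-th power of
`ψ = red φ'` gives `θ (red η) = θ ψ · ((θ ψ)^(q-1) - ψ^(q-1))`. -/
theorem thetaL_eta (red : R →+* k) (hq0 : (q : R) ≠ 0) (φ φ' η : LaurentSeries R)
    (h : haveI : NeZero q := ⟨hq.out.ne_zero⟩
      C (q : R) * η = qExpand R q φ - φ' ^ q)
    (hF : coeffMap red φ = coeffMap (frobenius k q) (coeffMap red φ')) :
    thetaL (coeffMap red η) =
      thetaL (coeffMap red φ') *
        (thetaL (coeffMap red φ') ^ (q - 1) - coeffMap red φ' ^ (q - 1)) := by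
  haveI : NeZero q := ⟨hq.out.ne_zero⟩
  have hq1 : 1 ≤ q := hq.out.pos
  -- differentiate and cancel `q`
  have h1 : C (q : R) * thetaL η =
      C (q : R) * (qExpand R q (thetaL φ) - φ' ^ (q - 1) * thetaL φ') := by
    have := congrArg thetaL h
    rw [thetaL_C_mul, thetaL_sub, thetaL_qExpand] at this
    rw [this]
    have hpow : thetaL (φ' ^ q) = ((q : ℕ) : LaurentSeries R) * φ' ^ (q - 1) * thetaL φ' := by
      obtain ⟨n, hn⟩ : ∃ n, q = n + 1 := ⟨q - 1, by omega⟩
      rw [hn, thetaL_pow, Nat.add_sub_cancel]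
    rw [hpow]
    have hC : ((q : ℕ) : LaurentSeries R) = C (q : R) := by simp
    rw [hC]
    ring
  have hCq : (C (q : R) : LaurentSeries R) ≠ 0 :=
    (map_ne_zero_iff _ HahnSeries.C_injective).mpr hq0
  have h2 : thetaL η = qExpand R q (thetaL φ) - φ' ^ (q - 1) * thetaL φ' :=
    mul_left_cancel₀ hCq h1
  -- reduce
  have h3 := congrArg (coeffMap red) h2
  have hA : qExpand k q (thetaL (coeffMap (frobenius k q) (coeffMap red φ'))) =
      thetaL (coeffMap red φ') ^ q := by
    rw [← coeffMap_thetaL, ← Fermat.Agent.S37.ES.KummerPoly.pow_char_eq_qExpand q]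
  rw [coeffMap_thetaL, map_sub, map_mul, map_pow, coeffMap_thetaL, coeffMap_qExpand_aux,
    coeffMap_thetaL, hF, hA] at h3
  rw [h3]
  obtain ⟨n, hn⟩ : ∃ n, q = n + 1 := ⟨q - 1, by omega⟩
  rw [hn, Nat.add_sub_cancel]
  ring

/-- **existence of `η`** over a ring where the kernel of the reduction is `(q)` -/
theorem exists_eta (red : R →+* k) (hker : ∀ r : R, red r = 0 → ∃ s : R, r = (q : R) * s)
    (hq0 : (q : R) ≠ 0) (φ φ' : LaurentSeries R)
    (hF : coeffMap red φ = coeffMap (frobenius k q) (coeffMap red φ')) :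
    haveI : NeZero q := ⟨hq.out.ne_zero⟩
    ∃ η : LaurentSeries R, C (q : R) * η = qExpand R q φ - φ' ^ q := by
  haveI : NeZero q := ⟨hq.out.ne_zero⟩
  set ξ : LaurentSeries R := qExpand R q φ - φ' ^ q with hξ
  have hred : coeffMap red ξ = 0 := by
    rw [hξ, map_sub, map_pow, coeffMap_qExpand_aux, hF,
      ← Fermat.Agent.S37.ES.KummerPoly.pow_char_eq_qExpand q, sub_self]
  have hcoef : ∀ n : ℤ, ∃ s : R, ξ.coeff n = (q : R) * s := by
    intro n
    apply hker
    have := congrArg (fun f : LaurentSeries k => f.coeff n) hred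
    simpa [coeffMap_coeff] using this
  choose s hs using hcoef
  have hsupp : (Function.support s) ⊆ ξ.support := by
    intro n hn
    rw [Function.mem_support] at hn
    rw [HahnSeries.mem_support, hs n]
    exact mul_ne_zero hq0 hn
  refine ⟨⟨s, ξ.isPWO_support.mono hsupp⟩, ?_⟩
  ext n
  rw [HahnSeries.C_mul_eq_smul, HahnSeries.coeff_smul, smul_eq_mul]
  exact (hs n).symm

end Series

/-! ### the bound on `κ = F_k(N)` -/

section Kappa

open Fermat.Agent.S34.FrobK

variable (k : Type*) [Field k] (N : ℕ) [NeZero N]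
variable (q : ℕ) [hq : Fact q.Prime] [CharP k q] [PerfectField k]

/-- elements of `κ` with `θ ≠ 0` are not `q`-th powers -/
theorem not_mem_powSubfield_of_thetaL_ne_zero {ψ : ↥(modularFunctionFieldFullC k N)}
    (hθ : thetaL (ψ : LaurentSeries k) ≠ 0) :
    haveI := charP_kappa k N q
    ψ ∉ powSubfield (K := ↥(modularFunctionFieldFullC k N)) q := by
  haveI := charP_kappa k N q
  intro hmem
  obtain ⟨z, hz⟩ := (mem_powSubfield_iff q).mp hmem
  apply hθ
  rw [← hz]
  exact Fermat.Agent.S18.B.SeparableFk.thetaL_pow_char q (z : LaurentSeries k)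

/-- **the one-sided bounds of the count at level `q`.**  If `θ η̄ = θ ψ · ((θ ψ)^(q-1) - ψ^(q-1))` as
Laurent series (`thetaL_eta`) and `θ ψ ≠ 0`, then `(θ ψ)^(q-1)` is an element `T` of `κ`, regular at
every place where `η̄` is regular and `ψ - c` is a local parameter; in general
`ord_v ((ψ - c)(T - ψ^(q-1))) ≥ ord_v η̄`. -/
theorem exists_T (ψ η : ↥(modularFunctionFieldFullC k N))
    (hθ : thetaL (ψ : LaurentSeries k) ≠ 0)
    (hser : thetaL (η : LaurentSeries k) =
      thetaL (ψ : LaurentSeries k) *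
        (thetaL (ψ : LaurentSeries k) ^ (q - 1) - (ψ : LaurentSeries k) ^ (q - 1))) :
    ∃ T : ↥(modularFunctionFieldFullC k N),
      (T : LaurentSeries k) = thetaL (ψ : LaurentSeries k) ^ (q - 1) ∧
      ∀ (v : Place k ↥(modularFunctionFieldFullC k N)) (c : k),
        v.ord (ψ - algebraMap k _ c) = 1 →
          (v.adicValuation η ≤ 1 → v.adicValuation T ≤ 1) ∧
          v.adicValuation ((ψ - algebraMap k _ c) * (T - ψ ^ (q - 1))) ≤ v.adicValuation η := by
  haveI := charP_kappa k N q
  have hfin := finrank_powSubfield_kappa k N q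
  set ι : ↥(modularFunctionFieldFullC k N) →+* LaurentSeries k :=
    (modularFunctionFieldFullC k N).val.toRingHom with hι
  have hιinj : Function.Injective ι := fun a b h => Subtype.ext h
  have hιapp : ∀ g : ↥(modularFunctionFieldFullC k N), ι g = (g : LaurentSeries k) := fun _ => rfl
  -- the derivative with respect to `ψ - c` does not depend on `c`
  have key : ∀ c : k, ∀ b : Fin q → ↥(modularFunctionFieldFullC k N),
      η = ∑ i : Fin q, b i ^ q * (ψ - algebraMap k _ c) ^ (i : ℕ) →
      (ι (der (ψ - algebraMap k _ c) b) : LaurentSeries k) =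
        thetaL (ψ : LaurentSeries k) ^ (q - 1) - (ψ : LaurentSeries k) ^ (q - 1) := by
    intro c b hb
    have h1 := thetaL_eq_der_mul q ι (ψ - algebraMap k _ c) b
    rw [← hb, hιapp η, hser] at h1
    have h2 : thetaL (ι (ψ - algebraMap k _ c)) = thetaL (ψ : LaurentSeries k) := by
      rw [map_sub, thetaL_sub, hιapp ψ]
      have : ι (algebraMap k _ c) = algebraMap k (LaurentSeries k) c := rfl
      rw [this, Fermat.Agent.S28.ThetaAdjoin.thetaL_algebraMap, sub_zero]
    rw [h2, mul_comm] at h1
    exact (mul_right_cancel₀ hθ h1).symm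
  have hnot : ∀ c : k, (ψ - algebraMap k _ c) ∉
      powSubfield (K := ↥(modularFunctionFieldFullC k N)) q := by
    intro c
    apply not_mem_powSubfield_of_thetaL_ne_zero k N q
    have : ((ψ - algebraMap k _ c : ↥(modularFunctionFieldFullC k N)) : LaurentSeries k) =
        (ψ : LaurentSeries k) - algebraMap k (LaurentSeries k) c := rfl
    rw [this, thetaL_sub, Fermat.Agent.S28.ThetaAdjoin.thetaL_algebraMap, sub_zero]
    exact hθ
  -- definition of `T` with `c = 0`
  obtain ⟨b₀, hb₀⟩ := exists_decomp q hfin (hnot 0) η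
  refine ⟨der (ψ - algebraMap k _ 0) b₀ + ψ ^ (q - 1), ?_, ?_⟩
  · have := key 0 b₀ hb₀
    rw [hιapp] at this
    show ((der (ψ - algebraMap k _ 0) b₀ : ↥(modularFunctionFieldFullC k N)) : LaurentSeries k) +
      (ψ : LaurentSeries k) ^ (q - 1) = _
    rw [this, sub_add_cancel]
  · intro v c hv
    obtain ⟨b, hb⟩ := exists_decomp q hfin (hnot c) η
    have hder : der (ψ - algebraMap k _ 0) b₀ = der (ψ - algebraMap k _ c) b := by
      apply hιinj
      rw [key 0 b₀ hb₀, key c b hb]
    rw [hder, add_sub_cancel_right]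
    constructor
    · intro hη
      have h1 : v.adicValuation (der (ψ - algebraMap k _ c) b) ≤ 1 := by
        apply der_le_one v hv b
        rw [← hb]
        exact hη
      have hψ : v.adicValuation ψ ≤ 1 := by
        have hne : ψ - algebraMap k _ c ≠ 0 := by
          intro h0
          rw [h0] at hv
          simp at hv
        have h2 : v.adicValuation (ψ - algebraMap k _ c) ≤ 1 := by
          rw [← Fermat.Agent.S24.Ord.ord_nonneg_iff v hne, hv]
          norm_num
        have h3 : v.adicValuation (algebraMap k ↥(modularFunctionFieldFullC k N) c) ≤ 1 :=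
          (Fermat.Agent.S24.Ord.mem_iff v _).mp (v.algebraMap_mem' c)
        have := Valuation.map_add_le v.adicValuation h2 h3
        rwa [sub_add_cancel] at this
      refine Valuation.map_add_le _ h1 ?_
      rw [map_pow]
      exact pow_le_one₀ zero_le hψ
    · have := mul_der_le v hv b
      rw [← hb] at this
      exact this

end Kappa

end Fermat.Agent.S36.ThinSubNodeDer
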