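/-
S36 (project V), chain (V4), **the `X₀` instance of `ThreeValX0.Hyp`** over the inertia field
`K₀ = ℚ̄^I`, `I = A.inertiaSubgroupIn ℚ`, `A` a valuation subring of `ℚ̄` over `q ∤ M`:

* `O₀ := GaussK0Comap.Og0 M` (helper11), `red₀ := red0z` onto `κ = F_k(M)`, `k = ResidueField A`;
* `V₁ := ThetaK0.V1K`, `V₂ := ThetaK0.V2K` (helper13; `= GaussPairX0.V₁ V₂` restricted along
  `tB : F_{K₀}(M q) → ℚ̄(X₀(M q))`), `red₁ := red1K`, `red₂ := red2K`;
* `φ := S34/FrobK.phi` (the `k`-linear Frobenius pull-back `g(t) ↦ g(t^q)`);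
* `Φ :=` the Kronecker polynomial of `S34/Kronecker`; `u₁ u₂` from `ThetaK0.exists_alpha1 / _beta2`.

Everything in `Hyp` is PROVED here from what is on main (`GaussK0Comap`, `S34/GaussPairX0`,
`ThetaK0`, `S34/FrobK`, `S34/Kronecker`) EXCEPT the four discreteness / uniqueness facts of the level
`q` slice (V2) (`LevelQK0`, helper16), which are collected in the `Prop`-structure `LQ`:
`V1K`, `V2K` are PIDs with uniformizer `q`, and they are the only valuation subrings of `F_{K₀}(M q)`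
over `Og0` along `α₀`, and along `β₀`.

OUTPUT: `hyp (L : LQ hA hqM) : ThreeValX0.Hyp I M q κ`, and the identifications
`hyp_V₁ … hyp_φ` (all `rfl`) which the consumers (`GlueThreeVal.datum`, `UnitGen`, `BranchX0`,
`ModelVert`) need.
-/
import Mathlib
import Fermat.Agent.S36.ThreeValX0
import Fermat.Agent.S36.ThetaK0
import Fermat.Agent.S36.GaussK0Comap
import Fermat.Agent.S34.FrobK
import Fermat.Agent.S34.Kronecker

set_option autoImplicit false
set_option linter.unusedSectionVars false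
set_option linter.style.haveILetI false

noncomputable section

namespace Fermat.Agent.S36.ThreeValX0Fill

open Polynomial IsLocalRing ModularCurve AlgebraicCurve
open Fermat.Agent.S18.B.FkBasics (jk)
open Fermat.Agent.S28.ModPoly
open Fermat.Agent.S34.GaussPairX0
open Fermat.Agent.S37.Gauss.Datum
open Fermat.Agent.S36.PowerBasisK0 Fermat.Agent.S36.MinpolyK0
open Fermat.Agent.S36.ThetaK0 Fermat.Agent.S36.GaussK0Comap
open Fermat.Agent.S36.ThreeVal Fermat.Agent.S36.ThreeValX0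

local notation "Kb" => AlgebraicClosure ℚ

set_option synthInstance.maxHeartbeats 400000
set_option maxHeartbeats 1000000

variable {q : ℕ} [hq : Fact q.Prime] {M : ℕ} [NeZero M] {A : ValuationSubring Kb}
variable (hA : A.LiesOverPrime q) (hqM : ¬ q ∣ M) [NeZero q]

/-! ### the four comaps -/

theorem comap_α_V1K :
    (V1K (A.inertiaSubgroupIn ℚ) hA hqM).comap (alphaK (A.inertiaSubgroupIn ℚ) M q) =
      Og0 M hA hqM := by
  ext x
  rw [ValuationSubring.mem_comap, ValuationSubring.mem_comap, tB_alphaK, alpha_mem_V₁_iff]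
  rfl

theorem comap_β_V1K :
    (V1K (A.inertiaSubgroupIn ℚ) hA hqM).comap (betaK (A.inertiaSubgroupIn ℚ) M q) =
      Og0 M hA hqM := by
  ext x
  rw [ValuationSubring.mem_comap, ValuationSubring.mem_comap, tB_betaK, beta_mem_V₁_iff]
  rfl

theorem comap_α_V2K :
    (V2K (A.inertiaSubgroupIn ℚ) hA hqM).comap (alphaK (A.inertiaSubgroupIn ℚ) M q) =
      Og0 M hA hqM := by
  ext x
  rw [ValuationSubring.mem_comap, ValuationSubring.mem_comap, tB_alphaK, alpha_mem_V₂_iff]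
  rfl

theorem comap_β_V2K :
    (V2K (A.inertiaSubgroupIn ℚ) hA hqM).comap (betaK (A.inertiaSubgroupIn ℚ) M q) =
      Og0 M hA hqM := by
  ext x
  rw [ValuationSubring.mem_comap, ValuationSubring.mem_comap, tB_betaK, beta_mem_V₂_iff]
  rfl

/-! ### the level-`q` normalisation (D5) -/

/-- the residue function field `κ = F_k(M)` -/
abbrev Kap (A : ValuationSubring Kb) (M : ℕ) [NeZero M] : Type :=
  ↥(modularFunctionFieldFullC (ResidueField ↥A) M)

theorem perfect_res (A : ValuationSubring Kb) : PerfectField (ResidueField ↥A) :=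
  haveI := Fermat.Agent.S18.ResidueBasics.isAlgClosed_residueField A
  inferInstance

/-- the Frobenius pull-back `g(t) ↦ g(t^q)` on `κ` -/
def phiK : Kap A M →+* Kap A M :=
  haveI := charP_res hA
  haveI := perfect_res A
  ((Fermat.Agent.S34.FrobK.phi (ResidueField ↥A) M q :
    Kap A M →ₐ[ResidueField ↥A] Kap A M) : Kap A M →+* Kap A M)

theorem coe_phiK (g : Kap A M) :
    ((phiK hA g : Kap A M) : LaurentSeries (ResidueField ↥A)) =
      qExpand (ResidueField ↥A) q (g : LaurentSeries (ResidueField ↥A)) := rfl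

theorem phiK_surj_pow (z : Kap A M) : ∃ c : Kap A M, phiK hA c = z ^ q := by
  haveI := charP_res hA
  haveI := perfect_res A
  refine ⟨(Fermat.Agent.S34.FrobK.psi (ResidueField ↥A) M q).symm z, ?_⟩
  show Fermat.Agent.S34.FrobK.phi (ResidueField ↥A) M q _ = _
  rw [Fermat.Agent.S34.FrobK.phi_eq_pow, RingEquiv.apply_symm_apply]

theorem phiK_jk : phiK hA (jk (ResidueField ↥A) M) = jk (ResidueField ↥A) M ^ q := by
  haveI := charP_res hA
  haveI := perfect_res A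
  exact Fermat.Agent.S34.FrobK.phi_jk (ResidueField ↥A) M q

theorem red1K_α₀ (c : ↥(Og0 M hA hqM))
    (h : alphaK (A.inertiaSubgroupIn ℚ) M q (c : FK (A.inertiaSubgroupIn ℚ) M) ∈
      V1K (A.inertiaSubgroupIn ℚ) hA hqM) :
    red1K (A.inertiaSubgroupIn ℚ) hA hqM ⟨_, h⟩ = red0z M hA hqM c := by
  have e : (⟨tB (A.inertiaSubgroupIn ℚ) (M * q)
        (alphaK (A.inertiaSubgroupIn ℚ) M q (c : FK (A.inertiaSubgroupIn ℚ) M)),
        ValuationSubring.mem_comap.mp h⟩ : ↥(V₁ hA hqM)) =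
      ⟨heckeAlphaBar Kb M q (toO M hA hqM c : ↥(modularFunctionFieldBar M)),
        (alpha_mem_V₁_iff hA hqM _).mpr (toO M hA hqM c).2⟩ :=
    Subtype.ext (tB_alphaK (A.inertiaSubgroupIn ℚ) M q _)
  exact (congrArg (red₁ hA hqM) e).trans (red₁_alpha hA hqM (toO M hA hqM c))

theorem red1K_β₀ (c : ↥(Og0 M hA hqM))
    (h : betaK (A.inertiaSubgroupIn ℚ) M q (c : FK (A.inertiaSubgroupIn ℚ) M) ∈
      V1K (A.inertiaSubgroupIn ℚ) hA hqM) :
    red1K (A.inertiaSubgroupIn ℚ) hA hqM ⟨_, h⟩ = phiK hA (red0z M hA hqM c) := by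
  have e : (⟨tB (A.inertiaSubgroupIn ℚ) (M * q)
        (betaK (A.inertiaSubgroupIn ℚ) M q (c : FK (A.inertiaSubgroupIn ℚ) M)),
        ValuationSubring.mem_comap.mp h⟩ : ↥(V₁ hA hqM)) =
      ⟨heckeBetaBar Kb M q (toO M hA hqM c : ↥(modularFunctionFieldBar M)),
        beta_mem_V₁ hA hqM (toO M hA hqM c).2⟩ :=
    Subtype.ext (tB_betaK (A.inertiaSubgroupIn ℚ) M q _)
  apply Subtype.ext
  exact (congrArg (fun z => ((red₁ hA hqM z : Kap A M) : LaurentSeries (ResidueField ↥A))) e).trans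
    (coe_red₁_beta hA hqM (toO M hA hqM c))

theorem red2K_β₀ (c : ↥(Og0 M hA hqM))
    (h : betaK (A.inertiaSubgroupIn ℚ) M q (c : FK (A.inertiaSubgroupIn ℚ) M) ∈
      V2K (A.inertiaSubgroupIn ℚ) hA hqM) :
    red2K (A.inertiaSubgroupIn ℚ) hA hqM ⟨_, h⟩ = red0z M hA hqM c := by
  have e : (⟨tB (A.inertiaSubgroupIn ℚ) (M * q)
        (betaK (A.inertiaSubgroupIn ℚ) M q (c : FK (A.inertiaSubgroupIn ℚ) M)),
        ValuationSubring.mem_comap.mp h⟩ : ↥(V₂ hA hqM)) =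
      ⟨heckeBetaBar Kb M q (toO M hA hqM c : ↥(modularFunctionFieldBar M)),
        (beta_mem_V₂_iff hA hqM _).mpr (toO M hA hqM c).2⟩ :=
    Subtype.ext (tB_betaK (A.inertiaSubgroupIn ℚ) M q _)
  exact (congrArg (red₂ hA hqM) e).trans (red₂_beta hA hqM (toO M hA hqM c))

theorem red2K_α₀ (c : ↥(Og0 M hA hqM))
    (h : alphaK (A.inertiaSubgroupIn ℚ) M q (c : FK (A.inertiaSubgroupIn ℚ) M) ∈
      V2K (A.inertiaSubgroupIn ℚ) hA hqM) :
    red2K (A.inertiaSubgroupIn ℚ) hA hqM ⟨_, h⟩ = phiK hA (red0z M hA hqM c) := by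
  have e : (⟨tB (A.inertiaSubgroupIn ℚ) (M * q)
        (alphaK (A.inertiaSubgroupIn ℚ) M q (c : FK (A.inertiaSubgroupIn ℚ) M)),
        ValuationSubring.mem_comap.mp h⟩ : ↥(V₂ hA hqM)) =
      ⟨heckeAlphaBar Kb M q (toO M hA hqM c : ↥(modularFunctionFieldBar M)),
        (alpha_mem_V₂_iff hA hqM _).mpr (toO M hA hqM c).2⟩ :=
    Subtype.ext (tB_alphaK (A.inertiaSubgroupIn ℚ) M q _)
  apply Subtype.ext
  exact (congrArg (fun z => ((red₂ hA hqM z : Kap A M) : LaurentSeries (ResidueField ↥A))) e).trans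
    (coe_red₂_alpha hA hqM (toO M hA hqM c))

/-! ### kernels and residue degree one -/

theorem red1K_eq_zero_iff (x : ↥(V1K (A.inertiaSubgroupIn ℚ) hA hqM)) :
    red1K (A.inertiaSubgroupIn ℚ) hA hqM x = 0 ↔
      (x : FK (A.inertiaSubgroupIn ℚ) (M * q)) ∈ (V1K (A.inertiaSubgroupIn ℚ) hA hqM).nonunits := by
  rw [mem_nonunits_comap_iff]
  exact red₁_eq_zero_iff_mem_nonunits hA hqM
    ⟨tB (A.inertiaSubgroupIn ℚ) (M * q) x.1, ValuationSubring.mem_comap.mp x.2⟩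

theorem red2K_eq_zero_iff (x : ↥(V2K (A.inertiaSubgroupIn ℚ) hA hqM)) :
    red2K (A.inertiaSubgroupIn ℚ) hA hqM x = 0 ↔
      (x : FK (A.inertiaSubgroupIn ℚ) (M * q)) ∈ (V2K (A.inertiaSubgroupIn ℚ) hA hqM).nonunits := by
  rw [mem_nonunits_comap_iff]
  exact red₂_eq_zero_iff_mem_nonunits hA hqM
    ⟨tB (A.inertiaSubgroupIn ℚ) (M * q) x.1, ValuationSubring.mem_comap.mp x.2⟩

theorem deg_one₁ (x : FK (A.inertiaSubgroupIn ℚ) (M * q))
    (hx : x ∈ V1K (A.inertiaSubgroupIn ℚ) hA hqM) :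
    ∃ c : ↥(Og0 M hA hqM),
      x - alphaK (A.inertiaSubgroupIn ℚ) M q (c : FK (A.inertiaSubgroupIn ℚ) M) ∈
        (V1K (A.inertiaSubgroupIn ℚ) hA hqM).nonunits := by
  obtain ⟨c, hc⟩ := red0z_surjective M hA hqM (red1K (A.inertiaSubgroupIn ℚ) hA hqM ⟨x, hx⟩)
  refine ⟨c, ?_⟩
  have hm : alphaK (A.inertiaSubgroupIn ℚ) M q (c : FK (A.inertiaSubgroupIn ℚ) M) ∈
      V1K (A.inertiaSubgroupIn ℚ) hA hqM := by
    rw [← ValuationSubring.mem_comap, comap_α_V1K]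
    exact c.2
  have h0 : red1K (A.inertiaSubgroupIn ℚ) hA hqM
      (⟨x, hx⟩ - ⟨alphaK (A.inertiaSubgroupIn ℚ) M q (c : FK (A.inertiaSubgroupIn ℚ) M), hm⟩) = 0 := by
    rw [map_sub, red1K_α₀ hA hqM c hm, hc, sub_self]
  exact (red1K_eq_zero_iff hA hqM _).mp h0

theorem deg_one₂ (x : FK (A.inertiaSubgroupIn ℚ) (M * q))
    (hx : x ∈ V2K (A.inertiaSubgroupIn ℚ) hA hqM) :
    ∃ c : ↥(Og0 M hA hqM),
      x - betaK (A.inertiaSubgroupIn ℚ) M q (c : FK (A.inertiaSubgroupIn ℚ) M) ∈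
        (V2K (A.inertiaSubgroupIn ℚ) hA hqM).nonunits := by
  obtain ⟨c, hc⟩ := red0z_surjective M hA hqM (red2K (A.inertiaSubgroupIn ℚ) hA hqM ⟨x, hx⟩)
  refine ⟨c, ?_⟩
  have hm : betaK (A.inertiaSubgroupIn ℚ) M q (c : FK (A.inertiaSubgroupIn ℚ) M) ∈
      V2K (A.inertiaSubgroupIn ℚ) hA hqM := by
    rw [← ValuationSubring.mem_comap, comap_β_V2K]
    exact c.2
  have h0 : red2K (A.inertiaSubgroupIn ℚ) hA hqM
      (⟨x, hx⟩ - ⟨betaK (A.inertiaSubgroupIn ℚ) M q (c : FK (A.inertiaSubgroupIn ℚ) M), hm⟩) = 0 := by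
    rw [map_sub, red2K_β₀ hA hqM c hm, hc, sub_self]
  exact (red2K_eq_zero_iff hA hqM _).mp h0

/-! ### the Kronecker polynomial and the second-order units -/

/-- the Kronecker polynomial `Φ_q ∈ ℤ[j][Y]` of `S34/Kronecker` -/
def PhiKr (q : ℕ) [hq : Fact q.Prime] : Polynomial (Polynomial ℤ) :=
  (Fermat.Agent.S34.Kronecker.kronecker q).choose

theorem PhiKr_monic (q : ℕ) [hq : Fact q.Prime] : (PhiKr q).Monic :=
  (Fermat.Agent.S34.Kronecker.kronecker q).choose_spec.1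

theorem PhiKr_natDegree (q : ℕ) [hq : Fact q.Prime] : (PhiKr q).natDegree = q + 1 :=
  (Fermat.Agent.S34.Kronecker.kronecker q).choose_spec.2.1

theorem PhiKr_map (q : ℕ) [hq : Fact q.Prime] [NeZero q] :
    (PhiKr q).map (evalL ℤ (jqModC ℤ)) = rPoly q ℤ :=
  (Fermat.Agent.S34.Kronecker.kronecker q).choose_spec.2.2.1

theorem PhiKr_char (q : ℕ) [hq : Fact q.Prime] (k : Type) [Field k] [CharP k q] :
    (PhiKr q).map (Polynomial.mapRingHom (Int.castRingHom k)) =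
      (X - C (X ^ q)) * (X ^ q - C X) :=
  (Fermat.Agent.S34.Kronecker.kronecker q).choose_spec.2.2.2 k

theorem exists_u₁ : ∃ u : ↥(V1K (A.inertiaSubgroupIn ℚ) hA hqM), IsUnit u ∧
    (gAlphaK (A.inertiaSubgroupIn ℚ) M q (PhiKr q)).eval (j0K (A.inertiaSubgroupIn ℚ) (M * q)) =
      (q : FK (A.inertiaSubgroupIn ℚ) (M * q)) * (u : FK (A.inertiaSubgroupIn ℚ) (M * q)) := by
  obtain ⟨G, u, hG1, -, hev, hu, -⟩ :=
    exists_alpha1 (A.inertiaSubgroupIn ℚ) hA hqM (PhiKr_map q) (fun k _ _ => PhiKr_char q k)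
  refine ⟨u, hu, ?_⟩
  have h1 : ((G.eval (x1K (A.inertiaSubgroupIn ℚ) hA hqM) :
      ↥(V1K (A.inertiaSubgroupIn ℚ) hA hqM)) : FK (A.inertiaSubgroupIn ℚ) (M * q)) =
      (G.map (V1K (A.inertiaSubgroupIn ℚ) hA hqM).subtype).eval
        (j0K (A.inertiaSubgroupIn ℚ) (M * q)) :=
    (Polynomial.eval_map_apply (p := G) (V1K (A.inertiaSubgroupIn ℚ) hA hqM).subtype
      (x1K (A.inertiaSubgroupIn ℚ) hA hqM)).symm
  rw [← hG1, ← h1, hev]
  push_cast
  rfl

theorem exists_u₂ : ∃ u : ↥(V2K (A.inertiaSubgroupIn ℚ) hA hqM), IsUnit u ∧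
    (gBetaK (A.inertiaSubgroupIn ℚ) M q (PhiKr q)).eval (j1K (A.inertiaSubgroupIn ℚ) M q) =
      (q : FK (A.inertiaSubgroupIn ℚ) (M * q)) * (u : FK (A.inertiaSubgroupIn ℚ) (M * q)) := by
  obtain ⟨G, u, hG1, -, hev, hu, -⟩ :=
    exists_beta2 (A.inertiaSubgroupIn ℚ) hA hqM (PhiKr_map q) (fun k _ _ => PhiKr_char q k)
  refine ⟨u, hu, ?_⟩
  have h1 : ((G.eval (y2K (A.inertiaSubgroupIn ℚ) hA hqM) :
      ↥(V2K (A.inertiaSubgroupIn ℚ) hA hqM)) : FK (A.inertiaSubgroupIn ℚ) (M * q)) =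
      (G.map (V2K (A.inertiaSubgroupIn ℚ) hA hqM).subtype).eval
        (j1K (A.inertiaSubgroupIn ℚ) M q) :=
    (Polynomial.eval_map_apply (p := G) (V2K (A.inertiaSubgroupIn ℚ) hA hqM).subtype
      (y2K (A.inertiaSubgroupIn ℚ) hA hqM)).symm
  rw [← hG1, ← h1, hev]
  push_cast
  rfl

/-! ### what the level-`q` slice (V2) provides, and the instance of `Hyp` -/

/-- **the discreteness / uniqueness facts of the level-`q` slice (V2)** (`LevelQK0`): `V1K`, `V2K` are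
PIDs with uniformizer `q`, and they are the only valuation subrings of `F_{K₀}(M q)` over `Og0` along
`α₀`, and along `β₀`. -/
structure LQ : Prop where
  pid₁ : IsPrincipalIdealRing ↥(V1K (A.inertiaSubgroupIn ℚ) hA hqM)
  pid₂ : IsPrincipalIdealRing ↥(V2K (A.inertiaSubgroupIn ℚ) hA hqM)
  hϖ₁ : maximalIdeal ↥(V1K (A.inertiaSubgroupIn ℚ) hA hqM) =
    Ideal.span {(q : ↥(V1K (A.inertiaSubgroupIn ℚ) hA hqM))}
  hϖ₂ : maximalIdeal ↥(V2K (A.inertiaSubgroupIn ℚ) hA hqM) =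
    Ideal.span {(q : ↥(V2K (A.inertiaSubgroupIn ℚ) hA hqM))}
  only_α : ∀ V : ValuationSubring (FK (A.inertiaSubgroupIn ℚ) (M * q)),
    V.comap (alphaK (A.inertiaSubgroupIn ℚ) M q) = Og0 M hA hqM →
      V = V1K (A.inertiaSubgroupIn ℚ) hA hqM ∨ V = V2K (A.inertiaSubgroupIn ℚ) hA hqM
  only_β : ∀ V : ValuationSubring (FK (A.inertiaSubgroupIn ℚ) (M * q)),
    V.comap (betaK (A.inertiaSubgroupIn ℚ) M q) = Og0 M hA hqM →
      V = V1K (A.inertiaSubgroupIn ℚ) hA hqM ∨ V = V2K (A.inertiaSubgroupIn ℚ) hA hqM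

variable {hA hqM}

/-- **the `X₀` instance of `ThreeValX0.Hyp`** over the inertia field -/
def hyp [NeZero (M * q)] [NeZero (M * q * q)] (L : LQ hA hqM) :
    Hyp (A.inertiaSubgroupIn ℚ) M q (Kap A M) where
  prime := hq.out
  hqN0 := hqM
  O₀ := Og0 M hA hqM
  V₁ := V1K (A.inertiaSubgroupIn ℚ) hA hqM
  V₂ := V2K (A.inertiaSubgroupIn ℚ) hA hqM
  pid₁ := L.pid₁
  pid₂ := L.pid₂
  hϖ₁ := L.hϖ₁
  hϖ₂ := L.hϖ₂
  charκ := Fermat.Agent.S36.ThetaX0.charP_fullC hA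
  red₀ := red0z M hA hqM
  red₁ := red1K (A.inertiaSubgroupIn ℚ) hA hqM
  red₂ := red2K (A.inertiaSubgroupIn ℚ) hA hqM
  φ := phiK hA
  hφ := phiK_surj_pow hA
  surj₀ := red0z_surjective M hA hqM
  comap₁α := comap_α_V1K hA hqM
  comap₁β := comap_β_V1K hA hqM
  comap₂α := comap_α_V2K hA hqM
  comap₂β := comap_β_V2K hA hqM
  only_α := L.only_α
  only_β := L.only_β
  deg₁ := deg_one₁ hA hqM
  deg₂ := deg_one₂ hA hqM
  red₁_α₀ := red1K_α₀ hA hqM
  red₁_β₀ := red1K_β₀ hA hqM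
  red₂_β₀ := red2K_β₀ hA hqM
  red₂_α₀ := red2K_α₀ hA hqM
  hj := j0K_mem_Og0 M hA hqM
  hφJ := by
    rw [red0z_j0K]
    exact phiK_jk hA
  hJ := by
    rw [red0z_j0K]
    exact jk_ne_pow_sq hA
  hJq := fun b => by
    haveI := charP_res hA
    rw [red0z_j0K]
    exact Fermat.Agent.S36.ThetaX0.jk_ne_pow (ResidueField ↥A) M b
  Φ := PhiKr q
  hmonic := PhiKr_monic q
  hdeg := PhiKr_natDegree q
  hΦ := PhiKr_map q
  hchar := by
    haveI := Fermat.Agent.S36.ThetaX0.charP_fullC (M := M) hA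
    exact PhiKr_char q (Kap A M)
  u₁ := (exists_u₁ hA hqM).choose
  u₂ := (exists_u₂ hA hqM).choose
  unit₁ := (exists_u₁ hA hqM).choose_spec.1
  unit₂ := (exists_u₂ hA hqM).choose_spec.1
  eval₁ := (exists_u₁ hA hqM).choose_spec.2
  eval₂ := (exists_u₂ hA hqM).choose_spec.2

section Ident

variable [NeZero (M * q)] [NeZero (M * q * q)] (L : LQ hA hqM)

theorem hyp_O₀ : (hyp L).O₀ = Og0 M hA hqM := rfl

theorem hyp_V₁ : (hyp L).V₁ = V1K (A.inertiaSubgroupIn ℚ) hA hqM := rfl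

theorem hyp_V₂ : (hyp L).V₂ = V2K (A.inertiaSubgroupIn ℚ) hA hqM := rfl

theorem hyp_red₀ : (hyp L).red₀ = red0z M hA hqM := rfl

theorem hyp_red₁ : (hyp L).red₁ = red1K (A.inertiaSubgroupIn ℚ) hA hqM := rfl

theorem hyp_red₂ : (hyp L).red₂ = red2K (A.inertiaSubgroupIn ℚ) hA hqM := rfl

theorem hyp_φ : (hyp L).φ = phiK hA := rfl

theorem hyp_J : (hyp L).J = jk (ResidueField ↥A) M := red0z_j0K M hA hqM

theorem hyp_reds_red₁ : (hyp L).reds.red₁ = red1K (A.inertiaSubgroupIn ℚ) hA hqM := rfl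

theorem hyp_reds_red₂ : (hyp L).reds.red₂ = red2K (A.inertiaSubgroupIn ℚ) hA hqM := rfl

theorem hyp_reds_φ : (hyp L).reds.φ = phiK hA := rfl

theorem hyp_setup_q : (hyp L).setup.q = q := rfl

end Ident

end Fermat.Agent.S36.ThreeValX0Fill
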