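/-
PROJECT V (S36), chain (V12)(iii), slice V-TripleChartX0 (helper22): **the level-`N0` chart ring at
`X₀` and its reduction** (the inputs `ρ0`, `hm0`, `hloc`, `hker`, `hq0`, `s` of
`S36/TripleLocal.eisensteinFibre_localization'` / `S36/TripleAssembly.locPrincipal_of_chart` /
`S36/TripleFinal.PointHyp`).

`A | q` a valuation subring of `ℚ̄`, `q ∤ N0`, `I` its inertia group, `K₀ = ℚ̄^I`, `W A = A ∩ K₀`,
`A₀ = chartX0 A N0 j` the integral closure of `(W A)[j]` in `F_K₀(N0)` (`ChartMapsX0.Afin0`),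
`Og0`, `red0z` the Gauss valuation ring and its reduction (`S36/GaussK0Comap`), `k = κ(A)`,
`κ = F_k(N0)`, `J = jk k N0`.

* `algebraMap_W_mem_Og0`, `red0z_algebraMap_W`, `mem_Og0_of_mem_chart` : `A₀ ⊆ Og0`;
* `rho0 : A₀ →+* chart k J` (`CompNormal.rho` at level `N0`), `coe_rho0` (rfl),
  `rho0_surjective` (V8 at level `N0`: `LiftK0Chart.exists_chart_lift` + (U0));
* `mem_chart_of_natCast_mul_mem` : **`x ∈ Og0`, `q x ∈ A₀` ⟹ `x ∈ A₀`** ((U0) at the vertical
  valuations, `q` a unit at the horizontal ones);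
* `ker_rho0 : ker ρ₀ = (q)` : the special fibre of the `j`-chart of level `N0` is reduced and
  irreducible;
* for a place `v` of `κ` finite at `J`: `rhoV : A₀ →+* O_v`, `coe_rhoV` (rfl), `ker_rhoV`,
  `rhoV_mem_maximalIdeal_iff`, `hloc_rhoV` (`O_v` is the localisation of `ρ(A₀)`),
  `exists_param` (a local parameter at `v` is the reduction of an element of `A₀`).
-/
import Mathlib
import Fermat.Agent.S36.ChartX0
import Fermat.Agent.S36.ChartPlaces
import Fermat.Agent.S36.GaussUniqX0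
import Fermat.Agent.S36.CompNormal
import Fermat.Agent.S36.LiftK0Chart
import Fermat.Agent.S36.SpecDictLocal
import Fermat.Agent.S18.B.SeparableFk

set_option autoImplicit false
set_option linter.unusedSectionVars false
set_option linter.style.haveILetI false
set_option synthInstance.maxHeartbeats 400000

noncomputable section

namespace Fermat.Agent.S36.TripleChartX0

open ModularCurve AlgebraicCurve IntermediateField Polynomial IsLocalRing
open Fermat.Agent.S18.B.FkBasics (jk)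
open Fermat.Agent.S18.C.SmallDVR
open Fermat.Agent.S36.ChartRing Fermat.Agent.S36.ChartX0 Fermat.Agent.S36.GaussK0Comap
open Fermat.Agent.S36.PowerBasisK0 (j0K)
open Fermat.Agent.S36.SpecDictOne
open Fermat.Agent.S37.Gauss Fermat.Agent.S37.Deuring.Core

local notation "Kb" => AlgebraicClosure ℚ

variable {q : ℕ} [hqF : Fact q.Prime] {N0 : ℕ} [NeZero N0] {A : ValuationSubring Kb}
variable (hA : A.LiesOverPrime q) (hqN : ¬ q ∣ N0)

/-! ### the chart ring lies in the Gauss ring -/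

/-- the Gauss ring `Og0`, as a valuation subring of `FK0 A N0` (the spelling for which the
`W A`-algebra instance of `S36/ChartX0` is found) -/
abbrev Og : ValuationSubring (FK0 A N0) := Og0 N0 hA hqN

theorem algebraMap_W_mem_Og0 (c : ↥(W A)) :
    algebraMap ↥(W A) (FK0 A N0) c ∈ Og0 N0 hA hqN := by
  have h := algebraMap_mem_Og0 N0 hA hqN (algebraMap ↥(W A) ↥(K0 A) c) c.2
  exact h

theorem red0z_algebraMap_W (c : ↥(W A)) :
    red0z N0 hA hqN ⟨algebraMap ↥(W A) (FK0 A N0) c, algebraMap_W_mem_Og0 hA hqN c⟩ =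
      algebraMap (ResidueField ↥A) ↥(modularFunctionFieldFullC (ResidueField ↥A) N0)
        (algebraMap ↥(W A) (ResidueField ↥A) c) := by
  have h := red0z_algebraMap N0 hA hqN (algebraMap ↥(W A) ↥(K0 A) c) c.2
  exact h

theorem mem_Og0_of_mem_chart {x : FK0 A N0}
    (hx : x ∈ chartX0 A N0 (j0K (A.inertiaSubgroupIn ℚ) N0)) : x ∈ Og0 N0 hA hqN :=
  CompNormal.mem_of_mem_chart' (Og hA hqN) (algebraMap_W_mem_Og0 hA hqN)
    (j0K_mem_Og0 N0 hA hqN) hx

theorem red0z_j0K_mem_chart :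
    red0z N0 hA hqN ⟨j0K (A.inertiaSubgroupIn ℚ) N0, j0K_mem_Og0 N0 hA hqN⟩ ∈
      chart (ResidueField ↥A) (jk (ResidueField ↥A) N0) := by
  rw [red0z_j0K]
  exact CompNormal.self_mem_chart _

/-! ### the reduction of the chart ring -/

/-- **the reduction of the level-`N0` chart ring**, with values in the chart ring of the special
fibre -/
def rho0 : ↥(chartX0 A N0 (j0K (A.inertiaSubgroupIn ℚ) N0)) →+*
    ↥(chart (ResidueField ↥A) (jk (ResidueField ↥A) N0)) :=
  CompNormal.rho (algebraMap ↥(W A) (ResidueField ↥A)) (Og hA hqN) (red0z N0 hA hqN)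
    (algebraMap_W_mem_Og0 hA hqN) (red0z_algebraMap_W hA hqN) (j0K_mem_Og0 N0 hA hqN)
    (red0z_j0K_mem_chart hA hqN)

theorem coe_rho0 (x : ↥(chartX0 A N0 (j0K (A.inertiaSubgroupIn ℚ) N0))) :
    ((rho0 hA hqN x : ↥(chart (ResidueField ↥A) (jk (ResidueField ↥A) N0))) :
      ↥(modularFunctionFieldFullC (ResidueField ↥A) N0)) =
      red0z N0 hA hqN ⟨(x : FK0 A N0), mem_Og0_of_mem_chart hA hqN x.2⟩ := rfl

/-- **(V8) at level `N0`**: the reduction of the chart ring is onto the chart ring of the special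
fibre -/
theorem rho0_surjective {gL gk : ℕ} (H : Hyp (Datum.gaussDatum N0 A hA hqN) gL gk) :
    Function.Surjective (rho0 hA hqN) :=
  CompNormal.rho_surjective _ _ _ _ _ _ _
    (Fermat.Agent.S36.LiftK0Chart.exists_chart_lift hA hqN H
      (Fermat.Agent.S36.GaussUniqX0.le_of_gaussVert N0 hA hqN))

/-! ### division by `q` inside the chart ring -/

/-- **`x ∈ Og0` and `q x ∈ A₀` imply `x ∈ A₀`** -/
theorem mem_chart_of_natCast_mul_mem {x : FK0 A N0} (hx : x ∈ Og0 N0 hA hqN)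
    (hqx : ((q : ℕ) : FK0 A N0) * x ∈ chartX0 A N0 (j0K (A.inertiaSubgroupIn ℚ) N0)) :
    x ∈ chartX0 A N0 (j0K (A.inertiaSubgroupIn ℚ) N0) := by
  haveI := isDVR hA
  haveI := ChartX0.finiteDimensional_of_transcendental A N0
    (Fermat.Agent.S36.LiftK0Chart.transcendental_j0K A N0)
  refine Fermat.Agent.S36.ChartPlaces.mem_chart_of_places (K := ↥(K0 A)) (irreducible_ell hA)
    (Fermat.Agent.S36.LiftK0Chart.transcendental_j0K A N0) x
    (fun V hc hj hπ hs =>
      Fermat.Agent.S36.GaussUniqX0.le_of_gaussVert N0 hA hqN V hc hj hπ hs x hx)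
    (fun v hv => ?_)
  have h1 : ((q : ℕ) : FK0 A N0) * x ∈ v.toValuationSubring :=
    Fermat.Agent.S36.ChartPlaces.mem_place_of_mem_chart (O := ↥(W A)) (K := ↥(K0 A)) hqx v hv
  have hq0 : ((q : ℕ) : FK0 A N0) ≠ 0 := by
    exact_mod_cast hqF.out.ne_zero
  have h2 : (((q : ℕ) : FK0 A N0))⁻¹ ∈ v.toValuationSubring := by
    have h3 : (((q : ℕ) : FK0 A N0))⁻¹ = algebraMap ↥(K0 A) (FK0 A N0) (((q : ℕ) : ↥(K0 A)))⁻¹ := by
      rw [map_inv₀, map_natCast]
    rw [h3]
    exact v.algebraMap_mem' _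
  have h4 : x = (((q : ℕ) : FK0 A N0))⁻¹ * (((q : ℕ) : FK0 A N0) * x) := by
    rw [← mul_assoc, inv_mul_cancel₀ hq0, one_mul]
  rw [h4]
  exact v.toValuationSubring.mul_mem _ _ h2 h1

/-- an element of `Og0` with reduction `0` is `q` times an element of `Og0` -/
theorem exists_eq_natCast_mul (x : FK0 A N0) (hx : x ∈ Og0 N0 hA hqN)
    (h0 : red0z N0 hA hqN ⟨x, hx⟩ = 0) :
    ∃ y : FK0 A N0, y ∈ Og0 N0 hA hqN ∧ x = ((q : ℕ) : FK0 A N0) * y := by
  have h2 : (⟨x, hx⟩ : ↥(Og0 N0 hA hqN)) ∈ maximalIdeal ↥(Og0 N0 hA hqN) := by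
    rw [← ker_red0z]
    exact h0
  rw [maximalIdeal_Og0_eq, Ideal.mem_span_singleton'] at h2
  obtain ⟨y, hy⟩ := h2
  refine ⟨y.1, y.2, ?_⟩
  have h3 : (y * ((q : ℕ) : ↥(Og0 N0 hA hqN))).1 = x := congrArg Subtype.val hy
  rw [← h3]
  exact mul_comm _ _

/-- **the kernel of the reduction of the chart ring is `(q)`** -/
theorem ker_rho0 :
    RingHom.ker (rho0 hA hqN) =
      Ideal.span {((q : ℕ) : ↥(chartX0 A N0 (j0K (A.inertiaSubgroupIn ℚ) N0)))} := by
  ext x
  rw [RingHom.mem_ker, Ideal.mem_span_singleton']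
  constructor
  · intro h0
    have h1 : red0z N0 hA hqN ⟨(x : FK0 A N0), mem_Og0_of_mem_chart hA hqN x.2⟩ = 0 := by
      rw [← coe_rho0, h0]
      rfl
    obtain ⟨y, hyO, hy⟩ := exists_eq_natCast_mul hA hqN (x : FK0 A N0)
      (mem_Og0_of_mem_chart hA hqN x.2) h1
    have hymem : y ∈ chartX0 A N0 (j0K (A.inertiaSubgroupIn ℚ) N0) := by
      apply mem_chart_of_natCast_mul_mem hA hqN hyO
      rw [← hy]
      exact x.2
    refine ⟨⟨y, hymem⟩, Subtype.ext ?_⟩
    show y * (((q : ℕ) : ↥(chartX0 A N0 (j0K (A.inertiaSubgroupIn ℚ) N0))) : FK0 A N0) =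
      (x : FK0 A N0)
    rw [hy, mul_comm]
    congr 1
  · rintro ⟨y, rfl⟩
    rw [map_mul, map_natCast]
    have hq0 : ((q : ℕ) : ↥(chart (ResidueField ↥A) (jk (ResidueField ↥A) N0))) = 0 := by
      haveI : CharP (ResidueField ↥A) q :=
        Fermat.Agent.S18.ResidueBasics.charP_residueField A hA
      have h1 : ((q : ℕ) : ↥(chart (ResidueField ↥A) (jk (ResidueField ↥A) N0))) =
          algebraMap (ResidueField ↥A) ↥(chart (ResidueField ↥A) (jk (ResidueField ↥A) N0))
            ((q : ℕ) : ResidueField ↥A) := by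
        rw [map_natCast]
      rw [h1, CharP.cast_eq_zero, map_zero]
    rw [hq0, mul_zero]

/-! ### the reduction into the local ring of a place of the special fibre -/

section Place

variable (v : Place (ResidueField ↥A) ↥(modularFunctionFieldFullC (ResidueField ↥A) N0))
  (hvj : jk (ResidueField ↥A) N0 ∈ v.toValuationSubring)

/-- the reduction of the chart ring, with values in the valuation ring of the place `v` -/
def rhoV : ↥(chartX0 A N0 (j0K (A.inertiaSubgroupIn ℚ) N0)) →+* ↥v.toValuationSubring :=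
  (incl v hvj).comp (rho0 hA hqN)

theorem coe_rhoV (x : ↥(chartX0 A N0 (j0K (A.inertiaSubgroupIn ℚ) N0))) :
    ((rhoV hA hqN v hvj x : ↥v.toValuationSubring) :
      ↥(modularFunctionFieldFullC (ResidueField ↥A) N0)) =
      red0z N0 hA hqN ⟨(x : FK0 A N0), mem_Og0_of_mem_chart hA hqN x.2⟩ := rfl

theorem incl_injective : Function.Injective (incl v hvj) := by
  intro a b hab
  apply Subtype.ext
  have := congrArg (Subtype.val) hab
  exact this

theorem ker_rhoV :
    RingHom.ker (rhoV hA hqN v hvj) =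
      Ideal.span {((q : ℕ) : ↥(chartX0 A N0 (j0K (A.inertiaSubgroupIn ℚ) N0)))} := by
  rw [← ker_rho0 hA hqN]
  ext x
  rw [RingHom.mem_ker, RingHom.mem_ker, rhoV, RingHom.comp_apply]
  constructor
  · intro h
    exact incl_injective v hvj (h.trans (map_zero _).symm)
  · intro h
    rw [h, map_zero]

/-- the closed point of the chart ring of level `N0` under the place `v` -/
theorem rhoV_mem_maximalIdeal_iff (x : ↥(chartX0 A N0 (j0K (A.inertiaSubgroupIn ℚ) N0))) :
    rhoV hA hqN v hvj x ∈ maximalIdeal ↥v.toValuationSubring ↔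
      rho0 hA hqN x ∈ pointOf v hvj := Iff.rfl

theorem natCast_ne_zero :
    ((q : ℕ) : ↥(chartX0 A N0 (j0K (A.inertiaSubgroupIn ℚ) N0))) ≠ 0 := by
  intro h
  have h1 : (((q : ℕ) : ↥(chartX0 A N0 (j0K (A.inertiaSubgroupIn ℚ) N0))) : FK0 A N0) = 0 := by
    rw [h]
    rfl
  have h2 : ((q : ℕ) : FK0 A N0) = 0 := by
    rw [← h1]
    norm_cast
  exact hqF.out.ne_zero (by exact_mod_cast h2)

variable [PerfectField (ResidueField ↥A)] {gL gk : ℕ}
  (H : Hyp (Datum.gaussDatum N0 A hA hqN) gL gk)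

include H in
/-- **`O_v` is the localisation of `ρ(A₀)` at the point** (`hloc` of `TripleLocal`) -/
theorem hloc_rhoV (d : ↥v.toValuationSubring) :
    ∃ a t : ↥(chartX0 A N0 (j0K (A.inertiaSubgroupIn ℚ) N0)),
      rhoV hA hqN v hvj t ∉ maximalIdeal ↥v.toValuationSubring ∧
        rhoV hA hqN v hvj t * d = rhoV hA hqN v hvj a := by
  obtain ⟨b, s, hs, hbs⟩ := exists_mul_eq_of_mem
    (Fermat.Agent.S18.B.FkBasics.isFF (ResidueField ↥A) N0)
    (Fermat.Agent.S18.B.SeparableFk.isSeparable_jk (ResidueField ↥A) N0) v hvj d.2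
  obtain ⟨a, ha⟩ := rho0_surjective hA hqN H b
  obtain ⟨t, ht⟩ := rho0_surjective hA hqN H s
  refine ⟨a, t, ?_, Subtype.ext ?_⟩
  · rw [rhoV_mem_maximalIdeal_iff, ht]
    exact hs
  · show ((rho0 hA hqN t : ↥(chart (ResidueField ↥A) (jk (ResidueField ↥A) N0))) :
        ↥(modularFunctionFieldFullC (ResidueField ↥A) N0)) * (d : _) =
      ((rho0 hA hqN a : ↥(chart (ResidueField ↥A) (jk (ResidueField ↥A) N0))) : _)
    rw [ht, ha, mul_comm]
    exact hbs

include H hvj in
/-- **a local parameter at `v` is the reduction of an element of the chart ring** -/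
theorem exists_param :
    ∃ s : ↥(chartX0 A N0 (j0K (A.inertiaSubgroupIn ℚ) N0)),
      v.ord (red0z N0 hA hqN ⟨(s : FK0 A N0), mem_Og0_of_mem_chart hA hqN s.2⟩) = 1 := by
  obtain ⟨b, hb⟩ := Fermat.Agent.S36.SpecDictLocal.exists_ord_eq_one
    (Fermat.Agent.S18.B.FkBasics.isFF (ResidueField ↥A) N0)
    (Fermat.Agent.S18.B.SeparableFk.isSeparable_jk (ResidueField ↥A) N0) v hvj
  obtain ⟨s, hs⟩ := rho0_surjective hA hqN H b
  refine ⟨s, ?_⟩
  rw [← coe_rho0, hs]
  exact hb

end Place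

end Fermat.Agent.S36.TripleChartX0
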