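/-
PROJECT V (S36), chain (V12)(iii), slice V-TripleFinal (helper22): **the final statement `hS` of
`AllPointsT.locPrincipal_of_isMaximal`**, hypotheses-first.

`A₀` the chart ring of level `N0` (noetherian, integrally closed), `K = Frac A₀`, `A` the chart ring
of level `N0 q²` (integral over `A₀` through `β²`), `F = Frac A`, `[F : K] = q² + q`.  For a maximal
ideal `m` of `A` over the closed point `m₀ = m ∩ A₀` of the special fibre of `A₀`, the *point
package* `PointHyp K A m₀` consists of the inputs of `TripleLocal.eisensteinFibre_localization'`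
(the reduction `ρ0 : A₀ → O_b` to the discrete valuation ring of the place `b`, `ker ρ0 = (q0)`,
a parameter `s`, the polynomial `P = Ψ_a ∈ A₀[X]` with `ρ0 P ≡ (X - c)^d`, the diagonal value
`P(x0) = q0 r` with `ρ0 r` a unit at `b` = `TripleUnit.isUnit_of_count_thetaDer`), a root
`y ∈ A` of `P` (`y = α²a`) and the degree `[F : K] = deg P`.

* `locPrincipal_of_point` : the point package at `m₀ = m ∩ A₀` gives `LocPrincipal m`
  (`TripleLocal.eisensteinFibre_localization'` + `TripleCore.exists_aeval_eq_of_finrank` +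
  `TripleCore.locPrincipal_of_eisensteinFibre` over `O = Localization.AtPrime m₀`);
* `PointHyp`, `pointHyp_intro`, `locPrincipal_of_pointHyp`;
* `hS_of_pointHyp` : **the literal `hS`** : `∀ n, n.IsMaximal → n ∈ D.S → LocPrincipal (D.x20 n)`
  for a `BranchCoreT.TDatum A₁ A B`, from a point package at every `(D.x20 n) ∩ A₀`, `n ∈ S`.
-/
import Mathlib
import Fermat.Agent.S36.TripleCore
import Fermat.Agent.S36.TripleLocal
import Fermat.Agent.S36.AllPointsT

set_option autoImplicit false
set_option linter.unusedSectionVars false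
set_option linter.style.haveILetI false
set_option linter.unusedVariables false

universe u

namespace Fermat.Agent.S36.TripleFinal

open Polynomial IsLocalRing
open Fermat.Agent.S36.LocalGenCore Fermat.Agent.S36.TripleCore

/-! ### the localisation of `A₀` inside `K` and `F` -/

section Tower

variable {A₀ K F : Type*} [CommRing A₀] [IsDomain A₀] [Field K] [Field F] [Algebra A₀ K]
  [IsFractionRing A₀ K] [Algebra K F] [Algebra A₀ F] [IsScalarTower A₀ K F]

theorem injective_algebraMap_of_tower (A₀ K F : Type*) [CommRing A₀] [IsDomain A₀] [Field K]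
    [Field F] [Algebra A₀ K] [IsFractionRing A₀ K] [Algebra K F] [Algebra A₀ F]
    [IsScalarTower A₀ K F] : Function.Injective (algebraMap A₀ F) := by
  rw [IsScalarTower.algebraMap_eq A₀ K F]
  exact (algebraMap K F).injective.comp (IsFractionRing.injective A₀ K)

variable (m₀ : Ideal A₀) [m₀.IsPrime]

/-- the structure map `(A₀)_{𝔪₀} → F` factors through `K` -/
theorem algebraMap_comp_locHom (hinjK : Function.Injective (algebraMap A₀ K))
    (hinj : Function.Injective (algebraMap A₀ F)) :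
    (algebraMap K F).comp (locHom m₀ hinjK) = locHom m₀ hinj := by
  refine IsLocalization.ringHom_ext m₀.primeCompl ?_
  ext a
  rw [RingHom.comp_apply, RingHom.comp_apply, RingHom.comp_apply, locHom, locHom,
    IsLocalization.lift_eq, IsLocalization.lift_eq, ← IsScalarTower.algebraMap_apply]

end Tower

/-! ### one point -/

section Point

variable {A₀ A K F : Type*} [CommRing A₀] [IsDomain A₀] [IsNoetherianRing A₀]
  [IsIntegrallyClosed A₀] [CommRing A] [IsDomain A] [IsNoetherianRing A] [IsIntegrallyClosed A]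
  [Field K] [Field F] [Algebra A₀ K] [IsFractionRing A₀ K] [Algebra K F] [Algebra A₀ F]
  [IsScalarTower A₀ K F] [FiniteDimensional K F]
  [Algebra A F] [IsFractionRing A F] [Algebra A₀ A] [IsScalarTower A₀ A F]
  [Algebra.IsIntegral A₀ A]

/-- **(V12)(iii) at one point**: the inputs of `TripleLocal.eisensteinFibre_localization'` at the
closed point `m₀ = m ∩ A₀`, a root `y ∈ A` of `P` and `[F : K] = deg P` give `LocPrincipal m`. -/
theorem locPrincipal_of_point (m₀ : Ideal A₀) [hm₀ : m₀.IsPrime]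
    {κ : Type*} [Field κ] (Ob : ValuationSubring κ) [IsDiscreteValuationRing Ob]
    (ρ0 : A₀ →+* Ob) (hm0 : ∀ a : A₀, a ∈ m₀ ↔ ρ0 a ∈ maximalIdeal Ob)
    (hloc : ∀ d : Ob, ∃ a t : A₀, t ∉ m₀ ∧ ρ0 t * d = ρ0 a)
    {q0 : A₀} (hker : RingHom.ker ρ0 = Ideal.span {q0}) (hq0 : q0 ≠ 0)
    {s : A₀} (hs : Irreducible (ρ0 s))
    {P : A₀[X]} (hP : P.Monic) (hd : P.natDegree ≠ 0) (x0 : A₀) (c : Ob)
    (hc : ρ0 s ∣ ρ0 x0 - c)
    (hred : ∀ i, ρ0 s ∣ ρ0 (P.coeff i) - ((X - C c) ^ P.natDegree).coeff i)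
    {r : A₀} (hr : IsUnit (ρ0 r)) (heval : P.eval x0 = q0 * r)
    (y : A) (hy : P.eval₂ (algebraMap A₀ A) y = 0)
    (hdeg : Module.finrank K F = P.natDegree)
    (m : Ideal A) [hm : m.IsMaximal] (hmm₀ : m.comap (algebraMap A₀ A) = m₀) :
    LocPrincipal (F := F) m := by
  have hinjK : Function.Injective (algebraMap A₀ K) := IsFractionRing.injective A₀ K
  have hinj : Function.Injective (algebraMap A₀ F) := injective_algebraMap_of_tower A₀ K F
  -- the Eisenstein fibre over `O = (A₀)_{𝔪₀}`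
  have h := TripleLocal.eisensteinFibre_localization' Ob ρ0 m₀ hm0 (Localization.AtPrime m₀)
    hloc hker hq0 hs hP hd x0 c hc hred hr heval
  -- the algebra structures of `K` and `F` over `O`
  letI algOF : Algebra (Localization.AtPrime m₀) F := locAlgebra m₀ hinj
  haveI towF : IsScalarTower A₀ (Localization.AtPrime m₀) F := locAlgebra_isScalarTower m₀ hinj
  letI algOK : Algebra (Localization.AtPrime m₀) K := locAlgebra m₀ hinjK
  haveI towK : IsScalarTower A₀ (Localization.AtPrime m₀) K := locAlgebra_isScalarTower m₀ hinjK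
  haveI towOKF : IsScalarTower (Localization.AtPrime m₀) K F := by
    refine IsScalarTower.of_algebraMap_eq fun x => ?_
    change locHom m₀ hinj x = algebraMap K F (locHom m₀ hinjK x)
    rw [← algebraMap_comp_locHom m₀ hinjK hinj]
    rfl
  haveI fracOK : IsFractionRing (Localization.AtPrime m₀) K :=
    IsFractionRing.isFractionRing_of_isDomain_of_isLocalization m₀.primeCompl
      (Localization.AtPrime m₀) K
  haveI icO : IsIntegrallyClosed (Localization.AtPrime m₀) :=
    isIntegrallyClosed_localization_atPrime m₀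
  -- the root `b = y - x0`
  have hyF : aeval (algebraMap A F y) (P.map (algebraMap A₀ (Localization.AtPrime m₀))) = 0 := by
    rw [aeval_def, eval₂_map, ← IsScalarTower.algebraMap_eq A₀ (Localization.AtPrime m₀) F,
      IsScalarTower.algebraMap_eq A₀ A F, ← hom_eval₂, hy, map_zero]
  have hb : aeval (algebraMap A F (y - algebraMap A₀ A x0))
      ((P.map (algebraMap A₀ (Localization.AtPrime m₀))).comp
        (X + C (algebraMap A₀ (Localization.AtPrime m₀) x0))) = 0 := by
    have := TripleFibre.aeval_sub_comp (S := F) (P.map (algebraMap A₀ (Localization.AtPrime m₀)))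
      (algebraMap A₀ (Localization.AtPrime m₀) x0) hyF
    rwa [← IsScalarTower.algebraMap_apply A₀ (Localization.AtPrime m₀) F,
      IsScalarTower.algebraMap_apply A₀ A F, ← map_sub] at this
  -- generation from the degree
  have hdeg' : Module.finrank K F = ((P.map (algebraMap A₀ (Localization.AtPrime m₀))).comp
      (X + C (algebraMap A₀ (Localization.AtPrime m₀) x0))).natDegree := by
    rw [natDegree_comp, natDegree_X_add_C, mul_one, hP.natDegree_map, hdeg]
  have hgen := exists_aeval_eq_of_finrank (K := K) (F := F) h hb hdeg'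
  exact locPrincipal_of_eisensteinFibre m₀ (locAlgebra_injective m₀ hinj) h
    (y - algebraMap A₀ A x0) hb hgen m hmm₀

end Point

/-! ### the point package -/

section Package

variable {A₀ : Type*} (K : Type*) (A : Type*) {F : Type*} [CommRing A₀] [CommRing A] [Field K]
  [Field F] [Algebra A₀ K] [Algebra K F] [Algebra A₀ A]

/-- **the point package of (V12)(iii)** at a prime `m₀` of the level-`N0` chart `A₀`: the inputs of
`TripleLocal.eisensteinFibre_localization'`, a root of `P` in the level-`N0 q²` chart `A`, and the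
degree `[F : K] = deg P`. -/
def PointHyp (F : Type*) [Field F] [Algebra K F] (m₀ : Ideal A₀) : Prop :=
  ∃ (κ : Type u) (_ : Field κ) (Ob : ValuationSubring κ) (_ : IsDiscreteValuationRing Ob)
    (ρ0 : A₀ →+* Ob),
    (∀ a : A₀, a ∈ m₀ ↔ ρ0 a ∈ maximalIdeal Ob) ∧
    (∀ d : Ob, ∃ a t : A₀, t ∉ m₀ ∧ ρ0 t * d = ρ0 a) ∧
    ∃ q0 : A₀, RingHom.ker ρ0 = Ideal.span {q0} ∧ q0 ≠ 0 ∧
    ∃ s : A₀, Irreducible (ρ0 s) ∧
    ∃ P : A₀[X], P.Monic ∧ P.natDegree ≠ 0 ∧ Module.finrank K F = P.natDegree ∧
    ∃ (x0 : A₀) (c : Ob), ρ0 s ∣ ρ0 x0 - c ∧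
      (∀ i, ρ0 s ∣ ρ0 (P.coeff i) - ((X - C c) ^ P.natDegree).coeff i) ∧
    ∃ r : A₀, IsUnit (ρ0 r) ∧ P.eval x0 = q0 * r ∧
    ∃ y : A, P.eval₂ (algebraMap A₀ A) y = 0

/-- the constructor of `PointHyp`, with the arguments of
`TripleLocal.eisensteinFibre_localization'` -/
theorem pointHyp_intro (m₀ : Ideal A₀)
    {κ : Type u} [Field κ] (Ob : ValuationSubring κ) [IsDiscreteValuationRing Ob]
    (ρ0 : A₀ →+* Ob) (hm0 : ∀ a : A₀, a ∈ m₀ ↔ ρ0 a ∈ maximalIdeal Ob)
    (hloc : ∀ d : Ob, ∃ a t : A₀, t ∉ m₀ ∧ ρ0 t * d = ρ0 a)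
    {q0 : A₀} (hker : RingHom.ker ρ0 = Ideal.span {q0}) (hq0 : q0 ≠ 0)
    {s : A₀} (hs : Irreducible (ρ0 s))
    {P : A₀[X]} (hP : P.Monic) (hd : P.natDegree ≠ 0) (x0 : A₀) (c : Ob)
    (hc : ρ0 s ∣ ρ0 x0 - c)
    (hred : ∀ i, ρ0 s ∣ ρ0 (P.coeff i) - ((X - C c) ^ P.natDegree).coeff i)
    {r : A₀} (hr : IsUnit (ρ0 r)) (heval : P.eval x0 = q0 * r)
    (y : A) (hy : P.eval₂ (algebraMap A₀ A) y = 0)
    (hdeg : Module.finrank K F = P.natDegree) : PointHyp.{u} K A F m₀ :=
  ⟨κ, inferInstance, Ob, inferInstance, ρ0, hm0, hloc, q0, hker, hq0, s, hs, P, hP, hd, hdeg,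
    x0, c, hc, hred, r, hr, heval, y, hy⟩

end Package

section Final

variable {A₀ A K F : Type*} [CommRing A₀] [IsDomain A₀] [IsNoetherianRing A₀]
  [IsIntegrallyClosed A₀] [CommRing A] [IsDomain A] [IsNoetherianRing A] [IsIntegrallyClosed A]
  [Field K] [Field F] [Algebra A₀ K] [IsFractionRing A₀ K] [Algebra K F] [Algebra A₀ F]
  [IsScalarTower A₀ K F] [FiniteDimensional K F]
  [Algebra A F] [IsFractionRing A F] [Algebra A₀ A] [IsScalarTower A₀ A F]
  [Algebra.IsIntegral A₀ A]

/-- **(V12)(iii) at one point**, from the point package -/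
theorem locPrincipal_of_pointHyp (m : Ideal A) [hm : m.IsMaximal]
    (h : PointHyp.{u} K A F (m.comap (algebraMap A₀ A))) : LocPrincipal (F := F) m := by
  obtain ⟨κ, hκ, Ob, hOb, ρ0, hm0, hloc, q0, hker, hq0, s, hs, P, hP, hd, hdeg, x0, c, hc, hred,
    r, hr, heval, y, hy⟩ := h
  exact locPrincipal_of_point (K := K) (m.comap (algebraMap A₀ A)) Ob ρ0 hm0 hloc hker hq0 hs hP hd
    x0 c hc hred hr heval y hy hdeg m rfl

variable {A₁ B : Type*} [CommRing A₁] [CommRing B] [IsDomain B]

/-- **the literal `hS` of `AllPointsT.locPrincipal_of_isMaximal`**: local principality at the triple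
points, from a point package at every `x₂₀(n) ∩ A₀`, `n ∈ S`. -/
theorem hS_of_pointHyp (D : BranchCoreT.TDatum A₁ A B)
    (hpt : ∀ n : Ideal B, n.IsMaximal → n ∈ D.S →
      PointHyp.{u} K A F ((D.x20 n).comap (algebraMap A₀ A))) :
    ∀ n : Ideal B, n.IsMaximal → n ∈ D.S → LocPrincipal (F := F) (D.x20 n) := by
  intro n hn hnS
  haveI := D.x20_isMaximal hn
  exact locPrincipal_of_pointHyp (K := K) (D.x20 n) (hpt n hn hnS)

end Final

end Fermat.Agent.S36.TripleFinal
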