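/-
PROJECT V (S36), slice V-TripleHS (helper4), chain (V12)(iii): **THE HYPOTHESIS `hS` OF
`LocX0Inst.hloc_X0_inst` / `AllPointsT.locPrincipal_of_isMaximal` ON THE FIN CHART AT `X₀`, CLOSED**:
local principality at the triple points `x₂₀(n) = x₁₁(n) = x₀₂(n)`, `n ∈ D.S`, of the chart
`chart (W A) x₂`, for helper1's `BranchX0.ChartPair.finTDatumOf`, helper27's
`BranchFinX0.finTDatumX0` and the actual `BranchFinX0.finTDatumY`.

It is `TripleX0Final.locPrincipal_of_node_x2` (helper4) fed with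
* the identification of the point (helper16 `TriplePointX0.mem_x20_iff`: `x₂₀ n = x₀₂ n` and
  `r₀₂ ∘ a₂ = red₀`, plus `SpecDictOne.mem_pointOf_iff_val` and the link `Y.red₀ = red0z`),
* the count at the node (helper29 `TripleUnitX0.hcount_node_finTDatumOf`),
* `Fr² v = v` on `S` (helper9 `CountHid.fr_fr_of_desc`).

* `hS_of_pair` : generic: ANY `D : TDatum A₁ (chart (W A) x₂) (chart k (jk k N0))` with
  `D.r02 = P.r02` and `D.S = nodeSet S`, `S` any set of places with `Fr² = id` and the count `-2`.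
* `hS_finTDatumOf` : binder block of `TripleUnitX0` / `CountFinX0` / `LocFinH11X0` (+ the link
  `hO₀`, `hred₀` and Deuring's `Hyp`): the LITERAL `hS` of `LocX0Inst.hloc_X0_inst`.
* `hS_finTDatumX0`, `hS_finTDatumY` : the same at helper27's `TDatum`s (no hypothesis left at the
  actual objects but the auxiliary prime `r ≡ 11 mod 12`, `r ∣ M`).
-/
import Mathlib
import Fermat.Agent.S36.TripleX0Final
import Fermat.Agent.S36.TriplePointX0
import Fermat.Agent.S36.TripleUnitX0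
import Fermat.Agent.S36.BranchFinX0

set_option autoImplicit false
set_option linter.unusedSectionVars false
set_option linter.unusedVariables false
set_option linter.style.haveILetI false
set_option synthInstance.maxHeartbeats 400000
set_option maxHeartbeats 1600000

noncomputable section

namespace Fermat.Agent.S36.TripleHS

open ModularCurve AlgebraicCurve IntermediateField IsLocalRing
open Fermat.Agent.S18.B.FkBasics (jk isFF)
open Fermat.Agent.S18.C.SmallDVR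
open Fermat.Agent.S36.ChartRing Fermat.Agent.S36.ChartX0 Fermat.Agent.S36.GaussK0Comap
open Fermat.Agent.S36.PowerBasisK0
open Fermat.Agent.S36.ThetaL
open Fermat.Agent.S36.SpecDictOne (pointOf nodeSet mem_pointOf_iff_val)
open Fermat.Agent.S34.Euler.FrobSide (P0)
open Fermat.Agent.S34.FrobK
open Fermat.Agent.S36.NodesDesc (Desc)
open Fermat.Agent.S37.Gauss Fermat.Agent.S37.Deuring.Core
open Fermat.Agent.S36.BranchCoreT Fermat.Agent.S36.LocalGenCore
open Fermat.Agent.S36.BranchX0 Fermat.Agent.S36.BranchX0.ChartPair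
open Fermat.Agent.S36.TripleX0 Fermat.Agent.S36.TripleX0Final

local notation "Kb" => AlgebraicClosure ℚ

attribute [local instance 2000] Fermat.Agent.S34.EulerX0.algResFk

/-- shortcut instance (a proposition) -/
local instance instACkHS (A : ValuationSubring Kb) : IsAlgClosed (ResidueField ↥A) :=
  Fermat.Agent.S18.ResidueBasics.isAlgClosed_residueField A

local instance instNeZeroMulHS (M q : ℕ) [NeZero M] [NeZero q] : NeZero (M * q) :=
  ⟨Nat.mul_ne_zero (NeZero.ne M) (NeZero.ne q)⟩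

variable {q : ℕ} [hq : Fact q.Prime] {N0 : ℕ} [NeZero N0] {A : ValuationSubring Kb}
variable {hA : A.LiesOverPrime q} {hqN : ¬ q ∣ N0} [NeZero q]

/-- helper10's `O₀`-algebra structure, on the type written as `PowerBasisK0.FK` -/
local instance algWFKhs (N : ℕ) : Algebra ↥(W A) (FK (A.inertiaSubgroupIn ℚ) N) := algebraW A N

variable {Y : ThreeValX0.Hyp (A.inertiaSubgroupIn ℚ) N0 q
    ↥(modularFunctionFieldFullC (ResidueField ↥A) N0)}
  {π : ↥(W A) →+* ResidueField ↥A} {hB : CompNormalX0.Base Y ↥(W A) π}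

/-! ### the generic statement -/

section Generic

variable (hO₀ : Y.O₀ = Og0 N0 hA hqN)
  (hred₀ : ∀ (g : FK (A.inertiaSubgroupIn ℚ) N0) (hg : g ∈ Y.O₀) (hg' : g ∈ Og0 N0 hA hqN),
    Y.red₀ ⟨g, hg⟩ = red0z N0 hA hqN ⟨g, hg'⟩)

include hO₀ hred₀ in
/-- `Y.J = jk k N0` from the link of `Y` with the Gauss ring of level `N0` -/
theorem J_eq_jk_of_link : Y.J = jk (ResidueField ↥A) N0 :=
  (hred₀ _ Y.hj (j0K_mem_Og0 N0 hA hqN)).trans (red0z_j0K N0 hA hqN)

include hO₀ hred₀ in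
theorem hJ₀_of_link : Y.red₀ ⟨j0K (A.inertiaSubgroupIn ℚ) N0, Y.hj⟩ ∈
    chart (ResidueField ↥A) (jk (ResidueField ↥A) N0) := by
  have h : Y.red₀ ⟨j0K (A.inertiaSubgroupIn ℚ) N0, Y.hj⟩ = jk (ResidueField ↥A) N0 :=
    J_eq_jk_of_link hO₀ hred₀
  rw [h]
  exact Fermat.Agent.S36.CompNormal.self_mem_chart _

variable {gL gk : ℕ} (H : Hyp (Datum.gaussDatum N0 A hA hqN) gL gk)
  (P : ChartPair hB (x1 (A.inertiaSubgroupIn ℚ) N0 q)
    (CompNormalX0.x2 (A.inertiaSubgroupIn ℚ) N0 q) (jk (ResidueField ↥A) N0))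

include hO₀ hred₀ H in
/-- **`hS`, generic form**: `D` ANY `TDatum` on `chart (W A) x₂ → chart k (jk k N0)` whose third
reduction is that of the pair `P` and whose node set is `nodeSet S`, `S` a set of places of
`F_k(N0)` on which `Fr² = id` and the count `ord_v (θ π)^(q-1) = -2` holds. -/
theorem hS_of_pair {A₁ : Type*} [CommRing A₁]
    (D : TDatum A₁ ↥(chart ↥(W A) (CompNormalX0.x2 (A.inertiaSubgroupIn ℚ) N0 q))
      ↥(chart (ResidueField ↥A) (jk (ResidueField ↥A) N0)))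
    (hD02 : D.r02 = P.r02)
    (S : Set (Place (ResidueField ↥A) ↥(modularFunctionFieldFullC (ResidueField ↥A) N0)))
    (hDS : D.S = nodeSet (ResidueField ↥A) N0 (x := jk (ResidueField ↥A) N0) S)
    [CharP (ResidueField ↥A) q]
    (hfr2 : ∀ v ∈ S, Fr (ResidueField ↥A) N0 q (Fr (ResidueField ↥A) N0 q v) = v)
    (hcount : ∀ v ∈ S, ∀ π' Θ : ↥(modularFunctionFieldFullC (ResidueField ↥A) N0), v.ord π' = 1 →
      thetaL (π' : LaurentSeries (ResidueField ↥A)) ^ (q - 1) =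
        (Θ : LaurentSeries (ResidueField ↥A)) → v.ord Θ = -2) :
    ∀ n : Ideal ↥(chart (ResidueField ↥A) (jk (ResidueField ↥A) N0)), n.IsMaximal → n ∈ D.S →
      LocPrincipal (F := FK (A.inertiaSubgroupIn ℚ) (N0 * q * q)) (D.x20 n) := by
  intro n hn hnS
  have hnS' := hnS
  rw [hDS] at hnS'
  obtain ⟨v, hvS, hv, rfl⟩ := hnS'
  refine locPrincipal_of_node_x2 hA hqN H v hv (hfr2 v hvS) (hcount v hvS)
    (D.x20 (pointOf v hv)) (D.x20_isMaximal hn) ?_
  intro x hx hx2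
  have h1 := Fermat.Agent.S36.TriplePointX0.mem_x20_iff P Y.hj (hJ₀_of_link hO₀ hred₀) D hD02
    hn hnS ⟨x, hx⟩ ⟨beta2X A N0 q x, hx2⟩ rfl
  refine h1.trans ((mem_pointOf_iff_val v hv _).trans ?_)
  have e : ((P.red0 Y.hj (hJ₀_of_link hO₀ hred₀) ⟨x, hx⟩ :
      ↥(chart (ResidueField ↥A) (jk (ResidueField ↥A) N0))) :
        ↥(modularFunctionFieldFullC (ResidueField ↥A) N0)) =
      redX hA hqN ⟨x, chart_le_OgX hA hqN hx⟩ :=
    (P.coe_red0 Y.hj (hJ₀_of_link hO₀ hred₀) ⟨x, hx⟩).trans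
      (hred₀ x _ (chart_le_OgX hA hqN hx))
  rw [e]

end Generic

/-! ### helper1's `finTDatumOf` (binder block of `TripleUnitX0` / `CountFinX0` / `LocFinH11X0`) -/

section Of

open Fermat.Agent.S36.ThetaK0 Fermat.Agent.S36.LevelQK0

variable (hV1 : Y.V₁ = V1K (A.inertiaSubgroupIn ℚ) hA hqN)
  (hred1 : ∀ (x : FK (A.inertiaSubgroupIn ℚ) (N0 * q)) (h : x ∈ Y.V₁)
    (h' : x ∈ V1K (A.inertiaSubgroupIn ℚ) hA hqN),
    Y.red₁ ⟨x, h⟩ = red1K (A.inertiaSubgroupIn ℚ) hA hqN ⟨x, h'⟩)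
  (hO₀ : Y.O₀ = Og0 N0 hA hqN)
  (hred₀ : ∀ (g : FK (A.inertiaSubgroupIn ℚ) N0) (hg : g ∈ Y.O₀) (hg' : g ∈ Og0 N0 hA hqN),
    Y.red₀ ⟨g, hg⟩ = red0z N0 hA hqN ⟨g, hg'⟩)
  {gL gk : ℕ} (H : Hyp (Datum.gaussDatum N0 A hA hqN) gL gk)
  (P : ChartPair hB (x1 (A.inertiaSubgroupIn ℚ) N0 q)
    (CompNormalX0.x2 (A.inertiaSubgroupIn ℚ) N0 q) (jk (ResidueField ↥A) N0))

include hV1 hred1 hO₀ hred₀ H in
/-- **`hS` of `LocX0Inst.hloc_X0_inst` (literal shape) for helper1's `finTDatumOf`** with the node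
set `nodeSet ↑S`, `S` a finite set of places off the cusps with `NodesDesc.Desc`. -/
theorem hS_finTDatumOf [CharP (ResidueField ↥A) q]
    {r : ℕ} (hr : r.Prime) (hr12 : r % 12 = 11) (hrM : r ∣ N0)
    (hφB : ∀ z ∈ chart (ResidueField ↥A) (jk (ResidueField ↥A) N0),
      Y.φ z ∈ chart (ResidueField ↥A) (jk (ResidueField ↥A) N0))
    (hφpow : ∀ z ∈ chart (ResidueField ↥A) (jk (ResidueField ↥A) N0),
      ∃ c ∈ chart (ResidueField ↥A) (jk (ResidueField ↥A) N0), Y.φ c = z ^ q)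
    {S : Finset (Place (ResidueField ↥A) ↥(modularFunctionFieldFullC (ResidueField ↥A) N0))}
    (hS : ∀ b ∈ S, b ∉ P0 (ResidueField ↥A) N0) (hd : Desc hA hqN S)
    (node : ∀ n' n : Ideal ↥(chart (ResidueField ↥A) (jk (ResidueField ↥A) N0)),
      n'.IsMaximal → n.IsMaximal →
      (n'.comap P.red1 = n.comap P.red2 ↔
        n ∈ nodeSet (ResidueField ↥A) N0 (x := jk (ResidueField ↥A) N0) (↑S : Set _) ∧
          n' = n.comap (φB hφB)))
    (S_fr : ∀ n ∈ nodeSet (ResidueField ↥A) N0 (x := jk (ResidueField ↥A) N0) (↑S : Set _),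
      n.comap (φB hφB) ∈ nodeSet (ResidueField ↥A) N0 (x := jk (ResidueField ↥A) N0) (↑S : Set _))
    (fr_fr : ∀ n ∈ nodeSet (ResidueField ↥A) N0 (x := jk (ResidueField ↥A) N0) (↑S : Set _),
      (n.comap (φB hφB)).comap (φB hφB) = n)
    (hrad : ∀ a ∈ chart ↥(W A) (CompNormalX0.x2 (A.inertiaSubgroupIn ℚ) N0 q),
      a ∈ Y.W₂₀.nonunits → a ∈ Y.W₁₁.nonunits → a ∈ Y.W₀₂.nonunits →
      ∃ N : ℕ, ∃ y ∈ chart ↥(W A) (CompNormalX0.x2 (A.inertiaSubgroupIn ℚ) N0 q),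
        a ^ N = (q : FK (A.inertiaSubgroupIn ℚ) (N0 * q * q)) * y) :
    ∀ n : Ideal ↥(chart (ResidueField ↥A) (jk (ResidueField ↥A) N0)), n.IsMaximal →
      n ∈ (P.finTDatumOf hφB hφpow
        (nodeSet (ResidueField ↥A) N0 (x := jk (ResidueField ↥A) N0) (↑S : Set _))
        node S_fr fr_fr hrad).S →
      LocPrincipal (F := FK (A.inertiaSubgroupIn ℚ) (N0 * q * q))
        ((P.finTDatumOf hφB hφpow
          (nodeSet (ResidueField ↥A) N0 (x := jk (ResidueField ↥A) N0) (↑S : Set _))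
          node S_fr fr_fr hrad).x20 n) := by
  haveI : PerfectField (ResidueField ↥A) := inferInstance
  exact hS_of_pair hO₀ hred₀ H P
    (P.finTDatumOf hφB hφpow
      (nodeSet (ResidueField ↥A) N0 (x := jk (ResidueField ↥A) N0) (↑S : Set _))
      node S_fr fr_fr hrad) rfl (↑S : Set _) rfl
    (fun v hvS => Fermat.Agent.S36.CountHid.fr_fr_of_desc hA hqN hS hd v hvS)
    (fun v hvS => Fermat.Agent.S36.TripleUnitX0.hcount_node_finTDatumOf hV1 hred1 P rfl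
      hr hr12 hrM hφB hφpow hS hd node S_fr fr_fr hrad v hvS)

end Of

/-! ### helper27's `finTDatumX0` and the actual `finTDatumY` -/

section X0

open Fermat.Agent.S36.BranchFinX0 Fermat.Agent.S36.BranchNodeX0

variable (hA hqN)
variable [CharP (ResidueField ↥A) q] [PerfectField (ResidueField ↥A)]

/-- **`hS` for helper27's `BranchFinX0.finTDatumX0`** (variable `Y` with its links). -/
theorem hS_finTDatumX0 (hB : CompNormalX0.Base Y ↥(W A) π)
    (LQ : LinkQ hA hqN (A.inertiaSubgroupIn ℚ) Y) (hO₀ : Y.O₀ = Og0 N0 hA hqN)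
    (hred₀ : ∀ (g : FK (A.inertiaSubgroupIn ℚ) N0) (hg : g ∈ Y.O₀) (hg' : g ∈ Og0 N0 hA hqN),
      Y.red₀ ⟨g, hg⟩ = red0z N0 hA hqN ⟨g, hg'⟩)
    {gL gk : ℕ} (H : Hyp (Datum.gaussDatum N0 A hA hqN) gL gk)
    {r : ℕ} (hr : r.Prime) (hr12 : r % 12 = 11) (hrM : r ∣ N0)
    {S : Finset (Place (ResidueField ↥A) ↥(modularFunctionFieldFullC (ResidueField ↥A) N0))}
    (hS : ∀ b ∈ S, b ∉ P0 (ResidueField ↥A) N0) (hbS : Desc hA hqN S)
    (hFr : ∀ b ∈ S, Fr (ResidueField ↥A) N0 q b ∈ S)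
    (hFr2 : ∀ b ∈ S, Fr (ResidueField ↥A) N0 q (Fr (ResidueField ↥A) N0 q b) = b) :
    ∀ n : Ideal ↥(chart (ResidueField ↥A) (jk (ResidueField ↥A) N0)), n.IsMaximal →
      n ∈ (finTDatumX0 hA hqN hB LQ hO₀ hS hbS hFr hFr2).S →
      LocPrincipal (F := FK (A.inertiaSubgroupIn ℚ) (N0 * q * q))
        ((finTDatumX0 hA hqN hB LQ hO₀ hS hbS hFr hFr2).x20 n) :=
  hS_finTDatumOf LQ.hV₁ (fun x h h' => LQ.red₁_eq h) hO₀ hred₀ H (pairFin hA hqN hB LQ)
    hr hr12 hrM (BranchFinX0.hφB hA hqN LQ) (BranchFinX0.hφpow hA hqN LQ) hS hbS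
    (BranchFinX0.node hA hqN hB LQ hO₀ hS hbS) (BranchFinX0.S_fr hA hqN LQ hFr)
    (BranchFinX0.fr_fr hA hqN LQ hFr2)
    (Fermat.Agent.S36.BranchX0Rad.hrad_fin_W hA hqN Y hB hO₀)

open Fermat.Agent.S18.NonSpecial
open Fermat.Agent.S36.LeafX Fermat.Agent.S36.ThreeValX0Inst
open Fermat.Agent.S34.CoreZX0OfGeneric (HX0)

/-- **`hS` AT THE ACTUAL OBJECTS**: helper27's `BranchFinX0.finTDatumY` (`Y = hypX0`, node set = the
nodes of `datumY`); the only input left is the auxiliary prime `r ≡ 11 mod 12`, `r ∣ N0` of the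
count. -/
theorem hS_finTDatumY {gM : ℕ}
    (HM : RiemannHyp (ResidueField ↥A) ↥(modularFunctionFieldFullC (ResidueField ↥A) N0) gM)
    {r : ℕ} (hr : r.Prime) (hr12 : r % 12 = 11) (hrM : r ∣ N0) :
    ∀ n : Ideal ↥(chart (ResidueField ↥A) (jk (ResidueField ↥A) N0)), n.IsMaximal →
      n ∈ (finTDatumY hA hqN HM).S →
      LocPrincipal (F := FK (A.inertiaSubgroupIn ℚ) (N0 * q * q))
        ((finTDatumY hA hqN HM).x20 n) :=
  hS_finTDatumX0 hA hqN (baseY hA hqN HM) (linkQY hA hqN) (hypX0_O₀ hA hqN)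
    (hypX0_red₀ hA hqN) (HX0 hA hqN HM) hr hr12 hrM (nodesD_off_cusps hA hqN HM)
    (nodesD_desc hA hqN HM) (nodesD_fr_mem hA hqN HM) (nodesD_fr_fr hA hqN HM)

end X0

end Fermat.Agent.S36.TripleHS
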