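/-
PROJECT V (S36), chain (V12)(iii), slice V-TripleRedX0 (helper22): **the Eisenstein data of the
point package at a supersingular point, at `X₀`** (`hred`, `heval`, `hr` of
`S36/TripleLocal.eisensteinFibre_localization'`, `S36/TripleAssembly.locPrincipal_of_chart`,
`S36/TripleFinal.PointHyp`), in the ring `O_v = v.toValuationSubring` of the place `v`.

`κ`-side (`k` perfect of characteristic `q`, `κ = F_k(N)`, `v` a place with `Fr² v = v`, `f ∈ κ`,
`c ∈ k` with `ord_v (f - c) = 1`):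

* `adicValuation_lt_one_of_ord_eq_one`;
* `coe_coeff_X_sub_C_pow` : the coefficients of `(X - C c)^n` over `O_v`, in `κ`;
* `dvd_coeff_redPoly` : **`hred`** : `(f - c) ∣ z - ((X - C c)^(q²+q)).coeff i` in `O_v` for every
  `z : O_v` with `(z : κ) = (TripleEval.redPoly f).coeff i`;
* `dvd_coeff_redPoly_lower` : the same for `c = 0`, `i < q² + q` : `f ∣ z`
  (shape of `TripleAssembly.locPrincipal_of_chart`).

At `X₀` (`A | q`, `q ∤ N0`, `O0 = GaussK0.O0`, `red0`, `psiK0 = CharpolyK0Psi.psiK0`), for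
`a : O0`, `f = red0 a`:

* `red0z_eq_red0`, `mem_Og0_iff_mem_O0` : the bridge `GaussK0Comap.Og0 / red0z` ↔ `GaussK0.O0 / red0`;
* `dvd_coeff_psiK0` : `(psiK0 a).coeff i ∈ O0`, its reduction lies in `O_v` and satisfies `hred`;
* `exists_diag_unit` : **`heval` + `hr`** : `(psiK0 a).eval a = q · R`, `R ∈ O0`, `red0 R` a unit of
  `O_v`, from the count (`CountX0Final.count_final` at `b = v ∈ S`).
-/
import Mathlib
import Fermat.Agent.S36.CharpolyK0Psi
import Fermat.Agent.S36.TripleUnit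
import Fermat.Agent.S36.GaussK0Comap
import Fermat.Agent.S36.SpecDictLocal

set_option autoImplicit false
set_option linter.unusedSectionVars false
set_option linter.style.haveILetI false
set_option synthInstance.maxHeartbeats 400000

noncomputable section

namespace Fermat.Agent.S36.TripleRedX0

open AlgebraicCurve ModularCurve Polynomial IsLocalRing
open Fermat.Agent.S34.FrobK Fermat.Agent.S36.TripleEval Fermat.Agent.S36.TripleUnit
open Fermat.Agent.S36.ThetaL

/-! ### the `κ`-side -/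

section Kappa

variable {k : Type*} [Field k] {N : ℕ} [NeZero N] {q : ℕ} [hq : Fact q.Prime] [CharP k q]
  [PerfectField k]

set_option quotPrecheck false in
local notation "κ" => ↥(modularFunctionFieldFullC k N)

theorem adicValuation_lt_one_of_ord_eq_one (v : Place k κ) {π : κ} (hπ : v.ord π = 1) :
    v.adicValuation π < 1 := by
  have h0 : π ≠ 0 := Fermat.Agent.S36.SpecDictLocal.ne_zero_of_ord_eq_one v hπ
  rw [← Fermat.Agent.S24.Ord.ord_pos_iff v h0, hπ]
  exact zero_lt_one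

/-- the coefficients of `(X - C c)^n` over `O_v`, in `κ` -/
theorem coe_coeff_X_sub_C_pow (v : Place k κ) (c : v.toValuationSubring) (n i : ℕ) :
    ((((X - C c) ^ n : (v.toValuationSubring)[X]).coeff i : v.toValuationSubring) : κ) =
      ((X - C (c : κ)) ^ n : κ[X]).coeff i := by
  have h : ((X - C c) ^ n : (v.toValuationSubring)[X]).map v.toValuationSubring.subtype =
      (X - C (c : κ)) ^ n := by
    rw [Polynomial.map_pow, Polynomial.map_sub, map_X, map_C]
    rfl
  rw [← h, coeff_map]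
  rfl

/-- **`hred` at a supersingular point, in `O_v`.** -/
theorem dvd_coeff_redPoly (v : Place k κ) (hv : Fr k N q (Fr k N q v) = v) (f : κ) (c : k)
    (hf : v.ord (f - algebraMap k κ c) = 1) (i : ℕ) (z : v.toValuationSubring)
    (hz : (z : κ) = (redPoly k N q f).coeff i) :
    (⟨f - algebraMap k κ c, Fermat.Agent.S36.SpecDictLocal.mem_of_ord_eq_one v hf⟩ :
        v.toValuationSubring) ∣
      z - ((X - C (⟨algebraMap k κ c, v.algebraMap_mem' c⟩ : v.toValuationSubring)) ^
        (q ^ 2 + q)).coeff i := by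
  apply Fermat.Agent.S36.SpecDictLocal.dvd_of_not_isUnit v hf
  rw [← mem_nonunits_iff, ← mem_maximalIdeal, Fermat.Agent.S24.Ord.mem_maximalIdeal_iff]
  have h1 := coeff_redPoly_sub_lt_one (q := q) v hv f c
    (adicValuation_lt_one_of_ord_eq_one v hf) i
  rw [coeff_sub] at h1
  have h2 : ((z - ((X - C (⟨algebraMap k κ c, v.algebraMap_mem' c⟩ : v.toValuationSubring)) ^
      (q ^ 2 + q)).coeff i : v.toValuationSubring) : κ) =
      (redPoly k N q f).coeff i - ((X - C (algebraMap k κ c)) ^ (q ^ 2 + q) : κ[X]).coeff i := by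
    rw [← hz, ← coe_coeff_X_sub_C_pow v ⟨algebraMap k κ c, v.algebraMap_mem' c⟩ (q ^ 2 + q) i]
    rfl
  rw [h2]
  exact h1

/-- **`hred` for a parameter vanishing at the point** (`c = 0`): the lower coefficients are
multiples of `f` in `O_v` -/
theorem dvd_coeff_redPoly_lower (v : Place k κ) (hv : Fr k N q (Fr k N q v) = v) (f : κ)
    (hf : v.ord f = 1) (i : ℕ) (hi : i < q ^ 2 + q) (z : v.toValuationSubring)
    (hz : (z : κ) = (redPoly k N q f).coeff i) :
    (⟨f, Fermat.Agent.S36.SpecDictLocal.mem_of_ord_eq_one v hf⟩ : v.toValuationSubring) ∣ z := by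
  have hf' : v.ord (f - algebraMap k κ 0) = 1 := by rw [map_zero, sub_zero]; exact hf
  have h := dvd_coeff_redPoly v hv f 0 hf' i z hz
  have e1 : (⟨f - algebraMap k κ 0, Fermat.Agent.S36.SpecDictLocal.mem_of_ord_eq_one v hf'⟩ :
      v.toValuationSubring) = ⟨f, Fermat.Agent.S36.SpecDictLocal.mem_of_ord_eq_one v hf⟩ :=
    Subtype.ext (by
      show f - algebraMap k κ 0 = f
      rw [map_zero, sub_zero])
  have e2 : (⟨algebraMap k κ 0, v.algebraMap_mem' 0⟩ : v.toValuationSubring) = 0 :=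
    Subtype.ext (map_zero _)
  rw [e1, e2, map_zero, sub_zero, coeff_X_pow, if_neg hi.ne, sub_zero] at h
  exact h

end Kappa

/-! ### at `X₀` -/

section X0

open Fermat.Agent.S18.C.SmallDVR Fermat.Agent.S36.K0Fixed Fermat.Agent.S36.GaussK0
open Fermat.Agent.S36.GaussK0Comap Fermat.Agent.S36.CharpolyK0Psi

local notation "Kb" => AlgebraicClosure ℚ

variable {q : ℕ} [hqF : Fact q.Prime] {N0 : ℕ} [NeZero N0] [NeZero q] {A : ValuationSubring Kb}
  (hA : A.LiesOverPrime q) (hqN : ¬ q ∣ N0)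

set_option quotPrecheck false in
local notation "F0" => ↥(laurentBaseChange ↥(K0 A) (modularFunctionFieldFull N0))
set_option quotPrecheck false in
local notation "kk" => IsLocalRing.ResidueField ↥A
set_option quotPrecheck false in
local notation "κ" => ↥(modularFunctionFieldFullC (IsLocalRing.ResidueField ↥A) N0)

theorem mem_Og0_iff_mem_O0 (g : F0) : g ∈ Og0 N0 hA hqN ↔ g ∈ O0 N0 hA hqN := by
  rw [Og0_eq]
  exact Iff.rfl

/-- **the two reductions of the Gauss ring of `K₀(X₀(N0))` agree** -/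
theorem red0z_eq_red0 (g : F0) (hg : g ∈ Og0 N0 hA hqN) (hg' : g ∈ O0 N0 hA hqN) :
    red0z N0 hA hqN ⟨g, hg⟩ = red0 N0 hA hqN ⟨g, hg'⟩ := by
  rw [red0z_apply, ← red_toBar N0 hA hqN ⟨g, hg'⟩]
  rfl

variable [CharP (IsLocalRing.ResidueField ↥A) q] [IsAlgClosed (IsLocalRing.ResidueField ↥A)]

/-- **`hred` at `X₀`**: the coefficients of `psiK0 a` lie in `O0`, their reductions lie in `O_v`
and are congruent to the coefficients of `(X - c)^(q²+q)` modulo the parameter `red0 a - c`. -/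
theorem dvd_coeff_psiK0 (a : ↥(O0 N0 hA hqN)) (v : Place kk κ)
    (hv : Fr kk N0 q (Fr kk N0 q v) = v) (c : kk)
    (hf : v.ord (red0 N0 hA hqN a - algebraMap kk κ c) = 1) (i : ℕ) :
    ∃ hc : (psiK0 hqN (a : F0)).coeff i ∈ O0 N0 hA hqN,
    ∃ hmem : red0 N0 hA hqN ⟨_, hc⟩ ∈ v.toValuationSubring,
      (⟨red0 N0 hA hqN a - algebraMap kk κ c,
          Fermat.Agent.S36.SpecDictLocal.mem_of_ord_eq_one v hf⟩ : v.toValuationSubring) ∣
        (⟨red0 N0 hA hqN ⟨_, hc⟩, hmem⟩ : v.toValuationSubring) -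
          ((X - C (⟨algebraMap kk κ c, v.algebraMap_mem' c⟩ : v.toValuationSubring)) ^
            (q ^ 2 + q)).coeff i := by
  obtain ⟨hc, hred⟩ := coeff_psiK0_mem hA hqN a i
  have hmem : red0 N0 hA hqN ⟨_, hc⟩ ∈ v.toValuationSubring := by
    rw [hred, Fermat.Agent.S24.Ord.mem_iff]
    exact coeff_redPoly_le_one (q := q) v hv (red0 N0 hA hqN a) c
      (adicValuation_lt_one_of_ord_eq_one v hf) i
  exact ⟨hc, hmem, dvd_coeff_redPoly v hv (red0 N0 hA hqN a) c hf i ⟨_, hmem⟩ hred⟩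

/-- **`heval` + `hr` at `X₀`**: `Ψ_a(a) = q · R` with `R ∈ O0` and `red0 R` a unit of `O_v`, from
the count `ord_v Θ = -2` for `Θ = (θ (f - c))^(q-1)`, `f = red0 a`. -/
theorem exists_diag_unit (a : ↥(O0 N0 hA hqN)) (v : Place kk κ)
    (hv : Fr kk N0 q (Fr kk N0 q v) = v) (c : kk)
    (hf : v.ord (red0 N0 hA hqN a - algebraMap kk κ c) = 1)
    (hcount : ∀ π Θ : κ, v.ord π = 1 →
      thetaL (π : LaurentSeries kk) ^ (q - 1) = (Θ : LaurentSeries kk) → v.ord Θ = -2) :
    ∃ R : ↥(O0 N0 hA hqN), (psiK0 hqN (a : F0)).eval (a : F0) = ((q : ℕ) : F0) * (R : F0) ∧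
      ∃ hmem : red0 N0 hA hqN R ∈ v.toValuationSubring,
        IsUnit (⟨red0 N0 hA hqN R, hmem⟩ : v.toValuationSubring) := by
  obtain ⟨R, hR, hRred⟩ := exists_diag_psiK0 hA hqN a
  refine ⟨R, hR, ?_⟩
  exact isUnit_of_count (q := q) v hv (red0 N0 hA hqN a) c hf (red0 N0 hA hqN R) hRred
    fun Θ hΘ => hcount _ Θ hf hΘ.symm

end X0

end Fermat.Agent.S36.TripleRedX0
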