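/-
PROJECT V (S36), chain (V13) -> (V12)(iii), slice V-TripleUnitX0 (helper29): **`hr` (and `heval`) of
the point package `TripleFinal.PointHyp` at a node, CLOSED on helper1's `finTDatumOf`** — no `hb0`,
no `hcount`, no Riemann hypotheses: the count is `CountFinX0.count_finTDatumOf` (helper17).

Binder block = `CountFinX0` / `LocFinH11X0`: `O = W A`, `Y : ThreeValX0.Hyp I N0 q κ` + Link
(`hV1`, `hred1`), `hB : CompNormalX0.Base Y (W A) π`, `P : ChartPair hB x₁ x₂ Jc`,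
`hJc : Jc = jk k N0`, `S` a finite set of places off the cusps with `NodesDesc.Desc`, an auxiliary
prime `r ≡ 11 mod 12`, `r ∣ N0`, and the hypotheses of `finTDatumOf` (`hφB hφpow node S_fr fr_fr hrad`).

* `hcount_node_finTDatumOf` : for `v ∈ S` : `∀ π Θ, ord_v π = 1 → (θ π)^(q-1) = Θ → ord_v Θ = -2`
  (the literal `hcount` of `TripleRedX0.exists_diag_unit`);
* `isUnit_finTDatumOf` : `TripleUnit.isUnit_of_count` closed: `ρ` with expansion
  `cof f · (θ f)^(q-1)` is a unit of `O_v` (`f - c` a parameter at `v ∈ S`);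
* `exists_diag_unit_finTDatumOf` : `TripleRedX0.exists_diag_unit` closed: for `a ∈ O0` with
  `red0 a - c` a parameter at `v ∈ S` : `Ψ_a(a) = q · R`, `R ∈ O0`, `red0 R` a unit of `O_v`
  (= `heval` + `hr` of `PointHyp`).
`Fr² v = v` for `v ∈ S` is `CountHid.fr_fr_of_desc`.
-/
import Mathlib
import Fermat.Agent.S36.CountFinX0
import Fermat.Agent.S36.TripleRedX0

set_option autoImplicit false
set_option linter.unusedSectionVars false
set_option linter.style.haveILetI false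
set_option linter.unusedVariables false
set_option synthInstance.maxHeartbeats 400000
set_option maxHeartbeats 1600000

noncomputable section

namespace Fermat.Agent.S36.TripleUnitX0

open ModularCurve AlgebraicCurve IntermediateField IsLocalRing
open Fermat.Agent.S18.B.FkBasics (jk isFF)
open Fermat.Agent.S18.C.SmallDVR
open Fermat.Agent.S36.ChartRing Fermat.Agent.S36.ChartX0 Fermat.Agent.S36.GaussK0Comap
open Fermat.Agent.S36.PowerBasisK0 Fermat.Agent.S36.ThetaK0 Fermat.Agent.S36.LevelQK0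
open Fermat.Agent.S36.MiddleCuspK0
open Fermat.Agent.S36.ThetaL Fermat.Agent.S36.DiagTheta
open Fermat.Agent.S36.SpecDictOne (pointOf nodeSet)
open Fermat.Agent.S34.Euler.FrobSide (P0)
open Fermat.Agent.S34.FrobK
open Fermat.Agent.S36.NodesDesc (Desc)
open Fermat.Agent.S36.BranchX0 Fermat.Agent.S36.BranchX0.ChartPair

local notation "Kb" => AlgebraicClosure ℚ

attribute [local instance 2000] Fermat.Agent.S34.EulerX0.algResFk

/-- shortcut instance (a proposition) -/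
local instance instACkTU (A : ValuationSubring Kb) : IsAlgClosed (ResidueField ↥A) :=
  Fermat.Agent.S18.ResidueBasics.isAlgClosed_residueField A

variable {q : ℕ} [hq : Fact q.Prime] {N0 : ℕ} [NeZero N0] {A : ValuationSubring Kb}
variable {hA : A.LiesOverPrime q} {hqN : ¬ q ∣ N0} [NeZero q]

/-- helper10's `O₀`-algebra structure, on the type written as `PowerBasisK0.FK` -/
local instance algWFKtu (N : ℕ) : Algebra ↥(W A) (FK (A.inertiaSubgroupIn ℚ) N) := algebraW A N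

variable {Y : ThreeValX0.Hyp (A.inertiaSubgroupIn ℚ) N0 q
    ↥(modularFunctionFieldFullC (ResidueField ↥A) N0)}
  (hV1 : Y.V₁ = V1K (A.inertiaSubgroupIn ℚ) hA hqN)
  (hred1 : ∀ (x : FK (A.inertiaSubgroupIn ℚ) (N0 * q)) (h : x ∈ Y.V₁)
    (h' : x ∈ V1K (A.inertiaSubgroupIn ℚ) hA hqN),
    Y.red₁ ⟨x, h⟩ = red1K (A.inertiaSubgroupIn ℚ) hA hqN ⟨x, h'⟩)
  {π : ↥(W A) →+* ResidueField ↥A} {hB : CompNormalX0.Base Y ↥(W A) π}
  {Jc : ↥(modularFunctionFieldFullC (ResidueField ↥A) N0)}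
  (P : ChartPair hB (x1 (A.inertiaSubgroupIn ℚ) N0 q)
    (CompNormalX0.x2 (A.inertiaSubgroupIn ℚ) N0 q) Jc)
  (hJc : Jc = jk (ResidueField ↥A) N0)

include hV1 hred1 hJc in
/-- **the count at a node**, in the literal `hcount` shape of `TripleRedX0.exists_diag_unit`. -/
theorem hcount_node_finTDatumOf [CharP (ResidueField ↥A) q]
    {r : ℕ} (hr : r.Prime) (hr12 : r % 12 = 11) (hrM : r ∣ N0)
    (hφB : ∀ z ∈ chart (ResidueField ↥A) Jc, Y.φ z ∈ chart (ResidueField ↥A) Jc)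
    (hφpow : ∀ z ∈ chart (ResidueField ↥A) Jc, ∃ c ∈ chart (ResidueField ↥A) Jc, Y.φ c = z ^ q)
    {S : Finset (Place (ResidueField ↥A) ↥(modularFunctionFieldFullC (ResidueField ↥A) N0))}
    (hS : ∀ b ∈ S, b ∉ P0 (ResidueField ↥A) N0) (hd : Desc hA hqN S)
    (node : ∀ n' n : Ideal ↥(chart (ResidueField ↥A) Jc), n'.IsMaximal → n.IsMaximal →
      (n'.comap P.red1 = n.comap P.red2 ↔
        n ∈ nodeSet (ResidueField ↥A) N0 (x := Jc) (↑S : Set _) ∧ n' = n.comap (φB hφB)))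
    (S_fr : ∀ n ∈ nodeSet (ResidueField ↥A) N0 (x := Jc) (↑S : Set _),
      n.comap (φB hφB) ∈ nodeSet (ResidueField ↥A) N0 (x := Jc) (↑S : Set _))
    (fr_fr : ∀ n ∈ nodeSet (ResidueField ↥A) N0 (x := Jc) (↑S : Set _),
      (n.comap (φB hφB)).comap (φB hφB) = n)
    (hrad : ∀ a ∈ chart ↥(W A) (CompNormalX0.x2 (A.inertiaSubgroupIn ℚ) N0 q),
      a ∈ Y.W₂₀.nonunits → a ∈ Y.W₁₁.nonunits → a ∈ Y.W₀₂.nonunits →
      ∃ N : ℕ, ∃ y ∈ chart ↥(W A) (CompNormalX0.x2 (A.inertiaSubgroupIn ℚ) N0 q),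
        a ^ N = (q : FK (A.inertiaSubgroupIn ℚ) (N0 * q * q)) * y)
    (v : Place (ResidueField ↥A) ↥(modularFunctionFieldFullC (ResidueField ↥A) N0))
    (hvS : v ∈ S) :
    ∀ π' Θ : ↥(modularFunctionFieldFullC (ResidueField ↥A) N0), v.ord π' = 1 →
      thetaL (π' : LaurentSeries (ResidueField ↥A)) ^ (q - 1) =
        (Θ : LaurentSeries (ResidueField ↥A)) → v.ord Θ = -2 := by
  intro π' Θ hπ hΘ
  obtain ⟨ζ, hζ⟩ := Fermat.Agent.S36.MinpolyJ2.exists_primitiveRoot_q hq.out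
  exact (Fermat.Agent.S36.CountFinX0.count_finTDatumOf hV1 hred1 P hJc hr hr12 hrM hζ hφB hφpow
    hS hd node S_fr fr_fr hrad v
    ((Fermat.Agent.S36.EulerExact.Desc.not_mem_P0_iff_ord_nonneg v).mp (hS v hvS)) hπ hΘ).1 hvS

include hV1 hred1 hJc in
/-- **`hr` at a node, closed** (`TripleUnit.isUnit_of_count`): `ρ` with expansion
`cof f · (θ f)^(q-1)` is a unit of `O_v`, for `f - c` a local parameter at `v ∈ S`. -/
theorem isUnit_finTDatumOf [CharP (ResidueField ↥A) q]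
    {r : ℕ} (hr : r.Prime) (hr12 : r % 12 = 11) (hrM : r ∣ N0)
    (hφB : ∀ z ∈ chart (ResidueField ↥A) Jc, Y.φ z ∈ chart (ResidueField ↥A) Jc)
    (hφpow : ∀ z ∈ chart (ResidueField ↥A) Jc, ∃ c ∈ chart (ResidueField ↥A) Jc, Y.φ c = z ^ q)
    {S : Finset (Place (ResidueField ↥A) ↥(modularFunctionFieldFullC (ResidueField ↥A) N0))}
    (hS : ∀ b ∈ S, b ∉ P0 (ResidueField ↥A) N0) (hd : Desc hA hqN S)
    (node : ∀ n' n : Ideal ↥(chart (ResidueField ↥A) Jc), n'.IsMaximal → n.IsMaximal →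
      (n'.comap P.red1 = n.comap P.red2 ↔
        n ∈ nodeSet (ResidueField ↥A) N0 (x := Jc) (↑S : Set _) ∧ n' = n.comap (φB hφB)))
    (S_fr : ∀ n ∈ nodeSet (ResidueField ↥A) N0 (x := Jc) (↑S : Set _),
      n.comap (φB hφB) ∈ nodeSet (ResidueField ↥A) N0 (x := Jc) (↑S : Set _))
    (fr_fr : ∀ n ∈ nodeSet (ResidueField ↥A) N0 (x := Jc) (↑S : Set _),
      (n.comap (φB hφB)).comap (φB hφB) = n)
    (hrad : ∀ a ∈ chart ↥(W A) (CompNormalX0.x2 (A.inertiaSubgroupIn ℚ) N0 q),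
      a ∈ Y.W₂₀.nonunits → a ∈ Y.W₁₁.nonunits → a ∈ Y.W₀₂.nonunits →
      ∃ N : ℕ, ∃ y ∈ chart ↥(W A) (CompNormalX0.x2 (A.inertiaSubgroupIn ℚ) N0 q),
        a ^ N = (q : FK (A.inertiaSubgroupIn ℚ) (N0 * q * q)) * y)
    (v : Place (ResidueField ↥A) ↥(modularFunctionFieldFullC (ResidueField ↥A) N0))
    (hvS : v ∈ S)
    (f : ↥(modularFunctionFieldFullC (ResidueField ↥A) N0)) (c : ResidueField ↥A)
    (hf : v.ord (f - algebraMap (ResidueField ↥A)
      ↥(modularFunctionFieldFullC (ResidueField ↥A) N0) c) = 1)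
    (ρ : ↥(modularFunctionFieldFullC (ResidueField ↥A) N0))
    (hρ : (ρ : LaurentSeries (ResidueField ↥A)) =
      ((Fermat.Agent.S36.TripleUnit.cof (q := q) f :
        ↥(modularFunctionFieldFullC (ResidueField ↥A) N0)) : LaurentSeries (ResidueField ↥A)) *
        theta (f : LaurentSeries (ResidueField ↥A)) ^ (q - 1)) :
    ∃ hmem : ρ ∈ v.toValuationSubring, IsUnit (⟨ρ, hmem⟩ : v.toValuationSubring) := by
  haveI : PerfectField (ResidueField ↥A) := inferInstance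
  have hv := Fermat.Agent.S36.CountHid.fr_fr_of_desc hA hqN hS hd v hvS
  exact Fermat.Agent.S36.TripleUnit.isUnit_of_count v hv f c hf ρ hρ fun Θ hΘ =>
    hcount_node_finTDatumOf hV1 hred1 P hJc hr hr12 hrM hφB hφpow hS hd node S_fr fr_fr hrad v hvS
      _ Θ hf hΘ.symm

include hV1 hred1 hJc in
/-- **`heval` + `hr` of `TripleFinal.PointHyp` at a node, closed**
(`TripleRedX0.exists_diag_unit`): for `a ∈ O0` with `red0 a - c` a local parameter at `v ∈ S`,
`Ψ_a(a) = q · R` with `R ∈ O0` and `red0 R` a unit of `O_v`. -/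
theorem exists_diag_unit_finTDatumOf [CharP (ResidueField ↥A) q]
    {r : ℕ} (hr : r.Prime) (hr12 : r % 12 = 11) (hrM : r ∣ N0)
    (hφB : ∀ z ∈ chart (ResidueField ↥A) Jc, Y.φ z ∈ chart (ResidueField ↥A) Jc)
    (hφpow : ∀ z ∈ chart (ResidueField ↥A) Jc, ∃ c ∈ chart (ResidueField ↥A) Jc, Y.φ c = z ^ q)
    {S : Finset (Place (ResidueField ↥A) ↥(modularFunctionFieldFullC (ResidueField ↥A) N0))}
    (hS : ∀ b ∈ S, b ∉ P0 (ResidueField ↥A) N0) (hd : Desc hA hqN S)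
    (node : ∀ n' n : Ideal ↥(chart (ResidueField ↥A) Jc), n'.IsMaximal → n.IsMaximal →
      (n'.comap P.red1 = n.comap P.red2 ↔
        n ∈ nodeSet (ResidueField ↥A) N0 (x := Jc) (↑S : Set _) ∧ n' = n.comap (φB hφB)))
    (S_fr : ∀ n ∈ nodeSet (ResidueField ↥A) N0 (x := Jc) (↑S : Set _),
      n.comap (φB hφB) ∈ nodeSet (ResidueField ↥A) N0 (x := Jc) (↑S : Set _))
    (fr_fr : ∀ n ∈ nodeSet (ResidueField ↥A) N0 (x := Jc) (↑S : Set _),
      (n.comap (φB hφB)).comap (φB hφB) = n)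
    (hrad : ∀ a ∈ chart ↥(W A) (CompNormalX0.x2 (A.inertiaSubgroupIn ℚ) N0 q),
      a ∈ Y.W₂₀.nonunits → a ∈ Y.W₁₁.nonunits → a ∈ Y.W₀₂.nonunits →
      ∃ N : ℕ, ∃ y ∈ chart ↥(W A) (CompNormalX0.x2 (A.inertiaSubgroupIn ℚ) N0 q),
        a ^ N = (q : FK (A.inertiaSubgroupIn ℚ) (N0 * q * q)) * y)
    (a : ↥(Fermat.Agent.S36.GaussK0.O0 N0 hA hqN))
    (v : Place (ResidueField ↥A) ↥(modularFunctionFieldFullC (ResidueField ↥A) N0))
    (hvS : v ∈ S) (c : ResidueField ↥A)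
    (hf : v.ord (Fermat.Agent.S36.GaussK0.red0 N0 hA hqN a - algebraMap (ResidueField ↥A)
      ↥(modularFunctionFieldFullC (ResidueField ↥A) N0) c) = 1) :
    ∃ R : ↥(Fermat.Agent.S36.GaussK0.O0 N0 hA hqN),
      (Fermat.Agent.S36.CharpolyK0Psi.psiK0 hqN
        (a : ↥(laurentBaseChange ↥(K0 A) (modularFunctionFieldFull N0)))).eval
          (a : ↥(laurentBaseChange ↥(K0 A) (modularFunctionFieldFull N0))) =
        ((q : ℕ) : ↥(laurentBaseChange ↥(K0 A) (modularFunctionFieldFull N0))) *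
          (R : ↥(laurentBaseChange ↥(K0 A) (modularFunctionFieldFull N0))) ∧
      ∃ hmem : Fermat.Agent.S36.GaussK0.red0 N0 hA hqN R ∈ v.toValuationSubring,
        IsUnit (⟨Fermat.Agent.S36.GaussK0.red0 N0 hA hqN R, hmem⟩ : v.toValuationSubring) := by
  haveI : PerfectField (ResidueField ↥A) := inferInstance
  have hv := Fermat.Agent.S36.CountHid.fr_fr_of_desc hA hqN hS hd v hvS
  exact Fermat.Agent.S36.TripleRedX0.exists_diag_unit hA hqN a v hv c hf
    (hcount_node_finTDatumOf hV1 hred1 P hJc hr hr12 hrM hφB hφpow hS hd node S_fr fr_fr hrad v hvS)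

end Fermat.Agent.S36.TripleUnitX0
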