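/-
PROJECT V (S36), chain (V12)(iii), slice V-TripleHrX0 (helper29): **the fields `hred` and
`(r, hr, heval)` of `TripleFinal.PointHyp` / `pointHyp_intro` at a node, in the LITERAL shape, for
an arbitrary reduction `ρ0 : chart (W A) j ->+* O_v`** of the level-`N0` chart into the valuation
ring of the place `v` with `(ρ0 a : κ) = Y.red₀ a` (`TripleRho0X0.rho0`, `TriplePointX0.rho0`:
`coe_rho0` is `rfl`).

`Y : ThreeValX0.Hyp I N0 q κ` with `hO₀ : Y.O₀ = Og0`, `hred₀ : Y.red₀ = red0z` (the two fields of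
`CompNormalX0Base.Link`), `a ∈ chart (W A) j` with `Y.red₀ a` a local parameter at `v`
(so `s := x0 := a`, `c := 0` in `pointHyp_intro`), `Ψ ∈ (chart (W A) j)[X]` with image
`psiPolyK I a` (`TripleChart.exists_poly_chart`):

* `hred_pointHyp` : `∀ i, ρ0 a ∣ ρ0 (Ψ.coeff i) - ((X - C 0) ^ Ψ.natDegree).coeff i`
  (`TripleRedX0.dvd_coeff_psiK0`; needs only `Fr² v = v`);
* `exists_r_pointHyp` : `∃ r, IsUnit (ρ0 r) ∧ Ψ.eval a = q * r`, CLOSED on helper1's `finTDatumOf`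
  (`TripleUnitX0.exists_diag_unit_finTDatumOf`), given `hchart` : `R ∈ Og0`, `q R ∈ chart` ⟹
  `R ∈ chart` (helper8 `TripleKerX0`).
-/
import Mathlib
import Fermat.Agent.S36.TripleUnitX0
import Fermat.Agent.S36.TripleChart

set_option autoImplicit false
set_option linter.unusedSectionVars false
set_option linter.style.haveILetI false
set_option linter.unusedVariables false
set_option synthInstance.maxHeartbeats 400000
set_option maxHeartbeats 1600000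

noncomputable section

namespace Fermat.Agent.S36.TripleHrX0

open ModularCurve AlgebraicCurve IntermediateField IsLocalRing Polynomial
open Fermat.Agent.S18.B.FkBasics (jk isFF)
open Fermat.Agent.S18.C.SmallDVR
open Fermat.Agent.S36.ChartRing Fermat.Agent.S36.ChartX0 Fermat.Agent.S36.GaussK0Comap
open Fermat.Agent.S36.PowerBasisK0 Fermat.Agent.S36.ThetaK0 Fermat.Agent.S36.LevelQK0
open Fermat.Agent.S36.MiddleCuspK0
open Fermat.Agent.S36.ThetaL Fermat.Agent.S36.DiagTheta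
open Fermat.Agent.S36.SpecDictOne (pointOf nodeSet)
open Fermat.Agent.S34.Euler.FrobSide (P0)
open Fermat.Agent.S34.FrobK
open Fermat.Agent.S36.NodesDesc (Desc)
open Fermat.Agent.S36.BranchX0 Fermat.Agent.S36.BranchX0.ChartPair
open Fermat.Agent.S36.GaussK0 Fermat.Agent.S36.CharpolyK0Psi Fermat.Agent.S36.TripleRedX0
open Fermat.Agent.S36.TripleDescent

local notation "Kb" => AlgebraicClosure ℚ

attribute [local instance 2000] Fermat.Agent.S34.EulerX0.algResFk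

/-- shortcut instance (a proposition) -/
local instance instACkHr (A : ValuationSubring Kb) : IsAlgClosed (ResidueField ↥A) :=
  Fermat.Agent.S18.ResidueBasics.isAlgClosed_residueField A

variable {q : ℕ} [hq : Fact q.Prime] {N0 : ℕ} [NeZero N0] {A : ValuationSubring Kb}
variable {hA : A.LiesOverPrime q} {hqN : ¬ q ∣ N0} [NeZero q]

/-- helper10's `O₀`-algebra structure, on the type written as `PowerBasisK0.FK` -/
local instance algWFKhr (N : ℕ) : Algebra ↥(W A) (FK (A.inertiaSubgroupIn ℚ) N) := algebraW A N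

variable {Y : ThreeValX0.Hyp (A.inertiaSubgroupIn ℚ) N0 q
    ↥(modularFunctionFieldFullC (ResidueField ↥A) N0)}
  (hO₀ : Y.O₀ = Og0 N0 hA hqN)
  (hred₀ : ∀ (g : FK0 A N0) (hg : g ∈ Y.O₀) (hg' : g ∈ Og0 N0 hA hqN),
    Y.red₀ ⟨g, hg⟩ = red0z N0 hA hqN ⟨g, hg'⟩)

/-! ### the bridge `chart (W A) j ⊆ Y.O₀ = Og0 = O0` -/

include hO₀ in
theorem mem_O0_of_mem {g : FK0 A N0} (hg : g ∈ Y.O₀) : g ∈ O0 N0 hA hqN :=
  (mem_Og0_iff_mem_O0 hA hqN g).mp (hO₀ ▸ hg)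

include hO₀ hred₀ in
/-- `Y.red₀ = GaussK0.red0` -/
theorem red₀_eq_red0 {g : FK0 A N0} (hg : g ∈ Y.O₀) :
    Y.red₀ ⟨g, hg⟩ = red0 N0 hA hqN ⟨g, mem_O0_of_mem hO₀ hg⟩ :=
  (hred₀ g hg (hO₀ ▸ hg)).trans (red0z_eq_red0 hA hqN g (hO₀ ▸ hg) (mem_O0_of_mem hO₀ hg))

/-! ### `hred` -/

section Hred

variable [CharP (ResidueField ↥A) q]
  (v : Place (ResidueField ↥A) ↥(modularFunctionFieldFullC (ResidueField ↥A) N0))
  (ρ0 : ↥(chart ↥(W A) (j0K (A.inertiaSubgroupIn ℚ) N0)) →+* ↥v.toValuationSubring)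
  (hmemO : ∀ a : ↥(chart ↥(W A) (j0K (A.inertiaSubgroupIn ℚ) N0)),
    (a : FK (A.inertiaSubgroupIn ℚ) N0) ∈ Y.O₀)
  (hcoe : ∀ a : ↥(chart ↥(W A) (j0K (A.inertiaSubgroupIn ℚ) N0)),
    ((ρ0 a : ↥v.toValuationSubring) : ↥(modularFunctionFieldFullC (ResidueField ↥A) N0)) =
      Y.red₀ ⟨(a : FK (A.inertiaSubgroupIn ℚ) N0), hmemO a⟩)

include hO₀ hred₀ hcoe in
/-- **`hred` of `pointHyp_intro`** (`s := a`, `c := 0`). -/
theorem hred_pointHyp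
    (hv : Fr (ResidueField ↥A) N0 q (Fr (ResidueField ↥A) N0 q v) = v)
    (a : ↥(chart ↥(W A) (j0K (A.inertiaSubgroupIn ℚ) N0)))
    (hf : v.ord (Y.red₀ ⟨(a : FK (A.inertiaSubgroupIn ℚ) N0), hmemO a⟩) = 1)
    (Ψ : Polynomial ↥(chart ↥(W A) (j0K (A.inertiaSubgroupIn ℚ) N0)))
    (hdeg : Ψ.natDegree = q ^ 2 + q)
    (hΨ : Ψ.map (algebraMap ↥(chart ↥(W A) (j0K (A.inertiaSubgroupIn ℚ) N0))
        (FK (A.inertiaSubgroupIn ℚ) N0)) =
      psiPolyK (A.inertiaSubgroupIn ℚ) hq.out hqN (a : FK (A.inertiaSubgroupIn ℚ) N0)) :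
    ∀ i, ρ0 a ∣ ρ0 (Ψ.coeff i) -
      ((X - C (0 : ↥v.toValuationSubring)) ^ Ψ.natDegree).coeff i := by
  intro i
  have ha0 := mem_O0_of_mem hO₀ (hmemO a)
  have hfa := red₀_eq_red0 hO₀ hred₀ (hmemO a)
  have hf' : v.ord (red0 N0 hA hqN ⟨(a : FK (A.inertiaSubgroupIn ℚ) N0), ha0⟩ - algebraMap (ResidueField ↥A)
      ↥(modularFunctionFieldFullC (ResidueField ↥A) N0) 0) = 1 := by
    rw [map_zero, sub_zero, ← hfa]
    exact hf
  obtain ⟨hc, hmem, hdvd⟩ := dvd_coeff_psiK0 hA hqN ⟨(a : FK (A.inertiaSubgroupIn ℚ) N0), ha0⟩ v hv 0 hf' i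
  have hx : ((Ψ.coeff i : ↥(chart ↥(W A) (j0K (A.inertiaSubgroupIn ℚ) N0))) : FK (A.inertiaSubgroupIn ℚ) N0) =
      (psiK0 hqN (a : FK (A.inertiaSubgroupIn ℚ) N0)).coeff i := by
    have h1 : (psiK0 hqN (a : FK (A.inertiaSubgroupIn ℚ) N0)).coeff i =
        (Ψ.map (algebraMap ↥(chart ↥(W A) (j0K (A.inertiaSubgroupIn ℚ) N0))
          (FK (A.inertiaSubgroupIn ℚ) N0))).coeff i := by
      rw [hΨ]
      rfl
    rw [h1, coeff_map]
    rfl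
  have e1 : (⟨red0 N0 hA hqN ⟨(a : FK (A.inertiaSubgroupIn ℚ) N0), ha0⟩ - algebraMap (ResidueField ↥A)
      ↥(modularFunctionFieldFullC (ResidueField ↥A) N0) 0,
      Fermat.Agent.S36.SpecDictLocal.mem_of_ord_eq_one v hf'⟩ : ↥v.toValuationSubring) = ρ0 a := by
    apply Subtype.ext
    show red0 N0 hA hqN ⟨(a : FK (A.inertiaSubgroupIn ℚ) N0), ha0⟩ - algebraMap (ResidueField ↥A)
      ↥(modularFunctionFieldFullC (ResidueField ↥A) N0) 0 = _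
    rw [hcoe a, map_zero, sub_zero, hfa]
  have e2 : (⟨red0 N0 hA hqN ⟨(psiK0 hqN (a : FK (A.inertiaSubgroupIn ℚ) N0)).coeff i, hc⟩, hmem⟩ :
      ↥v.toValuationSubring) = ρ0 (Ψ.coeff i) := by
    apply Subtype.ext
    show red0 N0 hA hqN ⟨(psiK0 hqN (a : FK (A.inertiaSubgroupIn ℚ) N0)).coeff i, hc⟩ = _
    rw [hcoe (Ψ.coeff i), red₀_eq_red0 hO₀ hred₀ (hmemO (Ψ.coeff i))]
    congr 1
    exact Subtype.ext hx.symm
  have e3 : (⟨algebraMap (ResidueField ↥A) ↥(modularFunctionFieldFullC (ResidueField ↥A) N0) 0,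
      v.algebraMap_mem' 0⟩ : ↥v.toValuationSubring) = 0 := Subtype.ext (map_zero _)
  rw [e1, e2, e3, ← hdeg] at hdvd
  exact hdvd

end Hred

/-! ### `r`, `hr`, `heval` -/

variable
  (hV1 : Y.V₁ = V1K (A.inertiaSubgroupIn ℚ) hA hqN)
  (hred1 : ∀ (x : FK (A.inertiaSubgroupIn ℚ) (N0 * q)) (h : x ∈ Y.V₁)
    (h' : x ∈ V1K (A.inertiaSubgroupIn ℚ) hA hqN),
    Y.red₁ ⟨x, h⟩ = red1K (A.inertiaSubgroupIn ℚ) hA hqN ⟨x, h'⟩)
  {π : ↥(W A) →+* ResidueField ↥A} {hB : CompNormalX0.Base Y ↥(W A) π}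
  {Jc : ↥(modularFunctionFieldFullC (ResidueField ↥A) N0)}
  (P : ChartPair hB (x1 (A.inertiaSubgroupIn ℚ) N0 q)
    (CompNormalX0.x2 (A.inertiaSubgroupIn ℚ) N0 q) Jc)
  (hJc : Jc = jk (ResidueField ↥A) N0)

include hO₀ hred₀ hV1 hred1 hJc in
/-- **`r`, `hr`, `heval` of `pointHyp_intro`** (`x0 := a`, `q0 := q`), closed on helper1's
`finTDatumOf`. -/
theorem exists_r_pointHyp [CharP (ResidueField ↥A) q]
    {r : ℕ} (hr : r.Prime) (hr12 : r % 12 = 11) (hrM : r ∣ N0)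
    (hφB : ∀ z ∈ chart (ResidueField ↥A) Jc, Y.φ z ∈ chart (ResidueField ↥A) Jc)
    (hφpow : ∀ z ∈ chart (ResidueField ↥A) Jc, ∃ c ∈ chart (ResidueField ↥A) Jc, Y.φ c = z ^ q)
    {S : Finset (Place (ResidueField ↥A) ↥(modularFunctionFieldFullC (ResidueField ↥A) N0))}
    (hS : ∀ b ∈ S, b ∉ P0 (ResidueField ↥A) N0) (hd : Desc hA hqN S)
    (node : ∀ n' n : Ideal ↥(chart (ResidueField ↥A) Jc), n'.IsMaximal → n.IsMaximal →
      (n'.comap P.red1 = n.comap P.red2 ↔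
        n ∈ nodeSet (ResidueField ↥A) N0 (x := Jc) (↑S : Set _) ∧ n' = n.comap (φB hφB)))
    (S_fr : ∀ n ∈ nodeSet (ResidueField ↥A) N0 (x := Jc) (↑S : Set _),
      n.comap (φB hφB) ∈ nodeSet (ResidueField ↥A) N0 (x := Jc) (↑S : Set _))
    (fr_fr : ∀ n ∈ nodeSet (ResidueField ↥A) N0 (x := Jc) (↑S : Set _),
      (n.comap (φB hφB)).comap (φB hφB) = n)
    (hrad : ∀ a ∈ chart ↥(W A) (CompNormalX0.x2 (A.inertiaSubgroupIn ℚ) N0 q),
      a ∈ Y.W₂₀.nonunits → a ∈ Y.W₁₁.nonunits → a ∈ Y.W₀₂.nonunits →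
      ∃ N : ℕ, ∃ y ∈ chart ↥(W A) (CompNormalX0.x2 (A.inertiaSubgroupIn ℚ) N0 q),
        a ^ N = (q : FK (A.inertiaSubgroupIn ℚ) (N0 * q * q)) * y)
    (v : Place (ResidueField ↥A) ↥(modularFunctionFieldFullC (ResidueField ↥A) N0))
    (hvS : v ∈ S)
    (ρ0 : ↥(chart ↥(W A) (j0K (A.inertiaSubgroupIn ℚ) N0)) →+* ↥v.toValuationSubring)
    (hmemO : ∀ a : ↥(chart ↥(W A) (j0K (A.inertiaSubgroupIn ℚ) N0)),
      (a : FK (A.inertiaSubgroupIn ℚ) N0) ∈ Y.O₀)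
    (hcoe : ∀ a : ↥(chart ↥(W A) (j0K (A.inertiaSubgroupIn ℚ) N0)),
      ((ρ0 a : ↥v.toValuationSubring) : ↥(modularFunctionFieldFullC (ResidueField ↥A) N0)) =
        Y.red₀ ⟨(a : FK (A.inertiaSubgroupIn ℚ) N0), hmemO a⟩)
    (hchart : ∀ R : FK (A.inertiaSubgroupIn ℚ) N0, R ∈ Og0 N0 hA hqN →
      ((q : ℕ) : FK (A.inertiaSubgroupIn ℚ) N0) * R ∈
        chart ↥(W A) (j0K (A.inertiaSubgroupIn ℚ) N0) →
      R ∈ chart ↥(W A) (j0K (A.inertiaSubgroupIn ℚ) N0))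
    (a : ↥(chart ↥(W A) (j0K (A.inertiaSubgroupIn ℚ) N0)))
    (hf : v.ord (Y.red₀ ⟨(a : FK (A.inertiaSubgroupIn ℚ) N0), hmemO a⟩) = 1)
    (Ψ : Polynomial ↥(chart ↥(W A) (j0K (A.inertiaSubgroupIn ℚ) N0)))
    (hΨ : Ψ.map (algebraMap ↥(chart ↥(W A) (j0K (A.inertiaSubgroupIn ℚ) N0))
        (FK (A.inertiaSubgroupIn ℚ) N0)) =
      psiPolyK (A.inertiaSubgroupIn ℚ) hq.out hqN (a : FK (A.inertiaSubgroupIn ℚ) N0)) :
    ∃ r' : ↥(chart ↥(W A) (j0K (A.inertiaSubgroupIn ℚ) N0)), IsUnit (ρ0 r') ∧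
      Ψ.eval a = ((q : ℕ) : ↥(chart ↥(W A) (j0K (A.inertiaSubgroupIn ℚ) N0))) * r' := by
  have ha0 := mem_O0_of_mem hO₀ (hmemO a)
  have hfa := red₀_eq_red0 hO₀ hred₀ (hmemO a)
  have hf' : v.ord (red0 N0 hA hqN ⟨(a : FK (A.inertiaSubgroupIn ℚ) N0), ha0⟩ - algebraMap (ResidueField ↥A)
      ↥(modularFunctionFieldFullC (ResidueField ↥A) N0) 0) = 1 := by
    rw [map_zero, sub_zero, ← hfa]
    exact hf
  obtain ⟨R, hR, hmem, hunit⟩ :=
    Fermat.Agent.S36.TripleUnitX0.exists_diag_unit_finTDatumOf hV1 hred1 P hJc hr hr12 hrM hφB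
      hφpow hS hd node S_fr fr_fr hrad ⟨(a : FK (A.inertiaSubgroupIn ℚ) N0), ha0⟩ v hvS 0 hf'
  -- the value `Ψ(a)` in `F₀`
  have heval : ((Ψ.eval a : ↥(chart ↥(W A) (j0K (A.inertiaSubgroupIn ℚ) N0))) :
      FK (A.inertiaSubgroupIn ℚ) N0) =
      (psiPolyK (A.inertiaSubgroupIn ℚ) hq.out hqN (a : FK (A.inertiaSubgroupIn ℚ) N0)).eval
        (a : FK (A.inertiaSubgroupIn ℚ) N0) := by
    rw [← hΨ, eval_map]
    exact (Polynomial.eval₂_at_apply (algebraMap ↥(chart ↥(W A) (j0K (A.inertiaSubgroupIn ℚ) N0))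
      (FK (A.inertiaSubgroupIn ℚ) N0)) a).symm
  obtain ⟨R', hR'⟩ : ∃ R' : FK (A.inertiaSubgroupIn ℚ) N0, R' = (R : FK0 A N0) := ⟨_, rfl⟩
  have hR2 : (psiPolyK (A.inertiaSubgroupIn ℚ) hq.out hqN
      (a : FK (A.inertiaSubgroupIn ℚ) N0)).eval (a : FK (A.inertiaSubgroupIn ℚ) N0) =
      ((q : ℕ) : FK (A.inertiaSubgroupIn ℚ) N0) * R' := by
    rw [hR']
    exact hR
  have hqR : ((q : ℕ) : FK (A.inertiaSubgroupIn ℚ) N0) * R' ∈
      chart ↥(W A) (j0K (A.inertiaSubgroupIn ℚ) N0) := by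
    rw [← hR2, ← heval]
    exact (Ψ.eval a).2
  have hROg : R' ∈ Og0 N0 hA hqN := by
    rw [hR']
    exact (mem_Og0_iff_mem_O0 hA hqN _).mpr R.2
  have hRchart := hchart R' hROg hqR
  refine ⟨⟨R', hRchart⟩, ?_, ?_⟩
  · have e : ρ0 ⟨R', hRchart⟩ =
        (⟨red0 N0 hA hqN R, hmem⟩ : ↥v.toValuationSubring) := by
      apply Subtype.ext
      rw [hcoe, red₀_eq_red0 hO₀ hred₀ (hmemO ⟨R', hRchart⟩)]
      congr 1
      exact Subtype.ext hR'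
    rw [e]
    exact hunit
  · apply Subtype.ext
    rw [heval, hR2]
    rfl

end Fermat.Agent.S36.TripleHrX0
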