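/-
PROJECT V (S36), chain (V12)(iii), slice V-TripleInstX0 (helper25; HEDGE / second route next to
helper4's `S36/TripleX0Final`): **the instance block of `S36/TripleFinal` at `X₀`**, and the
specialised final call.

`A | q`, `q ∤ N0`, `I` the inertia group of `A`, `O = W A` (helper10's `ChartX0.algebraW`, on the
type written `PowerBasisK0.FK I N`), `K = FK I N0`, `F = FK I (N0 q²)`,
`R0 = chart (W A) (j0K I N0)` (level `N0`), `R2 = chart (W A) (CompNormalX0.x2 I N0 q)` (level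
`N0 q²`, the ring of helper1's `finTDatumOf`).  All maps go through `β² = TripleDescent.beta2K I`
(`= CompNormalX0.a₂ = ChartsX0.a2`, by `rfl`).

* `b2c : R0 →+* R2` (`coe_b2c : (b2c x : F) = β² x`, `rfl`), `a2c : R0 →+* R2` (`α²`),
  `b2c_injective`, `a2c_injective`, `beta2K_mem_chart`, `alpha2K_mem_chart`;
* `algKF : Algebra K F := β².toAlgebra`, `algR0R2 : Algebra R0 R2 := b2c.toAlgebra` (reducible
  defs, NOT instances), `props_R0`, `props_R2` (noetherian, integrally closed, fraction fields);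
* `isIntegralElem_b2c` : `R2` is integral over `R0` through `b2c`;
* `locPrincipal_X0` : **`TripleFinal.locPrincipal_of_point` with the whole instance block plugged
  in** (no instance argument left; `deg P = q² + q` replaces the `finrank` hypothesis);
* `PointHypX0`, `pointHypX0_intro`, `locPrincipal_of_pointHypX0`, **`hS_X0`** : the literal `hS`
  of `AllPointsT.locPrincipal_of_isMaximal` / `LocX0WireE.hloc_X0_E` for ANY `TDatum` on `R2`, from a
  point package at every `x₂₀(n) ∩ R0`, `n ∈ S`;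
* `exists_psi_X0` : the fields `P hP hdP y hy` for `P = Ψ_a`, `y = α²a = a2c a` (`a ∈ R0`).
-/
import Mathlib
import Fermat.Agent.S36.TripleFinal
import Fermat.Agent.S36.TripleChart
import Fermat.Agent.S36.ChartsX0Leaf
import Fermat.Agent.S36.ChartMapsX0

set_option autoImplicit false
set_option linter.unusedSectionVars false
set_option linter.style.haveILetI false
set_option linter.unusedVariables false
set_option synthInstance.maxHeartbeats 400000
set_option maxHeartbeats 1600000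

noncomputable section

universe u

namespace Fermat.Agent.S36.TripleInstX0

open Polynomial IsLocalRing IntermediateField
open Fermat.Agent.S18.C.SmallDVR
open Fermat.Agent.S36.PowerBasisK0 Fermat.Agent.S36.JIntegral
open Fermat.Agent.S36.ChartRing Fermat.Agent.S36.ChartX0
open Fermat.Agent.S36.TripleDescent Fermat.Agent.S36.LocalGenCore

local notation "Kb" => AlgebraicClosure ℚ

/-- helper10's `O₀`-algebra structure, on the type written as `PowerBasisK0.FK` -/
local instance algWFKt {A : ValuationSubring Kb} (N : ℕ) :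
    Algebra ↥(W A) (FK (A.inertiaSubgroupIn ℚ) N) := algebraW A N

variable {A : ValuationSubring Kb} {N0 q : ℕ} [NeZero N0] [NeZero q] [NeZero (N0 * q)]
  [NeZero (N0 * q * q)] [hq : Fact q.Prime]

set_option quotPrecheck false in
/-- `K = F_{K₀}(N0)` -/
local notation "KK" => FK (ValuationSubring.inertiaSubgroupIn ℚ A) N0
set_option quotPrecheck false in
/-- `F = F_{K₀}(N0 q²)` -/
local notation "FF" => FK (ValuationSubring.inertiaSubgroupIn ℚ A) (N0 * q * q)
set_option quotPrecheck false in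
/-- the chart ring of level `N0` (the finite chart of `j`) -/
local notation "R0" => ↥(chart ↥(W A) (j0K (ValuationSubring.inertiaSubgroupIn ℚ A) N0))
set_option quotPrecheck false in
/-- the chart ring of level `N0 q²` (the finite chart of `x₂`) -/
local notation "R2" =>
  ↥(chart ↥(W A) (CompNormalX0.x2 (ValuationSubring.inertiaSubgroupIn ℚ A) N0 q))

/-- `β²` is `W A`-linear -/
theorem beta2K_algebraMap_W (c : ↥(W A)) :
    beta2K (N0 := N0) (q := q) (A.inertiaSubgroupIn ℚ) (algebraMap ↥(W A) KK c) =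
      algebraMap ↥(W A) FF c :=
  ChartsX0.a2_algebraMap_W A N0 c

/-- `α²` is `W A`-linear -/
theorem alpha2K_algebraMap_W (c : ↥(W A)) :
    alpha2K (N0 := N0) (q := q) (A.inertiaSubgroupIn ℚ) (algebraMap ↥(W A) KK c) =
      algebraMap ↥(W A) FF c :=
  ChartsX0.a0_algebraMap_W A N0 c

/-- `β²` maps the chart of `j` into the chart of `x₂` -/
theorem beta2K_mem_chart {x : KK} (hx : x ∈ chart ↥(W A) (j0K (A.inertiaSubgroupIn ℚ) N0)) :
    beta2K (N0 := N0) (q := q) (A.inertiaSubgroupIn ℚ) x ∈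
      chart ↥(W A) (CompNormalX0.x2 (A.inertiaSubgroupIn ℚ) N0 q) := by
  rw [← ChartsX0Leaf.x2_eq]
  exact ChartsX0.a_mem_chart_x2 (A.inertiaSubgroupIn ℚ) ↥(W A) hq.out _
    (beta2K_algebraMap_W (N0 := N0) (q := q)) 2 rfl hx

/-- `α²` maps the chart of `j` into the chart of `x₂` -/
theorem alpha2K_mem_chart {x : KK} (hx : x ∈ chart ↥(W A) (j0K (A.inertiaSubgroupIn ℚ) N0)) :
    alpha2K (N0 := N0) (q := q) (A.inertiaSubgroupIn ℚ) x ∈
      chart ↥(W A) (CompNormalX0.x2 (A.inertiaSubgroupIn ℚ) N0 q) := by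
  rw [← ChartsX0Leaf.x2_eq]
  exact ChartsX0.a_mem_chart_x2 (A.inertiaSubgroupIn ℚ) ↥(W A) hq.out _
    (alpha2K_algebraMap_W (N0 := N0) (q := q)) 0 (ChartsX0.a0_j0K _ N0 q) hx

variable (A N0 q) in
/-- `β² : R0 →+* R2`, the restriction of `TripleDescent.beta2K` to the chart rings -/
def b2c : R0 →+* R2 :=
  ChartMapsX0.chartMap (O := ↥(W A)) (beta2K (N0 := N0) (q := q) (A.inertiaSubgroupIn ℚ))
    fun x hx => beta2K_mem_chart hx

variable (A N0 q) in
/-- `α² : R0 →+* R2`, the restriction of `TripleDescent.alpha2K` to the chart rings -/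
def a2c : R0 →+* R2 :=
  ChartMapsX0.chartMap (O := ↥(W A)) (alpha2K (N0 := N0) (q := q) (A.inertiaSubgroupIn ℚ))
    fun x hx => alpha2K_mem_chart hx

@[simp] theorem coe_b2c (x : R0) :
    ((b2c A N0 q x : R2) : FF) = beta2K (A.inertiaSubgroupIn ℚ) (x : KK) := rfl

@[simp] theorem coe_a2c (x : R0) :
    ((a2c A N0 q x : R2) : FF) = alpha2K (A.inertiaSubgroupIn ℚ) (x : KK) := rfl

theorem b2c_injective : Function.Injective (b2c A N0 q) := ChartMapsX0.chartMap_injective _ _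

theorem a2c_injective : Function.Injective (a2c A N0 q) := ChartMapsX0.chartMap_injective _ _

/-- `β²` preserves the constants -/
theorem b2c_natCast (n : ℕ) : b2c A N0 q (n : R0) = (n : R2) := map_natCast _ n

/-! ### the instance block of `S36/TripleFinal` at `X₀` -/

variable (A N0 q) in
/-- `K = F_{K₀}(N0) → F = F_{K₀}(N0 q²)` through `β²` -/
@[reducible] def algKF : Algebra KK FF :=
  (beta2K (N0 := N0) (q := q) (A.inertiaSubgroupIn ℚ)).toAlgebra

variable (A N0 q) in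
/-- `R0 → R2` through `β²` -/
@[reducible] def algR0R2 : Algebra R0 R2 := (b2c A N0 q).toAlgebra

/-- the chart ring of level `N0` is noetherian, integrally closed, with fraction field `K` -/
theorem props_R0 (hA : A.LiesOverPrime q) :
    IsNoetherianRing R0 ∧ IsIntegrallyClosed R0 ∧ IsFractionRing R0 KK := by
  have htr : Transcendental (R := ↥(K0 A)) (A := FK0 A N0) (j0K (A.inertiaSubgroupIn ℚ) N0) :=
    ChartsX0.transcendental_j0K (A.inertiaSubgroupIn ℚ) N0
  exact chartX0_props hA N0 htr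

/-- the chart ring of level `N0 q²` is noetherian, integrally closed, with fraction field `F` -/
theorem props_R2 (hA : A.LiesOverPrime q) :
    IsNoetherianRing R2 ∧ IsIntegrallyClosed R2 ∧ IsFractionRing R2 FF :=
  chartX0_props hA (N0 * q * q) (ChartsX0Leaf.transcendental_x2_K0 A N0)

/-- **`R2` is integral over `R0` through `β²`**: `R2` is the integral closure of `O[j₂]` and
`O[j₂] = β²(O[j]) ⊆ β²(R0)` -/
theorem isIntegralElem_b2c (y : R2) :
    RingHom.IsIntegralElem (R := R0) (A := R2) (b2c A N0 q) y := by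
  -- `y ∈ chart O j₂`
  have h1 : (y : FF) ∈ chart ↥(W A) (j2L (A.inertiaSubgroupIn ℚ) N0 q) := by
    have h : ∀ z : FF, z ∈ chart ↥(W A) (CompNormalX0.x2 (A.inertiaSubgroupIn ℚ) N0 q) →
        z ∈ chart ↥(W A) (j2L (A.inertiaSubgroupIn ℚ) N0 q) := by
      intro z hz
      rw [← ChartsX0Leaf.x2_eq,
        ChartsX0.mem_chart_x2_iff (A.inertiaSubgroupIn ℚ) ↥(W A) hq.out 2] at hz
      exact hz
    exact h _ y.2
  -- integrality over `β²(chart O j)` inside `F`
  have h2 : RingHom.IsIntegralElem (R := R0) (A := FF)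
      ((beta2K (N0 := N0) (q := q) (A.inertiaSubgroupIn ℚ)).comp (algebraMap R0 KK))
      (y : FF) := by
    refine TripleChart.isIntegralElem_of_range_le
      (algebraMap (Algebra.adjoin ↥(W A) ({j2L (A.inertiaSubgroupIn ℚ) N0 q} : Set FF)) FF)
      _ (fun c => ?_) h1
    have hc : (c : FF) ∈ Algebra.adjoin ↥(W A)
        ({beta2K (A.inertiaSubgroupIn ℚ) (j0K (A.inertiaSubgroupIn ℚ) N0)} : Set FF) := by
      rw [TripleChart.beta2K_j0K]; exact c.2
    obtain ⟨w, hw, hwc⟩ := TripleChart.exists_map_eq_of_mem_adjoin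
      (beta2K (N0 := N0) (q := q) (A.inertiaSubgroupIn ℚ)) beta2K_algebraMap_W
      (j0K (A.inertiaSubgroupIn ℚ) N0) hc
    have hwR : w ∈ chart ↥(W A) (j0K (A.inertiaSubgroupIn ℚ) N0) := by
      have h : IsIntegral
          (Algebra.adjoin ↥(W A) ({j0K (A.inertiaSubgroupIn ℚ) N0} : Set KK))
          (algebraMap (Algebra.adjoin ↥(W A) ({j0K (A.inertiaSubgroupIn ℚ) N0} : Set KK))
            KK ⟨w, hw⟩) :=
        isIntegral_algebraMap
      exact h
    exact ⟨⟨w, hwR⟩, hwc⟩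
  obtain ⟨p, hp, hroot⟩ := h2
  refine ⟨p, hp, ?_⟩
  apply Subtype.ext
  have hcomp : (algebraMap R2 FF).comp (b2c A N0 q) =
      (beta2K (N0 := N0) (q := q) (A.inertiaSubgroupIn ℚ)).comp (algebraMap R0 KK) :=
    RingHom.ext fun _ => rfl
  have h3 := Polynomial.hom_eval₂ p (b2c A N0 q) (algebraMap R2 FF) y
  rw [hcomp] at h3
  exact h3.trans hroot


/-- **(V12)(iii) at one point of `X₀`**: `TripleFinal.locPrincipal_of_point` with the whole instance
block plugged in (`A₀ = R0`, `A = R2`, `K`, `F`, all maps through `β²`); the degree hypothesis is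
`deg P = q² + q`. -/
theorem locPrincipal_X0 (hA : A.LiesOverPrime q) (hqN : ¬ q ∣ N0)
    (m₀ : Ideal R0) [hm₀ : m₀.IsPrime]
    {κ : Type*} [Field κ] (Ob : ValuationSubring κ) [IsDiscreteValuationRing Ob]
    (ρ0 : R0 →+* Ob) (hm0 : ∀ a : R0, a ∈ m₀ ↔ ρ0 a ∈ maximalIdeal Ob)
    (hloc : ∀ d : Ob, ∃ a t : R0, t ∉ m₀ ∧ ρ0 t * d = ρ0 a)
    {q0 : R0} (hker : RingHom.ker ρ0 = Ideal.span {q0}) (hq0 : q0 ≠ 0)
    {s : R0} (hs : Irreducible (ρ0 s))
    {P : R0[X]} (hP : P.Monic) (hdP : P.natDegree = q ^ 2 + q) (x0 : R0) (c : Ob)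
    (hc : ρ0 s ∣ ρ0 x0 - c)
    (hred : ∀ i, ρ0 s ∣ ρ0 (P.coeff i) - ((X - C c) ^ P.natDegree).coeff i)
    {r : R0} (hr : IsUnit (ρ0 r)) (heval : P.eval x0 = q0 * r)
    (y : R2) (hy : P.eval₂ (b2c A N0 q) y = 0)
    (m : Ideal R2) [hm : m.IsMaximal] (hmm₀ : m.comap (b2c A N0 q) = m₀) :
    LocPrincipal (A := R2) (F := FF) m := by
  obtain ⟨i1, i2, i3⟩ := props_R0 (N0 := N0) hA
  obtain ⟨k1, k2, k3⟩ := props_R2 (N0 := N0) (q := q) hA
  letI aKF : Algebra KK FF := algKF A N0 q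
  letI a02 : Algebra R0 R2 := algR0R2 A N0 q
  haveI t1 := IsScalarTower.of_algebraMap_eq (R := R0) (S := KK) (A := FF) (fun _ => rfl)
  haveI t2 := IsScalarTower.of_algebraMap_eq (R := R0) (S := R2) (A := FF) (fun _ => rfl)
  haveI fd : FiniteDimensional KK FF := finite_beta2K (A.inertiaSubgroupIn ℚ) hq.out hqN
  haveI int : Algebra.IsIntegral R0 R2 := ⟨fun y => isIntegralElem_b2c y⟩
  have hdeg : Module.finrank KK FF = P.natDegree := by
    rw [hdP]
    exact finrank_beta2K (A.inertiaSubgroupIn ℚ) hq.out hqN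
  have hd : P.natDegree ≠ 0 := by
    rw [hdP]
    exact (Nat.add_pos_right _ hq.out.pos).ne'
  exact TripleFinal.locPrincipal_of_point (A₀ := R0) (A := R2) (K := KK) (F := FF) m₀ Ob ρ0 hm0 hloc
    hker hq0 hs hP hd x0 c hc hred hr heval y hy hdeg m hmm₀


/-! ### the point package at `X₀` -/

variable (A N0 q) in
/-- **the point package of (V12)(iii) at `X₀`** = `TripleFinal.PointHyp` for the instance block of
this file, written out (no instance argument): the inputs of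
`TripleLocal.eisensteinFibre_localization'` at the prime `m₀` of `R0`, with `deg P = q² + q` and a
root `y ∈ R2` of `P` (coefficients through `b2c = β²`). -/
def PointHypX0 (m₀ : Ideal R0) : Prop :=
  ∃ (κ : Type u) (_ : Field κ) (Ob : ValuationSubring κ) (_ : IsDiscreteValuationRing Ob)
    (ρ0 : R0 →+* Ob),
    (∀ a : R0, a ∈ m₀ ↔ ρ0 a ∈ maximalIdeal Ob) ∧
    (∀ d : Ob, ∃ a t : R0, t ∉ m₀ ∧ ρ0 t * d = ρ0 a) ∧
    ∃ q0 : R0, RingHom.ker ρ0 = Ideal.span {q0} ∧ q0 ≠ 0 ∧
    ∃ s : R0, Irreducible (ρ0 s) ∧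
    ∃ P : R0[X], P.Monic ∧ P.natDegree = q ^ 2 + q ∧
    ∃ (x0 : R0) (c : Ob), ρ0 s ∣ ρ0 x0 - c ∧
      (∀ i, ρ0 s ∣ ρ0 (P.coeff i) - ((X - C c) ^ P.natDegree).coeff i) ∧
    ∃ r : R0, IsUnit (ρ0 r) ∧ P.eval x0 = q0 * r ∧
    ∃ y : R2, P.eval₂ (b2c A N0 q) y = 0

/-- the constructor of `PointHypX0` -/
theorem pointHypX0_intro (m₀ : Ideal R0)
    {κ : Type u} [Field κ] (Ob : ValuationSubring κ) [IsDiscreteValuationRing Ob]
    (ρ0 : R0 →+* Ob) (hm0 : ∀ a : R0, a ∈ m₀ ↔ ρ0 a ∈ maximalIdeal Ob)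
    (hloc : ∀ d : Ob, ∃ a t : R0, t ∉ m₀ ∧ ρ0 t * d = ρ0 a)
    {q0 : R0} (hker : RingHom.ker ρ0 = Ideal.span {q0}) (hq0 : q0 ≠ 0)
    {s : R0} (hs : Irreducible (ρ0 s))
    {P : R0[X]} (hP : P.Monic) (hdP : P.natDegree = q ^ 2 + q) (x0 : R0) (c : Ob)
    (hc : ρ0 s ∣ ρ0 x0 - c)
    (hred : ∀ i, ρ0 s ∣ ρ0 (P.coeff i) - ((X - C c) ^ P.natDegree).coeff i)
    {r : R0} (hr : IsUnit (ρ0 r)) (heval : P.eval x0 = q0 * r)
    (y : R2) (hy : P.eval₂ (b2c A N0 q) y = 0) : PointHypX0.{u} A N0 q m₀ :=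
  ⟨κ, inferInstance, Ob, inferInstance, ρ0, hm0, hloc, q0, hker, hq0, s, hs, P, hP, hdP,
    x0, c, hc, hred, r, hr, heval, y, hy⟩

/-- **(V12)(iii) at one point of `X₀`**, from the point package -/
theorem locPrincipal_of_pointHypX0 (hA : A.LiesOverPrime q) (hqN : ¬ q ∣ N0)
    (m : Ideal R2) [hm : m.IsMaximal]
    (h : PointHypX0.{u} A N0 q (m.comap (b2c A N0 q))) :
    LocPrincipal (A := R2) (F := FF) m := by
  obtain ⟨κ, hκ, Ob, hOb, ρ0, hm0, hloc, q0, hker, hq0, s, hs, P, hP, hdP, x0, c, hc, hred,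
    r, hr, heval, y, hy⟩ := h
  haveI : (m.comap (b2c A N0 q)).IsPrime := Ideal.comap_isPrime _ _
  exact locPrincipal_X0 hA hqN (m.comap (b2c A N0 q)) Ob ρ0 hm0 hloc hker hq0 hs hP hdP
    x0 c hc hred hr heval y hy m rfl

/-- **the literal `hS` of `AllPointsT.locPrincipal_of_isMaximal` / `LocX0WireE.hloc_X0_E` at
`X₀`** (`O = W A`, any `TDatum` on the chart of `x₂`): local principality at the triple points, from
a point package at every `x₂₀(n) ∩ R0`, `n ∈ S`. -/
theorem hS_X0 (hA : A.LiesOverPrime q) (hqN : ¬ q ∣ N0)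
    {A₁ B : Type*} [CommRing A₁] [CommRing B] [IsDomain B]
    (D : BranchCoreT.TDatum A₁ R2 B)
    (hpt : ∀ n : Ideal B, n.IsMaximal → n ∈ D.S →
      PointHypX0.{u} A N0 q ((D.x20 n).comap (b2c A N0 q))) :
    ∀ n : Ideal B, n.IsMaximal → n ∈ D.S → LocPrincipal (A := R2) (F := FF) (D.x20 n) := by
  intro n hn hnS
  haveI := D.x20_isMaximal hn
  exact locPrincipal_of_pointHypX0 hA hqN (D.x20 n) (hpt n hn hnS)

/-! ### the polynomial `Ψ_a` and its root `α²a` -/

/-- **the fields `P hP hdP y hy` of the point package for `P = Ψ_a`, `y = α²a`**, `a ∈ R0`: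
`Ψ_a` has coefficients in `R0`, is monic of degree `q² + q`, and `Ψ_a(α²a) = 0` (coefficients
through `β²`). -/
theorem exists_psi_X0 (hA : A.LiesOverPrime q) (hqN : ¬ q ∣ N0) (a : R0) :
    ∃ P : R0[X], P.Monic ∧ P.natDegree = q ^ 2 + q ∧
      P.map (algebraMap R0 KK) = psiPolyK (A.inertiaSubgroupIn ℚ) hq.out hqN (a : KK) ∧
      P.eval₂ (b2c A N0 q) (a2c A N0 q a) = 0 := by
  obtain ⟨i1, i2, i3⟩ := props_R0 (N0 := N0) hA
  obtain ⟨P, hP, hdP, hmap⟩ := TripleChart.exists_poly_chart (A.inertiaSubgroupIn ℚ) hq.out hqN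
    ↥(W A) (beta2K_algebraMap_W (N0 := N0) (q := q)) (alpha2K_algebraMap_W (N0 := N0) (q := q))
    a.2
  refine ⟨P, hP, hdP, hmap, ?_⟩
  apply Subtype.ext
  have hcomp : (algebraMap R2 FF).comp (b2c A N0 q) =
      (beta2K (N0 := N0) (q := q) (A.inertiaSubgroupIn ℚ)).comp (algebraMap R0 KK) :=
    RingHom.ext fun _ => rfl
  have h3 := Polynomial.hom_eval₂ P (b2c A N0 q) (algebraMap R2 FF) (a2c A N0 q a)
  rw [hcomp, ← Polynomial.eval₂_map, hmap] at h3
  exact h3.trans (psiPolyK_root (A.inertiaSubgroupIn ℚ) hq.out hqN (a : KK))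

end Fermat.Agent.S36.TripleInstX0
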