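/-
PROJECT V (S36), chain (V12)(iii), slice V-TripleRho0X0 (helper14): **the fields `ρ0`, `hm0`,
`hloc` (and the parameter `s`, `hs`) of the point package `TripleFinal.PointHyp` at a triple point
of the finite chart**, hypotheses first.

Part A (abstract, `K F x` as in `SpecDictOne`): `v` a place of `F/K` finite at `x`,
`incl v hv : chart K x →+* O_v` (`SpecDictOne.incl`), `red : A₀ →+* chart K x` ANY ring
homomorphism (the reduction of the level-`N0` chart), `rho red v hv := incl ∘ red : A₀ →+* O_v`.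
* `coe_rho`, `rho_eq_of_coe`, `ker_rho` (`= ker red`), `rho_mem_maximalIdeal_iff`,
  `isUnit_rho_iff`;
* `hm0_of_red` : `hm0` of `PointHyp` from `a ∈ m₀ ↔ red a ∈ pointOf v hv`;
* `hloc_of_red` : `hloc` of `PointHyp` (`red` onto; `SpecDictOne.exists_mul_eq_of_mem`);
* `exists_param`, `irreducible_rho` : `s` with `ρ0 s` irreducible (`ord_v (red s) = 1`).

Part B (helper1's `BranchX0.ChartPair`, ANY `O`, ANY coordinate `Jc` of the component with
`hJc : J ∈ chart k Jc` (spelled `Y.red₀ ⟨j, Y.hj⟩ ∈ chart k Jc`; a proof of `Y.J ∈ chart k Jc` is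
accepted), `IsFF k Jc`, separable): `A₀ := chart O j`, `red := P.red0`,
`rho0 P hJc v hv : chart O j →+* O_v`;
* `r20_beta2` : `P.r20 (β²c a) = φB (φB (red0 a))`, `r20_alpha2` : `P.r20 (α²c a) = red0 a`
  for ANY ring homomorphisms `β²c α²c : chart O j →+* chart O x₂` with the obvious coercions
  (`= algebraMap A₀ A` of `TripleFinal` at `X₀`);
* **`hm0_X0`** : for `n = pointOf v hv` with `Fr² n = n` (`fr_fr`) and
  `m₀ = (n.comap P.r20).comap β²c = (D.x20 n).comap (algebraMap A₀ A)` :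
  `a ∈ m₀ ↔ rho0 a ∈ maximalIdeal O_v`;
* **`hloc_X0`** : `∀ d : O_v, ∃ a t, t ∉ m₀ ∧ rho0 t * d = rho0 a`;
* `exists_param_X0`, `irreducible_rho0`, `ker_rho0`, `coe_rho0`.
-/
import Mathlib
import Fermat.Agent.S36.BranchX0Node
import Fermat.Agent.S36.SpecDictOne
import Fermat.Agent.S36.SpecDictLocal

set_option autoImplicit false
set_option linter.unusedSectionVars false
set_option linter.style.haveILetI false
set_option linter.unusedVariables false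

noncomputable section

namespace Fermat.Agent.S36.TripleRho0X0

open AlgebraicCurve IsLocalRing IntermediateField
open Fermat.Agent.S24.FF
open Fermat.Agent.S36.ChartRing (chart)
open Fermat.Agent.S36.SpecDictOne Fermat.Agent.S36.SpecDictLocal

universe u w

/-! ## Part A: abstract -/

section Abstract

variable {K : Type w} {F : Type u} [Field K] [Field F] [Algebra K F] {x : F}
variable (v : Place K F) (hv : x ∈ v.toValuationSubring)

theorem incl_injective : Function.Injective (incl v hv) := fun a b h =>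
  Subtype.ext (congrArg (fun z : v.toValuationSubring => (z : F)) h)

theorem mem_pointOf_iff_incl (z : chart K x) :
    z ∈ pointOf v hv ↔ incl v hv z ∈ maximalIdeal v.toValuationSubring := Iff.rfl

/-- `O_v` is the localisation of the chart at `n_v`, in the shape of `hloc` -/
theorem hloc_incl (hx : IsFF K x) (hsep : Algebra.IsSeparable K⟮x⟯ F)
    (d : v.toValuationSubring) :
    ∃ a t : chart K x, t ∉ pointOf v hv ∧ incl v hv t * d = incl v hv a := by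
  obtain ⟨b, s, hs, h⟩ := exists_mul_eq_of_mem hx hsep v hv d.2
  refine ⟨b, s, hs, Subtype.ext ?_⟩
  show (s : F) * (d : F) = (b : F)
  rw [mul_comm]
  exact h

variable {A₀ : Type*} [CommRing A₀] (red : A₀ →+* chart K x)

/-- the reduction followed by the inclusion of the chart into the local ring of `v` -/
def rho : A₀ →+* v.toValuationSubring := (incl v hv).comp red

theorem coe_rho (a : A₀) :
    ((rho v hv red a : v.toValuationSubring) : F) = ((red a : chart K x) : F) := rfl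

theorem rho_eq_of_coe (a : A₀) (z : v.toValuationSubring)
    (hz : (z : F) = ((red a : chart K x) : F)) : rho v hv red a = z :=
  Subtype.ext hz.symm

theorem ker_rho : RingHom.ker (rho v hv red) = RingHom.ker red := by
  ext a
  rw [RingHom.mem_ker, RingHom.mem_ker]
  constructor
  · intro h
    exact incl_injective v hv (h.trans (map_zero _).symm)
  · intro h
    show incl v hv (red a) = 0
    rw [h, map_zero]

theorem rho_mem_maximalIdeal_iff (a : A₀) :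
    rho v hv red a ∈ maximalIdeal v.toValuationSubring ↔ red a ∈ pointOf v hv := Iff.rfl

theorem isUnit_rho_iff (a : A₀) : IsUnit (rho v hv red a) ↔ red a ∉ pointOf v hv := by
  rw [← rho_mem_maximalIdeal_iff, mem_maximalIdeal, mem_nonunits_iff, not_not]

/-- **`hm0` of `TripleFinal.PointHyp`** -/
theorem hm0_of_red (m₀ : Ideal A₀) (hm : ∀ a, a ∈ m₀ ↔ red a ∈ pointOf v hv) (a : A₀) :
    a ∈ m₀ ↔ rho v hv red a ∈ maximalIdeal v.toValuationSubring := hm a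

/-- **`hloc` of `TripleFinal.PointHyp`** -/
theorem hloc_of_red (hx : IsFF K x) (hsep : Algebra.IsSeparable K⟮x⟯ F)
    (hsurj : Function.Surjective red)
    (m₀ : Ideal A₀) (hm : ∀ a, a ∈ m₀ ↔ red a ∈ pointOf v hv) (d : v.toValuationSubring) :
    ∃ a t : A₀, t ∉ m₀ ∧ rho v hv red t * d = rho v hv red a := by
  obtain ⟨b, s, hs, h⟩ := hloc_incl v hv hx hsep d
  obtain ⟨a, rfl⟩ := hsurj b
  obtain ⟨t, rfl⟩ := hsurj s
  exact ⟨a, t, fun ht => hs ((hm t).mp ht), h⟩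

include hv in
/-- a local parameter at `v` comes from `A₀` -/
theorem exists_param (hx : IsFF K x) (hsep : Algebra.IsSeparable K⟮x⟯ F)
    (hsurj : Function.Surjective red) : ∃ s : A₀, v.ord ((red s : chart K x) : F) = 1 := by
  obtain ⟨b, hb⟩ := exists_ord_eq_one hx hsep v hv
  obtain ⟨s, rfl⟩ := hsurj b
  exact ⟨s, hb⟩

/-- **`hs` of `TripleFinal.PointHyp`** -/
theorem irreducible_rho {s : A₀} (hs : v.ord ((red s : chart K x) : F) = 1) :
    Irreducible (rho v hv red s) := by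
  have h := irreducible_of_ord_eq_one v hs
  have e : rho v hv red s = ⟨((red s : chart K x) : F), mem_of_ord_eq_one v hs⟩ := Subtype.ext rfl
  rw [e]
  exact h

/-- values: `ρ0 a - c ∈ m_v ↔ red a - c ∈ n_v` -/
theorem rho_sub_algebraMap_mem_iff (a : A₀) (c : K) :
    rho v hv red a - ⟨algebraMap K F c, v.algebraMap_mem' c⟩ ∈ maximalIdeal v.toValuationSubring ↔
      red a - algebraMap K (chart K x) c ∈ pointOf v hv := by
  rw [mem_pointOf_iff_incl, map_sub]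
  exact Iff.rfl

end Abstract

/-! ## Part B: helper1's `ChartPair` -/

section X0

open Fermat.Agent.S36.ThreeVal Fermat.Agent.S36.CompNormal Fermat.Agent.S36.PowerBasisK0
open Fermat.Agent.S36.JIntegral Fermat.Agent.S36.CompNormalX0 Fermat.Agent.S36.BranchCoreT
open Fermat.Agent.S36.BranchX0

local notation "Kb" => AlgebraicClosure ℚ

variable {H : Subgroup (Kb ≃ₐ[ℚ] Kb)}
variable {N0 q : ℕ} [NeZero N0] [NeZero q] [NeZero (N0 * q)] [NeZero (N0 * q * q)]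
variable {κ : Type} [Field κ] {Y : ThreeValX0.Hyp H N0 q κ}
variable {O : Type*} [CommRing O] [Algebra O (FK H N0)] [Algebra O (FK H (N0 * q))]
  [Algebra O (FK H (N0 * q * q))]
variable {k : Type*} [Field k] [Algebra k κ] {π : O →+* k}
variable {hB : Base Y O π} {Jc : κ} (P : ChartPair hB (x1 H N0 q) (x2 H N0 q) Jc)
  (hJc : Y.red₀ ⟨j0K H N0, Y.hj⟩ ∈ chart k Jc)
variable (v : Place k κ) (hv : Jc ∈ v.toValuationSubring)

/-- **`ρ0` of `TripleFinal.PointHyp`**: the reduction of the level-`N0` chart followed by the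
inclusion of the chart of the component into the local ring of the place `v` -/
def rho0 : ↥(chart O (j0K H N0)) →+* v.toValuationSubring :=
  rho v hv (P.red0 Y.hj hJc)

theorem coe_rho0 (a : ↥(chart O (j0K H N0))) :
    ((rho0 P hJc v hv a : v.toValuationSubring) : κ) = Y.red₀ ⟨a, P.mem_O₀ Y.hj a⟩ := rfl

theorem rho0_eq_of_coe (a : ↥(chart O (j0K H N0))) (z : v.toValuationSubring)
    (h : (a : FK H N0) ∈ Y.O₀) (hz : (z : κ) = Y.red₀ ⟨a, h⟩) : rho0 P hJc v hv a = z :=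
  Subtype.ext hz.symm

theorem ker_rho0 : RingHom.ker (rho0 P hJc v hv) = RingHom.ker (P.red0 Y.hj hJc) :=
  ker_rho v hv _

theorem isUnit_rho0_iff (a : ↥(chart O (j0K H N0))) :
    IsUnit (rho0 P hJc v hv a) ↔ P.red0 Y.hj hJc a ∉ pointOf v hv :=
  isUnit_rho_iff v hv _ a

/-! ### (D5) on the charts at level `q²` -/

/-- `r₂₀ ∘ β² = φ² ∘ red₀` on the charts -/
theorem r20_beta2 (hφB : ∀ z ∈ chart k Jc, Y.φ z ∈ chart k Jc)
    (β2c : ↥(chart O (j0K H N0)) →+* ↥(chart O (x2 H N0 q)))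
    (hβ2c : ∀ a, ((β2c a : ↥(chart O (x2 H N0 q))) : FK H (N0 * q * q))
      = betaK H (N0 * q) q (betaK H N0 q (a : FK H N0)))
    (a : ↥(chart O (j0K H N0))) :
    P.r20 (β2c a) = ChartPair.φB hφB (ChartPair.φB hφB (P.red0 Y.hj hJc a)) := by
  apply Subtype.ext
  rw [ChartPair.coe_φB, ChartPair.coe_φB, P.coe_red0, P.coe_r20]
  have ha0 : (a : FK H N0) ∈ Y.O₀ := P.mem_O₀ Y.hj a
  have h1 : betaK H N0 q (a : FK H N0) ∈ Y.V₁ := by
    rw [← ValuationSubring.mem_comap, Y.comap₁β]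
    exact ha0
  have h2 : betaK H (N0 * q) q (betaK H N0 q (a : FK H N0)) ∈ Y.W₂₀ := by
    rw [← hβ2c]
    exact P.mem_W₂₀ _
  have e : (⟨((β2c a : ↥(chart O (x2 H N0 q))) : FK H (N0 * q * q)), P.mem_W₂₀ (β2c a)⟩ : ↥Y.W₂₀)
      = ⟨betaK H (N0 * q) q ((⟨betaK H N0 q (a : FK H N0), h1⟩ : ↥Y.V₁) : FK H (N0 * q)), h2⟩ :=
    Subtype.ext (hβ2c a)
  rw [e, Y.r₂₀_β ⟨_, h1⟩ h2]
  have e1 : (⟨betaK H N0 q (a : FK H N0), h1⟩ : ↥Y.V₁)
      = ⟨betaK H N0 q ((⟨(a : FK H N0), ha0⟩ : ↥Y.O₀) : FK H N0), h1⟩ := rfl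
  rw [e1, Y.red₁_β₀ ⟨_, ha0⟩ h1]

/-- `r₂₀ ∘ α² = red₀` on the charts -/
theorem r20_alpha2
    (α2c : ↥(chart O (j0K H N0)) →+* ↥(chart O (x2 H N0 q)))
    (hα2c : ∀ a, ((α2c a : ↥(chart O (x2 H N0 q))) : FK H (N0 * q * q))
      = alphaK H (N0 * q) q (alphaK H N0 q (a : FK H N0)))
    (a : ↥(chart O (j0K H N0))) :
    P.r20 (α2c a) = P.red0 Y.hj hJc a := by
  apply Subtype.ext
  rw [P.coe_red0, P.coe_r20]
  have ha0 : (a : FK H N0) ∈ Y.O₀ := P.mem_O₀ Y.hj a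
  have h1 : alphaK H N0 q (a : FK H N0) ∈ Y.V₁ := by
    rw [← ValuationSubring.mem_comap, Y.comap₁α]
    exact ha0
  have h2 : alphaK H (N0 * q) q (alphaK H N0 q (a : FK H N0)) ∈ Y.W₂₀ := by
    rw [← hα2c]
    exact P.mem_W₂₀ _
  have e : (⟨((α2c a : ↥(chart O (x2 H N0 q))) : FK H (N0 * q * q)), P.mem_W₂₀ (α2c a)⟩ : ↥Y.W₂₀)
      = ⟨alphaK H (N0 * q) q ((⟨alphaK H N0 q (a : FK H N0), h1⟩ : ↥Y.V₁) : FK H (N0 * q)), h2⟩ :=
    Subtype.ext (hα2c a)
  rw [e, Y.r₂₀_α ⟨_, h1⟩ h2]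
  have e1 : (⟨alphaK H N0 q (a : FK H N0), h1⟩ : ↥Y.V₁)
      = ⟨alphaK H N0 q ((⟨(a : FK H N0), ha0⟩ : ↥Y.O₀) : FK H N0), h1⟩ := rfl
  rw [e1, Y.red₁_α₀ ⟨_, ha0⟩ h1]

/-! ### the fields `hm0`, `hloc`, `s`, `hs` -/

/-- `a ∈ m₀ ↔ red₀ a ∈ n` for `m₀ = (n.comap r₂₀).comap β²` and a `Fr²`-fixed point `n` -/
theorem mem_m0_iff (hφB : ∀ z ∈ chart k Jc, Y.φ z ∈ chart k Jc)
    (β2c : ↥(chart O (j0K H N0)) →+* ↥(chart O (x2 H N0 q)))
    (hβ2c : ∀ a, ((β2c a : ↥(chart O (x2 H N0 q))) : FK H (N0 * q * q))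
      = betaK H (N0 * q) q (betaK H N0 q (a : FK H N0)))
    (n : Ideal ↥(chart k Jc))
    (hfrfr : (n.comap (ChartPair.φB hφB)).comap (ChartPair.φB hφB) = n)
    (m₀ : Ideal ↥(chart O (j0K H N0))) (hm₀ : ∀ a, a ∈ m₀ ↔ P.r20 (β2c a) ∈ n)
    (a : ↥(chart O (j0K H N0))) : a ∈ m₀ ↔ P.red0 Y.hj hJc a ∈ n := by
  rw [hm₀, r20_beta2 P hJc hφB β2c hβ2c a, ← Ideal.mem_comap, ← Ideal.mem_comap, hfrfr]

/-- **`hm0` of `TripleFinal.PointHyp` at a triple point**: `n = pointOf v hv ∈ S` (`Fr² n = n`),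
`m₀ = (n.comap P.r20).comap β²c` (`= (D.x20 n).comap (algebraMap A₀ A)`) -/
theorem hm0_X0 (hφB : ∀ z ∈ chart k Jc, Y.φ z ∈ chart k Jc)
    (β2c : ↥(chart O (j0K H N0)) →+* ↥(chart O (x2 H N0 q)))
    (hβ2c : ∀ a, ((β2c a : ↥(chart O (x2 H N0 q))) : FK H (N0 * q * q))
      = betaK H (N0 * q) q (betaK H N0 q (a : FK H N0)))
    (n : Ideal ↥(chart k Jc))
    (hfrfr : (n.comap (ChartPair.φB hφB)).comap (ChartPair.φB hφB) = n)
    (hn : n = pointOf v hv)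
    (m₀ : Ideal ↥(chart O (j0K H N0))) (hm₀ : ∀ a, a ∈ m₀ ↔ P.r20 (β2c a) ∈ n)
    (a : ↥(chart O (j0K H N0))) :
    a ∈ m₀ ↔ rho0 P hJc v hv a ∈ maximalIdeal v.toValuationSubring := by
  rw [mem_m0_iff P hJc hφB β2c hβ2c n hfrfr m₀ hm₀ a, hn]
  exact Iff.rfl

/-- **`hloc` of `TripleFinal.PointHyp` at a triple point** -/
theorem hloc_X0 (hx : IsFF k Jc) (hsep : Algebra.IsSeparable k⟮Jc⟯ κ)
    (lift₀ : ∀ b ∈ (chart k Jc : Set κ), ∃ g : FK H N0, g ∈ chart O (j0K H N0) ∧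
      ∃ hg : g ∈ Y.O₀, Y.red₀ ⟨g, hg⟩ = b)
    (hφB : ∀ z ∈ chart k Jc, Y.φ z ∈ chart k Jc)
    (β2c : ↥(chart O (j0K H N0)) →+* ↥(chart O (x2 H N0 q)))
    (hβ2c : ∀ a, ((β2c a : ↥(chart O (x2 H N0 q))) : FK H (N0 * q * q))
      = betaK H (N0 * q) q (betaK H N0 q (a : FK H N0)))
    (n : Ideal ↥(chart k Jc))
    (hfrfr : (n.comap (ChartPair.φB hφB)).comap (ChartPair.φB hφB) = n)
    (hn : n = pointOf v hv)
    (m₀ : Ideal ↥(chart O (j0K H N0))) (hm₀ : ∀ a, a ∈ m₀ ↔ P.r20 (β2c a) ∈ n)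
    (d : v.toValuationSubring) :
    ∃ a t : ↥(chart O (j0K H N0)), t ∉ m₀ ∧ rho0 P hJc v hv t * d = rho0 P hJc v hv a :=
  hloc_of_red v hv (P.red0 Y.hj hJc) hx hsep (P.red0_surjective Y.hj hJc lift₀) m₀
    (fun a => by rw [mem_m0_iff P hJc hφB β2c hβ2c n hfrfr m₀ hm₀ a, hn]) d

include hv hJc in
/-- a local parameter at `v` comes from the level-`N0` chart -/
theorem exists_param_X0 (hx : IsFF k Jc) (hsep : Algebra.IsSeparable k⟮Jc⟯ κ)
    (lift₀ : ∀ b ∈ (chart k Jc : Set κ), ∃ g : FK H N0, g ∈ chart O (j0K H N0) ∧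
      ∃ hg : g ∈ Y.O₀, Y.red₀ ⟨g, hg⟩ = b) :
    ∃ s : ↥(chart O (j0K H N0)), v.ord (Y.red₀ ⟨s, P.mem_O₀ Y.hj s⟩) = 1 :=
  exists_param v hv (P.red0 Y.hj hJc) hx hsep (P.red0_surjective Y.hj hJc lift₀)

/-- **`hs` of `TripleFinal.PointHyp`** -/
theorem irreducible_rho0 {s : ↥(chart O (j0K H N0))}
    (hs : v.ord (Y.red₀ ⟨s, P.mem_O₀ Y.hj s⟩) = 1) : Irreducible (rho0 P hJc v hv s) :=
  irreducible_rho v hv (P.red0 Y.hj hJc) hs

/-- the first two fields of `TripleFinal.PointHyp` together -/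
theorem hm0_hloc_X0 (hx : IsFF k Jc) (hsep : Algebra.IsSeparable k⟮Jc⟯ κ)
    (lift₀ : ∀ b ∈ (chart k Jc : Set κ), ∃ g : FK H N0, g ∈ chart O (j0K H N0) ∧
      ∃ hg : g ∈ Y.O₀, Y.red₀ ⟨g, hg⟩ = b)
    (hφB : ∀ z ∈ chart k Jc, Y.φ z ∈ chart k Jc)
    (β2c : ↥(chart O (j0K H N0)) →+* ↥(chart O (x2 H N0 q)))
    (hβ2c : ∀ a, ((β2c a : ↥(chart O (x2 H N0 q))) : FK H (N0 * q * q))
      = betaK H (N0 * q) q (betaK H N0 q (a : FK H N0)))
    (n : Ideal ↥(chart k Jc))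
    (hfrfr : (n.comap (ChartPair.φB hφB)).comap (ChartPair.φB hφB) = n)
    (hn : n = pointOf v hv)
    (m₀ : Ideal ↥(chart O (j0K H N0))) (hm₀ : ∀ a, a ∈ m₀ ↔ P.r20 (β2c a) ∈ n) :
    (∀ a : ↥(chart O (j0K H N0)),
        a ∈ m₀ ↔ rho0 P hJc v hv a ∈ maximalIdeal v.toValuationSubring) ∧
      (∀ d : v.toValuationSubring, ∃ a t : ↥(chart O (j0K H N0)),
        t ∉ m₀ ∧ rho0 P hJc v hv t * d = rho0 P hJc v hv a) :=
  ⟨hm0_X0 P hJc v hv hφB β2c hβ2c n hfrfr hn m₀ hm₀,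
    hloc_X0 P hJc v hv hx hsep lift₀ hφB β2c hβ2c n hfrfr hn m₀ hm₀⟩

end X0

end Fermat.Agent.S36.TripleRho0X0
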