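/-
PROJECT V (S36), chain (V12)(iii), slice V-TripleKerX0 (helper8; hedge of V-TripleChartX0):
**the kernel of the reduction of the level-`N0` chart is `(q)`** (`hker` of the point package
`TripleFinal.PointHyp`) **and the chart is `q`-saturated in the Gauss ring** (`R ∈ chart` for the
diagonal value `Ψ_a(a) = q · R` of `TripleRedX0.exists_diag_unit`).

Part A (abstract, `O ⊆ K ⊆ F` as in `S36/ChartPlaces`): `π` is a unit at every horizontal place,
so `y ∈ chart O φ` as soon as `π y ∈ chart O φ` and `y` lies in every Gauss-vertical valuation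
subring of the chart (`ChartPlaces.mem_chart_of_places`).

Part B (helper1's `BranchX0.ChartPair`, ANY `O`, ANY coordinate `Jc`): if the non-units of the Gauss
ring `Y.O₀` are the multiples of `q` and the chart `chart O j` is `q`-saturated in `Y.O₀`, then
`ker (P.red0) = span {q}`.

Part C (`X₀`: `O = W A`, `H` the inertia group, `Y.O₀ = Og0`): both hypotheses hold
(`GaussK0Comap.maximalIdeal_Og0_eq`, `GaussUniqX0.forall_isGaussVert_eq_Og0`); hence
`ker_red0_X0`, `hker_X0` (the literal `hker` for helper14's `TripleRho0X0.rho0`, `q0 := q`),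
`natCast_chart_ne_zero` (`hq0`), `mem_chart_of_natCast_mul_mem(_O0)` (`R ∈ chart`).
-/
import Mathlib
import Fermat.Agent.S36.ChartPlaces
import Fermat.Agent.S36.GaussUniqX0
import Fermat.Agent.S36.LiftK0Chart
import Fermat.Agent.S36.TripleRho0X0

set_option autoImplicit false
set_option linter.unusedSectionVars false
set_option linter.style.haveILetI false
set_option linter.unusedVariables false
set_option synthInstance.maxHeartbeats 400000

noncomputable section

namespace Fermat.Agent.S36.TripleKerX0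

open AlgebraicCurve IsLocalRing IntermediateField Polynomial
open Fermat.Agent.S36.ChartRing (chart)

/-! ## Part A: abstract -/

section Abstract

variable {O : Type*} [CommRing O] [IsDomain O] [IsDiscreteValuationRing O] {K : Type*} [Field K]
  [Algebra O K] [IsFractionRing O K] [CharZero K] {F : Type*} [Field F] [Algebra K F]
  [Algebra O F] [IsScalarTower O K F]

/-- **the chart is `π`-saturated in the vertical rings**: `π` is a unit at every horizontal place -/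
theorem mem_chart_of_mul_mem {π : O} (hπ : Irreducible π) {φ : F} (hφ : Transcendental K φ)
    [FiniteDimensional K⟮φ⟯ F] {y : F}
    (hvert : ∀ W : ValuationSubring F, ChartVert.IsGaussVert π φ W → y ∈ W)
    (hy : algebraMap O F π * y ∈ chart O φ) : y ∈ chart O φ := by
  refine ChartPlaces.mem_chart_of_places hπ hφ y (fun W a b c d => hvert W ⟨a, b, c, d⟩)
    (fun v hv => ?_)
  have h1 : algebraMap O F π * y ∈ v.toValuationSubring :=
    ChartPlaces.mem_place_of_mem_chart hy v hv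
  have hπK : algebraMap O K π ≠ 0 := fun h =>
    hπ.ne_zero ((IsFractionRing.injective O K) (h.trans (map_zero _).symm))
  have hπ0 : algebraMap O F π ≠ 0 := by
    rw [IsScalarTower.algebraMap_apply O K F]
    exact fun h => hπK ((algebraMap K F).injective (h.trans (map_zero _).symm))
  have h2 : (algebraMap O F π)⁻¹ ∈ v.toValuationSubring := by
    rw [IsScalarTower.algebraMap_apply O K F, ← map_inv₀]
    exact v.algebraMap_mem' _
  have h3 : y = (algebraMap O F π)⁻¹ * (algebraMap O F π * y) := by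
    rw [← mul_assoc, inv_mul_cancel₀ hπ0, one_mul]
  rw [h3]
  exact v.toValuationSubring.mul_mem _ _ h2 h1

end Abstract

/-! ## Part B: helper1's `ChartPair` -/

section Pair

open Fermat.Agent.S36.ThreeVal Fermat.Agent.S36.CompNormal Fermat.Agent.S36.PowerBasisK0
open Fermat.Agent.S36.JIntegral Fermat.Agent.S36.CompNormalX0 Fermat.Agent.S36.BranchCoreT
open Fermat.Agent.S36.BranchX0

local notation "Kb" => AlgebraicClosure ℚ

variable {H : Subgroup (Kb ≃ₐ[ℚ] Kb)}
variable {N0 q : ℕ} [NeZero N0] [NeZero q] [NeZero (N0 * q)] [NeZero (N0 * q * q)]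
variable {κ : Type} [Field κ] {Y : ThreeValX0.Hyp H N0 q κ}
variable {O : Type*} [CommRing O] [Algebra O (FK H N0)] [Algebra O (FK H (N0 * q))]
  [Algebra O (FK H (N0 * q * q))]
variable {k : Type*} [Field k] [Algebra k κ] {π : O →+* k}
variable {hB : Base Y O π} {Jc : κ} (P : ChartPair hB (x1 H N0 q) (x2 H N0 q) Jc)
  (hJc : Y.red₀ ⟨j0K H N0, Y.hj⟩ ∈ chart k Jc)

theorem coe_natCast_chart (φ : FK H N0) (n : ℕ) :
    (((n : ↥(chart O φ)) : ↥(chart O φ)) : FK H N0) = (n : FK H N0) := by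
  induction n with
  | zero => simp
  | succ n ih =>
    rw [Nat.cast_succ, Nat.cast_succ, ← ih]
    rfl

/-- **`ker red0 = (q)`** from the two facts on the Gauss ring -/
theorem ker_red0_eq_span
    (hqnu : ((q : ℕ) : FK H N0) ∈ Y.O₀.nonunits)
    (hnu : ∀ z : FK H N0, z ∈ Y.O₀.nonunits → ∃ y ∈ Y.O₀, z = ((q : ℕ) : FK H N0) * y)
    (hsat : ∀ y : FK H N0, y ∈ Y.O₀ →
      ((q : ℕ) : FK H N0) * y ∈ chart O (j0K H N0) → y ∈ chart O (j0K H N0)) :
    RingHom.ker (P.red0 Y.hj hJc) = Ideal.span {((q : ℕ) : ↥(chart O (j0K H N0)))} := by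
  have hzero : ∀ a : ↥(chart O (j0K H N0)),
      P.red0 Y.hj hJc a = 0 ↔ (a : FK H N0) ∈ Y.O₀.nonunits := by
    intro a
    rw [← ChartPair.red₀_eq_zero_iff Y ⟨a, P.mem_O₀ Y.hj a⟩, ← P.coe_red0 Y.hj hJc a]
    constructor
    · intro h
      rw [h]
      rfl
    · intro h
      exact Subtype.ext h
  apply le_antisymm
  · intro a ha
    rw [RingHom.mem_ker, hzero] at ha
    obtain ⟨y, hy, hay⟩ := hnu _ ha
    have hyc : y ∈ chart O (j0K H N0) := hsat y hy (hay ▸ a.2)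
    rw [Ideal.mem_span_singleton]
    refine ⟨⟨y, hyc⟩, Subtype.ext ?_⟩
    rw [hay]
    show _ = ((((q : ℕ) : ↥(chart O (j0K H N0))) : ↥(chart O (j0K H N0))) : FK H N0) * y
    rw [coe_natCast_chart]
  · rw [Ideal.span_le, Set.singleton_subset_iff, SetLike.mem_coe, RingHom.mem_ker, hzero,
      coe_natCast_chart]
    exact hqnu

end Pair

/-! ## Part C: `X₀`, `O = W A` -/

section X0

open Fermat.Agent.S36.ThreeVal Fermat.Agent.S36.CompNormal Fermat.Agent.S36.PowerBasisK0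
open Fermat.Agent.S36.JIntegral Fermat.Agent.S36.CompNormalX0 Fermat.Agent.S36.BranchCoreT
open Fermat.Agent.S36.BranchX0
open Fermat.Agent.S36.ChartX0 Fermat.Agent.S36.GaussK0Comap
open Fermat.Agent.S18.C.SmallDVR

local notation "Kb" => AlgebraicClosure ℚ

variable {q : ℕ} [hq : Fact q.Prime] {N0 : ℕ} [NeZero N0] [NeZero q] [NeZero (N0 * q)]
  [NeZero (N0 * q * q)] {A : ValuationSubring Kb}
variable (hA : A.LiesOverPrime q) (hqN0 : ¬ q ∣ N0)

/-- the instances of `ChartX0` in the `fixedField I` / `FK I N` spelling (local to this section) -/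
local instance instAlgWFK8 (N : ℕ) : Algebra ↥(W A) (FK (A.inertiaSubgroupIn ℚ) N) := algebraW A N

local instance instAlgWK8 :
    Algebra ↥(W A) ↥(IntermediateField.fixedField (A.inertiaSubgroupIn ℚ)) :=
  (inferInstance : Algebra ↥(W A) ↥(K0 A))

local instance instFracWK8 :
    IsFractionRing ↥(W A) ↥(IntermediateField.fixedField (A.inertiaSubgroupIn ℚ)) :=
  isFractionRing_W_K0 A

local instance instTowerW8 (N : ℕ) : IsScalarTower ↥(W A)
    ↥(IntermediateField.fixedField (A.inertiaSubgroupIn ℚ)) (FK (A.inertiaSubgroupIn ℚ) N) :=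
  isScalarTowerW A N

include hA in
/-- `q`-saturation of a chart of level `N` over `W A`, in the `ChartX0` spelling -/
theorem mem_chart_aux (N : ℕ) [NeZero N] {φ : FK0 A N} (htr : Transcendental ↥(K0 A) φ)
    {Og : ValuationSubring (FK0 A N)}
    (hU : ∀ V : ValuationSubring (FK0 A N),
      ChartVert.IsGaussVert (O := ↥(W A)) (F := FK0 A N) ((q : ℕ) : ↥(W A)) φ V → V = Og)
    {y : FK0 A N} (hy : y ∈ Og)
    (hqy : ((q : ℕ) : FK0 A N) * y ∈ chart (F := FK0 A N) ↥(W A) φ) :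
    y ∈ chart (F := FK0 A N) ↥(W A) φ := by
  haveI := isDVR hA
  haveI : FiniteDimensional (↥(K0 A))⟮φ⟯ (FK0 A N) :=
    ChartX0.finiteDimensional_of_transcendental A N htr
  refine mem_chart_of_mul_mem (O := ↥(W A)) (K := ↥(K0 A)) (F := FK0 A N)
    (irreducible_ell hA) htr (fun V hV => ?_) ?_
  · rw [hU V hV]
    exact hy
  · rw [algebraMap_ell]
    exact hqy

include hA hqN0 in
/-- **`R ∈ chart`**: the level-`N0` chart `chart (W A) j` is `q`-saturated in the Gauss ring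
`Og0` -/
theorem mem_chart_of_natCast_mul_mem {y : FK (A.inertiaSubgroupIn ℚ) N0}
    (hy : y ∈ Og0 N0 hA hqN0)
    (hqy : ((q : ℕ) : FK (A.inertiaSubgroupIn ℚ) N0) * y ∈
      chart ↥(W A) (j0K (A.inertiaSubgroupIn ℚ) N0)) :
    y ∈ chart ↥(W A) (j0K (A.inertiaSubgroupIn ℚ) N0) :=
  mem_chart_aux hA N0 (LiftK0Chart.transcendental_j0K A N0)
    (fun V hV => GaussUniqX0.eq_Og0_of_isGaussVert N0 hA hqN0 hV) hy hqy

include hA hqN0 in
/-- the same for `GaussK0.O0` (the spelling of `TripleRedX0.exists_diag_unit`) -/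
theorem mem_chart_of_natCast_mul_mem_O0 {y : FK (A.inertiaSubgroupIn ℚ) N0}
    (hy : y ∈ GaussK0.O0 N0 hA hqN0)
    (hqy : ((q : ℕ) : FK (A.inertiaSubgroupIn ℚ) N0) * y ∈
      chart ↥(W A) (j0K (A.inertiaSubgroupIn ℚ) N0)) :
    y ∈ chart ↥(W A) (j0K (A.inertiaSubgroupIn ℚ) N0) :=
  mem_chart_of_natCast_mul_mem hA hqN0 ((Og0_eq N0 hA hqN0).symm ▸ hy) hqy

include hA hqN0 in
/-- the non-units of `Og0` are the multiples of `q` -/
theorem exists_eq_natCast_mul_of_mem_nonunits {z : FK (A.inertiaSubgroupIn ℚ) N0}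
    (hz : z ∈ (Og0 N0 hA hqN0).nonunits) :
    ∃ y ∈ Og0 N0 hA hqN0, z = ((q : ℕ) : FK (A.inertiaSubgroupIn ℚ) N0) * y := by
  obtain ⟨hzO, hzu⟩ := (ValuationSubring.mem_nonunits_iff_exists_mem_maximalIdeal).1 hz
  rw [maximalIdeal_Og0_eq N0 hA hqN0, Ideal.mem_span_singleton] at hzu
  obtain ⟨y, hy⟩ := hzu
  refine ⟨(y : FK (A.inertiaSubgroupIn ℚ) N0), y.2, ?_⟩
  have h := congrArg (fun t : ↥(Og0 N0 hA hqN0) => (t : FK (A.inertiaSubgroupIn ℚ) N0)) hy
  simpa using h

include hA hqN0 in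
theorem natCast_mem_nonunits_Og0 :
    ((q : ℕ) : FK (A.inertiaSubgroupIn ℚ) N0) ∈ (Og0 N0 hA hqN0).nonunits := by
  rw [ValuationSubring.mem_nonunits_iff_exists_mem_maximalIdeal]
  refine ⟨natCast_mem _ q, ?_⟩
  rw [maximalIdeal_Og0_eq N0 hA hqN0, Ideal.mem_span_singleton]
  exact ⟨1, Subtype.ext (by simp)⟩

include hA hqN0 in
/-- **`heval` in the chart**: from `Ψ_a(a) = q · R` in `F_0` with `R` in the Gauss ring
(`TripleRedX0.exists_diag_unit`, `CharpolyK0Psi.exists_diag_psiK0`) and a chart form `Q` of `Ψ_a`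
(`TripleChart.exists_poly_chart`): `R` lies in the chart and `Q(a) = q · R` there. -/
theorem exists_chart_of_diag
    (Q : Polynomial ↥(chart ↥(W A) (j0K (A.inertiaSubgroupIn ℚ) N0)))
    (a : ↥(chart ↥(W A) (j0K (A.inertiaSubgroupIn ℚ) N0)))
    {Ψ : Polynomial (FK (A.inertiaSubgroupIn ℚ) N0)}
    (hQ : Q.map (algebraMap ↥(chart ↥(W A) (j0K (A.inertiaSubgroupIn ℚ) N0))
      (FK (A.inertiaSubgroupIn ℚ) N0)) = Ψ)
    {R : FK (A.inertiaSubgroupIn ℚ) N0} (hR : R ∈ GaussK0.O0 N0 hA hqN0)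
    (heval : Ψ.eval (a : FK (A.inertiaSubgroupIn ℚ) N0) =
      ((q : ℕ) : FK (A.inertiaSubgroupIn ℚ) N0) * R) :
    ∃ r : ↥(chart ↥(W A) (j0K (A.inertiaSubgroupIn ℚ) N0)),
      (r : FK (A.inertiaSubgroupIn ℚ) N0) = R ∧
      Q.eval a = ((q : ℕ) : ↥(chart ↥(W A) (j0K (A.inertiaSubgroupIn ℚ) N0))) * r := by
  have h1 : ((Q.eval a : ↥(chart ↥(W A) (j0K (A.inertiaSubgroupIn ℚ) N0))) :
      FK (A.inertiaSubgroupIn ℚ) N0) = ((q : ℕ) : FK (A.inertiaSubgroupIn ℚ) N0) * R := by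
    rw [← heval, ← hQ, eval_map]
    exact (Polynomial.eval₂_at_apply
      (algebraMap ↥(chart ↥(W A) (j0K (A.inertiaSubgroupIn ℚ) N0))
        (FK (A.inertiaSubgroupIn ℚ) N0)) a).symm
  have hRc : R ∈ chart ↥(W A) (j0K (A.inertiaSubgroupIn ℚ) N0) :=
    mem_chart_of_natCast_mul_mem_O0 hA hqN0 hR (h1 ▸ (Q.eval a).2)
  refine ⟨⟨R, hRc⟩, rfl, Subtype.ext ?_⟩
  rw [h1]
  show _ = ((((q : ℕ) : ↥(chart ↥(W A) (j0K (A.inertiaSubgroupIn ℚ) N0))) :
    ↥(chart ↥(W A) (j0K (A.inertiaSubgroupIn ℚ) N0))) : FK (A.inertiaSubgroupIn ℚ) N0) * R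
  rw [coe_natCast_chart]

variable {κ : Type} [Field κ] {Y : ThreeValX0.Hyp (A.inertiaSubgroupIn ℚ) N0 q κ}
variable {k : Type*} [Field k] [Algebra k κ] {π : ↥(W A) →+* k}
variable {hB : Base Y ↥(W A) π} {Jc : κ}
  (P : ChartPair hB (x1 (A.inertiaSubgroupIn ℚ) N0 q) (x2 (A.inertiaSubgroupIn ℚ) N0 q) Jc)
  (hJc : Y.red₀ ⟨j0K (A.inertiaSubgroupIn ℚ) N0, Y.hj⟩ ∈ chart k Jc)

include hA hqN0 in
/-- **the kernel of the reduction of the level-`N0` chart is `(q)`** -/
theorem ker_red0_X0 (hO₀ : Y.O₀ = Og0 N0 hA hqN0) :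
    RingHom.ker (P.red0 Y.hj hJc) =
      Ideal.span {((q : ℕ) : ↥(chart ↥(W A) (j0K (A.inertiaSubgroupIn ℚ) N0)))} := by
  refine ker_red0_eq_span P hJc ?_ ?_ ?_
  · rw [hO₀]
    exact natCast_mem_nonunits_Og0 hA hqN0
  · intro z hz
    rw [hO₀] at hz ⊢
    exact exists_eq_natCast_mul_of_mem_nonunits hA hqN0 hz
  · intro y hy hqy
    rw [hO₀] at hy
    exact mem_chart_of_natCast_mul_mem hA hqN0 hy hqy

variable (v : Place k κ) (hv : Jc ∈ v.toValuationSubring)

include hA hqN0 in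
/-- **`hker` of `TripleFinal.PointHyp`** for helper14's `TripleRho0X0.rho0`, `q0 := q` -/
theorem hker_X0 (hO₀ : Y.O₀ = Og0 N0 hA hqN0) :
    RingHom.ker (TripleRho0X0.rho0 P hJc v hv) =
      Ideal.span {((q : ℕ) : ↥(chart ↥(W A) (j0K (A.inertiaSubgroupIn ℚ) N0)))} :=
  (TripleRho0X0.ker_rho0 P hJc v hv).trans (ker_red0_X0 hA hqN0 P hJc hO₀)

/-- **`hq0`** -/
theorem natCast_chart_ne_zero :
    ((q : ℕ) : ↥(chart ↥(W A) (j0K (A.inertiaSubgroupIn ℚ) N0))) ≠ 0 := by
  intro h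
  have h2 := congrArg
    (fun t : ↥(chart ↥(W A) (j0K (A.inertiaSubgroupIn ℚ) N0)) =>
      (t : FK (A.inertiaSubgroupIn ℚ) N0)) h
  simp only [coe_natCast_chart] at h2
  exact (Nat.cast_ne_zero (R := FK (A.inertiaSubgroupIn ℚ) N0)).2 (NeZero.ne q)
    (h2.trans (by rfl))

end X0

end Fermat.Agent.S36.TripleKerX0
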