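/-
PROJECT V (S36), slice V-X0Shortcuts (helper10): **compile-time infrastructure for the files that
instantiate the abstract chain at `O = W A`, `K = K0 A`, `F = FK0 A N`.**

At these concrete types the default instance search is extremely slow: `↥(W A)` is a subtype of
`↥(K0 A)`, which is a subtype of `ℚ̄`, and `FK0 A N` is a subtype of a Laurent series field, so a
query such as `SMul ↥(W A) ↥(chart ↥(W A) φ)` or `IsScalarTower ↥(W A) ↥(chart ↥(W A) φ) (FK0 A N)`
wanders through the sub-object actions and compares the resulting instances with
`ChartX0.algebraW` by unfolding Hahn series (10–60 s per query; measured: ONE call of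
`RegT0.exists_t0` at `O = W A` spends 127 s in typeclass inference).

This file declares HIGH-PRIORITY SHORTCUT INSTANCES for exactly these queries.  Every shortcut is
defined as `inferInstance`, i.e. it unfolds (reducibly) to the term the default search finds, so
nothing changes up to definitional unfolding; only the search is short-circuited (the same call of
`RegT0.exists_t0` then spends 4 s in typeclass inference).

USE: `import Fermat.Agent.S36.X0Shortcuts` in a file that works at `W A` / `K0 A` / `FK0 A N`
(the `ChartX0` spelling).  No `open` needed; nothing to call.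
-/
import Mathlib
import Fermat.Agent.S36.ChartX0

set_option autoImplicit false
set_option synthInstance.maxHeartbeats 4000000
set_option maxHeartbeats 4000000
set_option linter.unusedSectionVars false

noncomputable section

namespace Fermat.Agent.S36.X0Shortcuts

open IntermediateField
open Fermat.Agent.S18.C.SmallDVR Fermat.Agent.S36.ChartX0 Fermat.Agent.S36.ChartRing

local notation "Kb" => AlgebraicClosure ℚ

variable (A : ValuationSubring Kb) (N : ℕ)

/-! ### `W A` acting on `FK0 A N` -/

instance (priority := 5000) smulWF : SMul ↥(W A) (FK0 A N) := inferInstance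
instance (priority := 5000) moduleWF : Module ↥(W A) (FK0 A N) := inferInstance
instance (priority := 5000) mulActionWF : MulAction ↥(W A) (FK0 A N) := inferInstance
instance (priority := 5000) distribMulActionWF : DistribMulAction ↥(W A) (FK0 A N) :=
  inferInstance

/-! ### `K0 A` acting on `FK0 A N` -/

instance (priority := 5000) smulKF : SMul ↥(K0 A) (FK0 A N) := inferInstance
instance (priority := 5000) moduleKF : Module ↥(K0 A) (FK0 A N) := inferInstance
instance (priority := 5000) mulActionKF : MulAction ↥(K0 A) (FK0 A N) := inferInstance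

/-! ### `W A` acting on `K0 A` -/

instance (priority := 5000) smulWK : SMul ↥(W A) ↥(K0 A) := inferInstance
instance (priority := 5000) algebraWK : Algebra ↥(W A) ↥(K0 A) := inferInstance
instance (priority := 5000) moduleWK : Module ↥(W A) ↥(K0 A) := inferInstance

variable {A N} (φ : FK0 A N)

/-! ### the chart ring `chart (W A) φ` -/

instance (priority := 5000) commRingC : CommRing ↥(chart ↥(W A) φ) := inferInstance
instance (priority := 5000) isDomainC : IsDomain ↥(chart ↥(W A) φ) := inferInstance
instance (priority := 5000) algebraCF : Algebra ↥(chart ↥(W A) φ) (FK0 A N) := inferInstance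
instance (priority := 5000) smulCF : SMul ↥(chart ↥(W A) φ) (FK0 A N) := inferInstance
instance (priority := 5000) moduleCF : Module ↥(chart ↥(W A) φ) (FK0 A N) := inferInstance
instance (priority := 5000) mulActionCF : MulAction ↥(chart ↥(W A) φ) (FK0 A N) :=
  inferInstance
instance (priority := 5000) algebraWC : Algebra ↥(W A) ↥(chart ↥(W A) φ) := inferInstance
instance (priority := 5000) smulWC : SMul ↥(W A) ↥(chart ↥(W A) φ) := inferInstance
instance (priority := 5000) moduleWC : Module ↥(W A) ↥(chart ↥(W A) φ) := inferInstance
instance (priority := 5000) mulActionWC : MulAction ↥(W A) ↥(chart ↥(W A) φ) := inferInstance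
instance (priority := 5000) isScalarTowerWCF :
    IsScalarTower ↥(W A) ↥(chart ↥(W A) φ) (FK0 A N) := inferInstance

/-! ### the chart ring as a `Subring` (the (P-subring) presentation) -/

instance (priority := 5000) algebraSF : Algebra ↥(chart ↥(W A) φ).toSubring (FK0 A N) :=
  inferInstance
instance (priority := 5000) smulSF : SMul ↥(chart ↥(W A) φ).toSubring (FK0 A N) := inferInstance
instance (priority := 5000) moduleSF : Module ↥(chart ↥(W A) φ).toSubring (FK0 A N) :=
  inferInstance

/-! ### the ring `(W A)[φ]` -/

instance (priority := 5000) commRingR :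
    CommRing ↥(Algebra.adjoin ↥(W A) ({φ} : Set (FK0 A N))) := inferInstance
instance (priority := 5000) algebraRF :
    Algebra ↥(Algebra.adjoin ↥(W A) ({φ} : Set (FK0 A N))) (FK0 A N) := inferInstance
instance (priority := 5000) smulRF :
    SMul ↥(Algebra.adjoin ↥(W A) ({φ} : Set (FK0 A N))) (FK0 A N) := inferInstance
instance (priority := 5000) moduleRF :
    Module ↥(Algebra.adjoin ↥(W A) ({φ} : Set (FK0 A N))) (FK0 A N) := inferInstance
instance (priority := 5000) algebraWR :
    Algebra ↥(W A) ↥(Algebra.adjoin ↥(W A) ({φ} : Set (FK0 A N))) := inferInstance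
instance (priority := 5000) smulWR :
    SMul ↥(W A) ↥(Algebra.adjoin ↥(W A) ({φ} : Set (FK0 A N))) := inferInstance
instance (priority := 5000) moduleWR :
    Module ↥(W A) ↥(Algebra.adjoin ↥(W A) ({φ} : Set (FK0 A N))) := inferInstance
instance (priority := 5000) isScalarTowerWRF :
    IsScalarTower ↥(W A) ↥(Algebra.adjoin ↥(W A) ({φ} : Set (FK0 A N))) (FK0 A N) :=
  inferInstance
instance (priority := 5000) algebraRC :
    Algebra ↥(Algebra.adjoin ↥(W A) ({φ} : Set (FK0 A N))) ↥(chart ↥(W A) φ) := inferInstance
instance (priority := 5000) smulRC :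
    SMul ↥(Algebra.adjoin ↥(W A) ({φ} : Set (FK0 A N))) ↥(chart ↥(W A) φ) := inferInstance
instance (priority := 5000) moduleRC :
    Module ↥(Algebra.adjoin ↥(W A) ({φ} : Set (FK0 A N))) ↥(chart ↥(W A) φ) := inferInstance
instance (priority := 5000) isScalarTowerRCF :
    IsScalarTower ↥(Algebra.adjoin ↥(W A) ({φ} : Set (FK0 A N))) ↥(chart ↥(W A) φ) (FK0 A N) :=
  inferInstance
instance (priority := 5000) isScalarTowerWRC :
    IsScalarTower ↥(W A) ↥(Algebra.adjoin ↥(W A) ({φ} : Set (FK0 A N))) ↥(chart ↥(W A) φ) :=
  inferInstance

/-! ### the field `K0(φ)` -/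

instance (priority := 5000) algebraKKφ : Algebra ↥(K0 A) ↥(↥(K0 A))⟮φ⟯ := inferInstance
instance (priority := 5000) smulKKφ : SMul ↥(K0 A) ↥(↥(K0 A))⟮φ⟯ := inferInstance
instance (priority := 5000) moduleKKφ : Module ↥(K0 A) ↥(↥(K0 A))⟮φ⟯ := inferInstance
instance (priority := 5000) algebraKφF : Algebra ↥(↥(K0 A))⟮φ⟯ (FK0 A N) := inferInstance
instance (priority := 5000) smulKφF : SMul ↥(↥(K0 A))⟮φ⟯ (FK0 A N) := inferInstance
instance (priority := 5000) moduleKφF : Module ↥(↥(K0 A))⟮φ⟯ (FK0 A N) := inferInstance
instance (priority := 5000) isScalarTowerKKφF :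
    IsScalarTower ↥(K0 A) ↥(↥(K0 A))⟮φ⟯ (FK0 A N) := inferInstance

/-! ### the residue side: `k = ResidueField A` acting on `κ = F_k(N)`

(`S34.EulerX0.algResFk` is the same shortcut, but only as a `local instance` of the files that
activate it; every statement mentioning `GlueNorm.Datum k κ ..`, `ThreeValX0.Hyp I N q κ` or
`CompNormalX0.Base` at these types otherwise pays 2–4 s for this one query.) -/

section Residue

open IsLocalRing ModularCurve

variable (A) (N' : ℕ) [NeZero N']

instance (priority := 5000) algebraResFk :
    Algebra (ResidueField ↥A) ↥(modularFunctionFieldFullC (ResidueField ↥A) N') := inferInstance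
instance (priority := 5000) smulResFk :
    SMul (ResidueField ↥A) ↥(modularFunctionFieldFullC (ResidueField ↥A) N') := inferInstance
instance (priority := 5000) moduleResFk :
    Module (ResidueField ↥A) ↥(modularFunctionFieldFullC (ResidueField ↥A) N') := inferInstance

end Residue

end Fermat.Agent.S36.X0Shortcuts
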